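import Fermat.Prelude.Def_ModularCurve_HeckeOperatorTotal
import Mathlib
import Fermat.Prelude.Def_ModularCurve_ArithmeticGalois
import Fermat.Prelude.Def_ModularCurve_HeckeOperator
import Fermat.Statements.S24
import Mathlib.RingTheory.Ideal.AssociatedPrime.Localization
import Fermat.Prelude.Thm_ModularCurve_coeffMap_qExpand
import Fermat.Prelude.Def_AlgebraicCurve_Correspondence
import Fermat.Prelude.Def_ModularCurve_X0ModL
import Fermat.Prelude.Def_AlgebraicCurve_DivisorClassGroup
import Fermat.Prelude.Def_ModularCurve_LaurentCoeff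
import Fermat.Prelude.Def_GaloisRep_ComplexConjugation
import Fermat.Agent.Pack.S15.AE0L3
import Fermat.Agent.Pack.S15.AE1L1
import Fermat.Agent.Pack.S15.AE1L0
import Fermat.Agent.Pack.S15.AE3L2
import Fermat.Agent.Pack.S15.AE3L1
import Fermat.Agent.Pack.S15.AE3L0
import Fermat.Agent.Pack.S15.AE2L1
import Fermat.Agent.Pack.S15.AE1L3
import Fermat.Agent.Pack.S15.AE2L2
import Fermat.Agent.Pack.S15.AE2L0
import Fermat.Agent.Pack.S15.AE3L3
import Fermat.Agent.Pack.S15.AE0L1
import Fermat.Agent.Pack.S15.AE0L0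
import Fermat.Agent.Pack.S15.AE0L2
import Fermat.Agent.Pack.S15.AE1L2
import Fermat.Agent.Pack.S15.AE2L3

-- ===== PACK-BEGIN S24/Alg.lean
section





/-!
# S24 — algebraic side (Riemann–Hurwitz for `F / K(j)` from local embedding data)

Global assembly (helper984): the two frozen interface theorems
`exists_differential_ne_zero` and `degree_eq_of_localData`, proved from the sub-interface
in `Alg/Sub.lean`.
-/

set_option autoImplicit false

noncomputable section

open AlgebraicCurve KaehlerDifferential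

namespace Fermat.Agent.S24

variable {K F : Type*} [Field K] [Field F] [Algebra K F] [IsAlgClosed K] [CharZero K]
variable {C : Type*} [Field C] [CharZero C] {X : Type*} [Finite X]

omit [CharZero K] in
theorem exists_algebraMap_eq_of_isAlgebraic {x : F} (hx : IsAlgebraic K x) :
    ∃ c : K, algebraMap K F c = x := by
  have hint : IsIntegral K x := hx.isIntegral
  refine ⟨-(minpoly K x).coeff 0, ?_⟩
  have hq : (minpoly K x).leadingCoeff = 1 := minpoly.monic hint
  have h : (minpoly K x).degree = 1 :=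
    IsAlgClosed.degree_eq_one_of_irreducible K (minpoly.irreducible hint)
  have : Polynomial.aeval x (minpoly K x) = 0 := minpoly.aeval K x
  rw [Polynomial.eq_X_add_C_of_degree_eq_one h, hq, Polynomial.C_1, one_mul,
    Polynomial.aeval_add, Polynomial.aeval_X, Polynomial.aeval_C,
    add_eq_zero_iff_eq_neg] at this
  exact (map_neg (algebraMap K F) ((minpoly K x).coeff 0)).symm ▸ this.symm

omit [IsAlgClosed K] [CharZero K] [CharZero C] [Finite X] in
theorem not_mem_range_of_localData {t : F} [Nonempty X] (d : LocalData K F C X t) (c : K) :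
    t ≠ algebraMap K F c := by
  intro h
  obtain ⟨x⟩ := ‹Nonempty X›
  have h1 := d.σ_t_order x
  have h3 : d.σ x t = HahnSeries.C (d.ι c) := (congrArg (d.σ x) h).trans (d.σ_const x c)
  rw [h3] at h1
  have h2 : (HahnSeries.C (d.ι c) : LaurentSeries C).order = 0 := by
    rw [HahnSeries.C_apply]
    by_cases hc : d.ι c = 0
    · simp [hc]
    · exact HahnSeries.order_single hc
  rw [h2] at h1
  have := d.m_pos
  omega

omit [CharZero K] [CharZero C] [Finite X] in
theorem transcendental_of_localData_inv (j : F) [Nonempty X]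
    (dataInf : LocalData K F C X j⁻¹) : Transcendental K j := by
  intro halg
  obtain ⟨c, hc⟩ := exists_algebraMap_eq_of_isAlgebraic halg
  refine not_mem_range_of_localData dataInf c⁻¹ ?_
  rw [map_inv₀, hc]

omit [Finite X] in
theorem numOrbits_one : numOrbits (1 : Equiv.Perm X) = Nat.card X := by
  unfold numOrbits
  refine Nat.card_congr (Equiv.ofBijective (Quotient.mk'' (s₁ := MulAction.orbitRel _ X)) ?_).symm
  constructor
  · intro x y hxy
    have h := Quotient.exact' hxy
    change x ∈ MulAction.orbit _ y at h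
    obtain ⟨⟨g, hg⟩, hgx⟩ := h
    rw [Subgroup.zpowers_one_eq_bot, Subgroup.mem_bot] at hg
    subst hg
    simpa using hgx.symm
  · exact Quotient.mk''_surjective

end Fermat.Agent.S24

namespace Fermat.Agent.S24

variable {K F : Type*} [Field K] [Field F] [Algebra K F] [IsAlgClosed K] [CharZero K]
variable {C : Type*} [Field C] [CharZero C] {X : Type*} [Finite X]

omit [IsAlgClosed K] [CharZero K] [Finite X] in
/-- `dt ≠ 0` if there is local data at `t` (helper240). -/
theorem D_ne_zero_of_localData {t : F} [Nonempty X] (d : LocalData K F C X t) :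
    D K F t ≠ 0 := by
  obtain ⟨x⟩ := ‹Nonempty X›
  apply H240.exists_embDerivation (d.σ x) d.ι (d.σ_const x)
  apply H240.lsD_ne_zero_of_order_ne_zero
  rw [d.σ_t_order x]
  exact_mod_cast d.m_pos.ne'

omit [IsAlgClosed K] [CharZero K] [Finite X] in
/-- If `F` admits local data at `j⁻¹`, then `Ω[F/K] ≠ 0` (helper240). -/
theorem exists_differential_ne_zero (j : F) [Nonempty X]
    (dataInf : LocalData K F C X j⁻¹) :
    ∃ ω : Ω[F⁄K], ω ≠ 0 :=
  ⟨D K F j⁻¹, D_ne_zero_of_localData dataInf⟩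

section LocalConsequences

variable (t : F) [FiniteDimensional ↥(IntermediateField.adjoin K {t}) F]
  (hrank : Module.finrank ↥(IntermediateField.adjoin K {t}) F = Nat.card X)
  (d : LocalData K F C X t)

include hrank d in
theorem zeroPlaces_finite : (zeroPlaces K t).Finite := (sub_local_count t hrank d).1

include hrank in
theorem card_zeroPlaces_toFinset :
    ((zeroPlaces_finite t hrank d).toFinset.card : ℤ) = numOrbits d.perm := by
  have h := (sub_local_count t hrank d).2.1
  rw [Nat.card_coe_set_eq, Set.ncard_eq_toFinset_card _ (zeroPlaces_finite t hrank d)] at h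
  exact_mod_cast h

include hrank in
theorem sum_ord_zeroPlaces :
    ∑ v ∈ (zeroPlaces_finite t hrank d).toFinset, v.ord t = (Nat.card X : ℤ) := by
  have h := (sub_local_count t hrank d).2.2
  rwa [finsum_mem_eq_finite_toFinset_sum _ (zeroPlaces_finite t hrank d)] at h

include hrank in
theorem sum_ord_sub_one_zeroPlaces :
    ∑ v ∈ (zeroPlaces_finite t hrank d).toFinset, (v.ord t - 1)
      = (Nat.card X : ℤ) - numOrbits d.perm := by
  rw [Finset.sum_sub_distrib, sum_ord_zeroPlaces t hrank d, Finset.sum_const,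
    ← card_zeroPlaces_toFinset t hrank d]
  simp

include hrank in
theorem sum_neg_ord_sub_one_zeroPlaces :
    ∑ v ∈ (zeroPlaces_finite t hrank d).toFinset, (-(v.ord t) - 1)
      = -(Nat.card X : ℤ) - numOrbits d.perm := by
  rw [Finset.sum_sub_distrib, Finset.sum_neg_distrib, sum_ord_zeroPlaces t hrank d,
    Finset.sum_const, ← card_zeroPlaces_toFinset t hrank d]
  simp

include hrank in
/-- If the monodromy is trivial, `t` is unramified: every zero of `t` is simple. -/
theorem ord_eq_one_of_perm_eq_one (hperm : d.perm = 1) (v : Place K F) (hv : 0 < v.ord t) :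
    v.ord t = 1 := by
  have hsum := sum_ord_sub_one_zeroPlaces t hrank d
  rw [hperm, numOrbits_one, sub_self] at hsum
  have hnonneg : ∀ w ∈ (zeroPlaces_finite t hrank d).toFinset, 0 ≤ w.ord t - 1 := by
    intro w hw
    have : 0 < w.ord t := by simpa [zeroPlaces] using hw
    omega
  have hz := (Finset.sum_eq_zero_iff_of_nonneg hnonneg).mp hsum v
    (by simpa [zeroPlaces] using hv)
  omega

end LocalConsequences

section Global

variable (j : F) [FiniteDimensional ↥(IntermediateField.adjoin K {j}) F]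
  (hrank : Module.finrank ↥(IntermediateField.adjoin K {j}) F = Nat.card X)

include hrank in
/-- Local package at a finite point, with all instance transport done. -/
theorem local_fin (a : K) (d : LocalData K F C X (j - algebraMap K F a)) :
    ∃ Z : Finset (Place K F), (∀ v : Place K F, v ∈ Z ↔ 0 < v.ord (j - algebraMap K F a)) ∧
      ∑ v ∈ Z, (v.ord (j - algebraMap K F a) - 1) = (Nat.card X : ℤ) - numOrbits d.perm ∧
      (∀ v : Place K F, 0 < v.ord (j - algebraMap K F a) →
        v.ordDifferential (D K F (j - algebraMap K F a)) = v.ord (j - algebraMap K F a) - 1) ∧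
      (d.perm = 1 → ∀ v : Place K F, 0 < v.ord (j - algebraMap K F a) →
        v.ord (j - algebraMap K F a) = 1) := by
  obtain ⟨hfd, hfr⟩ := finiteDimensional_and_finrank_of_eq (adjoin_sub_algebraMap K j a)
  have hr := hfr.trans hrank
  refine ⟨(zeroPlaces_finite _ hr d).toFinset, fun v => by simp [zeroPlaces],
    sum_ord_sub_one_zeroPlaces _ hr d, fun v hv => sub_ordDifferential_D _ hr d v hv,
    fun h v hv => ord_eq_one_of_perm_eq_one _ hr d h v hv⟩

include hrank in
/-- Local package at infinity, with all instance transport done. -/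
theorem local_inf (d : LocalData K F C X j⁻¹) :
    ∃ Z : Finset (Place K F), (∀ v : Place K F, v ∈ Z ↔ 0 < v.ord j⁻¹) ∧
      ∑ v ∈ Z, (-(v.ord j⁻¹) - 1) = -(Nat.card X : ℤ) - numOrbits d.perm ∧
      (∀ v : Place K F, 0 < v.ord j⁻¹ → v.ordDifferential (D K F j⁻¹) = v.ord j⁻¹ - 1) := by
  obtain ⟨hfd, hfr⟩ := finiteDimensional_and_finrank_of_eq (adjoin_inv K j)
  have hr := hfr.trans hrank
  exact ⟨(zeroPlaces_finite _ hr d).toFinset, fun v => by simp [zeroPlaces],
    sum_neg_ord_sub_one_zeroPlaces _ hr d, fun v hv => sub_ordDifferential_D _ hr d v hv⟩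

omit [IsAlgClosed K] [CharZero K] in
theorem degree_eq_sum_of_deg_one (hdeg : ∀ v : Place K F, v.deg = 1) (E : Divisor K F)
    (T : Finset (Place K F)) (hT : E.support ⊆ T) :
    Divisor.degree E = ∑ v ∈ T, E v := by
  have h1 : Divisor.degree E = E.sum fun v n => n * (v.deg : ℤ) := by
    simp [Divisor.degree, Finsupp.liftAddHom_apply]
  rw [h1, Finsupp.sum_of_support_subset E hT _ (fun v _ => by simp)]
  refine Finset.sum_congr rfl fun v _ => ?_
  rw [hdeg v]; simp

include hrank in
/-- **Riemann–Hurwitz from embeddings.**  Degree of the divisor of any nonzero differential. -/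
theorem degree_eq_of_localData
    (dataFin : ∀ a : K, LocalData K F C X (j - algebraMap K F a))
    (dataInf : LocalData K F C X j⁻¹)
    (S₀ : Finset K) (hgen : ∀ a : K, a ∉ S₀ → (dataFin a).perm = 1)
    (ω : Ω[F⁄K]) (hω : ω ≠ 0) (E : Divisor K F)
    (hE : ∀ v : Place K F, E v = v.ordDifferential ω) :
    Divisor.degree E =
      (∑ a ∈ S₀, ((Nat.card X : ℤ) - numOrbits (dataFin a).perm))
        - Nat.card X - numOrbits dataInf.perm := by
  classical
  have hpos : 0 < Nat.card X := hrank ▸ Module.finrank_pos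
  have hne : Nonempty X := (Nat.card_pos_iff.mp hpos).1
  have hj : Transcendental K j := transcendental_of_localData_inv j dataInf
  have hj0 : j ≠ 0 := fun h => hj (h ▸ isAlgebraic_zero)
  have hdeg : ∀ v : Place K F, v.deg = 1 := sub_deg_eq_one j hj
  -- `ω = f • dj`
  obtain ⟨f, rfl⟩ := sub_exists_smul_D j ω
  have hf : f ≠ 0 := by rintro rfl; simp at hω
  have hDinv : D K F j = (-(j ^ 2)) • D K F j⁻¹ := by
    have h := Derivation.leibniz_inv (D K F) (j⁻¹)
    rw [inv_inv] at h
    exact h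
  have hDjinv : D K F j⁻¹ ≠ 0 := D_ne_zero_of_localData dataInf
  have hc : (-(j ^ 2)) ≠ 0 := neg_ne_zero.mpr (pow_ne_zero 2 hj0)
  have hDj : D K F j ≠ 0 := by
    rw [hDinv]
    exact smul_ne_zero hc hDjinv
  -- local packages
  choose Zf hZf_mem hZf_sum hZf_ord hZf_unr using fun a => local_fin j hrank a (dataFin a)
  obtain ⟨Zi, hZi_mem, hZi_sum, hZi_ord⟩ := local_inf j hrank dataInf
  -- the ramification function
  set R : Place K F → ℤ := fun v => v.ordDifferential (D K F j) with hR
  have hDv : ∀ v : Place K F, E v = v.ord f + R v := fun v => by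
    rw [hE, sub_ordDifferential_smul j v f hf _ hDj]
  have hRfin : ∀ (a : K) (v : Place K F), 0 < v.ord (j - algebraMap K F a) →
      R v = v.ord (j - algebraMap K F a) - 1 := by
    intro a v hv
    have : D K F (j - algebraMap K F a) = D K F j := by simp
    rw [← hZf_ord a v hv, this]
  have hRinf : ∀ v : Place K F, 0 < v.ord j⁻¹ → R v = -(v.ord j⁻¹) - 1 := by
    intro v hv
    show v.ordDifferential (D K F j) = _
    rw [hDinv, sub_ordDifferential_smul j v _ hc _ hDjinv, hZi_ord v hv, ord_neg, pow_two,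
      v.ord_mul hj0 hj0]
    have := v.ord_inv j
    omega
  -- the finite set of special places
  set T : Finset (Place K F) := S₀.biUnion Zf ∪ Zi with hT
  have hRT : ∀ v : Place K F, R v ≠ 0 → v ∈ T := by
    intro v hv
    rcases sub_exists_point j v with h | ⟨a, ha⟩
    · refine Finset.mem_union_right _ ((hZi_mem v).mpr ?_)
      have := v.ord_inv j
      omega
    · by_cases haS : a ∈ S₀
      · exact Finset.mem_union_left _ (Finset.mem_biUnion.mpr ⟨a, haS, (hZf_mem a v).mpr ha⟩)
      · exfalso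
        apply hv
        rw [hRfin a v ha, hZf_unr a (hgen a haS) v ha]
        simp
  let Rfs : Divisor K F := Finsupp.onFinset T R hRT
  have hRfs : ∀ v : Place K F, Rfs v = R v := fun v => rfl
  have hprinc : Divisor.degree (E - Rfs) = 0 :=
    sub_degree_principal j hj f hf (E - Rfs) fun v => by
      rw [Finsupp.sub_apply, hRfs, hDv]; ring
  have hsplit : Divisor.degree E = Divisor.degree Rfs := by
    have := map_sub (Divisor.degree (K := K) (F := F)) E Rfs
    rw [hprinc] at this
    linarith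
  rw [hsplit, degree_eq_sum_of_deg_one hdeg Rfs T Finsupp.support_onFinset_subset]
  simp only [hRfs]
  -- split the sum
  have hdisj1 : Disjoint (S₀.biUnion Zf) Zi := by
    rw [Finset.disjoint_left]
    intro v hv hvi
    obtain ⟨a, -, hva⟩ := Finset.mem_biUnion.mp hv
    exact not_pos_ord_sub_of_pos_ord_inv v j a ((hZi_mem v).mp hvi) ((hZf_mem a v).mp hva)
  have hdisj2 : (S₀ : Set K).PairwiseDisjoint Zf := by
    intro a _ b _ hab
    rw [Function.onFun, Finset.disjoint_left]
    intro v hva hvb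
    exact hab (point_unique v j ((hZf_mem a v).mp hva) ((hZf_mem b v).mp hvb))
  rw [hT, Finset.sum_union hdisj1, Finset.sum_biUnion hdisj2]
  have h1 : ∀ a ∈ S₀, ∑ v ∈ Zf a, R v = (Nat.card X : ℤ) - numOrbits (dataFin a).perm := by
    intro a _
    rw [← hZf_sum a]
    exact Finset.sum_congr rfl fun v hv => hRfin a v ((hZf_mem a v).mp hv)
  have h2 : ∑ v ∈ Zi, R v = -(Nat.card X : ℤ) - numOrbits dataInf.perm := by
    rw [← hZi_sum]
    exact Finset.sum_congr rfl fun v hv => hRinf v ((hZi_mem v).mp hv)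
  rw [Finset.sum_congr rfl h1, h2]
  ring

end Global

end Fermat.Agent.S24

end
end
-- ===== PACK-END S24/Alg.lean

-- ===== PACK-BEGIN S24/Mod.lean
section




/-!
# S24 — modular side: local embedding data for the function field of `X₀(N)`

INTERFACE FILE (statements frozen by helper984 @4630f4b).

Proof: helper997's assembly `H997.AnalyticCore.modularPackage_fields` applied to
* the concrete analytic core `H997.analyticCore N` (`Mod/H997HolBase.lean`: helper384's
  expansions at `∞`, helper624's Taylor expansions, helper47's local orders of `j`, helper264's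
  `q`-expansion of `j`), and
* the degree bound `Deg457.degree_fields N` (helper457 / helper648 / helper708).
-/

set_option autoImplicit false

noncomputable section

open AlgebraicCurve ModularCurve
open scoped MatrixGroups

namespace Fermat.Agent.S24

/-- Everything the algebraic side needs to know about `F = ℚ̄(j(q^d) : d ∣ N)`. -/
structure ModularPackage (N : ℕ) [NeZero N] where
  finiteDimensional :
    FiniteDimensional ↥(IntermediateField.adjoin Kbar {jF N}) (FF N)
  finrank_eq :
    Module.finrank ↥(IntermediateField.adjoin Kbar {jF N}) (FF N) = Nat.card (XX N)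
  dataFin : ∀ a : Kbar, LocalData Kbar (FF N) ℂ (XX N) (jF N - algebraMap Kbar (FF N) a)
  dataInf : LocalData Kbar (FF N) ℂ (XX N) (jF N)⁻¹
  perm_generic : ∀ a : Kbar, a ≠ 0 → a ≠ 1728 → (dataFin a).perm = 1
  orbits_zero :
    numOrbits (dataFin 0).perm = numOrbits (permOf N (ModularGroup.S * ModularGroup.T))
  orbits_1728 : numOrbits (dataFin 1728).perm = numOrbits (permOf N ModularGroup.S)
  orbits_inf : numOrbits dataInf.perm = numOrbits (permOf N ModularGroup.T)

theorem nonempty_modularPackage (N : ℕ) [NeZero N] : Nonempty (ModularPackage N) := by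
  obtain ⟨hfd, hle⟩ := Deg457.degree_fields N
  obtain ⟨dF, dI, h1, h2, h3, h4, h5⟩ := (H997.analyticCore N).modularPackage_fields hfd hle
  exact ⟨⟨hfd, h1, dF, dI, h2, h3, h4, h5⟩⟩

end Fermat.Agent.S24

end
end
-- ===== PACK-END S24/Mod.lean

-- ===== PACK-BEGIN Lib/RR/H804/Modular.lean
section




/-!
# RR library, bridge: `FF1` for the function field of `X₀(N)` over `ℚ̄`  (helper804)

Inputs: the modular package of S24 (`j` is transcendental and `F` is finite over `ℚ̄(j)`).
-/

set_option autoImplicit false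

noncomputable section

open AlgebraicCurve IntermediateField ModularCurve

namespace Fermat.Agent.Lib.RR.H804

open Fermat.Agent.S24

variable (N : ℕ) [NeZero N]

/-- `j` is transcendental over `ℚ̄` in the function field of `X₀(N)`. -/
theorem transcendental_jF : Transcendental Kbar (jF N) := by
  obtain ⟨P⟩ := nonempty_modularPackage N
  exact transcendental_of_localData_inv (jF N) P.dataInf

/-- The function field of `X₀(N)` is finite over `ℚ̄(j)`. -/
theorem finiteDimensional_jF : FiniteDimensional Kbar⟮jF N⟯ (FF N) :=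
  (nonempty_modularPackage N).some.finiteDimensional

/-- `[ℚ̄(X₀(N)) : ℚ̄(j)] = [SL₂(ℤ) : Γ₀(N)]`. -/
theorem finrank_jF : Module.finrank Kbar⟮jF N⟯ (FF N) = Nat.card (XX N) :=
  (nonempty_modularPackage N).some.finrank_eq

/-- **Bridge**: the standing hypotheses of the RR library hold for `ℚ̄(X₀(N))`. -/
instance ff1_modular : FF1 (AlgebraicClosure ℚ) ↥(modularFunctionFieldBar N) :=
  haveI := finiteDimensional_jF N
  ff1 (transcendental_jF N)

/-- Principal divisors of `ℚ̄(X₀(N))` exist and have degree zero. -/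
instance hasPrincipalDivisors_modular :
    HasPrincipalDivisors (AlgebraicClosure ℚ) ↥(modularFunctionFieldBar N) :=
  haveI := finiteDimensional_jF N
  hasPrincipalDivisors (transcendental_jF N)

/-- Every place of `ℚ̄(X₀(N))` has degree one. -/
theorem deg_eq_one_modular (v : Place (AlgebraicClosure ℚ) ↥(modularFunctionFieldBar N)) :
    v.deg = 1 :=
  haveI := finiteDimensional_jF N
  FF.deg_eq_one v (transcendental_jF N)

/-- Residue fields of places of `ℚ̄(X₀(N))` are finite over `ℚ̄`. -/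
instance finite_residueField_modular
    (v : Place (AlgebraicClosure ℚ) ↥(modularFunctionFieldBar N)) :
    Module.Finite (AlgebraicClosure ℚ) v.ResidueField :=
  haveI := finiteDimensional_jF N
  finite_residueField (transcendental_jF N) v

end Fermat.Agent.Lib.RR.H804

end
end
-- ===== PACK-END Lib/RR/H804/Modular.lean

-- ===== PACK-BEGIN Lib/RR/H864/FF1Modular.lean
section



/-!
# RR library, bridge: `FF1` for the function field of `X₀(N)` over `ℚ̄`
-/

set_option autoImplicit false

noncomputable section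

open AlgebraicCurve ModularCurve IntermediateField

namespace Fermat.Agent.Lib.RR.H864

open Fermat.Agent.S24 in
theorem jF_not_mem_range (N : ℕ) [NeZero N] :
    jF N ∉ (algebraMap Kbar (FF N)).range := by
  rintro ⟨c, hc⟩
  have h1 : ((algebraMap Kbar (FF N) c : FF N) : LaurentSeries Kbar).coeff (-1)
      = ((jF N : FF N) : LaurentSeries Kbar).coeff (-1) := by rw [hc]
  have h2 : ((algebraMap Kbar (FF N) c : FF N) : LaurentSeries Kbar)
      = algebraMap Kbar (LaurentSeries Kbar) c := rfl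
  rw [h2, algebraMap_laurentSeries_eq_single] at h1
  have h3 : ((jF N : FF N) : LaurentSeries Kbar) = coeffEmb Kbar jq := rfl
  rw [h3, coeffEmb_coeff, coeff_jq_neg_one, map_one,
    HahnSeries.coeff_single_of_ne (by norm_num)] at h1
  exact zero_ne_one h1

open Fermat.Agent.S24 in
theorem transcendental_jF (N : ℕ) [NeZero N] : Transcendental Kbar (jF N) :=
  FF.transcendental_of_not_mem_range (jF_not_mem_range N)

open Fermat.Agent.S24 in
/-- **`FF1` for the modular function field** `ℚ̄(j(q^d) : d ∣ N)`. -/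
theorem ff1_modularFunctionFieldBar (N : ℕ) [NeZero N] :
    FF1 (AlgebraicClosure ℚ) ↥(modularFunctionFieldBar N) := by
  obtain ⟨P⟩ := nonempty_modularPackage N
  haveI := P.finiteDimensional
  exact ff1 (jF N) (transcendental_jF N)

/-- The modular function field has principal divisors. -/
theorem hasPrincipalDivisors_modularFunctionFieldBar (N : ℕ) [NeZero N] :
    HasPrincipalDivisors (AlgebraicClosure ℚ) ↥(modularFunctionFieldBar N) :=
  (ff1_modularFunctionFieldBar N).hpd

end Fermat.Agent.Lib.RR.H864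

end
end
-- ===== PACK-END Lib/RR/H864/FF1Modular.lean

-- ===== PACK-BEGIN Lib/X0Deg/Basic.lean
section




/-!
# Shared library X0DEG (helper760): relative degrees of the function fields `ℚ̄(X₀(M))`

All fields are the Prelude fields `modularFunctionFieldBar M ⊆ ℚ̄((q))`.

* `relfinrank_JB`      : `[F̄_N : ℚ̄(j)] = ψ(N)` in ambient (`IntermediateField.relfinrank`) form;
* `relfinrank_mul_psi` : `N ∣ M → [F̄_M : F̄_N] * ψ(N) = ψ(M)`;
* `finrankAlong_inclusion`, `finrankAlong_heckeAlphaBar_mul_psi`,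
  `finrankAlong_heckeAlphaBar_of_not_dvd` (`= ℓ + 1`), `finrankAlong_heckeAlphaBar_of_dvd` (`= ℓ`),
  `finiteAlong_heckeAlphaBar` : the same for the Prelude degeneracy map `heckeAlphaBar`.

Input: landed S24 (`nonempty_modularPackage`, `card_XX`) and S20 (`dedekindPsi` arithmetic).
-/

set_option autoImplicit false

noncomputable section

open ModularCurve AlgebraicCurve IntermediateField
open Fermat.Agent.S24

namespace Fermat.Agent.Lib.X0Deg

/-- The `j`-function as a Laurent series over `ℚ̄`. -/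
def jB : LaurentSeries Kbar := coeffEmb Kbar jq

/-- `j(q^d)` as a Laurent series over `ℚ̄`. -/
def jBd (d : ℕ) [NeZero d] : LaurentSeries Kbar := coeffEmb Kbar (qExpand ℚ d jq)

/-- `ℚ̄(j)` as an intermediate field of `ℚ̄((q))/ℚ̄`. -/
def JB : IntermediateField Kbar (LaurentSeries Kbar) := adjoin Kbar {jB}

theorem jBd_mem {d M : ℕ} [NeZero d] (hd : d ∣ M) : jBd d ∈ modularFunctionFieldBar M :=
  coeffEmb_mem_laurentBaseChange Kbar (jqd_mem_full M hd)

theorem jB_mem (M : ℕ) [NeZero M] : jB ∈ modularFunctionFieldBar M :=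
  coeffEmb_mem_laurentBaseChange Kbar (modularFunctionField_le_full M (jq_mem M))

theorem jBd_one : jBd 1 = jB := by
  simp [jBd, jB, qExpand_one_apply]

theorem JB_le (M : ℕ) [NeZero M] : JB ≤ modularFunctionFieldBar M := by
  rw [JB, adjoin_le_iff]
  rintro x hx
  rw [Set.mem_singleton_iff] at hx
  subst hx
  exact jB_mem M

/-- Monotonicity of the Prelude function fields in the level. -/
theorem modularFunctionFieldBar_mono {N M : ℕ} [NeZero N] [NeZero M] (h : N ∣ M) :
    modularFunctionFieldBar N ≤ modularFunctionFieldBar M := by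
  show laurentBaseChange Kbar _ ≤ laurentBaseChange Kbar _
  rw [laurentBaseChange, adjoin_le_iff]
  rintro _ ⟨y, hy, rfl⟩
  exact coeffEmb_mem_laurentBaseChange Kbar (full_degeneracy_le h hy)

theorem val_jF (N : ℕ) [NeZero N] : ((jF N : FF N) : LaurentSeries Kbar) = jB := rfl

theorem comap_val_JB (N : ℕ) [NeZero N] :
    JB.comap (modularFunctionFieldBar N).val = adjoin Kbar {jF N} := by
  have h1 : (adjoin Kbar {jF N}).map (modularFunctionFieldBar N).val = JB := by
    rw [adjoin_map, Set.image_singleton]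
    rfl
  rw [← h1]
  exact comap_map _ _

/-- `[F̄_N : ℚ̄(j)] = ψ(N)`. -/
theorem relfinrank_JB (N : ℕ) [NeZero N] :
    JB.relfinrank (modularFunctionFieldBar N) = dedekindPsi N := by
  obtain ⟨P⟩ := nonempty_modularPackage N
  have h1 := relfinrank_comap JB (modularFunctionFieldBar N).val ⊤
  rw [relfinrank_top_right, ← AlgHom.fieldRange_eq_map, fieldRange_val] at h1
  rw [← h1, ← card_XX N, ← P.finrank_eq]
  rw [comap_val_JB]

theorem dedekindPsi_pos (N : ℕ) [NeZero N] : 0 < dedekindPsi N := by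
  rw [← card_XX N]
  exact Nat.card_pos

/-- `N ∣ M → [F̄_M : F̄_N] * ψ(N) = ψ(M)`. -/
theorem relfinrank_mul_psi {N M : ℕ} [NeZero N] [NeZero M] (h : N ∣ M) :
    (modularFunctionFieldBar N).relfinrank (modularFunctionFieldBar M) * dedekindPsi N
      = dedekindPsi M := by
  have := relfinrank_mul_relfinrank (JB_le N) (modularFunctionFieldBar_mono h)
  rw [relfinrank_JB, relfinrank_JB] at this
  rw [mul_comm]
  exact this

end Fermat.Agent.Lib.X0Deg

end
end
-- ===== PACK-END Lib/X0Deg/Basic.lean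

-- ===== PACK-BEGIN S29/H882/MeroMain.lean
section




/-!
# S29 / MERO (helper882), part 3: good functions have `q`-expansions in the function field

Main result `qexpFun_mem_FC`: for `f` holomorphic on `ℍ`, `Γ₀(N)`-invariant, with all
`SL₂(ℤ)`-translates of at most exponential growth at `i∞` (i.e. `f ∈ S24.H648.goodRing N`), the
`q`-expansion of `f` lies in `laurentBaseChange ℂ (modularFunctionFieldFull N)`, the function field
of `X₀(N)` over `ℂ` of the Prelude.

Proof: the field `MC N` generated by all such `q`-expansions has degree `≤ [SL₂(ℤ):Γ₀(N)]` over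
`ℂ(j)` (conjugate product, landed S24), and contains `FC N`, which has degree `≥ [SL₂(ℤ):Γ₀(N)]`
(landed S24 over `ℚ̄`, transported to `ℂ` by descent of relations).
-/

set_option autoImplicit false

noncomputable section

open UpperHalfPlane ModularGroup CongruenceSubgroup Polynomial ModularCurve IntermediateField
open scoped MatrixGroups Manifold Modular Real

namespace Fermat.Agent.S29.H882

open Fermat.Agent.S24 Fermat.Agent.S24.H648 Fermat.Agent.S24.H708 Fermat.Agent.S24.Deg457

section BaseChange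

variable {K L : Type*} [Field K] [Algebra ℚ K] [Field L] [Algebra ℚ L]

/-- `coeffMap ι` maps the function field over `K` into the function field over `L`. -/
theorem coeffMap_mem_laurentBaseChange_of_mem (ι : K →+* L)
    (F₀ : IntermediateField ℚ (LaurentSeries ℚ)) {x : LaurentSeries K}
    (hx : x ∈ laurentBaseChange K F₀) : coeffMap ι x ∈ laurentBaseChange L F₀ := by
  rw [mem_laurentBaseChange_iff] at hx
  induction hx using Subfield.closure_induction with
  | mem y hy =>
      rcases hy with ⟨a, rfl⟩ | ⟨z, hz, rfl⟩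
      · rw [coeffMap_algebraMap']
        exact (laurentBaseChange L F₀).algebraMap_mem _
      · rw [coeffMap_coeffEmb']
        exact coeffEmb_mem_laurentBaseChange L hz
  | one => simp
  | add x y _ _ hx hy => simpa using add_mem hx hy
  | neg x _ hx => simpa using neg_mem hx
  | inv x _ hx => simpa using inv_mem hx
  | mul x y _ _ hx hy => simpa using mul_mem hx hy

end BaseChange

variable (N : ℕ) [NeZero N]

/-- The function field of `X₀(N)` over `ℂ` (Prelude object). -/
abbrev FC : IntermediateField ℂ (LaurentSeries ℂ) :=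
  laurentBaseChange ℂ (modularFunctionFieldFull N)

/-- The field generated by the `q`-expansions of good functions. -/
def MC : IntermediateField ℂ (LaurentSeries ℂ) :=
  IntermediateField.adjoin ℂ (goodQ N : Set (LaurentSeries ℂ))

theorem goodQ_le_MC {b : LaurentSeries ℂ} (hb : b ∈ goodQ N) : b ∈ MC N :=
  IntermediateField.subset_adjoin ℂ _ hb

theorem JK_mem_FC : JK ℂ ∈ FC N :=
  coeffEmb_mem_laurentBaseChange ℂ (modularFunctionField_le_full N (jq_mem N))

theorem FC_le_MC : FC N ≤ MC N := by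
  refine (laurentBaseChange_full_le (K := ℂ) N).trans ?_
  refine IntermediateField.adjoin.mono ℂ _ _ ?_
  intro b hb
  exact AK_le_goodQ N (Algebra.subset_adjoin hb)

/-- `j` as an element of `MC N`. -/
def jM : MC N := ⟨JK ℂ, goodQ_le_MC N (JK_mem_goodQ N)⟩

theorem aeval_jM_ne_zero {t : ℂ[X]} (ht : t ≠ 0) :
    aeval (AdjoinSimple.gen ℂ (jM N)) t ≠ 0 := by
  intro h0
  apply aeval_JK_ne_zero ℂ ht
  have h1 := congrArg (algebraMap ↥(IntermediateField.adjoin ℂ {jM N}) (MC N)) h0
  rw [← aeval_algebraMap_apply, map_zero, AdjoinSimple.algebraMap_gen] at h1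
  have h2 := congrArg (algebraMap (MC N) (LaurentSeries ℂ)) h1
  rw [← aeval_algebraMap_apply, map_zero] at h2
  exact h2

theorem algebraMap_comp_aeval_jM :
    (algebraMap (MC N) (LaurentSeries ℂ)).comp
      ((aeval (jM N) : ℂ[X] →ₐ[ℂ] MC N).toRingHom) = evJ (JK ℂ) := by
  refine Polynomial.ringHom_ext ?_ ?_
  · intro c
    simp [evJ, ← IsScalarTower.algebraMap_apply]
  · simp [evJ]
    rfl

/-- **Degree bound**: `[MC N : ℂ(j)] ≤ [SL₂(ℤ) : Γ₀(N)]`. -/
theorem finiteDimensional_and_finrank_le_MC :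
    FiniteDimensional ↥(IntermediateField.adjoin ℂ {jM N}) (MC N) ∧
      Module.finrank ↥(IntermediateField.adjoin ℂ {jM N}) (MC N) ≤ Nat.card (XX N) := by
  refine finiteDimensional_and_finrank_le_of_forall_natDegree_minpoly_le _ fun x => ?_
  obtain ⟨Q, hQ0, hQn, hQ⟩ := algDeg_of_mem_adjoin (goodQ N) (JK_mem_goodQ N)
    (fun b hb => algDeg_of_mem_goodQ hb) x.2
  have hinc : Function.Injective (algebraMap (MC N) (LaurentSeries ℂ)) :=
    (algebraMap (MC N) (LaurentSeries ℂ)).injective
  refine isIntegral_and_natDegree_le_of_relation (K := ℂ)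
    (AdjoinSimple.gen ℂ (jM N)) (fun t ht => aeval_jM_ne_zero N ht) x Q hQ0 _ hQn ?_
  apply hinc
  rw [map_zero, Polynomial.hom_eval₂, AdjoinSimple.algebraMap_gen, algebraMap_comp_aeval_jM]
  exact hQ

end Fermat.Agent.S29.H882

end
end
-- ===== PACK-END S29/H882/MeroMain.lean

-- ===== PACK-BEGIN A2/H528/Fricke.lean
section


/-!
# A2 / W — the Fricke (Atkin–Lehner) involution `w_N` of the function field of `X₀(N)`

* `fricke N τ = -1/(Nτ)` on `ℍ`, `Jd d ∘ fricke N = Jd (N/d)` for `d ∣ N`;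
* `wR N : RN N →+* RN N`, the induced involution of `ℚ̄[j(q^d) : d ∣ N] ⊆ ℚ̄((q))`
  (`j(q^d) ↦ j(q^{N/d})`, identity on the constants);
* `wF N : FF N ≃ₐ[ℚ̄] FF N`, its extension to `FF N = modularFunctionFieldBar N`.
-/

set_option autoImplicit false

noncomputable section

open ModularCurve HahnSeries UpperHalfPlane
open scoped MatrixGroups

namespace Fermat.Agent.A2.H528

open Fermat.Agent.S24 Fermat.Agent.S24.H997

variable (N : ℕ) [NeZero N]

/-- The Fricke map `τ ↦ -1/(Nτ)` of the upper half plane. -/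
def fricke (τ : ℍ) : ℍ := ModularGroup.S • infAff N 0 1 τ

theorem fricke_coe (τ : ℍ) : (fricke N τ : ℂ) = -1 / ((N : ℂ) * τ) := by
  have hN : 0 < N := Nat.pos_of_ne_zero (NeZero.ne N)
  rw [fricke, UpperHalfPlane.modular_S_smul]
  show (-(infAff N 0 1 τ : ℂ))⁻¹ = _
  rw [infAff_coe hN one_pos]
  simp only [Int.cast_zero, add_zero, Nat.cast_one, div_one]
  rw [inv_neg, neg_div, one_div]

theorem fricke_fricke (τ : ℍ) : fricke N (fricke N τ) = τ := by
  apply UpperHalfPlane.ext
  rw [fricke_coe, fricke_coe]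
  have hN : (N : ℂ) ≠ 0 := by exact_mod_cast NeZero.ne N
  have hτ : (τ : ℂ) ≠ 0 := UpperHalfPlane.ne_zero τ
  field_simp

theorem Jd_fricke {d : ℕ} (hd : d ∣ N) (τ : ℍ) : Jd d (fricke N τ) = Jd (N / d) τ := by
  have hN : 0 < N := Nat.pos_of_ne_zero (NeZero.ne N)
  have hd0 : 0 < d := Nat.pos_of_dvd_of_pos hd hN
  have hd1 : 0 < N / d := Nat.div_pos (Nat.le_of_dvd hN hd) hd0
  have key : infAff d 0 1 (fricke N τ) = ModularGroup.S • infAff (N / d) 0 1 τ := by
    apply UpperHalfPlane.ext
    rw [infAff_coe hd0 one_pos, fricke_coe, UpperHalfPlane.modular_S_smul]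
    show _ = (-(infAff (N / d) 0 1 τ : ℂ))⁻¹
    rw [infAff_coe hd1 one_pos]
    have hNd : (N : ℂ) = (d : ℂ) * ((N / d : ℕ) : ℂ) := by
      rw [← Nat.cast_mul, Nat.mul_div_cancel' hd]
    have hdc : (d : ℂ) ≠ 0 := by exact_mod_cast hd0.ne'
    have hd1c : ((N / d : ℕ) : ℂ) ≠ 0 := by exact_mod_cast hd1.ne'
    have hτ : (τ : ℂ) ≠ 0 := UpperHalfPlane.ne_zero τ
    rw [hNd]
    simp only [Int.cast_zero, add_zero, Nat.cast_one, div_one]
    field_simp
  unfold Jd
  rw [key, jFun_smul']

/-- Precomposition with the Fricke map, as a ring endomorphism of `ℍ → ℂ`. -/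
def compW : (ℍ → ℂ) →+* (ℍ → ℂ) where
  toFun f := fun τ => f (fricke N τ)
  map_one' := rfl
  map_mul' _ _ := rfl
  map_zero' := rfl
  map_add' _ _ := rfl

omit [NeZero N] in
@[simp] theorem compW_apply (f : ℍ → ℂ) (τ : ℍ) : compW N f τ = f (fricke N τ) := rfl

theorem compW_compW (f : ℍ → ℂ) : compW N (compW N f) = f := by
  funext τ
  simp [fricke_fricke]

/-- The analytic realisation `R_N → (ℍ → ℂ)` of the polynomial ring. -/
def toFun : RN N →+* (ℍ → ℂ) := (holBase N).Hol.subtype.comp (holBase N).bridge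

theorem toFun_injective : Function.Injective (toFun N) := by
  intro r r' h
  exact (holBase N).bridge_injective (Subtype.ext h)

theorem toFun_jR (d : ℕ) [NeZero d] (hd : d ∣ N) : toFun N (jR N d hd) = Jd d := by
  show (((holBase N).bridge (jR N d hd) : (holBase N).Hol) : ℍ → ℂ) = _
  rw [(holBase N).bridge_jR d hd]
  rfl

theorem toFun_algebraMap (c : Kbar) :
    toFun N (algebraMap Kbar (RN N) c) = fun _ => ιK c := by
  show (((holBase N).bridge (algebraMap Kbar (RN N) c) : (holBase N).Hol) : ℍ → ℂ) = _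
  rw [(holBase N).bridge_algebraMap c]
  rfl

theorem neZero_div {d : ℕ} (hd : d ∣ N) : NeZero (N / d) := by
  have hN : 0 < N := Nat.pos_of_ne_zero (NeZero.ne N)
  have hd0 : 0 < d := Nat.pos_of_dvd_of_pos hd hN
  exact ⟨(Nat.div_pos (Nat.le_of_dvd hN hd) hd0).ne'⟩

theorem compW_toFun_mem (r : RN N) : compW N (toFun N r) ∈ (toFun N).range := by
  obtain ⟨r, hr⟩ := r
  induction hr using Algebra.adjoin_induction with
  | mem x hx =>
      obtain ⟨y, ⟨d, hne, hd, rfl⟩, rfl⟩ := hx
      have := hne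
      have := neZero_div N hd
      have h1 : (⟨coeffEmb Kbar (qExpand ℚ d jq), Algebra.subset_adjoin
          ⟨_, ⟨d, hne, hd, rfl⟩, rfl⟩⟩ : RN N) = jR N d hd := rfl
      rw [h1, toFun_jR]
      refine ⟨jR N (N / d) (Nat.div_dvd_of_dvd hd), ?_⟩
      rw [toFun_jR]
      funext τ
      exact (Jd_fricke N hd τ).symm
  | algebraMap c =>
      have h1 : (⟨algebraMap Kbar (LaurentSeries Kbar) c, Subalgebra.algebraMap_mem _ c⟩ : RN N)
          = algebraMap Kbar (RN N) c := rfl
      rw [h1, toFun_algebraMap]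
      exact ⟨algebraMap Kbar (RN N) c, toFun_algebraMap N c⟩
  | add x y hx hy ihx ihy =>
      have h1 : (⟨x + y, add_mem hx hy⟩ : RN N) = ⟨x, hx⟩ + ⟨y, hy⟩ := rfl
      rw [h1, map_add, map_add]
      exact add_mem ihx ihy
  | mul x y hx hy ihx ihy =>
      have h1 : (⟨x * y, mul_mem hx hy⟩ : RN N) = ⟨x, hx⟩ * ⟨y, hy⟩ := rfl
      rw [h1, map_mul, map_mul]
      exact mul_mem ihx ihy

/-- `R_N ≃ range toFun`. -/
def toFunEquiv : RN N ≃+* (toFun N).range :=
  RingEquiv.ofBijective (toFun N).rangeRestrict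
    ⟨fun x y h => by
      have h' : ((toFun N).rangeRestrict x : ℍ → ℂ) = ((toFun N).rangeRestrict y : ℍ → ℂ) := by
        rw [h]
      exact toFun_injective N h', (toFun N).rangeRestrict_surjective⟩

/-- **The Fricke involution on `R_N = ℚ̄[j(q^d) : d ∣ N]`.** -/
def wR : RN N →+* RN N :=
  ((toFunEquiv N).symm : (toFun N).range →+* RN N).comp
    (((compW N).comp (toFun N)).codRestrict (toFun N).range fun r => compW_toFun_mem N r)

theorem toFun_wR (r : RN N) : toFun N (wR N r) = compW N (toFun N r) := by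
  have h := (toFunEquiv N).apply_symm_apply
    ((((compW N).comp (toFun N)).codRestrict (toFun N).range
      fun r => compW_toFun_mem N r) r)
  exact congrArg Subtype.val h

theorem wR_wR (r : RN N) : wR N (wR N r) = r := by
  apply toFun_injective N
  rw [toFun_wR, toFun_wR, compW_compW]

theorem wR_injective : Function.Injective (wR N) :=
  Function.LeftInverse.injective (wR_wR N)

theorem wR_algebraMap (c : Kbar) : wR N (algebraMap Kbar (RN N) c) = algebraMap Kbar (RN N) c := by
  apply toFun_injective N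
  rw [toFun_wR, toFun_algebraMap]
  rfl

theorem wR_jR (d : ℕ) [NeZero d] (hd : d ∣ N) :
    haveI := neZero_div N hd
    wR N (jR N d hd) = jR N (N / d) (Nat.div_dvd_of_dvd hd) := by
  have := neZero_div N hd
  apply toFun_injective N
  rw [toFun_wR, toFun_jR, toFun_jR]
  funext τ
  exact Jd_fricke N hd τ

/-- The Fricke involution on `FF N`, as a ring homomorphism. -/
def wFHom : FF N →+* FF N :=
  liftF ((inclRN N).toRingHom.comp (wR N))
    ((inclRN_injective N).comp (wR_injective N))

theorem wFHom_inclRN (r : RN N) : wFHom N (inclRN N r) = inclRN N (wR N r) :=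
  liftF_inclRN _ _ r

theorem wFHom_wFHom (f : FF N) : wFHom N (wFHom N f) = f := by
  obtain ⟨r, t, -, rfl⟩ := exists_div_inclRN N f
  rw [map_div₀, map_div₀, wFHom_inclRN, wFHom_inclRN, wFHom_inclRN, wFHom_inclRN, wR_wR, wR_wR]

theorem wFHom_algebraMap (c : Kbar) :
    wFHom N (algebraMap Kbar (FF N) c) = algebraMap Kbar (FF N) c := by
  have h : algebraMap Kbar (FF N) c = inclRN N (algebraMap Kbar (RN N) c) :=
    ((inclRN N).commutes c).symm
  rw [h, wFHom_inclRN, wR_algebraMap]

/-- **The Fricke involution `w_N` of the function field of `X₀(N)` over `ℚ̄`.** -/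
def wF : FF N ≃ₐ[Kbar] FF N :=
  AlgEquiv.ofAlgHom
    { toRingHom := wFHom N, commutes' := wFHom_algebraMap N }
    { toRingHom := wFHom N, commutes' := wFHom_algebraMap N }
    (AlgHom.ext fun f => wFHom_wFHom N f)
    (AlgHom.ext fun f => wFHom_wFHom N f)

@[simp] theorem wF_apply (f : FF N) : wF N f = wFHom N f := rfl

theorem wF_wF (f : FF N) : wF N (wF N f) = f := wFHom_wFHom N f

theorem wF_symm : (wF N).symm = wF N := by
  refine AlgEquiv.ext fun f => ?_
  apply (wF N).injective
  rw [AlgEquiv.apply_symm_apply, wF_wF]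

/-- `j(q^d)` as an element of `FF N`. -/
def jFd (d : ℕ) [NeZero d] (hd : d ∣ N) : FF N := inclRN N (jR N d hd)

omit [NeZero N] in
@[simp] theorem coe_jFd (d : ℕ) [NeZero d] (hd : d ∣ N) :
    ((jFd N d hd : FF N) : LaurentSeries Kbar) = coeffEmb Kbar (qExpand ℚ d jq) := rfl

/-- `w_N (j(q^d)) = j(q^{N/d})`. -/
theorem wF_jFd (d : ℕ) [NeZero d] (hd : d ∣ N) :
    haveI := neZero_div N hd
    wF N (jFd N d hd) = jFd N (N / d) (Nat.div_dvd_of_dvd hd) := by
  have := neZero_div N hd
  show wFHom N (inclRN N (jR N d hd)) = _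
  rw [wFHom_inclRN, wR_jR]
  rfl

end Fermat.Agent.A2.H528

end
end
-- ===== PACK-END A2/H528/Fricke.lean

-- ===== PACK-BEGIN A2/H528/FrickeGalois.lean
section


/-!
# A2 / W — the Fricke involution commutes with the arithmetic Galois action

* `wF_galois` : `w_N (σ • f) = σ • w_N f` for `σ ∈ Gal(ℚ̄/ℚ)` acting on the coefficients;
* `wSemi N : SemilinearAut ℚ̄ (FF N)` : `w_N` as a semilinear automorphism (so that it acts on
  places, divisors and on `JZero N = Pic0`), commuting with `arithmeticGalois`;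
* `wF_rat` : `w_N` preserves the `ℚ`-rational functions `coeffEmb (modularFunctionFieldFull N)`;
* `comapW` : pull back of a valuation subring by `w_N` (`V₀ := comapW V∞`), with transfer of
  "`σ`-stable" and "`σ` acts trivially on the residue field".
-/

set_option autoImplicit false
set_option synthInstance.maxHeartbeats 400000
set_option maxHeartbeats 1000000

noncomputable section

open ModularCurve HahnSeries AlgebraicCurve

namespace Fermat.Agent.A2.H528

open Fermat.Agent.S24 Fermat.Agent.S24.H997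

variable (N : ℕ) [NeZero N]

/-- the Galois action on `FF N` through the coefficients -/
abbrev gal (σ : Kbar ≃ₐ[ℚ] Kbar) : FF N ≃+* FF N :=
  arithmeticRingAut (modularFunctionFieldFull N) σ

omit [NeZero N] in
theorem gal_inclRN_jR (σ : Kbar ≃ₐ[ℚ] Kbar) (d : ℕ) [NeZero d] (hd : d ∣ N) :
    gal N σ (inclRN N (jR N d hd)) = inclRN N (jR N d hd) := by
  apply Subtype.ext
  show coeffMap (σ : Kbar →+* Kbar) (coeffEmb Kbar (qExpand ℚ d jq)) = _
  rw [coeffMap_coeffEmb]
  rfl

omit [NeZero N] in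
theorem gal_algebraMap (σ : Kbar ≃ₐ[ℚ] Kbar) (c : Kbar) :
    gal N σ (algebraMap Kbar (FF N) c) = algebraMap Kbar (FF N) (σ c) :=
  arithmeticRingAut_algebraMap (modularFunctionFieldFull N) σ c

theorem wFHom_gal_inclRN (σ : Kbar ≃ₐ[ℚ] Kbar) (r : RN N) :
    wFHom N (gal N σ (inclRN N r)) = gal N σ (wFHom N (inclRN N r)) := by
  obtain ⟨r, hr⟩ := r
  induction hr using Algebra.adjoin_induction with
  | mem x hx =>
      obtain ⟨y, ⟨d, hne, hd, rfl⟩, rfl⟩ := hx
      have := hne
      have := neZero_div N hd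
      have h1 : (⟨coeffEmb Kbar (qExpand ℚ d jq), Algebra.subset_adjoin
          ⟨_, ⟨d, hne, hd, rfl⟩, rfl⟩⟩ : RN N) = jR N d hd := rfl
      rw [h1, gal_inclRN_jR, wFHom_inclRN, wR_jR, gal_inclRN_jR]
  | algebraMap c =>
      have h1 : (⟨algebraMap Kbar (LaurentSeries Kbar) c, Subalgebra.algebraMap_mem _ c⟩ : RN N)
          = algebraMap Kbar (RN N) c := rfl
      have h2 : inclRN N (algebraMap Kbar (RN N) c) = algebraMap Kbar (FF N) c :=
        (inclRN N).commutes c
      rw [h1, h2, gal_algebraMap, wFHom_algebraMap, wFHom_algebraMap, gal_algebraMap]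
  | add x y hx hy ihx ihy =>
      have h1 : (⟨x + y, add_mem hx hy⟩ : RN N) = ⟨x, hx⟩ + ⟨y, hy⟩ := rfl
      rw [h1, map_add, map_add, map_add, map_add, map_add, ihx, ihy]
  | mul x y hx hy ihx ihy =>
      have h1 : (⟨x * y, mul_mem hx hy⟩ : RN N) = ⟨x, hx⟩ * ⟨y, hy⟩ := rfl
      rw [h1, map_mul, map_mul, map_mul, map_mul, map_mul, ihx, ihy]

/-- **`w_N` commutes with the Galois action on the coefficients.** -/
theorem wF_gal (σ : Kbar ≃ₐ[ℚ] Kbar) (f : FF N) :
    wF N (gal N σ f) = gal N σ (wF N f) := by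
  obtain ⟨r, t, -, rfl⟩ := exists_div_inclRN N f
  show wFHom N (gal N σ (inclRN N r / inclRN N t)) = gal N σ (wFHom N (inclRN N r / inclRN N t))
  rw [map_div₀, map_div₀, map_div₀, map_div₀, wFHom_gal_inclRN, wFHom_gal_inclRN]

/-- `w_N` as a semilinear automorphism of `FF N / ℚ̄` (trivial on the constants). -/
def wSemi : SemilinearAut Kbar (FF N) := SemilinearAut.ofAlgAut (wF N)

@[simp] theorem wSemi_smul (f : FF N) : wSemi N • f = wF N f := rfl

theorem wSemi_mul_self : wSemi N * wSemi N = 1 := by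
  rw [wSemi, ← map_mul]
  have h : wF N * wF N = 1 := AlgEquiv.ext fun f => wF_wF N f
  rw [h, map_one]

theorem wSemi_inv : (wSemi N)⁻¹ = wSemi N :=
  inv_eq_of_mul_eq_one_left (wSemi_mul_self N)

/-- **`w_N` commutes with `arithmeticGalois` inside `SemilinearAut`**; hence the actions on
places, divisors and on `JZero N` commute. -/
theorem wSemi_comm (σ : Kbar ≃ₐ[ℚ] Kbar) :
    wSemi N * arithmeticGalois (modularFunctionFieldFull N) σ
      = arithmeticGalois (modularFunctionFieldFull N) σ * wSemi N := by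
  refine Subtype.ext (Prod.ext (RingEquiv.ext fun f => ?_) ?_)
  · exact wF_gal N σ f
  · show (1 : RingAut Kbar) * σ.toRingEquiv = σ.toRingEquiv * 1
    rw [one_mul, mul_one]

/-- The actions of `w_N` and of the Galois group on `JZero N` commute. -/
theorem wSemi_smul_galois_smul (σ : Kbar ≃ₐ[ℚ] Kbar) (x : JZero N) :
    wSemi N • (σ • x) = σ • (wSemi N • x) := by
  rw [galois_smul_pic0_def, galois_smul_pic0_def, ← mul_smul, ← mul_smul, wSemi_comm]

/-- `w_N` preserves the `ℚ`-rational functions. -/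
theorem wF_rat {x : LaurentSeries ℚ} (hx : x ∈ modularFunctionFieldFull N) :
    ∃ y ∈ modularFunctionFieldFull N,
      ((wF N ⟨coeffEmb Kbar x, coeffEmb_mem_laurentBaseChange Kbar hx⟩ : FF N) :
        LaurentSeries Kbar) = coeffEmb Kbar y := by
  have key : ∀ x ∈ modularFunctionFieldFull N, ∀ hx' : coeffEmb Kbar x ∈ modularFunctionFieldBar N,
      ∃ y ∈ modularFunctionFieldFull N,
        ((wF N ⟨coeffEmb Kbar x, hx'⟩ : FF N) : LaurentSeries Kbar) = coeffEmb Kbar y := by
    intro x hx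
    have hx0 : x ∈ IntermediateField.adjoin ℚ (divisorExpansions N) := hx
    induction hx0 using IntermediateField.adjoin_induction with
    | mem y hy =>
        intro hx'
        obtain ⟨d, hne, hd, rfl⟩ := hy
        have := hne
        have := neZero_div N hd
        refine ⟨qExpand ℚ (N / d) jq, jqd_mem_full N (Nat.div_dvd_of_dvd hd), ?_⟩
        have h1 : (⟨coeffEmb Kbar (qExpand ℚ d jq), hx'⟩ : FF N) = jFd N d hd := rfl
        rw [h1, wF_jFd]
        rfl
    | algebraMap c =>
        intro hx'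
        refine ⟨algebraMap ℚ (LaurentSeries ℚ) c, IntermediateField.algebraMap_mem _ c, ?_⟩
        have h0 : coeffEmb Kbar (algebraMap ℚ (LaurentSeries ℚ) c)
            = algebraMap Kbar (LaurentSeries Kbar) (algebraMap ℚ Kbar c) := by
          rw [algebraMap_apply_eq_single, algebraMap_laurentSeries_eq_single, coeffEmb,
            coeffMap_single]
        have h1 : (⟨coeffEmb Kbar (algebraMap ℚ (LaurentSeries ℚ) c), hx'⟩ : FF N)
            = algebraMap Kbar (FF N) (algebraMap ℚ Kbar c) := Subtype.ext h0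
        rw [h1]
        show ((wFHom N (algebraMap Kbar (FF N) (algebraMap ℚ Kbar c)) : FF N) :
          LaurentSeries Kbar) = _
        rw [wFHom_algebraMap, h0]
        rfl
    | add y z hy hz ihy ihz =>
        intro hx'
        have hy' := coeffEmb_mem_laurentBaseChange Kbar (F₀ := modularFunctionFieldFull N) hy
        have hz' := coeffEmb_mem_laurentBaseChange Kbar (F₀ := modularFunctionFieldFull N) hz
        obtain ⟨a, ha, ha'⟩ := ihy hy hy'
        obtain ⟨b, hb, hb'⟩ := ihz hz hz'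
        refine ⟨a + b, add_mem ha hb, ?_⟩
        have h1 : (⟨coeffEmb Kbar (y + z), hx'⟩ : FF N)
            = ⟨coeffEmb Kbar y, hy'⟩ + ⟨coeffEmb Kbar z, hz'⟩ := Subtype.ext (map_add _ _ _)
        rw [h1, map_add, map_add]
        show ((wF N ⟨coeffEmb Kbar y, hy'⟩ : FF N) : LaurentSeries Kbar)
          + ((wF N ⟨coeffEmb Kbar z, hz'⟩ : FF N) : LaurentSeries Kbar) = _
        rw [ha', hb']
    | inv y hy ihy =>
        intro hx'
        have hy' := coeffEmb_mem_laurentBaseChange Kbar (F₀ := modularFunctionFieldFull N) hy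
        obtain ⟨a, ha, ha'⟩ := ihy hy hy'
        refine ⟨a⁻¹, inv_mem ha, ?_⟩
        have h1 : (⟨coeffEmb Kbar (y⁻¹), hx'⟩ : FF N)
            = (⟨coeffEmb Kbar y, hy'⟩ : FF N)⁻¹ := Subtype.ext (map_inv₀ _ _)
        rw [h1, map_inv₀, map_inv₀]
        show ((wF N ⟨coeffEmb Kbar y, hy'⟩ : FF N) : LaurentSeries Kbar)⁻¹ = _
        rw [ha']
    | mul y z hy hz ihy ihz =>
        intro hx'
        have hy' := coeffEmb_mem_laurentBaseChange Kbar (F₀ := modularFunctionFieldFull N) hy
        have hz' := coeffEmb_mem_laurentBaseChange Kbar (F₀ := modularFunctionFieldFull N) hz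
        obtain ⟨a, ha, ha'⟩ := ihy hy hy'
        obtain ⟨b, hb, hb'⟩ := ihz hz hz'
        refine ⟨a * b, mul_mem ha hb, ?_⟩
        have h1 : (⟨coeffEmb Kbar (y * z), hx'⟩ : FF N)
            = ⟨coeffEmb Kbar y, hy'⟩ * ⟨coeffEmb Kbar z, hz'⟩ := Subtype.ext (map_mul _ _ _)
        rw [h1, map_mul, map_mul]
        show ((wF N ⟨coeffEmb Kbar y, hy'⟩ : FF N) : LaurentSeries Kbar)
          * ((wF N ⟨coeffEmb Kbar z, hz'⟩ : FF N) : LaurentSeries Kbar) = _
        rw [ha', hb']
  exact key x hx _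

/-! ### Pull back of valuation subrings by `w_N` -/

/-- The pull back `V ∘ w_N` of a valuation subring of `FF N`. (`V₀ := comapW N V∞`.) -/
def comapW (V : ValuationSubring (FF N)) : ValuationSubring (FF N) :=
  V.comap (wF N : FF N ≃+* FF N).toRingHom

theorem mem_comapW {V : ValuationSubring (FF N)} {f : FF N} :
    f ∈ comapW N V ↔ wF N f ∈ V := Iff.rfl

theorem comapW_comapW (V : ValuationSubring (FF N)) : comapW N (comapW N V) = V := by
  ext f
  rw [mem_comapW, mem_comapW, wF_wF]

/-- the constants of `V ∘ w_N` are the constants of `V` -/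
theorem algebraMap_mem_comapW {V : ValuationSubring (FF N)} {c : Kbar} :
    algebraMap Kbar (FF N) c ∈ comapW N V ↔ algebraMap Kbar (FF N) c ∈ V := by
  rw [mem_comapW]
  show wFHom N (algebraMap Kbar (FF N) c) ∈ V ↔ _
  rw [wFHom_algebraMap]

/-- if `σ` stabilises `V`, it stabilises `V ∘ w_N` -/
theorem gal_mem_comapW {V : ValuationSubring (FF N)} (σ : Kbar ≃ₐ[ℚ] Kbar)
    (h : ∀ f : FF N, f ∈ V → gal N σ f ∈ V) (f : FF N) (hf : f ∈ comapW N V) :
    gal N σ f ∈ comapW N V := by
  rw [mem_comapW] at hf ⊢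
  rw [wF_gal]
  exact h _ hf

/-- if `σ` acts trivially on the residue field of `V`, it does so on that of `V ∘ w_N`:
`σ f - f` is a non-unit of `V ∘ w_N` for every `f ∈ V ∘ w_N`. -/
theorem gal_sub_mem_comapW {V : ValuationSubring (FF N)} (σ : Kbar ≃ₐ[ℚ] Kbar)
    (h : ∀ f : FF N, f ∈ V → V.valuation (gal N σ f - f) < 1) (f : FF N)
    (hf : f ∈ comapW N V) :
    V.valuation (wF N (gal N σ f - f)) < 1 := by
  rw [mem_comapW] at hf
  rw [map_sub, wF_gal]
  exact h _ hf

end Fermat.Agent.A2.H528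

end
end
-- ===== PACK-END A2/H528/FrickeGalois.lean

-- ===== PACK-BEGIN S28/H988/Degree.lean
section
/-
S28 degree API (helper988), UNCONDITIONAL, for consumers in rows S18 / S37 / A2.
`E_N(k) := modularFunctionFieldFullC k N = k(j(q^d) : d ∣ N) ⊂ k((q))`.

* `relfinrank_jField_full_eq`  : `[E_N(k) : k(j)] = ψ(N)`            (all primes `p ∣ N` invertible in `k`)
* `relfinrank_full_mul_prime`  : `[E_{Np}(k) : E_N(k)] = p + 1` (`p ∤ N`), `= p` (`p ∣ N`)
* `modularFunctionFieldBar_eq_fullC` : the Prelude's `ℚ̄`-function field of `X₀(N)` is `E_N(ℚ̄)`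
* `relfinrank_bar_mul_prime`, `relfinrank_jField_bar_eq` : the same for `modularFunctionFieldBar`.
-/







set_option autoImplicit false

noncomputable section

open ModularCurve IntermediateField

namespace Fermat.Agent.S28.H988

section AnyField

variable (k : Type*) [Field k]

/-- All hypotheses of helper867's degree theory hold as soon as the primes dividing `N` are
invertible in `k`. -/
theorem good_of_char (N : ℕ) (hN : N ≠ 0) (hchar : ∀ p : ℕ, p.Prime → p ∣ N → (p : k) ≠ 0) :
    H867.Good k N :=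
  H867.good_of_inputs k N hN (fun p hp _ _ => H807.nonempty_modPolyData p hp)
    (fun p hp _ _ => H807.nonempty_unitPolyData p hp) H25.theta_identity hchar

/-- **Degree formula.** `[k(j(q^d) : d ∣ N) : k(j)] = ψ(N)`. -/
theorem relfinrank_jField_full_eq (N : ℕ) (hN : N ≠ 0)
    (hchar : ∀ p : ℕ, p.Prime → p ∣ N → (p : k) ≠ 0) :
    (jField k).relfinrank (modularFunctionFieldFullC k N) = dedekindPsi N := by
  have h := (good_of_char k N hN hchar).degE_eq
  rw [H867.gFun_eq_dedekindPsi hN] at h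
  exact h

theorem dedekindPsi_pos (N : ℕ) (hN : N ≠ 0) : 0 < dedekindPsi N := by
  rw [← H867.gFun_eq_dedekindPsi hN]
  exact H867.gFun_pos N

/-- **Degree of the tower step.** `[E_{Np} : E_N] = p + 1` if `p ∤ N`, `= p` if `p ∣ N`. -/
theorem relfinrank_full_mul_prime (N p : ℕ) (hN : N ≠ 0) (hp : p.Prime)
    (hchar : ∀ r : ℕ, r.Prime → r ∣ N * p → (r : k) ≠ 0) :
    (modularFunctionFieldFullC k N).relfinrank (modularFunctionFieldFullC k (N * p)) =
      if p ∣ N then p else p + 1 := by
  have hNp : N * p ≠ 0 := Nat.mul_ne_zero hN hp.ne_zero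
  have hdvd : N ∣ N * p := Dvd.intro p rfl
  have hG := good_of_char k (N * p) hNp hchar
  have htower := hG.tower hdvd
  have h1 : H867.degE k N = dedekindPsi N :=
    relfinrank_jField_full_eq k N hN (fun r hr hrN => hchar r hr (hrN.trans hdvd))
  have h2 : H867.degE k (N * p) = dedekindPsi (N * p) :=
    relfinrank_jField_full_eq k (N * p) hNp hchar
  rw [h1, h2] at htower
  have hpos := dedekindPsi_pos N hN
  by_cases hpN : p ∣ N
  · rw [if_pos hpN]
    rw [H626.psi_mul_prime_of_dvd hN hp hpN, mul_comm p] at htower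
    exact Nat.eq_of_mul_eq_mul_left hpos htower
  · rw [if_neg hpN]
    rw [H626.psi_mul_prime_of_not_dvd hN hp hpN, mul_comm (p + 1)] at htower
    exact Nat.eq_of_mul_eq_mul_left hpos htower

end AnyField

section Bar

variable (L : Type*) [Field L] [Algebra ℚ L]

theorem image_divisorExpansions_eq (N : ℕ) :
    ⇑(coeffEmb L) '' divisorExpansions N = divisorExpansionsC L N := by
  ext x
  constructor
  · rintro ⟨y, ⟨d, hne, hd, rfl⟩, rfl⟩
    refine ⟨d, hne, hd, ?_⟩
    rw [coeffEmb, ← jqModC_rat, coeffMap_qExpand, coeffMap_jqModC]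
  · rintro ⟨d, hne, hd, rfl⟩
    refine ⟨qExpand ℚ d jq, ⟨d, hne, hd, rfl⟩, ?_⟩
    rw [coeffEmb, ← jqModC_rat, coeffMap_qExpand, coeffMap_jqModC]

/-- The base change of the Prelude's `ℚ`-function field is `L(j(q^d) : d ∣ N)`. -/
theorem laurentBaseChange_full_eq_fullC (N : ℕ) :
    laurentBaseChange L (modularFunctionFieldFull N) = modularFunctionFieldFullC L N := by
  rw [modularFunctionFieldFull, Fermat.Agent.S24.H368.laurentBaseChange_adjoin,
    image_divisorExpansions_eq]
  rfl

end Bar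

/-- The Prelude's function field of `X₀(N)` over `ℚ̄` is `ℚ̄(j(q^d) : d ∣ N)`. -/
theorem modularFunctionFieldBar_eq_fullC (N : ℕ) :
    modularFunctionFieldBar N = modularFunctionFieldFullC (AlgebraicClosure ℚ) N :=
  laurentBaseChange_full_eq_fullC _ N

theorem natCast_ne_zero_bar {p : ℕ} (hp : p ≠ 0) : ((p : ℕ) : AlgebraicClosure ℚ) ≠ 0 :=
  Nat.cast_ne_zero.mpr hp

/-- `[ℚ̄(X₀(N)) : ℚ̄(j)] = ψ(N)`. -/
theorem relfinrank_jField_bar_eq (N : ℕ) (hN : N ≠ 0) :
    (jField (AlgebraicClosure ℚ)).relfinrank (modularFunctionFieldBar N) = dedekindPsi N := by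
  rw [modularFunctionFieldBar_eq_fullC]
  exact relfinrank_jField_full_eq _ N hN (fun p hp _ => natCast_ne_zero_bar hp.ne_zero)

/-- `[ℚ̄(X₀(Np)) : ℚ̄(X₀(N))] = p + 1` if `p ∤ N`, `= p` if `p ∣ N`. -/
theorem relfinrank_bar_mul_prime (N p : ℕ) (hN : N ≠ 0) (hp : p.Prime) :
    (modularFunctionFieldBar N).relfinrank (modularFunctionFieldBar (N * p)) =
      if p ∣ N then p else p + 1 := by
  rw [modularFunctionFieldBar_eq_fullC, modularFunctionFieldBar_eq_fullC]
  exact relfinrank_full_mul_prime _ N p hN hp (fun r hr _ => natCast_ne_zero_bar hr.ne_zero)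

end Fermat.Agent.S28.H988

end

end
-- ===== PACK-END S28/H988/Degree.lean

-- ===== PACK-BEGIN S37/H218/Degree.lean
section




/-!
# S37 / [ES] leaf D-deg (helper218): the degree of the degeneracy map `β = V_ℓ`

`E_N(k) := modularFunctionFieldFullC k N = k(j(q^d) : d ∣ N) ⊂ k((q))`, `V_ℓ : f(q) ↦ f(q^ℓ)`.

* `relfinrank_map_qExpand_full_mul_prime` :
  `[E_{Np}(k) : V_p(E_N(k))] = p + 1` if `p ∤ N`, `= p` if `p ∣ N`
  (all primes dividing `N p` invertible in `k`);
* `relfinrank_map_qExpand_bar_mul_prime` : the same for the Prelude's `modularFunctionFieldBar`;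
* `finrankAlong_heckeBetaBar` :
  `finrankAlong ℚ̄ (heckeBetaBar ℚ̄ N ℓ) = [F̄_{Nℓ} : V_ℓ(F̄_N)]` (as a `relfinrank`);
* `finrankAlong_heckeBetaBar_of_not_dvd` : `finrankAlong ℚ̄ (heckeBetaBar ℚ̄ N ℓ) = ℓ + 1` for a
  prime `ℓ ∤ N`;  `finrankAlong_heckeBetaBar_of_dvd` : `= ℓ` for a prime `ℓ ∣ N`.

Proof: degree counting over `k(j)` and `k(j(q^p))` with the landed S28 degree theory
(`H867.PrimeLevel`: `[k(j, j_p) : k(j)] = p + 1 = [k(j, j_p) : k(j_p)]`, `H988`: `[E_N : k(j)] = ψ(N)`).
-/

set_option autoImplicit false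

noncomputable section

open ModularCurve HahnSeries IntermediateField AlgebraicCurve

namespace Fermat.Agent.S37.H218

open Fermat.Agent.S28

section AnyField

variable (k : Type*) [Field k]

/-- `[E_{Np} : V_p(E_N)] * ψ(N) = ψ(N p)` for a prime `p`. -/
theorem relfinrank_map_qExpand_full_mul_psi (N p : ℕ) [NeZero p] (hN : N ≠ 0) (hp : p.Prime)
    (hchar : ∀ r : ℕ, r.Prime → r ∣ N * p → (r : k) ≠ 0) :
    dedekindPsi N *
      ((modularFunctionFieldFullC k N).map (qExpandAlgHomC k p)).relfinrank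
        (modularFunctionFieldFullC k (N * p)) = dedekindPsi (N * p) := by
  have hNp : N * p ≠ 0 := Nat.mul_ne_zero hN hp.ne_zero
  have hG := H988.good_of_char k (N * p) hNp hchar
  have hP : H867.PrimeLevel k p := hG.prime p hp (dvd_mul_left p N)
  set V := qExpandAlgHomC k p with hV
  set A₀ := jField k with hA₀
  set A := H867.jpField k p with hA
  set B := (modularFunctionFieldFullC k N).map V with hB
  set E' := modularFunctionFieldFullC k (N * p) with hE'
  set P := A₀ ⊔ A with hPdef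
  have hAB : A ≤ B := by
    rw [hA, H867.jpField_eq_map, hB]
    exact IntermediateField.map_mono _ (H867.jField_le_EF k N)
  have hBE : B ≤ E' := H867.map_EF_le k N p
  have hA₀E : A₀ ≤ E' := H867.jField_le_EF k (N * p)
  have hPE : P ≤ E' := sup_le hA₀E (hAB.trans hBE)
  have hA₀P : A₀ ≤ P := le_sup_left
  have hAP : A ≤ P := le_sup_right
  have h1 : A₀.relfinrank E' = A.relfinrank E' := by
    rw [← relfinrank_mul_relfinrank hA₀P hPE, ← relfinrank_mul_relfinrank hAP hPE,
      hP.deg_j, hP.deg_jp]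
  have h3 : A.relfinrank B = dedekindPsi N := by
    rw [hA, H867.jpField_eq_map, hB, relfinrank_map_map]
    exact H988.relfinrank_jField_full_eq k N hN
      (fun r hr hrN => hchar r hr (hrN.trans (Dvd.intro p rfl)))
  have h4 : A₀.relfinrank E' = dedekindPsi (N * p) :=
    H988.relfinrank_jField_full_eq k (N * p) hNp hchar
  rw [← h3, relfinrank_mul_relfinrank hAB hBE, ← h1, h4]

/-- **Degree of `β = V_p`.** `[E_{Np} : V_p(E_N)] = p + 1` if `p ∤ N`, `= p` if `p ∣ N`. -/
theorem relfinrank_map_qExpand_full_mul_prime (N p : ℕ) [NeZero p] (hN : N ≠ 0) (hp : p.Prime)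
    (hchar : ∀ r : ℕ, r.Prime → r ∣ N * p → (r : k) ≠ 0) :
    ((modularFunctionFieldFullC k N).map (qExpandAlgHomC k p)).relfinrank
        (modularFunctionFieldFullC k (N * p)) = if p ∣ N then p else p + 1 := by
  have h := relfinrank_map_qExpand_full_mul_psi k N p hN hp hchar
  have hpos := H988.dedekindPsi_pos N hN
  by_cases hpN : p ∣ N
  · rw [if_pos hpN]
    rw [H626.psi_mul_prime_of_dvd hN hp hpN, mul_comm p] at h
    exact Nat.eq_of_mul_eq_mul_left hpos h
  · rw [if_neg hpN]
    rw [H626.psi_mul_prime_of_not_dvd hN hp hpN, mul_comm (p + 1)] at h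
    exact Nat.eq_of_mul_eq_mul_left hpos h

end AnyField

section Bar

/-- `[ℚ̄(X₀(Np)) : V_p ℚ̄(X₀(N))] = p + 1` if `p ∤ N`, `= p` if `p ∣ N`. -/
theorem relfinrank_map_qExpand_bar_mul_prime (N p : ℕ) [NeZero p] (hN : N ≠ 0) (hp : p.Prime) :
    ((modularFunctionFieldBar N).map (qExpandAlgHomC (AlgebraicClosure ℚ) p)).relfinrank
        (modularFunctionFieldBar (N * p)) = if p ∣ N then p else p + 1 := by
  rw [H988.modularFunctionFieldBar_eq_fullC, H988.modularFunctionFieldBar_eq_fullC]
  exact relfinrank_map_qExpand_full_mul_prime _ N p hN hp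
    (fun r hr _ => H988.natCast_ne_zero_bar hr.ne_zero)

variable (N ℓ : ℕ) [NeZero N] [NeZero ℓ]

omit [NeZero N] in
theorem map_qExpand_bar_le :
    (modularFunctionFieldBar N).map (qExpandAlgHomC (AlgebraicClosure ℚ) ℓ)
      ≤ modularFunctionFieldBar (N * ℓ) := by
  rintro _ ⟨x, hx, rfl⟩
  exact (heckeBetaBar (AlgebraicClosure ℚ) N ℓ ⟨x, hx⟩).2

omit [NeZero N] in
/-- The degree of the Prelude degeneracy map `β` is `[F̄_{Nℓ} : V_ℓ(F̄_N)]`. -/
theorem finrankAlong_heckeBetaBar :
    finrankAlong (AlgebraicClosure ℚ) (heckeBetaBar (AlgebraicClosure ℚ) N ℓ)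
      = ((modularFunctionFieldBar N).map (qExpandAlgHomC (AlgebraicClosure ℚ) ℓ)).relfinrank
          (modularFunctionFieldBar (N * ℓ)) := by
  have hle := map_qExpand_bar_le N ℓ
  rw [relfinrank_eq_finrank_of_le hle]
  let _ := algebraAlong (heckeBetaBar (AlgebraicClosure ℚ) N ℓ)
  show Module.finrank ↥(modularFunctionFieldBar N) ↥(modularFunctionFieldBar (N * ℓ)) = _
  let i : ↥(modularFunctionFieldBar N) ≃+*
      ↥((modularFunctionFieldBar N).map (qExpandAlgHomC (AlgebraicClosure ℚ) ℓ)) :=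
    (IntermediateField.equivMap (modularFunctionFieldBar N)
      (qExpandAlgHomC (AlgebraicClosure ℚ) ℓ)).toRingEquiv
  let j : ↥(modularFunctionFieldBar (N * ℓ)) ≃+* ↥(extendScalars hle) :=
    { toFun := fun x => ⟨x.1, x.2⟩
      invFun := fun y => ⟨y.1, y.2⟩
      left_inv := fun _ => rfl
      right_inv := fun _ => rfl
      map_mul' := fun _ _ => rfl
      map_add' := fun _ _ => rfl }
  refine Algebra.finrank_eq_of_equiv_equiv i j ?_
  ext x
  rfl

/-- For a prime `ℓ ∤ N` the degeneracy map `β : F̄_N → F̄_{Nℓ}` has degree `ℓ + 1`. -/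
theorem finrankAlong_heckeBetaBar_of_not_dvd (hℓ : ℓ.Prime) (h : ¬ ℓ ∣ N) :
    finrankAlong (AlgebraicClosure ℚ) (heckeBetaBar (AlgebraicClosure ℚ) N ℓ) = ℓ + 1 := by
  rw [finrankAlong_heckeBetaBar, relfinrank_map_qExpand_bar_mul_prime N ℓ (NeZero.ne N) hℓ,
    if_neg h]

/-- For a prime `ℓ ∣ N` the degeneracy map `β : F̄_N → F̄_{Nℓ}` has degree `ℓ`. -/
theorem finrankAlong_heckeBetaBar_of_dvd (hℓ : ℓ.Prime) (h : ℓ ∣ N) :
    finrankAlong (AlgebraicClosure ℚ) (heckeBetaBar (AlgebraicClosure ℚ) N ℓ) = ℓ := by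
  rw [finrankAlong_heckeBetaBar, relfinrank_map_qExpand_bar_mul_prime N ℓ (NeZero.ne N) hℓ,
    if_pos h]

/-- For every prime `ℓ` the degree of `β` is at most `ℓ + 1`. -/
theorem finrankAlong_heckeBetaBar_le (hℓ : ℓ.Prime) :
    finrankAlong (AlgebraicClosure ℚ) (heckeBetaBar (AlgebraicClosure ℚ) N ℓ) ≤ ℓ + 1 := by
  by_cases h : ℓ ∣ N
  · rw [finrankAlong_heckeBetaBar_of_dvd N ℓ hℓ h]
    exact Nat.le_succ ℓ
  · rw [finrankAlong_heckeBetaBar_of_not_dvd N ℓ hℓ h]

end Bar

end Fermat.Agent.S37.H218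

end

end
-- ===== PACK-END S37/H218/Degree.lean

-- ===== PACK-BEGIN S24.lean
section







set_option autoImplicit false
open ModularCurve

namespace Fermat.Agent.S24

theorem result (N : ℕ) [NeZero N]
    [AlgebraicCurve.HasCanonicalDivisor (K := AlgebraicClosure ℚ) (F := ↥(ModularCurve.modularFunctionFieldBar N))] :
    (AlgebraicCurve.genus (AlgebraicClosure ℚ) ↥(ModularCurve.modularFunctionFieldBar N) : ℚ)
      = ModularCurve.genusFormula N := by
  classical
  obtain ⟨P⟩ := nonempty_modularPackage N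
  haveI := P.finiteDimensional
  haveI : Finite (XX N) := inferInstance
  have hex : ∃ ω : Ω[↥(modularFunctionFieldBar N)⁄AlgebraicClosure ℚ], ω ≠ 0 :=
    exists_differential_ne_zero (jF N) P.dataInf
  have h1728 : (0 : Kbar) ≠ 1728 := by norm_num
  have hdeg := degree_eq_of_localData (jF N) P.finrank_eq P.dataFin P.dataInf
    ({0, 1728} : Finset Kbar)
    (fun a ha => P.perm_generic a
      (fun h => ha (by simp [h])) (fun h => ha (by simp [h])))
    hex.choose hex.choose_spec
    (AlgebraicCurve.canonicalDivisorOf hex.choose_spec)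
    (fun v => AlgebraicCurve.canonicalDivisorOf_apply hex.choose_spec v)
  rw [Finset.sum_pair h1728, P.orbits_zero, P.orbits_1728, P.orbits_inf] at hdeg
  obtain ⟨g, hg⟩ := exists_genus_nat N
  have hc := card_XX N
  have hS := two_mul_numOrbits_S N
  have hST := three_mul_numOrbits_ST N
  have hT := numOrbits_T N
  have hgenus : AlgebraicCurve.genus (AlgebraicClosure ℚ) ↥(modularFunctionFieldBar N) = g := by
    unfold AlgebraicCurve.genus
    rw [dif_pos hex]
    have : AlgebraicCurve.Divisor.degree (AlgebraicCurve.canonicalDivisorOf hex.choose_spec) + 2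
        = 2 * (g : ℤ) := by
      rw [hdeg, ← hg]; ring
    rw [this]
    omega
  rw [hgenus]
  unfold genusFormula
  have hgQ : (2 : ℚ) * g = (Nat.card (XX N) : ℚ) + 2 - numOrbits (permOf N ModularGroup.S)
        - numOrbits (permOf N (ModularGroup.S * ModularGroup.T))
        - numOrbits (permOf N ModularGroup.T) := by
    have := congrArg (Int.cast : ℤ → ℚ) hg
    push_cast at this
    linarith
  have hSQ : (2 : ℚ) * numOrbits (permOf N ModularGroup.S) = dedekindPsi N + nuTwo N := by
    exact_mod_cast hS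
  have hSTQ : (3 : ℚ) * numOrbits (permOf N (ModularGroup.S * ModularGroup.T))
      = dedekindPsi N + 2 * nuThree N := by
    exact_mod_cast hST
  have hTQ : (numOrbits (permOf N ModularGroup.T) : ℚ) = cuspCount N := by
    exact_mod_cast hT
  have hcQ : (Nat.card (XX N) : ℚ) = dedekindPsi N := by
    exact_mod_cast hc
  linarith

end Fermat.Agent.S24

end
-- ===== PACK-END S24.lean

-- ===== PACK-BEGIN A2/H609/Horizontal.lean
section




/-!
# Node purity, part 11: (H1) from divisibility of the horizontal valuations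

`R` a noetherian integrally closed domain with fraction field `K`, `u ∈ R`, `u ≠ 0`, `𝔓` a
minimal prime of `(u)`.  Then `R_𝔓 ⊆ K` is a discrete valuation ring
(`isDiscreteValuationRing_locAt_of_mem_minimalPrimes`), and if `u = u₀ h ^ m` with `u₀` a unit
of the corresponding valuation subring, then `f ^ m = u r` with `f, r ∈ R`, `r ∉ 𝔓`
(`exists_pow_eq_mul_of_divisible`): this is hypothesis (H1) of the purity theorems.
Mathlib + `A2.H849` (Hartogs).
-/

set_option autoImplicit false

namespace Fermat.Agent.A2.H609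

open Fermat.Agent.A2.H849

variable {R : Type*} [CommRing R] [IsDomain R] [IsNoetherianRing R] [IsIntegrallyClosed R]
variable {K : Type*} [Field K] [Algebra R K] [IsFractionRing R K]

omit [IsIntegrallyClosed R] [IsDomain R] in
/-- A minimal prime of `(u)` is a colon ideal `(u) : c`. -/
theorem exists_colon_of_mem_minimalPrimes {u : R} {𝔓 : Ideal R}
    (h𝔓 : 𝔓 ∈ (Ideal.span {u}).minimalPrimes) :
    ∃ c : R, ∀ r, r ∈ 𝔓 ↔ u ∣ r * c := by
  have h1 : 𝔓 ∈ (Module.annihilator R (R ⧸ Ideal.span {u})).minimalPrimes := by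
    rw [Ideal.annihilator_quotient]
    exact h𝔓
  have h2 := Module.associatedPrimes.minimalPrimes_annihilator_subset_associatedPrimes R
    (R ⧸ Ideal.span {u}) h1
  obtain ⟨-, y, hy⟩ := (isAssociatedPrime_iff (I := 𝔓) (M := R ⧸ Ideal.span {u})).1 h2
  obtain ⟨c, rfl⟩ := Ideal.Quotient.mk_surjective y
  refine ⟨c, fun r => ?_⟩
  rw [hy, Submodule.mem_colon_singleton, Submodule.mem_bot]
  exact smul_mk_span_eq_zero_iff u r c

/-- The localisation at a minimal prime of a nonzero principal ideal is a discrete valuation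
ring. -/
theorem isDiscreteValuationRing_locAt_of_mem_minimalPrimes {u : R} (hu : u ≠ 0)
    {𝔓 : Ideal R} [𝔓.IsPrime] (h𝔓 : 𝔓 ∈ (Ideal.span {u}).minimalPrimes) :
    IsDiscreteValuationRing (locAt K 𝔓) := by
  obtain ⟨c, hc⟩ := exists_colon_of_mem_minimalPrimes h𝔓
  exact isDiscreteValuationRing_locAt_of_colon 𝔓 u c hu hc

omit [IsDomain R] [IsNoetherianRing R] [IsIntegrallyClosed R] [Algebra R K]
  [IsFractionRing R K] in
/-- In a valuation subring, `x ^ m ∈ V → x ∈ V`. -/
theorem mem_valuationSubring_of_pow_mem (V : ValuationSubring K) {x : K} {m : ℕ} (hm : m ≠ 0)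
    (hx : x ^ m ∈ V) : x ∈ V := by
  rcases V.mem_or_inv_mem x with h | h
  · exact h
  · by_cases hx0 : x = 0
    · rw [hx0]
      exact V.zero_mem
    have h1 : x = x ^ m * x⁻¹ ^ (m - 1) := by
      obtain ⟨k, rfl⟩ := Nat.exists_eq_succ_of_ne_zero hm
      rw [Nat.succ_sub_one, pow_succ, inv_pow]
      field_simp
    rw [h1]
    exact V.mul_mem _ _ hx (V.pow_mem h _)

/-- **(H1) from divisibility.**  At a minimal prime `𝔓` of `(u)`: if `u = u₀ h ^ m` with `u₀` a
unit of the discrete valuation ring `R_𝔓`, then `f ^ m = u r` with `r ∉ 𝔓`. -/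
theorem exists_pow_eq_mul_of_divisible {u : R} (hu : u ≠ 0) {m : ℕ} (hm : m ≠ 0)
    {𝔓 : Ideal R} (h𝔓 : 𝔓 ∈ (Ideal.span {u}).minimalPrimes)
    (hdiv : ∀ V : ValuationSubring K, IsDiscreteValuationRing V →
      (∀ r : R, algebraMap R K r ∈ V) → (∀ s : R, s ∉ 𝔓 → (algebraMap R K s)⁻¹ ∈ V) →
      ∃ h u₀ : K, u₀ ∈ V ∧ u₀⁻¹ ∈ V ∧ algebraMap R K u = u₀ * h ^ m) :
    ∃ f r : R, r ∉ 𝔓 ∧ f ^ m = u * r := by
  have h𝔓p : 𝔓.IsPrime := h𝔓.1.1
  have hinj : Function.Injective (algebraMap R K) := IsFractionRing.injective R K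
  have hdvr : IsDiscreteValuationRing (locAt K 𝔓) :=
    isDiscreteValuationRing_locAt_of_mem_minimalPrimes hu h𝔓
  have hV := isLocDVR_locValuationSubring (K := K) 𝔓 hdvr
  set V : ValuationSubring K :=
    locValuationSubring 𝔓 (inferInstance : ValuationRing (locAt K 𝔓)) with hVdef
  obtain ⟨h, u₀, hu₀, hu₀', huh⟩ := hdiv V hV.dvr hV.le hV.inv_mem
  have huK : algebraMap R K u ≠ 0 := fun h0 => hu (hinj (by rw [h0, map_zero]))
  have hu₀0 : u₀ ≠ 0 := by
    rintro rfl
    rw [zero_mul] at huh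
    exact huK huh
  have hh0 : h ≠ 0 := by
    rintro rfl
    rw [zero_pow hm, mul_zero] at huh
    exact huK huh
  have hhV : h ∈ V := by
    refine mem_valuationSubring_of_pow_mem V hm ?_
    have : h ^ m = algebraMap R K u * u₀⁻¹ := by
      rw [huh]
      field_simp
    rw [this]
    exact V.mul_mem _ _ (hV.le u) hu₀'
  obtain ⟨φ, s, hs, hφ⟩ := hV.exists_frac h hhV
  obtain ⟨ρ, t, ht, hρ⟩ := hV.exists_frac u₀⁻¹ hu₀'
  have hsK : algebraMap R K s ≠ 0 := by
    intro h0
    apply hs
    rw [hinj (by rw [h0, map_zero] : algebraMap R K s = algebraMap R K 0)]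
    exact 𝔓.zero_mem
  have htK : algebraMap R K t ≠ 0 := by
    intro h0
    apply ht
    rw [hinj (by rw [h0, map_zero] : algebraMap R K t = algebraMap R K 0)]
    exact 𝔓.zero_mem
  have hρK : algebraMap R K ρ ≠ 0 := by
    intro h0
    rw [h0, zero_mul] at hρ
    exact inv_ne_zero hu₀0 hρ
  have hρ0 : ρ ≠ 0 := by
    rintro rfl
    exact hρK (map_zero _)
  have hu₀ρ : u₀ * algebraMap R K ρ = algebraMap R K t := by
    have h1 : u₀ * u₀⁻¹ = 1 := mul_inv_cancel₀ hu₀0
    rw [hρ] at h1
    field_simp at h1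
    exact h1
  have hρ𝔓 : ρ ∉ 𝔓 := by
    intro hmem
    apply hV.inv_not_mem ρ hmem hρ0
    have : (algebraMap R K ρ)⁻¹ = u₀ * (algebraMap R K t)⁻¹ := by
      rw [← hu₀ρ]
      field_simp
    rw [this]
    exact V.mul_mem _ _ hu₀ (hV.inv_mem t ht)
  refine ⟨φ * t, ρ * s ^ m * t ^ (m - 1), ?_, ?_⟩
  · intro hmem
    rcases h𝔓p.mem_or_mem hmem with h1 | h1
    · rcases h𝔓p.mem_or_mem h1 with h2 | h2
      · exact hρ𝔓 h2
      · exact hs (h𝔓p.mem_of_pow_mem m h2)
    · exact ht (h𝔓p.mem_of_pow_mem _ h1)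
  · apply hinj
    obtain ⟨k, rfl⟩ := Nat.exists_eq_succ_of_ne_zero hm
    rw [Nat.succ_sub_one]
    simp only [map_mul, map_pow]
    have hs' : h * algebraMap R K s = algebraMap R K φ := by
      rw [hφ]
      field_simp
    calc (algebraMap R K φ * algebraMap R K t) ^ (k + 1)
        = algebraMap R K t * (algebraMap R K φ) ^ (k + 1) * (algebraMap R K t) ^ k := by ring
      _ = (u₀ * algebraMap R K ρ) * (h * algebraMap R K s) ^ (k + 1) *
            (algebraMap R K t) ^ k := by rw [hu₀ρ, hs']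
      _ = algebraMap R K u * (algebraMap R K ρ * (algebraMap R K s) ^ (k + 1) *
            (algebraMap R K t) ^ k) := by rw [huh, Nat.succ_eq_add_one]; ring

end Fermat.Agent.A2.H609

end
-- ===== PACK-END A2/H609/Horizontal.lean

-- ===== PACK-BEGIN A2/H609/ChartPrep.lean
section



/-!
# Node purity, part 12: preparations on a chart

`B` a domain with fraction field `F`, `u ∈ Fˣ` with constant unit residues on the components
`p₁`, `p₂` (elementwise: `u b = a`, `b ∉ p`, `a - c b ∈ p`, `c` a unit).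

* `exists_common_denominator` : one denominator `b ∉ p₁ ∪ p₂` for both components.
* the local ring `locAt F n = B_n ⊆ F` (from `A2.H849`) is an integrally closed domain with
  fraction field `F`.
-/

set_option autoImplicit false

namespace Fermat.Agent.A2.H609

open Fermat.Agent.A2.H849

section Denominator

variable {B : Type*} [CommRing B]
variable {F : Type*} [Field F] [Algebra B F]

/-- Independence of the representation: if `u b₁ = a₁` with `b₁ ∉ p`, `a₁ - c b₁ ∈ p`, then
`a - c b ∈ p` for every representation `u b = a`. -/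
theorem sub_mul_mem_of_eq [IsDomain B] [IsFractionRing B F] {p : Ideal B} [p.IsPrime] {u : F}
    {c a₁ b₁ a b : B} (hb₁ : b₁ ∉ p) (h₁ : a₁ - c * b₁ ∈ p)
    (hu₁ : u * algebraMap B F b₁ = algebraMap B F a₁)
    (hu : u * algebraMap B F b = algebraMap B F a) : a - c * b ∈ p := by
  have hinj : Function.Injective (algebraMap B F) := IsFractionRing.injective B F
  have h1 : a * b₁ = a₁ * b := by
    apply hinj
    rw [map_mul, map_mul, ← hu, ← hu₁]
    ring
  have h2 : b₁ * (a - c * b) = (a₁ - c * b₁) * b := by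
    linear_combination h1
  have h3 : b₁ * (a - c * b) ∈ p := by
    rw [h2]
    exact p.mul_mem_right _ h₁
  exact (Ideal.IsPrime.mem_or_mem inferInstance h3).resolve_left hb₁

/-- A common denominator outside `p₁ ∪ p₂`. -/
theorem exists_common_denominator {p₁ p₂ : Ideal B} [p₁.IsPrime] [p₂.IsPrime] {u : F}
    (hs₁ : ∃ a b : B, b ∉ p₁ ∧ u * algebraMap B F b = algebraMap B F a)
    (hs₂ : ∃ a b : B, b ∉ p₂ ∧ u * algebraMap B F b = algebraMap B F a) :
    ∃ a b : B, b ∉ p₁ ∧ b ∉ p₂ ∧ u * algebraMap B F b = algebraMap B F a := by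
  obtain ⟨a₁, b₁, hb₁, h₁⟩ := hs₁
  obtain ⟨a₂, b₂, hb₂, h₂⟩ := hs₂
  by_cases h12 : b₁ ∈ p₂
  · by_cases h21 : b₂ ∈ p₁
    · refine ⟨a₁ + a₂, b₁ + b₂, ?_, ?_, ?_⟩
      · intro h
        apply hb₁
        have : b₁ = (b₁ + b₂) - b₂ := by ring
        rw [this]
        exact p₁.sub_mem h h21
      · intro h
        apply hb₂
        have : b₂ = (b₁ + b₂) - b₁ := by ring
        rw [this]
        exact p₂.sub_mem h h12
      · rw [map_add, map_add, mul_add, h₁, h₂]
    · exact ⟨a₂, b₂, h21, hb₂, h₂⟩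
  · exact ⟨a₁, b₁, hb₁, h12, h₁⟩

end Denominator

section LocAt

variable {B : Type*} [CommRing B] [IsDomain B]
variable {F : Type*} [Field F] [Algebra B F] [IsFractionRing B F]

instance locAt_isFractionRing (n : Ideal B) [n.IsPrime] : IsFractionRing (locAt F n) F :=
  IsFractionRing.isFractionRing_of_isDomain_of_isLocalization n.primeCompl (locAt F n) F

instance locAt_isIntegrallyClosed [IsIntegrallyClosed B] (n : Ideal B) [n.IsPrime] :
    IsIntegrallyClosed (locAt F n) :=
  isIntegrallyClosed_of_isLocalization (locAt F n) n.primeCompl n.primeCompl_le_nonZeroDivisors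

theorem coe_algebraMap_locAt (n : Ideal B) [n.IsPrime] (b : B) :
    ((algebraMap B (locAt F n) b : locAt F n) : F) = algebraMap B F b := rfl

theorem algebraMap_locAt_apply (n : Ideal B) [n.IsPrime] (z : locAt F n) :
    algebraMap (locAt F n) F z = (z : F) := rfl

/-- `algebraMap b ∈ p B_n ↔ b ∈ p` for a prime `p ≤ n`. -/
theorem algebraMap_mem_map_iff {p n : Ideal B} [p.IsPrime] [n.IsPrime] (hpn : p ≤ n) (b : B) :
    algebraMap B (locAt F n) b ∈ p.map (algebraMap B (locAt F n)) ↔ b ∈ p := by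
  have hd : Disjoint (n.primeCompl : Set B) (p : Set B) :=
    Set.disjoint_left.mpr fun y hy hyp => hy (hpn hyp)
  have h := IsLocalization.under_map_of_isPrime_disjoint n.primeCompl (locAt F n)
    (inferInstance : p.IsPrime) hd
  constructor
  · intro hb
    have : b ∈ (p.map (algebraMap B (locAt F n))).under B := hb
    rwa [h] at this
  · exact fun hb => Ideal.mem_map_of_mem _ hb

/-- A unit of `B_n` is a quotient of two elements of `B ∖ n`. -/
theorem exists_frac_of_isUnit_locAt (n : Ideal B) [n.IsPrime] {z : locAt F n} (hz : IsUnit z) :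
    ∃ a s : B, a ∉ n ∧ s ∉ n ∧ (z : F) * algebraMap B F s = algebraMap B F a := by
  obtain ⟨a, s, hs, hzas⟩ := (mem_locAt_iff n (z : F)).1 z.2
  have hinj : Function.Injective (algebraMap B F) := IsFractionRing.injective B F
  have hsF : algebraMap B F s ≠ 0 := by
    intro h0
    apply hs
    rw [hinj (by rw [h0, map_zero] : algebraMap B F s = algebraMap B F 0)]
    exact n.zero_mem
  have hzs : (z : F) * algebraMap B F s = algebraMap B F a := by
    rw [hzas]
    field_simp
  refine ⟨a, s, ?_, hs, hzs⟩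
  have hunit : IsUnit (algebraMap B (locAt F n) a) := by
    have h1 : algebraMap B (locAt F n) a = z * algebraMap B (locAt F n) s := by
      apply Subtype.ext
      exact hzs.symm
    rw [h1]
    exact hz.mul ((IsLocalization.AtPrime.isUnit_to_map_iff (locAt F n) n s).2 hs)
  exact (IsLocalization.AtPrime.isUnit_to_map_iff (locAt F n) n a).1 hunit

/-- An element of `B_n` outside `p B_n` (`p ≤ n` prime) is a quotient `φ / s` with `φ ∉ p`,
`s ∉ n`. -/
theorem exists_frac_of_notMem_map {p n : Ideal B} [p.IsPrime] [n.IsPrime]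
    {z : locAt F n} (hz : z ∉ p.map (algebraMap B (locAt F n))) :
    ∃ φ s : B, φ ∉ p ∧ s ∉ n ∧ (z : F) * algebraMap B F s = algebraMap B F φ := by
  obtain ⟨φ, s, hs, hzas⟩ := (mem_locAt_iff n (z : F)).1 z.2
  have hinj : Function.Injective (algebraMap B F) := IsFractionRing.injective B F
  have hsF : algebraMap B F s ≠ 0 := by
    intro h0
    apply hs
    rw [hinj (by rw [h0, map_zero] : algebraMap B F s = algebraMap B F 0)]
    exact n.zero_mem
  have hzs : (z : F) * algebraMap B F s = algebraMap B F φ := by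
    rw [hzas]
    field_simp
  refine ⟨φ, s, ?_, hs, hzs⟩
  intro hφ
  apply hz
  have hsu : IsUnit (algebraMap B (locAt F n) s) :=
    (IsLocalization.AtPrime.isUnit_to_map_iff (locAt F n) n s).2 hs
  have h1 : z * algebraMap B (locAt F n) s = algebraMap B (locAt F n) φ := by
    apply Subtype.ext
    exact hzs
  have h2 : z * algebraMap B (locAt F n) s ∈ p.map (algebraMap B (locAt F n)) := by
    rw [h1]
    exact Ideal.mem_map_of_mem _ hφ
  obtain ⟨t, ht⟩ := hsu.exists_right_inv
  have h3 : z = z * algebraMap B (locAt F n) s * t := by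
    rw [mul_assoc, ht, mul_one]
  rw [h3]
  exact Ideal.mul_mem_right _ _ h2

end LocAt

end Fermat.Agent.A2.H609

end
-- ===== PACK-END A2/H609/ChartPrep.lean

-- ===== PACK-BEGIN A2/H609/ChartNode.lean
section


/-!
# Node purity, part 13: purity at a crossing point of a semistable chart

`B` a noetherian integrally closed domain with fraction field `F` (a chart of the model),
`p₁ p₂` the two components of the special fibre (`p₁ ⊓ p₂ = (w)`, `B ⧸ pᵢ` Dedekind,
`p₁ ⊔ p₂` radical), `n ⊇ p₁ + p₂` a crossing point.  If `u ∈ Fˣ`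

* is locally `unit × m`-th power at every discrete valuation ring `V ⊇ B[1/w]` of `F`
  (`m ∣ ord_V u` at the horizontal valuations), and
* has constant unit residues on both components (`u b = a`, `b ∉ pᵢ`, `a - c b ∈ pᵢ`, `c ∈ Bˣ`),

then there is `d ∈ Fˣ` with `u d ^ m ∈ (B_n)ˣ` and `d` a unit on both components
(`exists_pureAt_node`).  No `δ`-count, no separating coordinate, no hypothesis on the thickness
of the node.  Mathlib + `A2.H849` + `A2.H372`.
-/

set_option autoImplicit false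

namespace Fermat.Agent.A2.H609

open Fermat.Agent.A2.H849

variable {B : Type*} [CommRing B] [IsDomain B] [IsNoetherianRing B] [IsIntegrallyClosed B]
variable {F : Type*} [Field F] [Algebra B F] [IsFractionRing B F]

omit [IsDomain B] [IsNoetherianRing B] [IsIntegrallyClosed B] [IsFractionRing B F] in
/-- The data of the normalised element `u' = a b ^ (m - 1) = u b ^ m ∈ B`. -/
theorem normalised_element {p : Ideal B} [p.IsPrime] {u : F} {m : ℕ} (hm : m ≠ 0)
    {a b c : B} (hc : IsUnit c) (hb : b ∉ p) (hab : a - c * b ∈ p)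
    (hu : u * algebraMap B F b = algebraMap B F a) :
    algebraMap B F (a * b ^ (m - 1)) = u * algebraMap B F b ^ m ∧
      a * b ^ (m - 1) - c * b ^ m ∈ p ∧ a * b ^ (m - 1) ∉ p := by
  obtain ⟨k, rfl⟩ := Nat.exists_eq_succ_of_ne_zero hm
  rw [Nat.succ_sub_one, Nat.succ_eq_add_one]
  have h2 : a * b ^ k - c * b ^ (k + 1) ∈ p := by
    have : a * b ^ k - c * b ^ (k + 1) = (a - c * b) * b ^ k := by ring
    rw [this]
    exact p.mul_mem_right _ hab
  refine ⟨?_, h2, ?_⟩
  · rw [map_mul, map_pow, ← hu]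
    ring
  · intro h
    have h3 : c * b ^ (k + 1) ∈ p := by
      have : c * b ^ (k + 1) = a * b ^ k - (a * b ^ k - c * b ^ (k + 1)) := by ring
      rw [this]
      exact p.sub_mem h h2
    rcases Ideal.IsPrime.mem_or_mem inferInstance h3 with h4 | h4
    · exact (Ideal.IsPrime.ne_top inferInstance) (Ideal.eq_top_of_isUnit_mem p h4 hc)
    · exact hb (Ideal.IsPrime.mem_of_pow_mem inferInstance _ h4)

omit [IsNoetherianRing B] [IsIntegrallyClosed B] in
/-- (H2) for the normalised element on a branch. -/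
theorem exists_associated_pow_mk {p n : Ideal B} [p.IsPrime] [n.IsPrime]
    {m : ℕ} {u' b c : B} (hc : IsUnit c) (h : u' - c * b ^ m ∈ p) :
    ∃ v : locAt F n ⧸ p.map (algebraMap B (locAt F n)),
      Associated (v ^ m) (Ideal.Quotient.mk (p.map (algebraMap B (locAt F n)))
        (algebraMap B (locAt F n) u')) := by
  refine ⟨Ideal.Quotient.mk _ (algebraMap B (locAt F n) b), ?_⟩
  have hcu : IsUnit (Ideal.Quotient.mk (p.map (algebraMap B (locAt F n)))
      (algebraMap B (locAt F n) c)) := (hc.map _).map _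
  obtain ⟨ε, hε⟩ := hcu
  refine ⟨ε, ?_⟩
  rw [hε, ← map_pow, ← map_pow, ← map_mul, ← map_mul, eq_comm, Ideal.Quotient.eq]
  rw [← map_sub]
  have : u' - b ^ m * c = u' - c * b ^ m := by ring
  rw [this]
  exact Ideal.mem_map_of_mem _ h

/-- **Purity at a crossing point of a semistable chart.** -/
theorem exists_pureAt_node {w : B} {m : ℕ} (hm : m ≠ 0)
    (p₁ p₂ n : Ideal B) [p₁.IsPrime] [p₂.IsPrime] [n.IsPrime]
    [IsDedekindDomain (B ⧸ p₁)] [IsDedekindDomain (B ⧸ p₂)]
    (hinf : p₁ ⊓ p₂ = Ideal.span {w}) (h₁₂ : ¬ p₁ ≤ p₂) (h₂₁ : ¬ p₂ ≤ p₁)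
    (htr : (p₁ ⊔ p₂).IsRadical) (h₁ : p₁ ≤ n) (h₂ : p₂ ≤ n)
    (u : F)
    (hdiv : ∀ V : ValuationSubring F, IsDiscreteValuationRing V →
      (∀ b : B, algebraMap B F b ∈ V) → (algebraMap B F w)⁻¹ ∈ V →
      ∃ h u₀ : F, u₀ ∈ V ∧ u₀⁻¹ ∈ V ∧ u = u₀ * h ^ m)
    (hs₁ : ∃ c a b : B, IsUnit c ∧ b ∉ p₁ ∧ a - c * b ∈ p₁ ∧
      u * algebraMap B F b = algebraMap B F a)
    (hs₂ : ∃ c a b : B, IsUnit c ∧ b ∉ p₂ ∧ a - c * b ∈ p₂ ∧
      u * algebraMap B F b = algebraMap B F a) :
    ∃ d : F, d ≠ 0 ∧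
      (∃ a b : B, a ∉ n ∧ b ∉ n ∧ u * d ^ m * algebraMap B F b = algebraMap B F a) ∧
      (∃ a b : B, a ∉ p₁ ∧ b ∉ p₁ ∧ d * algebraMap B F b = algebraMap B F a) ∧
      (∃ a b : B, a ∉ p₂ ∧ b ∉ p₂ ∧ d * algebraMap B F b = algebraMap B F a) := by
  have hinj : Function.Injective (algebraMap B F) := IsFractionRing.injective B F
  obtain ⟨c₁, a₁, b₁, hc₁, hb₁, hab₁, hu₁⟩ := hs₁
  obtain ⟨c₂, a₂, b₂, hc₂, hb₂, hab₂, hu₂⟩ := hs₂
  -- common denominator
  obtain ⟨a, b, hbp₁, hbp₂, hub⟩ := exists_common_denominator (p₁ := p₁) (p₂ := p₂)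
    ⟨a₁, b₁, hb₁, hu₁⟩ ⟨a₂, b₂, hb₂, hu₂⟩
  have hab₁' : a - c₁ * b ∈ p₁ := sub_mul_mem_of_eq hb₁ hab₁ hu₁ hub
  have hab₂' : a - c₂ * b ∈ p₂ := sub_mul_mem_of_eq hb₂ hab₂ hu₂ hub
  obtain ⟨hu'F, hu'₁, hu'n₁⟩ := normalised_element (p := p₁) hm hc₁ hbp₁ hab₁' hub
  obtain ⟨-, hu'₂, hu'n₂⟩ := normalised_element (p := p₂) hm hc₂ hbp₂ hab₂' hub
  set u' : B := a * b ^ (m - 1) with hu'def
  have hbF : algebraMap B F b ≠ 0 := by
    intro h0
    apply hbp₁
    rw [hinj (by rw [h0, map_zero] : algebraMap B F b = algebraMap B F 0)]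
    exact p₁.zero_mem
  -- the local ring
  obtain ⟨hP₁, hP₂, hinf', hsup', hdvr₁, hdvr₂⟩ :=
    Fermat.Agent.A2.H372.node_local_data (locAt F n) hinf h₁₂ h₂₁ htr h₁ h₂
  rw [IsLocalization.AtPrime.map_eq_maximalIdeal n (locAt F n)] at hsup'
  set U : locAt F n := algebraMap B (locAt F n) u' with hUdef
  have hUF : (U : F) = u * algebraMap B F b ^ m := hu'F
  have hU₁ : U ∉ p₁.map (algebraMap B (locAt F n)) := fun h =>
    hu'n₁ ((algebraMap_mem_map_iff h₁ u').1 h)
  have hU₂ : U ∉ p₂.map (algebraMap B (locAt F n)) := fun h =>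
    hu'n₂ ((algebraMap_mem_map_iff h₂ u').1 h)
  have hU0 : U ≠ 0 := by
    intro h0
    apply hU₁
    rw [h0]
    exact Ideal.zero_mem _
  -- (H1)
  have H1 : ∀ 𝔓 ∈ (Ideal.span {U}).minimalPrimes, algebraMap B (locAt F n) w ∉ 𝔓 →
      ∃ f r : locAt F n, r ∉ 𝔓 ∧ f ^ m = U * r := by
    intro 𝔓 h𝔓 hw𝔓
    refine exists_pow_eq_mul_of_divisible (K := F) hU0 hm h𝔓 ?_
    intro V hV hle hinv
    obtain ⟨h, u₀, hu₀, hu₀', huh⟩ := hdiv V hV
      (fun b => hle (algebraMap B (locAt F n) b)) (hinv _ hw𝔓)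
    refine ⟨h * algebraMap B F b, u₀, hu₀, hu₀', ?_⟩
    rw [algebraMap_locAt_apply, hUF, huh]
    ring
  -- (H2)
  have H2₁ := exists_associated_pow_mk (F := F) (p := p₁) (n := n) (m := m) hc₁ hu'₁
  have H2₂ := exists_associated_pow_mk (F := F) (p := p₂) (n := n) (m := m) hc₂ hu'₂
  -- purity in the local ring
  obtain ⟨f, ε, hfε⟩ := exists_unit_mul_pow_of_node_min (R := locAt F n) hm
    (p₁.map (algebraMap B (locAt F n))) (p₂.map (algebraMap B (locAt F n)))
    hinf' hsup' hU₁ hU₂ H1 H2₁ H2₂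
  have hf0 : f ≠ 0 := by
    rintro rfl
    rw [zero_pow hm, mul_zero] at hfε
    exact hU0 hfε
  have hfF : (f : F) ≠ 0 := fun h => hf0 (Subtype.ext h)
  have hf₁ : f ∉ p₁.map (algebraMap B (locAt F n)) := by
    intro h
    apply hU₁
    rw [hfε]
    exact Ideal.mul_mem_left _ _ (Ideal.pow_mem_of_mem _ h m (Nat.pos_of_ne_zero hm))
  have hf₂ : f ∉ p₂.map (algebraMap B (locAt F n)) := by
    intro h
    apply hU₂
    rw [hfε]
    exact Ideal.mul_mem_left _ _ (Ideal.pow_mem_of_mem _ h m (Nat.pos_of_ne_zero hm))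
  have hfεF : u * algebraMap B F b ^ m = ((ε : locAt F n) : F) * (f : F) ^ m := by
    rw [← hUF, hfε]
    rfl
  refine ⟨algebraMap B F b / (f : F), div_ne_zero hbF hfF, ?_, ?_, ?_⟩
  · obtain ⟨a', s', ha', hs', h'⟩ := exists_frac_of_isUnit_locAt (F := F) n ε.isUnit
    refine ⟨a', s', ha', hs', ?_⟩
    rw [← h', div_pow, ← mul_div_assoc, hfεF]
    field_simp
  · obtain ⟨φ, s, hφ, hs, h'⟩ := exists_frac_of_notMem_map (F := F) (p := p₁) (n := n) hf₁
    refine ⟨b * s, φ, ?_, hφ, ?_⟩
    · intro h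
      rcases Ideal.IsPrime.mem_or_mem inferInstance h with h3 | h3
      · exact hbp₁ h3
      · exact hs (h₁ h3)
    · rw [← h', map_mul]
      field_simp
  · obtain ⟨φ, s, hφ, hs, h'⟩ := exists_frac_of_notMem_map (F := F) (p := p₂) (n := n) hf₂
    refine ⟨b * s, φ, ?_, hφ, ?_⟩
    · intro h
      rcases Ideal.IsPrime.mem_or_mem inferInstance h with h3 | h3
      · exact hbp₂ h3
      · exact hs (h₂ h3)
    · rw [← h', map_mul]
      field_simp

end Fermat.Agent.A2.H609

end
-- ===== PACK-END A2/H609/ChartNode.lean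

-- ===== PACK-BEGIN S37/H988/BetaDeg.lean
section
/-
S37 NORM-ID (helper988), part 1: degree counting for the `β`-structure.

`L` a field of characteristic `0`, `E_M = L(j(q^d) : d ∣ M) ⊂ L((q))`, `V = (q ↦ q^ℓ)`,
`ℓ` prime, `ℓ ∤ N`, `K₀ = V(E_N) ⊂ K₁ = E_{Nℓ}`.

* `relfinrank_map_full` : `[E_{Nℓ} : V(E_N)] = ℓ + 1`.
* `minpoly_j_eq`        : the minimal polynomial of `j` over `V(E_N)` is `Φ_ℓ(X, j(q^ℓ))`.

Only the degree formula `[E_M : L(j)] = ψ(M)` and the two vanishing properties of `Φ_ℓ` are used.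
-/





set_option autoImplicit false
set_option linter.unusedSectionVars false
set_option linter.style.haveILetI false

noncomputable section

open ModularCurve IntermediateField Polynomial

namespace Fermat.Agent.S37.H988

open Fermat.Agent.S28.H988

/-! ### Generalities on intermediate fields -/

section General

variable {F Ω : Type*} [Field F] [Field Ω] [Algebra F Ω]

/-- `A ⊔ F(x)`, as an intermediate field over `A`, is `A(x)`. -/
theorem extendScalars_sup_adjoin (A : IntermediateField F Ω) (x : Ω) :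
    extendScalars (le_sup_left : A ≤ A ⊔ F⟮x⟯) = A⟮x⟯ := by
  apply restrictScalars_injective F
  rw [extendScalars_restrictScalars, restrictScalars_adjoin_eq_sup]

/-- The degree of a simple extension inside the lattice of intermediate fields. -/
theorem relfinrank_sup_adjoin (A : IntermediateField F Ω) (x : Ω) (hx : IsIntegral A x) :
    A.relfinrank (A ⊔ F⟮x⟯) = (minpoly A x).natDegree := by
  rw [relfinrank_eq_finrank_of_le le_sup_left, extendScalars_sup_adjoin, adjoin.finrank hx]

/-- A monic polynomial over `A` of degree `[A(x) : A]` killing `x` is the minimal polynomial. -/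
theorem minpoly_eq_of_relfinrank (A : IntermediateField F Ω) (x : Ω) (P : Polynomial A)
    (hP : P.Monic) (hroot : aeval x P = 0) (hdeg : P.natDegree ≤ A.relfinrank (A ⊔ F⟮x⟯)) :
    minpoly A x = P := by
  have hint : IsIntegral A x := ⟨P, hP, by rwa [← aeval_def]⟩
  rw [relfinrank_sup_adjoin A x hint] at hdeg
  exact (Polynomial.eq_of_monic_of_dvd_of_natDegree_le (minpoly.monic hint) hP
    (minpoly.dvd _ _ hroot) hdeg).symm

end General

/-! ### `V` as an algebra homomorphism -/

section VAlg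

variable (L : Type*) [Field L]

/-- `q ↦ q^m` as an `L`-algebra endomorphism of `L((q))`. -/
def VAlg (m : ℕ) : LaurentSeries L →ₐ[L] LaurentSeries L :=
  { Vm L m with
    commutes' := fun c => by
      show Vm L m (algebraMap L (LaurentSeries L) c) = algebraMap L (LaurentSeries L) c
      by_cases h : m = 0
      · subst h
        unfold Vm
        rw [dif_pos rfl]
        rfl
      · rw [Vm_of_ne L h, algebraMap_laurentSeries_eq_single]
        have : NeZero m := ⟨h⟩
        rw [qExpand_single, mul_zero] }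

@[simp]
theorem VAlg_apply (m : ℕ) (f : LaurentSeries L) : VAlg L m f = Vm L m f := rfl

theorem VAlg_jd {m e : ℕ} (hm : m ≠ 0) (he : e ≠ 0) : VAlg L m (jd L e) = jd L (m * e) :=
  Vm_jd L hm he

/-- `V_ℓ(E_N) ≤ E_{Nℓ}`. -/
theorem map_full_le {N ℓ : ℕ} (hN : N ≠ 0) (hℓ : ℓ ≠ 0) :
    (modularFunctionFieldFullC L N).map (VAlg L ℓ) ≤ modularFunctionFieldFullC L (N * ℓ) := by
  rw [IntermediateField.map_le_iff_le_comap, full_le_iff L hN]
  intro d hd
  have hd0 : d ≠ 0 := fun h => hN (by rw [h] at hd; exact Nat.eq_zero_of_zero_dvd hd)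
  show VAlg L ℓ (jd L d) ∈ modularFunctionFieldFullC L (N * ℓ)
  rw [VAlg_jd L hℓ hd0, mul_comm ℓ d]
  exact jd_mem_full L (Nat.mul_ne_zero hN hℓ) (Nat.mul_dvd_mul_right hd ℓ)

theorem jd_mul_mem_map {N ℓ d : ℕ} (hN : N ≠ 0) (hℓ : ℓ ≠ 0) (hd : d ∣ N) :
    jd L (ℓ * d) ∈ (modularFunctionFieldFullC L N).map (VAlg L ℓ) := by
  have hd0 : d ≠ 0 := fun h => hN (by rw [h] at hd; exact Nat.eq_zero_of_zero_dvd hd)
  rw [← VAlg_jd L hℓ hd0]
  exact ⟨jd L d, jd_mem_full L hN hd, rfl⟩

end VAlg

/-! ### Modular polynomials over every field -/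

section PhiFam

variable (k : Type*) [Field k]

theorem exists_phiRel (r : ℕ) (hr : r.Prime) : ∃ Φ : Polynomial (Polynomial ℤ), PhiRel k r Φ := by
  haveI : NeZero r := ⟨hr.ne_zero⟩
  obtain ⟨D⟩ := Fermat.Agent.S28.H807.nonempty_modPolyData r hr
  exact ⟨D.Φ, phiRel_of_modPolyData k r D⟩

open Classical in
/-- A choice of modular polynomials `Φ_r`, `r` prime. -/
def PhiFam (r : ℕ) : Polynomial (Polynomial ℤ) :=
  if h : r.Prime then (exists_phiRel k r h).choose else 0

theorem phiFam_spec {r : ℕ} (hr : r.Prime) : PhiRel k r (PhiFam k r) := by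
  unfold PhiFam
  rw [dif_pos hr]
  exact (exists_phiRel k r hr).choose_spec

/-- `E_{Nℓ} = E_N ⊔ k(j(q^ℓ))` for `ℓ ∤ N`. -/
theorem full_mul_eq_sup {ℓ N : ℕ} (hℓ : ℓ.Prime) (hN : N ≠ 0) (hℓN : ¬ ℓ ∣ N) :
    modularFunctionFieldFullC k (N * ℓ) = modularFunctionFieldFullC k N ⊔ k⟮jd k ℓ⟯ := by
  have h := full_mul_eq (k := k) (PhiFam k) hN hℓ (fun r hr _ => phiFam_spec k hr)
  have ht : topGen k N ℓ = jd k ℓ := by
    unfold topGen topExp
    rw [Nat.factorization_eq_zero_of_not_dvd hℓN, zero_add, pow_one]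
  rw [h, restrictScalars_adjoin_eq_sup, ht]

end PhiFam

/-! ### The degree of `E_{Nℓ}` over `V(E_N)` -/

section Degree

variable (L : Type*) [Field L] [CharZero L]
variable {ℓ : ℕ} {Φ : Polynomial (Polynomial ℤ)}

theorem natCast_prime_ne_zero (r : ℕ) (hr : r.Prime) : (r : L) ≠ 0 :=
  Nat.cast_ne_zero.mpr hr.ne_zero

theorem jd_mem_map {N : ℕ} (hN : N ≠ 0) (hℓ : ℓ ≠ 0) :
    jd L ℓ ∈ (modularFunctionFieldFullC L N).map (VAlg L ℓ) := by
  have := jd_mul_mem_map L hN hℓ (one_dvd N)
  rwa [mul_one] at this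

/-- `[V(E_N)(j(q^{ℓ²})) : V(E_N)] = ℓ + 1`. -/
theorem relfinrank_map_sup (hℓ : ℓ.Prime) {N : ℕ} (hN : N ≠ 0) (hℓN : ¬ ℓ ∣ N) :
    ((modularFunctionFieldFullC L N).map (VAlg L ℓ)).relfinrank
      ((modularFunctionFieldFullC L N).map (VAlg L ℓ) ⊔ L⟮jd L (ℓ * ℓ)⟯) = ℓ + 1 := by
  have h1 : (modularFunctionFieldFullC L N).map (VAlg L ℓ) ⊔ L⟮jd L (ℓ * ℓ)⟯ =
      (modularFunctionFieldFullC L (N * ℓ)).map (VAlg L ℓ) := by
    rw [full_mul_eq_sup L hℓ hN hℓN, IntermediateField.map_sup, adjoin_map, Set.image_singleton,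
      VAlg_jd L hℓ.ne_zero hℓ.ne_zero]
  rw [h1, relfinrank_map_map,
    relfinrank_full_mul_prime L N ℓ hN hℓ (fun r hr _ => natCast_prime_ne_zero L r hr),
    if_neg hℓN]

variable {L}

/-- The polynomial `Φ(X, y)` over an intermediate field containing `y`. -/
theorem PhiAt_subtype_map (A : IntermediateField L (LaurentSeries L)) (y : LaurentSeries L)
    (hy : y ∈ A) :
    (PhiAt Φ (⟨y, hy⟩ : A)).map (algebraMap A (LaurentSeries L)) = PhiAt Φ y := by
  rw [PhiAt_map]
  rfl

theorem aeval_PhiAt_subtype (A : IntermediateField L (LaurentSeries L)) (y : LaurentSeries L)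
    (hy : y ∈ A) (x : LaurentSeries L) :
    aeval x (PhiAt Φ (⟨y, hy⟩ : A)) = (PhiAt Φ y).eval x := by
  rw [aeval_def, eval₂_eq_eval_map, PhiAt_subtype_map]

/-- **The minimal polynomial of `j` over `V(E_N)`** is `Φ_ℓ(X, j(q^ℓ))`. -/
theorem minpoly_j_eq (hℓ : ℓ.Prime) (hΦ : PhiRel L ℓ Φ) {N : ℕ} (hN : N ≠ 0) (hℓN : ¬ ℓ ∣ N) :
    minpoly ((modularFunctionFieldFullC L N).map (VAlg L ℓ)) (jqModC L) =
      PhiAt Φ (⟨jd L ℓ, jd_mem_map L hN hℓ.ne_zero⟩ :
        (modularFunctionFieldFullC L N).map (VAlg L ℓ)) := by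
  set A := (modularFunctionFieldFullC L N).map (VAlg L ℓ) with hA
  set P : Polynomial A := PhiAt Φ (⟨jd L ℓ, jd_mem_map L hN hℓ.ne_zero⟩ : A) with hP
  have hPm : P.Monic := PhiAt_monic hΦ.monic _
  have hPd : P.natDegree = ℓ + 1 := by rw [hP, PhiAt_natDegree hΦ.monic, hΦ.natDegree_eq]
  have h0 : aeval (jd L (ℓ * ℓ)) P = 0 := by
    rw [hP, aeval_PhiAt_subtype]
    exact hΦ.root1 hℓ.ne_zero hℓ.ne_zero
  have hx : aeval (jqModC L) P = 0 := by
    rw [hP, aeval_PhiAt_subtype]
    exact hΦ.root_j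
  have h1 : minpoly A (jd L (ℓ * ℓ)) = P :=
    minpoly_eq_of_relfinrank A _ P hPm h0 (by rw [hPd, relfinrank_map_sup L hℓ hN hℓN])
  have hirr : Irreducible P := by
    rw [← h1]
    exact minpoly.irreducible ⟨P, hPm, by rwa [← aeval_def]⟩
  exact (minpoly.eq_of_irreducible_of_monic hirr hx hPm).symm

theorem isIntegral_j (hℓ : ℓ.Prime) {N : ℕ} (hN : N ≠ 0) :
    IsIntegral ((modularFunctionFieldFullC L N).map (VAlg L ℓ)) (jqModC L) := by
  obtain ⟨Φ, hΦ⟩ := exists_phiRel L ℓ hℓ
  refine ⟨PhiAt Φ (⟨jd L ℓ, jd_mem_map L hN hℓ.ne_zero⟩ :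
        (modularFunctionFieldFullC L N).map (VAlg L ℓ)), PhiAt_monic hΦ.monic _, ?_⟩
  rw [← aeval_def, aeval_PhiAt_subtype]
  exact hΦ.root_j

/-- `[V(E_N)(j) : V(E_N)] = ℓ + 1`. -/
theorem relfinrank_map_sup_j (hℓ : ℓ.Prime) {N : ℕ} (hN : N ≠ 0) (hℓN : ¬ ℓ ∣ N) :
    ((modularFunctionFieldFullC L N).map (VAlg L ℓ)).relfinrank
      ((modularFunctionFieldFullC L N).map (VAlg L ℓ) ⊔ L⟮jqModC L⟯) = ℓ + 1 := by
  obtain ⟨Φ, hΦ⟩ := exists_phiRel L ℓ hℓ
  rw [relfinrank_sup_adjoin _ _ (isIntegral_j hℓ hN), minpoly_j_eq hℓ hΦ hN hℓN,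
    PhiAt_natDegree hΦ.monic, hΦ.natDegree_eq]

variable (L)

/-- **Degree of the `β`-structure**: `[E_{Nℓ} : V(E_N)] = ℓ + 1` for `ℓ ∤ N`. -/
theorem relfinrank_map_full (hℓ : ℓ.Prime) {N : ℕ} (hN : N ≠ 0) (hℓN : ¬ ℓ ∣ N) :
    ((modularFunctionFieldFullC L N).map (VAlg L ℓ)).relfinrank
      (modularFunctionFieldFullC L (N * ℓ)) = ℓ + 1 := by
  have hℓ0 : ℓ ≠ 0 := hℓ.ne_zero
  have hNℓ : N * ℓ ≠ 0 := Nat.mul_ne_zero hN hℓ0
  have hchar : ∀ (M : ℕ) (r : ℕ), r.Prime → r ∣ M → (r : L) ≠ 0 :=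
    fun _ r hr _ => natCast_prime_ne_zero L r hr
  set J := modularFunctionFieldFullC L 1 with hJ
  set Jl := J.map (VAlg L ℓ) with hJl
  set El := modularFunctionFieldFullC L ℓ with hEl
  set K0 := (modularFunctionFieldFullC L N).map (VAlg L ℓ) with hK0
  set K1 := modularFunctionFieldFullC L (N * ℓ) with hK1
  have hJeq : J = Fermat.Agent.S28.jField L := full_one L
  -- inclusions
  have i1 : J ≤ El := full_mono L hℓ0 (one_dvd ℓ)
  have i2 : El ≤ K1 := full_mono L hNℓ (Dvd.intro_left N rfl)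
  have i3 : Jl ≤ El := by
    have := map_full_le L (N := 1) one_ne_zero hℓ0
    rwa [one_mul] at this
  have i4 : Jl ≤ K0 := IntermediateField.map_mono _ (full_mono L hN (one_dvd N))
  have i5 : K0 ≤ K1 := map_full_le L hN hℓ0
  -- degrees over `L(j)`
  have d1 : J.relfinrank El = ℓ + 1 := by
    rw [hJeq, relfinrank_jField_full_eq L ℓ hℓ0 (hchar ℓ)]
    have := Fermat.Agent.S28.H626.psi_mul_prime_of_not_dvd (N := 1) one_ne_zero hℓ
      (by simpa using hℓ.one_lt.ne')
    rw [one_mul] at this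
    rw [this]
    have h1 : dedekindPsi 1 = 1 := by
      have := relfinrank_jField_full_eq L 1 one_ne_zero (hchar 1)
      rw [← hJeq, relfinrank_self] at this
      exact this.symm
    rw [h1, mul_one]
  have d2 : J.relfinrank K1 = dedekindPsi N * (ℓ + 1) := by
    rw [hJeq, relfinrank_jField_full_eq L (N * ℓ) hNℓ (hchar _),
      Fermat.Agent.S28.H626.psi_mul_prime_of_not_dvd hN hℓ hℓN, mul_comm]
  have d3 : El.relfinrank K1 = dedekindPsi N := by
    have h := relfinrank_mul_relfinrank i1 i2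
    rw [d1, d2, mul_comm] at h
    exact Nat.eq_of_mul_eq_mul_right (Nat.succ_pos ℓ) h
  -- degrees over `L(j(q^ℓ))`
  have d4 : Jl.relfinrank El = ℓ + 1 := by
    have h := relfinrank_map_sup_j (L := L) hℓ (N := 1) one_ne_zero
      (by simpa using hℓ.one_lt.ne')
    have e1 : (modularFunctionFieldFullC L 1).map (VAlg L ℓ) ⊔ L⟮jqModC L⟯ = El := by
      rw [hEl, ← one_mul ℓ, full_mul_eq_sup L hℓ one_ne_zero (by simpa using hℓ.one_lt.ne'),
        one_mul, sup_comm]
      congr 1
      · rw [full_one]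
      · rw [full_one, adjoin_map, Set.image_singleton, VAlg_apply]
        rfl
    rw [e1] at h
    exact h
  have d5 : Jl.relfinrank K0 = dedekindPsi N := by
    rw [hJl, hK0, relfinrank_map_map, hJeq, relfinrank_jField_full_eq L N hN (hchar N)]
  have d6 : Jl.relfinrank K1 = (ℓ + 1) * dedekindPsi N := by
    rw [← relfinrank_mul_relfinrank i3 i2, d4, d3]
  have h := relfinrank_mul_relfinrank i4 i5
  rw [d5, d6, mul_comm] at h
  exact Nat.eq_of_mul_eq_mul_right (dedekindPsi_pos N hN) h

end Degree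

end Fermat.Agent.S37.H988

end

end
-- ===== PACK-END S37/H988/BetaDeg.lean

-- ===== PACK-BEGIN A2/Mod/H751/Fricke.lean
section




/-!
# A2 / MOD, leaves L4 (`FrickeExists`) and L5 (`FrickeCompat`)  (helper751)

* `FE_induction` : induction principle for the function field `F_{N,K} = K(j_d : d ∣ N)`
  (any field `K ⊇ ℚ`): a predicate holding on the constants and on the generators `j_d`, stable
  under `+`, `*`, `⁻¹`, holds everywhere;
* `ringHom_ext_FE` : two ring homomorphisms out of `F_{N,K}` agreeing on constants and generators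
  are equal;
* `frickeCompat : FrickeCompatStatement E M q`  (**L5**);
* `frickeExists : FrickeExistsStatement E`  (**L4**), by descent of `H528.wF` (the Fricke
  involution over `ℚ̄`) along the coefficientwise inclusion `ι : F_{N,E} → F_{N,ℚ̄}`;
  `frickeE`, `iotaE_frickeE : ι (W_E f) = w_N (ι f)`.
-/

set_option autoImplicit false
set_option synthInstance.maxHeartbeats 400000
set_option maxHeartbeats 1600000

noncomputable section

namespace Fermat.Agent.A2.Mod.H751

open ModularCurve HahnSeries Polynomial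

/-! ### Induction on the function field `K(j_d : d ∣ N)` -/

section Induction

variable {K : Type*} [Field K] [Algebra ℚ K] (N : ℕ)

/-- The generator `j_d = j(t^d)` of `F_{N,K}`. -/
def jK (K : Type*) [Field K] [Algebra ℚ K] (N d : ℕ) [NeZero d] (hd : d ∣ N) :
    ↥(laurentBaseChange K (modularFunctionFieldFull N)) :=
  ⟨coeffEmb K (qExpand ℚ d jq), coeffEmb_mem_laurentBaseChange K (jqd_mem_full N hd)⟩

theorem coeffEmb_algebraMap (c : ℚ) :
    coeffEmb K (algebraMap ℚ (LaurentSeries ℚ) c)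
      = algebraMap K (LaurentSeries K) (algebraMap ℚ K c) := by
  rw [algebraMap_apply_eq_single, algebraMap_laurentSeries_eq_single, coeffEmb, coeffMap_single]

/-- **Induction principle for `F_{N,K}`.** -/
theorem FE_induction
    (p : ↥(laurentBaseChange K (modularFunctionFieldFull N)) → Prop)
    (hc : ∀ e : K, p (algebraMap K _ e))
    (hj : ∀ (d : ℕ) [NeZero d] (hd : d ∣ N), p (jK K N d hd))
    (hadd : ∀ x y, p x → p y → p (x + y))
    (hmul : ∀ x y, p x → p y → p (x * y))
    (hinv : ∀ x, p x → p x⁻¹) :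
    ∀ x, p x := by
  -- step 1: the rational functions
  have key1 : ∀ y ∈ modularFunctionFieldFull N,
      ∀ h : coeffEmb K y ∈ laurentBaseChange K (modularFunctionFieldFull N),
        p ⟨coeffEmb K y, h⟩ := by
    intro y hy
    have hy0 : y ∈ IntermediateField.adjoin ℚ (divisorExpansions N) := hy
    induction hy0 using IntermediateField.adjoin_induction with
    | mem z hz =>
        intro h
        obtain ⟨d, hne, hd, rfl⟩ := hz
        haveI := hne
        exact hj d hd
    | algebraMap c =>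
        intro h
        have h1 : (⟨coeffEmb K (algebraMap ℚ (LaurentSeries ℚ) c), h⟩ :
            ↥(laurentBaseChange K (modularFunctionFieldFull N)))
            = algebraMap K _ (algebraMap ℚ K c) := Subtype.ext (coeffEmb_algebraMap c)
        rw [h1]
        exact hc _
    | add a b ha hb iha ihb =>
        intro h
        have ha' := coeffEmb_mem_laurentBaseChange K (F₀ := modularFunctionFieldFull N) ha
        have hb' := coeffEmb_mem_laurentBaseChange K (F₀ := modularFunctionFieldFull N) hb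
        have h1 : (⟨coeffEmb K (a + b), h⟩ :
            ↥(laurentBaseChange K (modularFunctionFieldFull N)))
            = ⟨coeffEmb K a, ha'⟩ + ⟨coeffEmb K b, hb'⟩ := Subtype.ext (map_add _ _ _)
        rw [h1]
        exact hadd _ _ (iha ha ha') (ihb hb hb')
    | inv a ha iha =>
        intro h
        have ha' := coeffEmb_mem_laurentBaseChange K (F₀ := modularFunctionFieldFull N) ha
        have h1 : (⟨coeffEmb K (a⁻¹), h⟩ :
            ↥(laurentBaseChange K (modularFunctionFieldFull N)))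
            = (⟨coeffEmb K a, ha'⟩ : ↥(laurentBaseChange K (modularFunctionFieldFull N)))⁻¹ :=
          Subtype.ext (map_inv₀ _ _)
        rw [h1]
        exact hinv _ (iha ha ha')
    | mul a b ha hb iha ihb =>
        intro h
        have ha' := coeffEmb_mem_laurentBaseChange K (F₀ := modularFunctionFieldFull N) ha
        have hb' := coeffEmb_mem_laurentBaseChange K (F₀ := modularFunctionFieldFull N) hb
        have h1 : (⟨coeffEmb K (a * b), h⟩ :
            ↥(laurentBaseChange K (modularFunctionFieldFull N)))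
            = ⟨coeffEmb K a, ha'⟩ * ⟨coeffEmb K b, hb'⟩ := Subtype.ext (map_mul _ _ _)
        rw [h1]
        exact hmul _ _ (iha ha ha') (ihb hb hb')
  -- step 2: the whole field
  have key2 : ∀ x (h : x ∈ laurentBaseChange K (modularFunctionFieldFull N)), p ⟨x, h⟩ := by
    intro x hx
    have hx0 : x ∈ IntermediateField.adjoin K
        (⇑(coeffEmb K) '' ((modularFunctionFieldFull N : IntermediateField ℚ (LaurentSeries ℚ)) :
          Set (LaurentSeries ℚ))) := hx
    induction hx0 using IntermediateField.adjoin_induction with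
    | mem z hz =>
        obtain ⟨y, hy, rfl⟩ := hz
        exact key1 y hy hx
    | algebraMap c =>
        have h1 : (⟨algebraMap K (LaurentSeries K) c, hx⟩ :
            ↥(laurentBaseChange K (modularFunctionFieldFull N))) = algebraMap K _ c := rfl
        rw [h1]
        exact hc c
    | add a b ha hb iha ihb =>
        have h1 : (⟨a + b, hx⟩ : ↥(laurentBaseChange K (modularFunctionFieldFull N)))
            = ⟨a, ha⟩ + ⟨b, hb⟩ := rfl
        rw [h1]
        exact hadd ⟨a, ha⟩ ⟨b, hb⟩ (iha ha) (ihb hb)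
    | inv a ha iha =>
        have h1 : (⟨a⁻¹, hx⟩ : ↥(laurentBaseChange K (modularFunctionFieldFull N)))
            = (⟨a, ha⟩ : ↥(laurentBaseChange K (modularFunctionFieldFull N)))⁻¹ := rfl
        rw [h1]
        exact hinv ⟨a, ha⟩ (iha ha)
    | mul a b ha hb iha ihb =>
        have h1 : (⟨a * b, hx⟩ : ↥(laurentBaseChange K (modularFunctionFieldFull N)))
            = ⟨a, ha⟩ * ⟨b, hb⟩ := rfl
        rw [h1]
        exact hmul ⟨a, ha⟩ ⟨b, hb⟩ (iha ha) (ihb hb)
  intro x
  exact key2 x.1 x.2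

/-- Two ring homomorphisms out of `F_{N,K}` which agree on the constants and on the generators
`j_d`, `d ∣ N`, are equal. -/
theorem ringHom_ext_FE {T : Type*} [DivisionRing T]
    (φ ψ : ↥(laurentBaseChange K (modularFunctionFieldFull N)) →+* T)
    (hc : ∀ e : K, φ (algebraMap K _ e) = ψ (algebraMap K _ e))
    (hj : ∀ (d : ℕ) [NeZero d] (hd : d ∣ N), φ (jK K N d hd) = ψ (jK K N d hd)) :
    ∀ x, φ x = ψ x := by
  refine FE_induction N (fun x => φ x = ψ x) hc hj ?_ ?_ ?_
  · intro x y hx hy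
    show φ (x + y) = ψ (x + y)
    rw [map_add, map_add, hx, hy]
  · intro x y hx hy
    show φ (x * y) = ψ (x * y)
    rw [map_mul, map_mul, hx, hy]
  · intro x hx
    show φ x⁻¹ = ψ x⁻¹
    rw [map_inv₀, map_inv₀, hx]

end Induction

/-! ### L5: compatibility of the Fricke involutions with `α`, `β` -/

section L5

variable (E : IntermediateField ℚ _root_.Fermat.Agent.A2.Mod.Qb) (M q : ℕ) [NeZero M] [NeZero q]

theorem jE_eq_jK (N d : ℕ) [NeZero d] (hd : d ∣ N) : jE E N d hd = jK E N d hd := rfl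

/-- `α j_d = j_d`. -/
theorem alpha_jE (d : ℕ) [NeZero d] (hd : d ∣ M) :
    αE E M q (jE E M d hd) = jE E (M * q) d (hd.trans (dvd_mul_right M q)) :=
  Subtype.ext (coe_heckeAlphaBar M q _)

/-- `β j_d = j_{qd}`. -/
theorem beta_jE (d : ℕ) [NeZero d] (hd : d ∣ M) :
    βE E M q (jE E M d hd)
      = jE E (M * q) (q * d) (by rw [mul_comm M q]; exact mul_dvd_mul_left q hd) := by
  apply Subtype.ext
  show qExpand E q (coeffEmb E (qExpand ℚ d jq)) = coeffEmb E (qExpand ℚ (q * d) jq)
  rw [coeffEmb, ← ModularCurve.coeffMap_qExpand, qExpand_qExpand]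

theorem jE_congr (N : ℕ) {d d' : ℕ} [NeZero d] [NeZero d'] (h : d = d') (hd : d ∣ N)
    (hd' : d' ∣ N) : jE E N d hd = jE E N d' hd' := by
  subst h
  rfl

/-- **L5** (`FrickeCompat`). -/
theorem frickeCompat : FrickeCompatStatement E M q := by
  intro WM WN hWM hWN
  have hM0 : 0 < M := Nat.pos_of_ne_zero (NeZero.ne M)
  have key1 : ∀ f : _root_.Fermat.Agent.A2.Mod.FE E M, WN (αE E M q f) = βE E M q (WM f) := by
    refine ringHom_ext_FE M
      ((WN : _root_.Fermat.Agent.A2.Mod.FE E (M * q) →+* _root_.Fermat.Agent.A2.Mod.FE E (M * q)).comp (αE E M q : _root_.Fermat.Agent.A2.Mod.FE E M →+* _root_.Fermat.Agent.A2.Mod.FE E (M * q)))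
      ((βE E M q : _root_.Fermat.Agent.A2.Mod.FE E M →+* _root_.Fermat.Agent.A2.Mod.FE E (M * q)).comp (WM : _root_.Fermat.Agent.A2.Mod.FE E M →+* _root_.Fermat.Agent.A2.Mod.FE E M)) ?_ ?_
    · intro e
      show WN (αE E M q (algebraMap E _ e)) = βE E M q (WM (algebraMap E _ e))
      rw [AlgHom.commutes, AlgEquiv.commutes, AlgEquiv.commutes, AlgHom.commutes]
    · intro d _ hd
      show WN (αE E M q (jE E M d hd)) = βE E M q (WM (jE E M d hd))
      have hd0 : 0 < d := Nat.pos_of_dvd_of_pos hd hM0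
      haveI : NeZero (M / d) := ⟨(Nat.div_pos (Nat.le_of_dvd hM0 hd) hd0).ne'⟩
      have h1 : WM (jE E M d hd) = jE E M (M / d) (Nat.div_dvd_of_dvd hd) :=
        hWM.1 d (M / d) hd (Nat.div_dvd_of_dvd hd) (Nat.mul_div_cancel' hd)
      have hdvd : q * (M / d) ∣ M * q := by
        rw [mul_comm M q]; exact mul_dvd_mul_left q (Nat.div_dvd_of_dvd hd)
      have h2 : WN (jE E (M * q) d (hd.trans (dvd_mul_right M q)))
          = jE E (M * q) (q * (M / d)) hdvd :=
        hWN.1 d (q * (M / d)) _ hdvd (by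
          rw [mul_left_comm, Nat.mul_div_cancel' hd, mul_comm])
      rw [alpha_jE, h2, h1, beta_jE]
  have key2 : ∀ f : _root_.Fermat.Agent.A2.Mod.FE E M, WN (βE E M q f) = αE E M q (WM f) := by
    refine ringHom_ext_FE M
      ((WN : _root_.Fermat.Agent.A2.Mod.FE E (M * q) →+* _root_.Fermat.Agent.A2.Mod.FE E (M * q)).comp (βE E M q : _root_.Fermat.Agent.A2.Mod.FE E M →+* _root_.Fermat.Agent.A2.Mod.FE E (M * q)))
      ((αE E M q : _root_.Fermat.Agent.A2.Mod.FE E M →+* _root_.Fermat.Agent.A2.Mod.FE E (M * q)).comp (WM : _root_.Fermat.Agent.A2.Mod.FE E M →+* _root_.Fermat.Agent.A2.Mod.FE E M)) ?_ ?_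
    · intro e
      show WN (βE E M q (algebraMap E _ e)) = αE E M q (WM (algebraMap E _ e))
      rw [AlgHom.commutes, AlgEquiv.commutes, AlgEquiv.commutes, AlgHom.commutes]
    · intro d _ hd
      show WN (βE E M q (jE E M d hd)) = αE E M q (WM (jE E M d hd))
      have hd0 : 0 < d := Nat.pos_of_dvd_of_pos hd hM0
      haveI : NeZero (M / d) := ⟨(Nat.div_pos (Nat.le_of_dvd hM0 hd) hd0).ne'⟩
      have h1 : WM (jE E M d hd) = jE E M (M / d) (Nat.div_dvd_of_dvd hd) :=
        hWM.1 d (M / d) hd (Nat.div_dvd_of_dvd hd) (Nat.mul_div_cancel' hd)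
      have hdvd : q * d ∣ M * q := by
        rw [mul_comm M q]; exact mul_dvd_mul_left q hd
      have hdvd' : M / d ∣ M * q := (Nat.div_dvd_of_dvd hd).trans (dvd_mul_right M q)
      have h2 : WN (jE E (M * q) (q * d) hdvd) = jE E (M * q) (M / d) hdvd' :=
        hWN.1 (q * d) (M / d) hdvd hdvd' (by
          rw [mul_assoc, Nat.mul_div_cancel' hd, mul_comm])
      rw [beta_jE, h2, h1, alpha_jE]
  exact fun f => ⟨key1 f, key2 f⟩

end L5

/-! ### L4: the Fricke involution over `E`, by descent from `ℚ̄` -/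

section L4

open Fermat.Agent.S24 Fermat.Agent.A2.H528

variable (E : IntermediateField ℚ _root_.Fermat.Agent.A2.Mod.Qb) (N : ℕ)

/-- The comparison map `ι : F_{N,E} → F_{N,ℚ̄}` (inclusion of the coefficients). -/
def iotaE : _root_.Fermat.Agent.A2.Mod.FE E N →+* FF N where
  toFun y := ⟨coeffMap (algebraMap E _root_.Fermat.Agent.A2.Mod.Qb) (y : LaurentSeries E),
    Fermat.Agent.S18.H602.coeffMap_mem_laurentBaseChange _ (algebraMap E _root_.Fermat.Agent.A2.Mod.Qb) y.2⟩
  map_one' := Subtype.ext (map_one (coeffMap (algebraMap E _root_.Fermat.Agent.A2.Mod.Qb)))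
  map_mul' _ _ := Subtype.ext (map_mul (coeffMap (algebraMap E _root_.Fermat.Agent.A2.Mod.Qb)) _ _)
  map_zero' := Subtype.ext (map_zero (coeffMap (algebraMap E _root_.Fermat.Agent.A2.Mod.Qb)))
  map_add' _ _ := Subtype.ext (map_add (coeffMap (algebraMap E _root_.Fermat.Agent.A2.Mod.Qb)) _ _)

theorem coe_iotaE (y : _root_.Fermat.Agent.A2.Mod.FE E N) :
    ((iotaE E N y : FF N) : LaurentSeries Kbar)
      = coeffMap (algebraMap E _root_.Fermat.Agent.A2.Mod.Qb) (y : LaurentSeries E) := rfl

theorem iotaE_injective : Function.Injective (iotaE E N) := (iotaE E N).injective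

theorem iotaE_algebraMap (e : E) :
    iotaE E N (algebraMap E (_root_.Fermat.Agent.A2.Mod.FE E N) e) = algebraMap Kbar (FF N) (e : _root_.Fermat.Agent.A2.Mod.Qb) := by
  apply Subtype.ext
  show coeffMap (algebraMap E _root_.Fermat.Agent.A2.Mod.Qb) (algebraMap E (LaurentSeries E) e) = _
  rw [Fermat.Agent.S18.H602.coeffMap_algebraMap']
  rfl

theorem iotaE_jE (d : ℕ) [NeZero d] (hd : d ∣ N) : iotaE E N (jE E N d hd) = jFd N d hd := by
  apply Subtype.ext
  show coeffMap (algebraMap E _root_.Fermat.Agent.A2.Mod.Qb) (coeffEmb E (qExpand ℚ d jq)) = coeffEmb Kbar (qExpand ℚ d jq)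
  exact Fermat.Agent.S18.H602.coeffMap_coeffEmb' _ _

variable [NeZero N]

/-- `w_N` preserves the `E`-rational functions. -/
theorem exists_iotaE_eq_wF (f : _root_.Fermat.Agent.A2.Mod.FE E N) : ∃ g : _root_.Fermat.Agent.A2.Mod.FE E N, iotaE E N g = wF N (iotaE E N f) := by
  refine FE_induction N (fun f => ∃ g : _root_.Fermat.Agent.A2.Mod.FE E N, iotaE E N g = wF N (iotaE E N f)) ?_ ?_ ?_ ?_ ?_ f
  · intro e
    refine ⟨algebraMap E (_root_.Fermat.Agent.A2.Mod.FE E N) e, ?_⟩
    rw [iotaE_algebraMap, AlgEquiv.commutes]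
  · intro d _ hd
    haveI := neZero_div N hd
    refine ⟨jE E N (N / d) (Nat.div_dvd_of_dvd hd), ?_⟩
    show iotaE E N (jE E N (N / d) (Nat.div_dvd_of_dvd hd)) = wF N (iotaE E N (jE E N d hd))
    rw [iotaE_jE, iotaE_jE, wF_jFd]
  · rintro x y ⟨a, ha⟩ ⟨b, hb⟩
    exact ⟨a + b, by rw [map_add, map_add, map_add, ha, hb]⟩
  · rintro x y ⟨a, ha⟩ ⟨b, hb⟩
    exact ⟨a * b, by rw [map_mul, map_mul, map_mul, ha, hb]⟩
  · rintro x ⟨a, ha⟩
    exact ⟨a⁻¹, by rw [map_inv₀, map_inv₀, map_inv₀, ha]⟩

/-- The Fricke involution of `F_{N,E}`, as a function. -/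
def frickeFun (f : _root_.Fermat.Agent.A2.Mod.FE E N) : _root_.Fermat.Agent.A2.Mod.FE E N := Classical.choose (exists_iotaE_eq_wF E N f)

theorem iotaE_frickeFun (f : _root_.Fermat.Agent.A2.Mod.FE E N) : iotaE E N (frickeFun E N f) = wF N (iotaE E N f) :=
  Classical.choose_spec (exists_iotaE_eq_wF E N f)

/-- The Fricke involution of `F_{N,E}`, as an `E`-algebra homomorphism. -/
def frickeHom : _root_.Fermat.Agent.A2.Mod.FE E N →ₐ[E] _root_.Fermat.Agent.A2.Mod.FE E N where
  toFun := frickeFun E N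
  map_one' := iotaE_injective E N (by rw [iotaE_frickeFun, map_one, map_one])
  map_mul' x y := iotaE_injective E N (by
    rw [iotaE_frickeFun, map_mul, map_mul, map_mul, iotaE_frickeFun, iotaE_frickeFun])
  map_zero' := iotaE_injective E N (by rw [iotaE_frickeFun, map_zero, map_zero])
  map_add' x y := iotaE_injective E N (by
    rw [iotaE_frickeFun, map_add, map_add, map_add, iotaE_frickeFun, iotaE_frickeFun])
  commutes' e := iotaE_injective E N (by
    rw [iotaE_frickeFun, iotaE_algebraMap, AlgEquiv.commutes])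

theorem iotaE_frickeHom (f : _root_.Fermat.Agent.A2.Mod.FE E N) : iotaE E N (frickeHom E N f) = wF N (iotaE E N f) :=
  iotaE_frickeFun E N f

theorem frickeHom_frickeHom (f : _root_.Fermat.Agent.A2.Mod.FE E N) : frickeHom E N (frickeHom E N f) = f :=
  iotaE_injective E N (by rw [iotaE_frickeHom, iotaE_frickeHom, wF_wF])

/-- **The Fricke involution `W_E` of `F_{N,E}` over `E`.** -/
def frickeE : _root_.Fermat.Agent.A2.Mod.FE E N ≃ₐ[E] _root_.Fermat.Agent.A2.Mod.FE E N :=
  AlgEquiv.ofAlgHom (frickeHom E N) (frickeHom E N)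
    (AlgHom.ext fun f => frickeHom_frickeHom E N f)
    (AlgHom.ext fun f => frickeHom_frickeHom E N f)

/-- `ι (W_E f) = w_N (ι f)`. -/
theorem iotaE_frickeE (f : _root_.Fermat.Agent.A2.Mod.FE E N) : iotaE E N (frickeE E N f) = wF N (iotaE E N f) :=
  iotaE_frickeFun E N f

theorem frickeE_frickeE (f : _root_.Fermat.Agent.A2.Mod.FE E N) : frickeE E N (frickeE E N f) = f :=
  frickeHom_frickeHom E N f

theorem frickeE_jE (d : ℕ) [NeZero d] (hd : d ∣ N) :
    haveI := neZero_div N hd
    frickeE E N (jE E N d hd) = jE E N (N / d) (Nat.div_dvd_of_dvd hd) := by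
  haveI := neZero_div N hd
  apply iotaE_injective E N
  rw [iotaE_frickeE, iotaE_jE, iotaE_jE, wF_jFd]

theorem isFricke_frickeE : IsFricke E N (frickeE E N) := by
  refine ⟨?_, frickeE_frickeE E N⟩
  intro d d' _ _ hd hd' hdd
  have hN : 0 < N := Nat.pos_of_ne_zero (NeZero.ne N)
  have hd0 : 0 < d := Nat.pos_of_dvd_of_pos hd hN
  have h : N / d = d' := Nat.div_eq_of_eq_mul_right hd0 hdd.symm
  haveI := neZero_div N hd
  rw [frickeE_jE]
  exact jE_congr E N h _ _

end L4

/-- **L4** (`FrickeExists`). -/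
theorem frickeExists (E : IntermediateField ℚ _root_.Fermat.Agent.A2.Mod.Qb) : FrickeExistsStatement E := by
  intro N hN
  haveI : NeZero N := ⟨hN⟩
  exact ⟨frickeE E N, isFricke_frickeE E N⟩

end Fermat.Agent.A2.Mod.H751

end
end
-- ===== PACK-END A2/Mod/H751/Fricke.lean

-- ===== PACK-BEGIN S18/H876/Degree.lean
section





/-!
# S18 / d2 : the degree `[F_M : F_N] = ψ(M) / ψ(N)` and the hypothesis-free transfer

* `psi_mul_finrank : ψ(N) * [F_M : F_N] = ψ(M)` for `N ∣ M` (from landed S24: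
  `ModularPackage.finrank_eq`, `card_XX`).
* `core_descend_prime` : `p` prime, `p ∤ N`, `gcd(p + 1, m) = 1`
    ⟹ `CoreStatement (p * N) A m → CoreStatement N A m`.
* `node_d2` : the node D2 of the row skeleton, for `levelM N ℓ`.
-/

set_option autoImplicit false

noncomputable section

namespace Fermat.Agent.S18.H876

open ModularCurve AlgebraicCurve HahnSeries Fermat.Agent.S24

section Degree

variable {N M : ℕ} [NeZero N] [NeZero M]

theorem coe_jF' : ((jF N : FF N) : LaurentSeries Qb) = coeffEmb Qb jq := rfl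

theorem barIncl_jF (h : N ∣ M) : barIncl h (jF N) = jF M := by
  apply Subtype.ext
  rw [coe_barIncl, coe_jF', coe_jF']

/-- `Q̄(j) ⊆ F_N`. -/
abbrev jSub (N : ℕ) [NeZero N] : IntermediateField Kbar (FF N) :=
  IntermediateField.adjoin Kbar {jF N}

theorem jSub_map (h : N ∣ M) : (jSub N).map (barIncl h) = jSub M := by
  rw [jSub, IntermediateField.adjoin_map, Set.image_singleton, barIncl_jF]

set_option synthInstance.maxHeartbeats 400000 in
/-- The isomorphism `Q̄(j) ⊆ F_N` with `Q̄(j) ⊆ F_M`. -/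
def jSubEquiv (h : N ∣ M) : jSub N ≃ₐ[Kbar] jSub M :=
  ((jSub N).equivMap (barIncl h)).trans (IntermediateField.equivOfEq (jSub_map h))

set_option synthInstance.maxHeartbeats 400000 in
theorem coe_jSubEquiv (h : N ∣ M) (a : jSub N) :
    ((jSubEquiv h a : jSub M) : FF M) = barIncl h (a : FF N) := by
  rw [jSubEquiv, AlgEquiv.trans_apply, IntermediateField.equivOfEq_apply]
  exact IntermediateField.coe_equivMap_apply _ _ _

set_option synthInstance.maxHeartbeats 400000 in
/-- `ψ(N) · [F_M : F_N] = ψ(M)`. -/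
theorem psi_mul_finrank (h : N ∣ M) :
    dedekindPsi N * @Module.finrank (FF N) (FF M) _ _ (barAlgebra h).toModule
      = dedekindPsi M := by
  obtain ⟨PN⟩ := nonempty_modularPackage N
  obtain ⟨PM⟩ := nonempty_modularPackage M
  letI := barAlgebra h
  letI algJ : Algebra (jSub N) (FF M) :=
    ((algebraMap (FF N) (FF M)).comp (algebraMap (jSub N) (FF N))).toAlgebra
  haveI : IsScalarTower (jSub N) (FF N) (FF M) :=
    IsScalarTower.of_algebraMap_eq fun _ => rfl
  have h1 : Module.finrank (jSub N) (FF N) = dedekindPsi N := by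
    rw [← card_XX N]; exact PN.finrank_eq
  have h2 : Module.finrank (jSub M) (FF M) = dedekindPsi M := by
    rw [← card_XX M]; exact PM.finrank_eq
  have h3 : Module.finrank (jSub N) (FF M) = Module.finrank (jSub M) (FF M) := by
    refine Algebra.finrank_eq_of_equiv_equiv (jSubEquiv h).toRingEquiv (RingEquiv.refl (FF M)) ?_
    refine RingHom.ext fun a => ?_
    exact coe_jSubEquiv h a
  haveI : Module.Free (jSub N) (FF N) := Module.Free.of_divisionRing _ _
  haveI : Module.Free (FF N) (FF M) := Module.Free.of_divisionRing _ _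
  rw [← h1, ← h2, ← h3]
  exact Module.finrank_mul_finrank (jSub N) (FF N) (FF M)

theorem dedekindPsi_pos' (n : ℕ) (hn : n ≠ 0) : 0 < dedekindPsi n := by
  unfold dedekindPsi
  have h1 : (1 : ℕ) ∈ n.divisors.filter Squarefree :=
    Finset.mem_filter.2 ⟨Nat.one_mem_divisors.2 hn, squarefree_one⟩
  calc 0 < n / 1 := by rw [Nat.div_one]; exact Nat.pos_of_ne_zero hn
    _ ≤ ∑ d ∈ n.divisors.filter Squarefree, n / d :=
        Finset.single_le_sum (f := fun d => n / d) (fun _ _ => Nat.zero_le _) h1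

set_option synthInstance.maxHeartbeats 400000 in
theorem finrank_bar_pos (h : N ∣ M) :
    0 < @Module.finrank (FF N) (FF M) _ _ (barAlgebra h).toModule := by
  have h1 := psi_mul_finrank h
  have h2 := dedekindPsi_pos' M (NeZero.ne M)
  rcases Nat.eq_zero_or_pos (@Module.finrank (FF N) (FF M) _ _ (barAlgebra h).toModule)
    with h0 | hpos
  · rw [h0, mul_zero] at h1
    omega
  · exact hpos

set_option synthInstance.maxHeartbeats 400000 in
theorem finite_bar (h : N ∣ M) :
    @Module.Finite (FF N) (FF M) _ _ (barAlgebra h).toModule := by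
  letI := barAlgebra h
  haveI : Module.Free (FF N) (FF M) := Module.Free.of_divisionRing _ _
  exact Module.finite_of_finrank_pos (finrank_bar_pos h)

end Degree

/-! ### Hypothesis-free transfer -/

/-- **d2, general form**: `N ∣ M` and `ψ(M) = d · ψ(N)` with `gcd(d, m) = 1`. -/
theorem core_descend_of_psi {N M : ℕ} [NeZero N] [NeZero M] (h : N ∣ M)
    (A : ValuationSubring Qb) (m d : ℕ) (hd : dedekindPsi M = d * dedekindPsi N)
    (hcop : d.Coprime m) (hM : CoreStatement M A m) : CoreStatement N A m := by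
  refine core_descend_of_coprime h A m (finite_bar h) ?_ hM
  have h1 := psi_mul_finrank h
  have h2 := dedekindPsi_pos' N (NeZero.ne N)
  have h3 : @Module.finrank (FF N) (FF M) _ _ (barAlgebra h).toModule = d := by
    rw [hd, mul_comm] at h1
    exact Nat.eq_of_mul_eq_mul_right h2 h1
  rw [show @Module.finrank (modularFunctionFieldBar N) (modularFunctionFieldBar M) _ _
    (barAlgebra h).toModule = d from h3]
  exact hcop

/-- **d2, prime form**: `p ∤ N` prime, `gcd(p + 1, m) = 1`. -/
theorem core_descend_prime {N : ℕ} [NeZero N] (p : ℕ) (hp : p.Prime) (hpN : ¬ p ∣ N)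
    (A : ValuationSubring Qb) (m : ℕ) (hcop : (p + 1).Coprime m)
    (hM : CoreStatement (p * N) A m) : CoreStatement N A m := by
  haveI : NeZero (p * N) := ⟨mul_ne_zero hp.ne_zero (NeZero.ne N)⟩
  exact core_descend_of_psi (Dvd.intro_left p rfl) A m (p + 1)
    (Fermat.Agent.S20.Comb694.dedekindPsi_prime_mul_of_not_dvd p N hp (NeZero.ne N) hpN) hcop hM

/-- **NODE D2** of the row skeleton (`levelM N ℓ` unfolded). -/
theorem node_d2 (N : ℕ) [NeZero N] {ℓ : ℕ} [Fact ℓ.Prime] (_hℓN : ¬ ℓ ∣ N)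
    (A : ValuationSubring Qb) (m : ℕ) (hm : ¬ ℓ ∣ m) :
    CoreStatement (if ℓ = 3 then Nat.lcm N 2 else if ℓ = 2 then Nat.lcm N 3 else N) A m →
      CoreStatement N A m := by
  split_ifs with h3 h2
  · subst h3
    by_cases h : 2 ∣ N
    · rw [Nat.lcm_eq_left h]
      exact id
    · have hcop : Nat.Coprime N 2 :=
        (Nat.coprime_comm.1 ((Nat.Prime.coprime_iff_not_dvd Nat.prime_two).2 h))
      rw [hcop.lcm_eq_mul, mul_comm]
      refine core_descend_prime 2 Nat.prime_two h A m ?_
      exact (Nat.Prime.coprime_iff_not_dvd Nat.prime_three).2 hm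
  · subst h2
    by_cases h : 3 ∣ N
    · rw [Nat.lcm_eq_left h]
      exact id
    · have hcop : Nat.Coprime N 3 :=
        (Nat.coprime_comm.1 ((Nat.Prime.coprime_iff_not_dvd Nat.prime_three).2 h))
      rw [hcop.lcm_eq_mul, mul_comm]
      refine core_descend_prime 3 Nat.prime_three h A m ?_
      have h2m : Nat.Coprime 2 m := (Nat.Prime.coprime_iff_not_dvd Nat.prime_two).2 hm
      exact Nat.Coprime.pow_left 2 h2m
  · exact id

end Fermat.Agent.S18.H876

end
end
-- ===== PACK-END S18/H876/Degree.lean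

-- ===== PACK-BEGIN S18/H24/Finite.lean
section




/-!
# S18 / node_mod, part G-FLD (helper24) — the field `finite` for `x = j`

`field_finite_j` : for every intermediate field `E` of `Q̄/ℚ` and every level `M ≥ 1`,

    ∃ s : Finset (Om M), ↑s ⊆ Fc M E ∧ ∀ f ∈ Fc M E, f ∈ Submodule.span (ratField (Ec M E) (jOm M)) ↑s

(exact type of the field `finite` of `Alg.GoodModel` at the concrete objects, `x = jOm M`).

Proof: `Fc = Ec(j)(j_d : d ∣ M)`, finitely many generators, each integral over `ℤ[j]`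
(modular polynomials, S28 `H867.coreData_integral` + `H807.nonempty_modPolyData`).
`field_finite_of_mem` : the same for any coordinate `x ∈ Fc` with `j ∈ Ec(x)` (e.g. `t₂`, `t₃`).
-/

set_option autoImplicit false

noncomputable section

namespace Fermat.Agent.S18.H24

open ModularCurve AlgebraicCurve HahnSeries Fermat.Agent.S18 Fermat.Agent.S18.Mod
open Fermat.Agent.S18.Alg Fermat.Agent.S18.H456 Fermat.Agent.S28 Polynomial

variable (M : ℕ) [NeZero M] (E : IntermediateField ℚ Qb)

/-- `ℤ[Y] → Ω`, `Y ↦ j`. -/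
def evJOm : Polynomial ℤ →+* Om M := (Polynomial.aeval (R := ℤ) (jOm M)).toRingHom

/-- The subtype map `Ω → Q̄((q))` as a ring hom. -/
abbrev valHom : Om M →+* LaurentSeries Qb := (modularFunctionFieldBar M).val.toRingHom

theorem valHom_injective : Function.Injective (valHom M) := Subtype.val_injective

theorem val_jd' (d : ℕ) [NeZero d] (hd : d ∣ M) :
    valHom M (jd M d hd) = coeffMap (Int.castRingHom Qb) (qExpand ℤ d (jqModC ℤ)) := by
  show coeffEmb Qb (qExpand ℚ d jq) = _
  have h1 : coeffEmb Qb (qExpand ℚ d jq) = jqNModC Qb d := coeffMap_jqNModC (algebraMap ℚ Qb) d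
  have h2 : coeffMap (Int.castRingHom Qb) (jqNModC ℤ d) = jqNModC Qb d :=
    coeffMap_jqNModC (Int.castRingHom Qb) d
  exact h1.trans h2.symm

theorem val_jOm' : valHom M (jOm M) = coeffMap (Int.castRingHom Qb) (jqModC ℤ) := by
  show ((jOm M : Om M) : LaurentSeries Qb) = _
  rw [val_jOm, coeffMap_jqModC]

/-- compatibility of the two evaluations `ℤ[Y] → Q̄((q))`. -/
theorem valHom_comp_evJOm :
    (valHom M).comp (evJOm M) =
      (coeffMap (Int.castRingHom Qb)).comp (evalAt (jqModC ℤ)) := by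
  apply Polynomial.ringHom_ext
  · intro a
    simp [evJOm, evalAt]
  · show valHom M (Polynomial.aeval (jOm M) (X : Polynomial ℤ)) =
      coeffMap (Int.castRingHom Qb) (Polynomial.aeval (jqModC ℤ) (X : Polynomial ℤ))
    rw [Polynomial.aeval_X, Polynomial.aeval_X]
    exact val_jOm' M

/-- `j_d` is a root of a monic polynomial with coefficients in `ℤ[j] ⊆ Ω`. -/
theorem exists_monic_root_jd (d : ℕ) [NeZero d] (hd : d ∣ M) :
    ∃ P : Polynomial (Polynomial ℤ), P.Monic ∧ (P.map (evJOm M)).eval (jd M d hd) = 0 := by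
  obtain ⟨P, hP, hPe⟩ := H867.coreData_integral M
    (fun p hp _ _ => H807.nonempty_modPolyData p hp) d hd
  refine ⟨P, hP, ?_⟩
  apply valHom_injective M
  rw [map_zero, Polynomial.eval_map, Polynomial.hom_eval₂, valHom_comp_evJOm, val_jd',
    ← Polynomial.hom_eval₂, hPe, map_zero]

theorem jOm_mem_ratField : jOm M ∈ ratField (Ec M E) (jOm M) :=
  Subfield.subset_closure (Or.inr rfl)

theorem Ec_le_ratField (x : Om M) : Ec M E ≤ ratField (Ec M E) x :=
  fun _ h => Subfield.subset_closure (Or.inl h)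

theorem evJOm_mem_ratField (p : Polynomial ℤ) : evJOm M p ∈ ratField (Ec M E) (jOm M) := by
  show Polynomial.aeval (jOm M) p ∈ _
  rw [Polynomial.aeval_def, Polynomial.eval₂_eq_sum_range]
  refine Subfield.sum_mem _ fun i _ => ?_
  refine mul_mem ?_ (pow_mem (jOm_mem_ratField M E) i)
  rw [eq_intCast]
  exact intCast_mem _ _

/-- `j_d` is integral over `Ec(j)`. -/
theorem isIntegral_jd (d : ℕ) [NeZero d] (hd : d ∣ M) :
    IsIntegral (ratField (Ec M E) (jOm M)) (jd M d hd) := by
  obtain ⟨P, hP, hroot⟩ := exists_monic_root_jd M d hd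
  have hl : P.map (evJOm M) ∈ Polynomial.lifts (ratField (Ec M E) (jOm M)).subtype := by
    rw [Polynomial.lifts_iff_coeff_lifts]
    intro i
    rw [Polynomial.coeff_map]
    exact ⟨⟨_, evJOm_mem_ratField M E (P.coeff i)⟩, rfl⟩
  obtain ⟨q, hq, -, hqm⟩ := Polynomial.lifts_and_natDegree_eq_and_monic hl (hP.map _)
  refine ⟨q, hqm, ?_⟩
  have : eval₂ (ratField (Ec M E) (jOm M)).subtype (jd M d hd) q =
      eval (jd M d hd) (q.map (ratField (Ec M E) (jOm M)).subtype) := (eval_map _ _).symm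
  rw [show (algebraMap (ratField (Ec M E) (jOm M)) (Om M)) =
    (ratField (Ec M E) (jOm M)).subtype from rfl, this, hq, hroot]

theorem gens_finite : (gens M).Finite := by
  classical
  have : gens M ⊆ Set.range (fun d : {d : ℕ // d ∣ M ∧ d ≠ 0} =>
      haveI : NeZero d.1 := ⟨d.2.2⟩
      jd M d.1 d.2.1) := by
    rintro y ⟨d, hd, hdM, rfl⟩
    exact ⟨⟨d, hdM, hd.out⟩, rfl⟩
  refine Set.Finite.subset ?_ this
  have hfin : Finite {d : ℕ // d ∣ M ∧ d ≠ 0} := by
    have : {d : ℕ | d ∣ M ∧ d ≠ 0} ⊆ (M.divisors : Set ℕ) := by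
      intro d hd
      exact Nat.mem_divisors.mpr ⟨hd.1, NeZero.ne M⟩
    exact Set.Finite.subset (Finset.finite_toSet _) this
  exact Set.finite_range _

/-- `Fc` as an intermediate field over `Ec(j)`. -/
theorem Fc_eq_adjoin :
    (Fc M E : Set (Om M)) =
      (IntermediateField.adjoin (ratField (Ec M E) (jOm M)) (gens M) : Set (Om M)) := by
  have hjF : jOm M ∈ Fc M E :=
    Subfield.subset_closure (Or.inr ⟨1, inferInstance, one_dvd M, rfl⟩)
  have hK : ratField (Ec M E) (jOm M) ≤ Fc M E := by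
    refine Subfield.closure_le.mpr ?_
    rintro y (hy | hy)
    · exact field_E_le_F M E hy
    · rw [Set.mem_singleton_iff] at hy
      rw [hy]; exact hjF
  apply Set.Subset.antisymm
  · -- `Fc ⊆ adjoin`
    have : Fc M E ≤ (IntermediateField.adjoin (ratField (Ec M E) (jOm M)) (gens M)).toSubfield := by
      refine Subfield.closure_le.mpr ?_
      rintro y (hy | hy)
      · exact IntermediateField.algebraMap_mem
          (IntermediateField.adjoin (ratField (Ec M E) (jOm M)) (gens M))
          (⟨y, Ec_le_ratField M E _ hy⟩ : ratField (Ec M E) (jOm M))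
      · exact IntermediateField.subset_adjoin _ _ hy
    exact this
  · -- `adjoin ⊆ Fc`
    intro y hy
    have h : IntermediateField.adjoin (ratField (Ec M E) (jOm M)) (gens M) ≤
        Subfield.toIntermediateField (Fc M E) (fun x => hK x.2) := by
      rw [IntermediateField.adjoin_le_iff]
      intro z hz
      exact Subfield.subset_closure (Or.inr hz)
    exact h hy

/-- **field `finite` for `x = j`.** -/
theorem field_finite_j :
    ∃ s : Finset (Om M), (s : Set (Om M)) ⊆ Fc M E ∧
      ∀ f ∈ Fc M E, f ∈ Submodule.span (ratField (Ec M E) (jOm M)) (s : Set (Om M)) := by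
  classical
  set K := ratField (Ec M E) (jOm M) with hKdef
  set L := IntermediateField.adjoin K (gens M) with hLdef
  have hint : ∀ y ∈ gens M, IsIntegral K y := by
    rintro y ⟨d, hd, hdM, rfl⟩
    exact isIntegral_jd M E d hdM
  haveI : Finite (gens M) := (gens_finite M).to_subtype
  haveI hfd : FiniteDimensional K L := IntermediateField.finiteDimensional_adjoin hint
  -- a finite spanning set of `L` over `K`
  obtain ⟨s, hs⟩ := (Module.finite_def (R := K) (M := L)).mp hfd
  refine ⟨s.image (fun y : L => (y : Om M)), ?_, ?_⟩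
  · intro y hy
    rw [Finset.coe_image] at hy
    obtain ⟨z, -, rfl⟩ := hy
    have h0 : (z : Om M) ∈
        (IntermediateField.adjoin (ratField (Ec M E) (jOm M)) (gens M) : Set (Om M)) := z.2
    rw [← Fc_eq_adjoin M E] at h0
    exact h0
  · intro f hf
    have hfL : f ∈ L := by
      have h0 : f ∈
          (IntermediateField.adjoin (ratField (Ec M E) (jOm M)) (gens M) : Set (Om M)) := by
        rw [← Fc_eq_adjoin M E]; exact hf
      exact h0
    have h1 : (⟨f, hfL⟩ : L) ∈ Submodule.span K (s : Set L) := by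
      rw [hs]; exact Submodule.mem_top
    have h2 := Submodule.mem_map_of_mem (f := (L.val.toLinearMap : L →ₗ[K] Om M)) h1
    rw [Submodule.map_span] at h2
    rw [Finset.coe_image]
    exact h2

omit [NeZero M] in
theorem span_mono_subfield {K₁ K₂ : Subfield (Om M)} (h : K₁ ≤ K₂) (s : Set (Om M)) {f : Om M}
    (hf : f ∈ Submodule.span K₁ s) : f ∈ Submodule.span K₂ s := by
  induction hf using Submodule.span_induction with
  | mem x hx => exact Submodule.subset_span hx
  | zero => exact Submodule.zero_mem _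
  | add x y _ _ hx hy => exact Submodule.add_mem _ hx hy
  | smul c x _ hx =>
    have : c • x = (⟨(c : Om M), h c.2⟩ : K₂) • x := rfl
    rw [this]
    exact Submodule.smul_mem _ _ hx

/-- **field `finite`** for every admissible coordinate. -/
theorem field_finite {ℓ : ℕ} {x : Om M} {S : Finset (Om M)} (hx : IsCoordinate M ℓ x S) :
    ∃ s : Finset (Om M), (s : Set (Om M)) ⊆ Fc M E ∧
      ∀ f ∈ Fc M E, f ∈ Submodule.span (ratField (Ec M E) x) (s : Set (Om M)) := by
  have hx0 : x ≠ 0 := by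
    rintro rfl
    exact field_x_transcendental M hx isAlgebraic_zero
  have hxK : x ∈ ratField (Ec M E) x := Subfield.subset_closure (Or.inr rfl)
  have hnat : ∀ n : ℕ, (n : Om M) ∈ ratField (Ec M E) x := fun n => natCast_mem _ n
  -- `j ∈ Ec(x)`
  have hj : jOm M ∈ ratField (Ec M E) x := by
    rcases hx with ⟨-, rfl, -⟩ | ⟨h | h, -⟩
    · exact hxK
    · obtain ⟨-, hid, -⟩ := h
      have : jOm M = (x + 256) ^ 3 * (x ^ 2)⁻¹ := by
        rw [← hid]; field_simp
      rw [this]
      exact mul_mem (pow_mem (add_mem hxK (by exact_mod_cast hnat 256)) 3)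
        (inv_mem (pow_mem hxK 2))
    · obtain ⟨-, hid, -⟩ := h
      have : jOm M = (x + 27) * (x + 243) ^ 3 * (x ^ 3)⁻¹ := by
        rw [← hid]; field_simp
      rw [this]
      exact mul_mem (mul_mem (add_mem hxK (by exact_mod_cast hnat 27))
        (pow_mem (add_mem hxK (by exact_mod_cast hnat 243)) 3)) (inv_mem (pow_mem hxK 3))
  have hle : ratField (Ec M E) (jOm M) ≤ ratField (Ec M E) x := by
    refine Subfield.closure_le.mpr ?_
    rintro y (hy | hy)
    · exact Ec_le_ratField M E x hy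
    · rw [Set.mem_singleton_iff] at hy
      rw [hy]; exact hj
  obtain ⟨s, hs, hspan⟩ := field_finite_j M E
  exact ⟨s, hs, fun f hf => span_mono_subfield M hle _ (hspan f hf)⟩

end Fermat.Agent.S18.H24

end
end
-- ===== PACK-END S18/H24/Finite.lean

-- ===== PACK-BEGIN S18/H558/BranchJ.lean
section



/-!
# S18 / MOD M2 (part 1): char-0 ramification of `F_M / ℚ̄(j)` in Prelude `Place` language

From the landed S24 analytic core (`H997.analyticCore`, `H117` local theorem), for every level `N`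
(`FF N = modularFunctionFieldBar N`, `jF N` the `j`-function, `Kbar = ℚ̄`):

* `ord_j_sub_eq_one`   : `a ≠ 0`, `a ≠ 1728`, `0 < v.ord (j - a)` ⟹ `v.ord (j - a) = 1`;
* `ord_j_dvd_three`    : `0 < v.ord j` ⟹ `v.ord j ∣ 3`;
* `ord_j_sub_1728_dvd_two` : `0 < v.ord (j - 1728)` ⟹ `v.ord (j - 1728) ∣ 2`;
* `finrank_jF`         : `[FF N : ℚ̄(j)] = #(SL₂(ℤ)/Γ₀(N))`.
-/

set_option autoImplicit false

noncomputable section

open AlgebraicCurve ModularCurve
open scoped MatrixGroups

namespace Fermat.Agent.S18.H558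

open Fermat.Agent.S24

variable (N : ℕ) [NeZero N]

/-- `-1` acts trivially on `SL₂(ℤ) / Γ₀(N)`. -/
theorem permOf_neg_one : permOf N (-1 : SL(2, ℤ)) = 1 := by
  ext x
  obtain ⟨g, rfl⟩ := QuotientGroup.mk_surjective x
  show ((-1 : SL(2, ℤ)) • (g : XX N)) = (g : XX N)
  rw [MulAction.Quotient.smul_mk, smul_eq_mul]
  apply QuotientGroup.eq.mpr
  have hinv : ((-1 : SL(2, ℤ)))⁻¹ = -1 := by
    rw [inv_eq_iff_eq_inv, eq_comm, inv_eq_iff_mul_eq_one, neg_mul_neg, one_mul]
  have h : (-1 * g)⁻¹ * g = (-1 : SL(2, ℤ)) := by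
    rw [neg_one_mul, ← mul_neg_one, mul_inv_rev, mul_assoc, inv_mul_cancel, mul_one, hinv]
  rw [h, CongruenceSubgroup.Gamma0_mem]
  simp

omit [NeZero N] in
theorem permOf_mul (g h : SL(2, ℤ)) : permOf N (g * h) = permOf N g * permOf N h := by
  ext x
  simp [permOf, mul_smul]

theorem permOf_pow (g : SL(2, ℤ)) (n : ℕ) : permOf N (g ^ n) = permOf N g ^ n := by
  induction n with
  | zero => simp [H997.permOf_one]
  | succ n ih => rw [pow_succ, pow_succ, permOf_mul, ih]

theorem S_sq : ModularGroup.S ^ 2 = (-1 : SL(2, ℤ)) := by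
  apply Subtype.ext
  rw [pow_two, Matrix.SpecialLinearGroup.coe_mul, ModularGroup.coe_S,
    Matrix.SpecialLinearGroup.coe_neg, Matrix.SpecialLinearGroup.coe_one]
  ext i j
  fin_cases i <;> fin_cases j <;> simp [Matrix.mul_apply, Fin.sum_univ_two]

theorem ST_cube : (ModularGroup.S * ModularGroup.T) ^ 3 = (-1 : SL(2, ℤ)) := by
  apply Subtype.ext
  rw [pow_succ, pow_two, Matrix.SpecialLinearGroup.coe_mul, Matrix.SpecialLinearGroup.coe_mul,
    Matrix.SpecialLinearGroup.coe_mul, ModularGroup.coe_S, ModularGroup.coe_T,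
    Matrix.SpecialLinearGroup.coe_neg, Matrix.SpecialLinearGroup.coe_one]
  ext i j
  fin_cases i <;> fin_cases j <;> simp [Matrix.mul_apply, Fin.sum_univ_two]

theorem permOf_inv_pow_eq_one (g : SL(2, ℤ)) (n : ℕ) (hg : g ^ n = -1) :
    (permOf N g⁻¹) ^ n = 1 := by
  rw [H997.permOf_inv, inv_pow, ← permOf_pow, hg, permOf_neg_one, inv_one]

/-- The degree of `F_N` over `ℚ̄(j)`. -/
theorem finrank_jF :
    FiniteDimensional ↥(IntermediateField.adjoin Kbar {jF N}) (FF N) ∧
      Module.finrank ↥(IntermediateField.adjoin Kbar {jF N}) (FF N) = Nat.card (XX N) := by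
  obtain ⟨hfd, hle⟩ := Deg457.degree_fields N
  exact ⟨hfd, le_antisymm hle (H997.analyticCore N).card_le_finrank⟩

/-- Generic values of `j` are unramified. -/
theorem ord_j_sub_eq_one (a : Kbar) (h0 : a ≠ 0) (h1 : a ≠ 1728) (v : Place Kbar (FF N))
    (hv : 0 < v.ord (jF N - algebraMap Kbar (FF N) a)) :
    v.ord (jF N - algebraMap Kbar (FF N) a) = 1 := by
  obtain ⟨hfd, hrank⟩ := finrank_jF N
  obtain ⟨Z, -, -, -, h⟩ := local_fin (jF N) hrank a ((H997.analyticCore N).dataFin a)
  exact h ((H997.analyticCore N).dataFin_perm_generic a h0 h1) v hv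

/-- General divisibility: if the `n`-th power of the monodromy at `a` is trivial, every zero of
`j - a` has order dividing `n`. -/
theorem ord_j_sub_dvd (a : Kbar) (n : ℕ)
    (hperm : ((H997.analyticCore N).dataFin a).perm ^ n = 1) (v : Place Kbar (FF N))
    (hv : 0 < v.ord (jF N - algebraMap Kbar (FF N) a)) :
    v.ord (jF N - algebraMap Kbar (FF N) a) ∣ (n : ℤ) := by
  obtain ⟨hfd, hrank⟩ := finrank_jF N
  set L := (H997.analyticCore N).dataFin a with hL
  have hE : IntermediateField.adjoin Kbar {jF N} ≤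
      IntermediateField.adjoin Kbar {jF N - algebraMap Kbar (FF N) a} :=
    (adjoin_sub_algebraMap Kbar (jF N) a).ge
  obtain ⟨x, rfl⟩ := H117.exists_placeOf_eq L _ hE hrank v hv
  exact H117.ord_t_dvd_of_pow_apply_eq L x n (by rw [hperm]; rfl)

theorem dataFin_zero_perm_eq :
    ((H997.analyticCore N).dataFin 0).perm = permOf N (ModularGroup.S * ModularGroup.T)⁻¹ := by
  unfold H997.AnalyticCore.dataFin
  rw [dif_pos rfl]
  rfl

theorem dataFin_1728_perm_eq :
    ((H997.analyticCore N).dataFin 1728).perm = permOf N (ModularGroup.S)⁻¹ := by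
  have h0 : (1728 : Kbar) ≠ 0 := by norm_num
  unfold H997.AnalyticCore.dataFin
  rw [dif_neg h0, dif_pos rfl]
  rfl

/-- Zeros of `j` have order `1` or `3`. -/
theorem ord_j_dvd_three (v : Place Kbar (FF N)) (hv : 0 < v.ord (jF N)) :
    v.ord (jF N) ∣ 3 := by
  have h := ord_j_sub_dvd N 0 3
    (by rw [dataFin_zero_perm_eq]; exact permOf_inv_pow_eq_one N _ 3 ST_cube) v
    (by rwa [map_zero, sub_zero])
  rw [map_zero, sub_zero] at h
  exact_mod_cast h

/-- Zeros of `j - 1728` have order `1` or `2`. -/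
theorem ord_j_sub_1728_dvd_two (v : Place Kbar (FF N))
    (hv : 0 < v.ord (jF N - algebraMap Kbar (FF N) 1728)) :
    v.ord (jF N - algebraMap Kbar (FF N) 1728) ∣ 2 := by
  have h := ord_j_sub_dvd N 1728 2
    (by rw [dataFin_1728_perm_eq]; exact permOf_inv_pow_eq_one N _ 2 S_sq) v hv
  exact_mod_cast h

end Fermat.Agent.S18.H558

end
end
-- ===== PACK-END S18/H558/BranchJ.lean

-- ===== PACK-BEGIN S29/H871/PlaceBC.lean
section


/-!
# S29 / E3 (descent `ℂ → ℚ̄`), part 2: base change of a rational place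

Setting (`IsConstExt K F K' F'`): `F' ⊇ F`, `K' ⊇ K`, the multiplication map
`F ⊗[K] K' → F'` is injective and `F'` is its field of fractions.

For a rational place `v` of `F/K` we construct the place `placeBC v` of `F'/K'` whose valuation
ring is the localisation of `O_v ⊗[K] K'` at the prime `(π ⊗ 1)`.

(helper871)
-/

set_option autoImplicit false
set_option linter.unusedSectionVars false

noncomputable section

namespace Fermat.Agent.S29.H871

open AlgebraicCurve TensorProduct

variable (K F K' F' : Type*) [Field K] [Field F] [Field K'] [Field F']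
  [Algebra K F] [Algebra K' F'] [Algebra K K'] [Algebra F F'] [Algebra K F']
  [IsScalarTower K F F'] [IsScalarTower K K' F']

/-- The multiplication map `F ⊗[K] K' → F'`. -/
def mulMapF : F ⊗[K] K' →ₐ[K] F' :=
  Algebra.TensorProduct.productMap (IsScalarTower.toAlgHom K F F')
    (IsScalarTower.toAlgHom K K' F')

/-- `F'` is the constant field extension of `F` from `K` to `K'`: `F` and `K'` are linearly
disjoint over `K` inside `F'`, and they generate `F'` as a field. -/
class IsConstExt : Prop where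
  inj : Function.Injective (mulMapF K F K' F')
  gen : ∀ z : F', ∃ x y : F ⊗[K] K', mulMapF K F K' F' y ≠ 0 ∧
    z * mulMapF K F K' F' y = mulMapF K F K' F' x

variable {K F K' F'}

@[simp]
theorem mulMapF_tmul (f : F) (c : K') :
    mulMapF K F K' F' (f ⊗ₜ[K] c) = algebraMap F F' f * algebraMap K' F' c := by
  simp [mulMapF]

section MuA

variable (K' F') (v : Place K F)

/-- The multiplication map `O_v ⊗[K] K' → F'`. -/
def muA : v.toValuationSubring ⊗[K] K' →ₐ[K] F' :=
  Algebra.TensorProduct.productMap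
    ((IsScalarTower.toAlgHom K F F').comp (IsScalarTower.toAlgHom K v.toValuationSubring F))
    (IsScalarTower.toAlgHom K K' F')

variable {K' F' v}

@[simp]
theorem muA_tmul (a : v.toValuationSubring) (c : K') :
    muA K' F' v (a ⊗ₜ[K] c) = algebraMap F F' (a : F) * algebraMap K' F' c := by
  simp [muA]

theorem muA_piT (π : v.toValuationSubring) :
    muA K' F' v (piT π) = algebraMap F F' (π : F) := by
  rw [piT, muA_tmul, map_one, mul_one]

theorem muA_eq_mulMapF_comp (x : v.toValuationSubring ⊗[K] K') :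
    muA K' F' v x = mulMapF K F K' F'
      (LinearMap.rTensor K' (IsScalarTower.toAlgHom K v.toValuationSubring F).toLinearMap x) := by
  induction x using TensorProduct.induction_on with
  | zero => simp
  | tmul a c =>
    rw [muA_tmul, LinearMap.rTensor_tmul, mulMapF_tmul]
    rfl
  | add x y hx hy => rw [map_add, map_add, map_add, hx, hy]

/-- Clearing denominators in `F`. -/
theorem exists_mul_pow_mem {π : v.toValuationSubring} (hπ : Irreducible π) (f : F) :
    ∃ (n : ℕ) (a : v.toValuationSubring), f * (π : F) ^ n = (a : F) := by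
  by_cases hf : f ∈ v.toValuationSubring
  · exact ⟨0, ⟨f, hf⟩, by simp⟩
  · have hf0 : f ≠ 0 := fun h => hf (h ▸ zero_mem _)
    have hinv : f⁻¹ ∈ v.toValuationSubring :=
      (v.toValuationSubring.mem_or_inv_mem f).resolve_left hf
    have hinv0 : (⟨f⁻¹, hinv⟩ : v.toValuationSubring) ≠ 0 := by
      intro h
      exact inv_ne_zero hf0 (congrArg Subtype.val h)
    obtain ⟨n, u, hu⟩ := IsDiscreteValuationRing.eq_unit_mul_pow_irreducible hinv0 hπ
    refine ⟨n, ((u⁻¹ : (v.toValuationSubring)ˣ) : v.toValuationSubring), ?_⟩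
    have h1 : f⁻¹ = ((u : v.toValuationSubring) : F) * (π : F) ^ n := by
      have := congrArg Subtype.val hu
      simpa using this
    have h2 : ((u : v.toValuationSubring) : F) * (((u⁻¹ : (v.toValuationSubring)ˣ) :
        v.toValuationSubring) : F) = 1 := by
      have h := congrArg (fun t : v.toValuationSubring => (t : F)) (Units.mul_inv u)
      exact h
    have hπ0 : (π : F) ≠ 0 := by
      intro h
      exact hπ.ne_zero (Subtype.ext h)
    have hu0 : ((u : v.toValuationSubring) : F) ≠ 0 := by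
      intro h
      rw [h, zero_mul] at h2
      exact zero_ne_one h2
    have h3 : f = (((u : v.toValuationSubring) : F) * (π : F) ^ n)⁻¹ := by
      rw [← h1, inv_inv]
    rw [h3]
    field_simp
    exact h2.symm

/-- Clearing denominators in `F ⊗[K] K'`. -/
theorem exists_mulMapF_mul_pow_eq {π : v.toValuationSubring} (hπ : Irreducible π)
    (x : F ⊗[K] K') :
    ∃ (n : ℕ) (x' : v.toValuationSubring ⊗[K] K'),
      mulMapF K F K' F' x * (algebraMap F F' (π : F)) ^ n = muA K' F' v x' := by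
  induction x using TensorProduct.induction_on with
  | zero => exact ⟨0, 0, by simp⟩
  | tmul f c =>
    obtain ⟨n, a, ha⟩ := exists_mul_pow_mem hπ f
    refine ⟨n, a ⊗ₜ[K] c, ?_⟩
    rw [mulMapF_tmul, muA_tmul, ← ha, map_mul, map_pow]
    ring
  | add x y hx hy =>
    obtain ⟨n, x', hx'⟩ := hx
    obtain ⟨m, y', hy'⟩ := hy
    refine ⟨n + m, x' * piT π ^ m + y' * piT π ^ n, ?_⟩
    rw [map_add, map_add, map_mul, map_mul, map_pow, map_pow, muA_piT, ← hx', ← hy']
    ring

variable [IsConstExt K F K' F']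

theorem muA_injective : Function.Injective (muA K' F' v) := by
  have h1 : Function.Injective
      (LinearMap.rTensor K' (IsScalarTower.toAlgHom K v.toValuationSubring F).toLinearMap) := by
    apply Module.Flat.rTensor_preserves_injective_linearMap
    intro a b hab
    exact Subtype.ext hab
  intro x y hxy
  rw [muA_eq_mulMapF_comp, muA_eq_mulMapF_comp] at hxy
  exact h1 (IsConstExt.inj hxy)

theorem muA_ne_zero {x : v.toValuationSubring ⊗[K] K'} (hx : x ≠ 0) : muA K' F' v x ≠ 0 := by
  intro h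
  exact hx (muA_injective (by rw [h, map_zero]))

theorem algebraMap_pi_ne_zero {π : v.toValuationSubring} (hπ : Irreducible π) :
    algebraMap F F' (π : F) ≠ 0 := by
  intro h
  have : (π : F) = 0 := (algebraMap F F').injective (by rw [h, map_zero])
  exact hπ.ne_zero (Subtype.ext this)

/-- Every nonzero element of `F'` is a quotient of two nonzero elements of `O_v ⊗[K] K'`. -/
theorem exists_muA_quotient {π : v.toValuationSubring} (hπ : Irreducible π) {z : F'}
    (hz : z ≠ 0) :
    ∃ x y : v.toValuationSubring ⊗[K] K', x ≠ 0 ∧ y ≠ 0 ∧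
      z * muA K' F' v y = muA K' F' v x := by
  obtain ⟨x, y, hy, hxy⟩ := IsConstExt.gen (K := K) (F := F) (K' := K') z
  obtain ⟨n, x', hx'⟩ := exists_mulMapF_mul_pow_eq (K' := K') (F' := F') hπ x
  obtain ⟨m, y', hy'⟩ := exists_mulMapF_mul_pow_eq (K' := K') (F' := F') hπ y
  have hπ0 := algebraMap_pi_ne_zero (F' := F') hπ
  have hy'0 : muA K' F' v y' ≠ 0 := by
    rw [← hy']
    exact mul_ne_zero hy (pow_ne_zero _ hπ0)
  have key : z * muA K' F' v (y' * piT π ^ n) = muA K' F' v (x' * piT π ^ m) := by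
    rw [map_mul, map_mul, map_pow, map_pow, muA_piT, ← hx', ← hy', ← hxy]
    ring
  have hyn : muA K' F' v (y' * piT π ^ n) ≠ 0 := by
    rw [map_mul, map_pow, muA_piT]
    exact mul_ne_zero hy'0 (pow_ne_zero _ hπ0)
  refine ⟨x' * piT π ^ m, y' * piT π ^ n, ?_, ?_, key⟩
  · intro h
    rw [h, map_zero] at key
    exact mul_ne_zero hz hyn key
  · intro h
    rw [h, map_zero] at hyn
    exact hyn rfl

end MuA

section VS

variable (K' F') {v : Place K F} (hv : IsRationalPlace v) [IsConstExt K F K' F']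

/-- Membership predicate of the extended valuation ring: `z = μ(x)/μ(s)` with `ε(s) ≠ 0`. -/
def IsIntegralBC (z : F') : Prop :=
  ∃ x s : v.toValuationSubring ⊗[K] K', epsHom hv s ≠ 0 ∧ z * muA K' F' v s = muA K' F' v x

variable {K' F'}

theorem eps_ne_zero_ne_zero {s : v.toValuationSubring ⊗[K] K'} (hs : epsHom hv s ≠ 0) :
    s ≠ 0 := by
  intro h
  rw [h, map_zero] at hs
  exact hs rfl

theorem IsIntegralBC.mul {z w : F'} (hz : IsIntegralBC K' F' hv z) (hw : IsIntegralBC K' F' hv w) :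
    IsIntegralBC K' F' hv (z * w) := by
  obtain ⟨x, s, hs, hx⟩ := hz
  obtain ⟨y, t, ht, hy⟩ := hw
  refine ⟨x * y, s * t, ?_, ?_⟩
  · rw [map_mul]
    exact mul_ne_zero hs ht
  · rw [map_mul, map_mul, ← hx, ← hy]
    ring

theorem IsIntegralBC.add {z w : F'} (hz : IsIntegralBC K' F' hv z) (hw : IsIntegralBC K' F' hv w) :
    IsIntegralBC K' F' hv (z + w) := by
  obtain ⟨x, s, hs, hx⟩ := hz
  obtain ⟨y, t, ht, hy⟩ := hw
  refine ⟨x * t + y * s, s * t, ?_, ?_⟩
  · rw [map_mul]
    exact mul_ne_zero hs ht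
  · rw [map_add, map_mul, map_mul, map_mul, ← hx, ← hy]
    ring

theorem IsIntegralBC.neg {z : F'} (hz : IsIntegralBC K' F' hv z) :
    IsIntegralBC K' F' hv (-z) := by
  obtain ⟨x, s, hs, hx⟩ := hz
  refine ⟨-x, s, hs, ?_⟩
  rw [map_neg, ← hx]
  ring

theorem isIntegralBC_muA (x : v.toValuationSubring ⊗[K] K') :
    IsIntegralBC K' F' hv (muA K' F' v x) :=
  ⟨x, 1, by rw [map_one]; exact one_ne_zero, by rw [map_one, mul_one]⟩

theorem isIntegralBC_zero : IsIntegralBC K' F' hv (0 : F') := by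
  have := isIntegralBC_muA (K' := K') (F' := F') hv 0
  rwa [map_zero] at this

theorem isIntegralBC_one : IsIntegralBC K' F' hv (1 : F') := by
  have := isIntegralBC_muA (K' := K') (F' := F') hv 1
  rwa [map_one] at this

theorem isIntegralBC_algebraMap (c : K') : IsIntegralBC K' F' hv (algebraMap K' F' c) := by
  have := isIntegralBC_muA (K' := K') (F' := F') hv ((1 : v.toValuationSubring) ⊗ₜ[K] c)
  rw [muA_tmul] at this
  simpa using this

theorem isIntegralBC_algebraMap_of_mem {f : F} (hf : f ∈ v.toValuationSubring) :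
    IsIntegralBC K' F' hv (algebraMap F F' f) := by
  have := isIntegralBC_muA (K' := K') (F' := F') hv
    ((⟨f, hf⟩ : v.toValuationSubring) ⊗ₜ[K] (1 : K'))
  rw [muA_tmul] at this
  simpa using this

/-- Elements `μ(x)/μ(s)` with `ε x ≠ 0`, `ε s ≠ 0` are units of the extended valuation ring. -/
theorem isIntegralBC_inv_of_eps_ne_zero {z : F'} {x s : v.toValuationSubring ⊗[K] K'}
    (hx : epsHom hv x ≠ 0) (hs : epsHom hv s ≠ 0)
    (h : z * muA K' F' v s = muA K' F' v x) : IsIntegralBC K' F' hv z⁻¹ := by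
  refine ⟨s, x, hx, ?_⟩
  have hx0 := muA_ne_zero (K' := K') (F' := F') (eps_ne_zero_ne_zero hv hx)
  have hs0 := muA_ne_zero (K' := K') (F' := F') (eps_ne_zero_ne_zero hv hs)
  have hz0 : z ≠ 0 := by
    intro hz
    rw [hz, zero_mul] at h
    exact hx0 h.symm
  rw [← h]
  field_simp

/-- **Decomposition**: every nonzero `z : F'` is `u * π^n` (`n : ℤ`) with `u` and `u⁻¹`
integral. -/
theorem exists_unit_mul_zpow_BC {π : v.toValuationSubring} (hπ : Irreducible π) {z : F'}
    (hz : z ≠ 0) :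
    ∃ (u : F') (n : ℤ), IsIntegralBC K' F' hv u ∧ IsIntegralBC K' F' hv u⁻¹ ∧
      z = u * (algebraMap F F' (π : F)) ^ n := by
  obtain ⟨x, y, hx0, hy0, hxy⟩ := exists_muA_quotient (K' := K') (F' := F') hπ hz
  obtain ⟨m, x', hx', hex⟩ := exists_pow_mul_eps_ne_zero hv hπ hx0
  obtain ⟨n, y', hy', hey⟩ := exists_pow_mul_eps_ne_zero hv hπ hy0
  have hπ0 := algebraMap_pi_ne_zero (F' := F') hπ
  have hx'0 := muA_ne_zero (K' := K') (F' := F') (eps_ne_zero_ne_zero hv hex)
  have hy'0 := muA_ne_zero (K' := K') (F' := F') (eps_ne_zero_ne_zero hv hey)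
  set u : F' := muA K' F' v x' / muA K' F' v y' with hu
  have hu1 : u * muA K' F' v y' = muA K' F' v x' := by
    rw [hu]
    field_simp
  have hu2 : u⁻¹ * muA K' F' v x' = muA K' F' v y' := by
    rw [hu]
    field_simp
  refine ⟨u, (m : ℤ) - n, ⟨x', y', hey, hu1⟩, ⟨y', x', hex, hu2⟩, ?_⟩
  rw [hx', hy', map_mul, map_mul, map_pow, map_pow, muA_piT] at hxy
  rw [zpow_sub₀ hπ0, zpow_natCast, zpow_natCast, hu]
  field_simp
  field_simp at hxy
  linear_combination hxy

theorem not_isIntegralBC_inv_pi {π : v.toValuationSubring} (hπ : Irreducible π) (n : ℕ) :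
    ¬ IsIntegralBC K' F' hv ((algebraMap F F' (π : F)) ^ (n + 1))⁻¹ := by
  rintro ⟨x, s, hs, h⟩
  have hπ0 := algebraMap_pi_ne_zero (F' := F') hπ
  have h1 : muA K' F' v s = muA K' F' v (piT π * (piT π ^ n * x)) := by
    rw [map_mul, map_mul, map_pow, muA_piT, ← h]
    field_simp
    ring
  have h2 := muA_injective (K' := K') (F' := F') h1
  apply hs
  rw [h2, map_mul, epsHom_piT hv hπ, zero_mul]

theorem isIntegralBC_pi_pow (π : v.toValuationSubring) (n : ℕ) :
    IsIntegralBC K' F' hv ((algebraMap F F' (π : F)) ^ n) := by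
  have := isIntegralBC_muA (K' := K') (F' := F') hv (piT π ^ n)
  rwa [map_pow, muA_piT] at this

/-- Decomposition of integral elements with a natural exponent. -/
theorem exists_unit_mul_pow_BC {π : v.toValuationSubring} (hπ : Irreducible π) {z : F'}
    (hz : IsIntegralBC K' F' hv z) (hz0 : z ≠ 0) :
    ∃ (u : F') (n : ℕ), IsIntegralBC K' F' hv u ∧ IsIntegralBC K' F' hv u⁻¹ ∧
      z = u * (algebraMap F F' (π : F)) ^ n := by
  obtain ⟨u, k, hu, hu', hzk⟩ := exists_unit_mul_zpow_BC (K' := K') (F' := F') hv hπ hz0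
  have hπ0 := algebraMap_pi_ne_zero (F' := F') hπ
  have hu0 : u ≠ 0 := by
    intro h
    rw [h, zero_mul] at hzk
    exact hz0 hzk
  rcases le_or_gt 0 k with hk | hk
  · obtain ⟨n, rfl⟩ := Int.eq_ofNat_of_zero_le hk
    exact ⟨u, n, hu, hu', by rw [hzk, zpow_natCast]⟩
  · exfalso
    obtain ⟨j, hj⟩ : ∃ j : ℕ, k = -((j : ℤ) + 1) := ⟨(-k - 1).toNat, by omega⟩
    apply not_isIntegralBC_inv_pi (K' := K') (F' := F') hv hπ j
    have : ((algebraMap F F' (π : F)) ^ (j + 1))⁻¹ = u⁻¹ * z := by
      rw [hzk, hj, zpow_neg, ← Nat.cast_succ, zpow_natCast]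
      field_simp
    rw [this]
    exact hu'.mul hv hz

variable (K' F')

/-- The valuation ring of the base change of a rational place. -/
def valuationSubringBC : ValuationSubring F' where
  carrier := {z | IsIntegralBC K' F' hv z}
  mul_mem' := fun hz hw => IsIntegralBC.mul hv hz hw
  one_mem' := isIntegralBC_one hv
  add_mem' := fun hz hw => IsIntegralBC.add hv hz hw
  zero_mem' := isIntegralBC_zero hv
  neg_mem' := fun hz => IsIntegralBC.neg hv hz
  mem_or_inv_mem' := by
    intro z
    by_cases hz : z = 0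
    · left
      rw [hz]
      exact isIntegralBC_zero hv
    obtain ⟨π, hπ⟩ := IsDiscreteValuationRing.exists_irreducible v.toValuationSubring
    obtain ⟨u, k, hu, hu', hzk⟩ := exists_unit_mul_zpow_BC (K' := K') (F' := F') hv hπ hz
    rcases le_total 0 k with hk | hk
    · left
      obtain ⟨n, rfl⟩ := Int.eq_ofNat_of_zero_le hk
      show IsIntegralBC K' F' hv z
      rw [hzk, zpow_natCast]
      exact hu.mul hv (isIntegralBC_pi_pow hv π n)
    · right
      obtain ⟨n, hn⟩ : ∃ n : ℕ, k = -(n : ℤ) := ⟨(-k).toNat, by omega⟩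
      show IsIntegralBC K' F' hv z⁻¹
      have : z⁻¹ = u⁻¹ * (algebraMap F F' (π : F)) ^ n := by
        rw [hzk, hn, zpow_neg, zpow_natCast, mul_inv, inv_inv]
      rw [this]
      exact hu'.mul hv (isIntegralBC_pi_pow hv π n)

variable {K' F'}

theorem mem_valuationSubringBC_iff {z : F'} :
    z ∈ valuationSubringBC K' F' hv ↔ IsIntegralBC K' F' hv z := Iff.rfl

theorem isUnit_of_isIntegralBC_inv {z : valuationSubringBC K' F' hv} (hz0 : (z : F') ≠ 0)
    (hz : IsIntegralBC K' F' hv (z : F')⁻¹) : IsUnit z := by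
  rw [isUnit_iff_exists_inv]
  exact ⟨⟨(z : F')⁻¹, hz⟩, Subtype.ext (mul_inv_cancel₀ hz0)⟩

theorem isIntegralBC_inv_of_isUnit {z : valuationSubringBC K' F' hv} (hz : IsUnit z) :
    IsIntegralBC K' F' hv (z : F')⁻¹ := by
  obtain ⟨w, hw⟩ := isUnit_iff_exists_inv.mp hz
  have h1 : (z : F') * (w : F') = 1 := congrArg Subtype.val hw
  have h2 : (z : F')⁻¹ = (w : F') := inv_eq_of_mul_eq_one_right h1
  rw [h2]
  exact w.2

/-- The uniformizer `π` as an element of the extended valuation ring. -/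
def piBC (π : v.toValuationSubring) : valuationSubringBC K' F' hv :=
  ⟨algebraMap F F' (π : F), isIntegralBC_algebraMap_of_mem hv π.2⟩

theorem not_isUnit_piBC {π : v.toValuationSubring} (hπ : Irreducible π) :
    ¬ IsUnit (piBC (K' := K') (F' := F') hv π) := by
  intro h
  have h1 := isIntegralBC_inv_of_isUnit hv h
  apply not_isIntegralBC_inv_pi (K' := K') (F' := F') hv hπ 0
  simpa [piBC] using h1

theorem associated_piBC_pow {π : v.toValuationSubring} (hπ : Irreducible π)
    {z : valuationSubringBC K' F' hv} (hz : z ≠ 0) :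
    ∃ n : ℕ, Associated (piBC (K' := K') (F' := F') hv π ^ n) z := by
  have hz0 : (z : F') ≠ 0 := fun h => hz (Subtype.ext h)
  obtain ⟨u, n, hu, hu', hzn⟩ := exists_unit_mul_pow_BC (K' := K') (F' := F') hv hπ z.2 hz0
  have hu0 : u ≠ 0 := by
    intro h
    rw [h, zero_mul] at hzn
    exact hz0 hzn
  have hunit : IsUnit (⟨u, hu⟩ : valuationSubringBC K' F' hv) :=
    isUnit_of_isIntegralBC_inv hv hu0 hu'
  refine ⟨n, ?_⟩
  obtain ⟨w, hw⟩ := hunit
  refine ⟨w, Subtype.ext ?_⟩
  show ((piBC (K' := K') (F' := F') hv π ^ n * (w : valuationSubringBC K' F' hv) :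
    valuationSubringBC K' F' hv) : F') = z
  rw [hw]
  push_cast
  rw [hzn]
  simp [piBC, mul_comm]

theorem irreducible_piBC {π : v.toValuationSubring} (hπ : Irreducible π) :
    Irreducible (piBC (K' := K') (F' := F') hv π) := by
  have hπ0 := algebraMap_pi_ne_zero (F' := F') hπ
  rw [irreducible_iff]
  refine ⟨not_isUnit_piBC hv hπ, ?_⟩
  intro a b hab
  have hab' : algebraMap F F' (π : F) = (a : F') * (b : F') := congrArg Subtype.val hab
  have ha0 : (a : F') ≠ 0 := by
    intro h
    rw [h, zero_mul] at hab'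
    exact hπ0 hab'
  have hb0 : (b : F') ≠ 0 := by
    intro h
    rw [h, mul_zero] at hab'
    exact hπ0 hab'
  obtain ⟨u, m, hu, hu', ham⟩ := exists_unit_mul_pow_BC (K' := K') (F' := F') hv hπ a.2 ha0
  obtain ⟨w, n, hw, hw', hbn⟩ := exists_unit_mul_pow_BC (K' := K') (F' := F') hv hπ b.2 hb0
  have hu0 : u ≠ 0 := by
    intro h
    rw [h, zero_mul] at ham
    exact ha0 ham
  have hw0 : w ≠ 0 := by
    intro h
    rw [h, zero_mul] at hbn
    exact hb0 hbn
  rcases Nat.eq_zero_or_pos m with hm | hm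
  · left
    apply isUnit_of_isIntegralBC_inv hv ha0
    rw [ham, hm, pow_zero, mul_one]
    exact hu'
  rcases Nat.eq_zero_or_pos n with hn | hn
  · right
    apply isUnit_of_isIntegralBC_inv hv hb0
    rw [hbn, hn, pow_zero, mul_one]
    exact hw'
  exfalso
  obtain ⟨j, hj⟩ : ∃ j : ℕ, m + n = j + 2 := ⟨m + n - 2, by omega⟩
  apply not_isIntegralBC_inv_pi (K' := K') (F' := F') hv hπ j
  have : ((algebraMap F F' (π : F)) ^ (j + 1))⁻¹ = u * w := by
    rw [ham, hbn] at hab'
    have h3 : (algebraMap F F' (π : F)) ^ (j + 1) * (u * w) = 1 := by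
      have h4 : algebraMap F F' (π : F) * ((algebraMap F F' (π : F)) ^ (j + 1) * (u * w))
          = algebraMap F F' (π : F) * 1 := by
        rw [mul_one]
        conv_rhs => rw [hab']
        rw [show u * (algebraMap F F') ↑π ^ m * (w * (algebraMap F F') ↑π ^ n)
          = u * w * (algebraMap F F') ↑π ^ (m + n) by rw [pow_add]; ring, hj]
        ring
      exact mul_left_cancel₀ hπ0 h4
    exact inv_eq_of_mul_eq_one_right h3
  rw [this]
  exact hu.mul hv hw

variable (K' F')

/-- **Base change of a rational place** along a constant field extension. -/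
def placeBC : Place K' F' where
  toValuationSubring := valuationSubringBC K' F' hv
  algebraMap_mem' := fun c => isIntegralBC_algebraMap hv c
  ne_top' := by
    intro h
    obtain ⟨π, hπ⟩ := IsDiscreteValuationRing.exists_irreducible v.toValuationSubring
    apply not_isIntegralBC_inv_pi (K' := K') (F' := F') hv hπ 0
    have : ((algebraMap F F' (π : F)) ^ (0 + 1))⁻¹ ∈ valuationSubringBC K' F' hv := by
      rw [h]
      exact ValuationSubring.mem_top _
    exact this
  isPrincipalIdealRing' := by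
    obtain ⟨π, hπ⟩ := IsDiscreteValuationRing.exists_irreducible v.toValuationSubring
    have hfact : IsDiscreteValuationRing.HasUnitMulPowIrreducibleFactorization
        (valuationSubringBC K' F' hv) :=
      ⟨piBC hv π, irreducible_piBC hv hπ, fun hx => associated_piBC_pow hv hπ hx⟩
    have := IsDiscreteValuationRing.ofHasUnitMulPowIrreducibleFactorization hfact
    infer_instance

variable {K' F'}

@[simp]
theorem placeBC_toValuationSubring :
    (placeBC K' F' hv).toValuationSubring = valuationSubringBC K' F' hv := rfl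

end VS

end Fermat.Agent.S29.H871

end
end
-- ===== PACK-END S29/H871/PlaceBC.lean

-- ===== PACK-BEGIN S29/H871/PlaceOrd.lean
section


/-!
# S29 / E3, part 3: orders at the base-changed place, uniqueness, injectivity

(helper871)
-/

set_option autoImplicit false
set_option linter.unusedSectionVars false

noncomputable section

namespace Fermat.Agent.S29.H871

open AlgebraicCurve TensorProduct

variable {K F K' F' : Type*} [Field K] [Field F] [Field K'] [Field F']
  [Algebra K F] [Algebra K' F'] [Algebra K K'] [Algebra F F'] [Algebra K F']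
  [IsScalarTower K F F'] [IsScalarTower K K' F'] [IsConstExt K F K' F']

variable {v : Place K F} (hv : IsRationalPlace v)

/-- The order at `placeBC` of `u * π^n`, `u` a unit of the extended valuation ring. -/
theorem ord_placeBC_unit_mul_zpow {π : v.toValuationSubring} (hπ : Irreducible π) {u : F'}
    (hu : IsIntegralBC K' F' hv u) (hu' : IsIntegralBC K' F' hv u⁻¹) (hu0 : u ≠ 0) (n : ℤ) :
    (placeBC K' F' hv).ord (u * (algebraMap F F' (π : F)) ^ n) = n := by
  have hunit : IsUnit (⟨u, hu⟩ : valuationSubringBC K' F' hv) :=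
    isUnit_of_isIntegralBC_inv hv hu0 hu'
  obtain ⟨U, hU⟩ := hunit
  have h := (placeBC K' F' hv).ord_unit_smul_zpow U (irreducible_piBC hv hπ) n
  have hU' : ((U : valuationSubringBC K' F' hv) : F') = u := congrArg Subtype.val hU
  rw [← hU']
  exact h

theorem ord_placeBC_algebraMap (f : F) :
    (placeBC K' F' hv).ord (algebraMap F F' f) = v.ord f := by
  rcases eq_or_ne f 0 with rfl | hf
  · simp
  obtain ⟨π, hπ⟩ := IsDiscreteValuationRing.exists_irreducible v.toValuationSubring
  obtain ⟨u, hu⟩ := v.exists_unit_mul_zpow hf hπ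
  have h1 : algebraMap F F' f = algebraMap F F' ((u : v.toValuationSubring) : F) *
      (algebraMap F F' (π : F)) ^ (v.ord f) := by
    conv_lhs => rw [hu]
    rw [map_mul, map_zpow₀]
  have hu1 : IsIntegralBC K' F' hv (algebraMap F F' ((u : v.toValuationSubring) : F)) :=
    isIntegralBC_algebraMap_of_mem hv (u : v.toValuationSubring).2
  have hu2 : IsIntegralBC K' F' hv (algebraMap F F' ((u : v.toValuationSubring) : F))⁻¹ := by
    have h2 : (algebraMap F F' ((u : v.toValuationSubring) : F))⁻¹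
        = algebraMap F F' (((u⁻¹ : (v.toValuationSubring)ˣ) : v.toValuationSubring) : F) := by
      rw [← map_inv₀]
      congr 1
      have h := congrArg (fun t : v.toValuationSubring => (t : F)) (Units.mul_inv u)
      exact inv_eq_of_mul_eq_one_right h
    rw [h2]
    exact isIntegralBC_algebraMap_of_mem hv ((u⁻¹ : (v.toValuationSubring)ˣ) :
      v.toValuationSubring).2
  have hu0 : algebraMap F F' ((u : v.toValuationSubring) : F) ≠ 0 := by
    intro h
    have h3 : ((u : v.toValuationSubring) : F) = 0 :=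
      (algebraMap F F').injective (by rw [h, map_zero])
    exact u.ne_zero (Subtype.ext h3)
  rw [h1]
  exact ord_placeBC_unit_mul_zpow hv hπ hu1 hu2 hu0 _

theorem ord_placeBC_const {c : K'} :
    (placeBC K' F' hv).ord (algebraMap K' F' c) = 0 :=
  Fermat.Agent.S24.FF.ord_algebraMap _ c

/-- `placeBC` is injective (as a function of the place). -/
theorem placeBC_injective {v w : Place K F} (hv : IsRationalPlace v) (hw : IsRationalPlace w)
    (h : placeBC K' F' hv = placeBC K' F' hw) : v = w := by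
  apply Fermat.Agent.S24.H117.place_ext_of_le
  intro f hf
  rw [← ord_placeBC_algebraMap (K' := K') (F' := F') hw, ← h,
    ord_placeBC_algebraMap (K' := K') (F' := F') hv]
  exact hf

end Fermat.Agent.S29.H871

end
end
-- ===== PACK-END S29/H871/PlaceOrd.lean

-- ===== PACK-BEGIN S29/H871/Restrict.lean
section


/-!
# S29 / E3, part 4: restriction of a place of `F'/K'` to `F`, and the dichotomy

A place `w` of `F'/K'` is either trivial on `F` (all orders of elements of `F` vanish) or it is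
the base change `placeBC` of its restriction to `F`.

(helper871)
-/

set_option autoImplicit false
set_option linter.unusedSectionVars false

noncomputable section

namespace Fermat.Agent.S29.H871

open AlgebraicCurve TensorProduct
open Fermat.Agent.S24.H117 (mem_iff_ord_nonneg ord_pow)

variable {K F K' F' : Type*} [Field K] [Field F] [Field K'] [Field F']
  [Algebra K F] [Algebra K' F'] [Algebra K K'] [Algebra F F'] [Algebra K F']
  [IsScalarTower K F F'] [IsScalarTower K K' F']

section Rord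

variable (w : Place K' F')

/-- The order at `w` of an element of `F`. -/
def rord (f : F) : ℤ := w.ord (algebraMap F F' f)

theorem rord_zero : rord w (0 : F) = 0 := by simp [rord]

theorem rord_one : rord w (1 : F) = 0 := by simp [rord]

theorem rord_mul {f g : F} (hf : f ≠ 0) (hg : g ≠ 0) : rord w (f * g) = rord w f + rord w g := by
  unfold rord
  rw [map_mul, w.ord_mul (by simpa using hf) (by simpa using hg)]

theorem rord_inv (f : F) : rord w f⁻¹ = -rord w f := by
  unfold rord
  rw [map_inv₀, w.ord_inv]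

theorem rord_pow (f : F) (n : ℕ) : rord w (f ^ n) = n * rord w f := by
  unfold rord
  rw [map_pow, ord_pow]

theorem rord_zpow (f : F) (n : ℤ) : rord w (f ^ n) = n * rord w f := by
  unfold rord
  rw [map_zpow₀, w.ord_zpow]

/-- The restriction of the valuation ring of `w` to `F`. -/
def restrictRing : ValuationSubring F := w.toValuationSubring.comap (algebraMap F F')

theorem mem_restrictRing {f : F} : f ∈ restrictRing (F := F) w ↔ 0 ≤ rord w f := by
  unfold restrictRing rord
  rw [ValuationSubring.mem_comap]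
  exact mem_iff_ord_nonneg w

theorem coe_ne_zero_restrictRing {a : restrictRing (F := F) w} (ha : a ≠ 0) : (a : F) ≠ 0 :=
  fun h => ha (Subtype.ext h)

theorem isUnit_restrictRing_iff {a : restrictRing (F := F) w} (ha : a ≠ 0) :
    IsUnit a ↔ rord w (a : F) = 0 := by
  have ha0 : (a : F) ≠ 0 := coe_ne_zero_restrictRing w ha
  constructor
  · intro h
    obtain ⟨b, hb⟩ := isUnit_iff_exists_inv.mp h
    have hb' : (a : F) * (b : F) = 1 := congrArg Subtype.val hb
    have hbne : (b : F) ≠ 0 := by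
      intro h0
      rw [h0, mul_zero] at hb'
      exact zero_ne_one hb'
    have hsum := rord_mul w ha0 hbne
    rw [hb', rord_one] at hsum
    have h1 : 0 ≤ rord w (a : F) := (mem_restrictRing w).mp a.2
    have h2 : 0 ≤ rord w (b : F) := (mem_restrictRing w).mp b.2
    omega
  · intro h0
    have hinv : (a : F)⁻¹ ∈ restrictRing (F := F) w := by
      rw [mem_restrictRing, rord_inv]; omega
    exact ⟨⟨a, ⟨(a : F)⁻¹, hinv⟩, Subtype.ext (mul_inv_cancel₀ ha0),
      Subtype.ext (inv_mul_cancel₀ ha0)⟩, rfl⟩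

theorem exists_min_pos_rord (hnt : ∃ t : F, rord w t ≠ 0) :
    ∃ (k : ℕ) (π : F), 0 < k ∧ π ≠ 0 ∧ rord w π = k ∧ ∀ f : F, (k : ℤ) ∣ rord w f := by
  classical
  obtain ⟨t, ht⟩ := hnt
  have hex : ∃ n : ℕ, 0 < n ∧ ∃ f : F, rord w f = n := by
    rcases lt_or_gt_of_ne ht with h | h
    · refine ⟨(rord w t⁻¹).toNat, ?_, t⁻¹, ?_⟩
      · rw [rord_inv]; omega
      · rw [rord_inv]; omega
    · exact ⟨(rord w t).toNat, by omega, t, by omega⟩
  let k := Nat.find hex
  obtain ⟨hk0, π, hπ⟩ := Nat.find_spec hex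
  have hmin : ∀ n : ℕ, 0 < n → (∃ f : F, rord w f = n) → k ≤ n := fun n hn hf =>
    Nat.find_min' hex ⟨hn, hf⟩
  have hπ0 : π ≠ 0 := by
    rintro rfl
    rw [rord_zero] at hπ
    have : (k : ℤ) = 0 := hπ.symm
    have hk0' : 0 < k := hk0
    omega
  refine ⟨k, π, hk0, hπ0, hπ, fun f => ?_⟩
  rcases eq_or_ne f 0 with rfl | hf
  · simp [rord_zero]
  set q := rord w f / (k : ℤ) with hq
  set r := rord w f % (k : ℤ) with hr
  have hk0' : (0 : ℤ) < k := by exact_mod_cast hk0
  have hr0 : 0 ≤ r := Int.emod_nonneg _ hk0'.ne'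
  have hrk : r < k := Int.emod_lt_of_pos _ hk0'
  have hdecomp : rord w f = k * q + r := (Int.mul_ediv_add_emod _ _).symm
  have hg : rord w (f * π ^ (-q)) = r := by
    rw [rord_mul w hf (zpow_ne_zero _ hπ0), rord_zpow, hπ, hdecomp]
    ring
  by_cases hr' : r = 0
  · exact Int.dvd_of_emod_eq_zero hr'
  · exfalso
    have := hmin r.toNat (by omega) ⟨_, by rw [hg]; omega⟩
    have hk0'' : 0 < k := hk0
    omega

theorem isDiscreteValuationRing_restrictRing (hnt : ∃ t : F, rord w t ≠ 0) :
    IsDiscreteValuationRing (restrictRing (F := F) w) := by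
  obtain ⟨k, π, hk0, hπ0, hπ, hdvd⟩ := exists_min_pos_rord w hnt
  have hπmem : π ∈ restrictRing (F := F) w := by rw [mem_restrictRing, hπ]; positivity
  have hk0' : (0 : ℤ) < k := by exact_mod_cast hk0
  apply IsDiscreteValuationRing.ofHasUnitMulPowIrreducibleFactorization
  refine ⟨⟨π, hπmem⟩, ?_, ?_⟩
  · have hπne : (⟨π, hπmem⟩ : restrictRing (F := F) w) ≠ 0 :=
      fun h => hπ0 (congrArg Subtype.val h)
    refine ⟨fun hu => ?_, fun a b hab => ?_⟩
    · have := (isUnit_restrictRing_iff w hπne).mp hu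
      simp only at this
      omega
    · have hab' : π = (a : F) * (b : F) := congrArg Subtype.val hab
      have ha0 : a ≠ 0 := by
        rintro rfl
        apply hπ0
        simpa using hab'
      have hb0 : b ≠ 0 := by
        rintro rfl
        apply hπ0
        simpa using hab'
      have ha0' : (a : F) ≠ 0 := coe_ne_zero_restrictRing w ha0
      have hb0' : (b : F) ≠ 0 := coe_ne_zero_restrictRing w hb0
      have hsum := rord_mul w ha0' hb0'
      rw [← hab', hπ] at hsum
      obtain ⟨ca, hca⟩ := hdvd (a : F)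
      obtain ⟨cb, hcb⟩ := hdvd (b : F)
      have h1 : 0 ≤ rord w (a : F) := (mem_restrictRing w).mp a.2
      have h2 : 0 ≤ rord w (b : F) := (mem_restrictRing w).mp b.2
      rw [isUnit_restrictRing_iff w ha0, isUnit_restrictRing_iff w hb0]
      have hca0 : 0 ≤ ca := by
        by_contra hneg
        push Not at hneg
        rw [hca] at h1
        nlinarith
      have hcb0 : 0 ≤ cb := by
        by_contra hneg
        push Not at hneg
        rw [hcb] at h2
        nlinarith
      have hsum' : (k : ℤ) * (ca + cb) = k * 1 := by rw [hca, hcb] at hsum; linarith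
      have h3 : ca + cb = 1 := mul_left_cancel₀ hk0'.ne' hsum'
      rcases (show ca = 0 ∨ cb = 0 by omega) with h | h
      · left; rw [hca, h, mul_zero]
      · right; rw [hcb, h, mul_zero]
  · intro x hx
    have hx0 : (x : F) ≠ 0 := coe_ne_zero_restrictRing w hx
    obtain ⟨c, hc⟩ := hdvd (x : F)
    have hxnn : 0 ≤ rord w (x : F) := (mem_restrictRing w).mp x.2
    have hc0 : 0 ≤ c := by
      by_contra hneg
      push Not at hneg
      rw [hc] at hxnn
      nlinarith
    refine ⟨c.toNat, ?_⟩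
    have hu : rord w ((x : F) * (π ^ c.toNat)⁻¹) = 0 := by
      rw [rord_mul w hx0 (inv_ne_zero (pow_ne_zero _ hπ0)), rord_inv, rord_pow, hπ, hc]
      have : ((c.toNat : ℕ) : ℤ) = c := Int.toNat_of_nonneg hc0
      rw [this]; ring
    have hmem : (x : F) * (π ^ c.toNat)⁻¹ ∈ restrictRing (F := F) w := by
      rw [mem_restrictRing, hu]
    have hne : (⟨_, hmem⟩ : restrictRing (F := F) w) ≠ 0 := fun h =>
      (mul_ne_zero hx0 (inv_ne_zero (pow_ne_zero _ hπ0))) (congrArg Subtype.val h)
    have hunit : IsUnit (⟨_, hmem⟩ : restrictRing (F := F) w) :=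
      (isUnit_restrictRing_iff w hne).mpr hu
    refine ⟨hunit.unit, ?_⟩
    apply Subtype.ext
    have hπpow : π ^ c.toNat ≠ 0 := pow_ne_zero _ hπ0
    show π ^ c.toNat * ((x : F) * (π ^ c.toNat)⁻¹) = (x : F)
    field_simp

/-- The restriction to `F` of a place of `F'/K'` that is nontrivial on `F`. -/
def restrictPlace (hnt : ∃ t : F, rord w t ≠ 0) : Place K F where
  toValuationSubring := restrictRing (F := F) w
  algebraMap_mem' := by
    intro a
    rw [mem_restrictRing, rord, ← IsScalarTower.algebraMap_apply K F F',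
      IsScalarTower.algebraMap_apply K K' F', Fermat.Agent.S24.FF.ord_algebraMap]
  ne_top' := by
    intro htop
    obtain ⟨t, ht⟩ := hnt
    have h1 : t ∈ restrictRing (F := F) w := htop ▸ ValuationSubring.mem_top t
    have h2 : t⁻¹ ∈ restrictRing (F := F) w := htop ▸ ValuationSubring.mem_top _
    rw [mem_restrictRing] at h1 h2
    rw [rord_inv] at h2
    omega
  isPrincipalIdealRing' := by
    have := isDiscreteValuationRing_restrictRing w hnt
    infer_instance

@[simp]
theorem restrictPlace_toValuationSubring (hnt : ∃ t : F, rord w t ≠ 0) :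
    (restrictPlace (K := K) w hnt).toValuationSubring = restrictRing (F := F) w := rfl

theorem ord_restrictPlace_nonneg_iff (hnt : ∃ t : F, rord w t ≠ 0) (f : F) :
    0 ≤ (restrictPlace (K := K) w hnt).ord f ↔ 0 ≤ rord w f := by
  rw [← mem_iff_ord_nonneg, restrictPlace_toValuationSubring, mem_restrictRing]

end Rord

end Fermat.Agent.S29.H871

end
end
-- ===== PACK-END S29/H871/Restrict.lean

-- ===== PACK-BEGIN S37/Core/Final.lean
section


/-!
# S37 row (helper37): the FINAL interface `WeakRedData`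

`WeakRedData M A ℓ σ₀` : an additive map `red : J₀(M) →+ Y` (any target) with
* `inertia`     : `red (τ • x) = red x` for `τ` in the inertia group at `A`,
* `inj_torsion` : `red` is injective on torsion of order prime to `ℓ`,
* `relation`    : `red (σ₀² x - T_ℓ σ₀ x + ℓ x) = 0` for the ONE Frobenius element `σ₀`,
  where `T_ℓ = heckeOperatorAlong ℚ̄ M ℓ` is the Prelude operator (no `HeckeInputsAlong` needed
  here: it is needed by whoever proves `relation`).

`result_of_weakRedData` : the frozen statement S37 at level `N` from a `WeakRedData` at some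
level `M` and a `PullData N M ℓ` (`M = N`, `PullData.refl` for `ℓ ≥ 5`).
Fully proved.
-/

set_option autoImplicit false
set_option synthInstance.maxHeartbeats 400000

noncomputable section

namespace Fermat.Agent.S37.Core

open ModularCurve ValuationSubring AlgebraicCurve HahnSeries Fermat.Agent.S37.H99

/-- The final interface of the geometric part of S37. -/
structure WeakRedData (M : ℕ) [NeZero M] (A : ValuationSubring (AlgebraicClosure ℚ)) (ℓ : ℕ)
    [NeZero ℓ] (σ₀ : AlgebraicClosure ℚ ≃ₐ[ℚ] AlgebraicClosure ℚ) : Type 1 where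
  /-- the target group -/
  Y : Type
  /-- additive group structure on the target -/
  instY : AddCommGroup Y
  /-- the reduction map -/
  red : JZero M →+ Y
  inertia : ∀ τ ∈ A.inertiaSubgroupIn ℚ, ∀ x : JZero M, red (τ • x) = red x
  inj_torsion : ∀ (m : ℕ), ¬ ℓ ∣ m → ∀ x : JZero M, m • x = 0 → red x = 0 → x = 0
  relation : ∀ x : JZero M,
    red (σ₀ • σ₀ • x - heckeOperatorAlong (AlgebraicClosure ℚ) M ℓ (σ₀ • x) + ℓ • x) = 0

attribute [instance] WeakRedData.instY

/-- a `PlaceRed` gives a `WeakRedData` (pointwise route) -/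
def PlaceRed.toWeakRedData {M : ℕ} [NeZero M] {A : ValuationSubring (AlgebraicClosure ℚ)}
    {ℓ : ℕ} [NeZero ℓ] {σ₀ : AlgebraicClosure ℚ ≃ₐ[ℚ] AlgebraicClosure ℚ}
    (D : PlaceRed M A ℓ σ₀) (HIA : HeckeInputsAlong (AlgebraicClosure ℚ) M ℓ)
    (hS18 : InjTorsionModL M ℓ A) : WeakRedData M A ℓ σ₀ where
  Y := JZeroC (IsLocalRing.ResidueField A) M
  instY := inferInstance
  red := D.red
  inertia τ hτ x := D.red_inertia hτ x
  inj_torsion _ hm _ hx h0 := D.red_inj_torsion hS18 hm hx h0
  relation x := D.red_relation HIA x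

/-- **S37 at one place from a `WeakRedData` at level `M` and a `PullData N M ℓ`.** -/
theorem isWeakRed_of_weakRedData (N M p : ℕ) [NeZero N] [NeZero M]
    (hcomm : HeckeOperatorsCommuteBar N)
    (A : ValuationSubring (AlgebraicClosure ℚ)) (ℓ : ℕ) (hℓ : ℓ.Prime) (hℓp : ¬ ℓ ∣ p)
    (σ₀ : AlgebraicClosure ℚ ≃ₐ[ℚ] AlgebraicClosure ℚ) (hσ₀ : A.IsFrobeniusAt σ₀ ℓ)
    (W : haveI : NeZero ℓ := ⟨hℓ.ne_zero⟩; WeakRedData M A ℓ σ₀)
    (Pd : haveI : NeZero ℓ := ⟨hℓ.ne_zero⟩; PullData N M ℓ) :
    letI := heckeModuleBar N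
    ∀ (_ : SMulCommClass (AlgebraicClosure ℚ ≃ₐ[ℚ] AlgebraicClosure ℚ) HeckeAlg (JZero N)),
      IsWeakRed (K := ℚ) p (JZero N) A ℓ hℓ σ₀
        (haveI : NeZero ℓ := ⟨hℓ.ne_zero⟩; W.red.comp Pd.pull) := by
  letI := heckeModuleBar N
  haveI : NeZero ℓ := ⟨hℓ.ne_zero⟩
  intro _
  refine ⟨hσ₀, ?_, ?_, ?_⟩
  · intro τ hτ x
    show W.red (Pd.pull (τ • x)) = W.red (Pd.pull x)
    rw [Pd.galois, W.inertia τ hτ]
  · rintro x ⟨n, hn⟩ hx
    have hℓpn : ¬ ℓ ∣ p ^ n := fun h => hℓp (hℓ.dvd_of_dvd_pow h)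
    refine Pd.inj_torsion (p ^ n) hℓpn x hn ?_
    refine W.inj_torsion (p ^ n) hℓpn _ ?_ hx
    rw [← map_nsmul, hn, map_zero]
  · intro x
    rw [heckeModuleBar_heckeGen_smul hcomm ⟨ℓ, hℓ⟩ (σ₀ • x)]
    show W.red (Pd.pull (σ₀ • σ₀ • x - heckeOperatorAlong (AlgebraicClosure ℚ) N ℓ (σ₀ • x)
      + ℓ • x)) = 0
    rw [map_add, map_sub, map_nsmul, Pd.galois, Pd.galois, Pd.hecke, Pd.galois]
    exact W.relation (Pd.pull x)

/-- **S37 from `WeakRedData` at auxiliary levels.**  THE final glue of the row. -/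
theorem result_of_weakRedData (N p : ℕ) [NeZero N]
    (H : ∀ (ℓ : ℕ) (hℓ : ℓ.Prime), ¬ ℓ ∣ N →
      ∀ A : ValuationSubring (AlgebraicClosure ℚ), A.LiesOverPrime ℓ →
        ∀ σ₀ : AlgebraicClosure ℚ ≃ₐ[ℚ] AlgebraicClosure ℚ, A.IsFrobeniusAt σ₀ ℓ →
          haveI : NeZero ℓ := ⟨hℓ.ne_zero⟩
          ∃ (M : ℕ) (_ : NeZero M), Nonempty (WeakRedData M A ℓ σ₀) ∧ Nonempty (PullData N M ℓ))
    (hcomm : ModularCurve.HeckeOperatorsCommuteBar N) :
    letI := ModularCurve.heckeModuleBar N
    ∀ (_ : SMulCommClass (AlgebraicClosure ℚ ≃ₐ[ℚ] AlgebraicClosure ℚ) ModularCurve.HeckeAlg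
      (ModularCurve.JZero N)),
      ModularCurve.SpecializationExists (K := ℚ) (L := AlgebraicClosure ℚ) N p
        (ModularCurve.JZero N) := by
  letI := ModularCurve.heckeModuleBar N
  intro inst ℓ hℓ hdvd A hA
  have hℓN : ¬ ℓ ∣ N := fun h => hdvd (Dvd.dvd.mul_right h p)
  have hℓp : ¬ ℓ ∣ p := fun h => hdvd (Dvd.dvd.mul_left h N)
  obtain ⟨σ₀, hσ₀⟩ := exists_isFrobeniusAt ℓ hℓ A hA
  haveI : NeZero ℓ := ⟨hℓ.ne_zero⟩
  obtain ⟨M, hM, ⟨W⟩, ⟨Pd⟩⟩ := H ℓ hℓ hℓN A hA σ₀ hσ₀
  exact exists_specialization_of_isWeakRed p A ℓ hℓ σ₀ (W.red.comp Pd.pull)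
    (isWeakRed_of_weakRedData N M p hcomm A ℓ hℓ hℓp σ₀ hσ₀ W Pd inst)

end Fermat.Agent.S37.Core

end
end
-- ===== PACK-END S37/Core/Final.lean

-- ===== PACK-BEGIN S37/H697/RedDataOf.lean
section





/-!
# S37 (helper697): reduction data `H99.RedData` / `Core.WeakRedData` from named inputs

`redData_of` constructs helper99's `RedData N A ℓ hℓ` (hence, via `H99.result_of_redData`, the
frozen statement S37), and `weakRedData_of` constructs the row's final interface
`Core.WeakRedData N A ℓ σ₀`, from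

* `h    : ReductionInputsModL A N`              — existence of a place reduction (good reduction),
* `hinj : …`                                   — the conclusion of S18 (injectivity on torsion),
* `hHIA : HeckeInputsAlong ℚ̄ N ℓ`              — the Hecke correspondence is defined,
* `hK   : KroneckerNorm …`                      — Kronecker congruence for the norm of `y(q^ℓ)`,
* `hR   : RiemannBound ℚ̄ F_N`, `hdeg`           — consequences of Riemann's inequality / `FF1`.

No pointwise description of the reduction of places or of `T_ℓ` is needed.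
-/

set_option autoImplicit false
set_option linter.style.haveILetI false

noncomputable section

open HahnSeries IntermediateField AlgebraicCurve ModularCurve ValuationSubring

namespace Fermat.Agent.S37.H697

section ResidueAction

variable {K L : Type*} [Field K] [Field L] [Algebra K L] (A : ValuationSubring L)

/-- Elements of the decomposition group preserve `A`. -/
theorem apply_mem_of_mem_decompositionSubgroup {σ : L ≃ₐ[K] L}
    (hσ : σ ∈ A.decompositionSubgroup K) : ∀ a ∈ A, σ a ∈ A :=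
  fun a ha => ((⟨σ, hσ⟩ : A.decompositionSubgroup K) • (⟨a, ha⟩ : A)).2

/-- The automorphism of the residue field induced by an element of the decomposition group. -/
def resAut (d : A.decompositionSubgroup K) :
    IsLocalRing.ResidueField A ≃+* IsLocalRing.ResidueField A :=
  MulSemiringAction.toRingEquiv (A.decompositionSubgroup K) (IsLocalRing.ResidueField A) d

theorem resAut_apply (d : A.decompositionSubgroup K) (x : IsLocalRing.ResidueField A) :
    resAut A d x = d • x := rfl

theorem residue_apply_eq_resAut {σ : L ≃ₐ[K] L} (hσ : σ ∈ A.decompositionSubgroup K) (a : A) :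
    IsLocalRing.residue A ⟨σ a, apply_mem_of_mem_decompositionSubgroup A hσ a a.2⟩
      = resAut A ⟨σ, hσ⟩ (IsLocalRing.residue A a) :=
  IsLocalRing.ResidueField.residue_smul (A.decompositionSubgroup K)
    (⟨σ, hσ⟩ : A.decompositionSubgroup K) a

theorem resAut_eq_refl_of_mem_inertiaSubgroup {d : A.decompositionSubgroup K}
    (hd : d ∈ A.inertiaSubgroup K) : resAut A d = RingEquiv.refl _ := by
  have h : MulSemiringAction.toRingAut (A.decompositionSubgroup K)
      (IsLocalRing.ResidueField A) d = 1 := MonoidHom.mem_ker.mp hd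
  exact h

end ResidueAction

section Main

set_option synthInstance.maxHeartbeats 400000
set_option maxHeartbeats 1600000

variable (N : ℕ) [NeZero N] (A : ValuationSubring (AlgebraicClosure ℚ)) (ℓ : ℕ) [NeZero ℓ]

omit [NeZero N] in
/-- Equivariance of `reductionModL` for the decomposition group. -/
theorem reductionModL_smul
    (h : ReductionInputsModL A N)
    (hR : RiemannBound (AlgebraicClosure ℚ) (modularFunctionFieldBar N))
    (σ : AlgebraicClosure ℚ ≃ₐ[ℚ] AlgebraicClosure ℚ)
    (hσ : σ ∈ A.decompositionSubgroup ℚ) (x : JZero N) :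
    reductionModL A N (σ • x) = coeffSL N (resAut A ⟨σ, hσ⟩) • reductionModL A N x := by
  have hred : reductionModL A N = reductionPic0Along h.choose h.choose_spec.1 h.choose_spec.2 :=
    reductionAlong_eq h
  rw [hred]
  exact reductionPic0Along_galois_smul h.choose_spec.1 h.choose_spec.2 hR σ
    (apply_mem_of_mem_decompositionSubgroup A hσ) (resAut A ⟨σ, hσ⟩)
    (residue_apply_eq_resAut A hσ) x

omit [NeZero N] in
/-- Inertia acts trivially after reduction. -/
theorem reductionModL_inertia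
    (h : ReductionInputsModL A N)
    (hR : RiemannBound (AlgebraicClosure ℚ) (modularFunctionFieldBar N))
    (τ : AlgebraicClosure ℚ ≃ₐ[ℚ] AlgebraicClosure ℚ) (hτ : τ ∈ A.inertiaSubgroupIn ℚ)
    (x : JZero N) :
    reductionModL A N (τ • x) = reductionModL A N x := by
  obtain ⟨d, hd, rfl⟩ := hτ
  have h1 := reductionModL_smul N A h hR d.1 d.2 x
  rw [show (⟨d.1, d.2⟩ : A.decompositionSubgroup ℚ) = d from rfl,
    resAut_eq_refl_of_mem_inertiaSubgroup A hd, coeffSL_refl, one_smul] at h1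
  exact h1

omit [NeZero N] in
/-- Elements of the decomposition group preserve the kernel of the reduction. -/
theorem reductionModL_decomp_ker
    (h : ReductionInputsModL A N)
    (hR : RiemannBound (AlgebraicClosure ℚ) (modularFunctionFieldBar N))
    (σ : AlgebraicClosure ℚ ≃ₐ[ℚ] AlgebraicClosure ℚ) (hσ : σ ∈ A.decompositionSubgroup ℚ)
    (x : JZero N) (hx : reductionModL A N x = 0) :
    reductionModL A N (σ • x) = 0 := by
  rw [reductionModL_smul N A h hR σ hσ x, hx]
  exact smul_zero (A := JZeroC (IsLocalRing.ResidueField A) N) (coeffSL N (resAut A ⟨σ, hσ⟩))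

/-- The reduction of the Hecke operator: `red ∘ T_ℓ = (Φ + ℓ Φ⁻¹) ∘ red`. -/
theorem reductionModL_hecke
    (h : ReductionInputsModL A N)
    (hR : RiemannBound (AlgebraicClosure ℚ) (modularFunctionFieldBar N))
    (hdeg : ∀ P : Place (AlgebraicClosure ℚ) (modularFunctionFieldBar N), P.deg = 1)
    (hHIA : HeckeInputsAlong (AlgebraicClosure ℚ) N ℓ)
    (φ : IsLocalRing.ResidueField A ≃+* IsLocalRing.ResidueField A)
    (hK : KroneckerNorm A (IsLocalRing.residue A) N ℓ φ)
    (y : JZero N) :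
    reductionModL A N (heckeOperatorAlong (AlgebraicClosure ℚ) N ℓ y)
      = coeffSL N φ • reductionModL A N y + ℓ • ((coeffSL N φ)⁻¹ • reductionModL A N y) := by
  obtain ⟨hα, hβ, hP, hfin, hFI, hN⟩ := hHIA
  haveI := hP
  have hred : reductionModL A N = reductionPic0Along h.choose h.choose_spec.1 h.choose_spec.2 :=
    reductionAlong_eq h
  have hT : heckeOperatorAlong (AlgebraicClosure ℚ) N ℓ y = heckePic0Bar hα hβ hFI hfin hN y :=
    congrFun (congrArg DFunLike.coe (heckeOperatorAlong_eq hα hβ hFI hfin hN)) y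
  have hC : ∀ P : Place (AlgebraicClosure ℚ) (modularFunctionFieldBar N),
      l1norm (heckeDivBar hα hβ (Finsupp.single P 1))
        ≤ finrankAlong (AlgebraicClosure ℚ) (heckeBetaBar (AlgebraicClosure ℚ) N ℓ) :=
    fun P => (l1norm_heckeDivBar_single hα hβ hdeg hFI P).le
  rw [hT, hred]
  exact reductionPic0Along_hecke hα hβ h.choose_spec.1 h.choose_spec.2 hR hFI hfin hN φ hK _ hC y

/-- The Eichler–Shimura relation after reduction. -/
theorem reductionModL_relation
    (h : ReductionInputsModL A N)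
    (hR : RiemannBound (AlgebraicClosure ℚ) (modularFunctionFieldBar N))
    (hdeg : ∀ P : Place (AlgebraicClosure ℚ) (modularFunctionFieldBar N), P.deg = 1)
    (hHIA : HeckeInputsAlong (AlgebraicClosure ℚ) N ℓ)
    (hK : ∀ φ : IsLocalRing.ResidueField A ≃+* IsLocalRing.ResidueField A, (∀ x, φ x = x ^ ℓ) →
        KroneckerNorm A (IsLocalRing.residue A) N ℓ φ)
    (σ : AlgebraicClosure ℚ ≃ₐ[ℚ] AlgebraicClosure ℚ) (hσ : A.IsFrobeniusAt σ ℓ)
    (x : JZero N) :
    reductionModL A N
      (σ • σ • x - heckeOperatorAlong (AlgebraicClosure ℚ) N ℓ (σ • x) + ℓ • x) = 0 := by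
  have hσmem := hσ.mem_decompositionSubgroup
  have hφpow : ∀ y, resAut A ⟨σ, hσmem⟩ y = y ^ ℓ := fun y => hσ.smul_residue_eq y
  have h1 := reductionModL_hecke N A ℓ h hR hdeg hHIA (resAut A ⟨σ, hσmem⟩)
    (hK _ hφpow) (σ • x)
  have h2 := reductionModL_smul N A h hR σ hσmem (σ • x)
  have h3 := reductionModL_smul N A h hR σ hσmem x
  rw [h3, inv_smul_smul] at h1
  rw [map_add, map_sub, map_nsmul, h1, h2, h3, sub_add_eq_sub_sub, sub_self, zero_sub,
    neg_add_cancel]

/-- **The row's final interface `Core.WeakRedData` from named inputs** (no pointwise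
description of the reduction of places is needed). -/
def weakRedData_of
    (h : ReductionInputsModL A N)
    (hinj : Core.InjTorsionModL N ℓ A)
    (hR : RiemannBound (AlgebraicClosure ℚ) (modularFunctionFieldBar N))
    (hdeg : ∀ P : Place (AlgebraicClosure ℚ) (modularFunctionFieldBar N), P.deg = 1)
    (hHIA : HeckeInputsAlong (AlgebraicClosure ℚ) N ℓ)
    (hK : ∀ φ : IsLocalRing.ResidueField A ≃+* IsLocalRing.ResidueField A, (∀ x, φ x = x ^ ℓ) →
        KroneckerNorm A (IsLocalRing.residue A) N ℓ φ)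
    (σ₀ : AlgebraicClosure ℚ ≃ₐ[ℚ] AlgebraicClosure ℚ) (hσ₀ : A.IsFrobeniusAt σ₀ ℓ) :
    Core.WeakRedData N A ℓ σ₀ where
  Y := JZeroC (IsLocalRing.ResidueField A) N
  instY := inferInstance
  red := reductionModL A N
  inertia := fun τ hτ x => reductionModL_inertia N A h hR τ hτ x
  inj_torsion := fun m hm x hmx hx => hinj h m hm x hmx hx
  relation := fun x => reductionModL_relation N A ℓ h hR hdeg hHIA hK σ₀ hσ₀ x

/-- **helper99's reduction data from named inputs.** -/
theorem redData_of (hℓ : ℓ.Prime)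
    (h : ReductionInputsModL A N)
    (hinj : Core.InjTorsionModL N ℓ A)
    (hR : RiemannBound (AlgebraicClosure ℚ) (modularFunctionFieldBar N))
    (hdeg : ∀ P : Place (AlgebraicClosure ℚ) (modularFunctionFieldBar N), P.deg = 1)
    (hHIA : HeckeInputsAlong (AlgebraicClosure ℚ) N ℓ)
    (hK : ∀ φ : IsLocalRing.ResidueField A ≃+* IsLocalRing.ResidueField A, (∀ x, φ x = x ^ ℓ) →
        KroneckerNorm A (IsLocalRing.residue A) N ℓ φ) :
    Nonempty (H99.RedData N A ℓ hℓ) :=
  ⟨{ Y := JZeroC (IsLocalRing.ResidueField A) N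
     instY := inferInstance
     red := reductionModL A N
     inertia := fun τ hτ x => reductionModL_inertia N A h hR τ hτ x
     frob_ker := fun σ hσ x hx =>
       reductionModL_decomp_ker N A h hR σ hσ.mem_decompositionSubgroup x hx
     inj_torsion := fun m x hm hmx hx =>
       hinj h m ((Nat.Prime.coprime_iff_not_dvd hℓ).mp (Nat.Coprime.symm hm)) x hmx hx
     relation := fun σ hσ x => reductionModL_relation N A ℓ h hR hdeg hHIA hK σ hσ x }⟩

end Main

end Fermat.Agent.S37.H697

end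
end
-- ===== PACK-END S37/H697/RedDataOf.lean

-- ===== PACK-BEGIN S18/H144/ConstFk.lean
section




/-!
# S18 / node_constFk (T3, CONST_Fk): functions without zeros and poles on the special fibre

* `finiteDimensional_adjoin_subtype` : generic transfer of finiteness `E / k(x)` from
  intermediate fields of `L` to the type `↥E`.
* `jFk k N` : `j` as an element of `F_{N,k} = modularFunctionFieldFullC k N`.
* `transcendental_jFk` (`k` algebraically closed), `finiteDimensional_jFk`
  (primes dividing `N` invertible in `k`): `F_{N,k}` is finite over `k(j)`  (= Sq05 MOD.1).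
* `constOfOrdZero_fullC` : `k` algebraically closed, primes dividing `N` invertible in `k`:
  `∀ u : F_{N,k}, u ≠ 0 → (∀ v, v.ord u = 0) → ∃ c, u = algebraMap _ _ c`  (= Sq05 T3Generic).
* `node_constFk` : EXACTLY the type of `Integ.node_constFk` (= `H665.ConstLemma N A`, unfolded;
  also Sq05 `T3Statement`).
-/

set_option autoImplicit false

noncomputable section

open AlgebraicCurve IntermediateField ModularCurve

namespace Fermat.Agent.S18.H144

/-- Transfer of finiteness from the ambient field to the subtype: if `E` is finite over `k(x)`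
inside `L`, then the field `↥E` is finite over its subfield `k(x)`. -/
theorem finiteDimensional_adjoin_subtype {k L : Type*} [Field k] [Field L] [Algebra k L]
    (E : IntermediateField k L) (x : E) (h : k⟮(x : L)⟯ ≤ E)
    [hfin : FiniteDimensional k⟮(x : L)⟯ (IntermediateField.extendScalars h)] :
    FiniteDimensional k⟮x⟯ E := by
  have hmap : (k⟮x⟯).map E.val = k⟮(x : L)⟯ := by
    rw [IntermediateField.adjoin_map, Set.image_singleton]
    rfl
  let e₁ : ↥(k⟮(x : L)⟯) ≃+* ↥(k⟮x⟯) :=
    ((IntermediateField.equivMap (k⟮x⟯) E.val).trans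
      (IntermediateField.equivOfEq hmap)).symm.toRingEquiv
  let e₂ : ↥(IntermediateField.extendScalars h) ≃+* ↥E := RingEquiv.refl _
  refine Module.Finite.of_equiv_equiv e₁ e₂ ?_
  ext c
  obtain ⟨d, hd⟩ : ∃ d : ↥(k⟮x⟯), ((IntermediateField.equivMap (k⟮x⟯) E.val).trans
      (IntermediateField.equivOfEq hmap)) d = c :=
    ((IntermediateField.equivMap (k⟮x⟯) E.val).trans
      (IntermediateField.equivOfEq hmap)).surjective c
  have hc : e₁ c = d := by
    rw [← hd]
    exact AlgEquiv.symm_apply_apply _ d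
  simp only [RingHom.comp_apply, RingHom.coe_coe]
  rw [hc, ← hd]
  rfl

section AnyField

variable (k : Type*) [Field k] (N : ℕ)

/-- `j` as an element of the function field `k(j(q^d) : d ∣ N)`. -/
def jFk : modularFunctionFieldFullC k N := ⟨jqModC k, jqModC_mem_full k N⟩

theorem jFk_not_mem_range : jFk k N ∉ (algebraMap k (modularFunctionFieldFullC k N)).range := by
  rintro ⟨c, hc⟩
  have h1 : ((algebraMap k (modularFunctionFieldFullC k N) c :
      modularFunctionFieldFullC k N) : LaurentSeries k).coeff (-1)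
      = ((jFk k N : modularFunctionFieldFullC k N) : LaurentSeries k).coeff (-1) := by rw [hc]
  have h2 : ((algebraMap k (modularFunctionFieldFullC k N) c :
      modularFunctionFieldFullC k N) : LaurentSeries k)
      = algebraMap k (LaurentSeries k) c := rfl
  rw [h2, algebraMap_laurentSeries_eq_single] at h1
  have h3 : ((jFk k N : modularFunctionFieldFullC k N) : LaurentSeries k) = jqModC k := rfl
  rw [h3, coeff_jqModC_neg_one, HahnSeries.coeff_single_of_ne (by norm_num)] at h1
  exact zero_ne_one h1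

theorem transcendental_jFk [IsAlgClosed k] : Transcendental k (jFk k N) :=
  S24.FF.transcendental_of_not_mem_range (jFk_not_mem_range k N)

variable [NeZero N]

/-- `F_{N,k}` is finite over `k(j)` (from the landed S28 degree theory). -/
theorem finiteDimensional_jFk (hchar : ∀ p : ℕ, p.Prime → p ∣ N → (p : k) ≠ 0) :
    FiniteDimensional k⟮jFk k N⟯ (modularFunctionFieldFullC k N) := by
  have H : S28.H626.HasModPolys k N :=
    S28.H867.hasModPolys k N (fun p hp _ _ => S28.H807.nonempty_modPolyData p hp) hchar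
  have hfin := S28.H626.finiteDimensional_extendScalars N H
  exact @finiteDimensional_adjoin_subtype k (LaurentSeries k) _ _ _
    (modularFunctionFieldFullC k N) (jFk k N) (S28.H626.adjoin_j_le_full (k := k) N) hfin

/-- **T3, generic field**: `k` algebraically closed, all primes dividing `N` invertible in `k`.
A nonzero function in `k(j(q^d) : d ∣ N)` without zeros and poles is constant. -/
theorem constOfOrdZero_fullC [IsAlgClosed k]
    (hchar : ∀ p : ℕ, p.Prime → p ∣ N → (p : k) ≠ 0) :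
    ∀ u : modularFunctionFieldFullC k N, u ≠ 0 →
      (∀ v : Place k (modularFunctionFieldFullC k N), v.ord u = 0) →
      ∃ c : k, u = algebraMap k (modularFunctionFieldFullC k N) c := by
  have := finiteDimensional_jFk k N hchar
  exact H504.constOfOrdZero_of_finite (transcendental_jFk k N)

end AnyField

set_option synthInstance.maxHeartbeats 400000 in
/-- **node_constFk** (T3, CONST_Fk): exactly the type of `Integ.node_constFk`
(`H665.ConstLemma N A` unfolded). -/
theorem node_constFk (N : ℕ) [NeZero N] {ℓ : ℕ} [Fact ℓ.Prime] (hℓN : ¬ ℓ ∣ N)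
    (A : ValuationSubring (AlgebraicClosure ℚ)) (hA : A.LiesOverPrime ℓ) :
    ∀ f : ↥(modularFunctionFieldFullC (IsLocalRing.ResidueField A) N), f ≠ 0 →
      (∀ Q : Place (IsLocalRing.ResidueField A)
        ↥(modularFunctionFieldFullC (IsLocalRing.ResidueField A) N), Q.ord f = 0) →
      ∃ c : IsLocalRing.ResidueField A,
        f = algebraMap (IsLocalRing.ResidueField A)
          ↥(modularFunctionFieldFullC (IsLocalRing.ResidueField A) N) c := by
  have : IsAlgClosed (IsLocalRing.ResidueField A) := H9.resAlgClosed (AlgebraicClosure ℚ) A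
  refine constOfOrdZero_fullC (IsLocalRing.ResidueField A) N fun p hp hpN => ?_
  refine H9.resChar (AlgebraicClosure ℚ) A ℓ p Fact.out hp hA ?_
  rintro rfl
  exact hℓN hpN

end Fermat.Agent.S18.H144

end
end
-- ===== PACK-END S18/H144/ConstFk.lean

-- ===== PACK-BEGIN S18/H568/D2.lean
section






/-!
# S18 / node D2 (helper568): transfer `CORE(M) → CORE(N)`

EXACT node statement of `origin/helper18:Fermat/Agent/S18/Integ/Skeleton.lean` (`node_d2`), with
`levelM N ℓ` unfolded (`levelM` lives in the skeleton file, which contains `sorry`):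

    theorem node_d2 (N : ℕ) [NeZero N] {ℓ : ℕ} [Fact ℓ.Prime] (hℓN : ¬ ℓ ∣ N)
        (A : ValuationSubring Qb) (hA : A.LiesOverPrime ℓ) (m : ℕ) (hm : ¬ ℓ ∣ m) :
        CoreStatement (if ℓ = 3 then Nat.lcm N 2 else if ℓ = 2 then Nat.lcm N 3 else N) A m →
          CoreStatement N A m

General form: `coreStatement_of_dvd` (any `N ∣ M` with `[F_M : F_N]` nonzero and prime to `m`).

Proof: (1) `IsInt A N U → IsInt A M U` (monotonicity of the function fields);
(2) for a place `w` of `F_M`, `ord_w(f) = e(w) · ord_{w|F_N}(f)` for `f ∈ F_N` (Prelude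
`Place.ord_restrictAlong`), so `m ∣ div` is inherited; (3) norm trick
(`exists_pow_of_norm_coprime`); (4) degree `[F_{Np} : F_N] = p + 1` for `p ∤ N`
(helper988, `relfinrank_bar_mul_prime`, on main).
-/

set_option autoImplicit false

noncomputable section

namespace Fermat.Agent.S18.H568

open ModularCurve AlgebraicCurve HahnSeries IntermediateField Module

section Generic

variable {K Ω : Type*} [Field K] [Field Ω] [Algebra K Ω] {E F : IntermediateField K Ω}

/-- `extendScalars h` and `F` (with the `E`-algebra structure along the inclusion) are the same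
`E`-vector space. -/
def extendScalarsLinearEquiv568 (hEF : E ≤ F) :
    letI := (IntermediateField.inclusion hEF).toRingHom.toAlgebra
    ↥(extendScalars hEF) ≃ₗ[E] F :=
  letI := (IntermediateField.inclusion hEF).toRingHom.toAlgebra
  { toFun := fun x => ⟨x.1, (mem_extendScalars hEF).mp x.2⟩
    invFun := fun x => ⟨x.1, (mem_extendScalars hEF).mpr x.2⟩
    map_add' := fun _ _ => rfl
    map_smul' := fun _ _ => rfl
    left_inv := fun _ => rfl
    right_inv := fun _ => rfl }

theorem finrank_inclusion_eq_relfinrank (hEF : E ≤ F) :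
    letI := (IntermediateField.inclusion hEF).toRingHom.toAlgebra
    finrank E F = E.relfinrank F := by
  letI := (IntermediateField.inclusion hEF).toRingHom.toAlgebra
  rw [relfinrank_eq_finrank_of_le hEF]
  exact (extendScalarsLinearEquiv568 hEF).finrank_eq.symm

theorem finiteDimensional_inclusion (hEF : E ≤ F) (h0 : E.relfinrank F ≠ 0) :
    letI := (IntermediateField.inclusion hEF).toRingHom.toAlgebra
    FiniteDimensional E F := by
  letI := (IntermediateField.inclusion hEF).toRingHom.toAlgebra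
  apply FiniteDimensional.of_finrank_pos
  rw [finrank_inclusion_eq_relfinrank hEF]
  exact Nat.pos_of_ne_zero h0

end Generic

/-- Monotonicity of `ℚ̄(X₀(N))` in the level. -/
theorem bar_le_of_dvd {N M : ℕ} [NeZero N] [NeZero M] (h : N ∣ M) :
    modularFunctionFieldBar N ≤ modularFunctionFieldBar M := by
  rw [Fermat.Agent.S28.H988.modularFunctionFieldBar_eq_fullC,
    Fermat.Agent.S28.H988.modularFunctionFieldBar_eq_fullC]
  exact full_degeneracyC_le _ h

theorem isInt_of_dvd {N M : ℕ} [NeZero N] [NeZero M] (h : N ∣ M) {A : ValuationSubring Qb}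
    {U : LaurentSeries A} (hU : IsInt A N U) : IsInt A M U :=
  ⟨bar_le_of_dvd h hU.1, full_degeneracyC_le _ h hU.2.1, hU.2.2⟩

theorem toF_ne_zero {N : ℕ} {A : ValuationSubring Qb} {U : LaurentSeries A}
    (hU : IsInt A N U) : toF hU ≠ 0 := by
  intro h0
  have h1 : coeffMap A.subtype U = 0 := congrArg Subtype.val h0
  have h2 : U = 0 := by
    ext n
    have := congrArg (fun f : LaurentSeries Qb => f.coeff n) h1
    simpa [coeffMap_coeff] using this
  exact hU.2.2 (by rw [h2]; exact map_zero _)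

/-- **General transfer**: `CORE(M) → CORE(N)` for `N ∣ M` when `[F_M : F_N]` is finite and prime
to `m`. -/
theorem coreStatement_of_dvd (N M : ℕ) [NeZero N] [NeZero M] (hNM : N ∣ M)
    (A : ValuationSubring Qb) (m : ℕ)
    (hd0 : (modularFunctionFieldBar N).relfinrank (modularFunctionFieldBar M) ≠ 0)
    (hcop : Nat.Coprime ((modularFunctionFieldBar N).relfinrank (modularFunctionFieldBar M)) m) :
    CoreStatement M A m → CoreStatement N A m := by
  intro hM U₁ U₂ h₁ h₂ hred hord
  have hle := bar_le_of_dvd hNM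
  set φ : modularFunctionFieldBar N →ₐ[Qb] modularFunctionFieldBar M :=
    IntermediateField.inclusion hle with hφdef
  letI : Algebra (modularFunctionFieldBar N) (modularFunctionFieldBar M) := algebraAlong φ
  haveI : IsScalarTower Qb (modularFunctionFieldBar N) (modularFunctionFieldBar M) :=
    isScalarTower_along φ
  haveI hfd : FiniteDimensional (modularFunctionFieldBar N) (modularFunctionFieldBar M) :=
    finiteDimensional_inclusion hle hd0
  have hfr : finrank (modularFunctionFieldBar N) (modularFunctionFieldBar M) =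
      (modularFunctionFieldBar N).relfinrank (modularFunctionFieldBar M) :=
    finrank_inclusion_eq_relfinrank hle
  have hφint : φ.toRingHom.IsIntegral := fun x =>
    (Algebra.IsIntegral.of_finite (modularFunctionFieldBar N) (modularFunctionFieldBar M)).isIntegral x
  have h₁' : IsInt A M U₁ := isInt_of_dvd hNM h₁
  have h₂' : IsInt A M U₂ := isInt_of_dvd hNM h₂
  have e₁ : toF h₁' = φ (toF h₁) := rfl
  have e₂ : toF h₂' = φ (toF h₂) := rfl
  obtain ⟨c, y, hc, hy, hcy⟩ := hM U₁ U₂ h₁' h₂' hred (fun w => by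
    rw [e₁, e₂, Place.ord_restrictAlong φ hφint w, Place.ord_restrictAlong φ hφint w, ← mul_sub]
    exact Dvd.dvd.mul_left (hord _) _)
  have hn₁ := toF_ne_zero h₁
  have hn₂ := toF_ne_zero h₂
  -- descend `u = toF h₁ / toF h₂`
  have hu : toF h₁ / toF h₂ ≠ 0 := div_ne_zero hn₁ hn₂
  have hkey : algebraMap (modularFunctionFieldBar N) (modularFunctionFieldBar M)
      (toF h₁ / toF h₂) = algebraMap Qb (modularFunctionFieldBar M) c * y ^ m := by
    have hn₂' : toF h₂' ≠ 0 := toF_ne_zero h₂'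
    show φ (toF h₁ / toF h₂) = _
    rw [map_div₀, ← e₁, ← e₂, hcy, mul_div_assoc, div_self hn₂', mul_one]
  obtain ⟨c', y', hc', hy', hfin⟩ :=
    exists_pow_of_norm_coprime m (by rw [hfr]; exact hcop) (toF h₁ / toF h₂) hu c hc y hy hkey
  refine ⟨c', y', hc', hy', ?_⟩
  rw [← hfin, div_mul_cancel₀ _ hn₂]

/-- Transfer along `N ∣ N * p`, `p` prime not dividing `N`, when `p + 1` is prime to `m`. -/
theorem coreStatement_of_mul_prime (N p : ℕ) [NeZero N] (hp : p.Prime) (hpN : ¬ p ∣ N)
    (A : ValuationSubring Qb) (m : ℕ) (h2 : Nat.Coprime (p + 1) m) :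
    CoreStatement (N * p) A m → CoreStatement N A m := by
  haveI : NeZero (N * p) := ⟨Nat.mul_ne_zero (NeZero.ne N) hp.ne_zero⟩
  have hdeg := Fermat.Agent.S28.H988.relfinrank_bar_mul_prime N p (NeZero.ne N) hp
  rw [if_neg hpN] at hdeg
  refine coreStatement_of_dvd N (N * p) (Dvd.intro p rfl) A m ?_ ?_
  · rw [hdeg]; exact Nat.succ_ne_zero p
  · rw [hdeg]; exact h2

/-- **NODE D2** (statement of `Integ/Skeleton.lean`, `levelM N ℓ` unfolded). -/
theorem node_d2 (N : ℕ) [NeZero N] {ℓ : ℕ} [Fact ℓ.Prime] (_hℓN : ¬ ℓ ∣ N)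
    (A : ValuationSubring Qb) (_hA : A.LiesOverPrime ℓ) (m : ℕ) (hm : ¬ ℓ ∣ m) :
    CoreStatement (if ℓ = 3 then Nat.lcm N 2 else if ℓ = 2 then Nat.lcm N 3 else N) A m →
      CoreStatement N A m := by
  split_ifs with h3 h2
  · -- ℓ = 3, M = lcm N 2
    subst h3
    by_cases h : 2 ∣ N
    · rw [Nat.lcm_eq_left h]; exact id
    · have hc : Nat.Coprime N 2 :=
        (Nat.coprime_comm.mp ((Nat.Prime.coprime_iff_not_dvd Nat.prime_two).mpr h))
      rw [hc.lcm_eq_mul]
      have hm3 : Nat.Coprime 3 m := (Nat.Prime.coprime_iff_not_dvd Nat.prime_three).mpr hm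
      exact coreStatement_of_mul_prime N 2 Nat.prime_two h A m hm3
  · -- ℓ = 2, M = lcm N 3
    subst h2
    by_cases h : 3 ∣ N
    · rw [Nat.lcm_eq_left h]; exact id
    · have hc : Nat.Coprime N 3 :=
        (Nat.coprime_comm.mp ((Nat.Prime.coprime_iff_not_dvd Nat.prime_three).mpr h))
      rw [hc.lcm_eq_mul]
      have hm2 : Nat.Coprime 2 m := (Nat.Prime.coprime_iff_not_dvd Nat.prime_two).mpr hm
      have hm4 : Nat.Coprime (3 + 1) m := by
        have : (3 + 1 : ℕ) = 2 ^ 2 := by norm_num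
        rw [this]
        exact Nat.Coprime.pow_left 2 hm2
      exact coreStatement_of_mul_prime N 3 Nat.prime_three h A m hm4
  · exact id

end Fermat.Agent.S18.H568

end

end
-- ===== PACK-END S18/H568/D2.lean

-- ===== PACK-BEGIN S18/H634/HauptMember.lean
section



/-!
# S18 / c3 (helper634): the Hauptmoduln `t2`, `t3` of `Lib/Haupt` (helper637) are transcendental
# and lie in the modular function fields

All statements are about `Fermat.Agent.Lib.Haupt.t2`, `Fermat.Agent.Lib.Haupt.t3`.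

* `transcendental_t2`, `transcendental_t3` (any commutative ring of constants)
* `t2_mem_fullC : (2 : K) ≠ 0 → 2 ∣ M → t2 K ∈ modularFunctionFieldFullC K M`
* `t3_mem_fullC : (3 : K) ≠ 0 → 3 ∣ M → t3 K ∈ modularFunctionFieldFullC K M`
* `t2_mem_baseChange`, `t3_mem_baseChange` : membership in
  `laurentBaseChange L (modularFunctionFieldFull M)` for every field `L` of characteristic `0`.
* `t2_eq_div`, `t3_eq_div` : the explicit rational expressions `t = -num(j, j_d) / den(j, j_d)`.

The membership proofs are explicit eliminations (first subresultant of the two relations of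
`Lib/Haupt/Laurent.lean`); the big polynomial expressions are GENERATED
(coord/S18-c3-genmem-helper634.py.txt).
-/

set_option autoImplicit false
set_option maxHeartbeats 4000000
set_option maxRecDepth 100000

noncomputable section

namespace Fermat.Agent.S18.H634

open ModularCurve HahnSeries Fermat.Agent.Lib.Haupt

/-- series of Hauptmodul shape `q⁻¹ · J(q)` -/
def hauptForm (K : Type*) [CommRing K] (J : PowerSeries ℤ) : LaurentSeries K :=
  qinv K * lau K J

theorem t2_eq_hauptForm (K : Type*) [CommRing K] : t2 K = hauptForm K T2 := rfl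

theorem t3_eq_hauptForm (K : Type*) [CommRing K] : t3 K = hauptForm K T3 := rfl

theorem t2_rel_j (K : Type*) [CommRing K] : jqModC K * t2 K ^ 2 = (t2 K + 256) ^ 3 :=
  jq_mul_t2_sq K

theorem t2_rel_j2 (K : Type*) [CommRing K] : jqNModC K 2 * t2 K = (t2 K + 16) ^ 3 :=
  jq2_mul_t2 K

theorem t3_rel_j (K : Type*) [CommRing K] :
    jqModC K * t3 K ^ 3 = (t3 K + 27) * (t3 K + 243) ^ 3 :=
  jq_mul_t3_cube K

theorem t3_rel_j3 (K : Type*) [CommRing K] :
    jqNModC K 3 * t3 K = (t3 K + 27) * (t3 K + 3) ^ 3 :=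
  jq3_mul_t3 K

/-! ### series of Hauptmodul shape -/

section HauptForm

variable (K : Type*) [CommRing K] (J : PowerSeries ℤ)

theorem hauptForm_pow (n : ℕ) :
    hauptForm K J ^ n = HahnSeries.single (-(n : ℤ)) 1 *
      HahnSeries.ofPowerSeries ℤ K ((J.map (Int.castRingHom K)) ^ n) := by
  have h : n • (-1 : ℤ) = -(n : ℤ) := by simp
  rw [hauptForm, qinv, lau, mul_pow, HahnSeries.single_pow, one_pow, h, ← map_pow]

variable {J}

theorem constantCoeff_map_int (hJ : PowerSeries.constantCoeff J = 1) :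
    PowerSeries.constantCoeff (J.map (Int.castRingHom K)) = 1 := by
  rw [← PowerSeries.coeff_zero_eq_constantCoeff, PowerSeries.coeff_map,
    PowerSeries.coeff_zero_eq_constantCoeff, hJ, map_one]

theorem coeff_hauptForm_pow_self (hJ : PowerSeries.constantCoeff J = 1) (n : ℕ) :
    (hauptForm K J ^ n).coeff (-(n : ℤ)) = 1 := by
  rw [hauptForm_pow, HahnSeries.coeff_single_mul, one_mul, sub_neg_eq_add, neg_add_cancel,
    show (0 : ℤ) = ((0 : ℕ) : ℤ) from rfl, HahnSeries.ofPowerSeries_apply_coeff,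
    PowerSeries.coeff_zero_eq_constantCoeff, map_pow, constantCoeff_map_int K hJ, one_pow]

variable (J) in
theorem coeff_hauptForm_pow_of_lt {n : ℕ} {m : ℤ} (hm : m < -(n : ℤ)) :
    (hauptForm K J ^ n).coeff m = 0 := by
  rw [hauptForm_pow, HahnSeries.coeff_single_mul, one_mul]
  exact ofPowerSeries_coeff_of_neg _ (by omega)

theorem algebraMap_laurent_eq_single (c : K) :
    algebraMap K (LaurentSeries K) c = HahnSeries.single 0 c := by
  have h1 : algebraMap K (PowerSeries K) c = PowerSeries.C c := by simp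
  rw [HahnSeries.algebraMap_apply', h1, HahnSeries.ofPowerSeries_C]
  rfl

theorem aeval_hauptForm_eq_zero (hJ : PowerSeries.constantCoeff J = 1) {p : Polynomial K}
    (hp : Polynomial.aeval (hauptForm K J) p = 0) : p = 0 := by
  by_contra hp0
  set n := p.natDegree with hn
  have hcoeff : (Polynomial.aeval (hauptForm K J) p).coeff (-(n : ℤ)) = p.coeff n := by
    rw [Polynomial.aeval_def, Polynomial.eval₂_eq_sum_range, HahnSeries.coeff_sum,
      Finset.sum_eq_single n]
    · rw [algebraMap_laurent_eq_single, HahnSeries.coeff_single_zero_mul,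
        coeff_hauptForm_pow_self K hJ, mul_one]
    · intro i hi hin
      have hilt : i < n := lt_of_le_of_ne (Nat.lt_succ_iff.mp (Finset.mem_range.mp hi)) hin
      rw [algebraMap_laurent_eq_single, HahnSeries.coeff_single_zero_mul,
        coeff_hauptForm_pow_of_lt, mul_zero]
      omega
    · intro hn'
      exact absurd (Finset.self_mem_range_succ n) hn'
  rw [hp] at hcoeff
  simp only [HahnSeries.coeff_zero] at hcoeff
  exact hp0 (Polynomial.leadingCoeff_eq_zero.mp hcoeff.symm)

theorem transcendental_hauptForm (hJ : PowerSeries.constantCoeff J = 1) :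
    Transcendental K (hauptForm K J) :=
  transcendental_iff.mpr fun _ hp => aeval_hauptForm_eq_zero K hJ hp

theorem transcendental_t2 : Transcendental K (t2 K) :=
  transcendental_hauptForm K constantCoeff_T2

theorem transcendental_t3 : Transcendental K (t3 K) :=
  transcendental_hauptForm K constantCoeff_T3

end HauptForm


/-! ### `t2` lies in the function field of level divisible by `2` -/

section Memt2

variable {L : Type*} [Field L]

/-- (generated) the denominator of the elimination -/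
def den2 (j J : L) : L := (19906560000) + (-161280) * J + (1) * J^2 + (25067520) * j + (1488) * j * J + (768) * j^2 + (-1) * j^2 * J

/-- (generated) the numerator of the elimination -/
def num2 (j J : L) : L := (2707292160000) + (16773120) * J + (799211520) * j + (4096) * j^2

/-- (generated) first subresultant relation -/
theorem lin2 (j J t : L) (h1 : j * t ^ 2 = (t + 256) ^ 3) (h2 : J * t = (t + 16) ^ 3) :
    den2 j J * t + num2 j J = 0 := by
  unfold den2 num2
  linear_combination (-(((161280) + (1) * J + (48) * j) + ((-720) + (1) * j) * t)) * h1 + (-(((357120) + (-1) * J + (-1488) * j + (1) * j^2) + ((720) + (-1) * j) * t)) * h2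

/-- (generated) the denominator in terms of `t` -/
theorem den2_mul (j J t : L) (h1 : j * t ^ 2 = (t + 256) ^ 3) (h2 : J * t = (t + 16) ^ 3) :
    den2 j J * t ^ 5 = -((2 : L) ^ 24 * ((1) * t ^ 6 + (96) * t ^ 5 + (198960) * t ^ 4 + (9451775) * t ^ 3 + (814940160) * t ^ 2 + (1610612736) * t + (68719476736))) := by
  have e0 : den2 j J * t ^ 5 = (19906560000) * t ^ 5 + (-161280) * (J * t) ^ 1 * t ^ 4 + (1) * (J * t) ^ 2 * t ^ 3 + (25067520) * (j * t ^ 2) ^ 1 * t ^ 3 + (1488) * (j * t ^ 2) ^ 1 * (J * t) ^ 1 * t ^ 2 + (768) * (j * t ^ 2) ^ 2 * t ^ 1 + (-1) * (j * t ^ 2) ^ 2 * (J * t) ^ 1 := by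
    unfold den2
    ring
  rw [e0, h1, h2]
  ring

end Memt2

theorem den2_jq_ne_zero (K : Type*) [Field K] (hchar : (2 : K) ≠ 0) :
    den2 (jqModC K) (jqNModC K 2) ≠ 0 := by
  have h1 := t2_rel_j K
  have h2 := t2_rel_j2 K
  have hlin := lin2 (jqModC K) (jqNModC K 2) (t2 K) h1 h2
  have hmul := den2_mul (jqModC K) (jqNModC K 2) (t2 K) h1 h2
  -- the denominator does not vanish
  have hQ : ((1) * t2 K ^ 6 + (96) * t2 K ^ 5 + (198960) * t2 K ^ 4 + (9451775) * t2 K ^ 3 + (814940160) * t2 K ^ 2 + (1610612736) * t2 K + (68719476736) : LaurentSeries K) ≠ 0 := by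
    have hp : ((1) * Polynomial.X ^ 6 + (96) * Polynomial.X ^ 5 + (198960) * Polynomial.X ^ 4 + (9451775) * Polynomial.X ^ 3 + (814940160) * Polynomial.X ^ 2 + (1610612736) * Polynomial.X + (68719476736) : Polynomial K).Monic := by
      monicity!
    have h := mt (aeval_hauptForm_eq_zero K constantCoeff_T2
      (p := ((1) * Polynomial.X ^ 6 + (96) * Polynomial.X ^ 5 + (198960) * Polynomial.X ^ 4 + (9451775) * Polynomial.X ^ 3 + (814940160) * Polynomial.X ^ 2 + (1610612736) * Polynomial.X + (68719476736) : Polynomial K))) hp.ne_zero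
    simpa only [map_add, map_mul, map_pow, Polynomial.aeval_X, map_ofNat, map_one, ← t2_eq_hauptForm] using h
  have hp : ((2 : LaurentSeries K) ^ 24) ≠ 0 := by
    apply pow_ne_zero
    have : (2 : LaurentSeries K) = algebraMap K (LaurentSeries K) 2 := (map_ofNat _ 2).symm
    rw [this]
    exact (map_ne_zero _).mpr hchar
  have hden : den2 (jqModC K) (jqNModC K 2) ≠ 0 := by
    intro h0
    rw [h0, zero_mul] at hmul
    exact (mul_ne_zero hp hQ) (neg_eq_zero.mp hmul.symm)
  exact hden

/-- explicit rational expression of `t2` in `j(q)`, `j(q^2)` -/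
theorem t2_eq_div (K : Type*) [Field K] (hchar : (2 : K) ≠ 0) :
    t2 K = -num2 (jqModC K) (jqNModC K 2) / den2 (jqModC K) (jqNModC K 2) := by
  have hlin := lin2 (jqModC K) (jqNModC K 2) (t2 K) (t2_rel_j K) (t2_rel_j2 K)
  rw [eq_div_iff (den2_jq_ne_zero K hchar)]
  linear_combination hlin

theorem t2_mem_fullC (K : Type*) [Field K] (hchar : (2 : K) ≠ 0) (M : ℕ) [NeZero M]
    (hM : 2 ∣ M) : t2 K ∈ modularFunctionFieldFullC K M := by
  set F := modularFunctionFieldFullC K M with hF
  have hj : jqModC K ∈ F := jqModC_mem_full K M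
  have hJ : jqNModC K 2 ∈ F := jqModCd_mem_full K M hM
  -- membership of numerator and denominator
  have hden_mem : den2 (jqModC K) (jqNModC K 2) ∈ F := by
    have := (den2 (⟨_, hj⟩ : F) (⟨_, hJ⟩ : F)).2
    unfold den2 at this ⊢
    exact_mod_cast this
  have hnum_mem : num2 (jqModC K) (jqNModC K 2) ∈ F := by
    have := (num2 (⟨_, hj⟩ : F) (⟨_, hJ⟩ : F)).2
    unfold num2 at this ⊢
    exact_mod_cast this
  rw [t2_eq_div K hchar]
  exact div_mem (neg_mem hnum_mem) hden_mem


/-! ### `t3` lies in the function field of level divisible by `3` -/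

section Memt3

variable {L : Type*} [Field L]

/-- (generated) the denominator of the elimination -/
def den3 (j J : L) : L := (2641807540224000000000) + (328219361280000) * J + (36864720) * J^2 + (1) * J^3 + (-572980708638720000) * j + (9457338111840) * j * J + (-1069956) * j * J^2 + (3513047559120) * j^2 + (2202104637) * j^2 * J + (2232) * j^2 * J^2 + (-374706) * j^3 + (1512) * j^3 * J + (-1) * j^3 * J^2

/-- (generated) the numerator of the elimination -/
def num3 (j J : L) : L := (71328803586048000000000) + (-35305797058560000) * J + (387419760) * J^2 + (-10354866501058560000) * j + (55775383276320) * j * J + (16876879720560) * j^2 + (13945510476) * j^2 * J + (-551124) * j^3 + (729) * j^3 * J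

/-- (generated) first subresultant relation -/
theorem lin3 (j J t : L) (h1 : j * t ^ 3 = (t + 27) * (t + 243) ^ 3) (h2 : J * t = (t + 27) * (t + 3) ^ 3) :
    den3 j J * t + num3 j J = 0 := by
  unfold den3 num3
  linear_combination (-(((184115773440000) + (-91130400) * J + (1) * J^2 + (-26714059200) * j + (143964) * j * J + (45684) * j^2 + (36) * j^2 * J) + ((-2269347840000) + (321840) * J + (-145586160) * j + (-1440) * j * J + (8964) * j^2 + (1) * j^2 * J) * t + ((19906560000) + (-720) * J + (25818480) * j + (1) * j * J + (270) * j^2) * t^2)) * h1 + (-(((-1947040727040000) + (-17733600) * J + (-1) * J^2 + (-7260113332800) * j + (1069956) * j * J + (-1127624004) * j^2 + (-2232) * j^2 * J + (-756) * j^3 + (1) * j^3 * J) + ((-12063375360000) + (196560) * J + (1462840560) * j + (25615116) * j^2 + (270) * j^3) * t + ((-19906560000) + (720) * J + (-25818480) * j + (-1) * j * J + (-270) * j^2) * t^2)) * h2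

/-- (generated) the denominator in terms of `t` -/
theorem den3_mul (j J t : L) (h1 : j * t ^ 3 = (t + 27) * (t + 243) ^ 3) (h2 : J * t = (t + 27) * (t + 3) ^ 3) :
    den3 j J * t ^ 11 = -((3 : L) ^ 18 * ((1) * t ^ 16 + (108) * t ^ 15 + (201528) * t ^ 14 + (59626404) * t ^ 13 + (42369876252) * t ^ 12 + (6661370952684) * t ^ 11 + (710775193256712) * t ^ 10 + (27393572738312388) * t ^ 9 + (795914464089548294) * t ^ 8 + (19969914526229730852) * t ^ 7 + (377735079479540281992) * t ^ 6 + (2580751591899231142476) * t ^ 5 + (11966504510609689549212) * t ^ 4 + (12276547822292907512196) * t ^ 3 + (30248271662133638856888) * t ^ 2 + (11817250826203334794572) * t + (79766443076872509863361))) := by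
  have e0 : den3 j J * t ^ 11 = (2641807540224000000000) * t ^ 11 + (328219361280000) * (J * t) ^ 1 * t ^ 10 + (36864720) * (J * t) ^ 2 * t ^ 9 + (1) * (J * t) ^ 3 * t ^ 8 + (-572980708638720000) * (j * t ^ 3) ^ 1 * t ^ 8 + (9457338111840) * (j * t ^ 3) ^ 1 * (J * t) ^ 1 * t ^ 7 + (-1069956) * (j * t ^ 3) ^ 1 * (J * t) ^ 2 * t ^ 6 + (3513047559120) * (j * t ^ 3) ^ 2 * t ^ 5 + (2202104637) * (j * t ^ 3) ^ 2 * (J * t) ^ 1 * t ^ 4 + (2232) * (j * t ^ 3) ^ 2 * (J * t) ^ 2 * t ^ 3 + (-374706) * (j * t ^ 3) ^ 3 * t ^ 2 + (1512) * (j * t ^ 3) ^ 3 * (J * t) ^ 1 * t ^ 1 + (-1) * (j * t ^ 3) ^ 3 * (J * t) ^ 2 := by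
    unfold den3
    ring
  rw [e0, h1, h2]
  ring

end Memt3

theorem den3_jq_ne_zero (K : Type*) [Field K] (hchar : (3 : K) ≠ 0) :
    den3 (jqModC K) (jqNModC K 3) ≠ 0 := by
  have h1 := t3_rel_j K
  have h2 := t3_rel_j3 K
  have hlin := lin3 (jqModC K) (jqNModC K 3) (t3 K) h1 h2
  have hmul := den3_mul (jqModC K) (jqNModC K 3) (t3 K) h1 h2
  -- the denominator does not vanish
  have hQ : ((1) * t3 K ^ 16 + (108) * t3 K ^ 15 + (201528) * t3 K ^ 14 + (59626404) * t3 K ^ 13 + (42369876252) * t3 K ^ 12 + (6661370952684) * t3 K ^ 11 + (710775193256712) * t3 K ^ 10 + (27393572738312388) * t3 K ^ 9 + (795914464089548294) * t3 K ^ 8 + (19969914526229730852) * t3 K ^ 7 + (377735079479540281992) * t3 K ^ 6 + (2580751591899231142476) * t3 K ^ 5 + (11966504510609689549212) * t3 K ^ 4 + (12276547822292907512196) * t3 K ^ 3 + (30248271662133638856888) * t3 K ^ 2 + (11817250826203334794572) * t3 K + (79766443076872509863361) : LaurentSeries K) ≠ 0 := by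
    have hp : ((1) * Polynomial.X ^ 16 + (108) * Polynomial.X ^ 15 + (201528) * Polynomial.X ^ 14 + (59626404) * Polynomial.X ^ 13 + (42369876252) * Polynomial.X ^ 12 + (6661370952684) * Polynomial.X ^ 11 + (710775193256712) * Polynomial.X ^ 10 + (27393572738312388) * Polynomial.X ^ 9 + (795914464089548294) * Polynomial.X ^ 8 + (19969914526229730852) * Polynomial.X ^ 7 + (377735079479540281992) * Polynomial.X ^ 6 + (2580751591899231142476) * Polynomial.X ^ 5 + (11966504510609689549212) * Polynomial.X ^ 4 + (12276547822292907512196) * Polynomial.X ^ 3 + (30248271662133638856888) * Polynomial.X ^ 2 + (11817250826203334794572) * Polynomial.X + (79766443076872509863361) : Polynomial K).Monic := by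
      monicity!
    have h := mt (aeval_hauptForm_eq_zero K constantCoeff_T3
      (p := ((1) * Polynomial.X ^ 16 + (108) * Polynomial.X ^ 15 + (201528) * Polynomial.X ^ 14 + (59626404) * Polynomial.X ^ 13 + (42369876252) * Polynomial.X ^ 12 + (6661370952684) * Polynomial.X ^ 11 + (710775193256712) * Polynomial.X ^ 10 + (27393572738312388) * Polynomial.X ^ 9 + (795914464089548294) * Polynomial.X ^ 8 + (19969914526229730852) * Polynomial.X ^ 7 + (377735079479540281992) * Polynomial.X ^ 6 + (2580751591899231142476) * Polynomial.X ^ 5 + (11966504510609689549212) * Polynomial.X ^ 4 + (12276547822292907512196) * Polynomial.X ^ 3 + (30248271662133638856888) * Polynomial.X ^ 2 + (11817250826203334794572) * Polynomial.X + (79766443076872509863361) : Polynomial K))) hp.ne_zero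
    simpa only [map_add, map_mul, map_pow, Polynomial.aeval_X, map_ofNat, map_one, ← t3_eq_hauptForm] using h
  have hp : ((3 : LaurentSeries K) ^ 18) ≠ 0 := by
    apply pow_ne_zero
    have : (3 : LaurentSeries K) = algebraMap K (LaurentSeries K) 3 := (map_ofNat _ 3).symm
    rw [this]
    exact (map_ne_zero _).mpr hchar
  have hden : den3 (jqModC K) (jqNModC K 3) ≠ 0 := by
    intro h0
    rw [h0, zero_mul] at hmul
    exact (mul_ne_zero hp hQ) (neg_eq_zero.mp hmul.symm)
  exact hden

/-- explicit rational expression of `t3` in `j(q)`, `j(q^3)` -/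
theorem t3_eq_div (K : Type*) [Field K] (hchar : (3 : K) ≠ 0) :
    t3 K = -num3 (jqModC K) (jqNModC K 3) / den3 (jqModC K) (jqNModC K 3) := by
  have hlin := lin3 (jqModC K) (jqNModC K 3) (t3 K) (t3_rel_j K) (t3_rel_j3 K)
  rw [eq_div_iff (den3_jq_ne_zero K hchar)]
  linear_combination hlin

theorem t3_mem_fullC (K : Type*) [Field K] (hchar : (3 : K) ≠ 0) (M : ℕ) [NeZero M]
    (hM : 3 ∣ M) : t3 K ∈ modularFunctionFieldFullC K M := by
  set F := modularFunctionFieldFullC K M with hF
  have hj : jqModC K ∈ F := jqModC_mem_full K M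
  have hJ : jqNModC K 3 ∈ F := jqModCd_mem_full K M hM
  -- membership of numerator and denominator
  have hden_mem : den3 (jqModC K) (jqNModC K 3) ∈ F := by
    have := (den3 (⟨_, hj⟩ : F) (⟨_, hJ⟩ : F)).2
    unfold den3 at this ⊢
    exact_mod_cast this
  have hnum_mem : num3 (jqModC K) (jqNModC K 3) ∈ F := by
    have := (num3 (⟨_, hj⟩ : F) (⟨_, hJ⟩ : F)).2
    unfold num3 at this ⊢
    exact_mod_cast this
  rw [t3_eq_div K hchar]
  exact div_mem (neg_mem hnum_mem) hden_mem


/-! ### base change: membership in `laurentBaseChange L (modularFunctionFieldFull M)` -/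

theorem t2_mem_baseChange (L : Type*) [Field L] [Algebra ℚ L] (M : ℕ) [NeZero M] (hM : 2 ∣ M) :
    t2 L ∈ laurentBaseChange L (modularFunctionFieldFull M) := by
  have h := t2_mem_fullC ℚ (by norm_num) M hM
  rw [modularFunctionFieldFullC_rat] at h
  have h' := coeffEmb_mem_laurentBaseChange L h
  rwa [coeffEmb, coeffMap_t2] at h'

theorem t3_mem_baseChange (L : Type*) [Field L] [Algebra ℚ L] (M : ℕ) [NeZero M] (hM : 3 ∣ M) :
    t3 L ∈ laurentBaseChange L (modularFunctionFieldFull M) := by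
  have h := t3_mem_fullC ℚ (by norm_num) M hM
  rw [modularFunctionFieldFullC_rat] at h
  have h' := coeffEmb_mem_laurentBaseChange L h
  rwa [coeffEmb, coeffMap_t3] at h'

end Fermat.Agent.S18.H634

end
end
-- ===== PACK-END S18/H634/HauptMember.lean

-- ===== PACK-BEGIN S18/H634/Coord.lean
section



/-!
# S18 / node_coord (c3) — existence of admissible coordinates (helper634)

`node_coord` has EXACTLY the type of the `sorry` node `Integ.node_coord` of the row skeleton
(`origin/helper18:Fermat/Agent/S18/Integ/Skeleton.lean`, v4):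

    theorem node_coord (M : ℕ) [NeZero M] {ℓ : ℕ} [Fact ℓ.Prime] (hℓM : ¬ ℓ ∣ M)
        (h3 : ℓ = 3 → 2 ∣ M) (h2 : ℓ = 2 → 3 ∣ M) : Mod.CoordinateStatement M ℓ

* `ℓ ≥ 5`: `x = j`, `S = {0, 1728}`;
* `ℓ = 3`: `x = t2 = Δ(q)/Δ(q²)` (helper637's `Lib.Haupt.t2`), `S = {0, -64}`;
* `ℓ = 2`: `x = t3 = (η(q)/η(q³))¹²` (`Lib.Haupt.t3`), `S = {0, -27}`.
-/

set_option autoImplicit false

noncomputable section

namespace Fermat.Agent.S18.H634

open ModularCurve AlgebraicCurve HahnSeries Fermat.Agent.Lib.Haupt Fermat.Agent.S18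

/-- `t2` as an element of `Ω = F_M`, `2 ∣ M`. -/
def t2Om (M : ℕ) [NeZero M] (hM : 2 ∣ M) : Mod.Om M :=
  ⟨t2 Qb, t2_mem_baseChange Qb M hM⟩

/-- `t3` as an element of `Ω = F_M`, `3 ∣ M`. -/
def t3Om (M : ℕ) [NeZero M] (hM : 3 ∣ M) : Mod.Om M :=
  ⟨t3 Qb, t3_mem_baseChange Qb M hM⟩

theorem coe_jOm (M : ℕ) [NeZero M] : ((Mod.jOm M : Mod.Om M) : LaurentSeries Qb) = jqModC Qb := by
  show coeffEmb Qb (qExpand ℚ 1 jq) = jqModC Qb
  rw [qExpand_one_apply, ← jqModC_rat, coeffEmb, coeffMap_jqModC]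

theorem jOm_mul_t2Om_sq (M : ℕ) [NeZero M] (hM : 2 ∣ M) :
    Mod.jOm M * t2Om M hM ^ 2 = (t2Om M hM + 256) ^ 3 := by
  apply Subtype.ext
  have h := jq_mul_t2_sq Qb
  have e1 : ((Mod.jOm M * t2Om M hM ^ 2 : Mod.Om M) : LaurentSeries Qb)
      = jqModC Qb * t2 Qb ^ 2 := by
    rw [← coe_jOm M]; rfl
  have e2 : (((t2Om M hM + 256) ^ 3 : Mod.Om M) : LaurentSeries Qb) = (t2 Qb + 256) ^ 3 := rfl
  rw [e1, e2, h]

theorem jOm_mul_t3Om_cube (M : ℕ) [NeZero M] (hM : 3 ∣ M) :
    Mod.jOm M * t3Om M hM ^ 3 = (t3Om M hM + 27) * (t3Om M hM + 243) ^ 3 := by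
  apply Subtype.ext
  have h := jq_mul_t3_cube Qb
  have e1 : ((Mod.jOm M * t3Om M hM ^ 3 : Mod.Om M) : LaurentSeries Qb)
      = jqModC Qb * t3 Qb ^ 3 := by
    rw [← coe_jOm M]; rfl
  have e2 : (((t3Om M hM + 27) * (t3Om M hM + 243) ^ 3 : Mod.Om M) : LaurentSeries Qb)
      = (t3 Qb + 27) * (t3 Qb + 243) ^ 3 := rfl
  rw [e1, e2, h]

/-- the integral model of `t2`: the series `t2 ℤ`. -/
theorem t2_intModel (M : ℕ) [NeZero M] (hM : 2 ∣ M) :
    ∃ X : LaurentSeries ℤ, X.coeff (-1) = 1 ∧ (∀ k : ℤ, k < -1 → X.coeff k = 0) ∧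
      ((t2Om M hM : Mod.Om M) : LaurentSeries Qb) = coeffMap (Int.castRingHom Qb) X ∧
      coeffMap (Int.castRingHom ℚ) X ∈ modularFunctionFieldFull M := by
  refine ⟨t2 ℤ, coeff_t2_neg_one ℤ, fun k hk => coeff_t2_of_lt ℤ hk, ?_, ?_⟩
  · rw [coeffMap_t2]; rfl
  · rw [coeffMap_t2, ← modularFunctionFieldFullC_rat]
    exact t2_mem_fullC ℚ (by norm_num) M hM

/-- the integral model of `t3`: the series `t3 ℤ`. -/
theorem t3_intModel (M : ℕ) [NeZero M] (hM : 3 ∣ M) :
    ∃ X : LaurentSeries ℤ, X.coeff (-1) = 1 ∧ (∀ k : ℤ, k < -1 → X.coeff k = 0) ∧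
      ((t3Om M hM : Mod.Om M) : LaurentSeries Qb) = coeffMap (Int.castRingHom Qb) X ∧
      coeffMap (Int.castRingHom ℚ) X ∈ modularFunctionFieldFull M := by
  refine ⟨t3 ℤ, coeff_t3_neg_one ℤ, fun k hk => coeff_t3_of_lt ℤ hk, ?_, ?_⟩
  · rw [coeffMap_t3]; rfl
  · rw [coeffMap_t3, ← modularFunctionFieldFullC_rat]
    exact t3_mem_fullC ℚ (by norm_num) M hM

/-- `t2` is an admissible coordinate for `ℓ = 3`. -/
theorem isCoordinate_t2 (M : ℕ) [NeZero M] (hM : 2 ∣ M) (S : Finset (Mod.Om M))
    (hS : ∀ s, s ∈ S ↔ s = 0 ∨ s = -64) : Mod.IsCoordinate M 3 (t2Om M hM) S :=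
  Or.inr ⟨Or.inl ⟨rfl, jOm_mul_t2Om_sq M hM, hS⟩, t2_intModel M hM⟩

/-- `t3` is an admissible coordinate for `ℓ = 2`. -/
theorem isCoordinate_t3 (M : ℕ) [NeZero M] (hM : 3 ∣ M) (S : Finset (Mod.Om M))
    (hS : ∀ s, s ∈ S ↔ s = 0 ∨ s = -27) : Mod.IsCoordinate M 2 (t3Om M hM) S :=
  Or.inr ⟨Or.inr ⟨rfl, jOm_mul_t3Om_cube M hM, hS⟩, t3_intModel M hM⟩

/-- `j` is an admissible coordinate for `ℓ ≥ 5`. -/
theorem isCoordinate_j (M ℓ : ℕ) (hℓ : 5 ≤ ℓ) (S : Finset (Mod.Om M))
    (hS : ∀ s, s ∈ S ↔ s = 0 ∨ s = 1728) : Mod.IsCoordinate M ℓ (Mod.jOm M) S :=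
  Or.inl ⟨hℓ, rfl, hS⟩

/-- **NODE COORD** (c3), exact type of `Integ.node_coord` (skeleton v4). -/
theorem node_coord (M : ℕ) [NeZero M] {ℓ : ℕ} [Fact ℓ.Prime] (hℓM : ¬ ℓ ∣ M)
    (h3 : ℓ = 3 → 2 ∣ M) (h2 : ℓ = 2 → 3 ∣ M) : Mod.CoordinateStatement M ℓ := by
  classical
  have hp : ℓ.Prime := Fact.out
  by_cases e3 : ℓ = 3
  · subst e3
    exact ⟨t2Om M (h3 rfl), {0, -64}, isCoordinate_t2 M (h3 rfl) _ (by simp)⟩
  by_cases e2 : ℓ = 2
  · subst e2
    exact ⟨t3Om M (h2 rfl), {0, -27}, isCoordinate_t3 M (h2 rfl) _ (by simp)⟩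
  have h5 : 5 ≤ ℓ := by
    have h2' := hp.two_le
    by_contra hlt
    have h4 : ℓ = 4 := by omega
    rw [h4] at hp
    exact absurd hp (by norm_num)
  exact ⟨Mod.jOm M, {0, 1728}, isCoordinate_j M ℓ h5 _ (by simp)⟩

end Fermat.Agent.S18.H634

end
end
-- ===== PACK-END S18/H634/Coord.lean

-- ===== PACK-BEGIN S18/B12/H33/RegChart.lean
section






/-!
# S18 b2 (helper33): REG-CHART — `b2Regular` instantiated on the charts of helper138

Setting (the one of `H138.connected_special_fibre`): `R` a discrete valuation ring, `F` a field of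
characteristic `0` which is an `R`-algebra, `x : F` transcendental over `R`,
`[FiniteDimensional (H138.baseField R x) F]`, and the chart
`B := H138.chart R {x} : Subalgebra R F` (the integral closure of `R[x]` in `F`).

Main result `regularAlong_chart`:

    H754.RegularAlong (algebraMap R (H138.chart R {x}) w)

from
* `hdom` : `w` is prime in the chart (QEP),
* `hsep` : elementwise separability of the special fibre (shape of `H425.hsep_poly`),
* `S`, `hS` : the branch values, pairwise distinct mod `w`,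
* `hNC` : for every prime `π` of `R[X]` not associated to `w` or to some `X - c` (`c ∈ S`), the
  ideal `π(x) B` is radical (unramifiedness away from `S`, from `GoodModel.unramified`).

All the instance plumbing (`R[X]`-algebra structure through `aeval x`, finiteness, torsion-freeness,
integral closedness) is done here.  `regularAlong_chart_field` is the same theorem with the
hypotheses `hsep`, `hNC` stated by elements of `F`.
-/

set_option autoImplicit false
set_option linter.style.haveILetI false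

noncomputable section

namespace Fermat.Agent.S18.B12.H33

open Polynomial

universe u v

section RegChart

variable (R : Type u) [CommRing R] {F : Type v} [Field F] [Algebra R F]

/-- The coordinate `x` as an element of the chart. -/
def chartX (x : F) : H138.chart R ({x} : Set F) := ⟨x, H138.mem_chart_of_mem rfl⟩

/-- The structure map `R[X] → B`, `X ↦ x`. -/
def chartPolyHom (x : F) : R[X] →ₐ[R] H138.chart R ({x} : Set F) := aeval (chartX R x)

variable {R}

@[simp] theorem coe_chartX (x : F) : ((chartX R x : H138.chart R ({x} : Set F)) : F) = x := rfl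

theorem chartPolyHom_apply (x : F) (p : R[X]) : chartPolyHom R x p = aeval (chartX R x) p := rfl

theorem coe_chartPolyHom (x : F) (p : R[X]) :
    ((chartPolyHom R x p : H138.chart R ({x} : Set F)) : F) = aeval x p := by
  have h := Polynomial.aeval_algHom_apply (H138.chart R ({x} : Set F)).val (chartX R x) p
  rw [chartPolyHom_apply]
  exact h.symm

theorem chartPolyHom_C (x : F) (r : R) :
    chartPolyHom R x (C r) = algebraMap R (H138.chart R ({x} : Set F)) r := by
  rw [chartPolyHom_apply, aeval_C]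

theorem chartPolyHom_injective {x : F} (hx : Transcendental R x) :
    Function.Injective (chartPolyHom R x) := by
  rw [injective_iff_map_eq_zero]
  intro p hp
  have h : aeval x p = 0 := by
    rw [← coe_chartPolyHom, hp]; rfl
  exact transcendental_iff.1 hx p h

theorem algebraMap_injective_of_transcendental {x : F} (hx : Transcendental R x) :
    Function.Injective (algebraMap R F) := by
  rw [injective_iff_map_eq_zero]
  intro r hr
  have h : aeval x (C r : R[X]) = 0 := by rw [aeval_C, hr]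
  have := transcendental_iff.1 hx _ h
  exact C_eq_zero.1 this

end RegChart

section Package

variable {R : Type u} [CommRing R] {F : Type v} [Field F] [Algebra R F]

/-- The `R[X]`-algebra structure of the chart (`X ↦ x`).  Not an instance. -/
@[reducible] def chartAlgebra (R : Type u) [CommRing R] {F : Type v} [Field F] [Algebra R F]
    (x : F) : Algebra R[X] (H138.chart R ({x} : Set F)) :=
  (chartPolyHom R x).toRingHom.toAlgebra

/-- The chart is (tautologically) the integral closure of `R[x]` in `F`. -/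
def chartEquiv (x : F) :
    integralClosure (Algebra.adjoin R ({x} : Set F)) F ≃+* H138.chart R ({x} : Set F) where
  toFun c := ⟨c.1, c.2⟩
  invFun c := ⟨c.1, c.2⟩
  left_inv _ := rfl
  right_inv _ := rfl
  map_mul' _ _ := rfl
  map_add' _ _ := rfl

/-- `R[X] ≃ R[x]` for transcendental `x`. -/
def polyEquivAdjoin {x : F} (hx : Transcendental R x) :
    R[X] ≃ₐ[R] Algebra.adjoin R ({x} : Set F) :=
  (AlgEquiv.ofInjective (aeval (R := R) x)
    ((injective_iff_map_eq_zero _).2 (transcendental_iff.1 hx))).trans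
      (Subalgebra.equivOfEq _ _ (Algebra.adjoin_singleton_eq_range_aeval R x).symm)

theorem coe_polyEquivAdjoin {x : F} (hx : Transcendental R x) (p : R[X]) :
    ((polyEquivAdjoin hx p : Algebra.adjoin R ({x} : Set F)) : F) = aeval x p := rfl

/-- The chart is integrally closed and finite over `R[X]`. -/
theorem chart_package [IsDomain R] [IsNoetherianRing R] [IsIntegrallyClosed R[X]] [CharZero F]
    {x : F} (hx : Transcendental R x) [FiniteDimensional (H138.baseField R x) F] :
    IsIntegrallyClosed (H138.chart R ({x} : Set F)) ∧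
      @Module.Finite R[X] (H138.chart R ({x} : Set F)) _ _ (chartAlgebra R x).toModule := by
  classical
  set A : Subalgebra R F := Algebra.adjoin R ({x} : Set F) with hA
  set K : Subfield F := H138.baseField R x with hK
  haveI := H138.isIntegrallyClosed_adjoin_singleton (R := R) hx
  haveI := H138.isNoetherianRing_adjoin_singleton (R := R) hx
  let φ : A →+* K :=
    { toFun := fun a => ⟨a, H138.adjoin_le_baseField x a.2⟩
      map_one' := rfl
      map_mul' := fun _ _ => rfl
      map_zero' := rfl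
      map_add' := fun _ _ => rfl }
  letI : Algebra A K := φ.toAlgebra
  haveI : IsScalarTower A K F := IsScalarTower.of_algebraMap_eq (fun _ => rfl)
  have hinj : Function.Injective (algebraMap A K) := by
    intro a b hab
    have : (a : F) = b := congrArg (fun t : K => (t : F)) hab
    exact Subtype.ext this
  haveI : FaithfulSMul A K := (faithfulSMul_iff_algebraMap_injective A K).2 hinj
  haveI : IsFractionRing A K := by
    refine IsFractionRing.of_field A K (fun z => ?_)
    obtain ⟨a, ha, b, hb, h⟩ := H138.exists_div_of_mem_baseField (R := R) x z.2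
    exact ⟨⟨a, ha⟩, ⟨b, hb⟩, Subtype.ext h⟩
  haveI : CharZero K := (algebraMap K F).charZero
  haveI hfinA : Module.Finite A (integralClosure A F) :=
    IsIntegralClosure.finite A K F (integralClosure A F)
  haveI hic : IsIntegrallyClosed (integralClosure A F) :=
    integralClosure.isIntegrallyClosedOfFiniteExtension K
  refine ⟨IsIntegrallyClosed.of_equiv (chartEquiv x), ?_⟩
  letI := chartAlgebra R x
  refine Module.Finite.of_equiv_equiv (A₁ := A) (B₁ := integralClosure A F)
    (polyEquivAdjoin hx).symm.toRingEquiv (chartEquiv x) ?_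
  refine RingHom.ext (fun a => ?_)
  obtain ⟨p, rfl⟩ := (polyEquivAdjoin hx).surjective a
  apply Subtype.ext
  simp only [RingHom.comp_apply, RingHom.coe_coe,
    AlgEquiv.coe_ringEquiv, AlgEquiv.symm_apply_apply]
  change ((chartPolyHom R x p : H138.chart R ({x} : Set F)) : F) = _
  rw [coe_chartPolyHom]
  rfl

end Package

section Coe

variable {R : Type u} [CommRing R] {F : Type v} [Field F] [Algebra R F]

/-- Divisibility by `w` in the chart, in terms of elements of `F`. -/
theorem algebraMap_dvd_chart_iff {x : F} (w : R) (z : H138.chart R ({x} : Set F)) :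
    algebraMap R (H138.chart R ({x} : Set F)) w ∣ z ↔
      ∃ t ∈ H138.chart R ({x} : Set F), (z : F) = algebraMap R F w * t := by
  constructor
  · rintro ⟨t, rfl⟩
    exact ⟨t, t.2, rfl⟩
  · rintro ⟨t, ht, h⟩
    exact ⟨⟨t, ht⟩, Subtype.ext h⟩

/-- Divisibility by `π(x)` in the chart, in terms of elements of `F`. -/
theorem chartPolyHom_dvd_chart_iff {x : F} (π : R[X]) (z : H138.chart R ({x} : Set F)) :
    chartPolyHom R x π ∣ z ↔
      ∃ t ∈ H138.chart R ({x} : Set F), (z : F) = aeval x π * t := by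
  constructor
  · rintro ⟨t, rfl⟩
    exact ⟨t, t.2, by rw [Subalgebra.coe_mul, coe_chartPolyHom]⟩
  · rintro ⟨t, ht, h⟩
    exact ⟨⟨t, ht⟩, Subtype.ext (by rw [Subalgebra.coe_mul, coe_chartPolyHom]; exact h)⟩

/-- Evaluation of a lifted polynomial, in terms of elements of `F`. -/
theorem coe_eval₂_chartPolyHom {x : F} (Q : R[X][X]) (b : H138.chart R ({x} : Set F)) :
    ((Q.eval₂ (chartPolyHom R x : R[X] →+* H138.chart R ({x} : Set F)) b :
      H138.chart R ({x} : Set F)) : F)
      = (Q.map (aeval x : R[X] →ₐ[R] F).toRingHom).eval (b : F) := by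
  have h := Polynomial.hom_eval₂ Q (chartPolyHom R x : R[X] →+* H138.chart R ({x} : Set F))
    (H138.chart R ({x} : Set F)).val.toRingHom b
  rw [eval_map]
  have hcomp : ((H138.chart R ({x} : Set F)).val.toRingHom.comp
      (chartPolyHom R x : R[X] →+* H138.chart R ({x} : Set F)))
      = (aeval x : R[X] →ₐ[R] F).toRingHom := by
    refine RingHom.ext (fun p => ?_)
    exact coe_chartPolyHom x p
  rw [hcomp] at h
  exact h

end Coe

section Main

variable {R : Type u} [CommRing R] [IsDomain R] [IsDiscreteValuationRing R]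
  {F : Type v} [Field F] [CharZero F] [Algebra R F]

/-- **REG-CHART.**  `b2Regular` on the chart `H138.chart R {x}`: the special fibre of the chart is
regular at every closed point. -/
theorem regularAlong_chart
    {x : F} (hx : Transcendental R x) [FiniteDimensional (H138.baseField R x) F]
    (w : R) (hw : Irreducible w)
    (hdom : Prime (algebraMap R (H138.chart R ({x} : Set F)) w))
    (hsep : ∀ b : H138.chart R ({x} : Set F), ∃ P : R[X][X],
        algebraMap R (H138.chart R ({x} : Set F)) w ∣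
          P.eval₂ (chartPolyHom R x : R[X] →+* H138.chart R ({x} : Set F)) b ∧
        ¬ algebraMap R (H138.chart R ({x} : Set F)) w ∣
          (derivative P).eval₂ (chartPolyHom R x : R[X] →+* H138.chart R ({x} : Set F)) b)
    (S : Finset R) (hS : ∀ c ∈ S, ∀ c' ∈ S, c ≠ c' → IsUnit (c - c'))
    (hNC : ∀ π : R[X], Prime π → ¬ Associated π (C w) → (∀ c ∈ S, ¬ Associated π (X - C c)) →
        (Ideal.span {chartPolyHom R x π}).IsRadical) :
    H754.RegularAlong (algebraMap R (H138.chart R ({x} : Set F)) w) := by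
  classical
  haveI : CharZero R := (algebraMap R F).charZero
  obtain ⟨hic, hfin⟩ := chart_package (R := R) hx
  letI := chartAlgebra R x
  haveI := hic
  haveI := hfin
  haveI : Module.IsTorsionFree R[X] (H138.chart R ({x} : Set F)) :=
    Module.isTorsionFree_iff_algebraMap_injective.2 (chartPolyHom_injective hx)
  have hCw : algebraMap R[X] (H138.chart R ({x} : Set F)) (C w)
      = algebraMap R (H138.chart R ({x} : Set F)) w := chartPolyHom_C x w
  have hdom' : Prime (algebraMap R[X] (H138.chart R ({x} : Set F)) (C w)) := by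
    rw [hCw]; exact hdom
  have hsep' := H425.hsep_poly R w hw (H138.chart R ({x} : Set F)) hdom' (by
    intro b
    obtain ⟨P, h1, h2⟩ := hsep b
    refine ⟨P, ?_, ?_⟩
    · rw [hCw]; exact h1
    · rw [hCw]; exact h2)
  have hreg := b2Regular.{u, v} R w hw (H138.chart R ({x} : Set F)) hdom' hsep' S hS hNC
  intro 𝔪 h𝔪 hw𝔪
  have := hreg 𝔪 h𝔪 (by rw [hCw]; exact hw𝔪)
  rwa [hCw] at this

/-- **REG-CHART, field form.**  Same as `regularAlong_chart`, with `hsep` and `hNC` stated by
elements of `F`: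
* `hsep` : for every `b` in the chart there is a polynomial `P` with coefficients in `R[x]` with
  `P(b) ∈ w B` and `P'(b) ∉ w B`;
* `hNC`  : for the primes `π` of `R[X]` away from `w` and the `X - c`, `c ∈ S`:
  `b ∈ B`, `b² ∈ π(x) B` ⟹ `b ∈ π(x) B`. -/
theorem regularAlong_chart_field
    {x : F} (hx : Transcendental R x) [FiniteDimensional (H138.baseField R x) F]
    (w : R) (hw : Irreducible w)
    (hdom : Prime (algebraMap R (H138.chart R ({x} : Set F)) w))
    (hsep : ∀ b ∈ H138.chart R ({x} : Set F), ∃ P : F[X],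
        (∀ i, P.coeff i ∈ Algebra.adjoin R ({x} : Set F)) ∧
        (∃ t ∈ H138.chart R ({x} : Set F), P.eval b = algebraMap R F w * t) ∧
        ¬ ∃ t ∈ H138.chart R ({x} : Set F), (derivative P).eval b = algebraMap R F w * t)
    (S : Finset R) (hS : ∀ c ∈ S, ∀ c' ∈ S, c ≠ c' → IsUnit (c - c'))
    (hNC : ∀ π : R[X], Prime π → ¬ Associated π (C w) → (∀ c ∈ S, ¬ Associated π (X - C c)) →
        ∀ b ∈ H138.chart R ({x} : Set F),
          (∃ t ∈ H138.chart R ({x} : Set F), b ^ 2 = aeval x π * t) →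
          ∃ t ∈ H138.chart R ({x} : Set F), b = aeval x π * t) :
    H754.RegularAlong (algebraMap R (H138.chart R ({x} : Set F)) w) := by
  refine regularAlong_chart hx w hw hdom ?_ S hS ?_
  · intro b
    obtain ⟨P, hP, h1, h2⟩ := hsep b b.2
    have hlift : P ∈ Polynomial.lifts (aeval x : R[X] →ₐ[R] F).toRingHom := by
      rw [Polynomial.lifts_iff_coeff_lifts]
      intro n
      have := hP n
      rw [Algebra.adjoin_singleton_eq_range_aeval] at this
      obtain ⟨q, hq⟩ := this
      exact ⟨q, hq⟩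
    obtain ⟨Q, hQ⟩ := (Polynomial.mem_lifts P).1 hlift
    refine ⟨Q, ?_, ?_⟩
    · rw [algebraMap_dvd_chart_iff, coe_eval₂_chartPolyHom, hQ]
      exact h1
    · rw [algebraMap_dvd_chart_iff, coe_eval₂_chartPolyHom, ← derivative_map, hQ]
      exact h2
  · intro π hπ h1 h2
    rw [Ideal.isRadical_iff_pow_one_lt 2 one_lt_two]
    intro r hr
    rw [Ideal.mem_span_singleton] at hr ⊢
    rw [chartPolyHom_dvd_chart_iff] at hr ⊢
    obtain ⟨t, ht, h⟩ := hr
    refine hNC π hπ h1 h2 r r.2 ⟨t, ht, ?_⟩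
    rw [← h]
    rfl

omit [IsDomain R] [IsDiscreteValuationRing R] [CharZero F] in
/-- The finiteness instance for the chart at infinity. -/
theorem finiteDimensional_baseField_inv (x : F) [h : FiniteDimensional (H138.baseField R x) F] :
    FiniteDimensional (H138.baseField R x⁻¹) F := by
  rw [H138.baseField_inv]
  exact h

/-- **REG-CHART at infinity** (field form): `regularAlong_chart_field` for the chart
`H138.chart R {x⁻¹}`, with the finiteness instance of the finite chart. -/
theorem regularAlong_chart_inv_field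
    {x : F} (hx : Transcendental R x) [FiniteDimensional (H138.baseField R x) F]
    (w : R) (hw : Irreducible w)
    (hdom : Prime (algebraMap R (H138.chart R ({x⁻¹} : Set F)) w))
    (hsep : ∀ b ∈ H138.chart R ({x⁻¹} : Set F), ∃ P : F[X],
        (∀ i, P.coeff i ∈ Algebra.adjoin R ({x⁻¹} : Set F)) ∧
        (∃ t ∈ H138.chart R ({x⁻¹} : Set F), P.eval b = algebraMap R F w * t) ∧
        ¬ ∃ t ∈ H138.chart R ({x⁻¹} : Set F), (derivative P).eval b = algebraMap R F w * t)
    (S : Finset R) (hS : ∀ c ∈ S, ∀ c' ∈ S, c ≠ c' → IsUnit (c - c'))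
    (hNC : ∀ π : R[X], Prime π → ¬ Associated π (C w) → (∀ c ∈ S, ¬ Associated π (X - C c)) →
        ∀ b ∈ H138.chart R ({x⁻¹} : Set F),
          (∃ t ∈ H138.chart R ({x⁻¹} : Set F), b ^ 2 = aeval x⁻¹ π * t) →
          ∃ t ∈ H138.chart R ({x⁻¹} : Set F), b = aeval x⁻¹ π * t) :
    H754.RegularAlong (algebraMap R (H138.chart R ({x⁻¹} : Set F)) w) := by
  haveI := finiteDimensional_baseField_inv (R := R) x
  exact regularAlong_chart_field (H138.transcendental_inv hx) w hw hdom hsep S hS hNC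

end Main

end Fermat.Agent.S18.B12.H33

end
end
-- ===== PACK-END S18/B12/H33/RegChart.lean

-- ===== PACK-BEGIN S18/H438/Front/Regular.lean
section




/-!
# S18 / ALG-FRONT (helper438), part 10: `H754.RegularAlong` on the chart of a good model

For `G : Alg.GoodModel Lc Ec Fc R V w x S`, `B := H138.chart (Rf Fc R) {xf G}`:

* `GoodModelFront.hsep_chart`  : elementwise separability (field form of
  `B12.H33.regularAlong_chart_field`), from `G.separable` and the `q`-expansion principle;
* `GoodModelFront.hNC_chart`   : `(span {π(x)}).IsRadical` for the primes `π` of `R[X]` not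
  associated to `w`, `X - c` (`c ∈ S`), from `G.unramified` via `H754.hNC_typed`;
* `GoodModelFront.regularAlong_chart` : `H754.RegularAlong (algebraMap R B w)`  (b2 on the chart).
-/

set_option autoImplicit false
set_option linter.style.haveILetI false
set_option linter.unusedSectionVars false

noncomputable section

namespace Fermat.Agent.S18.H438

open Alg Polynomial

variable {Ω : Type*} [Field Ω] {Lc Ec Fc : Subfield Ω} {R V : Subring Ω} {w x : Ω}
  {S : Finset Ω}

namespace GoodModelFront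

/-- the branch values, as a finite subset of the ring `R` -/
def SR (Fc : Subfield Ω) (R : Subring Ω) (S : Finset Ω) : Finset (Rf Fc R) :=
  S.preimage (fun r : Rf Fc R => ((r : Fc) : Ω))
    (fun _ _ _ _ h => Subtype.ext (Subtype.ext h))

theorem mem_SR {c : Rf Fc R} : c ∈ SR Fc R S ↔ ((c : Fc) : Ω) ∈ S := Finset.mem_preimage

variable (G : GoodModel Lc Ec Fc R V w x S)

include G in
theorem SR_isUnit_sub :
    ∀ c ∈ SR Fc R S, ∀ c' ∈ SR Fc R S, c ≠ c' → IsUnit (c - c') := by
  intro c hc c' hc' hne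
  rw [isUnit_subring_iff]
  have h1 : ((c : Fc) : Ω) ≠ ((c' : Fc) : Ω) := fun h => hne (Subtype.ext (Subtype.ext h))
  refine ⟨fun h => hne (sub_eq_zero.1 (Subtype.ext h)), ?_⟩
  exact G.S_distinct _ (mem_SR.1 hc) _ (mem_SR.1 hc') h1

/-- evaluation of polynomials over `Fc`, seen in `Ω` -/
theorem coe_eval_Fc (Q : Polynomial Fc) (b : Fc) :
    ((Q.eval b : Fc) : Ω) = (Q.map Fc.subtype).eval (b : Ω) := by
  rw [Polynomial.eval_map]
  exact (Polynomial.eval₂_at_apply Fc.subtype b).symm

include G in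
/-- **Elementwise separability of the special fibre of the chart** (field form). -/
theorem hsep_chart : ∀ b ∈ H138.chart (Rf Fc R) ({xf G} : Set Fc), ∃ P : Polynomial Fc,
    (∀ i, P.coeff i ∈ Algebra.adjoin (Rf Fc R) ({xf G} : Set Fc)) ∧
    (∃ t ∈ H138.chart (Rf Fc R) ({xf G} : Set Fc),
      P.eval b = algebraMap (Rf Fc R) Fc (wR G) * t) ∧
    ¬ ∃ t ∈ H138.chart (Rf Fc R) ({xf G} : Set Fc),
      (derivative P).eval b = algebraMap (Rf Fc R) Fc (wR G) * t := by
  intro b hb
  have hb' : b ∈ chartRing (Rf Fc R) (xf G) := hb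
  have hbV : b ∈ Vf G :=
    chartRing_le_valuationSubring (Rf Fc R) (xf G) (Vf G) (Rf_le_Vf G) (xf_mem_Vf G) hb'
  obtain ⟨P₀, hc, h1, h2, h3⟩ := G.separable (b : Ω) hbV
  have hRF : ∀ r ∈ R, r ∈ Fc := fun r hr => R_le_Fc G hr
  -- lift `P₀` to `Fc[X]`
  have hlift : P₀ ∈ Polynomial.lifts Fc.subtype := by
    rw [Polynomial.lifts_iff_coeff_lifts]
    intro n
    obtain ⟨a, -, h⟩ := exists_mem_baseRing_of_mem_polyRing Fc R (xf G) hRF (hc n)
    exact ⟨a, h⟩
  obtain ⟨P, hP⟩ := (Polynomial.mem_lifts _).1 hlift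
  have hcoe : ∀ i, ((P.coeff i : Fc) : Ω) = P₀.coeff i := fun i => by
    rw [← hP, Polynomial.coeff_map]; rfl
  have hcoeff : ∀ i, P.coeff i ∈ baseRing (Rf Fc R) (xf G) := fun i =>
    (mem_baseRing_iff Fc R (xf G) hRF).2 (by rw [hcoe]; exact hc i)
  have hw0 : wf G ≠ 0 := wf_ne_zero G
  -- values of polynomials with coefficients in `R[x]` at `b` lie in the chart
  have hmem : ∀ Q : Polynomial Fc, (∀ i, Q.coeff i ∈ baseRing (Rf Fc R) (xf G)) →
      Q.eval b ∈ chartRing (Rf Fc R) (xf G) := by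
    intro Q hQ
    rw [Polynomial.eval_eq_sum_range]
    refine Subalgebra.sum_mem _ fun i _ => ?_
    exact Subalgebra.mul_mem _
      ((chartRing (Rf Fc R) (xf G)).algebraMap_mem ⟨Q.coeff i, hQ i⟩)
      (Subalgebra.pow_mem _ hb' i)
  refine ⟨P, hcoeff, ?_, ?_⟩
  · refine ⟨P.eval b * (wf G)⁻¹, ?_, ?_⟩
    · refine qep_fin' G _ (hmem P hcoeff) ?_
      show ((P.eval b : Fc) : Ω) * w⁻¹ ∈ V
      rw [coe_eval_Fc, hP]
      exact h1
    · show P.eval b = wf G * (P.eval b * (wf G)⁻¹)
      field_simp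
  · rintro ⟨t, ht, h⟩
    have htV : t ∈ Vf G :=
      chartRing_le_valuationSubring (Rf Fc R) (xf G) (Vf G) (Rf_le_Vf G) (xf_mem_Vf G) ht
    have hd : (((derivative P).eval b : Fc) : Ω) = (derivative P₀).eval (b : Ω) := by
      rw [coe_eval_Fc, ← Polynomial.derivative_map, hP]
    have h' : (derivative P₀).eval (b : Ω) = w * (t : Ω) := by
      rw [← hd, h]; rfl
    have hw0' : w ≠ 0 := G.w_ne_zero
    have ht0 : (t : Ω) ≠ 0 := by
      intro ht0
      rw [ht0, mul_zero] at h'
      exact h2 h'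
    apply G.w_inv_not_mem_V
    have : w⁻¹ = (t : Ω) * ((derivative P₀).eval (b : Ω))⁻¹ := by
      rw [h']
      field_simp
    rw [this]
    exact V.mul_mem htV h3

include G in
/-- every element of `Lc` is algebraic over the ring `R` -/
theorem exists_poly_of_mem_Lc (a : Ω) (ha : a ∈ Lc) :
    ∃ p : Polynomial (Rf Fc R), p ≠ 0 ∧
      Polynomial.eval₂ (Fc.subtype.comp (Rf Fc R).subtype) a p = 0 := by
  have halg : IsAlgebraic Ec a := G.L_algebraic a ha
  letI : Algebra (Re G) Ω := ((algebraMap Ec Ω).comp (algebraMap (Re G) Ec)).toAlgebra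
  haveI : IsScalarTower (Re G) Ec Ω := IsScalarTower.of_algebraMap_eq (fun _ => rfl)
  obtain ⟨q, hq0, hq⟩ := (IsFractionRing.isAlgebraic_iff (Re G) Ec Ω).2 halg
  let j : Re G →+* Rf Fc R :=
    { toFun := fun e => ⟨⟨((e : Ec) : Ω), G.E_le_F (e : Ec).2⟩, e.2⟩
      map_one' := rfl
      map_mul' := fun _ _ => rfl
      map_zero' := rfl
      map_add' := fun _ _ => rfl }
  have hj : Function.Injective j := fun a b h =>
    Subtype.ext (Subtype.ext (congrArg (fun t : Rf Fc R => ((t : Fc) : Ω)) h))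
  refine ⟨q.map j, (Polynomial.map_ne_zero_iff hj).2 hq0, ?_⟩
  rw [Polynomial.eval₂_map]
  rw [Polynomial.aeval_def] at hq
  exact hq

include G in
/-- **hNC on the chart**: for every prime `π` of `R[X]` not associated to `w` or to `X - c`,
`c ∈ S`, the ideal `π(x) B` is radical. -/
theorem hNC_chart :
    ∀ π : Polynomial (Rf Fc R), Prime π → ¬ Associated π (C (wR G)) →
      (∀ c ∈ SR Fc R S, ¬ Associated π (X - C c)) →
      (Ideal.span {(B12.H33.chartPolyHom (Rf Fc R) (xf G) π :
        H138.chart (Rf Fc R) ({xf G} : Set Fc))}).IsRadical := by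
  haveI := charZero_Fc G
  haveI := isDiscreteValuationRing_Rf G
  haveI := finiteDimensional_baseField G
  haveI : CharZero (Rf Fc R) := RingHom.charZero (Rf Fc R).subtype
  have hx := transcendental_xf G
  obtain ⟨hic, hfin⟩ := B12.H33.chart_package (R := Rf Fc R) hx
  letI := B12.H33.chartAlgebra (Rf Fc R) (xf G)
  haveI := hic
  haveI := hfin
  haveI : Module.IsTorsionFree (Polynomial (Rf Fc R)) (H138.chart (Rf Fc R) ({xf G} : Set Fc)) :=
    Module.isTorsionFree_iff_algebraMap_injective.2 (B12.H33.chartPolyHom_injective hx)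
  haveI : FaithfulSMul (H138.chart (Rf Fc R) ({xf G} : Set Fc)) Ω :=
    (faithfulSMul_iff_algebraMap_injective (H138.chart (Rf Fc R) ({xf G} : Set Fc)) Ω).2
      (fun a b h => Subtype.ext (Subtype.ext h))
  have hC : ∀ r : Rf Fc R,
      algebraMap (H138.chart (Rf Fc R) ({xf G} : Set Fc)) Ω
        (algebraMap (Polynomial (Rf Fc R)) (H138.chart (Rf Fc R) ({xf G} : Set Fc)) (C r)) =
        ((r : Fc) : Ω) := by
    intro r
    show ((B12.H33.chartPolyHom (Rf Fc R) (xf G) (C r) : H138.chart (Rf Fc R) ({xf G} : Set Fc)) :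
      Fc).1 = _
    rw [B12.H33.coe_chartPolyHom, Polynomial.aeval_C]
    rfl
  have hX : algebraMap (H138.chart (Rf Fc R) ({xf G} : Set Fc)) Ω
        (algebraMap (Polynomial (Rf Fc R)) (H138.chart (Rf Fc R) ({xf G} : Set Fc)) X) = x := by
    show ((B12.H33.chartPolyHom (Rf Fc R) (xf G) X : H138.chart (Rf Fc R) ({xf G} : Set Fc)) :
      Fc).1 = _
    rw [B12.H33.coe_chartPolyHom, Polynomial.aeval_X]
    rfl
  have hwB : Prime (algebraMap (Polynomial (Rf Fc R)) (H138.chart (Rf Fc R) ({xf G} : Set Fc))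
      (C (wR G))) := by
    show Prime (B12.H33.chartPolyHom (Rf Fc R) (xf G) (C (wR G)))
    rw [B12.H33.chartPolyHom_C]
    exact prime_chart G
  refine H754.hNC_typed (Rf Fc R) (H138.chart (Rf Fc R) ({xf G} : Set Fc)) (Ω := Ω) (wR G)
    (irreducible_wf G) hwB Lc G.L_algClosed ?_ ?_ (SR Fc R S) S ?_ ?_
  · intro r
    rw [hC]
    exact G.E_le_L (G.R_le r.2)
  · intro a ha
    obtain ⟨p, hp0, hp⟩ := exists_poly_of_mem_Lc G a ha
    refine ⟨p, hp0, ?_⟩
    have hhom : ((algebraMap (H138.chart (Rf Fc R) ({xf G} : Set Fc)) Ω).comp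
        ((algebraMap (Polynomial (Rf Fc R)) (H138.chart (Rf Fc R) ({xf G} : Set Fc))).comp C)) =
        Fc.subtype.comp (Rf Fc R).subtype := RingHom.ext fun r => hC r
    rw [hhom]
    exact hp
  · intro c hc
    refine ⟨⟨⟨c, R_le_Fc G (G.S_mem c hc)⟩, G.S_mem c hc⟩, mem_SR.2 hc, ?_⟩
    rw [hC]
  · rw [hX]
    exact G.unramified

include G in
/-- **b2 on the chart of a good model**: the chart is regular along `w`. -/
theorem regularAlong_chart :
    H754.RegularAlong
      (algebraMap (Rf Fc R) (H138.chart (Rf Fc R) ({xf G} : Set Fc)) (wR G)) := by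
  haveI := charZero_Fc G
  haveI := isDiscreteValuationRing_Rf G
  haveI := finiteDimensional_baseField G
  refine B12.H33.regularAlong_chart_field (transcendental_xf G) (wR G) (irreducible_wf G)
    (prime_chart G) (hsep_chart G) (SR Fc R S) (SR_isUnit_sub G) ?_
  intro π hπ hπw hπS b hb hb2
  have hrad := hNC_chart G π hπ hπw hπS
  have h1 : (⟨b, hb⟩ : H138.chart (Rf Fc R) ({xf G} : Set Fc)) ^ 2 ∈
      Ideal.span {(B12.H33.chartPolyHom (Rf Fc R) (xf G) π :
        H138.chart (Rf Fc R) ({xf G} : Set Fc))} := by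
    rw [Ideal.mem_span_singleton, B12.H33.chartPolyHom_dvd_chart_iff]
    obtain ⟨t, ht, h⟩ := hb2
    exact ⟨t, ht, h⟩
  have h2 := hrad (Ideal.mem_radical_iff.2 ⟨2, h1⟩)
  rw [Ideal.mem_span_singleton, B12.H33.chartPolyHom_dvd_chart_iff] at h2
  exact h2

end GoodModelFront

end Fermat.Agent.S18.H438

end
end
-- ===== PACK-END S18/H438/Front/Regular.lean

-- ===== PACK-BEGIN S18/H438/Front/AlgMain.lean
section




/-!
# S18 / node_alg (helper438): `Alg.AlgMainStatement` (v4, prime `m`)

    theorem algMain (Lc x S 𝓕) : Alg.AlgMainStatement Lc x S 𝓕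

Wiring: for a member `(Ec, Fc, R, V, w)` of the good family, `G : Alg.GoodModel …`,
`R' := Rf Fc R`, `x' := xf G`, charts `B₀ = H138.chart R' {x'}`, `B₁ = H138.chart R' {x'⁻¹}`:

* `H394.kummer_charts_of_regular` (typed core: LE + graded Kummer algebra + b5) needs on both
  charts: `Prime w`, `H754.RegularAlong w`, `H754.OneModPi w u`, `H754.DivisibleDivisor B m u`;
* these are `GoodModelFront.prime_chart`, `regularAlong_chart` (b2 = `B12.H33`, hNC = `H754`),
  `oneModPi_chart`, `divisibleDivisor_chart` (places = `H845`), applied to `G` and to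
  `H425.goodModel_inv G`.
-/

set_option autoImplicit false
set_option linter.style.haveILetI false
set_option linter.unusedSectionVars false

noncomputable section

namespace Fermat.Agent.S18.H438

open Alg Polynomial

variable {Ω : Type*} [Field Ω] {Lc Ec Fc : Subfield Ω} {R V : Subring Ω} {w x : Ω}
  {S : Finset Ω}

namespace GoodModelFront

/-- **node_alg for one good model** (no enlargement of constants is needed). -/
theorem algMain_of_goodModel (G : GoodModel Lc Ec Fc R V w x S)
    (m : ℕ) (hm : m.Prime) (hmR : ((m : Ω))⁻¹ ∈ R)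
    (u : Ω) (huF : u ∈ Fc) (hu0 : u ≠ 0) (hu1 : (u - 1) * w⁻¹ ∈ V)
    (hdiv : ∀ O : ValuationSubring Ω, (∀ a ∈ Lc, a ∈ O) →
      ∃ t : Ω, t ≠ 0 ∧ u * t ^ m ∈ O ∧ (u * t ^ m)⁻¹ ∈ O) :
    ∃ y : Ω, ∃ c ∈ Lc, c ≠ 0 ∧ u = c * y ^ m := by
  classical
  haveI := G.charZero
  haveI := charZero_Fc G
  haveI := isDiscreteValuationRing_Rf G
  haveI := finiteDimensional_baseField G
  have G' := H425.goodModel_inv G
  have hxinv : xf G' = (xf G)⁻¹ := rfl
  have hwR : wR G' = wR G := rfl
  -- the data in `Fc`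
  set u' : Fc := ⟨u, huF⟩ with hu'
  have hu'0 : u' ≠ 0 := fun h => hu0 (congrArg Subtype.val h)
  have hm0 : (m : Ω) ≠ 0 := Nat.cast_ne_zero.2 hm.ne_zero
  let ν : Rf Fc R := ⟨⟨(m : Ω)⁻¹, R_le_Fc G hmR⟩, hmR⟩
  have hν : ν * (m : Rf Fc R) = 1 := by
    apply Subtype.ext
    apply Subtype.ext
    show (m : Ω)⁻¹ * (((m : Rf Fc R) : Fc) : Ω) = 1
    have : ((((m : Rf Fc R) : Fc) : Ω)) = (m : Ω) := by
      simp
    rw [this, inv_mul_cancel₀ hm0]
  have hinjR : Function.Injective (algebraMap (Rf Fc R) Fc) := Subtype.val_injective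
  -- both charts
  have hw₁ : Prime (algebraMap (Rf Fc R) (H138.chart (Rf Fc R) ({(xf G)⁻¹} : Set Fc)) (wR G)) :=
    prime_chart G'
  have hreg₁ : H754.RegularAlong
      (algebraMap (Rf Fc R) (H138.chart (Rf Fc R) ({(xf G)⁻¹} : Set Fc)) (wR G)) :=
    regularAlong_chart G'
  have hu₁ : H754.OneModPi
      (algebraMap (Rf Fc R) (H138.chart (Rf Fc R) ({(xf G)⁻¹} : Set Fc)) (wR G)) u' :=
    oneModPi_chart G' hu1
  have hdiv₁ : H754.DivisibleDivisor (H138.chart (Rf Fc R) ({(xf G)⁻¹} : Set Fc)) m u' :=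
    divisibleDivisor_chart G' hu1 hdiv
  obtain ⟨r, a, y, hr, h⟩ := H394.kummer_charts_of_regular hinjR (isIntegral_Rf_mem_range G)
    (transcendental_xf G) (wR G) m hm ν hν u' hu'0
    (prime_chart G) hw₁ (regularAlong_chart G) hreg₁ (oneModPi_chart G hu1) hu₁
    (divisibleDivisor_chart G hu1 hdiv) hdiv₁
  have hrΩ : ((r : Fc) : Ω) ≠ 0 := fun h0 => hr (Subtype.ext (Subtype.ext h0))
  refine ⟨(y : Ω), ((r : Fc) : Ω) ^ a, ?_, zpow_ne_zero _ hrΩ, ?_⟩
  · exact Lc.zpow_mem (G.E_le_L (G.R_le r.2)) a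
  · have h2 : u = ((algebraMap (Rf Fc R) Fc r ^ a * y ^ m : Fc) : Ω) :=
      congrArg (fun t : Fc => (t : Ω)) h
    have h3 : ((algebraMap (Rf Fc R) Fc r ^ a * y ^ m : Fc) : Ω) =
        ((r : Fc) : Ω) ^ a * (y : Ω) ^ m := by
      have h4 : Fc.subtype (algebraMap (Rf Fc R) Fc r ^ a) = ((r : Fc) : Ω) ^ a :=
        map_zpow₀ Fc.subtype _ a
      show Fc.subtype (algebraMap (Rf Fc R) Fc r ^ a * y ^ m) = _
      rw [map_mul, map_pow, h4]
      rfl
    exact h2.trans h3

end GoodModelFront

/-- **node_alg**: the ALG main statement (v4, prime `m`), for every good family. -/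
theorem algMain (Lc : Subfield Ω) (x : Ω) (S : Finset Ω) (𝓕 : Set (Model Ω)) :
    AlgMainStatement Lc x S 𝓕 := by
  intro hfam p hp m hm hmR u huF hu0 hu1 hdiv
  exact GoodModelFront.algMain_of_goodModel (hfam.good p hp) m hm hmR u huF hu0 hu1 hdiv

end Fermat.Agent.S18.H438

end
end
-- ===== PACK-END S18/H438/Front/AlgMain.lean

-- ===== PACK-BEGIN S37/Core/RawES.lean
section


/-!
# S37 row (helper37): RAW Eichler-Shimura on torsion points (export for rows S29 / S30 / S42)

`rawES_of_weakRedData` : from the same hypothesis `H` as `Core.result_of_weakRedData`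
(a `WeakRedData` at some level `M` and a `PullData N M ℓ`, for every `ℓ ∤ N`, `A`, Frobenius `σ₀`)
we get, for every prime `ℓ ∤ N * p` and every `A` over `ℓ`:
* inertia at `A` fixes every `x : JZero N` with `p • x = 0`,
* every Frobenius `σ` at `A` satisfies `σ²x - T_ℓ(σ x) + ℓ x = 0` on such `x`.
This is the body of `Fermat.Agent.S29.RawESStatement` (no Hecke module structure, no commutation
hypothesis).  Fully proved.
-/

set_option autoImplicit false
set_option synthInstance.maxHeartbeats 400000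

noncomputable section

namespace Fermat.Agent.S37.Core

open ModularCurve ValuationSubring AlgebraicCurve HahnSeries

section

variable {N M : ℕ} [NeZero N] [NeZero M] {A : ValuationSubring (AlgebraicClosure ℚ)} {ℓ : ℕ}
  [NeZero ℓ] {σ₀ : AlgebraicClosure ℚ ≃ₐ[ℚ] AlgebraicClosure ℚ}

/-- `red ∘ π^*` is injective on torsion of order prime to `ℓ` -/
theorem WeakRedData.eq_zero_of_red_pull (W : WeakRedData M A ℓ σ₀) (Pd : PullData N M ℓ)
    {m : ℕ} (hm : ¬ ℓ ∣ m) {x : JZero N} (hx : m • x = 0) (h : W.red (Pd.pull x) = 0) :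
    x = 0 := by
  refine Pd.inj_torsion m hm x hx ?_
  refine W.inj_torsion m hm _ ?_ h
  rw [← map_nsmul, hx, map_zero]

/-- inertia acts trivially on torsion of order prime to `ℓ` -/
theorem WeakRedData.inertia_smul_eq (W : WeakRedData M A ℓ σ₀) (Pd : PullData N M ℓ)
    {m : ℕ} (hm : ¬ ℓ ∣ m) {τ : AlgebraicClosure ℚ ≃ₐ[ℚ] AlgebraicClosure ℚ}
    (hτ : τ ∈ A.inertiaSubgroupIn ℚ) {x : JZero N} (hx : m • x = 0) : τ • x = x := by
  rw [← sub_eq_zero]
  refine W.eq_zero_of_red_pull Pd hm ?_ ?_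
  · have h1 : m • (τ • x) = τ • (m • x) := smul_comm m τ x
    have z1 : τ • (0 : JZero N) = 0 := smul_zero (A := JZero N) τ
    rw [nsmul_sub, h1, hx, z1, sub_zero]
  · rw [map_sub, Pd.galois, map_sub, W.inertia τ hτ, sub_self]

/-- the Eichler-Shimura relation at `σ₀` on torsion of order prime to `ℓ` -/
theorem WeakRedData.relation_eq_zero (W : WeakRedData M A ℓ σ₀) (Pd : PullData N M ℓ)
    {m : ℕ} (hm : ¬ ℓ ∣ m) {x : JZero N} (hx : m • x = 0) :
    σ₀ • σ₀ • x - heckeOperatorAlong (AlgebraicClosure ℚ) N ℓ (σ₀ • x) + ℓ • x = 0 := by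
  refine W.eq_zero_of_red_pull Pd hm ?_ ?_
  · have h1 : m • (σ₀ • σ₀ • x) = σ₀ • σ₀ • (m • x) := by
      rw [smul_comm m σ₀, smul_comm m σ₀]
    have h2 : m • heckeOperatorAlong (AlgebraicClosure ℚ) N ℓ (σ₀ • x) =
        heckeOperatorAlong (AlgebraicClosure ℚ) N ℓ (σ₀ • (m • x)) := by
      rw [← map_nsmul, smul_comm m σ₀]
    have h3 : m • (ℓ • x) = ℓ • (m • x) := smul_comm m ℓ x
    have z1 : σ₀ • (0 : JZero N) = 0 := smul_zero (A := JZero N) σ₀
    have z2 : ℓ • (0 : JZero N) = 0 := smul_zero ℓ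
    rw [nsmul_add, nsmul_sub, h1, h2, h3, hx, z1, z1, map_zero, sub_zero, z2, add_zero]
  · rw [map_add, map_sub, map_nsmul, Pd.galois, Pd.galois, Pd.hecke, Pd.galois]
    exact W.relation (Pd.pull x)

end

/-- **RAW Eichler-Shimura** (body of `Fermat.Agent.S29.RawESStatement` at level `N`). -/
theorem rawES_of_weakRedData (N : ℕ) [NeZero N]
    (H : ∀ (ℓ : ℕ) (hℓ : ℓ.Prime), ¬ ℓ ∣ N →
      ∀ A : ValuationSubring (AlgebraicClosure ℚ), A.LiesOverPrime ℓ →
        ∀ σ₀ : AlgebraicClosure ℚ ≃ₐ[ℚ] AlgebraicClosure ℚ, A.IsFrobeniusAt σ₀ ℓ →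
          haveI : NeZero ℓ := ⟨hℓ.ne_zero⟩
          ∃ (M : ℕ) (_ : NeZero M), Nonempty (WeakRedData M A ℓ σ₀) ∧ Nonempty (PullData N M ℓ))
    (p : ℕ) (ℓ : ℕ) (hℓ : ℓ.Prime) (hdvd : ¬ ℓ ∣ N * p)
    (A : ValuationSubring (AlgebraicClosure ℚ)) (hA : A.LiesOverPrime ℓ) :
    (∀ σ ∈ A.inertiaSubgroupIn ℚ, ∀ x : JZero N, (p : ℤ) • x = 0 → σ • x = x) ∧
      (∀ σ : AlgebraicClosure ℚ ≃ₐ[ℚ] AlgebraicClosure ℚ, A.IsFrobeniusAt σ ℓ →
        ∀ x : JZero N, (p : ℤ) • x = 0 →
          σ • σ • x - heckeOperatorBar N ⟨ℓ, hℓ⟩ (σ • x) + (ℓ : ℤ) • x = 0) := by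
  have hℓN : ¬ ℓ ∣ N := fun h => hdvd (Dvd.dvd.mul_right h p)
  have hℓp : ¬ ℓ ∣ p := fun h => hdvd (Dvd.dvd.mul_left h N)
  haveI : NeZero ℓ := ⟨hℓ.ne_zero⟩
  constructor
  · intro τ hτ x hx
    obtain ⟨σ₀, hσ₀⟩ := Fermat.Agent.S37.H99.exists_isFrobeniusAt ℓ hℓ A hA
    obtain ⟨M, hM, ⟨W⟩, ⟨Pd⟩⟩ := H ℓ hℓ hℓN A hA σ₀ hσ₀
    refine W.inertia_smul_eq Pd hℓp hτ ?_
    rwa [natCast_zsmul] at hx
  · intro σ hσ x hx
    obtain ⟨M, hM, ⟨W⟩, ⟨Pd⟩⟩ := H ℓ hℓ hℓN A hA σ hσ
    have h := W.relation_eq_zero Pd hℓp (x := x) (by rwa [natCast_zsmul] at hx)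
    rw [natCast_zsmul]
    exact h

end Fermat.Agent.S37.Core

end
end
-- ===== PACK-END S37/Core/RawES.lean

-- ===== PACK-BEGIN S37/H940/Chart.lean
section





/-!
# S37 / RIM (helper940): the atlas of a coordinate

Setting: a reduction context `C : Ctx K F k Fk` (constants `A ⊆ K`, `π : A ↠ k`, `V ⊆ F` with
`ρ : V → F_k`), `K` and `k` algebraically closed (any characteristics), and a coordinate `x ∈ V`
with `x̄ = ρ x` transcendental, `F / K(x)` and `F_k / k(x̄)` finite.

For a local coordinate `t ∈ V` (`t = x` or `t = x⁻¹`) and `c̄ ∈ k` the hypothesis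
`LocalCoord C t c̄` consists of
* `FC`   : conservation of number over the residue disc `t ≡ c̄`
  (`∑_{P : t(P) ≡ c̄} ord_P u = ∑_{Q : t̄(Q) = c̄} ord_Q (ρ u)` for `u ∈ V`, `ρ u ≠ 0`);
* `LIFT` : every element of `F_k` integral over `k[t̄]` is the reduction of some `b ∈ V` which is
  regular wherever `t` is regular  (normality of the special fibre).

Main results:
* `fibreOf`            : the fibre (in the sense of `Core.lean`) over `c̄`;
* `atlasOf`            : the atlas indexed by `Option k` (`none` = the point at infinity);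
* `exists_red_of_coord`: the place reduction map `r` with (i) degrees, (ii) specialisation of
  principal divisors, and value compatibility on both charts.

Only `FC` for the two local coordinates `x`, `x⁻¹` is needed: no auxiliary separating
coordinates, no degree computations, no Dedekind domains.
-/

set_option autoImplicit false

noncomputable section

namespace Fermat.Agent.S37.H940

open AlgebraicCurve IntermediateField Polynomial

variable {K F k Fk : Type*} [Field K] [Field F] [Algebra K F] [Field k] [Field Fk]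
  [Algebra k Fk]

namespace Ctx

variable (C : Ctx K F k Fk)

/-- the residue disc `t ≡ c̄` -/
def tube (t : F) (c : k) : Set (Place K F) :=
  {P | ∃ a : C.A, C.π a = c ∧ InMax P (t - algebraMap K F (a : K))}

/-- the points of the special fibre with `s = c̄` -/
def pts (_C : Ctx K F k Fk) (s : Fk) (c : k) : Set (Place k Fk) :=
  {Q | InMax Q (s - algebraMap k Fk c)}

theorem ord_nonneg_of_mem_tube {t : F} {c : k} {P : Place K F} (h : P ∈ C.tube t c) :
    0 ≤ P.ord t := by
  obtain ⟨a, -, ha⟩ := h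
  exact ord_nonneg_of_inMax_sub ha

/-- an element of `V` whose reduction is transcendental is transcendental -/
theorem transcendental_of_ρ [IsAlgClosed K] {t : C.V} (ht : Transcendental k (C.ρ t)) :
    Transcendental K (t : F) := by
  intro halg
  obtain ⟨c, hc⟩ := Fermat.Agent.S24.FF.mem_range_of_isAlgebraic halg
  by_cases hcA : c ∈ C.A
  · apply ht
    have e : t = C.const ⟨c, hcA⟩ := Subtype.ext hc.symm
    rw [e, C.ρ_const]
    exact isAlgebraic_algebraMap _
  · obtain ⟨a, ha, hπ⟩ := C.exists_inv_of_not_mem hcA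
    have hc0 : c ≠ 0 := by
      rintro rfl
      exact hcA (zero_mem _)
    have e : t * C.const a = 1 := by
      apply Subtype.ext
      show (t : F) * algebraMap K F (a : K) = 1
      rw [← hc, ha, ← map_mul, mul_inv_cancel₀ hc0, map_one]
    have := congrArg C.ρ e
    rw [map_mul, C.ρ_const, hπ, map_zero, mul_zero, map_one] at this
    exact zero_ne_one this

end Ctx

/-- The hypotheses on a local coordinate `t` over the point `c̄`. -/
structure LocalCoord (C : Ctx K F k Fk) (t : C.V) (c : k) : Prop where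
  /-- conservation of number over the residue disc -/
  FC : ∀ u : C.V, C.ρ u ≠ 0 → ∀ (S : Finset (Place K F)) (T : Finset (Place k Fk)),
    (∀ P ∈ C.tube (t : F) c, P.ord (u : F) ≠ 0 → P ∈ S) → (∀ P ∈ S, P ∈ C.tube (t : F) c) →
    (∀ Q ∈ C.pts (C.ρ t) c, Q.ord (C.ρ u) ≠ 0 → Q ∈ T) → (∀ Q ∈ T, Q ∈ C.pts (C.ρ t) c) →
    ∑ P ∈ S, P.ord (u : F) = ∑ Q ∈ T, Q.ord (C.ρ u)
  /-- normality of the special fibre: integral functions lift to regular functions -/
  LIFT : ∀ τ ∈ integralClosure (Algebra.adjoin k {C.ρ t}) Fk,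
    ∃ b : C.V, C.ρ b = τ ∧ ∀ P : Place K F, 0 ≤ P.ord (t : F) → 0 ≤ P.ord (b : F)

section Fibre

variable [IsAlgClosed K] [IsAlgClosed k] (C : Ctx K F k Fk) (t : C.V)
  (ht : Transcendental k (C.ρ t)) [FiniteDimensional K⟮(t : F)⟯ F]
  [FiniteDimensional k⟮C.ρ t⟯ Fk] (c : k) (h : LocalCoord C t c)

/-- **The fibre over `c̄`** of a local coordinate. -/
def fibreOf : Fibre C where
  𝔉 := C.tube (t : F) c
  𝔊 := (Line.finite_fibre ht c).toFinset
  ne := by
    obtain ⟨Q, hQ⟩ := Line.exists_mem_fibre ht c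
    exact ⟨Q, by rw [Set.Finite.mem_toFinset]; exact hQ⟩
  res := fun P _ f hf => Line.exists_value (C.transcendental_of_ρ ht) P hf
  fin := fun u _ =>
    (Line.finite_ord_ne_zero (C.transcendental_of_ρ ht) u).subset fun P hP => hP.2
  FC := by
    intro u hu
    have hu0 : (u : F) ≠ 0 := C.ne_zero_of_ρ_ne_zero hu
    have hfin : {P : Place K F | P ∈ C.tube (t : F) c ∧ P.ord (u : F) ≠ 0}.Finite :=
      (Line.finite_ord_ne_zero (C.transcendental_of_ρ ht) (u : F)).subset fun P hP => hP.2
    rw [← h.FC u hu hfin.toFinset (Line.finite_fibre ht c).toFinset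
      (fun P hP hne => by rw [Set.Finite.mem_toFinset]; exact ⟨hP, hne⟩)
      (fun P hP => by rw [Set.Finite.mem_toFinset] at hP; exact hP.1)
      (fun Q hQ _ => by rw [Set.Finite.mem_toFinset]; exact hQ)
      (fun Q hQ => by rw [Set.Finite.mem_toFinset] at hQ; exact hQ)]
    apply finsum_mem_eq_sum_of_inter_support_eq
    ext P
    simp only [Set.mem_inter_iff, Function.mem_support, ne_eq, Set.Finite.coe_toFinset,
      Set.mem_ofPred_eq]
    constructor
    · rintro ⟨h1, h2⟩
      exact ⟨⟨h1, h2⟩, h2⟩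
    · rintro ⟨⟨h1, h2⟩, -⟩
      exact ⟨h1, h2⟩
  LP := by
    intro Q hQ
    rw [Set.Finite.mem_toFinset] at hQ
    obtain ⟨τ, hτ, h1, h2⟩ := Line.exists_localParam ht c Q hQ
    obtain ⟨b, hb, hreg⟩ := h.LIFT τ hτ
    refine ⟨b, fun P hP => hreg P (C.ord_nonneg_of_mem_tube hP), by rw [hb]; exact h1, ?_⟩
    intro Q' hQ' hne
    rw [Set.Finite.mem_toFinset] at hQ'
    rw [hb]
    exact h2 Q' hQ' hne
  SEP := by
    obtain ⟨σ, hσ, hsep⟩ := Line.exists_separating ht c
    obtain ⟨b, hb, hreg⟩ := h.LIFT σ hσ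
    refine ⟨b, fun P hP => hreg P (C.ord_nonneg_of_mem_tube hP), ?_⟩
    intro Q hQ Q' hQ' a ha ha'
    rw [Set.Finite.mem_toFinset] at hQ hQ'
    rw [hb] at ha ha'
    exact hsep Q Q' hQ hQ' a ha ha'

@[simp] theorem fibreOf_𝔉 : (fibreOf C t ht c h).𝔉 = C.tube (t : F) c := rfl

theorem mem_fibreOf_𝔊 (Q : Place k Fk) :
    Q ∈ (fibreOf C t ht c h).𝔊 ↔ InMax Q (C.ρ t - algebraMap k Fk c) := by
  show Q ∈ (Line.finite_fibre ht c).toFinset ↔ _
  rw [Set.Finite.mem_toFinset]
  rfl

end Fibre

section Atlas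

variable (C : Ctx K F k Fk) (x : C.V)

theorem ρ_ne_zero_of_transcendental (hx : Transcendental k (C.ρ x)) : C.ρ x ≠ 0 :=
  fun h => hx (h ▸ isAlgebraic_zero)

/-- the inverse of the coordinate -/
def xinv (hx : Transcendental k (C.ρ x)) : C.V := C.inv x (ρ_ne_zero_of_transcendental C x hx)

@[simp] theorem coe_xinv (hx : Transcendental k (C.ρ x)) :
    ((xinv C x hx : C.V) : F) = ((x : F))⁻¹ := rfl

@[simp] theorem ρ_xinv (hx : Transcendental k (C.ρ x)) : C.ρ (xinv C x hx) = (C.ρ x)⁻¹ :=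
  C.ρ_inv x _

theorem transcendental_ρ_xinv (hx : Transcendental k (C.ρ x)) :
    Transcendental k (C.ρ (xinv C x hx)) := by
  rw [ρ_xinv]
  intro h
  apply hx
  simpa using h.inv

theorem finiteDimensional_xinv [IsAlgClosed K] (hx : Transcendental k (C.ρ x))
    [FiniteDimensional K⟮(x : F)⟯ F] :
    FiniteDimensional K⟮((xinv C x hx : C.V) : F)⟯ F :=
  Fermat.Agent.S24.FF.finiteDimensional_adjoin_of_transcendental (C.transcendental_of_ρ hx)
    (C.transcendental_of_ρ (transcendental_ρ_xinv C x hx))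

theorem finiteDimensional_ρ_xinv (hx : Transcendental k (C.ρ x))
    [FiniteDimensional k⟮C.ρ x⟯ Fk] :
    FiniteDimensional k⟮C.ρ (xinv C x hx)⟯ Fk :=
  Fermat.Agent.S24.FF.finiteDimensional_adjoin_of_transcendental hx
    (transcendental_ρ_xinv C x hx)

theorem coe_x_ne_zero (hx : Transcendental k (C.ρ x)) : (x : F) ≠ 0 :=
  C.ne_zero_of_ρ_ne_zero (ρ_ne_zero_of_transcendental C x hx)

/-- every place of `F` lies in a finite tube or in the tube at infinity -/
theorem cover_tube [IsAlgClosed K] (hx : Transcendental k (C.ρ x))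
    [FiniteDimensional K⟮(x : F)⟯ F] (P : Place K F) :
    (∃ c : k, P ∈ C.tube (x : F) c) ∨ P ∈ C.tube ((x : F))⁻¹ 0 := by
  have hx0 : (x : F) ≠ 0 := coe_x_ne_zero C x hx
  by_cases h : 0 ≤ P.ord (x : F)
  · obtain ⟨c, hc⟩ := Line.exists_value (C.transcendental_of_ρ hx) P h
    by_cases hcA : c ∈ C.A
    · exact Or.inl ⟨C.π ⟨c, hcA⟩, ⟨c, hcA⟩, rfl, hc⟩
    · right
      obtain ⟨a, ha, hπ⟩ := C.exists_inv_of_not_mem hcA
      have hc0 : c ≠ 0 := by
        rintro rfl
        exact hcA (zero_mem _)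
      refine ⟨a, hπ, ?_⟩
      have hord : P.ord (x : F) = 0 := ord_eq_zero_of_inMax_sub hc hc0
      have hreg : 0 ≤ P.ord ((x : F)⁻¹ * algebraMap K F c⁻¹) := by
        refine Line.regular_mul P ?_ (ord_nonneg_const P _)
        rw [P.ord_inv, hord]; simp
      have e : (x : F)⁻¹ - algebraMap K F (a : K)
          = -((x : F) - algebraMap K F c) * ((x : F)⁻¹ * algebraMap K F c⁻¹) := by
        have hcF : algebraMap K F c ≠ 0 := by simpa using hc0
        rw [ha, map_inv₀]
        field_simp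
        ring
      rw [e]
      exact hc.neg.mul_of_ord_nonneg hreg
  · right
    refine ⟨0, map_zero _, ?_⟩
    have : 0 < P.ord ((x : F))⁻¹ := by
      rw [P.ord_inv]
      omega
    simpa using inMax_of_ord_pos this

theorem disj_tube_fin (P : Place K F) {c c' : k} (h : P ∈ C.tube (x : F) c)
    (h' : P ∈ C.tube (x : F) c') : c = c' := by
  obtain ⟨a, rfl, ha⟩ := h
  obtain ⟨a', rfl, ha'⟩ := h'
  have := value_unique ha ha'
  rw [Subtype.ext this]

theorem disj_tube_inf (hx : Transcendental k (C.ρ x)) (P : Place K F) {c : k}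
    (h : P ∈ C.tube (x : F) c) (h' : P ∈ C.tube ((x : F))⁻¹ 0) : False := by
  have hx0 : (x : F) ≠ 0 := coe_x_ne_zero C x hx
  obtain ⟨a, -, ha⟩ := h
  obtain ⟨a', hπ, ha'⟩ := h'
  have hreg : 0 ≤ P.ord ((x : F))⁻¹ := ord_nonneg_of_inMax_sub ha'
  have h1 : InMax P (((x : F) - algebraMap K F (a : K)) * (x : F)⁻¹
      + algebraMap K F (a : K) * ((x : F)⁻¹ - algebraMap K F (a' : K))) :=
    (ha.mul_of_ord_nonneg hreg).add (ha'.const_mul _)
  have e : ((x : F) - algebraMap K F (a : K)) * (x : F)⁻¹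
      + algebraMap K F (a : K) * ((x : F)⁻¹ - algebraMap K F (a' : K))
      = algebraMap K F (1 - (a : K) * (a' : K)) := by
    rw [map_sub, map_mul, map_one]
    field_simp
    ring
  rw [e, inMax_algebraMap_iff] at h1
  have h2 : a * a' = 1 := by
    apply Subtype.ext
    show (a : K) * (a' : K) = 1
    exact (sub_eq_zero.mp h1).symm
  have := congrArg C.π h2
  rw [map_mul, hπ, mul_zero, map_one] at this
  exact zero_ne_one this

/-- every place of `F_k` lies over a finite point or over infinity -/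
theorem cover_pts [IsAlgClosed k] (hx : Transcendental k (C.ρ x))
    [FiniteDimensional k⟮C.ρ x⟯ Fk] (Q : Place k Fk) :
    (∃ c : k, Q ∈ C.pts (C.ρ x) c) ∨ Q ∈ C.pts (C.ρ x)⁻¹ 0 := by
  by_cases h : 0 ≤ Q.ord (C.ρ x)
  · obtain ⟨c, hc⟩ := Line.exists_value hx Q h
    exact Or.inl ⟨c, hc⟩
  · right
    have : 0 < Q.ord (C.ρ x)⁻¹ := by
      rw [Q.ord_inv]
      omega
    show InMax Q ((C.ρ x)⁻¹ - algebraMap k Fk 0)
    simpa using inMax_of_ord_pos this

theorem disj_pts_fin (Q : Place k Fk) {c c' : k} (h : Q ∈ C.pts (C.ρ x) c)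
    (h' : Q ∈ C.pts (C.ρ x) c') : c = c' :=
  value_unique h h'

theorem disj_pts_inf (hx : Transcendental k (C.ρ x)) (Q : Place k Fk) {c : k}
    (h : Q ∈ C.pts (C.ρ x) c) (h' : Q ∈ C.pts (C.ρ x)⁻¹ 0) : False := by
  have hx0 : C.ρ x ≠ 0 := ρ_ne_zero_of_transcendental C x hx
  have h1 : 0 ≤ Q.ord (C.ρ x) := ord_nonneg_of_inMax_sub h
  have h2 : InMax Q (C.ρ x)⁻¹ := by
    have : InMax Q ((C.ρ x)⁻¹ - algebraMap k Fk 0) := h'
    simpa using this
  have h3 := h2.ord_pos (inv_ne_zero hx0)
  rw [Q.ord_inv] at h3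
  omega

variable [IsAlgClosed K] [IsAlgClosed k] (hx : Transcendental k (C.ρ x))
  [FiniteDimensional K⟮(x : F)⟯ F] [FiniteDimensional k⟮C.ρ x⟯ Fk]
  (hfin : ∀ c : k, LocalCoord C x c) (hinf : LocalCoord C (xinv C x hx) 0)

/-- the fibre at infinity -/
def fibreInf : Fibre C :=
  haveI := finiteDimensional_xinv C x hx
  haveI := finiteDimensional_ρ_xinv C x hx
  fibreOf C (xinv C x hx) (transcendental_ρ_xinv C x hx) 0 hinf

theorem fibreInf_𝔉 : (fibreInf C x hx hinf).𝔉 = C.tube ((x : F))⁻¹ 0 := rfl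

theorem mem_fibreInf_𝔊 (Q : Place k Fk) :
    Q ∈ (fibreInf C x hx hinf).𝔊 ↔ Q ∈ C.pts (C.ρ x)⁻¹ 0 := by
  have i1 := finiteDimensional_xinv C x hx
  have i2 := finiteDimensional_ρ_xinv C x hx
  have := mem_fibreOf_𝔊 C (xinv C x hx) (transcendental_ρ_xinv C x hx) 0 hinf Q
  rw [ρ_xinv] at this
  exact this

/-- **The atlas of a coordinate**, indexed by the points of the projective line over `k`. -/
def atlasOf : Atlas C (Option k) where
  Φ := fun i => match i with
    | some c => fibreOf C x hx c (hfin c)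
    | none => fibreInf C x hx hinf
  cover := fun P => by
    rcases cover_tube C x hx P with ⟨c, hc⟩ | h
    · exact ⟨some c, hc⟩
    · exact ⟨none, h⟩
  disj := fun i j P hi hj => by
    match i, j with
    | some c, some c' => exact congrArg some (disj_tube_fin C x P hi hj)
    | some c, none => exact (disj_tube_inf C x hx P hi hj).elim
    | none, some c => exact (disj_tube_inf C x hx P hj hi).elim
    | none, none => rfl
  cover' := fun Q => by
    rcases cover_pts C x hx Q with ⟨c, hc⟩ | h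
    · exact ⟨some c, (mem_fibreOf_𝔊 C x hx c (hfin c) Q).mpr hc⟩
    · exact ⟨none, (mem_fibreInf_𝔊 C x hx hinf Q).mpr h⟩
  disj' := fun i j Q hi hj => by
    match i, j with
    | some c, some c' =>
      exact congrArg some (disj_pts_fin C x Q ((mem_fibreOf_𝔊 C x hx c (hfin c) Q).mp hi)
        ((mem_fibreOf_𝔊 C x hx c' (hfin c') Q).mp hj))
    | some c, none =>
      exact (disj_pts_inf C x hx Q ((mem_fibreOf_𝔊 C x hx c (hfin c) Q).mp hi)
        ((mem_fibreInf_𝔊 C x hx hinf Q).mp hj)).elim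
    | none, some c =>
      exact (disj_pts_inf C x hx Q ((mem_fibreOf_𝔊 C x hx c (hfin c) Q).mp hj)
        ((mem_fibreInf_𝔊 C x hx hinf Q).mp hi)).elim
    | none, none => rfl

include hfin hinf in
/-- **Existence of the place reduction map over a coordinate line.**

`K`, `k` algebraically closed; `x ∈ V` with `x̄` transcendental, `F / K(x)` and `F_k / k(x̄)`
finite; conservation of number and normality for the local coordinates `x` (all `c̄ ∈ k`) and
`x⁻¹` (at `0`).  Then there is `r : Pl(F) → Pl(F_k)` with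
(i) `deg (r P) = deg P`, (ii) `r_* div u = div (ρ u)` for `u ∈ V`, `ρ u ≠ 0`,
(EC) value compatibility on both charts. -/
theorem exists_red_of_coord :
    ∃ r : Place K F → Place k Fk,
      (∀ P, (r P).deg = P.deg) ∧
      (∀ u : C.V, C.ρ u ≠ 0 → ∀ D : Divisor K F, (∀ P, D P = P.ord (u : F)) →
        ∀ Q, Finsupp.mapDomain r D Q = Q.ord (C.ρ u)) ∧
      (∀ b : C.V, (∀ P : Place K F, 0 ≤ P.ord (x : F) → 0 ≤ P.ord (b : F)) →
        ∀ (P : Place K F) (a c : C.A), InMax P ((x : F) - algebraMap K F (a : K)) →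
          InMax P ((b : F) - algebraMap K F (c : K)) →
          InMax (r P) (C.ρ b - algebraMap k Fk (C.π c))) ∧
      (∀ b : C.V, (∀ P : Place K F, 0 ≤ P.ord ((x : F))⁻¹ → 0 ≤ P.ord (b : F)) →
        ∀ (P : Place K F) (a c : C.A), InMax P ((x : F)⁻¹ - algebraMap K F (a : K)) →
          InMax P ((b : F) - algebraMap K F (c : K)) →
          InMax (r P) (C.ρ b - algebraMap k Fk (C.π c))) := by
  have hInf : Infinite k := IsAlgClosed.instInfinite
  set 𝔄 := atlasOf C x hx hfin hinf with h𝔄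
  have hresK : ∀ (P : Place K F) (f : F), 0 ≤ P.ord f →
      ∃ c : K, InMax P (f - algebraMap K F c) :=
    fun P f hf => Line.exists_value (C.transcendental_of_ρ hx) P hf
  have hresk : ∀ (Q : Place k Fk) (g : Fk), 0 ≤ Q.ord g →
      ∃ a : k, InMax Q (g - algebraMap k Fk a) :=
    fun Q g hg => Line.exists_value hx Q hg
  refine ⟨𝔄.red, fun P => ?_, fun u hu D hD Q => 𝔄.mapDomain_red u hu D hD Q, ?_, ?_⟩
  · rw [deg_eq_one_of_res P (hresK P), deg_eq_one_of_res (𝔄.red P) (hresk _)]
  · intro b hreg P a c ha hc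
    have hP : P ∈ (𝔄.Φ (some (C.π a))).𝔉 := ⟨a, rfl, ha⟩
    exact 𝔄.red_value (i := some (C.π a)) b
      (fun P' hP' => hreg P' (C.ord_nonneg_of_mem_tube (t := (x : F)) hP')) hP hc
  · intro b hreg P a c ha hc
    by_cases hπ : C.π a = 0
    · have hP : P ∈ (𝔄.Φ none).𝔉 := ⟨a, hπ, ha⟩
      exact 𝔄.red_value (i := none) b
        (fun P' hP' => hreg P' (C.ord_nonneg_of_mem_tube (t := ((x : F))⁻¹) hP')) hP hc
    · -- `a` is a unit: `P` lies in the finite tube over `1 / ā`
      have hau : IsUnit a := by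
        by_contra hnu
        exact hπ ((C.π_eq_zero a).mpr hnu)
      obtain ⟨a', ha'⟩ := hau.exists_right_inv
      have ha0 : (a : K) ≠ 0 := by
        intro h0
        have : a = 0 := Subtype.ext h0
        rw [this, zero_mul] at ha'
        exact zero_ne_one ha'
      have haa' : (a : K) * (a' : K) = 1 := congrArg Subtype.val ha'
      have hx0 : (x : F) ≠ 0 := coe_x_ne_zero C x hx
      have hordinv : P.ord ((x : F))⁻¹ = 0 := ord_eq_zero_of_inMax_sub ha ha0
      have hordx : P.ord (x : F) = 0 := by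
        rw [P.ord_inv] at hordinv
        omega
      have hval : InMax P ((x : F) - algebraMap K F (a' : K)) := by
        have e : (x : F) - algebraMap K F (a' : K)
            = -((x : F)⁻¹ - algebraMap K F (a : K)) * ((x : F) * algebraMap K F (a' : K)) := by
          have h1 : algebraMap K F (a : K) * algebraMap K F (a' : K) = 1 := by
            rw [← map_mul, haa', map_one]
          have : -((x : F)⁻¹ - algebraMap K F (a : K)) * ((x : F) * algebraMap K F (a' : K))
              = (algebraMap K F (a : K) * algebraMap K F (a' : K)) * (x : F)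
                - ((x : F)⁻¹ * (x : F)) * algebraMap K F (a' : K) := by ring
          rw [this, h1, inv_mul_cancel₀ hx0, one_mul, one_mul]
        rw [e]
        refine ha.neg.mul_of_ord_nonneg (Line.regular_mul P ?_ (ord_nonneg_const P _))
        rw [hordx]
      have hP : P ∈ (𝔄.Φ (some (C.π a'))).𝔉 := ⟨a', rfl, hval⟩
      refine 𝔄.red_value (i := some (C.π a')) b (fun P' hP' => hreg P' ?_) hP hc
      -- on the tube over `1 / ā` the function `x⁻¹` is regular
      obtain ⟨a'', ha''π, ha''⟩ := hP'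
      have ha''0 : (a'' : K) ≠ 0 := by
        intro h0
        have h1 : a'' = 0 := Subtype.ext h0
        rw [h1, map_zero] at ha''π
        have h2 := congrArg C.π ha'
        rw [map_mul, ← ha''π, mul_zero, map_one] at h2
        exact zero_ne_one h2
      have := ord_eq_zero_of_inMax_sub ha'' ha''0
      rw [P'.ord_inv, this]
      simp

end Atlas

end Fermat.Agent.S37.H940

end
end
-- ===== PACK-END S37/H940/Chart.lean

-- ===== PACK-BEGIN S37/Red/H940/Main.lean
section




/-!
# S37-RED (helper940): `MainStatement` from the fibre sums of the two coordinates `x`, `x⁻¹`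

Interface: `Fermat/Agent/S37/Red/Spec.lean` (helper40).  For a reduction datum `G` with good
charts (`G.Good`) we prove

* `main_of_fibreSum` : `FibreSumStatement G → ∃ r, IsRed G r ∧ EvalCompat G r`;
* `main_of_fibreSum'`: the same from the fibre sums for the TWO auxiliary coordinates
  `t = x` (all `c ∈ A`) and `t = x⁻¹` (`c = 0`) only  (`FibreSumAt G G.x`, `FibreSumAt G G.x⁻¹`);
* `mainStatement_of_fibreSum` : `(∀ G, FibreSumStatement G) → MainStatement`.

So the pieces RED-B (`DegEqStatement`), RED-D1 (`SepStatement`), RED-C and RED-D of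
`coord/S37-red.md` are not needed: the construction of `r` and the count (ii) are done by the
fibre-local core `Fermat/Agent/S37/H940/{Core,Assembly,Line,Chart}.lean`
(`exists_red_of_coord`), which needs conservation of number only for the coordinate itself.
Characteristic `0` of `K` and separability (`Good.sep_k`) are not used here.
-/

set_option autoImplicit false

noncomputable section

namespace Fermat.Agent.S37.Red.H940

open AlgebraicCurve IntermediateField Polynomial
open Fermat.Agent.S37.H940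

universe u

variable {K k F Fk : Type u} [Field K] [Field k] [Field F] [Field Fk]
  [Algebra K F] [Algebra k Fk] {A : ValuationSubring K} {π : A →+* k} (G : Datum A π F Fk)

/-- `ValAt` is `InMax` of the difference -/
theorem valAt_iff_inMax {K F : Type u} [Field K] [Field F] [Algebra K F] (P : Place K F) (f : F)
    (a : K) : ValAt P f a ↔ InMax P (f - algebraMap K F a) := by
  rw [inMax_iff_mem_nonunits, ValuationSubring.mem_nonunits_iff]
  rfl

/-- the fibre sums for ONE auxiliary coordinate `t` and one `c ∈ A` -/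
def FibreSumAt (t : F) (c : A) : Prop :=
  ∀ (y : F) (hy : y ∈ G.O), G.ρ ⟨y, hy⟩ ≠ 0 →
    ∀ (S : Finset (Place K F)) (T : Finset (Place k Fk)),
      (∀ P : Place K F, P.ord y ≠ 0 → (∃ a : A, π a = π c ∧ ValAt P t a) → P ∈ S) →
      (∀ P ∈ S, ∃ a : A, π a = π c ∧ ValAt P t a) →
      (∀ Q : Place k Fk, Q.ord (G.ρ ⟨y, hy⟩) ≠ 0 → ValAt Q (G.red t) (π c) → Q ∈ T) →
      (∀ Q ∈ T, ValAt Q (G.red t) (π c)) →
      ∑ Q ∈ T, Q.ord (G.ρ ⟨y, hy⟩) = ∑ P ∈ S, P.ord y

/-- **The reduction context of a datum.** -/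
def ctx : Ctx K F k Fk where
  A := A
  π := π
  π_surj := G.π_surj
  π_eq_zero := fun a => by
    rw [H399.pi_eq_zero_iff G a, ValuationSubring.coe_mem_nonunits_iff,
      IsLocalRing.mem_maximalIdeal, mem_nonunits_iff]
  V := G.O.toSubring
  ρ := G.ρ
  A_mem := G.const_mem
  ρ_A := G.ρ_const
  inv_mem := fun u hu => by
    have h1 : ¬ ((u : F) ∈ G.O.nonunits) := fun h =>
      hu ((H399.rho_eq_zero_iff G ⟨(u : F), u.2⟩).mpr h)
    rw [ValuationSubring.mem_nonunits_iff, not_lt] at h1
    show ((u : F))⁻¹ ∈ G.O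
    rw [← ValuationSubring.valuation_le_one_iff, map_inv₀]
    have h2 : G.O.valuation (u : F) ≤ 1 := (ValuationSubring.valuation_le_one_iff _ _).mpr u.2
    have h3 : G.O.valuation (u : F) = 1 := le_antisymm h2 h1
    rw [h3, inv_one]

@[simp] theorem ctx_ρ (y : F) (hy : y ∈ G.O) : (ctx G).ρ ⟨y, hy⟩ = G.ρ ⟨y, hy⟩ := rfl

/-- the coordinate as an element of the context -/
def cx : (ctx G).V := ⟨G.x, G.x_mem⟩

theorem ρ_cx : (ctx G).ρ (cx G) = G.xk := rfl

theorem transc_cx : Transcendental k ((ctx G).ρ (cx G)) := G.xk_transc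

/-- elements of the chart of `t` are regular wherever `t` is regular -/
theorem regular_of_mem_chart {t b : F} (hb : b ∈ G.chart t) (P : Place K F)
    (ht : 0 ≤ P.ord t) : 0 ≤ P.ord b := by
  have hle : ∀ r : G.polyRing t, algebraMap (G.polyRing t) F r ∈ P.toValuationSubring.toSubring := by
    rintro ⟨r, hr⟩
    show r ∈ P.toValuationSubring.toSubring
    have h1 : G.polyRing t ≤ P.toValuationSubring.toSubring := by
      unfold Datum.polyRing
      rw [sup_le_iff]
      constructor
      · rintro _ ⟨a, -, rfl⟩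
        exact P.algebraMap_mem' a
      · rw [Subring.closure_le]
        rintro _ rfl
        exact (Line.regular_iff_mem P _).mp ht
    exact h1 hr
  have hcl : IsIntegrallyClosedIn P.toValuationSubring.toSubring F :=
    inferInstanceAs (IsIntegrallyClosedIn P.toValuationSubring F)
  have h2 := (Subring.integralClosure_le_iff (R := G.polyRing t)
    (T := P.toValuationSubring.toSubring)).mpr hle
  exact (Line.regular_iff_mem P b).mpr (h2 hb)

section Main

variable [IsAlgClosed K] [IsAlgClosed k]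

/-- the hypotheses of the fibre-local core for the coordinate `x` over `c̄ = π c` -/
theorem localCoord_fin (hG : G.Good) (c : A) (hFS : FibreSumAt G G.x c) :
    LocalCoord (ctx G) (cx G) (π c) where
  FC := by
    intro u hu S T h1 h2 h3 h4
    have hred : G.red G.x = G.xk := H399.red_eq_of_mem G G.x_mem
    refine (hFS (u : F) u.2 hu S T ?_ ?_ ?_ ?_).symm
    · rintro P hP ⟨a, ha, hval⟩
      exact h1 P ⟨a, ha, (valAt_iff_inMax P _ _).mp hval⟩ hP
    · intro P hP
      obtain ⟨a, ha, hval⟩ := h2 P hP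
      exact ⟨a, ha, (valAt_iff_inMax P _ _).mpr hval⟩
    · intro Q hQ hval
      rw [hred] at hval
      exact h3 Q ((valAt_iff_inMax Q _ _).mp hval) hQ
    · intro Q hQ
      rw [hred]
      exact (valAt_iff_inMax Q _ _).mpr (h4 Q hQ)
  LIFT := by
    intro τ hτ
    obtain ⟨b, hb, hbO, hρ⟩ := hG.lift_fin τ hτ
    exact ⟨⟨b, hbO⟩, hρ, fun P hP => regular_of_mem_chart G hb P hP⟩

theorem xk_ne_zero : G.xk ≠ 0 := ρ_ne_zero_of_transcendental (ctx G) (cx G) (transc_cx G)

theorem xinv_mem : G.x⁻¹ ∈ G.O := (ctx G).inv_mem (cx G) (xk_ne_zero G)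

theorem red_xinv : G.red G.x⁻¹ = G.xk⁻¹ := by
  rw [H399.red_eq_of_mem G (xinv_mem G)]
  exact (ctx G).ρ_inv (cx G) (xk_ne_zero G)

/-- the hypotheses of the fibre-local core for the coordinate `x⁻¹` over `0` -/
theorem localCoord_inf (hG : G.Good) (hFS : FibreSumAt G G.x⁻¹ 0) :
    LocalCoord (ctx G) (xinv (ctx G) (cx G) (transc_cx G)) 0 where
  FC := by
    intro u hu S T h1 h2 h3 h4
    have hred : G.red G.x⁻¹ = G.xk⁻¹ := red_xinv G
    have hρ : (ctx G).ρ (xinv (ctx G) (cx G) (transc_cx G)) = G.xk⁻¹ :=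
      ρ_xinv (ctx G) (cx G) (transc_cx G)
    have hπ0 : π (0 : A) = 0 := map_zero π
    refine (hFS (u : F) u.2 hu S T ?_ ?_ ?_ ?_).symm
    · rintro P hP ⟨a, ha, hval⟩
      rw [hπ0] at ha
      exact h1 P ⟨a, ha, (valAt_iff_inMax P _ _).mp hval⟩ hP
    · intro P hP
      obtain ⟨a, ha, hval⟩ := h2 P hP
      exact ⟨a, by rw [hπ0]; exact ha, (valAt_iff_inMax P _ _).mpr hval⟩
    · intro Q hQ hval
      rw [hred, hπ0] at hval
      refine h3 Q ?_ hQ
      show InMax Q ((ctx G).ρ (xinv (ctx G) (cx G) (transc_cx G)) - algebraMap k Fk 0)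
      rw [hρ]
      exact (valAt_iff_inMax Q _ _).mp hval
    · intro Q hQ
      rw [hred, hπ0]
      have := h4 Q hQ
      have h5 : InMax Q ((ctx G).ρ (xinv (ctx G) (cx G) (transc_cx G)) - algebraMap k Fk 0) :=
        this
      rw [hρ] at h5
      exact (valAt_iff_inMax Q _ _).mpr h5
  LIFT := by
    intro τ hτ
    have hρ : (ctx G).ρ (xinv (ctx G) (cx G) (transc_cx G)) = G.xk⁻¹ :=
      ρ_xinv (ctx G) (cx G) (transc_cx G)
    rw [hρ] at hτ
    obtain ⟨b, hb, hbO, hρb⟩ := hG.lift_inf τ hτ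
    exact ⟨⟨b, hbO⟩, hρb, fun P hP => regular_of_mem_chart G hb P hP⟩

/-- **MAIN from the fibre sums of the two coordinates.** -/
theorem main_of_fibreSum' (hG : G.Good) (hfin : ∀ c : A, FibreSumAt G G.x c)
    (hinf : FibreSumAt G G.x⁻¹ 0) :
    ∃ r : Place K F → Place k Fk, IsRed G r ∧ EvalCompat G r := by
  have i1 : FiniteDimensional K⟮((cx G : (ctx G).V) : F)⟯ F := hG.finite
  have i2 : FiniteDimensional k⟮(ctx G).ρ (cx G)⟯ Fk := hG.finite_k
  have hfin' : ∀ c : k, LocalCoord (ctx G) (cx G) c := by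
    intro c
    obtain ⟨a, rfl⟩ := G.π_surj c
    exact localCoord_fin G hG a (hfin a)
  obtain ⟨r, hdeg, hii, hecf, heci⟩ := exists_red_of_coord (ctx G) (cx G) (transc_cx G) hfin'
    (localCoord_inf G hG hinf)
  refine ⟨r, ⟨hdeg, fun y hy hρ D hD Q => hii ⟨y, hy⟩ hρ D hD Q⟩, ?_, ?_⟩
  · intro P a₀ ha₀ b hb hbO a hba
    rw [valAt_iff_inMax]
    exact hecf ⟨b, hbO⟩ (fun P' hP' => regular_of_mem_chart G hb P' hP') P a₀ a
      ((valAt_iff_inMax P _ _).mp ha₀) ((valAt_iff_inMax P _ _).mp hba)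
  · intro P a₀ ha₀ b hb hbO a hba
    rw [valAt_iff_inMax]
    exact heci ⟨b, hbO⟩ (fun P' hP' => regular_of_mem_chart G hb P' hP') P a₀ a
      ((valAt_iff_inMax P _ _).mp ha₀) ((valAt_iff_inMax P _ _).mp hba)

/-- an auxiliary coordinate from its data, with the reduction given by name -/
theorem auxCoord_of_eq [CharZero K] {t : F} (ht : t ∈ G.O) {s : Fk} (hs : G.red t = s)
    (htr : Transcendental k s) (h1 : FiniteDimensional K⟮t⟯ F)
    (h2 : FiniteDimensional k⟮s⟯ Fk) (h3 : Algebra.IsSeparable k⟮s⟯ Fk)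
    (h4 : Module.finrank K⟮t⟯ F = Module.finrank k⟮s⟯ Fk) : G.AuxCoord t := by
  subst hs
  exact ⟨ht, htr, h1, h2, h3, h4⟩

/-- the coordinate `x` is an auxiliary coordinate -/
theorem auxCoord_x [CharZero K] (hG : G.Good) : G.AuxCoord G.x :=
  auxCoord_of_eq G G.x_mem (H399.red_eq_of_mem G G.x_mem) G.xk_transc hG.finite hG.finite_k
    hG.sep_k hG.finrank_eq

omit [IsAlgClosed K] [IsAlgClosed k] in
theorem transport_adjoin {K F : Type u} [Field K] [Field F] [Algebra K F]
    (p : IntermediateField K F → Prop) {L L' : IntermediateField K F} (h : L = L') (hp : p L) :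
    p L' := h ▸ hp

/-- the coordinate `x⁻¹` is an auxiliary coordinate -/
theorem auxCoord_xinv [CharZero K] (hG : G.Good) : G.AuxCoord G.x⁻¹ := by
  have e1 : K⟮G.x⟯ = K⟮G.x⁻¹⟯ := Fermat.Agent.Lib.RR.adjoin_inv_eq G.x
  have e2 : k⟮G.xk⟯ = k⟮G.xk⁻¹⟯ := Fermat.Agent.Lib.RR.adjoin_inv_eq G.xk
  have htr : Transcendental k G.xk⁻¹ := by
    have := transcendental_ρ_xinv (ctx G) (cx G) (transc_cx G)
    rwa [ρ_xinv] at this
  refine auxCoord_of_eq G (xinv_mem G) (red_xinv G) htr ?_ ?_ ?_ ?_
  · exact transport_adjoin (fun L => FiniteDimensional L F) e1 hG.finite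
  · exact transport_adjoin (fun L => FiniteDimensional L Fk) e2 hG.finite_k
  · exact transport_adjoin (fun L => Algebra.IsSeparable L Fk) e2 hG.sep_k
  · have h1 : Module.finrank K⟮G.x⁻¹⟯ F = Module.finrank K⟮G.x⟯ F :=
      transport_adjoin (fun L => Module.finrank L F = Module.finrank K⟮G.x⟯ F) e1 rfl
    have h2 : Module.finrank k⟮G.xk⁻¹⟯ Fk = Module.finrank k⟮G.xk⟯ Fk :=
      transport_adjoin (fun L => Module.finrank L Fk = Module.finrank k⟮G.xk⟯ Fk) e2 rfl
    rw [h1, h2]
    exact hG.finrank_eq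

/-- **RED-MAIN from RED-A**: a datum with good charts and fibre sums has a place reduction map
with (i), (ii) and (EC). -/
theorem main_of_fibreSum [CharZero K] (hG : G.Good) (hFS : FibreSumStatement G) :
    ∃ r : Place K F → Place k Fk, IsRed G r ∧ EvalCompat G r :=
  main_of_fibreSum' G hG (fun c y hy hρ => hFS G.x (auxCoord_x G hG) y hy hρ c)
    (fun y hy hρ => hFS G.x⁻¹ (auxCoord_xinv G hG) y hy hρ 0)

end Main

/-- **`MainStatement` from `FibreSumStatement`** (RED-A ⟹ RED-MAIN). -/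
theorem mainStatement_of_fibreSum
    (h : ∀ (K k F Fk : Type u) [Field K] [Field k] [Field F] [Field Fk] [Algebra K F]
      [Algebra k Fk] [IsAlgClosed K] [CharZero K] [IsAlgClosed k] (A : ValuationSubring K)
      (π : A →+* k) (G : Datum A π F Fk), G.Good → FibreSumStatement G) :
    MainStatement.{u} :=
  fun K k F Fk _ _ _ _ _ _ _ _ _ A π G hG => main_of_fibreSum G hG (h K k F Fk A π G hG)

end Fermat.Agent.S37.Red.H940

end
end
-- ===== PACK-END S37/Red/H940/Main.lean

-- ===== PACK-BEGIN S37/Red/H160/FibreSum.lean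
section




/-!
# S37-RED, piece A (helper160): `FibreSumStatement` from `NormRedStatement`

`fibreSum G (hA1 : NormRedStatement G) : FibreSumStatement G`   (exact shapes of `Red/Spec.lean`).

Proof: `g := N_{F/K(t)}(y) = w · r₀(t)/s₀(t)` with `r₀, s₀ ∈ A[X]` primitive and `w ∈ Aˣ`
(`normRep`, from RED-A1); the norm formula on both sides (`sum_ord_fibre`, separable version) and
Gauss' lemma for roots (`rootMultiplicity_map_residue`).
-/

set_option autoImplicit false
set_option linter.unusedSectionVars false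

noncomputable section

namespace Fermat.Agent.S37.Red.H160

open AlgebraicCurve Polynomial IntermediateField
open Fermat.Agent.S37.Red Fermat.Agent.S37.H160

universe u

variable {K k F Fk : Type u} [Field K] [Field k] [Field F] [Field Fk]
  [Algebra K F] [Algebra k Fk] [IsAlgClosed K] [CharZero K] [IsAlgClosed k]
  {A : ValuationSubring K} {π : A →+* k} (G : Datum A π F Fk)

/-- A polynomial over `A` with a coefficient `1`, evaluated at `t ∈ O` with transcendental
reduction, is a unit of `O`. -/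
theorem ρ_aeval_ne_zero {t : F} (ht : t ∈ G.O) (htb : Transcendental k (G.ρ ⟨t, ht⟩))
    {p : A[X]} {n : ℕ} (hp : p.coeff n = 1) :
    G.ρ ⟨aeval t (p.map A.subtype), aeval_mem G ht p⟩ ≠ 0 := by
  rw [ρ_aeval G ht]
  intro h
  exact map_ne_zero_of_coeff_eq_one π hp ((transcendental_iff.mp htb) _ h)

/-- **Normal form of the norm** of a unit `y` of `O`:
`N(y) · s₀(t) = w · r₀(t)` and `N(ȳ) · s̄₀(t̄) = w̄ · r̄₀(t̄)` with `r₀, s₀ ∈ A[X]` primitive,
`w ∈ Aˣ`. -/
theorem normRep (hA1 : NormRedStatement G) {t : F} (ht : G.AuxCoord t) {y : F} (hy : y ∈ G.O)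
    (hρy : G.ρ ⟨y, hy⟩ ≠ 0) :
    ∃ (r₀ s₀ : A[X]) (w : A), (∃ n, r₀.coeff n = 1) ∧ (∃ n, s₀.coeff n = 1) ∧ π w ≠ 0 ∧
      algebraMap K⟮t⟯ F (Algebra.norm K⟮t⟯ y) * aeval t (s₀.map A.subtype)
        = aeval t (C (w : K) * r₀.map A.subtype) ∧
      algebraMap k⟮G.red t⟯ Fk (Algebra.norm k⟮G.red t⟯ (G.ρ ⟨y, hy⟩)) * aeval (G.red t) (s₀.map π)
        = aeval (G.red t) (C (π w) * r₀.map π) := by
  have htO := ht.mem
  have htb : Transcendental k (G.ρ ⟨t, htO⟩) := by
    have := ht.transc
    rwa [red_of_mem G htO] at this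
  have htK : Transcendental K t := transcendental_of_red G htO ht.transc
  haveI := ht.finite
  haveI := ht.finite_k
  obtain ⟨hgO, hgred⟩ := hA1 t ht y hy
  have hy0 : y ≠ 0 := by
    rintro rfl
    apply hρy
    have : (⟨0, hy⟩ : G.O) = 0 := rfl
    rw [this, map_zero]
  set g : K⟮t⟯ := Algebra.norm K⟮t⟯ y with hg
  have hg0 : g ≠ 0 := Algebra.norm_ne_zero_iff.mpr hy0
  -- reduction of the norm
  have hredy : G.red y = G.ρ ⟨y, hy⟩ := red_of_mem G hy
  have hρg : G.ρ ⟨(g : F), hgO⟩
      = algebraMap k⟮G.red t⟯ Fk (Algebra.norm k⟮G.red t⟯ (G.ρ ⟨y, hy⟩)) := by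
    rw [← red_of_mem G hgO, hgred, hredy]
    rfl
  have hρg0 : G.ρ ⟨(g : F), hgO⟩ ≠ 0 := by
    rw [hρg]
    intro h
    have h1 : Algebra.norm k⟮G.red t⟯ (G.ρ ⟨y, hy⟩) = 0 :=
      (algebraMap k⟮G.red t⟯ Fk).injective (by rw [h, map_zero])
    exact hρy (Algebra.norm_eq_zero_iff.mp h1)
  -- rational representation
  obtain ⟨r, s, hs, hrs⟩ := exists_aeval_div htK g
  have hcoe : ∀ p : K[X], ((aeval (AdjoinSimple.gen K t) p : K⟮t⟯) : F) = aeval t p := fun p => by
    rw [← AdjoinSimple.algebraMap_gen K t, aeval_algebraMap_apply]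
    rfl
  have hrsF : (g : F) * aeval t s = aeval t r := by
    have := congrArg (fun z : K⟮t⟯ => (z : F)) hrs
    simpa only [MulMemClass.coe_mul, hcoe] using this
  have hr : r ≠ 0 := by
    rintro rfl
    rw [map_zero] at hrs
    rcases mul_eq_zero.mp hrs with h | h
    · exact hg0 h
    · exact aeval_gen_ne_zero htK hs h
  obtain ⟨u₁, r₀, hu₁, hr₀, n₁, hn₁⟩ := exists_primitive_scale_one A r hr
  obtain ⟨u₂, s₀, hu₂, hs₀, n₂, hn₂⟩ := exists_primitive_scale_one A s hs
  -- values in `O`
  have hrO := aeval_mem G htO r₀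
  have hsO := aeval_mem G htO s₀
  have hρr := ρ_aeval_ne_zero G htO htb hn₁
  have hρs := ρ_aeval_ne_zero G htO htb hn₂
  have hr0 : aeval t (r₀.map A.subtype) ≠ 0 := by
    intro h
    apply hρr
    have : (⟨aeval t (r₀.map A.subtype), hrO⟩ : G.O) = 0 := Subtype.ext h
    rw [this, map_zero]
  -- the constant
  set w : K := u₁ / u₂ with hw
  have hw0 : w ≠ 0 := div_ne_zero hu₁ hu₂
  have hmain : (g : F) * aeval t (s₀.map A.subtype) = algebraMap K F w * aeval t (r₀.map A.subtype) := by
    have h1 : (g : F) * (algebraMap K F u₂ * aeval t (s₀.map A.subtype))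
        = algebraMap K F u₁ * aeval t (r₀.map A.subtype) := by
      have := hrsF
      rw [hr₀, hs₀] at this
      simpa only [map_mul, aeval_C] using this
    have hu₂' : algebraMap K F u₂ ≠ 0 := by simpa using hu₂
    rw [hw, map_div₀]
    field_simp
    linear_combination h1
  have hwO : algebraMap K F w ∈ G.O := by
    have hinv := inv_mem G hrO hρr
    have h1 : algebraMap K F w = (g : F) * aeval t (s₀.map A.subtype)
        * (aeval t (r₀.map A.subtype))⁻¹ := by
      rw [hmain]
      field_simp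
    rw [h1]
    exact mul_mem (mul_mem hgO hsO) hinv
  have hwA : w ∈ A := mem_of_algebraMap_mem G hwO
  -- the identity in `O` and its reduction
  have hO : (⟨(g : F), hgO⟩ : G.O) * ⟨aeval t (s₀.map A.subtype), hsO⟩
      = ⟨algebraMap K F ((⟨w, hwA⟩ : A) : K), G.const_mem ⟨w, hwA⟩⟩
        * ⟨aeval t (r₀.map A.subtype), hrO⟩ := Subtype.ext hmain
  have hρ := congrArg G.ρ hO
  rw [map_mul, map_mul, G.ρ_const, ρ_aeval G htO, ρ_aeval G htO, hρg] at hρ
  have hπw : π ⟨w, hwA⟩ ≠ 0 := by
    intro h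
    rw [h, map_zero, zero_mul] at hρ
    rcases mul_eq_zero.mp hρ with h1 | h1
    · rw [← hρg] at h1
      exact hρg0 h1
    · have := ρ_aeval_ne_zero G htO htb hn₂
      rw [ρ_aeval G htO] at this
      exact this h1
  refine ⟨r₀, s₀, ⟨w, hwA⟩, ⟨n₁, hn₁⟩, ⟨n₂, hn₂⟩, hπw, ?_, ?_⟩
  · rw [map_mul, aeval_C]
    exact hmain
  · rw [map_mul, aeval_C]
    rw [← red_of_mem G htO] at hρ
    exact hρ

/-- **RED-A**: fibre sums, from RED-A1. -/
theorem fibreSum (hA1 : NormRedStatement G) : FibreSumStatement G := by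
  classical
  intro t ht y hy hρy c S T hS2 hS1 hT2 hT1
  have htO := ht.mem
  have htbT : Transcendental k (G.red t) := ht.transc
  have htK : Transcendental K t := transcendental_of_red G htO ht.transc
  haveI := ht.finite
  haveI := ht.finite_k
  haveI := ht.sep_k
  haveI : CharZero F := charZero_of_injective_algebraMap (algebraMap K F).injective
  have hπ := ker_π G
  have hy0 : y ≠ 0 := by
    rintro rfl
    apply hρy
    have : (⟨0, hy⟩ : G.O) = 0 := rfl
    rw [this, map_zero]
  obtain ⟨r₀, s₀, w, ⟨n₁, hn₁⟩, ⟨n₂, hn₂⟩, hπw, hNK, hNk⟩ := normRep G hA1 ht hy hρy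
  have hw0 : (w : K) ≠ 0 := by
    intro h
    apply hπw
    have : w = 0 := Subtype.ext h
    rw [this, map_zero]
  have hr₀π : r₀.map π ≠ 0 := map_ne_zero_of_coeff_eq_one π hn₁
  have hs₀π : s₀.map π ≠ 0 := map_ne_zero_of_coeff_eq_one π hn₂
  have hr₀K : r₀.map A.subtype ≠ 0 := map_ne_zero_of_coeff_eq_one A.subtype hn₁
  have hs₀K : s₀.map A.subtype ≠ 0 := map_ne_zero_of_coeff_eq_one A.subtype hn₂
  have hsubK : ∀ a : K, t - algebraMap K F a ≠ 0 := by
    intro a h
    apply htK
    rw [sub_eq_zero.mp h]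
    exact isAlgebraic_algebraMap _
  have hsubk : ∀ a : k, G.red t - algebraMap k Fk a ≠ 0 := by
    intro a h
    apply htbT
    rw [sub_eq_zero.mp h]
    exact isAlgebraic_algebraMap _
  -- `k`-side
  have hkside : ∑ Q ∈ T, Q.ord (G.ρ ⟨y, hy⟩)
      = ((r₀.map π).rootMultiplicity (π c) : ℤ) - (s₀.map π).rootMultiplicity (π c) := by
    have h := sum_ord_fibre htbT (π c) (G.ρ ⟨y, hy⟩) hρy (C (π w) * r₀.map π) (s₀.map π) hs₀π hNk T
      (fun Q hQ => (valAt_iff_ord_pos Q (hsubk _)).mp (hT1 Q hQ))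
      (fun Q hQ hpos => hT2 Q hQ ((valAt_iff_ord_pos Q (hsubk _)).mpr hpos))
    rw [h, rootMultiplicity_mul (mul_ne_zero (by rwa [Ne, C_eq_zero]) hr₀π), rootMultiplicity_C]
    simp
  -- `K`-side, one value at a time
  have hKside : ∀ (a : K) (Sa : Finset (Place K F)),
      (∀ P ∈ Sa, 0 < P.ord (t - algebraMap K F a)) →
      (∀ P : Place K F, P.ord y ≠ 0 → 0 < P.ord (t - algebraMap K F a) → P ∈ Sa) →
      ∑ P ∈ Sa, P.ord y = ((r₀.map A.subtype).roots.count a : ℤ)
        - (s₀.map A.subtype).roots.count a := by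
    intro a Sa h1 h2
    have h := sum_ord_fibre htK a y hy0 (C (w : K) * r₀.map A.subtype) (s₀.map A.subtype) hs₀K
      hNK Sa h1 h2
    rw [h, rootMultiplicity_mul (mul_ne_zero (by rwa [Ne, C_eq_zero]) hr₀K), rootMultiplicity_C,
      count_roots, count_roots]
    simp
  -- the value map
  let pred : K → Prop := fun a => a ∈ A ∧ redK π a = π c
  let val : Place K F → K := fun P =>
    if h : ∃ a : A, π a = π c ∧ ValAt P t (a : K) then (h.choose : K) else 0
  have hval : ∀ P : Place K F, (∃ a : A, π a = π c ∧ ValAt P t (a : K)) →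
      pred (val P) ∧ ValAt P t (val P) := by
    intro P h
    have hv : val P = (h.choose : K) := dif_pos h
    rw [hv]
    refine ⟨⟨h.choose.2, ?_⟩, h.choose_spec.2⟩
    rw [redK_coe]
    exact h.choose_spec.1
  let Z : Finset K := ((r₀.map A.subtype).roots.filter pred).toFinset ∪
    ((s₀.map A.subtype).roots.filter pred).toFinset
  let U : Finset K := S.image val ∪ Z
  have hU : ∀ a ∈ U, pred a := by
    intro a ha
    rcases Finset.mem_union.mp ha with h | h
    · obtain ⟨P, hP, rfl⟩ := Finset.mem_image.mp h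
      exact (hval P (hS1 P hP)).1
    · rcases Finset.mem_union.mp h with h | h
      · exact (Multiset.mem_filter.mp (Multiset.mem_toFinset.mp h)).2
      · exact (Multiset.mem_filter.mp (Multiset.mem_toFinset.mp h)).2
  -- Gauss' lemma as a sum over `U`
  have hcard : ∀ m : Multiset K, (m.filter pred).toFinset ⊆ U →
      ((m.filter pred).card : ℤ) = ∑ a ∈ U, (m.count a : ℤ) := by
    intro m hm
    rw [← Multiset.toFinset_sum_count_eq, Nat.cast_sum]
    rw [Finset.sum_subset hm]
    · refine Finset.sum_congr rfl fun a ha => ?_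
      rw [Multiset.count_filter, if_pos (hU a ha)]
    · intro a _ ha
      rw [Multiset.mem_toFinset] at ha
      exact_mod_cast Multiset.count_eq_zero_of_notMem ha
  have hGr := rootMultiplicity_map_residue π hπ r₀ hr₀π (π c)
  have hGs := rootMultiplicity_map_residue π hπ s₀ hs₀π (π c)
  have hZr : ((r₀.map A.subtype).roots.filter pred).toFinset ⊆ U := fun a ha =>
    Finset.mem_union_right _ (Finset.mem_union_left _ ha)
  have hZs : ((s₀.map A.subtype).roots.filter pred).toFinset ⊆ U := fun a ha =>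
    Finset.mem_union_right _ (Finset.mem_union_right _ ha)
  rw [hkside, hGr, hGs, hcard _ hZr, hcard _ hZs, ← Finset.sum_sub_distrib]
  -- fibrewise decomposition of the `K`-side
  have hmaps : ∀ P ∈ S, val P ∈ U := fun P hP =>
    Finset.mem_union_left _ (Finset.mem_image_of_mem _ hP)
  rw [← Finset.sum_fiberwise_of_maps_to hmaps]
  refine Finset.sum_congr rfl fun a ha => ?_
  symm
  have hpa := hU a ha
  refine hKside a _ ?_ ?_
  · intro P hP
    obtain ⟨hPS, hPa⟩ := Finset.mem_filter.mp hP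
    have := (hval P (hS1 P hPS)).2
    rw [hPa] at this
    exact (valAt_iff_ord_pos P (hsubK _)).mp this
  · intro P hP hpos
    have hva : ValAt P t a := (valAt_iff_ord_pos P (hsubK _)).mpr hpos
    have hex : ∃ a' : A, π a' = π c ∧ ValAt P t (a' : K) :=
      ⟨⟨a, hpa.1⟩, by rw [← redK_of_mem π hpa.1]; exact hpa.2, hva⟩
    have hPS := hS2 P hP hex
    refine Finset.mem_filter.mpr ⟨hPS, ?_⟩
    exact valAt_unique P (hval P hex).2 hva

end Fermat.Agent.S37.Red.H160

end
end
-- ===== PACK-END S37/Red/H160/FibreSum.lean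

-- ===== PACK-BEGIN S37/Red/H160/FibreSumMain.lean
section



/-!
# S37-RED, piece A (helper160): `FibreSumStatement G`, unconditional

`fibreSumStatement G : FibreSumStatement G` = `fibreSum` (this directory) applied to RED-A1
`H399.normRed` (helper399, on main).
-/

set_option autoImplicit false

namespace Fermat.Agent.S37.Red.H160

open Fermat.Agent.S37.Red

universe u

/-- **RED-A** (`Red/Spec.lean`): fibre sums. -/
theorem fibreSumStatement {K k F Fk : Type u} [Field K] [Field k] [Field F] [Field Fk]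
    [Algebra K F] [Algebra k Fk] [IsAlgClosed K] [CharZero K] [IsAlgClosed k]
    {A : ValuationSubring K} {π : A →+* k} (G : Datum A π F Fk) : FibreSumStatement G :=
  fibreSum G (H399.normRed G)

end Fermat.Agent.S37.Red.H160

end
-- ===== PACK-END S37/Red/H160/FibreSumMain.lean

-- ===== PACK-BEGIN S18/B12/H273/B2Normal.lean
section




/-!
# S18 b2 / S37 RED-E (helper273): FULL NORMALITY of the special fibre, `B2NormalStatement`

Requested by row S37 (helper37, `coord/S37-b2-request.md`): same hypotheses as `B2Statement`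
(`B12/Spec.lean`), but for ALL integral elements `ε = b/g` of the total fraction ring of `B/wB`
(not only idempotents), and WITHOUT assuming that `B/wB` is a domain.

* `exists_eq_smul_of_integral_eq` : abstract form over a PID `Λ` (non-domain version of A8
  `IntClosedOfDiscrStatement`): `C` free over `Λ` with the discriminant bound of the heart at
  every prime `t`; `e ^ d + ∑ a i * e ^ i * g ^ (d - i) = 0`, `g ≠ 0` ⟹ `e = g • c`.
* `b2NormalAbs` : abstract form over `P` (setting of `B2CoreAbsStatement`).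
* `b2Normal : B2NormalStatement` : the exact statement wanted by S37; `b2Normal_unfolded` the
  same with the definition unfolded; `b2_of_b2Normal : B2Statement` (the case `d = 2`).

Inputs (all on main, unconditional): `H33.b2CoreAbs` (heart A6'), `H93.regSeqAbs` (A0),
`H203.polyInst` (A1), `H278.mem_range_of_isIntegral_of_forall_prime` (Theorem L, global form).
-/

set_option autoImplicit false
set_option linter.style.haveILetI false
set_option linter.unusedSectionVars false

noncomputable section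

namespace Fermat.Agent.S18.B12.H273

open Polynomial

universe u v

/-- **b2, full normality form** (statement requested by row S37, helper37 note #4592).
`ε = b/g` satisfies `ε ^ d + ∑ a i * ε ^ i = 0` in `Frac(B/wB)` ⟹ `ε ∈ B/wB`. -/
def B2NormalStatement : Prop :=
  ∀ (R : Type u) [CommRing R] [IsDomain R] [IsDiscreteValuationRing R] [CharZero R]
    (w : R) (_ : Irreducible w)
    (B : Type v) [CommRing B] [IsDomain B] [IsIntegrallyClosed B] [Algebra R[X] B]
    [Module.Finite R[X] B] [Module.IsTorsionFree R[X] B]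
    (_ : ∃ x : Fin (Module.finrank R[X] B) → B,
        ¬ C w ∣ (Matrix.of fun i j => Algebra.intTrace R[X] B (x i * x j)).det)
    (S : Finset R) (_ : ∀ c ∈ S, ∀ c' ∈ S, c ≠ c' → IsUnit (c - c'))
    (_ : ∀ π : R[X], Prime π → ¬ Associated π (C w) → (∀ c ∈ S, ¬ Associated π (X - C c)) →
        (Ideal.span {algebraMap R[X] B π}).IsRadical)
    (b : B) (g : R[X]), ¬ C w ∣ g →
    (∃ (d : ℕ) (a : Fin d → B),
        b ^ d + ∑ i : Fin d, a i * b ^ (i : ℕ) * algebraMap R[X] B g ^ (d - (i : ℕ)) ∈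
          Ideal.span {algebraMap R[X] B (C w)}) →
      ∃ b₀ : B, b - algebraMap R[X] B g * b₀ ∈ Ideal.span {algebraMap R[X] B (C w)}

/-- Abstract version of `B2NormalStatement` (setting of `B2CoreAbsStatement`, Spec3). -/
def B2NormalAbsStatement : Prop :=
  ∀ (P : Type u) [CommRing P] [IsDomain P] [UniqueFactorizationMonoid P] [IsNoetherianRing P]
    (w : P) (_ : Prime w) (_ : IsPrincipalIdealRing (P ⧸ Ideal.span {w}))
    (_ : IsPrincipalIdealRing (Localization.Away w))
    (_ : ∀ m : ℕ, m ≠ 0 → IsUnit (algebraMap P (Localization.Away w) (m : P)))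
    (B : Type v) [CommRing B] [IsDomain B] [IsIntegrallyClosed B] [Algebra P B]
    [Module.Finite P B] [Module.IsTorsionFree P B]
    (_ : ∃ x : Fin (Module.finrank P B) → B, ¬ w ∣ intDiscr P B x)
    (S : Finset P)
    (_ : ∀ s ∈ S, Prime s ∧ ¬ Associated s w ∧ (Ideal.span {w, s}).IsMaximal ∧
      IsPrincipalIdealRing (P ⧸ Ideal.span {s}))
    (_ : ∀ s ∈ S, ∀ s' ∈ S, s ≠ s' → s' ∉ Ideal.span {w, s})
    (_ : ∀ π : P, Prime π → ¬ Associated π w → (∀ s ∈ S, ¬ Associated π s) →
        (Ideal.span {algebraMap P B π}).IsRadical)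
    (b : B) (g : P), ¬ w ∣ g →
    (∃ (d : ℕ) (a : Fin d → B),
        b ^ d + ∑ i : Fin d, a i * b ^ (i : ℕ) * algebraMap P B g ^ (d - (i : ℕ)) ∈
          Ideal.span {algebraMap P B w}) →
      ∃ b₀ : B, b - algebraMap P B g * b₀ ∈ Ideal.span {algebraMap P B w}

/-- **Normality of a free algebra over a PID from the discriminant bounds** (non-domain form of
A8): if `e ^ d + ∑ a i * e ^ i * g ^ (d - i) = 0` with `g ≠ 0`, then `e = g • c`. -/
theorem exists_eq_smul_of_integral_eq
    {Λ : Type u} [CommRing Λ] [IsDomain Λ] [IsPrincipalIdealRing Λ]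
    {C : Type v} [CommRing C] [Algebra Λ C] {n : ℕ} (bb : Module.Basis (Fin n) Λ C)
    (hloc : ∀ t : Λ, Prime t → ∃ (s : ℕ) (y : Fin s → C),
      (∀ c : C, ∃ a : Fin s → Λ,
        c - ∑ i, a i • y i ∈ (Ideal.span {algebraMap Λ C t}).radical) ∧
      ¬ t ^ (n - s + 1) ∣ Algebra.discr Λ bb)
    (e : C) (g : Λ) (hg : g ≠ 0) (d : ℕ) (a : Fin d → C)
    (he : e ^ d + ∑ i : Fin d, a i * e ^ (i : ℕ) * algebraMap Λ C g ^ (d - (i : ℕ)) = 0) :
    ∃ c : C, e = g • c := by
  classical
  haveI : Module.Free Λ C := Module.Free.of_basis bb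
  haveI : Module.Finite Λ C := Module.Finite.of_basis bb
  let L₀ := Localization (Algebra.algebraMapSubmonoid C (nonZeroDivisors Λ))
  have hinj : Function.Injective (algebraMap C L₀) :=
    Fermat.Agent.S37.H278.algebraMap_injective_of_free (o := Λ) L₀
  have hunit : ∀ r : Λ, r ≠ 0 → IsUnit (algebraMap Λ L₀ r) := by
    intro r hr
    rw [IsScalarTower.algebraMap_apply Λ C L₀]
    exact IsLocalization.map_units L₀ (⟨algebraMap Λ C r, ⟨r, mem_nonZeroDivisors_of_ne_zero hr,
      rfl⟩⟩ : Algebra.algebraMapSubmonoid C (nonZeroDivisors Λ))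
  have hL : ∀ (r : Λ) (l : L₀), r ≠ 0 → r • l = 0 → l = 0 := by
    intro r l hr h
    rw [Algebra.smul_def] at h
    exact ((hunit r hr).mul_right_eq_zero).mp h
  obtain ⟨w, hw⟩ := (hunit g hg).exists_left_inv
  -- the fraction `ε = e / g`
  obtain ⟨ε, hε⟩ : ∃ ε : L₀, ε = w * algebraMap C L₀ e := ⟨_, rfl⟩
  have hgε : algebraMap Λ L₀ g * ε = algebraMap C L₀ e := by
    rw [hε, ← mul_assoc, mul_comm _ w, hw, one_mul]
  -- `ε` is a root of the monic polynomial `X ^ d + ∑ a i X ^ i` over `C`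
  have hroot : ε ^ d + ∑ i : Fin d, algebraMap C L₀ (a i) * ε ^ (i : ℕ) = 0 := by
    have hu : IsUnit (algebraMap Λ L₀ g ^ d) := (hunit g hg).pow d
    apply (hu.mul_right_eq_zero).mp
    have h1 := congrArg (algebraMap C L₀) he
    rw [map_zero, map_add, map_pow, map_sum] at h1
    rw [← h1, mul_add, ← mul_pow, hgε, Finset.mul_sum]
    congr 1
    refine Finset.sum_congr rfl fun i _ => ?_
    rw [map_mul, map_mul, map_pow, map_pow, ← IsScalarTower.algebraMap_apply Λ C L₀, ← hgε]
    have hi : (i : ℕ) + (d - (i : ℕ)) = d := Nat.add_sub_cancel' i.2.le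
    calc algebraMap Λ L₀ g ^ d * (algebraMap C L₀ (a i) * ε ^ (i : ℕ))
        = algebraMap Λ L₀ g ^ ((i : ℕ) + (d - (i : ℕ))) * (algebraMap C L₀ (a i) * ε ^ (i : ℕ)) := by
          rw [hi]
      _ = algebraMap C L₀ (a i) * (algebraMap Λ L₀ g * ε) ^ (i : ℕ) *
            algebraMap Λ L₀ g ^ (d - (i : ℕ)) := by
          rw [pow_add, mul_pow]; ring
  have hintC : IsIntegral C ε := by
    refine ⟨X ^ d + ∑ i : Fin d, Polynomial.C (a i) * X ^ (i : ℕ), ?_, ?_⟩
    · exact Polynomial.monic_X_pow_add (Polynomial.degree_sum_fin_lt a)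
    · simp only [Polynomial.eval₂_add, Polynomial.eval₂_pow, Polynomial.eval₂_X,
        Polynomial.eval₂_finsetSum, Polynomial.eval₂_mul, Polynomial.eval₂_C]
      exact hroot
  haveI : Algebra.IsIntegral Λ C := Algebra.IsIntegral.of_finite Λ C
  have hint : IsIntegral Λ ε := isIntegral_trans ε hintC
  have hx0 : ∃ g₀ : Λ, g₀ ≠ 0 ∧ g₀ • ε ∈ (IsScalarTower.toAlgHom Λ C L₀).range :=
    ⟨g, hg, e, by rw [Algebra.smul_def, hgε]; rfl⟩
  obtain ⟨c, hc⟩ := H278.mem_range_of_isIntegral_of_forall_prime hL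
    (IsScalarTower.toAlgHom Λ C L₀) hinj bb (by simpa using hloc) ε hint hx0
  have hc' : algebraMap C L₀ c = ε := hc
  refine ⟨c, hinj ?_⟩
  rw [← hgε, ← hc', Algebra.smul_def, map_mul, ← IsScalarTower.algebraMap_apply]

/-- **b2, full normality, abstract form** (unconditional). -/
theorem b2NormalAbs : B2NormalAbsStatement.{u, v} := by
  intro P _ _ _ _ w hw hΛ hΛ₀ hℚ B _ _ _ _ _ _ hsep S hS1 hS2 hNC b g hg hint
  obtain ⟨d, a, hd⟩ := hint
  have hJ : (Ideal.span {w}).map (algebraMap P B) = Ideal.span {algebraMap P B w} := by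
    rw [Ideal.map_span, Set.image_singleton]
  haveI := hΛ
  haveI : IsDomain (P ⧸ Ideal.span {w}) := by
    rw [Ideal.Quotient.isDomain_iff_prime]
    exact (Ideal.span_singleton_prime hw.ne_zero).mpr hw
  haveI tf := H33.isTorsionFree_quotient (B := B) H93.regSeqAbs w hw
  haveI : Module.Finite (P ⧸ Ideal.span {w}) (B ⧸ (Ideal.span {w}).map (algebraMap P B)) :=
    Module.Finite.of_restrictScalars_finite P _ _
  haveI : Module.Free (P ⧸ Ideal.span {w}) (B ⧸ (Ideal.span {w}).map (algebraMap P B)) :=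
    Module.free_of_finite_type_torsion_free'
  let bb := Module.finBasis (P ⧸ Ideal.span {w}) (B ⧸ (Ideal.span {w}).map (algebraMap P B))
  have hcore' := H33.b2CoreAbs P w hw hΛ hΛ₀ hℚ B hsep S hS1 hS2 hNC
  have hg' : Ideal.Quotient.mk (Ideal.span {w}) g ≠ 0 := fun h =>
    hg (Ideal.mem_span_singleton.mp (Ideal.Quotient.eq_zero_iff_mem.mp h))
  have halg : ∀ r : P, algebraMap (P ⧸ Ideal.span {w}) (B ⧸ (Ideal.span {w}).map (algebraMap P B))
      (Ideal.Quotient.mk (Ideal.span {w}) r)
      = Ideal.Quotient.mk ((Ideal.span {w}).map (algebraMap P B)) (algebraMap P B r) :=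
    fun r => rfl
  have he : Ideal.Quotient.mk ((Ideal.span {w}).map (algebraMap P B)) b ^ d +
      ∑ i : Fin d, Ideal.Quotient.mk ((Ideal.span {w}).map (algebraMap P B)) (a i) *
        Ideal.Quotient.mk ((Ideal.span {w}).map (algebraMap P B)) b ^ (i : ℕ) *
        algebraMap (P ⧸ Ideal.span {w}) (B ⧸ (Ideal.span {w}).map (algebraMap P B))
          (Ideal.Quotient.mk (Ideal.span {w}) g) ^ (d - (i : ℕ)) = 0 := by
    rw [← hJ] at hd
    have h1 := Ideal.Quotient.eq_zero_iff_mem.mpr hd
    rw [map_add, map_pow, map_sum] at h1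
    rw [← h1]
    congr 1
  obtain ⟨c, hc⟩ := exists_eq_smul_of_integral_eq bb (fun t ht => (hcore' t ht _ bb).2)
    _ _ hg' d _ he
  obtain ⟨b₀, rfl⟩ := Ideal.Quotient.mk_surjective c
  refine ⟨b₀, ?_⟩
  rw [← hJ, ← Ideal.Quotient.eq_zero_iff_mem, map_sub, map_mul, hc, Algebra.smul_def, halg,
    sub_self]

/-- **b2, full normality** (unconditional): the exact statement requested by row S37. -/
theorem b2Normal : B2NormalStatement.{u, v} := by
  intro R _ _ _ _ w hw B _ _ _ _ _ _ hsep S hS hNC b g hg hint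
  obtain ⟨hCw, hΛ, hΛ₀, hℚ, hc⟩ := H203.polyInst R w hw
  classical
  have hS1' : ∀ s ∈ S.image (fun c => (X - C c : R[X])), Prime s ∧ ¬ Associated s (C w) ∧
      (Ideal.span {(C w : R[X]), s}).IsMaximal ∧
      IsPrincipalIdealRing (R[X] ⧸ Ideal.span {s}) := by
    intro s hs
    obtain ⟨c, -, rfl⟩ := Finset.mem_image.mp hs
    obtain ⟨h1, h2, h3, h4, -⟩ := hc c
    exact ⟨h1, h2, h3, h4⟩
  have hS2' : ∀ s ∈ S.image (fun c => (X - C c : R[X])),
      ∀ s' ∈ S.image (fun c => (X - C c : R[X])), s ≠ s' →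
      s' ∉ Ideal.span {(C w : R[X]), s} := by
    intro s hs s' hs' hne hmem
    obtain ⟨c, hcS, rfl⟩ := Finset.mem_image.mp hs
    obtain ⟨c', hcS', rfl⟩ := Finset.mem_image.mp hs'
    have hcc : c ≠ c' := fun h => hne (by rw [h])
    exact (hc c).2.2.2.2 c' hmem (hS c hcS c' hcS' hcc)
  have hNC' : ∀ π : R[X], Prime π → ¬ Associated π (C w) →
      (∀ s ∈ S.image (fun c => (X - C c : R[X])), ¬ Associated π s) →
      (Ideal.span {algebraMap R[X] B π}).IsRadical := by
    intro π hπ hπw hπS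
    exact hNC π hπ hπw (fun c hcS => hπS _ (Finset.mem_image_of_mem _ hcS))
  exact b2NormalAbs R[X] (C w) hCw hΛ hΛ₀ hℚ B hsep (S.image (fun c => (X - C c : R[X])))
    hS1' hS2' hNC' b g hg hint

/-- `b2Normal` with the definition unfolded (no need to import the `def`). -/
theorem b2Normal_unfolded
    (R : Type u) [CommRing R] [IsDomain R] [IsDiscreteValuationRing R] [CharZero R]
    (w : R) (hw : Irreducible w)
    (B : Type v) [CommRing B] [IsDomain B] [IsIntegrallyClosed B] [Algebra R[X] B]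
    [Module.Finite R[X] B] [Module.IsTorsionFree R[X] B]
    (hsep : ∃ x : Fin (Module.finrank R[X] B) → B,
        ¬ C w ∣ (Matrix.of fun i j => Algebra.intTrace R[X] B (x i * x j)).det)
    (S : Finset R) (hS : ∀ c ∈ S, ∀ c' ∈ S, c ≠ c' → IsUnit (c - c'))
    (hNC : ∀ π : R[X], Prime π → ¬ Associated π (C w) → (∀ c ∈ S, ¬ Associated π (X - C c)) →
        (Ideal.span {algebraMap R[X] B π}).IsRadical)
    (b : B) (g : R[X]) (hg : ¬ C w ∣ g)
    (hint : ∃ (d : ℕ) (a : Fin d → B),
        b ^ d + ∑ i : Fin d, a i * b ^ (i : ℕ) * algebraMap R[X] B g ^ (d - (i : ℕ)) ∈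
          Ideal.span {algebraMap R[X] B (C w)}) :
    ∃ b₀ : B, b - algebraMap R[X] B g * b₀ ∈ Ideal.span {algebraMap R[X] B (C w)} :=
  b2Normal R w hw B hsep S hS hNC b g hg hint

/-- **O2 = `B2Statement`** (idempotent form, Spec.lean) is the case `d = 2`, `a = (0, -g)`. -/
theorem b2_of_b2Normal : B2Statement.{u, v} := by
  intro R _ _ _ _ w hw B _ _ _ _ _ _ hsep S hS hNC b g hg hb
  refine b2Normal R w hw B hsep S hS hNC b g hg ⟨2, ![0, -1], ?_⟩
  have : b ^ 2 + ∑ i : Fin 2, (![0, -1] : Fin 2 → B) i * b ^ (i : ℕ) *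
      algebraMap R[X] B g ^ (2 - (i : ℕ)) = b ^ 2 - algebraMap R[X] B g * b := by
    simp [Fin.sum_univ_two]
    ring
  rw [this]
  exact hb

end Fermat.Agent.S18.B12.H273

end
end
-- ===== PACK-END S18/B12/H273/B2Normal.lean

-- ===== PACK-BEGIN S37/H278/NormalChart.lean
section




/-!
# S37 / D2 (helper278): normality of the special fibre of a chart (typed form)

`normal_chart` : `H273.b2Normal` instantiated on the chart `H138.chart R {x}` of helper138, with
the instance plumbing of `B12.H33.regularAlong_chart`.  `normal_chart_field` : the same with `hsep`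
and `hNC` stated by elements of `F` (shape of `H438.GoodModelFront.hsep_chart`).
-/

set_option autoImplicit false
set_option linter.style.haveILetI false
set_option linter.unusedSectionVars false

noncomputable section

namespace Fermat.Agent.S37.H278.NA

open Polynomial Fermat.Agent.S18 Fermat.Agent.S18.B12 Fermat.Agent.S18.B12.H33

universe u v

variable {R : Type u} [CommRing R] [IsDomain R] [IsDiscreteValuationRing R]
  {F : Type v} [Field F] [CharZero F] [Algebra R F]

/-- **NORMAL-CHART.**  `b2Normal` on the chart `H138.chart R {x}`. -/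
theorem normal_chart
    {x : F} (hx : Transcendental R x) [FiniteDimensional (H138.baseField R x) F]
    (w : R) (hw : Irreducible w)
    (hdom : Prime (algebraMap R (H138.chart R ({x} : Set F)) w))
    (hsep : ∀ b : H138.chart R ({x} : Set F), ∃ P : R[X][X],
        algebraMap R (H138.chart R ({x} : Set F)) w ∣
          P.eval₂ (chartPolyHom R x : R[X] →+* H138.chart R ({x} : Set F)) b ∧
        ¬ algebraMap R (H138.chart R ({x} : Set F)) w ∣
          (derivative P).eval₂ (chartPolyHom R x : R[X] →+* H138.chart R ({x} : Set F)) b)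
    (S : Finset R) (hS : ∀ c ∈ S, ∀ c' ∈ S, c ≠ c' → IsUnit (c - c'))
    (hNC : ∀ π : R[X], Prime π → ¬ Associated π (C w) → (∀ c ∈ S, ¬ Associated π (X - C c)) →
        (Ideal.span {chartPolyHom R x π}).IsRadical)
    (b : H138.chart R ({x} : Set F)) (g : R[X]) (hg : ¬ C w ∣ g)
    (d : ℕ) (a : Fin d → H138.chart R ({x} : Set F))
    (h : algebraMap R (H138.chart R ({x} : Set F)) w ∣
      b ^ d + ∑ i : Fin d, a i * b ^ (i : ℕ) * chartPolyHom R x g ^ (d - (i : ℕ))) :
    ∃ b₀ : H138.chart R ({x} : Set F),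
      algebraMap R (H138.chart R ({x} : Set F)) w ∣ b - chartPolyHom R x g * b₀ := by
  classical
  haveI : CharZero R := (algebraMap R F).charZero
  obtain ⟨hic, hfin⟩ := chart_package (R := R) hx
  letI := chartAlgebra R x
  haveI := hic
  haveI := hfin
  haveI : Module.IsTorsionFree R[X] (H138.chart R ({x} : Set F)) :=
    Module.isTorsionFree_iff_algebraMap_injective.2 (chartPolyHom_injective hx)
  have hCw : algebraMap R[X] (H138.chart R ({x} : Set F)) (C w)
      = algebraMap R (H138.chart R ({x} : Set F)) w := chartPolyHom_C x w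
  have hdom' : Prime (algebraMap R[X] (H138.chart R ({x} : Set F)) (C w)) := by
    rw [hCw]; exact hdom
  have hsep' := H425.hsep_poly R w hw (H138.chart R ({x} : Set F)) hdom' (by
    intro b
    obtain ⟨P, h1, h2⟩ := hsep b
    refine ⟨P, ?_, ?_⟩
    · rw [hCw]; exact h1
    · rw [hCw]; exact h2)
  obtain ⟨b₀, hb₀⟩ := H273.b2Normal_unfolded R w hw (H138.chart R ({x} : Set F)) hsep' S hS hNC
    b g hg ⟨d, a, by
      rw [Ideal.mem_span_singleton, hCw]
      exact h⟩
  refine ⟨b₀, ?_⟩
  rw [Ideal.mem_span_singleton, hCw] at hb₀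
  exact hb₀

/-- **NORMAL-CHART, field form.**  Same as `normal_chart`, with `hsep` and `hNC` stated by
elements of `F`. -/
theorem normal_chart_field
    {x : F} (hx : Transcendental R x) [FiniteDimensional (H138.baseField R x) F]
    (w : R) (hw : Irreducible w)
    (hdom : Prime (algebraMap R (H138.chart R ({x} : Set F)) w))
    (hsep : ∀ b ∈ H138.chart R ({x} : Set F), ∃ P : F[X],
        (∀ i, P.coeff i ∈ Algebra.adjoin R ({x} : Set F)) ∧
        (∃ t ∈ H138.chart R ({x} : Set F), P.eval b = algebraMap R F w * t) ∧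
        ¬ ∃ t ∈ H138.chart R ({x} : Set F), (derivative P).eval b = algebraMap R F w * t)
    (S : Finset R) (hS : ∀ c ∈ S, ∀ c' ∈ S, c ≠ c' → IsUnit (c - c'))
    (hNC : ∀ π : R[X], Prime π → ¬ Associated π (C w) → (∀ c ∈ S, ¬ Associated π (X - C c)) →
        (Ideal.span {chartPolyHom R x π}).IsRadical)
    (b : H138.chart R ({x} : Set F)) (g : R[X]) (hg : ¬ C w ∣ g)
    (d : ℕ) (a : Fin d → H138.chart R ({x} : Set F))
    (h : algebraMap R (H138.chart R ({x} : Set F)) w ∣
      b ^ d + ∑ i : Fin d, a i * b ^ (i : ℕ) * chartPolyHom R x g ^ (d - (i : ℕ))) :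
    ∃ b₀ : H138.chart R ({x} : Set F),
      algebraMap R (H138.chart R ({x} : Set F)) w ∣ b - chartPolyHom R x g * b₀ := by
  refine normal_chart hx w hw hdom ?_ S hS hNC b g hg d a h
  intro b
  obtain ⟨P, hP, h1, h2⟩ := hsep b b.2
  have hlift : P ∈ Polynomial.lifts (aeval x : R[X] →ₐ[R] F).toRingHom := by
    rw [Polynomial.lifts_iff_coeff_lifts]
    intro n
    have := hP n
    rw [Algebra.adjoin_singleton_eq_range_aeval] at this
    obtain ⟨q, hq⟩ := this
    exact ⟨q, hq⟩
  obtain ⟨Q, hQ⟩ := (Polynomial.mem_lifts P).1 hlift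
  refine ⟨Q, ?_, ?_⟩
  · rw [algebraMap_dvd_chart_iff, coe_eval₂_chartPolyHom, hQ]
    exact h1
  · rw [algebraMap_dvd_chart_iff, coe_eval₂_chartPolyHom, ← derivative_map, hQ]
    exact h2

end Fermat.Agent.S37.H278.NA

end
end
-- ===== PACK-END S37/H278/NormalChart.lean

-- ===== PACK-BEGIN S18/H208/Basis.lean
section
/-
S18 / M1 (helper208): the UNIFORM BASIS of the modular function fields.

`exists_uniform_basis` : from the three analytic inputs of S28 (all proved on main) there are
`ψ(N)` integral monomials `y i ∈ ℤ[j(q^d) : d ∣ N] ⊆ ℤ((q))` whose images in `k((q))` form a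
`k(j)`-basis of `F_{N,k} = modularFunctionFieldFullC k N`, for EVERY field `k` in which `N` is
invertible (characteristic `0` or `ℓ ∤ N`).
-/




set_option autoImplicit false

noncomputable section

namespace Fermat.Agent.S18.H208

open ModularCurve HahnSeries Fermat.Agent.S28

/-- The three analytic inputs of S28 (modular polynomial, unit polynomial, theta identity). -/
structure AnalyticInputs : Prop where
  modPoly : ∀ (p : ℕ) [NeZero p], p.Prime → Nonempty (ModPolyData p)
  unitPoly : ∀ (p : ℕ) [NeZero p], p.Prime → Nonempty (UnitPolyData p)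
  theta : (thetaL ℤ (jqModC ℤ)) ^ 6 = deltaL ℤ * (jqModC ℤ) ^ 4 * (jqModC ℤ - 1728) ^ 3

theorem natCast_prime_ne_zero_of_dvd {k : Type*} [Field k] {N : ℕ} (hN : (N : k) ≠ 0)
    (p : ℕ) (hpN : p ∣ N) : (p : k) ≠ 0 := by
  intro h0
  obtain ⟨m, rfl⟩ := hpN
  apply hN
  rw [Nat.cast_mul, h0, zero_mul]

/-- `Good k N` (helper867) from the analytic inputs. -/
theorem good_of_analytic (A : AnalyticInputs) (k : Type*) [Field k] (N : ℕ) [NeZero N]
    (hN : (N : k) ≠ 0) : S28.H867.Good k N :=
  S28.H867.good_of_inputs k N (NeZero.ne N)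
    (fun p hp _ _ => A.modPoly p hp) (fun p hp _ _ => A.unitPoly p hp) A.theta
    (fun p _ hpN => natCast_prime_ne_zero_of_dvd hN p hpN)

/-- **Uniform basis.** -/
theorem exists_uniform_basis (A : AnalyticInputs) (N : ℕ) [NeZero N] :
    ∃ y : Fin (dedekindPsi N) → LaurentSeries ℤ,
      (∀ i, y i ∈ Subring.closure (intDivisorExpansions N)) ∧
      ∀ (k : Type) [Field k], (N : k) ≠ 0 →
        (∀ x ∈ modularFunctionFieldFullC k N,
          x ∈ Submodule.span (jField k)
            (Set.range fun i => coeffMap (Int.castRingHom k) (y i))) ∧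
        LinearIndependent (jField k) (fun i => coeffMap (Int.castRingHom k) (y i)) := by
  obtain ⟨n, y, hn, hy, hspan⟩ := S28.H208.exists_spanning_monomials N (NeZero.ne N)
    (S28.H208.hasModPoly_of_nonempty A.modPoly N)
  subst hn
  refine ⟨y, hy, fun k _ hNk => ⟨hspan k hNk, ?_⟩⟩
  classical
  obtain ⟨x, hxF, hxli⟩ := (good_of_analytic A k N hNk).exists_linearIndependent
  set v : Fin (dedekindPsi N) → LaurentSeries k := fun i => coeffMap (Int.castRingHom k) (y i)
    with hv
  set W : Submodule (jField k) (LaurentSeries k) := Submodule.span (jField k) (Set.range v)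
    with hW
  have hxW : ∀ i, x i ∈ W := fun i => hspan k hNk (x i) (hxF i)
  have hli' : LinearIndependent (jField k) (fun i => (⟨x i, hxW i⟩ : W)) := by
    apply LinearIndependent.of_comp W.subtype
    exact hxli
  have : Module.Finite (jField k) W := Module.Finite.span_of_finite _ (Set.finite_range v)
  have h1 : Fintype.card (Fin (dedekindPsi N)) ≤ Module.finrank (jField k) W :=
    hli'.fintype_card_le_finrank
  have h2 : Module.finrank (jField k) W ≤ Fintype.card (Fin (dedekindPsi N)) := by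
    have := finrank_range_le_card (R := jField k) v
    simpa [Set.finrank, hW] using this
  rw [linearIndependent_iff_card_eq_finrank_span]
  exact le_antisymm h1 h2

end Fermat.Agent.S18.H208

end

end
-- ===== PACK-END S18/H208/Basis.lean

-- ===== PACK-BEGIN S18/H208/Gauss.lean
section
/-
S18 / M1 (helper208): the Gauss valuation layer of the modular function field over a general
discrete valuation ring `O ⊆ E` (in the `UnifData` form of helper86's `GaussGen`).

Setting: `E` a field, `O : Subring E`, `res : O →+* κ` with kernel `(π)`.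
`F_E = modularFunctionFieldFullC E N ⊆ E((q))`, `F_κ = modularFunctionFieldFullC κ N ⊆ κ((q))`.
-/







set_option autoImplicit false
set_option linter.unusedSectionVars false
set_option linter.style.haveILetI false

noncomputable section

namespace Fermat.Agent.S18.H208

open ModularCurve HahnSeries Polynomial Fermat.Agent.S28 Fermat.Agent.S28.H86

section IntSeries

variable {E : Type} [Field E] (O : Subring E) {κ : Type} [Field κ] (res : O →+* κ)

/-- An integer series viewed in `O((q))`. -/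
def intO (w : LaurentSeries ℤ) : LaurentSeries O := coeffMap (Int.castRingHom O) w

theorem inclL_intO (w : LaurentSeries ℤ) :
    inclL O (intO O w) = coeffMap (Int.castRingHom E) w := by
  rw [intO, inclL, coeffMap_coeffMap]
  exact coeffMap_congr (RingHom.ext_int _ _) w

theorem redL_intO (w : LaurentSeries ℤ) :
    redL res (intO O w) = coeffMap (Int.castRingHom κ) w := by
  rw [intO, redL, coeffMap_coeffMap]
  exact coeffMap_congr (RingHom.ext_int _ _) w

theorem intCast_mem_gaussRing (w : LaurentSeries ℤ) :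
    coeffMap (Int.castRingHom E) w ∈ gaussRing O res := by
  rw [← inclL_intO O]
  exact inclL_mem_gaussRing res _

theorem gaussRed_intCast (w : LaurentSeries ℤ) :
    gaussRed O res ⟨coeffMap (Int.castRingHom E) w, intCast_mem_gaussRing O res w⟩ =
      coeffMap (Int.castRingHom κ) w := by
  have : (⟨coeffMap (Int.castRingHom E) w, intCast_mem_gaussRing O res w⟩ : gaussRing O res) =
      ⟨inclL O (intO O w), inclL_mem_gaussRing res _⟩ := Subtype.ext (inclL_intO O w).symm
  rw [this, gaussRed_inclL, redL_intO]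

/-- `j(q^d)` over any ring comes from `ℤ((q))`. -/
theorem jd_eq_intCast (R : Type*) [CommRing R] (d : ℕ) [NeZero d] :
    qExpand R d (jqModC R) = coeffMap (Int.castRingHom R) (qExpand ℤ d (jqModC ℤ)) := by
  rw [coeffMap_qExpand, coeffMap_jqModC]

theorem j_eq_intCast (R : Type*) [CommRing R] :
    jqModC R = coeffMap (Int.castRingHom R) (jqModC ℤ) := (coeffMap_jqModC _).symm

theorem j_mem_gaussRing : jqModC E ∈ gaussRing O res := by
  rw [j_eq_intCast E]; exact intCast_mem_gaussRing O res _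

theorem gaussRed_j : gaussRed O res ⟨jqModC E, j_mem_gaussRing O res⟩ = jqModC κ := by
  have : (⟨jqModC E, j_mem_gaussRing O res⟩ : gaussRing O res) =
      ⟨coeffMap (Int.castRingHom E) (jqModC ℤ), intCast_mem_gaussRing O res _⟩ :=
    Subtype.ext (j_eq_intCast E)
  rw [this, gaussRed_intCast, coeffMap_jqModC]

end IntSeries

section Frac

variable {E : Type} [Field E] (O : Subring E)

/-- `E` is the fraction field of `O`, elementwise. -/
def IsFrac : Prop := ∀ e : E, ∃ a b : O, b ≠ 0 ∧ e * (b : E) = (a : E)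

variable {O}

theorem C_mem_gaussFrac (hfrac : IsFrac O) (e : E) :
    (HahnSeries.C e : LaurentSeries E) ∈ gaussFrac O := by
  obtain ⟨a, b, hb, hab⟩ := hfrac e
  refine ⟨HahnSeries.C a, HahnSeries.C b, ?_, ?_⟩
  · intro h0
    apply hb
    have := congrArg (fun x : LaurentSeries O => x.coeff 0) h0
    simpa using this
  · rw [inclL_C, inclL_C, ← map_mul, hab]

theorem algebraMap_mem_gaussFrac (hfrac : IsFrac O) (e : E) :
    algebraMap E (LaurentSeries E) e ∈ gaussFrac O := by
  have : algebraMap E (LaurentSeries E) e = HahnSeries.C e := by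
    rw [algebraMap_laurentSeries_eq_single]; rfl
  rw [this]
  exact C_mem_gaussFrac hfrac e

/-- **(T1)** The modular function field lies in the fraction field of the Gauss ring. -/
theorem full_le_gaussFrac (hfrac : IsFrac O) (N : ℕ) {x : LaurentSeries E}
    (hx : x ∈ modularFunctionFieldFullC E N) : x ∈ gaussFrac O := by
  let G : IntermediateField E (LaurentSeries E) :=
    (gaussFrac O).toIntermediateField (algebraMap_mem_gaussFrac hfrac)
  have hle : modularFunctionFieldFullC E N ≤ G := by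
    rw [modularFunctionFieldFullC, IntermediateField.adjoin_le_iff]
    rintro _ ⟨d, hd, -, rfl⟩
    show qExpand E d (jqModC E) ∈ gaussFrac O
    rw [jd_eq_intCast E d, ← inclL_intO O]
    exact inclL_mem_gaussFrac _
  exact hle hx

end Frac

section Eval

variable {E : Type} [Field E] (O : Subring E) {κ : Type} [Field κ] (res : O →+* κ) {π : O}

/-- Constants `O → V`. -/
def constV : O →+* gaussRing O res where
  toFun c := ⟨HahnSeries.C (c : E), by rw [← inclL_C]; exact inclL_mem_gaussRing res _⟩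
  map_one' := Subtype.ext (by simp)
  map_mul' a b := Subtype.ext (by simp)
  map_zero' := Subtype.ext (by simp)
  map_add' a b := Subtype.ext (by simp)

@[simp] theorem coe_constV (c : O) :
    ((constV O res c : gaussRing O res) : LaurentSeries E) = HahnSeries.C (c : E) := rfl

theorem gaussRed_constV (c : O) : gaussRed O res (constV O res c) = HahnSeries.C (res c) := by
  have : constV O res c = ⟨inclL O (HahnSeries.C c), inclL_mem_gaussRing res _⟩ :=
    Subtype.ext (inclL_C c).symm
  rw [this, gaussRed_inclL, redL_C]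

/-- Evaluation `O[X] → V`, `P ↦ P(t)`. -/
def evV (t : gaussRing O res) : Polynomial O →+* gaussRing O res :=
  Polynomial.eval₂RingHom (constV O res) t

/-- Evaluation `O[X] → E((q))`, `P ↦ P(t)`. -/
def evE (t : LaurentSeries E) : Polynomial O →+* LaurentSeries E :=
  Polynomial.eval₂RingHom ((HahnSeries.C : E →+* LaurentSeries E).comp O.subtype) t

variable {O res}

theorem coe_evV (t : gaussRing O res) (P : Polynomial O) :
    ((evV O res t P : gaussRing O res) : LaurentSeries E) = evE O (t : LaurentSeries E) P := by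
  show (gaussRing O res).subtype (Polynomial.eval₂ (constV O res) t P) = _
  rw [Polynomial.hom_eval₂]
  rfl

theorem evE_mem_gaussRing {t : LaurentSeries E} (ht : t ∈ gaussRing O res) (P : Polynomial O) :
    evE O t P ∈ gaussRing O res := by
  rw [← coe_evV ⟨t, ht⟩ P]
  exact (evV O res ⟨t, ht⟩ P).2

theorem gaussRed_evV (t : gaussRing O res) (P : Polynomial O) :
    gaussRed O res (evV O res t P) = Polynomial.aeval (gaussRed O res t) (P.map res) := by
  show gaussRed O res (Polynomial.eval₂ (constV O res) t P) = _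
  rw [Polynomial.hom_eval₂, Polynomial.aeval_def, Polynomial.eval₂_map]
  congr 1
  ext c : 1
  rw [RingHom.comp_apply, RingHom.comp_apply, gaussRed_constV, algebraMap_laurentSeries_eq_single]
  rfl

theorem evE_C (t : LaurentSeries E) (c : O) :
    evE O t (Polynomial.C c) = HahnSeries.C (c : E) := by
  simp [evE]

theorem evE_C_pi (t : LaurentSeries E) : evE O t (Polynomial.C π) = piL O π := evE_C t π

/-- Injectivity of the evaluation at a series of nonzero order. -/
theorem evE_injective {t : LaurentSeries E} (ht0 : t ≠ 0) (hto : t.order ≠ 0) :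
    Function.Injective (evE O t) := by
  rw [injective_iff_map_eq_zero]
  intro P hP
  have h1 : Polynomial.aeval t (P.map O.subtype) = 0 := by
    rw [Polynomial.aeval_def, Polynomial.eval₂_map]
    have : (algebraMap E (LaurentSeries E)).comp O.subtype =
        (HahnSeries.C : E →+* LaurentSeries E).comp O.subtype := by
      ext c : 1
      rw [RingHom.comp_apply, RingHom.comp_apply, algebraMap_laurentSeries_eq_single]
      rfl
    rw [this]
    exact hP
  have h2 : P.map O.subtype = 0 := by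
    by_contra hne
    exact aeval_ne_zero_of_order_ne_zero ht0 hto hne h1
  exact (Polynomial.map_eq_zero_iff (Subtype.val_injective)).mp h2

end Eval

section Clear

variable {E : Type} [Field E] {O : Subring E}

/-- Every element of `E(j)` is a quotient of two polynomials in `j` with coefficients in `O`. -/
theorem exists_O_fraction (hfrac : IsFrac O) {c : LaurentSeries E} (hc : c ∈ jField E) :
    ∃ f g : Polynomial O, evE O (jqModC E) g ≠ 0 ∧
      evE O (jqModC E) g * c = evE O (jqModC E) f := by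
  unfold jField at hc
  induction hc using IntermediateField.adjoin_induction with
  | mem x hx =>
    rw [Set.mem_singleton_iff] at hx
    subst hx
    refine ⟨Polynomial.X, 1, ?_, ?_⟩
    · rw [map_one]; exact one_ne_zero
    · rw [map_one, one_mul]
      simp [evE]
  | algebraMap r =>
    obtain ⟨a, b, hb, hab⟩ := hfrac r
    refine ⟨Polynomial.C a, Polynomial.C b, ?_, ?_⟩
    · rw [evE_C]
      exact (map_ne_zero_iff _ HahnSeries.C_injective).mpr
        (fun h0 => hb (Subtype.ext h0))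
    · rw [evE_C, evE_C, algebraMap_laurentSeries_eq_single]
      show HahnSeries.C (b : E) * HahnSeries.C r = HahnSeries.C (a : E)
      rw [← map_mul, mul_comm, hab]
  | add x y _ _ hx hy =>
    obtain ⟨f₁, g₁, hg₁, h₁⟩ := hx
    obtain ⟨f₂, g₂, hg₂, h₂⟩ := hy
    refine ⟨f₁ * g₂ + f₂ * g₁, g₁ * g₂, ?_, ?_⟩
    · rw [map_mul]; exact mul_ne_zero hg₁ hg₂
    · rw [map_mul, map_add, map_mul, map_mul, ← h₁, ← h₂]; ring
  | inv x _ hx =>
    obtain ⟨f, g, hg, h⟩ := hx
    by_cases hf : evE O (jqModC E) f = 0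
    · have hx0 : x = 0 := by
        rw [hf] at h
        exact (mul_eq_zero.mp h).resolve_left hg
      refine ⟨0, 1, ?_, ?_⟩
      · rw [map_one]; exact one_ne_zero
      · rw [hx0, inv_zero, mul_zero, map_zero]
    · refine ⟨g, f, hf, ?_⟩
      have hx0 : x ≠ 0 := by
        rintro rfl
        rw [mul_zero] at h
        exact hf h.symm
      rw [← h]
      field_simp
  | mul x y _ _ hx hy =>
    obtain ⟨f₁, g₁, hg₁, h₁⟩ := hx
    obtain ⟨f₂, g₂, hg₂, h₂⟩ := hy
    refine ⟨f₁ * f₂, g₁ * g₂, ?_, ?_⟩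
    · rw [map_mul]; exact mul_ne_zero hg₁ hg₂
    · rw [map_mul, map_mul, ← h₁, ← h₂]; ring

/-- Clearing denominators in an `E(j)`-linear combination. -/
theorem exists_cleared_of_mem_span (hfrac : IsFrac O) {n : ℕ} (v : Fin n → LaurentSeries E)
    {x : LaurentSeries E} (hx : x ∈ Submodule.span (jField E) (Set.range v)) :
    ∃ (g : Polynomial O) (f : Fin n → Polynomial O), g ≠ 0 ∧
      evE O (jqModC E) g * x = ∑ i, evE O (jqModC E) (f i) * v i := by
  obtain ⟨c, rfl⟩ := (Submodule.mem_span_range_iff_exists_fun (jField E)).mp hx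
  have hc : ∀ i, ∃ f g : Polynomial O, evE O (jqModC E) g ≠ 0 ∧
      evE O (jqModC E) g * (c i : LaurentSeries E) = evE O (jqModC E) f :=
    fun i => exists_O_fraction hfrac (c i).2
  choose f g hg hfg using hc
  refine ⟨∏ i, g i, fun i => f i * ∏ k ∈ Finset.univ.erase i, g k, ?_, ?_⟩
  · intro h0
    have : evE O (jqModC E) (∏ i, g i) = 0 := by rw [h0, map_zero]
    rw [map_prod] at this
    obtain ⟨i, -, hi⟩ := Finset.prod_eq_zero_iff.mp this
    exact hg i hi
  · rw [Finset.mul_sum]
    refine Finset.sum_congr rfl fun i _ => ?_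
    rw [← Finset.mul_prod_erase Finset.univ g (Finset.mem_univ i), map_mul, map_mul,
      IntermediateField.smul_def, smul_eq_mul, ← hfg i]
    ring

end Clear

section Indep

variable {κ : Type} [Field κ]

/-- Linear independence over `κ(j)` in polynomial form. -/
theorem poly_indep {n : ℕ} {v : Fin n → LaurentSeries κ}
    (hli : LinearIndependent (jField κ) v) (f : Fin n → Polynomial κ)
    (hf : ∑ i, Polynomial.aeval (jqModC κ) (f i) * v i = 0) : ∀ i, f i = 0 := by
  have hmem : ∀ i, Polynomial.aeval (jqModC κ) (f i) ∈ jField κ := fun i =>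
    IntermediateField.algebra_adjoin_le_adjoin _ _ (Polynomial.aeval_mem_adjoin_singleton _ _)
  have h0 := Fintype.linearIndependent_iff.mp hli
    (fun i => ⟨Polynomial.aeval (jqModC κ) (f i), hmem i⟩) (by
      simpa [IntermediateField.smul_def] using hf)
  intro i
  have hi := congrArg Subtype.val (h0 i)
  simp only [ZeroMemClass.coe_zero] at hi
  by_contra hne
  exact aeval_ne_zero_of_order_ne_zero (S28.H145.jqModC_ne_zero' κ)
    (by rw [S28.H145.order_jqModC]; decide) hne hi

end Indep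

section Denominator

variable {E : Type} [Field E] {O : Subring E} {κ : Type} [Field κ] {res : O →+* κ} {π : O}

theorem exists_eq_C_mul_of_map_eq_zero (h : UnifData O res π) {P : Polynomial O}
    (hP : P.map res = 0) : ∃ P' : Polynomial O, P = Polynomial.C π * P' := by
  have hmem : P ∈ Ideal.map (Polynomial.C : O →+* Polynomial O) (Ideal.span {π}) := by
    rw [Ideal.mem_map_C_iff]
    intro n
    have hn : res (P.coeff n) = 0 := by
      have := congrArg (fun Q => Q.coeff n) hP
      simpa using this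
    obtain ⟨y, hy⟩ := (h.ker _).mp hn
    exact Ideal.mem_span_singleton'.mpr ⟨y, by rw [hy, mul_comm]⟩
  rw [Ideal.map_span, Set.image_singleton, Ideal.mem_span_singleton'] at hmem
  obtain ⟨P', hP'⟩ := hmem
  exact ⟨P', by rw [← hP', mul_comm]⟩

theorem map_res_C_pi_mul (h : UnifData O res π) (P : Polynomial O) :
    (Polynomial.C π * P).map res = 0 := by
  rw [Polynomial.map_mul, Polynomial.map_C, res_pi h, Polynomial.C_0, zero_mul]

/-- The reduction of a relation `g(j) x = Σ f_i(j) v_i` in the Gauss ring. -/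
theorem gaussRed_relation {n : ℕ} (y : Fin n → LaurentSeries ℤ)
    {x : LaurentSeries E} (hx : x ∈ gaussRing O res)
    (g : Polynomial O) (f : Fin n → Polynomial O)
    (hrel : evE O (jqModC E) g * x =
      ∑ i, evE O (jqModC E) (f i) * coeffMap (Int.castRingHom E) (y i)) :
    Polynomial.aeval (jqModC κ) (g.map res) * gaussRed O res ⟨x, hx⟩ =
      ∑ i, Polynomial.aeval (jqModC κ) ((f i).map res) * coeffMap (Int.castRingHom κ) (y i) := by
  set J : gaussRing O res := ⟨jqModC E, j_mem_gaussRing O res⟩ with hJ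
  have hrelV : evV O res J g * ⟨x, hx⟩ =
      ∑ i, evV O res J (f i) *
        ⟨coeffMap (Int.castRingHom E) (y i), intCast_mem_gaussRing O res (y i)⟩ := by
    apply Subtype.ext
    have h1 : (((∑ i, evV O res J (f i) *
        ⟨coeffMap (Int.castRingHom E) (y i), intCast_mem_gaussRing O res (y i)⟩ :
          gaussRing O res)) : LaurentSeries E) =
        ∑ i, evE O (jqModC E) (f i) * coeffMap (Int.castRingHom E) (y i) := by
      rw [← Subring.subtype_apply, map_sum]
      refine Finset.sum_congr rfl fun i _ => ?_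
      rw [Subring.subtype_apply, Subring.coe_mul, coe_evV]
    rw [h1, Subring.coe_mul, coe_evV]
    exact hrel
  have h2 := congrArg (gaussRed O res) hrelV
  rw [map_mul, map_sum, gaussRed_evV, hJ, gaussRed_j] at h2
  rw [h2]
  refine Finset.sum_congr rfl fun i _ => ?_
  rw [map_mul, gaussRed_evV, gaussRed_j, gaussRed_intCast]

theorem exists_denominator_aux (h : UnifData O res π) {n : ℕ} (y : Fin n → LaurentSeries ℤ)
    (hli : LinearIndependent (jField κ) (fun i => coeffMap (Int.castRingHom κ) (y i)))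
    {x : LaurentSeries E} (hx : x ∈ gaussRing O res) :
    ∀ (m : ℕ) (g : Polynomial O) (f : Fin n → Polynomial O) (k : ℕ) (u : O),
      g.coeff k = π ^ m * u → res u ≠ 0 →
      evE O (jqModC E) g * x =
        ∑ i, evE O (jqModC E) (f i) * coeffMap (Int.castRingHom E) (y i) →
      ∃ (g' : Polynomial O) (f' : Fin n → Polynomial O), g'.map res ≠ 0 ∧
        evE O (jqModC E) g' * x =
          ∑ i, evE O (jqModC E) (f' i) * coeffMap (Int.castRingHom E) (y i) := by
  intro m
  induction m with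
  | zero =>
    intro g f k u hgk hu hrel
    refine ⟨g, f, ?_, hrel⟩
    intro h0
    apply hu
    have := congrArg (fun Q => Q.coeff k) h0
    simpa [hgk] using this
  | succ m ih =>
    intro g f k u hgk hu hrel
    by_cases hg : g.map res = 0
    · obtain ⟨g1, rfl⟩ := exists_eq_C_mul_of_map_eq_zero h hg
      have hred := gaussRed_relation (res := res) y hx _ f hrel
      rw [hg, map_zero, zero_mul] at hred
      have hf0 := poly_indep hli (fun i => (f i).map res) hred.symm
      have hf1 : ∀ i, ∃ P' : Polynomial O, f i = Polynomial.C π * P' :=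
        fun i => exists_eq_C_mul_of_map_eq_zero h (hf0 i)
      choose f1 hf1 using hf1
      have hπ := piL_ne_zero h
      have hrel1 : evE O (jqModC E) g1 * x =
          ∑ i, evE O (jqModC E) (f1 i) * coeffMap (Int.castRingHom E) (y i) := by
        apply mul_left_cancel₀ hπ
        rw [Finset.mul_sum, ← mul_assoc, ← evE_C_pi (O := O) (jqModC E), ← map_mul, hrel]
        refine Finset.sum_congr rfl fun i _ => ?_
        rw [hf1 i, map_mul, mul_assoc]
      have hgk1 : g1.coeff k = π ^ m * u := by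
        rw [Polynomial.coeff_C_mul, pow_succ, mul_comm (π ^ m) π, mul_assoc] at hgk
        exact mul_left_cancel₀ h.ne_zero hgk
      exact ih g1 f1 k u hgk1 hu hrel1
    · exact ⟨g, f, hg, hrel⟩

/-- **Denominator lemma.** Every `x ∈ F_E ∩ V` satisfies a relation `g(j) x = Σ f_i(j) y_i`
with `O`-coefficients and `g ≢ 0 mod π`. -/
theorem exists_denominator (h : UnifData O res π) (hfrac : IsFrac O) {n : ℕ}
    (y : Fin n → LaurentSeries ℤ)
    (hli : LinearIndependent (jField κ) (fun i => coeffMap (Int.castRingHom κ) (y i)))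
    {x : LaurentSeries E}
    (hspan : x ∈ Submodule.span (jField E)
      (Set.range fun i => coeffMap (Int.castRingHom E) (y i)))
    (hx : x ∈ gaussRing O res) :
    ∃ (g : Polynomial O) (f : Fin n → Polynomial O), g.map res ≠ 0 ∧
      evE O (jqModC E) g * x =
        ∑ i, evE O (jqModC E) (f i) * coeffMap (Int.castRingHom E) (y i) := by
  obtain ⟨g, f, hg, hrel⟩ := exists_cleared_of_mem_span hfrac _ hspan
  obtain ⟨k, hk⟩ : ∃ k, g.coeff k ≠ 0 := by
    by_contra hne
    simp only [not_exists, not_not] at hne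
    exact hg (Polynomial.ext fun k => by rw [hne k, Polynomial.coeff_zero])
  obtain ⟨m, u, hu, hres⟩ := h.prim _ hk
  exact exists_denominator_aux h y hli hx m g f k u hu hres hrel

end Denominator

section Reduction

variable {E : Type} [Field E] {O : Subring E} {κ : Type} [Field κ] {res : O →+* κ} {π : O}

theorem coeffMap_intCast_mem_full (k : Type*) [Field k] (N : ℕ) {w : LaurentSeries ℤ}
    (hw : w ∈ Subring.closure (intDivisorExpansions N)) :
    coeffMap (Int.castRingHom k) w ∈ modularFunctionFieldFullC k N := by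
  induction hw using Subring.closure_induction with
  | mem x hx =>
    obtain ⟨d, hd, hdN, rfl⟩ := hx
    rw [← jd_eq_intCast]
    exact jqModCd_mem_full k N hdN
  | zero => rw [map_zero]; exact zero_mem _
  | one => rw [map_one]; exact one_mem _
  | add x y _ _ hx hy => rw [map_add]; exact add_mem hx hy
  | neg x _ hx => rw [map_neg]; exact neg_mem hx
  | mul x y _ _ hx hy => rw [map_mul]; exact mul_mem hx hy

theorem aeval_j_mem_full (k : Type*) [Field k] (N : ℕ) (P : Polynomial k) :
    Polynomial.aeval (jqModC k) P ∈ modularFunctionFieldFullC k N := by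
  have h1 : Polynomial.aeval (jqModC k) P ∈ Algebra.adjoin k {jqModC k} :=
    Polynomial.aeval_mem_adjoin_singleton _ _
  have h2 : Algebra.adjoin k {jqModC k} ≤ (modularFunctionFieldFullC k N).toSubalgebra :=
    Algebra.adjoin_le (Set.singleton_subset_iff.mpr (jqModC_mem_full k N))
  exact h2 h1

theorem aeval_j_ne_zero {k : Type*} [Field k] {P : Polynomial k} (hP : P ≠ 0) :
    Polynomial.aeval (jqModC k) P ≠ 0 :=
  aeval_ne_zero_of_order_ne_zero (S28.H145.jqModC_ne_zero' k)
    (by rw [S28.H145.order_jqModC]; decide) hP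

theorem natCast_ne_zero_of_res (res : O →+* κ) {N : ℕ} (hN : (N : κ) ≠ 0) : (N : E) ≠ 0 := by
  intro h0
  apply hN
  have h1 : (N : O) = 0 := Subtype.ext (by simpa using h0)
  rw [← map_natCast res, h1, map_zero]

/-- **(T2)** The reduction of an element of `F_E ∩ V` lies in `F_κ`. -/
theorem gaussRed_mem_full (A : AnalyticInputs) (h : UnifData O res π) (hfrac : IsFrac O)
    (N : ℕ) [NeZero N] (hN : (N : κ) ≠ 0) {x : LaurentSeries E}
    (hxF : x ∈ modularFunctionFieldFullC E N) (hx : x ∈ gaussRing O res) :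
    gaussRed O res ⟨x, hx⟩ ∈ modularFunctionFieldFullC κ N := by
  obtain ⟨y, hy, hbasis⟩ := exists_uniform_basis A N
  obtain ⟨hspanE, -⟩ := hbasis E (natCast_ne_zero_of_res res hN)
  obtain ⟨-, hliκ⟩ := hbasis κ hN
  obtain ⟨g, f, hg, hrel⟩ := exists_denominator h hfrac y hliκ (hspanE x hxF) hx
  have hred := gaussRed_relation (res := res) y hx g f hrel
  have hg0 := aeval_j_ne_zero hg
  have hx' : gaussRed O res ⟨x, hx⟩ = (Polynomial.aeval (jqModC κ) (g.map res))⁻¹ *
      ∑ i, Polynomial.aeval (jqModC κ) ((f i).map res) * coeffMap (Int.castRingHom κ) (y i) := by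
    rw [← hred, ← mul_assoc, inv_mul_cancel₀ hg0, one_mul]
  rw [hx']
  refine mul_mem (inv_mem (aeval_j_mem_full κ N _)) (sum_mem fun i _ => ?_)
  exact mul_mem (aeval_j_mem_full κ N _) (coeffMap_intCast_mem_full κ N (hy i))

end Reduction

section Integral

variable {E : Type} [Field E] {O : Subring E}

theorem coeffMap_comp_evalAt :
    (coeffMap (Int.castRingHom E)).comp (evalAt (jqModC ℤ)) =
      (evE O (jqModC E)).comp (Polynomial.mapRingHom (Int.castRingHom O)) := by
  apply Polynomial.ringHom_ext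
  · intro a
    simp [evalAt, evE]
  · simp [evalAt, evE, coeffMap_jqModC]

/-- Integer series integral over `ℤ[j]` are integral over `O[j]` in `E((q))`. -/
theorem isIntegralElem_intCast {w : LaurentSeries ℤ}
    (hw : (evalAt (jqModC ℤ)).IsIntegralElem w) :
    (evE O (jqModC E)).IsIntegralElem (coeffMap (Int.castRingHom E) w) := by
  obtain ⟨P, hP, hPw⟩ := hw
  refine ⟨P.map (Polynomial.mapRingHom (Int.castRingHom O)), hP.map _, ?_⟩
  rw [Polynomial.eval₂_map, ← coeffMap_comp_evalAt, ← Polynomial.hom_eval₂, hPw, map_zero]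

theorem isIntegralElem_basis (A : AnalyticInputs) (N : ℕ) [NeZero N] {w : LaurentSeries ℤ}
    (hw : w ∈ Subring.closure (intDivisorExpansions N)) :
    (evE O (jqModC E)).IsIntegralElem (coeffMap (Int.castRingHom E) w) :=
  isIntegralElem_intCast (S28.H508.isIntegralElem_of_mem_closure N
    (S28.H867.coreData_integral N (fun p hp _ _ => A.modPoly p hp)) hw)

end Integral

section Kernel

variable {E : Type} [Field E] {O : Subring E} {κ : Type} [Field κ] {res : O →+* κ} {π : O}

theorem prime_pi (h : UnifData O res π) : Prime π := by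
  rw [← Ideal.span_singleton_prime h.ne_zero]
  have : Ideal.span {π} = RingHom.ker res := by
    ext x
    rw [RingHom.mem_ker, h.ker, Ideal.mem_span_singleton']
    constructor
    · rintro ⟨a, rfl⟩; exact ⟨a, mul_comm _ _⟩
    · rintro ⟨y, rfl⟩; exact ⟨y, mul_comm _ _⟩
  rw [this]
  exact RingHom.ker_isPrime _

theorem not_C_pi_dvd (h : UnifData O res π) {g : Polynomial O} (hg : g.map res ≠ 0) :
    ¬ Polynomial.C π ∣ g := by
  rintro ⟨g', rfl⟩
  exact hg (map_res_C_pi_mul h g')

theorem piL_mem_full (N : ℕ) (π : O) : piL O π ∈ modularFunctionFieldFullC E N := by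
  have : piL O π = algebraMap E (LaurentSeries E) (π : E) := by
    rw [algebraMap_laurentSeries_eq_single]; rfl
  rw [this]
  exact (modularFunctionFieldFullC E N).algebraMap_mem _

theorem evE_mem_full (N : ℕ) {t : LaurentSeries E} (ht : t ∈ modularFunctionFieldFullC E N)
    (P : Polynomial O) : evE O t P ∈ modularFunctionFieldFullC E N := by
  induction P using Polynomial.induction_on' with
  | add p q hp hq => rw [map_add]; exact add_mem hp hq
  | monomial n a =>
    rw [← Polynomial.C_mul_X_pow_eq_monomial, map_mul, map_pow, evE_C]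
    have h1 : (HahnSeries.C (a : E) : LaurentSeries E) = algebraMap E (LaurentSeries E) (a : E) := by
      rw [algebraMap_laurentSeries_eq_single]; rfl
    rw [h1]
    refine mul_mem ((modularFunctionFieldFullC E N).algebraMap_mem _) (pow_mem ?_ n)
    simpa [evE] using ht

/-- Elements of the fraction field which are integral over `O[t]`, `t ∈ V`, lie in `V`. -/
theorem mem_gaussRing_of_isIntegralElem (h : UnifData O res π) {t : LaurentSeries E}
    (ht : t ∈ gaussRing O res) {x : LaurentSeries E} (hxF : x ∈ gaussFrac O)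
    (hx : (evE O t).IsIntegralElem x) : x ∈ gaussRing O res := by
  letI : Algebra (Polynomial O) (LaurentSeries E) := (evE O t).toAlgebra
  exact mem_gaussRing_of_isIntegral' h (A := Polynomial O)
    (fun a => evE_mem_gaussRing ht a) hxF hx

variable [IsDiscreteValuationRing O]

/-- **Abstract kernel step** on the chart `O[t]`. -/
theorem isIntegralElem_of_pi_mul (h : UnifData O res π) {t : LaurentSeries E} (ht0 : t ≠ 0)
    (hto : t.order ≠ 0) {a : LaurentSeries E}
    (h1 : (evE O t).IsIntegralElem (piL O π * a))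
    {s : Polynomial O} (hs : s.map res ≠ 0)
    (h2 : (evE O t).IsIntegralElem (evE O t s * a)) :
    (evE O t).IsIntegralElem a := by
  letI : Algebra (Polynomial O) (LaurentSeries E) := (evE O t).toAlgebra
  haveI : FaithfulSMul (Polynomial O) (LaurentSeries E) :=
    (faithfulSMul_iff_algebraMap_injective _ _).mpr (evE_injective ht0 hto)
  have hp : Prime (Polynomial.C π : Polynomial O) := Polynomial.prime_C_iff.mpr (prime_pi h)
  have h1' : IsIntegral (Polynomial O) ((Polynomial.C π : Polynomial O) • a) := by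
    rw [Algebra.smul_def]
    show (evE O t).IsIntegralElem (evE O t (Polynomial.C π) * a)
    rw [evE_C_pi]
    exact h1
  have h2' : IsIntegral (Polynomial O) (s • a) := by
    rw [Algebra.smul_def]
    exact h2
  exact S28.H865.isIntegral_of_smul_of_smul hp (not_C_pi_dvd h hs) h1' h2'

/-- The denominator property of a chart `O[t]`. -/
def HasDenominators (res : O →+* κ) (N : ℕ) (t : LaurentSeries E) : Prop :=
  ∀ x : LaurentSeries E, x ∈ modularFunctionFieldFullC E N → x ∈ gaussRing O res →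
    ∃ s : Polynomial O, s.map res ≠ 0 ∧ (evE O t).IsIntegralElem (evE O t s * x)

/-- **Kernel theorem** on a chart with denominators. -/
theorem kernel_chart (h : UnifData O res π) (N : ℕ) {t : LaurentSeries E} (ht0 : t ≠ 0)
    (hto : t.order ≠ 0) (hD : HasDenominators res N t)
    {x : LaurentSeries E} (hxF : x ∈ modularFunctionFieldFullC E N)
    (hint : (evE O t).IsIntegralElem x)
    (hx : x ∈ gaussRing O res) (hred : gaussRed O res ⟨x, hx⟩ = 0) :
    ∃ x' : LaurentSeries E, x' ∈ modularFunctionFieldFullC E N ∧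
      (evE O t).IsIntegralElem x' ∧ x = piL O π * x' := by
  obtain ⟨yV, hyV⟩ := (gaussRed_eq_zero_iff h ⟨x, hx⟩).mp hred
  have hyV' : x = piL O π * (yV : LaurentSeries E) := hyV
  have hπ := piL_ne_zero h
  have hyF : (yV : LaurentSeries E) ∈ modularFunctionFieldFullC E N := by
    have : (yV : LaurentSeries E) = (piL O π)⁻¹ * x := by
      rw [hyV', ← mul_assoc, inv_mul_cancel₀ hπ, one_mul]
    rw [this]
    exact mul_mem (inv_mem (piL_mem_full N π)) hxF
  obtain ⟨s, hs, hsint⟩ := hD _ hyF yV.2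
  refine ⟨yV, hyF, ?_, hyV'⟩
  exact isIntegralElem_of_pi_mul h ht0 hto (by rw [← hyV']; exact hint) hs hsint

/-- The chart `O[j]` has denominators. -/
theorem hasDenominators_j (A : AnalyticInputs) (h : UnifData O res π) (hfrac : IsFrac O)
    (N : ℕ) [NeZero N] (hN : (N : κ) ≠ 0) : HasDenominators res N (jqModC E) := by
  intro x hxF hx
  obtain ⟨y, hy, hbasis⟩ := exists_uniform_basis A N
  obtain ⟨hspanE, -⟩ := hbasis E (natCast_ne_zero_of_res res hN)
  obtain ⟨-, hliκ⟩ := hbasis κ hN
  obtain ⟨g, f, hg, hrel⟩ := exists_denominator h hfrac y hliκ (hspanE x hxF) hx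
  refine ⟨g, hg, ?_⟩
  rw [hrel]
  letI : Algebra (Polynomial O) (LaurentSeries E) := (evE O (jqModC E)).toAlgebra
  show IsIntegral (Polynomial O) _
  refine IsIntegral.sum _ fun i _ => ?_
  exact IsIntegral.mul (isIntegral_algebraMap (x := f i)) (isIntegralElem_basis A N (hy i))

/-- **(T4), finite chart.**  `x ∈ F_E` integral over `O[j]` with vanishing reduction is
`π · x'` with `x' ∈ F_E` integral over `O[j]`. -/
theorem kernel_fin (A : AnalyticInputs) (h : UnifData O res π) (hfrac : IsFrac O)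
    (N : ℕ) [NeZero N] (hN : (N : κ) ≠ 0)
    {x : LaurentSeries E} (hxF : x ∈ modularFunctionFieldFullC E N)
    (hint : (evE O (jqModC E)).IsIntegralElem x)
    (hx : x ∈ gaussRing O res) (hred : gaussRed O res ⟨x, hx⟩ = 0) :
    ∃ x' : LaurentSeries E, x' ∈ modularFunctionFieldFullC E N ∧
      (evE O (jqModC E)).IsIntegralElem x' ∧ x = piL O π * x' :=
  kernel_chart h N (S28.H145.jqModC_ne_zero' E) (by rw [S28.H145.order_jqModC]; decide)
    (hasDenominators_j A h hfrac N hN) hxF hint hx hred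

end Kernel

section Infinity

variable {E : Type} [Field E] {O : Subring E} {κ : Type} [Field κ] {res : O →+* κ} {π : O}

theorem evE_X (t : LaurentSeries E) : evE O t Polynomial.X = t := by simp [evE]

/-- `(reflect m P)(t⁻¹) = P(t) · t⁻ᵐ` for `deg P ≤ m`. -/
theorem evE_reflect {t : LaurentSeries E} (ht0 : t ≠ 0) (m : ℕ) (P : Polynomial O)
    (hP : P.natDegree ≤ m) : evE O t⁻¹ (P.reflect m) = evE O t P * t⁻¹ ^ m := by
  letI : Invertible t := invertibleOfNonzero ht0
  have h := Polynomial.eval₂_reflect_mul_pow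
    ((HahnSeries.C : E →+* LaurentSeries E).comp O.subtype) t m P hP
  rw [invOf_eq_inv] at h
  show Polynomial.eval₂ _ t⁻¹ (P.reflect m) = Polynomial.eval₂ _ t P * _
  rw [← h, mul_assoc, ← mul_pow, mul_inv_cancel₀ ht0, one_pow, mul_one]

/-- **Pole clearing**: if `w` is integral over `O[t]`, then `t⁻ⁿ w` is integral over `O[t⁻¹]`
for some `n`. -/
theorem exists_pow_mul_isIntegralElem {t : LaurentSeries E} (ht0 : t ≠ 0) {w : LaurentSeries E}
    (hw : (evE O t).IsIntegralElem w) :
    ∃ n : ℕ, (evE O t⁻¹).IsIntegralElem (t⁻¹ ^ n * w) := by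
  classical
  obtain ⟨p, hmonic, hroot⟩ := hw
  set M : ℕ := ∑ i ∈ Finset.range (p.natDegree + 1), (p.coeff i).natDegree with hM
  have hnM : ∀ i ≤ p.natDegree, (p.coeff i).natDegree ≤ M := fun i hi =>
    Finset.single_le_sum (f := fun i => (p.coeff i).natDegree) (fun _ _ => Nat.zero_le _)
      (Finset.mem_range.mpr (Nat.lt_succ_of_le hi))
  set q : Polynomial (LaurentSeries E) := (p.map (evE O t)).scaleRoots (t⁻¹ ^ M) with hq
  have hqmonic : q.Monic := (Polynomial.monic_scaleRoots_iff _).mpr (hmonic.map _)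
  have hqroot : q.eval (t⁻¹ ^ M * w) = 0 := by
    rw [hq, Polynomial.scaleRoots_eval_mul, Polynomial.eval_map, hroot, mul_zero]
  have hqcoeff : ∀ i, q.coeff i ∈ (evE O t⁻¹).rangeS := by
    intro i
    rw [hq, Polynomial.coeff_scaleRoots, Polynomial.coeff_map, hmonic.natDegree_map]
    by_cases hi : i < p.natDegree
    · have hle : (p.coeff i).natDegree ≤ M * (p.natDegree - i) := by
        calc (p.coeff i).natDegree ≤ M := hnM i hi.le
          _ = M * 1 := (mul_one M).symm
          _ ≤ M * (p.natDegree - i) :=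
            Nat.mul_le_mul_left M (Nat.one_le_iff_ne_zero.mpr (by omega))
      refine ⟨(p.coeff i).reflect (M * (p.natDegree - i)), ?_⟩
      rw [evE_reflect ht0 _ _ hle, ← pow_mul]
    · rcases (not_lt.mp hi).lt_or_eq with hlt | heq
      · rw [Polynomial.coeff_eq_zero_of_natDegree_lt hlt, map_zero, zero_mul]
        exact zero_mem _
      · rw [← heq, hmonic.coeff_natDegree, map_one, one_mul, Nat.sub_self, pow_zero]
        exact one_mem _
  have hlifts : q ∈ Polynomial.lifts (evE O t⁻¹) :=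
    (Polynomial.lifts_iff_coeff_lifts q).mpr fun i => hqcoeff i
  obtain ⟨q', hq'q, -, hq'monic⟩ := Polynomial.lifts_and_natDegree_eq_and_monic hlifts hqmonic
  refine ⟨M, q', hq'monic, ?_⟩
  rw [Polynomial.eval₂_eq_eval_map, hq'q, hqroot]

/-- Denominators pass from the chart `O[t]` to the chart `O[t⁻¹]`. -/
theorem HasDenominators.inv {N : ℕ} {t : LaurentSeries E} (ht0 : t ≠ 0)
    (hD : HasDenominators res N t) : HasDenominators res N t⁻¹ := by
  intro x hxF hx
  obtain ⟨s, hs, hint⟩ := hD x hxF hx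
  obtain ⟨n, hn⟩ := exists_pow_mul_isIntegralElem ht0 hint
  refine ⟨Polynomial.X ^ s.natDegree * (Polynomial.X ^ n * s.reflect s.natDegree), ?_, ?_⟩
  · rw [Polynomial.map_mul, Polynomial.map_mul, Polynomial.map_pow, Polynomial.map_pow,
      Polynomial.map_X, ← Polynomial.reflect_map]
    exact mul_ne_zero (pow_ne_zero _ Polynomial.X_ne_zero)
      (mul_ne_zero (pow_ne_zero _ Polynomial.X_ne_zero)
        (Polynomial.reflect_eq_zero_iff.not.mpr hs))
  · have hre : evE O t⁻¹ (Polynomial.X ^ s.natDegree * (Polynomial.X ^ n * s.reflect s.natDegree)) * x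
        = evE O t⁻¹ (Polynomial.X ^ s.natDegree * Polynomial.X ^ s.natDegree) *
          (t⁻¹ ^ n * (evE O t s * x)) := by
      rw [map_mul, map_mul, map_mul, map_pow, map_pow, evE_X, evE_reflect ht0 _ _ le_rfl]
      ring
    rw [hre]
    exact RingHom.IsIntegralElem.mul _ ((evE O t⁻¹).isIntegralElem_map) hn

end Infinity

section KernelInf

variable {E : Type} [Field E] {O : Subring E} [IsDiscreteValuationRing O]
  {κ : Type} [Field κ] {res : O →+* κ} {π : O}

theorem j_inv_mem_gaussRing : (jqModC E)⁻¹ ∈ gaussRing O res := by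
  have h := inv_mem_gaussRing_of_gaussRed_ne_zero
    (⟨jqModC E, j_mem_gaussRing O res⟩ : gaussRing O res)
    (by rw [gaussRed_j]; exact S28.H145.jqModC_ne_zero' κ)
  exact h

/-- **(T4), chart at infinity.** -/
theorem kernel_inf (A : AnalyticInputs) (h : UnifData O res π) (hfrac : IsFrac O)
    (N : ℕ) [NeZero N] (hN : (N : κ) ≠ 0)
    {x : LaurentSeries E} (hxF : x ∈ modularFunctionFieldFullC E N)
    (hint : (evE O (jqModC E)⁻¹).IsIntegralElem x)
    (hx : x ∈ gaussRing O res) (hred : gaussRed O res ⟨x, hx⟩ = 0) :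
    ∃ x' : LaurentSeries E, x' ∈ modularFunctionFieldFullC E N ∧
      (evE O (jqModC E)⁻¹).IsIntegralElem x' ∧ x = piL O π * x' :=
  kernel_chart h N (inv_ne_zero (S28.H145.jqModC_ne_zero' E))
    (S28.H806.jqModC_inv_order_ne_zero E)
    ((hasDenominators_j A h hfrac N hN).inv (S28.H145.jqModC_ne_zero' E)) hxF hint hx hred

end KernelInf

end Fermat.Agent.S18.H208

end

end
-- ===== PACK-END S18/H208/Gauss.lean

-- ===== PACK-BEGIN S18/H739/ModFinite.lean
section
/-
S18 helper (helper739), piece MOD.1 of squad S18/S05 (statement frozen in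
`origin/helper5:Fermat/Agent/S18/Sq05/Spec.lean` as `ModFiniteStatement`):
`j` is transcendental over `k` and `k(j(q^d) : d ∣ N)` is finite over `k(j)`, for every field
`k` in which the primes dividing `N` are invertible.  From landed S28: upper bound of helper626,
modular polynomials of helper807.
-/







set_option autoImplicit false

noncomputable section

open ModularCurve IntermediateField

namespace Fermat.Agent.S18.H739

open Fermat.Agent.S28

variable (k : Type*) [Field k]

/-- `j` is transcendental over `k` in `k((q))`. -/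
theorem transcendental_jqModC : Transcendental k (jqModC k) :=
  (transcendental_iff_injective).mpr (h88_aeval_jqModC_injective k)

/-- `j`, as an element of the function field, is transcendental over `k`. -/
theorem transcendental_jC (N : ℕ) :
    Transcendental k (⟨jqModC k, jqModC_mem_full k N⟩ : modularFunctionFieldFullC k N) := by
  intro h
  have h2 : IsAlgebraic k (algebraMap (modularFunctionFieldFullC k N) (LaurentSeries k)
      ⟨jqModC k, jqModC_mem_full k N⟩) := h.algebraMap
  exact transcendental_jqModC k h2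

/-- The modular polynomials exist at every prime, so `HasModPolys` only needs invertibility. -/
theorem hasModPolys_of_invertible (N : ℕ) (hchar : ∀ p : ℕ, p.Prime → p ∣ N → (p : k) ≠ 0) :
    H626.HasModPolys k N :=
  H867.hasModPolys k N (fun p hp _ _ => H807.nonempty_modPolyData p hp) hchar

/-- `k(j)`, inside the function field, is the preimage of `k(j) ⊂ k((q))`. -/
theorem adjoin_jC_eq_comap (N : ℕ) :
    k⟮(⟨jqModC k, jqModC_mem_full k N⟩ : modularFunctionFieldFullC k N)⟯ =
      (IntermediateField.adjoin k {jqModC k}).comap (modularFunctionFieldFullC k N).val := by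
  rw [← IntermediateField.comap_map (modularFunctionFieldFullC k N).val
    k⟮(⟨jqModC k, jqModC_mem_full k N⟩ : modularFunctionFieldFullC k N)⟯,
    IntermediateField.adjoin_map, Set.image_singleton]
  rfl

/-- **MOD.1**, finiteness part. -/
theorem finiteDimensional_adjoin_jC (N : ℕ) [NeZero N]
    (hchar : ∀ p : ℕ, p.Prime → p ∣ N → (p : k) ≠ 0) :
    FiniteDimensional k⟮(⟨jqModC k, jqModC_mem_full k N⟩ : modularFunctionFieldFullC k N)⟯
      (modularFunctionFieldFullC k N) := by
  have H := hasModPolys_of_invertible k N hchar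
  have h1 := H626.relrank_adjoin_j_full_le N H
  rw [adjoin_jC_eq_comap]
  have h2 : Module.rank
      ((IntermediateField.adjoin k {jqModC k}).comap (modularFunctionFieldFullC k N).val)
      (modularFunctionFieldFullC k N) < Cardinal.aleph0 := by
    rw [IntermediateField.rank_comap, IntermediateField.fieldRange_val]
    exact lt_of_le_of_lt h1 (Cardinal.natCast_lt_aleph0)
  exact IsNoetherian.iff_fg.1 (IsNoetherian.iff_rank_lt_aleph0.2 h2)

/-- **MOD.1** (unfolded `Fermat.Agent.S18.Sq05.ModFiniteStatement`; `Sq05.jC k N` is by definition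
`⟨jqModC k, jqModC_mem_full k N⟩`). -/
theorem modFinite :
    ∀ (k : Type) [Field k] (N : ℕ) [NeZero N], (∀ p : ℕ, p.Prime → p ∣ N → (p : k) ≠ 0) →
      Transcendental k (⟨jqModC k, jqModC_mem_full k N⟩ : modularFunctionFieldFullC k N) ∧
      FiniteDimensional k⟮(⟨jqModC k, jqModC_mem_full k N⟩ : modularFunctionFieldFullC k N)⟯
        (modularFunctionFieldFullC k N) :=
  fun k _ N _ hchar => ⟨transcendental_jC k N, finiteDimensional_adjoin_jC k N hchar⟩

end Fermat.Agent.S18.H739

end

end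
-- ===== PACK-END S18/H739/ModFinite.lean

-- ===== PACK-BEGIN S15/H602/Disjoint.lean
section



/-!
# Relations over `L` between rational `q`-series come from relations over `ℚ`
(helper602, row S15, piece MOD-A1, part 1)

`L/ℚ` a field, `x₀ y₀ ∈ ℚ((q))`.  If `G ∈ L[X][Y]` satisfies `G(x₀, y₀) = 0` in `L((q))` then `G`
is an `L`-linear combination of polynomials `G_i ∈ ℚ[X][Y]` with `G_i(x₀, y₀) = 0` in `ℚ((q))`
(linear disjointness of `ℚ((q))` and `L` over `ℚ` inside `L((q))`).  Consequently: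

* `ev0_eq_zero_of_rational` : if every relation over `ℚ` vanishes at `(a, a') ∈ L²`, so does
  every relation over `L`.
-/

set_option autoImplicit false

noncomputable section

namespace Fermat.Agent.S15.H602

open Polynomial ModularCurve

section Ext

variable {K S : Type*} [Field K] [Semiring S]

/-- Extensionality for ring homomorphisms out of `K[X][Y]`. -/
theorem ringHom_ext₂ {f g : K[X][X] →+* S} (hCC : ∀ c : K, f (C (C c)) = g (C (C c)))
    (hCX : f (C X) = g (C X)) (hY : f X = g X) : f = g := by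
  refine Polynomial.ringHom_ext (fun p => ?_) hY
  have : f.comp C = g.comp C := Polynomial.ringHom_ext hCC hCX
  exact congrArg (fun h : K[X] →+* S => h p) this

end Ext

variable {L : Type*} [Field L] [Algebra ℚ L]

/-- base change `ℚ[X][Y] → L[X][Y]` -/
def bc (L : Type*) [Field L] [Algebra ℚ L] : ℚ[X][X] →+* L[X][X] :=
  mapRingHom (mapRingHom (algebraMap ℚ L))

@[simp] theorem bc_C_C (r : ℚ) : bc L (C (C r)) = C (C (algebraMap ℚ L r)) := by simp [bc]

@[simp] theorem bc_C_X : bc L (C X) = C X := by simp [bc]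

@[simp] theorem bc_X : bc L (X : ℚ[X][X]) = X := by simp [bc]

theorem bc_monomial_monomial (n m : ℕ) (r : ℚ) :
    bc L (monomial n (monomial m r)) = monomial n (monomial m (algebraMap ℚ L r)) := by
  simp [bc]

/-- `G(x₀, y₀)` commutes with base change of the coefficients. -/
theorem ev_bc (x₀ y₀ : LaurentSeries ℚ) (G₀ : ℚ[X][X]) :
    ev (K := L) (coeffEmb L x₀) (coeffEmb L y₀) (bc L G₀) = coeffEmb L (ev (K := ℚ) x₀ y₀ G₀) := by
  have h : (ev (K := L) (coeffEmb L x₀) (coeffEmb L y₀)).comp (bc L) =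
      (coeffEmb L).comp (ev (K := ℚ) x₀ y₀) := by
    refine ringHom_ext₂ (fun c => ?_) ?_ ?_
    · simp only [RingHom.comp_apply, bc_C_C, ev_C, aeval_C]
      rw [algebraMap_laurentSeries_eq_single, algebraMap_laurentSeries_eq_single]
      rw [coeffEmb, coeffMap_single]
    · simp
    · simp
  exact congrArg (fun f : ℚ[X][X] →+* LaurentSeries L => f G₀) h

/-- `G(a, a')` of a base-changed polynomial, through `ev0`. -/
theorem ev0_bc_eq (a a' : L) (G₀ : ℚ[X][X]) :
    ev0 a a' (bc L G₀) =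
      eval₂ ((aeval a : ℚ[X] →ₐ[ℚ] L) : ℚ[X] →+* L) a' G₀ := by
  have h : (ev0 a a').comp (bc L) =
      eval₂RingHom ((aeval a : ℚ[X] →ₐ[ℚ] L) : ℚ[X] →+* L) a' := by
    refine ringHom_ext₂ (fun c => ?_) ?_ ?_
    · simp
    · simp
    · simp
  exact congrArg (fun f : ℚ[X][X] →+* L => f G₀) h

/-- Every `G ∈ L[X][Y]` is a combination `∑ b_i · G_i` with `G_i ∈ ℚ[X][Y]`, for any basis `b` of
`L` over `ℚ`. -/
theorem exists_decomp_basis {ι : Type*} (b : Module.Basis ι ℚ L) (G : L[X][X]) :
    ∃ D : ι →₀ ℚ[X][X], G = D.sum fun i g => C (C (b i)) * bc L g := by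
  classical
  induction G using Polynomial.induction_on' with
  | add p q hp hq =>
    obtain ⟨Dp, hDp⟩ := hp
    obtain ⟨Dq, hDq⟩ := hq
    refine ⟨Dp + Dq, ?_⟩
    rw [Finsupp.sum_add_index' (fun i => by simp) (fun i g₁ g₂ => by rw [map_add, mul_add]),
      ← hDp, ← hDq]
  | monomial n g =>
    induction g using Polynomial.induction_on' with
    | add p q hp hq =>
      obtain ⟨Dp, hDp⟩ := hp
      obtain ⟨Dq, hDq⟩ := hq
      refine ⟨Dp + Dq, ?_⟩
      rw [Finsupp.sum_add_index' (fun i => by simp) (fun i g₁ g₂ => by rw [map_add, mul_add]),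
        ← hDp, ← hDq, map_add]
    | monomial m c =>
      refine ⟨(b.repr c).mapRange (fun r => monomial n (monomial m r)) (by simp), ?_⟩
      rw [Finsupp.sum_mapRange_index (fun i => by simp)]
      have hc : c = (b.repr c).sum fun i r => r • b i := (b.linearCombination_repr c).symm
      conv_lhs => rw [hc]
      rw [Finsupp.sum, Finsupp.sum]
      simp only [map_sum]
      refine Finset.sum_congr rfl fun i _ => ?_
      rw [bc_monomial_monomial, C_mul_monomial, C_mul_monomial, Algebra.smul_def, mul_comm]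

/-- The coefficients of `(∑ b_i · G_i)(x₀, y₀)`. -/
theorem coeff_ev_sum {ι : Type*} (b : ι → L) (D : ι →₀ ℚ[X][X]) (x₀ y₀ : LaurentSeries ℚ)
    (k : ℤ) :
    (ev (K := L) (coeffEmb L x₀) (coeffEmb L y₀)
      (D.sum fun i g => C (C (b i)) * bc L g)).coeff k =
      D.sum fun i g => ((ev (K := ℚ) x₀ y₀ g).coeff k) • b i := by
  rw [Finsupp.sum, Finsupp.sum, map_sum, HahnSeries.coeff_sum]
  refine Finset.sum_congr rfl fun i _ => ?_
  rw [map_mul, ev_bc, ev_C, aeval_C, algebraMap_laurentSeries_eq_single,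
    HahnSeries.coeff_single_mul, sub_zero, coeffEmb_coeff, Algebra.smul_def, mul_comm]

/-- **Linear disjointness.**  If every relation over `ℚ` between the rational `q`-series `x₀`, `y₀`
vanishes at `(a, a') ∈ L²`, then so does every relation over `L` between `x₀`, `y₀` (viewed in
`L((q))`). -/
theorem ev0_eq_zero_of_rational (x₀ y₀ : LaurentSeries ℚ) (a a' : L)
    (h₀ : ∀ G₀ : ℚ[X][X], ev (K := ℚ) x₀ y₀ G₀ = 0 → ev0 a a' (bc L G₀) = 0)
    (G : L[X][X]) (hG : ev (K := L) (coeffEmb L x₀) (coeffEmb L y₀) G = 0) :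
    ev0 a a' G = 0 := by
  classical
  set b := Module.Free.chooseBasis ℚ L with hb
  obtain ⟨D, hD⟩ := exists_decomp_basis b G
  have hzero : ∀ i ∈ D.support, ev (K := ℚ) x₀ y₀ (D i) = 0 := by
    intro i hi
    ext k
    have h1 := congrArg (fun f : LaurentSeries L => f.coeff k) hG
    simp only [HahnSeries.coeff_zero] at h1
    rw [hD, coeff_ev_sum] at h1
    have hli := b.linearIndependent
    rw [linearIndependent_iff'] at hli
    have := hli D.support (fun i => (ev (K := ℚ) x₀ y₀ (D i)).coeff k) h1 i hi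
    rw [HahnSeries.coeff_zero]
    exact this
  rw [hD, Finsupp.sum, map_sum]
  refine Finset.sum_eq_zero fun i hi => ?_
  rw [map_mul, h₀ (D i) (hzero i hi), mul_zero]

end Fermat.Agent.S15.H602

end
end
-- ===== PACK-END S15/H602/Disjoint.lean

-- ===== PACK-BEGIN S12/H651/VeluRed.lean
section



/-!
# S12 / QUOT-Q3 (helper651), part 4: Vélu's model at a place of multiplicative reduction

`A` a valuation subring of `K`, `φ : A →+* κ` with kernel the maximal ideal, `W` a Weierstrass
curve over `K` with coefficients in `A` reducing to `Wκ`, `Q` a point of prime order `p`, `p` a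
unit of `A`.  With helper542's `veluT`, `veluW`, `veluCurve`:

* `veluT_mem`, `veluW_mem` : Vélu's sums `t`, `w` are integral (`∈ A`); hence the coefficients of
  `veluCurve W Q p` are integral (`veluCurve_isRedOf`);
* `rd_veluT_of_not_inE0` : if `Q ∉ E⁰` then `t ≡ 0` (every `k Q` reduces to a singular point, where
  `6 x² + b₂ x + b₄ = 0`);
* `rd_veluT_of_inE0` : if `Q ∈ E⁰` then `t` reduces to Vélu's `t` of the reduced point;
* `val_c₄_veluCurve` : **if the reduction is nodal (`Δ ≡ 0`, `c₄ ≢ 0`), `p > 5`, then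
  `c₄(veluCurve W Q p)` is a unit of `A`** (it is `≡ c₄` or `≡ p⁴ c₄`).
-/

set_option autoImplicit false

namespace Fermat.Agent.S12.H651

open WeierstrassCurve WeierstrassCurve.Affine
open Fermat.Agent.S05.SameRed (IntegralCoeffs InKer)
open Fermat.Agent.Lib.Red.H290
open Fermat.Agent.S15.H242
open Fermat.Agent.S15.H542 (xOf yOf veluT1 veluU1 veluT veluW veluCurve)

section general

variable {K : Type*} [Field K] [DecidableEq K] {κ : Type*} [Field κ] [DecidableEq κ]
variable {A : ValuationSubring K} {φ : A →+* κ} {W : WeierstrassCurve K} {Wκ : WeierstrassCurve κ}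

section invariants

variable (h : IsRedOf A φ W.toAffine Wκ.toAffine)
include h

omit [DecidableEq K] [DecidableEq κ] in
lemma rd_b₂ : W.b₂ ∈ A ∧ rd A φ W.b₂ = Wκ.b₂ := by
  obtain ⟨c₁, c₂, c₃, c₄, c₆, e₁, e₂, e₃, e₄, e₆, f₁, f₂, f₃, f₄, f₆⟩ := h.exists_lift
  simp only [WeierstrassCurve.b₂]
  change (c₁ : K) = W.a₁ at e₁
  change (c₂ : K) = W.a₂ at e₂
  change φ c₁ = Wκ.a₁ at f₁
  change φ c₂ = Wκ.a₂ at f₂
  rw [← e₁, ← e₂, ← f₁, ← f₂]
  have : ((c₁ : K) ^ 2 + 4 * c₂) = ((c₁ ^ 2 + 4 * c₂ : A) : K) := by push_cast; rfl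
  rw [this, rd_coe]
  exact ⟨Subtype.mem _, by simp only [map_add, map_mul, map_pow, map_ofNat]⟩

omit [DecidableEq K] [DecidableEq κ] in
lemma rd_b₄ : W.b₄ ∈ A ∧ rd A φ W.b₄ = Wκ.b₄ := by
  obtain ⟨c₁, c₂, c₃, c₄, c₆, e₁, e₂, e₃, e₄, e₆, f₁, f₂, f₃, f₄, f₆⟩ := h.exists_lift
  simp only [WeierstrassCurve.b₄]
  change (c₁ : K) = W.a₁ at e₁
  change (c₃ : K) = W.a₃ at e₃
  change (c₄ : K) = W.a₄ at e₄
  change φ c₁ = Wκ.a₁ at f₁
  change φ c₃ = Wκ.a₃ at f₃
  change φ c₄ = Wκ.a₄ at f₄
  rw [← e₁, ← e₃, ← e₄, ← f₁, ← f₃, ← f₄]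
  have : (2 * (c₄ : K) + c₁ * c₃) = ((2 * c₄ + c₁ * c₃ : A) : K) := by push_cast; rfl
  rw [this, rd_coe]
  exact ⟨Subtype.mem _, by simp only [map_add, map_mul, map_ofNat]⟩

omit [DecidableEq K] [DecidableEq κ] in
lemma rd_b₆ : W.b₆ ∈ A ∧ rd A φ W.b₆ = Wκ.b₆ := by
  obtain ⟨c₁, c₂, c₃, c₄, c₆, e₁, e₂, e₃, e₄, e₆, f₁, f₂, f₃, f₄, f₆⟩ := h.exists_lift
  simp only [WeierstrassCurve.b₆]
  change (c₃ : K) = W.a₃ at e₃
  change (c₆ : K) = W.a₆ at e₆
  change φ c₃ = Wκ.a₃ at f₃
  change φ c₆ = Wκ.a₆ at f₆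
  rw [← e₃, ← e₆, ← f₃, ← f₆]
  have : ((c₃ : K) ^ 2 + 4 * c₆) = ((c₃ ^ 2 + 4 * c₆ : A) : K) := by push_cast; rfl
  rw [this, rd_coe]
  exact ⟨Subtype.mem _, by simp only [map_add, map_mul, map_pow, map_ofNat]⟩

omit [DecidableEq K] [DecidableEq κ] in
lemma rd_c₄ : W.c₄ ∈ A ∧ rd A φ W.c₄ = Wκ.c₄ := by
  obtain ⟨m2, r2⟩ := rd_b₂ h
  obtain ⟨m4, r4⟩ := rd_b₄ h
  simp only [WeierstrassCurve.c₄]
  have m24 : (24 : K) ∈ A := ofNat_mem A 24
  refine ⟨A.sub_mem (pow_mem m2 2) (A.mul_mem _ _ m24 m4), ?_⟩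
  rw [rd_sub (pow_mem m2 2) (A.mul_mem _ _ m24 m4), rd_pow m2, rd_mul m24 m4, r2, r4, rd_ofNat]

omit [DecidableEq K] [DecidableEq κ] in
/-- Vélu's `t₁` of an integral `x`. -/
lemma rd_veluT1 {x : K} (hx : x ∈ A) :
    veluT1 W x ∈ A ∧ rd A φ (veluT1 W x) = veluT1 Wκ (rd A φ x) := by
  obtain ⟨m2, r2⟩ := rd_b₂ h
  obtain ⟨m4, r4⟩ := rd_b₄ h
  unfold veluT1
  have m6 : (6 : K) ∈ A := ofNat_mem A 6
  have hA1 : 6 * x ^ 2 ∈ A := A.mul_mem _ _ m6 (pow_mem hx 2)
  have hA2 : W.b₂ * x ∈ A := A.mul_mem _ _ m2 hx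
  refine ⟨A.add_mem _ _ (A.add_mem _ _ hA1 hA2) m4, ?_⟩
  rw [rd_add (A.add_mem _ _ hA1 hA2) m4, rd_add hA1 hA2, rd_mul m6 (pow_mem hx 2), rd_pow hx,
    rd_mul m2 hx, r2, r4, rd_ofNat]

omit [DecidableEq K] [DecidableEq κ] in
/-- Vélu's `u₁` of an integral `x`. -/
lemma rd_veluU1 {x : K} (hx : x ∈ A) :
    veluU1 W x ∈ A ∧ rd A φ (veluU1 W x) = veluU1 Wκ (rd A φ x) := by
  obtain ⟨m2, r2⟩ := rd_b₂ h
  obtain ⟨m4, r4⟩ := rd_b₄ h
  obtain ⟨m6, r6⟩ := rd_b₆ h
  unfold veluU1
  have n4 : (4 : K) ∈ A := ofNat_mem A 4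
  have n2 : (2 : K) ∈ A := ofNat_mem A 2
  have hA1 : 4 * x ^ 3 ∈ A := A.mul_mem _ _ n4 (pow_mem hx 3)
  have hA2 : W.b₂ * x ^ 2 ∈ A := A.mul_mem _ _ m2 (pow_mem hx 2)
  have hA3 : 2 * W.b₄ * x ∈ A := A.mul_mem _ _ (A.mul_mem _ _ n2 m4) hx
  refine ⟨A.add_mem _ _ (A.add_mem _ _ (A.add_mem _ _ hA1 hA2) hA3) m6, ?_⟩
  rw [rd_add (A.add_mem _ _ (A.add_mem _ _ hA1 hA2) hA3) m6, rd_add (A.add_mem _ _ hA1 hA2) hA3,
    rd_add hA1 hA2, rd_mul n4 (pow_mem hx 3), rd_pow hx, rd_mul m2 (pow_mem hx 2), rd_pow hx,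
    rd_mul (A.mul_mem _ _ n2 m4) hx, rd_mul n2 m4, r2, r4, r6, rd_ofNat, rd_ofNat]

end invariants

omit [DecidableEq K] [DecidableEq κ] in
/-- At a singular point of a cubic, Vélu's `t₁` vanishes. -/
lemma veluT1_eq_zero_of_singular {x y : κ} (he : Wκ.toAffine.Equation x y)
    (hs : ¬ Wκ.toAffine.Nonsingular x y) : veluT1 Wκ x = 0 := by
  rw [Affine.nonsingular_iff] at hs
  push Not at hs
  obtain ⟨h1, h2⟩ := hs he
  unfold veluT1
  simp only [WeierstrassCurve.b₂, WeierstrassCurve.b₄]
  change Wκ.a₁ * y = 3 * x ^ 2 + 2 * Wκ.a₂ * x + Wκ.a₄ at h1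
  change y = -y - Wκ.a₁ * x - Wκ.a₃ at h2
  linear_combination -2 * h1 + Wκ.a₁ * h2

section points

variable (h : IsRedOf A φ W.toAffine Wκ.toAffine)
include h

omit [DecidableEq κ] in
/-- The nonzero multiples of a point of prime order `p` (a unit of `A`) are integral. -/
lemma xOf_nsmul_mem {p : ℕ} (_hp : p.Prime) (hv : A.valuation (p : K) = 1)
    {Q : W.toAffine.Point} (hord : addOrderOf Q = p) (j : ℕ) : xOf (j • Q) ∈ A := by
  rcases hj : j • Q with _ | ⟨x, y, hxy⟩
  · exact A.zero_mem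
  · change x ∈ A
    by_contra hx
    have hk : InKer W.toAffine A.valuation (j • Q) := by
      rw [hj]; exact not_mem_iff_one_lt.mp hx
    have hpj : p • (j • Q) = 0 := by
      rw [smul_comm, ← hord, addOrderOf_nsmul_eq_zero, smul_zero]
    have h0 := Fermat.Agent.S05.C1b.eq_zero_of_inKer_of_nsmul_eq_zero h.integralCoeffs p hv
      (j • Q) hk hpj
    rw [hj] at h0
    exact Point.some_ne_zero _ h0

omit [DecidableEq κ] in
/-- Vélu's `t` is integral. -/
theorem veluT_mem {p : ℕ} (hp : p.Prime) (hv : A.valuation (p : K) = 1)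
    {Q : W.toAffine.Point} (hord : addOrderOf Q = p) : veluT W Q p ∈ A := by
  unfold veluT
  exact sum_mem fun j _ => (rd_veluT1 h (xOf_nsmul_mem h hp hv hord j)).1

omit [DecidableEq κ] in
/-- Vélu's `w` is integral. -/
theorem veluW_mem {p : ℕ} (hp : p.Prime) (hv : A.valuation (p : K) = 1)
    {Q : W.toAffine.Point} (hord : addOrderOf Q = p) : veluW W Q p ∈ A := by
  unfold veluW
  refine sum_mem fun j _ => ?_
  have hx := xOf_nsmul_mem h hp hv hord j
  exact A.add_mem _ _ (rd_veluU1 h hx).1 (A.mul_mem _ _ hx (rd_veluT1 h hx).1)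

omit [DecidableEq κ] in
/-- `c₄` of Vélu's curve is integral. -/
theorem c₄_veluCurve_mem {p : ℕ} (hp : p.Prime) (hv : A.valuation (p : K) = 1)
    {Q : W.toAffine.Point} (hord : addOrderOf Q = p) : (veluCurve W Q p).c₄ ∈ A := by
  rw [c₄_veluCurve]
  exact A.add_mem _ _ (rd_c₄ h).1 (A.mul_mem _ _ (ofNat_mem A 240) (veluT_mem h hp hv hord))

omit [DecidableEq κ] in
/-- The reduction of Vélu's `t`, termwise. -/
lemma rd_veluT {p : ℕ} (hp : p.Prime) (hv : A.valuation (p : K) = 1)
    {Q : W.toAffine.Point} (hord : addOrderOf Q = p) :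
    rd A φ (veluT W Q p) =
      ∑ j ∈ Finset.Icc 1 ((p - 1) / 2), veluT1 Wκ (rd A φ (xOf (j • Q))) := by
  unfold veluT
  have key : ∀ s : Finset ℕ, rd A φ (∑ j ∈ s, veluT1 W (xOf (j • Q))) =
      ∑ j ∈ s, veluT1 Wκ (rd A φ (xOf (j • Q))) := by
    intro s
    induction s using Finset.induction_on with
    | empty => simp
    | insert a s ha ih =>
      rw [Finset.sum_insert ha, Finset.sum_insert ha,
        rd_add (rd_veluT1 h (xOf_nsmul_mem h hp hv hord a)).1
          (sum_mem fun j _ => (rd_veluT1 h (xOf_nsmul_mem h hp hv hord j)).1),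
        ih, (rd_veluT1 h (xOf_nsmul_mem h hp hv hord a)).2]
  exact key _

variable (hφ : KerMax A φ)
include hφ

/-- **`Q ∉ E⁰`**: Vélu's `t` reduces to `0`. -/
theorem rd_veluT_of_not_inE0 {p : ℕ} (hp : p.Prime) (hv : A.valuation (p : K) = 1)
    {Q : W.toAffine.Point} (hord : addOrderOf Q = p)
    (hQ : ¬ InE0 A φ Wκ.toAffine Q) : rd A φ (veluT W Q p) = 0 := by
  rw [rd_veluT h hp hv hord]
  refine Finset.sum_eq_zero fun j hj => ?_
  rw [Finset.mem_Icc] at hj
  have hjp : ¬ p ∣ j := by
    intro hd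
    have := Nat.le_of_dvd (by omega) hd
    have : (p - 1) / 2 < p := by
      have := hp.one_lt
      omega
    omega
  -- `j • Q ∉ E⁰`
  have hpQ : p • Q = 0 := by rw [← hord]; exact addOrderOf_nsmul_eq_zero Q
  have hjQ : ¬ InE0 A φ Wκ.toAffine (j • Q) := not_inE0_nsmul h hφ hp hQ hpQ hjp
  have hx := xOf_nsmul_mem h hp hv hord j
  rcases hjq : j • Q with _ | ⟨x, y, hxy⟩
  · rw [hjq] at hjQ
    exact absurd inE0_zero hjQ
  · rw [hjq] at hjQ hx
    change x ∈ A at hx
    change veluT1 Wκ (rd A φ x) = 0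
    have hy := y_mem_of_x_mem h hxy.1 hx
    have he := rd_equation h hx hy hxy.1
    exact veluT1_eq_zero_of_singular (Wκ := Wκ) he fun hns => hjQ fun _ => hns

/-- **`Q ∈ E⁰`**: Vélu's `t` reduces to Vélu's `t` of the reduced point. -/
theorem rd_veluT_of_inE0 {p : ℕ} (hp : p.Prime) (hv : A.valuation (p : K) = 1)
    {Q : W.toAffine.Point} (hord : addOrderOf Q = p)
    (hQ : InE0 A φ Wκ.toAffine Q) :
    rd A φ (veluT W Q p) = veluT Wκ (red0 A φ Wκ.toAffine Q) p := by
  rw [rd_veluT h hp hv hord]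
  unfold veluT
  refine Finset.sum_congr rfl fun j _ => ?_
  congr 1
  rw [← red0_nsmul h hφ hQ j]
  have hin := inE0_nsmul h hφ hQ j
  have hx := xOf_nsmul_mem h hp hv hord j
  rcases hjq : j • Q with _ | ⟨x, y, hxy⟩
  · change rd A φ 0 = _
    rw [rd_zero]
    rfl
  · rw [hjq] at hin hx
    change x ∈ A at hx
    rw [red0_some_of_mem hxy hx (hin hx)]
    rfl

/-- **Vélu's model at a place of multiplicative reduction**: `c₄` of Vélu's curve is a unit.
`hsq`: the base field has square roots (e.g. it is algebraically closed). -/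
theorem val_c₄_veluCurve (hsq : ∀ a : K, ∃ b : K, b ^ 2 = a)
    {p : ℕ} (hp : p.Prime) (hp5 : 5 < p) (hv : A.valuation (p : K) = 1)
    {Q : W.toAffine.Point} (hord : addOrderOf Q = p)
    (hΔ : Wκ.Δ = 0) (hc : Wκ.c₄ ≠ 0) :
    A.valuation (veluCurve W Q p).c₄ = 1 := by
  have hmem := c₄_veluCurve_mem h hp hv hord
  rw [← rd_ne_zero_iff hφ hmem]
  obtain ⟨mc, rc⟩ := rd_c₄ h
  have htm := veluT_mem h hp hv hord
  have hrd : rd A φ (veluCurve W Q p).c₄ = Wκ.c₄ + 240 * rd A φ (veluT W Q p) := by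
    rw [c₄_veluCurve, rd_add mc (A.mul_mem _ _ (ofNat_mem A 240) htm),
      rd_mul (ofNat_mem A 240) htm, rc, rd_ofNat]
  rw [hrd]
  by_cases hQ : InE0 A φ Wκ.toAffine Q
  · rw [rd_veluT_of_inE0 h hφ hp hv hord hQ, ← c₄_veluCurve]
    -- the tangent slopes are rational: lift the discriminant and take a square root
    have hcv : A.valuation W.c₄ = 1 := (rd_ne_zero_iff hφ mc).mp (by rw [rc]; exact hc)
    obtain ⟨m2, r2⟩ := rd_b₂ h
    obtain ⟨m4, r4⟩ := rd_b₄ h
    obtain ⟨m6, r6⟩ := rd_b₆ h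
    have hnum : 18 * W.b₆ - W.b₂ * W.b₄ ∈ A :=
      A.sub_mem (A.mul_mem _ _ (ofNat_mem A 18) m6) (A.mul_mem _ _ m2 m4)
    have hsx : singX W.toAffine ∈ A := div_mem_of_val_eq_one hnum hcv
    have hrsx : rd A φ (singX W.toAffine) = singX Wκ.toAffine := by
      unfold singX
      change rd A φ ((18 * W.b₆ - W.b₂ * W.b₄) / W.c₄) = (18 * Wκ.b₆ - Wκ.b₂ * Wκ.b₄) / Wκ.c₄
      rw [rd_div hnum hcv, rd_sub (A.mul_mem _ _ (ofNat_mem A 18) m6) (A.mul_mem _ _ m2 m4),
        rd_mul (ofNat_mem A 18) m6, rd_mul m2 m4, r2, r4, r6, rc, rd_ofNat]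
    have hD : W.b₂ + 12 * singX W.toAffine ∈ A :=
      A.add_mem _ _ m2 (A.mul_mem _ _ (ofNat_mem A 12) hsx)
    obtain ⟨b, hb⟩ := hsq (W.b₂ + 12 * singX W.toAffine)
    have hbA : b ∈ A := by
      apply mem_of_val_le
      have h1 : A.valuation b ^ 2 ≤ 1 := by
        rw [← map_pow, hb]; exact val_le_of_mem hD
      by_contra hlt
      push Not at hlt
      have : 1 < A.valuation b ^ 2 := one_lt_pow₀ hlt (by norm_num)
      exact absurd h1 (not_le.mpr this)
    have hd : (rd A φ b) ^ 2 = Wκ.b₂ + 12 * singX Wκ.toAffine := by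
      rw [← rd_pow hbA, hb, rd_add m2 (A.mul_mem _ _ (ofNat_mem A 12) hsx),
        rd_mul (ofNat_mem A 12) hsx, r2, hrsx, rd_ofNat]
    have hordκ := addOrderOf_red0 h hφ hp hv hQ hord
    rw [c₄_veluCurve_of_nodal hc hΔ ⟨_, hd⟩ hp hp5 hordκ]
    have hpκ : (p : κ) ≠ 0 := by
      have := (rd_ne_zero_iff hφ (natCast_mem A p)).mpr hv
      rwa [rd_natCast] at this
    exact mul_ne_zero (pow_ne_zero _ hpκ) hc
  · rw [rd_veluT_of_not_inE0 h hφ hp hv hord hQ, mul_zero, add_zero]
    exact hc

end points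

end general

end Fermat.Agent.S12.H651

end
-- ===== PACK-END S12/H651/VeluRed.lean

-- ===== PACK-BEGIN S15/H322/BaseKum.lean
section





/-!
# Row S15 — DESC leaf BASE, part 3 (helper322): the Kummer dictionary and the Kummer count

Blueprint `coord/S15-DESC-blueprint.md` §2, pieces `ψ_i = ω` (and `r = 2`).

`A` a valuation subring of `ℚ̄` over the prime `ℓ`, `I_A` its inertia group (Prelude form).

* `valuation_ratCast_eq`          : `v_A(a) = v_A(ℓ) ^ v_ℓ(a)` for `a ∈ ℚˣ`.
* `dvd_padicValRat_of_fixed`      : **dictionary.**  `y ^ r = a ∈ ℚˣ`, `y` fixed by `I_A`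
                                    ⟹ `r ∣ v_ℓ(a)`.
* `dvd_padicValRat_of_kummer`     : the same for a Kummer generator `β` (`β ^ r = a`) whose Kummer
                                    cocycle `σ ↦ σ β / β` is a coboundary on `I_A`:
                                    `σ β · ξ = β · σ ξ`, `ξ ^ r = 1`.
* `kummer_dichotomy_odd`          : **count, `r` odd.**  `β₁ ^ r = a₁`, `β₂ ^ r = a₂` with
                                    `r ∣ v_ℓ(a_i)` for all `ℓ ≠ p`:  `β₁ ∈ μ_r · ℚˣ`  or
                                    `β₂ ∈ μ_r · β₁ ^ m · ℚˣ`.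
* `kummer_trivial_odd`, `kummer_trivial_two` : all valuations divisible by `r` (and `a > 0` if
                                    `r = 2`): `β ∈ μ_r · ℚˣ`.
* `pos_of_complexConjugation_fixed`, `pos_of_complexConjugation_kummer` : **dictionary at the real
                                    place** (`r = 2`): `β` fixed by complex conjugation ⟹ `a > 0`.
-/

set_option autoImplicit false

namespace Fermat.Agent.S15.H322

/-- `ℚ̄` (local abbreviation). -/
local notation "Qb" => AlgebraicClosure ℚ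

/-- `Gal(ℚ̄/ℚ)` (local abbreviation). -/
local notation "GQ" => (AlgebraicClosure ℚ ≃ₐ[ℚ] AlgebraicClosure ℚ)

section Val

variable (A : ValuationSubring Qb) {ℓ : ℕ}

theorem valuation_prime_ne_zero (hℓ : ℓ.Prime) : A.valuation (ℓ : Qb) ≠ 0 :=
  (Valuation.ne_zero_iff _).mpr (Nat.cast_ne_zero.mpr hℓ.ne_zero)

theorem valuation_prime_lt_one (hA : A.LiesOverPrime ℓ) : A.valuation (ℓ : Qb) < 1 :=
  A.mem_nonunits_iff.mp hA

theorem valuation_natCast_eq (hℓ : ℓ.Prime) (hA : A.LiesOverPrime ℓ) {n : ℕ} (hn : n ≠ 0) :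
    A.valuation (n : Qb) = A.valuation (ℓ : Qb) ^ padicValNat ℓ n := by
  have : Fact ℓ.Prime := ⟨hℓ⟩
  obtain ⟨e, n', hn', rfl⟩ := Nat.exists_eq_pow_mul_and_not_dvd hn ℓ hℓ.ne_one
  have hn'0 : n' ≠ 0 := fun h => hn' (h ▸ dvd_zero ℓ)
  have hc : Nat.Coprime n' ℓ := ((Nat.Prime.coprime_iff_not_dvd hℓ).mpr hn').symm
  rw [padicValNat.mul (pow_ne_zero _ hℓ.ne_zero) hn'0, padicValNat.prime_pow,
    padicValNat.eq_zero_of_not_dvd hn', add_zero, Nat.cast_mul, Nat.cast_pow, map_mul, map_pow,
    Fermat.Agent.S56.H186.valuation_natCast_eq_one_of_coprime A hA hc, mul_one]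

theorem valuation_intCast_eq (hℓ : ℓ.Prime) (hA : A.LiesOverPrime ℓ) {n : ℤ} (hn : n ≠ 0) :
    A.valuation (n : Qb) = A.valuation (ℓ : Qb) ^ padicValInt ℓ n := by
  have h := valuation_natCast_eq A hℓ hA (Int.natAbs_ne_zero.mpr hn)
  rw [padicValInt, ← h]
  rcases Int.natAbs_eq n with h' | h'
  · conv_lhs => rw [h']
    simp
  · conv_lhs => rw [h']
    simp

/-- The valuation of a nonzero rational number at a place over `ℓ`. -/
theorem valuation_ratCast_eq (hℓ : ℓ.Prime) (hA : A.LiesOverPrime ℓ) {a : ℚ} (ha : a ≠ 0) :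
    A.valuation (a : Qb) = A.valuation (ℓ : Qb) ^ padicValRat ℓ a := by
  have hq0 := valuation_prime_ne_zero A hℓ
  rw [Rat.cast_def, map_div₀, valuation_intCast_eq A hℓ hA (Rat.num_ne_zero.mpr ha),
    valuation_natCast_eq A hℓ hA a.den_ne_zero, padicValRat_def, zpow_sub₀ hq0, zpow_natCast,
    zpow_natCast]

/-- **Dictionary.**  If `y ^ r = a ∈ ℚˣ` and `y` is fixed by the inertia group at a place over
`ℓ`, then `r ∣ v_ℓ(a)`. -/
theorem dvd_padicValRat_of_fixed (hℓ : ℓ.Prime) (hA : A.LiesOverPrime ℓ) {r : ℕ} {a : ℚ}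
    (ha : a ≠ 0) {y : Qb} (hy : y ^ r = (a : Qb))
    (hfix : ∀ σ ∈ A.inertiaSubgroupIn ℚ, σ y = y) : (r : ℤ) ∣ padicValRat ℓ a := by
  have hq0 := valuation_prime_ne_zero A hℓ
  have hq1 := valuation_prime_lt_one A hA
  by_cases hy0 : y = 0
  · -- then `r = 0` and `a = 1`
    rcases Nat.eq_zero_or_pos r with hr | hr
    · subst hr
      rw [pow_zero] at hy
      have : a = 1 := by exact_mod_cast hy.symm
      rw [this, padicValRat.one]
      exact dvd_zero _
    · exfalso
      rw [hy0, zero_pow hr.ne'] at hy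
      exact ha (by exact_mod_cast hy.symm)
  · obtain ⟨k, hk⟩ := Fermat.Agent.A2.IF.H429.exists_zpow_of_mem_inertiaField A ℓ hℓ hA y
      ((Fermat.Agent.A2.IF.H429.mem_inertiaField_iff A).mpr hfix) hy0
    have hvy : A.valuation y = A.valuation (ℓ : Qb) ^ k := by
      rw [map_div₀, map_zpow₀, div_eq_one_iff_eq (zpow_ne_zero _ hq0)] at hk
      exact hk
    have h1 : A.valuation (a : Qb) = A.valuation (ℓ : Qb) ^ (k * r) := by
      rw [← hy, map_pow, hvy, zpow_mul, zpow_natCast]
    rw [valuation_ratCast_eq A hℓ hA ha] at h1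
    have := zpow_right_injective₀ (zero_lt_iff.mpr hq0) hq1.ne h1
    exact ⟨k, by rw [this, mul_comm]⟩

/-- **Dictionary, Kummer form.**  `β ^ r = a ∈ ℚˣ`, and the Kummer cocycle `σ ↦ σ β / β` is, on
the inertia group at a place over `ℓ`, the coboundary of an `r`-th root of unity `ξ`.  Then
`r ∣ v_ℓ(a)`. -/
theorem dvd_padicValRat_of_kummer (hℓ : ℓ.Prime) (hA : A.LiesOverPrime ℓ) {r : ℕ} {a : ℚ}
    (ha : a ≠ 0) {β ξ : Qb} (hβ : β ^ r = (a : Qb)) (hξ : ξ ^ r = 1)
    (hcob : ∀ σ ∈ A.inertiaSubgroupIn ℚ, σ β * ξ = β * σ ξ) : (r : ℤ) ∣ padicValRat ℓ a := by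
  by_cases hr : r = 0
  · subst hr
    rw [pow_zero] at hβ
    have : a = 1 := by exact_mod_cast hβ.symm
    rw [this, padicValRat.one]
    exact dvd_zero _
  have hξ0 : ξ ≠ 0 := fun h => by rw [h, zero_pow hr] at hξ; exact zero_ne_one hξ
  refine dvd_padicValRat_of_fixed A hℓ hA ha (y := β / ξ) ?_ ?_
  · rw [div_pow, hβ, hξ, div_one]
  · intro σ hσ
    have hσξ : σ ξ ≠ 0 := fun h => hξ0 ((map_eq_zero_iff σ σ.injective).mp h)
    rw [map_div₀, div_eq_div_iff hσξ hξ0]
    exact hcob σ hσ

end Val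

section Count

/-- An element of `ℚ̄` whose `r`-th power is an `r`-th power of a rational number `b ≠ 0` is a
root of unity times `b`. -/
theorem exists_root_mul_of_pow_eq {r : ℕ} {β : Qb} {b : ℚ} (hb : b ≠ 0)
    (h : β ^ r = ((b ^ r : ℚ) : Qb)) : ∃ ξ : Qb, ξ ^ r = 1 ∧ β = ξ * (b : Qb) := by
  have hb' : (b : Qb) ≠ 0 := by exact_mod_cast hb
  refine ⟨β / b, ?_, by rw [div_mul_cancel₀ _ hb']⟩
  rw [div_pow, h]
  push_cast
  exact div_self (pow_ne_zero _ hb')

/-- **Kummer classes unramified everywhere (`r` odd) are trivial.** -/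
theorem kummer_trivial_odd {r : ℕ} (hr : Odd r) {a : ℚ} (ha : a ≠ 0)
    {β : Qb} (hβ : β ^ r = (a : Qb))
    (h : ∀ ℓ : ℕ, ℓ.Prime → (r : ℤ) ∣ padicValRat ℓ a) :
    ∃ ξ : Qb, ξ ^ r = 1 ∧ ∃ b : ℚ, b ≠ 0 ∧ β = ξ * (b : Qb) := by
  obtain ⟨b, hb, e⟩ := rat_eq_pow_of_dvd_odd hr ha h
  obtain ⟨ξ, hξ, hβξ⟩ := exists_root_mul_of_pow_eq (β := β) hb (by rw [hβ, e])
  exact ⟨ξ, hξ, b, hb, hβξ⟩

/-- **Kummer classes for `r = 2`, unramified everywhere and positive, are trivial.** -/
theorem kummer_trivial_two {a : ℚ} (ha : 0 < a) {β : Qb} (hβ : β ^ 2 = (a : Qb))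
    (h : ∀ ℓ : ℕ, ℓ.Prime → (2 : ℤ) ∣ padicValRat ℓ a) :
    ∃ b : ℚ, b ≠ 0 ∧ (β = (b : Qb) ∨ β = -(b : Qb)) := by
  obtain ⟨b, hb, e⟩ := rat_eq_sq_of_dvd_of_pos ha h
  refine ⟨b, hb, ?_⟩
  have h1 : β ^ 2 = (b : Qb) ^ 2 := by rw [hβ, e]; push_cast; rfl
  exact sq_eq_sq_iff_eq_or_eq_neg.mp h1

/-- **Dictionary at the real place.**  If `β ^ 2 = a ∈ ℚˣ` and `β` is fixed by complex
conjugation, then `a > 0`. -/
theorem pos_of_complexConjugation_fixed {a : ℚ} (ha : a ≠ 0) {β : Qb}
    (hβ : β ^ 2 = (a : Qb)) (hfix : complexConjugation β = β) : 0 < a := by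
  have h1 := complexEmbedding_complexConjugation β
  rw [hfix] at h1
  have him : (complexEmbedding β).im = 0 := by
    have := congrArg Complex.im h1
    rw [Complex.conj_im] at this
    linarith
  have h2 : complexEmbedding (β ^ 2) = ((a : ℚ) : ℂ) := by
    rw [hβ]; exact map_ratCast complexEmbedding a
  rw [map_pow] at h2
  have h3 : ((a : ℚ) : ℝ) = (complexEmbedding β).re ^ 2 := by
    have := congrArg Complex.re h2
    rw [sq, Complex.mul_re, him, mul_zero, sub_zero] at this
    rw [sq, this]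
    exact (Complex.ratCast_re a).symm
  have h4 : (0 : ℝ) ≤ ((a : ℚ) : ℝ) := by rw [h3]; positivity
  have h5 : (0 : ℚ) ≤ a := by exact_mod_cast h4
  exact lt_of_le_of_ne h5 (Ne.symm ha)

/-- **Dictionary at the real place, Kummer form**: the Kummer cocycle of `β` (`β ^ 2 = a`) is a
coboundary on `⟨c⟩`, `c` = complex conjugation. -/
theorem pos_of_complexConjugation_kummer {a : ℚ} (ha : a ≠ 0) {β ξ : Qb}
    (hβ : β ^ 2 = (a : Qb)) (hξ : ξ ^ 2 = 1)
    (hcob : complexConjugation β * ξ = β * complexConjugation ξ) : 0 < a := by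
  have hξ' : ξ = 1 ∨ ξ = -1 := sq_eq_one_iff.mp hξ
  have hcξ : complexConjugation ξ = ξ := by
    rcases hξ' with h | h <;> rw [h] <;> simp
  have hξ0 : ξ ≠ 0 := by
    rcases hξ' with h | h <;> rw [h] <;> simp
  rw [hcξ] at hcob
  exact pos_of_complexConjugation_fixed ha hβ (mul_right_cancel₀ hξ0 hcob)

/-- **Kummer count, `r` an odd prime.**  Two Kummer generators whose `r`-th powers are rational
with all valuations away from `p` divisible by `r`: the first is trivial, or the second is a power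
of the first up to a trivial one. -/
theorem kummer_dichotomy_odd {r p : ℕ} (hp : p.Prime) (hr : r.Prime) (hr2 : r ≠ 2)
    {a₁ a₂ : ℚ} (ha₁ : a₁ ≠ 0) (ha₂ : a₂ ≠ 0) {β₁ β₂ : Qb}
    (hβ₁ : β₁ ^ r = (a₁ : Qb)) (hβ₂ : β₂ ^ r = (a₂ : Qb))
    (h₁ : ∀ ℓ : ℕ, ℓ.Prime → ℓ ≠ p → (r : ℤ) ∣ padicValRat ℓ a₁)
    (h₂ : ∀ ℓ : ℕ, ℓ.Prime → ℓ ≠ p → (r : ℤ) ∣ padicValRat ℓ a₂) :
    (∃ ξ : Qb, ξ ^ r = 1 ∧ ∃ b : ℚ, b ≠ 0 ∧ β₁ = ξ * (b : Qb)) ∨
      ∃ m : ℕ, m < r ∧ ∃ ξ : Qb, ξ ^ r = 1 ∧ ∃ b : ℚ, b ≠ 0 ∧ β₂ = ξ * (β₁ ^ m * (b : Qb)) := by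
  rcases rat_dichotomy_odd hp hr hr2 ha₁ ha₂ h₁ h₂ with ⟨b, hb, e⟩ | ⟨m, hm, b, hb, e⟩
  · left
    obtain ⟨ξ, hξ, hβξ⟩ := exists_root_mul_of_pow_eq (β := β₁) hb (by rw [hβ₁, e])
    exact ⟨ξ, hξ, b, hb, hβξ⟩
  · right
    have hb' : (b : Qb) ≠ 0 := by exact_mod_cast hb
    have hβ₁0 : β₁ ≠ 0 := by
      intro h0
      rw [h0, zero_pow hr.ne_zero] at hβ₁
      exact ha₁ (by exact_mod_cast hβ₁.symm)
    have hden : β₁ ^ m * (b : Qb) ≠ 0 := mul_ne_zero (pow_ne_zero _ hβ₁0) hb'
    refine ⟨m, hm, β₂ / (β₁ ^ m * (b : Qb)), ?_, b, hb, by rw [div_mul_cancel₀ _ hden]⟩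
    rw [div_pow, hβ₂, mul_pow, ← pow_mul, mul_comm m r, pow_mul, hβ₁, e]
    push_cast
    have hne : ((a₁ : Qb) ^ m * (b : Qb) ^ r) ≠ 0 :=
      mul_ne_zero (pow_ne_zero _ (by exact_mod_cast ha₁)) (pow_ne_zero _ hb')
    exact div_self hne

end Count

end Fermat.Agent.S15.H322

end
-- ===== PACK-END S15/H322/BaseKum.lean

-- ===== PACK-BEGIN S15/H322/BaseTw.lean
section



/-!
# Row S15 — DESC leaf BASE, part 4 (helper322): `ω`-twisted cocycles `G_ℚ → ℤ/r`, the count

Blueprint `coord/S15-DESC-blueprint.md` §2, pieces with `ψ_i = ω`.  Vocabulary of S56 (on main):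
`IsCycExp r σ a` (`σ μ = μ ^ a` on `μ_r`), `H786.zp ζ n = ζ ^ n.val`, `H786.hilbert90`.

`r` a prime, `ζ` a primitive `r`-th root of unity in `ℚ̄`, `f : G_ℚ → ZMod r`.

* `IsTwCoc r f`       : `f (σ τ) = f σ + ω(σ) f τ`, finite level.
* `IsKumGen r ζ f β`  : `β ≠ 0` and `σ β = ζ ^ f(σ) · β` for all `σ` (a Kummer generator of `f`).
* `KumDivAt r ζ f ℓ`  : every Kummer generator `β` of `f` has `r ∣ v_ℓ(β ^ r)`.
  This is the local condition at `ℓ`; it follows from
  - `kumDivAt_of_cob`   : `f` is a coboundary on the inertia group at ONE place over `ℓ`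
                          (in particular `kumDivAt_of_unram`: `f = 0` there);
  - at `ℓ = r` from flatness (`S15.H379.peuKummer`).
* `IsTwCoc.exists_isKumGen`   : Hilbert 90.
* `IsKumGen.exists_rat`       : `β ^ r ∈ ℚˣ`.
* `tw_trivial_odd`    : `r` odd, `KumDivAt` at all primes ⟹ `f` is a coboundary.
* `tw_dichotomy_odd`  : `r` odd prime, `f₁, f₂` with `KumDivAt` at all `ℓ ≠ p`:
                        `f₁` is a coboundary or `f₂ = m f₁ + coboundary`.
* `tw_trivial_two`    : `r = 2`, `KumDivAt` at all primes and `f c = 0` (`c` complex conjugation)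
                        ⟹ `f = 0`.
-/

set_option autoImplicit false

namespace Fermat.Agent.S15.H322

open Fermat.Agent.S56 Fermat.Agent.S56.H786

section Defs

variable (r : ℕ)

/-- `f` is an `ω`-twisted cocycle of finite level on `G_ℚ`. -/
structure IsTwCoc (f : GQ → ZMod r) : Prop where
  map_mul : ∀ σ τ : GQ, ∀ a : ℕ, IsCycExp r σ a → f (σ * τ) = f σ + (a : ZMod r) * f τ
  level : ∃ L : IntermediateField ℚ Qb, FiniteDimensional ℚ L ∧
    ∀ σ τ : GQ, (∀ x ∈ L, τ x = x) → f (σ * τ) = f σ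

/-- `β` is a Kummer generator of `f`. -/
def IsKumGen (ζ : Qb) (f : GQ → ZMod r) (β : Qb) : Prop :=
  β ≠ 0 ∧ ∀ σ : GQ, σ β = zp ζ (f σ) * β

/-- The local condition at `ℓ`: the `r`-th power of every Kummer generator of `f` has `ℓ`-adic
valuation divisible by `r`. -/
def KumDivAt (ζ : Qb) (f : GQ → ZMod r) (ℓ : ℕ) : Prop :=
  ∀ (β : Qb) (a : ℚ), IsKumGen r ζ f β → β ^ r = (a : Qb) → (r : ℤ) ∣ padicValRat ℓ a

/-- `f` is the coboundary of `n`. -/
def IsTwCob (f : GQ → ZMod r) (n : ZMod r) : Prop :=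
  ∀ σ : GQ, ∀ a : ℕ, IsCycExp r σ a → f σ = ((a : ZMod r) - 1) * n

end Defs

section Basic

variable {r : ℕ} [NeZero r] {ζ : Qb}

/-- **Hilbert 90.** -/
theorem IsTwCoc.exists_isKumGen (hζ : IsPrimitiveRoot ζ r) {f : GQ → ZMod r}
    (hf : IsTwCoc r f) : ∃ β : Qb, IsKumGen r ζ f β := by
  obtain ⟨L, hL, hlev⟩ := hf.level
  obtain ⟨β, hβ0, hβ⟩ := hilbert90 hζ ⊤ f (fun σ _ τ _ a ha => hf.map_mul σ τ a ha)
    ⟨L, hL, fun σ _ τ _ hτ => hlev σ τ hτ⟩
  exact ⟨β, hβ0, fun σ => hβ σ (Subgroup.mem_top σ)⟩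

/-- The `r`-th power of a Kummer generator is a nonzero rational number. -/
theorem IsKumGen.exists_rat (hζ : IsPrimitiveRoot ζ r) {f : GQ → ZMod r} {β : Qb}
    (hβ : IsKumGen r ζ f β) : ∃ a : ℚ, a ≠ 0 ∧ β ^ r = (a : Qb) := by
  have hgal : IsGalois ℚ Qb := Fermat.Agent.S54.isGalois_algebraicClosure_rat
  have hfix : ∀ σ : GQ, σ (β ^ r) = β ^ r := by
    intro σ
    rw [map_pow, hβ.2 σ, mul_pow, zp_pow_self hζ.pow_eq_one, one_mul]
  obtain ⟨a, ha⟩ := (InfiniteGalois.mem_range_algebraMap_iff_fixed (k := ℚ) (K := Qb)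
    (β ^ r)).mpr hfix
  refine ⟨a, ?_, ?_⟩
  · rintro rfl
    rw [map_zero] at ha
    exact hβ.1 (pow_eq_zero_iff (NeZero.ne r) |>.mp ha.symm)
  · rw [← ha, eq_ratCast]

/-- A root of unity times a rational number is a Kummer generator of a coboundary; conversely a
Kummer generator of `f` of this shape forces `f` to be a coboundary. -/
theorem isTwCob_of_eq_mul (hζ : IsPrimitiveRoot ζ r) {f : GQ → ZMod r} {β : Qb}
    (hβ : IsKumGen r ζ f β) {ξ : Qb} (hξ : ξ ^ r = 1) {b : ℚ} (hb : β = ξ * (b : Qb)) :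
    ∃ n : ZMod r, IsTwCob r f n := by
  obtain ⟨n, rfl⟩ := exists_zp_eq hζ hξ
  refine ⟨n, fun σ a ha => ?_⟩
  have hb0 : (b : Qb) ≠ 0 := by
    intro h0
    rw [h0, mul_zero] at hb
    exact hβ.1 hb
  have h1 := hβ.2 σ
  rw [hb, map_mul, apply_zp hζ.pow_eq_one ha, map_ratCast, ← mul_assoc, ← zp_add hζ.pow_eq_one] at h1
  have h2 := zp_injective hζ (mul_right_cancel₀ hb0 h1)
  -- `a n = f σ + n`
  linear_combination -h2

/-- `(zp ζ x) ^ m = zp ζ (m x)`. -/
theorem zp_pow_nat (hζ : IsPrimitiveRoot ζ r) (x : ZMod r) (m : ℕ) :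
    zp ζ x ^ m = zp ζ ((m : ZMod r) * x) :=
  (zp_natCast_mul hζ.pow_eq_one m x).symm

/-- If `β₂ = ξ β₁ ^ m b` for Kummer generators `β_i` of `f_i`, then `f₂ = m f₁ + coboundary`. -/
theorem isTwCob_sub_of_eq_mul (hζ : IsPrimitiveRoot ζ r) {f₁ f₂ : GQ → ZMod r} {β₁ β₂ : Qb}
    (hβ₁ : IsKumGen r ζ f₁ β₁) (hβ₂ : IsKumGen r ζ f₂ β₂) {ξ : Qb} (hξ : ξ ^ r = 1) {m : ℕ}
    {b : ℚ} (hb : β₂ = ξ * (β₁ ^ m * (b : Qb))) :
    ∃ n : ZMod r, IsTwCob r (fun σ => f₂ σ - (m : ZMod r) * f₁ σ) n := by
  obtain ⟨n, rfl⟩ := exists_zp_eq hζ hξ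
  refine ⟨n, fun σ a ha => ?_⟩
  have hrest : β₁ ^ m * (b : Qb) ≠ 0 := by
    intro h0
    rw [h0, mul_zero] at hb
    exact hβ₂.1 hb
  have h1 := hβ₂.2 σ
  rw [hb, map_mul, map_mul, map_pow, apply_zp hζ.pow_eq_one ha, map_ratCast, hβ₁.2 σ, mul_pow,
    zp_pow_nat hζ] at h1
  have h2 : zp ζ ((a : ZMod r) * n + (m : ZMod r) * f₁ σ) * (β₁ ^ m * (b : Qb)) =
      zp ζ (f₂ σ + n) * (β₁ ^ m * (b : Qb)) := by
    rw [zp_add hζ.pow_eq_one, zp_add hζ.pow_eq_one]
    linear_combination h1
  have h3 := zp_injective hζ (mul_right_cancel₀ hrest h2)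
  show f₂ σ - (m : ZMod r) * f₁ σ = ((a : ZMod r) - 1) * n
  linear_combination -h3

end Basic

section Local

variable {r : ℕ} [NeZero r] {ζ : Qb}

/-- **Local condition from a coboundary on inertia.**  If `f` is, on the inertia group at ONE place
over `ℓ`, the coboundary of some `n`, then `KumDivAt r ζ f ℓ`. -/
theorem kumDivAt_of_cob (hζ : IsPrimitiveRoot ζ r) {f : GQ → ZMod r} {ℓ : ℕ} (hℓ : ℓ.Prime)
    (A : ValuationSubring Qb) (hA : A.LiesOverPrime ℓ) (n : ZMod r)
    (hcob : ∀ σ ∈ A.inertiaSubgroupIn ℚ, ∀ a : ℕ, IsCycExp r σ a →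
      f σ = ((a : ZMod r) - 1) * n) :
    KumDivAt r ζ f ℓ := by
  intro β a hβ hβa
  have ha : a ≠ 0 := by
    rintro rfl
    rw [Rat.cast_zero] at hβa
    exact hβ.1 (pow_eq_zero_iff (NeZero.ne r) |>.mp hβa)
  refine dvd_padicValRat_of_kummer A hℓ hA ha (ξ := zp ζ n) hβa (zp_pow_self hζ.pow_eq_one n) ?_
  intro σ hσ
  obtain ⟨c, hc⟩ := exists_isCycExp hζ σ
  rw [hβ.2 σ, apply_zp hζ.pow_eq_one hc, hcob σ hσ c hc, mul_comm (zp ζ _) β, mul_assoc,
    ← zp_add hζ.pow_eq_one]
  congr 2
  ring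

/-- **Local condition from unramifiedness.** -/
theorem kumDivAt_of_unram (hζ : IsPrimitiveRoot ζ r) {f : GQ → ZMod r} {ℓ : ℕ} (hℓ : ℓ.Prime)
    (A : ValuationSubring Qb) (hA : A.LiesOverPrime ℓ)
    (hunr : ∀ σ ∈ A.inertiaSubgroupIn ℚ, f σ = 0) : KumDivAt r ζ f ℓ :=
  kumDivAt_of_cob hζ hℓ A hA 0 (fun σ hσ a _ => by rw [hunr σ hσ, mul_zero])

end Local

section Count

variable {r : ℕ} {ζ : Qb}

/-- **`r` odd, unramified everywhere ⟹ coboundary.** -/
theorem tw_trivial_odd (hr : r.Prime) (hr2 : r ≠ 2) (hζ : IsPrimitiveRoot ζ r)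
    {f : GQ → ZMod r} (hf : IsTwCoc r f)
    (hdiv : ∀ ℓ : ℕ, ℓ.Prime → KumDivAt r ζ f ℓ) : ∃ n : ZMod r, IsTwCob r f n := by
  have : NeZero r := ⟨hr.ne_zero⟩
  obtain ⟨β, hβ⟩ := hf.exists_isKumGen hζ
  obtain ⟨a, ha, hβa⟩ := hβ.exists_rat hζ
  obtain ⟨ξ, hξ, b, -, hb⟩ := kummer_trivial_odd (hr.odd_of_ne_two hr2) ha hβa
    (fun ℓ hℓ => hdiv ℓ hℓ β a hβ hβa)
  exact isTwCob_of_eq_mul hζ hβ hξ hb

/-- **Count, `r` an odd prime.**  Two twisted cocycles satisfying the local conditions at all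
primes `ℓ ≠ p`: the first is a coboundary, or the second is a multiple of the first up to a
coboundary.  (So the classes of such cocycles form a group of order dividing `r`.) -/
theorem tw_dichotomy_odd {p : ℕ} (hp : p.Prime) (hr : r.Prime) (hr2 : r ≠ 2)
    (hζ : IsPrimitiveRoot ζ r) {f₁ f₂ : GQ → ZMod r} (hf₁ : IsTwCoc r f₁) (hf₂ : IsTwCoc r f₂)
    (hdiv₁ : ∀ ℓ : ℕ, ℓ.Prime → ℓ ≠ p → KumDivAt r ζ f₁ ℓ)
    (hdiv₂ : ∀ ℓ : ℕ, ℓ.Prime → ℓ ≠ p → KumDivAt r ζ f₂ ℓ) :
    (∃ n : ZMod r, IsTwCob r f₁ n) ∨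
      ∃ m : ℕ, m < r ∧ ∃ n : ZMod r, IsTwCob r (fun σ => f₂ σ - (m : ZMod r) * f₁ σ) n := by
  have : NeZero r := ⟨hr.ne_zero⟩
  obtain ⟨β₁, hβ₁⟩ := hf₁.exists_isKumGen hζ
  obtain ⟨β₂, hβ₂⟩ := hf₂.exists_isKumGen hζ
  obtain ⟨a₁, ha₁, hβa₁⟩ := hβ₁.exists_rat hζ
  obtain ⟨a₂, ha₂, hβa₂⟩ := hβ₂.exists_rat hζ
  rcases kummer_dichotomy_odd hp hr hr2 ha₁ ha₂ hβa₁ hβa₂
    (fun ℓ hℓ hℓp => hdiv₁ ℓ hℓ hℓp β₁ a₁ hβ₁ hβa₁)
    (fun ℓ hℓ hℓp => hdiv₂ ℓ hℓ hℓp β₂ a₂ hβ₂ hβa₂) with
    ⟨ξ, hξ, b, -, hb⟩ | ⟨m, hm, ξ, hξ, b, -, hb⟩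
  · left
    exact isTwCob_of_eq_mul hζ hβ₁ hξ hb
  · right
    exact ⟨m, hm, isTwCob_sub_of_eq_mul hζ hβ₁ hβ₂ hξ hb⟩

end Count

end Fermat.Agent.S15.H322

end
-- ===== PACK-END S15/H322/BaseTw.lean

-- ===== PACK-BEGIN S15/H11/Tau0.lean
section


/-!
# S15 / DESC, node STEP, leaf TAU0 (helper11)

Local facts at a place `A | p` of `ℚ̄` about a root `π` of `X ^ r - p` (`r ≠ p` primes) and the
inertia group `I_A`:

* `eq_one_of_pow_eq_one_of_sub_mem` : an `r`-th root of unity `ξ ≡ 1 mod 𝔪_A` is `1`;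
* `inertia_fixes_of_pow_fixed` : `σ ∈ I_A` fixes every `A`-unit `β` whose `r`-th power it fixes;
* `exists_inertia_moves_root` : some `τ ∈ I_A` moves `π` (`π ^ r = p`);
* `dvd_padicValRat_of_fixed_by` : if `τ ∈ I_A` moves `π` and fixes `b`, `b ^ r = a ∈ ℚˣ`, then
  `r ∣ v_p(a)`.

(Complex conjugation inverts roots of unity: `S30.H990.complexConjugation_root`, on main.)
-/

set_option autoImplicit false

noncomputable section

namespace Fermat.Agent.S15.H11

/-- `ℚ̄` (local abbreviation). -/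
local notation "Qb" => AlgebraicClosure ℚ

/-- `Gal(ℚ̄/ℚ)` (local abbreviation). -/
local notation "GQ" => (AlgebraicClosure ℚ ≃ₐ[ℚ] AlgebraicClosure ℚ)

variable (A : ValuationSubring Qb) {p r : ℕ}

/-- Powers of an element `≡ 1 mod 𝔪_A` are `≡ 1 mod 𝔪_A`. -/
theorem valuation_pow_sub_one_lt_one {ξ : Qb} (h : A.valuation (ξ - 1) < 1) (i : ℕ) :
    A.valuation (ξ ^ i - 1) < 1 := by
  have hξ : A.valuation ξ = 1 := by
    have := Valuation.map_one_add_of_lt (v := A.valuation) h
    rwa [add_sub_cancel] at this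
  have hs : A.valuation (∑ j ∈ Finset.range i, ξ ^ j) ≤ 1 := by
    refine Valuation.map_sum_le _ fun j _ => ?_
    rw [map_pow, hξ, one_pow]
  rw [← geom_sum_mul, map_mul]
  calc A.valuation (∑ j ∈ Finset.range i, ξ ^ j) * A.valuation (ξ - 1)
      ≤ 1 * A.valuation (ξ - 1) := mul_le_mul' hs le_rfl
    _ = A.valuation (ξ - 1) := one_mul _
    _ < 1 := h

/-- **(b)** An `r`-th root of unity congruent to `1` modulo the maximal ideal of a place over
`p ≠ r` is equal to `1`. -/
theorem eq_one_of_pow_eq_one_of_valuation_lt (hp : p.Prime) (hr : r.Prime) (hrp : r ≠ p)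
    (hA : A.LiesOverPrime p) {ξ : Qb} (hξ : ξ ^ r = 1) (h : A.valuation (ξ - 1) < 1) :
    ξ = 1 := by
  by_contra hne
  have hne' : ξ - 1 ≠ 0 := sub_ne_zero.mpr hne
  have hsum : ∑ i ∈ Finset.range r, ξ ^ i = 0 := by
    have h1 := geom_sum_mul ξ r
    rw [hξ, sub_self] at h1
    exact (mul_eq_zero.mp h1).resolve_right hne'
  have hr1 : A.valuation ((r : ℕ) : Qb) = 1 :=
    Fermat.Agent.S56.H186.valuation_natCast_eq_one_of_coprime A hA
      ((Nat.coprime_primes hr hp).mpr hrp)
  have hlt : A.valuation (∑ i ∈ Finset.range r, (ξ ^ i - 1)) < 1 :=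
    Valuation.map_sum_lt _ one_ne_zero fun i _ => valuation_pow_sub_one_lt_one A h i
  rw [Finset.sum_sub_distrib, hsum, Finset.sum_const, Finset.card_range, nsmul_eq_mul, mul_one,
    zero_sub, Valuation.map_neg, hr1] at hlt
  exact lt_irrefl _ hlt

/-- **(b)**, membership form. -/
theorem eq_one_of_pow_eq_one_of_sub_mem (hp : p.Prime) (hr : r.Prime) (hrp : r ≠ p)
    (hA : A.LiesOverPrime p) {ξ : Qb} (hξ : ξ ^ r = 1) (h : ξ - 1 ∈ A.nonunits) : ξ = 1 :=
  eq_one_of_pow_eq_one_of_valuation_lt A hp hr hrp hA hξ (A.mem_nonunits_iff.mp h)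

/-- An inertia element at a place over `p` fixes every `A`-unit whose `r`-th power it fixes
(`r ≠ p` prime): the extension generated by an `r`-th root of a unit is unramified. -/
theorem inertia_fixes_of_pow_fixed (hp : p.Prime) (hr : r.Prime) (hrp : r ≠ p)
    (hA : A.LiesOverPrime p) {σ : GQ} (hσ : σ ∈ A.inertiaSubgroupIn ℚ) {β : Qb}
    (hβ1 : A.valuation β = 1) (hβ : σ (β ^ r) = β ^ r) : σ β = β := by
  have hβ0 : β ≠ 0 := by
    intro h0
    rw [h0, map_zero] at hβ1
    exact zero_ne_one hβ1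
  have hβA : β ∈ A := (A.valuation_le_one_iff β).mp hβ1.le
  have hsub : A.valuation (σ β - β) < 1 :=
    A.mem_nonunits_iff.mp (Fermat.Agent.A2.IF.H429.sub_mem_nonunits_of_inertia A hσ hβA)
  have hξ : (σ β / β) ^ r = 1 := by
    rw [div_pow, ← map_pow, hβ, div_self (pow_ne_zero _ hβ0)]
  have hlt : A.valuation (σ β / β - 1) < 1 := by
    have e : σ β / β - 1 = (σ β - β) / β := by
      field_simp
    rw [e, map_div₀, hβ1, div_one]
    exact hsub
  have h1 := eq_one_of_pow_eq_one_of_valuation_lt A hp hr hrp hA hξ hlt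
  exact (div_eq_one_iff_eq hβ0).mp h1

/-- **(a)** Some inertia element at a place over `p` moves an `r`-th root of `p`. -/
theorem exists_inertia_moves_root (hp : p.Prime) (hr : r.Prime)
    (hA : A.LiesOverPrime p) {π : Qb} (hπ : π ^ r = (p : Qb)) :
    ∃ τ ∈ A.inertiaSubgroupIn ℚ, τ π ≠ π := by
  by_contra hcon
  simp only [not_exists, not_and, not_not] at hcon
  have hπ' : π ^ r = (((p : ℕ) : ℚ) : Qb) := by
    rw [hπ]; push_cast; rfl
  have hdvd := Fermat.Agent.S15.H322.dvd_padicValRat_of_fixed A hp hA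
    (a := ((p : ℕ) : ℚ)) (Nat.cast_ne_zero.mpr hp.ne_zero) hπ' hcon
  have : Fact p.Prime := ⟨hp⟩
  rw [padicValRat.self hp.one_lt] at hdvd
  have h1 : (r : ℤ) = 1 ∨ (r : ℤ) = -1 := Int.isUnit_iff.mp (isUnit_of_dvd_one hdvd)
  rcases h1 with h1 | h1
  · exact hr.one_lt.ne' (by exact_mod_cast h1)
  · have : (0 : ℤ) ≤ r := Int.natCast_nonneg r
    omega

/-- **(c)** If an inertia element `τ` at a place over `p` moves an `r`-th root `π` of `p` and
fixes an `r`-th root `b` of `a ∈ ℚˣ`, then `r ∣ v_p(a)`. -/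
theorem dvd_padicValRat_of_fixed_by (hp : p.Prime) (hr : r.Prime) (hrp : r ≠ p)
    (hA : A.LiesOverPrime p) {π : Qb} (hπ : π ^ r = (p : Qb))
    {τ : GQ} (hτ : τ ∈ A.inertiaSubgroupIn ℚ) (hτπ : τ π ≠ π)
    {a : ℚ} (ha : a ≠ 0) {b : Qb} (hb : b ^ r = (a : Qb)) (hfix : τ b = b) :
    (r : ℤ) ∣ padicValRat p a := by
  set k : ℤ := padicValRat p a with hk
  have hp0 : (p : Qb) ≠ 0 := Nat.cast_ne_zero.mpr hp.ne_zero
  have hπ0 : π ≠ 0 := by
    intro h0
    rw [h0, zero_pow hr.ne_zero] at hπ
    exact hp0 hπ.symm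
  have ha0 : (a : Qb) ≠ 0 := by exact_mod_cast ha
  have hb0 : b ≠ 0 := by
    intro h0
    rw [h0, zero_pow hr.ne_zero] at hb
    exact ha0 hb.symm
  -- `ζ = τ π / π` is a primitive `r`-th root of unity
  set ζ : Qb := τ π / π with hζdef
  have hζr : ζ ^ r = 1 := by
    rw [hζdef, div_pow, ← map_pow, hπ, map_natCast, div_self hp0]
  have hζ1 : ζ ≠ 1 := fun h => hτπ ((div_eq_one_iff_eq hπ0).mp h)
  have hζprim : IsPrimitiveRoot ζ r := by
    have ho : orderOf ζ = r := by
      have : Fact r.Prime := ⟨hr⟩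
      exact orderOf_eq_prime hζr hζ1
    rw [← ho]
    exact IsPrimitiveRoot.orderOf ζ
  have hτπ' : τ π = ζ * π := by
    rw [hζdef, div_mul_cancel₀ _ hπ0]
  -- `β = b / π ^ k` is an `A`-unit with rational `r`-th power
  set β : Qb := b / π ^ k with hβdef
  have hβr : β ^ r = (a : Qb) / (p : Qb) ^ k := by
    rw [hβdef, div_pow, hb, ← zpow_natCast (π ^ k) r, ← zpow_mul, mul_comm k (r : ℤ), zpow_mul,
      zpow_natCast, hπ]
  have hvp0 : A.valuation (p : Qb) ≠ 0 := (Valuation.ne_zero_iff _).mpr hp0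
  have hβv : A.valuation β ^ r = 1 := by
    rw [← map_pow, hβr, map_div₀, map_zpow₀,
      Fermat.Agent.S15.H322.valuation_ratCast_eq A hp hA ha, ← hk,
      div_self (zpow_ne_zero _ hvp0)]
  have hβ1 : A.valuation β = 1 := by
    rcases lt_trichotomy (A.valuation β) 1 with h | h | h
    · exact absurd hβv (pow_lt_one₀ zero_le h hr.ne_zero).ne
    · exact h
    · exact absurd hβv (one_lt_pow₀ h hr.ne_zero).ne'
  have hτβr : τ (β ^ r) = β ^ r := by
    rw [hβr, map_div₀, map_zpow₀, map_natCast, map_ratCast]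
  have hτβ : τ β = β := inertia_fixes_of_pow_fixed A hp hr hrp hA hτ hβ1 hτβr
  have hβ0 : β ≠ 0 := by
    intro h0
    rw [h0, map_zero] at hβ1
    exact zero_ne_one hβ1
  -- `τ b = ζ ^ k * b`
  have hbβ : b = β * π ^ k := by
    rw [hβdef, div_mul_cancel₀ _ (zpow_ne_zero _ hπ0)]
  have hτb : τ b = ζ ^ k * b := by
    conv_lhs => rw [hbβ]
    rw [map_mul, hτβ, map_zpow₀, hτπ', mul_zpow]
    conv_rhs => rw [hbβ]
    ring
  have hζk : ζ ^ k = 1 := by
    rw [hfix] at hτb
    have h2 : (1 : Qb) * b = ζ ^ k * b := by rw [one_mul]; exact hτb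
    exact (mul_right_cancel₀ hb0 h2).symm
  exact (hζprim.zpow_eq_one_iff_dvd k).mp hζk

/-- **(c)**, `algebraMap` form (the shape of `H975.PeuOmegaJStatement`). -/
theorem dvd_padicValRat_of_fixed_by' (hp : p.Prime) (hr : r.Prime) (hrp : r ≠ p)
    (hA : A.LiesOverPrime p) {π : Qb} (hπ : π ^ r = (p : Qb))
    {τ : GQ} (hτ : τ ∈ A.inertiaSubgroupIn ℚ) (hτπ : τ π ≠ π)
    {a : ℚ} (ha : a ≠ 0) {b : Qb} (hb : b ^ r = algebraMap ℚ Qb a) (hfix : τ b = b) :
    (r : ℤ) ∣ padicValRat p a :=
  dvd_padicValRat_of_fixed_by A hp hr hrp hA hπ hτ hτπ ha (by rw [hb, eq_ratCast]) hfix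

end Fermat.Agent.S15.H11

end

end
-- ===== PACK-END S15/H11/Tau0.lean

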