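import Fermat.Prelude.Def_ModularCurve_ModularUnit
import Fermat.Prelude.Thm_ModularCurve_coeff_jqModC_pow_self
import Fermat.Prelude.Thm_ModularCurve_coeff_jqModC_pow_of_lt
import Fermat.Prelude.Def_FLTPrelim_Ramification
import Fermat.Prelude.Def_ModularCurve_HeckeModule
import Fermat.Prelude.Thm_ModularCurve_coeffMap_qExpand
import Mathlib
import Fermat.Agent.Pack.S15.AE4L3
import Fermat.Agent.Pack.S15.AE1L1
import Fermat.Agent.Pack.S15.AE0L3
import Fermat.Agent.Pack.S15.AE3L2
import Fermat.Agent.Pack.S15.AE4L2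
import Fermat.Agent.Pack.S15.AE3L1
import Fermat.Agent.Pack.S15.AE0L1
import Fermat.Agent.Pack.S15.AE2L0
import Fermat.Agent.Pack.S15.AE1L2
import Fermat.Agent.Pack.S15.AE3L0
import Fermat.Agent.Pack.S15.AE4L1
import Fermat.Agent.Pack.S15.AE0L2
import Fermat.Agent.Pack.S15.AE2L1
import Fermat.Agent.Pack.S15.AE4L0
import Fermat.Agent.Pack.S15.AE2L3
import Fermat.Agent.Pack.S15.AE1L0
import Fermat.Agent.Pack.S15.AE2L2

-- ===== PACK-BEGIN S29/H882/MeroPrim.lean
section


/-!
# S29 / MERO (helper882), part 4: `MC N = FC N`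

A primitive element `θ` of the function field over `ℚ̄` stays of degree `[SL₂(ℤ):Γ₀(N)]` over
`ℂ(j)` after base change (descent of relations), hence generates `MC N` over `ℂ(j)`.
-/

set_option autoImplicit false

noncomputable section

open UpperHalfPlane ModularGroup CongruenceSubgroup Polynomial ModularCurve IntermediateField
open scoped MatrixGroups Manifold Modular Real

namespace Fermat.Agent.S29.H882

open Fermat.Agent.S24 Fermat.Agent.S24.H648 Fermat.Agent.S24.H708 Fermat.Agent.S24.Deg457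

variable (N : ℕ) [NeZero N]

/-- A primitive element of the function field over `ℚ̄(j)`. -/
theorem exists_theta (P : ModularPackage N) : ∃ θ : FF N,
    (minpoly ↥(IntermediateField.adjoin Kbar {jF N}) θ).natDegree = Nat.card (XX N) := by
  haveI := P.finiteDimensional
  obtain ⟨θ, hθ⟩ := Field.exists_primitive_element ↥(IntermediateField.adjoin Kbar {jF N}) (FF N)
  refine ⟨θ, ?_⟩
  rw [(Field.primitive_element_iff_minpoly_natDegree_eq _ θ).mp hθ, P.finrank_eq]

/-- The base change of an element of the function field over `ℚ̄`, as a Laurent series over `ℂ`. -/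
def ΘL (θ : FF N) : LaurentSeries ℂ := coeffMap iotaC (θ : LaurentSeries Kbar)

theorem ΘL_mem_FC (θ : FF N) : ΘL N θ ∈ FC N :=
  coeffMap_mem_laurentBaseChange_of_mem iotaC _ θ.2

/-- The same element in `MC N`. -/
def ΘM (θ : FF N) : MC N := ⟨ΘL N θ, FC_le_MC N (ΘL_mem_FC N θ)⟩

theorem aeval_jF_ne_zero {t : Kbar[X]} (ht : t ≠ 0) :
    aeval (AdjoinSimple.gen Kbar (jF N)) t ≠ 0 := by
  intro h0
  apply aeval_JK_ne_zero Kbar ht
  have h1 := congrArg (algebraMap ↥(IntermediateField.adjoin Kbar {jF N}) (FF N)) h0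
  rw [← aeval_algebraMap_apply, map_zero, AdjoinSimple.algebraMap_gen] at h1
  have h2 := congrArg (algebraMap (FF N) (LaurentSeries Kbar)) h1
  rw [← aeval_algebraMap_apply, map_zero] at h2
  exact h2

theorem algebraMap_comp_aeval_jF :
    (algebraMap (FF N) (LaurentSeries Kbar)).comp
      ((aeval (jF N) : Kbar[X] →ₐ[Kbar] FF N).toRingHom) = evJ (JK Kbar) := by
  refine Polynomial.ringHom_ext ?_ ?_
  · intro c
    simp [evJ, ← IsScalarTower.algebraMap_apply]
  · simp [evJ]
    rfl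

theorem card_le_natDegree_minpoly (θ : FF N)
    (hθ : (minpoly ↥(IntermediateField.adjoin Kbar {jF N}) θ).natDegree = Nat.card (XX N)) :
    Nat.card (XX N) ≤ (minpoly ↥(IntermediateField.adjoin ℂ {jM N}) (ΘM N θ)).natDegree := by
  haveI := (finiteDimensional_and_finrank_le_MC N).1
  by_contra hlt
  rw [not_le] at hlt
  have hint : IsIntegral ↥(IntermediateField.adjoin ℂ {jM N}) (ΘM N θ) := IsIntegral.of_finite _ _
  have hp0 : minpoly ↥(IntermediateField.adjoin ℂ {jM N}) (ΘM N θ) ≠ 0 := minpoly.ne_zero hint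
  obtain ⟨t, Q, ht, hQ⟩ := exists_clear_denominators (K := ℂ) (jM N)
    (minpoly ↥(IntermediateField.adjoin ℂ {jM N}) (ΘM N θ))
  have hφinj : Function.Injective
      ((aeval (AdjoinSimple.gen ℂ (jM N)) : ℂ[X] →ₐ[ℂ] ℂ⟮jM N⟯).toRingHom) := by
    rw [injective_iff_map_eq_zero]
    intro t ht0
    by_contra h
    exact aeval_jM_ne_zero N h ht0
  have hQ0 : Q ≠ 0 := by
    intro h
    rw [h, Polynomial.map_zero] at hQ
    exact (mul_ne_zero (C_ne_zero.mpr ht) hp0) hQ.symm
  have hQd : Q.natDegree ≤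
      (minpoly ↥(IntermediateField.adjoin ℂ {jM N}) (ΘM N θ)).natDegree := by
    rw [← Polynomial.natDegree_map_eq_of_injective hφinj Q, hQ, natDegree_C_mul ht]
  have hroot : Q.eval₂ (evJ (JK ℂ)) (ΘL N θ) = 0 := by
    have h1 : aeval (ΘM N θ)
        (Q.map ((aeval (AdjoinSimple.gen ℂ (jM N)) : ℂ[X] →ₐ[ℂ] ℂ⟮jM N⟯).toRingHom)) = 0 := by
      rw [hQ, map_mul, minpoly.aeval, mul_zero]
    have h2 := congrArg (algebraMap (MC N) (LaurentSeries ℂ)) h1
    rw [map_zero, aeval_def, eval₂_map, Polynomial.hom_eval₂] at h2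
    have hcomp : (algebraMap (MC N) (LaurentSeries ℂ)).comp
        ((algebraMap ↥(IntermediateField.adjoin ℂ {jM N}) (MC N)).comp
          ((aeval (AdjoinSimple.gen ℂ (jM N)) : ℂ[X] →ₐ[ℂ] ℂ⟮jM N⟯).toRingHom))
        = evJ (JK ℂ) := by
      refine Polynomial.ringHom_ext ?_ ?_
      · intro c
        simp [evJ, ← IsScalarTower.algebraMap_apply]
      · simp [evJ]
        rfl
    rw [hcomp] at h2
    exact h2
  obtain ⟨Q', hQ'0, hQ'd, hQ'⟩ := exists_relation_of_coeffMap_ne_zero iotaC (JK Kbar)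
    (θ : LaurentSeries Kbar) _ Q hQ0 hQd (by rw [coeffMap_JK]; exact hroot)
  have hinc : Function.Injective (algebraMap (FF N) (LaurentSeries Kbar)) :=
    (algebraMap (FF N) (LaurentSeries Kbar)).injective
  have key := isIntegral_and_natDegree_le_of_relation (K := Kbar)
    (AdjoinSimple.gen Kbar (jF N)) (fun t ht => aeval_jF_ne_zero N ht) θ Q' hQ'0 _ hQ'd (by
      apply hinc
      rw [map_zero, Polynomial.hom_eval₂, AdjoinSimple.algebraMap_gen, algebraMap_comp_aeval_jF]
      exact hQ')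
  have := key.2
  omega

/-- `ΘM` is a primitive element of `MC N` over `ℂ(j)`. -/
theorem adjoin_ΘM_eq_top (θ : FF N)
    (hθ : (minpoly ↥(IntermediateField.adjoin Kbar {jF N}) θ).natDegree = Nat.card (XX N)) :
    IntermediateField.adjoin ↥(IntermediateField.adjoin ℂ {jM N}) {ΘM N θ} = ⊤ := by
  haveI := (finiteDimensional_and_finrank_le_MC N).1
  rw [Field.primitive_element_iff_minpoly_natDegree_eq]
  have h1 := card_le_natDegree_minpoly N θ hθ
  have h2 := (finiteDimensional_and_finrank_le_MC N).2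
  have h3 : (minpoly ↥(IntermediateField.adjoin ℂ {jM N}) (ΘM N θ)).natDegree ≤
      Module.finrank ↥(IntermediateField.adjoin ℂ {jM N}) (MC N) := minpoly.natDegree_le _
  omega

theorem coe_mem_FC_of_mem_adjoin_jM (e : ↥(IntermediateField.adjoin ℂ {jM N})) :
    (((e : MC N)) : LaurentSeries ℂ) ∈ FC N := by
  obtain ⟨r, s, hrs⟩ := (IntermediateField.mem_adjoin_simple_iff ℂ (e : MC N)).mp e.2
  have hr : ((aeval (jM N) r : MC N) : LaurentSeries ℂ) = aeval (JK ℂ) r := by
    have := (aeval_algebraMap_apply (LaurentSeries ℂ) (jM N) r).symm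
    exact this
  have hs : ((aeval (jM N) s : MC N) : LaurentSeries ℂ) = aeval (JK ℂ) s := by
    have := (aeval_algebraMap_apply (LaurentSeries ℂ) (jM N) s).symm
    exact this
  have hmem : ∀ t : ℂ[X], aeval (JK ℂ) t ∈ FC N := by
    intro t
    have := (aeval_algebraMap_apply (LaurentSeries ℂ) (⟨JK ℂ, JK_mem_FC N⟩ : FC N) t)
    have h2 : (algebraMap (FC N) (LaurentSeries ℂ)) (⟨JK ℂ, JK_mem_FC N⟩ : FC N) = JK ℂ := rfl
    rw [h2] at this
    rw [this]
    exact (aeval (⟨JK ℂ, JK_mem_FC N⟩ : FC N) t).2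
  rw [hrs]
  have : (((aeval (jM N) r / aeval (jM N) s : MC N)) : LaurentSeries ℂ)
      = aeval (JK ℂ) r / aeval (JK ℂ) s := by
    rw [← hr, ← hs]
    rfl
  rw [this]
  exact div_mem (hmem r) (hmem s)

/-- **`MC N ≤ FC N`**: every `q`-expansion of a good function lies in the function field. -/
theorem MC_le_FC : MC N ≤ FC N := by
  obtain ⟨P⟩ := nonempty_modularPackage N
  obtain ⟨θ, hθ⟩ := exists_theta N P
  have htop := adjoin_ΘM_eq_top N θ hθ
  intro y hy
  have hy' : (⟨y, hy⟩ : MC N) ∈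
      IntermediateField.adjoin ↥(IntermediateField.adjoin ℂ {jM N}) {ΘM N θ} := by
    rw [htop]; exact IntermediateField.mem_top
  have key : ∀ z : MC N,
      z ∈ IntermediateField.adjoin ↥(IntermediateField.adjoin ℂ {jM N}) {ΘM N θ} →
      (z : LaurentSeries ℂ) ∈ FC N := by
    intro z hz
    refine IntermediateField.adjoin_induction ↥(IntermediateField.adjoin ℂ {jM N})
      (p := fun (z : MC N) _ => ((z : MC N) : LaurentSeries ℂ) ∈ FC N) ?_ ?_ ?_ ?_ ?_ hz
    · intro x hx
      rw [Set.mem_singleton_iff] at hx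
      subst hx
      exact ΘL_mem_FC N θ
    · intro e
      exact coe_mem_FC_of_mem_adjoin_jM N e
    · intro x y _ _ hx hy
      exact add_mem hx hy
    · intro x _ hx
      exact inv_mem hx
    · intro x y _ _ hx hy
      exact mul_mem hx hy
  exact key ⟨y, hy⟩ hy'

theorem MC_eq_FC : MC N = FC N := le_antisymm (MC_le_FC N) (FC_le_MC N)

variable {N}

/-- **MERO (A)**: the `q`-expansion of a good function of level `N` lies in the function field of
`X₀(N)` over `ℂ`. -/
theorem mem_FC_of_mem_goodQ {b : LaurentSeries ℂ} (hb : b ∈ goodQ N) :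
    b ∈ laurentBaseChange ℂ (modularFunctionFieldFull N) :=
  MC_le_FC N (goodQ_le_MC N hb)

/-- **MERO (A)**, function form. -/
theorem qexpFun_mem_FC {f : ℍ → ℂ} (hf : f ∈ goodRing N) :
    qexpFun 1 f ∈ laurentBaseChange ℂ (modularFunctionFieldFull N) :=
  mem_FC_of_mem_goodQ (qexpFun_mem_goodQ hf)

/-- **MERO (A)**, `HasQExp` form. -/
theorem mem_FC_of_hasQExp {f : ℍ → ℂ} {b : LaurentSeries ℂ} (hf : f ∈ goodRing N)
    (hb : HasQExp 1 f b) : b ∈ laurentBaseChange ℂ (modularFunctionFieldFull N) :=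
  mem_FC_of_mem_goodQ ⟨f, hf, hb⟩

end Fermat.Agent.S29.H882

end
end
-- ===== PACK-END S29/H882/MeroPrim.lean

-- ===== PACK-BEGIN S29/M4b/Defs.lean
section
/-
S29 row, LAYER M, SUB-LAYER M4b (the Kummer map) — FROZEN interface definitions
(sub-architect: deputy helper822).  Namespace `Fermat.Agent.S29.M4b`.
Do not edit; propose changes via a note kind='question' stmt='S29'.

The relation `IsKum N p c x` ("`x` is the Kummer class of the character `c`"):
`x = [D]`, `p • D = div f` (landed `H455.IsKummerClass`), and after clearing poles by a `p`-th power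
`t ^ p` the function `f * t ^ p` is the `p`-th power of a holomorphic `U : ℍ → ℂ` which transforms
under `Γ₀(N)` by the character `γ ↦ ζ_p ^ c(γ)`.

"Analytic realisation" = equality of `q`-expansions at `i∞` (landed S24 / H882 language):
`G` realises `u ∈ FF N` iff `G ∈ S24.H648.goodRing N` (holomorphic, `Γ₀(N)`-invariant, all
`SL₂(ℤ)`-translates of at most exponential growth) and `qexpFun 1 G = coeffMap iotaC u`.
-/




set_option autoImplicit false

noncomputable section

open ModularCurve AlgebraicCurve CongruenceSubgroup UpperHalfPlane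
open scoped MatrixGroups Manifold

namespace Fermat.Agent.S29.M4b

open Fermat.Agent.S24 Fermat.Agent.S29

/-- The fixed primitive `p`-th root of unity `exp(2πi/p)`. -/
def zetaP (p : ℕ) : ℂ := Complex.exp (2 * Real.pi * Complex.I / p)

/-- `G : ℍ → ℂ` realises `u ∈ FF N = ℚ̄(j(q^d) : d ∣ N)`: `G` is a "good" function (holomorphic on
`ℍ`, `Γ₀(N)`-invariant, exponential growth at all cusps) whose `q`-expansion at `i∞` is `u`, the
coefficients being embedded by the fixed `Deg457.iotaC : ℚ̄ → ℂ`. -/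
def Realises (N : ℕ) [NeZero N] (u : FF N) (G : ℍ → ℂ) : Prop :=
  G ∈ H648.goodRing N ∧
    H708.qexpFun 1 G = coeffMap Deg457.iotaC ((u : FF N) : LaurentSeries Kbar)

/-- `U` transforms under `Γ₀(N)` by the character `γ ↦ ζ_p ^ c(γ)`. -/
def HasChar (N p : ℕ) (c : G0 N → ZMod p) (U : ℍ → ℂ) : Prop :=
  ∀ (γ : G0 N) (τ : ℍ), U ((γ : SL(2, ℤ)) • τ) = zetaP p ^ (c γ).val * U τ

/-- `U` is a twisted function of character `c`: holomorphic on `ℍ`, not identically zero, of
character `c`, with `U ^ p` good (i.e. `U` has at most exponential growth at every cusp). -/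
structure IsTwisted (N p : ℕ) (c : G0 N → ZMod p) (U : ℍ → ℂ) : Prop where
  mdiff : MDifferentiable 𝓘(ℂ) 𝓘(ℂ) U
  ne_zero : ∃ τ : ℍ, U τ ≠ 0
  hasChar : HasChar N p c U
  pow_mem : (fun τ => U τ ^ p) ∈ H648.goodRing N

/-- **The Kummer relation.**  `x ∈ J₀(N)(ℚ̄)` is the Kummer class of the character `c`. -/
def IsKum (N p : ℕ) [NeZero N] (c : G0 N → ZMod p) (x : JZero N) : Prop :=
  ∃ (f t : FF N) (U : ℍ → ℂ), t ≠ 0 ∧ H455.IsKummerClass (p : ℤ) f x ∧
    IsTwisted N p c U ∧ Realises N (f * t ^ p) (fun τ => U τ ^ p)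

/-- `c'` is the transfer (= Hecke image `T_ℓ c`) of `c`: `c'(γ) = ∑ᵢ c(δᵢ)` for EVERY
factorisation `αᵢ γ = δᵢ α_{π i}` (`αᵢ = heckeRep ℓ i` of `DefsM`).  For `ℓ ∤ N` prime the
factorisation exists and is unique (piece `HCoh`), so `c' = heckeCoh N ℓ c`. -/
def IsTransfer (N ℓ : ℕ) {A : Type*} [AddCommMonoid A] (c c' : G0 N → A) : Prop :=
  ∀ (γ : G0 N) (π : Option (Fin ℓ) → Option (Fin ℓ)) (δ : Option (Fin ℓ) → G0 N),
    (∀ i, IsHeckeFactor ℓ γ i (π i, δ i)) → c' γ = ∑ i, c (δ i)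

end Fermat.Agent.S29.M4b

end
end
-- ===== PACK-END S29/M4b/Defs.lean

-- ===== PACK-BEGIN S15/H422/UnitMem.lean
section






/-!
# S15 / P-C1 (helper422), part 1: the modular unit lies in the function field of `X₀(N)`

`gSer N = Δ(q)/Δ(q^N)` (the Prelude's `modularUnitSeries N`, base changed to `ℚ̄`) and
`uSer N = N¹² Δ(q^N)/Δ(q)` are elements of `modularFunctionFieldBar N`.

Inputs (all on main): helper589's analytic unit (`unitFun ∈ goodRing`, its `q`-expansion),
helper882's MERO theorem (`q`-expansions of good functions lie in the function field over `ℂ`)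
and his descent `F_ℂ ∩ ℚ̄((q)) = F_ℚ̄`.
-/

set_option autoImplicit false

noncomputable section

open ModularCurve HahnSeries UpperHalfPlane
open scoped MatrixGroups

namespace Fermat.Agent.S15.H422

open Fermat.Agent.S24 Fermat.Agent.S28

/-- `N¹² Δ(q^N)/Δ(q)` over `ℚ`. -/
def uSerQ (N : ℕ) [NeZero N] : LaurentSeries ℚ :=
  HahnSeries.C ((N : ℚ) ^ 12) * deltaSeriesN N * deltaSeries⁻¹

theorem uSerQ_mul_modularUnitSeries (N : ℕ) [NeZero N] :
    uSerQ N * modularUnitSeries N = HahnSeries.C ((N : ℚ) ^ 12) := by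
  have h1 := deltaSeries_ne_zero
  have h2 := deltaSeriesN_ne_zero N
  rw [uSerQ, modularUnitSeries]
  field_simp

theorem deltaSeries_eq_deltaq : deltaSeries = deltaq := rfl

theorem coeffMap_deltaSeries :
    coeffMap (algebraMap ℚ ℂ) deltaSeries = H565.deltaSeriesC := by
  rw [deltaSeries_eq_deltaq]
  exact H748.coeffMap_deltaq

theorem coeffMap_C {R S : Type*} [CommRing R] [CommRing S] (f : R →+* S) (c : R) :
    coeffMap f (HahnSeries.C c : LaurentSeries R) = HahnSeries.C (f c) := by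
  rw [HahnSeries.C_apply, coeffMap_single, HahnSeries.C_apply]

/-- the base change of `uSerQ` to `ℂ` is helper589's series. -/
theorem coeffMap_uSerQ (N : ℕ) [NeZero N] :
    coeffMap (algebraMap ℚ ℂ) (uSerQ N) = H589.unitSeriesC N := by
  have hinv : (H565.deltaSeriesC)⁻¹ = H565.deltaInvSeriesC :=
    inv_eq_of_mul_eq_one_right H565.deltaSeriesC_mul_inv
  rw [uSerQ, H589.unitSeriesC, map_mul, map_mul, coeffMap_C, map_inv₀, deltaSeriesN,
    coeffMap_qExpand, coeffMap_deltaSeries, hinv]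
  simp

/-- the unit function has the expected `q`-expansion, in helper708's sense. -/
theorem hasQExp_unitFun (N : ℕ) [NeZero N] (hN : 0 < N) :
    H708.HasQExp 1 (H589.unitFun N hN) (H589.unitSeriesC N) := by
  refine H708.HasQExp.of_hasSum (H589.mdifferentiable_unitFun N hN) ?_
  intro τ
  have h := H589.hasTExp_unitFun N hN τ
  simpa [H708.qh] using h

/-- the unit series over `ℂ` lies in the function field over `ℂ`. -/
theorem unitSeriesC_mem_FC (N : ℕ) [NeZero N] :
    H589.unitSeriesC N ∈ laurentBaseChange ℂ (modularFunctionFieldFull N) := by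
  have hN : 0 < N := Nat.pos_of_ne_zero (NeZero.ne N)
  exact Fermat.Agent.S29.H882.mem_FC_of_hasQExp (H589.unitFun_mem_goodRing N hN)
    (hasQExp_unitFun N hN)

/-- `N¹² Δ(q^N)/Δ(q)` over `ℚ̄`. -/
def uSer (N : ℕ) [NeZero N] : LaurentSeries Kbar := coeffEmb Kbar (uSerQ N)

/-- `Δ(q)/Δ(q^N)` over `ℚ̄`. -/
def gSer (N : ℕ) [NeZero N] : LaurentSeries Kbar := coeffEmb Kbar (modularUnitSeries N)

theorem uSer_mem (N : ℕ) [NeZero N] : uSer N ∈ modularFunctionFieldBar N := by
  refine Fermat.Agent.S29.H882.mem_laurentBaseChange_of_coeffMap_mem H997.ιK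
    (modularFunctionFieldFull N) ?_
  rw [uSer, Deg457.coeffMap_coeffEmb']
  show coeffMap (algebraMap ℚ ℂ) (uSerQ N) ∈ _
  rw [coeffMap_uSerQ]
  exact unitSeriesC_mem_FC N

theorem uSer_mul_gSer (N : ℕ) [NeZero N] :
    uSer N * gSer N = HahnSeries.C ((N : Kbar) ^ 12) := by
  rw [uSer, gSer, ← map_mul, uSerQ_mul_modularUnitSeries, coeffEmb, coeffMap_C]
  simp

theorem natCast_pow_ne_zero (N : ℕ) [NeZero N] : ((N : Kbar) ^ 12) ≠ 0 :=
  pow_ne_zero _ (Nat.cast_ne_zero.mpr (NeZero.ne N))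

theorem uSer_ne_zero (N : ℕ) [NeZero N] : uSer N ≠ 0 := by
  intro h
  have := uSer_mul_gSer N
  rw [h, zero_mul] at this
  have h2 := congrArg (fun s : LaurentSeries Kbar => s.coeff 0) this
  simp only [HahnSeries.coeff_zero, HahnSeries.C_apply, HahnSeries.coeff_single_same] at h2
  exact natCast_pow_ne_zero N h2.symm

theorem gSer_eq (N : ℕ) [NeZero N] :
    gSer N = HahnSeries.C ((N : Kbar) ^ 12) * (uSer N)⁻¹ := by
  rw [← uSer_mul_gSer N]
  field_simp [uSer_ne_zero N]

theorem C_mem (N : ℕ) (c : Kbar) :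
    (HahnSeries.C c : LaurentSeries Kbar) ∈ modularFunctionFieldBar N := by
  have : (HahnSeries.C c : LaurentSeries Kbar) = algebraMap Kbar (LaurentSeries Kbar) c := by
    rw [algebraMap_laurentSeries_eq_single]; rfl
  rw [this]
  exact (modularFunctionFieldBar N).algebraMap_mem c

theorem gSer_mem (N : ℕ) [NeZero N] : gSer N ∈ modularFunctionFieldBar N := by
  rw [gSer_eq]
  exact mul_mem (C_mem N _) (inv_mem (uSer_mem N))

/-- The modular unit `u = N¹² Δ(q^N)/Δ(q)` as an element of the function field of `X₀(N)`. -/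
def uF (N : ℕ) [NeZero N] : FF N := ⟨uSer N, uSer_mem N⟩

/-- The modular unit `g = Δ(q)/Δ(q^N)` as an element of the function field of `X₀(N)`. -/
def gF (N : ℕ) [NeZero N] : FF N := ⟨gSer N, gSer_mem N⟩

@[simp] theorem coe_uF (N : ℕ) [NeZero N] : ((uF N : FF N) : LaurentSeries Kbar) = uSer N := rfl

@[simp] theorem coe_gF (N : ℕ) [NeZero N] : ((gF N : FF N) : LaurentSeries Kbar) = gSer N := rfl

theorem uF_mul_gF (N : ℕ) [NeZero N] :
    uF N * gF N = algebraMap Kbar (FF N) ((N : Kbar) ^ 12) := by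
  apply Subtype.ext
  show uSer N * gSer N = algebraMap Kbar (LaurentSeries Kbar) ((N : Kbar) ^ 12)
  rw [uSer_mul_gSer, algebraMap_laurentSeries_eq_single]; rfl

theorem uF_ne_zero (N : ℕ) [NeZero N] : uF N ≠ 0 := fun h =>
  uSer_ne_zero N (congrArg Subtype.val h)

theorem gF_ne_zero (N : ℕ) [NeZero N] : gF N ≠ 0 := by
  intro h
  have := uF_mul_gF N
  rw [h, mul_zero] at this
  exact natCast_pow_ne_zero N ((algebraMap Kbar (FF N)).injective (by rw [← this, map_zero]))

end Fermat.Agent.S15.H422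

end
end
-- ===== PACK-END S15/H422/UnitMem.lean

-- ===== PACK-BEGIN A2/H528/FrickeDistinct.lean
section





/-!
# A2 / W — the element separating the two Gauss valuations `V∞` and `V₀ = V∞ ∘ w_N`

For a prime `ℓ ∣ N` put `u := j(q^ℓ) - j(q)^ℓ ∈ FF N` (`frobElt`).  Then

* `coe_frobElt`    : `u = ℓ · g` with `g ∈ ℤ((q))`          (so `u` is a non-unit at `V∞`);
* `wF_frobElt`     : `w_N u = j(q^{N/ℓ}) - j(q^N)^ℓ`;
* `coe_wF_frobElt` : `w_N u ∈ ℤ((q))` with coefficient `-1` at `q^{-Nℓ}`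
                                                           (so `w_N u` is a unit at `V∞`).
-/

set_option autoImplicit false
set_option synthInstance.maxHeartbeats 400000
set_option maxHeartbeats 1000000

noncomputable section

open ModularCurve HahnSeries AlgebraicCurve

namespace Fermat.Agent.A2.H528

open Fermat.Agent.S24 Fermat.Agent.S24.H997

/-- integral Laurent series, viewed in `ℚ̄((q))` -/
def intEmb : LaurentSeries ℤ →+* LaurentSeries Kbar := coeffMap (Int.castRingHom Kbar)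

@[simp] theorem intEmb_coeff (x : LaurentSeries ℤ) (k : ℤ) :
    (intEmb x).coeff k = ((x.coeff k : ℤ) : Kbar) := rfl

theorem intEmb_injective : Function.Injective intEmb := by
  intro x y h
  ext k
  have h1 := congrArg (fun s => s.coeff k) h
  simpa using h1

/-- `j(q^d)` over `ℤ` -/
def jZ (d : ℕ) [NeZero d] : LaurentSeries ℤ := qExpand ℤ d (jqModC ℤ)

theorem coeffEmb_jqd (d : ℕ) [NeZero d] :
    coeffEmb Kbar (qExpand ℚ d jq) = intEmb (jZ d) := by
  have h1 : jq = coeffMap (Int.castRingHom ℚ) (jqModC ℤ) := by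
    rw [← jqModC_rat]
    exact (map_jqModC (Int.castRingHom ℚ)).symm
  rw [h1, jZ, intEmb, coeffMap_qExpand, coeffEmb, coeffMap_qExpand, coeffMap_coeffMap]
  congr 1

variable (N : ℕ) [NeZero N] (ℓ : ℕ) [hℓ : Fact ℓ.Prime]

omit [NeZero N] in
theorem coe_jFd_int (d : ℕ) [NeZero d] (hd : d ∣ N) :
    ((jFd N d hd : FF N) : LaurentSeries Kbar) = intEmb (jZ d) := by
  rw [coe_jFd, coeffEmb_jqd]

/-- **The Frobenius element** `u = j(q^ℓ) - j(q)^ℓ` of `FF N`, `ℓ ∣ N`. -/
def frobElt (h : ℓ ∣ N) : FF N := jFd N ℓ h - jFd N 1 (one_dvd N) ^ ℓ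

omit [NeZero N] in
theorem coe_frobElt_eq (h : ℓ ∣ N) :
    ((frobElt N ℓ h : FF N) : LaurentSeries Kbar) = intEmb (jZ ℓ - jZ 1 ^ ℓ) := by
  show ((jFd N ℓ h : FF N) : LaurentSeries Kbar)
    - ((jFd N 1 (one_dvd N) : FF N) : LaurentSeries Kbar) ^ ℓ = _
  rw [coe_jFd_int, coe_jFd_int, map_sub, map_pow]

omit [NeZero N] in
/-- `u = ℓ · g` with `g ∈ ℤ((q))`: the Frobenius element is divisible by `ℓ`. -/
theorem coe_frobElt (h : ℓ ∣ N) :
    ∃ g : LaurentSeries ℤ, ((frobElt N ℓ h : FF N) : LaurentSeries Kbar)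
      = HahnSeries.C (ℓ : Kbar) * intEmb g := by
  obtain ⟨g, hg⟩ := exists_frobCong ℓ (jqModC ℤ)
  refine ⟨g, ?_⟩
  rw [coe_frobElt_eq]
  have h1 : jZ 1 = jqModC ℤ := qExpand_one_apply _
  rw [h1, jZ, hg, map_mul]
  congr 1
  show coeffMap (Int.castRingHom Kbar) (HahnSeries.single 0 (ℓ : ℤ)) = HahnSeries.single 0 (ℓ : Kbar)
  rw [coeffMap_single]
  simp

/-- `u = ℓ · g'` with `g' ∈ FF N` having integral `q`-expansion. -/
theorem exists_frobElt_eq_mul (h : ℓ ∣ N) :
    ∃ (g : LaurentSeries ℤ) (g' : FF N), ((g' : FF N) : LaurentSeries Kbar) = intEmb g ∧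
      frobElt N ℓ h = algebraMap Kbar (FF N) (ℓ : Kbar) * g' := by
  obtain ⟨g, hg⟩ := coe_frobElt N ℓ h
  have hℓ0 : (ℓ : Kbar) ≠ 0 := by exact_mod_cast hℓ.out.ne_zero
  have hc : algebraMap Kbar (FF N) (ℓ : Kbar) ≠ 0 := by
    rw [Ne, map_eq_zero_iff _ (algebraMap Kbar (FF N)).injective]
    exact hℓ0
  refine ⟨g, (algebraMap Kbar (FF N) (ℓ : Kbar))⁻¹ * frobElt N ℓ h, ?_, ?_⟩
  · have hC : ((algebraMap Kbar (FF N) (ℓ : Kbar) : FF N) : LaurentSeries Kbar)
        = HahnSeries.C (ℓ : Kbar) := by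
      show algebraMap Kbar (LaurentSeries Kbar) (ℓ : Kbar) = _
      rw [algebraMap_laurentSeries_eq_single]
      rfl
    have hC0 : (HahnSeries.C (ℓ : Kbar) : LaurentSeries Kbar) ≠ 0 := by
      rw [← hC]
      exact fun h0 => hc (Subtype.ext h0)
    show ((algebraMap Kbar (FF N) (ℓ : Kbar) : FF N) : LaurentSeries Kbar)⁻¹
      * ((frobElt N ℓ h : FF N) : LaurentSeries Kbar) = _
    rw [hC, hg, ← mul_assoc, inv_mul_cancel₀ hC0, one_mul]
  · rw [← mul_assoc, mul_inv_cancel₀ hc, one_mul]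

omit [NeZero N] in
theorem jFd_congr {d d' : ℕ} [NeZero d] [NeZero d'] (hd : d ∣ N) (hd' : d' ∣ N) (h : d = d') :
    jFd N d hd = jFd N d' hd' := by
  subst h
  rfl

/-- `w_N u = j(q^{N/ℓ}) - j(q^N)^ℓ`. -/
theorem wF_frobElt (h : ℓ ∣ N) :
    haveI := neZero_div N h
    wF N (frobElt N ℓ h) = jFd N (N / ℓ) (Nat.div_dvd_of_dvd h) - jFd N N dvd_rfl ^ ℓ := by
  have := neZero_div N h
  have := neZero_div N (one_dvd N)
  rw [frobElt, map_sub, map_pow, wF_jFd, wF_jFd]
  congr 2
  exact jFd_congr N _ _ (Nat.div_one N)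

theorem coeff_jZ_pow_top (d n : ℕ) [NeZero d] :
    ((jZ d) ^ n).coeff (-((d * n : ℕ) : ℤ)) = 1 := by
  rw [jZ, ← map_pow,
    show (-((d * n : ℕ) : ℤ)) = (d : ℤ) * (-(n : ℤ)) by push_cast; ring, qExpand_coeff_mul]
  exact coeff_jqModC_pow_self ℤ n

theorem coeff_jZ_of_lt (d : ℕ) [NeZero d] {k : ℤ} (hk : k < -(d : ℤ)) :
    (jZ d).coeff k = 0 := by
  rw [jZ]
  by_cases hdk : (d : ℤ) ∣ k
  · obtain ⟨m, rfl⟩ := hdk
    rw [qExpand_coeff_mul]
    have hd0 : 0 < (d : ℤ) := by exact_mod_cast Nat.pos_of_ne_zero (NeZero.ne d)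
    have hm : m < -((1 : ℕ) : ℤ) := by
      have : (d : ℤ) * m < (d : ℤ) * (-1) := by linarith
      have := lt_of_mul_lt_mul_left this hd0.le
      simpa using this
    have h1 := coeff_jqModC_pow_of_lt ℤ (b := 1) (m := m) hm
    simpa using h1
  · exact qExpand_coeff_of_not_dvd d _ hdk

/-- `w_N u` has an integral `q`-expansion with coefficient `-1` at `q^{-Nℓ}`. -/
theorem coe_wF_frobElt (h : ℓ ∣ N) :
    ∃ g : LaurentSeries ℤ, ((wF N (frobElt N ℓ h) : FF N) : LaurentSeries Kbar) = intEmb g ∧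
      g.coeff (-((N * ℓ : ℕ) : ℤ)) = -1 := by
  have := neZero_div N h
  have hN : 0 < N := Nat.pos_of_ne_zero (NeZero.ne N)
  have hℓ1 : 1 < ℓ := hℓ.out.one_lt
  refine ⟨jZ (N / ℓ) - jZ N ^ ℓ, ?_, ?_⟩
  · rw [wF_frobElt]
    show ((jFd N (N / ℓ) (Nat.div_dvd_of_dvd h) : FF N) : LaurentSeries Kbar)
      - ((jFd N N dvd_rfl : FF N) : LaurentSeries Kbar) ^ ℓ = _
    rw [coe_jFd_int, coe_jFd_int, map_sub, map_pow]
  · rw [HahnSeries.coeff_sub, coeff_jZ_pow_top, coeff_jZ_of_lt, zero_sub]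
    have h1 : N / ℓ ≤ N := Nat.div_le_self N ℓ
    have h2 : N < N * ℓ := by
      calc N = N * 1 := (mul_one N).symm
        _ < N * ℓ := (Nat.mul_lt_mul_left hN).mpr hℓ1
    have h3 : ((N / ℓ : ℕ) : ℤ) < ((N * ℓ : ℕ) : ℤ) := by exact_mod_cast lt_of_le_of_lt h1 h2
    linarith

/-- **`V∞ ≠ V₀`.**  Let `V` be a valuation subring of `FF N` which contains the functions with
integral `q`-expansion, in which those with a coefficient `±1` are units, and in which the prime
`ℓ ∣ N` is not a unit (e.g. the Gauss valuation ring above `ℓ` of the expansion at `∞`).  Then the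
Frobenius element `u = j(q^ℓ) - j^ℓ` is a non-unit of `V` and a unit of `V ∘ w_N`; in particular
`V ∘ w_N ≠ V`. -/
theorem frobElt_separates (h : ℓ ∣ N) (V : ValuationSubring (FF N))
    (hint : ∀ (f : FF N) (g : LaurentSeries ℤ), ((f : FF N) : LaurentSeries Kbar) = intEmb g → f ∈ V)
    (hunit : ∀ (f : FF N) (g : LaurentSeries ℤ) (k : ℤ),
      ((f : FF N) : LaurentSeries Kbar) = intEmb g → g.coeff k = -1 → f⁻¹ ∈ V)
    (hℓV : (algebraMap Kbar (FF N) (ℓ : Kbar))⁻¹ ∉ V) :
    (frobElt N ℓ h)⁻¹ ∉ V ∧ (frobElt N ℓ h)⁻¹ ∈ comapW N V := by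
  constructor
  · intro hu
    obtain ⟨g, g', hg', hmul⟩ := exists_frobElt_eq_mul N ℓ h
    have hg'V : g' ∈ V := hint g' g hg'
    have hℓ0 : (ℓ : Kbar) ≠ 0 := by exact_mod_cast hℓ.out.ne_zero
    have hc : algebraMap Kbar (FF N) (ℓ : Kbar) ≠ 0 := by
      rw [Ne, map_eq_zero_iff _ (algebraMap Kbar (FF N)).injective]
      exact hℓ0
    have hu0 : frobElt N ℓ h ≠ 0 := by
      intro h0
      obtain ⟨g2, hg2, hcoef⟩ := coe_wF_frobElt N ℓ h
      rw [h0, map_zero] at hg2
      have : g2 = 0 := intEmb_injective (by rw [← hg2, map_zero]; rfl)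
      rw [this] at hcoef
      simp at hcoef
    have hkey : (algebraMap Kbar (FF N) (ℓ : Kbar))⁻¹ = g' * (frobElt N ℓ h)⁻¹ := by
      rw [eq_mul_inv_iff_mul_eq₀ hu0, hmul, ← mul_assoc, inv_mul_cancel₀ hc, one_mul]
    exact hℓV (hkey ▸ V.mul_mem _ _ hg'V hu)
  · rw [mem_comapW, map_inv₀]
    obtain ⟨g2, hg2, hcoef⟩ := coe_wF_frobElt N ℓ h
    exact hunit _ g2 _ hg2 hcoef

theorem comapW_ne (h : ℓ ∣ N) (V : ValuationSubring (FF N))
    (hint : ∀ (f : FF N) (g : LaurentSeries ℤ), ((f : FF N) : LaurentSeries Kbar) = intEmb g → f ∈ V)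
    (hunit : ∀ (f : FF N) (g : LaurentSeries ℤ) (k : ℤ),
      ((f : FF N) : LaurentSeries Kbar) = intEmb g → g.coeff k = -1 → f⁻¹ ∈ V)
    (hℓV : (algebraMap Kbar (FF N) (ℓ : Kbar))⁻¹ ∉ V) :
    comapW N V ≠ V := by
  intro heq
  obtain ⟨h1, h2⟩ := frobElt_separates N ℓ h V hint hunit hℓV
  rw [heq] at h2
  exact h1 h2

end Fermat.Agent.A2.H528

end
end
-- ===== PACK-END A2/H528/FrickeDistinct.lean

-- ===== PACK-BEGIN A2/Mod/H553/Fricke.lean
section




/-!
# A2 / MOD leaves L4 `FrickeExists`, L5 `FrickeCompat` (helper553)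

* `ringHom_ext_FE` : two ring homomorphisms out of `F_{N,E} = E(j_d : d ∣ N)` which agree on the
  constants `E` and on the generators `j_d` are equal;
* `wE E N : FE E N ≃ₐ[E] FE E N` : the Fricke involution over `E`, the restriction of
  `H528.wF N` along `ι : F_{N,E} → F̄_N` (`iota_wE`);
* `frickeExists : FrickeExistsStatement E`  (L4);
* `frickeCompat : FrickeCompatStatement E M q`  (L5);
* `IsFricke` determines `W` (`isFricke_unique`).
-/

set_option autoImplicit false
set_option synthInstance.maxHeartbeats 400000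
set_option maxHeartbeats 1600000
set_option linter.unusedSectionVars false
set_option linter.style.haveILetI false

noncomputable section

namespace Fermat.Agent.A2.Mod.H553

open ModularCurve HahnSeries Polynomial IntermediateField
open Fermat.Agent.A2 Fermat.Agent.A2.Mod Fermat.Agent.S18.H602

variable (E : IntermediateField ℚ _root_.Fermat.Agent.A2.Mod.Qb)

/-! ### Extensionality for ring homomorphisms out of `F_{N,E}` -/

theorem coeffEmb_algebraMap_rat (c : ℚ) :
    coeffEmb (↥E) (algebraMap ℚ (LaurentSeries ℚ) c) =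
      algebraMap (↥E) (LaurentSeries ↥E) (algebraMap ℚ (↥E) c) := by
  rw [algebraMap_apply_eq_single, algebraMap_laurentSeries_eq_single, coeffEmb,
    coeffMap_single]

/-- Two ring homomorphisms out of `F_{N,E}` agreeing on `E` and on the `j_d`, `d ∣ N`, agree. -/
theorem ringHom_ext_FE {N : ℕ} {K : Type*} [DivisionRing K] (φ ψ : ↥(_root_.Fermat.Agent.A2.Mod.FE E N) →+* K)
    (hE : ∀ e : ↥E, φ (algebraMap ↥E ↥(_root_.Fermat.Agent.A2.Mod.FE E N) e) = ψ (algebraMap ↥E ↥(_root_.Fermat.Agent.A2.Mod.FE E N) e))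
    (hj : ∀ (d : ℕ) [NeZero d] (hd : d ∣ N), φ (jE E N d hd) = ψ (jE E N d hd)) :
    φ = ψ := by
  -- first: the rational functions
  have hrat : ∀ z ∈ modularFunctionFieldFull N, ∀ hz' : coeffEmb (↥E) z ∈ _root_.Fermat.Agent.A2.Mod.FE E N,
      φ ⟨coeffEmb (↥E) z, hz'⟩ = ψ ⟨coeffEmb (↥E) z, hz'⟩ := by
    intro z₀ hz₀
    have hz0 : z₀ ∈ IntermediateField.adjoin ℚ (divisorExpansions N) := hz₀
    clear hz₀
    induction hz0 using IntermediateField.adjoin_induction with
    | mem y hy =>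
        intro hz'
        obtain ⟨d, hne, hd, rfl⟩ := hy
        haveI := hne
        exact hj d hd
    | algebraMap c =>
        intro hz'
        have h1 : (⟨coeffEmb (↥E) (algebraMap ℚ (LaurentSeries ℚ) c), hz'⟩ : ↥(_root_.Fermat.Agent.A2.Mod.FE E N))
            = algebraMap ↥E ↥(_root_.Fermat.Agent.A2.Mod.FE E N) (algebraMap ℚ ↥E c) :=
          Subtype.ext (coeffEmb_algebraMap_rat E c)
        rw [h1]
        exact hE _
    | add y z hy hz ihy ihz =>
        intro hz'
        have hy' := coeffEmb_mem_laurentBaseChange (↥E) (F₀ := modularFunctionFieldFull N) hy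
        have hz'' := coeffEmb_mem_laurentBaseChange (↥E) (F₀ := modularFunctionFieldFull N) hz
        have h1 : (⟨coeffEmb (↥E) (y + z), hz'⟩ : ↥(_root_.Fermat.Agent.A2.Mod.FE E N))
            = ⟨coeffEmb (↥E) y, hy'⟩ + ⟨coeffEmb (↥E) z, hz''⟩ := Subtype.ext (map_add _ _ _)
        rw [h1, map_add, map_add, ihy hy', ihz hz'']
    | inv y hy ihy =>
        intro hz'
        have hy' := coeffEmb_mem_laurentBaseChange (↥E) (F₀ := modularFunctionFieldFull N) hy
        have h1 : (⟨coeffEmb (↥E) (y⁻¹), hz'⟩ : ↥(_root_.Fermat.Agent.A2.Mod.FE E N))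
            = (⟨coeffEmb (↥E) y, hy'⟩ : ↥(_root_.Fermat.Agent.A2.Mod.FE E N))⁻¹ := Subtype.ext (map_inv₀ _ _)
        rw [h1, map_inv₀, map_inv₀, ihy hy']
    | mul y z hy hz ihy ihz =>
        intro hz'
        have hy' := coeffEmb_mem_laurentBaseChange (↥E) (F₀ := modularFunctionFieldFull N) hy
        have hz'' := coeffEmb_mem_laurentBaseChange (↥E) (F₀ := modularFunctionFieldFull N) hz
        have h1 : (⟨coeffEmb (↥E) (y * z), hz'⟩ : ↥(_root_.Fermat.Agent.A2.Mod.FE E N))
            = ⟨coeffEmb (↥E) y, hy'⟩ * ⟨coeffEmb (↥E) z, hz''⟩ := Subtype.ext (map_mul _ _ _)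
        rw [h1, map_mul, map_mul, ihy hy', ihz hz'']
  have key : ∀ (x : LaurentSeries ↥E) (hx : x ∈ _root_.Fermat.Agent.A2.Mod.FE E N), φ ⟨x, hx⟩ = ψ ⟨x, hx⟩ := by
    intro x hx
    have hx0 : x ∈ IntermediateField.adjoin (↥E)
        (⇑(coeffEmb ↥E) '' (modularFunctionFieldFull N : Set (LaurentSeries ℚ))) := hx
    suffices h : ∀ hx' : x ∈ _root_.Fermat.Agent.A2.Mod.FE E N, φ ⟨x, hx'⟩ = ψ ⟨x, hx'⟩ from h hx
    clear hx
    induction hx0 using IntermediateField.adjoin_induction with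
    | mem y hy =>
        intro hx'
        obtain ⟨z, hz, rfl⟩ := hy
        exact hrat z hz hx'
    | algebraMap c =>
        intro hx'
        exact hE c
    | add y z hy hz ihy ihz =>
        intro hx'
        have h1 : (⟨y + z, hx'⟩ : ↥(_root_.Fermat.Agent.A2.Mod.FE E N)) = ⟨y, hy⟩ + ⟨z, hz⟩ := rfl
        rw [h1, map_add, map_add, ihy hy, ihz hz]
    | inv y hy ihy =>
        intro hx'
        have h1 : (⟨y⁻¹, hx'⟩ : ↥(_root_.Fermat.Agent.A2.Mod.FE E N)) = (⟨y, hy⟩ : ↥(_root_.Fermat.Agent.A2.Mod.FE E N))⁻¹ := rfl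
        rw [h1, map_inv₀, map_inv₀, ihy hy]
    | mul y z hy hz ihy ihz =>
        intro hx'
        have h1 : (⟨y * z, hx'⟩ : ↥(_root_.Fermat.Agent.A2.Mod.FE E N)) = ⟨y, hy⟩ * ⟨z, hz⟩ := rfl
        rw [h1, map_mul, map_mul, ihy hy, ihz hz]
  exact RingHom.ext fun f => key f.1 f.2

/-! ### The Fricke involution over `E` -/

section Fricke

variable (N : ℕ) [NeZero N]

/-- the comparison map `F_{N,E} → F̄_N` -/
abbrev iotaN : ↥(_root_.Fermat.Agent.A2.Mod.FE E N) →+* ↥(modularFunctionFieldBar N) :=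
  T1.H849.iota E (modularFunctionFieldFull N)

theorem iotaN_injective : Function.Injective (iotaN E N) := (iotaN E N).injective

theorem iotaN_algebraMap (e : ↥E) :
    iotaN E N (algebraMap ↥E ↥(_root_.Fermat.Agent.A2.Mod.FE E N) e) =
      algebraMap _root_.Fermat.Agent.A2.Mod.Qb ↥(modularFunctionFieldBar N) (e : _root_.Fermat.Agent.A2.Mod.Qb) :=
  T1.H849.iota_algebraMap E (modularFunctionFieldFull N) e

theorem iotaN_jE (d : ℕ) [NeZero d] (hd : d ∣ N) :
    iotaN E N (jE E N d hd) = H528.jFd N d hd := by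
  apply Subtype.ext
  show coeffMap (algebraMap ↥E _root_.Fermat.Agent.A2.Mod.Qb) (coeffEmb (↥E) (qExpand ℚ d jq)) = _
  rw [coeffMap_coeffEmb']
  rfl

/-- `w_N` preserves `F_{N,E}`. -/
theorem exists_iota_eq_wF (f : ↥(_root_.Fermat.Agent.A2.Mod.FE E N)) :
    ∃ g : ↥(_root_.Fermat.Agent.A2.Mod.FE E N), iotaN E N g = H528.wF N (iotaN E N f) := by
  obtain ⟨x, hx⟩ := f
  have hx0 : x ∈ IntermediateField.adjoin (↥E)
      (⇑(coeffEmb ↥E) '' (modularFunctionFieldFull N : Set (LaurentSeries ℚ))) := hx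
  suffices h : ∀ hx' : x ∈ _root_.Fermat.Agent.A2.Mod.FE E N,
      ∃ g : ↥(_root_.Fermat.Agent.A2.Mod.FE E N), iotaN E N g = H528.wF N (iotaN E N ⟨x, hx'⟩) from h hx
  clear hx
  induction hx0 using IntermediateField.adjoin_induction with
  | mem y hy =>
      intro hx'
      obtain ⟨z, hz, rfl⟩ := hy
      obtain ⟨y', hy', hy''⟩ := H528.wF_rat N hz
      refine ⟨⟨coeffEmb (↥E) y', coeffEmb_mem_laurentBaseChange (↥E) hy'⟩, Subtype.ext ?_⟩
      have h1 : iotaN E N ⟨coeffEmb (↥E) z, hx'⟩ =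
          ⟨coeffEmb _root_.Fermat.Agent.A2.Mod.Qb z, coeffEmb_mem_laurentBaseChange _root_.Fermat.Agent.A2.Mod.Qb hz⟩ :=
        Subtype.ext (coeffMap_coeffEmb' _ z)
      rw [h1, hy'']
      exact coeffMap_coeffEmb' _ y'
  | algebraMap c =>
      intro hx'
      refine ⟨algebraMap ↥E ↥(_root_.Fermat.Agent.A2.Mod.FE E N) c, ?_⟩
      have h1 : (⟨algebraMap (↥E) (LaurentSeries ↥E) c, hx'⟩ : ↥(_root_.Fermat.Agent.A2.Mod.FE E N)) =
          algebraMap ↥E ↥(_root_.Fermat.Agent.A2.Mod.FE E N) c := rfl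
      rw [h1, iotaN_algebraMap, AlgEquiv.commutes]
  | add y z hy hz ihy ihz =>
      intro hx'
      obtain ⟨a, ha⟩ := ihy hy
      obtain ⟨b, hb⟩ := ihz hz
      refine ⟨a + b, ?_⟩
      have h1 : (⟨y + z, hx'⟩ : ↥(_root_.Fermat.Agent.A2.Mod.FE E N)) = ⟨y, hy⟩ + ⟨z, hz⟩ := rfl
      rw [h1, map_add, map_add, map_add, ha, hb]
  | inv y hy ihy =>
      intro hx'
      obtain ⟨a, ha⟩ := ihy hy
      refine ⟨a⁻¹, ?_⟩
      have h1 : (⟨y⁻¹, hx'⟩ : ↥(_root_.Fermat.Agent.A2.Mod.FE E N)) = (⟨y, hy⟩ : ↥(_root_.Fermat.Agent.A2.Mod.FE E N))⁻¹ := rfl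
      rw [h1, map_inv₀, map_inv₀, map_inv₀, ha]
  | mul y z hy hz ihy ihz =>
      intro hx'
      obtain ⟨a, ha⟩ := ihy hy
      obtain ⟨b, hb⟩ := ihz hz
      refine ⟨a * b, ?_⟩
      have h1 : (⟨y * z, hx'⟩ : ↥(_root_.Fermat.Agent.A2.Mod.FE E N)) = ⟨y, hy⟩ * ⟨z, hz⟩ := rfl
      rw [h1, map_mul, map_mul, map_mul, ha, hb]

/-- the Fricke involution over `E`, as a function -/
def wEFun (f : ↥(_root_.Fermat.Agent.A2.Mod.FE E N)) : ↥(_root_.Fermat.Agent.A2.Mod.FE E N) := (exists_iota_eq_wF E N f).choose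

theorem iota_wEFun (f : ↥(_root_.Fermat.Agent.A2.Mod.FE E N)) :
    iotaN E N (wEFun E N f) = H528.wF N (iotaN E N f) :=
  (exists_iota_eq_wF E N f).choose_spec

/-- the Fricke involution over `E`, as a ring homomorphism -/
def wEHom : ↥(_root_.Fermat.Agent.A2.Mod.FE E N) →+* ↥(_root_.Fermat.Agent.A2.Mod.FE E N) where
  toFun := wEFun E N
  map_one' := iotaN_injective E N (by rw [iota_wEFun, map_one, map_one])
  map_mul' a b := iotaN_injective E N (by
    rw [iota_wEFun, map_mul, map_mul, map_mul, iota_wEFun, iota_wEFun])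
  map_zero' := iotaN_injective E N (by rw [iota_wEFun, map_zero, map_zero])
  map_add' a b := iotaN_injective E N (by
    rw [iota_wEFun, map_add, map_add, map_add, iota_wEFun, iota_wEFun])

theorem iota_wEHom (f : ↥(_root_.Fermat.Agent.A2.Mod.FE E N)) :
    iotaN E N (wEHom E N f) = H528.wF N (iotaN E N f) := iota_wEFun E N f

theorem wEHom_wEHom (f : ↥(_root_.Fermat.Agent.A2.Mod.FE E N)) : wEHom E N (wEHom E N f) = f :=
  iotaN_injective E N (by rw [iota_wEHom, iota_wEHom, H528.wF_wF])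

theorem wEHom_algebraMap (e : ↥E) :
    wEHom E N (algebraMap ↥E ↥(_root_.Fermat.Agent.A2.Mod.FE E N) e) = algebraMap ↥E ↥(_root_.Fermat.Agent.A2.Mod.FE E N) e :=
  iotaN_injective E N (by rw [iota_wEHom, iotaN_algebraMap, AlgEquiv.commutes])

/-- **The Fricke involution `w_N` of `F_{N,E}` over `E`.** -/
def wE : ↥(_root_.Fermat.Agent.A2.Mod.FE E N) ≃ₐ[↥E] ↥(_root_.Fermat.Agent.A2.Mod.FE E N) :=
  AlgEquiv.ofAlgHom
    { toRingHom := wEHom E N, commutes' := wEHom_algebraMap E N }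
    { toRingHom := wEHom E N, commutes' := wEHom_algebraMap E N }
    (AlgHom.ext fun f => wEHom_wEHom E N f)
    (AlgHom.ext fun f => wEHom_wEHom E N f)

theorem wE_apply (f : ↥(_root_.Fermat.Agent.A2.Mod.FE E N)) : wE E N f = wEHom E N f := rfl

/-- `ι ∘ w_{N,E} = w_N ∘ ι`. -/
theorem iota_wE (f : ↥(_root_.Fermat.Agent.A2.Mod.FE E N)) :
    iotaN E N (wE E N f) = H528.wF N (iotaN E N f) := iota_wEHom E N f

theorem wE_jE (d d' : ℕ) [NeZero d] [NeZero d'] (hd : d ∣ N) (hd' : d' ∣ N) (h : d * d' = N) :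
    wE E N (jE E N d hd) = jE E N d' hd' := by
  apply iotaN_injective E N
  rw [iota_wE, iotaN_jE, iotaN_jE, H528.wF_jFd]
  have hd0 : 0 < d := Nat.pos_of_ne_zero (NeZero.ne d)
  have hdiv : N / d = d' := by
    rw [← h]
    exact Nat.mul_div_cancel_left d' hd0
  haveI := H528.neZero_div N hd
  exact H528.jFd_congr N (Nat.div_dvd_of_dvd hd) hd' hdiv

theorem isFricke_wE : IsFricke E N (wE E N) :=
  ⟨fun d d' _ _ hd hd' h => wE_jE E N d d' hd hd' h, fun f => wEHom_wEHom E N f⟩

end Fricke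

/-- **L4.** -/
theorem frickeExists : FrickeExistsStatement E := by
  intro N hN
  haveI : NeZero N := ⟨hN⟩
  exact ⟨wE E N, isFricke_wE E N⟩

/-- `IsFricke` determines the involution. -/
theorem isFricke_unique {N : ℕ} (hN : N ≠ 0) {W W' : ↥(_root_.Fermat.Agent.A2.Mod.FE E N) ≃ₐ[↥E] ↥(_root_.Fermat.Agent.A2.Mod.FE E N)}
    (hW : IsFricke E N W) (hW' : IsFricke E N W') : W = W' := by
  have h : (W : ↥(_root_.Fermat.Agent.A2.Mod.FE E N) →+* ↥(_root_.Fermat.Agent.A2.Mod.FE E N)) = (W' : ↥(_root_.Fermat.Agent.A2.Mod.FE E N) →+* ↥(_root_.Fermat.Agent.A2.Mod.FE E N)) := by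
    refine ringHom_ext_FE E _ _ (fun e => ?_) (fun d _ hd => ?_)
    · show W (algebraMap ↥E ↥(_root_.Fermat.Agent.A2.Mod.FE E N) e) = W' (algebraMap ↥E ↥(_root_.Fermat.Agent.A2.Mod.FE E N) e)
      rw [AlgEquiv.commutes, AlgEquiv.commutes]
    · show W (jE E N d hd) = W' (jE E N d hd)
      have hd0 : 0 < d := Nat.pos_of_ne_zero (NeZero.ne d)
      haveI : NeZero (N / d) := ⟨by
        intro h0
        rcases (Nat.div_eq_zero_iff).mp h0 with h1 | h1
        · exact (NeZero.ne d) h1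
        · exact absurd (Nat.le_of_dvd (Nat.pos_of_ne_zero hN) hd) (not_le.mpr h1)⟩
      rw [hW.1 d (N / d) hd (Nat.div_dvd_of_dvd hd) (Nat.mul_div_cancel' hd),
        hW'.1 d (N / d) hd (Nat.div_dvd_of_dvd hd) (Nat.mul_div_cancel' hd)]
  exact AlgEquiv.ext fun f => congrArg (fun φ : ↥(_root_.Fermat.Agent.A2.Mod.FE E N) →+* ↥(_root_.Fermat.Agent.A2.Mod.FE E N) => φ f) h

/-! ### L5: compatibility with the degeneracy maps -/

section Compat

variable (M q : ℕ) [NeZero M] [NeZero q]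

theorem αE_jE (d : ℕ) [NeZero d] (hd : d ∣ M) :
    αE E M q (jE E M d hd) = jE E (M * q) d (hd.trans (dvd_mul_right M q)) :=
  Subtype.ext rfl

theorem βE_jE (d : ℕ) [NeZero d] (hd : d ∣ M) :
    haveI : NeZero (d * q) := ⟨mul_ne_zero (NeZero.ne d) (NeZero.ne q)⟩
    βE E M q (jE E M d hd) = jE E (M * q) (d * q) (mul_dvd_mul_right hd q) := by
  haveI : NeZero (d * q) := ⟨mul_ne_zero (NeZero.ne d) (NeZero.ne q)⟩
  apply Subtype.ext
  show qExpand (↥E) q (coeffEmb (↥E) (qExpand ℚ d jq)) = coeffEmb (↥E) (qExpand ℚ (d * q) jq)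
  rw [coeffEmb, ← coeffMap_qExpand, qExpand_qExpand]
  congr 1
  exact qExpand_congr (mul_comm q d) jq

/-- **L5.** -/
theorem frickeCompat : FrickeCompatStatement E M q := by
  intro WM WN hWM hWN
  have hM0 : M ≠ 0 := NeZero.ne M
  have hq0 : q ≠ 0 := NeZero.ne q
  -- the two identities as equalities of ring homomorphisms
  have h1 : ((WN : ↥(_root_.Fermat.Agent.A2.Mod.FE E (M * q)) →+* ↥(_root_.Fermat.Agent.A2.Mod.FE E (M * q))).comp
      (αE E M q : ↥(_root_.Fermat.Agent.A2.Mod.FE E M) →+* ↥(_root_.Fermat.Agent.A2.Mod.FE E (M * q)))) =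
      ((βE E M q : ↥(_root_.Fermat.Agent.A2.Mod.FE E M) →+* ↥(_root_.Fermat.Agent.A2.Mod.FE E (M * q))).comp
        (WM : ↥(_root_.Fermat.Agent.A2.Mod.FE E M) →+* ↥(_root_.Fermat.Agent.A2.Mod.FE E M))) := by
    refine ringHom_ext_FE E _ _ (fun e => ?_) (fun d _ hd => ?_)
    · show WN (αE E M q (algebraMap ↥E ↥(_root_.Fermat.Agent.A2.Mod.FE E M) e)) = βE E M q (WM (algebraMap ↥E ↥(_root_.Fermat.Agent.A2.Mod.FE E M) e))
      rw [AlgHom.commutes, AlgEquiv.commutes, AlgEquiv.commutes, AlgHom.commutes]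
    · show WN (αE E M q (jE E M d hd)) = βE E M q (WM (jE E M d hd))
      have hd0 : d ≠ 0 := NeZero.ne d
      haveI hMd : NeZero (M / d) := ⟨by
        intro h0
        rcases (Nat.div_eq_zero_iff).mp h0 with h1 | h1
        · exact hd0 h1
        · exact absurd (Nat.le_of_dvd (Nat.pos_of_ne_zero hM0) hd) (not_le.mpr h1)⟩
      haveI : NeZero (M / d * q) := ⟨mul_ne_zero (NeZero.ne (M / d)) hq0⟩
      rw [αE_jE, hWM.1 d (M / d) hd (Nat.div_dvd_of_dvd hd) (Nat.mul_div_cancel' hd), βE_jE]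
      refine hWN.1 d (M / d * q) _ _ ?_
      rw [← mul_assoc, Nat.mul_div_cancel' hd]
  have h2 : ((WN : ↥(_root_.Fermat.Agent.A2.Mod.FE E (M * q)) →+* ↥(_root_.Fermat.Agent.A2.Mod.FE E (M * q))).comp
      (βE E M q : ↥(_root_.Fermat.Agent.A2.Mod.FE E M) →+* ↥(_root_.Fermat.Agent.A2.Mod.FE E (M * q)))) =
      ((αE E M q : ↥(_root_.Fermat.Agent.A2.Mod.FE E M) →+* ↥(_root_.Fermat.Agent.A2.Mod.FE E (M * q))).comp
        (WM : ↥(_root_.Fermat.Agent.A2.Mod.FE E M) →+* ↥(_root_.Fermat.Agent.A2.Mod.FE E M))) := by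
    refine ringHom_ext_FE E _ _ (fun e => ?_) (fun d _ hd => ?_)
    · show WN (βE E M q (algebraMap ↥E ↥(_root_.Fermat.Agent.A2.Mod.FE E M) e)) = αE E M q (WM (algebraMap ↥E ↥(_root_.Fermat.Agent.A2.Mod.FE E M) e))
      rw [AlgHom.commutes, AlgEquiv.commutes, AlgEquiv.commutes, AlgHom.commutes]
    · show WN (βE E M q (jE E M d hd)) = αE E M q (WM (jE E M d hd))
      have hd0 : d ≠ 0 := NeZero.ne d
      haveI hMd : NeZero (M / d) := ⟨by
        intro h0
        rcases (Nat.div_eq_zero_iff).mp h0 with h1 | h1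
        · exact hd0 h1
        · exact absurd (Nat.le_of_dvd (Nat.pos_of_ne_zero hM0) hd) (not_le.mpr h1)⟩
      haveI : NeZero (d * q) := ⟨mul_ne_zero hd0 hq0⟩
      rw [βE_jE, hWM.1 d (M / d) hd (Nat.div_dvd_of_dvd hd) (Nat.mul_div_cancel' hd), αE_jE]
      refine hWN.1 (d * q) (M / d) _ _ ?_
      rw [mul_assoc, mul_comm q, ← mul_assoc, Nat.mul_div_cancel' hd]
  intro f
  exact ⟨congrArg (fun φ : ↥(_root_.Fermat.Agent.A2.Mod.FE E M) →+* ↥(_root_.Fermat.Agent.A2.Mod.FE E (M * q)) => φ f) h1,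
    congrArg (fun φ : ↥(_root_.Fermat.Agent.A2.Mod.FE E M) →+* ↥(_root_.Fermat.Agent.A2.Mod.FE E (M * q)) => φ f) h2⟩

end Compat

end Fermat.Agent.A2.Mod.H553

end
end
-- ===== PACK-END A2/Mod/H553/Fricke.lean

-- ===== PACK-BEGIN A2/Mod/H553/VzeroNe.lean
section



/-!
# A2 / MOD leaf L6 `VzeroNe` (helper553)

`V₀ := V∞ ∘ W ≠ V∞` at level `Mq` over `E`: the Frobenius element `u = j_q - j^q` is a non-unit
of `V∞` (`u = q · g`, `g` integral) while `W u = j_M - j_{Mq}^q` has an integral `t`-expansion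
with a coefficient `-1`, hence is a unit of `V∞`.

* `frobE` : the element `u`;
* `inv_frobE_not_mem`, `inv_W_frobE_mem`;
* `vzeroNe : VzeroNeStatement P E M q w`  (L6).
-/

set_option autoImplicit false
set_option synthInstance.maxHeartbeats 400000
set_option maxHeartbeats 1600000
set_option linter.unusedSectionVars false
set_option linter.style.haveILetI false

noncomputable section

namespace Fermat.Agent.A2.Mod.H553

open ModularCurve HahnSeries Polynomial
open Fermat.Agent.A2 Fermat.Agent.A2.Mod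

variable (P : ValuationSubring _root_.Fermat.Agent.A2.Mod.Qb) (E : IntermediateField ℚ _root_.Fermat.Agent.A2.Mod.Qb) (M q : ℕ) [NeZero M] [NeZero q]

/-- The Frobenius element `u = j_q - j^q` of `F_{Mq,E}`. -/
def frobE : ↥(_root_.Fermat.Agent.A2.Mod.FE E (M * q)) :=
  jE E (M * q) q (dvd_mul_left q M) - jE E (M * q) 1 (one_dvd _) ^ q

/-- its integral `t`-expansion -/
theorem coe_frobE :
    ((frobE E M q : ↥(_root_.Fermat.Agent.A2.Mod.FE E (M * q))) : LaurentSeries ↥E) =
      coeffEmb (↥E) (H708.castQ (H708.jInt q - H708.jInt 1 ^ q)) := by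
  rw [map_sub, map_sub, map_pow, map_pow, ← coe_jE (E := E) (M * q) q (dvd_mul_left q M),
    ← coe_jE (E := E) (M * q) 1 (one_dvd _)]
  rfl

theorem jInt_eq_qExpand (d : ℕ) [NeZero d] : H708.jInt d = qExpand ℤ d (H708.jInt 1) := by
  show qExpand ℤ d (jqModC ℤ) = qExpand ℤ d (qExpand ℤ 1 (jqModC ℤ))
  rw [qExpand_one_apply]

/-- `u = q · g` with `g` integral. -/
theorem exists_frobE_eq [Fact q.Prime] :
    ∃ g : LaurentSeries ℤ,
      ((frobE E M q : ↥(_root_.Fermat.Agent.A2.Mod.FE E (M * q))) : LaurentSeries ↥E) =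
        algebraMap (↥E) (LaurentSeries ↥E) (q : ↥E) * coeffEmb (↥E) (H708.castQ g) := by
  obtain ⟨g, hg⟩ := H528.exists_frobCong q (H708.jInt 1)
  refine ⟨g, ?_⟩
  rw [coe_frobE, jInt_eq_qExpand q, hg, map_mul, map_mul]
  congr 1
  ext n
  simp [coeffEmb, H708.castQ, HahnSeries.coeff_single, algebraMap_laurentSeries_eq_single]

variable {P E M q}

/-- the Frobenius element is not a unit of `V∞` -/
theorem inv_frobE_not_mem [Fact q.Prime] [IsNoetherianRing ↥(_root_.Fermat.Agent.A2.Mod.RE P E)]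
    (hP : P.LiesOverPrime q) {V : ValuationSubring ↥(_root_.Fermat.Agent.A2.Mod.FE E (M * q))}
    (hV : IsVinf P E (M * q) V) (hu0 : frobE E M q ≠ 0) : (frobE E M q)⁻¹ ∉ V := by
  intro hmem
  obtain ⟨g, hg⟩ := exists_frobE_eq E M q
  have hq0 : (q : ↥E) ≠ 0 := by exact_mod_cast NeZero.ne q
  have hqF : algebraMap ↥E ↥(_root_.Fermat.Agent.A2.Mod.FE E (M * q)) (q : ↥E) ≠ 0 :=
    (map_ne_zero_iff _ (algebraMap ↥E ↥(_root_.Fermat.Agent.A2.Mod.FE E (M * q))).injective).mpr hq0
  -- `g' := u / q` has integral expansion `g`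
  set g' : ↥(_root_.Fermat.Agent.A2.Mod.FE E (M * q)) := (algebraMap ↥E ↥(_root_.Fermat.Agent.A2.Mod.FE E (M * q)) (q : ↥E))⁻¹ * frobE E M q with hg'
  have hcoe : ((g' : ↥(_root_.Fermat.Agent.A2.Mod.FE E (M * q))) : LaurentSeries ↥E) = coeffEmb (↥E) (H708.castQ g) := by
    have hqS : algebraMap (↥E) (LaurentSeries ↥E) (q : ↥E) ≠ 0 :=
      (map_ne_zero_iff _ (algebraMap (↥E) (LaurentSeries ↥E)).injective).mpr hq0
    have h1 : ((g' : ↥(_root_.Fermat.Agent.A2.Mod.FE E (M * q))) : LaurentSeries ↥E) =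
        (algebraMap (↥E) (LaurentSeries ↥E) (q : ↥E))⁻¹ *
          ((frobE E M q : ↥(_root_.Fermat.Agent.A2.Mod.FE E (M * q))) : LaurentSeries ↥E) := by
      rw [hg', IntermediateField.coe_mul, IntermediateField.coe_inv]
      rfl
    rw [h1, hg, ← mul_assoc, inv_mul_cancel₀ hqS, one_mul]
  have hg'V : g' ∈ V := mem_of_int hV hcoe
  have hkey : (algebraMap ↥E ↥(_root_.Fermat.Agent.A2.Mod.FE E (M * q)) (q : ↥E))⁻¹ = g' * (frobE E M q)⁻¹ := by
    rw [hg', mul_assoc, mul_inv_cancel₀ hu0, mul_one]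
  have h2 : (algebraMap ↥E ↥(_root_.Fermat.Agent.A2.Mod.FE E (M * q)) (q : ↥E))⁻¹ ∈ V := by
    rw [hkey]
    exact V.mul_mem _ _ hg'V hmem
  have h3 : (algebraMap ↥E ↥(_root_.Fermat.Agent.A2.Mod.FE E (M * q)) (q : ↥E))⁻¹ =
      algebraMap ↥E ↥(_root_.Fermat.Agent.A2.Mod.FE E (M * q)) ((q : ↥E)⁻¹) := (map_inv₀ _ _).symm
  rw [h3] at h2
  have h4 : ((q : ↥E)⁻¹) ∈ _root_.Fermat.Agent.A2.Mod.RE P E := (algebraMap_mem_iff P E hV _).mp h2
  have h5 : ((q : _root_.Fermat.Agent.A2.Mod.Qb)⁻¹) ∈ P := by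
    have : (((q : ↥E)⁻¹ : ↥E) : _root_.Fermat.Agent.A2.Mod.Qb) ∈ P := h4
    simpa using this
  have h6 : (q : _root_.Fermat.Agent.A2.Mod.Qb) ∈ P.nonunits := hP
  rw [ValuationSubring.mem_nonunits_iff] at h6
  have h7 : P.valuation ((q : _root_.Fermat.Agent.A2.Mod.Qb)⁻¹) ≤ 1 := (P.valuation_le_one_iff _).mpr h5
  rw [map_inv₀] at h7
  have hq0' : P.valuation (q : _root_.Fermat.Agent.A2.Mod.Qb) ≠ 0 := by
    rw [Valuation.ne_zero_iff]
    exact_mod_cast NeZero.ne q
  have h8 : 1 ≤ P.valuation (q : _root_.Fermat.Agent.A2.Mod.Qb) := (inv_le_one₀ (zero_lt_iff.mpr hq0')).mp h7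
  exact absurd h6 (not_lt.mpr h8)

/-- the expansion of `W u = j_M - j_{Mq}^q` -/
theorem coe_W_frobE {W : ↥(_root_.Fermat.Agent.A2.Mod.FE E (M * q)) ≃ₐ[↥E] ↥(_root_.Fermat.Agent.A2.Mod.FE E (M * q))}
    (hW : IsFricke E (M * q) W) :
    haveI : NeZero (M * q) := ⟨mul_ne_zero (NeZero.ne M) (NeZero.ne q)⟩
    ((W (frobE E M q) : ↥(_root_.Fermat.Agent.A2.Mod.FE E (M * q))) : LaurentSeries ↥E) =
      coeffEmb (↥E) (H708.castQ (H708.jInt M - H708.jInt (M * q) ^ q)) := by
  haveI : NeZero (M * q) := ⟨mul_ne_zero (NeZero.ne M) (NeZero.ne q)⟩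
  have h1 : W (frobE E M q) =
      jE E (M * q) M (dvd_mul_right M q) - jE E (M * q) (M * q) dvd_rfl ^ q := by
    rw [frobE, map_sub, map_pow,
      hW.1 q M (dvd_mul_left q M) (dvd_mul_right M q) (mul_comm q M),
      hW.1 1 (M * q) (one_dvd _) dvd_rfl (one_mul _)]
  rw [h1, map_sub, map_sub, map_pow, map_pow, ← coe_jE (E := E) (M * q) M (dvd_mul_right M q),
    ← coe_jE (E := E) (M * q) (M * q) dvd_rfl]
  rfl

theorem coeff_W_frob [Fact q.Prime] :
    haveI : NeZero (M * q) := ⟨mul_ne_zero (NeZero.ne M) (NeZero.ne q)⟩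
    (H708.jInt M - H708.jInt (M * q) ^ q).coeff (-((M * q * q : ℕ) : ℤ)) = -1 := by
  haveI : NeZero (M * q) := ⟨mul_ne_zero (NeZero.ne M) (NeZero.ne q)⟩
  have hM : 0 < M := Nat.pos_of_ne_zero (NeZero.ne M)
  have hq1 : 1 < q := (Fact.out : q.Prime).one_lt
  have e1 : H708.jInt M = H528.jZ M := rfl
  have e2 : H708.jInt (M * q) = H528.jZ (M * q) := rfl
  rw [HahnSeries.coeff_sub, e1, e2, H528.coeff_jZ_pow_top, H528.coeff_jZ_of_lt, zero_sub]
  have h2 : M < M * q * q := by
    calc M = M * 1 * 1 := by ring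
      _ < M * q * q := by
        have : 1 * 1 < q * q := Nat.mul_lt_mul'' hq1 hq1
        nlinarith
  have h3 : ((M : ℕ) : ℤ) < ((M * q * q : ℕ) : ℤ) := by exact_mod_cast h2
  linarith

/-- `W u` is a unit of `V∞` -/
theorem inv_W_frobE_mem [Fact q.Prime] {V : ValuationSubring ↥(_root_.Fermat.Agent.A2.Mod.FE E (M * q))}
    (hV : IsVinf P E (M * q) V) {W : ↥(_root_.Fermat.Agent.A2.Mod.FE E (M * q)) ≃ₐ[↥E] ↥(_root_.Fermat.Agent.A2.Mod.FE E (M * q))}
    (hW : IsFricke E (M * q) W) : (W (frobE E M q))⁻¹ ∈ V :=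
  inv_mem_of_int hV (coe_W_frobE hW) (Or.inr coeff_W_frob)

theorem coeff_coeffEmb_castQ (x : LaurentSeries ℤ) (k : ℤ) :
    (coeffEmb (↥E) (H708.castQ x)).coeff k = ((x.coeff k : ℤ) : ↥E) := by
  show algebraMap ℚ (↥E) ((Int.castRingHom ℚ) (x.coeff k)) = _
  simp

theorem W_frobE_ne_zero [Fact q.Prime] {W : ↥(_root_.Fermat.Agent.A2.Mod.FE E (M * q)) ≃ₐ[↥E] ↥(_root_.Fermat.Agent.A2.Mod.FE E (M * q))}
    (hW : IsFricke E (M * q) W) : W (frobE E M q) ≠ 0 := by
  haveI : NeZero (M * q) := ⟨mul_ne_zero (NeZero.ne M) (NeZero.ne q)⟩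
  intro h0
  have h1 := coe_W_frobE (E := E) (M := M) (q := q) hW
  rw [h0] at h1
  have h2 := congrArg (fun s : LaurentSeries ↥E => s.coeff (-((M * q * q : ℕ) : ℤ))) h1
  simp only [ZeroMemClass.coe_zero, HahnSeries.coeff_zero] at h2
  rw [coeff_coeffEmb_castQ, coeff_W_frob] at h2
  have : ((-1 : ℤ) : ↥E) ≠ 0 := by simp
  exact this h2.symm

variable (P E M q)

/-- **L6.** -/
theorem vzeroNe (w : _root_.Fermat.Agent.A2.Mod.RE P E) : VzeroNeStatement P E M q w := by
  intro hS V W hV hW heq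
  haveI : Fact q.Prime := ⟨hS.q_prime⟩
  haveI := hS.dvr
  have hWu0 : W (frobE E M q) ≠ 0 := W_frobE_ne_zero hW
  have hu0 : frobE E M q ≠ 0 := fun h0 => hWu0 (by rw [h0, map_zero])
  have h1 : (frobE E M q)⁻¹ ∈ V.comap (W : ↥(_root_.Fermat.Agent.A2.Mod.FE E (M * q)) →+* ↥(_root_.Fermat.Agent.A2.Mod.FE E (M * q))) := by
    show W ((frobE E M q)⁻¹) ∈ V
    rw [map_inv₀]
    exact inv_W_frobE_mem hV hW
  rw [heq] at h1
  exact inv_frobE_not_mem hS.lies_over hV hu0 h1

end Fermat.Agent.A2.Mod.H553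

end
end
-- ===== PACK-END A2/Mod/H553/VzeroNe.lean

-- ===== PACK-BEGIN A2/Top/H994/ModTop.lean
section





/-!
# WALL A2 / MOD — final assembly `ModSSGoodStatement` (deputy helper994, MOD architect)

`Mod.modSSData_of_parts` (helper13, `A2/Mod/Asm.lean`) produces `ModSSData P E (M * q)` from the
leaves L1, L4, L8, the sub-assemblies S1–S4, Sτ and the level-`M` hypothesis `GoodRedHyp`.
This file turns it into the statement consumed by the wall (`Top.H994.wall`,
`H562.wall_of_alg_if_mod`):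

* `GoodRedStatement` : the EXACT target of the GOODRED owners (good reduction of `X₀(M)` at
  `q ∤ M` over every good level `E`, in the two charts `j`, `1/j`; for `q = 3` only when `2 ∣ M`,
  for `q = 2` only when `3 ∣ M`);
* `modSSGood_of_parts` : L8 + S1–S4 + Sτ + GOODRED ⟹ `ModSSGoodStatement`
  (L1 = `H553.vinfExists`, L4 = `H751.frickeExists` are plugged in from main).
-/

set_option autoImplicit false
set_option linter.unusedSectionVars false
set_option synthInstance.maxHeartbeats 400000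
set_option maxHeartbeats 1600000

noncomputable section

namespace Fermat.Agent.A2.Top.H994

open ModularCurve Fermat.Agent.A2

/-- **GOODRED (target statement).**  Good reduction of `X₀(M)` at a prime `q ∤ M` over every good
level `E`, in the charts of `j` and `1/j` (`Mod.GoodRedHyp`), at the levels carrying the auxiliary
prime (`2 ∣ M` for `q = 3`, `3 ∣ M` for `q = 2`). -/
def GoodRedStatement : Prop :=
  ∀ (P : ValuationSubring Qb) (E : IntermediateField ℚ Qb) (M q : ℕ) [NeZero M] [NeZero q],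
    q.Prime → ¬ q ∣ M → (q = 3 → 2 ∣ M) → (q = 2 → 3 ∣ M) → P.LiesOverPrime q →
    GoodField P E → Mod.GoodRedHyp P E M

/-- **MOD, final assembly.** -/
theorem modSSGood_of_parts
    (hDeg : ∀ (E : IntermediateField ℚ Qb) (M q : ℕ) [NeZero M] [NeZero q],
      Mod.DegStatement E M q)
    (hS1 : ∀ (P : ValuationSubring Qb) (E : IntermediateField ℚ Qb) (M q : ℕ) [NeZero M]
      [NeZero q] (w : RE P E), Mod.S1Statement P E M q w)
    (hS2 : ∀ (P : ValuationSubring Qb) (E : IntermediateField ℚ Qb) (M q : ℕ) [NeZero M]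
      [NeZero q] (w : RE P E), Mod.S2Statement P E M q w)
    (hS3 : ∀ (P : ValuationSubring Qb) (E : IntermediateField ℚ Qb) (M q : ℕ) [NeZero M]
      [NeZero q] (w : RE P E), Mod.S3Statement P E M q w)
    (hS4 : ∀ (P : ValuationSubring Qb) (E : IntermediateField ℚ Qb) (M q : ℕ) [NeZero M]
      [NeZero q] (w : RE P E), Mod.S4Statement P E M q w)
    (hSτ : ∀ (P : ValuationSubring Qb) (E : IntermediateField ℚ Qb) (M q : ℕ) [NeZero M]
      [NeZero q] (w : RE P E), Mod.StauStatement P E M q w)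
    (hGood : GoodRedStatement) :
    ModSSGoodStatement := by
  intro P E N q hq hqN hq2 hN h3 h2 hP hE
  obtain ⟨M, hM⟩ := hqN
  have hNM : N = M * q := by rw [hM, mul_comm]
  subst hNM
  have hM0 : M ≠ 0 := fun h => hN (by rw [h, zero_mul])
  haveI : NeZero M := ⟨hM0⟩
  haveI : NeZero q := ⟨hq.ne_zero⟩
  have hqM : ¬ q ∣ M := by
    rintro ⟨c, hc⟩
    exact hq2 ⟨c, by rw [hc]; ring⟩
  have h3' : q = 3 → 2 ∣ M := by
    intro h
    have h2N := h3 h
    subst h
    exact (Nat.Coprime.dvd_mul_right (by norm_num : Nat.Coprime 2 3)).1 h2N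
  have h2' : q = 2 → 3 ∣ M := by
    intro h
    have h3N := h2 h
    subst h
    exact (Nat.Coprime.dvd_mul_right (by norm_num : Nat.Coprime 3 2)).1 h3N
  exact Mod.modSSData_of_parts P E M q hq hqM hP hE.dvr
    (Mod.H553.vinfExists P E M hM0 hE.dvr)
    (Mod.H553.vinfExists P E (M * q) hN hE.dvr)
    (Mod.H751.frickeExists E (M * q) hN)
    (hDeg E M q) (hS1 P E M q) (hS2 P E M q) (hS3 P E M q) (hS4 P E M q) (hSτ P E M q)
    (hGood P E M q hq hqM h3' h2' hP hE)

end Fermat.Agent.A2.Top.H994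

end

end
-- ===== PACK-END A2/Top/H994/ModTop.lean

-- ===== PACK-BEGIN A2/Mod/H816/L8Val.lean
section







/-!
# A2 / MOD leaf L8, part 2 (helper816): the two cuspidal valuations of `F_{q,E}`

* `vInf E N` : the `t`-adic valuation of `F_{N,E} ⊆ E((t))`, `vInf (j_d) = -d`;
* `vZero E q` : `vInf ∘ W ∘ ι` at prime level `q` (`W` = `H528.wF` over `ℚ̄`, `ι` = `H849.iota`),
  `vZero j = -q`, `vZero j_q = -1`;
* `transcendental_xE`, `mem_range_of_isAlgebraic` : parts (a), (c) of `DegStatement`;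
* `linearIndependent_pow` : `j_q, …, j_q^(q+1), j, …, j^(q+1)` are linearly independent over
  `E(x)`, `x = j j_q` (level `q`).
-/

set_option autoImplicit false
set_option linter.unusedSectionVars false
set_option synthInstance.maxHeartbeats 400000
set_option maxHeartbeats 1600000

noncomputable section

namespace Fermat.Agent.A2.Mod.H816

open ModularCurve HahnSeries Polynomial

/-! ## Laurent series -/

section Laurent

variable (k : Type*) [Field k]

theorem addVal_algebraMap_laurent {c : k} (hc : c ≠ 0) :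
    HahnSeries.addVal ℤ k (algebraMap k (LaurentSeries k) c) = 0 := by
  rw [HahnSeries.addVal_apply, algebraMap_laurentSeries_eq_single, HahnSeries.orderTop_single hc]
  rfl

theorem coeff_jd_of_lt (d : ℕ) [NeZero d] {n : ℤ} (hn : n < -(d : ℤ)) :
    (qExpand k d (jqModC k)).coeff n = 0 := by
  by_cases hdvd : (d : ℤ) ∣ n
  · obtain ⟨m, rfl⟩ := hdvd
    rw [qExpand_coeff_mul]
    apply coeff_jqModC_of_lt
    have hd : (0 : ℤ) < d := by exact_mod_cast Nat.pos_of_ne_zero (NeZero.ne d)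
    nlinarith
  · exact qExpand_coeff_of_not_dvd _ _ hdvd

theorem coeff_jd_neg (d : ℕ) [NeZero d] : (qExpand k d (jqModC k)).coeff (-(d : ℤ)) = 1 := by
  have h := qExpand_coeff_mul (R := k) d (jqModC k) (-1)
  rw [coeff_jqModC_neg_one] at h
  rw [← h]
  congr 1
  ring

theorem addVal_jd (d : ℕ) [NeZero d] :
    HahnSeries.addVal ℤ k (qExpand k d (jqModC k)) = ((-(d : ℤ) : ℤ) : WithTop ℤ) := by
  have h1 : (qExpand k d (jqModC k)).coeff (-(d : ℤ)) ≠ 0 := by
    rw [coeff_jd_neg]; exact one_ne_zero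
  have hne := ne_zero_of_polar h1
  rw [HahnSeries.addVal_apply_of_ne hne,
    order_eq_of_polar (fun n hn => coeff_jd_of_lt k d hn) h1]

/-- a series algebraic over the constants is constant -/
theorem eq_algebraMap_of_isAlgebraic {f : LaurentSeries k} (hf : IsAlgebraic k f) :
    f = algebraMap k (LaurentSeries k) (f.coeff 0) := by
  set g := f - algebraMap k (LaurentSeries k) (f.coeff 0) with hg
  have hgalg : IsAlgebraic k g := hf.sub (isAlgebraic_algebraMap _)
  by_contra hne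
  have hg0 : g ≠ 0 := fun h => hne (sub_eq_zero.mp h)
  have hval : HahnSeries.addVal ℤ k g = ((g.order : ℤ) : WithTop ℤ) :=
    HahnSeries.addVal_apply_of_ne hg0
  have hcoeff0 : g.coeff 0 = 0 := by
    rw [hg, HahnSeries.coeff_sub, algebraMap_laurentSeries_eq_single,
      HahnSeries.coeff_single_same, sub_self]
  have hord : g.order ≠ 0 := by
    intro h0
    have := HahnSeries.coeff_order_eq_zero.not.mpr hg0
    rw [h0] at this
    exact this hcoeff0
  exact transcendental_of_addVal_ne_zero (HahnSeries.addVal ℤ k)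
    (fun c hc => addVal_algebraMap_laurent k hc) hord hval hgalg

end Laurent

/-! ## The valuation at `∞` -/

section VInf

variable (E : IntermediateField ℚ _root_.Fermat.Agent.A2.Mod.Qb) (N : ℕ)

/-- the `t`-adic valuation of `F_{N,E}` -/
def vInf : AddValuation (_root_.Fermat.Agent.A2.Mod.FE E N) (WithTop ℤ) :=
  (HahnSeries.addVal ℤ E).comap (algebraMap (_root_.Fermat.Agent.A2.Mod.FE E N) (LaurentSeries E))

theorem vInf_apply (f : _root_.Fermat.Agent.A2.Mod.FE E N) :
    vInf E N f = HahnSeries.addVal ℤ E (f : LaurentSeries E) := rfl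

theorem vInf_algebraMap {c : E} (hc : c ≠ 0) : vInf E N (algebraMap E (_root_.Fermat.Agent.A2.Mod.FE E N) c) = 0 := by
  rw [vInf_apply]
  exact addVal_algebraMap_laurent E hc

theorem vInf_jE (d : ℕ) [NeZero d] (hd : d ∣ N) :
    vInf E N (jE E N d hd) = ((-(d : ℤ) : ℤ) : WithTop ℤ) := by
  rw [vInf_apply, H873.coe_jE]
  exact addVal_jd E d

end VInf

/-! ## The valuation at `0` (prime level) -/

section VZero

variable (E : IntermediateField ℚ _root_.Fermat.Agent.A2.Mod.Qb) (q : ℕ) [NeZero q]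

/-- `W ∘ ι : F_{q,E} → F_{q,ℚ̄}` -/
def wIota : _root_.Fermat.Agent.A2.Mod.FE E q →+* Fermat.Agent.S24.FF q :=
  ((Fermat.Agent.A2.H528.wF q : Fermat.Agent.S24.FF q ≃ₐ[_root_.Fermat.Agent.A2.Mod.Qb] Fermat.Agent.S24.FF q) :
      Fermat.Agent.S24.FF q →+* Fermat.Agent.S24.FF q).comp
    (Fermat.Agent.A2.T1.H849.iota E (modularFunctionFieldFull q))

theorem wIota_apply (f : _root_.Fermat.Agent.A2.Mod.FE E q) :
    wIota E q f = Fermat.Agent.A2.H528.wF q
      (Fermat.Agent.A2.T1.H849.iota E (modularFunctionFieldFull q) f) := rfl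

/-- the valuation at the cusp `0`: `vInf ∘ W` -/
def vZero : AddValuation (_root_.Fermat.Agent.A2.Mod.FE E q) (WithTop ℤ) :=
  (HahnSeries.addVal ℤ _root_.Fermat.Agent.A2.Mod.Qb).comap
    ((algebraMap (Fermat.Agent.S24.FF q) (LaurentSeries _root_.Fermat.Agent.A2.Mod.Qb)).comp (wIota E q))

theorem vZero_apply (f : _root_.Fermat.Agent.A2.Mod.FE E q) :
    vZero E q f =
      HahnSeries.addVal ℤ _root_.Fermat.Agent.A2.Mod.Qb ((wIota E q f : Fermat.Agent.S24.FF q) : LaurentSeries _root_.Fermat.Agent.A2.Mod.Qb) := rfl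

theorem iota_jE (d : ℕ) [NeZero d] (hd : d ∣ q) :
    Fermat.Agent.A2.T1.H849.iota E (modularFunctionFieldFull q) (jE E q d hd) =
      Fermat.Agent.A2.H528.jFd q d hd := by
  apply Subtype.ext
  rw [Fermat.Agent.A2.T1.H849.coe_iota, Fermat.Agent.A2.H528.coe_jFd]
  show coeffMap (algebraMap E _root_.Fermat.Agent.A2.Mod.Qb) (coeffEmb E (qExpand ℚ d jq)) = coeffEmb _root_.Fermat.Agent.A2.Mod.Qb (qExpand ℚ d jq)
  ext n
  simp only [coeffMap_coeff, coeffEmb_coeff]
  exact (IsScalarTower.algebraMap_apply ℚ E _root_.Fermat.Agent.A2.Mod.Qb _).symm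

theorem coe_jFd_eq (d : ℕ) [NeZero d] (hd : d ∣ q) :
    ((Fermat.Agent.A2.H528.jFd q d hd : Fermat.Agent.S24.FF q) : LaurentSeries _root_.Fermat.Agent.A2.Mod.Qb) =
      qExpand _root_.Fermat.Agent.A2.Mod.Qb d (jqModC _root_.Fermat.Agent.A2.Mod.Qb) := by
  rw [Fermat.Agent.A2.H528.coe_jFd, coeffEmb, coeffMap_qExpand, ← jqModC_rat, coeffMap_jqModC]

theorem wIota_algebraMap (c : E) :
    wIota E q (algebraMap E (_root_.Fermat.Agent.A2.Mod.FE E q) c) = algebraMap _root_.Fermat.Agent.A2.Mod.Qb (Fermat.Agent.S24.FF q) (c : _root_.Fermat.Agent.A2.Mod.Qb) := by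
  rw [wIota_apply, Fermat.Agent.A2.T1.H849.iota_algebraMap]
  exact (Fermat.Agent.A2.H528.wF q).commutes _

theorem vZero_algebraMap {c : E} (hc : c ≠ 0) : vZero E q (algebraMap E (_root_.Fermat.Agent.A2.Mod.FE E q) c) = 0 := by
  rw [vZero_apply, wIota_algebraMap]
  have hc' : (c : _root_.Fermat.Agent.A2.Mod.Qb) ≠ 0 := fun h => hc (Subtype.ext h)
  exact addVal_algebraMap_laurent _root_.Fermat.Agent.A2.Mod.Qb hc'

theorem wIota_jE_one :
    wIota E q (jE E q 1 (one_dvd q)) = Fermat.Agent.A2.H528.jFd q q dvd_rfl := by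
  rw [wIota_apply, iota_jE]
  have := Fermat.Agent.A2.H528.neZero_div q (one_dvd q)
  rw [Fermat.Agent.A2.H528.wF_jFd q 1 (one_dvd q)]
  exact Fermat.Agent.A2.H528.jFd_congr q _ _ (Nat.div_one q)

theorem wIota_jE_self :
    wIota E q (jE E q q dvd_rfl) = Fermat.Agent.A2.H528.jFd q 1 (one_dvd q) := by
  rw [wIota_apply, iota_jE]
  have := Fermat.Agent.A2.H528.neZero_div q (dvd_refl q)
  rw [Fermat.Agent.A2.H528.wF_jFd q q dvd_rfl]
  exact Fermat.Agent.A2.H528.jFd_congr q _ _ (Nat.div_self (Nat.pos_of_ne_zero (NeZero.ne q)))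

theorem vZero_jE_one :
    vZero E q (jE E q 1 (one_dvd q)) = ((-(q : ℤ) : ℤ) : WithTop ℤ) := by
  rw [vZero_apply, wIota_jE_one, coe_jFd_eq]
  exact addVal_jd _root_.Fermat.Agent.A2.Mod.Qb q

theorem vZero_jE_self :
    vZero E q (jE E q q dvd_rfl) = ((-((1 : ℕ) : ℤ) : ℤ) : WithTop ℤ) := by
  rw [vZero_apply, wIota_jE_self, coe_jFd_eq]
  exact addVal_jd _root_.Fermat.Agent.A2.Mod.Qb 1

end VZero

/-! ## Consequences -/

section Cons

theorem addVal_pow_coe {R : Type*} [Ring R] (v : AddValuation R (WithTop ℤ)) {y : R} {b : ℤ}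
    (hy : v y = (b : WithTop ℤ)) (n : ℕ) : v (y ^ n) = (((n : ℤ) * b : ℤ) : WithTop ℤ) := by
  rw [AddValuation.map_pow, hy, ← WithTop.coe_nsmul, nsmul_eq_mul]

theorem addVal_mul_coe {R : Type*} [Ring R] (v : AddValuation R (WithTop ℤ)) {y z : R} {b c : ℤ}
    (hy : v y = (b : WithTop ℤ)) (hz : v z = (c : WithTop ℤ)) :
    v (y * z) = ((b + c : ℤ) : WithTop ℤ) := by
  rw [AddValuation.map_mul, hy, hz, WithTop.coe_add]

variable (E : IntermediateField ℚ _root_.Fermat.Agent.A2.Mod.Qb)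

/-- `vInf x = -(q+1)` at level `M q`. -/
theorem vInf_xE (M q : ℕ) [NeZero M] [NeZero q] :
    vInf E (M * q) (xE E M q) = ((-((q : ℤ) + 1) : ℤ) : WithTop ℤ) := by
  rw [xE, addVal_mul_coe _ (vInf_jE E (M * q) 1 (one_dvd _))
    (vInf_jE E (M * q) q (dvd_mul_left q M))]
  congr 1
  push_cast
  ring

/-- **L8 (a).** `x = j j_q` is transcendental over `E`. -/
theorem transcendental_xE (M q : ℕ) [NeZero M] [NeZero q] : Transcendental E (xE E M q) := by
  refine transcendental_of_addVal_neg (vInf E (M * q)) (fun c hc => vInf_algebraMap E _ hc)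
    (a := -((q : ℤ) + 1)) ?_ (vInf_xE E M q)
  have : (0 : ℤ) ≤ q := Int.natCast_nonneg q
  omega

/-- **L8 (c).** `E` is algebraically closed in `F_{N,E}`. -/
theorem mem_range_of_isAlgebraic (N : ℕ) (f : _root_.Fermat.Agent.A2.Mod.FE E N) (hf : IsAlgebraic E f) :
    f ∈ (algebraMap E (_root_.Fermat.Agent.A2.Mod.FE E N)).range := by
  have hf' : IsAlgebraic E (f : LaurentSeries E) :=
    (IntermediateField.isAlgebraic_iff (S := _root_.Fermat.Agent.A2.Mod.FE E N)).mp hf
  refine ⟨(f : LaurentSeries E).coeff 0, ?_⟩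
  apply Subtype.ext
  exact (eq_algebraMap_of_isAlgebraic E hf').symm

/-- the product `x_q = j j_q` at level `q` -/
def xq (q : ℕ) [NeZero q] : _root_.Fermat.Agent.A2.Mod.FE E q := jE E q 1 (one_dvd q) * jE E q q dvd_rfl

theorem vInf_xq (q : ℕ) [NeZero q] :
    vInf E q (xq E q) = ((-((q : ℤ) + 1) : ℤ) : WithTop ℤ) := by
  rw [xq, addVal_mul_coe _ (vInf_jE E q 1 (one_dvd _)) (vInf_jE E q q dvd_rfl)]
  congr 1
  push_cast
  ring

theorem vZero_xq (q : ℕ) [NeZero q] :
    vZero E q (xq E q) = ((-((q : ℤ) + 1) : ℤ) : WithTop ℤ) := by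
  rw [xq, addVal_mul_coe _ (vZero_jE_one E q) (vZero_jE_self E q)]
  congr 1
  push_cast
  ring

/-- **Lower bound, level `q`.** `j_q, …, j_q^(q+1), j, …, j^(q+1)` are linearly independent over
`E(x)`. -/
theorem linearIndependent_pow (q : ℕ) [NeZero q] (hq : 2 ≤ q) :
    LinearIndependent (IntermediateField.adjoin E ({xq E q} : Set (_root_.Fermat.Agent.A2.Mod.FE E q)))
      (Sum.elim (fun i : Fin (q + 1) => jE E q q dvd_rfl ^ ((i : ℕ) + 1))
        (fun i : Fin (q + 1) => jE E q 1 (one_dvd q) ^ ((i : ℕ) + 1))) := by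
  have hq0 : (2 : ℤ) ≤ q := by exact_mod_cast hq
  refine linearIndependent_of_two_addVal (vInf E q) (vZero E q)
    (fun c hc => vInf_algebraMap E q hc) (fun c hc => vZero_algebraMap E q hc)
    (a := -((q : ℤ) + 1)) (by omega) (vInf_xq E q) (vZero_xq E q)
    (fun i : Fin (q + 1) => (((i : ℕ) : ℤ) + 1) * (-(q : ℤ))) ?_ _ _ ?_ ?_ ?_ ?_
  · intro i i' m m' h
    have hi := i.2
    have hi' := i'.2
    set d : ℤ := ((i : ℕ) : ℤ) - ((i' : ℕ) : ℤ) with hd
    have hdvd : ((q : ℤ) + 1) ∣ d := by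
      refine ⟨d - (m' - m), ?_⟩
      rw [hd]
      linear_combination h
    have habs : |d| < (q : ℤ) + 1 := by
      rw [abs_lt]
      constructor <;> omega
    have hd0 : d = 0 := Int.eq_zero_of_abs_lt_dvd hdvd habs
    apply Fin.ext
    omega
  · intro i
    rw [addVal_pow_coe _ (vInf_jE E q q dvd_rfl)]
    congr 1
  · intro i
    rw [addVal_pow_coe _ (vZero_jE_self E q)]
    have h1 : ((((i : ℕ) : ℤ) + 1) * (-(q : ℤ)) : ℤ) + 1 ≤ (((i : ℕ) + 1 : ℕ) : ℤ) * (-((1 : ℕ) : ℤ)) := by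
      push_cast
      have : (0 : ℤ) ≤ ((i : ℕ) : ℤ) := Int.natCast_nonneg _
      nlinarith
    calc ((((((i : ℕ) : ℤ) + 1) * (-(q : ℤ)) : ℤ)) : WithTop ℤ) + 1
        = (((((i : ℕ) : ℤ) + 1) * (-(q : ℤ)) + 1 : ℤ) : WithTop ℤ) := by
          push_cast; rfl
      _ ≤ _ := WithTop.coe_le_coe.mpr h1
  · intro i
    rw [addVal_pow_coe _ (vZero_jE_one E q)]
    congr 1
  · intro i
    rw [addVal_pow_coe _ (vInf_jE E q 1 (one_dvd q))]
    have h1 : ((((i : ℕ) : ℤ) + 1) * (-(q : ℤ)) : ℤ) + 1 ≤ (((i : ℕ) + 1 : ℕ) : ℤ) * (-((1 : ℕ) : ℤ)) := by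
      push_cast
      have : (0 : ℤ) ≤ ((i : ℕ) : ℤ) := Int.natCast_nonneg _
      nlinarith
    calc ((((((i : ℕ) : ℤ) + 1) * (-(q : ℤ)) : ℤ)) : WithTop ℤ) + 1
        = (((((i : ℕ) : ℤ) + 1) * (-(q : ℤ)) + 1 : ℤ) : WithTop ℤ) := by
          push_cast; rfl
      _ ≤ _ := WithTop.coe_le_coe.mpr h1

end Cons

end Fermat.Agent.A2.Mod.H816

end

end
-- ===== PACK-END A2/Mod/H816/L8Val.lean

-- ===== PACK-BEGIN S29/H871/Dichotomy.lean
section


/-!
# S29 / E3, part 5: uniqueness of the base-changed place and the dichotomy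

(helper871)
-/

set_option autoImplicit false
set_option linter.unusedSectionVars false

noncomputable section

namespace Fermat.Agent.S29.H871

open AlgebraicCurve TensorProduct
open Fermat.Agent.S24.H117 (mem_iff_ord_nonneg ord_pow ord_add_eq_of_lt place_ext_of_le
  mem_of_ord_nonneg ord_nonneg_of_mem)

variable {K F K' F' : Type*} [Field K] [Field F] [Field K'] [Field F']
  [Algebra K F] [Algebra K' F'] [Algebra K K'] [Algebra F F'] [Algebra K F']
  [IsScalarTower K F F'] [IsScalarTower K K' F']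

section Unique

variable {v : Place K F} (hv : IsRationalPlace v) (w : Place K' F')

theorem muA_mem_of_le (h1 : ∀ f ∈ v.toValuationSubring, 0 ≤ w.ord (algebraMap F F' f))
    (x : v.toValuationSubring ⊗[K] K') : muA K' F' v x ∈ w.toValuationSubring := by
  induction x using TensorProduct.induction_on with
  | zero => rw [map_zero]; exact zero_mem _
  | tmul a c =>
    rw [muA_tmul]
    exact mul_mem (mem_of_ord_nonneg w (h1 a a.2)) (w.algebraMap_mem' c)
  | add x y hx hy => rw [map_add]; exact add_mem hx hy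

theorem epsHom_one_tmul (c : K') :
    epsHom hv ((1 : v.toValuationSubring) ⊗ₜ[K] c) = c := by
  rw [epsHom_tmul, map_one, map_one, one_mul]

theorem ord_muA_eq_zero_of_eps_ne_zero
    (h1 : ∀ f ∈ v.toValuationSubring, 0 ≤ w.ord (algebraMap F F' f))
    {π : v.toValuationSubring} (hπ : Irreducible π)
    (h2 : 0 < w.ord (algebraMap F F' (π : F)))
    {s : v.toValuationSubring ⊗[K] K'} (hs : epsHom hv s ≠ 0) :
    w.ord (muA K' F' v s) = 0 := by
  set c := epsHom hv s with hc
  have hker : epsHom hv (s - (1 : v.toValuationSubring) ⊗ₜ[K] c) = 0 := by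
    rw [map_sub, epsHom_one_tmul, sub_self]
  obtain ⟨t, ht⟩ := exists_eq_piT_mul_of_epsHom_eq_zero hv hπ hker
  have hs' : s = (1 : v.toValuationSubring) ⊗ₜ[K] c + piT π * t := by
    rw [← ht]; ring
  have hμ : muA K' F' v s = algebraMap K' F' c + algebraMap F F' (π : F) * muA K' F' v t := by
    conv_lhs => rw [hs']
    rw [map_add, map_mul, muA_piT, muA_tmul]
    simp
  have hc0 : algebraMap K' F' c ≠ 0 := by
    intro h
    exact hs ((algebraMap K' F').injective (by rw [h, map_zero]))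
  have hordc : w.ord (algebraMap K' F' c) = 0 := Fermat.Agent.S24.FF.ord_algebraMap w c
  rw [hμ]
  by_cases hzero : algebraMap F F' (π : F) * muA K' F' v t = 0
  · rw [hzero, add_zero, hordc]
  · have hπ0 : algebraMap F F' (π : F) ≠ 0 := left_ne_zero_of_mul hzero
    have ht0 : muA K' F' v t ≠ 0 := right_ne_zero_of_mul hzero
    have hordt : 0 ≤ w.ord (muA K' F' v t) := ord_nonneg_of_mem w (muA_mem_of_le w h1 t)
    have hlt : w.ord (algebraMap K' F' c) <
        w.ord (algebraMap F F' (π : F) * muA K' F' v t) := by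
      rw [w.ord_mul hπ0 ht0, hordc]
      omega
    rw [ord_add_eq_of_lt w hlt hc0, hordc]

variable [IsConstExt K F K' F']

/-- **Uniqueness**: a place of `F'/K'` whose valuation ring contains `O_v` and whose maximal
ideal contains a uniformizer of `v` is the base change of `v`. -/
theorem placeBC_eq_of_le (h1 : ∀ f ∈ v.toValuationSubring, 0 ≤ w.ord (algebraMap F F' f))
    {π : v.toValuationSubring} (hπ : Irreducible π)
    (h2 : 0 < w.ord (algebraMap F F' (π : F))) : placeBC K' F' hv = w := by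
  apply place_ext_of_le
  intro z hz
  have hz' : IsIntegralBC K' F' hv z := mem_of_ord_nonneg (placeBC K' F' hv) hz
  obtain ⟨x, s, hs, hxs⟩ := hz'
  have hs0 : muA K' F' v s ≠ 0 := muA_ne_zero (eps_ne_zero_ne_zero hv hs)
  rcases eq_or_ne z 0 with rfl | hz0
  · simp
  have hords := ord_muA_eq_zero_of_eps_ne_zero hv w h1 hπ h2 hs
  have hordx : 0 ≤ w.ord (muA K' F' v x) := ord_nonneg_of_mem w (muA_mem_of_le w h1 x)
  rw [← hxs, w.ord_mul hz0 hs0, hords, add_zero] at hordx
  exact hordx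

end Unique

section Dichotomy

variable [IsConstExt K F K' F'] (w : Place K' F')

/-- **Dichotomy**: a place of `F'/K'` which is nontrivial on `F` and whose restriction to `F` is
rational is the base change of its restriction. -/
theorem placeBC_restrictPlace (hnt : ∃ t : F, rord w t ≠ 0)
    (hrat : IsRationalPlace (restrictPlace (K := K) w hnt)) :
    placeBC K' F' hrat = w := by
  obtain ⟨π, hπ⟩ := IsDiscreteValuationRing.exists_irreducible
    (restrictPlace (K := K) w hnt).toValuationSubring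
  refine placeBC_eq_of_le hrat w ?_ hπ ?_
  · intro f hf
    exact (mem_restrictRing w).mp hf
  · have hπ0 : (π : F) ≠ 0 := fun h => hπ.ne_zero (Subtype.ext h)
    have hmem : 0 ≤ rord w (π : F) := (mem_restrictRing w).mp π.2
    by_contra hcon
    have h0 : rord w (π : F) = 0 := le_antisymm (not_lt.mp hcon) hmem
    have hπne : π ≠ 0 := hπ.ne_zero
    exact hπ.not_isUnit ((isUnit_restrictRing_iff w hπne).mpr h0)

/-- The restriction of `placeBC v` to `F` is `v`. -/
theorem rord_placeBC {v : Place K F} (hv : IsRationalPlace v) (f : F) :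
    rord (placeBC K' F' hv) f = v.ord f :=
  ord_placeBC_algebraMap hv f

end Dichotomy

end Fermat.Agent.S29.H871

end
end
-- ===== PACK-END S29/H871/Dichotomy.lean

-- ===== PACK-BEGIN S37/H448/Gen.lean
section







/-!
# S37 / piece R-f [GEN] (helper448): unconditional `PrincipalGeneratedByIntegral`

Glue of landed pieces:
* `S28.H867.coreData_of_inputs` + `S28.H807` + `S28.H25` : `CoreData N K` for every field `K`
  of characteristic `ℓ ∤ N`;
* `Lib.RR.H864.hasPrincipalDivisors_modularFunctionFieldBar`;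
* `S37.H700.pgi`, `S37.H700.reduction_mem`.

Exports (all hypothesis-free beyond `ℓ` prime, `ℓ ∤ N`, `A` over `ℓ`):
* `charP_residueField_of_liesOverPrime`
* `coreData_residueField`
* `principalGeneratedByIntegral` : the field `gen` of `Core.GeoRed` / `Core.PlaceRed`
* `reduction_mem_fullC` : the reduction of `u ∈ A((q)) ∩ F̄_N` lies in `F_k`
-/

set_option autoImplicit false

noncomputable section

namespace Fermat.Agent.S37.H448

open ModularCurve HahnSeries AlgebraicCurve

/-- the residue field of a valuation subring of `ℚ̄` over `ℓ` has characteristic `ℓ` -/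
theorem charP_residueField_of_liesOverPrime {ℓ : ℕ} (hℓ : ℓ.Prime)
    (A : ValuationSubring (AlgebraicClosure ℚ)) (hA : A.LiesOverPrime ℓ) :
    CharP (IsLocalRing.ResidueField A) ℓ := by
  refine (CharP.charP_iff_prime_eq_zero hℓ).mpr ?_
  have h1 : ((ℓ : A) : AlgebraicClosure ℚ) ∈ A.nonunits := by
    have : ((ℓ : A) : AlgebraicClosure ℚ) = (ℓ : AlgebraicClosure ℚ) := by push_cast; rfl
    rw [this]; exact hA
  have h2 : (ℓ : A) ∈ IsLocalRing.maximalIdeal A := ValuationSubring.coe_mem_nonunits_iff.mp h1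
  have h3 := (IsLocalRing.residue_eq_zero_iff (ℓ : A)).mpr h2
  rwa [map_natCast] at h3

/-- `CoreData N k` for the residue field `k` of a valuation subring of `ℚ̄` over `ℓ ∤ N` -/
theorem coreData_residueField (N : ℕ) [NeZero N] {ℓ : ℕ} (hℓ : ℓ.Prime) (hℓN : ¬ ℓ ∣ N)
    (A : ValuationSubring (AlgebraicClosure ℚ)) (hA : A.LiesOverPrime ℓ) :
    Fermat.Agent.S28.CoreData N (IsLocalRing.ResidueField A) := by
  have : Fact ℓ.Prime := ⟨hℓ⟩
  have : CharP (IsLocalRing.ResidueField A) ℓ := charP_residueField_of_liesOverPrime hℓ A hA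
  exact Fermat.Agent.S28.H867.coreData_of_inputs N ℓ hℓN (IsLocalRing.ResidueField A)
    (fun p hp _ _ => Fermat.Agent.S28.H807.nonempty_modPolyData p hp)
    (fun p hp _ _ => Fermat.Agent.S28.H807.nonempty_unitPolyData p hp)
    Fermat.Agent.S28.H25.theta_identity

/-- **R-f [GEN]**: every principal divisor of `ℚ̄(X₀(N))` is generated by divisors of
`A`-integral functions with nonzero reduction in `F_k`. -/
theorem principalGeneratedByIntegral (N : ℕ) [NeZero N] {ℓ : ℕ} (hℓ : ℓ.Prime) (hℓN : ¬ ℓ ∣ N)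
    (A : ValuationSubring (AlgebraicClosure ℚ)) (hA : A.LiesOverPrime ℓ) :
    PrincipalGeneratedByIntegral A (IsLocalRing.residue A) N := by
  have := Fermat.Agent.Lib.RR.H864.hasPrincipalDivisors_modularFunctionFieldBar N
  exact Fermat.Agent.S37.H700.pgi (coreData_residueField N hℓ hℓN A hA)

/-- the coefficientwise reduction of `u ∈ A((q)) ∩ F̄_N` lies in `F_k` (so the field `memk` of
`Core.IntElt` is automatic) -/
theorem reduction_mem_fullC (N : ℕ) [NeZero N] {ℓ : ℕ} (hℓ : ℓ.Prime) (hℓN : ¬ ℓ ∣ N)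
    (A : ValuationSubring (AlgebraicClosure ℚ)) (hA : A.LiesOverPrime ℓ)
    (u : LaurentSeries A) (hu : coeffMap A.subtype u ∈ modularFunctionFieldBar N) :
    coeffMap (IsLocalRing.residue A) u ∈
      modularFunctionFieldFullC (IsLocalRing.ResidueField A) N :=
  Fermat.Agent.S37.H700.reduction_mem (coreData_residueField N hℓ hℓN A hA) u hu

end Fermat.Agent.S37.H448

end
end
-- ===== PACK-END S37/H448/Gen.lean

-- ===== PACK-BEGIN S18/H438/NodeAlg.lean
section



/-!
# S18 / NODE ALG (helper438): `Mod.AlgStatement M`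

Exact type of `Integ.node_alg` (skeleton v4 of row-lead helper18):

    theorem node_alg (M : ℕ) : Mod.AlgStatement M

It is the instance `Ω = Om M` of `H438.algMain : Alg.AlgMainStatement Lc x S 𝓕`
(`Front/AlgMain.lean`), which holds for every field `Ω` and every good family.
-/

set_option autoImplicit false

namespace Fermat.Agent.S18.H438

/-- **NODE ALG.** -/
theorem node_alg (M : ℕ) : Mod.AlgStatement M :=
  fun Lc x S 𝓕 => algMain Lc x S 𝓕

end Fermat.Agent.S18.H438

end
-- ===== PACK-END S18/H438/NodeAlg.lean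

-- ===== PACK-BEGIN S17/H290/GaussAsm.lean
section



/-!
# S17 / tower H — sub-project GAUSS (lead helper290): the assembly

`gauss_of_leaves : TangentFormsStatement E → WeilStatement E → AvoidStatement E →
  E3Statement E E → GAUSSStatement E`   (sorry-free).

`K₀ := (e − 2) Z_{a₀} − Z` for a hyperplane section `Z_{a₀}` avoiding `Z`:
`κ(P) = h(G(pt P)) − 2 h(P) = (e − 2) h(P) − (Z . P) + O(1) = (K₀ . P) + O(1)`.
-/

set_option autoImplicit false

noncomputable section

namespace Fermat.Agent.S17.H290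

open AlgebraicCurve MvPolynomial
open Fermat.Agent.Lib.RR Fermat.Agent.S17.HWall Fermat.Agent.S17.HContract Fermat.Agent.S17.Wall
open Fermat.Agent.S17.H380

variable {K F : Type*} [Field K] [CharZero K] [Field F] [Algebra K F] [FF1 K F]

theorem pairPt_sub (E : EmbData K F) (D D' : Divisor K F) (P : Place K F) :
    pairPt E (D - D') P = pairPt E D P - pairPt E D' P := by
  unfold pairPt
  rw [Finsupp.sum_sub_index]
  intro A n n'
  push_cast
  ring

theorem pairPt_zsmul (E : EmbData K F) (c : ℤ) (D : Divisor K F) (P : Place K F) :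
    pairPt E (c • D) P = (c : ℝ) * pairPt E D P := by
  unfold pairPt
  rw [Finsupp.sum_smul_index (by intro i; simp), Finsupp.mul_sum]
  refine Finsupp.sum_congr fun A _ => ?_
  push_cast [smul_eq_mul]
  ring

theorem isIntegral_of_isAlgebraic [Algebra.IsAlgebraic ℚ K] (z : K) : IsIntegral ℚ z :=
  (Algebra.IsAlgebraic.isAlgebraic z).isIntegral

/-- **GAUSS from its leaves.** -/
theorem gauss_of_leaves [Algebra.IsAlgebraic ℚ K] (E : EmbData K F)
    (hT : TangentFormsStatement E) (hW : WeilStatement E) (hA : AvoidStatement E)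
    (hE3 : E3Statement E E) : GAUSSStatement E := by
  classical
  obtain ⟨e, G, Z, he, hG, hZ0, hex, hdeg, htan⟩ := hT
  obtain ⟨a₀, ha₀, hav⟩ := hA Z.support
  obtain ⟨C₁, hC₁⟩ := hW _ e G Z hG hZ0 hex
  obtain ⟨C₂, hC₂⟩ := hE3
  have he2 : (1 : ℤ) ≤ (e : ℤ) - 2 := by omega
  refine ⟨((e : ℤ) - 2) • E.Z a₀ - Z, C₁ + ((e : ℝ) - 2) * (C₂ + |ht a₀|), ?_, ?_⟩
  · rw [map_sub, map_zsmul, E.degree_Z ha₀, hdeg, smul_eq_mul]
    ring
  · intro P hP
    rw [Finsupp.sub_apply, Finsupp.smul_apply, smul_eq_mul] at hP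
    have hZP : Z P = 0 := by
      by_contra h
      have hmem : P ∈ Z.support := Finsupp.mem_support_iff.mpr h
      rw [hav P hmem, mul_zero, zero_sub, neg_eq_zero] at hP
      exact h hP
    have hZa : E.Z a₀ P = 0 := by
      rw [hZP, sub_zero] at hP
      rcases mul_eq_zero.mp hP with h | h
      · omega
      · exact h
    have hdot : dot a₀ (E.pt P) ≠ 0 := by
      intro h0
      have := (E.pt_spec P a₀ ha₀).mp h0
      unfold EmbData.Z at hZa
      omega
    have h3 := hC₂ a₀ P ha₀ hdot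
    have h1 := hC₁ P hZP
    obtain ⟨c, hc, hGc⟩ := htan P hZP
    have hht : ht (fun p => eval (E.pt P) (G p)) = ht (wedge (E.pt P) (E.tn P)) := by
      have e1 : (fun p => eval (E.pt P) (G p)) = c • wedge (E.pt P) (E.tn P) := by
        funext p
        rw [hGc p, Pi.smul_apply, smul_eq_mul]
      rw [e1]
      exact absLogHeight_smul _ (fun i => isIntegral_of_isAlgebraic _) hc
        (isIntegral_of_isAlgebraic c)
    rw [hht] at h1
    rw [pairPt_sub, pairPt_zsmul]
    unfold kap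
    have he' : (0 : ℝ) ≤ (e : ℝ) - 2 := by
      have : (3 : ℝ) ≤ e := by exact_mod_cast he
      linarith
    have key : ht (wedge (E.pt P) (E.tn P)) - 2 * ht (E.pt P) -
        ((((e : ℤ) - 2 : ℤ) : ℝ) * pairPt E (E.Z a₀) P - pairPt E Z P) =
        (ht (wedge (E.pt P) (E.tn P)) - (e : ℝ) * ht (E.pt P) + pairPt E Z P) -
          ((e : ℝ) - 2) * (pairPt E (E.Z a₀) P - ht a₀ - ht (E.pt P)) -
          ((e : ℝ) - 2) * ht a₀ := by
      push_cast
      ring
    rw [key]
    have b1 := abs_le.mp h1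
    have b3 := abs_le.mp h3
    have b4 := abs_le.mp (le_refl |ht a₀|)
    have m3l : -(((e : ℝ) - 2) * C₂) ≤
        ((e : ℝ) - 2) * (pairPt E (E.Z a₀) P - ht a₀ - ht (E.pt P)) := by
      have := mul_le_mul_of_nonneg_left b3.1 he'
      linarith
    have m3u : ((e : ℝ) - 2) * (pairPt E (E.Z a₀) P - ht a₀ - ht (E.pt P)) ≤
        ((e : ℝ) - 2) * C₂ := mul_le_mul_of_nonneg_left b3.2 he'
    have m4l : -(((e : ℝ) - 2) * |ht a₀|) ≤ ((e : ℝ) - 2) * ht a₀ := by
      have := mul_le_mul_of_nonneg_left b4.1 he'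
      linarith
    have m4u : ((e : ℝ) - 2) * ht a₀ ≤ ((e : ℝ) - 2) * |ht a₀| :=
      mul_le_mul_of_nonneg_left b4.2 he'
    rw [abs_le]
    constructor <;> nlinarith [b1.1, b1.2]

end Fermat.Agent.S17.H290

end
end
-- ===== PACK-END S17/H290/GaussAsm.lean

-- ===== PACK-BEGIN S37/H819/Gamma.lean
section


/-!
# S37 / NORM (helper819) — matrix lemmas for the cosets of `Γ₀(Nℓ)` in `Γ₀(N)`

For a prime `ℓ ∤ N` and `h ∈ Γ₀(N)`:
* either `ℓ ∣ h₁₀` (then `h ∈ Γ₀(Nℓ)`), or there is `b` with `ℓ ∣ h₁₁ - b h₁₀`;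
* in the second case `diag(dℓ,1)·h = γ'·[[d, d b],[0, ℓ]]` for every `d ∣ N`, i.e.
  `j(dℓ·hτ) = j(d(τ+b)/ℓ)`;
* every residue `b` occurs.
-/

set_option autoImplicit false

noncomputable section

open UpperHalfPlane
open scoped MatrixGroups

namespace Fermat.Agent.S37.H819

open Fermat.Agent.S24 Fermat.Agent.S24.H997

theorem gamma0_mem_iff_dvd (N : ℕ) (g : SL(2, ℤ)) :
    g ∈ CongruenceSubgroup.Gamma0 N ↔ (N : ℤ) ∣ g 1 0 := by
  rw [CongruenceSubgroup.Gamma0_mem, ZMod.intCast_zmod_eq_zero_iff_dvd]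

/-- If `ℓ ∣ h₁₀` and `h ∈ Γ₀(N)` with `gcd(N,ℓ) = 1`, then `h ∈ Γ₀(Nℓ)`. -/
theorem mem_gamma0_mul {N ℓ : ℕ} (hcop : Nat.Coprime N ℓ) {h : SL(2, ℤ)}
    (hN : h ∈ CongruenceSubgroup.Gamma0 N) (hℓ : (ℓ : ℤ) ∣ h 1 0) :
    h ∈ CongruenceSubgroup.Gamma0 (N * ℓ) := by
  rw [gamma0_mem_iff_dvd] at hN ⊢
  have hc : IsCoprime (N : ℤ) (ℓ : ℤ) := Nat.isCoprime_iff_coprime.mpr hcop
  push_cast
  exact hc.mul_dvd hN hℓ

/-- For `ℓ` prime, either `ℓ ∣ h₁₀` or `h₁₁ ≡ b h₁₀ mod ℓ` for some `b`. -/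
theorem dvd_or_exists_b {ℓ : ℕ} (hℓ : ℓ.Prime) (h : SL(2, ℤ)) :
    (ℓ : ℤ) ∣ h 1 0 ∨ ∃ b : ℤ, (ℓ : ℤ) ∣ h 1 1 - b * h 1 0 := by
  by_cases hd : (ℓ : ℤ) ∣ h 1 0
  · exact Or.inl hd
  · right
    have hp : Prime (ℓ : ℤ) := Nat.prime_iff_prime_int.mp hℓ
    have hc : IsCoprime (ℓ : ℤ) (h 1 0) := (Prime.coprime_iff_not_dvd hp).mpr hd
    obtain ⟨s, t, hst⟩ := hc
    refine ⟨h 1 1 * t, ⟨h 1 1 * s, ?_⟩⟩
    linear_combination (-(h 1 1)) * hst

/-- `ℓ ∣ h₁₁ - b h₁₀` excludes `ℓ ∣ h₁₀`. -/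
theorem not_dvd_of_twist {ℓ : ℕ} (hℓ : ℓ.Prime) {h : SL(2, ℤ)} {b : ℤ}
    (hb : (ℓ : ℤ) ∣ h 1 1 - b * h 1 0) : ¬ (ℓ : ℤ) ∣ h 1 0 := by
  intro hd
  have h11 : (ℓ : ℤ) ∣ h 1 1 := by
    have := dvd_add hb (Dvd.dvd.mul_left hd b)
    simpa using this
  have hdet := inf_sl_det h
  have h1 : (ℓ : ℤ) ∣ 1 := by
    rw [← hdet]
    exact dvd_sub (Dvd.dvd.mul_left h11 _) (Dvd.dvd.mul_left hd _)
  have hp : Prime (ℓ : ℤ) := Nat.prime_iff_prime_int.mp hℓ
  exact hp.not_dvd_one h1

/-- The Hermite normal form `diag(dℓ,1)·h = γ'·[[d, d b],[0, ℓ]]`. -/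
theorem exists_hnf_twist (d ℓ : ℕ) (b : ℤ) (h : SL(2, ℤ)) (hd : (d : ℤ) ∣ h 1 0)
    (hb : (ℓ : ℤ) ∣ h 1 1 - b * h 1 0) :
    ∃ γ' : SL(2, ℤ), ((d * ℓ : ℕ) : ℤ) * h 0 0 = γ' 0 0 * (d : ℕ) ∧
      ((d * ℓ : ℕ) : ℤ) * h 0 1 = γ' 0 0 * ((d : ℤ) * b) + γ' 0 1 * (ℓ : ℕ) ∧
      h 1 0 = γ' 1 0 * (d : ℕ) ∧ h 1 1 = γ' 1 0 * ((d : ℤ) * b) + γ' 1 1 * (ℓ : ℕ) := by
  obtain ⟨c, hc⟩ := hd
  obtain ⟨e, he⟩ := hb
  have hdet := inf_sl_det h
  refine ⟨⟨!![(ℓ : ℤ) * h 0 0, (d : ℤ) * h 0 1 - (d : ℤ) * b * h 0 0; c, e], ?_⟩, ?_, ?_, ?_, ?_⟩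
  · rw [Matrix.det_fin_two_of]
    have h11 : h 1 1 = (ℓ : ℤ) * e + b * h 1 0 := by linarith
    rw [h11, hc] at hdet
    linear_combination hdet
  · simp; ring
  · simp; ring
  · simp [hc]; ring
  · simp
    have h11 : h 1 1 = (ℓ : ℤ) * e + b * h 1 0 := by linarith
    rw [h11, hc]; ring

/-- Every residue class `b` is realised by some `h ∈ Γ₀(N)`. -/
theorem exists_rep {N ℓ : ℕ} (hcop : Nat.Coprime N ℓ) (b : ℤ) :
    ∃ h : SL(2, ℤ), h ∈ CongruenceSubgroup.Gamma0 N ∧ (ℓ : ℤ) ∣ h 1 1 - b * h 1 0 := by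
  have hc : IsCoprime (b * N + ℓ : ℤ) (N : ℤ) := by
    have h0 : IsCoprime (ℓ : ℤ) (N : ℤ) := (Nat.isCoprime_iff_coprime.mpr hcop).symm
    have := h0.add_mul_right_left b
    simpa [add_comm] using this
  obtain ⟨s, t, hst⟩ := hc
  have hdet : (!![s, -t; (N : ℤ), b * N + ℓ] : Matrix (Fin 2) (Fin 2) ℤ).det = 1 := by
    rw [Matrix.det_fin_two_of]
    linear_combination hst
  let g : SL(2, ℤ) := ⟨!![s, -t; (N : ℤ), b * N + ℓ], hdet⟩
  have g10 : g 1 0 = (N : ℤ) := by simp [g]
  have g11 : g 1 1 = b * N + ℓ := by simp [g]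
  refine ⟨g, ?_, ?_⟩
  · rw [gamma0_mem_iff_dvd, g10]
  · rw [g10, g11]
    exact ⟨1, by ring⟩

end Fermat.Agent.S37.H819

end
end
-- ===== PACK-END S37/H819/Gamma.lean

-- ===== PACK-BEGIN S37/H819/Emb.lean
section




/-!
# S37 / NORM (helper819) — the embeddings `σ_g` of `ℚ̄(X₀(Nℓ))` for `g ∈ Γ₀(N)`

`M = N ℓ`, `σ_g := sigmaG (holBase M) qexp g : FF M →+* ℂ((z))`, `z = q^{1/M}`
(S24, helper997).  For `h ∈ Γ₀(N)`:
* `σ_{h⁻¹} ∘ α = Φ_M` on `FF N`                                  (`sig_alpha`)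
* `σ_{h⁻¹} ∘ β = (y ↦ y(ζ^b q^{1/ℓ}))` if `ℓ ∣ h₁₁ - b h₁₀`       (`sig_beta`)
* `σ_1 = Φ_M`                                                      (`sig_one`)
where `α, β : FF N → FF M` are the Prelude degeneracy maps `heckeAlphaBar`, `heckeBetaBar`.
-/

set_option autoImplicit false

noncomputable section

open ModularCurve HahnSeries UpperHalfPlane AlgebraicCurve
open scoped MatrixGroups

namespace Fermat.Agent.S37.H819

open Fermat.Agent.S24 Fermat.Agent.S24.H997

/-! ### Formal lemmas on `infTwist`, `qExpand`, `coeffMap` -/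

section Formal

variable {R : Type*} [CommRing R]

theorem infTwist_qExpand (u : Rˣ) (d : ℕ) [NeZero d] (x : LaurentSeries R) :
    infTwist u (qExpand R d x) = qExpand R d (infTwist (u ^ d) x) := by
  ext k
  rw [infTwist_coeff]
  by_cases hk : (d : ℤ) ∣ k
  · obtain ⟨m, rfl⟩ := hk
    rw [qExpand_coeff_mul, qExpand_coeff_mul, infTwist_coeff]
    congr 2
    rw [zpow_mul, zpow_natCast]
  · rw [qExpand_coeff_of_not_dvd d _ hk, qExpand_coeff_of_not_dvd d _ hk, zero_mul]

theorem coeffMap_infTwist {S : Type*} [CommRing S] (f : R →+* S) (u : Rˣ)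
    (x : LaurentSeries R) :
    coeffMap f (infTwist u x) = infTwist (Units.map (f : R →* S) u) (coeffMap f x) := by
  ext k
  rw [coeffMap_coeff, infTwist_coeff, infTwist_coeff, coeffMap_coeff, map_mul]
  congr 1
  rw [← map_zpow]
  rfl

theorem coeffMap_C' {S : Type*} [CommRing S] (f : R →+* S) (r : R) :
    coeffMap f (HahnSeries.C r) = HahnSeries.C (f r) := by
  rw [C_apply, coeffMap_single, C_apply]

end Formal

theorem coeffMap_ιK_coeffEmb (s : LaurentSeries ℚ) :
    coeffMap ιK (coeffEmb Kbar s) = coeffEmb ℂ s := by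
  rw [coeffEmb, coeffMap_coeffMap, coeffEmb]
  refine coeffMap_congr (RingHom.ext fun c => ?_) s
  rw [RingHom.comp_apply, ιK_algebraMap]
  simp

theorem infRoot_pow (b : ℤ) (n d : ℕ) : (infRoot b n) ^ d = infRoot ((d : ℤ) * b) n := by
  apply Units.ext
  rw [Units.val_pow_eq_pow_val, infRoot_coe, infRoot_coe, ← Complex.exp_nat_mul]
  congr 1
  push_cast
  ring

/-- the expansion of `j(d(τ+b)/ℓ)` is `j_d(ζ^b q^{1/ℓ})`, in the variable `z = q^{1/(Nℓ)}` -/
theorem infGenExp_eq_twist (N ℓ d : ℕ) [NeZero N] [NeZero d] (b : ℤ) :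
    haveI : NeZero (d * N) := ⟨Nat.mul_ne_zero (NeZero.ne d) (NeZero.ne N)⟩
    infGenExp (d * N) ((d : ℤ) * b) ℓ
      = qExpand ℂ N (infTwist (infRoot b ℓ) (coeffMap ιK (coeffEmb Kbar (qExpand ℚ d jq)))) := by
  have : NeZero (d * N) := ⟨Nat.mul_ne_zero (NeZero.ne d) (NeZero.ne N)⟩
  rw [coeffMap_ιK_coeffEmb, coeffEmb, coeffMap_qExpand, infTwist_qExpand, qExpand_qExpand,
    infRoot_pow, infGenExp]
  have : coeffMap (algebraMap ℚ ℂ) jq = infJq := rfl
  rw [this]
  exact qExpand_congr (Nat.mul_comm d N) _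

variable (N ℓ : ℕ) [NeZero N] [NeZero ℓ]

/-- the embedding `σ_g` at level `N ℓ` -/
def sig (g : SL(2, ℤ)) : FF (N * ℓ) →+* LaurentSeries ℂ :=
  (holBase (N * ℓ)).sigmaG (holBase (N * ℓ)).qexpExpansion g

theorem sig_inclRN (g : SL(2, ℤ)) (r : RN (N * ℓ)) :
    sig N ℓ g (inclRN (N * ℓ) r)
      = (holBase (N * ℓ)).qexp ((holBase (N * ℓ)).compH g⁻¹ ((holBase (N * ℓ)).bridge r)) :=
  (holBase (N * ℓ)).sigmaG_inclRN _ g r

theorem sig_algebraMap (g : SL(2, ℤ)) (c : Kbar) :
    sig N ℓ g (algebraMap Kbar (FF (N * ℓ)) c) = HahnSeries.C (ιK c) :=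
  (holBase (N * ℓ)).sigmaG_algebraMap _ g c

/-- the value of `qexp` from a convergent expansion -/
theorem qexp_eq_of_infExp {M : ℕ} [NeZero M] (h : (holBase M).Hol) {φ : LaurentSeries ℂ}
    (hφ : InfExp M (h : ℍ → ℂ) φ) : (holBase M).qexp h = φ :=
  (expInf_spec (holToExp M h)).unique hφ

/-- `σ_1` is the formal comparison map `Φ_M`. -/
theorem sig_one (x : FF (N * ℓ)) :
    sig N ℓ 1 x = HolBase.Φ (N * ℓ) (x : LaurentSeries Kbar) := by
  obtain ⟨r, t, -, rfl⟩ := exists_div_inclRN (N * ℓ) x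
  rw [map_div₀, sig_inclRN, sig_inclRN, inv_one, HolBase.compH_one, HolBase.compH_one,
    HolBase.qexp_bridge, HolBase.qexp_bridge]
  rw [IntermediateField.coe_div, map_div₀]
  rfl

/-- Two ring homs out of `FF N` into a field agree if they agree on constants and on the
generators `j(q^d)`, `d ∣ N`. -/
theorem ringHom_ext_FF {E : Type*} [Field E] (f g : FF N →+* E)
    (hc : ∀ c : Kbar, f (algebraMap Kbar (FF N) c) = g (algebraMap Kbar (FF N) c))
    (hgen : ∀ (d : ℕ) [NeZero d] (hd : d ∣ N),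
      f (inclRN N (jR N d hd)) = g (inclRN N (jR N d hd))) : f = g := by
  let f' : RN N →+* E := f.comp (inclRN N).toRingHom
  let g' : RN N →+* E := g.comp (inclRN N).toRingHom
  have key' : ∀ r : RN N, f' r = g' r := by
    rintro ⟨r, hr⟩
    induction hr using Algebra.adjoin_induction with
    | mem x hx =>
        obtain ⟨y, ⟨d, hne, hd, rfl⟩, rfl⟩ := hx
        have : (⟨coeffEmb Kbar (qExpand ℚ d jq), Algebra.subset_adjoin
            ⟨_, ⟨d, hne, hd, rfl⟩, rfl⟩⟩ : RN N) = jR N d hd := rfl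
        rw [this]
        exact hgen d hd
    | algebraMap c =>
        have : (⟨algebraMap Kbar (LaurentSeries Kbar) c, Subalgebra.algebraMap_mem _ c⟩ : RN N)
            = algebraMap Kbar (RN N) c := rfl
        rw [this]
        show f (inclRN N (algebraMap Kbar (RN N) c)) = g (inclRN N (algebraMap Kbar (RN N) c))
        have e : inclRN N (algebraMap Kbar (RN N) c) = algebraMap Kbar (FF N) c := rfl
        rw [e]
        exact hc c
    | add x y hx hy ihx ihy =>
        have : (⟨x + y, add_mem hx hy⟩ : RN N) = ⟨x, hx⟩ + ⟨y, hy⟩ := rfl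
        rw [this, map_add, map_add, ihx, ihy]
    | mul x y hx hy ihx ihy =>
        have : (⟨x * y, mul_mem hx hy⟩ : RN N) = ⟨x, hx⟩ * ⟨y, hy⟩ := rfl
        rw [this, map_mul, map_mul, ihx, ihy]
  have key : ∀ r : RN N, f (inclRN N r) = g (inclRN N r) := key'
  ext x
  obtain ⟨r, t, -, rfl⟩ := exists_div_inclRN N x
  rw [map_div₀, map_div₀, key, key]

/-- the coercion `FF N → ℚ̄((q))` as a ring hom -/
def coeHom : FF N →+* LaurentSeries Kbar where
  toFun x := (x : LaurentSeries Kbar)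
  map_one' := rfl
  map_mul' _ _ := rfl
  map_zero' := rfl
  map_add' _ _ := rfl

@[simp] theorem coeHom_apply (x : FF N) : coeHom N x = (x : LaurentSeries Kbar) := rfl

theorem coe_inclRN_jR (d : ℕ) [NeZero d] (hd : d ∣ N) :
    ((inclRN N (jR N d hd) : FF N) : LaurentSeries Kbar) = coeffEmb Kbar (qExpand ℚ d jq) := rfl

theorem coe_algebraMap_FF (c : Kbar) :
    ((algebraMap Kbar (FF N) c : FF N) : LaurentSeries Kbar)
      = algebraMap Kbar (LaurentSeries Kbar) c := rfl

theorem alpha_inclRN_jR (d : ℕ) [NeZero d] (hd : d ∣ N) (hd' : d ∣ N * ℓ) :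
    heckeAlphaBar Kbar N ℓ (inclRN N (jR N d hd)) = inclRN (N * ℓ) (jR (N * ℓ) d hd') := by
  apply Subtype.ext
  rw [coe_heckeAlphaBar, coe_inclRN_jR, coe_inclRN_jR]

theorem beta_inclRN_jR (d : ℕ) [NeZero d] (hd : d ∣ N) [NeZero (d * ℓ)]
    (hdℓ : d * ℓ ∣ N * ℓ) :
    heckeBetaBar Kbar N ℓ (inclRN N (jR N d hd)) = inclRN (N * ℓ) (jR (N * ℓ) (d * ℓ) hdℓ) := by
  apply Subtype.ext
  rw [coe_heckeBetaBar, coe_inclRN_jR, coe_inclRN_jR, coeffEmb, ← coeffMap_qExpand,
    qExpand_qExpand]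
  congr 1
  exact qExpand_congr (Nat.mul_comm ℓ d) _

theorem compH_JH_of_mem_gamma0 {h : SL(2, ℤ)} (hh : h ∈ CongruenceSubgroup.Gamma0 N)
    (d : ℕ) (hd : d ∣ N) (hd' : d ∣ N * ℓ) :
    (holBase (N * ℓ)).compH h ((holBase (N * ℓ)).JH d hd') = (holBase (N * ℓ)).JH d hd' := by
  apply Subtype.ext
  funext τ
  exact Jd_inv N d hd h hh τ

/-- For `h ∈ Γ₀(N)` the embedding `σ_{h⁻¹}` restricts to `Φ_M` on `α(FF N)`. -/
theorem sig_alpha {h : SL(2, ℤ)} (hh : h ∈ CongruenceSubgroup.Gamma0 N) (y : FF N) :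
    sig N ℓ h⁻¹ (heckeAlphaBar Kbar N ℓ y) = HolBase.Φ (N * ℓ) (y : LaurentSeries Kbar) := by
  have key := ringHom_ext_FF N ((sig N ℓ h⁻¹).comp (heckeAlphaBar Kbar N ℓ).toRingHom)
    ((HolBase.Φ (N * ℓ)).comp (coeHom N)) ?_ ?_
  · exact RingHom.congr_fun key y
  · intro c
    rw [RingHom.comp_apply, RingHom.comp_apply, coeHom_apply, coe_algebraMap_FF,
      HolBase.Φ_algebraMap]
    have e : (heckeAlphaBar Kbar N ℓ).toRingHom (algebraMap Kbar (FF N) c)
        = algebraMap Kbar (FF (N * ℓ)) c := (heckeAlphaBar Kbar N ℓ).commutes c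
    rw [e, sig_algebraMap]
  · intro d _ hd
    have hd' : d ∣ N * ℓ := Dvd.dvd.mul_right hd ℓ
    rw [RingHom.comp_apply, RingHom.comp_apply, coeHom_apply, coe_inclRN_jR]
    have e : (heckeAlphaBar Kbar N ℓ).toRingHom (inclRN N (jR N d hd))
        = inclRN (N * ℓ) (jR (N * ℓ) d hd') := alpha_inclRN_jR N ℓ d hd hd'
    rw [e, sig_inclRN, HolBase.bridge_jR, inv_inv, (holBase (N * ℓ)).Φ_gen d hd',
      compH_JH_of_mem_gamma0 N ℓ hh d hd hd']

/-- For `h ∈ Γ₀(N)` with `h₁₁ ≡ b h₁₀ mod ℓ`, the embedding `σ_{h⁻¹}` is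
`y ↦ y(ζ_ℓ^b q^{1/ℓ})` on `β(FF N)`. -/
theorem sig_beta {h : SL(2, ℤ)} (hh : h ∈ CongruenceSubgroup.Gamma0 N) {b : ℤ}
    (hb : (ℓ : ℤ) ∣ h 1 1 - b * h 1 0) (y : FF N) :
    sig N ℓ h⁻¹ (heckeBetaBar Kbar N ℓ y)
      = qExpand ℂ N (infTwist (infRoot b ℓ) (coeffMap ιK (y : LaurentSeries Kbar))) := by
  have key := ringHom_ext_FF N ((sig N ℓ h⁻¹).comp (heckeBetaBar Kbar N ℓ).toRingHom)
    (((qExpand ℂ N).comp (infTwist (infRoot b ℓ))).comp ((coeffMap ιK).comp (coeHom N))) ?_ ?_
  · exact RingHom.congr_fun key y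
  · intro c
    rw [RingHom.comp_apply, RingHom.comp_apply, RingHom.comp_apply, RingHom.comp_apply,
      coeHom_apply, coe_algebraMap_FF]
    have e : (heckeBetaBar Kbar N ℓ).toRingHom (algebraMap Kbar (FF N) c)
        = algebraMap Kbar (FF (N * ℓ)) c := (heckeBetaBar Kbar N ℓ).commutes c
    rw [e, sig_algebraMap, algebraMap_laurentSeries_eq_single, coeffMap_single,
      infTwist_single, qExpand_single]
    simp [HahnSeries.C_apply]
  · intro d _ hd
    have hN0 : 0 < N := Nat.pos_of_ne_zero (NeZero.ne N)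
    have hℓ0 : 0 < ℓ := Nat.pos_of_ne_zero (NeZero.ne ℓ)
    have hd0 : 0 < d := Nat.pos_of_dvd_of_pos hd hN0
    have hdℓ : d * ℓ ∣ N * ℓ := Nat.mul_dvd_mul_right hd ℓ
    haveI hne1 : NeZero (d * ℓ) := ⟨Nat.mul_ne_zero (NeZero.ne d) (NeZero.ne ℓ)⟩
    haveI hne2 : NeZero (d * N) := ⟨Nat.mul_ne_zero (NeZero.ne d) (NeZero.ne N)⟩
    rw [RingHom.comp_apply, RingHom.comp_apply, RingHom.comp_apply, RingHom.comp_apply,
      coeHom_apply, coe_inclRN_jR]
    have e : (heckeBetaBar Kbar N ℓ).toRingHom (inclRN N (jR N d hd))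
        = inclRN (N * ℓ) (jR (N * ℓ) (d * ℓ) hdℓ) := beta_inclRN_jR N ℓ d hd hdℓ
    rw [e, sig_inclRN, HolBase.bridge_jR, inv_inv, ← infGenExp_eq_twist N ℓ d b]
    have hdvd : ((d : ℕ) : ℤ) ∣ h 1 0 := by
      rw [gamma0_mem_iff_dvd] at hh
      exact dvd_trans (by exact_mod_cast hd) hh
    obtain ⟨γ', h00, h01, h10, h11⟩ := exists_hnf_twist d ℓ b h hdvd hb
    have hexp : InfExp (N * ℓ) (fun τ => Fermat.Agent.S20.L1.jFun (infAff d ((d : ℤ) * b) ℓ τ))
        (infGenExp (d * N) ((d : ℤ) * b) ℓ) :=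
      inf_J_infAff_exp infExp_jFun (e := d * N) (N := N * ℓ) ((d : ℤ) * b) hd0 hℓ0
        (Nat.mul_pos hN0 hℓ0) (by ring)
    refine qexp_eq_of_infExp _ (hexp.congr fun τ => ?_)
    have hJ : (((holBase (N * ℓ)).compH h ((holBase (N * ℓ)).JH (d * ℓ) hdℓ) :
        (holBase (N * ℓ)).Hol) : ℍ → ℂ) τ = Jd (d * ℓ) (h • τ) := rfl
    rw [hJ]
    unfold Jd
    rw [inf_aff_smul_eq (Nat.mul_pos hd0 hℓ0) hd0 hℓ0 h γ' h00 h01 h10 h11 τ, jFun_smul']

end Fermat.Agent.S37.H819

end
end
-- ===== PACK-END S37/H819/Emb.lean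

-- ===== PACK-BEGIN S29/H332/Rot.lean
section



/-!
# S29 / M4b / K2 (analytic part): local orders of a function with character

In the S24 framework (`HolBase`, `Expansion`, `RotData`): if `f ∈ Hol` is invariant under `ε ^ k`
then `R.m ∣ k * ord (X.E f)`.  For a function `h` with a character `χ` of `Γ₀(N)` and the coset
`x = g Γ₀(N)`, `h ∘ g⁻¹` is invariant under `ε ^ k` as soon as `ε ^ k x = x` and `χ` is trivial on
`g⁻¹ ε ^ k g` (automatic if `χ` kills parabolic and finite-order elements).  Hence the order of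
the expansion `σ_x` of `h ^ p` is divisible by `p * (m / k)`: the divisor of `h ^ p` is divisible
by `p` at every place.
-/

set_option autoImplicit false
set_option linter.unusedSectionVars false

noncomputable section

open UpperHalfPlane HahnSeries ModularCurve
open scoped MatrixGroups

namespace Fermat.Agent.S29.H332

open Fermat.Agent.S24 Fermat.Agent.S24.H997

variable {N : ℕ} [NeZero N]

section Abstract

variable (B : HolBase N) (X : Expansion B) {ε : SL(2, ℤ)} (R : RotData B X ε)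

/-- Iterating the rotation relation. -/
theorem rotRel_pow (k : ℕ) (f : B.Hol) :
    RotRel (R.ζ ^ k) (X.E f) (X.E (B.compH (ε ^ k) f)) := by
  induction k with
  | zero =>
    rw [pow_zero, pow_zero, HolBase.compH_one]
    exact ⟨rfl, by simp⟩
  | succ k ih =>
    have h1 := R.rot (B.compH (ε ^ k) f)
    rw [← HolBase.compH_mul, ← pow_succ] at h1
    refine ⟨h1.1.trans ih.1, ?_⟩
    rw [h1.2, ih.1, ih.2, ← mul_assoc, pow_succ, mul_zpow, mul_comm (R.ζ ^ (X.E f).order)]

/-- If `f ≠ 0` is invariant under `ε ^ k`, then `m ∣ k * ord (E f)`. -/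
theorem dvd_mul_order_of_compH_pow_eq (k : ℕ) {f : B.Hol} (hf : f ≠ 0)
    (hinv : B.compH (ε ^ k) f = f) : (R.m : ℤ) ∣ (k : ℤ) * (X.E f).order := by
  have h := rotRel_pow B X R k f
  rw [hinv] at h
  have hE : X.E f ≠ 0 := fun h0 => hf (X.inj (by rw [h0, map_zero]))
  have hlc : (X.E f).leadingCoeff ≠ 0 := leadingCoeff_ne_zero.mpr hE
  have h2 := h.2
  have h3 : (R.ζ ^ k) ^ (X.E f).order = 1 := by
    have : (R.ζ ^ k) ^ (X.E f).order * (X.E f).leadingCoeff = 1 * (X.E f).leadingCoeff := by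
      rw [one_mul]
      exact h2.symm
    exact mul_right_cancel₀ hlc this
  rw [← zpow_natCast, ← zpow_mul] at h3
  exact (R.hζ.zpow_eq_one_iff_dvd _).mp h3

end Abstract

section Character

variable {χ : CongruenceSubgroup.Gamma0 N →* ℂˣ} {h : ℍ → ℂ}

omit [NeZero N] in
/-- `h ∘ g` is invariant under `δ` if `g δ g⁻¹ ∈ Γ₀(N)` and `χ (g δ g⁻¹) = 1`. -/
theorem HasCharacter.compSL_compSL (hh : HasCharacter χ h) (g δ : SL(2, ℤ))
    (hδ : g * δ * g⁻¹ ∈ CongruenceSubgroup.Gamma0 N) (hχ : χ ⟨_, hδ⟩ = 1) :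
    compSL δ (compSL g h) = compSL g h := by
  funext τ
  simp only [compSL_apply]
  have h1 : g • (δ • τ) = (g * δ * g⁻¹) • (g • τ) := by
    rw [← mul_smul, ← mul_smul, mul_assoc, mul_assoc, inv_mul_cancel, mul_one]
  have h2 := hh ⟨_, hδ⟩ (g • τ)
  rw [hχ, Units.val_one, one_mul] at h2
  rw [h1, h2]

/-- `χ` is trivial on the elements of finite order. -/
def EllTrivial (χ : CongruenceSubgroup.Gamma0 N →* ℂˣ) : Prop :=
  ∀ (γ : CongruenceSubgroup.Gamma0 N) (n : ℕ), 0 < n → γ ^ n = 1 → χ γ = 1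

/-- **Local divisibility.**  Let `h ∈ holN N` be nonzero with character `χ`, `X` an expansion with
rotation data for `ε`, `g ∈ SL(2,ℤ)` and `k` with `g ε^k g⁻¹ ∈ Γ₀(N)`, `χ(g ε^k g⁻¹) = 1`.  Then
`m ∣ k * ord (E (h ∘ g))`. -/
theorem HasCharacter.dvd_mul_order (hh : HasCharacter χ h) (hmem : h ∈ holN N) (h0 : h ≠ 0)
    (X : Expansion (holBase N)) {ε : SL(2, ℤ)} (R : RotData (holBase N) X ε)
    (g : SL(2, ℤ)) (k : ℕ) (hk : g * ε ^ k * g⁻¹ ∈ CongruenceSubgroup.Gamma0 N)
    (hχ : χ ⟨_, hk⟩ = 1) :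
    (R.m : ℤ) ∣ (k : ℤ) * (X.E ((holBase N).compH g ⟨h, hmem⟩)).order := by
  refine dvd_mul_order_of_compH_pow_eq (holBase N) X R k ?_ ?_
  · intro hz
    apply h0
    have := (holBase N).compH_injective g (hz.trans (map_zero _).symm)
    exact congrArg Subtype.val this
  · apply Subtype.ext
    exact hh.compSL_compSL g (ε ^ k) hk hχ

omit [NeZero N] in
/-- Conjugates of elements of finite order have finite order. -/
theorem EllTrivial.conj (hχ : EllTrivial χ) {ε : SL(2, ℤ)} {n : ℕ} (hn : 0 < n) (hε : ε ^ n = 1)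
    (g : SL(2, ℤ)) (k : ℕ) (hk : g * ε ^ k * g⁻¹ ∈ CongruenceSubgroup.Gamma0 N) :
    χ ⟨_, hk⟩ = 1 := by
  refine hχ _ n hn ?_
  apply Subtype.ext
  rw [SubgroupClass.coe_pow, Subgroup.coe_mk, OneMemClass.coe_one]
  have : (g * ε ^ k * g⁻¹) ^ n = g * (ε ^ k) ^ n * g⁻¹ := conj_pow
  rw [this, ← pow_mul, mul_comm, pow_mul, hε, one_pow, mul_one, mul_inv_cancel]

omit [NeZero N] in
/-- Conjugates of powers of `T` are parabolic. -/
theorem ParTrivial.conj_T (hχ : ParTrivial χ) (g : SL(2, ℤ)) (k : ℕ)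
    (hk : g * ModularGroup.T ^ k * g⁻¹ ∈ CongruenceSubgroup.Gamma0 N) :
    χ ⟨_, hk⟩ = 1 := by
  apply hχ
  left
  have := trace_conj_T_zpow g (k : ℤ)
  rwa [zpow_natCast] at this

/-- Local divisibility at a point with finite-order rotation `ε` (elliptic points: `ε = S`,
`ε = S * T`; generic points: `ε = 1`). -/
theorem HasCharacter.dvd_mul_order_of_finite_order (hh : HasCharacter χ h) (hmem : h ∈ holN N)
    (h0 : h ≠ 0) (hχ : EllTrivial χ)
    (X : Expansion (holBase N)) {ε : SL(2, ℤ)} (R : RotData (holBase N) X ε)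
    {n : ℕ} (hn : 0 < n) (hε : ε ^ n = 1)
    (g : SL(2, ℤ)) (k : ℕ) (hk : g * ε ^ k * g⁻¹ ∈ CongruenceSubgroup.Gamma0 N) :
    (R.m : ℤ) ∣ (k : ℤ) * (X.E ((holBase N).compH g ⟨h, hmem⟩)).order :=
  hh.dvd_mul_order hmem h0 X R g k hk (hχ.conj hn hε g k hk)

/-- Local divisibility at the cusps (`ε = T`). -/
theorem HasCharacter.dvd_mul_order_T (hh : HasCharacter χ h) (hmem : h ∈ holN N)
    (h0 : h ≠ 0) (hχ : ParTrivial χ)
    (X : Expansion (holBase N)) (R : RotData (holBase N) X ModularGroup.T)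
    (g : SL(2, ℤ)) (k : ℕ)
    (hk : g * ModularGroup.T ^ k * g⁻¹ ∈ CongruenceSubgroup.Gamma0 N) :
    (R.m : ℤ) ∣ (k : ℤ) * (X.E ((holBase N).compH g ⟨h, hmem⟩)).order :=
  hh.dvd_mul_order hmem h0 X R g k hk (hχ.conj_T g k hk)

end Character

end Fermat.Agent.S29.H332

end
end
-- ===== PACK-END S29/H332/Rot.lean

-- ===== PACK-BEGIN S18/H564/ConstF.lean
section




/-!
# S18 / T2 (helper564): `CONST_F` — a function without zeros is constant (char 0)

* `exists_const_of_forall_ord_eq_zero` : generic form, for any function field `F/K`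
  (`K` algebraically closed of characteristic `0`) having a coordinate `t`
  (`t` transcendental, `F/K(t)` finite): `u ≠ const ⇒ u` has a zero.  From the fundamental
  identity `∑_{v(u) > 0} ord_v u = [F : K(u)]` (S24, `FF.sum_ord_pos_eq_finrank`, on main).
* `constOfOrdZero_modularFunctionFieldBar N` : the instance `F = ℚ̄(j(q^d) : d ∣ N)`; its
  statement is (defeq to) helper94's `ConstOfOrdZero (AlgebraicClosure ℚ) (modularFunctionFieldBar N)`.
-/

set_option autoImplicit false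

noncomputable section

open AlgebraicCurve ModularCurve IntermediateField

namespace Fermat.Agent.S18.H564

section Generic

variable {K F : Type*} [Field K] [Field F] [Algebra K F] [IsAlgClosed K] [CharZero K]

/-- A non-constant function has a zero. -/
theorem exists_ord_pos_of_transcendental (t : F) (ht : Transcendental K t)
    [FiniteDimensional K⟮t⟯ F] {u : F} (hu : Transcendental K u) :
    ∃ v : Place K F, 0 < v.ord u := by
  have hcoord0 : Fermat.Agent.S24.FF.IsCoord K t := ⟨ht, inferInstance⟩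
  have hcoord : Fermat.Agent.S24.FF.IsCoord K u :=
    Fermat.Agent.S24.FF.IsCoord.of_transcendental (x := t) hu
  have : FiniteDimensional K⟮u⟯ F := hcoord.finite
  have hsum := Fermat.Agent.S24.FF.sum_ord_pos_eq_finrank (K := K) (F := F) hu
  by_contra hne
  have hempty : (Fermat.Agent.S24.FF.finite_setOf_ord_pos (K := K) (F := F) hu).toFinset = ∅ := by
    rw [Finset.eq_empty_iff_forall_notMem]
    intro v hv
    rw [Set.Finite.mem_toFinset] at hv
    exact hne ⟨v, hv⟩
  rw [hempty, Finset.sum_empty] at hsum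
  have hpos : 0 < Module.finrank K⟮u⟯ F := Module.finrank_pos
  omega

/-- **CONST_F, generic form.** -/
theorem exists_const_of_forall_ord_eq_zero (t : F) (ht : Transcendental K t)
    [FiniteDimensional K⟮t⟯ F] (u : F) (hu : ∀ v : Place K F, v.ord u = 0) :
    ∃ c : K, u = algebraMap K F c := by
  by_contra hne
  have hu_tr : Transcendental K u := by
    intro halg
    obtain ⟨c, hc⟩ := Fermat.Agent.S24.exists_algebraMap_eq_of_isAlgebraic halg
    exact hne ⟨c, hc.symm⟩
  obtain ⟨v, hv⟩ := exists_ord_pos_of_transcendental t ht hu_tr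
  rw [hu v] at hv
  exact lt_irrefl _ hv

end Generic

/-- `j` is a coordinate of the function field of `X₀(N)` over `ℚ̄`. -/
theorem transcendental_jF (N : ℕ) [NeZero N] :
    Transcendental (AlgebraicClosure ℚ) (Fermat.Agent.S24.jF N) := by
  obtain ⟨P⟩ := Fermat.Agent.S24.nonempty_modularPackage N
  have : Nonempty (Fermat.Agent.S24.XX N) := ⟨((1 : Matrix.SpecialLinearGroup (Fin 2) ℤ) :
    Fermat.Agent.S24.XX N)⟩
  exact Fermat.Agent.S24.transcendental_of_localData_inv (Fermat.Agent.S24.jF N) P.dataInf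

theorem finiteDimensional_jF (N : ℕ) [NeZero N] :
    FiniteDimensional (AlgebraicClosure ℚ)⟮Fermat.Agent.S24.jF N⟯
      ↥(modularFunctionFieldBar N) := by
  obtain ⟨P⟩ := Fermat.Agent.S24.nonempty_modularPackage N
  exact P.finiteDimensional

/-- **T2 = CONST_F** for `F = modularFunctionFieldBar N`
(= helper94's `ConstOfOrdZero (AlgebraicClosure ℚ) (modularFunctionFieldBar N)`, unfolded). -/
theorem constOfOrdZero_modularFunctionFieldBar (N : ℕ) [NeZero N] :
    ∀ u : ↥(modularFunctionFieldBar N), u ≠ 0 →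
      (∀ v : Place (AlgebraicClosure ℚ) ↥(modularFunctionFieldBar N), v.ord u = 0) →
      ∃ c : AlgebraicClosure ℚ,
        u = algebraMap (AlgebraicClosure ℚ) ↥(modularFunctionFieldBar N) c := by
  intro u _ hu
  have := finiteDimensional_jF N
  exact exists_const_of_forall_ord_eq_zero (Fermat.Agent.S24.jF N) (transcendental_jF N) u hu

/-- A non-constant modular function has a zero (and, applied to `u⁻¹`, a pole). -/
theorem exists_ord_pos_modularFunctionFieldBar (N : ℕ) [NeZero N]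
    {u : ↥(modularFunctionFieldBar N)} (hu : Transcendental (AlgebraicClosure ℚ) u) :
    ∃ v : Place (AlgebraicClosure ℚ) ↥(modularFunctionFieldBar N), 0 < v.ord u := by
  have := finiteDimensional_jF N
  exact exists_ord_pos_of_transcendental (Fermat.Agent.S24.jF N) (transcendental_jF N) hu

end Fermat.Agent.S18.H564

end
end
-- ===== PACK-END S18/H564/ConstF.lean

-- ===== PACK-BEGIN S15/H542/ModA2.lean
section





/-!
# S15, piece MOD-A2 (helper542): uniqueness of the place with given `(j, j_p)`-values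

`placeUnique : PlaceUniqueStatement`.

Route (no discriminant of `Φ_p` needed):
* `F = ℚ̄(j, j_p)` (`adjoin_jBar_jNBar_eq_top`);
* `Φ = Φ_p` has modular shape and `Φ(j, j_p) = 0 = Φ(j_p, j)` (helper386);
* for a valuation `v` of `ℚ̄` over `2`, `v r > 1`, hence (Newton polygon, helper962)
  `v a' = (v r)^p` or `(v a')^p = v r`;
* in the first case `a'` is a simple root of `Φ(r, Y)`, in the second `r` is a simple root of
  `Φ(a', Y)` (`simple_root_of_isModularShape`);
* a place centred at a simple point of a plane model is unique (helper602).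
-/

set_option autoImplicit false

noncomputable section

open Polynomial AlgebraicCurve ModularCurve HahnSeries

namespace Fermat.Agent.S15.H542

open Fermat.Agent.S15.H962 Fermat.Agent.S15.H602

/-! ## Generation -/

section Generation

variable (p : ℕ) [NeZero p]

theorem coe_jBar : ((jBar p : modularFunctionFieldBar p) : LaurentSeries (AlgebraicClosure ℚ)) =
    coeffEmb (AlgebraicClosure ℚ) jq := rfl

theorem coe_jNBar : ((jNBar p : modularFunctionFieldBar p) : LaurentSeries (AlgebraicClosure ℚ)) =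
    coeffEmb (AlgebraicClosure ℚ) (qExpand ℚ p jq) := rfl

/-- `coeffEmb` of an element of `ℚ(j, j_p)` lies in `ℚ̄(j, j_p)`. -/
theorem coeffEmb_mem_adjoin_pair (hp : p.Prime) {x : LaurentSeries ℚ}
    (hx : x ∈ modularFunctionFieldFull p) :
    coeffEmb (AlgebraicClosure ℚ) x ∈
      IntermediateField.adjoin (AlgebraicClosure ℚ)
        ({coeffEmb (AlgebraicClosure ℚ) jq, coeffEmb (AlgebraicClosure ℚ) (qExpand ℚ p jq)} :
          Set (LaurentSeries (AlgebraicClosure ℚ))) := by
  unfold modularFunctionFieldFull at hx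
  induction hx using IntermediateField.adjoin_induction with
  | mem x hx =>
    obtain ⟨d, hd0, hd, rfl⟩ := hx
    rcases (Nat.dvd_prime hp).mp hd with rfl | rfl
    · rw [qExpand_one_apply]
      exact IntermediateField.subset_adjoin _ _ (Set.mem_insert _ _)
    · exact IntermediateField.subset_adjoin _ _ (Set.mem_insert_of_mem _ rfl)
  | algebraMap c =>
    have h : coeffEmb (AlgebraicClosure ℚ) (algebraMap ℚ (LaurentSeries ℚ) c) =
        algebraMap (AlgebraicClosure ℚ) (LaurentSeries (AlgebraicClosure ℚ))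
          (algebraMap ℚ (AlgebraicClosure ℚ) c) := by
      rw [algebraMap_laurentSeries_eq_single, algebraMap_laurentSeries_eq_single, coeffEmb,
        coeffMap_single]
    rw [h]
    exact IntermediateField.algebraMap_mem _ _
  | add x y _ _ hx hy => rw [map_add]; exact add_mem hx hy
  | inv x _ hx => rw [map_inv₀]; exact inv_mem hx
  | mul x y _ _ hx hy => rw [map_mul]; exact mul_mem hx hy

/-- `F = ℚ̄(j, j_p)` at prime level. -/
theorem adjoin_jBar_jNBar_eq_top (hp : p.Prime) :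
    IntermediateField.adjoin (AlgebraicClosure ℚ)
      ({jBar p, jNBar p} : Set (modularFunctionFieldBar p)) = ⊤ := by
  rw [eq_top_iff]
  intro f _
  rw [← IntermediateField.mem_lift, IntermediateField.lift_adjoin]
  have himg : (Subtype.val '' ({jBar p, jNBar p} : Set (modularFunctionFieldBar p))) =
      ({coeffEmb (AlgebraicClosure ℚ) jq, coeffEmb (AlgebraicClosure ℚ) (qExpand ℚ p jq)} :
          Set (LaurentSeries (AlgebraicClosure ℚ))) := by
    rw [Set.image_pair]
    rfl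
  rw [himg]
  have hle : modularFunctionFieldBar p ≤ IntermediateField.adjoin (AlgebraicClosure ℚ)
        ({coeffEmb (AlgebraicClosure ℚ) jq, coeffEmb (AlgebraicClosure ℚ) (qExpand ℚ p jq)} :
          Set (LaurentSeries (AlgebraicClosure ℚ))) := by
    unfold modularFunctionFieldBar laurentBaseChange
    rw [IntermediateField.adjoin_le_iff]
    rintro _ ⟨x, hx, rfl⟩
    exact coeffEmb_mem_adjoin_pair p hp hx
  exact hle f.2

theorem adjoin_jNBar_jBar_eq_top (hp : p.Prime) :
    IntermediateField.adjoin (AlgebraicClosure ℚ)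
      ({jNBar p, jBar p} : Set (modularFunctionFieldBar p)) = ⊤ := by
  rw [Set.pair_comm]
  exact adjoin_jBar_jNBar_eq_top p hp

end Generation


/-! ## A valuation over `2` -/

section TwoAdic

/-- There is a valuation subring of `ℚ̄` in which `2` is not a unit. -/
theorem exists_valuationSubring_two :
    ∃ A : ValuationSubring (AlgebraicClosure ℚ), (2 : AlgebraicClosure ℚ) ∈ A.nonunits := by
  let A₀ : Subring (AlgebraicClosure ℚ) := (algebraMap ℤ (AlgebraicClosure ℚ)).range
  let l₀ : A₀ := ⟨(2 : AlgebraicClosure ℚ), ⟨(2 : ℤ), by simp⟩⟩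
  have hI : Ideal.span {l₀} ≠ ⊤ := by
    intro h
    rw [Ideal.span_singleton_eq_top] at h
    obtain ⟨⟨m, n, rfl⟩, hm⟩ := h.exists_right_inv
    have h1 : ((2 : ℤ) : AlgebraicClosure ℚ) * ((n : ℤ) : AlgebraicClosure ℚ) = 1 := by
      have := congrArg Subtype.val hm
      simpa [l₀] using this
    have h2 : (2 : ℤ) * n = 1 := by exact_mod_cast h1
    omega
  obtain ⟨A, -, hA⟩ := Ideal.image_subset_nonunits_valuationSubring _ hI
  refine ⟨A, ?_⟩
  apply hA
  exact ⟨l₀, Ideal.subset_span rfl, rfl⟩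

variable {K : Type*} [Field K] [Algebra ℚ K] {Γ₀ : Type*} [LinearOrderedCommGroupWithZero Γ₀]
  (v : Valuation K Γ₀)

/-- Odd integers are units for a valuation with `v 2 < 1`. -/
theorem val_intCast_eq_one_of_odd (h2 : v (2 : K) < 1) {n : ℤ} (hn : ¬ (2 : ℤ) ∣ n) :
    v (n : K) = 1 := by
  refine le_antisymm (val_intCast_le_one v n) ?_
  by_contra hlt
  rw [not_le] at hlt
  obtain ⟨k, hk⟩ : ∃ k : ℤ, n = 2 * k + 1 := by
    have : n % 2 = 1 := by omega
    exact ⟨n / 2, by omega⟩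
  have h1 : (1 : K) = (n : K) - 2 * (k : K) := by
    rw [hk]; push_cast; ring
  have h3 : v ((2 : K) * (k : K)) < 1 := by
    rw [map_mul]
    calc v (2 : K) * v (k : K) ≤ v (2 : K) * 1 := by
          gcongr
          exact val_intCast_le_one v k
      _ = v (2 : K) := mul_one _
      _ < 1 := h2
  have h4 : v ((n : K) - 2 * (k : K)) < 1 :=
    lt_of_le_of_lt (Valuation.map_sub v _ _) (max_lt hlt h3)
  rw [← h1, map_one] at h4
  exact lt_irrefl _ h4

/-- A rational number with negative `2`-adic valuation has `v r > 1`. -/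
theorem one_lt_val_of_padicValRat_neg (h2 : v (2 : K) < 1) (r : ℚ) (hr : padicValRat 2 r < 0) :
    1 < v (algebraMap ℚ K r) := by
  haveI : Fact (Nat.Prime 2) := ⟨Nat.prime_two⟩
  have hden0 : r.den ≠ 0 := r.den_nz
  have hval : 1 ≤ padicValNat 2 r.den := by
    have h := hr
    rw [padicValRat] at h
    have h0 : (0 : ℤ) ≤ padicValInt 2 r.num := by positivity
    omega
  have hdvd : 2 ∣ r.den := dvd_of_one_le_padicValNat hval
  have hnum : ¬ (2 : ℤ) ∣ r.num := by
    intro hd
    have hc := r.reduced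
    have h2n : 2 ∣ r.num.natAbs := by
      have := Int.natAbs_dvd_natAbs.mpr hd
      simpa using this
    have := Nat.dvd_gcd h2n hdvd
    rw [Nat.Coprime] at hc
    rw [hc] at this
    omega
  have hvnum : v ((r.num : ℤ) : K) = 1 := val_intCast_eq_one_of_odd v h2 hnum
  obtain ⟨m, hm⟩ := hdvd
  have hdenK : (r.den : K) ≠ 0 := by
    have : CharZero K := algebraRat.charZero K
    exact_mod_cast hden0
  have hvden : v (r.den : K) < 1 := by
    rw [hm]
    push_cast
    rw [map_mul]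
    calc v (2 : K) * v (m : K) ≤ v (2 : K) * 1 := by
          gcongr
          exact val_natCast_le_one v m
      _ = v (2 : K) := mul_one _
      _ < 1 := h2
  have hvden0 : v (r.den : K) ≠ 0 := (Valuation.ne_zero_iff v).mpr hdenK
  have hr' : algebraMap ℚ K r = ((r.num : ℤ) : K) / (r.den : K) := by
    rw [eq_ratCast, Rat.cast_def]
  rw [hr', map_div₀, hvnum, one_div]
  exact (one_lt_inv₀ (zero_lt_iff.mpr hvden0)).mpr hvden

end TwoAdic

/-! ## Bridge between `eval2` (helper962) and `ev`, `ev0` (helper602) -/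

section Bridge

variable (K : Type*) {F : Type*} [Field K] [Field F] [Algebra K F]

/-- `Φ` with coefficients in `K`. -/
def phiK (Φ : ℤ[X][X]) : K[X][X] := Φ.map (Polynomial.mapRingHom (Int.castRingHom K))

variable {K}

theorem ev_phiK (Φ : ℤ[X][X]) (x y : F) : ev (K := K) x y (phiK K Φ) = eval2 Φ x y := by
  unfold ev phiK eval2
  rw [coe_eval₂RingHom, Polynomial.eval₂_map]
  congr 1
  apply Polynomial.ringHom_ext
  · intro n; simp
  · simp

theorem ev0_phiK (Φ : ℤ[X][X]) (a b : K) : ev0 a b (phiK K Φ) = eval2 Φ a b := by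
  unfold ev0 phiK eval2
  rw [coe_eval₂RingHom, Polynomial.eval₂_map]
  congr 1
  apply Polynomial.ringHom_ext
  · intro n; simp
  · simp

theorem derivative_phiK (Φ : ℤ[X][X]) : derivative (phiK K Φ) = phiK K (derivative Φ) := by
  unfold phiK
  rw [Polynomial.derivative_map]

/-- A relation between `x` and `y` holds at the centre of a place. -/
theorem ev0_eq_zero_of_isCentredAt {P : Place K F} {x y : F} {a b : K}
    (h : IsCentredAt P x y a b) {G : K[X][X]} (hG : ev x y G = 0) : ev0 a b G = 0 := by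
  by_contra hne
  exact (h.ev_unit hne).1 hG

end Bridge

section Main

variable (p : ℕ) [NeZero p]

theorem isCentredAt_of_hasValueAt
    {P : Place (AlgebraicClosure ℚ) (modularFunctionFieldBar p)}
    {x y : modularFunctionFieldBar p} {a b : AlgebraicClosure ℚ}
    (hx : HasValueAt P x a) (hy : HasValueAt P y b) : IsCentredAt P x y a b := by
  have key : ∀ (z : modularFunctionFieldBar p) (c : AlgebraicClosure ℚ), HasValueAt P z c →
      z - algebraMap (AlgebraicClosure ℚ) (modularFunctionFieldBar p) c ∈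
        P.toValuationSubring.nonunits := by
    intro z c hz
    unfold HasValueAt at hz
    have hne : z - algebraMap (AlgebraicClosure ℚ) (modularFunctionFieldBar p) c ≠ 0 := by
      intro h0
      rw [h0, Place.ord_zero] at hz
      exact lt_irrefl _ hz
    exact (S24.FF.ord_pos_iff_mem_nonunits P hne).mp hz
  exact ⟨key x a hx, key y b hy⟩

theorem coe_jBar_eq : ((jBar p : modularFunctionFieldBar p) : LaurentSeries (AlgebraicClosure ℚ)) =
    jqModC (AlgebraicClosure ℚ) := by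
  rw [coe_jBar, coeffEmb, ← jqModC_rat, coeffMap_jqModC]

theorem coe_jNBar_eq :
    ((jNBar p : modularFunctionFieldBar p) : LaurentSeries (AlgebraicClosure ℚ)) =
      qExpand (AlgebraicClosure ℚ) p (jqModC (AlgebraicClosure ℚ)) := by
  rw [coe_jNBar, coeffEmb, coeffMap_qExpand, ← jqModC_rat, coeffMap_jqModC]

/-- The two relations `Φ(j, j_p) = 0 = Φ(j_p, j)` in the function field. -/
theorem eval2_jBar_jNBar (hp : p.Prime) :
    ∃ Φ : ℤ[X][X], IsModularShape p Φ ∧ eval2 Φ (jBar p) (jNBar p) = 0 ∧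
      eval2 Φ (jNBar p) (jBar p) = 0 := by
  obtain ⟨Φ, hshape, hrel⟩ := Fermat.Agent.S15.H386.exists_isModularShape.{0} p hp
  obtain ⟨hrel1, hrel2⟩ := hrel (AlgebraicClosure ℚ) 1
  rw [qExpand_one_apply, qExpand_congr (one_mul p)] at hrel1 hrel2
  refine ⟨Φ, hshape, ?_, ?_⟩
  · rw [← Fermat.Agent.S15.H386.eval2_eq_zero_iff_map
      (algebraMap (modularFunctionFieldBar p) (LaurentSeries (AlgebraicClosure ℚ)))]
    have h1 : algebraMap (modularFunctionFieldBar p) (LaurentSeries (AlgebraicClosure ℚ))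
        (jBar p) = jqModC (AlgebraicClosure ℚ) := coe_jBar_eq p
    have h2 : algebraMap (modularFunctionFieldBar p) (LaurentSeries (AlgebraicClosure ℚ))
        (jNBar p) = qExpand (AlgebraicClosure ℚ) p (jqModC (AlgebraicClosure ℚ)) :=
      coe_jNBar_eq p
    rw [h1, h2]
    exact hrel1
  · rw [← Fermat.Agent.S15.H386.eval2_eq_zero_iff_map
      (algebraMap (modularFunctionFieldBar p) (LaurentSeries (AlgebraicClosure ℚ)))]
    have h1 : algebraMap (modularFunctionFieldBar p) (LaurentSeries (AlgebraicClosure ℚ))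
        (jBar p) = jqModC (AlgebraicClosure ℚ) := coe_jBar_eq p
    have h2 : algebraMap (modularFunctionFieldBar p) (LaurentSeries (AlgebraicClosure ℚ))
        (jNBar p) = qExpand (AlgebraicClosure ℚ) p (jqModC (AlgebraicClosure ℚ)) :=
      coe_jNBar_eq p
    rw [h1, h2]
    exact hrel2

/-- **MOD-A2**, general form: uniqueness of the place with values `(a, a')` as soon as `a` is not
integral for some valuation of `ℚ̄`. -/
theorem place_unique_of_one_lt_val (hp : p.Prime) {Γ₀ : Type*}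
    [LinearOrderedCommGroupWithZero Γ₀] (v : Valuation (AlgebraicClosure ℚ) Γ₀)
    {a a' : AlgebraicClosure ℚ} (ha : 1 < v a)
    {P P' : Place (AlgebraicClosure ℚ) (modularFunctionFieldBar p)}
    (hP1 : HasValueAt P (jBar p) a) (hP2 : HasValueAt P (jNBar p) a')
    (hP'1 : HasValueAt P' (jBar p) a) (hP'2 : HasValueAt P' (jNBar p) a') : P = P' := by
  obtain ⟨Φ, hshape, hxy, hyx⟩ := eval2_jBar_jNBar p hp
  have hc : IsCentredAt P (jBar p) (jNBar p) a a' := isCentredAt_of_hasValueAt p hP1 hP2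
  have hc' : IsCentredAt P' (jBar p) (jNBar p) a a' := isCentredAt_of_hasValueAt p hP'1 hP'2
  have hcs : IsCentredAt P (jNBar p) (jBar p) a' a := ⟨hc.hy, hc.hx⟩
  have hcs' : IsCentredAt P' (jNBar p) (jBar p) a' a := ⟨hc'.hy, hc'.hx⟩
  have hrelxy : ev (K := AlgebraicClosure ℚ) (jBar p) (jNBar p) (phiK (AlgebraicClosure ℚ) Φ) = 0 := by
    rw [ev_phiK]; exact hxy
  have hrelyx : ev (K := AlgebraicClosure ℚ) (jNBar p) (jBar p) (phiK (AlgebraicClosure ℚ) Φ) = 0 := by
    rw [ev_phiK]; exact hyx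
  have h0xy : eval2 Φ a a' = 0 := by
    rw [← ev0_phiK]; exact ev0_eq_zero_of_isCentredAt hc hrelxy
  have h0yx : eval2 Φ a' a = 0 := by
    rw [← ev0_phiK]; exact ev0_eq_zero_of_isCentredAt hcs hrelyx
  rcases val_root_of_isModularShape v hp.pos hshape ha h0xy with hv | hv
  · have hs := simple_root_of_isModularShape v hp.one_lt hshape ha h0xy hv
    have hΨ : IsSimplePoint (jBar p) (jNBar p) a a' (phiK (AlgebraicClosure ℚ) Φ) :=
      ⟨hrelxy, by rw [ev0_phiK]; exact h0xy, by rw [derivative_phiK, ev0_phiK]; exact hs⟩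
    exact hc.unique hΨ (exists_ev_of_adjoin_eq_top (adjoin_jBar_jNBar_eq_top p hp)) hc'
  · have hva' : 1 < v a' := one_lt_of_pow_eq ha hv
    have hs := simple_root_of_isModularShape v hp.one_lt hshape hva' h0yx hv.symm
    have hΨ : IsSimplePoint (jNBar p) (jBar p) a' a (phiK (AlgebraicClosure ℚ) Φ) :=
      ⟨hrelyx, by rw [ev0_phiK]; exact h0yx, by rw [derivative_phiK, ev0_phiK]; exact hs⟩
    exact hcs.unique hΨ (exists_ev_of_adjoin_eq_top (adjoin_jNBar_jBar_eq_top p hp)) hcs'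

end Main

/-- **MOD-A2.** -/
theorem placeUnique : PlaceUniqueStatement := by
  intro p _ hp _ r hr a' P P' hP1 hP2 hP'1 hP'2
  obtain ⟨A, hA⟩ := exists_valuationSubring_two
  have h2 : A.valuation (2 : AlgebraicClosure ℚ) < 1 :=
    (ValuationSubring.mem_nonunits_iff A).mp hA
  have hvr := one_lt_val_of_padicValRat_neg A.valuation h2 r hr
  exact place_unique_of_one_lt_val p hp A.valuation hvr hP1 hP2 hP'1 hP'2

end Fermat.Agent.S15.H542

end
end
-- ===== PACK-END S15/H542/ModA2.lean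

-- ===== PACK-BEGIN S18/H208/Fibre.lean
section
/-
S18 / M1 (helper208): the function field of the special fibre.

* `relfinrank_full`     : `[F_{N,k} : k(j)] = ψ(N)` for every field `k` with `N` invertible.
* `isSeparable_full`    : every element of `F_{N,k}` is separable over `k(j)`.
* `exists_lift`         : (res surjective) every element of `F_κ` is the reduction of an element
                          of `F_E ∩ V`, and is a quotient of reductions of elements integral
                          over `O[j]`.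
-/



set_option autoImplicit false
set_option linter.unusedSectionVars false
set_option linter.style.haveILetI false

noncomputable section

namespace Fermat.Agent.S18.H208

open ModularCurve HahnSeries Polynomial Fermat.Agent.S28 Fermat.Agent.S28.H86

section Degree

/-- **(T5)** `[F_{N,k} : k(j)] = ψ(N)`. -/
theorem relfinrank_full (A : AnalyticInputs) (k : Type) [Field k] (N : ℕ) [NeZero N]
    (hN : (N : k) ≠ 0) :
    (jField k).relfinrank (modularFunctionFieldFullC k N) = dedekindPsi N := by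
  have h := (good_of_analytic A k N hN).degE_eq
  rw [S28.H867.gFun_eq_dedekindPsi (NeZero.ne N)] at h
  exact h

end Degree

section Sep

variable (k : Type) [Field k]

/-- `Φ_p(X, j)` is a separable polynomial over `k((q))` when `p` is invertible in `k`. -/
theorem separable_modPoly {p : ℕ} [NeZero p] (hp : p.Prime) (D : ModPolyData p)
    (hpk : (p : k) ≠ 0) : (D.Φ.map (S28.H208.evZ (jqModC k))).Separable := by
  haveI : NeZero (p : k) := ⟨hpk⟩
  obtain ⟨ζ, hζ⟩ := HasEnoughRootsOfUnity.exists_primitiveRoot (AlgebraicClosure k) p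
  have h1 : (D.Φ.map (S28.H208.evZ (qExpand (AlgebraicClosure k) p
      (jqModC (AlgebraicClosure k))))).Separable := by
    rw [S28.H208.map_eq_prod_rootAt D hp.one_lt ζ hζ]
    exact Polynomial.separable_prod_X_sub_C_iff.mpr (S28.H208.rootAt_injective hp.one_lt ζ hζ)
  have h2 : (D.Φ.map (S28.H208.evZ (jqModC (AlgebraicClosure k)))).Separable := by
    rw [← S28.H208.map_map_evZ (qExpand (AlgebraicClosure k) p) D.Φ
      (jqModC (AlgebraicClosure k))] at h1
    exact (Polynomial.separable_map _).mp h1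
  have h3 : (D.Φ.map (S28.H208.evZ (jqModC k))).map
      (coeffMap (algebraMap k (AlgebraicClosure k))) =
      D.Φ.map (S28.H208.evZ (jqModC (AlgebraicClosure k))) := by
    rw [S28.H208.map_map_evZ, coeffMap_jqModC]
  rw [← h3] at h2
  exact (Polynomial.separable_map _).mp h2

/-- `Φ_p(X, j(q^m))` is separable over `k((q))`. -/
theorem separable_modPoly_qExpand {p : ℕ} [NeZero p] (hp : p.Prime) (D : ModPolyData p)
    (hpk : (p : k) ≠ 0) (m : ℕ) [NeZero m] :
    (D.Φ.map (S28.H208.evZ (qExpand k m (jqModC k)))).Separable := by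
  rw [← S28.H208.map_map_evZ (qExpand k m) D.Φ (jqModC k)]
  exact (Polynomial.separable_map _).mpr (separable_modPoly k hp D hpk)

/-- `j(q^d)` is separable over `k(j)` when `d` is invertible in `k`. -/
theorem jd_mem_separableClosure (A : AnalyticInputs) :
    ∀ (d : ℕ) (hd : d ≠ 0), (∀ p : ℕ, p.Prime → p ∣ d → (p : k) ≠ 0) →
      @qExpand k _ d ⟨hd⟩ (jqModC k) ∈ separableClosure (jField k) (LaurentSeries k) := by
  intro d
  induction d using induction_on_primes with
  | zero => intro hd; exact absurd rfl hd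
  | one =>
    intro _ _
    rw [qExpand_one_apply]
    exact (separableClosure (jField k) (LaurentSeries k)).algebraMap_mem
      (⟨jqModC k, S28.H145.jqModC_mem_jField⟩ : jField k)
  | prime_mul p m hp ih =>
    intro hd hchar
    have hm : m ≠ 0 := fun h => hd (by rw [h, mul_zero])
    haveI : NeZero p := ⟨hp.ne_zero⟩
    haveI : NeZero m := ⟨hm⟩
    haveI : NeZero (m * p) := ⟨Nat.mul_ne_zero hm hp.ne_zero⟩
    haveI : NeZero (p * m) := ⟨hd⟩
    obtain ⟨D⟩ := A.modPoly p hp
    have hjm := ih hm (fun r hr hrm => hchar r hr (hrm.mul_left p))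
    have hpk : (p : k) ≠ 0 := hchar p hp (dvd_mul_right p m)
    set Ks := separableClosure (jField k) (LaurentSeries k) with hKs
    -- the polynomial `Φ_p(X, j_m)` over `Ks`
    set jm : Ks := ⟨qExpand k m (jqModC k), hjm⟩ with hjmdef
    set P : Polynomial Ks := D.Φ.map (S28.H208.evZ jm) with hP
    have hPmap : P.map (algebraMap Ks (LaurentSeries k)) =
        D.Φ.map (S28.H208.evZ (qExpand k m (jqModC k))) := by
      rw [hP, S28.H208.map_map_evZ]
      rfl
    have hPsep : P.Separable := by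
      have := separable_modPoly_qExpand k hp D hpk m
      rw [← hPmap] at this
      exact (Polynomial.separable_map _).mp this
    have hroot : Polynomial.aeval (qExpand k (m * p) (jqModC k)) P = 0 := by
      rw [Polynomial.aeval_def, ← Polynomial.eval_map, hPmap, Polynomial.eval_map]
      exact S28.H208.eval_jp_ring_qExpand k D m
    have hsep : IsSeparable Ks (qExpand k (m * p) (jqModC k)) :=
      hPsep.of_dvd (minpoly.dvd Ks _ hroot)
    have hmem : qExpand k (m * p) (jqModC k) ∈ separableClosure Ks (LaurentSeries k) :=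
      mem_separableClosure_iff.mpr hsep
    rw [separableClosure.separableClosure_eq_bot, IntermediateField.mem_bot] at hmem
    obtain ⟨y, hy⟩ := hmem
    have hfin : qExpand k (m * p) (jqModC k) ∈ Ks := by
      rw [← hy]
      exact y.2
    have hcongr : @qExpand k _ (p * m) ⟨hd⟩ (jqModC k) = qExpand k (m * p) (jqModC k) :=
      qExpand_congr (mul_comm p m) _
    rw [hcongr]
    exact hfin

/-- **(T6)** Every element of `F_{N,k}` is separable over `k(j)` (`N` invertible in `k`). -/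
theorem isSeparable_full (A : AnalyticInputs) (N : ℕ) [NeZero N] (hN : (N : k) ≠ 0)
    {x : LaurentSeries k} (hx : x ∈ modularFunctionFieldFullC k N) :
    IsSeparable (jField k) x := by
  rw [← mem_separableClosure_iff]
  have hle : modularFunctionFieldFullC k N ≤
      (separableClosure (jField k) (LaurentSeries k)).restrictScalars k := by
    rw [modularFunctionFieldFullC, IntermediateField.adjoin_le_iff]
    rintro _ ⟨d, hd, hdN, rfl⟩
    exact jd_mem_separableClosure k A d hd.out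
      (fun p _ hpd => natCast_prime_ne_zero_of_dvd hN p (hpd.trans hdN))
  exact hle hx

end Sep

section Lift

variable {E : Type} [Field E] {O : Subring E} {κ : Type} [Field κ] {res : O →+* κ} {π : O}

theorem isFrac_top (κ : Type) [Field κ] : IsFrac (⊤ : Subring κ) := fun e =>
  ⟨⟨e, Subring.mem_top e⟩, 1, one_ne_zero, by simp⟩

theorem evE_top_eq_aeval (t : LaurentSeries κ) (P : Polynomial (⊤ : Subring κ)) :
    evE (⊤ : Subring κ) t P = Polynomial.aeval t (P.map (⊤ : Subring κ).subtype) := by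
  rw [Polynomial.aeval_def, Polynomial.eval₂_map]
  show Polynomial.eval₂ _ t P = _
  congr 1
  ext c : 1
  rw [RingHom.comp_apply, RingHom.comp_apply, algebraMap_laurentSeries_eq_single]
  rfl

theorem gaussRed_evE_j (P : Polynomial O) :
    gaussRed O res ⟨evE O (jqModC E) P, evE_mem_gaussRing (j_mem_gaussRing O res) P⟩ =
      Polynomial.aeval (jqModC κ) (P.map res) := by
  have : (⟨evE O (jqModC E) P, evE_mem_gaussRing (j_mem_gaussRing O res) P⟩ : gaussRing O res) =
      evV O res ⟨jqModC E, j_mem_gaussRing O res⟩ P :=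
    Subtype.ext (coe_evV (⟨jqModC E, j_mem_gaussRing O res⟩ : gaussRing O res) P).symm
  rw [this, gaussRed_evV, gaussRed_j]

/-- **(T3)** Every element of `F_κ` is a quotient of reductions of elements of `F_E` integral
over `O[j]`. -/
theorem exists_lift (A : AnalyticInputs) (hsurj : Function.Surjective res)
    (N : ℕ) [NeZero N] (hN : (N : κ) ≠ 0)
    {z : LaurentSeries κ} (hz : z ∈ modularFunctionFieldFullC κ N) :
    ∃ (a b : LaurentSeries E) (ha : a ∈ gaussRing O res) (hb : b ∈ gaussRing O res),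
      a ∈ modularFunctionFieldFullC E N ∧ b ∈ modularFunctionFieldFullC E N ∧
      (evE O (jqModC E)).IsIntegralElem a ∧ (evE O (jqModC E)).IsIntegralElem b ∧
      gaussRed O res ⟨b, hb⟩ ≠ 0 ∧ z * gaussRed O res ⟨b, hb⟩ = gaussRed O res ⟨a, ha⟩ := by
  obtain ⟨y, hy, hbasis⟩ := exists_uniform_basis A N
  obtain ⟨hspanκ, -⟩ := hbasis κ hN
  obtain ⟨g', f', hg', hrel'⟩ := exists_cleared_of_mem_span (isFrac_top κ) _ (hspanκ z hz)
  simp only [evE_top_eq_aeval] at hrel'
  obtain ⟨g, hg⟩ := Polynomial.map_surjective res hsurj (g'.map (⊤ : Subring κ).subtype)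
  have hf : ∀ i, ∃ P : Polynomial O, P.map res = (f' i).map (⊤ : Subring κ).subtype :=
    fun i => Polynomial.map_surjective res hsurj _
  choose f hf using hf
  have hgne : g.map res ≠ 0 := by
    rw [hg]
    exact (Polynomial.map_ne_zero_iff Subtype.val_injective).mpr hg'
  have hjE := j_mem_gaussRing O res (E := E)
  have hjF : jqModC E ∈ modularFunctionFieldFullC E N := jqModC_mem_full E N
  -- the numerator
  set a : LaurentSeries E := ∑ i, evE O (jqModC E) (f i) * coeffMap (Int.castRingHom E) (y i)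
    with ha_def
  have haV : a ∈ gaussRing O res :=
    sum_mem fun i _ => mul_mem (evE_mem_gaussRing hjE _) (intCast_mem_gaussRing O res _)
  have haF : a ∈ modularFunctionFieldFullC E N :=
    sum_mem fun i _ => mul_mem (evE_mem_full N hjF _) (coeffMap_intCast_mem_full E N (hy i))
  have haI : (evE O (jqModC E)).IsIntegralElem a := by
    letI : Algebra (Polynomial O) (LaurentSeries E) := (evE O (jqModC E)).toAlgebra
    show IsIntegral (Polynomial O) _
    refine IsIntegral.sum _ fun i _ => ?_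
    exact IsIntegral.mul (isIntegral_algebraMap (x := f i)) (isIntegralElem_basis A N (hy i))
  have hared : gaussRed O res ⟨a, haV⟩ =
      ∑ i, Polynomial.aeval (jqModC κ) ((f i).map res) * coeffMap (Int.castRingHom κ) (y i) := by
    have h1 := gaussRed_relation (res := res) y haV 1 f (by rw [map_one, one_mul])
    rwa [Polynomial.map_one, map_one, one_mul] at h1
  refine ⟨a, evE O (jqModC E) g, haV, evE_mem_gaussRing hjE g, haF, evE_mem_full N hjF g, haI,
    (evE O (jqModC E)).isIntegralElem_map, ?_, ?_⟩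
  · rw [gaussRed_evE_j]
    exact aeval_j_ne_zero hgne
  · rw [gaussRed_evE_j, hared, hg, mul_comm, hrel']
    refine Finset.sum_congr rfl fun i _ => ?_
    rw [hf i]

/-- **(T3')** The reduction `F_E ∩ V → F_κ` is surjective. -/
theorem exists_preimage (A : AnalyticInputs) (hsurj : Function.Surjective res)
    (N : ℕ) [NeZero N] (hN : (N : κ) ≠ 0)
    {z : LaurentSeries κ} (hz : z ∈ modularFunctionFieldFullC κ N) :
    ∃ (x : LaurentSeries E) (hx : x ∈ gaussRing O res),
      x ∈ modularFunctionFieldFullC E N ∧ gaussRed O res ⟨x, hx⟩ = z := by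
  obtain ⟨a, b, ha, hb, haF, hbF, -, -, hbne, hrel⟩ :=
    exists_lift (E := E) (O := O) A hsurj N hN hz
  have hbinv := inv_mem_gaussRing_of_gaussRed_ne_zero ⟨b, hb⟩ hbne
  have hb0 : b ≠ 0 := by
    rintro rfl
    apply hbne
    have : (⟨0, hb⟩ : gaussRing O res) = 0 := rfl
    rw [this, map_zero]
  refine ⟨a * b⁻¹, mul_mem ha hbinv, mul_mem haF (inv_mem hbF), ?_⟩
  have h1 : (⟨a * b⁻¹, mul_mem ha hbinv⟩ : gaussRing O res) * ⟨b, hb⟩ = ⟨a, ha⟩ := by
    apply Subtype.ext
    show a * b⁻¹ * b = a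
    rw [mul_assoc, inv_mul_cancel₀ hb0, mul_one]
  have h2 := congrArg (gaussRed O res) h1
  rw [map_mul, ← hrel] at h2
  exact mul_right_cancel₀ hbne h2

end Lift

section DVR

open IsLocalRing

variable {E : Type} [Field E] (O : Subring E) [IsDiscreteValuationRing O]

/-- A discrete valuation subring with its residue map and a uniformiser is `UnifData`. -/
theorem unifData_residue {ϖ : O} (hϖ : Irreducible ϖ) : UnifData O (residue O) ϖ := by
  have hmax : maximalIdeal O = Ideal.span {ϖ} := hϖ.maximalIdeal_eq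
  refine ⟨?_, hϖ.ne_zero, ?_⟩
  · intro x
    rw [residue_eq_zero_iff, hmax, Ideal.mem_span_singleton']
    constructor
    · rintro ⟨y, hy⟩
      exact ⟨y, by rw [← hy, mul_comm]⟩
    · rintro ⟨y, hy⟩
      exact ⟨y, by rw [hy, mul_comm]⟩
  · intro x hx
    obtain ⟨n, u, hu⟩ := IsDiscreteValuationRing.eq_unit_mul_pow_irreducible hx hϖ
    refine ⟨n, (u : O), by rw [hu, mul_comm], ?_⟩
    intro h0
    rw [residue_eq_zero_iff] at h0
    exact (IsLocalRing.mem_maximalIdeal _).mp h0 u.isUnit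

/-- A valuation subring has `E` as fraction field. -/
theorem isFrac_valuationSubring (V : ValuationSubring E) : IsFrac V.toSubring := by
  intro e
  rcases V.mem_or_inv_mem e with he | he
  · exact ⟨⟨e, he⟩, 1, one_ne_zero, by simp⟩
  · by_cases he0 : e = 0
    · subst he0
      exact ⟨0, 1, one_ne_zero, by simp⟩
    · refine ⟨1, ⟨e⁻¹, he⟩, ?_, ?_⟩
      · intro h0
        have := congrArg Subtype.val h0
        simp at this
        exact he0 this
      · show e * e⁻¹ = 1
        exact mul_inv_cancel₀ he0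

end DVR

end Fermat.Agent.S18.H208

end

end
-- ===== PACK-END S18/H208/Fibre.lean

-- ===== PACK-BEGIN S18/H208/M1.lean
section
/-
S18 / M1 (helper208): MOD piece M1 = the S28 outputs over a general discrete valuation ring.

SETTING.  `E` a field, `O : Subring E` a discrete valuation ring with fraction field `E`
(`IsFrac O`), `res : O →+* κ` a ring homomorphism to a field with kernel the maximal ideal
(NOT necessarily surjective: `κ` may be the residue field of a bigger valuation ring),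
`N ≥ 1` invertible in `κ`.  `F_E = modularFunctionFieldFullC E N ⊆ E((q))`,
`F_κ = modularFunctionFieldFullC κ N ⊆ κ((q))`.

`V = gaussRing O res ⊆ E((q))` is the Gauss valuation ring (helper86), with reduction
`gaussRed O res : V →+* κ((q))`.  Integrality over the chart ring `O[t]` (`t = j` or `j⁻¹`) is
expressed as `(evE O t).IsIntegralElem x`, `evE O t : O[X] →+* E((q))`, `P ↦ P(t)`.

RESULTS (all unconditional):
* `M1.mem_gaussRing_fin / _inf` : elements of `F_E` integral over `O[j]` / `O[j⁻¹]` lie in `V`.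
* `M1.gaussRed_mem`             : the reduction of `F_E ∩ V` lies in `F_κ`.
* `M1.qep_fin / qep_inf`        : QEP = kernel of the reduction on the chart is `ϖ · chart`.
* `M1.denominators_fin / _inf`  : `F_E ∩ V` is the localisation of the chart at `(ϖ)`.
* `M1.relfinrank_eq`            : `[F_k : k(j)] = ψ(N)` for `k = E` and `k = κ`.
* `M1.isSeparable`              : `F_κ / κ(j)` (and `F_E / E(j)`) is separable.
* `M1.exists_lift / exists_preimage` : (res surjective) `Frac(red(chart)) = F_κ`.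
-/





set_option autoImplicit false
set_option linter.unusedSectionVars false
set_option linter.style.haveILetI false

noncomputable section

namespace Fermat.Agent.S18.H208

open ModularCurve HahnSeries Polynomial Fermat.Agent.S28 Fermat.Agent.S28.H86 IsLocalRing

/-- The analytic inputs of S28, as proved on main. -/
theorem analyticInputs : AnalyticInputs where
  modPoly := fun p _ hp => S28.H807.nonempty_modPolyData p hp
  unitPoly := fun p _ hp => S28.H807.nonempty_unitPolyData p hp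
  theta := S28.H25.theta_identity

namespace M1

variable {E : Type} [Field E] {O : Subring E} [IsDiscreteValuationRing O]
  {κ : Type} [Field κ] {res : O →+* κ}

/-- `UnifData` from a DVR, a uniformiser and a residue map with kernel the maximal ideal. -/
theorem unifData (hker : ∀ x : O, res x = 0 ↔ x ∈ maximalIdeal O) {ϖ : O}
    (hϖ : Irreducible ϖ) : UnifData O res ϖ := by
  have h := unifData_residue O hϖ
  refine ⟨fun x => ?_, h.ne_zero, fun x hx => ?_⟩
  · rw [hker, ← residue_eq_zero_iff]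
    exact h.ker x
  · obtain ⟨n, y, hy, hres⟩ := h.prim x hx
    refine ⟨n, y, hy, fun h0 => hres ?_⟩
    rw [residue_eq_zero_iff, ← hker]
    exact h0

theorem natCast_ne_zero (res : O →+* κ) {N : ℕ} (hN : (N : κ) ≠ 0) : (N : E) ≠ 0 :=
  natCast_ne_zero_of_res res hN

variable (hker : ∀ x : O, res x = 0 ↔ x ∈ maximalIdeal O) (hfrac : IsFrac O)
  (N : ℕ) [NeZero N] (hN : (N : κ) ≠ 0)

include hker hfrac in
/-- Elements of `F_E` integral over `O[j]` lie in the Gauss ring. -/
theorem mem_gaussRing_fin {x : LaurentSeries E} (hxF : x ∈ modularFunctionFieldFullC E N)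
    (hint : (evE O (jqModC E)).IsIntegralElem x) : x ∈ gaussRing O res := by
  obtain ⟨ϖ, hϖ⟩ := IsDiscreteValuationRing.exists_irreducible O
  exact mem_gaussRing_of_isIntegralElem (unifData hker hϖ) (j_mem_gaussRing O res)
    (full_le_gaussFrac hfrac N hxF) hint

include hker hfrac in
/-- Elements of `F_E` integral over `O[j⁻¹]` lie in the Gauss ring. -/
theorem mem_gaussRing_inf {x : LaurentSeries E} (hxF : x ∈ modularFunctionFieldFullC E N)
    (hint : (evE O (jqModC E)⁻¹).IsIntegralElem x) : x ∈ gaussRing O res := by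
  obtain ⟨ϖ, hϖ⟩ := IsDiscreteValuationRing.exists_irreducible O
  exact mem_gaussRing_of_isIntegralElem (unifData hker hϖ) j_inv_mem_gaussRing
    (full_le_gaussFrac hfrac N hxF) hint

include hker hfrac hN in
/-- The reduction of `F_E ∩ V` lies in `F_κ`. -/
theorem gaussRed_mem {x : LaurentSeries E} (hxF : x ∈ modularFunctionFieldFullC E N)
    (hx : x ∈ gaussRing O res) : gaussRed O res ⟨x, hx⟩ ∈ modularFunctionFieldFullC κ N := by
  obtain ⟨ϖ, hϖ⟩ := IsDiscreteValuationRing.exists_irreducible O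
  exact gaussRed_mem_full analyticInputs (unifData hker hϖ) hfrac N hN hxF hx

include hker hfrac hN in
/-- **QEP, finite chart.** -/
theorem qep_fin {ϖ : O} (hϖ : Irreducible ϖ)
    {x : LaurentSeries E} (hxF : x ∈ modularFunctionFieldFullC E N)
    (hint : (evE O (jqModC E)).IsIntegralElem x)
    (hx : x ∈ gaussRing O res) (hred : gaussRed O res ⟨x, hx⟩ = 0) :
    ∃ x' : LaurentSeries E, x' ∈ modularFunctionFieldFullC E N ∧
      (evE O (jqModC E)).IsIntegralElem x' ∧ x = HahnSeries.C (ϖ : E) * x' :=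
  kernel_fin analyticInputs (unifData hker hϖ) hfrac N hN hxF hint hx hred

include hker hfrac hN in
/-- **QEP, chart at infinity.** -/
theorem qep_inf {ϖ : O} (hϖ : Irreducible ϖ)
    {x : LaurentSeries E} (hxF : x ∈ modularFunctionFieldFullC E N)
    (hint : (evE O (jqModC E)⁻¹).IsIntegralElem x)
    (hx : x ∈ gaussRing O res) (hred : gaussRed O res ⟨x, hx⟩ = 0) :
    ∃ x' : LaurentSeries E, x' ∈ modularFunctionFieldFullC E N ∧
      (evE O (jqModC E)⁻¹).IsIntegralElem x' ∧ x = HahnSeries.C (ϖ : E) * x' :=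
  kernel_inf analyticInputs (unifData hker hϖ) hfrac N hN hxF hint hx hred

include hker hfrac hN in
/-- **Denominators, finite chart**: `F_E ∩ V` is the localisation of the chart at `(ϖ)`. -/
theorem denominators_fin {x : LaurentSeries E} (hxF : x ∈ modularFunctionFieldFullC E N)
    (hx : x ∈ gaussRing O res) :
    ∃ s : Polynomial O, s.map res ≠ 0 ∧
      (evE O (jqModC E)).IsIntegralElem (evE O (jqModC E) s * x) := by
  obtain ⟨ϖ, hϖ⟩ := IsDiscreteValuationRing.exists_irreducible O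
  exact hasDenominators_j analyticInputs (unifData hker hϖ) hfrac N hN x hxF hx

include hker hfrac hN in
/-- **Denominators, chart at infinity.** -/
theorem denominators_inf {x : LaurentSeries E} (hxF : x ∈ modularFunctionFieldFullC E N)
    (hx : x ∈ gaussRing O res) :
    ∃ s : Polynomial O, s.map res ≠ 0 ∧
      (evE O (jqModC E)⁻¹).IsIntegralElem (evE O (jqModC E)⁻¹ s * x) := by
  obtain ⟨ϖ, hϖ⟩ := IsDiscreteValuationRing.exists_irreducible O
  exact (hasDenominators_j analyticInputs (unifData hker hϖ) hfrac N hN).inv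
    (S28.H145.jqModC_ne_zero' E) x hxF hx

/-- `[F_k : k(j)] = ψ(N)` for every field `k` in which `N` is invertible. -/
theorem relfinrank_eq (k : Type) [Field k] (N : ℕ) [NeZero N] (hN : (N : k) ≠ 0) :
    (jField k).relfinrank (modularFunctionFieldFullC k N) = dedekindPsi N :=
  relfinrank_full analyticInputs k N hN

/-- `F_k / k(j)` is separable for every field `k` in which `N` is invertible. -/
theorem isSeparable (k : Type) [Field k] (N : ℕ) [NeZero N] (hN : (N : k) ≠ 0)
    {x : LaurentSeries k} (hx : x ∈ modularFunctionFieldFullC k N) :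
    IsSeparable (jField k) x :=
  isSeparable_full k analyticInputs N hN hx

/-- The uniform integral basis. -/
theorem exists_basis (N : ℕ) [NeZero N] :
    ∃ y : Fin (dedekindPsi N) → LaurentSeries ℤ,
      (∀ i, y i ∈ Subring.closure (intDivisorExpansions N)) ∧
      ∀ (k : Type) [Field k], (N : k) ≠ 0 →
        (∀ x ∈ modularFunctionFieldFullC k N,
          x ∈ Submodule.span (jField k)
            (Set.range fun i => coeffMap (Int.castRingHom k) (y i))) ∧
        LinearIndependent (jField k) (fun i => coeffMap (Int.castRingHom k) (y i)) :=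
  exists_uniform_basis analyticInputs N

include hN in
/-- Every element of `F_κ` is a quotient of reductions of chart elements (`res` onto). -/
theorem exists_lift' (hsurj : Function.Surjective res)
    {z : LaurentSeries κ} (hz : z ∈ modularFunctionFieldFullC κ N) :
    ∃ (a b : LaurentSeries E) (ha : a ∈ gaussRing O res) (hb : b ∈ gaussRing O res),
      a ∈ modularFunctionFieldFullC E N ∧ b ∈ modularFunctionFieldFullC E N ∧
      (evE O (jqModC E)).IsIntegralElem a ∧ (evE O (jqModC E)).IsIntegralElem b ∧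
      gaussRed O res ⟨b, hb⟩ ≠ 0 ∧ z * gaussRed O res ⟨b, hb⟩ = gaussRed O res ⟨a, ha⟩ :=
  exists_lift analyticInputs hsurj N hN hz

include hN in
/-- The reduction `F_E ∩ V → F_κ` is surjective (`res` onto). -/
theorem exists_preimage' (hsurj : Function.Surjective res)
    {z : LaurentSeries κ} (hz : z ∈ modularFunctionFieldFullC κ N) :
    ∃ (x : LaurentSeries E) (hx : x ∈ gaussRing O res),
      x ∈ modularFunctionFieldFullC E N ∧ gaussRed O res ⟨x, hx⟩ = z :=
  exists_preimage analyticInputs hsurj N hN hz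

end M1

end Fermat.Agent.S18.H208

end

end
-- ===== PACK-END S18/H208/M1.lean

-- ===== PACK-BEGIN S18/H84/ConstF.lean
section





/-!
# S18 / T2 — CONST_F: a function without zeros (or without zeros and poles) is constant
(characteristic zero; helper84)

Exact statement needed by `H94.result_of_qCore`:
`ConstOfOrdZero Q̄ (modularFunctionFieldBar N)`, i.e.
`∀ u ≠ 0, (∀ v : Place Q̄ F_N, v.ord u = 0) → ∃ c, u = algebraMap Q̄ F_N c`.
-/

set_option autoImplicit false

noncomputable section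

open AlgebraicCurve ModularCurve IntermediateField

namespace Fermat.Agent.S18.H84

section Generic

variable {K F : Type*} [Field K] [Field F] [Algebra K F] [IsAlgClosed K] [CharZero K]

/-- In a function field of one variable over an algebraically closed field of characteristic
zero, a function without zeros is constant. -/
theorem const_of_forall_ord_nonpos (x : F) (hx : Transcendental K x)
    [FiniteDimensional K⟮x⟯ F] (u : F) (hu : ∀ v : Place K F, v.ord u ≤ 0) :
    ∃ c : K, u = algebraMap K F c := by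
  by_contra hc
  have hnot : u ∉ (algebraMap K F).range := by
    rintro ⟨c, rfl⟩
    exact hc ⟨c, rfl⟩
  have hut : Transcendental K u := Fermat.Agent.S24.FF.transcendental_of_not_mem_range hnot
  have : FiniteDimensional K⟮u⟯ F :=
    Fermat.Agent.S24.FF.finiteDimensional_adjoin_of_transcendental hx hut
  have hsum := Fermat.Agent.S24.FF.sum_ord_eq_finrank hut (∅ : Finset (Place K F))
    (fun v => by
      simp only [Finset.notMem_empty, false_iff, not_lt]
      exact hu v)
  rw [Finset.sum_empty] at hsum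
  have hpos : 0 < Module.finrank K⟮u⟯ F := Module.finrank_pos
  omega

/-- In a function field of one variable over an algebraically closed field of characteristic
zero, a function without zeros and poles is constant. -/
theorem const_of_forall_ord_eq_zero (x : F) (hx : Transcendental K x)
    [FiniteDimensional K⟮x⟯ F] (u : F) (hu : ∀ v : Place K F, v.ord u = 0) :
    ∃ c : K, u = algebraMap K F c :=
  const_of_forall_ord_nonpos x hx u fun v => (hu v).le

end Generic

/-- **T2 (CONST_F)** for the modular function field over `Q̄`. -/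
theorem constOfOrdZero_modularFunctionFieldBar (N : ℕ) [NeZero N]
    (u : modularFunctionFieldBar N) (_hu0 : u ≠ 0)
    (hu : ∀ v : Place (AlgebraicClosure ℚ) (modularFunctionFieldBar N), v.ord u = 0) :
    ∃ c : AlgebraicClosure ℚ, u = algebraMap (AlgebraicClosure ℚ) (modularFunctionFieldBar N) c := by
  obtain ⟨P⟩ := Fermat.Agent.S24.nonempty_modularPackage N
  have := P.finiteDimensional
  have : Nonempty (Fermat.Agent.S24.XX N) := ⟨QuotientGroup.mk 1⟩
  have hj : Transcendental (AlgebraicClosure ℚ) (Fermat.Agent.S24.jF N) :=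
    Fermat.Agent.S24.transcendental_of_localData_inv (Fermat.Agent.S24.jF N) P.dataInf
  exact const_of_forall_ord_eq_zero (Fermat.Agent.S24.jF N) hj u hu

/-- The modular function field over `Q̄` is finite over `Q̄(u)` for every non-constant `u`,
and `u` is transcendental. -/
theorem finiteDimensional_adjoin_modularFunctionFieldBar (N : ℕ) [NeZero N]
    (u : modularFunctionFieldBar N)
    (hu : u ∉ (algebraMap (AlgebraicClosure ℚ) (modularFunctionFieldBar N)).range) :
    Transcendental (AlgebraicClosure ℚ) u ∧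
      FiniteDimensional (AlgebraicClosure ℚ)⟮u⟯ (modularFunctionFieldBar N) := by
  obtain ⟨P⟩ := Fermat.Agent.S24.nonempty_modularPackage N
  have := P.finiteDimensional
  have : Nonempty (Fermat.Agent.S24.XX N) := ⟨QuotientGroup.mk 1⟩
  have hj : Transcendental (AlgebraicClosure ℚ) (Fermat.Agent.S24.jF N) :=
    Fermat.Agent.S24.transcendental_of_localData_inv (Fermat.Agent.S24.jF N) P.dataInf
  have hut : Transcendental (AlgebraicClosure ℚ) u :=
    Fermat.Agent.S24.FF.transcendental_of_not_mem_range hu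
  exact ⟨hut, Fermat.Agent.S24.FF.finiteDimensional_adjoin_of_transcendental hj hut⟩

end Fermat.Agent.S18.H84

end
end
-- ===== PACK-END S18/H84/ConstF.lean

-- ===== PACK-BEGIN S15/H602/ModA1.lean
section




/-!
# S15 / MOD-A1 (helper602): every point of the plane model of `X₀(p)` lifts to a place

`placeOfModularPairStatement : H542.PlaceOfModularPairStatement` — for `(a, a') ∈ ℚ̄²` such that
every polynomial relation over `ℚ` between `j(q)` and `j(q^N)` vanishes at `(a, a')`, there is a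
place `P` of `ℚ̄(X₀(N))` with `j(P) = a` and `j_N(P) = a'`.  (Valid for every `N ≥ 1`.)

Ingredients: `exists_isCentredAt` (Chevalley extension + every valuation ring of a function
field is a place, `Lib.RR.H443.exists_place_eq`), `ev0_eq_zero_of_rational` (linear
disjointness), transcendence of `j` and finiteness of `F / ℚ̄(j)` (S24, via `S18.H84`).
-/

set_option autoImplicit false

noncomputable section

namespace Fermat.Agent.S15.H602

open Polynomial AlgebraicCurve ModularCurve HahnSeries Fermat.Agent.S15.H542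

section Coe

variable {K E : Type*} [Field K] [Field E] [Algebra K E] (M : IntermediateField K E)

/-- `G(x, y)` computed in an intermediate field or in the ambient field. -/
theorem coe_ev (x y : M) (G : K[X][X]) : ((ev x y G : M) : E) = ev (x : E) (y : E) G := by
  have h : (M.val : M →+* E).comp (ev x y) = ev (K := K) (x : E) (y : E) := by
    refine ringHom_ext₂ (fun c => ?_) ?_ ?_
    · simp
    · simp
    · simp
  exact congrArg (fun f : K[X][X] →+* E => f G) h

end Coe

section MvBridge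

variable {A : Type*} [CommRing A] [Algebra ℚ A]

/-- evaluation of `MvPolynomial (Fin 2) ℚ` versus evaluation of `ℚ[X][Y]` -/
theorem mvAeval_equivMvPolynomial (u v : A) (G₀ : ℚ[X][X]) :
    MvPolynomial.aeval ![u, v] (Bivariate.equivMvPolynomial ℚ G₀) =
      eval₂ ((aeval u : ℚ[X] →ₐ[ℚ] A) : ℚ[X] →+* A) v G₀ := by
  have h : (MvPolynomial.aeval ![u, v] : MvPolynomial (Fin 2) ℚ →ₐ[ℚ] A).toRingHom.comp
      (Bivariate.equivMvPolynomial ℚ).toAlgHom.toRingHom =
      eval₂RingHom ((aeval u : ℚ[X] →ₐ[ℚ] A) : ℚ[X] →+* A) v := by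
    refine ringHom_ext₂ (fun c => ?_) ?_ ?_
    · simp
    · simp
    · simp
  exact congrArg (fun f : ℚ[X][X] →+* A => f G₀) h

end MvBridge

/-- An element of `F` with a nonzero `q`-coefficient in degree `k ≠ 0` differs from every
constant. -/
theorem sub_algebraMap_ne_zero {N : ℕ} (u : modularFunctionFieldBar N) (k : ℤ) (hk : k ≠ 0)
    (hu : (u : LaurentSeries (AlgebraicClosure ℚ)).coeff k ≠ 0) (c : AlgebraicClosure ℚ) :
    u - algebraMap (AlgebraicClosure ℚ) (modularFunctionFieldBar N) c ≠ 0 := by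
  intro h0
  have h1 : (u : LaurentSeries (AlgebraicClosure ℚ)) =
      algebraMap (AlgebraicClosure ℚ) (LaurentSeries (AlgebraicClosure ℚ)) c := by
    have := congrArg (Subtype.val) (sub_eq_zero.mp h0)
    simpa using this
  rw [h1, algebraMap_laurentSeries_eq_single, HahnSeries.coeff_single_of_ne hk] at hu
  exact hu rfl

theorem coeff_jBar (N : ℕ) [NeZero N] :
    ((jBar N : modularFunctionFieldBar N) : LaurentSeries (AlgebraicClosure ℚ)).coeff (-1) = 1 := by
  show (coeffEmb (AlgebraicClosure ℚ) jq).coeff (-1) = 1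
  rw [coeffEmb_coeff, coeff_jq_neg_one, map_one]

theorem coeff_jNBar (N : ℕ) [NeZero N] :
    ((jNBar N : modularFunctionFieldBar N) : LaurentSeries (AlgebraicClosure ℚ)).coeff
      ((N : ℤ) * (-1)) = 1 := by
  show (coeffEmb (AlgebraicClosure ℚ) (qExpand ℚ N jq)).coeff ((N : ℤ) * (-1)) = 1
  rw [coeffEmb_coeff, qExpand_coeff_mul, coeff_jq_neg_one, map_one]

theorem jBar_sub_ne_zero (N : ℕ) [NeZero N] (c : AlgebraicClosure ℚ) :
    jBar N - algebraMap (AlgebraicClosure ℚ) (modularFunctionFieldBar N) c ≠ 0 :=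
  sub_algebraMap_ne_zero _ (-1) (by norm_num) (by rw [coeff_jBar]; exact one_ne_zero) c

theorem jNBar_sub_ne_zero (N : ℕ) [NeZero N] (c : AlgebraicClosure ℚ) :
    jNBar N - algebraMap (AlgebraicClosure ℚ) (modularFunctionFieldBar N) c ≠ 0 :=
  sub_algebraMap_ne_zero _ ((N : ℤ) * (-1))
    (by simpa using NeZero.ne N) (by rw [coeff_jNBar]; exact one_ne_zero) c

theorem jBar_not_mem_range (N : ℕ) [NeZero N] :
    jBar N ∉ (algebraMap (AlgebraicClosure ℚ) (modularFunctionFieldBar N)).range := by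
  rintro ⟨c, hc⟩
  exact jBar_sub_ne_zero N c (by rw [hc, sub_self])

/-- `IsModularPair` gives a point of the plane model over `ℚ̄` in the sense of `IsPointOf`. -/
theorem isPointOf_of_isModularPair (N : ℕ) [NeZero N] {a a' : AlgebraicClosure ℚ}
    (h : IsModularPair N a a') : IsPointOf (jBar N) (jNBar N) a a' := by
  intro G hG
  refine ev0_eq_zero_of_rational jq (qExpand ℚ N jq) a a' (fun G₀ hG₀ => ?_) G ?_
  · rw [ev0_bc_eq, ← mvAeval_equivMvPolynomial]
    apply h
    rw [mvAeval_equivMvPolynomial]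
    exact hG₀
  · have := congrArg (Subtype.val) hG
    rw [coe_ev] at this
    exact this

/-- **MOD-A1.**  Every point of the plane model lifts to a place (any level `N ≥ 1`). -/
theorem exists_place_of_isModularPair (N : ℕ) [NeZero N] {a a' : AlgebraicClosure ℚ}
    (h : IsModularPair N a a') :
    ∃ P : Place (AlgebraicClosure ℚ) (modularFunctionFieldBar N),
      HasValueAt P (jBar N) a ∧ HasValueAt P (jNBar N) a' := by
  obtain ⟨hT, hFD⟩ :=
    S18.H84.finiteDimensional_adjoin_modularFunctionFieldBar N (jBar N) (jBar_not_mem_range N)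
  obtain ⟨P, hP⟩ := exists_isCentredAt hT (isPointOf_of_isModularPair N h)
  exact ⟨P, (S24.FF.ord_pos_iff_mem_nonunits P (jBar_sub_ne_zero N a)).mpr hP.hx,
    (S24.FF.ord_pos_iff_mem_nonunits P (jNBar_sub_ne_zero N a')).mpr hP.hy⟩

/-- **MOD-A1** in the exact shape of the interface. -/
theorem placeOfModularPairStatement : PlaceOfModularPairStatement :=
  fun p _ _ _ _ h => exists_place_of_isModularPair p h

end Fermat.Agent.S15.H602

end
end
-- ===== PACK-END S15/H602/ModA1.lean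

-- ===== PACK-BEGIN A3/H799/LocalSpec2.lean
section


/-!
# A3 / LOCAL — FROZEN statements, second layer  (architect helper799)

Sub-leaves of ZTRI / ZNEG (both are the case `s = 2`, `s = 1` of one statement) and the
intermediate statement CHART between the leaves of `LocalSpec.lean` and `LocalStatement`.

    GEO    `GeoStatement`    pointwise geometry: the section through the moving points has exactly
                             one further zero in each disc (hypothesis `hgeo` of `local_mem`)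
    DET    `DetStatement`    integral functions `φ_j ∈ L((s+1)E)` whose jets of order `< s` along
                             the discs form a matrix of unit determinant (hypothesis `hdet`)
    CHART  `ChartStatement`  coordinates `z` on the kernel of reduction: injective, inertia
                             equivariant, addition algebraic for families
-/

set_option autoImplicit false

noncomputable section

open AlgebraicCurve

namespace Fermat.Agent.A3.H799

variable (K F k Fk : Type*) [Field K] [Field F] [Algebra K F] [Field k] [Field Fk] [Algebra k Fk]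

/-- **GEO.**  Pointwise geometric input of `local_mem`.  `E = polyDiv d 0`, `s` moving points
`zs r` and one further point `zw` with `Σ_r D_{zs r} + D_{zw} ∼ (s+1) E`.  If `φ ∈ L((s+1)E)` is
integral with reduction `1` and `t_i^{s+1} φ` is divisible by `∏_r (t_i - zs r i)` on every disc,
then the quotient is `(t_i - zw i) · u` with `u` a unit at `zw i`. -/
def GeoStatement : Prop :=
  ∀ (𝓡 : GoodRed K F k Fk) (Qs : Fin (genusFF k Fk) → Place k Fk), Function.Injective Qs →
    @Lib.RR.ell k Fk _ _ _ (∑ i, Finsupp.single (Qs i) (1 : ℤ)) = 1 →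
    ∀ (d : ∀ i, DiscData 𝓡 (Qs i)) (s : ℕ)
      (zs : Fin s → Fin (genusFF k Fk) → IsLocalRing.maximalIdeal 𝓡.V)
      (zw : Fin (genusFF k Fk) → IsLocalRing.maximalIdeal 𝓡.V),
      (∑ r, polyDiv d (zs r)) + polyDiv d zw - ((s : ℤ) + 1) • polyDiv d 0 ∈
        Divisor.principal (K := K) (F := F) →
      ∀ φ : 𝓡.O, ((φ : 𝓡.O) : F) ∈ riemannRochSpace (((s : ℤ) + 1) • polyDiv d 0) →
        𝓡.red φ = 1 →
      ∀ G : ∀ i, (d i).ring,
        (∀ i, ((G i : (d i).ring) : F) =
          ((((d i).D.t : (d i).ring) : F)) ^ (s + 1) * ((φ : 𝓡.O) : F)) →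
        (∀ i, ∃ h : (d i).ring,
          G i = Polynomial.aeval (d i).D.t (DiscAlg.nodal (List.ofFn fun r => zs r i)) * h) →
        ∀ i, ∃ u : (d i).ring, IsUnit ((d i).D.ev (zw i) u) ∧
          G i = Polynomial.aeval (d i).D.t (DiscAlg.nodal (List.ofFn fun r => zs r i)) *
            ((d i).D.t - algebraMap 𝓡.V (d i).ring ((zw i : IsLocalRing.maximalIdeal 𝓡.V) : 𝓡.V)) * u

/-- **DET.**  For `s ≥ 1` there are integral `φ_j ∈ L((s+1)E)`, `j ∈ Fin g × Fin s`, such that the
Taylor coefficients of order `< s` of `t_i^{s+1} φ_j` in the disc algebras form a matrix with unit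
determinant (it can be chosen `≡ 1` modulo `𝔪`: jets on the special fibre are independent because
`ℓ(Ē) = 1`, i.e. `𝔸 = 𝔸(Ē) + Fk`). -/
def DetStatement : Prop :=
  ∀ (𝓡 : GoodRed K F k Fk) (Qs : Fin (genusFF k Fk) → Place k Fk), Function.Injective Qs →
    @Lib.RR.ell k Fk _ _ _ (∑ i, Finsupp.single (Qs i) (1 : ℤ)) = 1 →
    ∀ (d : ∀ i, DiscData 𝓡 (Qs i)) (s : ℕ), 0 < s →
      ∃ (φ : (Σ _ : Fin (genusFF k Fk), Fin s) → 𝓡.O)
        (f : (Σ _ : Fin (genusFF k Fk), Fin s) → ∀ i, (d i).ring)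
        (P : (Σ _ : Fin (genusFF k Fk), Fin s) → Fin (genusFF k Fk) → Polynomial 𝓡.V)
        (H : (Σ _ : Fin (genusFF k Fk), Fin s) → ∀ i, (d i).ring),
        (∀ j, ((φ j : 𝓡.O) : F) ∈ riemannRochSpace (((s : ℤ) + 1) • polyDiv d 0)) ∧
        (∀ j i, ((f j i : (d i).ring) : F) =
          ((((d i).D.t : (d i).ring) : F)) ^ (s + 1) * ((φ j : 𝓡.O) : F)) ∧
        (∀ j i, f j i = Polynomial.aeval (d i).D.t (P j i) + (d i).D.t ^ s * H j i) ∧
        ∀ [DecidableEq (Σ _ : Fin (genusFF k Fk), Fin s)],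
          IsUnit (Matrix.of fun (c j : Σ _ : Fin (genusFF k Fk), Fin s) =>
            (P j c.1).coeff (c.2 : ℕ)).det

/-- **ZGEN** (general number `s ≥ 1` of moving points; ZTRI is `s = 2`, ZNEG is `s = 1`). -/
def ZgenStatement.{w} : Prop :=
  ∀ (𝓡 : GoodRed K F k Fk) (Qs : Fin (genusFF k Fk) → Place k Fk), Function.Injective Qs →
    @Lib.RR.ell k Fk _ _ _ (∑ i, Finsupp.single (Qs i) (1 : ℤ)) = 1 →
    ∀ (d : ∀ i, DiscData 𝓡 (Qs i)) (T : Type w) [Finite T] (Λ : Subalgebra 𝓡.V (T → 𝓡.V))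
      (s : ℕ), 0 < s →
      ∀ (zs : Fin s → T → Fin (genusFF k Fk) → IsLocalRing.maximalIdeal 𝓡.V)
        (zw : T → Fin (genusFF k Fk) → IsLocalRing.maximalIdeal 𝓡.V),
      (∀ r j, (fun τ => ((zs r τ j : IsLocalRing.maximalIdeal 𝓡.V) : 𝓡.V)) ∈ Λ) →
      (∀ τ, (∑ r, polyDiv d (zs r τ)) + polyDiv d (zw τ) - ((s : ℤ) + 1) • polyDiv d 0 ∈
        Divisor.principal (K := K) (F := F)) →
      ∀ i, (fun τ => ((zw τ i : IsLocalRing.maximalIdeal 𝓡.V) : 𝓡.V)) ∈ Λ

/-- **CHART.**  Coordinates on the kernel of reduction: injective, inertia-equivariant, with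
algebraic addition for families over a finite set. -/
def ChartStatement.{w} : Prop :=
  ∀ (𝓡 : GoodRed K F k Fk),
    ∃ (n : ℕ) (z : 𝓡.kerRed → Fin n → IsLocalRing.maximalIdeal 𝓡.V),
      Function.Injective z ∧
      (∀ g ∈ 𝓡.I, ∀ (u : 𝓡.kerRed) (hgu : g • (u : Pic0 K F) ∈ 𝓡.kerRed) (i : Fin n),
        (((z ⟨g • (u : Pic0 K F), hgu⟩ i : IsLocalRing.maximalIdeal 𝓡.V) : 𝓡.V) : K) =
          SemilinearAut.baseAut g (((z u i : IsLocalRing.maximalIdeal 𝓡.V) : 𝓡.V) : K)) ∧
      ∀ (T : Type w) [Finite T] (Λ : Subalgebra 𝓡.V (T → 𝓡.V)) (a b : T → 𝓡.kerRed),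
        (∀ j, (fun τ => ((z (a τ) j : IsLocalRing.maximalIdeal 𝓡.V) : 𝓡.V)) ∈ Λ) →
        (∀ j, (fun τ => ((z (b τ) j : IsLocalRing.maximalIdeal 𝓡.V) : 𝓡.V)) ∈ Λ) →
        ∀ i, (fun τ => ((z (a τ + b τ) i : IsLocalRing.maximalIdeal 𝓡.V) : 𝓡.V)) ∈ Λ

/-- **KER-I.**  Inertia acts trivially modulo the kernel of reduction. -/
def KerInertiaStatement : Prop :=
  ∀ (𝓡 : GoodRed K F k Fk), ∀ g ∈ 𝓡.I, ∀ x : Pic0 K F, g • x - x ∈ 𝓡.kerRed

end Fermat.Agent.A3.H799

end
end
-- ===== PACK-END A3/H799/LocalSpec2.lean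

-- ===== PACK-BEGIN A3/H799/Asm.lean
section


/-!
# A3 / LOCAL — assembly: CHART + KER-I + LIFTI ⟹ `LocalStatement`  (helper799)

Coordinates on a finite inertia-stable subgroup `T ⊆ Pic0`:

* the indicator functions of the classes of `T` modulo the kernel of reduction `J`;
* on every class `c` the chart coordinates `z_i (x - yt_c)`, where `yt_c` is an inertia-invariant
  class congruent to `c` modulo `J` (LIFTI), extended by `0`.

Addition is algebraic: on the box `c₁ × c₂` one has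
`x + y - yt_{c₁+c₂} = (x - yt_{c₁}) + (y - yt_{c₂}) + const`, two applications of the chart addition
property for the algebra `Λ = {f | 1_box · f ∈ 𝒜}`.
-/

set_option autoImplicit false

noncomputable section

open AlgebraicCurve

namespace Fermat.Agent.A3.H799

universe u₁ u₂ u₃ u₄

variable {K : Type u₁} {F : Type u₂} {k : Type u₃} {Fk : Type u₄}
  [Field K] [Field F] [Algebra K F] [Field k] [Field Fk] [Algebra k Fk]

section BoxAlg

variable {V : Type*} [CommRing V] {X : Type*} {K' : Type*} [CommRing K'] [Algebra V K']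

/-- For an idempotent `e` of a subalgebra `𝒜` of `K'`-valued functions: the algebra of `V`-valued
functions `f` with `e · f ∈ 𝒜`. -/
def boxAlg (𝒜 : Subalgebra V (X → K')) (e : X → K') (he : e * e = e) (heA : e ∈ 𝒜) :
    Subalgebra V (X → V) where
  carrier := {f | (fun p => e p * algebraMap V K' (f p)) ∈ 𝒜}
  mul_mem' := by
    intro f g hf hg
    have h : (fun p => e p * algebraMap V K' ((f * g) p)) =
        (fun p => e p * algebraMap V K' (f p)) * (fun p => e p * algebraMap V K' (g p)) := by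
      funext p
      have := congrFun he p
      simp only [Pi.mul_apply] at this ⊢
      rw [map_mul]
      calc e p * (algebraMap V K' (f p) * algebraMap V K' (g p))
          = (e p * e p) * (algebraMap V K' (f p) * algebraMap V K' (g p)) := by rw [this]
        _ = _ := by ring
    show (fun p => e p * algebraMap V K' ((f * g) p)) ∈ 𝒜
    rw [h]
    exact 𝒜.mul_mem hf hg
  add_mem' := by
    intro f g hf hg
    have h : (fun p => e p * algebraMap V K' ((f + g) p)) =
        (fun p => e p * algebraMap V K' (f p)) + (fun p => e p * algebraMap V K' (g p)) := by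
      funext p
      simp only [Pi.add_apply, map_add]
      ring
    show (fun p => e p * algebraMap V K' ((f + g) p)) ∈ 𝒜
    rw [h]
    exact 𝒜.add_mem hf hg
  algebraMap_mem' := by
    intro v
    have h : (fun p => e p * algebraMap V K' ((algebraMap V (X → V) v) p)) = v • e := by
      funext p
      simp only [Pi.smul_apply, Algebra.smul_def]
      rw [mul_comm]
      rfl
    show (fun p => e p * algebraMap V K' ((algebraMap V (X → V) v) p)) ∈ 𝒜
    rw [h]
    exact 𝒜.smul_mem heA v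

theorem mem_boxAlg {𝒜 : Subalgebra V (X → K')} {e : X → K'} {he : e * e = e} {heA : e ∈ 𝒜}
    {f : X → V} : f ∈ boxAlg 𝒜 e he heA ↔ (fun p => e p * algebraMap V K' (f p)) ∈ 𝒜 := Iff.rfl

end BoxAlg

section Classes

variable (𝓡 : GoodRed K F k Fk) (T : AddSubgroup (Pic0 K F))

/-- The kernel of reduction inside `T`. -/
def tKer : AddSubgroup T := 𝓡.kerRed.comap T.subtype

variable {𝓡 T}

theorem mk_eq_mk_iff (x y : T) :
    (QuotientAddGroup.mk x : T ⧸ tKer 𝓡 T) = QuotientAddGroup.mk y ↔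
      (x : Pic0 K F) - (y : Pic0 K F) ∈ 𝓡.kerRed := by
  rw [QuotientAddGroup.eq]
  show -(x : Pic0 K F) + (y : Pic0 K F) ∈ 𝓡.kerRed ↔ _
  rw [← neg_mem_iff (H := 𝓡.kerRed)]
  have h : -(-(x : Pic0 K F) + (y : Pic0 K F)) = (x : Pic0 K F) - (y : Pic0 K F) := by abel
  rw [h]

theorem sub_out_mem (x : T) (c : T ⧸ tKer 𝓡 T) (h : (QuotientAddGroup.mk x : T ⧸ tKer 𝓡 T) = c) :
    (x : Pic0 K F) - ((Quotient.out c : T) : Pic0 K F) ∈ 𝓡.kerRed := by
  rw [← mk_eq_mk_iff, h]
  exact (QuotientAddGroup.out_eq' c).symm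

end Classes

section Coordinates

variable {𝓡 : GoodRed K F k Fk} {T : AddSubgroup (Pic0 K F)} {n : ℕ}
  (z : 𝓡.kerRed → Fin n → IsLocalRing.maximalIdeal 𝓡.V) (yt : T ⧸ tKer 𝓡 T → Pic0 K F)
  (hmem : ∀ (x : T) (c : T ⧸ tKer 𝓡 T), (QuotientAddGroup.mk x : T ⧸ tKer 𝓡 T) = c →
    (x : Pic0 K F) - yt c ∈ 𝓡.kerRed)

open Classical in
/-- The coordinates: class indicators and chart coordinates on each class. -/
def psi₀ (x : T) : (T ⧸ tKer 𝓡 T) ⊕ (T ⧸ tKer 𝓡 T) × Fin n → K
  | Sum.inl c => if (QuotientAddGroup.mk x : T ⧸ tKer 𝓡 T) = c then 1 else 0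
  | Sum.inr (c, i) =>
      if h : (QuotientAddGroup.mk x : T ⧸ tKer 𝓡 T) = c then
        (((z ⟨(x : Pic0 K F) - yt c, hmem x c h⟩ i : IsLocalRing.maximalIdeal 𝓡.V) : 𝓡.V) : K)
      else 0

open Classical in
theorem psi₀_inl (x : T) (c : T ⧸ tKer 𝓡 T) :
    psi₀ z yt hmem x (Sum.inl c) =
      if (QuotientAddGroup.mk x : T ⧸ tKer 𝓡 T) = c then 1 else 0 := by
  simp only [psi₀]

open Classical in
theorem psi₀_inr (x : T) (c : T ⧸ tKer 𝓡 T) (i : Fin n) :
    psi₀ z yt hmem x (Sum.inr (c, i)) =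
      if h : (QuotientAddGroup.mk x : T ⧸ tKer 𝓡 T) = c then
        (((z ⟨(x : Pic0 K F) - yt c, hmem x c h⟩ i : IsLocalRing.maximalIdeal 𝓡.V) : 𝓡.V) : K)
      else 0 := by
  simp only [psi₀]

open Classical in
theorem psi₀_inr_pos (x : T) (c : T ⧸ tKer 𝓡 T) (i : Fin n)
    (h : (QuotientAddGroup.mk x : T ⧸ tKer 𝓡 T) = c) :
    psi₀ z yt hmem x (Sum.inr (c, i)) =
      (((z ⟨(x : Pic0 K F) - yt c, hmem x c h⟩ i : IsLocalRing.maximalIdeal 𝓡.V) : 𝓡.V) : K) := by
  rw [psi₀_inr, dif_pos h]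

open Classical in
theorem psi₀_inr_neg (x : T) (c : T ⧸ tKer 𝓡 T) (i : Fin n)
    (h : ¬ (QuotientAddGroup.mk x : T ⧸ tKer 𝓡 T) = c) :
    psi₀ z yt hmem x (Sum.inr (c, i)) = 0 := by
  rw [psi₀_inr, dif_neg h]

open Classical in
theorem psi₀_mem (x : T) (j : (T ⧸ tKer 𝓡 T) ⊕ (T ⧸ tKer 𝓡 T) × Fin n) :
    psi₀ z yt hmem x j ∈ 𝓡.V := by
  rcases j with c | ⟨c, i⟩
  · rw [psi₀_inl]
    split_ifs
    · exact 𝓡.V.one_mem
    · exact 𝓡.V.zero_mem
  · rw [psi₀_inr]
    split_ifs
    · exact Subtype.coe_prop _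
    · exact 𝓡.V.zero_mem

open Classical in
theorem psi₀_injective (hz : Function.Injective z) : Function.Injective (psi₀ z yt hmem) := by
  intro x x' h
  have h1 := congrFun h (Sum.inl (QuotientAddGroup.mk x))
  rw [psi₀_inl, psi₀_inl, if_pos rfl] at h1
  have hc : (QuotientAddGroup.mk x' : T ⧸ tKer 𝓡 T) = QuotientAddGroup.mk x := by
    by_contra hne
    rw [if_neg hne] at h1
    exact one_ne_zero h1
  have h2 : z ⟨(x : Pic0 K F) - yt (QuotientAddGroup.mk x), hmem x _ rfl⟩ =
      z ⟨(x' : Pic0 K F) - yt (QuotientAddGroup.mk x), hmem x' _ hc⟩ := by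
    funext i
    have h3 := congrFun h (Sum.inr (QuotientAddGroup.mk x, i))
    rw [psi₀_inr_pos z yt hmem x _ i rfl, psi₀_inr_pos z yt hmem x' _ i hc] at h3
    exact Subtype.ext (Subtype.ext h3)
  have h4 := congrArg Subtype.val (hz h2)
  simp only [sub_left_inj] at h4
  exact Subtype.ext h4

open Classical in
theorem psi₀_smul (hker : ∀ g ∈ 𝓡.I, ∀ x : Pic0 K F, g • x - x ∈ 𝓡.kerRed)
    (hyI : ∀ c, ∀ g ∈ 𝓡.I, g • yt c = yt c)
    (hzeq : ∀ g ∈ 𝓡.I, ∀ (u : 𝓡.kerRed) (hgu : g • (u : Pic0 K F) ∈ 𝓡.kerRed) (i : Fin n),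
      (((z ⟨g • (u : Pic0 K F), hgu⟩ i : IsLocalRing.maximalIdeal 𝓡.V) : 𝓡.V) : K) =
        SemilinearAut.baseAut g (((z u i : IsLocalRing.maximalIdeal 𝓡.V) : 𝓡.V) : K))
    (g : SemilinearAut K F) (hg : g ∈ 𝓡.I) (x : T) (hgx : g • (x : Pic0 K F) ∈ T)
    (j : (T ⧸ tKer 𝓡 T) ⊕ (T ⧸ tKer 𝓡 T) × Fin n) :
    psi₀ z yt hmem ⟨g • (x : Pic0 K F), hgx⟩ j =
      SemilinearAut.baseAut g (psi₀ z yt hmem x j) := by
  have hmk : (QuotientAddGroup.mk (⟨g • (x : Pic0 K F), hgx⟩ : T) : T ⧸ tKer 𝓡 T) =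
      QuotientAddGroup.mk x := by
    rw [mk_eq_mk_iff]
    exact hker g hg _
  rcases j with c | ⟨c, i⟩
  · rw [psi₀_inl, psi₀_inl, hmk]
    split_ifs
    · rw [map_one]
    · rw [map_zero]
  · by_cases h : (QuotientAddGroup.mk x : T ⧸ tKer 𝓡 T) = c
    · have h' : (QuotientAddGroup.mk (⟨g • (x : Pic0 K F), hgx⟩ : T) : T ⧸ tKer 𝓡 T) = c := by
        rw [hmk, h]
      rw [psi₀_inr_pos z yt hmem _ c i h', psi₀_inr_pos z yt hmem x c i h]
      have heq : g • ((x : Pic0 K F) - yt c) = g • (x : Pic0 K F) - yt c := by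
        rw [smul_sub, hyI c g hg]
      have hgu : g • ((x : Pic0 K F) - yt c) ∈ 𝓡.kerRed := by
        rw [heq]
        exact hmem _ c h'
      rw [← hzeq g hg ⟨(x : Pic0 K F) - yt c, hmem x c h⟩ hgu i]
      congr 4
      exact heq.symm
    · have h' : ¬ (QuotientAddGroup.mk (⟨g • (x : Pic0 K F), hgx⟩ : T) : T ⧸ tKer 𝓡 T) = c := by
        rw [hmk]; exact h
      rw [psi₀_inr_neg z yt hmem _ c i h', psi₀_inr_neg z yt hmem x c i h, map_zero]

open Classical in
/-- Partition of unity by the boxes. -/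
theorem mem_of_forall_box [Finite T] (𝒜 : Subalgebra 𝓡.V (T × T → K)) (G : T × T → K)
    (h : ∀ c₁ c₂ : T ⧸ tKer 𝓡 T, (fun p : T × T =>
      ((if (QuotientAddGroup.mk p.1 : T ⧸ tKer 𝓡 T) = c₁ then (1 : K) else 0) *
        (if (QuotientAddGroup.mk p.2 : T ⧸ tKer 𝓡 T) = c₂ then (1 : K) else 0)) * G p) ∈ 𝒜) :
    G ∈ 𝒜 := by
  haveI : Fintype (T ⧸ tKer 𝓡 T) := Fintype.ofFinite _
  have hG : G = ∑ c₁ : T ⧸ tKer 𝓡 T, ∑ c₂ : T ⧸ tKer 𝓡 T, (fun p : T × T =>
      ((if (QuotientAddGroup.mk p.1 : T ⧸ tKer 𝓡 T) = c₁ then (1 : K) else 0) *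
        (if (QuotientAddGroup.mk p.2 : T ⧸ tKer 𝓡 T) = c₂ then (1 : K) else 0)) * G p) := by
    funext p
    simp only [Finset.sum_apply]
    simp only [← Finset.sum_mul, ← Finset.mul_sum]
    simp
  rw [hG]
  exact Subalgebra.sum_mem _ fun c₁ _ => Subalgebra.sum_mem _ fun c₂ _ => h c₁ c₂

open Classical in
theorem psi₀_add_mem [Finite T]
    (hzadd : ∀ (Λ : Subalgebra 𝓡.V (T × T → 𝓡.V)) (a b : T × T → 𝓡.kerRed),
      (∀ j, (fun τ => ((z (a τ) j : IsLocalRing.maximalIdeal 𝓡.V) : 𝓡.V)) ∈ Λ) →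
      (∀ j, (fun τ => ((z (b τ) j : IsLocalRing.maximalIdeal 𝓡.V) : 𝓡.V)) ∈ Λ) →
      ∀ i, (fun τ => ((z (a τ + b τ) i : IsLocalRing.maximalIdeal 𝓡.V) : 𝓡.V)) ∈ Λ)
    (j : (T ⧸ tKer 𝓡 T) ⊕ (T ⧸ tKer 𝓡 T) × Fin n) :
    (fun p : T × T => psi₀ z yt hmem (p.1 + p.2) j) ∈
      Algebra.adjoin 𝓡.V ({f | ∃ j, f = fun p : T × T => psi₀ z yt hmem p.1 j} ∪
        {f | ∃ j, f = fun p : T × T => psi₀ z yt hmem p.2 j}) := by
  set 𝒜 := Algebra.adjoin 𝓡.V ({f | ∃ j, f = fun p : T × T => psi₀ z yt hmem p.1 j} ∪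
        {f | ∃ j, f = fun p : T × T => psi₀ z yt hmem p.2 j}) with h𝒜
  have g1 : ∀ j, (fun p : T × T => psi₀ z yt hmem p.1 j) ∈ 𝒜 :=
    fun j => Algebra.subset_adjoin (Or.inl ⟨j, rfl⟩)
  have g2 : ∀ j, (fun p : T × T => psi₀ z yt hmem p.2 j) ∈ 𝒜 :=
    fun j => Algebra.subset_adjoin (Or.inr ⟨j, rfl⟩)
  -- the box idempotents
  have hbox : ∀ c₁ c₂ : T ⧸ tKer 𝓡 T, (fun p : T × T =>
      (if (QuotientAddGroup.mk p.1 : T ⧸ tKer 𝓡 T) = c₁ then (1 : K) else 0) *
        (if (QuotientAddGroup.mk p.2 : T ⧸ tKer 𝓡 T) = c₂ then (1 : K) else 0)) ∈ 𝒜 := by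
    intro c₁ c₂
    have := 𝒜.mul_mem (g1 (Sum.inl c₁)) (g2 (Sum.inl c₂))
    simp only [psi₀_inl] at this
    exact this
  have hidem : ∀ c₁ c₂ : T ⧸ tKer 𝓡 T, (fun p : T × T =>
      (if (QuotientAddGroup.mk p.1 : T ⧸ tKer 𝓡 T) = c₁ then (1 : K) else 0) *
        (if (QuotientAddGroup.mk p.2 : T ⧸ tKer 𝓡 T) = c₂ then (1 : K) else 0)) *
      (fun p : T × T =>
      (if (QuotientAddGroup.mk p.1 : T ⧸ tKer 𝓡 T) = c₁ then (1 : K) else 0) *
        (if (QuotientAddGroup.mk p.2 : T ⧸ tKer 𝓡 T) = c₂ then (1 : K) else 0)) =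
      (fun p : T × T =>
      (if (QuotientAddGroup.mk p.1 : T ⧸ tKer 𝓡 T) = c₁ then (1 : K) else 0) *
        (if (QuotientAddGroup.mk p.2 : T ⧸ tKer 𝓡 T) = c₂ then (1 : K) else 0)) := by
    intro c₁ c₂
    funext p
    simp only [Pi.mul_apply]
    split_ifs <;> simp
  -- the key lemma on a box
  have hkey : ∀ (c₁ c₂ : T ⧸ tKer 𝓡 T) (i : Fin n), (fun p : T × T =>
      ((if (QuotientAddGroup.mk p.1 : T ⧸ tKer 𝓡 T) = c₁ then (1 : K) else 0) *
        (if (QuotientAddGroup.mk p.2 : T ⧸ tKer 𝓡 T) = c₂ then (1 : K) else 0)) *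
        psi₀ z yt hmem (p.1 + p.2) (Sum.inr (c₁ + c₂, i))) ∈ 𝒜 := by
    intro c₁ c₂ i
    set Λ := boxAlg 𝒜 _ (hidem c₁ c₂) (hbox c₁ c₂) with hΛ
    -- the families
    let a : T × T → 𝓡.kerRed := fun p =>
      if h : (QuotientAddGroup.mk p.1 : T ⧸ tKer 𝓡 T) = c₁ then
        ⟨(p.1 : Pic0 K F) - yt c₁, hmem p.1 c₁ h⟩ else 0
    let b : T × T → 𝓡.kerRed := fun p =>
      if h : (QuotientAddGroup.mk p.2 : T ⧸ tKer 𝓡 T) = c₂ then
        ⟨(p.2 : Pic0 K F) - yt c₂, hmem p.2 c₂ h⟩ else 0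
    have hc₀ : yt c₁ + yt c₂ - yt (c₁ + c₂) ∈ 𝓡.kerRed := by
      have h1 := hmem (Quotient.out c₁) c₁ (QuotientAddGroup.out_eq' c₁)
      have h2 := hmem (Quotient.out c₂) c₂ (QuotientAddGroup.out_eq' c₂)
      have h3 := hmem (Quotient.out c₁ + Quotient.out c₂) (c₁ + c₂) (by
        rw [QuotientAddGroup.mk_add, QuotientAddGroup.out_eq', QuotientAddGroup.out_eq'])
      have h4 : yt c₁ + yt c₂ - yt (c₁ + c₂) =
          (((Quotient.out c₁ + Quotient.out c₂ : T) : Pic0 K F) - yt (c₁ + c₂)) -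
            (((Quotient.out c₁ : T) : Pic0 K F) - yt c₁) -
            (((Quotient.out c₂ : T) : Pic0 K F) - yt c₂) := by
        rw [AddSubgroup.coe_add]
        abel
      rw [h4]
      exact sub_mem (sub_mem h3 h1) h2
    let c₀ : T × T → 𝓡.kerRed := fun _ => ⟨yt c₁ + yt c₂ - yt (c₁ + c₂), hc₀⟩
    have ha : ∀ j, (fun τ => ((z (a τ) j : IsLocalRing.maximalIdeal 𝓡.V) : 𝓡.V)) ∈ Λ := by
      intro j
      rw [hΛ, mem_boxAlg]
      have := 𝒜.mul_mem (g2 (Sum.inl c₂)) (g1 (Sum.inr (c₁, j)))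
      convert this using 1
      funext p
      simp only [Pi.mul_apply, psi₀_inl]
      by_cases h : (QuotientAddGroup.mk p.1 : T ⧸ tKer 𝓡 T) = c₁
      · rw [psi₀_inr_pos z yt hmem p.1 c₁ j h, if_pos h, one_mul]
        simp only [a, dif_pos h]
        rfl
      · rw [psi₀_inr_neg z yt hmem p.1 c₁ j h, if_neg h]
        simp
    have hb : ∀ j, (fun τ => ((z (b τ) j : IsLocalRing.maximalIdeal 𝓡.V) : 𝓡.V)) ∈ Λ := by
      intro j
      rw [hΛ, mem_boxAlg]
      have := 𝒜.mul_mem (g1 (Sum.inl c₁)) (g2 (Sum.inr (c₂, j)))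
      convert this using 1
      funext p
      simp only [Pi.mul_apply, psi₀_inl]
      by_cases h : (QuotientAddGroup.mk p.2 : T ⧸ tKer 𝓡 T) = c₂
      · rw [psi₀_inr_pos z yt hmem p.2 c₂ j h, if_pos h, mul_one]
        simp only [b, dif_pos h]
        rfl
      · rw [psi₀_inr_neg z yt hmem p.2 c₂ j h, if_neg h]
        simp
    have hc : ∀ j, (fun τ => ((z (c₀ τ) j : IsLocalRing.maximalIdeal 𝓡.V) : 𝓡.V)) ∈ Λ := by
      intro j
      exact Λ.algebraMap_mem ((z ⟨yt c₁ + yt c₂ - yt (c₁ + c₂), hc₀⟩ j :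
        IsLocalRing.maximalIdeal 𝓡.V) : 𝓡.V)
    have hab := hzadd Λ a b ha hb
    have habc := hzadd Λ (fun τ => a τ + b τ) c₀ hab hc i
    rw [hΛ, mem_boxAlg] at habc
    convert habc using 1
    funext p
    by_cases h1 : (QuotientAddGroup.mk p.1 : T ⧸ tKer 𝓡 T) = c₁
    · by_cases h2 : (QuotientAddGroup.mk p.2 : T ⧸ tKer 𝓡 T) = c₂
      · have h12 : (QuotientAddGroup.mk (p.1 + p.2) : T ⧸ tKer 𝓡 T) = c₁ + c₂ := by
          rw [QuotientAddGroup.mk_add, h1, h2]
        rw [psi₀_inr_pos z yt hmem _ _ i h12]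
        congr 5
        simp only [a, b, c₀, dif_pos h1, dif_pos h2, AddSubgroup.coe_add]
        abel
      · simp [h2]
    · simp [h1]
  -- conclusion
  apply mem_of_forall_box
  intro c₁ c₂
  rcases j with c | ⟨c, i⟩
  · have hfun : (fun p : T × T =>
        ((if (QuotientAddGroup.mk p.1 : T ⧸ tKer 𝓡 T) = c₁ then (1 : K) else 0) *
          (if (QuotientAddGroup.mk p.2 : T ⧸ tKer 𝓡 T) = c₂ then (1 : K) else 0)) *
          psi₀ z yt hmem (p.1 + p.2) (Sum.inl c)) =
        if c₁ + c₂ = c then (fun p : T × T =>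
          (if (QuotientAddGroup.mk p.1 : T ⧸ tKer 𝓡 T) = c₁ then (1 : K) else 0) *
            (if (QuotientAddGroup.mk p.2 : T ⧸ tKer 𝓡 T) = c₂ then (1 : K) else 0)) else 0 := by
      funext p
      rw [psi₀_inl, QuotientAddGroup.mk_add]
      by_cases hcc : c₁ + c₂ = c
      · rw [if_pos hcc]
        by_cases h1 : (QuotientAddGroup.mk p.1 : T ⧸ tKer 𝓡 T) = c₁
        · by_cases h2 : (QuotientAddGroup.mk p.2 : T ⧸ tKer 𝓡 T) = c₂
          · simp [h1, h2, hcc]
          · simp [h2]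
        · simp [h1]
      · rw [if_neg hcc]
        by_cases h1 : (QuotientAddGroup.mk p.1 : T ⧸ tKer 𝓡 T) = c₁
        · by_cases h2 : (QuotientAddGroup.mk p.2 : T ⧸ tKer 𝓡 T) = c₂
          · simp [h1, h2, hcc]
          · simp [h2]
        · simp [h1]
    rw [hfun]
    split_ifs
    · exact hbox c₁ c₂
    · exact 𝒜.zero_mem
  · by_cases hcc : c₁ + c₂ = c
    · subst hcc
      exact hkey c₁ c₂ i
    · have hfun : (fun p : T × T =>
        ((if (QuotientAddGroup.mk p.1 : T ⧸ tKer 𝓡 T) = c₁ then (1 : K) else 0) *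
          (if (QuotientAddGroup.mk p.2 : T ⧸ tKer 𝓡 T) = c₂ then (1 : K) else 0)) *
          psi₀ z yt hmem (p.1 + p.2) (Sum.inr (c, i))) = 0 := by
        funext p
        by_cases h1 : (QuotientAddGroup.mk p.1 : T ⧸ tKer 𝓡 T) = c₁
        · by_cases h2 : (QuotientAddGroup.mk p.2 : T ⧸ tKer 𝓡 T) = c₂
          · have h12 : ¬ (QuotientAddGroup.mk (p.1 + p.2) : T ⧸ tKer 𝓡 T) = c := by
              rw [QuotientAddGroup.mk_add, h1, h2]; exact hcc
            rw [psi₀_inr_neg z yt hmem _ _ i h12]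
            simp
          · simp [h2]
        · simp [h1]
      rw [hfun]
      exact 𝒜.zero_mem

end Coordinates

section Main

variable [IsAlgClosed K] [IsAlgClosed k] [CharZero K]

/-- **Assembly.**  CHART + KER-I + LIFTI ⟹ `LocalStatement`. -/
theorem local_of_chart (hchart : ChartStatement.{u₁, u₂, u₃, u₄, u₂} K F k Fk)
    (hker : KerInertiaStatement K F k Fk) (hlift : LiftiStatement K F k Fk) :
    LocalStatement K F k Fk := by
  classical
  intro 𝓡 _ T _ hT
  obtain ⟨n, z, hzinj, hzeq, hzadd⟩ := hchart 𝓡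
  have hl : ∀ c : T ⧸ tKer 𝓡 T, ∃ y : Pic0 K F, (∀ g ∈ 𝓡.I, g • y = y) ∧
      ((Quotient.out c : T) : Pic0 K F) - y ∈ 𝓡.kerRed := fun c => hlift 𝓡 _
  choose yt hyI hyJ using hl
  have hmem : ∀ (x : T) (c : T ⧸ tKer 𝓡 T), (QuotientAddGroup.mk x : T ⧸ tKer 𝓡 T) = c →
      (x : Pic0 K F) - yt c ∈ 𝓡.kerRed := by
    intro x c h
    have h1 := sub_out_mem x c h
    have h2 : (x : Pic0 K F) - yt c = ((x : Pic0 K F) - ((Quotient.out c : T) : Pic0 K F)) +
        (((Quotient.out c : T) : Pic0 K F) - yt c) := by abel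
    rw [h2]
    exact add_mem h1 (hyJ c)
  -- the index type
  haveI : Finite (T ⧸ tKer 𝓡 T) := inferInstance
  haveI : Finite ((T ⧸ tKer 𝓡 T) ⊕ (T ⧸ tKer 𝓡 T) × Fin n) := inferInstance
  obtain ⟨m, ⟨e⟩⟩ := Finite.exists_equiv_fin ((T ⧸ tKer 𝓡 T) ⊕ (T ⧸ tKer 𝓡 T) × Fin n)
  refine ⟨Fin m, inferInstance, fun x i => psi₀ z yt hmem x (e.symm i), ?_, ?_, ?_, ?_⟩
  · intro x x' h
    apply psi₀_injective z yt hmem hzinj
    funext j
    have := congrFun h (e j)
    simpa using this
  · intro x i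
    exact psi₀_mem z yt hmem x _
  · intro g hg x i
    exact psi₀_smul z yt hmem (hker 𝓡) hyI hzeq g hg x _ _
  · intro i
    have := psi₀_add_mem z yt hmem (fun Λ a b => hzadd (T × T) Λ a b) (e.symm i)
    refine Algebra.adjoin_mono ?_ this
    rintro f (⟨j, rfl⟩ | ⟨j, rfl⟩)
    · left
      exact ⟨e j, by simp⟩
    · right
      exact ⟨e j, by simp⟩

end Main

end Fermat.Agent.A3.H799

end
end
-- ===== PACK-END A3/H799/Asm.lean

-- ===== PACK-BEGIN A3/H799/Red195.lean
section



/-!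
# A3 / LOCAL — integral Riemann–Roch for `GoodRed`  (helper799)

Adapter `GoodRed → H195.RedDatum` and the three facts used by ZTRI/ZNEG/COORD:

* `GoodRed.ell_le`      : `ℓ(D) ≤ ℓ(r_* D)` (upper semicontinuity);
* `GoodRed.exists_lift` : for `deg D > 2g - 2` every element of `L(r_* D)` is the reduction of an
                          integral element of `L(D)`;
* `GoodRed.red_mem_L`   : the reduction of an integral element of `L(D)` lies in `L(r_* D)`.
-/

set_option autoImplicit false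

noncomputable section

open AlgebraicCurve Fermat.Agent.Lib.RR

namespace Fermat.Agent.A3.H799

variable {K F k Fk : Type*} [Field K] [Field F] [Algebra K F] [Field k] [Field Fk] [Algebra k Fk]

namespace GoodRed

variable (𝓡 : GoodRed K F k Fk)

theorem mem_V_of_algebraMap_mem {a : K} (h : algebraMap K F a ∈ 𝓡.O) : a ∈ 𝓡.V :=
  (𝓡.algebraMap_mem a).mp h

/-- The adapter to helper195's `RedDatum`. -/
def toRed195 : Fermat.Agent.S19.H195.RedDatum K F k Fk where
  V := 𝓡.O.toSubring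
  red := 𝓡.red
  r := 𝓡.r
  const_total a := by
    rcases 𝓡.O.mem_or_inv_mem (algebraMap K F a) with h | h
    · exact Or.inl h
    · right
      rw [map_inv₀]
      exact h
  red_const a h := ⟨𝓡.res ⟨a, (𝓡.algebraMap_mem a).mp h⟩,
    𝓡.red_algebraMap ⟨a, (𝓡.algebraMap_mem a).mp h⟩ h⟩
  red_const_surj b := by
    obtain ⟨a, ha⟩ := 𝓡.res_surjective b
    refine ⟨(a : K), (𝓡.algebraMap_mem _).mpr a.2, ?_⟩
    rw [← ha]
    exact 𝓡.red_algebraMap a _
  red_const_unit a h hne := by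
    have haV : a ∈ 𝓡.V := (𝓡.algebraMap_mem a).mp h
    have h1 : 𝓡.res ⟨a, haV⟩ ≠ 0 := by
      intro h0
      apply hne
      have := 𝓡.red_algebraMap ⟨a, haV⟩ h
      rw [h0, map_zero] at this
      exact this
    have h2 : a ∉ 𝓡.V.nonunits := fun hn => h1 ((𝓡.res_eq_zero ⟨a, haV⟩).mpr hn)
    have h3 : a⁻¹ ∈ 𝓡.V := by
      by_contra hinv
      apply h2
      rw [ValuationSubring.mem_nonunits_iff_exists_mem_maximalIdeal]
      refine ⟨haV, ?_⟩
      rw [IsLocalRing.mem_maximalIdeal, mem_nonunits_iff]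
      rintro ⟨u, hu⟩
      apply hinv
      have h4 : ((u⁻¹ : 𝓡.Vˣ) : K) = a⁻¹ := by
        have h5 : ((u : 𝓡.V) : K) = a := congrArg Subtype.val hu
        have h6 : ((u : 𝓡.V) : K) * ((u⁻¹ : 𝓡.Vˣ) : K) = 1 := by
          exact_mod_cast congrArg Subtype.val (u.mul_inv)
        rw [h5] at h6
        exact eq_inv_of_mul_eq_one_right h6
      rw [← h4]
      exact Subtype.mem _
    exact (𝓡.algebraMap_mem _).mpr h3
  ord_red u hu hne D hD Q := 𝓡.div_red ⟨u, hu⟩ hne D hD Q

/-- Every Riemann–Roch space has an orthonormal basis. -/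
theorem orthOn (D : Divisor K F) : 𝓡.toRed195.OrthOn (riemannRochSpace D) := by
  obtain ⟨n, b, hli, hmem, hspan, -⟩ := 𝓡.orthonormal D
  exact ⟨n, fun i => ((b i : 𝓡.O) : F), fun i => (b i).2, hmem, hspan.ge, hli⟩

/-- Upper semicontinuity `ℓ(D) ≤ ℓ(r_* D)`. -/
theorem ell_le (D : Divisor K F) :
    @ell K F _ _ _ D ≤ @ell k Fk _ _ _ (Finsupp.mapDomain 𝓡.r D) := by
  have := 𝓡.ff1
  have := 𝓡.ff1k
  exact 𝓡.toRed195.ell_le_ell_mapDomain D (𝓡.orthOn D)

/-- Reduction of divisors preserves the degree. -/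
theorem degree_mapDomain (D : Divisor K F) :
    Divisor.degree (Finsupp.mapDomain 𝓡.r D) = Divisor.degree D := by
  have := 𝓡.ff1
  have := 𝓡.ff1k
  exact 𝓡.toRed195.degree_mapDomain D

/-- The reduction of an integral element of `L(D)` lies in `L(r_* D)`. -/
theorem red_mem_L (D : Divisor K F) {f : F} (hf : f ∈ 𝓡.O) (hfD : f ∈ riemannRochSpace D) :
    𝓡.red ⟨f, hf⟩ ∈ riemannRochSpace (Finsupp.mapDomain 𝓡.r D) := by
  have := 𝓡.ff1
  exact 𝓡.toRed195.redL_le D (𝓡.toRed195.red_mem_redL hf hfD)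

/-- **Integral Riemann–Roch (LIFT).** -/
theorem exists_lift (D : Divisor K F) (hD : 2 * (genusFF k Fk : ℤ) - 2 < Divisor.degree D)
    {ψ : Fk} (hψ : ψ ∈ riemannRochSpace (Finsupp.mapDomain 𝓡.r D)) :
    ∃ (f : F) (hf : f ∈ 𝓡.O), f ∈ riemannRochSpace D ∧ 𝓡.red ⟨f, hf⟩ = ψ := by
  have := 𝓡.ff1
  have := 𝓡.ff1k
  have h := 𝓡.toRed195.redL_eq (le_of_eq 𝓡.genus_eq) D hD (𝓡.orthOn D)
  have hψ' : ψ ∈ 𝓡.toRed195.redL D := by
    rw [h]; exact hψ
  exact hψ'

end GoodRed

end Fermat.Agent.A3.H799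

end
end
-- ===== PACK-END A3/H799/Red195.lean

-- ===== PACK-BEGIN A3/H799/DiscLemmas.lean
section


/-!
# A3 / LOCAL — consequences of `DiscData`  (helper799)

Dictionary between the disc algebra of a `DiscData` and orders of functions at the points of the
residue disc: `t - a` has a simple zero at `pt a` and no other zero in the disc; `pt` is
injective; `ev a f = 0 ↔ ord_{pt a} f ≥ 1`; division by `t - a`; values of `polyDiv`.
-/

set_option autoImplicit false

noncomputable section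

open AlgebraicCurve Fermat.Agent.Lib.RR

namespace Fermat.Agent.A3.H799

variable {K F k Fk : Type*} [Field K] [Field F] [Algebra K F] [Field k] [Field Fk] [Algebra k Fk]

section Finsupp

/-- A point of the fibre contributes at most the total, if all contributions are `≥ 0`. -/
theorem le_mapDomain_apply {α β : Type*} (r : α → β) (D : α →₀ ℤ) (b : β)
    (hnn : ∀ a, r a = b → 0 ≤ D a) (a₀ : α) (h₀ : r a₀ = b) :
    D a₀ ≤ Finsupp.mapDomain r D b := by
  classical
  rw [Finsupp.mapDomain, Finsupp.sum_apply]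
  simp only [Finsupp.sum, Finsupp.single_apply]
  by_cases hmem : a₀ ∈ D.support
  · have h1 : (if r a₀ = b then D a₀ else 0) ≤
        ∑ a ∈ D.support, if r a = b then D a else 0 := by
      refine Finset.single_le_sum (f := fun a => if r a = b then D a else 0) ?_ hmem
      intro a _
      show 0 ≤ if r a = b then D a else 0
      split_ifs with h
      · exact hnn a h
      · exact le_rfl
    rwa [if_pos h₀] at h1
  · have h0 : D a₀ = 0 := Finsupp.notMem_support_iff.mp hmem
    rw [h0]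
    refine Finset.sum_nonneg fun a _ => ?_
    split_ifs with h
    · exact hnn a h
    · exact le_rfl

/-- Two distinct points of the fibre contribute at most the total. -/
theorem add_le_mapDomain_apply {α β : Type*} (r : α → β) (D : α →₀ ℤ) (b : β)
    (hnn : ∀ a, r a = b → 0 ≤ D a) (a₀ a₁ : α) (h₀ : r a₀ = b) (h₁ : r a₁ = b)
    (hne : a₀ ≠ a₁) : D a₀ + D a₁ ≤ Finsupp.mapDomain r D b := by
  classical
  -- remove the point `a₀`
  set D' : α →₀ ℤ := D - Finsupp.single a₀ (D a₀) with hD'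
  have hD : D = D' + Finsupp.single a₀ (D a₀) := by rw [hD']; abel
  have hnn' : ∀ a, r a = b → 0 ≤ D' a := by
    intro a ha
    rw [hD', Finsupp.sub_apply, Finsupp.single_apply]
    split_ifs with h
    · subst h; simp
    · simpa using hnn a ha
  have h1 := le_mapDomain_apply r D' b hnn' a₁ h₁
  have h2 : D' a₁ = D a₁ := by
    rw [hD', Finsupp.sub_apply, Finsupp.single_apply, if_neg hne, sub_zero]
  have h3 : Finsupp.mapDomain r D b = Finsupp.mapDomain r D' b + D a₀ := by
    conv_lhs => rw [hD]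
    rw [Finsupp.mapDomain_add, Finsupp.add_apply, Finsupp.mapDomain_single,
      Finsupp.single_apply, if_pos h₀]
  rw [h3, ← h2]
  linarith

end Finsupp

namespace DiscData

variable {𝓡 : GoodRed K F k Fk} {Q : Place k Fk} (d : DiscData 𝓡 Q)

/-- The parameter as an element of `F`. -/
def tF : F := ((d.D.t : d.ring) : F)

/-- Reduction on the disc ring. -/
def redHom : d.ring →+* Fk :=
  𝓡.red.comp
    { toFun := fun f => (⟨(f : F), d.ring_le _ f.2⟩ : 𝓡.O)
      map_one' := rfl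
      map_mul' := fun _ _ => rfl
      map_zero' := rfl
      map_add' := fun _ _ => rfl }

theorem redHom_apply (f : d.ring) : d.redHom f = 𝓡.red ⟨(f : F), d.ring_le _ f.2⟩ := rfl

theorem coe_algebraMap (a : 𝓡.V) : ((algebraMap 𝓡.V d.ring a : d.ring) : F) =
    algebraMap K F (a : K) := rfl

theorem redHom_algebraMap (a : 𝓡.V) :
    d.redHom (algebraMap 𝓡.V d.ring a) = algebraMap k Fk (𝓡.res a) := by
  rw [redHom_apply]
  exact 𝓡.red_algebraMap a _

theorem redHom_algebraMap_of_mem (a : IsLocalRing.maximalIdeal 𝓡.V) :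
    d.redHom (algebraMap 𝓡.V d.ring (a : 𝓡.V)) = 0 := by
  rw [redHom_algebraMap]
  have h : 𝓡.res (a : 𝓡.V) = 0 := by
    rw [𝓡.res_eq_zero, ValuationSubring.mem_nonunits_iff_exists_mem_maximalIdeal]
    exact ⟨(a : 𝓡.V).2, a.2⟩
  rw [h, map_zero]

theorem ord_redHom_t : Q.ord (d.redHom d.D.t) = 1 := d.ord_t

theorem redHom_t_ne_zero : d.redHom d.D.t ≠ 0 := by
  intro h
  have := d.ord_redHom_t
  rw [h, Place.ord_zero] at this
  exact zero_ne_one this

/-- `t - a` as an element of the disc ring. -/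
def tSub (a : IsLocalRing.maximalIdeal 𝓡.V) : d.ring :=
  d.D.t - algebraMap 𝓡.V d.ring (a : 𝓡.V)

theorem coe_tSub (a : IsLocalRing.maximalIdeal 𝓡.V) :
    ((d.tSub a : d.ring) : F) = d.tF - algebraMap K F (((a : 𝓡.V) : K)) := rfl

theorem redHom_tSub (a : IsLocalRing.maximalIdeal 𝓡.V) : d.redHom (d.tSub a) = d.redHom d.D.t := by
  rw [tSub, map_sub, redHom_algebraMap_of_mem, sub_zero]

theorem tSub_ne_zero (a : IsLocalRing.maximalIdeal 𝓡.V) : ((d.tSub a : d.ring) : F) ≠ 0 := by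
  intro h
  have h1 : d.tSub a = 0 := Subtype.ext h
  have := d.redHom_tSub a
  rw [h1, map_zero] at this
  exact d.redHom_t_ne_zero this.symm

theorem ev_tSub (a : IsLocalRing.maximalIdeal 𝓡.V) : d.D.ev a (d.tSub a) = 0 := by
  rw [tSub, map_sub, d.D.ev_t, AlgHom.commutes]
  simp

theorem ord_nonneg (f : d.ring) (P : Place K F) (hP : 𝓡.r P = Q) : 0 ≤ P.ord (f : F) :=
  ord_nonneg_of_mem P (d.ring_reg _ f.2 P hP)

/-- `t - a` has a simple zero at `pt a`. -/
theorem ord_pt_tSub (a : IsLocalRing.maximalIdeal 𝓡.V) :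
    (d.pt a).ord ((d.tSub a : d.ring) : F) = 1 := by
  haveI := 𝓡.ff1
  have hne := d.tSub_ne_zero a
  -- lower bound from `ev_spec`
  have h1 : 1 ≤ (d.pt a).ord ((d.tSub a : d.ring) : F) := by
    have := d.ev_spec a (d.tSub a)
    rw [d.ev_tSub a] at this
    simp only [ZeroMemClass.coe_zero, map_zero, sub_zero] at this
    rcases this with h | h
    · exact absurd h hne
    · exact h
  -- upper bound from conservation
  have h2 := 𝓡.div_red ⟨((d.tSub a : d.ring) : F), d.ring_le _ (d.tSub a).2⟩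
    (by
      have := d.redHom_tSub a
      rw [redHom_apply] at this
      rw [this]
      exact d.redHom_t_ne_zero)
    (divOf _ hne) (fun P => divOf_apply _ hne P) Q
  have h3 : 𝓡.red ⟨((d.tSub a : d.ring) : F), d.ring_le _ (d.tSub a).2⟩ = d.redHom d.D.t :=
    d.redHom_tSub a
  rw [h3, d.ord_redHom_t] at h2
  have h4 := le_mapDomain_apply 𝓡.r (divOf ((d.tSub a : d.ring) : F) hne) Q
    (fun P hP => by rw [divOf_apply]; exact d.ord_nonneg _ P hP) (d.pt a) (d.r_pt a)
  rw [h2, divOf_apply] at h4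
  exact le_antisymm h4 h1

/-- `t - a` does not vanish at `pt b` for `b ≠ a`. -/
theorem ord_pt_tSub_of_ne {a b : IsLocalRing.maximalIdeal 𝓡.V} (hab : b ≠ a) :
    (d.pt b).ord ((d.tSub a : d.ring) : F) = 0 := by
  have h1 : ((d.tSub a : d.ring) : F) =
      algebraMap K F ((((b : 𝓡.V) : K)) - (((a : 𝓡.V) : K))) + ((d.tSub b : d.ring) : F) := by
    rw [coe_tSub, coe_tSub, map_sub]; ring
  have hc : algebraMap K F ((((b : 𝓡.V) : K)) - (((a : 𝓡.V) : K))) ≠ 0 := by
    rw [Ne, map_eq_zero_iff _ (algebraMap K F).injective, sub_eq_zero]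
    intro h
    exact hab (Subtype.ext (Subtype.ext h))
  rw [h1, ord_add_eq_of_lt _ hc (d.tSub_ne_zero b), ord_algebraMap]
  rw [ord_algebraMap, d.ord_pt_tSub b]
  exact zero_lt_one

theorem pt_injective : Function.Injective d.pt := by
  intro a b hab
  by_contra hne
  have h1 := d.ord_pt_tSub a
  rw [hab, d.ord_pt_tSub_of_ne (a := a) (b := b) (Ne.symm hne)] at h1
  exact zero_ne_one h1

open Classical in
/-- The order of `t - a` at the points of the disc. -/
theorem ord_pt_tSub_eq (a b : IsLocalRing.maximalIdeal 𝓡.V) :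
    (d.pt b).ord ((d.tSub a : d.ring) : F) = if b = a then 1 else 0 := by
  split_ifs with h
  · subst h; exact d.ord_pt_tSub b
  · exact d.ord_pt_tSub_of_ne h

/-- `ev a f = 0` iff `f` vanishes at `pt a`. -/
theorem ev_eq_zero_iff (a : IsLocalRing.maximalIdeal 𝓡.V) (f : d.ring) (hf : f ≠ 0) :
    d.D.ev a f = 0 ↔ 1 ≤ (d.pt a).ord (f : F) := by
  have hfF : (f : F) ≠ 0 := fun h => hf (Subtype.ext h)
  constructor
  · intro h
    have := d.ev_spec a f
    rw [h] at this
    simp only [ZeroMemClass.coe_zero, map_zero, sub_zero] at this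
    exact this.resolve_left hfF
  · intro h
    by_contra hc
    have hcK : algebraMap K F (((d.D.ev a f : 𝓡.V) : K)) ≠ 0 := by
      rw [Ne, map_eq_zero_iff _ (algebraMap K F).injective]
      intro h0
      exact hc (Subtype.ext h0)
    rcases d.ev_spec a f with h1 | h1
    · rw [h1, ord_algebraMap] at h
      exact absurd h (by norm_num)
    · -- the constant is `f - (f - c)`
      have h2 : algebraMap K F (((d.D.ev a f : 𝓡.V) : K)) =
          (f : F) + -((f : F) - algebraMap K F (((d.D.ev a f : 𝓡.V) : K))) := by ring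
      have h3 := ord_add_of_le (d.pt a) (n := 1) (Or.inr h)
        (Or.inr (by rw [ord_neg]; exact h1) :
          -((f : F) - algebraMap K F (((d.D.ev a f : 𝓡.V) : K))) = 0 ∨
          1 ≤ (d.pt a).ord (-((f : F) - algebraMap K F (((d.D.ev a f : 𝓡.V) : K)))))
      rw [← h2] at h3
      rcases h3 with h3 | h3
      · exact hcK h3
      · rw [ord_algebraMap] at h3
        exact absurd h3 (by norm_num)

/-- Division by `t - a` in the disc ring. -/
theorem exists_eq_mul_of_ev_eq_zero (a : IsLocalRing.maximalIdeal 𝓡.V) (f : d.ring)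
    (h : d.D.ev a f = 0) : ∃ f' : d.ring, f = d.tSub a * f' := by
  obtain ⟨f', hf'⟩ := d.D.taylor a f
  refine ⟨f', ?_⟩
  rw [hf', h, map_zero, zero_add]
  rfl

end DiscData

section PolyDiv

variable {𝓡 : GoodRed K F k Fk} {ι : Type*} [Fintype ι] {Qs : ι → Place k Fk}
  (d : ∀ i, DiscData 𝓡 (Qs i))

open Classical in
/-- Value of `polyDiv` at a point of the `i`-th disc. -/
theorem polyDiv_apply_pt (hQ : Function.Injective Qs)
    (z : ι → IsLocalRing.maximalIdeal 𝓡.V) (i : ι) (a : IsLocalRing.maximalIdeal 𝓡.V) :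
    polyDiv d z ((d i).pt a) = if z i = a then 1 else 0 := by
  classical
  rw [polyDiv, Finsupp.finset_sum_apply]
  simp only [Finsupp.single_apply]
  have h : ∀ l : ι, ((d l).pt (z l) = (d i).pt a) ↔ (l = i ∧ z i = a) := by
    intro l
    constructor
    · intro hl
      have h1 : Qs l = Qs i := by
        rw [← (d l).r_pt (z l), ← (d i).r_pt a, hl]
      have h2 : l = i := hQ h1
      subst h2
      exact ⟨rfl, (d l).pt_injective hl⟩
    · rintro ⟨rfl, h2⟩
      rw [h2]
  simp only [h]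
  split_ifs with hz
  · rw [Finset.sum_eq_single i]
    · simp [hz]
    · intro l _ hl; simp [hl]
    · intro hi; exact absurd (Finset.mem_univ i) hi
  · apply Finset.sum_eq_zero
    intro l _
    simp [hz]

/-- `polyDiv` vanishes outside the discs. -/
theorem polyDiv_apply_of_not_mem (z : ι → IsLocalRing.maximalIdeal 𝓡.V) (P : Place K F)
    (hP : ∀ i, 𝓡.r P ≠ Qs i) : polyDiv d z P = 0 := by
  classical
  rw [polyDiv, Finsupp.finset_sum_apply]
  apply Finset.sum_eq_zero
  intro l _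
  rw [Finsupp.single_apply, if_neg]
  intro h
  exact hP l (by rw [← h, (d l).r_pt])

theorem polyDiv_nonneg (z : ι → IsLocalRing.maximalIdeal 𝓡.V) : 0 ≤ polyDiv d z := by
  classical
  rw [Finsupp.le_def]
  intro P
  rw [polyDiv, Finsupp.finset_sum_apply]
  refine Finset.sum_nonneg fun l _ => ?_
  rw [Finsupp.single_apply]
  split_ifs <;> simp

theorem mapDomain_polyDiv (z : ι → IsLocalRing.maximalIdeal 𝓡.V) :
    Finsupp.mapDomain 𝓡.r (polyDiv d z) = ∑ i, Finsupp.single (Qs i) (1 : ℤ) := by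
  rw [polyDiv, Finsupp.mapDomain_finset_sum]
  refine Finset.sum_congr rfl fun i _ => ?_
  rw [Finsupp.mapDomain_single, (d i).r_pt]

end PolyDiv

end Fermat.Agent.A3.H799

end
end
-- ===== PACK-END A3/H799/DiscLemmas.lean

-- ===== PACK-BEGIN A3/H255/Coord.lean
section




/-!
# A3 / LOCAL, leaf COORD (helper255): the kernel of reduction is the polydisc `(𝔪_V)^g`

`coordStatement : CoordStatement K F k Fk` (frozen leaf of `A3/H799/LocalSpec.lean`).

Proof.  Let `E = polyDiv d 0`, `Ē = Σ Q_i = r_* E`, `ℓ_k(Ē) = 1`.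
* existence: `x = [D₀]`, `r_* D₀ = div φ`.  Riemann on `F` gives `f ≠ 0` in `L(D₀ + E)`
  (`deg = g`, equal genus); normalise `f` by `gauss`; then `D' = D₀ + E + div f ≥ 0` and
  `r_* D' = Ē + div (φ · red f)` is effective, so `φ · red f ∈ L_k(Ē) = k`, `r_* D' = Ē`.  Hence
  over every `Q_i` there is a point `P_i` of `D'`; `D' - Σ P_i ≥ 0` has degree `0`, so
  `D' = Σ P_i`, and `P_i = pt_i (z_i)` by `pt_surj`.
* uniqueness: semicontinuity `ℓ(D) ≤ ℓ_k(r_* D)` (from `orthonormal` + `div_red`) gives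
  `ℓ(polyDiv d z) = 1`, so linearly equivalent polydisc divisors are equal; `pt_i` is injective
  by `ev_spec` for the parameter `t`.
* the converse is `r_* (polyDiv d z - polyDiv d 0) = 0`.

All proofs complete.
-/

set_option autoImplicit false
set_option linter.style.haveILetI false

noncomputable section

open AlgebraicCurve

namespace Fermat.Agent.A3.H255

open Fermat.Agent.Lib.RR Fermat.Agent.A3.H799

/-! ### Generalities on `Finsupp.mapDomain` -/

section MapDomain

variable {α β : Type*}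

open scoped Classical in
theorem mapDomain_apply_eq_sum (r : α → β) (D : α →₀ ℤ) (b : β) :
    Finsupp.mapDomain r D b = ∑ a ∈ D.support, if r a = b then D a else 0 := by
  rw [Finsupp.mapDomain, Finsupp.sum_apply, Finsupp.sum]
  refine Finset.sum_congr rfl fun a _ => ?_
  rw [Finsupp.single_apply]

theorem mapDomain_nonneg (r : α → β) {D : α →₀ ℤ} (hD : 0 ≤ D) :
    0 ≤ Finsupp.mapDomain r D := by
  classical
  rw [Finsupp.le_def]
  intro b
  rw [mapDomain_apply_eq_sum]
  refine Finset.sum_nonneg fun a _ => ?_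
  have := Finsupp.le_def.mp hD a
  split_ifs
  · simpa using this
  · exact le_rfl

theorem exists_of_mapDomain_ne_zero (r : α → β) {D : α →₀ ℤ} {b : β}
    (h : Finsupp.mapDomain r D b ≠ 0) : ∃ a, r a = b ∧ D a ≠ 0 := by
  classical
  by_contra hcon
  push Not at hcon
  apply h
  rw [mapDomain_apply_eq_sum]
  refine Finset.sum_eq_zero fun a _ => ?_
  split_ifs with hab
  · exact hcon a hab
  · rfl

theorem mapDomain_sub' (r : α → β) (D D' : α →₀ ℤ) :
    Finsupp.mapDomain r (D - D') = Finsupp.mapDomain r D - Finsupp.mapDomain r D' := by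
  rw [← Finsupp.mapDomain.addMonoidHom_apply, map_sub, Finsupp.mapDomain.addMonoidHom_apply,
    Finsupp.mapDomain.addMonoidHom_apply]

theorem mapDomain_sum_single {ι : Type*} [Fintype ι] (r : α → β) (P : ι → α) :
    Finsupp.mapDomain r (∑ i, Finsupp.single (P i) (1 : ℤ)) =
      ∑ i, Finsupp.single (r (P i)) (1 : ℤ) := by
  rw [Finsupp.mapDomain_finsetSum]
  refine Finset.sum_congr rfl fun i _ => ?_
  rw [Finsupp.mapDomain_single]

theorem sum_single_apply_of_injective {ι : Type*} [Fintype ι] {P : ι → α}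
    (hP : Function.Injective P) (i : ι) :
    (∑ j, Finsupp.single (P j) (1 : ℤ)) (P i) = 1 := by
  classical
  rw [Finsupp.finsetSum_apply]
  simp only [Finsupp.single_apply]
  rw [Finset.sum_eq_single i]
  · simp
  · intro j _ hji
    rw [if_neg]
    exact fun h => hji (hP h)
  · intro h
    exact absurd (Finset.mem_univ i) h

theorem sum_single_apply_of_forall_ne {ι : Type*} [Fintype ι] {P : ι → α} {a : α}
    (h : ∀ i, P i ≠ a) : (∑ j, Finsupp.single (P j) (1 : ℤ)) a = 0 := by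
  classical
  rw [Finsupp.finsetSum_apply]
  refine Finset.sum_eq_zero fun j _ => ?_
  rw [Finsupp.single_apply, if_neg (h j)]

theorem sum_single_nonneg {ι : Type*} [Fintype ι] (P : ι → α) :
    (0 : α →₀ ℤ) ≤ ∑ j, Finsupp.single (P j) (1 : ℤ) := by
  classical
  rw [Finsupp.le_def]
  intro a
  rw [Finsupp.finsetSum_apply]
  refine Finset.sum_nonneg fun j _ => ?_
  rw [Finsupp.single_apply]
  split_ifs <;> simp

theorem one_le_sum_single_apply {ι : Type*} [Fintype ι] (P : ι → α) (i : ι) :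
    1 ≤ (∑ j, Finsupp.single (P j) (1 : ℤ)) (P i) := by
  classical
  rw [Finsupp.finsetSum_apply]
  have h1 : (Finsupp.single (P i) (1 : ℤ)) (P i) ≤
      ∑ j, (Finsupp.single (P j) (1 : ℤ)) (P i) := by
    refine Finset.single_le_sum (f := fun j => (Finsupp.single (P j) (1 : ℤ)) (P i))
      (fun j _ => ?_) (Finset.mem_univ i)
    show 0 ≤ (Finsupp.single (P j) (1 : ℤ)) (P i)
    rw [Finsupp.single_apply]
    split_ifs <;> simp
  simpa using h1

end MapDomain

variable {K F k Fk : Type*} [Field K] [Field F] [Algebra K F] [Field k] [Field Fk] [Algebra k Fk]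

/-! ### Divisors of degree zero -/

/-- An effective divisor of degree `0` is `0`. -/
theorem eq_zero_of_nonneg_of_degree_eq_zero [FF1 K F] {D : Divisor K F} (hD : 0 ≤ D)
    (hdeg : Divisor.degree D = 0) : D = 0 := by
  rw [degree_eq_sum] at hdeg
  have h0 : ∀ v ∈ D.support, D v * (v.deg : ℤ) = 0 := by
    refine (Finset.sum_eq_zero_iff_of_nonneg fun v _ => ?_).mp hdeg
    have := Finsupp.le_def.mp hD v
    rw [deg_eq_one v]
    simpa using this
  ext v
  by_cases hv : v ∈ D.support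
  · have := h0 v hv
    rw [deg_eq_one v] at this
    simpa using this
  · simpa using Finsupp.notMem_support_iff.mp hv

theorem degree_sum_single [FF1 K F] {ι : Type*} [Fintype ι] (P : ι → Place K F) :
    Divisor.degree (∑ i, Finsupp.single (P i) (1 : ℤ)) = Fintype.card ι := by
  rw [map_sum]
  simp only [Divisor.degree_single, deg_eq_one, Nat.cast_one, mul_one]
  simp

/-! ### Reduction of principal divisors and semicontinuity -/

/-- Push-forward of the divisor of a function of norm one. -/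
theorem mapDomain_divOf (𝓡 : GoodRed K F k Fk) (f : 𝓡.O) (hred : 𝓡.red f ≠ 0)
    (D : Divisor K F) (hD : ∀ P : Place K F, D P = P.ord (f : F)) (Q : Place k Fk) :
    Finsupp.mapDomain 𝓡.r D Q = Q.ord (𝓡.red f) :=
  𝓡.div_red f hred D hD Q

/-- If `f ∈ L(D)` has norm one, then `red f ∈ L_k(r_* D)`. -/
theorem red_mem_L (𝓡 : GoodRed K F k Fk) (D : Divisor K F) (f : 𝓡.O) (hred : 𝓡.red f ≠ 0)
    (hf : (f : F) ∈ riemannRochSpace D) :
    𝓡.red f ∈ riemannRochSpace (Finsupp.mapDomain 𝓡.r D) := by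
  haveI := 𝓡.ff1
  have hf0 : (f : F) ≠ 0 := by
    intro h
    apply hred
    have : f = 0 := Subtype.ext h
    rw [this, map_zero]
  rw [mem_L_iff]
  intro Q
  right
  have h1 := mapDomain_divOf 𝓡 f hred (divOf (K := K) (f : F) hf0)
    (fun P => divOf_apply _ _ P) Q
  have h2 : (0 : Divisor K F) ≤ D + divOf (K := K) (f : F) hf0 := by
    rw [Finsupp.le_def]
    intro P
    have := (mem_L_iff.mp hf P).resolve_left hf0
    simp only [Finsupp.coe_zero, Pi.zero_apply, Finsupp.coe_add, Pi.add_apply, divOf_apply]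
    omega
  have h3 := Finsupp.le_def.mp (mapDomain_nonneg 𝓡.r h2) Q
  rw [Finsupp.mapDomain_add] at h3
  simp only [Finsupp.coe_zero, Pi.zero_apply, Finsupp.coe_add, Pi.add_apply] at h3
  omega

/-- **Semicontinuity**: `ℓ(D) ≤ ℓ_k(r_* D)`. -/
theorem ell_le_ell_mapDomain (𝓡 : GoodRed K F k Fk) (D : Divisor K F) :
    ell D ≤ ell (Finsupp.mapDomain 𝓡.r D) := by
  haveI := 𝓡.ff1
  haveI := 𝓡.ff1k
  obtain ⟨n, b, hli, hmem, hspan, -⟩ := 𝓡.orthonormal D
  have h1 : ell D ≤ n := by
    unfold ell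
    rw [← hspan]
    have := finrank_range_le_card (R := K) (fun i => ((b i : 𝓡.O) : F))
    simpa [Set.finrank] using this
  have h2 : n ≤ ell (Finsupp.mapDomain 𝓡.r D) := by
    have hmemk : ∀ i, 𝓡.red (b i) ∈ riemannRochSpace (Finsupp.mapDomain 𝓡.r D) :=
      fun i => red_mem_L 𝓡 D (b i) (hli.ne_zero i) (hmem i)
    let c : Fin n → riemannRochSpace (Finsupp.mapDomain 𝓡.r D) :=
      fun i => ⟨𝓡.red (b i), hmemk i⟩
    have hc : LinearIndependent k c := by
      apply LinearIndependent.of_comp (riemannRochSpace (Finsupp.mapDomain 𝓡.r D)).subtype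
      exact hli
    have := hc.fintype_card_le_finrank
    simpa [ell] using this
  exact h1.trans h2

/-! ### The polydisc divisors -/

section Poly

variable {𝓡 : GoodRed K F k Fk} {ι : Type*} [Fintype ι] {Qs : ι → Place k Fk}

theorem mapDomain_polyDiv (d : ∀ i, DiscData 𝓡 (Qs i))
    (z : ι → IsLocalRing.maximalIdeal 𝓡.V) :
    Finsupp.mapDomain 𝓡.r (polyDiv d z) = ∑ i, Finsupp.single (Qs i) (1 : ℤ) := by
  unfold polyDiv
  rw [mapDomain_sum_single]
  refine Finset.sum_congr rfl fun i _ => ?_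
  rw [(d i).r_pt]

theorem polyDiv_nonneg (d : ∀ i, DiscData 𝓡 (Qs i))
    (z : ι → IsLocalRing.maximalIdeal 𝓡.V) : 0 ≤ polyDiv d z :=
  sum_single_nonneg _

theorem degree_polyDiv (d : ∀ i, DiscData 𝓡 (Qs i))
    (z : ι → IsLocalRing.maximalIdeal 𝓡.V) :
    Divisor.degree (polyDiv d z) = Fintype.card ι := by
  haveI := 𝓡.ff1
  exact degree_sum_single _

/-- The points of a disc are determined by their parameter values. -/
theorem pt_injective {Q : Place k Fk} (d : DiscData 𝓡 Q) : Function.Injective d.pt := by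
  intro a a' h
  have h1 := d.ev_spec a d.D.t
  have h2 := d.ev_spec a' d.D.t
  rw [d.D.ev_t] at h1 h2
  rw [← h] at h2
  have b1 : H623.Big (d.pt a) 1 (((d.D.t : d.ring) : F) - algebraMap K F ((a : 𝓡.V) : K)) := by
    rcases h1 with h1 | h1
    · left; rw [h1, sub_self]
    · exact Or.inr h1
  have b2 : H623.Big (d.pt a) 1 (((d.D.t : d.ring) : F) - algebraMap K F ((a' : 𝓡.V) : K)) := by
    rcases h2 with h2 | h2
    · left; rw [h2, sub_self]
    · exact Or.inr h2
  have b3 := b2.sub b1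
  have e : ((d.D.t : d.ring) : F) - algebraMap K F ((a' : 𝓡.V) : K) -
      (((d.D.t : d.ring) : F) - algebraMap K F ((a : 𝓡.V) : K)) =
      algebraMap K F (((a : 𝓡.V) : K) - ((a' : 𝓡.V) : K)) := by
    rw [map_sub]; ring
  rw [e] at b3
  rcases b3 with h0 | h0
  · have : ((a : 𝓡.V) : K) - ((a' : 𝓡.V) : K) = 0 :=
      (map_eq_zero (algebraMap K F)).mp h0
    exact Subtype.ext (Subtype.ext (sub_eq_zero.mp this))
  · rw [ord_algebraMap] at h0
    omega

/-- Equal polydisc divisors have equal parameters. -/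
theorem polyDiv_injective (hQs : Function.Injective Qs) (d : ∀ i, DiscData 𝓡 (Qs i))
    {z z' : ι → IsLocalRing.maximalIdeal 𝓡.V} (h : polyDiv d z = polyDiv d z') : z = z' := by
  funext i
  apply pt_injective (d i)
  by_contra hne
  have h1 : 1 ≤ (polyDiv d z) ((d i).pt (z i)) :=
    one_le_sum_single_apply (fun j => (d j).pt (z j)) i
  have h2 : (polyDiv d z') ((d i).pt (z i)) = 0 := by
    apply sum_single_apply_of_forall_ne
    intro j hj
    have hr : Qs j = Qs i := by rw [← (d j).r_pt (z' j), hj, (d i).r_pt]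
    have hji : j = i := hQs hr
    subst hji
    exact hne hj.symm
  rw [h, h2] at h1
  omega

end Poly

/-! ### The leaf -/

section Leaf

variable (𝓡 : GoodRed K F k Fk) (Qs : Fin (genusFF k Fk) → Place k Fk)
  (hQs : Function.Injective Qs)
  (hell : @Lib.RR.ell k Fk _ _ _ (∑ i, Finsupp.single (Qs i) (1 : ℤ)) = 1)
  (d : ∀ i, DiscData 𝓡 (Qs i))

include hell in
/-- `ℓ(polyDiv d z) = 1`. -/
theorem ell_polyDiv (z : Fin (genusFF k Fk) → IsLocalRing.maximalIdeal 𝓡.V) :
    ell (polyDiv d z) = 1 := by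
  haveI := 𝓡.ff1
  have h1 := ell_le_ell_mapDomain 𝓡 (polyDiv d z)
  rw [_root_.Fermat.Agent.A3.H255.mapDomain_polyDiv, hell] at h1
  have h2 : ell (0 : Divisor K F) ≤ ell (polyDiv d z) := ell_mono (_root_.Fermat.Agent.A3.H255.polyDiv_nonneg d z)
  rw [ell_zero] at h2
  omega

/-- The converse direction: polydisc classes lie in the kernel of reduction. -/
theorem mem_kerRed_of_polyDiv (z : Fin (genusFF k Fk) → IsLocalRing.maximalIdeal 𝓡.V)
    (D : Divisor.degZero (K := K) (F := F))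
    (hD : (D : Divisor K F) = polyDiv d z - polyDiv d 0) : Pic0.mk D ∈ 𝓡.kerRed := by
  refine ⟨D, rfl, ?_⟩
  rw [hD, mapDomain_sub', _root_.Fermat.Agent.A3.H255.mapDomain_polyDiv, _root_.Fermat.Agent.A3.H255.mapDomain_polyDiv, sub_self]
  exact zero_mem _

include hQs hell in
/-- Uniqueness of the polydisc point. -/
theorem polyDiv_unique {z z' : Fin (genusFF k Fk) → IsLocalRing.maximalIdeal 𝓡.V}
    (h : polyDiv d z' - polyDiv d z ∈ Divisor.principal (K := K) (F := F)) : z = z' := by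
  haveI := 𝓡.ff1
  obtain ⟨u, hu0, hu⟩ := h
  have huL : u ∈ riemannRochSpace (polyDiv d z) := by
    rw [mem_L_iff]
    intro P
    right
    have h1 := hu P
    have h2 := Finsupp.le_def.mp (_root_.Fermat.Agent.A3.H255.polyDiv_nonneg d z') P
    simp only [Finsupp.coe_sub, Pi.sub_apply, Finsupp.coe_zero, Pi.zero_apply] at h1 h2
    omega
  have hL := H638.L_eq_range_of_ell_eq_one (_root_.Fermat.Agent.A3.H255.polyDiv_nonneg d z) (ell_polyDiv 𝓡 Qs hell d z)
  rw [hL] at huL
  obtain ⟨c, hc⟩ := huL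
  have hc' : u = algebraMap K F c := hc.symm
  apply polyDiv_injective hQs d
  ext P
  have h1 := hu P
  rw [hc', ord_algebraMap] at h1
  simp only [Finsupp.coe_sub, Pi.sub_apply] at h1
  omega

include hQs hell in
/-- Existence of the polydisc point. -/
theorem exists_polyDiv (x : Pic0 K F) (hx : x ∈ 𝓡.kerRed) :
    ∃ z : Fin (genusFF k Fk) → IsLocalRing.maximalIdeal 𝓡.V,
      ∃ D : Divisor.degZero (K := K) (F := F),
        (D : Divisor K F) = polyDiv d z - polyDiv d 0 ∧ Pic0.mk D = x := by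
  haveI := 𝓡.ff1
  haveI := 𝓡.ff1k
  obtain ⟨D₀, rfl, φ, hφ0, hφ⟩ := hx
  have hD₀ : Divisor.degree (D₀ : Divisor K F) = 0 := D₀.2
  -- a nonzero function in `L(D₀ + E)`
  have hdeg : (genusFF K F : ℤ) ≤ Divisor.degree ((D₀ : Divisor K F) + polyDiv d 0) := by
    rw [map_add, hD₀, degree_polyDiv, 𝓡.genus_eq]
    simp
  have h1 := riemann_inequality_genusFF (K := K) (F := F) ((D₀ : Divisor K F) + polyDiv d 0)
  have hpos : 0 < Module.finrank K (riemannRochSpace ((D₀ : Divisor K F) + polyDiv d 0)) := by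
    have h2 : Module.finrank K (riemannRochSpace ((D₀ : Divisor K F) + polyDiv d 0)) =
        ell ((D₀ : Divisor K F) + polyDiv d 0) := rfl
    have : (0 : ℤ) < (ell ((D₀ : Divisor K F) + polyDiv d 0) : ℤ) := by omega
    rw [h2]
    exact_mod_cast this
  obtain ⟨f₀, hf₀⟩ := Module.finrank_pos_iff_exists_ne_zero.mp hpos
  have hf₀F : (f₀ : F) ≠ 0 := fun h => hf₀ (Subtype.ext h)
  -- normalise
  obtain ⟨a, ha0, hmem, hred⟩ := 𝓡.gauss (f₀ : F) hf₀F
  have haF : algebraMap K F a ≠ 0 := (map_ne_zero (algebraMap K F)).mpr ha0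
  have hf0 : algebraMap K F a * (f₀ : F) ≠ 0 := mul_ne_zero haF hf₀F
  have hord : ∀ P : Place K F, P.ord (algebraMap K F a * (f₀ : F)) = P.ord (f₀ : F) := by
    intro P
    rw [P.ord_mul haF hf₀F, ord_algebraMap, zero_add]
  set Df : Divisor K F := divOf (K := K) (algebraMap K F a * (f₀ : F)) hf0 with hDf
  set D' : Divisor K F := (D₀ : Divisor K F) + polyDiv d 0 + Df with hD'
  have hD'0 : 0 ≤ D' := by
    rw [Finsupp.le_def]
    intro P
    have := (mem_L_iff.mp f₀.2 P).resolve_left hf₀F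
    simp only [hD', hDf, Finsupp.coe_zero, Pi.zero_apply, Finsupp.coe_add, Pi.add_apply,
      divOf_apply, hord] at this ⊢
    omega
  have hrDf : ∀ Q : Place k Fk, Finsupp.mapDomain 𝓡.r Df Q =
      Q.ord (𝓡.red ⟨algebraMap K F a * (f₀ : F), hmem⟩) :=
    fun Q => mapDomain_divOf 𝓡 ⟨_, hmem⟩ hred Df (fun P => divOf_apply _ _ P) Q
  have hrD' : ∀ Q : Place k Fk, Finsupp.mapDomain 𝓡.r D' Q =
      Q.ord φ + (∑ i, Finsupp.single (Qs i) (1 : ℤ)) Q +
        Q.ord (𝓡.red ⟨algebraMap K F a * (f₀ : F), hmem⟩) := by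
    intro Q
    rw [hD', Finsupp.mapDomain_add, Finsupp.mapDomain_add, _root_.Fermat.Agent.A3.H255.mapDomain_polyDiv]
    simp only [Finsupp.coe_add, Pi.add_apply]
    rw [hrDf Q, hφ Q]
  -- `φ · red f` is a constant
  have hcL : φ * 𝓡.red ⟨algebraMap K F a * (f₀ : F), hmem⟩ ∈
      riemannRochSpace (∑ i, Finsupp.single (Qs i) (1 : ℤ)) := by
    rw [mem_L_iff]
    intro Q
    right
    rw [Q.ord_mul hφ0 hred]
    have h3 := Finsupp.le_def.mp (mapDomain_nonneg 𝓡.r hD'0) Q
    rw [hrD' Q] at h3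
    simp only [Finsupp.coe_zero, Pi.zero_apply] at h3
    omega
  rw [H638.L_eq_range_of_ell_eq_one (sum_single_nonneg _) hell] at hcL
  obtain ⟨c, hc⟩ := hcL
  have hc0 : c ≠ 0 := by
    intro h0
    have hc' : algebraMap k Fk c = φ * 𝓡.red ⟨algebraMap K F a * (f₀ : F), hmem⟩ := hc
    rw [h0, map_zero] at hc'
    exact mul_ne_zero hφ0 hred hc'.symm
  have hsum0 : ∀ Q : Place k Fk,
      Q.ord φ + Q.ord (𝓡.red ⟨algebraMap K F a * (f₀ : F), hmem⟩) = 0 := by
    intro Q
    rw [← Q.ord_mul hφ0 hred]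
    have hc' : algebraMap k Fk c = φ * 𝓡.red ⟨algebraMap K F a * (f₀ : F), hmem⟩ := hc
    rw [← hc', ord_algebraMap]
  -- a point of `D'` over every `Q_i`
  have hP : ∀ i, ∃ P : Place K F, 𝓡.r P = Qs i ∧ 1 ≤ D' P := by
    intro i
    have h3 : Finsupp.mapDomain 𝓡.r D' (Qs i) ≠ 0 := by
      rw [hrD' (Qs i)]
      have := one_le_sum_single_apply Qs i
      have := hsum0 (Qs i)
      omega
    obtain ⟨P, hP1, hP2⟩ := exists_of_mapDomain_ne_zero 𝓡.r h3
    refine ⟨P, hP1, ?_⟩
    have := Finsupp.le_def.mp hD'0 P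
    simp only [Finsupp.coe_zero, Pi.zero_apply] at this
    omega
  choose P hPr hPD using hP
  have hPinj : Function.Injective P := fun i j h => hQs (by rw [← hPr i, ← hPr j, h])
  -- `D' = Σ P_i`
  have hD'eq : D' = ∑ i, Finsupp.single (P i) (1 : ℤ) := by
    have hnn : 0 ≤ D' - ∑ i, Finsupp.single (P i) (1 : ℤ) := by
      rw [Finsupp.le_def]
      intro P'
      simp only [Finsupp.coe_zero, Pi.zero_apply, Finsupp.coe_sub, Pi.sub_apply]
      by_cases hex : ∃ i, P i = P'
      · obtain ⟨i, rfl⟩ := hex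
        rw [sum_single_apply_of_injective hPinj i]
        have := hPD i
        omega
      · push Not at hex
        rw [sum_single_apply_of_forall_ne hex]
        have := Finsupp.le_def.mp hD'0 P'
        simpa using this
    have hdeg0 : Divisor.degree (D' - ∑ i, Finsupp.single (P i) (1 : ℤ)) = 0 := by
      rw [map_sub, degree_sum_single, hD', map_add, map_add, hD₀, degree_polyDiv, hDf,
        degree_divOf]
      simp
    have := eq_zero_of_nonneg_of_degree_eq_zero hnn hdeg0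
    exact sub_eq_zero.mp this
  -- the parameters
  have hz : ∀ i, ∃ b, (d i).pt b = P i := fun i => (d i).pt_surj (P i) (hPr i)
  choose z hz using hz
  have hpoly : polyDiv d z = D' := by
    rw [hD'eq]
    unfold polyDiv
    refine Finset.sum_congr rfl fun i _ => ?_
    rw [hz i]
  have hdegz : Divisor.degree (polyDiv d z - polyDiv d 0) = 0 := by
    rw [map_sub, degree_polyDiv, degree_polyDiv, sub_self]
  refine ⟨z, ⟨polyDiv d z - polyDiv d 0, hdegz⟩, rfl, ?_⟩
  -- the class
  show (QuotientAddGroup.mk _ : Pic0 K F) = QuotientAddGroup.mk _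
  rw [QuotientAddGroup.eq, AddSubgroup.mem_addSubgroupOf]
  refine ⟨(algebraMap K F a * (f₀ : F))⁻¹, inv_ne_zero hf0, fun v => ?_⟩
  rw [v.ord_inv]
  have e : (((-(⟨polyDiv d z - polyDiv d 0, hdegz⟩ : Divisor.degZero (K := K) (F := F)) + D₀ :
      Divisor.degZero (K := K) (F := F)) : Divisor K F)) =
      -(polyDiv d z - polyDiv d 0) + (D₀ : Divisor K F) := rfl
  rw [e, hpoly, hD']
  simp only [Finsupp.coe_add, Finsupp.coe_neg, Finsupp.coe_sub, Pi.add_apply, Pi.neg_apply,
    Pi.sub_apply, hDf, divOf_apply]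
  ring

end Leaf

/-- **COORD**: the frozen leaf `CoordStatement` of `A3/H799/LocalSpec.lean`. -/
theorem coordStatement : CoordStatement K F k Fk := by
  intro 𝓡 Qs hQs hell d
  refine ⟨fun x hx => ?_, fun z D hD => mem_kerRed_of_polyDiv 𝓡 Qs d z D hD⟩
  obtain ⟨z, D, hD, hDx⟩ := exists_polyDiv 𝓡 Qs hQs hell d x hx
  refine ⟨z, ⟨D, hD, hDx⟩, ?_⟩
  rintro z' ⟨D', hD', hD'x⟩
  symm
  apply polyDiv_unique 𝓡 Qs hQs hell d
  -- `D' - D` is principal
  have h1 : Pic0.mk D = Pic0.mk D' := by rw [hDx, hD'x]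
  have h2 : (QuotientAddGroup.mk D : Pic0 K F) = QuotientAddGroup.mk D' := h1
  rw [QuotientAddGroup.eq, AddSubgroup.mem_addSubgroupOf] at h2
  have e : ((-D + D' : Divisor.degZero (K := K) (F := F)) : Divisor K F) =
      polyDiv d z' - polyDiv d z := by
    show -(D : Divisor K F) + (D' : Divisor K F) = _
    rw [hD, hD']
    abel
  rwa [e] at h2

end Fermat.Agent.A3.H255

end
end
-- ===== PACK-END A3/H255/Coord.lean

-- ===== PACK-BEGIN A3/H799/Chart.lean
section



/-!
# A3 / LOCAL — ZADD and CHART from the leaves  (helper799)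

* `zadd_of  : CoordStatement → ZtriStatement → ZnegStatement → ZaddStatement`
* `chart_of : NspStatement → DiscStatement → DiscEquivStatement → CoordStatement →
              ZaddStatement → ChartStatement`
-/

set_option autoImplicit false

noncomputable section

open AlgebraicCurve Fermat.Agent.Lib.RR

namespace Fermat.Agent.A3.H799

universe u₁ u₂ u₃ u₄ w

variable {K : Type u₁} {F : Type u₂} {k : Type u₃} {Fk : Type u₄}
  [Field K] [Field F] [Algebra K F] [Field k] [Field Fk] [Algebra k Fk]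

theorem pic0_mk_eq_zero_iff (D : Divisor.degZero (K := K) (F := F)) :
    Pic0.mk D = 0 ↔ (D : Divisor K F) ∈ Divisor.principal (K := K) (F := F) := by
  unfold Pic0.mk
  rw [QuotientAddGroup.eq_zero_iff, AddSubgroup.mem_addSubgroupOf]

section Cls

variable {𝓡 : GoodRed K F k Fk} {ι : Type*} [Fintype ι] {Qs : ι → Place k Fk}
  (d : ∀ i, DiscData 𝓡 (Qs i))

/-- The degree-zero divisor `D_z - E`. -/
def polyDivZ (z : ι → IsLocalRing.maximalIdeal 𝓡.V) : Divisor.degZero (K := K) (F := F) :=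
  ⟨polyDiv d z - polyDiv d 0, by
    rw [Divisor.mem_degZero, map_sub, H255.degree_polyDiv, H255.degree_polyDiv, sub_self]⟩

@[simp] theorem coe_polyDivZ (z : ι → IsLocalRing.maximalIdeal 𝓡.V) :
    ((polyDivZ d z : Divisor.degZero (K := K) (F := F)) : Divisor K F) =
      polyDiv d z - polyDiv d 0 := rfl

/-- The class `[D_z - E]`. -/
def cls (z : ι → IsLocalRing.maximalIdeal 𝓡.V) : Pic0 K F := Pic0.mk (polyDivZ d z)

theorem exists_iff_cls (z : ι → IsLocalRing.maximalIdeal 𝓡.V) (x : Pic0 K F) :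
    (∃ D : Divisor.degZero (K := K) (F := F),
      (D : Divisor K F) = polyDiv d z - polyDiv d 0 ∧ Pic0.mk D = x) ↔ cls d z = x := by
  constructor
  · rintro ⟨D, hD, hx⟩
    have : D = polyDivZ d z := Subtype.ext hD
    rw [← hx, this]
    rfl
  · intro h
    exact ⟨polyDivZ d z, rfl, h⟩

theorem cls_add_sub_eq_zero_iff (zx zy zs : ι → IsLocalRing.maximalIdeal 𝓡.V) :
    cls d zx + cls d zy - cls d zs = 0 ↔
      polyDiv d zx + polyDiv d zy - polyDiv d zs - polyDiv d 0 ∈
        Divisor.principal (K := K) (F := F) := by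
  have h : cls d zx + cls d zy - cls d zs =
      Pic0.mk (polyDivZ d zx + polyDivZ d zy - polyDivZ d zs) := rfl
  rw [h, pic0_mk_eq_zero_iff]
  have h2 : ((polyDivZ d zx + polyDivZ d zy - polyDivZ d zs :
      Divisor.degZero (K := K) (F := F)) : Divisor K F) =
      polyDiv d zx + polyDiv d zy - polyDiv d zs - polyDiv d 0 := by
    push_cast
    simp only [coe_polyDivZ]
    abel
  rw [h2]

theorem cls_add_add_eq_zero_iff (zx zy zw : ι → IsLocalRing.maximalIdeal 𝓡.V) :
    cls d zx + cls d zy + cls d zw = 0 ↔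
      polyDiv d zx + polyDiv d zy + polyDiv d zw - (3 : ℤ) • polyDiv d 0 ∈
        Divisor.principal (K := K) (F := F) := by
  have h : cls d zx + cls d zy + cls d zw =
      Pic0.mk (polyDivZ d zx + polyDivZ d zy + polyDivZ d zw) := rfl
  rw [h, pic0_mk_eq_zero_iff]
  have h2 : ((polyDivZ d zx + polyDivZ d zy + polyDivZ d zw :
      Divisor.degZero (K := K) (F := F)) : Divisor K F) =
      polyDiv d zx + polyDiv d zy + polyDiv d zw - (3 : ℤ) • polyDiv d 0 := by
    push_cast
    simp only [coe_polyDivZ]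
    have : (3 : ℤ) • polyDiv d 0 = polyDiv d 0 + polyDiv d 0 + polyDiv d 0 := by
      rw [show (3 : ℤ) = 1 + 1 + 1 by norm_num, add_smul, add_smul, one_smul]
    rw [this]
    abel
  rw [h2]

theorem cls_add_eq_zero_iff (zx zn : ι → IsLocalRing.maximalIdeal 𝓡.V) :
    cls d zx + cls d zn = 0 ↔
      polyDiv d zx + polyDiv d zn - (2 : ℤ) • polyDiv d 0 ∈
        Divisor.principal (K := K) (F := F) := by
  have h : cls d zx + cls d zn = Pic0.mk (polyDivZ d zx + polyDivZ d zn) := rfl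
  rw [h, pic0_mk_eq_zero_iff]
  have h2 : ((polyDivZ d zx + polyDivZ d zn :
      Divisor.degZero (K := K) (F := F)) : Divisor K F) =
      polyDiv d zx + polyDiv d zn - (2 : ℤ) • polyDiv d 0 := by
    push_cast
    simp only [coe_polyDivZ]
    have : (2 : ℤ) • polyDiv d 0 = polyDiv d 0 + polyDiv d 0 := by
      rw [show (2 : ℤ) = 1 + 1 by norm_num, add_smul, one_smul]
    rw [this]
    abel
  rw [h2]

end Cls

/-- **ZADD** from COORD, ZTRI and ZNEG. -/
theorem zadd_of (hcoord : CoordStatement K F k Fk)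
    (htri : ZtriStatement.{u₁, u₂, u₃, u₄, w} K F k Fk)
    (hneg : ZnegStatement.{u₁, u₂, u₃, u₄, w} K F k Fk) :
    ZaddStatement.{u₁, u₂, u₃, u₄, w} K F k Fk := by
  intro 𝓡 Qs hinj hnsp d T _ Λ zx zy zs hzx hzy hprin
  obtain ⟨hC1, hC2⟩ := hcoord 𝓡 Qs hinj hnsp d
  have hmemc : ∀ z, cls d z ∈ 𝓡.kerRed := fun z => hC2 z (polyDivZ d z) rfl
  -- the third point `w = -(x + y)`
  have hw : ∀ τ, ∃ zw : Fin (genusFF k Fk) → IsLocalRing.maximalIdeal 𝓡.V,
      cls d zw = -(cls d (zx τ) + cls d (zy τ)) := by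
    intro τ
    obtain ⟨zw, hzw, -⟩ := hC1 _ (neg_mem (add_mem (hmemc (zx τ)) (hmemc (zy τ))))
    exact ⟨zw, (exists_iff_cls d zw _).mp hzw⟩
  choose zw hzw using hw
  have h1 : ∀ i, (fun τ => ((zw τ i : IsLocalRing.maximalIdeal 𝓡.V) : 𝓡.V)) ∈ Λ := by
    refine htri 𝓡 Qs hinj hnsp d T Λ zx zy zw hzx hzy fun τ => ?_
    rw [← cls_add_add_eq_zero_iff, hzw τ]
    abel
  refine hneg 𝓡 Qs hinj hnsp d T Λ zw zs h1 fun τ => ?_
  rw [← cls_add_eq_zero_iff, hzw τ]
  have h2 := (cls_add_sub_eq_zero_iff d (zx τ) (zy τ) (zs τ)).mpr (hprin τ)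
  have h3 : cls d (zs τ) = cls d (zx τ) + cls d (zy τ) := (sub_eq_zero.mp h2).symm
  rw [h3]
  abel

section Chart

variable [IsAlgClosed k]

/-- **CHART** from the leaves. -/
theorem chart_of (hnsp : NspStatement k Fk) (hdisc : DiscStatement K F k Fk)
    (hequiv : DiscEquivStatement K F k Fk) (hcoord : CoordStatement K F k Fk)
    (hzadd : ZaddStatement.{u₁, u₂, u₃, u₄, w} K F k Fk) :
    ChartStatement.{u₁, u₂, u₃, u₄, w} K F k Fk := by
  intro 𝓡
  haveI := 𝓡.ff1k
  haveI := 𝓡.ff1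
  obtain ⟨Qs, hinj, hell⟩ := hnsp
  have hd : ∀ i, ∃ d : DiscData 𝓡 (Qs i),
      ∀ g ∈ 𝓡.I, g • ((d.D.t : d.ring) : F) = ((d.D.t : d.ring) : F) := fun i => hdisc 𝓡 (Qs i)
  choose d hdI using hd
  obtain ⟨hC1, hC2⟩ := hcoord 𝓡 Qs hinj hell d
  have hex : ∀ u : 𝓡.kerRed, ∃ z : Fin (genusFF k Fk) → IsLocalRing.maximalIdeal 𝓡.V,
      cls d z = (u : Pic0 K F) ∧ ∀ z', cls d z' = (u : Pic0 K F) → z' = z := by
    intro u
    obtain ⟨z, hz, huniq⟩ := hC1 (u : Pic0 K F) u.2
    exact ⟨z, (exists_iff_cls d z _).mp hz, fun z' hz' => huniq z' ((exists_iff_cls d z' _).mpr hz')⟩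
  choose z hz hzuniq using hex
  refine ⟨genusFF k Fk, z, ?_, ?_, ?_⟩
  · -- injective
    intro u u' h
    apply Subtype.ext
    rw [← hz u, ← hz u', h]
  · -- inertia equivariance
    intro g hg u hgu i
    -- the transformed polydisc point
    have hpt : ∀ (j : Fin (genusFF k Fk)) (a : IsLocalRing.maximalIdeal 𝓡.V),
        ∃ a' : IsLocalRing.maximalIdeal 𝓡.V,
          (((a' : IsLocalRing.maximalIdeal 𝓡.V) : 𝓡.V) : K) =
            SemilinearAut.baseAut g (((a : IsLocalRing.maximalIdeal 𝓡.V) : 𝓡.V) : K) ∧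
          g • (d j).pt a = (d j).pt a' := by
      intro j a
      obtain ⟨h, h', hpt⟩ := hequiv 𝓡 (Qs j) (d j) (hdI j) g hg a
      exact ⟨⟨⟨_, h⟩, h'⟩, rfl, hpt⟩
    choose σ hσ hσpt using hpt
    have hσ0 : ∀ j, σ j 0 = 0 := by
      intro j
      apply Subtype.ext
      apply Subtype.ext
      rw [hσ j 0]
      simp
    have hsmul : ∀ z₀ : Fin (genusFF k Fk) → IsLocalRing.maximalIdeal 𝓡.V,
        g • polyDiv d z₀ = polyDiv d (fun j => σ j (z₀ j)) := by
      intro z₀
      unfold polyDiv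
      rw [Finset.smul_sum]
      refine Finset.sum_congr rfl fun j _ => ?_
      rw [SemilinearAut.smul_single, hσpt]
    have hcls : cls d (fun j => σ j (z u j)) = g • (u : Pic0 K F) := by
      rw [← hz u]
      show _ = g • Pic0.mk (polyDivZ d (z u))
      rw [SemilinearAut.pic0_smul_mk]
      unfold cls
      congr 1
      apply Subtype.ext
      rw [SemilinearAut.coe_degZeroSMulHom, coe_polyDivZ, coe_polyDivZ, smul_sub, hsmul, hsmul]
      congr 2
      funext j
      exact (hσ0 j).symm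
    have := hzuniq ⟨g • (u : Pic0 K F), hgu⟩ _ hcls
    rw [← this]
    exact hσ i (z u i)
  · -- addition
    intro T _ Λ a b ha hb
    refine hzadd 𝓡 Qs hinj hell d T Λ (fun τ => z (a τ)) (fun τ => z (b τ))
      (fun τ => z (a τ + b τ)) ha hb fun τ => ?_
    rw [← cls_add_sub_eq_zero_iff, hz, hz, hz]
    simp

end Chart

end Fermat.Agent.A3.H799

end
end
-- ===== PACK-END A3/H799/Chart.lean

-- ===== PACK-BEGIN A3/H555/Lifti.lean
section
/-
helper555 — cell A3 (S19), block LOCAL, leaf LIFTI.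

`LiftiStatement K F k Fk` (frozen in `Fermat/Agent/A3/H799/LocalSpec.lean`): every class of
`Pic0` is congruent modulo the kernel of reduction to an inertia-invariant class.

Proved here from the leaves DISC and DISC-I: the point with parameter value `0` of a residue disc
with inertia-invariant parameter is fixed by inertia; replacing every point of a divisor by the
fixed point of its residue disc gives an inertia-invariant divisor with the same reduction.
-/


set_option autoImplicit false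

noncomputable section

open AlgebraicCurve

namespace Fermat.Agent.A3.H555

open Fermat.Agent.A3.H799 Fermat.Agent.Lib.RR

variable {K F k Fk : Type*} [Field K] [Field F] [Algebra K F] [Field k] [Field Fk] [Algebra k Fk]

/-- A map of places which preserves degrees preserves degrees of divisors. -/
theorem degree_mapDomain_of_deg {K' F' : Type*} [Field K'] [Field F'] [Algebra K' F']
    (φ : Place K F → Place K' F') (hφ : ∀ v, (φ v).deg = v.deg) (D : Divisor K F) :
    Divisor.degree (Finsupp.mapDomain φ D) = Divisor.degree D := by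
  induction D using Finsupp.induction with
  | zero => simp
  | single_add P n D _ _ ih =>
    rw [Finsupp.mapDomain_add, map_add, map_add, ih, Finsupp.mapDomain_single,
      Divisor.degree_single, Divisor.degree_single, hφ]

/-- **Inertia-fixed points.**  Every point of the special fibre is the reduction of a place fixed
by inertia (the centre of its residue disc for an inertia-invariant parameter). -/
theorem exists_fixed_place (hdisc : DiscStatement K F k Fk)
    (hequiv : DiscEquivStatement K F k Fk) (𝓡 : GoodRed K F k Fk) (Q : Place k Fk) :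
    ∃ P : Place K F, 𝓡.r P = Q ∧ ∀ g ∈ 𝓡.I, g • P = P := by
  obtain ⟨d, hd⟩ := hdisc 𝓡 Q
  refine ⟨d.pt 0, d.r_pt 0, fun g hg => ?_⟩
  obtain ⟨h, h', e⟩ := hequiv 𝓡 Q d hd g hg 0
  rw [e]
  congr 1
  exact Subtype.ext (Subtype.ext (map_zero _))

/-- The reduction map of places is onto (consequence of DISC). -/
theorem r_surjective (hdisc : DiscStatement K F k Fk) (𝓡 : GoodRed K F k Fk) :
    Function.Surjective 𝓡.r := fun Q => by
  obtain ⟨d, -⟩ := hdisc 𝓡 Q
  exact ⟨d.pt 0, d.r_pt 0⟩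

/-- **Inertia-invariant lifts of divisors**: if every residue disc which contains a place
contains an inertia-fixed place, then for every divisor `D` there is an inertia-invariant divisor
`D'` of the same degree with the same reduction. -/
theorem exists_invariant_divisor (𝓡 : GoodRed K F k Fk)
    (hfixed : ∀ P₀ : Place K F, ∃ P : Place K F, 𝓡.r P = 𝓡.r P₀ ∧ ∀ g ∈ 𝓡.I, g • P = P)
    (D : Divisor K F) :
    ∃ D' : Divisor K F, (∀ g ∈ 𝓡.I, g • D' = D') ∧
      Divisor.degree D' = Divisor.degree D ∧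
      Finsupp.mapDomain 𝓡.r D' = Finsupp.mapDomain 𝓡.r D := by
  choose lift hr hfix using hfixed
  have := 𝓡.ff1
  refine ⟨Finsupp.mapDomain lift D, fun g hg => ?_, ?_, ?_⟩
  · rw [SemilinearAut.divisor_smul_def, ← Finsupp.mapDomain_comp]
    congr 1
    funext P
    exact hfix P g hg
  · exact degree_mapDomain_of_deg _ (fun v => by rw [FF1.deg_eq_one, FF1.deg_eq_one]) D
  · rw [← Finsupp.mapDomain_comp]
    congr 1
    funext P
    exact hr P

/-- **LIFTI** for one good-reduction datum, from inertia-fixed places in every residue disc. -/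
theorem lifti_of_fixed (𝓡 : GoodRed K F k Fk)
    (hfixed : ∀ P₀ : Place K F, ∃ P : Place K F, 𝓡.r P = 𝓡.r P₀ ∧ ∀ g ∈ 𝓡.I, g • P = P)
    (x : Pic0 K F) :
    ∃ y : Pic0 K F, (∀ g ∈ 𝓡.I, g • y = y) ∧ x - y ∈ 𝓡.kerRed := by
  obtain ⟨D, rfl⟩ := Pic0.mk_surjective x
  obtain ⟨D', hinv, hdeg, hred⟩ := exists_invariant_divisor 𝓡 hfixed (D : Divisor K F)
  have hD' : D' ∈ Divisor.degZero (K := K) (F := F) := by
    rw [Divisor.mem_degZero, hdeg]
    exact D.2
  refine ⟨Pic0.mk ⟨D', hD'⟩, fun g hg => ?_, ⟨D - ⟨D', hD'⟩, rfl, ?_⟩⟩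
  · rw [SemilinearAut.pic0_smul_mk]
    exact congrArg Pic0.mk (Subtype.ext (hinv g hg))
  · have : Finsupp.mapDomain 𝓡.r
        ((D - ⟨D', hD'⟩ : Divisor.degZero (K := K) (F := F)) : Divisor K F) = 0 := by
      rw [AddSubgroup.coe_sub, Finsupp.mapDomain_sub, hred, sub_self]
    rw [this]
    exact AddSubgroup.zero_mem _

/-- **LIFTI** from DISC and DISC-I. -/
theorem liftiStatement_of_disc (hdisc : DiscStatement K F k Fk)
    (hequiv : DiscEquivStatement K F k Fk) : LiftiStatement K F k Fk :=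
  fun 𝓡 x => lifti_of_fixed 𝓡
    (fun P₀ => exists_fixed_place hdisc hequiv 𝓡 (𝓡.r P₀)) x

end Fermat.Agent.A3.H555

end
end
-- ===== PACK-END A3/H555/Lifti.lean

-- ===== PACK-BEGIN A3/H555/DiscEquiv.lean
section
/-
helper555 — cell A3 (S19), block LOCAL, leaf DISC-I.

`DiscEquivStatement K F k Fk` (frozen in `Fermat/Agent/A3/H799/LocalSpec.lean`): for residue-disc
data with an inertia-invariant parameter `t`, inertia permutes the points of the disc through
their parameter values, `g • pt a = pt (g a)`.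

Proof: `pt a` is the unique place of the disc at which `t - a` vanishes; `g` maps it to a place
of the same disc at which `g • (t - a) = t - g a` vanishes.
-/


set_option autoImplicit false

noncomputable section

open AlgebraicCurve

namespace Fermat.Agent.A3.H555

open Fermat.Agent.A3.H799 Fermat.Agent.Lib.RR

variable {K F k Fk : Type*} [Field K] [Field F] [Algebra K F] [Field k] [Field Fk] [Algebra k Fk]

/-- Elements of the maximal ideal of `V` reduce to zero. -/
theorem res_eq_zero_of_mem (𝓡 : GoodRed K F k Fk) (a : IsLocalRing.maximalIdeal 𝓡.V) :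
    𝓡.res (a : 𝓡.V) = 0 :=
  (𝓡.res_eq_zero _).mpr (ValuationSubring.coe_mem_nonunits_iff.mpr a.2)

/-- The parameter of a residue disc minus the value `a` vanishes at the point `pt a`. -/
theorem one_le_ord_pt_sub (𝓡 : GoodRed K F k Fk) {Q : Place k Fk} (d : DiscData 𝓡 Q)
    (a : IsLocalRing.maximalIdeal 𝓡.V) :
    1 ≤ (d.pt a).ord (((d.D.t : d.ring) : F) - algebraMap K F (((a : 𝓡.V) : K))) := by
  have h := d.ev_spec a d.D.t
  rw [d.D.ev_t] at h
  rcases h with h | h
  · exfalso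
    have hmem : algebraMap K F (((a : 𝓡.V) : K)) ∈ 𝓡.O := (𝓡.algebraMap_mem _).mpr (a : 𝓡.V).2
    have e : (⟨((d.D.t : d.ring) : F), d.ring_le _ d.D.t.2⟩ : 𝓡.O) =
        ⟨algebraMap K F (((a : 𝓡.V) : K)), hmem⟩ := Subtype.ext h
    have h1 := d.ord_t
    rw [e, 𝓡.red_algebraMap (a : 𝓡.V) hmem, res_eq_zero_of_mem, map_zero, Place.ord_zero] at h1
    exact zero_ne_one h1
  · exact h

/-- A place at which both `t - a` and `t - b` vanish forces `a = b`. -/
theorem eq_of_one_le_ord_sub (P : Place K F) (t : F) {a b : K}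
    (ha : 1 ≤ P.ord (t - algebraMap K F a)) (hb : 1 ≤ P.ord (t - algebraMap K F b)) : a = b := by
  have hb' : 1 ≤ P.ord (-(t - algebraMap K F b)) := by rwa [ord_neg]
  have h := ord_add_of_le P (Or.inr ha) (Or.inr hb')
  have e : t - algebraMap K F a + -(t - algebraMap K F b) = algebraMap K F (b - a) := by
    rw [map_sub]; ring
  rw [e, ord_algebraMap] at h
  rcases h with h | h
  · have := (algebraMap K F).injective (h.trans (map_zero _).symm)
    exact (sub_eq_zero.mp this).symm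
  · omega

/-- The points of a residue disc are parametrised injectively. -/
theorem pt_injective (𝓡 : GoodRed K F k Fk) {Q : Place k Fk} (d : DiscData 𝓡 Q) :
    Function.Injective d.pt := by
  intro a b hab
  have ha := one_le_ord_pt_sub 𝓡 d a
  have hb := one_le_ord_pt_sub 𝓡 d b
  rw [← hab] at hb
  exact Subtype.ext (Subtype.ext (eq_of_one_le_ord_sub _ _ ha hb))

/-- `pt a` is the unique place of the disc at which `t - a` vanishes. -/
theorem pt_eq_of_one_le_ord_sub (𝓡 : GoodRed K F k Fk) {Q : Place k Fk} (d : DiscData 𝓡 Q)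
    (a : IsLocalRing.maximalIdeal 𝓡.V) {P : Place K F} (hP : 𝓡.r P = Q)
    (h : 1 ≤ P.ord (((d.D.t : d.ring) : F) - algebraMap K F (((a : 𝓡.V) : K)))) :
    d.pt a = P := by
  obtain ⟨b, rfl⟩ := d.pt_surj P hP
  have hb := one_le_ord_pt_sub 𝓡 d b
  exact congrArg d.pt (Subtype.ext (Subtype.ext (eq_of_one_le_ord_sub _ _ h hb)))

/-- **DISC-I.** -/
theorem discEquivStatement : DiscEquivStatement K F k Fk := by
  intro 𝓡 Q d ht g hg a
  obtain ⟨h, hres⟩ := 𝓡.I_base g hg (a : 𝓡.V)
  have h' : (⟨SemilinearAut.baseAut g (((a : 𝓡.V) : K)), h⟩ : 𝓡.V) ∈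
      IsLocalRing.maximalIdeal 𝓡.V := by
    rw [← ValuationSubring.coe_mem_nonunits_iff, ← 𝓡.res_eq_zero, hres]
    exact res_eq_zero_of_mem 𝓡 a
  refine ⟨h, h', ?_⟩
  symm
  apply pt_eq_of_one_le_ord_sub 𝓡 d
  · rw [𝓡.I_place g hg, d.r_pt]
  · have h1 := one_le_ord_pt_sub 𝓡 d a
    rw [← SemilinearAut.ord_smul g, smul_sub, ht g hg, SemilinearAut.smul_algebraMap] at h1
    exact h1

/-- **LIFTI** from DISC alone. -/
theorem liftiStatement_of_discStatement (hdisc : DiscStatement K F k Fk) :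
    LiftiStatement K F k Fk :=
  liftiStatement_of_disc hdisc discEquivStatement

end Fermat.Agent.A3.H555

end
end
-- ===== PACK-END A3/H555/DiscEquiv.lean

-- ===== PACK-BEGIN A3/H555/KerInertia.lean
section
/-
helper555 — cell A3 (S19), block LOCAL, leaf KER-I.

`KerInertiaStatement K F k Fk` (frozen in `Fermat/Agent/A3/H799/LocalSpec2.lean`): inertia acts
trivially on `Pic0` modulo the kernel of reduction, because it preserves every residue disc.
-/


set_option autoImplicit false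

noncomputable section

open AlgebraicCurve

namespace Fermat.Agent.A3.H555

open Fermat.Agent.A3.H799

variable {K F k Fk : Type*} [Field K] [Field F] [Algebra K F] [Field k] [Field Fk] [Algebra k Fk]

/-- The reduction of a divisor is invariant under inertia. -/
theorem mapDomain_r_smul (𝓡 : GoodRed K F k Fk) {g : SemilinearAut K F} (hg : g ∈ 𝓡.I)
    (D : Divisor K F) : Finsupp.mapDomain 𝓡.r (g • D) = Finsupp.mapDomain 𝓡.r D := by
  rw [SemilinearAut.divisor_smul_def, ← Finsupp.mapDomain_comp]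
  congr 1
  funext P
  exact 𝓡.I_place g hg P

/-- **KER-I.** -/
theorem kerInertiaStatement : KerInertiaStatement K F k Fk := by
  intro 𝓡 g hg x
  obtain ⟨D, rfl⟩ := Pic0.mk_surjective x
  refine ⟨SemilinearAut.degZeroSMulHom g D - D, rfl, ?_⟩
  have : Finsupp.mapDomain 𝓡.r
      ((SemilinearAut.degZeroSMulHom g D - D : Divisor.degZero (K := K) (F := F)) :
        Divisor K F) = 0 := by
    rw [AddSubgroup.coe_sub, Finsupp.mapDomain_sub, SemilinearAut.coe_degZeroSMulHom,
      mapDomain_r_smul 𝓡 hg, sub_self]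
  rw [this]
  exact AddSubgroup.zero_mem _

end Fermat.Agent.A3.H555

end
end
-- ===== PACK-END A3/H555/KerInertia.lean

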