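import Mathlib
import Fermat.Prelude.Def_FLTPrelim_Ramification
import Fermat.Prelude.Def_ModularCurve_HeckeModule
import Fermat.Prelude.Def_ModularCurve_ReductionModL
import Fermat.Agent.Pack.S15.AE4L3
import Fermat.Agent.Pack.S15.AE2L2
import Fermat.Agent.Pack.S15.AE1L3
import Fermat.Agent.Pack.S15.AE3L3
import Fermat.Agent.Pack.S15.AE3L2
import Fermat.Agent.Pack.S15.AE4L2
import Fermat.Agent.Pack.S15.AE4L1
import Fermat.Agent.Pack.S15.AE2L0
import Fermat.Agent.Pack.S15.AE3L1
import Fermat.Agent.Pack.S15.AE1L1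
import Fermat.Agent.Pack.S15.AE0L0
import Fermat.Agent.Pack.S15.AE4L0
import Fermat.Agent.Pack.S15.AE3L0
import Fermat.Agent.Pack.S15.AE0L3
import Fermat.Agent.Pack.S15.AE1L0
import Fermat.Agent.Pack.S15.AE2L3
import Fermat.Agent.Pack.S15.AE0L2
import Fermat.Agent.Pack.S15.AE1L2
import Fermat.Agent.Pack.S15.AE0L1

-- ===== PACK-BEGIN Lib/X0Deg/Alpha.lean
section


/-!
# X0DEG (helper760): the degree of the Prelude degeneracy map `heckeAlphaBar`

* `finrankAlong_inclusion`, `finiteAlong_inclusion` : abstract (any tower of intermediate fields);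
* `finrankAlong_heckeAlphaBar_mul_psi` : `[F̄_{Nℓ} : α F̄_N] * ψ(N) = ψ(Nℓ)` (any `ℓ ≠ 0`);
* `finrankAlong_heckeAlphaBar_of_not_dvd` : `= ℓ + 1` for a prime `ℓ ∤ N`;
* `finrankAlong_heckeAlphaBar_of_dvd` : `= ℓ` for a prime `ℓ ∣ N`;
* `finiteAlong_heckeAlphaBar` : `FiniteAlong ℚ̄ (heckeAlphaBar ℚ̄ N ℓ)` (one of the six fields of
  the Prelude `HeckeInputsAlong`);
* `finrankAlong_heckeAlphaBar_square` : equal degrees in the square used for the commutation of
  Hecke operators: `[F̄_{Nℓℓ'} : F̄_{Nℓ}] = [F̄_{Nℓ'} : F̄_N]` for primes `ℓ ≠ ℓ'`.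
-/

set_option autoImplicit false

noncomputable section

open ModularCurve AlgebraicCurve IntermediateField
open Fermat.Agent.S24

namespace Fermat.Agent.Lib.X0Deg

section Abstract

variable {K E : Type*} [Field K] [Field E] [Algebra K E]

/-- For intermediate fields `A ≤ B`, the `A`-module `B` (via the inclusion) is linearly
equivalent to `extendScalars`. -/
def inclusionLinearEquiv {A B : IntermediateField K E} (h : A ≤ B) :
    letI := algebraAlong (IntermediateField.inclusion h)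
    ↥B ≃ₗ[↥A] ↥(extendScalars h) :=
  letI := algebraAlong (IntermediateField.inclusion h)
  { toFun := fun x => ⟨x.1, x.2⟩
    invFun := fun y => ⟨y.1, y.2⟩
    map_add' := fun _ _ => rfl
    map_smul' := fun _ _ => rfl
    left_inv := fun _ => rfl
    right_inv := fun _ => rfl }

theorem finrankAlong_inclusion {A B : IntermediateField K E} (h : A ≤ B) :
    finrankAlong K (IntermediateField.inclusion h) = A.relfinrank B := by
  rw [relfinrank_eq_finrank_of_le h]
  let _ := algebraAlong (IntermediateField.inclusion h)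
  exact (inclusionLinearEquiv h).finrank_eq

theorem finiteAlong_inclusion {A B : IntermediateField K E} (h : A ≤ B)
    (hpos : 0 < A.relfinrank B) : FiniteAlong K (IntermediateField.inclusion h) := by
  let _ := algebraAlong (IntermediateField.inclusion h)
  show Module.Finite ↥A ↥B
  apply Module.finite_of_finrank_pos
  have := finrankAlong_inclusion h
  rw [finrankAlong] at this
  rw [this]
  exact hpos

end Abstract

section Modular

variable (N ℓ : ℕ) [NeZero N] [NeZero ℓ]

theorem le_mul : modularFunctionFieldBar N ≤ modularFunctionFieldBar (N * ℓ) :=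
  modularFunctionFieldBar_mono (dvd_mul_right N ℓ)

theorem finrankAlong_heckeAlphaBar :
    finrankAlong Kbar (heckeAlphaBar Kbar N ℓ)
      = (modularFunctionFieldBar N).relfinrank (modularFunctionFieldBar (N * ℓ)) := by
  rw [heckeAlphaBar_eq_inclusion N ℓ (le_mul N ℓ)]
  exact finrankAlong_inclusion _

/-- `[F̄_{Nℓ} : α F̄_N] * ψ(N) = ψ(Nℓ)`. -/
theorem finrankAlong_heckeAlphaBar_mul_psi :
    finrankAlong Kbar (heckeAlphaBar Kbar N ℓ) * dedekindPsi N = dedekindPsi (N * ℓ) := by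
  rw [finrankAlong_heckeAlphaBar]
  exact relfinrank_mul_psi (dvd_mul_right N ℓ)

/-- For a prime `ℓ ∤ N` the degeneracy map `α : F̄_N → F̄_{Nℓ}` has degree `ℓ + 1`. -/
theorem finrankAlong_heckeAlphaBar_of_not_dvd (hℓ : ℓ.Prime) (h : ¬ ℓ ∣ N) :
    finrankAlong Kbar (heckeAlphaBar Kbar N ℓ) = ℓ + 1 := by
  have h1 := finrankAlong_heckeAlphaBar_mul_psi N ℓ
  have h2 : dedekindPsi (N * ℓ) = (ℓ + 1) * dedekindPsi N := by
    rw [mul_comm N ℓ]
    exact Fermat.Agent.S20.Comb694.dedekindPsi_prime_mul_of_not_dvd ℓ N hℓ (NeZero.ne N) h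
  exact Nat.eq_of_mul_eq_mul_right (dedekindPsi_pos N) (h1.trans h2)

/-- For a prime `ℓ ∣ N` the degeneracy map `α : F̄_N → F̄_{Nℓ}` has degree `ℓ`. -/
theorem finrankAlong_heckeAlphaBar_of_dvd (hℓ : ℓ.Prime) (h : ℓ ∣ N) :
    finrankAlong Kbar (heckeAlphaBar Kbar N ℓ) = ℓ := by
  have h1 := finrankAlong_heckeAlphaBar_mul_psi N ℓ
  have h2 : dedekindPsi (N * ℓ) = ℓ * dedekindPsi N := by
    rw [mul_comm N ℓ]
    exact Fermat.Agent.S20.Comb694.dedekindPsi_prime_mul_of_dvd ℓ N hℓ (NeZero.ne N) h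
  exact Nat.eq_of_mul_eq_mul_right (dedekindPsi_pos N) (h1.trans h2)

theorem finrankAlong_heckeAlphaBar_pos : 0 < finrankAlong Kbar (heckeAlphaBar Kbar N ℓ) := by
  have h1 := finrankAlong_heckeAlphaBar_mul_psi N ℓ
  have h2 := dedekindPsi_pos (N * ℓ)
  rw [← h1] at h2
  exact Nat.pos_of_mul_pos_right h2

/-- The degeneracy map `α` is finite (a field of the Prelude `HeckeInputsAlong`). -/
theorem finiteAlong_heckeAlphaBar : FiniteAlong Kbar (heckeAlphaBar Kbar N ℓ) := by
  have hpos := finrankAlong_heckeAlphaBar_pos N ℓ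
  rw [finrankAlong_heckeAlphaBar] at hpos
  rw [heckeAlphaBar_eq_inclusion N ℓ (le_mul N ℓ)]
  exact finiteAlong_inclusion _ hpos

/-- Equal degrees in the commutation square: for primes `ℓ ≠ ℓ'`,
`[F̄_{Nℓℓ'} : F̄_{Nℓ}] = [F̄_{Nℓ'} : F̄_N]`. -/
theorem finrankAlong_heckeAlphaBar_square (ℓ' : ℕ) [NeZero ℓ'] (hℓ : ℓ.Prime) (hℓ' : ℓ'.Prime)
    (hne : ℓ ≠ ℓ') :
    finrankAlong Kbar (heckeAlphaBar Kbar (N * ℓ) ℓ')
      = finrankAlong Kbar (heckeAlphaBar Kbar N ℓ') := by
  by_cases h : ℓ' ∣ N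
  · rw [finrankAlong_heckeAlphaBar_of_dvd N ℓ' hℓ' h,
      finrankAlong_heckeAlphaBar_of_dvd (N * ℓ) ℓ' hℓ' (h.mul_right ℓ)]
  · have h' : ¬ ℓ' ∣ N * ℓ := by
      intro hd
      rcases (Nat.Prime.dvd_mul hℓ').mp hd with h1 | h1
      · exact h h1
      · exact hne ((Nat.prime_dvd_prime_iff_eq hℓ' hℓ).mp h1).symm
    rw [finrankAlong_heckeAlphaBar_of_not_dvd N ℓ' hℓ' h,
      finrankAlong_heckeAlphaBar_of_not_dvd (N * ℓ) ℓ' hℓ' h']

end Modular

end Fermat.Agent.Lib.X0Deg

end
end
-- ===== PACK-END Lib/X0Deg/Alpha.lean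

-- ===== PACK-BEGIN Lib/X0Deg/Gen.lean
section


/-!
# X0DEG (helper760): `ℚ̄(X₀(M)) = ℚ̄(j, j(q^M))`

* `adjoin_jF_jMF_eq_top` : `ℚ̄(j)(j_M) = F̄_M` (as intermediate field of `F̄_M / ℚ̄(j)`);
* `modularFunctionFieldBar_eq_adjoin_pair` : `F̄_M = ℚ̄(j, j(q^M))` inside `ℚ̄((q))`;
* `modularFunctionFieldBar_eq_sup` : `N ∣ M → F̄_M = F̄_N ⊔ ℚ̄(j(q^M))`;
* `modularFunctionFieldBar_square` : `F̄_{Nℓℓ'} = F̄_{Nℓ} ⊔ V_ℓ(F̄_{Nℓ'})` (the square used for the
  commutation of Hecke operators is "cartesian").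

Proof: the `ψ(M)` embeddings `σ_x : F̄_M → ℂ((z))` of S24 (`H997.HolBase.sigmaX`) agree on `ℚ̄(j)`
and are pairwise distinct on `j(q^M)`; compare with `[F̄_M : ℚ̄(j)] = ψ(M)`.
-/

set_option autoImplicit false

noncomputable section

open ModularCurve AlgebraicCurve IntermediateField
open Fermat.Agent.S24

namespace Fermat.Agent.Lib.X0Deg

variable (M : ℕ) [NeZero M]

/-- `j(q^M)` as an element of the function field `F̄_M`. -/
def jMF : FF M := H997.inclRN M (H997.jR M M dvd_rfl)

theorem val_jMF : ((jMF M : FF M) : LaurentSeries Kbar) = jBd M := rfl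

/-- The S24 embeddings `σ_x` are pairwise distinct on `j(q^M)`. -/
theorem sigmaX_jMF_injective (B : H997.HolBase M) (X : H997.Expansion B) {x y : XX M}
    (hxy : B.sigmaX X x (jMF M) = B.sigmaX X y (jMF M)) : x = y := by
  obtain ⟨g, rfl⟩ := QuotientGroup.mk_surjective x
  obtain ⟨g', rfl⟩ := QuotientGroup.mk_surjective y
  rw [H997.HolBase.sigmaX_mk, H997.HolBase.sigmaX_mk] at hxy
  have h1 : X.E (B.compH g⁻¹ (B.JH M dvd_rfl)) = X.E (B.compH g'⁻¹ (B.JH M dvd_rfl)) := by
    have := hxy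
    simp only [jMF, H997.HolBase.sigmaG_inclRN, H997.HolBase.bridge_jR] at this
    exact this
  have h2 := X.inj h1
  apply QuotientGroup.eq.mpr
  apply B.J_distinct
  intro τ
  have h3 := congrArg (fun h : B.Hol => (h : UpperHalfPlane → ℂ) (g' • τ)) h2
  simp only [H997.HolBase.compH_apply] at h3
  rw [← mul_smul, ← mul_smul, inv_mul_cancel, one_smul] at h3
  exact h3

/-- `ℚ̄(j)(j(q^M)) = F̄_M`. -/
theorem adjoin_jF_jMF_eq_top :
    IntermediateField.adjoin ↥(IntermediateField.adjoin Kbar {jF M}) {jMF M} = ⊤ := by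
  classical
  obtain ⟨P⟩ := nonempty_modularPackage M
  have := P.finiteDimensional
  set E := IntermediateField.adjoin Kbar {jF M} with hE
  set E' := IntermediateField.adjoin ↥E {jMF M} with hE'
  let A := H997.analyticCore M
  let X := A.toHolBase.qexpExpansion
  let x0 : XX M := ((1 : Matrix.SpecialLinearGroup (Fin 2) ℤ) : XX M)
  let ψ : ↥E →+* LaurentSeries ℂ := (A.toHolBase.sigmaX X x0).comp (algebraMap ↥E (FF M))
  let _ : Algebra ↥E (LaurentSeries ℂ) := ψ.toAlgebra
  let a : XX M → (FF M →ₐ[↥E] LaurentSeries ℂ) := fun x =>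
    { A.toHolBase.sigmaX X x with
      commutes' := fun y => A.sigmaX_eq_on_adjoin X x x0 y.2 }
  let b : XX M → (↥E' →ₐ[↥E] LaurentSeries ℂ) := fun x => (a x).comp E'.val
  have hb : Function.Injective b := by
    intro x y hxy
    apply sigmaX_jMF_injective M A.toHolBase X
    have hmem : jMF M ∈ E' := IntermediateField.mem_adjoin_simple_self _ _
    have := congrArg (fun φ : ↥E' →ₐ[↥E] LaurentSeries ℂ => φ ⟨jMF M, hmem⟩) hxy
    exact this
  have : Module.Free ↥E ↥E' := Module.Free.of_divisionRing ↥E ↥E'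
  have : Module.Finite ↥E ↥E' := inferInstance
  have : Finite (↥E' →ₐ[↥E] LaurentSeries ℂ) := Finite.algHom ↥E ↥E' (LaurentSeries ℂ)
  have h1 : Nat.card (XX M) ≤ Module.finrank ↥E ↥E' :=
    calc Nat.card (XX M) ≤ Nat.card (↥E' →ₐ[↥E] LaurentSeries ℂ) :=
          Nat.card_le_card_of_injective b hb
      _ ≤ Module.finrank ↥E ↥E' := card_algHom_le_finrank ↥E ↥E' (LaurentSeries ℂ)
  have h2 : Module.finrank ↥E (FF M) = Nat.card (XX M) := P.finrank_eq
  have h3 : Module.finrank ↥E ↥E' ≤ Module.finrank ↥E (FF M) :=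
    Submodule.finrank_le (Subalgebra.toSubmodule E'.toSubalgebra)
  have h4 : Module.finrank ↥E ↥E' = Module.finrank ↥E (FF M) := le_antisymm h3 (h2 ▸ h1)
  exact IntermediateField.eq_of_le_of_finrank_eq le_top
    (by rw [h4, IntermediateField.finrank_top'])

/-- `F̄_M = ℚ̄(j, j(q^M))` inside `ℚ̄((q))`. -/
theorem modularFunctionFieldBar_eq_adjoin_pair :
    modularFunctionFieldBar M = IntermediateField.adjoin Kbar {jB, jBd M} := by
  apply le_antisymm
  · intro x hx
    have h1 : (⟨x, hx⟩ : FF M) ∈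
        IntermediateField.adjoin ↥(IntermediateField.adjoin Kbar {jF M}) {jMF M} := by
      rw [adjoin_jF_jMF_eq_top]
      exact IntermediateField.mem_top
    have h2 : (⟨x, hx⟩ : FF M) ∈ IntermediateField.adjoin Kbar ({jF M} ∪ {jMF M}) := by
      rw [← IntermediateField.adjoin_adjoin_left]
      exact h1
    have h3 : (IntermediateField.adjoin Kbar ({jF M} ∪ {jMF M} : Set (FF M))).map
        (modularFunctionFieldBar M).val = IntermediateField.adjoin Kbar {jB, jBd M} := by
      rw [IntermediateField.adjoin_map, Set.image_union, Set.image_singleton,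
        Set.image_singleton]
      rfl
    rw [← h3]
    exact ⟨⟨x, hx⟩, h2, rfl⟩
  · rw [IntermediateField.adjoin_le_iff]
    rintro x (rfl | rfl)
    · exact jB_mem M
    · exact jBd_mem dvd_rfl

/-- `N ∣ M → F̄_M = F̄_N ⊔ ℚ̄(j(q^M))`. -/
theorem modularFunctionFieldBar_eq_sup {N : ℕ} [NeZero N] (h : N ∣ M) :
    modularFunctionFieldBar M
      = modularFunctionFieldBar N ⊔ IntermediateField.adjoin Kbar {jBd M} := by
  apply le_antisymm
  · rw [modularFunctionFieldBar_eq_adjoin_pair M, IntermediateField.adjoin_le_iff]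
    rintro x (rfl | rfl)
    · exact (le_sup_left : modularFunctionFieldBar N ≤ _) (jB_mem N)
    · exact (le_sup_right : IntermediateField.adjoin Kbar {jBd M} ≤ _)
        (IntermediateField.mem_adjoin_simple_self _ _)
  · refine sup_le (modularFunctionFieldBar_mono h) ?_
    rw [IntermediateField.adjoin_le_iff]
    rintro x rfl
    exact jBd_mem dvd_rfl

theorem coeffMap_qExpand_comm {R S : Type*} [CommRing R] [CommRing S] (f : R →+* S) (n : ℕ)
    [NeZero n] (x : LaurentSeries R) : coeffMap f (qExpand R n x) = qExpand S n (coeffMap f x) := by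
  ext k
  by_cases hk : (n : ℤ) ∣ k
  · obtain ⟨m, rfl⟩ := hk
    rw [coeffMap_coeff, qExpand_coeff_mul, qExpand_coeff_mul, coeffMap_coeff]
  · rw [coeffMap_coeff, qExpand_coeff_of_not_dvd n _ hk, qExpand_coeff_of_not_dvd n _ hk,
      map_zero]

theorem qExpand_congr_level {R : Type*} [CommRing R] {a b : ℕ} [NeZero a] [NeZero b] (h : a = b)
    (f : LaurentSeries R) : qExpand R a f = qExpand R b f := by
  subst h
  rfl

/-- `V_k (j(q^M)) = j(q^{M k})`. -/
theorem qExpand_jBd (k : ℕ) [NeZero k] : qExpand Kbar k (jBd M) = jBd (M * k) := by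
  unfold jBd coeffEmb
  rw [← coeffMap_qExpand_comm, qExpand_qExpand]
  congr 1
  exact qExpand_congr_level (mul_comm k M) _

omit [NeZero M] in
/-- `V_k` maps `F̄_M` into `F̄_{M k}`. -/
theorem map_qExpand_le (k : ℕ) [NeZero k] :
    (modularFunctionFieldBar M).map (qExpandAlgHomC Kbar k) ≤ modularFunctionFieldBar (M * k) := by
  rintro _ ⟨x, hx, rfl⟩
  exact (heckeBetaBar Kbar M k ⟨x, hx⟩).2

/-- **Cartesian square, general form.** For every `N' ∣ M k`:
`F̄_{M k} = F̄_{N'} ⊔ V_k(F̄_M)`. -/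
theorem modularFunctionFieldBar_mul_eq_sup (k : ℕ) [NeZero k] {N' : ℕ} [NeZero N']
    (h : N' ∣ M * k) :
    modularFunctionFieldBar (M * k)
      = modularFunctionFieldBar N' ⊔ (modularFunctionFieldBar M).map (qExpandAlgHomC Kbar k) := by
  apply le_antisymm
  · rw [modularFunctionFieldBar_eq_adjoin_pair (M * k), IntermediateField.adjoin_le_iff]
    rintro x (rfl | rfl)
    · exact (le_sup_left : modularFunctionFieldBar N' ≤ _) (jB_mem N')
    · refine (le_sup_right : (modularFunctionFieldBar M).map (qExpandAlgHomC Kbar k) ≤ _) ?_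
      exact ⟨jBd M, jBd_mem dvd_rfl, qExpand_jBd M k⟩
  · exact sup_le (modularFunctionFieldBar_mono h) (map_qExpand_le M k)

/-- **Cartesian square for the commutation of Hecke operators.**
`F̄_{Nℓℓ'} = F̄_{Nℓ} ⊔ V_ℓ(F̄_{Nℓ'})`. -/
theorem modularFunctionFieldBar_square (N ℓ ℓ' : ℕ) [NeZero N] [NeZero ℓ] [NeZero ℓ'] :
    modularFunctionFieldBar (N * ℓ * ℓ')
      = modularFunctionFieldBar (N * ℓ)
        ⊔ (modularFunctionFieldBar (N * ℓ')).map (qExpandAlgHomC Kbar ℓ) := by
  have e : N * ℓ * ℓ' = N * ℓ' * ℓ := by ring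
  have h : N * ℓ ∣ N * ℓ' * ℓ := by rw [← e]; exact dvd_mul_right _ _
  rw [e]
  exact modularFunctionFieldBar_mul_eq_sup (N * ℓ') ℓ h

end Fermat.Agent.Lib.X0Deg

end
end
-- ===== PACK-END Lib/X0Deg/Gen.lean

-- ===== PACK-BEGIN S29/H801/M1NC.lean
section
/-
S29 / M1 (helper801), part 5: the norm compatibility `nc` of the mixed square

      F_N   --α_{ℓ'}-->  F_{Nℓ'}
       |β_ℓ               |β_ℓ
       v                  v
      F_{Nℓ} --α_{ℓ'}--> F_{Nℓℓ'}

from `F_{Nℓℓ'} = F_{Nℓ} ⊔ V_ℓ(F_{Nℓ'})` and `[F_{Nℓ'} : F_N] ≤ [F_{Nℓℓ'} : F_{Nℓ}]`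
(general coefficient field `L`); over `ℚ̄` both inputs are in the shared library X0DEG (helper760).
-/






set_option autoImplicit false
set_option linter.style.haveILetI false

noncomputable section

namespace Fermat.Agent.S29.H801

open AlgebraicCurve ModularCurve Fermat.Agent.S37.H818

section General

variable (L : Type*) [Field L] [Algebra ℚ L]

theorem algebraMap_along_apply (M k : ℕ) [NeZero M] [NeZero k] (a : _root_.Fermat.Agent.S29.H801.FB L M) :
    letI := algebraAlong (heckeAlphaBar L M k)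
    algebraMap (_root_.Fermat.Agent.S29.H801.FB L M) (_root_.Fermat.Agent.S29.H801.FB L (M * k)) a = heckeAlphaBar L M k a := rfl

theorem algebraMap_level_apply (M : ℕ) [NeZero M] (a : _root_.Fermat.Agent.S29.H801.FB L M) :
    algebraMap (laurentBaseChange L (modularFunctionFieldFull M)) (LaurentSeries L) a
      = (a : LaurentSeries L) := rfl

theorem smul_along_coe (M k : ℕ) [NeZero M] [NeZero k] (a : _root_.Fermat.Agent.S29.H801.FB L M) (x : _root_.Fermat.Agent.S29.H801.FB L (M * k)) :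
    letI := algebraAlong (heckeAlphaBar L M k)
    ((a • x : _root_.Fermat.Agent.S29.H801.FB L (M * k)) : LaurentSeries L) = (a : LaurentSeries L) * (x : LaurentSeries L) := by
  letI := algebraAlong (heckeAlphaBar L M k)
  rw [Algebra.smul_def, algebraMap_along_apply, MulMemClass.coe_mul, coe_heckeAlphaBar]

theorem smul_level_eq (M : ℕ) [NeZero M] (a : _root_.Fermat.Agent.S29.H801.FB L M) (x : LaurentSeries L) :
    a • x = (a : LaurentSeries L) * x := by
  rw [Algebra.smul_def, algebraMap_level_apply]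

/-- Elements of `F_{Mk}` are algebraic over `F_M`. -/
theorem isAlgebraic_level (M k : ℕ) [NeZero M] [NeZero k]
    (hfin : FiniteAlong L (heckeAlphaBar L M k)) (x : LaurentSeries L)
    (hx : x ∈ laurentBaseChange L (modularFunctionFieldFull (M * k))) :
    IsAlgebraic (laurentBaseChange L (modularFunctionFieldFull M)) x := by
  letI := algebraAlong (heckeAlphaBar L M k)
  haveI : Module.Finite (_root_.Fermat.Agent.S29.H801.FB L M) (_root_.Fermat.Agent.S29.H801.FB L (M * k)) := hfin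
  have hint : IsIntegral (_root_.Fermat.Agent.S29.H801.FB L M) (⟨x, hx⟩ : _root_.Fermat.Agent.S29.H801.FB L (M * k)) := IsIntegral.of_finite _ _
  obtain ⟨p, hp, hpx⟩ := hint
  refine ⟨p, hp.ne_zero, ?_⟩
  have h := Polynomial.hom_eval₂ p (algebraMap (_root_.Fermat.Agent.S29.H801.FB L M) (_root_.Fermat.Agent.S29.H801.FB L (M * k)))
    ((laurentBaseChange L (modularFunctionFieldFull (M * k))).val :
      _root_.Fermat.Agent.S29.H801.FB L (M * k) →+* LaurentSeries L) ⟨x, hx⟩
  rw [hpx, map_zero] at h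
  have hcomp : ((laurentBaseChange L (modularFunctionFieldFull (M * k))).val :
      _root_.Fermat.Agent.S29.H801.FB L (M * k) →+* LaurentSeries L).comp (algebraMap (_root_.Fermat.Agent.S29.H801.FB L M) (_root_.Fermat.Agent.S29.H801.FB L (M * k)))
      = algebraMap (laurentBaseChange L (modularFunctionFieldFull M)) (LaurentSeries L) := by
    refine RingHom.ext fun a => ?_
    rw [RingHom.comp_apply, algebraMap_along_apply, algebraMap_level_apply]
    exact coe_heckeAlphaBar M k a
  rw [hcomp] at h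
  rw [Polynomial.aeval_def]
  exact h.symm

/-- The image of `β_ℓ : F_{Nℓ'} → F_{Nℓℓ'}` spans `F_{Nℓℓ'}` over `F_{Nℓ}`. -/
theorem span_range_betaTo (N ℓ ℓ' : ℕ) [NeZero N] [NeZero ℓ] [NeZero ℓ']
    (hfin : FiniteAlong L (heckeAlphaBar L (N * ℓ) ℓ'))
    (hsup : laurentBaseChange L (modularFunctionFieldFull (N * ℓ * ℓ'))
      = laurentBaseChange L (modularFunctionFieldFull (N * ℓ))
        ⊔ (laurentBaseChange L (modularFunctionFieldFull (N * ℓ'))).map (qExpandAlgHomC L ℓ)) :
    letI := algebraAlong (heckeAlphaBar L (N * ℓ) ℓ')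
    Submodule.span (_root_.Fermat.Agent.S29.H801.FB L (N * ℓ))
      (Set.range (betaTo L (N * ℓ') ℓ (N * ℓ * ℓ') (Nat.mul_right_comm N ℓ' ℓ))) = ⊤ := by
  letI := algebraAlong (heckeAlphaBar L (N * ℓ) ℓ')
  rw [eq_top_iff]
  rintro t -
  have ht : (t : LaurentSeries L) ∈ laurentBaseChange L (modularFunctionFieldFull (N * ℓ))
      ⊔ (laurentBaseChange L (modularFunctionFieldFull (N * ℓ'))).map (qExpandAlgHomC L ℓ) := by
    rw [← hsup]
    exact t.2
  have halg : ∀ x ∈ (laurentBaseChange L (modularFunctionFieldFull (N * ℓ'))).map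
      (qExpandAlgHomC L ℓ),
      IsAlgebraic (laurentBaseChange L (modularFunctionFieldFull (N * ℓ))) x := by
    intro x hx
    refine isAlgebraic_level L (N * ℓ) ℓ' hfin x ?_
    rw [hsup]
    exact (le_sup_right : (laurentBaseChange L (modularFunctionFieldFull (N * ℓ'))).map
      (qExpandAlgHomC L ℓ) ≤ _) hx
  have hs := mem_span_of_mem_sup _ _ halg ht
  -- transport the span statement from `L((q))` to `F_{Nℓℓ'}`
  have key : ∀ x : LaurentSeries L,
      x ∈ Submodule.span (laurentBaseChange L (modularFunctionFieldFull (N * ℓ)))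
        (((laurentBaseChange L (modularFunctionFieldFull (N * ℓ'))).map (qExpandAlgHomC L ℓ) :
          IntermediateField L (LaurentSeries L)) : Set (LaurentSeries L)) →
      ∃ y : _root_.Fermat.Agent.S29.H801.FB L (N * ℓ * ℓ'),
        y ∈ Submodule.span (_root_.Fermat.Agent.S29.H801.FB L (N * ℓ))
          (Set.range (betaTo L (N * ℓ') ℓ (N * ℓ * ℓ') (Nat.mul_right_comm N ℓ' ℓ))) ∧
        (y : LaurentSeries L) = x := by
    intro x hx
    induction hx using Submodule.span_induction with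
    | mem x hx =>
      obtain ⟨z, hz, rfl⟩ := hx
      refine ⟨betaTo L (N * ℓ') ℓ (N * ℓ * ℓ') (Nat.mul_right_comm N ℓ' ℓ) ⟨z, hz⟩,
        Submodule.subset_span ⟨_, rfl⟩, ?_⟩
      rw [coe_betaTo]
      rfl
    | zero => exact ⟨0, Submodule.zero_mem _, rfl⟩
    | add x y _ _ hx hy =>
      obtain ⟨x', hx', rfl⟩ := hx
      obtain ⟨y', hy', rfl⟩ := hy
      exact ⟨x' + y', Submodule.add_mem _ hx' hy', rfl⟩
    | smul a x _ hx =>
      obtain ⟨x', hx', rfl⟩ := hx
      refine ⟨a • x', Submodule.smul_mem _ a hx', ?_⟩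
      rw [smul_along_coe, smul_level_eq]
  obtain ⟨y, hy, hyt⟩ := key _ hs
  have : y = t := Subtype.ext hyt
  rw [← this]
  exact hy

/-- The norm compatibility `nc` from the cartesian square and the degrees. -/
theorem normCompat_of_square (N ℓ ℓ' : ℕ) [NeZero N] [NeZero ℓ] [NeZero ℓ']
    (hfin : FiniteAlong L (heckeAlphaBar L N ℓ'))
    (hfin' : FiniteAlong L (heckeAlphaBar L (N * ℓ) ℓ'))
    (hrk : finrankAlong L (heckeAlphaBar L N ℓ') ≤ finrankAlong L (heckeAlphaBar L (N * ℓ) ℓ'))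
    (hsup : laurentBaseChange L (modularFunctionFieldFull (N * ℓ * ℓ'))
      = laurentBaseChange L (modularFunctionFieldFull (N * ℓ))
        ⊔ (laurentBaseChange L (modularFunctionFieldFull (N * ℓ'))).map (qExpandAlgHomC L ℓ)) :
    NormCompat (heckeAlphaBar L N ℓ') (heckeBetaBar L N ℓ) (heckeAlphaBar L (N * ℓ) ℓ')
      (betaTo L (N * ℓ') ℓ (N * ℓ * ℓ') (Nat.mul_right_comm N ℓ' ℓ)) :=
  normCompat_of_span _ _ _ _ (rel_sq₁ N ℓ ℓ') hfin hfin' hrk
    (span_range_betaTo L N ℓ ℓ' hfin' hsup)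

end General

/-- **The norm compatibility `nc` over `ℚ̄`.** -/
theorem normCompat_bar (N ℓ ℓ' : ℕ) [NeZero N] [NeZero ℓ] [NeZero ℓ'] (hℓ : ℓ.Prime)
    (hℓ' : ℓ'.Prime) (hne : ℓ ≠ ℓ') :
    NormCompat (heckeAlphaBar (AlgebraicClosure ℚ) N ℓ') (heckeBetaBar (AlgebraicClosure ℚ) N ℓ)
      (heckeAlphaBar (AlgebraicClosure ℚ) (N * ℓ) ℓ')
      (betaTo (AlgebraicClosure ℚ) (N * ℓ') ℓ (N * ℓ * ℓ') (Nat.mul_right_comm N ℓ' ℓ)) :=
  normCompat_of_square (AlgebraicClosure ℚ) N ℓ ℓ'
    (Fermat.Agent.Lib.X0Deg.finiteAlong_heckeAlphaBar N ℓ')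
    (Fermat.Agent.Lib.X0Deg.finiteAlong_heckeAlphaBar (N * ℓ) ℓ')
    (le_of_eq (Fermat.Agent.Lib.X0Deg.finrankAlong_heckeAlphaBar_square N ℓ ℓ' hℓ hℓ' hne).symm)
    (Fermat.Agent.Lib.X0Deg.modularFunctionFieldBar_square N ℓ ℓ')

end Fermat.Agent.S29.H801

end

end
-- ===== PACK-END S29/H801/M1NC.lean

-- ===== PACK-BEGIN A2/Alg/H729/Glue.lean
section




/-!
# WALL A2 / ALG — leaf GLUE modulo constants (helper729)

`glue_of_hconst` is the leaf `glue` of `Fermat/Agent/A2/Alg/Skel.lean` (architect helper34),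
VERBATIM, with ONE extra hypothesis `hconst`: the constants do not grow in the residue fields of
the Kummer algebra `F[X]/(X ^ m - u)` (exact form of
`H348.exists_pow_eq_of_local_factorisation`).

Proof: `V := H729.gaussO` (canonical Gauss ring; closedness, Jacobson radical, q-expansion
principle on both charts are theorems), bridge `OneAt p₁ ∧ OneAt p₂ ⇒ 1 + w V`
(`H729.inW_sub_one_of_oneAt`, going-up), and `H348.exists_pow_eq_of_local_factorisation`.
-/

set_option autoImplicit false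
set_option linter.unusedSectionVars false
set_option linter.style.haveILetI false
set_option linter.unusedVariables false

namespace Fermat.Agent.A2.Alg.H729

open Fermat.Agent.A2 Fermat.Agent.A2.Alg Fermat.Agent.A2.H729
open Fermat.Agent.S18.H138 (chart baseField)
open Polynomial

section OneAtLemmas

variable {R F : Type*} [CommRing R] [Field F] [Algebra R F]

theorem oneAt_one {B : Subalgebra R F} {p : Ideal B} (hp : p.IsPrime) : OneAt B p 1 :=
  ⟨1, 1, fun h => hp.ne_top ((Ideal.eq_top_iff_one p).2 h), by simp, by simp⟩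

theorem oneAt_mul {B : Subalgebra R F} {p : Ideal B} (hp : p.IsPrime) {g g' : F}
    (h : OneAt B p g) (h' : OneAt B p g') : OneAt B p (g * g') := by
  obtain ⟨a, b, hb, hab, e⟩ := h
  obtain ⟨a', b', hb', hab', e'⟩ := h'
  refine ⟨a * a', b * b', fun hmem => ?_, ?_, ?_⟩
  · rcases hp.mem_or_mem hmem with h1 | h1
    · exact hb h1
    · exact hb' h1
  · have : a * a' - b * b' = a * (a' - b') + (a - b) * b' := by ring
    rw [this]
    exact p.add_mem (p.mul_mem_left _ hab') (p.mul_mem_right _ hab)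
  · push_cast
    rw [← e, ← e']
    ring

theorem oneAt_pow {B : Subalgebra R F} {p : Ideal B} (hp : p.IsPrime) {g : F}
    (h : OneAt B p g) (n : ℕ) : OneAt B p (g ^ n) := by
  induction n with
  | zero => rw [pow_zero]; exact oneAt_one hp
  | succ n ih => rw [pow_succ]; exact oneAt_mul hp ih h

theorem oneAt_inv {B : Subalgebra R F} {p : Ideal B} {g : F}
    (h : OneAt B p g) : OneAt B p g⁻¹ := by
  obtain ⟨a, b, hb, hab, e⟩ := h
  have ha : a ∉ p := by
    intro ha
    apply hb
    have : b = a - (a - b) := by ring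
    rw [this]
    exact p.sub_mem ha hab
  have hg : g ≠ 0 := by
    rintro rfl
    rw [zero_mul] at e
    apply ha
    have : a = 0 := Subtype.ext e.symm
    rw [this]
    exact p.zero_mem
  refine ⟨b, a, ha, ?_, ?_⟩
  · have : b - a = -(a - b) := by ring
    rw [this]
    exact p.neg_mem hab
  · rw [← e, ← mul_assoc, inv_mul_cancel₀ hg, one_mul]

theorem oneAt_of_locOne {B : Subalgebra R F} {n I p : Ideal B} (hpn : p ≤ n) (hIp : I ≤ p)
    {g : F} (h : LocOne B n I g) : OneAt B p g := by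
  obtain ⟨a, b, hb, hab, e⟩ := h
  exact ⟨a, b, fun hmem => hb (hpn hmem), hIp hab, e⟩

end OneAtLemmas

section Glue

variable {R E F : Type*} [CommRing R] [IsDomain R] [IsDiscreteValuationRing R]
  [HenselianLocalRing R] [IsAlgClosed (IsLocalRing.ResidueField R)]
  [Field E] [CharZero E] [Algebra R E] [IsFractionRing R E]
  [Field F] [Algebra E F] [Algebra R F] [IsScalarTower R E F]

/-- `m` is invertible in `R`. -/
theorem exists_inv_natCast (q m : ℕ) (hq : q.Prime)
    (hqR : (q : R) ∈ IsLocalRing.maximalIdeal R) (hqm : ¬ q ∣ m) :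
    ∃ mi : R, (m : R) * mi = 1 := by
  have hmR : (m : R) ∉ IsLocalRing.maximalIdeal R := by
    intro hmem
    have hcop : Nat.Coprime m q := ((Nat.Prime.coprime_iff_not_dvd hq).2 hqm).symm
    obtain ⟨a, b, hab⟩ := Nat.isCoprime_iff_coprime.2 hcop
    have h1 : ((a * (m : ℤ) + b * (q : ℤ) : ℤ) : R) = 1 := by rw [hab]; simp
    have h2 : (1 : R) ∈ IsLocalRing.maximalIdeal R := by
      rw [← h1]
      push_cast
      exact Ideal.add_mem _ (Ideal.mul_mem_left _ _ hmem) (Ideal.mul_mem_left _ _ hqR)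
    exact (IsLocalRing.maximalIdeal.isMaximal R).ne_top ((Ideal.eq_top_iff_one _).2 h2)
  exact (IsLocalRing.notMem_maximalIdeal.1 hmR).exists_right_inv

/-- Local factorisations on one chart, in the form of `H729.exists_pow_eq_gaussO`. -/
theorem loc_of_locallyFactored {w : R} (hw : Prime w) {x : F} (hx : Transcendental R x)
    (c : SSChart w (chart R ({x} : Set F))) (hc : Incomparable c) {m : ℕ} {u : F}
    (hf : LocallyFactored (chart R ({x} : Set F)) c m u) :
    ∀ 𝔪 : Ideal (chart R ({x} : Set F)), 𝔪.IsMaximal →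
      algebraMap R (chart R ({x} : Set F)) w ∈ 𝔪 →
      ∃ h : F, (∃ t ∈ gaussO hw x, h = 1 + algebraMap R F w * t) ∧
        ∃ s a : chart R ({x} : Set F), s ∉ 𝔪 ∧
          u * (s : F) = h ^ m * ((s : F) + algebraMap R F w * (a : F)) := by
  intro 𝔪 h𝔪 hw𝔪
  obtain ⟨h, hh0, ⟨a, b, hb, hab, e⟩, h1, h2⟩ := hf 𝔪 h𝔪 hw𝔪
  have hInW : InW (gaussO hw x) w (h - 1) :=
    inW_sub_one_of_oneAt hw hx c.prime₁ c.prime₂ c.inf_eq hc.1 hc.2 h1 h2
  obtain ⟨-, -, t, ht, htt⟩ := inW_inv_sub_one hw hx hInW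
  obtain ⟨d, hd⟩ := Ideal.mem_span_singleton'.1 hab
  refine ⟨h⁻¹, ⟨t, ht, by rw [← htt]; ring⟩, b, d, hb, ?_⟩
  have hdF : (d : F) * algebraMap R F w = (a : F) - (b : F) :=
    congrArg (fun t : chart R ({x} : Set F) => (t : F)) hd
  have e1 : (b : F) + algebraMap R F w * (d : F) = (a : F) := by
    rw [mul_comm, hdF]; ring
  rw [e1, ← e, inv_pow]
  field_simp

/-- `u ≡ 1 mod w · gaussO` from local factorisations at one closed point on each component. -/
theorem inW_of_locallyFactored {w : R} (hw : Prime w) {x : F} (hx : Transcendental R x)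
    (c : SSChart w (chart R ({x} : Set F))) (hc : Incomparable c) {m : ℕ} {u : F}
    (hf : LocallyFactored (chart R ({x} : Set F)) c m u) :
    InW (gaussO hw x) w (u - 1) := by
  have hw₁₂ : algebraMap R (chart R ({x} : Set F)) w ∈ c.p₁ ⊓ c.p₂ := by
    rw [c.inf_eq]; exact Ideal.mem_span_singleton_self _
  have hspan₁ : Ideal.span {algebraMap R (chart R ({x} : Set F)) w} ≤ c.p₁ := by
    rw [← c.inf_eq]; exact inf_le_left
  have hspan₂ : Ideal.span {algebraMap R (chart R ({x} : Set F)) w} ≤ c.p₂ := by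
    rw [← c.inf_eq]; exact inf_le_right
  have key : ∀ p : Ideal (chart R ({x} : Set F)), p.IsPrime →
      Ideal.span {algebraMap R (chart R ({x} : Set F)) w} ≤ p →
      (∀ h : F, OneAt (chart R ({x} : Set F)) c.p₁ h → OneAt (chart R ({x} : Set F)) c.p₂ h →
        OneAt (chart R ({x} : Set F)) p h) →
      OneAt (chart R ({x} : Set F)) p u := by
    intro p hp hwp hsel
    obtain ⟨𝔪, h𝔪, hp𝔪⟩ := Ideal.exists_le_maximal p hp.ne_top
    have hw𝔪 : algebraMap R (chart R ({x} : Set F)) w ∈ 𝔪 :=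
      hp𝔪 (hwp (Ideal.mem_span_singleton_self _))
    obtain ⟨h, hh0, hloc, h1, h2⟩ := hf 𝔪 h𝔪 hw𝔪
    have hA : OneAt (chart R ({x} : Set F)) p (u * h ^ m) := oneAt_of_locOne hp𝔪 hwp hloc
    have hB : OneAt (chart R ({x} : Set F)) p (h ^ m)⁻¹ :=
      oneAt_inv (oneAt_pow hp (hsel h h1 h2) m)
    have := oneAt_mul hp hA hB
    rwa [mul_assoc, mul_inv_cancel₀ (pow_ne_zero _ hh0), mul_one] at this
  exact inW_sub_one_of_oneAt hw hx c.prime₁ c.prime₂ c.inf_eq hc.1 hc.2
    (key c.p₁ c.prime₁ hspan₁ fun _ h1 _ => h1)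
    (key c.p₂ c.prime₂ hspan₂ fun _ _ h2 => h2)

/-- **GLUE modulo constants** (leaf `glue` of `Alg/Skel.lean` + `hconst`). -/
theorem glue_of_hconst (q m : ℕ) (hq : q.Prime) (hqR : (q : R) ∈ IsLocalRing.maximalIdeal R)
    (hm : 0 < m) (hqm : ¬ q ∣ m)
    (w : R) (x : F) (Bf Bi : Subalgebra R F)
    (hBf : ChartCtx E w x Bf) (hBi : ChartCtx E w x⁻¹ Bi)
    (cf : SSChart w Bf) (ci : SSChart w Bi) (hcf : Incomparable cf) (hci : Incomparable ci)
    (u : F) (hu : u ≠ 0) (hdiv : DivisibleDiv E m u)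
    (hf : LocallyFactored Bf cf m u) (hi : LocallyFactored Bi ci m u)
    (hconst : ∀ 𝔫 : Ideal (AdjoinRoot (X ^ m - C u)), 𝔫.IsMaximal →
      ∀ y : AdjoinRoot (X ^ m - C u) ⧸ 𝔫, IsIntegral R y →
        y ∈ Set.range (algebraMap R (AdjoinRoot (X ^ m - C u) ⧸ 𝔫))) :
    ∃ y : F, y ≠ 0 ∧ u = y ^ m := by
  obtain rfl := H34.chart_eq x Bf hBf.hB
  obtain rfl := H34.chart_eq x⁻¹ Bi hBi.hB
  haveI : CharZero F := H34.charZero_of_field (E := E)
  haveI := H34.finiteDimensional_baseField (R := R) x hBf.hfin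
  have hinjR : Function.Injective (algebraMap R F) := H34.algebraMap_RF_injective E
  have hx : Transcendental R x := H34.transcendental_of_field hBf.hx
  have hx0 : x ≠ 0 := Fermat.Agent.S18.H138.ne_zero_of_transcendental hx
  have hxi : Transcendental R x⁻¹ := Fermat.Agent.S18.H138.transcendental_inv hx
  have hw : Prime w := hBf.hw.prime
  obtain ⟨mi, hmi⟩ := exists_inv_natCast (R := R) q m hq hqR hqm
  have hu1 : InW (gaussO hw x) w (u - 1) := inW_of_locallyFactored hw hx cf hcf hf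
  have hloc_fin := loc_of_locallyFactored hw hx cf hcf hf
  have hloc_inf := loc_of_locallyFactored hw hxi ci hci hi
  rw [gaussO_inv hw hx0] at hloc_inf
  obtain ⟨y, hy, -⟩ := exists_pow_eq_gaussO hinjR hx hw hmi hu1 hloc_fin hloc_inf hconst
  refine ⟨y, ?_, hy.symm⟩
  rintro rfl
  rw [zero_pow hm.ne'] at hy
  exact hu hy.symm

end Glue

end Fermat.Agent.A2.Alg.H729

end
-- ===== PACK-END A2/Alg/H729/Glue.lean

-- ===== PACK-BEGIN A2/Alg/H34/Glue.lean
section




/-!
# WALL A2 / ALG — leaf GLUE (helper34): `glue` VERBATIM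

`glue` = `H729.glue_of_hconst` (helper729) + `H552.hconst_of_henselian` (helper552) applied to the
valuation subring `compVal = B_{p₁}` of `F` (a discrete valuation ring with uniformiser `w`,
constructed elementwise from `exists_decomp`).
-/

set_option autoImplicit false
set_option linter.unusedSectionVars false
set_option linter.style.haveILetI false
set_option linter.unusedVariables false

namespace Fermat.Agent.A2.Alg.H34

open Fermat.Agent.A2 Fermat.Agent.A2.Alg
open Polynomial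

section Val

variable {R F : Type*} [CommRing R] [Field F] [Algebra R F]

/-- The valuation subring `B_p` of `F` (`p` a component of the special fibre). -/
def compVal (w : R) (B : Subalgebra R F) [IsNoetherianRing B] [IsFractionRing B F]
    (p q : Ideal B) (hp : p.IsPrime) (hpq : p ⊓ q = Ideal.span {algebraMap R B w})
    (hqp : ¬ q ≤ p) (hw0 : algebraMap R F w ≠ 0) : ValuationSubring F where
  carrier := {f | ∃ a b : B, b ∉ p ∧ f * (b : F) = (a : F)}
  mul_mem' := by
    rintro f g ⟨a, b, hb, hab⟩ ⟨a', b', hb', hab'⟩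
    refine ⟨a * a', b * b', fun h => ?_, ?_⟩
    · rcases hp.mem_or_mem h with h | h
      · exact hb h
      · exact hb' h
    · push_cast
      rw [← hab, ← hab']
      ring
  one_mem' := ⟨1, 1, fun h => hp.ne_top ((Ideal.eq_top_iff_one p).2 h), by simp⟩
  add_mem' := by
    rintro f g ⟨a, b, hb, hab⟩ ⟨a', b', hb', hab'⟩
    refine ⟨a * b' + a' * b, b * b', fun h => ?_, ?_⟩
    · rcases hp.mem_or_mem h with h | h
      · exact hb h
      · exact hb' h
    · push_cast
      rw [← hab, ← hab']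
      ring
  zero_mem' := ⟨0, 1, fun h => hp.ne_top ((Ideal.eq_top_iff_one p).2 h), by simp⟩
  neg_mem' := by
    rintro f ⟨a, b, hb, hab⟩
    refine ⟨-a, b, hb, ?_⟩
    push_cast
    rw [← hab]
    ring
  mem_or_inv_mem' := by
    intro f
    by_cases hf : f = 0
    · left
      subst hf
      exact ⟨0, 1, fun h => hp.ne_top ((Ideal.eq_top_iff_one p).2 h), by simp⟩
    · obtain ⟨k₁, k₂, A, D, hA, hD, h⟩ := exists_decomp w B p q hp hpq hqp f hf
      rcases le_total k₂ k₁ with hk | hk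
      · left
        obtain ⟨j, rfl⟩ := Nat.exists_eq_add_of_le hk
        refine ⟨algebraMap R B w ^ j * A, D, hD, ?_⟩
        have h1 : algebraMap R F w ^ k₂ * (f * (D : F)) =
            algebraMap R F w ^ k₂ * (algebraMap R F w ^ j * (A : F)) := by
          rw [pow_add] at h
          linear_combination h
        have h2 := mul_left_cancel₀ (pow_ne_zero k₂ hw0) h1
        rw [h2]
        push_cast
        rfl
      · right
        obtain ⟨j, rfl⟩ := Nat.exists_eq_add_of_le hk
        refine ⟨algebraMap R B w ^ j * D, A, hA, ?_⟩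
        have h1 : algebraMap R F w ^ k₁ * (f * (algebraMap R F w ^ j * (D : F))) =
            algebraMap R F w ^ k₁ * (A : F) := by
          rw [pow_add] at h
          linear_combination h
        have h2 := mul_left_cancel₀ (pow_ne_zero k₁ hw0) h1
        have h3 : f⁻¹ * (A : F) = algebraMap R F w ^ j * (D : F) := by
          rw [← h2]
          field_simp
        rw [h3]
        push_cast
        rfl

variable (w : R) (B : Subalgebra R F) [IsNoetherianRing B] [IsFractionRing B F]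
  (p q : Ideal B) (hp : p.IsPrime) (hpq : p ⊓ q = Ideal.span {algebraMap R B w})
  (hqp : ¬ q ≤ p) (hw0 : algebraMap R F w ≠ 0)

theorem mem_compVal {f : F} :
    f ∈ compVal w B p q hp hpq hqp hw0 ↔ ∃ a b : B, b ∉ p ∧ f * (b : F) = (a : F) := Iff.rfl

include hpq in
theorem w_mem_p : algebraMap R B w ∈ p := by
  have : algebraMap R B w ∈ p ⊓ q := by
    rw [hpq]
    exact Ideal.mem_span_singleton_self _
  exact this.1

theorem algebraMap_mem_compVal (r : R) : algebraMap R F r ∈ compVal w B p q hp hpq hqp hw0 :=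
  ⟨algebraMap R B r, 1, fun h => hp.ne_top ((Ideal.eq_top_iff_one p).2 h), by simp⟩

theorem inv_w_notMem_compVal : (algebraMap R F w)⁻¹ ∉ compVal w B p q hp hpq hqp hw0 := by
  rintro ⟨a, b, hb, hab⟩
  apply hb
  have h1 : (b : F) = algebraMap R F w * (a : F) := by
    rw [← hab]
    field_simp
  have h2 : b = algebraMap R B w * a := Subtype.ext (by rw [h1]; rfl)
  rw [h2]
  exact p.mul_mem_right _ (w_mem_p w B p q hpq)

theorem exists_pow_mul_mem_compVal (c : F) :
    ∃ k : ℕ, algebraMap R F w ^ k * c ∈ compVal w B p q hp hpq hqp hw0 := by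
  by_cases hc : c = 0
  · exact ⟨0, by rw [hc, mul_zero]; exact (compVal w B p q hp hpq hqp hw0).zero_mem⟩
  · obtain ⟨k₁, k₂, A, D, hA, hD, h⟩ := exists_decomp w B p q hp hpq hqp c hc
    refine ⟨k₂, algebraMap R B w ^ k₁ * A, D, hD, ?_⟩
    push_cast
    have : ((algebraMap R B w : B) : F) = algebraMap R F w := rfl
    linear_combination h

theorem mul_inv_w_mem_compVal {a : F} (ha : a ∈ compVal w B p q hp hpq hqp hw0)
    (ha' : a⁻¹ ∉ compVal w B p q hp hpq hqp hw0) :
    a * (algebraMap R F w)⁻¹ ∈ compVal w B p q hp hpq hqp hw0 := by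
  have ha0 : a ≠ 0 := by
    rintro rfl
    rw [inv_zero] at ha'
    exact ha' (compVal w B p q hp hpq hqp hw0).zero_mem
  obtain ⟨k₁, k₂, A, D, hA, hD, h⟩ := exists_decomp w B p q hp hpq hqp a ha0
  have hA0 : (A : F) ≠ 0 := fun h' => hA (by
    have : A = 0 := Subtype.ext h'
    rw [this]; exact p.zero_mem)
  have hD0 : (D : F) ≠ 0 := fun h' => hD (by
    have : D = 0 := Subtype.ext h'
    rw [this]; exact p.zero_mem)
  rcases Nat.lt_or_ge k₂ k₁ with hk | hk
  · obtain ⟨j, rfl⟩ := Nat.exists_eq_add_of_lt hk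
    refine ⟨algebraMap R B w ^ j * A, D, hD, ?_⟩
    push_cast
    have h1 : algebraMap R F w ^ (k₂ + 1) * (a * (algebraMap R F w)⁻¹ * (D : F)) =
        algebraMap R F w ^ (k₂ + 1) * (algebraMap R F w ^ j * (A : F)) := by
      have e : algebraMap R F w ^ (k₂ + j + 1) =
          algebraMap R F w ^ (k₂ + 1) * algebraMap R F w ^ j := by
        rw [← pow_add]; congr 1; omega
      rw [e] at h
      have e2 : algebraMap R F w ^ (k₂ + 1) * (a * (algebraMap R F w)⁻¹ * (D : F)) =
          (a * (algebraMap R F w ^ k₂ * (D : F))) * (algebraMap R F w * (algebraMap R F w)⁻¹) := by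
        rw [pow_succ]; ring
      rw [e2, h, mul_inv_cancel₀ hw0, mul_one, mul_assoc]
    exact mul_left_cancel₀ (pow_ne_zero _ hw0) h1
  · exfalso
    apply ha'
    obtain ⟨j, rfl⟩ := Nat.exists_eq_add_of_le hk
    refine ⟨algebraMap R B w ^ j * D, A, hA, ?_⟩
    push_cast
    have h1 : algebraMap R F w ^ k₁ * (a * (algebraMap R F w ^ j * (D : F))) =
        algebraMap R F w ^ k₁ * (A : F) := by
      rw [pow_add] at h
      linear_combination h
    have h2 := mul_left_cancel₀ (pow_ne_zero k₁ hw0) h1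
    rw [← h2]
    field_simp

/-- `u ≡ 1` on the component `p`  ⟹  `u = 1 + w t`, `t ∈ B_p`. -/
theorem exists_eq_one_add_of_oneAt {u : F} (hu : OneAt B p u) :
    ∃ t ∈ compVal w B p q hp hpq hqp hw0, u = 1 + algebraMap R F w * t := by
  obtain ⟨a, b, hb, hab, e⟩ := hu
  obtain ⟨s, hsq, hsp⟩ := SetLike.not_le_iff_exists.1 hqp
  have h1 : (a - b) * s ∈ p ⊓ q := ⟨p.mul_mem_right _ hab, q.mul_mem_left _ hsq⟩
  rw [hpq, Ideal.mem_span_singleton'] at h1
  obtain ⟨a', ha'⟩ := h1
  have hb0 : (b : F) ≠ 0 := fun h' => hb (by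
    have : b = 0 := Subtype.ext h'
    rw [this]; exact p.zero_mem)
  have hs0 : (s : F) ≠ 0 := fun h' => hsp (by
    have : s = 0 := Subtype.ext h'
    rw [this]; exact p.zero_mem)
  have e' : (a' : F) * algebraMap R F w = ((a : F) - (b : F)) * (s : F) := by
    have := congrArg (fun z : B => (z : F)) ha'
    simpa using this
  refine ⟨(a' : F) * ((s : F) * (b : F))⁻¹, ⟨a', s * b, fun h => ?_, ?_⟩, ?_⟩
  · rcases hp.mem_or_mem h with h | h
    · exact hsp h
    · exact hb h
  · push_cast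
    field_simp
  · have hu' : u = (a : F) * (b : F)⁻¹ := by
      field_simp
      exact e
    rw [hu']
    field_simp
    linear_combination -e'

end Val

section Main

variable {R E F : Type*} [CommRing R] [IsDomain R] [IsDiscreteValuationRing R]
  [HenselianLocalRing R] [IsAlgClosed (IsLocalRing.ResidueField R)]
  [Field E] [CharZero E] [Algebra R E] [IsFractionRing R E]
  [Field F] [Algebra E F] [Algebra R F] [IsScalarTower R E F]

/-- `u ≡ 1` on the first component, from the local factorisation at one closed point of it. -/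
theorem oneAt_of_locallyFactored (w : R) (B : Subalgebra R F) (c : SSChart w B) (m : ℕ) (u : F)
    (hf : LocallyFactored B c m u) : OneAt B c.p₁ u := by
  haveI := c.prime₁
  obtain ⟨n, hn, hpn⟩ := Ideal.exists_le_maximal c.p₁ c.prime₁.ne_top
  have hw₁ : algebraMap R B w ∈ c.p₁ := by
    have : algebraMap R B w ∈ c.p₁ ⊓ c.p₂ := by
      rw [c.inf_eq]
      exact Ideal.mem_span_singleton_self _
    exact this.1
  have hspan : Ideal.span {algebraMap R B w} ≤ c.p₁ := by
    rw [Ideal.span_le, Set.singleton_subset_iff]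
    exact hw₁
  obtain ⟨h, hh, h1, h2, -⟩ := hf n hn (hpn hw₁)
  have h3 : OneAt B c.p₁ (u * h ^ m) := H729.oneAt_of_locOne hpn hspan h1
  have h4 : OneAt B c.p₁ (h ^ m)⁻¹ := H729.oneAt_inv (H729.oneAt_pow c.prime₁ h2 m)
  have h5 := H729.oneAt_mul c.prime₁ h3 h4
  have h6 : u * h ^ m * (h ^ m)⁻¹ = u := by
    rw [mul_assoc, mul_inv_cancel₀ (pow_ne_zero m hh), mul_one]
  rwa [h6] at h5

/-- **GLUE.**  A Kummer class which is locally factored at every closed point of the special
fibre of both charts is trivial. -/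
theorem glue (q m : ℕ) (hq : q.Prime) (hqR : (q : R) ∈ IsLocalRing.maximalIdeal R)
    (hm : 0 < m) (hqm : ¬ q ∣ m)
    (w : R) (x : F) (Bf Bi : Subalgebra R F)
    (hBf : ChartCtx E w x Bf) (hBi : ChartCtx E w x⁻¹ Bi)
    (cf : SSChart w Bf) (ci : SSChart w Bi) (hcf : Incomparable cf) (hci : Incomparable ci)
    (u : F) (hu : u ≠ 0) (hdiv : DivisibleDiv E m u)
    (hf : LocallyFactored Bf cf m u) (hi : LocallyFactored Bi ci m u) :
    ∃ y : F, y ≠ 0 ∧ u = y ^ m := by
  refine H729.glue_of_hconst q m hq hqR hm hqm w x Bf Bi hBf hBi cf ci hcf hci u hu hdiv hf hi ?_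
  obtain ⟨hN, -, hFr⟩ := chart_instances' w x Bf hBf
  haveI := hN
  haveI := hFr
  have hw0 : algebraMap R F w ≠ 0 := by
    intro h
    exact hBf.hw.ne_zero (algebraMap_RF_injective E (by rw [h, map_zero]))
  obtain ⟨t, ht, hut⟩ := exists_eq_one_add_of_oneAt w Bf cf.p₁ cf.p₂ cf.prime₁ cf.inf_eq hcf.2 hw0
    (oneAt_of_locallyFactored w Bf cf m u hf)
  have hmk : (m : IsLocalRing.ResidueField R) ≠ 0 := by
    obtain ⟨mi, hmi⟩ := H729.exists_inv_natCast (R := R) q m hq hqR hqm
    intro h0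
    have h1 : IsLocalRing.residue R (m : R) = 0 := by
      rw [map_natCast]
      exact h0
    have h2 : (m : R) ∈ IsLocalRing.maximalIdeal R := (IsLocalRing.residue_eq_zero_iff _).1 h1
    exact (IsLocalRing.mem_maximalIdeal _).1 h2 (IsUnit.of_mul_eq_one mi hmi)
  exact Fermat.Agent.A2.H552.hconst_of_henselian E w hBf.hw
    (compVal w Bf cf.p₁ cf.p₂ cf.prime₁ cf.inf_eq hcf.2 hw0)
    (algebraMap_mem_compVal w Bf cf.p₁ cf.p₂ cf.prime₁ cf.inf_eq hcf.2 hw0)
    (inv_w_notMem_compVal w Bf cf.p₁ cf.p₂ cf.prime₁ cf.inf_eq hcf.2 hw0)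
    (fun a ha ha' => mul_inv_w_mem_compVal w Bf cf.p₁ cf.p₂ cf.prime₁ cf.inf_eq hcf.2 hw0 ha ha')
    (exists_pow_mul_mem_compVal w Bf cf.p₁ cf.p₂ cf.prime₁ cf.inf_eq hcf.2 hw0)
    m hmk t ht u hut

end Main

/-- The leaf GLUE in the packaged form consumed by `algSS_of_leaves`. -/
theorem glueLeaf : GlueLeaf :=
  fun {R E F} _ _ _ _ _ _ _ _ _ _ _ _ _ q m hq hqR hm hqm w x Bf Bi hBf hBi cf ci hcf hci u hu
      hdiv hf hi =>
    glue (E := E) q m hq hqR hm hqm w x Bf Bi hBf hBi cf ci hcf hci u hu hdiv hf hi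

/-- ALG (route S) reduced to the two purity leaves. -/
theorem algSS_of_purity (hS : PuritySmoothLeaf) (hN : PurityNodeLeaf) :
    Fermat.Agent.A2.AlgSSStatement :=
  algSS_of_leaves hS hN glueLeaf

end Fermat.Agent.A2.Alg.H34

end
-- ===== PACK-END A2/Alg/H34/Glue.lean

-- ===== PACK-BEGIN A2/Alg/H609/PurityNode.lean
section




/-!
# WALL A2 / ALG — leaf P-N `purity_node` (helper609)

`purityNodeLeaf : Alg.H34.PurityNodeLeaf`, VERBATIM the leaf of the assembly
`Alg.H34.algSS_of_leaves`.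

Proof: node purity `A2.H609.exists_pureAt_node` (length count in the local ring `B_n`; no
`δ`-count, the hypothesis `SepCoord` is not used, no hypothesis on the thickness of the node),
with
* `B` noetherian, integrally closed, `Frac B = F` (`Alg.H34.chart_instances'`),
* `B ⧸ pᵢ` Dedekind (`isDedekindDomain_quotient_chart`),
* (H1) from `DivisibleDiv` (`algebraMap_field_mem`), (H2) from `IsSplit`.
-/

set_option autoImplicit false

namespace Fermat.Agent.A2.Alg.H609

open Fermat.Agent.A2 Fermat.Agent.A2.Alg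

section Node

variable {R E F : Type*} [CommRing R] [IsDomain R] [IsDiscreteValuationRing R]
  [Field E] [CharZero E] [Algebra R E] [IsFractionRing R E]
  [Field F] [Algebra E F] [Algebra R F] [IsScalarTower R E F]

omit [CharZero E] in
/-- The hypothesis `hdiv` of the core purity theorems from `DivisibleDiv`. -/
theorem hdiv_of_divisibleDiv (w : R) (hw : Irreducible w) (B : Subalgebra R F) (m : ℕ) (u : F)
    (hdiv : DivisibleDiv E m u) :
    ∀ V : ValuationSubring F, IsDiscreteValuationRing V →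
      (∀ b : B, algebraMap B F b ∈ V) → (algebraMap B F (algebraMap R B w))⁻¹ ∈ V →
      ∃ h u₀ : F, u₀ ∈ V ∧ u₀⁻¹ ∈ V ∧ u = u₀ * h ^ m := by
  intro V hV hB hwV
  have hR : ∀ r : R, algebraMap R F r ∈ V := fun r => hB (algebraMap R B r)
  obtain ⟨h, u₀, -, hu₀, hu₀', huh⟩ := hdiv V hV (algebraMap_field_mem hw V hR hwV)
  exact ⟨h, u₀, hu₀, hu₀', huh⟩

omit [IsDomain R] [IsDiscreteValuationRing R] [Field E] [CharZero E] [Algebra R E]
  [IsFractionRing R E] [Algebra E F] [IsScalarTower R E F] in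
/-- The hypothesis `hs` of the core purity theorems from `ConstAt`. -/
theorem hs_of_constAt (B : Subalgebra R F) (p : Ideal B) (u : F) (h : ConstAt B p u) :
    ∃ c a b : B, IsUnit c ∧ b ∉ p ∧ a - c * b ∈ p ∧ u * algebraMap B F b = algebraMap B F a := by
  obtain ⟨c, hc, a, b, hb, hab, hu⟩ := h
  exact ⟨algebraMap R B c, a, b, hc.map _, hb, hab, hu⟩

/-- **Leaf P-N**, universe polymorphic. -/
theorem purity_node (m : ℕ) (hm : 0 < m)
    (w : R) (x : F) (B : Subalgebra R F) (hB : ChartCtx E w x B)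
    (c : SSChart w B)
    (u : F) (hdiv : DivisibleDiv E m u) (hs : IsSplit B c u)
    (n : Ideal B) (hn : n.IsPrime)
    (h1 : c.p₁ ≤ n) (h2 : c.p₂ ≤ n) : PureAt B c m u n := by
  obtain ⟨hnoeth, hic, hfrac⟩ := H34.chart_instances' w x B hB
  have hp₁ : c.p₁.IsPrime := c.prime₁
  have hp₂ : c.p₂.IsPrime := c.prime₂
  have hn₁ : IsIntegrallyClosed (B ⧸ c.p₁) := c.normal₁
  have hn₂ : IsIntegrallyClosed (B ⧸ c.p₂) := c.normal₂
  have hw : algebraMap R B w ∈ c.p₁ ⊓ c.p₂ := by
    rw [c.inf_eq]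
    exact Ideal.mem_span_singleton_self _
  have hd₁ : IsDedekindDomain (B ⧸ c.p₁) := isDedekindDomain_quotient_chart w x B hB c.p₁ hw.1
  have hd₂ : IsDedekindDomain (B ⧸ c.p₂) := isDedekindDomain_quotient_chart w x B hB c.p₂ hw.2
  exact Fermat.Agent.A2.H609.exists_pureAt_node (B := B) (F := F) hm.ne' c.p₁ c.p₂ n c.inf_eq
    c.not_le₁₂ c.not_le₂₁ c.transversal h1 h2 u
    (hdiv_of_divisibleDiv w hB.hw B m u hdiv)
    (hs_of_constAt B c.p₁ u hs.1) (hs_of_constAt B c.p₂ u hs.2)

end Node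

/-- **Leaf P-N** `purity_node`, VERBATIM (`Alg.H34.PurityNodeLeaf`). -/
theorem purityNodeLeaf : H34.PurityNodeLeaf := by
  intro R E F _ _ _ _ _ _ _ _ _ _ _ _ _ q m _ _ hm _ w x B hB c _ _ u _ hdiv hs n hn _ h1 h2
  exact purity_node m hm w x B hB c u hdiv hs n hn.isPrime h1 h2

end Fermat.Agent.A2.Alg.H609

end
-- ===== PACK-END A2/Alg/H609/PurityNode.lean

-- ===== PACK-BEGIN A2/Mod/H753/IndZero.lean
section






/-!
# A2 / MOD leaf L10 `IndZero` (helper753): residue independence on `C₀`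

`V₀ = V∞ ∘ W` at level `N = M q`.  With `W x = j_M · j_{Mq}` (`x = j j_q`), reduction
`J^(q+1)`, `J = j̄(t^M)`, the family `d (a, i) = α(Z i · j_M^a)` (`Z i` = Fricke dual at level `M`
of the S28 monomial `Y i`, `0 ≤ a ≤ q`) lies in `V∞` and is independent modulo `w` over `R[W x]`;
`c := W ∘ d`.

* `inW_of_red_eq_zero` : converse of `red_eq_zero_of_inW`;
* `map_ev`, `inW_comap_iff` : transport along an `E`-automorphism;
* `polyIndep_dual` : `PolyIndep J (Z̄ i)` from `PolyIndep j̄ (Ȳ i)` and L7 (level `M`);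
* `indZero_of`, `indZero : IndZeroStatement P E M q w`;
* `indepMod_inv` : `IndepMod` for the coordinate `x⁻¹` from `IndepMod` for `x` (`x` a unit of `V`).
-/

set_option autoImplicit false
set_option synthInstance.maxHeartbeats 400000
set_option maxHeartbeats 1600000

noncomputable section

namespace Fermat.Agent.A2.Mod.H753

open ModularCurve HahnSeries Polynomial
open Fermat.Agent.S28 (intDivisorExpansions jField)
open Fermat.Agent.S28.H325 (castL PolyIndep)

section Gen

variable (P : ValuationSubring _root_.Fermat.Agent.A2.Mod.Qb) (E : IntermediateField ℚ _root_.Fermat.Agent.A2.Mod.Qb)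

/-- an integral series with zero reduction lies in `w V∞`. -/
theorem inW_of_red_eq_zero {N : ℕ} {V : ValuationSubring (_root_.Fermat.Agent.A2.Mod.FE E N)} (hV : IsVinf P E N V)
    {w : _root_.Fermat.Agent.A2.Mod.RE P E} (hdvr : IsDiscreteValuationRing (_root_.Fermat.Agent.A2.Mod.RE P E)) (hw : Irreducible w) {f : _root_.Fermat.Agent.A2.Mod.FE E N}
    {S : LaurentSeries (_root_.Fermat.Agent.A2.Mod.RE P E)} (hS : (f : LaurentSeries E) = H708.incl (_root_.Fermat.Agent.A2.Mod.RE P E) S)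
    (hred : H708.red (_root_.Fermat.Agent.A2.Mod.RE P E) S = 0) : InW P E N V w f := by
  have hw0 : w ≠ 0 := hw.ne_zero
  have hdiv : ∀ n, w ∣ S.coeff n := by
    intro n
    have h1 : IsLocalRing.residue (_root_.Fermat.Agent.A2.Mod.RE P E) (S.coeff n) = 0 := by
      have := congrArg (fun z => z.coeff n) hred
      simpa using this
    rw [IsLocalRing.residue_eq_zero_iff, hw.maximalIdeal_eq, Ideal.mem_span_singleton] at h1
    exact h1
  obtain ⟨U', hU'⟩ := H549.exists_cstA_mul_eq w hw0 S hdiv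
  have hwE : ((w : E)) ≠ 0 := fun h0 => hw0 (Subtype.ext h0)
  have hc : H708.cst (w : E) ≠ 0 := H708.cst_ne_zero hwE
  have hcoe : (((f * (cE P E N w)⁻¹ : _root_.Fermat.Agent.A2.Mod.FE E N)) : LaurentSeries E) = H708.incl (_root_.Fermat.Agent.A2.Mod.RE P E) U' := by
    rw [IntermediateField.coe_mul, IntermediateField.coe_inv, hS, ← hU', map_mul, H708.incl_cstA]
    show H708.cst (w : E) * _ * (H708.cst (w : E))⁻¹ = _
    field_simp
  show f * (cE P E N w)⁻¹ ∈ V
  rw [hV, hcoe]
  exact H708.IsGaussInt.of_incl _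

variable {P E}

theorem map_ev {N : ℕ} (W : _root_.Fermat.Agent.A2.Mod.FE E N ≃ₐ[E] _root_.Fermat.Agent.A2.Mod.FE E N) (x : _root_.Fermat.Agent.A2.Mod.FE E N) (p : Polynomial (_root_.Fermat.Agent.A2.Mod.RE P E)) :
    W (ev P E N x p) = ev P E N (W x) p := by
  have h := Polynomial.hom_eval₂ p ((algebraMap E (_root_.Fermat.Agent.A2.Mod.FE E N)).comp (_root_.Fermat.Agent.A2.Mod.RE P E).subtype)
    (W : _root_.Fermat.Agent.A2.Mod.FE E N →+* _root_.Fermat.Agent.A2.Mod.FE E N) x
  have h2 : ((W : _root_.Fermat.Agent.A2.Mod.FE E N →+* _root_.Fermat.Agent.A2.Mod.FE E N).comp ((algebraMap E (_root_.Fermat.Agent.A2.Mod.FE E N)).comp (_root_.Fermat.Agent.A2.Mod.RE P E).subtype))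
      = (algebraMap E (_root_.Fermat.Agent.A2.Mod.FE E N)).comp (_root_.Fermat.Agent.A2.Mod.RE P E).subtype :=
    RingHom.ext fun r => W.commutes _
  rw [h2] at h
  exact h

theorem inW_comap_iff {N : ℕ} (V : ValuationSubring (_root_.Fermat.Agent.A2.Mod.FE E N)) (W : _root_.Fermat.Agent.A2.Mod.FE E N ≃ₐ[E] _root_.Fermat.Agent.A2.Mod.FE E N)
    (w : _root_.Fermat.Agent.A2.Mod.RE P E) (f : _root_.Fermat.Agent.A2.Mod.FE E N) :
    InW P E N (V.comap (W : _root_.Fermat.Agent.A2.Mod.FE E N →+* _root_.Fermat.Agent.A2.Mod.FE E N)) w f ↔ InW P E N V w (W f) := by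
  have h1 : W (f * (cE P E N w)⁻¹) = W f * (cE P E N w)⁻¹ := by
    rw [map_mul, map_inv₀]
    congr 2
    exact W.commutes _
  show (W : _root_.Fermat.Agent.A2.Mod.FE E N →+* _root_.Fermat.Agent.A2.Mod.FE E N) (f * (cE P E N w)⁻¹) ∈ V ↔ W f * (cE P E N w)⁻¹ ∈ V
  rw [← h1]
  rfl

theorem coe_jE_incl (N d : ℕ) [NeZero d] (hd : d ∣ N) :
    ((jE E N d hd : _root_.Fermat.Agent.A2.Mod.FE E N) : LaurentSeries E)
      = H708.incl (_root_.Fermat.Agent.A2.Mod.RE P E) (H708.castA (_root_.Fermat.Agent.A2.Mod.RE P E) (qExpand ℤ d (jqModC ℤ))) := by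
  rw [H708.incl_castA, H708.castQ, coeffMap_qExpand, ← H708.castQ, castQ_jqModC]
  rfl

end Gen

/-! ## relations of integral series and their reductions -/

section Rel

variable (P : ValuationSubring _root_.Fermat.Agent.A2.Mod.Qb) (E : IntermediateField ℚ _root_.Fermat.Agent.A2.Mod.Qb)

/-- the series of `∑ aᵢ(u) hᵢ` for integer series `u`, `hᵢ`. -/
theorem coe_sum_ev {N n : ℕ} (u : _root_.Fermat.Agent.A2.Mod.FE E N) (U : LaurentSeries ℤ)
    (hu : (u : LaurentSeries E) = H708.incl (_root_.Fermat.Agent.A2.Mod.RE P E) (H708.castA (_root_.Fermat.Agent.A2.Mod.RE P E) U))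
    (h : Fin n → _root_.Fermat.Agent.A2.Mod.FE E N) (Z : Fin n → LaurentSeries ℤ)
    (hh : ∀ i, (h i : LaurentSeries E) = H708.incl (_root_.Fermat.Agent.A2.Mod.RE P E) (H708.castA (_root_.Fermat.Agent.A2.Mod.RE P E) (Z i)))
    (a : Fin n → Polynomial (_root_.Fermat.Agent.A2.Mod.RE P E)) :
    ((∑ i, ev P E N u (a i) * h i : _root_.Fermat.Agent.A2.Mod.FE E N) : LaurentSeries E)
      = H708.incl (_root_.Fermat.Agent.A2.Mod.RE P E)
        (∑ i, aeval (H708.castA (_root_.Fermat.Agent.A2.Mod.RE P E) U) (a i) * H708.castA (_root_.Fermat.Agent.A2.Mod.RE P E) (Z i)) := by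
  rw [map_sum, IntermediateField.coe_sum]
  refine Finset.sum_congr rfl fun i _ => ?_
  rw [IntermediateField.coe_mul, coe_ev P E u _ hu (a i), hh i, map_mul]

theorem red_sum_aeval {n : ℕ} (U : LaurentSeries ℤ) (Z : Fin n → LaurentSeries ℤ)
    (a : Fin n → Polynomial (_root_.Fermat.Agent.A2.Mod.RE P E)) :
    H708.red (_root_.Fermat.Agent.A2.Mod.RE P E)
        (∑ i, aeval (H708.castA (_root_.Fermat.Agent.A2.Mod.RE P E) U) (a i) * H708.castA (_root_.Fermat.Agent.A2.Mod.RE P E) (Z i))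
      = ∑ i, aeval (castL (IsLocalRing.ResidueField (_root_.Fermat.Agent.A2.Mod.RE P E)) U)
          ((a i).map (IsLocalRing.residue (_root_.Fermat.Agent.A2.Mod.RE P E))) *
          castL (IsLocalRing.ResidueField (_root_.Fermat.Agent.A2.Mod.RE P E)) (Z i) := by
  rw [map_sum]
  refine Finset.sum_congr rfl fun i _ => ?_
  rw [map_mul, H708.red, Fermat.Agent.S28.H325.coeffMap_aeval, ← H708.red, red_castA, red_castA]

/-- a relation in `w V∞` between integer series reduces to a relation over `k`. -/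
theorem relation_red {N n : ℕ} {V : ValuationSubring (_root_.Fermat.Agent.A2.Mod.FE E N)} (hV : IsVinf P E N V)
    {w : _root_.Fermat.Agent.A2.Mod.RE P E} (hw : Irreducible w)
    (u : _root_.Fermat.Agent.A2.Mod.FE E N) (U : LaurentSeries ℤ)
    (hu : (u : LaurentSeries E) = H708.incl (_root_.Fermat.Agent.A2.Mod.RE P E) (H708.castA (_root_.Fermat.Agent.A2.Mod.RE P E) U))
    (h : Fin n → _root_.Fermat.Agent.A2.Mod.FE E N) (Z : Fin n → LaurentSeries ℤ)
    (hh : ∀ i, (h i : LaurentSeries E) = H708.incl (_root_.Fermat.Agent.A2.Mod.RE P E) (H708.castA (_root_.Fermat.Agent.A2.Mod.RE P E) (Z i)))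
    (a : Fin n → Polynomial (_root_.Fermat.Agent.A2.Mod.RE P E))
    (hin : InW P E N V w (∑ i, ev P E N u (a i) * h i)) :
    ∑ i, aeval (castL (IsLocalRing.ResidueField (_root_.Fermat.Agent.A2.Mod.RE P E)) U)
        ((a i).map (IsLocalRing.residue (_root_.Fermat.Agent.A2.Mod.RE P E))) *
        castL (IsLocalRing.ResidueField (_root_.Fermat.Agent.A2.Mod.RE P E)) (Z i) = 0 := by
  have hwm : w ∈ IsLocalRing.maximalIdeal (_root_.Fermat.Agent.A2.Mod.RE P E) := by
    rw [IsLocalRing.mem_maximalIdeal, mem_nonunits_iff]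
    exact hw.not_isUnit
  rw [← red_sum_aeval]
  exact red_eq_zero_of_inW hV hw.ne_zero hwm (coe_sum_ev P E u U hu h Z hh a) hin

/-- a relation over `k` between reductions of integer series lifts to a relation in `w V∞`. -/
theorem relation_inW {N n : ℕ} {V : ValuationSubring (_root_.Fermat.Agent.A2.Mod.FE E N)} (hV : IsVinf P E N V)
    {w : _root_.Fermat.Agent.A2.Mod.RE P E} (hdvr : IsDiscreteValuationRing (_root_.Fermat.Agent.A2.Mod.RE P E)) (hw : Irreducible w)
    (u : _root_.Fermat.Agent.A2.Mod.FE E N) (U : LaurentSeries ℤ)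
    (hu : (u : LaurentSeries E) = H708.incl (_root_.Fermat.Agent.A2.Mod.RE P E) (H708.castA (_root_.Fermat.Agent.A2.Mod.RE P E) U))
    (h : Fin n → _root_.Fermat.Agent.A2.Mod.FE E N) (Z : Fin n → LaurentSeries ℤ)
    (hh : ∀ i, (h i : LaurentSeries E) = H708.incl (_root_.Fermat.Agent.A2.Mod.RE P E) (H708.castA (_root_.Fermat.Agent.A2.Mod.RE P E) (Z i)))
    (a : Fin n → Polynomial (_root_.Fermat.Agent.A2.Mod.RE P E))
    (hrel : ∑ i, aeval (castL (IsLocalRing.ResidueField (_root_.Fermat.Agent.A2.Mod.RE P E)) U)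
        ((a i).map (IsLocalRing.residue (_root_.Fermat.Agent.A2.Mod.RE P E))) *
        castL (IsLocalRing.ResidueField (_root_.Fermat.Agent.A2.Mod.RE P E)) (Z i) = 0) :
    InW P E N V w (∑ i, ev P E N u (a i) * h i) := by
  rw [← red_sum_aeval] at hrel
  exact inW_of_red_eq_zero P E hV hdvr hw (coe_sum_ev P E u U hu h Z hh a) hrel

end Rel

/-! ## the Fricke-dual family at level `M` -/

section Dual

variable (P : ValuationSubring _root_.Fermat.Agent.A2.Mod.Qb) (E : IntermediateField ℚ _root_.Fermat.Agent.A2.Mod.Qb) (M q : ℕ) [NeZero M] [NeZero q]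

/-- **dual independence.**  If `W_M hᵢ = gᵢ` (integer series `Zᵢ`, `Yᵢ`) and the `Ȳᵢ` are
polynomially independent over `k[j̄]`, then the `Z̄ᵢ` are polynomially independent over
`k[j̄_M]`. -/
theorem polyIndep_dual (w : _root_.Fermat.Agent.A2.Mod.RE P E) (hS : Setting P E M q w)
    (WM : _root_.Fermat.Agent.A2.Mod.FE E M ≃ₐ[E] _root_.Fermat.Agent.A2.Mod.FE E M) (hWM : IsFricke E M WM)
    (VM : ValuationSubring (_root_.Fermat.Agent.A2.Mod.FE E M)) (hVM : IsVinf P E M VM)
    {n : ℕ} (g h : Fin n → _root_.Fermat.Agent.A2.Mod.FE E M) (Y Z : Fin n → LaurentSeries ℤ)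
    (hg : ∀ i, (g i : LaurentSeries E) = H708.incl (_root_.Fermat.Agent.A2.Mod.RE P E) (H708.castA (_root_.Fermat.Agent.A2.Mod.RE P E) (Y i)))
    (hh : ∀ i, (h i : LaurentSeries E) = H708.incl (_root_.Fermat.Agent.A2.Mod.RE P E) (H708.castA (_root_.Fermat.Agent.A2.Mod.RE P E) (Z i)))
    (hgh : ∀ i, WM (h i) = g i)
    (hY : PolyIndep (jqModC (IsLocalRing.ResidueField (_root_.Fermat.Agent.A2.Mod.RE P E)))
      (fun i => castL (IsLocalRing.ResidueField (_root_.Fermat.Agent.A2.Mod.RE P E)) (Y i))) :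
    PolyIndep (castL (IsLocalRing.ResidueField (_root_.Fermat.Agent.A2.Mod.RE P E)) (qExpand ℤ M (jqModC ℤ)))
      (fun i => castL (IsLocalRing.ResidueField (_root_.Fermat.Agent.A2.Mod.RE P E)) (Z i)) := by
  intro Pb hPb
  have hsurj : ∀ i, ∃ p : Polynomial (_root_.Fermat.Agent.A2.Mod.RE P E), p.map (IsLocalRing.residue (_root_.Fermat.Agent.A2.Mod.RE P E)) = Pb i :=
    fun i => Polynomial.map_surjective _ IsLocalRing.residue_surjective (Pb i)
  choose p hp using hsurj
  have hrel : ∑ i, aeval (castL (IsLocalRing.ResidueField (_root_.Fermat.Agent.A2.Mod.RE P E)) (qExpand ℤ M (jqModC ℤ)))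
      ((p i).map (IsLocalRing.residue (_root_.Fermat.Agent.A2.Mod.RE P E))) *
      castL (IsLocalRing.ResidueField (_root_.Fermat.Agent.A2.Mod.RE P E)) (Z i) = 0 := by
    rw [← hPb]
    exact Finset.sum_congr rfl fun i _ => by rw [hp i]
  have h1 := relation_inW P E hVM hS.dvr hS.unif (jE E M M dvd_rfl) _
    (coe_jE_incl M M dvd_rfl) h Z hh p hrel
  have h2 : InW P E M VM w (WM (∑ i, ev P E M (jE E M M dvd_rfl) (p i) * h i)) := by
    rw [← inW_comap_iff]
    exact H900.frickeStable P E M q w hS VM WM hVM hWM _ h1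
  have h3 : WM (∑ i, ev P E M (jE E M M dvd_rfl) (p i) * h i)
      = ∑ i, ev P E M (jE E M 1 (one_dvd M)) (p i) * g i := by
    rw [map_sum]
    refine Finset.sum_congr rfl fun i _ => ?_
    rw [map_mul, map_ev, hgh i, hWM.1 M 1 dvd_rfl (one_dvd M) (mul_one M)]
  rw [h3] at h2
  have h4 := relation_red P E hVM hS.unif (jE E M 1 (one_dvd M)) _
    (coe_jE_incl M 1 (one_dvd M)) g Y hg p h2
  rw [qExpand_one_apply, Fermat.Agent.S28.H325.castL_jqModC] at h4
  intro i
  rw [← hp i]
  exact hY _ h4 i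

end Dual

/-! ## the leaf L10 -/

section MainZero

variable (P : ValuationSubring _root_.Fermat.Agent.A2.Mod.Qb) (E : IntermediateField ℚ _root_.Fermat.Agent.A2.Mod.Qb) (M q : ℕ) [NeZero q]

theorem incl_castA_eq (y : LaurentSeries ℤ) :
    H708.incl (_root_.Fermat.Agent.A2.Mod.RE P E) (H708.castA (_root_.Fermat.Agent.A2.Mod.RE P E) y) = coeffMap (Int.castRingHom E) y := by
  rw [H708.incl, H708.castA, coeffMap_coeffMap]
  exact coeffMap_congr (RingHom.ext_int _ _) y

/-- Frobenius for an arbitrary integer series: `x̄(t^q) = x̄(t)^q` in characteristic `q`. -/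
theorem castL_qExpand_pow (hq : q.Prime) (k : Type*) [Field k] [CharP k q]
    (x : LaurentSeries ℤ) : castL k (qExpand ℤ q x) = castL k x ^ q := by
  have : Fact q.Prime := ⟨hq⟩
  obtain ⟨g, hg⟩ := H528.exists_frobCong q x
  have h1 : qExpand ℤ q x = x ^ q + HahnSeries.C (q : ℤ) * g := by
    rw [← hg]; ring
  have h2 : castL k (HahnSeries.C (q : ℤ)) = 0 := by
    ext n
    rw [castL, coeffMap_coeff, HahnSeries.coeff_zero, HahnSeries.C_apply,
      HahnSeries.coeff_single]
    split_ifs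
    · rw [eq_intCast, Int.cast_natCast, CharP.cast_eq_zero k q]
    · rw [map_zero]
  rw [h1, map_add, map_mul, h2, zero_mul, add_zero, map_pow]

/-- **L10, strong form**: the family `d` lies in `V∞`, is independent modulo `w` over `R[W x]`,
and `c = W ∘ d`. -/
theorem indZero_strong (w : _root_.Fermat.Agent.A2.Mod.RE P E) (hS : Setting P E M q w)
    (V : ValuationSubring (_root_.Fermat.Agent.A2.Mod.FE E (M * q))) (W : _root_.Fermat.Agent.A2.Mod.FE E (M * q) ≃ₐ[E] _root_.Fermat.Agent.A2.Mod.FE E (M * q))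
    (hV : IsVinf P E (M * q) V) (hW : IsFricke E (M * q) W) :
    ∃ d : Fin ((q + 1) * dedekindPsi M) → _root_.Fermat.Agent.A2.Mod.FE E (M * q),
      (∀ i, d i ∈ V) ∧ IndepMod P E (M * q) V w (W (xE E M q)) d ∧
      IndepMod P E (M * q) (V.comap (W : _root_.Fermat.Agent.A2.Mod.FE E (M * q) →+* _root_.Fermat.Agent.A2.Mod.FE E (M * q))) w (xE E M q)
        (fun i => W (d i)) := by
  have hM : NeZero M := ⟨hS.M_ne_zero⟩
  have hMq : NeZero (M * q) := ⟨mul_ne_zero hS.M_ne_zero (NeZero.ne q)⟩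
  have hchar : CharP (IsLocalRing.ResidueField (_root_.Fermat.Agent.A2.Mod.RE P E)) q :=
    charP_residueField P E hS.q_prime hS.lies_over
  obtain ⟨Y, hY, hYi⟩ := exists_monomials M q hS.q_prime hS.q_not_dvd
    (IsLocalRing.ResidueField (_root_.Fermat.Agent.A2.Mod.RE P E))
  obtain ⟨VM, hVM⟩ := H553.vinfExists P E M hS.M_ne_zero hS.dvr
  obtain ⟨WM, hWM⟩ := H751.frickeExists E M hS.M_ne_zero
  have hW' : H900.FrickeOnGens M WM := fun d d' _ _ hd hd' h => hWM.1 d d' hd hd' h
  have hsub : Submonoid.closure (intDivisorExpansions M) ≤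
      (Subring.closure (intDivisorExpansions M)).toSubmonoid := by
    rw [Submonoid.closure_le]
    exact Subring.subset_closure
  have hex : ∀ i, ∃ (g : _root_.Fermat.Agent.A2.Mod.FE E M) (Z : LaurentSeries ℤ),
      (g : LaurentSeries E) = H900.castL E (Y i) ∧
      ((WM g : _root_.Fermat.Agent.A2.Mod.FE E M) : LaurentSeries E) = H900.castL E Z :=
    fun i => H900.exists_int_of_closure hW' (hsub (hY i))
  choose g Z hg hZ using hex
  have hgi : ∀ i, (g i : LaurentSeries E)
      = H708.incl (_root_.Fermat.Agent.A2.Mod.RE P E) (H708.castA (_root_.Fermat.Agent.A2.Mod.RE P E) (Y i)) := fun i => by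
    rw [incl_castA_eq]; exact hg i
  have hhi : ∀ i, ((WM (g i) : _root_.Fermat.Agent.A2.Mod.FE E M) : LaurentSeries E)
      = H708.incl (_root_.Fermat.Agent.A2.Mod.RE P E) (H708.castA (_root_.Fermat.Agent.A2.Mod.RE P E) (Z i)) := fun i => by
    rw [incl_castA_eq]; exact hZ i
  have hdual := polyIndep_dual P E M q w hS WM hWM VM hVM g (fun i => WM (g i)) Y Z hgi hhi
    (fun i => hWM.2 (g i)) hYi
  -- the family at level `M q`
  set d : Fin ((q + 1) * dedekindPsi M) → _root_.Fermat.Agent.A2.Mod.FE E (M * q) := fun i =>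
    αE E M q (WM (g (finProdFinEquiv.symm i).2) *
      (jE E M M dvd_rfl) ^ ((finProdFinEquiv.symm i).1 : ℕ)) with hd
  have hdcoe : ∀ i, (d i : LaurentSeries E) = H708.incl (_root_.Fermat.Agent.A2.Mod.RE P E) (H708.castA (_root_.Fermat.Agent.A2.Mod.RE P E)
      (Z (finProdFinEquiv.symm i).2 *
        (qExpand ℤ M (jqModC ℤ)) ^ ((finProdFinEquiv.symm i).1 : ℕ))) := fun i => by
    rw [hd, coe_heckeAlphaBar, IntermediateField.coe_mul, IntermediateField.coe_pow, hhi,
      coe_jE_incl (P := P) M M dvd_rfl, map_mul, map_mul, map_pow, map_pow]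
  have hdV : ∀ i, d i ∈ V := fun i => by
    rw [hV, hdcoe]
    exact H708.IsGaussInt.of_incl _
  have hWx : W (xE E M q) = jE E (M * q) (M * q) dvd_rfl * jE E (M * q) M (dvd_mul_right M q) := by
    rw [xE, map_mul, hW.1 1 (M * q) (one_dvd _) dvd_rfl (one_mul _),
      hW.1 q M (dvd_mul_left q M) (dvd_mul_right M q) (mul_comm q M)]
  have hWxcoe : ((W (xE E M q) : _root_.Fermat.Agent.A2.Mod.FE E (M * q)) : LaurentSeries E)
      = H708.incl (_root_.Fermat.Agent.A2.Mod.RE P E) (H708.castA (_root_.Fermat.Agent.A2.Mod.RE P E)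
        (qExpand ℤ (M * q) (jqModC ℤ) * qExpand ℤ M (jqModC ℤ))) := by
    rw [hWx, IntermediateField.coe_mul, coe_jE_incl (P := P) (M * q) (M * q) dvd_rfl,
      coe_jE_incl (P := P) (M * q) M (dvd_mul_right M q), map_mul, map_mul]
  have hXW : castL (IsLocalRing.ResidueField (_root_.Fermat.Agent.A2.Mod.RE P E))
      (qExpand ℤ (M * q) (jqModC ℤ) * qExpand ℤ M (jqModC ℤ))
      = castL (IsLocalRing.ResidueField (_root_.Fermat.Agent.A2.Mod.RE P E)) (qExpand ℤ M (jqModC ℤ)) ^ (q + 1) := by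
    have h1 : qExpand ℤ (M * q) (jqModC ℤ) = qExpand ℤ q (qExpand ℤ M (jqModC ℤ)) := by
      rw [qExpand_qExpand]
      exact qExpand_congr (mul_comm M q) _
    rw [map_mul, h1, castL_qExpand_pow q hS.q_prime, pow_succ]
  have hind : IndepMod P E (M * q) V w (W (xE E M q)) d := by
    intro a ha i
    have h1 := relation_red P E hV hS.unif (W (xE E M q)) _ hWxcoe d _ hdcoe a ha
    rw [hXW] at h1
    have h2 : ∑ i, aeval (castL (IsLocalRing.ResidueField (_root_.Fermat.Agent.A2.Mod.RE P E))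
          (qExpand ℤ M (jqModC ℤ)) ^ (q + 1))
        ((a i).map (IsLocalRing.residue (_root_.Fermat.Agent.A2.Mod.RE P E))) *
        (castL (IsLocalRing.ResidueField (_root_.Fermat.Agent.A2.Mod.RE P E)) (Z (finProdFinEquiv.symm i).2) *
          castL (IsLocalRing.ResidueField (_root_.Fermat.Agent.A2.Mod.RE P E)) (qExpand ℤ M (jqModC ℤ))
            ^ ((finProdFinEquiv.symm i).1 : ℕ)) = 0 := by
      rw [← h1]
      refine Finset.sum_congr rfl fun i _ => ?_
      rw [map_mul, map_pow]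
    have hzero := polyIndep_tower (q + 1) (Nat.succ_pos q) _ _ hdual
      (fun i => (a i).map (IsLocalRing.residue (_root_.Fermat.Agent.A2.Mod.RE P E))) h2 i
    exact C_dvd_of_map_residue_eq_zero P E hS.dvr hS.unif hzero
  refine ⟨d, hdV, hind, ?_⟩
  intro a ha i
  rw [inW_comap_iff] at ha
  have h3 : W (∑ i, ev P E (M * q) (xE E M q) (a i) * W (d i))
      = ∑ i, ev P E (M * q) (W (xE E M q)) (a i) * d i := by
    rw [map_sum]
    refine Finset.sum_congr rfl fun i _ => ?_
    rw [map_mul, map_ev, hW.2]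
  rw [h3] at ha
  exact hind a ha i

/-- **L10** `IndZero` (exact shape of `Spec.IndZeroStatement`). -/
theorem indZero (w : _root_.Fermat.Agent.A2.Mod.RE P E) : IndZeroStatement P E M q w := by
  intro hS V W hV hW
  obtain ⟨d, hdV, -, hc⟩ := indZero_strong P E M q w hS V W hV hW
  refine ⟨fun i => W (d i), fun i => ?_, hc⟩
  rw [hW.2]
  exact hdV i

end MainZero

/-! ## the coordinate `x⁻¹` (chart at infinity): the reverse trick -/

section Inv

variable (P : ValuationSubring _root_.Fermat.Agent.A2.Mod.Qb) (E : IntermediateField ℚ _root_.Fermat.Agent.A2.Mod.Qb)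

theorem ev_reflect {N : ℕ} (x : _root_.Fermat.Agent.A2.Mod.FE E N) (hx : x ≠ 0) (D : ℕ) (p : Polynomial (_root_.Fermat.Agent.A2.Mod.RE P E))
    (hp : p.natDegree ≤ D) :
    ev P E N x (p.reflect D) = ev P E N x⁻¹ p * x ^ D := by
  letI : Invertible (x⁻¹) := ⟨x, mul_inv_cancel₀ hx, inv_mul_cancel₀ hx⟩
  have h := Polynomial.eval₂_reflect_mul_pow
    ((algebraMap E (_root_.Fermat.Agent.A2.Mod.FE E N)).comp (_root_.Fermat.Agent.A2.Mod.RE P E).subtype) (x⁻¹) D p hp
  have h2 : ⅟(x⁻¹) = x := rfl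
  rw [h2] at h
  have h3 : ev P E N x (p.reflect D) * (x⁻¹) ^ D * x ^ D = ev P E N x⁻¹ p * x ^ D := by
    rw [ev, ev, h]
  rw [← h3, mul_assoc, ← mul_pow, inv_mul_cancel₀ hx, one_pow, mul_one]

theorem C_dvd_of_C_dvd_reflect {w : _root_.Fermat.Agent.A2.Mod.RE P E} {D : ℕ} {p : Polynomial (_root_.Fermat.Agent.A2.Mod.RE P E)}
    (h : Polynomial.C w ∣ p.reflect D) : Polynomial.C w ∣ p := by
  rw [Polynomial.C_dvd_iff_dvd_coeff] at h ⊢
  intro j
  have := h (Polynomial.revAt D j)
  rwa [Polynomial.coeff_reflect, Polynomial.revAt_invol] at this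

/-- **reverse trick.**  Independence modulo `w` over `R[x]` implies independence modulo `w` over
`R[x⁻¹]`, for `x ∈ V`. -/
theorem indepMod_inv {N n : ℕ} (V : ValuationSubring (_root_.Fermat.Agent.A2.Mod.FE E N)) (w : _root_.Fermat.Agent.A2.Mod.RE P E) (x : _root_.Fermat.Agent.A2.Mod.FE E N)
    (hx : x ∈ V) (b : Fin n → _root_.Fermat.Agent.A2.Mod.FE E N) (h : IndepMod P E N V w x b) :
    IndepMod P E N V w x⁻¹ b := by
  by_cases hx0 : x = 0
  · rw [hx0, inv_zero]
    rw [hx0] at h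
    exact h
  intro a ha i
  set D : ℕ := Finset.univ.sup (fun i => (a i).natDegree) with hD
  have hdeg : ∀ i, (a i).natDegree ≤ D := fun i =>
    Finset.le_sup (f := fun i => (a i).natDegree) (Finset.mem_univ i)
  have h1 : ∑ i, ev P E N x ((a i).reflect D) * b i
      = (∑ i, ev P E N x⁻¹ (a i) * b i) * x ^ D := by
    rw [Finset.sum_mul]
    refine Finset.sum_congr rfl fun i _ => ?_
    rw [ev_reflect P E x hx0 D (a i) (hdeg i)]
    ring
  have h2 : InW P E N V w (∑ i, ev P E N x ((a i).reflect D) * b i) := by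
    rw [h1]
    show (∑ i, ev P E N x⁻¹ (a i) * b i) * x ^ D * (cE P E N w)⁻¹ ∈ V
    have h3 : (∑ i, ev P E N x⁻¹ (a i) * b i) * x ^ D * (cE P E N w)⁻¹
        = ((∑ i, ev P E N x⁻¹ (a i) * b i) * (cE P E N w)⁻¹) * x ^ D := by ring
    rw [h3]
    exact mul_mem ha (pow_mem hx D)
  exact C_dvd_of_C_dvd_reflect P E (h _ h2 i)

end Inv

end Fermat.Agent.A2.Mod.H753

end

end
-- ===== PACK-END A2/Mod/H753/IndZero.lean

-- ===== PACK-BEGIN A2/Mod/H751/Stau.lean
section





/-!
# A2 / MODASM, sub-assembly `Sτ` (helper751)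

`stau_of_s1 : S1Statement P E M q w → StauStatement P E M q w` — inertia fixes the coordinate
`x = j · j_q` and acts trivially modulo `w` on both charts.  All leaves are taken from main
(L1, L2: `H553`; L4: `H751`; L14: `H549`); the only hypothesis is the sub-assembly `S1`.

Abstract lemmas (Mathlib only):

* `mem_valuationSubring_of_isIntegral_adjoin` : a valuation ring containing `R` and `y` contains
  the integral closure of `R[y]`;
* `isIntegral_adjoin_map` : a ring endomorphism `σ` of `F` with `σ ∘ algebraMap = algebraMap ∘ ρ`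
  and `σ y = y` preserves the integral closure of `R[y]`;
* `exists_eq_mul_of_mem_inf` : `p₁ ⊓ p₂ = (w)` read elementwise.
-/

set_option autoImplicit false
set_option linter.unusedSectionVars false
set_option synthInstance.maxHeartbeats 400000
set_option maxHeartbeats 1600000

noncomputable section

namespace Fermat.Agent.A2.Mod.H751

open ModularCurve HahnSeries Polynomial

/-! ### Abstract lemmas -/

section Abstract

variable {R F : Type*} [CommRing R] [Field F] [Algebra R F]

/-- A valuation subring of `F` containing the image of `R` and `y` contains every element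
integral over `R[y]`. -/
theorem mem_valuationSubring_of_isIntegral_adjoin (V : ValuationSubring F)
    (hR : ∀ r : R, algebraMap R F r ∈ V) {y : F} (hy : y ∈ V) {b : F}
    (hb : IsIntegral (Algebra.adjoin R ({y} : Set F)) b) : b ∈ V := by
  have hle : ∀ a ∈ Algebra.adjoin R ({y} : Set F), a ∈ V := by
    intro a ha
    induction ha using Algebra.adjoin_induction with
    | mem z hz =>
        rw [Set.mem_singleton_iff] at hz
        rw [hz]; exact hy
    | algebraMap r => exact hR r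
    | add a c _ _ ha hc => exact V.add_mem _ _ ha hc
    | mul a c _ _ ha hc => exact V.mul_mem _ _ ha hc
  let φ : ↥(Algebra.adjoin R ({y} : Set F)) →+* ↥V :=
    { toFun := fun a => ⟨(a : F), hle a a.2⟩
      map_one' := rfl
      map_mul' := fun _ _ => rfl
      map_zero' := rfl
      map_add' := fun _ _ => rfl }
  have h1 : IsIntegral ↥V ((RingHom.id F) b) :=
    IsIntegral.map_of_comp_eq φ (RingHom.id F) (RingHom.ext fun _ => rfl) hb
  have h2 : IsIntegral ↥V b := h1
  obtain ⟨v, hv⟩ := (IsIntegrallyClosed.isIntegral_iff (R := ↥V) (K := F)).mp h2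
  rw [← hv]
  exact v.2

/-- A ring endomorphism `σ` of `F`, semilinear over `ρ : R →+* R` and fixing `y`, preserves the
integral closure of `R[y]`. -/
theorem isIntegral_adjoin_map (σ : F →+* F) (ρ : R →+* R)
    (hσ : ∀ r : R, σ (algebraMap R F r) = algebraMap R F (ρ r)) {y : F} (hy : σ y = y) {b : F}
    (hb : IsIntegral (Algebra.adjoin R ({y} : Set F)) b) :
    IsIntegral (Algebra.adjoin R ({y} : Set F)) (σ b) := by
  have hle : ∀ a ∈ Algebra.adjoin R ({y} : Set F), σ a ∈ Algebra.adjoin R ({y} : Set F) := by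
    intro a ha
    induction ha using Algebra.adjoin_induction with
    | mem z hz =>
        rw [Set.mem_singleton_iff] at hz
        rw [hz, hy]
        exact Algebra.subset_adjoin (Set.mem_singleton y)
    | algebraMap r =>
        rw [hσ]
        exact Subalgebra.algebraMap_mem _ _
    | add a c _ _ ha hc =>
        rw [map_add]
        exact add_mem ha hc
    | mul a c _ _ ha hc =>
        rw [map_mul]
        exact mul_mem ha hc
  let φ : ↥(Algebra.adjoin R ({y} : Set F)) →+* ↥(Algebra.adjoin R ({y} : Set F)) :=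
    { toFun := fun a => ⟨σ (a : F), hle a a.2⟩
      map_one' := Subtype.ext (map_one σ)
      map_mul' := fun a c => Subtype.ext (map_mul σ (a : F) (c : F))
      map_zero' := Subtype.ext (map_zero σ)
      map_add' := fun a c => Subtype.ext (map_add σ (a : F) (c : F)) }
  exact IsIntegral.map_of_comp_eq φ σ (RingHom.ext fun _ => rfl) hb

/-- `p₁ ⊓ p₂ = (w)`, elementwise. -/
theorem exists_eq_mul_of_mem_inf (B : Subalgebra R F) (w : R) (p₁ p₂ : Ideal B)
    (hinf : p₁ ⊓ p₂ = Ideal.span {algebraMap R B w}) {d : F} (hd : d ∈ B)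
    (h₁ : (⟨d, hd⟩ : B) ∈ p₁) (h₂ : (⟨d, hd⟩ : B) ∈ p₂) :
    ∃ c ∈ B, d = algebraMap R F w * c := by
  have h : (⟨d, hd⟩ : B) ∈ p₁ ⊓ p₂ := ⟨h₁, h₂⟩
  rw [hinf, Ideal.mem_span_singleton] at h
  obtain ⟨c, hc⟩ := h
  refine ⟨(c : F), c.2, ?_⟩
  have := congrArg (fun z : B => (z : F)) hc
  simpa using this

end Abstract

/-! ### The sub-assembly `Sτ` -/

section Concrete

variable (P : ValuationSubring _root_.Fermat.Agent.A2.Mod.Qb) (E : IntermediateField ℚ _root_.Fermat.Agent.A2.Mod.Qb) (M q : ℕ) [NeZero M] [NeZero q]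
  (w : _root_.Fermat.Agent.A2.Mod.RE P E)

/-- `τ j_d = j_d`. -/
theorem arith_jE (N d : ℕ) [NeZero d] (hd : d ∣ N) (τE : E ≃ₐ[ℚ] E) :
    arithmeticRingAut (modularFunctionFieldFull N) τE (jE E N d hd) = jE E N d hd :=
  Subtype.ext (coeffMap_coeffEmb τE _)

/-- `τ x = x`. -/
theorem arith_xE (τE : E ≃ₐ[ℚ] E) :
    arithmeticRingAut (modularFunctionFieldFull (M * q)) τE (xE E M q) = xE E M q := by
  unfold xE
  rw [map_mul, arith_jE, arith_jE]

/-- An automorphism in the inertia group whose restriction to `E` is `τE` preserves `R_E`. -/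
theorem resE_mem_RE {τ : _root_.Fermat.Agent.A2.Mod.Qb ≃ₐ[ℚ] _root_.Fermat.Agent.A2.Mod.Qb} {τE : E ≃ₐ[ℚ] E} (hτ : τ ∈ P.inertiaSubgroupIn ℚ)
    (hτE : ∀ e : E, ((τE e : E) : _root_.Fermat.Agent.A2.Mod.Qb) = τ (e : _root_.Fermat.Agent.A2.Mod.Qb)) : ∀ a ∈ _root_.Fermat.Agent.A2.Mod.RE P E, τE a ∈ _root_.Fermat.Agent.A2.Mod.RE P E := by
  intro a ha
  have hτD := Fermat.Agent.A2.H708.mem_decomposition_of_mem_inertiaIn P hτ
  rw [ValuationSubring.mem_comap] at ha ⊢
  have e : algebraMap ↥E _root_.Fermat.Agent.A2.Mod.Qb (τE a) = τ (algebraMap ↥E _root_.Fermat.Agent.A2.Mod.Qb a) := hτE a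
  rw [e]
  exact Fermat.Agent.A2.H708.apply_mem_of_mem_decomposition P hτD ha

/-- **Sub-assembly `Sτ`** from `S1` (all leaves from main). -/
theorem stau_of_s1 (hS1 : S1Statement P E M q w) : StauStatement P E M q w := by
  intro hS τ τE hτ hτE
  refine ⟨arith_xE E M q τE, ?_⟩
  intro y hy b hb
  have hN : M * q ≠ 0 := mul_ne_zero hS.M_ne_zero hS.q_prime.ne_zero
  haveI : NeZero (M * q) := ⟨hN⟩
  obtain ⟨V, hV⟩ := H553.vinfExists P E (M * q) hN hS.dvr
  have hW : IsFricke E (M * q) (frickeE E (M * q)) := isFricke_frickeE E (M * q)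
  obtain ⟨p₁, p₂, hc₁, hc₂, -, -, -, -, hinf⟩ := hS1 hS V (frickeE E (M * q)) hV hW y hy
  obtain ⟨-, hconst, hj⟩ := H553.vinfBasic P E w (M * q) hN hS.dvr hS.unif V hV
  obtain ⟨hcomm, hin⟩ := H549.inertia_core P E w (M * q) hN hS.dvr hS.unif V
    (frickeE E (M * q)) hV hW.1 τ τE hτE hτ
  -- notation
  set W := frickeE E (M * q) with hWdef
  set j1 := jE E (M * q) 1 (one_dvd _) with hj1
  set jq' := jE E (M * q) q (dvd_mul_left q M) with hjq
  have hx : xE E M q = j1 * jq' := rfl
  -- (a) constants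
  have hRV : ∀ r : _root_.Fermat.Agent.A2.Mod.RE P E, algebraMap (_root_.Fermat.Agent.A2.Mod.RE P E) (_root_.Fermat.Agent.A2.Mod.FE E (M * q)) r ∈ V := fun r =>
    (hconst (r : E)).mpr r.2
  have hRV0 : ∀ r : _root_.Fermat.Agent.A2.Mod.RE P E, algebraMap (_root_.Fermat.Agent.A2.Mod.RE P E) (_root_.Fermat.Agent.A2.Mod.FE E (M * q)) r ∈
      V.comap (W : _root_.Fermat.Agent.A2.Mod.FE E (M * q) →+* _root_.Fermat.Agent.A2.Mod.FE E (M * q)) := by
    intro r
    rw [ValuationSubring.mem_comap]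
    have h1 : (W : _root_.Fermat.Agent.A2.Mod.FE E (M * q) →+* _root_.Fermat.Agent.A2.Mod.FE E (M * q)) (algebraMap (_root_.Fermat.Agent.A2.Mod.RE P E) (_root_.Fermat.Agent.A2.Mod.FE E (M * q)) r)
        = algebraMap (_root_.Fermat.Agent.A2.Mod.RE P E) (_root_.Fermat.Agent.A2.Mod.FE E (M * q)) r := W.commutes (r : E)
    rw [h1]
    exact hRV r
  -- (b) the coordinate and its inverse
  have hxV : xE E M q ∈ V := by
    rw [hx]; exact V.mul_mem _ _ (hj 1 (one_dvd _)).1 (hj q (dvd_mul_left q M)).1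
  have hxV' : (xE E M q)⁻¹ ∈ V := by
    rw [hx, mul_inv]; exact V.mul_mem _ _ (hj 1 (one_dvd _)).2 (hj q (dvd_mul_left q M)).2
  have hW1 : W j1 = jE E (M * q) (M * q) dvd_rfl :=
    hW.1 1 (M * q) (one_dvd _) dvd_rfl (one_mul _)
  have hWq : W jq' = jE E (M * q) M (dvd_mul_right M q) :=
    hW.1 q M (dvd_mul_left q M) (dvd_mul_right M q) (mul_comm q M)
  have hWx : W (xE E M q) = jE E (M * q) (M * q) dvd_rfl * jE E (M * q) M (dvd_mul_right M q) := by
    rw [hx, map_mul, hW1, hWq]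
  have hxV0 : xE E M q ∈ V.comap (W : _root_.Fermat.Agent.A2.Mod.FE E (M * q) →+* _root_.Fermat.Agent.A2.Mod.FE E (M * q)) := by
    rw [ValuationSubring.mem_comap]
    show W (xE E M q) ∈ V
    rw [hWx]
    exact V.mul_mem _ _ (hj (M * q) dvd_rfl).1 (hj M (dvd_mul_right M q)).1
  have hxV0' : (xE E M q)⁻¹ ∈ V.comap (W : _root_.Fermat.Agent.A2.Mod.FE E (M * q) →+* _root_.Fermat.Agent.A2.Mod.FE E (M * q)) := by
    rw [ValuationSubring.mem_comap]
    show W (xE E M q)⁻¹ ∈ V
    rw [map_inv₀, hWx, mul_inv]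
    exact V.mul_mem _ _ (hj (M * q) dvd_rfl).2 (hj M (dvd_mul_right M q)).2
  have hyV : y ∈ V := by
    rcases hy with rfl | rfl
    · exact hxV
    · exact hxV'
  have hyV0 : y ∈ V.comap (W : _root_.Fermat.Agent.A2.Mod.FE E (M * q) →+* _root_.Fermat.Agent.A2.Mod.FE E (M * q)) := by
    rcases hy with rfl | rfl
    · exact hxV0
    · exact hxV0'
  -- (c) `b ∈ V ∩ V₀`
  have hbI : IsIntegral (Algebra.adjoin (_root_.Fermat.Agent.A2.Mod.RE P E) ({y} : Set (_root_.Fermat.Agent.A2.Mod.FE E (M * q)))) b := hb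
  have hbV : b ∈ V := mem_valuationSubring_of_isIntegral_adjoin V hRV hyV hbI
  have hbV0 : W b ∈ V := by
    have := mem_valuationSubring_of_isIntegral_adjoin
      (V.comap (W : _root_.Fermat.Agent.A2.Mod.FE E (M * q) →+* _root_.Fermat.Agent.A2.Mod.FE E (M * q))) hRV0 hyV0 hbI
    rwa [ValuationSubring.mem_comap] at this
  -- (d) `τ b ∈ B`
  have hσA := resE_mem_RE P E hτ hτE
  have hτy : arithmeticRingAut (modularFunctionFieldFull (M * q)) τE y = y := by
    rcases hy with rfl | rfl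
    · exact arith_xE E M q τE
    · rw [map_inv₀, arith_xE]
  have hτb : arithmeticRingAut (modularFunctionFieldFull (M * q)) τE b ∈
      chartAlg P E (M * q) y := by
    have h1 := isIntegral_adjoin_map (R := _root_.Fermat.Agent.A2.Mod.RE P E) (F := _root_.Fermat.Agent.A2.Mod.FE E (M * q))
      ((arithmeticRingAut (modularFunctionFieldFull (M * q)) τE :
        _root_.Fermat.Agent.A2.Mod.FE E (M * q) ≃+* _root_.Fermat.Agent.A2.Mod.FE E (M * q)) : _root_.Fermat.Agent.A2.Mod.FE E (M * q) →+* _root_.Fermat.Agent.A2.Mod.FE E (M * q))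
      (H549.resA (_root_.Fermat.Agent.A2.Mod.RE P E) τE hσA)
      (fun r => arithmeticRingAut_algebraMap (modularFunctionFieldFull (M * q)) τE (r : E))
      hτy hbI
    exact h1
  have hd : arithmeticRingAut (modularFunctionFieldFull (M * q)) τE b - b ∈
      chartAlg P E (M * q) y := sub_mem hτb hb
  -- (e) `τ b - b ∈ w V ∩ w V₀`
  have h₁ : InW P E (M * q) V w
      (arithmeticRingAut (modularFunctionFieldFull (M * q)) τE b - b) := hin b hbV
  have h₂ : InW P E (M * q) (V.comap (W : _root_.Fermat.Agent.A2.Mod.FE E (M * q) →+* _root_.Fermat.Agent.A2.Mod.FE E (M * q))) w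
      (arithmeticRingAut (modularFunctionFieldFull (M * q)) τE b - b) := by
    have h3 := hin (W b) hbV0
    show (arithmeticRingAut (modularFunctionFieldFull (M * q)) τE b - b) * (cE P E (M * q) w)⁻¹
      ∈ V.comap (W : _root_.Fermat.Agent.A2.Mod.FE E (M * q) →+* _root_.Fermat.Agent.A2.Mod.FE E (M * q))
    rw [ValuationSubring.mem_comap]
    show W ((arithmeticRingAut (modularFunctionFieldFull (M * q)) τE b - b)
      * (cE P E (M * q) w)⁻¹) ∈ V
    have hWc : W (cE P E (M * q) w) = cE P E (M * q) w := W.commutes (w : E)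
    rw [map_mul, map_sub, map_inv₀, hWc, ← hcomm b]
    exact h3
  -- (f) conclusion
  exact exists_eq_mul_of_mem_inf (chartAlg P E (M * q) y) w p₁ p₂ hinf hd
    ((hc₁ ⟨_, hd⟩).mpr h₁) ((hc₂ ⟨_, hd⟩).mpr h₂)

end Concrete

end Fermat.Agent.A2.Mod.H751

end
end
-- ===== PACK-END A2/Mod/H751/Stau.lean

-- ===== PACK-BEGIN S37/H98/RiemannBound.lean
section



/-!
# S37 (helper98): the Riemann bound from Riemann's inequality

Input (I5)/(c) of the bounded-homomorphism route (origin/helper697:coord/S37-e-route-helper697.md):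
every divisor of degree `0` of a function field `F/K` (standing hypotheses `FF1 K F` of the shared
library `Lib/RR`) is linearly equivalent to a divisor `E - g • P₀` with `E ≥ 0` of degree
`g = genusR K F`; in particular to a divisor of `ℓ¹`-norm `≤ 2 g`.

* `exists_effective_sub_mem_principal` : the representative `E - g • P₀`.
* `riemannBound` : `∃ B, ∀ D, deg D = 0 → ∃ E, ‖E‖₁ ≤ B ∧ D - E ∈ principal`, stated with the
  `ℓ¹`-norm unfolded (`E.sum fun _ n => n.natAbs`), so that it is definitionally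
  `Fermat.Agent.S37.H697.RiemannBound K F` (`exact riemannBound` closes that goal).
* `riemannBound_modularFunctionFieldBar N` : the instance for `ℚ̄(X₀(N))`.
-/

set_option autoImplicit false

noncomputable section

open AlgebraicCurve

namespace Fermat.Agent.S37.H98

open Fermat.Agent.Lib.RR

variable {K F : Type*} [Field K] [Field F] [Algebra K F]

/-- The `ℓ¹`-norm is subadditive (raw `Finsupp.sum` form). -/
theorem sum_natAbs_add_le {X : Type*} (D E : X →₀ ℤ) :
    ((D + E).sum fun _ n => n.natAbs) ≤ (D.sum fun _ n => n.natAbs) + E.sum fun _ n => n.natAbs := by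
  classical
  have h1 : (D + E).sum (fun _ n => n.natAbs)
      = ∑ x ∈ D.support ∪ E.support, ((D + E) x).natAbs :=
    Finsupp.sum_of_support_subset _ Finsupp.support_add _ (fun _ _ => rfl)
  have h2 : D.sum (fun _ n => n.natAbs) = ∑ x ∈ D.support ∪ E.support, (D x).natAbs :=
    Finsupp.sum_of_support_subset _ Finset.subset_union_left _ (fun _ _ => rfl)
  have h3 : E.sum (fun _ n => n.natAbs) = ∑ x ∈ D.support ∪ E.support, (E x).natAbs :=
    Finsupp.sum_of_support_subset _ Finset.subset_union_right _ (fun _ _ => rfl)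
  rw [h1, h2, h3, ← Finset.sum_add_distrib]
  exact Finset.sum_le_sum fun x _ => by
    rw [Finsupp.add_apply]; exact Int.natAbs_add_le _ _

/-- For an effective divisor on a curve all of whose places have degree one, the `ℓ¹`-norm is
the degree. -/
theorem sum_natAbs_eq_degree [FF1 K F] {E : Divisor K F} (hE : 0 ≤ E) :
    ((E.sum fun _ n => n.natAbs : ℕ) : ℤ) = Divisor.degree E := by
  rw [degree_eq_sum, Finsupp.sum, Nat.cast_sum]
  refine Finset.sum_congr rfl fun v _ => ?_
  have h0 : 0 ≤ E v := by simpa using Finsupp.le_def.mp hE v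
  rw [deg_eq_one v, Nat.cast_one, mul_one]
  exact Int.natAbs_of_nonneg h0

/-- Every divisor `D` is linearly equivalent to `E - (g + deg D) • P₀`... in the form needed:
if `deg D = 0` then `D ~ E - g • P₀` with `E ≥ 0` of degree `g`, for ANY `g` satisfying Riemann's
inequality. -/
theorem exists_effective_sub_mem_principal_of [FF1 K F] (g : ℕ)
    (hR : ∀ D : Divisor K F, Divisor.degree D + 1 - (g : ℤ) ≤ ell D)
    (P₀ : Place K F) (D : Divisor K F) (hD : Divisor.degree D = 0) :
    ∃ E : Divisor K F, 0 ≤ E ∧ Divisor.degree E = g ∧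
      D - (E - (g : ℤ) • prim P₀) ∈ Divisor.principal (K := K) (F := F) := by
  have hdeg : Divisor.degree (D + (g : ℤ) • prim P₀) = g := by
    rw [map_add, map_zsmul, hD, degree_prim', zero_add, smul_eq_mul, mul_one]
  have hpos : 0 < ell (D + (g : ℤ) • prim P₀) := by
    have h := hR (D + (g : ℤ) • prim P₀)
    rw [hdeg] at h
    have : (0 : ℤ) < ell (D + (g : ℤ) • prim P₀) := by omega
    exact_mod_cast this
  obtain ⟨z, hz, hmem⟩ := Fermat.Agent.Lib.RR.H98.exists_ne_zero_mem_L_of_ell_pos hpos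
  refine ⟨D + (g : ℤ) • prim P₀ + divOf (K := K) z hz, ?_, ?_, ?_⟩
  · rw [Finsupp.le_def]
    intro v
    rw [mem_L_iff] at hmem
    rcases hmem v with h0 | h
    · exact absurd h0 hz
    · rw [Finsupp.add_apply, divOf_apply, Finsupp.zero_apply]
      omega
  · rw [map_add, hdeg, degree_divOf, add_zero]
  · have : D - (D + (g : ℤ) • prim P₀ + divOf (K := K) z hz - (g : ℤ) • prim P₀)
        = -divOf (K := K) z hz := by abel
    rw [this]
    exact (Divisor.principal (K := K) (F := F)).neg_mem ⟨z, hz, fun v => divOf_apply z hz v⟩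

/-- Every divisor of degree `0` is linearly equivalent to `E - g • P₀` with `E ≥ 0` of degree
`g = genusR K F`. -/
theorem exists_effective_sub_mem_principal [FF1 K F] (P₀ : Place K F) (D : Divisor K F)
    (hD : Divisor.degree D = 0) :
    ∃ E : Divisor K F, 0 ≤ E ∧ Divisor.degree E = genusR K F ∧
      D - (E - (genusR K F : ℤ) • prim P₀) ∈ Divisor.principal (K := K) (F := F) :=
  exists_effective_sub_mem_principal_of (genusR K F) (fun D' => riemann_inequality D') P₀ D hD

/-- **Riemann bound**: every divisor of degree `0` is linearly equivalent to a divisor of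
`ℓ¹`-norm at most `2 g`.  (Definitionally `Fermat.Agent.S37.H697.RiemannBound K F`.) -/
theorem riemannBound [FF1 K F] :
    ∃ B : ℕ, ∀ D : Divisor K F, Divisor.degree D = 0 →
      ∃ E : Divisor K F, (E.sum fun _ n => n.natAbs) ≤ B ∧
        D - E ∈ Divisor.principal (K := K) (F := F) := by
  obtain ⟨P₀⟩ := (inferInstance : FF1 K F).nonempty_place
  refine ⟨2 * genusR K F, fun D hD => ?_⟩
  obtain ⟨E, hE, hEdeg, hmem⟩ := exists_effective_sub_mem_principal P₀ D hD
  refine ⟨E - (genusR K F : ℤ) • prim P₀, ?_, hmem⟩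
  have h1 : ((E.sum fun _ n => n.natAbs : ℕ) : ℤ) = genusR K F := by
    rw [sum_natAbs_eq_degree hE, hEdeg]
  have h1' : (E.sum fun _ n => n.natAbs) = genusR K F := by exact_mod_cast h1
  have h2 : ((-((genusR K F : ℤ) • prim P₀) : Divisor K F).sum fun _ n => n.natAbs)
      ≤ genusR K F := by
    have : (-((genusR K F : ℤ) • prim P₀) : Divisor K F)
        = Finsupp.single P₀ (-(genusR K F : ℤ)) := by
      rw [prim, Finsupp.smul_single, smul_eq_mul, mul_one, Finsupp.single_neg]
    rw [this, Finsupp.sum_single_index (by simp)]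
    simp
  have h3 := sum_natAbs_add_le E (-((genusR K F : ℤ) • prim P₀))
  rw [← sub_eq_add_neg] at h3
  omega

/-- The Riemann bound for the function field of `X₀(N)` over `ℚ̄`. -/
theorem riemannBound_modularFunctionFieldBar (N : ℕ) [NeZero N] :
    ∃ B : ℕ, ∀ D : Divisor (AlgebraicClosure ℚ) ↥(ModularCurve.modularFunctionFieldBar N),
      Divisor.degree D = 0 →
      ∃ E : Divisor (AlgebraicClosure ℚ) ↥(ModularCurve.modularFunctionFieldBar N),
        (E.sum fun _ n => n.natAbs) ≤ B ∧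
        D - E ∈ Divisor.principal (K := AlgebraicClosure ℚ)
          (F := ↥(ModularCurve.modularFunctionFieldBar N)) := by
  have := Fermat.Agent.Lib.RR.H864.ff1_modularFunctionFieldBar N
  exact riemannBound

end Fermat.Agent.S37.H98

end
end
-- ===== PACK-END S37/H98/RiemannBound.lean

-- ===== PACK-BEGIN S18/H965/GlueLemmas.lean
section





/-!
# S18 / GLUE (helper965): lemmas for `node_glue`

Interface-independent lemmas about the concrete objects of `Mod/Defs.lean`:

* `coeff_mem_of_mem_Fc`      : elements of `Fc M E` have `q`-expansion coefficients in `E`;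
* `exists_finset_mem_Fc`     : every `f ∈ Ω = F_M` lies in `Fc M E` as soon as `E` contains a
                               finite set `T` of constants (descent to a number field);
* `natCast_inv_mem_Rc`       : `ℓ ∤ m` ⟹ `m⁻¹ ∈ Rc M A E`;
* `exists_unit_twist`        : the divisor hypothesis of `CoreStatement` in the valuation-subring
                               form required by `Alg.AlgMainStatement`;
* `sub_one_mul_inv_mem_VcSet`: `u = U₁/U₂`, `Ū₁ = Ū₂` ⟹ `(u - 1)/w ∈ VcSet M A E`.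
-/

set_option autoImplicit false

noncomputable section

namespace Fermat.Agent.S18.H965

open ModularCurve AlgebraicCurve HahnSeries Fermat.Agent.S18 Fermat.Agent.S18.Mod

variable (M : ℕ) (E : IntermediateField ℚ Qb)

/-- The subfield of `Ω = F_M` of series all of whose coefficients lie in `E`. -/
def coeffField : Subfield (Om M) :=
  ((coeffMap (algebraMap (↥E) Qb)).fieldRange).comap
    (algebraMap (Om M) (LaurentSeries Qb))

variable {M E}

theorem coeff_mem_of_mem_coeffField {f : Om M} (hf : f ∈ coeffField M E) (n : ℤ) :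
    ((f : LaurentSeries Qb)).coeff n ∈ E := by
  obtain ⟨y, hy⟩ := hf
  have h : (f : LaurentSeries Qb) = coeffMap (algebraMap (↥E) Qb) y := hy.symm
  rw [h, coeffMap_coeff]
  exact (y.coeff n).2

theorem Ec_le_coeffField : Ec M E ≤ coeffField M E := by
  rintro y ⟨a, ha, rfl⟩
  refine ⟨HahnSeries.single 0 ⟨a, ha⟩, ?_⟩
  rw [coeffMap_single]
  change _ = algebraMap Qb (LaurentSeries Qb) a
  rw [algebraMap_laurentSeries_eq_single]
  rfl

theorem gens_subset_coeffField : gens M ⊆ (coeffField M E : Set (Om M)) := by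
  rintro y ⟨d, hd, hdM, rfl⟩
  refine ⟨coeffMap (algebraMap ℚ (↥E)) (qExpand ℚ d jq), ?_⟩
  rw [coeffMap_coeffMap]
  change _ = coeffEmb Qb (qExpand ℚ d jq)
  unfold coeffEmb
  exact coeffMap_congr (RingHom.ext fun c => rfl) _

theorem Fc_le_coeffField : Fc M E ≤ coeffField M E := by
  unfold Fc
  rw [Subfield.closure_le]
  rintro y (hy | hy)
  · exact Ec_le_coeffField hy
  · exact gens_subset_coeffField hy

/-- Elements of `Fc M E` have all their `q`-expansion coefficients in `E`. -/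
theorem coeff_mem_of_mem_Fc {f : Om M} (hf : f ∈ Fc M E) (n : ℤ) :
    ((f : LaurentSeries Qb)).coeff n ∈ E :=
  coeff_mem_of_mem_coeffField (Fc_le_coeffField hf) n


/-! ### Descent to a number field -/

theorem Ec_le_Fc : Ec M E ≤ Fc M E := fun _ hy =>
  Subfield.subset_closure (Or.inl hy)

theorem algebraMap_mem_Ec {a : Qb} (ha : a ∈ E) : algebraMap Qb (Om M) a ∈ Ec M E :=
  ⟨a, ha, rfl⟩

theorem algebraMap_mem_Fc {a : Qb} (ha : a ∈ E) : algebraMap Qb (Om M) a ∈ Fc M E :=
  Ec_le_Fc (algebraMap_mem_Ec ha)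

/-- The image of `ℚ(j_d : d ∣ M)` lies in `Fc M E` for every `E`. -/
theorem exists_mem_Fc_of_mem_full {z : LaurentSeries ℚ} (hz : z ∈ modularFunctionFieldFull M) :
    ∃ f ∈ Fc M E, (f : LaurentSeries Qb) = coeffEmb Qb z := by
  unfold modularFunctionFieldFull at hz
  induction hz using IntermediateField.adjoin_induction with
  | mem y hy =>
      obtain ⟨d, hd, hdM, rfl⟩ := hy
      exact ⟨jd M d hdM, Subfield.subset_closure (Or.inr ⟨d, hd, hdM, rfl⟩), rfl⟩
  | algebraMap r =>
      refine ⟨algebraMap Qb (Om M) (algebraMap ℚ Qb r),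
        algebraMap_mem_Fc (E.algebraMap_mem r), ?_⟩
      change algebraMap Qb (LaurentSeries Qb) (algebraMap ℚ Qb r) = _
      rw [algebraMap_laurentSeries_eq_single, algebraMap_laurentSeries_eq_single]
      unfold coeffEmb
      rw [coeffMap_single]
  | add x y _ _ hx hy =>
      obtain ⟨f, hf, hfx⟩ := hx
      obtain ⟨g, hg, hgy⟩ := hy
      exact ⟨f + g, add_mem hf hg, by rw [map_add, ← hfx, ← hgy]; rfl⟩
  | inv x _ hx =>
      obtain ⟨f, hf, hfx⟩ := hx
      exact ⟨f⁻¹, inv_mem hf, by rw [map_inv₀, ← hfx]; rfl⟩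
  | mul x y _ _ hx hy =>
      obtain ⟨f, hf, hfx⟩ := hx
      obtain ⟨g, hg, hgy⟩ := hy
      exact ⟨f * g, mul_mem hf hg, by rw [map_mul, ← hfx, ← hgy]; rfl⟩

variable (M) in
/-- **Descent.**  Every element of `Ω = F_M` lies in `Fc M E` as soon as the number field `E`
contains a certain finite set of constants. -/
theorem exists_finset_series (x : LaurentSeries Qb) (hx : x ∈ modularFunctionFieldBar M) :
    ∃ T : Finset Qb, ∀ E : IntermediateField ℚ Qb, (∀ a ∈ T, a ∈ E) →
      ∃ f ∈ Fc M E, (f : LaurentSeries Qb) = x := by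
  classical
  rw [mem_laurentBaseChange_iff] at hx
  induction hx using Subfield.closure_induction with
  | mem y hy =>
      rcases hy with ⟨a, rfl⟩ | ⟨z, hz, rfl⟩
      · refine ⟨{a}, fun E hE => ⟨algebraMap Qb (Om M) a, algebraMap_mem_Fc (hE a (by simp)), rfl⟩⟩
      · exact ⟨∅, fun E _ => exists_mem_Fc_of_mem_full hz⟩
  | one => exact ⟨∅, fun E _ => ⟨1, one_mem _, rfl⟩⟩
  | add x y _ _ hx hy =>
      obtain ⟨T₁, h₁⟩ := hx
      obtain ⟨T₂, h₂⟩ := hy
      refine ⟨T₁ ∪ T₂, fun E hE => ?_⟩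
      obtain ⟨f, hf, hfx⟩ := h₁ E (fun a ha => hE a (Finset.mem_union_left _ ha))
      obtain ⟨g, hg, hgy⟩ := h₂ E (fun a ha => hE a (Finset.mem_union_right _ ha))
      exact ⟨f + g, add_mem hf hg, by rw [← hfx, ← hgy]; rfl⟩
  | neg x _ hx =>
      obtain ⟨T₁, h₁⟩ := hx
      refine ⟨T₁, fun E hE => ?_⟩
      obtain ⟨f, hf, hfx⟩ := h₁ E hE
      exact ⟨-f, neg_mem hf, by rw [← hfx]; rfl⟩
  | inv x _ hx =>
      obtain ⟨T₁, h₁⟩ := hx
      refine ⟨T₁, fun E hE => ?_⟩
      obtain ⟨f, hf, hfx⟩ := h₁ E hE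
      exact ⟨f⁻¹, inv_mem hf, by rw [← hfx]; rfl⟩
  | mul x y _ _ hx hy =>
      obtain ⟨T₁, h₁⟩ := hx
      obtain ⟨T₂, h₂⟩ := hy
      refine ⟨T₁ ∪ T₂, fun E hE => ?_⟩
      obtain ⟨f, hf, hfx⟩ := h₁ E (fun a ha => hE a (Finset.mem_union_left _ ha))
      obtain ⟨g, hg, hgy⟩ := h₂ E (fun a ha => hE a (Finset.mem_union_right _ ha))
      exact ⟨f * g, mul_mem hf hg, by rw [← hfx, ← hgy]; rfl⟩

variable (M) in
/-- **Descent**, elementwise form. -/
theorem exists_finset_mem_Fc (f : Om M) :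
    ∃ T : Finset Qb, ∀ E : IntermediateField ℚ Qb, (∀ a ∈ T, a ∈ E) → f ∈ Fc M E := by
  obtain ⟨T, hT⟩ := exists_finset_series M (f : LaurentSeries Qb) f.2
  refine ⟨T, fun E hE => ?_⟩
  obtain ⟨g, hg, hgf⟩ := hT E hE
  have : g = f := Subtype.ext hgf
  exact this ▸ hg


/-! ### `m` is a unit of `A ∩ E` -/

theorem natCast_inv_mem_valuationSubring {ℓ : ℕ} (hℓ : ℓ.Prime) (A : ValuationSubring Qb)
    (hA : A.LiesOverPrime ℓ) {m : ℕ} (hm : ¬ ℓ ∣ m) : ((m : Qb))⁻¹ ∈ A := by
  have hcop : IsCoprime (ℓ : ℤ) (m : ℤ) :=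
    Nat.isCoprime_iff_coprime.mpr ((Nat.Prime.coprime_iff_not_dvd hℓ).mpr hm)
  obtain ⟨a, b, hab⟩ := hcop
  have habQ : (a : Qb) * (ℓ : Qb) + (b : Qb) * (m : Qb) = 1 := by exact_mod_cast hab
  have hℓv : A.valuation (ℓ : Qb) < 1 := (A.mem_nonunits_iff).mp hA
  have hint : ∀ c : ℤ, A.valuation (c : Qb) ≤ 1 := fun c =>
    (A.valuation_le_one_iff _).mpr (intCast_mem A c)
  have hmle : A.valuation (m : Qb) ≤ 1 := (A.valuation_le_one_iff _).mpr (natCast_mem A m)
  have hmge : ¬ A.valuation (m : Qb) < 1 := by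
    intro hlt
    have h1 : A.valuation ((a : Qb) * (ℓ : Qb)) < 1 := by
      rw [map_mul]
      calc A.valuation (a : Qb) * A.valuation (ℓ : Qb) ≤ 1 * A.valuation (ℓ : Qb) :=
            mul_le_mul' (hint a) le_rfl
        _ = A.valuation (ℓ : Qb) := one_mul _
        _ < 1 := hℓv
    have h2 : A.valuation ((b : Qb) * (m : Qb)) < 1 := by
      rw [map_mul]
      calc A.valuation (b : Qb) * A.valuation (m : Qb) ≤ 1 * A.valuation (m : Qb) :=
            mul_le_mul' (hint b) le_rfl
        _ = A.valuation (m : Qb) := one_mul _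
        _ < 1 := hlt
    have h3 : A.valuation ((a : Qb) * (ℓ : Qb) + (b : Qb) * (m : Qb)) < 1 :=
      Valuation.map_add_lt _ h1 h2
    rw [habQ, map_one] at h3
    exact lt_irrefl _ h3
  have hm1 : A.valuation (m : Qb) = 1 := le_antisymm hmle (not_lt.mp hmge)
  rw [← A.valuation_le_one_iff, map_inv₀, hm1, inv_one]

theorem mem_Rc_iff {A : ValuationSubring Qb} {y : Om M} :
    y ∈ Rc M A E ↔ ∃ a : Qb, a ∈ A ∧ a ∈ E ∧ algebraMap Qb (Om M) a = y := by
  constructor
  · rintro ⟨a, ⟨haA, haE⟩, rfl⟩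
    exact ⟨a, haA, haE, rfl⟩
  · rintro ⟨a, haA, haE, rfl⟩
    exact ⟨a, ⟨haA, haE⟩, rfl⟩

theorem natCast_inv_mem_Rc {ℓ : ℕ} (hℓ : ℓ.Prime) (A : ValuationSubring Qb)
    (hA : A.LiesOverPrime ℓ) {m : ℕ} (hm : ¬ ℓ ∣ m) : ((m : Om M))⁻¹ ∈ Rc M A E := by
  rw [mem_Rc_iff]
  refine ⟨((m : Qb))⁻¹, natCast_inv_mem_valuationSubring hℓ A hA hm,
    inv_mem (natCast_mem E m), ?_⟩
  rw [map_inv₀, map_natCast]

theorem Rc_le_Ec {A : ValuationSubring Qb} {y : Om M} (hy : y ∈ Rc M A E) : y ∈ Ec M E := by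
  obtain ⟨a, -, haE, rfl⟩ := mem_Rc_iff.mp hy
  exact algebraMap_mem_Ec haE

/-! ### The divisor hypothesis in valuation-subring form -/

theorem exists_unit_twist [NeZero M] {m : ℕ} {f g : Om M} (hf : f ≠ 0) (hg : g ≠ 0)
    (hdiv : ∀ v : Place Qb (modularFunctionFieldBar M), (m : ℤ) ∣ v.ord f - v.ord g)
    (O : ValuationSubring (Om M)) (hO : ∀ a ∈ Lc M, a ∈ O) :
    ∃ t : Om M, t ≠ 0 ∧ (f / g) * t ^ m ∈ O ∧ ((f / g) * t ^ m)⁻¹ ∈ O := by
  by_cases hO' : O = ⊤
  · subst hO'
    exact ⟨1, one_ne_zero, ValuationSubring.mem_top _, ValuationSubring.mem_top _⟩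
  obtain ⟨P⟩ := Fermat.Agent.S24.nonempty_modularPackage M
  have := P.finiteDimensional
  obtain ⟨v, hv⟩ := Fermat.Agent.Lib.RR.H443.exists_place_eq O
    (fun a => hO _ ⟨a, rfl⟩) hO' (Fermat.Agent.Lib.RR.H864.transcendental_jF M)
  obtain ⟨k, hk⟩ := hdiv v
  obtain ⟨π, hπ⟩ := Fermat.Agent.Lib.RR.exists_ord_eq_one v
  have hπ0 : π ≠ 0 := Fermat.Agent.Lib.RR.ne_zero_of_ord_ne_zero v (by rw [hπ]; exact one_ne_zero)
  have ht0 : π ^ (-k) ≠ 0 := zpow_ne_zero _ hπ0
  have hfg : f / g ≠ 0 := div_ne_zero hf hg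
  have hord : v.ord ((f / g) * (π ^ (-k)) ^ m) = 0 := by
    rw [v.ord_mul hfg (pow_ne_zero _ ht0), div_eq_mul_inv, v.ord_mul hf (inv_ne_zero hg),
      v.ord_inv, Fermat.Agent.Lib.RR.ord_pow, v.ord_zpow, hπ]
    have : v.ord f = v.ord g + m * k := by linarith
    rw [this]
    ring
  refine ⟨π ^ (-k), ht0, ?_, ?_⟩
  · rw [← hv]
    exact Fermat.Agent.Lib.RR.mem_of_ord_nonneg v (by rw [hord])
  · rw [← hv]
    exact Fermat.Agent.Lib.RR.mem_of_ord_nonneg v (by rw [v.ord_inv, hord, neg_zero])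


/-! ### `u ≡ 1` modulo the uniformiser -/

/-- A series over `Q̄` with coefficients in `A` comes from a series over `A`. -/
theorem exists_series_of_coeff_mem (A : ValuationSubring Qb) (x : LaurentSeries Qb)
    (hx : ∀ n, x.coeff n ∈ A) : ∃ U : LaurentSeries A, coeffMap A.subtype U = x := by
  refine ⟨⟨fun n => ⟨x.coeff n, hx n⟩, x.isPWO_support.mono ?_⟩, ?_⟩
  · intro n hn
    rw [HahnSeries.mem_support]
    intro h0
    exact hn (Subtype.ext h0)
  · ext n
    rfl

theorem toF_ne_zero {A : ValuationSubring Qb} {U : LaurentSeries A} (hU : IsInt A M U) :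
    toF hU ≠ 0 := by
  intro h0
  apply hU.2.2
  have h1 : coeffMap A.subtype U = 0 := congrArg Subtype.val h0
  have h2 : U = 0 := by
    ext n
    have := congrArg (fun x => x.coeff n) h1
    simpa using this
  rw [h2, map_zero]

theorem coe_toF {A : ValuationSubring Qb} {U : LaurentSeries A} (hU : IsInt A M U) :
    ((toF hU : Om M) : LaurentSeries Qb) = coeffMap A.subtype U := rfl

/-- **`u ≡ 1 mod w`.**  If `U₁, U₂` are integral with the same reduction and `toF U_i ∈ Fc M E`,
then `(U₁/U₂ - 1)/w` lies in the Gauss valuation ring `VcSet M A E`, for any `w` generating the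
maximal ideal of `Rc M A E`. -/
theorem sub_one_mul_inv_mem_VcSet (A : ValuationSubring Qb) {U₁ U₂ : LaurentSeries A}
    (h₁ : IsInt A M U₁) (h₂ : IsInt A M U₂)
    (hred : coeffMap (IsLocalRing.residue A) U₁ = coeffMap (IsLocalRing.residue A) U₂)
    (hf₁ : toF h₁ ∈ Fc M E) (hf₂ : toF h₂ ∈ Fc M E)
    {w : Om M} (hw : w ∈ Rc M A E)
    (hgen : ∀ r ∈ Rc M A E, r⁻¹ ∉ Rc M A E → r * w⁻¹ ∈ Rc M A E) :
    (toF h₁ / toF h₂ - 1) * w⁻¹ ∈ VcSet M A E := by
  obtain ⟨w', hw'A, hw'E, rfl⟩ := mem_Rc_iff.mp hw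
  have hg0 : toF h₂ ≠ 0 := toF_ne_zero h₂
  have hwF : algebraMap Qb (Om M) w' ∈ Fc M E := algebraMap_mem_Fc hw'E
  set f : Om M := (toF h₁ - toF h₂) * (algebraMap Qb (Om M) w')⁻¹ with hf
  have hfF : f ∈ Fc M E := mul_mem (sub_mem hf₁ hf₂) (inv_mem hwF)
  have huF : (toF h₁ / toF h₂ - 1) * (algebraMap Qb (Om M) w')⁻¹ ∈ Fc M E :=
    mul_mem (sub_mem (div_mem hf₁ hf₂) (one_mem _)) (inv_mem hwF)
  -- coefficients of `f`
  have hcoeff : ∀ n : ℤ, (f : LaurentSeries Qb).coeff n
      = ((U₁.coeff n : Qb) - (U₂.coeff n : Qb)) * w'⁻¹ := by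
    intro n
    have e1 : (f : LaurentSeries Qb) = (coeffMap A.subtype U₁ - coeffMap A.subtype U₂)
        * (algebraMap Qb (LaurentSeries Qb) w')⁻¹ := rfl
    rw [e1, ← map_inv₀, algebraMap_laurentSeries_eq_single, HahnSeries.coeff_mul_single_zero,
      HahnSeries.coeff_sub, coeffMap_coeff, coeffMap_coeff]
    rfl
  have hcoeffE : ∀ (U : LaurentSeries A) (hU : IsInt A M U), toF hU ∈ Fc M E →
      ∀ n : ℤ, ((U.coeff n : A) : Qb) ∈ E := by
    intro U hU hUF n
    have := coeff_mem_of_mem_Fc hUF n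
    rwa [coe_toF, coeffMap_coeff] at this
  have hcoeffA : ∀ n : ℤ, (f : LaurentSeries Qb).coeff n ∈ A := by
    intro n
    rw [hcoeff]
    set d : A := U₁.coeff n - U₂.coeff n with hd
    have hdval : ((U₁.coeff n : Qb) - (U₂.coeff n : Qb)) = (d : Qb) := rfl
    rw [hdval]
    have hdE : (d : Qb) ∈ E := sub_mem (hcoeffE U₁ h₁ hf₁ n) (hcoeffE U₂ h₂ hf₂ n)
    have hres : IsLocalRing.residue A d = 0 := by
      have := congrArg (fun x => x.coeff n) hred
      simp only [coeffMap_coeff] at this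
      rw [hd, map_sub, this, sub_self]
    have hnu : ¬ IsUnit d := by
      rw [IsLocalRing.residue_eq_zero_iff] at hres
      exact (IsLocalRing.mem_maximalIdeal _).mp hres
    by_cases hd0 : (d : Qb) = 0
    · rw [hd0, zero_mul]
      exact A.zero_mem
    have hr : algebraMap Qb (Om M) (d : Qb) ∈ Rc M A E := mem_Rc_iff.mpr ⟨d, d.2, hdE, rfl⟩
    have hr' : (algebraMap Qb (Om M) (d : Qb))⁻¹ ∉ Rc M A E := by
      intro hmem
      obtain ⟨b, hbA, -, hb⟩ := mem_Rc_iff.mp hmem
      rw [← map_inv₀] at hb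
      have hb' : b = (d : Qb)⁻¹ := (algebraMap Qb (Om M)).injective hb
      apply hnu
      refine IsUnit.of_mul_eq_one (⟨b, hbA⟩ : A) (Subtype.ext ?_)
      change (d : Qb) * b = 1
      rw [hb', mul_inv_cancel₀ hd0]
    obtain ⟨c, hcA, -, hc⟩ := mem_Rc_iff.mp (hgen _ hr hr')
    rw [← map_inv₀, ← map_mul] at hc
    have hc' : c = (d : Qb) * w'⁻¹ := (algebraMap Qb (Om M)).injective hc
    rw [← hc']
    exact hcA
  obtain ⟨W₁, hW₁⟩ := exists_series_of_coeff_mem A (f : LaurentSeries Qb) hcoeffA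
  refine ⟨huF, W₁, U₂, ⟨?_, f, hfF, hW₁.symm⟩, ⟨hcoeffE U₂ h₂ hf₂, toF h₂, hf₂, rfl⟩,
    h₂.2.2, ?_⟩
  · intro n
    have := coeff_mem_of_mem_Fc hfF n
    rwa [← hW₁, coeffMap_coeff] at this
  · rw [hW₁, ← coe_toF h₂]
    have : (toF h₁ / toF h₂ - 1) * (algebraMap Qb (Om M) w')⁻¹ * toF h₂ = f := by
      rw [hf]
      field_simp
    rw [← this]
    rfl

end Fermat.Agent.S18.H965

end
end
-- ===== PACK-END S18/H965/GlueLemmas.lean

-- ===== PACK-BEGIN S17/H500/TopData.lean
section




/-!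
# S17 / tower H : TOP-GLUE, the concrete data (architect helper500)

`Contract E E d₀` (WALL) + geometry  ⟹  `PairingPackage (MWG F₀)`  (input of the formal layer,
`S17/H500/Formal.lean`).  For `F₀ = modularFunctionFieldFull N` one has `MWG F₀ = MW N` (`rfl`).

* `TopInput F₀` : one embedding `E` (Galois-fixed basis, `x₀ = 1`, `∞` invariant), the degree `d`
  of the representatives, the ramification divisor `Rt ≥ 0` (invariant, prime to `∞`) and the
  integer `c` with `deg Rt = 2g - 2 + c`  (`div(dt) = Rt - c ∞`).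
* data: `Dv` (effective invariant divisors), `degHom`, `clsHom`, `Disj`, `Good`, `naive`, `pair`,
  `del`, `Ksum`, `Pl`, `Lin`, `htL`, `ZL`, `infD`, `oneL`, `RtD`.
* `GaussPlus I` : the form of (GAUSS) needed by TOP  (`K₀ = Rt - c ∞`).
* `Mov1Statement I`, `NorthcottStatement I` : the two geometric inputs not yet on main.
* one `Prop` per field of `PairingPackage` (`…Leaf I`), `structure Leaves I`, and
  `mkPackage I (h : Leaves I) : PairingPackage (MWG F₀)`.

Everything here is complete (definitions + the constructor).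
-/

set_option autoImplicit false

noncomputable section

open AlgebraicCurve

namespace Fermat.Agent.S17.H500.Top

open Fermat.Agent.Lib.RR Fermat.Agent.S17.HWall Fermat.Agent.S17.HContract
open Fermat.Agent.S17.H77 Fermat.Agent.S17.H680 Fermat.Agent.S17.H980 ModularCurve

variable (F₀ : IntermediateField ℚ (LaurentSeries ℚ)) [FF1 Qb (laurentBaseChange Qb F₀)]

/-- The Mordell--Weil group `Pic⁰(F)^{G_ℚ}`. -/
abbrev MWG : AddSubgroup (Pic0 Qb (laurentBaseChange Qb F₀)) :=
  FixedPoints.addSubgroup GQ (Pic0 Qb (laurentBaseChange Qb F₀))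

/-- The input of TOP-GLUE. -/
structure TopInput where
  /-- the embedding -/
  E : EmbData Qb (laurentBaseChange Qb F₀)
  xfix : ∀ i, IsFixed F₀ (E.x i)
  inf_inv : IsInvariant F₀ (prim E.vinf)
  x_zero : E.x 0 = 1
  /-- degree of the representatives -/
  d : ℕ
  /-- finite ramification divisor of the coordinate `t` -/
  Rt : Divisor Qb (laurentBaseChange Qb F₀)
  Rt_nonneg : 0 ≤ Rt
  Rt_inv : IsInvariant F₀ Rt
  Rt_inf : Rt E.vinf = 0
  /-- pole order of `dt` at `∞` -/
  c : ℕ
  deg_Rt : Divisor.degree Rt = 2 * (genusR Qb (laurentBaseChange Qb F₀) : ℤ) - 2 + c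
  one_le_g : 1 ≤ genusR Qb (laurentBaseChange Qb F₀)
  two_g_le_d : 2 * genusR Qb (laurentBaseChange Qb F₀) ≤ d
  four_d_le_m : 4 * d + 2 * genusR Qb (laurentBaseChange Qb F₀) ≤ E.m

/-- Effective Galois-invariant divisors. -/
def DvSub : AddSubmonoid (Divisor Qb (laurentBaseChange Qb F₀)) where
  carrier := {D | 0 ≤ D ∧ IsInvariant F₀ D}
  zero_mem' := ⟨le_refl _, fun _ => smul_zero _⟩
  add_mem' := by
    rintro D E ⟨hD, hDi⟩ ⟨hE, hEi⟩
    exact ⟨add_nonneg hD hE, fun σ => by rw [smul_add, hDi σ, hEi σ]⟩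

/-- Effective Galois-invariant divisors, as a type. -/
abbrev Dv : Type := DvSub F₀

variable {F₀}

theorem Dv.nonneg (D : Dv F₀) : 0 ≤ (D : Divisor Qb (laurentBaseChange Qb F₀)) := D.2.1

theorem Dv.inv (D : Dv F₀) : IsInvariant F₀ (D : Divisor Qb (laurentBaseChange Qb F₀)) := D.2.2

/-- The degree of an effective divisor, as a natural number. -/
def degHom : Dv F₀ →+ ℕ where
  toFun D := (Divisor.degree (D : Divisor Qb (laurentBaseChange Qb F₀))).toNat
  map_zero' := by simp
  map_add' D E := by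
    have h1 := degree_nonneg D.nonneg
    have h2 := degree_nonneg E.nonneg
    rw [AddSubmonoid.coe_add, map_add]
    omega

theorem coe_degHom (D : Dv F₀) :
    ((degHom D : ℕ) : ℤ) = Divisor.degree (D : Divisor Qb (laurentBaseChange Qb F₀)) := by
  have h1 := degree_nonneg D.nonneg
  show ((Divisor.degree (D : Divisor Qb (laurentBaseChange Qb F₀))).toNat : ℤ) = _
  omega

variable (I : TopInput F₀)

/-- `D - deg D • ∞`, of degree zero. -/
def TopInput.zeroPart (D : Dv F₀) : Divisor.degZero (K := Qb) (F := laurentBaseChange Qb F₀) :=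
  ⟨(D : Divisor Qb (laurentBaseChange Qb F₀)) - degHom D • prim I.E.vinf, by
    rw [Divisor.mem_degZero, map_sub, map_nsmul, degree_prim _ (deg_eq_one _), ← coe_degHom]
    simp⟩

theorem TopInput.coe_zeroPart (D : Dv F₀) :
    (I.zeroPart D : Divisor Qb (laurentBaseChange Qb F₀)) =
      (D : Divisor Qb (laurentBaseChange Qb F₀)) - degHom D • prim I.E.vinf := rfl

theorem TopInput.zeroPart_add (D E : Dv F₀) : I.zeroPart (D + E) = I.zeroPart D + I.zeroPart E := by
  apply Subtype.ext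
  rw [AddSubgroup.coe_add, I.coe_zeroPart, I.coe_zeroPart, I.coe_zeroPart, map_add,
    AddSubmonoid.coe_add, add_smul]
  abel

theorem TopInput.zeroPart_zero : I.zeroPart 0 = 0 := by
  apply Subtype.ext
  rw [I.coe_zeroPart, map_zero]
  simp

theorem TopInput.smul_zeroPart (σ : GQ) (D : Dv F₀) :
    arithmeticGalois F₀ σ • (I.zeroPart D : Divisor Qb (laurentBaseChange Qb F₀)) =
      I.zeroPart D := by
  rw [I.coe_zeroPart, smul_sub, D.inv σ, smul_comm, I.inf_inv σ]

/-- The class of `D - deg D • ∞` in the Mordell--Weil group. -/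
def TopInput.clsHom : Dv F₀ →+ MWG F₀ where
  toFun D := ⟨Pic0.mk (I.zeroPart D), by
    intro σ
    show σ • Pic0.mk (I.zeroPart D) = Pic0.mk (I.zeroPart D)
    rw [galois_smul_pic0_def, SemilinearAut.pic0_smul_mk]
    exact congrArg Pic0.mk (Subtype.ext (by
      rw [SemilinearAut.coe_degZeroSMulHom, I.smul_zeroPart]))⟩
  map_zero' := by
    apply Subtype.ext
    show Pic0.mk (I.zeroPart 0) = 0
    rw [I.zeroPart_zero]
    rfl
  map_add' D E := by
    apply Subtype.ext
    show Pic0.mk (I.zeroPart (D + E)) = Pic0.mk (I.zeroPart D) + Pic0.mk (I.zeroPart E)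
    rw [I.zeroPart_add, Pic0.mk_add]

theorem TopInput.coe_clsHom (D : Dv F₀) :
    ((I.clsHom D : MWG F₀) : Pic0 Qb (laurentBaseChange Qb F₀)) = Pic0.mk (I.zeroPart D) := rfl

/-- Disjoint supports. -/
def Disj (D E : Dv F₀) : Prop :=
  ∀ P : Place Qb (laurentBaseChange Qb F₀),
    (D : Divisor Qb (laurentBaseChange Qb F₀)) P = 0 ∨
      (E : Divisor Qb (laurentBaseChange Qb F₀)) P = 0

/-- Generic divisors: reduced, prime to `∞` and to `Rt`. -/
def TopInput.Good (D : Dv F₀) : Prop :=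
  (∀ P, (D : Divisor Qb (laurentBaseChange Qb F₀)) P ≤ 1) ∧
    (D : Divisor Qb (laurentBaseChange Qb F₀)) I.E.vinf = 0 ∧
    ∀ P, (D : Divisor Qb (laurentBaseChange Qb F₀)) P = 0 ∨ I.Rt P = 0

/-- The naive height `N(D) = Σ D(P) h(pt P)`. -/
def TopInput.N (D : Dv F₀) : ℝ := naive I.E (D : Divisor Qb (laurentBaseChange Qb F₀))

/-- The diagonal pairing `(D . E) = Σ D(A) E(P) hD(A, P)`. -/
def TopInput.pr (D E : Dv F₀) : ℝ :=
  pair I.E (D : Divisor Qb (laurentBaseChange Qb F₀)) (E : Divisor Qb (laurentBaseChange Qb F₀))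

open Classical in
/-- The off-diagonal self pairing `δ(D) = ½ Σ_{P ≠ Q} D(P) D(Q) hD(P, Q)`. -/
def TopInput.del (D : Dv F₀) : ℝ :=
  (1 / 2 : ℝ) * ∑ P ∈ (D : Divisor Qb (laurentBaseChange Qb F₀)).support,
    ∑ Q ∈ (D : Divisor Qb (laurentBaseChange Qb F₀)).support,
      if P = Q then 0 else
        ((D : Divisor Qb (laurentBaseChange Qb F₀)) P : ℝ) *
          ((D : Divisor Qb (laurentBaseChange Qb F₀)) Q : ℝ) * hD I.E P Q

/-- The tangent term `K(D) = Σ D(P) κ(P)`. -/
def TopInput.Ksum (D : Dv F₀) : ℝ :=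
  (D : Divisor Qb (laurentBaseChange Qb F₀)).sum fun P n => (n : ℝ) * kap I.E P

/-- An enumeration of the support of a divisor. -/
def enum (D : Divisor Qb (laurentBaseChange Qb F₀)) :
    Fin D.support.card → Place Qb (laurentBaseChange Qb F₀) :=
  fun i => (D.support.equivFin.symm i : Place Qb (laurentBaseChange Qb F₀))

theorem enum_injective (D : Divisor Qb (laurentBaseChange Qb F₀)) :
    Function.Injective (_root_.Fermat.Agent.S17.H500.Top.enum D) := fun _ _ h =>
  D.support.equivFin.symm.injective (Subtype.ext h)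

theorem enum_mem (D : Divisor Qb (laurentBaseChange Qb F₀)) (i : Fin D.support.card) :
    _root_.Fermat.Agent.S17.H500.Top.enum D i ∈ D.support := (D.support.equivFin.symm i).2

theorem exists_enum_eq (D : Divisor Qb (laurentBaseChange Qb F₀))
    {P : Place Qb (laurentBaseChange Qb F₀)} (hP : P ∈ D.support) : ∃ i, _root_.Fermat.Agent.S17.H500.Top.enum D i = P :=
  ⟨D.support.equivFin ⟨P, hP⟩, by simp [_root_.Fermat.Agent.S17.H500.Top.enum]⟩

/-- The Plücker height of the points of the support of `D`. -/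
def TopInput.Pl (D : Dv F₀) : ℝ :=
  ht (plucker fun i => I.E.pt (_root_.Fermat.Agent.S17.H500.Top.enum (D : Divisor Qb (laurentBaseChange Qb F₀)) i))

/-- Nonzero rational linear forms. -/
abbrev TopInput.Lin : Type := {a : Fin (I.E.r + 1) → ℚ // a ≠ 0}

/-- The height of a rational form. -/
def TopInput.htL (a : I.Lin) : ℝ := ht (castQ a.1)

/-- The hyperplane section of a rational form. -/
def TopInput.ZL (a : I.Lin) : Dv F₀ :=
  ⟨I.E.Z (castQ a.1), I.E.Z_nonneg _, isInvariant_Z F₀ I.E I.xfix I.inf_inv a.1⟩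

theorem TopInput.coe_ZL (a : I.Lin) :
    (I.ZL a : Divisor Qb (laurentBaseChange Qb F₀)) = I.E.Z (castQ a.1) := rfl

/-- The point at infinity. -/
def TopInput.infD : Dv F₀ := ⟨prim I.E.vinf, prim_nonneg _, I.inf_inv⟩

/-- The constant function `1 = x₀`. -/
def TopInput.oneL : I.Lin := ⟨Pi.single 0 1, fun h => by
  have := congrFun h 0
  simp at this⟩

/-- The ramification divisor. -/
def TopInput.RtD : Dv F₀ := ⟨I.Rt, I.Rt_nonneg, I.Rt_inv⟩

/-! ## The inputs which are not yet on main -/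

/-- **(GAUSS⁺)**: the form of (GAUSS) consumed by TOP: `K₀ = Rt - c ∞` with `Rt ≥ 0` invariant.
(`Rt` = ramification divisor of a Galois-fixed coordinate `t` with only pole `∞`, `c - 1` = its
pole order.) -/
def GaussPlus : Prop :=
  ∃ C : ℝ, ∀ P : Place Qb (laurentBaseChange Qb F₀), I.Rt P = 0 → P ≠ I.E.vinf →
    |kap I.E P - (pairPt I.E I.Rt P - (I.c : ℝ) * hD I.E I.E.vinf P)| ≤ C

/-- **(Mov1)**: every rational class has a reduced invariant effective representative of degree
`d` avoiding any finite set of places. -/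
def Mov1Statement : Prop :=
  ∀ (x : MWG F₀) (T : Finset (Place Qb (laurentBaseChange Qb F₀))),
    ∃ D : Dv F₀, degHom D = I.d ∧ I.clsHom D = x ∧
      (∀ P, (D : Divisor Qb (laurentBaseChange Qb F₀)) P ≤ 1) ∧
      ∀ P ∈ T, (D : Divisor Qb (laurentBaseChange Qb F₀)) P = 0

/-- **(Northcott)** for effective invariant divisors of bounded degree. -/
def NorthcottStatement : Prop :=
  ∀ (e : ℕ) (B : ℝ), {D : Dv F₀ | degHom D ≤ e ∧ I.N D ≤ B}.Finite

/-! ## One statement per field of `PairingPackage` -/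

/-- the structural fields -/
structure StructLeaf : Prop where
  disj_symm : ∀ D E : Dv F₀, Disj D E → Disj E D
  disj_zero : ∀ E : Dv F₀, Disj 0 E
  disj_add_left : ∀ D₁ D₂ E : Dv F₀, Disj (D₁ + D₂) E ↔ Disj D₁ E ∧ Disj D₂ E
  deg_inf : degHom I.infD = 1
  cls_inf : I.clsHom I.infD = 0
  deg_Z : ∀ a, degHom (I.ZL a) = I.E.m
  cls_Z : ∀ a, I.clsHom (I.ZL a) = 0
  Z_one : I.ZL I.oneL = I.E.m • I.infD
  ht_one : I.htL I.oneL = 0
  good_disj_inf : ∀ D, I.Good D → Disj D I.infD
  good_disj_Rt : ∀ D, I.Good D → Disj D I.RtD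
  N_add : ∀ D E, I.N (D + E) = I.N D + I.N E
  N_nonneg : ∀ D, 0 ≤ I.N D
  pr_symm : ∀ D E, I.pr D E = I.pr E D
  pr_add : ∀ D₁ D₂ E, Disj (D₁ + D₂) E → I.pr (D₁ + D₂) E = I.pr D₁ E + I.pr D₂ E

/-- field `mov1` -/
def Mov1Leaf : Prop :=
  ∀ (x : MWG F₀) (T : Dv F₀), ∃ D, degHom D = I.d ∧ I.clsHom D = x ∧ Disj D T ∧ I.Good D

/-- field `mov2` -/
def Mov2Leaf : Prop :=
  ∀ D₁ D₂ : Dv F₀, degHom D₁ = degHom D₂ →
    degHom D₁ + 2 * genusR Qb (laurentBaseChange Qb F₀) ≤ I.E.m →
    I.clsHom D₁ = I.clsHom D₂ → ∀ T : Dv F₀,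
    ∃ (R : Dv F₀) (a₁ a₂ : I.Lin), I.ZL a₁ = D₁ + R ∧ I.ZL a₂ = D₂ + R ∧ Disj R T

/-- field `e3` -/
def E3Leaf : Prop :=
  ∃ C : ℝ, ∀ (a : I.Lin) (E : Dv F₀), Disj (I.ZL a) E →
    |I.pr (I.ZL a) E - (degHom E * I.htL a + I.N E)| ≤ C * degHom E

/-- field `bez` -/
def BezLeaf : Prop :=
  ∃ C : ℝ, ∀ a : I.Lin, |I.N (I.ZL a) - I.E.m * I.htL a| ≤ C

/-- field `adj` -/
def AdjLeaf : Prop :=
  ∃ C : ℝ, ∀ (a : I.Lin) (D D' : Dv F₀), I.Good D → I.ZL a = D + D' → Disj D D' →
    |2 * I.del D - I.Ksum D + I.pr D' D - (degHom D * I.htL a + I.N D)| ≤ C * degHom D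

/-- field `gauss` -/
def GaussLeaf : Prop :=
  ∃ C : ℝ, ∀ D : Dv F₀, I.Good D →
    |I.Ksum D - (I.pr I.RtD D -
        (((degHom I.RtD : ℝ) - (2 * genusR Qb (laurentBaseChange Qb F₀) - 2)) / I.E.m) * I.N D)|
      ≤ C * degHom D

/-- field `vdm` -/
def VdmLeaf : Prop :=
  ∃ C : ℝ, ∀ D : Dv F₀, I.Good D → degHom D = I.d → I.Pl D ≤ I.N D - I.del D + C

/-- field `mink` -/
def MinkLeaf : Prop :=
  ∃ C : ℝ, ∀ D : Dv F₀, I.Good D → degHom D = I.d →
    ∃ (a : I.Lin) (D' : Dv F₀), I.ZL a = D + D' ∧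
      ((I.E.m : ℝ) - I.d + 1 - genusR Qb (laurentBaseChange Qb F₀)) * I.htL a ≤ I.Pl D + C

/-- All leaves of TOP-GLUE. -/
structure Leaves : Prop where
  str : StructLeaf I
  northcott : NorthcottStatement I
  mov1 : Mov1Leaf I
  mov2 : Mov2Leaf I
  e3 : E3Leaf I
  bez : BezLeaf I
  adj : AdjLeaf I
  gauss : GaussLeaf I
  vdm : VdmLeaf I
  mink : MinkLeaf I

/-- **The pairing package of TOP-GLUE.** -/
def mkPackage (h : Leaves I) : PairingPackage (MWG F₀) where
  Dv := Dv F₀
  deg := degHom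
  cls := I.clsHom
  Disj := Disj
  Good := I.Good
  N := I.N
  pr := I.pr
  δ := I.del
  K := I.Ksum
  Pl := I.Pl
  Lin := I.Lin
  ht := I.htL
  Z := I.ZL
  m := I.E.m
  d := I.d
  g := genusR Qb (laurentBaseChange Qb F₀)
  inf := I.infD
  one := I.oneL
  Rt := I.RtD
  one_le_g := I.one_le_g
  two_g_le_d := I.two_g_le_d
  four_d_le_m := I.four_d_le_m
  disj_symm := h.str.disj_symm
  disj_zero := h.str.disj_zero
  disj_add_left := h.str.disj_add_left
  deg_inf := h.str.deg_inf
  cls_inf := h.str.cls_inf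
  deg_Z := h.str.deg_Z
  cls_Z := h.str.cls_Z
  Z_one := h.str.Z_one
  ht_one := h.str.ht_one
  good_disj_inf := h.str.good_disj_inf
  good_disj_Rt := h.str.good_disj_Rt
  N_add := h.str.N_add
  N_nonneg := h.str.N_nonneg
  pr_symm := h.str.pr_symm
  pr_add := h.str.pr_add
  northcott := h.northcott
  mov1 := h.mov1
  mov2 := h.mov2
  e3 := h.e3
  bez := h.bez
  adj := h.adj
  gauss := h.gauss
  vdm := h.vdm
  mink := h.mink

end Fermat.Agent.S17.H500.Top

end
end
-- ===== PACK-END S17/H500/TopData.lean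

-- ===== PACK-BEGIN S17/H317/ProductsSpan.lean
section
/-
S17 row, tower H (heights), wall leaf G2 (helper317): PRODUCTS SPAN
(`origin/helper710:coord/S17-H-L1-helper710.md`, sec. 1 (G2): base-point-free pencil trick).

Setting: `[FF1 K F]` (function field of one variable, all places of degree one), `K` infinite,
`g = genusFF K F`.  All statements are about products of `K`-subspaces of `F`
(`Submodule K F` is a semiring under the product of subspaces).

* `L_mul_L`            : `L(D) * L(E) = L(D + E)` if `deg E ≥ 2g` and `deg (D - E) > 2g - 2`.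
* `L_mul_prod_L`       : for every list `A` of places (coincidences allowed), `deg E ≥ 2g + 1`,
                         `deg B ≥ deg E + 2g - 2`:
                         `L(B) * ∏_{a ∈ A} L(E - a) = L(B + |A| • E - ∑_{a ∈ A} a)`.
* `span_mul_prod_span` : the same with spanning sets: if `S₀` spans `L(B)` and `S a` spans
                         `L(E - a)`, the products `c * b₁ * ⋯ * b_m` span `L(B + m E - ∑ A)`.
* `ell_mul_prod_L`     : the dimension `deg B + m (deg E - 1) + 1 - g`.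
-/


set_option autoImplicit false

noncomputable section

open AlgebraicCurve

namespace Fermat.Agent.S17.H317

open Fermat.Agent.Lib.RR

variable {K F : Type*} [Field K] [Field F] [Algebra K F]

/-- `L(D) * L(E) ⊆ L(D + E)`. -/
theorem L_mul_L_le (D E : Divisor K F) :
    riemannRochSpace D * riemannRochSpace E ≤ riemannRochSpace (D + E) := by
  rw [Submodule.mul_le]
  intro x hx y hy
  exact H439.mul_mem_L (B := D + E) (E := E) (by rwa [add_sub_cancel_right]) hy

/-- The divisor `B + m E - ∑ᵢ Aᵢ`. -/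
def prodDiv {m : ℕ} (E B : Divisor K F) (A : Fin m → Place K F) : Divisor K F :=
  B + m • E - ∑ i, prim (A i)

theorem degree_prodDiv [FF1 K F] {m : ℕ} (E B : Divisor K F) (A : Fin m → Place K F) :
    Divisor.degree (prodDiv E B A) = Divisor.degree B + m * (Divisor.degree E - 1) := by
  unfold prodDiv
  rw [map_sub, map_add, map_nsmul, map_sum]
  simp only [degree_prim', Finset.sum_const, Finset.card_univ, Fintype.card_fin, nsmul_eq_mul,
    mul_one]
  ring

theorem prodDiv_succ {m : ℕ} (E B : Divisor K F) (A : Fin (m + 1) → Place K F) :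
    prodDiv E B A = prodDiv E B (fun i : Fin m => A i.succ) + (E - prim (A 0)) := by
  unfold prodDiv
  rw [Fin.sum_univ_succ, succ_nsmul]
  abel

section RR

variable [FF1 K F] [Infinite K]

/-- **Multiplication of Riemann–Roch spaces is onto in large degree**:
`L(D) * L(E) = L(D + E)` if `deg E ≥ 2g` and `deg (D - E) > 2g - 2`. -/
theorem L_mul_L {D E : Divisor K F} (hE : 2 * (genusFF K F : ℤ) ≤ Divisor.degree E)
    (hD : 2 * (genusFF K F : ℤ) - 2 < Divisor.degree (D - E)) :
    riemannRochSpace D * riemannRochSpace E = riemannRochSpace (D + E) := by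
  apply le_antisymm (L_mul_L_le D E)
  intro h hh
  obtain ⟨α₁, hα₁, α₂, hα₂, hα₁0, hα₂0, -, hα⟩ := H439.exists_two_members hE ∅
  obtain ⟨β₁, hβ₁, β₂, hβ₂, rfl⟩ :=
    H439.exists_eq_mul_add_mul hα₁ hα₂ hα₁0 hα₂0 hα hD hh
  exact Submodule.add_mem _ (Submodule.mul_mem_mul hβ₁ hα₁) (Submodule.mul_mem_mul hβ₂ hα₂)

/-- **G2, PRODUCTS SPAN** (subspace form).  For every `m`-tuple of places `A` (coincidences
allowed), `deg E ≥ 2g + 1` and `deg B ≥ deg E + 2g - 2`:
`L(B) * ∏ᵢ L(E - Aᵢ) = L(B + m E - ∑ᵢ Aᵢ)`. -/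
theorem L_mul_prod_L {E B : Divisor K F}
    (hE : 2 * (genusFF K F : ℤ) + 1 ≤ Divisor.degree E)
    (hB : Divisor.degree E + 2 * (genusFF K F : ℤ) - 2 ≤ Divisor.degree B) :
    ∀ {m : ℕ} (A : Fin m → Place K F),
      riemannRochSpace B * ∏ i, riemannRochSpace (E - prim (A i)) =
        riemannRochSpace (prodDiv E B A) := by
  intro m
  induction m with
  | zero =>
    intro A
    simp [prodDiv]
  | succ m ih =>
    intro A
    rw [Fin.prod_univ_succ, mul_left_comm, mul_comm (riemannRochSpace (E - prim (A 0))),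
      ih (fun i : Fin m => A i.succ), prodDiv_succ]
    apply L_mul_L
    · rw [map_sub, degree_prim']
      omega
    · have h1 := degree_prodDiv E B (fun i : Fin m => A i.succ)
      rw [map_sub, h1, map_sub, degree_prim']
      have h2 : (0 : ℤ) ≤ m * (Divisor.degree E - 1) :=
        mul_nonneg (Int.natCast_nonneg m) (by omega)
      omega

omit [Infinite K] in
/-- The dimension of the span of the products. -/
theorem ell_prodDiv {E B : Divisor K F}
    (hE : 2 * (genusFF K F : ℤ) + 1 ≤ Divisor.degree E)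
    (hB : Divisor.degree E + 2 * (genusFF K F : ℤ) - 2 ≤ Divisor.degree B)
    {m : ℕ} (A : Fin m → Place K F) :
    (ell (prodDiv E B A) : ℤ) =
      Divisor.degree B + m * (Divisor.degree E - 1) + 1 - (genusFF K F : ℤ) := by
  rw [← degree_prodDiv E B A]
  apply ell_eq_of_degree_gt
  rw [degree_prodDiv]
  have h2 : (0 : ℤ) ≤ m * (Divisor.degree E - 1) :=
    mul_nonneg (Int.natCast_nonneg m) (by omega)
  omega

open scoped Pointwise in
/-- **G2, PRODUCTS SPAN** (spanning-set form).  If `S₀` spans `L(B)` and `S i` spans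
`L(E - Aᵢ)`, then the products `c * b₁ * ⋯ * b_m` (`c ∈ S₀`, `bᵢ ∈ S i`) span
`L(B + m E - ∑ᵢ Aᵢ)`. -/
theorem span_products {E B : Divisor K F}
    (hE : 2 * (genusFF K F : ℤ) + 1 ≤ Divisor.degree E)
    (hB : Divisor.degree E + 2 * (genusFF K F : ℤ) - 2 ≤ Divisor.degree B)
    {m : ℕ} (A : Fin m → Place K F) {S₀ : Set F} {S : Fin m → Set F}
    (hS₀ : Submodule.span K S₀ = riemannRochSpace B)
    (hS : ∀ i, Submodule.span K (S i) = riemannRochSpace (E - prim (A i))) :
    Submodule.span K {x : F | ∃ c ∈ S₀, ∃ b : Fin m → F, (∀ i, b i ∈ S i) ∧ x = c * ∏ i, b i} =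
      riemannRochSpace (prodDiv E B A) := by
  rw [← L_mul_prod_L hE hB A, ← hS₀]
  simp_rw [← hS]
  rw [Submodule.prod_span, Submodule.span_mul_span]
  congr 1
  ext x
  simp only [Set.mem_ofPred_eq, Set.mem_mul, Set.mem_finsetProd]
  constructor
  · rintro ⟨c, hc, b, hb, rfl⟩
    exact ⟨c, hc, _, ⟨b, fun {i} _ => hb i, rfl⟩, rfl⟩
  · rintro ⟨c, hc, y, ⟨b, hb, rfl⟩, rfl⟩
    exact ⟨c, hc, b, fun i => hb (Finset.mem_univ i), rfl⟩

/-- **G2, PRODUCTS SPAN** (full form): the products `c * b₁ * ⋯ * b_m`, `c ∈ L(B)`,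
`bᵢ ∈ L(E - Aᵢ)`, span `L(B + m E - ∑ᵢ Aᵢ)`. -/
theorem span_products_L {E B : Divisor K F}
    (hE : 2 * (genusFF K F : ℤ) + 1 ≤ Divisor.degree E)
    (hB : Divisor.degree E + 2 * (genusFF K F : ℤ) - 2 ≤ Divisor.degree B)
    {m : ℕ} (A : Fin m → Place K F) :
    Submodule.span K {x : F | ∃ c ∈ riemannRochSpace B, ∃ b : Fin m → F,
        (∀ i, b i ∈ riemannRochSpace (E - prim (A i))) ∧ x = c * ∏ i, b i} =
      riemannRochSpace (prodDiv E B A) :=
  span_products hE hB A (S₀ := (riemannRochSpace B : Set F))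
    (S := fun i => (riemannRochSpace (E - prim (A i)) : Set F))
    (Submodule.span_eq _) (fun _ => Submodule.span_eq _)

end RR

/-! ### Linear algebra: the secant elements `ξⱼ xₖ - ξₖ xⱼ` span the hyperplane `ξ^⊥` -/

section Secant

variable {ι : Type*} [Fintype ι]

/-- The linear form `b ↦ ∑ᵢ bᵢ ξᵢ` on `ι → K`. -/
def dotForm (ξ : ι → K) : (ι → K) →ₗ[K] K where
  toFun b := ∑ i, b i * ξ i
  map_add' b c := by simp [add_mul, Finset.sum_add_distrib]
  map_smul' c b := by simp [Finset.mul_sum, mul_assoc]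

@[simp] theorem dotForm_apply (ξ b : ι → K) : dotForm ξ b = ∑ i, b i * ξ i := rfl

/-- For a family `x : ι → V` and `ξ ≠ 0`, the elements `ξⱼ xₖ - ξₖ xⱼ` span the image of the
hyperplane `{b | ∑ bᵢ ξᵢ = 0}` under `b ↦ ∑ bᵢ xᵢ`. -/
theorem span_secant {V : Type*} [AddCommGroup V] [Module K V] (x : ι → V) (ξ : ι → K)
    (hξ : ξ ≠ 0) :
    Submodule.span K (Set.range fun p : ι × ι => ξ p.1 • x p.2 - ξ p.2 • x p.1) =
      (LinearMap.ker (dotForm ξ)).map (Fintype.linearCombination K x) := by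
  classical
  apply le_antisymm
  · rw [Submodule.span_le]
    rintro _ ⟨⟨j, k⟩, rfl⟩
    refine ⟨ξ j • Pi.single k 1 - ξ k • Pi.single j 1, ?_, ?_⟩
    · simp only [SetLike.mem_coe, LinearMap.mem_ker, dotForm_apply, Pi.sub_apply, Pi.smul_apply,
        smul_eq_mul, sub_mul, Finset.sum_sub_distrib, Pi.single_apply, mul_ite, mul_one,
        mul_zero, ite_mul, zero_mul, Finset.sum_ite_eq', Finset.mem_univ, if_true]
      ring
    · simp only [map_sub, map_smul, Fintype.linearCombination_apply_single, one_smul]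
  · rintro _ ⟨b, hb, rfl⟩
    rw [SetLike.mem_coe, LinearMap.mem_ker, dotForm_apply] at hb
    obtain ⟨j₀, hj₀⟩ : ∃ j₀, ξ j₀ ≠ 0 := by
      by_contra hcon
      simp only [not_exists, not_not] at hcon
      exact hξ (funext hcon)
    have key : Fintype.linearCombination K x b =
        ∑ i, (b i / ξ j₀) • (ξ j₀ • x i - ξ i • x j₀) := by
      rw [Fintype.linearCombination_apply]
      simp only [smul_sub, smul_smul, Finset.sum_sub_distrib]
      have h1 : ∀ i, b i / ξ j₀ * ξ j₀ = b i := fun i => div_mul_cancel₀ _ hj₀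
      simp only [h1]
      rw [← Finset.sum_smul]
      have h2 : ∑ i, b i / ξ j₀ * ξ i = 0 := by
        have : ∑ i, b i / ξ j₀ * ξ i = (∑ i, b i * ξ i) / ξ j₀ := by
          rw [Finset.sum_div]
          exact Finset.sum_congr rfl fun i _ => by ring
        rw [this, hb, zero_div]
      rw [h2, zero_smul, sub_zero]
    rw [key]
    refine Submodule.sum_mem _ fun i _ => Submodule.smul_mem _ _ ?_
    exact Submodule.subset_span ⟨(j₀, i), rfl⟩

end Secant

end Fermat.Agent.S17.H317

end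
end
-- ===== PACK-END S17/H317/ProductsSpan.lean

-- ===== PACK-BEGIN S17/H317/MinorBeta.lean
section





/-!
# S17 / tower H — WALL leaf **G-MINOR-β** (helper317)

`minorBeta : Big E → Wall.MinorBetaStatement E` :
for ANY `L > k m` distinct places `Q_t` and EVERY `k`-tuple `A` of places the matrix
`betaMat (pt ∘ A) (pt ∘ Q)` has rank `κ_k = k m - k + 1 - g`.

Ingredients (all proved here):

* `exists_smul_of_ann_eq` : two vectors with the same annihilator are proportional;
* `exists_pt_eq_smul` : `E.pt P = c • ptD (m∞) E.x P`, `c ≠ 0` (VALUE DICTIONARY: the abstract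
  point of an `EmbData` is the concrete point of values of helper230, up to a scalar);
* `valAt_aeval_of_isHomogeneous` : for `G` homogeneous of degree `k`,
  `eval (ptD D x v) G` is the value at `v` of `aeval x G * unif v ^ (k D(v))`;
* `forall_eval_pt_eq_zero_iff` : for `G` homogeneous of degree `k` and `L > k m` distinct places
  `Q_t`: `(∀ t, eval (pt (Q t)) G = 0) ↔ aeval E.x G = 0`
  (evaluation at `> k m` places is injective on `L(k m ∞)`);
* `span_secForm` : the secant forms at `pt A` span `L(m∞ - A)`;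
* `prod_L_sub_prim` : `∏ᵢ L(m∞ - Aᵢ) = L(k m∞ - ΣAᵢ)` (`Lib/RR/H259.L_mul_L`, `m ≥ 4g + 1`);
* `span_aeval_secProd` : the sections `aeval E.x (secProd (pt ∘ A) s)` span `L(k m∞ - ΣAᵢ)`.
-/

set_option autoImplicit false
set_option linter.unusedSectionVars false

noncomputable section

open AlgebraicCurve MvPolynomial

namespace Fermat.Agent.S17.H317

open Fermat.Agent.Lib.RR Fermat.Agent.S17.HWall Fermat.Agent.S17.H710 Fermat.Agent.S17.Wall
open Fermat.Agent.S17.H230

variable {K F : Type*} [Field K] [Field F] [Algebra K F]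

/-! ### Linear algebra: same annihilator ⇒ proportional -/

/-- Two vectors with the same annihilator are proportional. -/
theorem exists_smul_of_ann_eq {n : ℕ} (u w : Fin n → K) (hw : w ≠ 0)
    (h : ∀ a : Fin n → K, a ≠ 0 → (dot a u = 0 ↔ dot a w = 0)) :
    ∃ c : K, c ≠ 0 ∧ u = c • w := by
  classical
  obtain ⟨j₀, hj₀⟩ : ∃ j₀, w j₀ ≠ 0 := by
    by_contra hcon
    simp only [not_exists, not_not] at hcon
    exact hw (funext hcon)
  have hdot : ∀ (i : Fin n) (z : Fin n → K),
      dot (w j₀ • Pi.single i 1 - w i • Pi.single j₀ 1) z = w j₀ * z i - w i * z j₀ := by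
    intro i z
    simp only [dot, sub_dotProduct, smul_dotProduct, single_one_dotProduct, smul_eq_mul]
  have key : ∀ i, w j₀ * u i = w i * u j₀ := by
    intro i
    by_cases hi : i = j₀
    · subst hi; ring
    · have ha0 : (w j₀ • Pi.single i 1 - w i • Pi.single j₀ 1 : Fin n → K) ≠ 0 := by
        intro h0
        have := congrFun h0 i
        simp only [Pi.sub_apply, Pi.smul_apply, Pi.single_eq_same, smul_eq_mul, mul_one,
          Pi.single_apply, hi, if_false, mul_zero, sub_zero, Pi.zero_apply] at this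
        exact hj₀ this
      have h1 : dot (w j₀ • Pi.single i 1 - w i • Pi.single j₀ 1) w = 0 := by
        rw [hdot]; ring
      have h2 := (h _ ha0).mpr h1
      rw [hdot] at h2
      linear_combination h2
  have hu : u j₀ ≠ 0 := by
    intro hu0
    have hu' : ∀ i, u i = 0 := by
      intro i
      have := key i
      rw [hu0, mul_zero] at this
      exact (mul_eq_zero.mp this).resolve_left hj₀
    have ha0 : (Pi.single j₀ 1 : Fin n → K) ≠ 0 := by
      intro h0
      have := congrFun h0 j₀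
      simp at this
    have h1 : dot (Pi.single j₀ 1) u = 0 := by
      simp only [dot, single_one_dotProduct]
      exact hu' j₀
    have h2 := (h _ ha0).mp h1
    simp only [dot, single_one_dotProduct] at h2
    exact hj₀ h2
  refine ⟨u j₀ / w j₀, div_ne_zero hu hj₀, ?_⟩
  funext i
  simp only [Pi.smul_apply, smul_eq_mul]
  field_simp
  linear_combination key i

variable [FF1 K F]

/-! ### The value dictionary -/

theorem emb_x_mem (E : EmbData K F) (i : Fin (E.r + 1)) :
    E.x i ∈ riemannRochSpace (E.m • prim E.vinf) := by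
  rw [← E.x_span]
  exact Submodule.subset_span ⟨i, rfl⟩

theorem emb_degree_minf (E : EmbData K F) :
    Divisor.degree (E.m • prim E.vinf) = (E.m : ℤ) := by
  rw [map_nsmul, degree_prim']
  simp

/-- The concrete point of values is nonzero (`|m∞|` has no base points). -/
theorem ptD_emb_ne_zero (E : EmbData K F) (P : Place K F) :
    ptD (E.m • prim E.vinf) E.x P ≠ 0 := by
  have hE : 2 * (genusFF K F : ℤ) ≤ Divisor.degree (E.m • prim E.vinf) := by
    rw [emb_degree_minf, genusFF_eq_genusR]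
    have := E.hm
    omega
  obtain ⟨f, hf, hf0, hord⟩ := H439.exists_mem_L_ord_eq hE P
  exact ptD_ne_zero_of_span (emb_x_mem E) (by rw [E.x_span]; exact hf) hf0 hord

/-- **Value dictionary.**  The point `E.pt P` of an embedding datum is, up to a nonzero scalar,
the concrete point of values `ptD (m∞) E.x P`. -/
theorem exists_pt_eq_smul (E : EmbData K F) (P : Place K F) :
    ∃ c : K, c ≠ 0 ∧ E.pt P = c • ptD (E.m • prim E.vinf) E.x P := by
  refine exists_smul_of_ann_eq _ _ (ptD_emb_ne_zero E P) fun a ha => ?_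
  rw [E.pt_spec P a ha]
  have h0 : lin E.x a ≠ 0 := E.lin_ne_zero ha
  rw [hypDiv_apply_of_ne E.vinf E.m h0 P]
  exact (pt_spec_ptD (emb_x_mem E) P a h0).symm

/-- `E.pt P ≠ 0`. -/
theorem emb_pt_ne_zero (E : EmbData K F) (P : Place K F) : E.pt P ≠ 0 := by
  obtain ⟨c, hc, h⟩ := exists_pt_eq_smul E P
  rw [h]
  exact smul_ne_zero hc (ptD_emb_ne_zero E P)

/-! ### Values of polynomials in regular functions -/

theorem regAt_valAt_aeval {ι : Type*} (v : Place K F) (y : ι → F) (hy : ∀ i, RegAt v (y i))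
    (p : MvPolynomial ι K) :
    RegAt v (aeval y p) ∧ valAt v (aeval y p) = eval (fun i => valAt v (y i)) p := by
  induction p using MvPolynomial.induction_on with
  | C a =>
    rw [aeval_C, eval_C]
    exact ⟨regAt_algebraMap v a, valAt_algebraMap v a⟩
  | add p q hp hq =>
    rw [map_add, map_add]
    exact ⟨hp.1.add hq.1, by rw [valAt_add hp.1 hq.1, hp.2, hq.2]⟩
  | mul_X p i hp =>
    rw [map_mul, map_mul, aeval_X, eval_X]
    exact ⟨hp.1.mul (hy i), by rw [valAt_mul hp.1 (hy i), hp.2]⟩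

/-- For `G` homogeneous of degree `k` and `x ⊂ L(D)`, the function `aeval x G * π ^ (k D(v))` is
regular at `v` and its value is `eval (ptD D x v) G`. -/
theorem valAt_aeval_of_isHomogeneous {ι : Type*} {D : Divisor K F} {x : ι → F}
    (hx : ∀ i, x i ∈ riemannRochSpace D) (v : Place K F)
    {G : MvPolynomial ι K} {k : ℕ} (hG : G.IsHomogeneous k) :
    RegAt v (aeval x G * unif v ^ ((k : ℤ) * D v)) ∧
      valAt v (aeval x G * unif v ^ ((k : ℤ) * D v)) = eval (ptD D x v) G := by
  have h1 : aeval (fun i => unif v ^ (D v) * x i) G = (unif v ^ (D v)) ^ k * aeval x G :=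
    aeval_mul_of_isHomogeneous hG _ _
  have hy : ∀ i, RegAt v (unif v ^ (D v) * x i) := fun i => by
    rw [mul_comm]; exact regAt_normD hx v i
  have h2 := regAt_valAt_aeval v _ hy G
  have h3 : aeval x G * unif v ^ ((k : ℤ) * D v) = aeval (fun i => unif v ^ (D v) * x i) G := by
    rw [h1, mul_comm, mul_comm (k : ℤ), zpow_mul, zpow_natCast]
  have h4 : (fun i => valAt v (unif v ^ (D v) * x i)) = ptD D x v := by
    funext i
    rw [ptD_apply, mul_comm]
  rw [h3]
  rw [h4] at h2
  exact h2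


/-! ### Evaluation at more than `k m` places is injective -/

theorem eval_smul_of_isHomogeneous {ι : Type*} {G : MvPolynomial ι K} {k : ℕ}
    (hG : G.IsHomogeneous k) (c : K) (y : ι → K) :
    eval (c • y) G = c ^ k * eval y G := by
  have h := aeval_mul_of_isHomogeneous (S := K) hG c y
  simp only [MvPolynomial.aeval_eq_eval] at h
  exact h

theorem sum_prim_apply_self {L : ℕ} (Q : Fin L → Place K F) (hQ : Function.Injective Q)
    (t₀ : Fin L) : (∑ t, prim (Q t) : Divisor K F) (Q t₀) = 1 := by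
  classical
  rw [Finsupp.finsetSum_apply]
  have : ∀ t, (prim (Q t) : Divisor K F) (Q t₀) = if t = t₀ then 1 else 0 := by
    intro t
    by_cases h : t = t₀
    · subst h; simp
    · rw [if_neg h]
      exact prim_apply_of_ne (fun h' => h (hQ h').symm)
  simp only [this, Finset.sum_ite_eq', Finset.mem_univ, if_true]

theorem sum_prim_apply_of_not_mem {L : ℕ} (Q : Fin L → Place K F) (v : Place K F)
    (hv : ∀ t, Q t ≠ v) : (∑ t, prim (Q t) : Divisor K F) v = 0 := by
  rw [Finsupp.finsetSum_apply]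
  exact Finset.sum_eq_zero fun t _ => prim_apply_of_ne (hv t).symm

/-- **Evaluation at `> k m` distinct places is injective on sections of `O(k m ∞)`**: a
homogeneous polynomial of degree `k` vanishes at the points of `L > k m` distinct places iff
it is a relation of `E.x`. -/
theorem forall_eval_pt_eq_zero_iff (E : EmbData K F) {k L : ℕ} (Q : Fin L → Place K F)
    (hQ : Function.Injective Q) (hL : k * E.m < L)
    {G : MvPolynomial (Fin (E.r + 1)) K} (hG : G.IsHomogeneous k) :
    (∀ t, eval (E.pt (Q t)) G = 0) ↔ aeval E.x G = 0 := by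
  have hval : ∀ v : Place K F, ∃ c : K, c ≠ 0 ∧ eval (E.pt v) G =
      c ^ k * valAt v (aeval E.x G * unif v ^ ((k : ℤ) * (E.m • prim E.vinf : Divisor K F) v)) := by
    intro v
    obtain ⟨c, hc, h⟩ := exists_pt_eq_smul E v
    refine ⟨c, hc, ?_⟩
    rw [h, _root_.Fermat.Agent.S17.H317.eval_smul_of_isHomogeneous hG, (valAt_aeval_of_isHomogeneous (emb_x_mem E) v hG).2]
  constructor
  · intro h
    by_contra hf0
    have hmem : aeval E.x G ∈
        riemannRochSpace (k • (E.m • prim E.vinf) - ∑ t, prim (Q t) : Divisor K F) := by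
      rw [mem_L_iff]
      intro v
      right
      have hreg := (valAt_aeval_of_isHomogeneous (emb_x_mem E) v hG).1
      have hreg' := hreg
      rw [regAt_iff, ord_mul_unif_zpow v hf0] at hreg'
      have hkD : ∀ w : Place K F,
          (k • (E.m • prim E.vinf) - ∑ t, prim (Q t) : Divisor K F) w =
            (k : ℤ) * (E.m • prim E.vinf : Divisor K F) w - (∑ t, prim (Q t) : Divisor K F) w := by
        intro w
        rw [Finsupp.sub_apply, Finsupp.smul_apply, nsmul_eq_mul]
      rw [hkD]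
      by_cases hv : ∃ t, Q t = v
      · obtain ⟨t, rfl⟩ := hv
        obtain ⟨c, hc, hc'⟩ := hval (Q t)
        rw [h t] at hc'
        have h0 := (mul_eq_zero.mp hc'.symm).resolve_left (pow_ne_zero _ hc)
        rw [valAt_eq_zero_iff hreg] at h0
        rcases h0 with h0 | h0
        · exact absurd h0 (mul_ne_zero hf0 (zpow_ne_zero _ (unif_ne_zero _)))
        · rw [ord_mul_unif_zpow _ hf0] at h0
          rw [sum_prim_apply_self Q hQ t]
          linarith
      · have hv' : ∀ t, Q t ≠ v := fun t ht => hv ⟨t, ht⟩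
        rw [sum_prim_apply_of_not_mem Q v hv']
        linarith
    have hdeg : Divisor.degree (k • (E.m • prim E.vinf) - ∑ t, prim (Q t) : Divisor K F) < 0 := by
      rw [map_sub, map_nsmul, emb_degree_minf, map_sum]
      simp only [degree_prim', Finset.sum_const, Finset.card_univ, Fintype.card_fin, nsmul_eq_mul,
        mul_one]
      have : ((k * E.m : ℕ) : ℤ) < (L : ℤ) := by exact_mod_cast hL
      push_cast at this
      linarith
    rw [L_eq_bot_of_degree_neg hdeg] at hmem
    exact hf0 ((Submodule.mem_bot K).mp hmem)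
  · intro h t
    obtain ⟨c, hc, hc'⟩ := hval (Q t)
    rw [hc', h, zero_mul, valAt_zero, mul_zero]

/-! ### The secant forms span `L(m∞ - A)` -/

theorem aeval_secForm {n : ℕ} (x : Fin n → F) (y : Fin n → K) (p : Fin n × Fin n) :
    aeval x (secForm y p) = y p.1 • x p.2 - y p.2 • x p.1 := by
  simp [secForm, Algebra.smul_def]

theorem aeval_secProd {n d : ℕ} (x : Fin n → F) (y : Fin d → Fin n → K)
    (s : Fin d → Fin n × Fin n) :
    aeval x (secProd y s) = ∏ i, (y i (s i).1 • x (s i).2 - y i (s i).2 • x (s i).1) := by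
  simp [secProd, _root_.Fermat.Agent.S17.H317.aeval_secForm]

theorem dot_eq_dotForm {n : ℕ} (ξ b : Fin n → K) : dot b ξ = dotForm ξ b := by
  simp [dot, dotProduct]

/-- The secant elements at the point of `A` span `L(m∞ - A)`. -/
theorem span_secant_emb (E : EmbData K F) (A : Place K F) :
    Submodule.span K (Set.range fun p : Fin (E.r + 1) × Fin (E.r + 1) =>
        E.pt A p.1 • E.x p.2 - E.pt A p.2 • E.x p.1) =
      riemannRochSpace (E.m • prim E.vinf - prim A) := by
  rw [span_secant E.x (E.pt A) (emb_pt_ne_zero E A)]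
  ext f
  constructor
  · rintro ⟨b, hb, rfl⟩
    rw [SetLike.mem_coe, LinearMap.mem_ker, ← dot_eq_dotForm] at hb
    rw [Fintype.linearCombination_apply]
    by_cases hb0 : b = 0
    · subst hb0; simp
    · have h1 := (E.pt_spec A b hb0).mp hb
      have h0 : lin E.x b ≠ 0 := E.lin_ne_zero hb0
      rw [hypDiv_apply_of_ne E.vinf E.m h0 A] at h1
      have h2 := (mem_L_sub_prim_iff (E.lin_mem b) A).mpr (Or.inr (by omega))
      exact h2
  · intro hf
    have hle : (E.m • prim E.vinf - prim A : Divisor K F) ≤ E.m • prim E.vinf := by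
      rw [Finsupp.le_def]
      intro v
      have : (0 : ℤ) ≤ (prim A : Divisor K F) v := by
        by_cases hv : v = A
        · subst hv; simp
        · rw [prim_apply_of_ne hv]
      simp only [Finsupp.coe_sub, Pi.sub_apply]
      omega
    have hf' : f ∈ riemannRochSpace (E.m • prim E.vinf) := L_mono hle hf
    rw [← E.x_span] at hf'
    obtain ⟨b, rfl⟩ := (Submodule.mem_span_range_iff_exists_fun K).mp hf'
    refine ⟨b, ?_, by rw [Fintype.linearCombination_apply]⟩
    rw [SetLike.mem_coe, LinearMap.mem_ker, ← dot_eq_dotForm]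
    by_cases hb0 : b = 0
    · subst hb0; simp [dot]
    · have h0 : lin E.x b ≠ 0 := E.lin_ne_zero hb0
      have h3 := (mem_L_sub_prim_iff (E.lin_mem b) A).mp hf
      have h1 : 0 < hypDiv E.vinf E.m E.x b A := by
        rw [hypDiv_apply_of_ne E.vinf E.m h0 A]
        rcases h3 with h | h
        · exact absurd h h0
        · have h' : -(E.m • prim E.vinf : Divisor K F) A < A.ord (lin E.x b) := h
          omega
      exact (E.pt_spec A b hb0).mpr h1

/-! ### Products -/

/-- `∏ᵢ L(m∞ - Aᵢ) = L(k m∞ - ΣAᵢ)` for `m ≥ 4g + 1`, `k ≥ 1`. -/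
theorem prod_L_sub_prim [Infinite K] (E : EmbData K F) (hBig : Big E) :
    ∀ {k : ℕ} (A : Fin (k + 1) → Place K F),
      ∏ i, riemannRochSpace (E.m • prim E.vinf - prim (A i)) =
        riemannRochSpace (prodDiv (E.m • prim E.vinf) 0 A) := by
  intro k
  have hB : 4 * genusR K F + 1 ≤ E.m := hBig
  induction k with
  | zero =>
    intro A
    rw [Fin.prod_univ_one]
    congr 1
    simp [prodDiv]
  | succ k ih =>
    intro A
    rw [Fin.prod_univ_succ, ih (fun i => A i.succ), prodDiv_succ (E.m • prim E.vinf) 0 A,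
      add_comm (prodDiv (E.m • prim E.vinf) 0 fun i => A i.succ)]
    apply H259.L_mul_L
    · rw [map_sub, emb_degree_minf, degree_prim', genusFF_eq_genusR]
      omega
    · rw [degree_prodDiv, emb_degree_minf, genusFF_eq_genusR, map_zero, zero_add]
      have h1 : (4 * (genusR K F : ℤ)) ≤ (E.m : ℤ) - 1 := by omega
      have h2 : (0 : ℤ) ≤ (k : ℤ) := Int.natCast_nonneg k
      push_cast
      nlinarith

/-- The sections `aeval E.x (secProd (pt ∘ A) s)` span `L(k m∞ - ΣAᵢ)`. -/
theorem span_aeval_secProd [Infinite K] (E : EmbData K F) (hBig : Big E) {k : ℕ}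
    (A : Fin (k + 1) → Place K F) :
    Submodule.span K (Set.range fun s : Fin (k + 1) → Fin (E.r + 1) × Fin (E.r + 1) =>
        aeval E.x (secProd (fun i => E.pt (A i)) s)) =
      riemannRochSpace (prodDiv (E.m • prim E.vinf) 0 A) := by
  rw [← prod_L_sub_prim E hBig A]
  simp_rw [← span_secant_emb E]
  rw [Submodule.prod_span]
  congr 1
  ext f
  simp only [Set.mem_range, Set.mem_finsetProd, aeval_secProd]
  constructor
  · rintro ⟨s, rfl⟩
    exact ⟨fun i => E.pt (A i) (s i).1 • E.x (s i).2 - E.pt (A i) (s i).2 • E.x (s i).1,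
      fun {i} _ => ⟨s i, rfl⟩, rfl⟩
  · rintro ⟨b, hb, rfl⟩
    choose s hs using fun i => hb (Finset.mem_univ i)
    exact ⟨s, Finset.prod_congr rfl fun i _ => hs i⟩

/-! ### The rank -/

theorem finrank_range_eq_of_ker_eq {V W W' : Type*} [AddCommGroup V] [Module K V]
    [FiniteDimensional K V] [AddCommGroup W] [Module K W] [AddCommGroup W'] [Module K W']
    (f : V →ₗ[K] W) (g : V →ₗ[K] W') (h : LinearMap.ker f = LinearMap.ker g) :
    Module.finrank K (LinearMap.range f) = Module.finrank K (LinearMap.range g) := by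
  have h1 := f.finrank_range_add_finrank_ker
  have h2 := g.finrank_range_add_finrank_ker
  rw [h] at h1
  omega

/-- **G-MINOR-β.** -/
theorem minorBeta [Infinite K] (E : EmbData K F) (hBig : Big E) : MinorBetaStatement E := by
  classical
  intro k L Q hk hQ hL A
  obtain ⟨k, rfl⟩ : ∃ k', k = k' + 1 := ⟨k - 1, by omega⟩
  have hker : LinearMap.ker (Fintype.linearCombination K
        (betaMat (fun i => E.pt (A i)) fun t => E.pt (Q t))) =
      LinearMap.ker (Fintype.linearCombination K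
        (fun s : Fin (k + 1) → Fin (E.r + 1) × Fin (E.r + 1) =>
          aeval E.x (secProd (fun i => E.pt (A i)) s))) := by
    ext c
    simp only [LinearMap.mem_ker, Fintype.linearCombination_apply]
    have hGhom : (∑ s, C (c s) * secProd (fun i => E.pt (A i)) s :
        MvPolynomial (Fin (E.r + 1)) K).IsHomogeneous (k + 1) :=
      IsHomogeneous.sum _ _ _ fun s _ => by
        simpa using (isHomogeneous_C _ (c s)).mul (secProd_isHomogeneous _ s)
    have h1 : ∀ t, (∑ s, c s • betaMat (fun i => E.pt (A i)) (fun t => E.pt (Q t)) s) t =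
        eval (E.pt (Q t)) (∑ s, C (c s) * secProd (fun i => E.pt (A i)) s) := by
      intro t
      simp [betaMat_eq_eval, Finset.sum_apply, map_sum]
    have h2 : ∑ s, c s • aeval E.x (secProd (fun i => E.pt (A i)) s) =
        aeval E.x (∑ s, C (c s) * secProd (fun i => E.pt (A i)) s) := by
      simp [map_sum, Algebra.smul_def]
    rw [h2, ← forall_eval_pt_eq_zero_iff E Q hQ hL hGhom]
    constructor
    · intro h t
      rw [← h1, h]
      rfl
    · intro h
      funext t
      rw [h1]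
      exact h t
  have hfr := finrank_range_eq_of_ker_eq _ _ hker
  rw [Fintype.range_linearCombination, Fintype.range_linearCombination] at hfr
  rw [hfr, span_aeval_secProd E hBig A]
  have hB : 4 * genusR K F + 1 ≤ E.m := hBig
  have hdeg : Divisor.degree (prodDiv (E.m • prim E.vinf) 0 A) =
      ((k + 1 : ℕ) : ℤ) * ((E.m : ℤ) - 1) := by
    rw [degree_prodDiv, emb_degree_minf, map_zero, zero_add]
  have h3 : (4 * (genusR K F : ℤ)) ≤ (E.m : ℤ) - 1 := by omega
  have h4 : (0 : ℤ) ≤ (k : ℤ) := Int.natCast_nonneg k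
  have hell := ell_eq_of_degree_gt (K := K) (F := F) (D := prodDiv (E.m • prim E.vinf) 0 A) (by
    rw [hdeg, genusFF_eq_genusR]
    push_cast
    nlinarith)
  rw [hdeg, genusFF_eq_genusR] at hell
  unfold ell at hell
  unfold kapN
  have h5 : (k + 1) * (4 * genusR K F + 1) ≤ (k + 1) * E.m := Nat.mul_le_mul_left _ hB
  have h6 : genusR K F ≤ (k + 1) * genusR K F := Nat.le_mul_of_pos_left _ (Nat.succ_pos k)
  have h7 : (k + 1) * (4 * genusR K F + 1) = 4 * ((k + 1) * genusR K F) + (k + 1) := by ring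
  have h8 : (((k + 1 : ℕ) : ℤ)) * ((E.m : ℤ) - 1) = (((k + 1) * E.m : ℕ) : ℤ) - ((k + 1 : ℕ) : ℤ) := by
    push_cast; ring
  rw [h8] at hell
  generalize (k + 1) * E.m = km at *
  generalize (k + 1) * genusR K F = kg at *
  omega

end Fermat.Agent.S17.H317

end
end
-- ===== PACK-END S17/H317/MinorBeta.lean

-- ===== PACK-BEGIN S17/H320/WeilOfWHM.lean
section



/-!
# S17 / tower H — GAUSS leaf WEIL (forms version of helper290) from (WHM)  (helper320)

`weil_of_whm : (∀ P, E.pt P ≠ 0) → WHMStatement E → H290.WeilStatement E`, hence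
`weil : MultislotStatement K → PtStatement E → H290.WeilStatement E`.

For a fixed family `G` of forms of degree `e` with exact common zero divisor `Z` apply (WHM) to
the functions `aeval E.x (G p)` (`B = e m ∞ - Z`) and to the basis `E.x` (`B = m ∞`); the values
of `aeval E.x (G p)` at `P ≠ ∞` are `c ^ e * eval (pt P) (G p)`.
-/

set_option autoImplicit false
set_option linter.unusedSectionVars false

noncomputable section

open AlgebraicCurve MvPolynomial

namespace Fermat.Agent.S17.H320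

open Fermat.Agent.Lib.RR Fermat.Agent.S17.HWall Fermat.Agent.S17.HContract
open Fermat.Agent.S17.H230 Fermat.Agent.S17.H710 Fermat.Agent.S17.Wall

variable {K F : Type*} [Field K] [CharZero K] [Field F] [Algebra K F] [FF1 K F]

/-- the value at `P` of a polynomial expression in functions regular at `P` -/
theorem valAt_aeval {κ : Type*} (P : Place K F) (x : κ → F) (hx : ∀ k, RegAt P (x k))
    (R : MvPolynomial κ K) :
    RegAt P (aeval x R) ∧ valAt P (aeval x R) = eval (fun k => valAt P (x k)) R := by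
  let w : κ → P.toValuationSubring := fun k => ⟨x k, hx k⟩
  have h5 : ((aeval w R : P.toValuationSubring) : F) = aeval x R := by
    have := MvPolynomial.map_aeval (R := K) w P.toValuationSubring.subtype R
    rw [ValuationSubring.subtype_apply] at this
    rw [this, MvPolynomial.aeval_def]
    have hc : (P.toValuationSubring.subtype.comp (algebraMap K ↥P.toValuationSubring))
        = algebraMap K F := by
      ext c
      rfl
    rw [hc]
    rfl
  have hreg : RegAt P (aeval x R) := by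
    rw [← h5]
    exact (aeval w R).2
  refine ⟨hreg, ?_⟩
  have h1 : (fun k => valAt P (x k)) = fun k => valO P (w k) := by
    funext k
    rw [valAt_of_mem P (hx k)]
  rw [h1, valAt_of_mem P hreg]
  have h2 : eval (fun k => valO P (w k)) R = valO P (aeval w R) := by
    rw [← MvPolynomial.aeval_eq_eval]
    have := MvPolynomial.comp_aeval (R := K) (f := w) (valO P)
    have h3 := congrArg (fun φ : MvPolynomial κ K →ₐ[K] K => φ R) this
    simp only [AlgHom.comp_apply] at h3
    rw [h3]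
  rw [h2]
  congr 1
  exact Subtype.ext h5.symm

variable [Algebra.IsAlgebraic ℚ K]

theorem weil_of_whm (E : EmbData K F) (hpt : ∀ P : Place K F, E.pt P ≠ 0)
    (hW : WHMStatement E) : H290.WeilStatement E := by
  classical
  intro ι _ e G Z hG hZ hex
  set f : ι → F := fun p => aeval E.x (G p) with hf
  set B : Divisor K F := (e * E.m) • prim E.vinf - Z with hB
  have hexact : ExactPole f B := by
    intro P
    refine ⟨fun p => ?_, ?_⟩
    · by_cases h0 : f p = 0
      · exact Or.inl h0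
      right
      have h1 := hex.1 p h0
      rw [Finsupp.le_def] at h1
      have h2 := h1 P
      unfold zdiv at h2
      rw [dif_neg h0, Finsupp.add_apply, divOf_apply] at h2
      rw [hB, Finsupp.sub_apply]
      show _ ≤ P.ord (aeval E.x (G p))
      omega
    · obtain ⟨p, h0, h1⟩ := hex.2 P
      refine ⟨p, h0, ?_⟩
      unfold zdiv at h1
      rw [dif_neg h0, Finsupp.add_apply, divOf_apply] at h1
      rw [hB, Finsupp.sub_apply]
      show P.ord (aeval E.x (G p)) = _
      omega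
  obtain ⟨C₁, hC₁⟩ := hW _ f B hexact
  obtain ⟨C₂, hC₂⟩ := hW _ E.x _ (exactPole_x E hpt)
  set g : ℝ := |ht (fun p => eval (E.pt E.vinf) (G p)) - (e : ℝ) * ht (E.pt E.vinf)
      + pairPt E Z E.vinf| with hg
  refine ⟨max (C₁ + e * C₂) 0 + g, fun P hP => ?_⟩
  have hg0 : 0 ≤ g := abs_nonneg _
  by_cases hPinf : P = E.vinf
  · subst hPinf
    have := le_max_right (C₁ + e * C₂) 0
    show g ≤ _
    linarith
  have hm0 : (E.m • prim E.vinf : Divisor K F) P = 0 := by
    simp [prim, Ne.symm hPinf]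
  have hB0 : B P = 0 := by
    rw [hB, Finsupp.sub_apply, hP]
    simp [prim, Ne.symm hPinf]
  have h1 := hC₁ P hB0
  have h2 := hC₂ P hm0
  -- the point
  have hxreg : ∀ i, RegAt P (E.x i) := fun i => by
    rw [regAt_iff]
    rcases (mem_L_iff.mp (x_mem_L E i)) P with h | h
    · rw [h, P.ord_zero]
    · rw [hm0] at h
      simpa using h
  obtain ⟨c, hc, hprop⟩ := ptD_x_prop E hpt P
  have hxval : (fun i => valAt P (E.x i)) = c • E.pt P := by
    rw [← hprop]
    funext i
    rw [ptD_apply, hm0, zpow_zero, mul_one]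
  have e2 : ht (fun i => valAt P (E.x i)) = ht (E.pt P) := by
    rw [hxval]
    exact H380.absLogHeight_smul _ (fun _ => isIntegral_all _) hc (isIntegral_all _)
  -- the forms
  have e1 : ht (fun p => valAt P (f p)) = ht (fun p => eval (E.pt P) (G p)) := by
    have h3 : (fun p => valAt P (f p)) = (c ^ e) • fun p => eval (E.pt P) (G p) := by
      funext p
      rw [hf]
      simp only
      rw [(_root_.Fermat.Agent.S17.H320.valAt_aeval P E.x hxreg (G p)).2, hxval]
      have := aeval_mul_of_isHomogeneous (S := K) (hG p) c (E.pt P)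
      rw [MvPolynomial.aeval_eq_eval, MvPolynomial.aeval_eq_eval] at this
      simp only [Pi.smul_apply, smul_eq_mul]
      exact this
    rw [h3]
    exact H380.absLogHeight_smul _ (fun _ => isIntegral_all _) (pow_ne_zero _ hc)
      (isIntegral_all _)
  -- the pairing
  have e3 : pairPt E B P = e * pairPt E (E.m • prim E.vinf) P - pairPt E Z P := by
    rw [hB, ← pairPtHom_apply, ← pairPtHom_apply, ← pairPtHom_apply, map_sub, mul_nsmul',
      map_nsmul]
    simp
  rw [e2] at h2
  rw [e1, e3] at h1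
  have := le_max_left (C₁ + e * C₂) 0
  have he : (0 : ℝ) ≤ e := Nat.cast_nonneg e
  rw [abs_le] at h1 h2 ⊢
  constructor
  · nlinarith [h1.1, h1.2, h2.1, h2.2]
  · nlinarith [h1.1, h1.2, h2.1, h2.2]

/-- **WEIL** (leaf of the GAUSS sub-project of helper290), from the wall leaves A3 and G-PT. -/
theorem weil [IsAlgClosed K] (E : EmbData K F) (hA3 : MultislotStatement K)
    (hPt : PtStatement E) : H290.WeilStatement E :=
  weil_of_whm E hPt.1 (whm E hA3 hPt)

end Fermat.Agent.S17.H320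

end
end
-- ===== PACK-END S17/H320/WeilOfWHM.lean

-- ===== PACK-BEGIN S37/H818/ModularNorm.lean
section
/-
S37 / LEVEL TRANSFER (helper818), part 10: degrees, generation and norm compatibility for the
modular function fields (char 0), from the S28 degree API (helper988).
-/







set_option autoImplicit false
set_option linter.style.haveILetI false

noncomputable section

namespace Fermat.Agent.S37.H818

open AlgebraicCurve ModularCurve IntermediateField Fermat.Agent.S28

variable {L : Type*} [Field L] [Algebra ℚ L]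

theorem natCast_ne_zero_of_prime {r : ℕ} (hr : r.Prime) : ((r : ℕ) : L) ≠ 0 := by
  haveI : CharZero L := algebraRat.charZero L
  exact Nat.cast_ne_zero.mpr hr.ne_zero

/-- `[F_{Nℓ} : F_N] = ℓ + 1` for a prime `ℓ ∤ N`, in `finrankAlong` form. -/
theorem finrankAlong_heckeAlphaBar (N ℓ : ℕ) [NeZero N] [NeZero ℓ] (hℓ : ℓ.Prime)
    (hℓN : ¬ ℓ ∣ N) : finrankAlong L (heckeAlphaBar L N ℓ) = ℓ + 1 := by
  have h := H988.relfinrank_full_mul_prime L N ℓ (NeZero.ne N) hℓ
    (fun r hr _ => natCast_ne_zero_of_prime hr)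
  rw [if_neg hℓN, ← H988.laurentBaseChange_full_eq_fullC, ← H988.laurentBaseChange_full_eq_fullC]
    at h
  rw [← h]
  exact finrankAlong_inclusion _

/-- `[F_{Np} : F_N] = p` or `p + 1` for a prime `p`. -/
theorem finrankAlong_heckeAlphaBar' (N p : ℕ) [NeZero N] [NeZero p] (hp : p.Prime) :
    finrankAlong L (heckeAlphaBar L N p) = if p ∣ N then p else p + 1 := by
  have h := H988.relfinrank_full_mul_prime L N p (NeZero.ne N) hp
    (fun r hr _ => natCast_ne_zero_of_prime hr)
  rw [← H988.laurentBaseChange_full_eq_fullC, ← H988.laurentBaseChange_full_eq_fullC] at h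
  rw [← h]
  exact finrankAlong_inclusion _

theorem finiteAlong_heckeAlphaBar (N p : ℕ) [NeZero N] [NeZero p] (hp : p.Prime) :
    FiniteAlong L (heckeAlphaBar L N p) := by
  have h := finrankAlong_heckeAlphaBar' (L := L) N p hp
  unfold FiniteAlong
  unfold finrankAlong at h
  letI := algebraAlong (heckeAlphaBar L N p)
  refine Module.finite_of_finrank_pos ?_
  rw [h]
  split_ifs
  · exact hp.pos
  · exact Nat.succ_pos _

theorem isIntegral_heckeAlphaBar (N p : ℕ) [NeZero N] [NeZero p] (hp : p.Prime) :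
    (heckeAlphaBar L N p).toRingHom.IsIntegral := by
  have hfin := finiteAlong_heckeAlphaBar (L := L) N p hp
  letI := algebraAlong (heckeAlphaBar L N p)
  haveI : Module.Finite (FB L N) (FB L (N * p)) := hfin
  intro x
  exact Algebra.IsIntegral.isIntegral (R := FB L N) x

/-- Generation: `F_{N k ℓ} ≤ F_{N k} ⊔ F_{N ℓ}` for a prime `ℓ ∤ k`. -/
theorem FB_le_sup (N k ℓ : ℕ) [NeZero N] [NeZero k] [NeZero ℓ] (hℓ : ℓ.Prime) (hℓk : ¬ ℓ ∣ k) :
    FB L (N * k * ℓ) ≤ FB L (N * k) ⊔ FB L (N * ℓ) := by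
  have hM : N * k ≠ 0 := Nat.mul_ne_zero (NeZero.ne N) (NeZero.ne k)
  have hMℓ : N * k * ℓ ≠ 0 := Nat.mul_ne_zero hM (NeZero.ne ℓ)
  have hNℓ : N * ℓ ≠ 0 := Nat.mul_ne_zero (NeZero.ne N) (NeZero.ne ℓ)
  show laurentBaseChange L (modularFunctionFieldFull (N * k * ℓ)) ≤ _
  rw [H988.laurentBaseChange_full_eq_fullC, H988.full_le_iff L hMℓ]
  have hA : modularFunctionFieldFullC L (N * k) ≤ FB L (N * k) ⊔ FB L (N * ℓ) := by
    refine le_trans (le_of_eq ?_) le_sup_left
    exact (H988.laurentBaseChange_full_eq_fullC L (N * k)).symm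
  have hB : modularFunctionFieldFullC L (N * ℓ) ≤ FB L (N * k) ⊔ FB L (N * ℓ) := by
    refine le_trans (le_of_eq ?_) le_sup_right
    exact (H988.laurentBaseChange_full_eq_fullC L (N * ℓ)).symm
  let Φ : ℕ → Polynomial (Polynomial ℤ) := fun r =>
    if hr : r.Prime then
      (haveI : NeZero r := ⟨hr.ne_zero⟩; (Classical.choice (H807.nonempty_modPolyData (p := r) hr)).Φ)
    else 0
  have hΦ : ∀ r, r.Prime → r ∣ N * k * ℓ → H988.PhiRel L r (Φ r) := by
    intro r hr _
    haveI : NeZero r := ⟨hr.ne_zero⟩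
    have := H988.phiRel_of_modPolyData L r (Classical.choice (H807.nonempty_modPolyData (p := r) hr))
    simpa [Φ, hr] using this
  refine H988.jd_mem_of_dvd_mul Φ hM hℓ hΦ _ (fun d hd => hA (H988.jd_mem_full L hM hd)) ?_
  intro b hb
  apply hB
  apply H988.jd_mem_full L hNℓ
  have hcop : Nat.Coprime (ℓ ^ b) k :=
    Nat.Coprime.pow_left b ((Nat.Prime.coprime_iff_not_dvd hℓ).mpr hℓk)
  have h1 : ℓ ^ b ∣ k * (N * ℓ) := by
    rw [show k * (N * ℓ) = N * k * ℓ by ring]
    exact hb
  exact hcop.dvd_of_dvd_mul_left h1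

/-- **Norm compatibility for the modular `α`-square** (`ℓ` prime, `ℓ ∤ N k`). -/
theorem normCompat_modular (N k ℓ : ℕ) [NeZero N] [NeZero k] [NeZero ℓ] (hℓ : ℓ.Prime)
    (hℓN : ¬ ℓ ∣ N) (hℓk : ¬ ℓ ∣ k) :
    NormCompat (heckeAlphaBar L N ℓ) (heckeAlphaBar L N k)
      (heckeAlphaBar L (N * k) ℓ) (degenTop L N k ℓ) := by
  have hℓM : ¬ ℓ ∣ N * k := fun h => (hℓ.dvd_mul.mp h).elim hℓN hℓk
  refine normCompat_of_finrank_eq _ _ _ _ (square_alpha L N k ℓ)
    (finiteAlong_heckeAlphaBar N ℓ hℓ) (finiteAlong_heckeAlphaBar (N * k) ℓ hℓ) ?_ ?_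
  · rw [finrankAlong_heckeAlphaBar N ℓ hℓ hℓN, finrankAlong_heckeAlphaBar (N * k) ℓ hℓ hℓM]
  · exact adjoin_range_inclusion_eq_top _ _ (FB_le_sup N k ℓ hℓ hℓk)
      (finiteAlong_heckeAlphaBar (N * k) ℓ hℓ)

end Fermat.Agent.S37.H818

end

end
-- ===== PACK-END S37/H818/ModularNorm.lean

-- ===== PACK-BEGIN S37/H818/Transfer.lean
section
/-
S37 / LEVEL TRANSFER (helper818), part 11: reduction data at level `N * k` give reduction data at
level `N`, when `[F_{N k} : F_N]` is a power of `ℓ` (e.g. `(ℓ, k) = (3, 2)` or `(2, 3)`,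
`gcd(N, 6) = 1`):   `red_N := red_{N k} ∘ π^*`.
-/





set_option autoImplicit false
set_option linter.style.haveILetI false

noncomputable section

namespace Fermat.Agent.S37.H818

open AlgebraicCurve ModularCurve IntermediateField Fermat.Agent.S37.H99

/-- `ℚ̄`. -/
abbrev Qb : Type := AlgebraicClosure ℚ

variable (N k ℓ : ℕ) [NeZero N] [NeZero k] [NeZero ℓ]

/-- The inputs of the level transfer `N * k → N` at the Hecke prime `ℓ`. -/
structure TransferInputs : Prop where
  hℓ : ℓ.Prime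
  hk : k.Prime
  hℓN : ¬ ℓ ∣ N
  hℓk : ¬ ℓ ∣ k
  /-- Hecke inputs at level `N` -/
  heckeN : HeckeInputsAlong Qb N ℓ
  /-- Hecke inputs at level `N * k` -/
  heckeM : HeckeInputsAlong Qb (N * k) ℓ
  /-- the norm formula for the degeneracy map `F_N ⊂ F_{N k}` -/
  normFormula : NormFormulaAlong Qb (heckeAlphaBar Qb N k) (finiteAlong_heckeAlphaBar N k hk)
  /-- the degree of the degeneracy map is a power of `ℓ` -/
  deg_pow : ∃ e : ℕ, finrankAlong Qb (heckeAlphaBar Qb N k) = ℓ ^ e

variable {N k ℓ}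

namespace TransferInputs

variable [HasPrincipalDivisors Qb (FB Qb N)] [HasPrincipalDivisors Qb (FB Qb (N * k))]

variable (T : TransferInputs N k ℓ)

include T

omit [HasPrincipalDivisors Qb (FB Qb N)] [HasPrincipalDivisors Qb (FB Qb (N * k))] in
theorem isIntegral : (heckeAlphaBar Qb N k).toRingHom.IsIntegral :=
  isIntegral_heckeAlphaBar N k T.hk

theorem fundamentalIdentity : FundamentalIdentityAlong Qb (heckeAlphaBar Qb N k) T.isIntegral :=
  fundamentalIdentityAlong_of_normFormula _ _ (finiteAlong_heckeAlphaBar N k T.hk) T.normFormula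

/-- The pullback `π^* : J₀(N) → J₀(N k)`. -/
def pullback : JZero N →+ JZero (N * k) :=
  pullbackPic0Along (heckeAlphaBar Qb N k) T.isIntegral T.fundamentalIdentity

theorem pullback_galois (σ : Qb ≃ₐ[ℚ] Qb) (x : JZero N) :
    T.pullback (σ • x) = σ • T.pullback x :=
  pullbackPic0Along_galois T.isIntegral T.fundamentalIdentity σ x

theorem pullback_hecke (x : JZero N) :
    T.pullback (heckeOperatorBar N ⟨ℓ, T.hℓ⟩ x) =
      heckeOperatorBar (N * k) ⟨ℓ, T.hℓ⟩ (T.pullback x) := by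
  have hi₁ : (degenTop Qb N k ℓ).toRingHom.IsIntegral := by
    -- `F_{N k ℓ}` is finite over `F_N`, hence integral over `F_{N ℓ}`
    have hα := isIntegral_heckeAlphaBar (L := Qb) (N * k) ℓ T.hℓ
    have hι := T.isIntegral
    have hcomp : ((heckeAlphaBar Qb (N * k) ℓ).comp (heckeAlphaBar Qb N k)).toRingHom.IsIntegral :=
      RingHom.IsIntegral.trans _ _ hι hα
    rw [← square_alpha] at hcomp
    exact RingHom.IsIntegral.tower_top _ _ hcomp
  exact pullback_heckeOperatorAlong T.heckeN T.heckeM T.isIntegral T.fundamentalIdentity hi₁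
    (normCompat_modular N k ℓ T.hℓ T.hℓN T.hℓk) x

theorem pullback_eq_zero (x : JZero N) (hx : T.pullback x = 0) :
    finrankAlong Qb (heckeAlphaBar Qb N k) • x = 0 :=
  nsmul_eq_zero_of_pullbackPic0Along_eq_zero _ _ (finiteAlong_heckeAlphaBar N k T.hk)
    T.normFormula T.fundamentalIdentity x hx

/-- `π^*` is injective on torsion of order prime to `ℓ`. -/
theorem pullback_injective_of_coprime (m : ℕ) (hm : m.Coprime ℓ) (x : JZero N)
    (hmx : m • x = 0) (hx : T.pullback x = 0) : x = 0 := by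
  obtain ⟨e, he⟩ := T.deg_pow
  have hd := T.pullback_eq_zero x hx
  rw [he] at hd
  have hcop : Nat.Coprime m (ℓ ^ e) := Nat.Coprime.pow_right e hm
  have hord : addOrderOf x ∣ m := addOrderOf_dvd_of_nsmul_eq_zero hmx
  have hord' : addOrderOf x ∣ ℓ ^ e := addOrderOf_dvd_of_nsmul_eq_zero hd
  have h1 : addOrderOf x ∣ Nat.gcd m (ℓ ^ e) := Nat.dvd_gcd hord hord'
  rw [hcop.gcd_eq_one, Nat.dvd_one] at h1
  exact AddMonoid.addOrderOf_eq_one_iff.mp h1

/-- **Level transfer of reduction data.** -/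
def redData (A : ValuationSubring Qb) (D : RedData (N * k) A ℓ T.hℓ) : RedData N A ℓ T.hℓ where
  Y := D.Y
  instY := D.instY
  red := D.red.comp T.pullback
  inertia τ hτ x := by
    rw [AddMonoidHom.comp_apply, AddMonoidHom.comp_apply, T.pullback_galois]
    exact D.inertia τ hτ _
  frob_ker σ hσ x hx := by
    rw [AddMonoidHom.comp_apply] at hx ⊢
    rw [T.pullback_galois]
    exact D.frob_ker σ hσ _ hx
  inj_torsion m x hm hmx hx := by
    rw [AddMonoidHom.comp_apply] at hx
    refine T.pullback_injective_of_coprime m hm x hmx ?_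
    refine D.inj_torsion m _ hm ?_ hx
    rw [← map_nsmul, hmx, map_zero]
  relation σ hσ x := by
    rw [AddMonoidHom.comp_apply, map_add, map_sub, map_nsmul, T.pullback_hecke,
      T.pullback_galois, T.pullback_galois]
    exact D.relation σ hσ _

end TransferInputs

end Fermat.Agent.S37.H818

end

end
-- ===== PACK-END S37/H818/Transfer.lean

-- ===== PACK-BEGIN S37/H278/NormalAbs.lean
section



/-!
# S37 / D2 (helper278): `NormalAbsStatement` — normality of the special fibre of a good model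

For `G : Alg.GoodModel Lc Ec Fc R V w x S`: if `f ∈ V` is a root mod `w` of a monic polynomial
with coefficients in `R[x]`, then `f` is congruent mod `w` to an element of the chart
`B = {b ∈ Fc integral over R[x]}`.

Proof: `f = b / g(x)` with `b ∈ B`, `g ∈ R[X]` primitive (`exists_primitive_mul_mem_chart`); the
equation gives `b ^ d + ∑ aᵢ bⁱ g ^ (d - i) ∈ w V ∩ B = w B` (QEP); `NA.normal_chart_field`
(= `H273.b2Normal` on the chart, inputs `H438.GoodModelFront.hsep_chart`, `hNC_chart`,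
`prime_chart`) gives `b₀ ∈ B` with `b - g b₀ ∈ w B`; `g(x)` is a unit of `V` (`G.gauss`).
-/

set_option autoImplicit false
set_option linter.style.haveILetI false
set_option linter.unusedSectionVars false

noncomputable section

namespace Fermat.Agent.S37.H278.NA

open Polynomial Fermat.Agent.S18 Fermat.Agent.S18.Alg Fermat.Agent.S18.H438
  Fermat.Agent.S18.H438.GoodModelFront

variable {Ω : Type*} [Field Ω] {Lc Ec Fc : Subfield Ω} {R V : Subring Ω} {w x : Ω}
  {S : Finset Ω}

variable (G : GoodModel Lc Ec Fc R V w x S)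

/-- the value in `Ω` of `g(x)`, `g ∈ R[X]` -/
theorem coe_aeval_xf (g : Polynomial (Rf Fc R)) :
    ((aeval (xf G) g : Fc) : Ω) =
      (g.map (Fc.subtype.comp (Rf Fc R).subtype)).eval x := by
  rw [Polynomial.eval_map, Polynomial.aeval_def]
  exact Polynomial.hom_eval₂ g (algebraMap (Rf Fc R) Fc) Fc.subtype (xf G)

include G in
/-- `g(x) ∈ V` for `g ∈ R[X]`. -/
theorem aeval_xf_mem_V (g : Polynomial (Rf Fc R)) : ((aeval (xf G) g : Fc) : Ω) ∈ V := by
  rw [coe_aeval_xf G, Polynomial.eval_eq_sum_range]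
  refine V.sum_mem fun i _ => V.mul_mem ?_ (V.pow_mem G.x_mem_V i)
  rw [Polynomial.coeff_map]
  exact G.R_le_V (g.coeff i).2

include G in
/-- **Gauss**: a polynomial `g ∈ R[X]` not divisible by `w` takes a unit value `g(x)` in `V`. -/
theorem aeval_xf_inv_mem_V (g : Polynomial (Rf Fc R)) (hg : ¬ C (wR G) ∣ g) :
    (((aeval (xf G) g : Fc) : Ω))⁻¹ ∈ V := by
  haveI := isDiscreteValuationRing_Rf G
  rw [coe_aeval_xf G]
  refine G.gauss _ (fun i => ?_) ?_
  · rw [Polynomial.coeff_map]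
    exact (g.coeff i).2
  · rw [Polynomial.C_dvd_iff_dvd_coeff] at hg
    push Not at hg
    obtain ⟨i, hi⟩ := hg
    have hu : IsUnit (g.coeff i) := by
      by_contra hnu
      have hmem : g.coeff i ∈ IsLocalRing.maximalIdeal (Rf Fc R) :=
        (IsLocalRing.mem_maximalIdeal _).2 hnu
      rw [(irreducible_wf G).maximalIdeal_eq, Ideal.mem_span_singleton] at hmem
      exact hi hmem
    obtain ⟨h0, hinv⟩ := (isUnit_subring_iff (Rf Fc R)).1 hu
    refine ⟨i, ?_, ?_⟩
    · rw [Polynomial.coeff_map]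
      intro h
      exact h0 (Subtype.ext h)
    · rw [Polynomial.coeff_map]
      exact hinv

include G in
/-- `g(x) ≠ 0` for `g ≠ 0`. -/
theorem aeval_xf_ne_zero (g : Polynomial (Rf Fc R)) (hg : g ≠ 0) : aeval (xf G) g ≠ 0 :=
  fun h => hg (transcendental_iff.1 (transcendental_xf G) g h)

include G in
/-- every `f ∈ V` is `b / g(x)` with `b` in the chart and `g ∈ R[X]` not divisible by `w`. -/
theorem exists_primitive_mul_mem_chart (f : Fc) (hf : f ∈ Vf G) :
    ∃ g : Polynomial (Rf Fc R), ¬ C (wR G) ∣ g ∧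
      aeval (xf G) g * f ∈ H138.chart (Rf Fc R) ({xf G} : Set Fc) := by
  classical
  haveI := charZero_Fc G
  haveI := isDiscreteValuationRing_Rf G
  haveI := finiteDimensional_baseField G
  have hx := transcendental_xf G
  obtain ⟨hic, hfin⟩ := B12.H33.chart_package (R := Rf Fc R) hx
  obtain ⟨i1, i2, i3⟩ := chart_instances138 G
  letI := B12.H33.chartAlgebra (Rf Fc R) (xf G)
  haveI := hfin
  haveI : Algebra.IsIntegral (Polynomial (Rf Fc R)) (H138.chart (Rf Fc R) ({xf G} : Set Fc)) :=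
    Algebra.IsIntegral.of_finite _ _
  -- `f = b₀ / t₀`
  obtain ⟨b₀, t₀, ht₀, hbt⟩ :=
    IsFractionRing.div_surjective (A := H138.chart (Rf Fc R) ({xf G} : Set Fc)) f
  have ht₀0 : t₀ ≠ 0 := nonZeroDivisors.ne_zero ht₀
  -- a nonzero `h ∈ R[X]` in `t₀ B`
  have hne : (Ideal.span {t₀}).comap
      (algebraMap (Polynomial (Rf Fc R)) (H138.chart (Rf Fc R) ({xf G} : Set Fc))) ≠ ⊥ :=
    Ideal.comap_ne_bot_of_integral_mem ht₀0 (Ideal.mem_span_singleton_self t₀)
      (Algebra.IsIntegral.isIntegral t₀)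
  obtain ⟨h, hh, hh0⟩ := Submodule.exists_mem_ne_zero_of_ne_bot hne
  rw [Ideal.mem_comap, Ideal.mem_span_singleton] at hh
  obtain ⟨t', ht'⟩ := hh
  have hCw : Prime (C (wR G) : Polynomial (Rf Fc R)) :=
    Polynomial.prime_C_iff.2 (irreducible_wf G).prime
  obtain ⟨n, g, hng, rfl⟩ := WfDvdMonoid.max_power_factor hh0 hCw.irreducible
  refine ⟨g, hng, ?_⟩
  have hw0 : wf G ≠ 0 := wf_ne_zero G
  have ht₀F : (t₀ : Fc) ≠ 0 := fun h0 => ht₀0 (Subtype.ext h0)
  -- `w ^ n * g(x) * f = b₀ * t'`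
  have hcoe : ((B12.H33.chartPolyHom (Rf Fc R) (xf G) (C (wR G) ^ n * g) :
      H138.chart (Rf Fc R) ({xf G} : Set Fc)) : Fc) = (t₀ : Fc) * (t' : Fc) :=
    congrArg Subtype.val ht'
  rw [B12.H33.coe_chartPolyHom, map_mul, map_pow, Polynomial.aeval_C] at hcoe
  have hwn : (wf G) ^ n * (aeval (xf G) g * f) = (b₀ : Fc) * (t' : Fc) := by
    have hf' : f = (b₀ : Fc) / (t₀ : Fc) := hbt.symm
    have hcoe' : (wf G) ^ n * aeval (xf G) g = (t₀ : Fc) * (t' : Fc) := hcoe
    rw [hf', ← mul_assoc, hcoe']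
    field_simp
  -- strip the powers of `w`
  have key : ∀ (n : ℕ) (b : Fc), b ∈ H138.chart (Rf Fc R) ({xf G} : Set Fc) →
      (wf G) ^ n * (aeval (xf G) g * f) = b →
      aeval (xf G) g * f ∈ H138.chart (Rf Fc R) ({xf G} : Set Fc) := by
    intro n
    induction n with
    | zero =>
      intro b hb h
      rw [pow_zero, one_mul] at h
      rw [h]; exact hb
    | succ n ih =>
      intro b hb h
      have hbw : b * (wf G)⁻¹ = (wf G) ^ n * (aeval (xf G) g * f) := by
        rw [← h, pow_succ]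
        field_simp
      have hV : b * (wf G)⁻¹ ∈ Vf G := by
        rw [hbw]
        refine mul_mem (pow_mem (Rf_le_Vf G _ (wf_mem_Rf G)) n) (mul_mem ?_ hf)
        exact aeval_xf_mem_V G g
      exact ih _ (qep_fin' G b hb hV) hbw.symm
  exact key n _ (Subalgebra.mul_mem _ b₀.2 t'.2) hwn

include G in
/-- **D2 for a good model.** -/
theorem normalAbs_of_goodModel (f : Ω) (hf : f ∈ V) (P : Polynomial Ω) (hP : P.Monic)
    (hc : ∀ i, P.coeff i ∈ polyRing R x) (hPf : P.eval f * w⁻¹ ∈ V) :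
    ∃ b ∈ chart Fc R x, (f - b) * w⁻¹ ∈ V := by
  classical
  haveI := charZero_Fc G
  haveI := isDiscreteValuationRing_Rf G
  haveI := finiteDimensional_baseField G
  have hx := transcendental_xf G
  have hRF : ∀ r ∈ R, r ∈ Fc := fun r hr => R_le_Fc G hr
  have hw0 : w ≠ 0 := G.w_ne_zero
  have hwf0 : wf G ≠ 0 := wf_ne_zero G
  -- `f` as an element of `Fc`
  obtain ⟨f', hf'⟩ : ∃ f' : Fc, (f' : Ω) = f := ⟨⟨f, G.V_le hf⟩, rfl⟩
  have hfV : f' ∈ Vf G := by
    rw [mem_Vf, hf']; exact hf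
  obtain ⟨g, hg, hbmem⟩ := exists_primitive_mul_mem_chart G f' hfV
  have hg0 : g ≠ 0 := fun h => hg (h ▸ dvd_zero _)
  have hγ0 : aeval (xf G) g ≠ 0 := aeval_xf_ne_zero G g hg0
  have hγΩ0 : ((aeval (xf G) g : Fc) : Ω) ≠ 0 := fun h => hγ0 (Subtype.ext h)
  have hγV : ((aeval (xf G) g : Fc) : Ω) ∈ V := aeval_xf_mem_V G g
  have hγinv : (((aeval (xf G) g : Fc) : Ω))⁻¹ ∈ V := aeval_xf_inv_mem_V G g hg
  -- the coefficients of `P`, in the chart
  have hcoef : ∀ i, ∃ a ∈ baseRing (Rf Fc R) (xf G), (a : Ω) = P.coeff i := fun i =>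
    exists_mem_baseRing_of_mem_polyRing Fc R (xf G) hRF (hc i)
  choose a ha hacoe using hcoef
  have hachart : ∀ i, a i ∈ H138.chart (Rf Fc R) ({xf G} : Set Fc) := fun i =>
    H138.adjoin_le_chart _ (ha i)
  -- the ring homomorphism `B → Ω`
  let φ : H138.chart (Rf Fc R) ({xf G} : Set Fc) →+* Ω :=
    Fc.subtype.comp (H138.chart (Rf Fc R) ({xf G} : Set Fc)).val.toRingHom
  have hφ : ∀ z : H138.chart (Rf Fc R) ({xf G} : Set Fc), φ z = ((z : Fc) : Ω) := fun _ => rfl
  let b : H138.chart (Rf Fc R) ({xf G} : Set Fc) := ⟨aeval (xf G) g * f', hbmem⟩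
  let A : Fin P.natDegree → H138.chart (Rf Fc R) ({xf G} : Set Fc) :=
    fun i => ⟨a i, hachart i⟩
  have hφb : φ b = ((aeval (xf G) g : Fc) : Ω) * f := by
    rw [← hf']; rfl
  have hφA : ∀ i, φ (A i) = P.coeff i := fun i => hacoe i
  have hφg : φ (B12.H33.chartPolyHom (Rf Fc R) (xf G) g) = ((aeval (xf G) g : Fc) : Ω) := by
    rw [hφ, B12.H33.coe_chartPolyHom]
  -- the integral equation mod `w`
  have hz : φ (b ^ P.natDegree + ∑ i : Fin P.natDegree, A i * b ^ (i : ℕ) *
        B12.H33.chartPolyHom (Rf Fc R) (xf G) g ^ (P.natDegree - (i : ℕ))) =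
      ((aeval (xf G) g : Fc) : Ω) ^ P.natDegree * P.eval f := by
    rw [map_add, map_pow, map_sum, hφb]
    have h1 : ∀ i : Fin P.natDegree,
        φ (A i * b ^ (i : ℕ) *
          B12.H33.chartPolyHom (Rf Fc R) (xf G) g ^ (P.natDegree - (i : ℕ))) =
        ((aeval (xf G) g : Fc) : Ω) ^ P.natDegree * (P.coeff (i : ℕ) * f ^ (i : ℕ)) := by
      intro i
      rw [map_mul, map_mul, map_pow, map_pow, hφb, hφA, hφg, mul_pow]
      have hi : (i : ℕ) + (P.natDegree - (i : ℕ)) = P.natDegree :=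
        Nat.add_sub_cancel' i.2.le
      calc P.coeff (i : ℕ) * (((aeval (xf G) g : Fc) : Ω) ^ (i : ℕ) * f ^ (i : ℕ)) *
            ((aeval (xf G) g : Fc) : Ω) ^ (P.natDegree - (i : ℕ))
          = ((aeval (xf G) g : Fc) : Ω) ^ ((i : ℕ) + (P.natDegree - (i : ℕ))) *
              (P.coeff (i : ℕ) * f ^ (i : ℕ)) := by rw [pow_add]; ring
        _ = _ := by rw [hi]
    rw [Finset.sum_congr rfl (fun i _ => h1 i), ← Finset.mul_sum,
      Fin.sum_univ_eq_sum_range (fun i => P.coeff i * f ^ i) P.natDegree,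
      Polynomial.eval_eq_sum_range, Finset.sum_range_succ, hP.coeff_natDegree, one_mul, mul_pow]
    ring
  have h : algebraMap (Rf Fc R) (H138.chart (Rf Fc R) ({xf G} : Set Fc)) (wR G) ∣
      b ^ P.natDegree + ∑ i : Fin P.natDegree, A i * b ^ (i : ℕ) *
        B12.H33.chartPolyHom (Rf Fc R) (xf G) g ^ (P.natDegree - (i : ℕ)) := by
    rw [B12.H33.algebraMap_dvd_chart_iff]
    set z := b ^ P.natDegree + ∑ i : Fin P.natDegree, A i * b ^ (i : ℕ) *
        B12.H33.chartPolyHom (Rf Fc R) (xf G) g ^ (P.natDegree - (i : ℕ)) with hzdef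
    have hV : (z : Fc) * (wf G)⁻¹ ∈ Vf G := by
      show ((z : Fc) : Ω) * w⁻¹ ∈ V
      rw [← hφ, hz, mul_assoc]
      exact V.mul_mem (V.pow_mem hγV _) hPf
    refine ⟨(z : Fc) * (wf G)⁻¹, qep_fin' G _ z.2 hV, ?_⟩
    show (z : Fc) = wf G * ((z : Fc) * (wf G)⁻¹)
    field_simp
  obtain ⟨b₀, hb₀⟩ := normal_chart_field hx (wR G) (irreducible_wf G) (prime_chart G)
    (hsep_chart G) (SR Fc R S) (SR_isUnit_sub G) (hNC_chart G) b g hg P.natDegree A h
  rw [B12.H33.algebraMap_dvd_chart_iff] at hb₀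
  obtain ⟨t, ht, hbt⟩ := hb₀
  have htV : (t : Ω) ∈ V :=
    chartRing_le_valuationSubring (Rf Fc R) (xf G) (Vf G) (Rf_le_Vf G) (xf_mem_Vf G) ht
  refine ⟨((b₀ : Fc) : Ω), (mem_chartRing_iff Fc R (xf G) hRF).1 b₀.2, ?_⟩
  have hbt' : ((aeval (xf G) g : Fc) : Ω) * f - ((aeval (xf G) g : Fc) : Ω) * ((b₀ : Fc) : Ω) =
      w * (t : Ω) := by
    have h1 : φ (b - B12.H33.chartPolyHom (Rf Fc R) (xf G) g * b₀) = w * (t : Ω) := by
      rw [hφ, hbt]; rfl
    rw [map_sub, map_mul, hφb, hφg] at h1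
    exact h1
  have : (f - ((b₀ : Fc) : Ω)) * w⁻¹ = (t : Ω) * (((aeval (xf G) g : Fc) : Ω))⁻¹ := by
    field_simp
    linear_combination hbt'
  rw [this]
  exact V.mul_mem htV hγinv

end Fermat.Agent.S37.H278.NA

namespace Fermat.Agent.S37.H278

open Fermat.Agent.S18

/-- **LEAF D2 of board v3 (row S37)**: `Board3.NormalAbsStatement`, unfolded
(`origin/helper37:Fermat/Agent/S37/Core/Skeleton4.lean`). -/
theorem leaf_normalAbs :
    ∀ (Ω : Type) [Field Ω] (Lc Ec Fc : Subfield Ω) (R V : Subring Ω) (w x : Ω) (S : Finset Ω),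
      Alg.GoodModel Lc Ec Fc R V w x S →
      ∀ f ∈ V, ∀ P : Polynomial Ω, P.Monic → (∀ i, P.coeff i ∈ Alg.polyRing R x) →
        P.eval f * w⁻¹ ∈ V →
        ∃ b ∈ Alg.chart Fc R x, (f - b) * w⁻¹ ∈ V :=
  fun _ _ _ _ _ _ _ _ _ _ G f hf P hP hc hPf => NA.normalAbs_of_goodModel G f hf P hP hc hPf

/-- the same, universe polymorphic and with named hypotheses (for the chart at infinity apply it
to the good model with coordinate `x⁻¹` of `S18.H425.goodModel_inv`). -/
theorem leaf_normalAbs_univ {Ω : Type*} [Field Ω] {Lc Ec Fc : Subfield Ω} {R V : Subring Ω}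
    {w x : Ω} {S : Finset Ω} (G : Alg.GoodModel Lc Ec Fc R V w x S)
    (f : Ω) (hf : f ∈ V) (P : Polynomial Ω) (hP : P.Monic)
    (hc : ∀ i, P.coeff i ∈ Alg.polyRing R x) (hPf : P.eval f * w⁻¹ ∈ V) :
    ∃ b ∈ Alg.chart Fc R x, (f - b) * w⁻¹ ∈ V :=
  NA.normalAbs_of_goodModel G f hf P hP hc hPf

end Fermat.Agent.S37.H278

end
end
-- ===== PACK-END S37/H278/NormalAbs.lean

-- ===== PACK-BEGIN S29/H332/Growth.lean
section




/-!
# S29 / M4b / K1 → K2 bridge: `holN N` ⊆ exponential growth, and `h ^ p ∈ goodRing N`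

* `expGrowth_of_infExp` : a convergent Laurent expansion in `exp(2πiτ/N)` gives the S24 `ExpGrowth`
  bound on all of `im τ ≥ 1`;
* `mem_goodRing_of_mem_holN` : a `Γ₀(N)`-invariant element of the S24 ring `holN N` lies in the S24
  ring `goodRing N` (the input of helper882's MERO);
* `kummerFun_pow_mem_goodRing`, `hasQExp_kummerFun_pow`.
-/

set_option autoImplicit false

noncomputable section

open UpperHalfPlane HahnSeries ModularCurve Complex
open scoped Real MatrixGroups Manifold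

namespace Fermat.Agent.S29.H332

open Fermat.Agent.S24 Fermat.Agent.S24.H997 Fermat.Agent.S24.H624 Fermat.Agent.S24.H648

variable {N : ℕ} [NeZero N]

omit [NeZero N] in
theorem norm_infZ_eq (τ : ℍ) : ‖infZ N τ‖ = Real.exp (-2 * π * τ.im / N) := by
  rw [infZ, Function.Periodic.norm_qParam]
  rfl

/-- A convergent power series in `z = exp (2πiτ/N)` is bounded on `‖z‖ ≤ r` for every `r < 1`. -/
theorem exists_bound_of_infPExp_of_lt {g : ℍ → ℂ} {ψ : PowerSeries ℂ} (h : InfPExp N g ψ)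
    {r : ℝ} (hr0 : 0 < r) (hr1 : r < 1) :
    ∃ C : ℝ, ∀ τ : ℍ, ‖infZ N τ‖ ≤ r → ‖g τ‖ ≤ C := by
  obtain ⟨ρ, hrρ, hρ1⟩ : ∃ ρ, r < ρ ∧ ρ < 1 := exists_between hr1
  have hρ0 : 0 < ρ := hr0.trans hrρ
  obtain ⟨τ₀, hτ₀⟩ := exists_infZ_eq N (z := ((ρ : ℝ) : ℂ))
    (by exact_mod_cast hρ0.ne')
    (by rw [Complex.norm_real, Real.norm_eq_abs, abs_of_pos hρ0]; exact hρ1)
  have h0 := h τ₀
  rw [hτ₀] at h0
  have hterm := h0.summable.tendsto_atTop_zero
  obtain ⟨B, hB⟩ := (Metric.isBounded_range_of_tendsto _ hterm).exists_norm_le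
  have hB' : ∀ n : ℕ, ‖PowerSeries.coeff n ψ‖ * ρ ^ n ≤ B := by
    intro n
    have := hB _ ⟨n, rfl⟩
    rwa [norm_mul, norm_pow, Complex.norm_real, Real.norm_eq_abs, abs_of_pos hρ0] at this
  have hB0 : 0 ≤ B := le_trans (by positivity) (hB' 0)
  have hq0 : 0 ≤ r / ρ := by positivity
  have hq1 : r / ρ < 1 := (div_lt_one hρ0).mpr hrρ
  refine ⟨B * (1 - r / ρ)⁻¹, fun τ hτ => ?_⟩
  have hgeo : HasSum (fun n : ℕ => B * (r / ρ) ^ n) (B * (1 - r / ρ)⁻¹) :=
    (hasSum_geometric_of_lt_one hq0 hq1).mul_left B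
  rw [← (h τ).tsum_eq]
  refine tsum_of_norm_bounded hgeo fun n => ?_
  rw [norm_mul, norm_pow]
  have h1 : ‖infZ N τ‖ ^ n ≤ r ^ n := pow_le_pow_left₀ (norm_nonneg _) hτ n
  calc ‖PowerSeries.coeff n ψ‖ * ‖infZ N τ‖ ^ n
      ≤ ‖PowerSeries.coeff n ψ‖ * r ^ n :=
        mul_le_mul_of_nonneg_left h1 (norm_nonneg _)
    _ = (‖PowerSeries.coeff n ψ‖ * ρ ^ n) * (r / ρ) ^ n := by
        have e : ρ * (r / ρ) = r := by field_simp
        rw [mul_assoc, ← mul_pow, e]
    _ ≤ B * (r / ρ) ^ n := mul_le_mul_of_nonneg_right (hB' n) (by positivity)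

/-- A function with a convergent Laurent expansion in `exp (2πiτ/N)` satisfies the S24
`ExpGrowth` bound (on all of `im τ ≥ 1`). -/
theorem expGrowth_of_infExp {f : ℍ → ℂ} {φ : LaurentSeries ℂ} (h : InfExp N f φ) :
    ExpGrowth f := by
  have hN : (0 : ℝ) < N := by exact_mod_cast Nat.pos_of_ne_zero (NeZero.ne N)
  have hN1 : (1 : ℝ) ≤ N := by exact_mod_cast Nat.one_le_iff_ne_zero.mpr (NeZero.ne N)
  set r : ℝ := Real.exp (-2 * π / N) with hr
  have hr0 : 0 < r := Real.exp_pos _
  have hr1 : r < 1 := by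
    rw [hr, Real.exp_lt_one_iff]
    have : 0 < 2 * π / N := by positivity
    have e : -2 * π / N = -(2 * π / N) := by ring
    rw [e]
    linarith
  obtain ⟨C, hC⟩ := exists_bound_of_infPExp_of_lt h.powerSeriesPart hr0 hr1
  refine ⟨C, (-φ.order).toNat, fun τ hτ => ?_⟩
  have hz0 : infZ N τ ≠ 0 := infZ_ne_zero N τ
  have hzpos : 0 < ‖infZ N τ‖ := norm_pos_iff.mpr hz0
  have hzle : ‖infZ N τ‖ ≤ r := by
    rw [norm_infZ_eq, hr]
    apply Real.exp_le_exp.mpr
    have hpi := Real.pi_pos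
    rw [div_le_div_iff_of_pos_right hN]
    nlinarith
  have hg := hC τ hzle
  rw [norm_mul, norm_zpow] at hg
  have hf : ‖f τ‖ = ‖infZ N τ‖ ^ φ.order * (‖infZ N τ‖ ^ (-φ.order) * ‖f τ‖) := by
    rw [← mul_assoc, ← zpow_add₀ hzpos.ne', add_neg_cancel, zpow_zero, one_mul]
  have hC0 : 0 ≤ C := le_trans (by positivity) hg
  have hpow : ‖infZ N τ‖ ^ φ.order ≤ Real.exp (2 * π * ((-φ.order).toNat : ℕ) * τ.im) := by
    have hz1 : ‖infZ N τ‖ ≤ 1 := hzle.trans hr1.le
    have hle : -(((-φ.order).toNat : ℕ) : ℤ) ≤ φ.order := by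
      have := Int.self_le_toNat (-φ.order)
      omega
    have h1 : ‖infZ N τ‖ ^ φ.order ≤ ‖infZ N τ‖ ^ (-(((-φ.order).toNat : ℕ) : ℤ)) :=
      zpow_le_zpow_right_of_le_one₀ hzpos hz1 hle
    refine h1.trans ?_
    rw [zpow_neg, zpow_natCast, ← inv_pow, norm_infZ_eq, ← Real.exp_neg, ← Real.exp_nat_mul]
    apply Real.exp_le_exp.mpr
    have him : 0 < τ.im := τ.im_pos
    have hm0 : (0 : ℝ) ≤ ((-φ.order).toNat : ℕ) := Nat.cast_nonneg _
    have hq : 2 * π * τ.im / N ≤ 2 * π * τ.im := by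
      rw [div_le_iff₀ hN]
      have : 0 < 2 * π * τ.im := by positivity
      nlinarith
    have : -(-2 * π * τ.im / N) = 2 * π * τ.im / N := by ring
    rw [this]
    calc (((-φ.order).toNat : ℕ) : ℝ) * (2 * π * τ.im / N)
        ≤ (((-φ.order).toNat : ℕ) : ℝ) * (2 * π * τ.im) :=
          mul_le_mul_of_nonneg_left hq hm0
      _ = 2 * π * ((-φ.order).toNat : ℕ) * τ.im := by ring
  rw [hf]
  calc ‖infZ N τ‖ ^ φ.order * (‖infZ N τ‖ ^ (-φ.order) * ‖f τ‖)
      ≤ Real.exp (2 * π * ((-φ.order).toNat : ℕ) * τ.im) * C :=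
        mul_le_mul hpow hg (by positivity) (Real.exp_pos _).le
    _ = C * Real.exp (2 * π * ((-φ.order).toNat : ℕ) * τ.im) := mul_comm _ _

/-- A `Γ₀(N)`-invariant element of `holN N` lies in `goodRing N`. -/
theorem mem_goodRing_of_mem_holN {f : ℍ → ℂ} (hf : f ∈ holN N)
    (hinv : ∀ γ ∈ CongruenceSubgroup.Gamma0 N, ∀ τ : ℍ, f (γ • τ) = f τ) :
    f ∈ goodRing N := by
  refine ⟨hf.1, hinv, fun g => ?_⟩
  obtain ⟨φ, hφ⟩ := hf.2 g
  exact expGrowth_of_infExp hφ

/-- **K1 → MERO**: the `p`-th power of the Kummer function is a good function of level `N`. -/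
theorem kummerFun_pow_mem_goodRing {χ : CongruenceSubgroup.Gamma0 N →* ℂˣ} (hχ : ParTrivial χ)
    (hnorm : ∀ γ, ‖(χ γ : ℂ)‖ = 1) {p : ℕ} (hp : ∀ γ, χ γ ^ p = 1) :
    kummerFun N χ ^ p ∈ goodRing N := by
  refine mem_goodRing_of_mem_holN (pow_mem (kummerFun_mem_holN hχ hnorm) p) ?_
  intro γ hγ τ
  exact (hasCharacter_kummerFun hχ).pow_invariant hp ⟨γ, hγ⟩ τ

/-- `InfExp` (S24 `Inf`) implies `HasQExp` (S24 `H708`) for holomorphic functions. -/
theorem hasQExp_of_infExp {f : ℍ → ℂ} {φ : LaurentSeries ℂ} (hol : MDiff f)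
    (h : InfExp N f φ) : Fermat.Agent.S24.H708.HasQExp N f φ :=
  Fermat.Agent.S24.H708.HasQExp.of_hasSum hol h

omit [NeZero N] in
/-- The `q`-expansion of the Kummer function (S24 `H708` form). -/
theorem hasQExp_kummerFun {χ : CongruenceSubgroup.Gamma0 N →* ℂˣ} (hχ : ParTrivial χ)
    (hnorm : ∀ γ, ‖(χ γ : ℂ)‖ = 1) :
    Fermat.Agent.S24.H708.HasQExp 1 (kummerFun N χ) (kummerExp N χ) :=
  hasQExp_of_infExp (mdiff_kummerFun hχ hnorm) (infExp_kummerFun hχ hnorm)

omit [NeZero N] in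
/-- The `q`-expansion of the `p`-th power of the Kummer function. -/
theorem hasQExp_kummerFun_pow {χ : CongruenceSubgroup.Gamma0 N →* ℂˣ} (hχ : ParTrivial χ)
    (hnorm : ∀ γ, ‖(χ γ : ℂ)‖ = 1) (p : ℕ) :
    Fermat.Agent.S24.H708.HasQExp 1 (kummerFun N χ ^ p) (kummerExp N χ ^ p) :=
  (hasQExp_kummerFun hχ hnorm).pow p

end Fermat.Agent.S29.H332

end
end
-- ===== PACK-END S29/H332/Growth.lean

-- ===== PACK-BEGIN S18/H905/ConstInst.lean
section






/-!
# S18 / H905 — T2 / T3: CONST for the modular function fields (any characteristic)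

* `transcendental_jqModC`        : `j` is transcendental over `k` in `k((q))` (any field `k`);
* `finiteDimensional_fullC`      : `F_{N,k} = k(j(q^d) : d ∣ N)` is finite over `k(j)` when the primes
  dividing `N` are invertible in `k` (from helper988's unconditional degree formula, S28);
* `exists_place_ord_pos_fullC`, `exists_place_ord_neg_fullC` : zeros and poles exist in `F_{N,k}`;
* `const_fullC`  (**T3**, `CONST_Fk`) : `k` algebraically closed ⇒ a function of `F_{N,k}` without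
  zeros and poles is constant;
* `const_bar`    (**T2**, `CONST_F`)  : the same for `modularFunctionFieldBar N` over `ℚ̄`.

The statements `const_fullC`, `const_bar` are `H94.ConstOfOrdZero` unfolded.
-/

set_option autoImplicit false

noncomputable section

open AlgebraicCurve IntermediateField Polynomial ModularCurve

namespace Fermat.Agent.S18.H905

section AnyField

variable (k : Type*) [Field k]

/-- The `X`-adic valuation of `k((q))` is `≤ 1` on constants. -/
theorem laurent_val_algebraMap_le_one (c : k) :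
    (Valued.v : Valuation (LaurentSeries k) _) (algebraMap k (LaurentSeries k) c) ≤ 1 := by
  have h := (LaurentSeries.valuation_le_iff_coeff_lt_eq_zero (K := k) (D := 0)
    (f := algebraMap k (LaurentSeries k) c)).mpr (by
      intro n hn
      rw [algebraMap_laurentSeries_eq_single, HahnSeries.coeff_single_of_ne hn.ne])
  simpa using h

/-- `j = q⁻¹ + ⋯` is transcendental over `k`. -/
theorem transcendental_jqModC : Transcendental k (jqModC k) := by
  set v : Valuation (LaurentSeries k) _ := Valued.v with hv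
  have hK := val_algebraMap_eq_one_of_le v (laurent_val_algebraMap_le_one k)
  have hj0 : jqModC k ≠ 0 := jqModC_ne_zero_of_nontrivial k
  have hgt : 1 < v (jqModC k) := by
    rw [← not_le]
    intro hle
    have h := (LaurentSeries.valuation_le_iff_coeff_lt_eq_zero (K := k) (D := 0)
      (f := jqModC k)).mp (by simpa using hle) (-1) (by norm_num)
    rw [coeff_jqModC_neg_one] at h
    exact one_ne_zero h
  have hinv : v (jqModC k)⁻¹ < 1 := by
    rw [map_inv₀]
    exact inv_lt_one_of_one_lt₀ hgt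
  have htr := transcendental_of_val_lt_one v hK (inv_ne_zero hj0) hinv
  intro halg
  exact htr halg.inv

variable (N : ℕ) [NeZero N]

/-- `j` as an element of `F_{N,k}`. -/
def jC : ↥(modularFunctionFieldFullC k N) := ⟨jqModC k, jqModC_mem_full k N⟩

omit [NeZero N] in
theorem transcendental_jC : Transcendental k (jC k N) := by
  intro h
  exact transcendental_jqModC k
    ((isAlgebraic_algHom_iff (modularFunctionFieldFullC k N).val Subtype.val_injective).mpr h)

omit [NeZero N] in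
/-- `k(j)` inside `F_{N,k}` is the pull-back of `jField k ⊆ k((q))`. -/
theorem adjoin_jC_eq_comap :
    k⟮jC k N⟯ = (Fermat.Agent.S28.jField k).comap (modularFunctionFieldFullC k N).val := by
  have h1 : (k⟮jC k N⟯).map (modularFunctionFieldFullC k N).val = Fermat.Agent.S28.jField k := by
    rw [IntermediateField.adjoin_map, Set.image_singleton]
    rfl
  rw [← h1, IntermediateField.comap_map]

/-- `F_{N,k}` is finite over `k(j)` as soon as the primes dividing `N` are invertible in `k`. -/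
theorem finiteDimensional_fullC (hchar : ∀ p : ℕ, p.Prime → p ∣ N → (p : k) ≠ 0) :
    FiniteDimensional k⟮jC k N⟯ ↥(modularFunctionFieldFullC k N) := by
  have hdeg := Fermat.Agent.S28.H988.relfinrank_jField_full_eq k N (NeZero.ne N) hchar
  have hpos := Fermat.Agent.S28.H988.dedekindPsi_pos N (NeZero.ne N)
  have hfr : Module.finrank
      ↥((Fermat.Agent.S28.jField k).comap (modularFunctionFieldFullC k N).val)
      ↥(modularFunctionFieldFullC k N) = dedekindPsi N := by
    rw [IntermediateField.finrank_comap, IntermediateField.fieldRange_val, hdeg]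
  have hfin : FiniteDimensional
      ↥((Fermat.Agent.S28.jField k).comap (modularFunctionFieldFullC k N).val)
      ↥(modularFunctionFieldFullC k N) :=
    Module.finite_of_finrank_pos (by rw [hfr]; exact hpos)
  rw [adjoin_jC_eq_comap]
  exact hfin

/-- Finiteness of `F_{N,k}` over `k(x)` for every transcendental `x`. -/
theorem finite_fullC (hchar : ∀ p : ℕ, p.Prime → p ∣ N → (p : k) ≠ 0) :
    ∀ x : ↥(modularFunctionFieldFullC k N), Transcendental k x →
      FiniteDimensional k⟮x⟯ ↥(modularFunctionFieldFullC k N) :=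
  haveI := finiteDimensional_fullC k N hchar
  finite_of_finite (transcendental_jC k N)

/-- Every non-algebraic function of `F_{N,k}` has a zero. -/
theorem exists_place_ord_pos_fullC (hchar : ∀ p : ℕ, p.Prime → p ∣ N → (p : k) ≠ 0)
    (u : ↥(modularFunctionFieldFullC k N)) (hu : Transcendental k u) :
    ∃ v : Place k ↥(modularFunctionFieldFullC k N), 0 < v.ord u :=
  exists_place_ord_pos (finite_fullC k N hchar) u hu

/-- Every non-algebraic function of `F_{N,k}` has a pole. -/
theorem exists_place_ord_neg_fullC (hchar : ∀ p : ℕ, p.Prime → p ∣ N → (p : k) ≠ 0)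
    (u : ↥(modularFunctionFieldFullC k N)) (hu : Transcendental k u) :
    ∃ v : Place k ↥(modularFunctionFieldFullC k N), v.ord u < 0 :=
  exists_place_ord_neg (finite_fullC k N hchar) u hu

/-- **T3 = CONST_Fk.** For `k` algebraically closed with the primes of `N` invertible, a function
of `F_{N,k}` without zeros and poles is constant. -/
theorem const_fullC [IsAlgClosed k] (hchar : ∀ p : ℕ, p.Prime → p ∣ N → (p : k) ≠ 0)
    (u : ↥(modularFunctionFieldFullC k N)) (hu0 : u ≠ 0)
    (hu : ∀ v : Place k ↥(modularFunctionFieldFullC k N), v.ord u = 0) :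
    ∃ c : k, u = algebraMap k ↥(modularFunctionFieldFullC k N) c :=
  haveI := finiteDimensional_fullC k N hchar
  constOfOrdZero_of_finite (transcendental_jC k N) u hu0 hu

end AnyField

/-- **T2 = CONST_F.** A function of `modularFunctionFieldBar N` without zeros and poles is
constant. -/
theorem const_bar (N : ℕ) [NeZero N] (u : ↥(modularFunctionFieldBar N)) (hu0 : u ≠ 0)
    (hu : ∀ v : Place (AlgebraicClosure ℚ) ↥(modularFunctionFieldBar N), v.ord u = 0) :
    ∃ c : AlgebraicClosure ℚ, u = algebraMap (AlgebraicClosure ℚ) ↥(modularFunctionFieldBar N) c := by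
  have key : ∀ (S : IntermediateField (AlgebraicClosure ℚ) (LaurentSeries (AlgebraicClosure ℚ))),
      S = modularFunctionFieldFullC (AlgebraicClosure ℚ) N →
      ∀ u : ↥S, u ≠ 0 → (∀ v : Place (AlgebraicClosure ℚ) ↥S, v.ord u = 0) →
        ∃ c : AlgebraicClosure ℚ, u = algebraMap (AlgebraicClosure ℚ) ↥S c := by
    rintro S rfl u hu0 hu
    exact const_fullC (AlgebraicClosure ℚ) N
      (fun p hp _ => Fermat.Agent.S28.H988.natCast_ne_zero_bar hp.ne_zero) u hu0 hu
  exact key _ (Fermat.Agent.S28.H988.modularFunctionFieldBar_eq_fullC N) u hu0 hu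

/-- The primes dividing `N` are invertible in the residue field of `A` when `A` lies over
`ℓ ∤ N`. -/
theorem hchar_residue (N : ℕ) {ℓ : ℕ} [Fact ℓ.Prime] (hℓN : ¬ ℓ ∣ N)
    (A : ValuationSubring (AlgebraicClosure ℚ)) (hA : A.LiesOverPrime ℓ) :
    ∀ p : ℕ, p.Prime → p ∣ N → ((p : ℕ) : IsLocalRing.ResidueField A) ≠ 0 := fun _ _ hpN =>
  natCast_residue_ne_zero A (Fact.out : ℓ.Prime) hA (fun h => hℓN (h.trans hpN))

/-- **T3 = CONST_Fk for the residue field of `A`** (shape `H94.ConstOfOrdZero`). -/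
theorem const_residue (N : ℕ) [NeZero N] {ℓ : ℕ} [Fact ℓ.Prime] (hℓN : ¬ ℓ ∣ N)
    (A : ValuationSubring (AlgebraicClosure ℚ)) (hA : A.LiesOverPrime ℓ)
    (u : ↥(modularFunctionFieldFullC (IsLocalRing.ResidueField A) N)) (hu0 : u ≠ 0)
    (hu : ∀ v : Place (IsLocalRing.ResidueField A)
      ↥(modularFunctionFieldFullC (IsLocalRing.ResidueField A) N), v.ord u = 0) :
    ∃ c : IsLocalRing.ResidueField A,
      u = algebraMap (IsLocalRing.ResidueField A)
        ↥(modularFunctionFieldFullC (IsLocalRing.ResidueField A) N) c :=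
  haveI := isAlgClosed_residueField A
  const_fullC (IsLocalRing.ResidueField A) N (hchar_residue N hℓN A hA) u hu0 hu

end Fermat.Agent.S18.H905

end
end
-- ===== PACK-END S18/H905/ConstInst.lean

-- ===== PACK-BEGIN S37/H868/FullC.lean
section





/-!
# S37 / R-d instantiation (helper868): function-field inputs for `F_{N,K} = K(j(q^d) : d ∣ N)`

`K` algebraically closed of any characteristic in which the primes dividing `N` are invertible.
Everything is read off from the characteristic-free libraries on main (S24.FF, Lib/RR/H560,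
S18/H905, S28/H988):

* `hval_fullC`  : regular functions have values;
* `deg_fullC`   : places have degree one;
* `hpd_fullC`   : `HasPrincipalDivisors`;
* `finrank_fullC` : `[F_{N,K} : K(j)] = ψ(N)`;
* `sum_zero_inv_j_fullC` : the zero divisor of `1/j` has degree `ψ(N)`.
Transport to the Prelude's `laurentBaseChange L (modularFunctionFieldFull N)` in `Bar` section.
-/

set_option autoImplicit false
set_option linter.unusedSectionVars false

noncomputable section

namespace Fermat.Agent.S37.H868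

open AlgebraicCurve ModularCurve IntermediateField
open Fermat.Agent.S24.H504

section Generic

variable {K F : Type*} [Field K] [Field F] [Algebra K F] [IsAlgClosed K]

/-- regular functions have values (residue field `= K`) -/
theorem hval_of_finite {x : F} (hx : Transcendental K x) [FiniteDimensional K⟮x⟯ F]
    (v : Place K F) (f : F) (hf : 0 ≤ v.ord f) :
    ∃ c : K, InMax v (f - algebraMap K F c) := by
  obtain ⟨a, ha⟩ := Fermat.Agent.S24.FF.exists_const_sub_mem_nonunits v hx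
    (Fermat.Agent.S24.FF.mem_of_ord_nonneg v hf)
  exact ⟨a, (Fermat.Agent.S37.H940.inMax_iff_mem_nonunits (P := v)).mpr ha⟩

/-- The zero divisor of `t⁻¹` has degree `[F : K(t)]`. -/
theorem sum_max_ord_inv {x : F} (hx : Transcendental K x) [FiniteDimensional K⟮x⟯ F]
    (t : F) (ht : Transcendental K t) [FiniteDimensional K⟮t⟯ F]
    (D : Divisor K F) (hD : ∀ P, D P = P.ord t⁻¹) :
    ∑ P ∈ D.support, max (D P) 0 = (Module.finrank K⟮t⟯ F : ℤ) := by
  classical
  have hdeg : ∀ P : Place K F, P.deg = 1 := Fermat.Agent.Lib.RR.H560.hdeg_all x hx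
  rw [← Fermat.Agent.Lib.RR.H560.degree_poleD x hx t ht,
    Fermat.Agent.S37.H518.degree_eq_sum_of_deg_one _ hdeg]
  have hpole : ∀ P, Fermat.Agent.Lib.RR.H560.poleD x hx t P = max (D P) 0 := by
    intro P
    rw [Fermat.Agent.Lib.RR.H560.poleD_apply, hD, Place.ord_inv, max_comm]
  symm
  rw [Finset.sum_congr rfl fun P _ => hpole P]
  refine Finset.sum_subset ?_ ?_
  · intro P hP
    rw [Finsupp.mem_support_iff, hpole] at hP
    rw [Finsupp.mem_support_iff]
    intro h0
    rw [h0] at hP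
    simp at hP
  · intro P _ hP
    rw [Finsupp.notMem_support_iff, hpole] at hP
    exact hP

end Generic

section FullC

variable (K : Type*) [Field K] [IsAlgClosed K] (N : ℕ) [NeZero N]
variable (hchar : ∀ p : ℕ, p.Prime → p ∣ N → (p : K) ≠ 0)

open Fermat.Agent.S18.H905

include hchar

theorem hval_fullC (v : Place K (modularFunctionFieldFullC K N))
    (f : modularFunctionFieldFullC K N) (hf : 0 ≤ v.ord f) :
    ∃ c : K, InMax v (f - algebraMap K (modularFunctionFieldFullC K N) c) :=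
  haveI := finiteDimensional_fullC K N hchar
  hval_of_finite (transcendental_jC K N) v f hf

theorem deg_fullC (v : Place K (modularFunctionFieldFullC K N)) : v.deg = 1 :=
  haveI := finiteDimensional_fullC K N hchar
  Fermat.Agent.S24.FF.deg_eq_one v (transcendental_jC K N)

theorem hpd_fullC : HasPrincipalDivisors K (modularFunctionFieldFullC K N) :=
  haveI := finiteDimensional_fullC K N hchar
  Fermat.Agent.Lib.RR.H560.hasPrincipalDivisors (jC K N) (transcendental_jC K N)

theorem finrank_fullC :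
    Module.finrank K⟮jC K N⟯ (modularFunctionFieldFullC K N) = dedekindPsi N := by
  have hdeg := Fermat.Agent.S28.H988.relfinrank_jField_full_eq K N (NeZero.ne N) hchar
  rw [adjoin_jC_eq_comap, IntermediateField.finrank_comap, IntermediateField.fieldRange_val, hdeg]

/-- The zero divisor of `1/j` on `F_{N,K}` has degree `ψ(N)`. -/
theorem sum_zero_inv_j_fullC (u : modularFunctionFieldFullC K N)
    (hu : (u : LaurentSeries K) = (jqModC K)⁻¹)
    (D : Divisor K (modularFunctionFieldFullC K N)) (hD : ∀ P, D P = P.ord u) :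
    ∑ P ∈ D.support, max (D P) 0 = (dedekindPsi N : ℤ) := by
  have := finiteDimensional_fullC K N hchar
  have hu' : u = (jC K N)⁻¹ := Subtype.ext hu
  rw [← finrank_fullC K N hchar]
  exact sum_max_ord_inv (transcendental_jC K N) (jC K N) (transcendental_jC K N) D
    (fun P => by rw [hD, hu'])

end FullC

section Bar

variable (L : Type*) [Field L] [Algebra ℚ L] [IsAlgClosed L] (N : ℕ) [NeZero N]

theorem natCast_ne_zero_of_algebra {p : ℕ} (hp : p ≠ 0) : ((p : ℕ) : L) ≠ 0 := by
  have : CharZero L := charZero_of_injective_algebraMap (algebraMap ℚ L).injective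
  exact Nat.cast_ne_zero.mpr hp

theorem hval_bar (v : Place L (laurentBaseChange L (modularFunctionFieldFull N)))
    (f : laurentBaseChange L (modularFunctionFieldFull N)) (hf : 0 ≤ v.ord f) :
    ∃ c : L, InMax v (f - algebraMap L (laurentBaseChange L (modularFunctionFieldFull N)) c) := by
  have key : ∀ (S : IntermediateField L (LaurentSeries L)),
      S = modularFunctionFieldFullC L N → ∀ (v : Place L S) (f : S), 0 ≤ v.ord f →
        ∃ c : L, InMax v (f - algebraMap L S c) := by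
    rintro S rfl v f hf
    exact hval_fullC L N (fun p hp _ => natCast_ne_zero_of_algebra L hp.ne_zero) v f hf
  exact key _ (Fermat.Agent.S28.H988.laurentBaseChange_full_eq_fullC L N) v f hf

theorem deg_bar (v : Place L (laurentBaseChange L (modularFunctionFieldFull N))) : v.deg = 1 := by
  have key : ∀ (S : IntermediateField L (LaurentSeries L)),
      S = modularFunctionFieldFullC L N → ∀ (v : Place L S), v.deg = 1 := by
    rintro S rfl v
    exact deg_fullC L N (fun p hp _ => natCast_ne_zero_of_algebra L hp.ne_zero) v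
  exact key _ (Fermat.Agent.S28.H988.laurentBaseChange_full_eq_fullC L N) v

theorem hpd_bar : HasPrincipalDivisors L (laurentBaseChange L (modularFunctionFieldFull N)) := by
  have key : ∀ (S : IntermediateField L (LaurentSeries L)),
      S = modularFunctionFieldFullC L N → HasPrincipalDivisors L S := by
    rintro S rfl
    exact hpd_fullC L N (fun p hp _ => natCast_ne_zero_of_algebra L hp.ne_zero)
  exact key _ (Fermat.Agent.S28.H988.laurentBaseChange_full_eq_fullC L N)

theorem sum_zero_inv_j_bar (u : laurentBaseChange L (modularFunctionFieldFull N))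
    (hu : (u : LaurentSeries L) = (jqModC L)⁻¹)
    (D : Divisor L (laurentBaseChange L (modularFunctionFieldFull N))) (hD : ∀ P, D P = P.ord u) :
    ∑ P ∈ D.support, max (D P) 0 = (dedekindPsi N : ℤ) := by
  have key : ∀ (S : IntermediateField L (LaurentSeries L)),
      S = modularFunctionFieldFullC L N → ∀ (u : S), (u : LaurentSeries L) = (jqModC L)⁻¹ →
        ∀ D : Divisor L S, (∀ P, D P = P.ord u) →
          ∑ P ∈ D.support, max (D P) 0 = (dedekindPsi N : ℤ) := by
    rintro S rfl u hu D hD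
    exact sum_zero_inv_j_fullC L N (fun p hp _ => natCast_ne_zero_of_algebra L hp.ne_zero) u hu D hD
  exact key _ (Fermat.Agent.S28.H988.laurentBaseChange_full_eq_fullC L N) u hu D hD

end Bar

end Fermat.Agent.S37.H868

end
end
-- ===== PACK-END S37/H868/FullC.lean

-- ===== PACK-BEGIN A3/H75/DiscDataOfParam.lean
section



/-!
# A3 / LOCAL / DISC (helper75): `DiscData` of a `GoodRed` from a parameter

* `toConsInput` : a `GoodRed` is a `ConsInput` (conservation of zeros = `div_red`);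
* `discData_of_param` : for a place `Q` of the special fibre and a parameter `t` (a function of
  `𝓡.O`, regular on the disc of `Q`, with `ord_Q (red t) = 1`) the frozen `DiscData 𝓡 Q` of
  `Fermat/Agent/A3/H799/LocalSpec.lean`, with `D.t = t`.

So the leaf `DiscStatement` is reduced to the existence of an inertia-invariant parameter at every
place of the special fibre (`disc_of_param`).
-/

set_option autoImplicit false
set_option linter.unusedSectionVars false

noncomputable section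

namespace Fermat.Agent.A3.H75

open AlgebraicCurve Fermat.Agent.Lib.RR Fermat.Agent.A3.H799

variable {K F k Fk : Type*} [Field K] [Field F] [Algebra K F] [Field k] [Field Fk] [Algebra k Fk]

theorem red_eq_zero_iff (𝓡 : GoodRed K F k Fk) (x : 𝓡.O) :
    𝓡.red x = 0 ↔ (x : F) ∈ 𝓡.O.nonunits := by
  have hmax : (RingHom.ker 𝓡.red).IsMaximal := RingHom.ker_isMaximal_of_surjective _ 𝓡.red_surjective
  have heq : RingHom.ker 𝓡.red = IsLocalRing.maximalIdeal 𝓡.O := IsLocalRing.eq_maximalIdeal hmax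
  rw [← RingHom.mem_ker, heq, IsLocalRing.mem_maximalIdeal]
  exact (ValuationSubring.coe_mem_nonunits_iff (A := 𝓡.O)).symm

theorem algebraMap_mem_nonunits_of_mem (𝓡 : GoodRed K F k Fk) (a : K) (ha : a ∈ 𝓡.V.nonunits) :
    algebraMap K F a ∈ 𝓡.O.nonunits := by
  rw [ValuationSubring.mem_nonunits_iff_or] at ha ⊢
  rcases ha with rfl | ha
  · left
    exact map_zero _
  · right
    rw [← map_inv₀, 𝓡.algebraMap_mem]
    exact ha

/-- A `GoodRed` is a `ConsInput`. -/
def toConsInput (𝓡 : GoodRed K F k Fk) :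
    ConsInput 𝓡.V F k Fk where
  V := 𝓡.O
  algebraMap_mem a ha := (𝓡.algebraMap_mem a).mpr ha
  algebraMap_mem_nonunits := algebraMap_mem_nonunits_of_mem 𝓡
  π := 𝓡.res
  π_eq_zero a ha := (𝓡.res_eq_zero a).mp ha
  ρ := 𝓡.red
  ρ_eq_zero := red_eq_zero_iff 𝓡
  ρ_algebraMap a ha := 𝓡.red_algebraMap ⟨a, ha⟩ _
  r := 𝓡.r
  cons := 𝓡.div_red

/-- The frozen `DiscData` from a parameter. -/
def discData_of_param (𝓡 : GoodRed K F k Fk) (Q : Place k Fk) (T : DiscParam (toConsInput 𝓡) Q) :
    DiscData 𝓡 Q :=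
  haveI : FF1 K F := 𝓡.ff1
  { ring := (toConsInput 𝓡).discRing Q
    ring_le := fun f hf => hf.1
    ring_reg := fun f hf => hf.2
    mem_ring := fun f hf hreg => ⟨hf, hreg⟩
    D := T.discAlg
    pt := T.center
    r_pt := T.r_center
    pt_surj := T.exists_center_eq
    ord_t := T.ord_t
    ev_spec := by
      intro a f
      have h := T.hasVal_evVal a f
      rcases (mem_nonunits_iff_ord _ _).mp h with h0 | hpos
      · left
        exact sub_eq_zero.mp h0
      · right
        exact hpos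
    red_ev := by
      intro a f
      have h := (toConsInput 𝓡).hasVal_red Q ((toConsInput 𝓡).toV Q f) ((toConsInput 𝓡).regOn_coe Q f)
        (T.center a) (T.r_center a) (T.evVal a f) (T.hasVal_evVal a f)
      rcases (mem_nonunits_iff_ord _ _).mp h with h0 | hpos
      · left
        exact sub_eq_zero.mp h0
      · right
        exact hpos }

theorem discData_of_param_t (𝓡 : GoodRed K F k Fk) (Q : Place k Fk)
    (T : DiscParam (toConsInput 𝓡) Q) :
    (((discData_of_param 𝓡 Q T).D.t : (discData_of_param 𝓡 Q T).ring) : F) = (T.t : F) := rfl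

/-- **DISC from PAR.**  The leaf `DiscStatement` follows from the existence, at every place `Q` of
the special fibre, of an inertia-invariant function of `𝓡.O`, regular on the disc of `Q`, whose
reduction is a uniformiser at `Q`. -/
theorem disc_of_param
    (hpar : ∀ (𝓡 : GoodRed K F k Fk) (Q : Place k Fk), ∃ t : 𝓡.O,
      (∀ P : Place K F, 𝓡.r P = Q → (t : F) ∈ P.toValuationSubring) ∧
      Q.ord (𝓡.red t) = 1 ∧ ∀ g ∈ 𝓡.I, g • (t : F) = (t : F)) :
    DiscStatement K F k Fk := by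
  intro 𝓡 Q
  obtain ⟨t, hreg, hord, hinv⟩ := hpar 𝓡 Q
  exact ⟨discData_of_param 𝓡 Q ⟨t, hreg, hord⟩, hinv⟩

end Fermat.Agent.A3.H75

end
end
-- ===== PACK-END A3/H75/DiscDataOfParam.lean

-- ===== PACK-BEGIN S19/H195/GoodRedD12.lean
section



/-!
# A3 / LOCAL D1–D2 for the frozen interface `GoodRed` (helper195)

`GoodRed K F k Fk` (architect helper799, `Fermat/Agent/A3/H799/GoodRed.lean`) is converted into the
lighter `RedDatum` of `RedDatum.lean`, and the results D1–D2 of the LOCAL plan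
(origin/helper979:coord/A3-helper979.md §3) are stated for `GoodRed`:

* `GoodRed.max_principle`   **D1**: `f ∈ O` without poles in the residue disc of `P`, `f(P) = c`
  ⟹ `c ∈ V` and `(red f)(r P) = res c`;
* `GoodRed.r_surjective`    **D2**: `r` is onto;
* `GoodRed.sp`              **D2**: specialisation `Pic0 K F →+ Pic0 k Fk`, `sp [D] = [r_* D]`;
* `GoodRed.ell_le`          **D2**: `ℓ(D) ≤ ℓ(r_* D)`;
* `GoodRed.exists_lift`     **D2**: for `deg D > 2g - 2` every element of `L(r_* D)` is the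
  reduction of an element of `L(D) ∩ O`;  `GoodRed.ell_eq`: then `ℓ(D) = ℓ(r_* D)`;
* `GoodRed.exists_lattice_basis`  orthonormal basis of `L(D)` reducing to a basis of `L(r_* D)`,
  with the lattice property (`L(D) ∩ O = ⊕ V wᵢ`).
-/

set_option autoImplicit false

noncomputable section

open AlgebraicCurve Fermat.Agent.Lib.RR

namespace Fermat.Agent.S19.H195

open Fermat.Agent.A3.H799

universe u₁ u₂ u₃ u₄

variable {K : Type u₁} {F : Type u₂} {k : Type u₃} {Fk : Type u₄}
  [Field K] [Field F] [Algebra K F] [Field k] [Field Fk] [Algebra k Fk]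

/-- The `RedDatum` underlying a `GoodRed`. -/
def ofGoodRed (𝓡 : GoodRed K F k Fk) : RedDatum K F k Fk where
  V := 𝓡.O.toSubring
  red := 𝓡.red
  r := 𝓡.r
  const_total := fun a => by
    rcases 𝓡.O.mem_or_inv_mem (algebraMap K F a) with h | h
    · exact Or.inl h
    · right
      rw [map_inv₀]
      exact h
  red_const := fun a h =>
    ⟨𝓡.res ⟨a, (𝓡.algebraMap_mem a).mp h⟩, 𝓡.red_algebraMap ⟨a, (𝓡.algebraMap_mem a).mp h⟩ h⟩
  red_const_surj := fun b => by
    obtain ⟨a, ha⟩ := 𝓡.res_surjective b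
    have h : algebraMap K F (a : K) ∈ 𝓡.O := (𝓡.algebraMap_mem a).mpr a.2
    exact ⟨a, h, by rw [← ha]; exact 𝓡.red_algebraMap a h⟩
  red_const_unit := fun a h hne => by
    have haV : a ∈ 𝓡.V := (𝓡.algebraMap_mem a).mp h
    have hres : 𝓡.res ⟨a, haV⟩ ≠ 0 := by
      intro h0
      apply hne
      have := 𝓡.red_algebraMap ⟨a, haV⟩ h
      rw [h0, map_zero] at this
      exact this
    have hnu : a ∉ 𝓡.V.nonunits := fun hn => hres ((𝓡.res_eq_zero ⟨a, haV⟩).mpr hn)
    rw [ValuationSubring.mem_nonunits_iff_exists_mem_maximalIdeal] at hnu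
    have hunit : IsUnit (⟨a, haV⟩ : 𝓡.V) := by
      by_contra hnot
      exact hnu ⟨haV, (IsLocalRing.mem_maximalIdeal _).mpr hnot⟩
    obtain ⟨u, hu⟩ := hunit
    have hinv : a⁻¹ ∈ 𝓡.V := by
      have h1 : ((u⁻¹ : (𝓡.V)ˣ) : 𝓡.V) * ⟨a, haV⟩ = 1 := by
        rw [← hu]; exact Units.inv_mul u
      have h2 : (((u⁻¹ : (𝓡.V)ˣ) : 𝓡.V) : K) * a = 1 := congrArg Subtype.val h1
      have ha0 : a ≠ 0 := by
        rintro rfl
        rw [mul_zero] at h2
        exact zero_ne_one h2
      have h3 : a⁻¹ = (((u⁻¹ : (𝓡.V)ˣ) : 𝓡.V) : K) :=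
        (eq_inv_of_mul_eq_one_left h2).symm
      rw [h3]
      exact Subtype.mem _
    exact (𝓡.algebraMap_mem a⁻¹).mpr hinv
  ord_red := fun u hu hne D hD Q => 𝓡.div_red ⟨u, hu⟩ hne D hD Q


namespace GoodRedLemmas

variable (𝓡 : GoodRed K F k Fk)

/-- The scaling axiom of `RedDatum` lemmas, from `gauss`. -/
theorem hscale : ∀ f : F, f ≠ 0 → ∃ c : K, c ≠ 0 ∧
    ∃ h : algebraMap K F c * f ∈ (ofGoodRed 𝓡).V, (ofGoodRed 𝓡).red ⟨_, h⟩ ≠ 0 :=
  fun f hf => 𝓡.gauss f hf

/-- Every Riemann–Roch space has an orthonormal basis. -/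
theorem orthOn (D : Divisor K F) : (ofGoodRed 𝓡).OrthOn (riemannRochSpace D) := by
  obtain ⟨n, b, hli, hmem, hspan, -⟩ := 𝓡.orthonormal D
  exact ⟨n, fun i => ((b i : 𝓡.O) : F), fun i => (b i).2, hmem, hspan.ge, hli⟩

/-- **D1, maximum principle.** -/
theorem max_principle (P : Place K F) (f : 𝓡.O)
    (hreg : ∀ Q, 𝓡.r Q = 𝓡.r P → 0 ≤ Q.ord (f : F)) {c : K}
    (hc : (f : F) - algebraMap K F c = 0 ∨ 0 < P.ord ((f : F) - algebraMap K F c)) :
    ∃ hcV : c ∈ 𝓡.V,
      𝓡.red f - algebraMap k Fk (𝓡.res ⟨c, hcV⟩) = 0 ∨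
        0 < (𝓡.r P).ord (𝓡.red f - algebraMap k Fk (𝓡.res ⟨c, hcV⟩)) := by
  have := 𝓡.ff1
  obtain ⟨hcO, h⟩ := (ofGoodRed 𝓡).max_principle P f.2 hreg hc
  have hcV : c ∈ 𝓡.V := (𝓡.algebraMap_mem c).mp hcO
  refine ⟨hcV, ?_⟩
  have h1 : (ofGoodRed 𝓡).red ⟨_, hcO⟩ = algebraMap k Fk (𝓡.res ⟨c, hcV⟩) :=
    𝓡.red_algebraMap ⟨c, hcV⟩ hcO
  rw [h1] at h
  exact h

/-- **D2**: `r` is onto. -/
theorem r_surjective : Function.Surjective 𝓡.r := by
  have := 𝓡.ff1
  exact (ofGoodRed 𝓡).r_surjective 𝓡.red_surjective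

/-- **D2**: principal divisors specialise to principal divisors. -/
theorem mapDomain_mem_principal {D : Divisor K F}
    (hD : D ∈ Divisor.principal (K := K) (F := F)) :
    Finsupp.mapDomain 𝓡.r D ∈ Divisor.principal (K := k) (F := Fk) :=
  (ofGoodRed 𝓡).mapDomain_mem_principal (hscale 𝓡) hD

/-- **D2**: reduction preserves degrees. -/
theorem degree_mapDomain (D : Divisor K F) :
    Divisor.degree (Finsupp.mapDomain 𝓡.r D) = Divisor.degree D := by
  have := 𝓡.ff1
  have := 𝓡.ff1k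
  exact (ofGoodRed 𝓡).degree_mapDomain D

/-- **D2**: the specialisation homomorphism `sp : Pic0 K F →+ Pic0 k Fk`. -/
def sp : Pic0 K F →+ Pic0 k Fk :=
  haveI := 𝓡.ff1
  haveI := 𝓡.ff1k
  (ofGoodRed 𝓡).sp (hscale 𝓡)

theorem sp_mk (D : Divisor.degZero (K := K) (F := F)) :
    ((sp 𝓡 (Pic0.mk D) : Pic0 k Fk)) =
      Pic0.mk ⟨Finsupp.mapDomain 𝓡.r (D : Divisor K F), by
        rw [Divisor.mem_degZero, degree_mapDomain]; exact D.2⟩ := rfl

/-- **D2**: `red (L(D) ∩ O) ⊆ L(r_* D)`. -/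
theorem red_mem (D : Divisor K F) (f : 𝓡.O) (hf : (f : F) ∈ riemannRochSpace D) :
    𝓡.red f ∈ riemannRochSpace (Finsupp.mapDomain 𝓡.r D) := by
  have := 𝓡.ff1
  exact (ofGoodRed 𝓡).redL_le D ((ofGoodRed 𝓡).red_mem_redL f.2 hf)

/-- **D2, semicontinuity**: `ℓ(D) ≤ ℓ(r_* D)`. -/
theorem ell_le (D : Divisor K F) :
    haveI := 𝓡.ff1
    haveI := 𝓡.ff1k
    ell D ≤ ell (Finsupp.mapDomain 𝓡.r D) := by
  have := 𝓡.ff1
  have := 𝓡.ff1k
  exact (ofGoodRed 𝓡).ell_le_ell_mapDomain D (orthOn 𝓡 D)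

/-- **D2, integral Riemann–Roch**: for `deg D > 2g - 2` every element of `L(r_* D)` is the
reduction of an integral function of `L(D)`. -/
theorem exists_lift (D : Divisor K F) (hD : 2 * (genusFF k Fk : ℤ) - 2 < Divisor.degree D)
    (g : Fk) (hg : g ∈ riemannRochSpace (Finsupp.mapDomain 𝓡.r D)) :
    ∃ f : 𝓡.O, (f : F) ∈ riemannRochSpace D ∧ 𝓡.red f = g := by
  have := 𝓡.ff1
  have := 𝓡.ff1k
  have hg' : g ∈ (ofGoodRed 𝓡).redL D := by
    rw [(ofGoodRed 𝓡).redL_eq 𝓡.genus_eq.le D hD (orthOn 𝓡 D)]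
    exact hg
  obtain ⟨f, hf, hfD, rfl⟩ := hg'
  exact ⟨⟨f, hf⟩, hfD, rfl⟩

/-- **D2**: for `deg D > 2g - 2`, `ℓ(D) = ℓ(r_* D) = deg D + 1 - g`. -/
theorem ell_eq (D : Divisor K F) (hD : 2 * (genusFF k Fk : ℤ) - 2 < Divisor.degree D) :
    haveI := 𝓡.ff1
    haveI := 𝓡.ff1k
    ell D = ell (Finsupp.mapDomain 𝓡.r D) ∧
      (ell D : ℤ) = Divisor.degree D + 1 - (genusFF k Fk : ℤ) := by
  have := 𝓡.ff1
  have := 𝓡.ff1k
  exact (ofGoodRed 𝓡).ell_eq 𝓡.genus_eq.le D hD (orthOn 𝓡 D)

/-- **Lattice property** of an orthonormal family: if `∑ cᵢ bᵢ ∈ O` and the `red bᵢ` are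
`k`-independent, then all `cᵢ ∈ V`. -/
theorem coeff_mem {ι : Type*} (b : ι → 𝓡.O) (hli : LinearIndependent k (fun i => 𝓡.red (b i)))
    (s : Finset ι) (c : ι → K) (hf : ∑ i ∈ s, c i • ((b i : 𝓡.O) : F) ∈ 𝓡.O) :
    ∀ i ∈ s, c i ∈ 𝓡.V := fun i hi =>
  (𝓡.algebraMap_mem (c i)).mp
    ((ofGoodRed 𝓡).coeff_mem_of_red (fun i => ((b i : 𝓡.O) : F)) (fun i => (b i).2) hli s c hf i hi)

/-- **D2, basis form**: for `deg D > 2g - 2` there is a `K`-basis of `L(D)` in `O` whose
reductions form a `k`-basis of `L(r_* D)`, and `L(D) ∩ O = ⊕ V wᵢ`. -/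
theorem exists_lattice_basis (D : Divisor K F)
    (hD : 2 * (genusFF k Fk : ℤ) - 2 < Divisor.degree D) :
    ∃ (n : ℕ) (w : Fin n → 𝓡.O), (∀ i, ((w i : 𝓡.O) : F) ∈ riemannRochSpace D) ∧
      LinearIndependent K (fun i => ((w i : 𝓡.O) : F)) ∧
      Submodule.span K (Set.range fun i => ((w i : 𝓡.O) : F)) = riemannRochSpace D ∧
      LinearIndependent k (fun i => 𝓡.red (w i)) ∧
      Submodule.span k (Set.range fun i => 𝓡.red (w i))
        = riemannRochSpace (Finsupp.mapDomain 𝓡.r D) ∧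
      ∀ f : 𝓡.O, (f : F) ∈ riemannRochSpace D →
        ∃ c : Fin n → 𝓡.V, (f : F) = ∑ i, ((c i : 𝓡.V) : K) • ((w i : 𝓡.O) : F) := by
  have := 𝓡.ff1
  have := 𝓡.ff1k
  obtain ⟨w, hw, h1, h2, h3, h4, h5, h6⟩ :=
    (ofGoodRed 𝓡).exists_lattice_basis 𝓡.genus_eq.le D hD (orthOn 𝓡 D)
  refine ⟨_, fun i => ⟨w i, hw i⟩, h1, h2, h3, h4, h5, fun f hf => ?_⟩
  obtain ⟨c, hc, hfc⟩ := h6 f hf f.2
  exact ⟨fun i => ⟨c i, (𝓡.algebraMap_mem (c i)).mp (hc i)⟩, hfc⟩

end GoodRedLemmas

end Fermat.Agent.S19.H195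

end
end
-- ===== PACK-END S19/H195/GoodRedD12.lean

-- ===== PACK-BEGIN A3/H75/Par.lean
section




/-!
# A3 / LOCAL / DISC (helper75): inertia-invariant parameters; the leaf `DiscStatement`

For a `GoodRed 𝓡` (frozen interface, `Fermat/Agent/A3/H799/GoodRed.lean`):

* `exists_lift_inv` : for an inertia-invariant divisor `D` of degree `> 2g - 2`, every element of
  `L(r_* D)` is the reduction of an inertia-invariant function of `L(D) ∩ O`;
* `exists_param_of_place` : if `P₁` is an inertia-invariant place with `r P₁ ≠ Q` there is an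
  inertia-invariant parameter at `Q` (a function of `O`, regular on the disc of `Q`, whose
  reduction is a uniformiser at `Q`), with poles only at `P₁`;
* `exists_place_ne` : a function field with `FF1` has at least two places;
* `exists_inv_place` : over every place `Q' ≠ r P∞` there is an inertia-invariant place;
* `exists_param` (PAR) : every place of the special fibre has an inertia-invariant parameter;
* `discStatement : DiscStatement K F k Fk` : the frozen leaf DISC of
  `Fermat/Agent/A3/H799/LocalSpec.lean`.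
-/

set_option autoImplicit false
set_option linter.unusedSectionVars false

noncomputable section

namespace Fermat.Agent.A3.H75

open AlgebraicCurve Fermat.Agent.Lib.RR Fermat.Agent.A3.H799 Fermat.Agent.S19.H195

variable {K F k Fk : Type*} [Field K] [Field F] [Algebra K F] [Field k] [Field Fk] [Algebra k Fk]

/-- the constants of `V`, as elements of `O` -/
def constO (𝓡 : GoodRed K F k Fk) (a : 𝓡.V) : 𝓡.O :=
  ⟨algebraMap K F (a : K), (𝓡.algebraMap_mem _).mpr a.2⟩

@[simp] theorem coe_constO (𝓡 : GoodRed K F k Fk) (a : 𝓡.V) :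
    ((constO 𝓡 a : 𝓡.O) : F) = algebraMap K F (a : K) := rfl

theorem red_constO (𝓡 : GoodRed K F k Fk) (a : 𝓡.V) :
    𝓡.red (constO 𝓡 a) = algebraMap k Fk (𝓡.res a) :=
  𝓡.red_algebraMap a _

/-- **Inertia-invariant integral Riemann–Roch.** -/
theorem exists_lift_inv (𝓡 : GoodRed K F k Fk) (D : Divisor K F)
    (hD : 2 * (genusFF k Fk : ℤ) - 2 < Divisor.degree D) (hinv : ∀ g ∈ 𝓡.I, g • D = D)
    (gb : Fk) (hgb : gb ∈ riemannRochSpace (Finsupp.mapDomain 𝓡.r D)) :
    ∃ f : 𝓡.O, (f : F) ∈ riemannRochSpace D ∧ 𝓡.red f = gb ∧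
      ∀ g ∈ 𝓡.I, g • (f : F) = (f : F) := by
  have := 𝓡.ff1
  have := 𝓡.ff1k
  obtain ⟨n, b, hli, hmem, hspan, hbinv⟩ := 𝓡.orthonormal D
  have hbI := hbinv hinv
  -- `b` is a `K`-basis of `L(D)`, hence `n = ℓ(D)`
  have hliK : LinearIndependent K (fun i => ((b i : 𝓡.O) : F)) :=
    (ofGoodRed 𝓡).linearIndependent_of_red (fun i => ((b i : 𝓡.O) : F)) (fun i => (b i).2) hli
  have hn : ell D = n := by
    unfold ell
    rw [← hspan, finrank_span_eq_card hliK, Fintype.card_fin]
  have hell := (GoodRedLemmas.ell_eq 𝓡 D hD).1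
  -- the reductions form a basis of `L(r_* D)`
  set W := riemannRochSpace (Finsupp.mapDomain 𝓡.r D) with hW
  let b' : Fin n → W := fun i => ⟨𝓡.red (b i), GoodRedLemmas.red_mem 𝓡 D (b i) (hmem i)⟩
  have hli' : LinearIndependent k b' := by
    apply LinearIndependent.of_comp W.subtype
    exact hli
  have hcard : Fintype.card (Fin n) = Module.finrank k W := by
    rw [Fintype.card_fin, ← hn, hell]
    rfl
  have htop : Submodule.span k (Set.range b') = ⊤ :=
    hli'.span_eq_top_of_card_eq_finrank' hcard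
  have hmemtop : (⟨gb, hgb⟩ : W) ∈ Submodule.span k (Set.range b') := by
    rw [htop]
    exact Submodule.mem_top
  obtain ⟨c, hc⟩ := (Submodule.mem_span_range_iff_exists_fun k).mp hmemtop
  have hc' : ∑ i, c i • 𝓡.red (b i) = gb := by
    have := congrArg (W.subtype) hc
    simpa [b'] using this
  -- inertia-invariant lifts of the coefficients
  choose a ha hainv using fun i => 𝓡.I_lift_const (c i)
  refine ⟨∑ i, constO 𝓡 (a i) * b i, ?_, ?_, ?_⟩
  · have h1 : ((∑ i, constO 𝓡 (a i) * b i : 𝓡.O) : F) =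
        ∑ i, ((a i : 𝓡.V) : K) • ((b i : 𝓡.O) : F) := by
      rw [← 𝓡.O.subtype_apply, map_sum]
      refine Finset.sum_congr rfl fun i _ => ?_
      rw [Algebra.smul_def]
      rfl
    rw [h1]
    exact Submodule.sum_mem _ fun i _ => Submodule.smul_mem _ _ (hmem i)
  · rw [map_sum, ← hc']
    refine Finset.sum_congr rfl fun i _ => ?_
    rw [map_mul, red_constO, ha i, Algebra.smul_def]
  · intro g hg
    have h1 : ((∑ i, constO 𝓡 (a i) * b i : 𝓡.O) : F) =
        ∑ i, algebraMap K F ((a i : 𝓡.V) : K) * ((b i : 𝓡.O) : F) := by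
      rw [← 𝓡.O.subtype_apply, map_sum]
      rfl
    rw [h1, Finset.smul_sum]
    refine Finset.sum_congr rfl fun i _ => ?_
    rw [smul_mul', SemilinearAut.smul_algebraMap, hainv i g hg, hbI i g hg]

/-- **A parameter at `Q` with poles only at an inertia-invariant place `P₁` off the disc.** -/
theorem exists_param_of_place (𝓡 : GoodRed K F k Fk) (Q : Place k Fk) (P₁ : Place K F)
    (hP₁ : ∀ g ∈ 𝓡.I, g • P₁ = P₁) (hne : 𝓡.r P₁ ≠ Q) :
    ∃ t : 𝓡.O, (∀ P : Place K F, 𝓡.r P = Q → (t : F) ∈ P.toValuationSubring) ∧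
      Q.ord (𝓡.red t) = 1 ∧ ∀ g ∈ 𝓡.I, g • (t : F) = (t : F) := by
  classical
  have := 𝓡.ff1
  have := 𝓡.ff1k
  set m : ℤ := 2 * (genusFF k Fk : ℤ) + 2 with hm
  set D : Divisor K F := Finsupp.single P₁ m with hD
  have hdegD : Divisor.degree D = m := by
    rw [hD, Divisor.degree_single, deg_eq_one P₁]
    simp
  have hrD : Finsupp.mapDomain 𝓡.r D = Finsupp.single (𝓡.r P₁) m := by
    rw [hD, Finsupp.mapDomain_single]
  set E : Divisor k Fk := Finsupp.single (𝓡.r P₁) m - prim Q with hE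
  have hdegE : Divisor.degree E = m - 1 := by
    rw [hE, map_sub, Divisor.degree_single, deg_eq_one (𝓡.r P₁), degree_prim']
    simp
  obtain ⟨tb, htb, htb0, hord⟩ := H439.exists_mem_L_ord_eq (E := E)
    (by rw [hdegE, hm]; omega) Q
  have hEQ : E Q = -1 := by
    rw [hE, Finsupp.sub_apply, Finsupp.single_apply, if_neg hne, prim_apply_self]
    ring
  rw [hEQ, neg_neg] at hord
  have htb' : tb ∈ riemannRochSpace (Finsupp.mapDomain 𝓡.r D) := by
    rw [hrD]
    exact L_mono (H439.sub_prim_le _ Q) htb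
  have hDinv : ∀ g ∈ 𝓡.I, g • D = D := by
    intro g hg
    rw [hD, SemilinearAut.smul_single, hP₁ g hg]
  obtain ⟨t, htD, hred, htinv⟩ := exists_lift_inv 𝓡 D (by rw [hdegD, hm]; omega) hDinv tb htb'
  refine ⟨t, fun P hP => ?_, by rw [hred]; exact hord, htinv⟩
  have hPne : P ≠ P₁ := by
    rintro rfl
    exact hne hP
  rcases (mem_L_iff.mp htD) P with h0 | h
  · rw [h0]
    exact P.toValuationSubring.zero_mem
  · apply mem_of_ord_nonneg
    rw [hD, Finsupp.single_apply, if_neg (Ne.symm hPne), neg_zero] at h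
    exact h

/-- A function field of one variable (`FF1`) has at least two places. -/
theorem exists_place_ne {K' F' : Type*} [Field K'] [Field F'] [Algebra K' F'] [FF1 K' F']
    (Q₀ : Place K' F') : ∃ Q : Place K' F', Q ≠ Q₀ := by
  classical
  by_contra hcon
  push Not at hcon
  set n : ℤ := 2 * (genusFF K' F' : ℤ) + 1 with hn
  set D : Divisor K' F' := Finsupp.single Q₀ n with hD
  have hdegD : Divisor.degree D = n := by
    rw [hD, Divisor.degree_single, deg_eq_one Q₀]
    simp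
  have hell : (ell D : ℤ) = Divisor.degree D + 1 - (genusFF K' F' : ℤ) :=
    ell_eq_of_degree_gt (by rw [hdegD, hn]; omega)
  have hle : riemannRochSpace D ≤ riemannRochSpace (0 : Divisor K' F') := by
    intro f hf
    rw [mem_L_iff]
    intro v
    by_cases hf0 : f = 0
    · exact Or.inl hf0
    right
    have hv : v = Q₀ := hcon v
    have hdeg := degree_divOf (K := K') f hf0
    have hdiv : divOf (K := K') f hf0 = Finsupp.single Q₀ (Q₀.ord f) := by
      ext w
      rw [divOf_apply, hcon w, Finsupp.single_apply, if_pos rfl]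
    rw [hdiv, Divisor.degree_single, deg_eq_one Q₀] at hdeg
    have h0 : Q₀.ord f = 0 := by simpa using hdeg
    rw [hv, h0]
    simp
  have h1 := Submodule.finrank_mono hle
  have h2 : ell (0 : Divisor K' F') = 1 := ell_zero
  unfold ell at h2 hell
  rw [hdegD, hn] at hell
  omega

/-- the zero of the maximal ideal -/
def zeroMax (𝓡 : GoodRed K F k Fk) : IsLocalRing.maximalIdeal 𝓡.V := 0

/-- **An inertia-invariant place in the disc of `Q'`**, from an inertia-invariant parameter. -/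
theorem exists_inv_place_of_param (𝓡 : GoodRed K F k Fk) (Q' : Place k Fk) (t : 𝓡.O)
    (hreg : ∀ P : Place K F, 𝓡.r P = Q' → (t : F) ∈ P.toValuationSubring)
    (hord : Q'.ord (𝓡.red t) = 1) (hinv : ∀ g ∈ 𝓡.I, g • (t : F) = (t : F)) :
    ∃ P' : Place K F, 𝓡.r P' = Q' ∧ ∀ g ∈ 𝓡.I, g • P' = P' := by
  have := 𝓡.ff1
  let T : DiscParam (toConsInput 𝓡) Q' := ⟨t, hreg, hord⟩
  refine ⟨T.center 0, T.r_center 0, fun g hg => ?_⟩
  symm
  apply T.center_eq 0 (g • T.center 0)
  · show 𝓡.r (g • T.center 0) = Q'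
    rw [𝓡.I_place g hg]
    exact T.r_center 0
  · have h0 := T.hasVal_center 0
    have hval : HasVal (T.center 0) (t : F) 0 := by simpa using h0
    have hval' : HasVal (g • T.center 0) (t : F) 0 := by
      rw [hasVal_zero_iff] at hval ⊢
      rcases hval with h | h
      · exact Or.inl h
      · right
        have := SemilinearAut.ord_smul g (T.center 0) (t : F)
        rw [hinv g hg] at this
        rw [this]
        exact h
    simpa using hval'

/-- **PAR.**  Every place of the special fibre has an inertia-invariant parameter. -/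
theorem exists_param (𝓡 : GoodRed K F k Fk) (Q : Place k Fk) :
    ∃ t : 𝓡.O, (∀ P : Place K F, 𝓡.r P = Q → (t : F) ∈ P.toValuationSubring) ∧
      Q.ord (𝓡.red t) = 1 ∧ ∀ g ∈ 𝓡.I, g • (t : F) = (t : F) := by
  have := 𝓡.ff1
  have := 𝓡.ff1k
  obtain ⟨Pinf, hPinf⟩ := 𝓡.I_fixed_place
  by_cases hQ : 𝓡.r Pinf = Q
  · obtain ⟨Q', hQ'⟩ := exists_place_ne Q
    obtain ⟨t', hreg', hord', hinv'⟩ := exists_param_of_place 𝓡 Q' Pinf hPinf (by
      rw [hQ]
      exact Ne.symm hQ')
    obtain ⟨P', hP', hP'inv⟩ := exists_inv_place_of_param 𝓡 Q' t' hreg' hord' hinv'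
    exact exists_param_of_place 𝓡 Q P' hP'inv (by rw [hP']; exact hQ')
  · exact exists_param_of_place 𝓡 Q Pinf hPinf hQ

variable (K F k Fk)

/-- **The frozen leaf DISC** of `Fermat/Agent/A3/H799/LocalSpec.lean`. -/
theorem discStatement : DiscStatement K F k Fk :=
  disc_of_param fun 𝓡 Q => exists_param 𝓡 Q

end Fermat.Agent.A3.H75

end
end
-- ===== PACK-END A3/H75/Par.lean

-- ===== PACK-BEGIN S19/H195/GenusGood.lean
section








/-!
# A3 / GR-GENUS (helper195), part 2: `g(F) ≤ g(F_k)` from good charts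

For a reduction datum `G : S37.Red.Datum A π F Fk` with good charts (`G.Good`: equal degrees over
the coordinate line and normality of the special fibre in the lifting form `lift_fin`, `lift_inf`)
over algebraically closed constants:

* `Datum.exists_lift_polar` : **integral Riemann–Roch surjectivity** — for all large `M` every
  `ψ ∈ L_k(M D̄_∞)` is the reduction of some `f ∈ O ∩ L(M D_∞)` (`D_∞`, `D̄_∞` the polar divisors of
  the coordinate `x` and of its reduction `x̄`);
* `Datum.ell_polar_le`      : `ℓ_k(M D̄_∞) ≤ ℓ(M D_∞)` for all large `M`;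
* `Datum.genusFF_le_of_good`: `genusFF K F ≤ genusFF k Fk`.

Only `lift_fin`, `lift_inf`, `finite`, `finite_k`, `finrank_eq` of `G.Good` are used: no
saturation, no finiteness of the Čech `H¹` over `A`, no place map `r`, no Gauss lemma.
Proof: `U m := ρ (B_fin ∩ x ^ m B_inf)` and the pencil lifting lemma `L_le_of_torsion`.
-/

set_option autoImplicit false
set_option linter.style.haveILetI false
set_option linter.unusedSectionVars false

noncomputable section

open AlgebraicCurve Polynomial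

namespace Fermat.Agent.S19.H195

open Fermat.Agent.Lib.RR Fermat.Agent.S37.Red

/-! ## 1. Scaling integral elements -/

section Scaling

variable {F : Type*} [Field F]

/-- every element of `C[t⁻¹]` becomes an element of `C[t]` after multiplication by a large power
of `t` -/
theorem exists_pow_mul_mem_closure (C : Subring F) {t : F} (ht : t ≠ 0) {c : F}
    (hc : c ∈ C ⊔ Subring.closure {t⁻¹}) :
    ∃ i₀ : ℕ, ∀ i, i₀ ≤ i → t ^ i * c ∈ C ⊔ Subring.closure {t} := by
  have htmem : t ∈ C ⊔ Subring.closure {t} :=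
    (le_sup_right : Subring.closure {t} ≤ _) (Subring.subset_closure rfl)
  have hpow : ∀ i : ℕ, t ^ i ∈ C ⊔ Subring.closure {t} := fun i => Subring.pow_mem _ htmem i
  have hsup : C ⊔ Subring.closure {t⁻¹} = Subring.closure ((C : Set F) ∪ {t⁻¹}) := by
    rw [Subring.closure_union, Subring.closure_eq]
  rw [hsup] at hc
  induction hc using Subring.closure_induction with
  | mem c hc =>
    rcases hc with hc | hc
    · exact ⟨0, fun i _ => Subring.mul_mem _ (hpow i) ((le_sup_left : C ≤ _) hc)⟩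
    · rw [Set.mem_singleton_iff] at hc
      subst hc
      refine ⟨1, fun i hi => ?_⟩
      obtain ⟨j, rfl⟩ : ∃ j, i = j + 1 := ⟨i - 1, by omega⟩
      rw [pow_succ, mul_assoc, mul_inv_cancel₀ ht, mul_one]
      exact hpow j
  | zero => exact ⟨0, fun i _ => by rw [mul_zero]; exact Subring.zero_mem _⟩
  | one => exact ⟨0, fun i _ => by rw [mul_one]; exact hpow i⟩
  | add a b _ _ ha hb =>
    obtain ⟨ia, hia⟩ := ha
    obtain ⟨ib, hib⟩ := hb
    refine ⟨max ia ib, fun i hi => ?_⟩
    rw [mul_add]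
    exact Subring.add_mem _ (hia i ((le_max_left _ _).trans hi))
      (hib i ((le_max_right _ _).trans hi))
  | neg a _ ha =>
    obtain ⟨ia, hia⟩ := ha
    refine ⟨ia, fun i hi => ?_⟩
    rw [mul_neg]
    exact Subring.neg_mem _ (hia i hi)
  | mul a b _ _ ha hb =>
    obtain ⟨ia, hia⟩ := ha
    obtain ⟨ib, hib⟩ := hb
    refine ⟨ia + ib, fun i hi => ?_⟩
    have e : t ^ i * (a * b) = (t ^ ia * a) * (t ^ (i - ia) * b) := by
      have : i = ia + (i - ia) := by omega
      conv_lhs => rw [this, pow_add]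
      ring
    rw [e]
    exact Subring.mul_mem _ (hia ia le_rfl) (hib (i - ia) (by omega))

/-- **Scaling**: an element integral over `C[t⁻¹]` becomes integral over `C[t]` after
multiplication by a large power of `t`. -/
theorem exists_pow_mul_isIntegral (C : Subring F) {t : F} (ht : t ≠ 0) {b : F}
    (hb : IsIntegral (C ⊔ Subring.closure {t⁻¹} : Subring F) b) :
    ∃ i₀ : ℕ, ∀ i, i₀ ≤ i → IsIntegral (C ⊔ Subring.closure {t} : Subring F) (t ^ i * b) := by
  classical
  rw [H759.isIntegral_subring_iff] at hb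
  obtain ⟨P, hP, hcoeff, hPb⟩ := hb
  have h1 : ∀ l : ℕ, ∃ i₀ : ℕ, ∀ i, i₀ ≤ i → t ^ i * P.coeff l ∈ C ⊔ Subring.closure {t} :=
    fun l => exists_pow_mul_mem_closure C ht (hcoeff l)
  choose thr hthr using h1
  refine ⟨(Finset.range (P.natDegree + 1)).sup thr + 1, fun i hi => ?_⟩
  rw [H759.isIntegral_subring_iff]
  refine ⟨P.scaleRoots (t ^ i), (monic_scaleRoots_iff _).mpr hP, fun l => ?_, ?_⟩
  · rw [coeff_scaleRoots]
    rcases lt_trichotomy l P.natDegree with hl | hl | hl
    · -- `l < n`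
      have hle : thr l ≤ i * (P.natDegree - l) := by
        have h2 : thr l ≤ (Finset.range (P.natDegree + 1)).sup thr :=
          Finset.le_sup (f := thr) (Finset.mem_range.mpr (by omega))
        have h3 : i ≤ i * (P.natDegree - l) := Nat.le_mul_of_pos_right i (by omega)
        omega
      rw [← pow_mul, mul_comm]
      exact hthr l _ hle
    · -- `l = n`
      subst hl
      rw [Nat.sub_self, pow_zero, mul_one]
      have : P.coeff P.natDegree = 1 := hP
      rw [this]
      exact Subring.one_mem _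
    · rw [coeff_eq_zero_of_natDegree_lt hl, zero_mul]
      exact Subring.zero_mem _
  · rw [scaleRoots_eval_mul, hPb, mul_zero]

end Scaling

/-! ## 2. Polar divisors -/

section Polar

variable {K F : Type*} [Field K] [Field F] [Algebra K F]

/-- the polar divisor of a nonzero function -/
theorem exists_polar [HasPrincipalDivisors K F] {f : F} (hf : f ≠ 0) :
    ∃ D : Divisor K F, ∀ P : Place K F, D P = max 0 (-(P.ord f)) := by
  obtain ⟨D₀, hD₀, -⟩ := HasPrincipalDivisors.exists_divisor (K := K) f hf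
  refine ⟨D₀.mapRange (fun n : ℤ => max 0 (-n)) (by simp), fun P => ?_⟩
  rw [Finsupp.mapRange_apply, hD₀]

/-- `(1, x)` is a base-point-free pencil in `L(D_∞)` -/
theorem isBpfPencil_polar {x : F} (hx : x ≠ 0) {D : Divisor K F}
    (hD : ∀ P : Place K F, D P = max 0 (-(P.ord x))) : H259.IsBpfPencil D 1 x where
  mem₁ := by
    rw [mem_L_iff]
    intro v
    right
    rw [Place.ord_one, hD]
    have := le_max_left (0 : ℤ) (-(v.ord x))
    omega
  mem₂ := by
    rw [mem_L_iff]
    intro v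
    right
    rw [hD]
    have := le_max_right (0 : ℤ) (-(v.ord x))
    omega
  ne_zero := one_ne_zero
  bpf := by
    intro v
    rw [hD, Place.ord_one]
    rcases le_or_gt 0 (v.ord x) with h | h
    · left
      rw [max_eq_left (by omega)]
      rfl
    · right
      refine ⟨hx, ?_⟩
      rw [max_eq_right (by omega)]
      omega

/-- the degree of the polar divisor is the degree of the function -/
theorem degree_polar [IsAlgClosed K] {x : F} (hx : Transcendental K x)
    [FiniteDimensional (IntermediateField.adjoin K {x}) F] {D : Divisor K F}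
    (hD : ∀ P : Place K F, D P = max 0 (-(P.ord x))) :
    Divisor.degree D = (Module.finrank (IntermediateField.adjoin K {x}) F : ℤ) := by
  have hS : ∀ v : Place K F, v ∈ D.support ↔ v.ord x < 0 := by
    intro v
    rw [Finsupp.mem_support_iff, hD]
    constructor
    · intro h
      by_contra h'
      exact h (max_eq_left (by omega))
    · intro h
      rw [max_eq_right (by omega)]
      omega
  rw [← H443.sum_ord_poles_eq_finrank' hx D.support hS, degree_eq_sum]
  refine Finset.sum_congr rfl fun v hv => ?_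
  rw [H443.deg_eq_one_of_isAlgClosed hx v, Nat.cast_one, mul_one, hD]
  have := (hS v).mp hv
  exact max_eq_right (by omega)

end Polar

/-! ## 3. The charts of a reduction datum -/

section Datum

universe u

variable {K k F Fk : Type u} [Field K] [Field k] [Field F] [Field Fk]
  [Algebra K F] [Algebra k Fk] {A : ValuationSubring K} {π : A →+* k} (G : Datum A π F Fk)

namespace GenusGood

/-- `x ^ i b ∈ B_fin` for `b ∈ B_inf` and `i` large -/
theorem loc_inf {b : F} (hb : b ∈ G.chart G.x⁻¹) :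
    ∃ i₀ : ℕ, ∀ i, i₀ ≤ i → G.x ^ i * b ∈ G.chart G.x :=
  exists_pow_mul_isIntegral G.constRing (H144.x_ne_zero G) hb

/-- `x ^ (-i) b ∈ B_inf` for `b ∈ B_fin` and `i` large -/
theorem loc_fin {b : F} (hb : b ∈ G.chart G.x) :
    ∃ i₀ : ℕ, ∀ i, i₀ ≤ i → G.x⁻¹ ^ i * b ∈ G.chart G.x⁻¹ := by
  have hb' : IsIntegral (G.constRing ⊔ Subring.closure {(G.x⁻¹)⁻¹} : Subring F) b := by
    rw [inv_inv]
    exact hb
  exact exists_pow_mul_isIntegral G.constRing (inv_ne_zero (H144.x_ne_zero G)) hb'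

/-- constants of `A` lie in every chart -/
theorem const_mem_chart (t : F) (a : A) : algebraMap K F (a : K) ∈ G.chart t :=
  H144.polyRing_le_chart G t (H144.const_mem_polyRing G t a)

/-- **The lattice `U m = ρ (B_fin ∩ x ^ m B_inf)`**, a `k`-subspace of `F_k`. -/
def U (m : ℕ) : Submodule k Fk where
  carrier := {ψ | ∃ b, b ∈ G.chart G.x ∧ G.x⁻¹ ^ m * b ∈ G.chart G.x⁻¹ ∧
    ∃ hb : b ∈ G.O, G.ρ ⟨b, hb⟩ = ψ}
  zero_mem' := ⟨0, Subring.zero_mem _, by rw [mul_zero]; exact Subring.zero_mem _,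
    G.O.zero_mem, map_zero _⟩
  add_mem' := by
    rintro _ _ ⟨b, hb1, hb2, hbO, rfl⟩ ⟨b', hb1', hb2', hbO', rfl⟩
    refine ⟨b + b', Subring.add_mem _ hb1 hb1', ?_, G.O.add_mem _ _ hbO hbO', ?_⟩
    · rw [mul_add]
      exact Subring.add_mem _ hb2 hb2'
    · rw [← map_add]
      rfl
  smul_mem' := by
    rintro c _ ⟨b, hb1, hb2, hbO, rfl⟩
    obtain ⟨a, rfl⟩ := G.π_surj c
    refine ⟨algebraMap K F (a : K) * b, Subring.mul_mem _ (const_mem_chart G _ a) hb1, ?_,
      G.O.mul_mem _ _ (G.const_mem a) hbO, ?_⟩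
    · rw [mul_left_comm]
      exact Subring.mul_mem _ (const_mem_chart G _ a) hb2
    · have h1 : (⟨algebraMap K F (a : K) * b, G.O.mul_mem _ _ (G.const_mem a) hbO⟩ : G.O) =
          ⟨algebraMap K F (a : K), G.const_mem a⟩ * ⟨b, hbO⟩ := rfl
      rw [h1, map_mul, G.ρ_const, Algebra.smul_def]

theorem mem_U {m : ℕ} {ψ : Fk} : ψ ∈ U G m ↔ ∃ b, b ∈ G.chart G.x ∧
    G.x⁻¹ ^ m * b ∈ G.chart G.x⁻¹ ∧ ∃ hb : b ∈ G.O, G.ρ ⟨b, hb⟩ = ψ := Iff.rfl

theorem U_mono (m : ℕ) : U G m ≤ U G (m + 1) := by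
  rintro _ ⟨b, hb1, hb2, hbO, rfl⟩
  refine ⟨b, hb1, ?_, hbO, rfl⟩
  rw [pow_succ', mul_assoc]
  exact Subring.mul_mem _ (H144.self_mem_chart G _) hb2

theorem U_mul (m : ℕ) : ∀ f ∈ U G m, G.xk * f ∈ U G (m + 1) := by
  rintro _ ⟨b, hb1, hb2, hbO, rfl⟩
  refine ⟨G.x * b, Subring.mul_mem _ (H144.self_mem_chart G _) hb1, ?_,
    G.O.mul_mem _ _ G.x_mem hbO, ?_⟩
  · have e : G.x⁻¹ ^ (m + 1) * (G.x * b) = G.x⁻¹ ^ m * b := by
      rw [pow_succ, mul_assoc, ← mul_assoc G.x⁻¹, inv_mul_cancel₀ (H144.x_ne_zero G), one_mul]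
    rw [e]
    exact hb2
  · have h1 : (⟨G.x * b, G.O.mul_mem _ _ G.x_mem hbO⟩ : G.O) = ⟨G.x, G.x_mem⟩ * ⟨b, hbO⟩ := rfl
    rw [h1, map_mul]
    rfl

/-- **Regular functions are integral**: a function of `F_k` which is regular at every place
where `s` is regular is integral over `k[s]`. -/
theorem mem_chartk_of_regular [IsAlgClosed k] [FiniteDimensional (IntermediateField.adjoin k {G.xk}) Fk]
    (s : Fk) {ψ : Fk}
    (h : ∀ Q : Place k Fk, s ∈ Q.toValuationSubring → ψ ∈ Q.toValuationSubring) :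
    ψ ∈ G.chartk s := by
  have key := iInf_valuationSubring_superset (K := Fk)
    (s := Set.range (algebraMap k Fk) ∪ {s})
  have hψ : ψ ∈ ⨅ V : {V : ValuationSubring Fk //
      Set.range (algebraMap k Fk) ∪ {s} ⊆ V.toSubring}, V.1.toSubring := by
    rw [Subring.mem_iInf]
    rintro ⟨V, hV⟩
    show ψ ∈ V
    by_cases htop : V = ⊤
    · rw [htop]; exact ValuationSubring.mem_top ψ
    · have hK : ∀ a : k, algebraMap k Fk a ∈ V := fun a => hV (Or.inl ⟨a, rfl⟩)
      have hxt : Transcendental k G.xk := G.xk_transc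
      obtain ⟨Q, hQ⟩ := H443.exists_place_eq V hK htop hxt
      have hs : s ∈ Q.toValuationSubring := by
        rw [hQ]
        exact hV (Or.inr rfl)
      have := h Q hs
      rwa [hQ] at this
  rw [key] at hψ
  have h1 : IsIntegral (Subring.closure (Set.range (algebraMap k Fk) ∪ {s})) ψ := hψ
  have h2 : IsIntegral (Algebra.adjoin k {s}).toSubring ψ := by
    refine H759.isIntegral_subring_mono ?_ h1
    rw [Algebra.adjoin_eq_ring_closure]
  exact (H759.isIntegral_subalgebra_iff (Algebra.adjoin k {s}) ψ).mpr h2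

variable [IsAlgClosed k] [FF1 k Fk]

/-- `T₀`-torsion: every `ψ ∈ L_k(m D̄_∞)` lies in some `U j`. -/
theorem U_T0 (hG : G.Good) {Dk : Divisor k Fk}
    (hDk : ∀ Q : Place k Fk, Dk Q = max 0 (-(Q.ord G.xk))) (m : ℕ) :
    ∀ ψ ∈ riemannRochSpace ((m : ℤ) • Dk), ∃ j, ψ ∈ U G j := by
  intro ψ hψ
  haveI := hG.finite_k
  have hreg : ∀ Q : Place k Fk, G.xk ∈ Q.toValuationSubring → ψ ∈ Q.toValuationSubring := by
    intro Q hQ
    rcases eq_or_ne ψ 0 with rfl | hψ0
    · exact Q.toValuationSubring.zero_mem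
    have h1 := (mem_L_iff.mp hψ Q).resolve_left hψ0
    rw [Finsupp.smul_apply, smul_eq_mul, hDk,
      max_eq_left (by have := (mem_iff_ord_nonneg Q G.xk).mp hQ; omega), mul_zero,
      neg_zero] at h1
    exact (mem_iff_ord_nonneg Q ψ).mpr h1
  obtain ⟨b, hb, hbO, hρ⟩ := hG.lift_fin ψ (mem_chartk_of_regular G G.xk hreg)
  obtain ⟨i₀, hi₀⟩ := loc_fin G hb
  exact ⟨i₀, b, hb, hi₀ i₀ le_rfl, hbO, hρ⟩

/-- `T₁`-torsion: for every `ψ ∈ L_k(m D̄_∞)` some `x̄ ^ (j - m) ψ` lies in `U j`. -/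
theorem U_T1 (hG : G.Good) {Dk : Divisor k Fk}
    (hDk : ∀ Q : Place k Fk, Dk Q = max 0 (-(Q.ord G.xk))) (m : ℕ) :
    ∀ ψ ∈ riemannRochSpace ((m : ℤ) • Dk), ∃ j, m ≤ j ∧ G.xk ^ (j - m) * ψ ∈ U G j := by
  intro ψ hψ
  haveI := hG.finite_k
  have hxk0 : G.xk ≠ 0 := H144.xk_ne_zero G
  have hx0 : G.x ≠ 0 := H144.x_ne_zero G
  have hreg : ∀ Q : Place k Fk, G.xk⁻¹ ∈ Q.toValuationSubring →
      G.xk⁻¹ ^ m * ψ ∈ Q.toValuationSubring := by
    intro Q hQ
    rcases eq_or_ne ψ 0 with rfl | hψ0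
    · rw [mul_zero]; exact Q.toValuationSubring.zero_mem
    have h1 := (mem_L_iff.mp hψ Q).resolve_left hψ0
    rw [Finsupp.smul_apply, smul_eq_mul, hDk] at h1
    have h2 : 0 ≤ Q.ord G.xk⁻¹ := (mem_iff_ord_nonneg Q _).mp hQ
    rw [Q.ord_inv] at h2
    rw [max_eq_right (by omega)] at h1
    apply (mem_iff_ord_nonneg Q _).mpr
    rw [Q.ord_mul (pow_ne_zero _ (inv_ne_zero hxk0)) hψ0, ord_pow, Q.ord_inv]
    nlinarith
  obtain ⟨b', hb', hbO', hρ'⟩ := hG.lift_inf _ (mem_chartk_of_regular G G.xk⁻¹ hreg)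
  obtain ⟨i₀, hi₀⟩ := loc_inf G hb'
  refine ⟨max i₀ m, le_max_right _ _, G.x ^ (max i₀ m) * b', hi₀ _ (le_max_left _ _), ?_,
    G.O.mul_mem _ _ (G.O.pow_mem G.x_mem _) hbO', ?_⟩
  · have e : G.x⁻¹ ^ (max i₀ m) * (G.x ^ (max i₀ m) * b') = b' := by
      rw [← mul_assoc, ← mul_pow, inv_mul_cancel₀ hx0, one_pow, one_mul]
    rw [e]
    exact hb'
  · have h1 : (⟨G.x ^ (max i₀ m) * b', G.O.mul_mem _ _ (G.O.pow_mem G.x_mem _) hbO'⟩ : G.O) =
        ⟨G.x, G.x_mem⟩ ^ (max i₀ m) * ⟨b', hbO'⟩ := rfl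
    rw [h1, map_mul, map_pow, hρ']
    show G.xk ^ (max i₀ m) * (G.xk⁻¹ ^ m * ψ) = G.xk ^ (max i₀ m - m) * ψ
    have hm : max i₀ m = (max i₀ m - m) + m := by
      have := le_max_right i₀ m
      omega
    conv_lhs => rw [hm, pow_add]
    rw [mul_assoc, ← mul_assoc (G.xk ^ m), ← mul_pow, mul_inv_cancel₀ hxk0, one_pow, one_mul]

/-- elements of `B_fin ∩ x ^ M B_inf` lie in `L(M D_∞)` -/
theorem mem_L_of_mem_charts {D : Divisor K F}
    (hD : ∀ P : Place K F, D P = max 0 (-(P.ord G.x))) {M : ℕ} {b : F}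
    (hb1 : b ∈ G.chart G.x) (hb2 : G.x⁻¹ ^ M * b ∈ G.chart G.x⁻¹) :
    b ∈ riemannRochSpace ((M : ℤ) • D) := by
  have hx0 : G.x ≠ 0 := H144.x_ne_zero G
  have hreg : ∀ {t c : F}, c ∈ G.chart t → ∀ P : Place K F, 0 ≤ P.ord t → 0 ≤ P.ord c := by
    intro t c hc P ht
    have hle : G.polyRing t ≤ P.toValuationSubring.toSubring := by
      unfold Datum.polyRing
      rw [sup_le_iff]
      constructor
      · rintro _ ⟨a, -, rfl⟩
        exact P.algebraMap_mem' a
      · rw [Subring.closure_le]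
        rintro _ rfl
        exact (mem_iff_ord_nonneg P _).mpr ht
    exact (mem_iff_ord_nonneg P c).mp
      (H144.mem_of_isIntegral_subring P.toValuationSubring (G.polyRing t) hle hc)
  rw [mem_L_iff]
  intro P
  rcases eq_or_ne b 0 with rfl | hb0
  · exact Or.inl rfl
  right
  rw [Finsupp.smul_apply, smul_eq_mul, hD]
  rcases le_or_gt 0 (P.ord G.x) with hP | hP
  · rw [max_eq_left (by omega), mul_zero, neg_zero]
    exact hreg hb1 P hP
  · rw [max_eq_right (by omega)]
    have h1 := hreg hb2 P (by rw [P.ord_inv]; omega)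
    rw [P.ord_mul (pow_ne_zero _ (inv_ne_zero hx0)) hb0, ord_pow, P.ord_inv] at h1
    nlinarith

/-- **Integral Riemann–Roch surjectivity** for the multiples of the polar divisor of the
coordinate. -/
theorem exists_lift_polar (hG : G.Good) {D : Divisor K F}
    (hD : ∀ P : Place K F, D P = max 0 (-(P.ord G.x))) {Dk : Divisor k Fk}
    (hDk : ∀ Q : Place k Fk, Dk Q = max 0 (-(Q.ord G.xk))) :
    ∃ M₀ : ℕ, ∀ M : ℕ, M₀ ≤ M → ∀ ψ ∈ riemannRochSpace ((M : ℤ) • Dk),
      ∃ (f : F) (hf : f ∈ G.O), f ∈ riemannRochSpace ((M : ℤ) • D) ∧ G.ρ ⟨f, hf⟩ = ψ := by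
  haveI := hG.finite_k
  have hxk0 : G.xk ≠ 0 := H144.xk_ne_zero G
  have hpen := isBpfPencil_polar hxk0 hDk
  have hdeg : 0 < Divisor.degree Dk := by
    have hxt : Transcendental k G.xk := G.xk_transc
    rw [degree_polar hxt hDk]
    exact_mod_cast Module.finrank_pos
  obtain ⟨M₀, hM₀⟩ := L_le_of_torsion G.xk Dk hpen hdeg (U G) (U_mono G) (U_mul G)
    (U_T0 G hG hDk) (U_T1 G hG hDk)
  refine ⟨M₀, fun M hM ψ hψ => ?_⟩
  obtain ⟨b, hb1, hb2, hbO, hρ⟩ := hM₀ M hM hψ
  exact ⟨b, hbO, mem_L_of_mem_charts G hD hb1 hb2, hρ⟩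

omit [IsAlgClosed k] [FF1 k Fk] in
/-- lifts of `k`-linearly independent functions are residually independent -/
theorem residIndep_of_linearIndependent {ι : Type*} [Fintype ι] (f : ι → F)
    (hf : ∀ i, f i ∈ G.O) (hli : LinearIndependent k (fun i => G.ρ ⟨f i, hf i⟩)) :
    S37.H217.ResidIndep A G.O f := by
  classical
  intro c hc hsum i
  -- the combination as an element of `O`
  set y : G.O := ∑ j, (⟨algebraMap K F (c j), G.const_mem ⟨c j, hc j⟩⟩ : G.O) * ⟨f j, hf j⟩
    with hy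
  have hycoe : (y : F) = ∑ j, c j • f j := by
    rw [hy]
    have : ((∑ j, (⟨algebraMap K F (c j), G.const_mem ⟨c j, hc j⟩⟩ : G.O) * ⟨f j, hf j⟩ : G.O) : F)
        = G.O.subtype (∑ j, (⟨algebraMap K F (c j), G.const_mem ⟨c j, hc j⟩⟩ : G.O) *
            ⟨f j, hf j⟩) := rfl
    rw [this, map_sum]
    refine Finset.sum_congr rfl fun j _ => ?_
    rw [Algebra.smul_def]
    rfl
  have hynon : (y : F) ∈ G.O.nonunits := by rw [hycoe]; exact hsum
  have hρy : G.ρ y = 0 := by
    rw [H160.ρ_eq_zero_iff]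
    exact ValuationSubring.coe_mem_nonunits_iff.mp hynon
  have hρy' : G.ρ y = ∑ j, π ⟨c j, hc j⟩ • G.ρ ⟨f j, hf j⟩ := by
    rw [hy, map_sum]
    refine Finset.sum_congr rfl fun j _ => ?_
    rw [map_mul, G.ρ_const ⟨c j, hc j⟩, Algebra.smul_def]
  rw [hρy'] at hρy
  have h0 := Fintype.linearIndependent_iff.mp hli (fun j => π ⟨c j, hc j⟩) hρy i
  have h1 : (⟨c i, hc i⟩ : A) ∈ IsLocalRing.maximalIdeal A := (H160.ker_π G _).mp h0
  exact ValuationSubring.coe_mem_nonunits_iff.mpr h1

/-- `ℓ_k(M D̄_∞) ≤ ℓ(M D_∞)` for all large `M`. -/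
theorem ell_polar_le [FF1 K F] (hG : G.Good) {D : Divisor K F}
    (hD : ∀ P : Place K F, D P = max 0 (-(P.ord G.x))) {Dk : Divisor k Fk}
    (hDk : ∀ Q : Place k Fk, Dk Q = max 0 (-(Q.ord G.xk))) :
    ∃ M₀ : ℕ, ∀ M : ℕ, M₀ ≤ M → ell ((M : ℤ) • Dk) ≤ ell ((M : ℤ) • D) := by
  classical
  obtain ⟨M₀, hM₀⟩ := exists_lift_polar G hG hD hDk
  refine ⟨M₀, fun M hM => ?_⟩
  let bs := Module.finBasis k (riemannRochSpace ((M : ℤ) • Dk))
  choose f hfO hfL hρ using fun i =>
    hM₀ M hM ((bs i : riemannRochSpace ((M : ℤ) • Dk)) : Fk) (bs i).2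
  have hind : LinearIndependent k (fun i => G.ρ ⟨f i, hfO i⟩) := by
    have h1 : LinearIndependent k ((riemannRochSpace ((M : ℤ) • Dk)).subtype ∘ bs) :=
      bs.linearIndependent.map' _ (Submodule.ker_subtype _)
    have h2 : (fun i => G.ρ ⟨f i, hfO i⟩) = (riemannRochSpace ((M : ℤ) • Dk)).subtype ∘ bs := by
      funext i
      rw [hρ i]
      rfl
    rw [h2]
    exact h1
  have hlift : LinearIndependent K f :=
    S37.H217.linearIndependent_of_residIndep (residIndep_of_linearIndependent G f hfO hind)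
  have hv : LinearIndependent K
      (fun i => (⟨f i, hfL i⟩ : riemannRochSpace ((M : ℤ) • D))) := by
    refine LinearIndependent.of_comp (riemannRochSpace ((M : ℤ) • D)).subtype ?_
    exact hlift
  have hcard := hv.fintype_card_le_finrank
  rw [Fintype.card_fin] at hcard
  exact hcard

/-- **GR-GENUS, the hard direction**: the genus does not drop under a reduction with good
charts. -/
theorem genusFF_le_of_good [IsAlgClosed K] [FF1 K F] (hG : G.Good) :
    genusFF K F ≤ genusFF k Fk := by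
  haveI := hG.finite
  haveI := hG.finite_k
  have hxk0 : G.xk ≠ 0 := H144.xk_ne_zero G
  have hx0 : G.x ≠ 0 := H144.x_ne_zero G
  obtain ⟨P₀⟩ := FF1.nonempty_place (K := K) (F := F)
  have hxt : Transcendental K G.x := H144.transcendental_x G hG P₀
  have hxkt : Transcendental k G.xk := G.xk_transc
  obtain ⟨D, hD⟩ := exists_polar (K := K) hx0
  obtain ⟨Dk, hDk⟩ := exists_polar (K := k) hxk0
  have hdegD := degree_polar hxt hD
  have hdegDk := degree_polar hxkt hDk
  have hn : (0 : ℤ) < (Module.finrank (IntermediateField.adjoin k {G.xk}) Fk : ℤ) := by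
    exact_mod_cast Module.finrank_pos
  rw [hG.finrank_eq] at hdegD
  obtain ⟨M₀, hM₀⟩ := ell_polar_le G hG hD hDk
  set n : ℤ := (Module.finrank (IntermediateField.adjoin k {G.xk}) Fk : ℤ) with hndef
  set M : ℕ := max M₀ (2 * genusFF K F) with hMdef
  have hM1 : M₀ ≤ M := le_max_left _ _
  have hM2 : 2 * genusFF K F ≤ M := le_max_right _ _
  have hM2' : 2 * (genusFF K F : ℤ) ≤ (M : ℤ) := by exact_mod_cast hM2
  have hdegK : Divisor.degree ((M : ℤ) • D) = (M : ℤ) * n := by
    rw [map_zsmul, smul_eq_mul, hdegD]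
  have hdegk : Divisor.degree ((M : ℤ) • Dk) = (M : ℤ) * n := by
    rw [map_zsmul, smul_eq_mul, hdegDk]
  have hMn : (M : ℤ) ≤ (M : ℤ) * n := by nlinarith
  have h1 : (ell ((M : ℤ) • D) : ℤ) = (M : ℤ) * n + 1 - (genusFF K F : ℤ) := by
    have := ell_eq_of_degree_gt (D := (M : ℤ) • D) (by rw [hdegK]; omega)
    rwa [hdegK] at this
  have h2 := riemann_inequality_genusFF (K := k) (F := Fk) ((M : ℤ) • Dk)
  rw [hdegk] at h2
  have h3 : (ell ((M : ℤ) • Dk) : ℤ) ≤ (ell ((M : ℤ) • D) : ℤ) := by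
    exact_mod_cast hM₀ M hM1
  have h4 : (genusFF K F : ℤ) ≤ (genusFF k Fk : ℤ) := by omega
  exact_mod_cast h4

end GenusGood

end Datum

end Fermat.Agent.S19.H195

end

end
-- ===== PACK-END S19/H195/GenusGood.lean

-- ===== PACK-BEGIN S37/Red/H940/MainStatement.lean
section



/-!
# S37-RED (helper940): `MainStatement` is PROVED

`Fermat.Agent.S37.Red.H940.mainStatement : MainStatement` (interface `Red/Spec.lean`, helper40):
over algebraically closed constants (`K` of characteristic `0`), every reduction datum with good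
charts has a place reduction map `r` with (i), (ii) (`IsRed`) and (EC) (`EvalCompat`).

Proof: `mainStatement_of_fibreSum` (`Red/H940/Main.lean`, on the fibre-local core
`S37/H940/{Core,Assembly,Line,Chart}.lean`) applied to RED-A
`H160.fibreSumStatement` (helper160, on RED-A1 `H399.normRed` of helper399).
-/

set_option autoImplicit false

namespace Fermat.Agent.S37.Red.H940

open AlgebraicCurve

universe u

/-- **RED-MAIN.** -/
theorem mainStatement : MainStatement.{u} :=
  mainStatement_of_fibreSum fun _ _ _ _ _ _ _ _ _ _ _ _ _ _ _ G _ => H160.fibreSumStatement G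

/-- **RED-MAIN**, unbundled: a reduction datum with good charts has a place reduction map with
(i), (ii) and (EC). -/
theorem exists_isRed {K k F Fk : Type u} [Field K] [Field k] [Field F] [Field Fk]
    [Algebra K F] [Algebra k Fk] [IsAlgClosed K] [CharZero K] [IsAlgClosed k]
    {A : ValuationSubring K} {π : A →+* k} (G : Datum A π F Fk) (hG : G.Good) :
    ∃ r : Place K F → Place k Fk, IsRed G r ∧ EvalCompat G r :=
  mainStatement K k F Fk A π G hG

end Fermat.Agent.S37.Red.H940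

end
-- ===== PACK-END S37/Red/H940/MainStatement.lean

-- ===== PACK-BEGIN S18/H504/ConstF.lean
section





/-!
# S18 / T2 (CONST_F, characteristic 0): a function without zeros and poles is constant

* `const_of_ord_zero` : generic form, for a function field `F/K` finite over `K(j)`.
* `constOfOrdZero_modularFunctionFieldBar` : the instance `F = ℚ̄(X₀(N))`; its statement is the
  unfolded `H94.ConstOfOrdZero (AlgebraicClosure ℚ) (modularFunctionFieldBar N)`.
-/

set_option autoImplicit false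

namespace Fermat.Agent.S18.H504

open AlgebraicCurve IntermediateField Fermat.Agent.S24

variable {K F : Type*} [Field K] [Field F] [Algebra K F]

/-- A nonzero function with no zeros is constant (char 0, algebraically closed constants). -/
theorem const_of_forall_ord_le_zero [IsAlgClosed K] [CharZero K] {j : F}
    (hj : Transcendental K j) [FiniteDimensional K⟮j⟯ F] (u : F)
    (h : ∀ v : Place K F, v.ord u ≤ 0) : ∃ c : K, u = algebraMap K F c := by
  by_contra hc
  have hnr : u ∉ (algebraMap K F).range := fun ⟨c, hc'⟩ => hc ⟨c, hc'.symm⟩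
  have hut : Transcendental K u := FF.transcendental_of_not_mem_range hnr
  have : FiniteDimensional K⟮u⟯ F := FF.finiteDimensional_adjoin_of_transcendental hj hut
  have hsum := FF.sum_ord_pos_eq_finrank hut
  have hempty : (FF.finite_setOf_ord_pos hut).toFinset = ∅ := by
    ext v
    simp only [Set.Finite.mem_toFinset, Set.mem_ofPred_eq, Finset.notMem_empty, iff_false, not_lt]
    exact h v
  rw [hempty, Finset.sum_empty] at hsum
  have hpos : 0 < Module.finrank K⟮u⟯ F := Module.finrank_pos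
  omega

/-- **CONST_F.** A nonzero function without zeros and poles is constant. -/
theorem const_of_ord_zero [IsAlgClosed K] [CharZero K] {j : F}
    (hj : Transcendental K j) [FiniteDimensional K⟮j⟯ F] (u : F) (_hu : u ≠ 0)
    (h : ∀ v : Place K F, v.ord u = 0) : ∃ c : K, u = algebraMap K F c :=
  const_of_forall_ord_le_zero hj u fun v => (h v).le

/-- **T2.** `ConstOfOrdZero ℚ̄ (modularFunctionFieldBar N)` (unfolded). -/
theorem constOfOrdZero_modularFunctionFieldBar (N : ℕ) [NeZero N] :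
    ∀ u : ModularCurve.modularFunctionFieldBar N, u ≠ 0 →
      (∀ v : Place (AlgebraicClosure ℚ) (ModularCurve.modularFunctionFieldBar N), v.ord u = 0) →
      ∃ c : AlgebraicClosure ℚ,
        u = algebraMap (AlgebraicClosure ℚ) (ModularCurve.modularFunctionFieldBar N) c := by
  obtain ⟨P⟩ := nonempty_modularPackage N
  have := P.finiteDimensional
  have hj : Transcendental Kbar (jF N) := transcendental_of_localData_inv (jF N) P.dataInf
  exact fun u hu h => const_of_ord_zero hj u hu h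

end Fermat.Agent.S18.H504

end
-- ===== PACK-END S18/H504/ConstF.lean

-- ===== PACK-BEGIN S56/H906/FI.lean
section




/-!
# S56 / FLAT-O, piece (FI): `(I_aug M) ∩ M^I = 0` for a flat `M` killed by `p`, `p` odd (helper906)

* `redKer P Λ` — the kernel of reduction `M⁰ = {x : f x ≡ f 0 mod 𝔪_P for all f ∈ Λ}`, an
  additive subgroup of `M`.
* `act_sub_mem_redKer` (CE', the easy half of "connected = augmentation"):
  `act σ y - y ∈ M⁰` for `σ ∈ I_P`;  `closure_le_redKer`: `I_aug M ≤ M⁰`.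
* `eq_zero_of_mem_redKer_of_fixed` (INV): an inertia-fixed point of `M⁰` of order `p` is `0`
  (`p` odd).
* `flatInertia : FlatInertiaStatement`.
-/

set_option autoImplicit false
set_option linter.unusedSectionVars false

noncomputable section

namespace Fermat.Agent.S56.H906

open Fermat.Agent.S56

section RedKer

variable {p : ℕ} [Fact p.Prime] {M : Type} [AddCommGroup M] {act : GQ → M → M}
  {Λ : Subalgebra (Zp p) (M → Qb)} (P : ValuationSubring Qb)

/-- Membership in the kernel of reduction. -/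
def InRedKer (Λ : Subalgebra (Zp p) (M → Qb)) (x : M) : Prop :=
  ∀ f ∈ Λ, P.valuation (f x - f 0) < 1

theorem inRedKer_zero : InRedKer P Λ (0 : M) := by
  intro f _
  rw [sub_self, map_zero]
  exact zero_lt_one

/-- The key congruence: if `b k y ≡ b k y'` for all `b ∈ Λ`, then `f (x + y) ≡ f (x + y')`. -/
theorem valuation_comul_sub_lt (hΛ : IsHL p act Λ) (hP : P.LiesOverPrime p) {f : M → Qb}
    (hf : f ∈ Λ) (x y y' : M) (h : ∀ g ∈ Λ, P.valuation (g y - g y') < 1) :
    P.valuation (f (x + y) - f (x + y')) < 1 := by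
  obtain ⟨n, a, b, ha, hb, hab⟩ := hΛ.comul_mem f hf
  rw [hab, hab, ← Finset.sum_sub_distrib]
  refine Valuation.map_sum_lt _ one_ne_zero fun k _ => ?_
  rw [← mul_sub, map_mul]
  have h1 : P.valuation (a k x) ≤ 1 :=
    (ValuationSubring.valuation_le_one_iff P _).mpr (apply_mem P hΛ hP (ha k) x)
  calc P.valuation (a k x) * P.valuation (b k y - b k y')
      ≤ 1 * P.valuation (b k y - b k y') := by gcongr
    _ = P.valuation (b k y - b k y') := one_mul _
    _ < 1 := h _ (hb k)

theorem inRedKer_add (hΛ : IsHL p act Λ) (hP : P.LiesOverPrime p) {x y : M}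
    (hx : InRedKer P Λ x) (hy : InRedKer P Λ y) : InRedKer P Λ (x + y) := by
  intro f hf
  have h1 := valuation_comul_sub_lt P hΛ hP hf x y 0 hy
  rw [add_zero] at h1
  have h2 := hx f hf
  have : f (x + y) - f 0 = (f (x + y) - f x) + (f x - f 0) := by ring
  rw [this]
  exact Valuation.map_add_lt _ h1 h2

theorem inRedKer_neg (hΛ : IsHL p act Λ) (hP : P.LiesOverPrime p) {x : M}
    (hx : InRedKer P Λ x) : InRedKer P Λ (-x) := by
  intro f hf
  have h1 := valuation_comul_sub_lt P hΛ hP hf (-x) 0 x (fun g hg => by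
    rw [← Valuation.map_neg, neg_sub]
    exact hx g hg)
  rw [add_zero, neg_add_cancel] at h1
  exact h1

/-- The kernel of reduction `M⁰`. -/
def redKer (hΛ : IsHL p act Λ) (hP : P.LiesOverPrime p) : AddSubgroup M where
  carrier := {x | InRedKer P Λ x}
  zero_mem' := inRedKer_zero P
  add_mem' := fun hx hy => inRedKer_add P hΛ hP hx hy
  neg_mem' := fun hx => inRedKer_neg P hΛ hP hx

theorem mem_redKer (hΛ : IsHL p act Λ) (hP : P.LiesOverPrime p) (x : M) :
    x ∈ redKer P hΛ hP ↔ ∀ f ∈ Λ, P.valuation (f x - f 0) < 1 := Iff.rfl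

/-- (CE') `σ y - y` lies in the kernel of reduction for `σ` in the inertia group. -/
theorem act_sub_mem_redKer (hΛ : IsHL p act Λ) (hP : P.LiesOverPrime p) {σ : GQ}
    (hσ : σ ∈ P.inertiaSubgroupIn ℚ) (y : M) : act σ y - y ∈ redKer P hΛ hP := by
  intro f hf
  have h1 := valuation_comul_sub_lt P hΛ hP hf (-y) (act σ y) y (fun g hg => by
    rw [hΛ.equivariant g hg σ y]
    exact (ValuationSubring.mem_nonunits_iff P).mp
      (Fermat.Agent.A2.H708.sub_mem_nonunits_of_mem_inertiaIn P hσ (apply_mem P hΛ hP hg y)))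
  rw [neg_add_cancel, neg_add_eq_sub] at h1
  exact h1

/-- `I_aug M ≤ M⁰`. -/
theorem closure_le_redKer (hΛ : IsHL p act Λ) (hP : P.LiesOverPrime p) :
    AddSubgroup.closure {z : M | ∃ σ ∈ P.inertiaSubgroupIn ℚ, ∃ y : M, z = act σ y - y} ≤
      redKer P hΛ hP := by
  rw [AddSubgroup.closure_le]
  rintro z ⟨σ, hσ, y, rfl⟩
  exact act_sub_mem_redKer P hΛ hP hσ y

/-- (INV) an inertia-fixed point of order `p` of the kernel of reduction is `0`, `p` odd. -/
theorem eq_zero_of_mem_redKer_of_fixed [Finite M] (hp2 : p ≠ 2) (hΛ : IsHL p act Λ)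
    (hP : P.LiesOverPrime p) {x : M} (hpx : p • x = 0) (hx : x ∈ redKer P hΛ hP)
    (hfix : ∀ σ ∈ P.inertiaSubgroupIn ℚ, act σ x = x) : x = 0 := by
  have hp : p.Prime := Fact.out
  have hvp : P.valuation (p : Qb) < 1 := (ValuationSubring.mem_nonunits_iff P).mp hP
  have hvp0 : P.valuation (p : Qb) ≠ 0 :=
    (Valuation.ne_zero_iff _).mpr (by exact_mod_cast hp.ne_zero)
  refine lemmaA p M act Λ hΛ P hP x (p : Qb) hpx ?_ ?_
  · -- `v(p)^(p-1) < v(p)`
    obtain ⟨q, hq⟩ : ∃ q, p - 1 = q + 1 + 1 := ⟨p - 3, by have := hp.two_le; omega⟩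
    rw [hq, pow_succ]
    calc P.valuation (p : Qb) ^ (q + 1) * P.valuation (p : Qb)
        < 1 * P.valuation (p : Qb) := by
          refine mul_lt_mul_of_pos_right ?_ (zero_lt_iff.mpr hvp0)
          exact pow_lt_one₀ zero_le hvp (by omega)
      _ = P.valuation (p : Qb) := one_mul _
  · intro f hf
    refine Fermat.Agent.S56.H66.vg0_le p hp P hP _ ((ValuationSubring.mem_nonunits_iff P).mpr
      (hx f hf)) fun σ hσ => ?_
    rw [map_sub, ← hΛ.equivariant f hf σ x, ← hΛ.equivariant f hf σ 0, hfix σ hσ,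
      Fermat.Agent.S19.H435.IsHopfLattice.act_zero hΛ σ]

end RedKer

/-- **(FI)**. -/
theorem flatInertia : FlatInertiaStatement := by
  intro p _ hp2 M _ _ act Λ hΛ hkill P hP x hfix hx
  exact eq_zero_of_mem_redKer_of_fixed P hp2 hΛ hP (hkill x)
    (closure_le_redKer P hΛ hP hx) hfix

end Fermat.Agent.S56.H906

end

end
-- ===== PACK-END S56/H906/FI.lean

-- ===== PACK-BEGIN S15/H379/Peu.lean
section





/-!
# S15 / DESC, tower T2 (PEU) — adapters (helper379)

Blueprint `coord/S15-DESC-blueprint.md` sec. 4, T2: local conditions at `r` for the classes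
`φ_i(y)` coming from a finite flat model.  No new algebra is needed: the S56 FLAT-O library on
main (Hopf lattices `S19.H435.IsHopfLattice`) already contains

* `S56.H906.flatInertia` (FI, `r` odd): `(I_aug M) ∩ M^I = 0`;
* `S56.H664.flatUnit` (FU, all `r`): the Kummer character of `I₁ = {σ ∈ I : σ ζ = ζ}` attached
  to a point is the Kummer character of a `P`-unit;
* `S56.H460.unrVal`: the inertia field is unramified.

Here:

* `peu1` (PEU-1, `r` odd): if `σ y - y` is inertia-fixed (`σ ∈ I_P`), then `σ y = y`.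
* `exists_pow_eq_zpow_of_fixed`: a nonzero element fixed by `I₁` has `v(y)^m = v(r)^n` with
  `0 < m < r`.
* `valuation_rat_eq`: `v_P(a) = v_P(r) ^ padicValRat r a` for `a ∈ ℚ^×`.
* `peuKummer` (PEU-ω and PEU-2, ALL `r`): if `α ^ r = a ∈ ℚ^×` and `σ α = ζ ^ ξ(σ x - x) α` on
  `I₁`, then `r ∣ v_r(a)`.
* `_of_hopfModel` forms (input = `S19.HopfModel`, the output of T1 / of the S19 closure lemmas).
-/

set_option autoImplicit false
set_option linter.unusedSectionVars false
set_option linter.style.haveILetI false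

noncomputable section

namespace Fermat.Agent.S15.H379

open Fermat.Agent.S56 Fermat.Agent.S56.H906

/-! ## PEU-1 -/

/-- **PEU-1** (`r` odd): in a flat module killed by `r`, an inertia element `σ` at `P | r` with
`σ y - y` fixed by inertia fixes `y`.  (Consumer: `G` acts trivially on a subgroup `P_i` and on
the quotient by it.) -/
theorem peu1 (r : ℕ) [Fact r.Prime] (hr2 : r ≠ 2) (M : Type) [AddCommGroup M] [Finite M]
    (act : GQ → M → M) (Λ : Subalgebra (Zp r) (M → Qb)) (hΛ : IsHL r act Λ)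
    (hM : ∀ x : M, r • x = 0) (P : ValuationSubring Qb) (hP : P.LiesOverPrime r)
    (σ : GQ) (hσ : σ ∈ P.inertiaSubgroupIn ℚ) (y : M)
    (hfix : ∀ τ ∈ P.inertiaSubgroupIn ℚ, act τ (act σ y - y) = act σ y - y) :
    act σ y = y := by
  have h0 : act σ y - y = 0 :=
    flatInertia r hr2 M act Λ hΛ hM P hP (act σ y - y) hfix
      (AddSubgroup.subset_closure ⟨σ, hσ, y, rfl⟩)
  exact sub_eq_zero.mp h0

/-- PEU-1 from a Hopf model. -/
theorem peu1_of_hopfModel (r : ℕ) [Fact r.Prime] (hr2 : r ≠ 2) (M : Type) [AddCommGroup M]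
    [Finite M] (act : GQ → M → M) (hH : Fermat.Agent.S19.HopfModel r M act)
    (hM : ∀ x : M, r • x = 0) (P : ValuationSubring Qb) (hP : P.LiesOverPrime r)
    (σ : GQ) (hσ : σ ∈ P.inertiaSubgroupIn ℚ) (y : M)
    (hfix : ∀ τ ∈ P.inertiaSubgroupIn ℚ, act τ (act σ y - y) = act σ y - y) :
    act σ y = y := by
  obtain ⟨Λ, hΛ⟩ := Fermat.Agent.S19.H435.exists_isHopfLattice_of_hopfModel hH
  exact peu1 r hr2 M act Λ hΛ hM P hP σ hσ y hfix

/-! ## Valuations of rational numbers -/

/-- The `P`-valuation of a rational number prime to `r` is `1`. -/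
theorem valuation_rat_eq_one (r : ℕ) (hr : r.Prime) (P : ValuationSubring Qb)
    (hP : P.LiesOverPrime r) (b : ℚ) (hb : b ≠ 0) (hv : padicValRat r b = 0) :
    P.valuation (algebraMap ℚ Qb b) = 1 := by
  haveI : Fact r.Prime := ⟨hr⟩
  have hnum : b.num ≠ 0 := Rat.num_ne_zero.mpr hb
  have hden : b.den ≠ 0 := b.den_ne_zero
  have hdef : padicValRat r b = padicValInt r b.num - padicValNat r b.den := rfl
  rw [hdef] at hv
  have hcop : Nat.Coprime b.num.natAbs b.den := b.reduced
  -- not both divisible by `r`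
  have hnot : ¬ ((r : ℤ) ∣ b.num ∧ r ∣ b.den) := by
    rintro ⟨h1, h2⟩
    have h1' : r ∣ b.num.natAbs := Int.natCast_dvd.mp h1
    have := Nat.dvd_gcd h1' h2
    rw [hcop] at this
    exact hr.one_lt.ne' (Nat.dvd_one.mp this)
  have hnd_num : ¬ (r : ℤ) ∣ b.num := by
    intro h1
    have h2 : ¬ r ∣ b.den := fun h2 => hnot ⟨h1, h2⟩
    have h3 : padicValNat r b.den = 0 := padicValNat.eq_zero_of_not_dvd h2
    rw [h3] at hv
    have h4 : padicValInt r b.num = 0 := by
      have : (padicValInt r b.num : ℤ) = 0 := by simpa using hv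
      exact_mod_cast this
    have h5 : 0 < padicValInt r b.num := by
      rw [padicValInt]
      exact (one_le_padicValNat_of_dvd (Int.natAbs_ne_zero.mpr hnum)
        (Int.natCast_dvd.mp h1))
    omega
  have hnd_den : ¬ r ∣ b.den := by
    intro h2
    have h3 : padicValInt r b.num = 0 := padicValInt.eq_zero_of_not_dvd hnd_num
    rw [h3] at hv
    have h5 : 0 < padicValNat r b.den := one_le_padicValNat_of_dvd hden h2
    have : (padicValNat r b.den : ℤ) = 0 := by simpa using hv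
    have : padicValNat r b.den = 0 := by exact_mod_cast this
    omega
  have h1 : algebraMap ℚ Qb b = (b.num : Qb) / ((b.den : ℕ) : Qb) := by
    conv_lhs => rw [← Rat.num_div_den b]
    rw [map_div₀, map_intCast, map_natCast]
  rw [h1, map_div₀,
    Fermat.Agent.S05.Sq12.valuation_intCast_eq_one_of_not_dvd P hr hP hnd_num,
    Fermat.Agent.S05.Sq12.valuation_natCast_eq_one_of_not_dvd P hr hP hnd_den, div_one]

/-- `v_P(a) = v_P(r) ^ v_r(a)` for a nonzero rational number `a` and `P | r`. -/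
theorem valuation_rat_eq (r : ℕ) (hr : r.Prime) (P : ValuationSubring Qb)
    (hP : P.LiesOverPrime r) (a : ℚ) (ha : a ≠ 0) :
    P.valuation (algebraMap ℚ Qb a) = P.valuation (r : Qb) ^ (padicValRat r a) := by
  haveI : Fact r.Prime := ⟨hr⟩
  have hr0 : (r : ℚ) ≠ 0 := by exact_mod_cast hr.ne_zero
  set k : ℤ := padicValRat r a with hk
  set b : ℚ := a / (r : ℚ) ^ k with hb
  have hrk : (r : ℚ) ^ k ≠ 0 := zpow_ne_zero k hr0
  have hb0 : b ≠ 0 := div_ne_zero ha hrk
  have hvrk : padicValRat r ((r : ℚ) ^ k) = k := by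
    rw [padicValRat.zpow, padicValRat.self hr.one_lt, mul_one]
  have hvb : padicValRat r b = 0 := by
    rw [hb, padicValRat.div ha hrk, hvrk, ← hk, sub_self]
  have hab : a = b * (r : ℚ) ^ k := by
    rw [hb, div_mul_cancel₀ _ hrk]
  have h1 := valuation_rat_eq_one r hr P hP b hb0 hvb
  conv_lhs => rw [hab]
  rw [map_mul, map_mul, h1, one_mul, map_zpow₀, map_natCast, map_zpow₀]

/-! ## The field fixed by `I₁` -/

/-- Norm argument: a nonzero element fixed by `I₁ = {σ ∈ I_P : σ ζ = ζ}` has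
`v(y)^m = v(r)^n` for some `0 < m < r`. -/
theorem exists_pow_eq_zpow_of_fixed (r : ℕ) (hr : r.Prime) (P : ValuationSubring Qb)
    (hP : P.LiesOverPrime r) (ζ : Qb) (hζ : IsPrimitiveRoot ζ r) (y : Qb) (hy : y ≠ 0)
    (hfix : ∀ σ ∈ P.inertiaSubgroupIn ℚ, σ ζ = ζ → σ y = y) :
    ∃ m : ℕ, 0 < m ∧ m < r ∧ ∃ n : ℤ, P.valuation y ^ m = P.valuation (r : Qb) ^ n := by
  classical
  haveI : NeZero r := ⟨hr.ne_zero⟩
  set I := P.inertiaSubgroupIn ℚ with hI
  -- the orbit of `ζ` under inertia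
  set O : Finset Qb := (primitiveRoots r Qb).filter (fun z => ∃ σ ∈ I, σ ζ = z) with hO
  have hζO : ζ ∈ O := by
    rw [hO, Finset.mem_filter]
    exact ⟨(mem_primitiveRoots hr.pos).mpr hζ, 1, I.one_mem, rfl⟩
  have hOmem : ∀ z ∈ O, ∃ σ ∈ I, σ ζ = z := fun z hz => (Finset.mem_filter.mp hz).2
  have hOmk : ∀ σ ∈ I, σ ζ ∈ O := by
    intro σ hσ
    rw [hO, Finset.mem_filter]
    refine ⟨(mem_primitiveRoots hr.pos).mpr ?_, σ, hσ, rfl⟩
    exact hζ.map_of_injective (f := (σ : Qb →ₐ[ℚ] Qb)) σ.injective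
  -- representatives
  let τ : Qb → GQ := fun z => if h : ∃ σ ∈ I, σ ζ = z then h.choose else 1
  have hτI : ∀ z ∈ O, τ z ∈ I := by
    intro z hz
    have h := hOmem z hz
    show (if h : ∃ σ ∈ I, σ ζ = z then h.choose else 1) ∈ I
    rw [dif_pos h]
    exact h.choose_spec.1
  have hτζ : ∀ z ∈ O, τ z ζ = z := by
    intro z hz
    have h := hOmem z hz
    show (if h : ∃ σ ∈ I, σ ζ = z then h.choose else 1) ζ = z
    rw [dif_pos h]
    exact h.choose_spec.2
  set N : Qb := ∏ z ∈ O, τ z y with hN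
  have hN0 : N ≠ 0 := by
    rw [hN, Finset.prod_ne_zero_iff]
    intro z _
    exact (map_ne_zero_iff _ (τ z).injective).mpr hy
  -- `σ (τ_z y) = τ_{σ z} y`
  have hperm : ∀ σ ∈ I, ∀ z ∈ O, σ (τ z y) = τ (σ z) y := by
    intro σ hσ z hz
    have hz' : σ z ∈ O := by
      have := hOmk (σ * τ z) (I.mul_mem hσ (hτI z hz))
      rwa [AlgEquiv.mul_apply, hτζ z hz] at this
    set h : GQ := (τ (σ z))⁻¹ * σ * τ z with hh
    have hhI : h ∈ I := I.mul_mem (I.mul_mem (I.inv_mem (hτI _ hz')) hσ) (hτI z hz)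
    have hhζ : h ζ = ζ := by
      rw [hh, AlgEquiv.mul_apply, AlgEquiv.mul_apply, hτζ z hz]
      have h1 : τ (σ z) ζ = σ z := hτζ _ hz'
      have h2 : (τ (σ z))⁻¹ (τ (σ z) ζ) = ζ := (τ (σ z)).symm_apply_apply ζ
      rw [h1] at h2
      exact h2
    have h2 := hfix h hhI hhζ
    rw [hh, AlgEquiv.mul_apply, AlgEquiv.mul_apply] at h2
    have h3 := congrArg (τ (σ z)) h2
    rwa [show (τ (σ z)) ((τ (σ z))⁻¹ (σ (τ z y))) = σ (τ z y) from
      (τ (σ z)).apply_symm_apply _] at h3
  have hNfix : ∀ σ ∈ I, σ N = N := by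
    intro σ hσ
    rw [hN, map_prod]
    rw [Finset.prod_congr rfl (fun z hz => hperm σ hσ z hz)]
    refine Finset.prod_bij (fun z _ => σ z) ?_ ?_ ?_ ?_
    · intro z hz
      have := hOmk (σ * τ z) (I.mul_mem hσ (hτI z hz))
      rwa [AlgEquiv.mul_apply, hτζ z hz] at this
    · intro z _ z' _ h
      exact σ.injective h
    · intro z' hz'
      refine ⟨σ⁻¹ z', ?_, ?_⟩
      · have := hOmk (σ⁻¹ * τ z') (I.mul_mem (I.inv_mem hσ) (hτI z' hz'))
        rwa [AlgEquiv.mul_apply, hτζ z' hz'] at this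
      · exact σ.apply_symm_apply z'
    · intro z _
      rfl
  obtain ⟨n, hn⟩ := Fermat.Agent.S56.H460.unrVal r hr P hP N hN0 hNfix
  have hvN : P.valuation N = P.valuation y ^ O.card := by
    rw [hN, map_prod]
    rw [Finset.prod_congr rfl (fun z hz =>
      Fermat.Agent.S05.Sq12.valuation_apply_eq_of_mem_inertiaIn P (hτI z hz) y)]
    rw [Finset.prod_const]
  refine ⟨O.card, Finset.card_pos.mpr ⟨ζ, hζO⟩, ?_, n, ?_⟩
  · calc O.card ≤ (primitiveRoots r Qb).card := Finset.card_filter_le _ _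
      _ = Nat.totient r := hζ.card_primitiveRoots
      _ = r - 1 := Nat.totient_prime hr
      _ < r := Nat.sub_lt hr.pos one_pos
  · rw [← hvN, hn]

/-! ## PEU-ω / PEU-2 -/

/-- **PEU-ω / PEU-2** (all primes `r`, including `r = 2`): let `(M, act, Λ)` be a Hopf lattice
over `ℤ_(r)` killed by `r`, `P | r`, `ζ` a primitive `r`-th root of unity, `I₁ = {σ ∈ I_P :
σ ζ = ζ}`, `L ⊆ M` a subgroup fixed pointwise by `I₁` and containing all `σ y - y` (`σ ∈ I₁`),
`ξ : M → 𝔽_r` additive, `x ∈ M`.  If `α ^ r = a ∈ ℚ^×` and `σ α = ζ ^ ξ(σ x - x) · α` for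
`σ ∈ I₁` (i.e. `a` is the Kummer class of the cocycle `σ ↦ ξ (σ x - x)`), then `r ∣ v_r(a)`. -/
theorem peuKummer (r : ℕ) [Fact r.Prime] (M : Type) [AddCommGroup M] [Finite M]
    (act : GQ → M → M) (Λ : Subalgebra (Zp r) (M → Qb)) (hΛ : IsHL r act Λ)
    (hM : ∀ x : M, r • x = 0) (P : ValuationSubring Qb) (hP : P.LiesOverPrime r)
    (ζ : Qb) (hζ : IsPrimitiveRoot ζ r) (L : AddSubgroup M)
    (hL1 : ∀ σ ∈ P.inertiaSubgroupIn ℚ, σ ζ = ζ → ∀ t ∈ L, act σ t = t)
    (hL2 : ∀ σ ∈ P.inertiaSubgroupIn ℚ, σ ζ = ζ → ∀ y : M, act σ y - y ∈ L)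
    (ξ : M →+ ZMod r) (x : M) (a : ℚ) (ha : a ≠ 0) (α : Qb)
    (hα : α ^ r = algebraMap ℚ Qb a)
    (hκ : ∀ σ ∈ P.inertiaSubgroupIn ℚ, σ ζ = ζ → σ α = ζ ^ (ξ (act σ x - x)).val * α) :
    (r : ℤ) ∣ padicValRat r a := by
  have hr : r.Prime := Fact.out
  obtain ⟨B, hB, hBκ⟩ := Fermat.Agent.S56.H664.flatUnit r M act Λ hΛ hM P hP ζ hζ L hL1 hL2 ξ x
  have hB0 : B ≠ 0 := by
    intro h
    rw [h, map_zero] at hB
    exact zero_ne_one hB
  have hα0 : α ≠ 0 := by
    intro h
    rw [h, zero_pow hr.ne_zero] at hα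
    exact ha ((algebraMap ℚ Qb).injective (by rw [← hα, map_zero]))
  have hζ0 : ζ ≠ 0 := hζ.ne_zero hr.ne_zero
  -- `y = α / B` is fixed by `I₁`
  have hyfix : ∀ σ ∈ P.inertiaSubgroupIn ℚ, σ ζ = ζ → σ (α / B) = α / B := by
    intro σ hσ hσζ
    rw [map_div₀, hκ σ hσ hσζ, hBκ σ hσ hσζ]
    rw [mul_div_mul_left _ _ (pow_ne_zero _ hζ0)]
  obtain ⟨m, hm0, hmr, n, hmn⟩ :=
    exists_pow_eq_zpow_of_fixed r hr P hP ζ hζ (α / B) (div_ne_zero hα0 hB0) hyfix
  rw [map_div₀, hB, div_one] at hmn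
  -- `v(α)^r = v(r)^k`
  have hk : P.valuation α ^ r = P.valuation (r : Qb) ^ (padicValRat r a) := by
    rw [← map_pow, hα]
    exact valuation_rat_eq r hr P hP a ha
  -- compare
  have hvr : P.valuation (r : Qb) < 1 := (ValuationSubring.mem_nonunits_iff P).mp hP
  have hvr0 : P.valuation (r : Qb) ≠ 0 :=
    (Valuation.ne_zero_iff _).mpr (by exact_mod_cast hr.ne_zero)
  have hcmp : P.valuation (r : Qb) ^ (n * (r : ℤ)) =
      P.valuation (r : Qb) ^ (padicValRat r a * (m : ℤ)) := by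
    rw [zpow_mul, ← hmn, zpow_mul, ← hk, zpow_natCast, zpow_natCast,
      ← pow_mul, ← pow_mul, mul_comm]
  have hinj : n * (r : ℤ) = padicValRat r a * (m : ℤ) := by
    by_contra hne
    rcases lt_or_gt_of_ne hne with h | h
    · have := zpow_lt_zpow_right_of_lt_one₀ (zero_lt_iff.mpr hvr0) hvr h
      rw [hcmp] at this
      exact lt_irrefl _ this
    · have := zpow_lt_zpow_right_of_lt_one₀ (zero_lt_iff.mpr hvr0) hvr h
      rw [hcmp] at this
      exact lt_irrefl _ this
  have hdvd : (r : ℤ) ∣ padicValRat r a * (m : ℤ) := ⟨n, by rw [← hinj, mul_comm]⟩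
  have hcop : IsCoprime (r : ℤ) (m : ℤ) := by
    rw [Int.isCoprime_iff_gcd_eq_one, Int.gcd_natCast_natCast]
    exact Nat.coprime_of_lt_prime hm0.ne' hmr hr
  exact hcop.dvd_of_dvd_mul_right hdvd

/-- PEU-ω / PEU-2 from a Hopf model. -/
theorem peuKummer_of_hopfModel (r : ℕ) [Fact r.Prime] (M : Type) [AddCommGroup M] [Finite M]
    (act : GQ → M → M) (hH : Fermat.Agent.S19.HopfModel r M act)
    (hM : ∀ x : M, r • x = 0) (P : ValuationSubring Qb) (hP : P.LiesOverPrime r)
    (ζ : Qb) (hζ : IsPrimitiveRoot ζ r) (L : AddSubgroup M)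
    (hL1 : ∀ σ ∈ P.inertiaSubgroupIn ℚ, σ ζ = ζ → ∀ t ∈ L, act σ t = t)
    (hL2 : ∀ σ ∈ P.inertiaSubgroupIn ℚ, σ ζ = ζ → ∀ y : M, act σ y - y ∈ L)
    (ξ : M →+ ZMod r) (x : M) (a : ℚ) (ha : a ≠ 0) (α : Qb)
    (hα : α ^ r = algebraMap ℚ Qb a)
    (hκ : ∀ σ ∈ P.inertiaSubgroupIn ℚ, σ ζ = ζ → σ α = ζ ^ (ξ (act σ x - x)).val * α) :
    (r : ℤ) ∣ padicValRat r a := by
  obtain ⟨Λ, hΛ⟩ := Fermat.Agent.S19.H435.exists_isHopfLattice_of_hopfModel hH
  exact peuKummer r M act Λ hΛ hM P hP ζ hζ L hL1 hL2 ξ x a ha α hα hκ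

end Fermat.Agent.S15.H379

end
end
-- ===== PACK-END S15/H379/Peu.lean

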