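import Fermat.Prelude.Def_ModularCurve_ArithmeticGalois
import Mathlib
import Fermat.Prelude.Def_EllipticCurve_ZeroComponentAt
import Fermat.Prelude.Def_FLTPrelim_Ramification
import Fermat.Prelude.Def_ModularCurve_HeckeModule
import Fermat.Prelude.Def_ModularCurve_ModularUnit
import Fermat.Prelude.Def_AlgebraicCurve_Correspondence
import Fermat.Prelude.Def_ModularCurve_HeckeOperatorTotal
import Fermat.Prelude.Thm_ModularCurve_coeffMap_qExpand
import Fermat.Prelude.Def_ModularCurve_X0ModL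
import Fermat.Prelude.Def_ModularCurve_ReductionModL
import Fermat.Agent.Pack.S15.AE3L1
import Fermat.Agent.Pack.S15.AE1L0
import Fermat.Agent.Pack.S15.AE4L3
import Fermat.Agent.Pack.S15.AE1L1
import Fermat.Agent.Pack.S15.AE4L2
import Fermat.Agent.Pack.S15.AE3L2
import Fermat.Agent.Pack.S15.AE1L3
import Fermat.Agent.Pack.S15.AE4L0
import Fermat.Agent.Pack.S15.AE0L2
import Fermat.Agent.Pack.S15.AE4L1
import Fermat.Agent.Pack.S15.AE2L2
import Fermat.Agent.Pack.S15.AE3L0
import Fermat.Agent.Pack.S15.AE2L1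
import Fermat.Agent.Pack.S15.AE3L3
import Fermat.Agent.Pack.S15.AE1L2
import Fermat.Agent.Pack.S15.AE0L3
import Fermat.Agent.Pack.S15.AE0L1

-- ===== PACK-BEGIN S17/H680/Cusp.lean
section





/-!
# S17 / P2 (helper680): the cusp `∞` is Galois-stable; descent for `J₀(N)`

* `cuspInf F₀ hneg` : the place `ord_q` of `laurentBaseChange L F₀ ⊆ L((q))`;
* `arithmeticGalois_smul_cuspInf` : it is fixed by the coefficientwise Galois action;
* `JZero.galois_smul_minRep` : for a Galois-fixed class `x ∈ J₀(N)`, the minimal representative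
  `E_x` (effective, degree `≤ g`, prime to `∞`, `x = [E_x - m ∞]`) is a Galois-invariant divisor.
-/

set_option autoImplicit false

noncomputable section

open AlgebraicCurve ModularCurve

namespace Fermat.Agent.S17.H680

open Fermat.Agent.Lib.RR

section General

variable {L : Type*} [Field L] [Algebra ℚ L]
variable (F₀ : IntermediateField ℚ (LaurentSeries ℚ))

/-- The inclusion of the function field into the Laurent series. -/
def inclLaurent : laurentBaseChange L F₀ →+* LaurentSeries L :=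
  (laurentBaseChange L F₀).toSubfield.subtype

@[simp]
theorem inclLaurent_apply (x : laurentBaseChange L F₀) :
    inclLaurent F₀ x = (x : LaurentSeries L) := rfl

omit [Algebra ℚ L] in
theorem order_algebraMap_laurent (c : L) :
    (algebraMap L (LaurentSeries L) c).order = 0 := by
  rw [algebraMap_laurentSeries_eq_single]
  rcases eq_or_ne c 0 with rfl | hc
  · simp
  · exact HahnSeries.order_single hc

/-- The place `ord_q` of the function field `laurentBaseChange L F₀`. -/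
def cuspInf (hneg : ∃ f : laurentBaseChange L F₀, (f : LaurentSeries L).order < 0) :
    Place L (laurentBaseChange L F₀) :=
  Fermat.Agent.S24.H144.placeOfEmb (inclLaurent F₀)
    (fun c => le_of_eq (order_algebraMap_laurent c).symm) hneg

theorem mem_cuspInf (hneg : ∃ f : laurentBaseChange L F₀, (f : LaurentSeries L).order < 0)
    (f : laurentBaseChange L F₀) :
    f ∈ (cuspInf F₀ hneg).toValuationSubring ↔ 0 ≤ (f : LaurentSeries L).order :=
  Iff.rfl

omit [Algebra ℚ L] in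
theorem order_coeffMap_of_injective (φ : L →+* L) (hφ : Function.Injective φ)
    (x : LaurentSeries L) : (coeffMap φ x).order = x.order := by
  classical
  rcases eq_or_ne x 0 with rfl | hx
  · simp
  have hx' : coeffMap φ x ≠ 0 := by
    intro h
    apply hx
    ext k
    have := congrArg (fun y => HahnSeries.coeff y k) h
    simp only [coeffMap_coeff, HahnSeries.coeff_zero] at this
    rw [HahnSeries.coeff_zero]
    exact hφ (by rw [this, map_zero])
  have hsupp : (coeffMap φ x).support = x.support := by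
    ext k
    simp only [HahnSeries.mem_support, coeffMap_coeff, ne_eq]
    rw [map_eq_zero_iff φ hφ]
  rw [HahnSeries.order_of_ne hx', HahnSeries.order_of_ne hx]
  congr 1

/-- The cusp `∞` is fixed by the coefficientwise Galois action. -/
theorem arithmeticGalois_smul_cuspInf
    (hneg : ∃ f : laurentBaseChange L F₀, (f : LaurentSeries L).order < 0) (σ : L ≃ₐ[ℚ] L) :
    arithmeticGalois F₀ σ • cuspInf F₀ hneg = cuspInf F₀ hneg := by
  apply Place.ext
  ext f
  rw [SemilinearAut.smul_toValuationSubring,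
    ValuationSubring.mem_pointwise_smul_iff_inv_smul_mem, mem_cuspInf, mem_cuspInf]
  have h : (((arithmeticGalois F₀ σ)⁻¹ • f : laurentBaseChange L F₀) : LaurentSeries L)
      = coeffMap ((σ⁻¹ : L ≃ₐ[ℚ] L) : L →+* L) (f : LaurentSeries L) := by
    rw [← map_inv]
    exact coe_arithmeticGalois_smul F₀ σ⁻¹ f
  rw [h, order_coeffMap_of_injective _ (σ⁻¹ : L ≃ₐ[ℚ] L).injective]

end General

/-! ### The modular function field -/

section Modular

variable (N : ℕ) [NeZero N]

theorem jq_order_neg : jq.order < 0 := by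
  have h : jq.order ≤ -1 := HahnSeries.order_le_of_coeff_ne_zero (by
    rw [coeff_jq_neg_one]; exact one_ne_zero)
  omega

theorem exists_order_neg_modular :
    ∃ f : modularFunctionFieldBar N, (f : LaurentSeries (AlgebraicClosure ℚ)).order < 0 := by
  refine ⟨⟨coeffEmb (AlgebraicClosure ℚ) jq,
    coeffEmb_mem_laurentBaseChange _ (modularFunctionField_le_full N (jq_mem N))⟩, ?_⟩
  show (coeffEmb (AlgebraicClosure ℚ) jq).order < 0
  have h : (coeffEmb (AlgebraicClosure ℚ) jq).order ≤ -1 :=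
    HahnSeries.order_le_of_coeff_ne_zero (by
      rw [coeffEmb_coeff, coeff_jq_neg_one, map_one]; exact one_ne_zero)
  omega

/-- The cusp `∞` of `X₀(N)`, as a place of `ℚ̄(X₀(N))`. -/
def JZero.cusp : Place (AlgebraicClosure ℚ) (modularFunctionFieldBar N) :=
  cuspInf (modularFunctionFieldFull N) (exists_order_neg_modular N)

theorem JZero.galois_smul_cusp (σ : AlgebraicClosure ℚ ≃ₐ[ℚ] AlgebraicClosure ℚ) :
    arithmeticGalois (modularFunctionFieldFull N) σ • JZero.cusp N = JZero.cusp N :=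
  arithmeticGalois_smul_cuspInf _ _ σ

omit [NeZero N] in
/-- Membership in the Mordell–Weil group `J₀(N)(ℚ)`. -/
theorem JZero.mem_fixedPoints_iff (x : JZero N) :
    x ∈ FixedPoints.addSubgroup (AlgebraicClosure ℚ ≃ₐ[ℚ] AlgebraicClosure ℚ) (JZero N) ↔
      ∀ σ : AlgebraicClosure ℚ ≃ₐ[ℚ] AlgebraicClosure ℚ,
        arithmeticGalois (modularFunctionFieldFull N) σ • x = x :=
  Iff.rfl

/-- **Galois descent for `J₀(N)`**: the minimal representative of a rational class is a
Galois-invariant effective divisor. -/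
theorem JZero.galois_smul_minRep {x : JZero N}
    (hx : x ∈ FixedPoints.addSubgroup (AlgebraicClosure ℚ ≃ₐ[ℚ] AlgebraicClosure ℚ) (JZero N))
    (σ : AlgebraicClosure ℚ ≃ₐ[ℚ] AlgebraicClosure ℚ) :
    arithmeticGalois (modularFunctionFieldFull N) σ • minRep (JZero.cusp N) x
      = minRep (JZero.cusp N) x :=
  smul_minRep_eq _ (JZero.galois_smul_cusp N σ) ((JZero.mem_fixedPoints_iff N x).mp hx σ)

/-- Summary of the descent statement for `J₀(N)(ℚ)`. -/
theorem JZero.exists_invariant_rep {x : JZero N}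
    (hx : x ∈ FixedPoints.addSubgroup (AlgebraicClosure ℚ ≃ₐ[ℚ] AlgebraicClosure ℚ) (JZero N)) :
    ∃ (m : ℕ) (E : Divisor (AlgebraicClosure ℚ) (modularFunctionFieldBar N))
      (hdeg : Divisor.degree (E - m • prim (JZero.cusp N)) = 0),
      m ≤ genusR (AlgebraicClosure ℚ) (modularFunctionFieldBar N) ∧ 0 ≤ E ∧
      Divisor.degree E = m ∧ E (JZero.cusp N) = 0 ∧ ell E = 1 ∧
      (∀ σ : AlgebraicClosure ℚ ≃ₐ[ℚ] AlgebraicClosure ℚ,
        arithmeticGalois (modularFunctionFieldFull N) σ • E = E) ∧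
      Pic0.mk ⟨E - m • prim (JZero.cusp N), hdeg⟩ = x :=
  ⟨minDeg (JZero.cusp N) x, minRep (JZero.cusp N) x, degree_minRep_sub _ x,
    minDeg_le_genus _ x, minRep_nonneg _ x, degree_minRep _ x, minRep_apply_infty _ x,
    ell_minRep _ x, fun σ => JZero.galois_smul_minRep N hx σ, mk_minDiv _ x⟩

end Modular

end Fermat.Agent.S17.H680

end
end
-- ===== PACK-END S17/H680/Cusp.lean

-- ===== PACK-BEGIN S15/Core/Top.lean
section









/-!
# Row S15 (Mazur's Step 3): TOP assembly (acting architect helper915)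

`s15_of_nodes` : the frozen statement S15 from three node statements at the prime level `p`

* `CuspStatement p`    : the cusp `0`, the cuspidal class `c = [(0) - (∞)]`, Eisenstein, torsion,
                         of order divisible by every prime `r ∣ n = eisensteinNumerator p`
                         (the lower-bound half of Ogg's theorem);
* `GeoStatement p`     : the moduli point `x = (E, ⟨Q⟩)`, its class `D = [(x) - (0)]` in `J₀(p)(ℚ)`,
                         and, at every multiplicative prime `q ≠ p`, a specialisation map `sp` of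
                         `J₀(p)`, injective on torsion prime to `q`, with Hecke-stable kernel, such
                         that `sp D = 0` if `Q ∉ E⁰` and `sp (D + c) = 0` if `Q ∈ E⁰`;
* `DescentStatement p` : the Eisenstein descent (THE WALL): some Hecke operator `t`, acting on
                         Eisenstein classes by an integer prime to a prime `r ∣ n`, maps `J₀(p)(ℚ)`
                         into the torsion subgroup.

The local case (`ℓ ≢ ±1 mod p`) is `H242.step3_of_pm_one` (helper242, on main).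
Everything in this file is sorry-free; the nodes are hypotheses.
-/

set_option autoImplicit false

noncomputable section

open AlgebraicCurve ModularCurve WeierstrassCurve WeierstrassCurve.Affine

namespace Fermat.Agent.S15.Core

/-! ### Vocabulary -/

section Vocabulary

variable (p : ℕ) [NeZero p]

/-- The function `j`, as an element of `ℚ̄(X₀(p))`. -/
def jBar : modularFunctionFieldBar p :=
  ⟨coeffEmb (AlgebraicClosure ℚ) jq,
    coeffEmb_mem_laurentBaseChange _ (modularFunctionField_le_full p (jq_mem p))⟩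

/-- The cusp `∞` (the place `ord_q`), from row S17 (helper680, on main). -/
abbrev cuspInfty : Place (AlgebraicClosure ℚ) (modularFunctionFieldBar p) :=
  Fermat.Agent.S17.H680.JZero.cusp p

/-- A cusp `0`: a pole of `j` different from `∞`.  (For `p` prime it is unique.) -/
def IsCuspZero (P₀ : Place (AlgebraicClosure ℚ) (modularFunctionFieldBar p)) : Prop :=
  P₀ ≠ cuspInfty p ∧ P₀.ord (jBar p) < 0

variable {p}

/-- `z` is the class of the degree-zero divisor `(P) - (P')`. -/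
def IsDiffClass (P P' : Place (AlgebraicClosure ℚ) (modularFunctionFieldBar p))
    (z : JZero p) : Prop :=
  ∃ h : (Finsupp.single P (1 : ℤ) - Finsupp.single P' (1 : ℤ) :
      Divisor (AlgebraicClosure ℚ) (modularFunctionFieldBar p)) ∈
        Divisor.degZero (K := AlgebraicClosure ℚ) (F := modularFunctionFieldBar p),
    z = Pic0.mk ⟨_, h⟩

/-- `c` is an Eisenstein class: `T_ℓ c = (1 + ℓ) c` for all primes `ℓ ≠ p`. -/
def IsEisensteinClass (c : JZero p) : Prop :=
  ∀ ℓ : Nat.Primes, (ℓ : ℕ) ≠ p → heckeOperatorBar p ℓ c = ((1 + (ℓ : ℕ) : ℕ) : ℤ) • c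

variable (p)

/-- The Hecke operators `T_ℓ` of level `p` with `ℓ ≠ p`, `ℓ ∉ S`. -/
def goodHecke (S : Set ℕ) : Set (Module.End ℤ (JZero p)) :=
  {T | ∃ ℓ : Nat.Primes, (ℓ : ℕ) ≠ p ∧ (ℓ : ℕ) ∉ S ∧ T = heckeOperatorBar p ℓ}

/-- The ring of endomorphisms of `J₀(p)` generated by them (no commutativity is assumed). -/
def goodHeckeAlg (S : Set ℕ) : Subalgebra ℤ (Module.End ℤ (JZero p)) :=
  Algebra.adjoin ℤ (goodHecke p S)

/-! ### The three nodes -/

/-- **NODE CUSP.**  The cusp `0` exists, and the class `c = [(0) - (∞)]` is Eisenstein, torsion,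
of order divisible by every prime divisor of `n = eisensteinNumerator p`.
(In fact `addOrderOf c = n` by Ogg/Mazur; only this much is used.) -/
def CuspStatement : Prop :=
  ∃ (P₀ : Place (AlgebraicClosure ℚ) (modularFunctionFieldBar p)) (c : JZero p),
    IsCuspZero p P₀ ∧ IsDiffClass P₀ (cuspInfty p) c ∧ IsEisensteinClass c ∧
      addOrderOf c ≠ 0 ∧ ∀ r : ℕ, r.Prime → r ∣ eisensteinNumerator p → r ∣ addOrderOf c

/-- **NODE GEO.**  Moduli point + specialisation at the multiplicative primes. -/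
def GeoStatement : Prop :=
  ∀ (W : WeierstrassCurve ℤ), W.Δ ≠ 0 →
  ∀ (Q : ((W.map (Int.castRingHom ℚ))⁄(AlgebraicClosure ℚ)).Point),
    (∀ σ : AlgebraicClosure ℚ ≃ₐ[ℚ] AlgebraicClosure ℚ, σ • Q = Q) → addOrderOf Q = p →
  ∀ (P₀ : Place (AlgebraicClosure ℚ) (modularFunctionFieldBar p)) (c : JZero p),
    IsCuspZero p P₀ → IsDiffClass P₀ (cuspInfty p) c →
  ∃ D : JZero p, (∀ σ : AlgebraicClosure ℚ ≃ₐ[ℚ] AlgebraicClosure ℚ, σ • D = D) ∧
    ∀ q : ℕ, q.Prime → q ≠ p → (q : ℤ) ∣ W.Δ → ¬ (q : ℤ) ∣ W.c₄ →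
    ∀ A : ValuationSubring (AlgebraicClosure ℚ), A.LiesOverPrime q →
    ∃ (X : Type) (_ : AddCommGroup X) (sp : JZero p →+ X),
      (∀ (m : ℕ) (z : JZero p), ¬ q ∣ m → m • z = 0 → sp z = 0 → z = 0) ∧
      (∀ T ∈ goodHecke p {q}, ∀ z : JZero p, sp z = 0 → sp (T z) = 0) ∧
      (¬ W.InZeroComponentAt A Q → sp D = 0) ∧
      (W.InZeroComponentAt A Q → sp (D + c) = 0)

/-- **NODE DESC (the wall).**  Eisenstein descent: for every finite set `S` of primes to avoid,
there are a prime `r ∣ n` and an element `t` of the Hecke ring away from `S ∪ {p}` which acts on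
every Eisenstein class by an integer `e` prime to `r` and maps `J₀(p)(ℚ)` into the torsion. -/
def DescentStatement : Prop :=
  ∀ S : Finset ℕ, ∃ (r : ℕ) (t : Module.End ℤ (JZero p)) (e : ℤ),
    r.Prime ∧ r ∣ eisensteinNumerator p ∧ t ∈ goodHeckeAlg p (S : Set ℕ) ∧
    (∀ c : JZero p, IsEisensteinClass c → t c = e • c) ∧ ¬ (r : ℤ) ∣ e ∧
    ∀ z : JZero p, (∀ σ : AlgebraicClosure ℚ ≃ₐ[ℚ] AlgebraicClosure ℚ, σ • z = z) →
      ∃ m : ℕ, 0 < m ∧ m • t z = 0

end Vocabulary

/-! ### Abstract lemmas -/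

section Abstract

variable {M : Type*} [AddCommGroup M]

/-- A torsion element which reduces to `0` modulo two different primes (reduction being injective
on torsion prime to the characteristic) is zero. -/
theorem eq_zero_of_torsion_of_two_primes
    {J₁ J₂ : Type*} [AddCommGroup J₁] [AddCommGroup J₂]
    (red₁ : M →+ J₁) (red₂ : M →+ J₂) {q₁ q₂ : ℕ} (hq₁ : q₁.Prime) (hq₂ : q₂.Prime)
    (hne : q₁ ≠ q₂)
    (inj₁ : ∀ (m : ℕ) (z : M), ¬ q₁ ∣ m → m • z = 0 → red₁ z = 0 → z = 0)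
    (inj₂ : ∀ (m : ℕ) (z : M), ¬ q₂ ∣ m → m • z = 0 → red₂ z = 0 → z = 0)
    {z : M} {m : ℕ} (hm : 0 < m) (hmz : m • z = 0) (h₁ : red₁ z = 0) (h₂ : red₂ z = 0) :
    z = 0 := by
  obtain ⟨a, m₁, hm₁, rfl⟩ := Nat.exists_eq_pow_mul_and_not_dvd hm.ne' q₁ hq₁.ne_one
  have hz₁ : q₁ ^ a • z = 0 := by
    refine inj₁ m₁ (q₁ ^ a • z) hm₁ ?_ ?_
    · rw [← mul_smul, mul_comm]; exact hmz
    · rw [map_nsmul, h₁, smul_zero]
  refine inj₂ (q₁ ^ a) z ?_ hz₁ h₂
  intro hdvd
  have := (Nat.prime_dvd_prime_iff_eq hq₂ hq₁).mp (hq₂.dvd_of_dvd_pow hdvd)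
  exact hne this.symm

end Abstract

section Kernel

variable {p : ℕ} [NeZero p]

/-- The kernel of a specialisation map is stable under the Hecke ring as soon as it is stable
under the generators. -/
theorem sp_eq_zero_of_mem_goodHeckeAlg {X : Type*} [AddCommGroup X] (sp : JZero p →+ X)
    {S S' : Set ℕ} (hS : S' ⊆ S)
    (hgen : ∀ T ∈ goodHecke p S', ∀ z : JZero p, sp z = 0 → sp (T z) = 0)
    {t : Module.End ℤ (JZero p)} (ht : t ∈ goodHeckeAlg p S) :
    ∀ z : JZero p, sp z = 0 → sp (t z) = 0 := by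
  induction ht using Algebra.adjoin_induction with
  | mem T hT =>
    obtain ⟨ℓ, hℓp, hℓS, rfl⟩ := hT
    exact hgen _ ⟨ℓ, hℓp, fun h => hℓS (hS h), rfl⟩
  | algebraMap a =>
    intro z hz
    rw [Algebra.algebraMap_eq_smul_one, LinearMap.smul_apply, Module.End.one_apply, map_zsmul,
      hz, smul_zero]
  | add T T' _ _ hT hT' =>
    intro z hz
    rw [LinearMap.add_apply, map_add, hT z hz, hT' z hz, add_zero]
  | mul T T' _ _ hT hT' =>
    intro z hz
    rw [Module.End.mul_apply]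
    exact hT _ (hT' z hz)

end Kernel

/-! ### The assembly -/

theorem eisensteinNumerator_le_half {p : ℕ} (hp : p.Prime) (hp2 : p ≠ 2) :
    2 * eisensteinNumerator p ≤ p - 1 := by
  have hodd : p % 2 = 1 := hp.eq_two_or_odd.resolve_left hp2
  have hp1 := hp.two_le
  have h2 : 2 ∣ Nat.gcd (p - 1) 12 := Nat.dvd_gcd (by omega) (by norm_num)
  have hg : 0 < Nat.gcd (p - 1) 12 := Nat.gcd_pos_of_pos_right _ (by norm_num)
  have hle : 2 ≤ Nat.gcd (p - 1) 12 := Nat.le_of_dvd hg h2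
  unfold eisensteinNumerator
  calc 2 * ((p - 1) / Nat.gcd (p - 1) 12)
      ≤ Nat.gcd (p - 1) 12 * ((p - 1) / Nat.gcd (p - 1) 12) := Nat.mul_le_mul_right _ hle
    _ ≤ p - 1 := Nat.mul_div_le _ _

/-- **Row S15, TOP.**  The frozen statement S15 from the three nodes at level `p`. -/
theorem s15_of_nodes
    {p : ℕ} (hp : p.Prime) (hp' : p ∉ ({2, 3, 5, 7, 13} : Finset ℕ))
    (hCusp : haveI : NeZero p := ⟨hp.ne_zero⟩; CuspStatement p)
    (hGeo : haveI : NeZero p := ⟨hp.ne_zero⟩; _root_.Fermat.Agent.S15.Core.GeoStatement p)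
    (hDesc : haveI : NeZero p := ⟨hp.ne_zero⟩; DescentStatement p)
    (W : WeierstrassCurve ℤ) (hΔ : W.Δ ≠ 0)
    (Q : ((W.map (Int.castRingHom ℚ))⁄(AlgebraicClosure ℚ)).Point)
    (hQfix : ∀ σ : AlgebraicClosure ℚ ≃ₐ[ℚ] AlgebraicClosure ℚ, σ • Q = Q)
    (hQord : addOrderOf Q = p)
    (h2Δ : (2 : ℤ) ∣ W.Δ) (h2c₄ : ¬ (2 : ℤ) ∣ W.c₄)
    (h2 : ∀ A : ValuationSubring (AlgebraicClosure ℚ), A.LiesOverPrime 2 →
      ¬ W.InZeroComponentAt A Q)
    (h3Δ : (3 : ℤ) ∣ W.Δ) (h3c₄ : ¬ (3 : ℤ) ∣ W.c₄)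
    (h3 : ∀ A : ValuationSubring (AlgebraicClosure ℚ), A.LiesOverPrime 3 →
      ¬ W.InZeroComponentAt A Q)
    {ℓ : ℕ} (hℓ : ℓ.Prime) (hℓp : ℓ ≠ p) (hℓΔ : (ℓ : ℤ) ∣ W.Δ) (hℓc₄ : ¬ (ℓ : ℤ) ∣ W.c₄)
    (A : ValuationSubring (AlgebraicClosure ℚ)) (hA : A.LiesOverPrime ℓ) :
    ¬ W.InZeroComponentAt A Q := by
  have : NeZero p := ⟨hp.ne_zero⟩
  have hp2 : p ≠ 2 := fun h => hp' (by simp [h])
  have hp3 : p ≠ 3 := fun h => hp' (by simp [h])
  refine Fermat.Agent.S15.H242.step3_of_pm_one hp W Q hQfix hQord hℓ hℓp hℓΔ hℓc₄ A hA ?_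
  intro hpm hQ0
  obtain ⟨P₀, c, hP₀, hc, hEis, hord0, hordr⟩ := hCusp
  obtain ⟨D, hDfix, hD⟩ := hGeo W hΔ Q hQfix hQord P₀ c hP₀ hc
  obtain ⟨r, t, e, hr, hrn, ht, hte, hre, htors⟩ := hDesc {2, 3, ℓ}
  obtain ⟨A₂, hA₂⟩ := Fermat.Agent.S54.exists_valuationSubring_liesOver 2 Nat.prime_two
  obtain ⟨A₃, hA₃⟩ := Fermat.Agent.S54.exists_valuationSubring_liesOver 3 Nat.prime_three
  obtain ⟨X₂, _, sp₂, inj₂, hk₂, hz₂, -⟩ :=
    hD 2 Nat.prime_two (Ne.symm hp2) (by exact_mod_cast h2Δ) (by exact_mod_cast h2c₄) A₂ hA₂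
  obtain ⟨X₃, _, sp₃, inj₃, hk₃, hz₃, -⟩ :=
    hD 3 Nat.prime_three (Ne.symm hp3) (by exact_mod_cast h3Δ) (by exact_mod_cast h3c₄) A₃ hA₃
  obtain ⟨Xℓ, _, spℓ, injℓ, hkℓ, -, hzℓ⟩ := hD ℓ hℓ hℓp hℓΔ hℓc₄ A hA
  -- `t D` is torsion and specialises to `0` at `2` and `3`, hence vanishes
  obtain ⟨m, hm, hmD⟩ := htors D hDfix
  have hS2 : ({2} : Set ℕ) ⊆ (({2, 3, ℓ} : Finset ℕ) : Set ℕ) := by
    intro x hx; simp only [Set.mem_singleton_iff] at hx; simp [hx]
  have hS3 : ({3} : Set ℕ) ⊆ (({2, 3, ℓ} : Finset ℕ) : Set ℕ) := by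
    intro x hx; simp only [Set.mem_singleton_iff] at hx; simp [hx]
  have hSℓ : ({ℓ} : Set ℕ) ⊆ (({2, 3, ℓ} : Finset ℕ) : Set ℕ) := by
    intro x hx; simp only [Set.mem_singleton_iff] at hx; simp [hx]
  have htD : t D = 0 :=
    eq_zero_of_torsion_of_two_primes sp₂ sp₃ Nat.prime_two Nat.prime_three (by norm_num)
      inj₂ inj₃ hm hmD
      (sp_eq_zero_of_mem_goodHeckeAlg sp₂ hS2 hk₂ ht D (hz₂ (h2 A₂ hA₂)))
      (sp_eq_zero_of_mem_goodHeckeAlg sp₃ hS3 hk₃ ht D (hz₃ (h3 A₃ hA₃)))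
  -- at `ℓ`: `sp (t c) = 0`
  have h1 : spℓ (t (D + c)) = 0 :=
    sp_eq_zero_of_mem_goodHeckeAlg spℓ hSℓ hkℓ ht (D + c) (hzℓ hQ0)
  rw [map_add, htD, zero_add, hte c hEis] at h1
  -- the element `y = (ord c / r) • e • c` has order `r`
  set n := eisensteinNumerator p with hn
  have hn0 : 0 < n := by
    have hg : 0 < Nat.gcd (p - 1) 12 := Nat.gcd_pos_of_pos_right _ (by norm_num)
    have hp1 : 0 < p - 1 := by have := hp.two_le; omega
    exact Nat.div_pos (Nat.le_of_dvd hp1 (Nat.gcd_dvd_left _ _)) hg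
  have hrle : r ≤ n := Nat.le_of_dvd hn0 hrn
  have hnc : addOrderOf c • c = 0 := addOrderOf_nsmul_eq_zero c
  obtain ⟨s, hs⟩ := hordr r hr hrn
  have hs0 : s ≠ 0 := by
    rintro rfl
    rw [mul_zero] at hs
    exact hord0 hs
  have hry : r • (s • (e • c)) = 0 := by
    rw [← mul_smul, ← hs, smul_comm, hnc, smul_zero]
  have hy0 : s • (e • c) ≠ 0 := by
    intro h0
    have h' : ((s : ℤ) * e) • c = 0 := by
      rw [mul_smul, natCast_zsmul]
      exact h0
    have hdvd : (addOrderOf c : ℤ) ∣ (s : ℤ) * e := addOrderOf_dvd_iff_zsmul_eq_zero.mpr h'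
    rw [hs] at hdvd
    push_cast at hdvd
    have hdvd' : (r : ℤ) * (s : ℤ) ∣ e * (s : ℤ) := by rwa [mul_comm e]
    exact hre (Int.dvd_of_mul_dvd_mul_right (by exact_mod_cast hs0) hdvd')
  have hspy : spℓ (s • (e • c)) = 0 := by rw [map_nsmul, h1, smul_zero]
  have hℓr : ¬ ℓ ∣ r := by
    intro h
    have hrl : ℓ = r := (Nat.prime_dvd_prime_iff_eq hℓ hr).mp h
    have hhalf : 2 * n ≤ p - 1 := eisensteinNumerator_le_half hp hp2
    have hp1 := hp.two_le
    have hℓ2 := hℓ.two_le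
    rcases hpm with h1' | h1'
    · have : ℓ - 1 = 0 := Nat.eq_zero_of_dvd_of_lt h1' (by omega)
      omega
    · have hle : p ≤ ℓ + 1 := Nat.le_of_dvd (by omega) h1'
      omega
  exact hy0 (injℓ r _ hℓr hry hspy)

end Fermat.Agent.S15.Core

end
end
-- ===== PACK-END S15/Core/Top.lean

-- ===== PACK-BEGIN S29/H812/Along.lean
section



/-!
# S29 / H812 — the Prelude's `…Along` predicates for an arbitrary `K`-algebra homomorphism between
function fields of one variable over an algebraically closed field of characteristic zero.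
-/

set_option autoImplicit false

noncomputable section

open AlgebraicCurve IntermediateField

namespace Fermat.Agent.S29.H812

open Fermat.Agent.S24

variable {K F F' : Type*} [Field K] [Field F] [Field F'] [Algebra K F] [Algebra K F']
  [IsAlgClosed K] [CharZero K]

/-- A `K`-algebra homomorphism of function fields of one variable is finite. -/
theorem finiteAlong (hF : ∃ x : F, Transcendental K x ∧ FiniteDimensional K⟮x⟯ F)
    (hF' : ∃ x : F', Transcendental K x ∧ FiniteDimensional K⟮x⟯ F') (φ : F →ₐ[K] F') :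
    FiniteAlong K φ := by
  letI := algebraAlong φ
  haveI := isScalarTower_along φ
  obtain ⟨x, hx, -⟩ := hF
  obtain ⟨x', hx', hx'fin⟩ := hF'
  have hφx : Transcendental K (algebraMap F F' x) := transcendental_algebraMap_of hx
  haveI : FiniteDimensional K⟮algebraMap F F' x⟯ F' :=
    FF.finiteDimensional_adjoin_of_transcendental hx' hφx
  exact finite_of_finite_adjoin_algebraMap (K := K) x

theorem isIntegral_of_finiteAlong {φ : F →ₐ[K] F'} (h : FiniteAlong K φ) :
    φ.toRingHom.IsIntegral := by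
  letI := algebraAlong φ
  haveI : Module.Finite F F' := h
  exact (Algebra.IsIntegral.of_finite F F').isIntegral

theorem fundamentalIdentityAlong (hF : ∃ x : F, Transcendental K x ∧ FiniteDimensional K⟮x⟯ F)
    [HasPrincipalDivisors K F'] (φ : F →ₐ[K] F') (hfin : FiniteAlong K φ)
    (hφ : φ.toRingHom.IsIntegral) : FundamentalIdentityAlong K φ hφ := by
  letI := algebraAlong φ
  haveI := isScalarTower_along φ
  haveI := isIntegral_along φ hφ
  haveI : Module.Finite F F' := hfin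
  exact fundamentalIdentity (F' := F') hF

theorem normFormulaAlong (hF : ∃ x : F, Transcendental K x ∧ FiniteDimensional K⟮x⟯ F)
    [HasPrincipalDivisors K F'] (φ : F →ₐ[K] F') (hfin : FiniteAlong K φ) :
    NormFormulaAlong K φ hfin := by
  letI := algebraAlong φ
  haveI := isScalarTower_along φ
  haveI : Module.Finite F F' := hfin
  exact pushforwardNormFormula (F' := F') hF

end Fermat.Agent.S29.H812

end
end
-- ===== PACK-END S29/H812/Along.lean

-- ===== PACK-BEGIN S29/H812/HeckeInputs.lean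
section




/-!
# S29 / H812 — the Prelude Hecke operator on `J₀(N)(ℚ̄)` is the genuine correspondence

All six inputs of `ModularCurve.HeckeInputsAlong (AlgebraicClosure ℚ) N ℓ` hold, for every `N ≠ 0`
and every `ℓ ≠ 0` (prime or not, dividing `N` or not); consequently
`heckeOperatorAlong = heckePic0Bar …` (Prelude `heckeOperatorAlong_eq`).

Generic part (`Fermat/Agent/S29/H812/*.lean`): for a finite extension `F'/F` of function fields of
one variable over an algebraically closed field of characteristic zero,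
`∑_{w | v} e(w | v) = [F' : F]` and `ord_v (N_{F'/F} f) = ∑_{w | v} ord_w f`.
-/

set_option autoImplicit false

noncomputable section

namespace Fermat.Agent.S29.H812

open ModularCurve AlgebraicCurve IntermediateField

/-- The modular function field has a coordinate. -/
theorem exists_coord_modular (M : ℕ) [NeZero M] :
    ∃ x : ↥(modularFunctionFieldBar M), Transcendental (AlgebraicClosure ℚ) x ∧
      FiniteDimensional (AlgebraicClosure ℚ)⟮x⟯ ↥(modularFunctionFieldBar M) :=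
  (Fermat.Agent.Lib.RR.H864.ff1_modularFunctionFieldBar M).exists_finite

/-- The degeneracy map `α` (inclusion) is finite. -/
theorem finiteAlong_heckeAlphaBar (N : ℕ) [NeZero N] (ℓ : ℕ) [NeZero ℓ] :
    FiniteAlong (AlgebraicClosure ℚ) (heckeAlphaBar (AlgebraicClosure ℚ) N ℓ) := by
  haveI : NeZero (N * ℓ) := ⟨Nat.mul_ne_zero (NeZero.ne N) (NeZero.ne ℓ)⟩
  exact finiteAlong (exists_coord_modular N) (exists_coord_modular (N * ℓ)) _

/-- The degeneracy map `β` (`q ↦ q^ℓ`) is finite. -/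
theorem finiteAlong_heckeBetaBar (N : ℕ) [NeZero N] (ℓ : ℕ) [NeZero ℓ] :
    FiniteAlong (AlgebraicClosure ℚ) (heckeBetaBar (AlgebraicClosure ℚ) N ℓ) := by
  haveI : NeZero (N * ℓ) := ⟨Nat.mul_ne_zero (NeZero.ne N) (NeZero.ne ℓ)⟩
  exact finiteAlong (exists_coord_modular N) (exists_coord_modular (N * ℓ)) _

/-- `HeckeInputsAlong` for every `ℓ ≠ 0`. -/
theorem heckeInputsAlong (N : ℕ) [NeZero N] (ℓ : ℕ) [NeZero ℓ] :
    HeckeInputsAlong (AlgebraicClosure ℚ) N ℓ := by
  haveI : NeZero (N * ℓ) := ⟨Nat.mul_ne_zero (NeZero.ne N) (NeZero.ne ℓ)⟩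
  haveI hP : HasPrincipalDivisors (AlgebraicClosure ℚ)
      (laurentBaseChange (AlgebraicClosure ℚ) (modularFunctionFieldFull (N * ℓ))) :=
    Fermat.Agent.Lib.RR.H864.hasPrincipalDivisors_modularFunctionFieldBar (N * ℓ)
  have hF := exists_coord_modular N
  have hfinα := finiteAlong_heckeAlphaBar N ℓ
  have hfinβ := finiteAlong_heckeBetaBar N ℓ
  have hα : HeckeAlphaBarIntegral (AlgebraicClosure ℚ) N ℓ := isIntegral_of_finiteAlong hfinα
  have hβ : HeckeBetaBarIntegral (AlgebraicClosure ℚ) N ℓ := isIntegral_of_finiteAlong hfinβ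
  exact heckeInputsAlong_intro hα hβ
    (fundamentalIdentityAlong hF (heckeBetaBar (AlgebraicClosure ℚ) N ℓ) hfinβ hβ)
    hfinα
    (normFormulaAlong hF (heckeAlphaBar (AlgebraicClosure ℚ) N ℓ) hfinα)

end Fermat.Agent.S29.H812

end
end
-- ===== PACK-END S29/H812/HeckeInputs.lean

-- ===== PACK-BEGIN S15/H242/OggFricke.lean
section






/-!
# S15 / CUSP, node C9a (helper242): the Fricke involution and the modular unit

`u = Δ(q)/Δ(q^N)` (`ModularCurve.modularUnitSeries N`).  If `u` lies in the function field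
`FF N = ℚ̄(X₀(N))`, then the Fricke involution `w_N = A2.H528.wF N` satisfies

  `w_N(u) · u = N ^ 12`.

Proof: analytic realisation.  `U(τ) = Δ(τ)/Δ(Nτ)` has the `q`-expansion `u`
(`infExp_unitFun`), and `U(-1/(Nτ)) = N¹² / U(τ)` since `Δ` has weight `12`
(`unitFun_fricke`).  Writing `u = r/s` with `r, s ∈ R_N = ℚ̄[j(q^d)]`, the analytic bridge
`toFun` of helper528/helper997 gives `toFun r = U · toFun s`, and the claim follows from
`toFun (w r) = toFun r ∘ fricke` and the injectivity of `toFun`.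
-/

set_option autoImplicit false

noncomputable section

open ModularCurve HahnSeries UpperHalfPlane
open scoped MatrixGroups Real

namespace Fermat.Agent.S15.H242

open Fermat.Agent.S24 Fermat.Agent.S24.H997 Fermat.Agent.A2.H528

local notation "Δ" => ModularForm.discriminant

/-! ### The `q`-expansions of `Δ` and `1/Δ` -/

/-- The complex Laurent series of `Δ`. -/
def deltaC : LaurentSeries ℂ := coeffEmb ℂ deltaSeries

theorem map_dedekindEtaUnitQ :
    PowerSeries.map (algebraMap ℚ ℂ) dedekindEtaUnitQ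
      = PowerSeries.map (Int.castRingHom ℂ) dedekindEtaUnit := by
  rw [dedekindEtaUnitQ]
  ext n
  simp [PowerSeries.coeff_map]

theorem deltaC_eq :
    deltaC = single (1 : ℤ) (1 : ℂ) *
      ofPowerSeries ℤ ℂ (PowerSeries.map (Int.castRingHom ℂ) dedekindEtaUnit) := by
  rw [deltaC, deltaSeries, map_mul, coeffEmb, coeffMap_single, map_one, coeffMap_ofPowerSeries,
    map_dedekindEtaUnitQ]

/-- The complex Laurent series of `1/Δ`. -/
def deltaInvC : LaurentSeries ℂ :=
  single (-1 : ℤ) (1 : ℂ) *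
    ofPowerSeries ℤ ℂ (PowerSeries.map (Int.castRingHom ℂ) dedekindEtaUnitInv)

theorem deltaC_mul_deltaInvC : deltaC * deltaInvC = 1 := by
  rw [deltaC_eq, deltaInvC, mul_mul_mul_comm, single_mul_single, ← map_mul, ← map_mul,
    dedekindEtaUnit_mul_inv]
  simp

theorem deltaC_ne_zero : deltaC ≠ 0 := fun h => by
  have := deltaC_mul_deltaInvC
  rw [h, zero_mul] at this
  exact zero_ne_one this

theorem deltaInvC_eq : deltaInvC = deltaC⁻¹ :=
  eq_inv_of_mul_eq_one_right deltaC_mul_deltaInvC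

theorem infZ_one (τ : ℍ) : infZ 1 τ = Function.Periodic.qParam 1 (τ : ℂ) := by
  simp [infZ]

theorem infExp_discriminant : InfExp 1 (fun τ : ℍ => Δ τ) deltaC := by
  have h : InfPExp 1 (fun τ : ℍ => (∏' n : ℕ, (1 - infZ 1 τ ^ (n + 1))) ^ 24)
      (PowerSeries.map (Int.castRingHom ℂ) dedekindEtaUnit) := fun τ =>
    H902.ev_dedekindEtaUnit (norm_infZ_lt_one 1 τ)
  have h1 := h.infExp 1
  rw [← deltaC_eq] at h1
  refine h1.congr fun τ => ?_
  rw [H902.discriminant_eq_q_mul_eulerFn_pow, zpow_one, infZ_one]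

theorem infExp_discriminant_inv : InfExp 1 (fun τ : ℍ => (Δ τ)⁻¹) deltaC⁻¹ := by
  have h : InfPExp 1 (fun τ : ℍ => ((∏' n : ℕ, (1 - infZ 1 τ ^ (n + 1))) ^ 24)⁻¹)
      (PowerSeries.map (Int.castRingHom ℂ) dedekindEtaUnitInv) := fun τ =>
    H902.ev_dedekindEtaUnitInv (norm_infZ_lt_one 1 τ)
  have h1 := h.infExp (-1)
  rw [← deltaInvC, deltaInvC_eq] at h1
  refine h1.congr fun τ => ?_
  rw [H902.discriminant_eq_q_mul_eulerFn_pow, zpow_neg_one, infZ_one, mul_inv]

/-! ### The analytic modular unit -/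

variable (N : ℕ) [NeZero N]

/-- `U(τ) = Δ(τ) / Δ(Nτ)`. -/
def unitFun (τ : ℍ) : ℂ := Δ τ * (Δ (infAff N 0 1 τ))⁻¹

/-- The complex Laurent series of the modular unit. -/
def unitC : LaurentSeries ℂ := coeffEmb ℂ (modularUnitSeries N)

theorem unitC_eq : unitC N = deltaC * qExpand ℂ N deltaC⁻¹ := by
  rw [unitC, modularUnitSeries, map_mul, map_inv₀, deltaSeriesN, coeffEmb, coeffMap_qExpand,
    map_inv₀]
  rfl

theorem infExp_unitFun : InfExp 1 (unitFun N) (unitC N) := by
  have hN : 0 < N := Nat.pos_of_ne_zero (NeZero.ne N)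
  have h2 := infExp_discriminant_inv.comp_infAff (M := 1) (N := 1) (a := N) (d := 1) (e := N)
    0 hN one_pos one_pos one_pos (by ring)
  rw [infRoot_zero, infTwist_one] at h2
  rw [unitC_eq]
  exact infExp_discriminant.mul h2

/-- the expansion in the variable `exp(2πiτ/N)` -/
theorem infExp_unitFun_level : InfExp N (unitFun N) (qExpand ℂ N (unitC N)) := by
  have hN : 0 < N := Nat.pos_of_ne_zero (NeZero.ne N)
  have h := (infExp_unitFun N).comp_infAff (M := 1) (N := N) (a := 1) (d := 1) (e := N)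
    0 one_pos one_pos one_pos hN (by ring)
  rw [infRoot_zero, infTwist_one] at h
  refine h.congr fun τ => ?_
  rw [infAff_one_zero_one]

theorem discriminant_ne_zero' (τ : ℍ) : Δ τ ≠ 0 := ModularForm.discriminant_ne_zero τ

omit [NeZero N] in
theorem unitFun_ne_zero (τ : ℍ) : unitFun N τ ≠ 0 :=
  mul_ne_zero (discriminant_ne_zero' τ) (inv_ne_zero (discriminant_ne_zero' _))

/-! ### The Fricke transformation of the unit -/

theorem infAff_fricke (τ : ℍ) : infAff N 0 1 (fricke N τ) = ModularGroup.S • τ := by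
  have hN : 0 < N := Nat.pos_of_ne_zero (NeZero.ne N)
  apply UpperHalfPlane.ext
  rw [infAff_coe hN one_pos, fricke_coe, UpperHalfPlane.modular_S_smul]
  show _ = (-(τ : ℂ))⁻¹
  have hNc : (N : ℂ) ≠ 0 := by exact_mod_cast hN.ne'
  have hτ : (τ : ℂ) ≠ 0 := UpperHalfPlane.ne_zero τ
  simp only [Int.cast_zero, add_zero, Nat.cast_one, div_one]
  field_simp

theorem unitFun_fricke (τ : ℍ) :
    unitFun N (fricke N τ) = (N : ℂ) ^ 12 * (unitFun N τ)⁻¹ := by
  have hN : 0 < N := Nat.pos_of_ne_zero (NeZero.ne N)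
  have hNc : (N : ℂ) ≠ 0 := by exact_mod_cast hN.ne'
  have hτ : (τ : ℂ) ≠ 0 := UpperHalfPlane.ne_zero τ
  have h1 : Δ (fricke N τ) = ((N : ℂ) * τ) ^ 12 * Δ (infAff N 0 1 τ) := by
    rw [fricke, JFun.discriminant_smul, ModularGroup.denom_S, infAff_coe hN one_pos]
    simp only [Int.cast_zero, add_zero, Nat.cast_one, div_one]
    norm_cast
  have h2 : Δ (infAff N 0 1 (fricke N τ)) = (τ : ℂ) ^ 12 * Δ τ := by
    rw [infAff_fricke, JFun.discriminant_smul, ModularGroup.denom_S]
    norm_cast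
  have hΔ := discriminant_ne_zero' τ
  have hΔ' := discriminant_ne_zero' (infAff N 0 1 τ)
  rw [unitFun, unitFun, h1, h2]
  field_simp

/-! ### The algebraic statement -/

/-- the analytic function of an element of `R_N` has the expected expansion -/
theorem infExp_toFun (r : RN N) :
    InfExp N (toFun N r) (qExpand ℂ N (coeffMap ιK (r : LaurentSeries Kbar))) := by
  have h := expInf_spec (holToExp N ((holBase N).bridge r))
  have h2 : expInf N (holToExp N ((holBase N).bridge r))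
      = qExpand ℂ N (coeffMap ιK (r : LaurentSeries Kbar)) :=
    (holBase N).qexp_bridge r
  rw [h2] at h
  exact h

theorem coeffMap_ιK_coeffEmb (x : LaurentSeries ℚ) :
    coeffMap ιK (coeffEmb Kbar x) = coeffEmb ℂ x := by
  rw [coeffEmb, coeffMap_coeffMap, coeffEmb]
  refine coeffMap_congr (RingHom.ext fun c => ?_) x
  exact ιK_algebraMap c

/-- **C9a (core).**  If the modular unit `u = Δ(q)/Δ(q^N)` lies in `ℚ̄(X₀(N))`, then
`w_N(u) · u = N¹²`. -/
theorem wF_mul_self_of_coe_eq (u : FF N)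
    (hu : (u : LaurentSeries Kbar) = coeffEmb Kbar (modularUnitSeries N)) :
    wF N u * u = algebraMap Kbar (FF N) ((N : Kbar) ^ 12) := by
  obtain ⟨r, s, hs, hrs⟩ := exists_div_inclRN N u
  have hs' : inclRN N s ≠ 0 := fun h => hs ((inclRN_injective N) (by rw [h, map_zero]))
  -- in Laurent series: `r = u * s`
  have hL : (r : LaurentSeries Kbar) = coeffEmb Kbar (modularUnitSeries N)
      * (s : LaurentSeries Kbar) := by
    have h1 : inclRN N r = u * inclRN N s := by
      rw [hrs, div_mul_cancel₀ _ hs']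
    have h2 := congrArg (fun f : FF N => (f : LaurentSeries Kbar)) h1
    rw [← hu]
    exact h2
  -- analytic: `toFun r = U * toFun s`
  have hA : toFun N r = fun τ => unitFun N τ * toFun N s τ := by
    have e1 := infExp_toFun N r
    have e2 := (infExp_unitFun_level N).mul (infExp_toFun N s)
    rw [hL, map_mul, map_mul, coeffMap_ιK_coeffEmb] at e1
    exact e1.fun_unique e2
  -- apply the Fricke map
  have hB : toFun N (wR N r) = fun τ => (N : ℂ) ^ 12 * (unitFun N τ)⁻¹ * toFun N (wR N s) τ := by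
    rw [toFun_wR, toFun_wR, hA]
    funext τ
    simp only [compW_apply]
    rw [unitFun_fricke]
  have hC : toFun N (r * wR N r)
      = toFun N (algebraMap Kbar (RN N) ((N : Kbar) ^ 12) * (s * wR N s)) := by
    rw [map_mul, map_mul, map_mul, toFun_algebraMap, hB, hA]
    funext τ
    have hU := unitFun_ne_zero N τ
    show unitFun N τ * toFun N s τ * ((N : ℂ) ^ 12 * (unitFun N τ)⁻¹ * toFun N (wR N s) τ)
      = ιK ((N : Kbar) ^ 12) * (toFun N s τ * toFun N (wR N s) τ)
    rw [map_pow, map_natCast]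
    field_simp
  have hD : r * wR N r = algebraMap Kbar (RN N) ((N : Kbar) ^ 12) * (s * wR N s) :=
    toFun_injective N hC
  have hws : inclRN N (wR N s) ≠ 0 := fun h =>
    hs ((wR_injective N) ((inclRN_injective N) (by rw [h, map_zero, map_zero])))
  have hE := congrArg (inclRN N) hD
  rw [map_mul, map_mul, map_mul, AlgHom.commutes] at hE
  rw [hrs, wF_apply, map_div₀, wFHom_inclRN, wFHom_inclRN, div_mul_div_comm,
    div_eq_iff (mul_ne_zero hws hs')]
  rw [mul_comm (inclRN N (wR N r)) (inclRN N r), hE]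
  ring

end Fermat.Agent.S15.H242

end
end
-- ===== PACK-END S15/H242/OggFricke.lean

-- ===== PACK-BEGIN S15/H242/OggBound.lean
section





/-!
# S15 / CUSP, nodes C9b + C9 (helper242): Ogg's lower bound for the order of the cuspidal class

Level `p` prime, `F = ℚ̄(X₀(p)) ⊆ ℚ̄((q))`, `u = Δ(q)/Δ(q^p)`, `n = eisensteinNumerator p`.

* `dvd_twelve_of_pow_eq_unit` : if `f ^ d = κ · u` with `f ∈ F`, `κ ∈ ℚ̄ˣ`, `d > 0`, then `d ∣ 12`.
  (Normalise the leading coefficient of `f` to `1`; then `f` is fixed by the Galois action on the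
  coefficients, hence so is the constant `f · w(f)`, whose `d`-th power is `u · w(u) = p¹²`;
  a rational number whose `d`-th power is `p¹²` exists only if `d ∣ 12`.)
* `eq_algebraMap_of_ord_eq_zero_FF` (C9b) : a function without zeros and poles is constant.
* `eisensteinNumerator_dvd_of_nsmul_eq_zero` (C9) : if `div u = (p - 1)·((P₀) - (P∞))` and
  `m • cl((P₀) - (P∞)) = 0` then `n ∣ m`.
-/

set_option autoImplicit false

noncomputable section

open ModularCurve HahnSeries AlgebraicCurve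

namespace Fermat.Agent.S15.H242

open Fermat.Agent.S24 Fermat.Agent.S24.H997 Fermat.Agent.A2.H528

/-! ### Elementary lemmas -/

theorem isGalois_Qbar_ogg : IsGalois ℚ (AlgebraicClosure ℚ) := by
  have : Algebra.IsAlgebraic ℚ (AlgebraicClosure ℚ) := AlgebraicClosure.isAlgebraic ℚ
  have : IsAlgClosure ℚ (AlgebraicClosure ℚ) := ⟨inferInstance, inferInstance⟩
  exact IsAlgClosure.isGalois ℚ (AlgebraicClosure ℚ)

/-- A rational number whose `d`-th power is `p¹²` exists only if `d ∣ 12`. -/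
theorem dvd_twelve_of_rat_pow_eq {p d : ℕ} (hp : p.Prime) (c : ℚ)
    (h : c ^ d = (p : ℚ) ^ 12) : d ∣ 12 := by
  have := Fact.mk hp
  have h1 := congrArg (padicValRat p) h
  rw [padicValRat.pow, padicValRat.pow, padicValRat.self hp.one_lt] at h1
  have h2 : ((d : ℤ)) ∣ 12 := ⟨padicValRat p c, by rw [h1]; norm_num⟩
  exact_mod_cast h2

theorem leadingCoeff_pow_laurent (x : LaurentSeries Kbar) (d : ℕ) :
    (x ^ d).leadingCoeff = x.leadingCoeff ^ d := by
  induction d with
  | zero => simp [HahnSeries.leadingCoeff_one]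
  | succ d ih => rw [pow_succ, HahnSeries.leadingCoeff_mul, ih, pow_succ]

theorem leadingCoeff_algebraMap_laurent (c : Kbar) :
    (algebraMap Kbar (LaurentSeries Kbar) c).leadingCoeff = c := by
  rw [algebraMap_laurentSeries_eq_single, HahnSeries.leadingCoeff_of_single]

/-- A `d`-th root of unity in `ℚ̄((q))` with leading coefficient `1` is `1`. -/
theorem eq_one_of_pow_eq_one_of_leadingCoeff {d : ℕ} (hd : 0 < d) (ζ : LaurentSeries Kbar)
    (h : ζ ^ d = 1) (hl : ζ.leadingCoeff = 1) : ζ = 1 := by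
  have : NeZero (d : ℚ) := ⟨by exact_mod_cast hd.ne'⟩
  have : NeZero d := ⟨hd.ne'⟩
  obtain ⟨ω, hω⟩ := HasEnoughRootsOfUnity.exists_primitiveRoot (AlgebraicClosure ℚ) d
  have hω' : IsPrimitiveRoot (algebraMap Kbar (LaurentSeries Kbar) ω) d :=
    hω.map_of_injective (algebraMap Kbar (LaurentSeries Kbar)).injective
  obtain ⟨i, -, hi⟩ := hω'.eq_pow_of_pow_eq_one h
  rw [← hi, ← map_pow] at hl ⊢
  rw [leadingCoeff_algebraMap_laurent] at hl
  rw [hl, map_one]

/-! ### The key lemma -/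

section Key

variable (p : ℕ) [NeZero p]

theorem unit_coe_ne_zero : coeffEmb Kbar (modularUnitSeries p) ≠ 0 := by
  intro h
  exact modularUnitSeries_ne_zero p ((coeffEmb Kbar).injective (by rw [h, map_zero]))

theorem leadingCoeff_unit_coe : (coeffEmb Kbar (modularUnitSeries p)).leadingCoeff = 1 := by
  rw [coeffEmb, inf_coeffMap_leadingCoeff (algebraMap ℚ Kbar).injective,
    (isMonicOfOrder_modularUnitSeries p).2, map_one]

/-- **Key lemma.**  If `f ^ d = κ · u` in `ℚ̄(X₀(p))` with `κ ≠ 0`, then `d ∣ 12`. -/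
theorem dvd_twelve_of_pow_eq_unit (hp : p.Prime) (u : FF p)
    (hu : (u : LaurentSeries Kbar) = coeffEmb Kbar (modularUnitSeries p))
    (f : FF p) {d : ℕ} (hd : 0 < d) (κ : Kbar) (hκ : κ ≠ 0)
    (hf : f ^ d = algebraMap Kbar (FF p) κ * u) : d ∣ 12 := by
  have hu0 : u ≠ 0 := by
    intro h
    apply unit_coe_ne_zero p
    rw [← hu, h]
    rfl
  -- step 1: normalise the leading coefficient
  set a : Kbar := (f : LaurentSeries Kbar).leadingCoeff with ha
  have hfL : (f : LaurentSeries Kbar) ^ d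
      = algebraMap Kbar (LaurentSeries Kbar) κ * coeffEmb Kbar (modularUnitSeries p) := by
    have := congrArg (fun x : FF p => (x : LaurentSeries Kbar)) hf
    rw [← hu]
    exact this
  have haκ : a ^ d = κ := by
    have := congrArg HahnSeries.leadingCoeff hfL
    rw [leadingCoeff_pow_laurent, HahnSeries.leadingCoeff_mul, leadingCoeff_algebraMap_laurent,
      leadingCoeff_unit_coe, mul_one] at this
    exact this
  have ha0 : a ≠ 0 := by
    intro h
    rw [h, zero_pow hd.ne'] at haκ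
    exact hκ haκ.symm
  have haF : algebraMap Kbar (FF p) a ≠ 0 := by
    rw [Ne, map_eq_zero]; exact ha0
  set v : FF p := f * (algebraMap Kbar (FF p) a)⁻¹ with hv
  have hvd : v ^ d = u := by
    rw [hv, mul_pow, hf, inv_pow, ← map_pow, haκ]
    have hκF : algebraMap Kbar (FF p) κ ≠ 0 := by
      rw [Ne, map_eq_zero]; exact hκ
    field_simp
  have hvL : (v : LaurentSeries Kbar) * algebraMap Kbar (LaurentSeries Kbar) a
      = (f : LaurentSeries Kbar) := by
    have h1 : v * algebraMap Kbar (FF p) a = f := by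
      rw [hv, inv_mul_cancel_right₀ haF]
    exact congrArg (fun x : FF p => (x : LaurentSeries Kbar)) h1
  have hvlc : (v : LaurentSeries Kbar).leadingCoeff = 1 := by
    have := congrArg HahnSeries.leadingCoeff hvL
    rw [HahnSeries.leadingCoeff_mul, leadingCoeff_algebraMap_laurent] at this
    exact mul_right_cancel₀ ha0 (by rw [this, one_mul])
  have hv0 : v ≠ 0 := by
    intro h
    rw [h, zero_pow hd.ne'] at hvd
    exact hu0 hvd.symm
  have hvL0 : (v : LaurentSeries Kbar) ≠ 0 := fun h => hv0 (Subtype.ext h)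
  -- step 2: `v` is Galois-fixed
  have hgal : ∀ σ : Kbar ≃ₐ[ℚ] Kbar, gal p σ v = v := by
    intro σ
    have hσu : gal p σ u = u := by
      apply Subtype.ext
      show coeffMap (σ : Kbar →+* Kbar) (u : LaurentSeries Kbar) = _
      rw [hu, coeffMap_coeffEmb]
    have h1 : (gal p σ v) ^ d = u := by
      rw [← map_pow, hvd, hσu]
    have hlc : ((gal p σ v : FF p) : LaurentSeries Kbar).leadingCoeff = 1 := by
      show (coeffMap (σ : Kbar →+* Kbar) (v : LaurentSeries Kbar)).leadingCoeff = 1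
      rw [inf_coeffMap_leadingCoeff (σ : Kbar →+* Kbar).injective, hvlc, map_one]
    set ζ : LaurentSeries Kbar := ((gal p σ v : FF p) : LaurentSeries Kbar)
      * (v : LaurentSeries Kbar)⁻¹ with hζ
    have hζv : ζ * (v : LaurentSeries Kbar) = ((gal p σ v : FF p) : LaurentSeries Kbar) := by
      rw [hζ, inv_mul_cancel_right₀ hvL0]
    have hζd : ζ ^ d = 1 := by
      have e1 : ((gal p σ v : FF p) : LaurentSeries Kbar) ^ d = (u : LaurentSeries Kbar) :=
        congrArg (fun x : FF p => (x : LaurentSeries Kbar)) h1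
      have e2 : (v : LaurentSeries Kbar) ^ d = (u : LaurentSeries Kbar) :=
        congrArg (fun x : FF p => (x : LaurentSeries Kbar)) hvd
      have huL0 : (u : LaurentSeries Kbar) ≠ 0 := fun h => hu0 (Subtype.ext h)
      rw [hζ, mul_pow, inv_pow, e1, e2, mul_inv_cancel₀ huL0]
    have hζlc : ζ.leadingCoeff = 1 := by
      have := congrArg HahnSeries.leadingCoeff hζv
      rw [HahnSeries.leadingCoeff_mul, hvlc, mul_one, hlc] at this
      exact this
    have hζ1 := eq_one_of_pow_eq_one_of_leadingCoeff hd ζ hζd hζlc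
    apply Subtype.ext
    rw [← hζv, hζ1, one_mul]
  -- step 3: the constant `v * w(v)`
  have hwu := wF_mul_self_of_coe_eq p u hu
  set c' : FF p := v * wF p v with hc'
  have hc'd : c' ^ d = algebraMap Kbar (FF p) ((p : Kbar) ^ 12) := by
    rw [hc', mul_pow, ← map_pow, hvd, mul_comm, hwu]
  have hc'gal : ∀ σ : Kbar ≃ₐ[ℚ] Kbar, gal p σ c' = c' := by
    intro σ
    rw [hc', map_mul, ← wF_gal, hgal σ]
  have hp0 : ((p : Kbar) ^ 12) ≠ 0 := pow_ne_zero 12 (by exact_mod_cast NeZero.ne p)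
  have halg : IsAlgebraic Kbar c' := by
    refine ⟨Polynomial.X ^ d - Polynomial.C ((p : Kbar) ^ 12), ?_, ?_⟩
    · intro h
      have h1 := congrArg (fun q : Polynomial Kbar => q.coeff d) h
      simp only [Polynomial.coeff_sub, Polynomial.coeff_X_pow, if_true, Polynomial.coeff_C,
        hd.ne', if_false, sub_zero, Polynomial.coeff_zero] at h1
      exact one_ne_zero h1
    · rw [map_sub, map_pow, Polynomial.aeval_X, Polynomial.aeval_C, hc'd, sub_self]
  obtain ⟨c, hc⟩ := Fermat.Agent.S24.H84.mem_range_algebraMap_of_isAlgebraic halg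
  have hcfix : ∀ σ : Kbar ≃ₐ[ℚ] Kbar, σ c = c := by
    intro σ
    have h1 := hc'gal σ
    rw [← hc, gal_algebraMap] at h1
    exact (algebraMap Kbar (FF p)).injective h1
  have := isGalois_Qbar_ogg
  obtain ⟨c₀, hc₀⟩ := (InfiniteGalois.mem_range_algebraMap_iff_fixed c).mpr hcfix
  have hcd : c ^ d = (p : Kbar) ^ 12 := by
    apply (algebraMap Kbar (FF p)).injective
    rw [map_pow, hc, hc'd]
  have hc₀d : c₀ ^ d = (p : ℚ) ^ 12 := by
    apply (algebraMap ℚ Kbar).injective
    rw [map_pow, hc₀, hcd, map_pow, map_natCast]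
  exact dvd_twelve_of_rat_pow_eq hp c₀ hc₀d

end Key

/-! ### C9b and C9 -/

/-- **C9b.** A function without zeros and poles is constant. -/
theorem eq_algebraMap_of_ord_eq_zero_FF (N : ℕ) [NeZero N] (f : FF N)
    (h : ∀ P : Place Kbar (FF N), P.ord f = 0) : ∃ a : Kbar, f = algebraMap Kbar (FF N) a := by
  obtain ⟨a, ha⟩ := Fermat.Agent.Lib.RR.H383.eq_algebraMap_of_forall_ord_eq_zero
    (Fermat.Agent.Lib.FF398.transcendental_jF N) h
  exact ⟨a, ha.symm⟩

theorem nsmul_mk_eq_zero_iff (N : ℕ) (D : Divisor.degZero (K := Kbar) (F := FF N)) (m : ℕ) :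
    m • (Pic0.mk D : JZero N) = 0 ↔
      ∃ f : FF N, f ≠ 0 ∧ ∀ v : Place Kbar (FF N), (m : ℤ) * (D : Divisor Kbar (FF N)) v = v.ord f := by
  have h1 : m • (Pic0.mk D : JZero N) = Pic0.mk (m • D) := rfl
  rw [h1, Pic0.mk, QuotientAddGroup.eq_zero_iff, AddSubgroup.mem_addSubgroupOf,
    Divisor.mem_principal]
  unfold Divisor.IsPrincipal
  refine exists_congr fun f => and_congr_right fun _ => forall_congr' fun v => ?_
  rw [AddSubgroup.coe_nsmul, Finsupp.smul_apply, nsmul_eq_mul]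

/-- **C9 (Ogg's lower bound).**  Let `D` be a divisor of degree `0` on `X₀(p)` with
`div u = (p - 1) · D` for the modular unit `u = Δ(q)/Δ(q^p)` (e.g. `D = (0) - (∞)`).
If `m • cl(D) = 0`, then `n = (p - 1)/gcd(p - 1, 12)` divides `m`. -/
theorem eisensteinNumerator_dvd_of_nsmul_eq_zero (p : ℕ) [NeZero p] (hp : p.Prime) (u : FF p)
    (hu : (u : LaurentSeries Kbar) = coeffEmb Kbar (modularUnitSeries p))
    (D : Divisor.degZero (K := Kbar) (F := FF p))
    (hdiv : ∀ v : Place Kbar (FF p), v.ord u = ((p : ℤ) - 1) * (D : Divisor Kbar (FF p)) v)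
    (m : ℕ) (hm : m • (Pic0.mk D : JZero p) = 0) : eisensteinNumerator p ∣ m := by
  have hu0 : u ≠ 0 := by
    intro h
    apply unit_coe_ne_zero p
    rw [← hu, h]
    rfl
  have hp1 : 0 < p - 1 := by have := hp.two_le; omega
  have hcast : ((p - 1 : ℕ) : ℤ) = (p : ℤ) - 1 := by
    rw [Nat.cast_sub hp.one_le]; simp
  -- `(p - 1) • c = 0`
  have hpc : (p - 1) • (Pic0.mk D : JZero p) = 0 := by
    rw [nsmul_mk_eq_zero_iff]
    exact ⟨u, hu0, fun v => by rw [hcast, hdiv v]⟩
  set c : JZero p := Pic0.mk D with hc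
  set o := addOrderOf c with ho
  have ho1 : o ∣ p - 1 := addOrderOf_dvd_of_nsmul_eq_zero hpc
  have hom : o ∣ m := addOrderOf_dvd_of_nsmul_eq_zero hm
  have ho0 : 0 < o := Nat.pos_of_dvd_of_pos ho1 hp1
  obtain ⟨d, hd⟩ := ho1
  have hd0 : 0 < d := by
    rcases Nat.eq_zero_or_pos d with h | h
    · rw [h, mul_zero] at hd; omega
    · exact h
  obtain ⟨f, hf0, hf⟩ := (nsmul_mk_eq_zero_iff p D o).mp (addOrderOf_nsmul_eq_zero c)
  -- `f ^ d / u` has trivial divisor
  have hg : ∀ v : Place Kbar (FF p), v.ord (f ^ d * u⁻¹) = 0 := by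
    intro v
    rw [v.ord_mul (pow_ne_zero d hf0) (inv_ne_zero hu0), v.ord_inv, ← zpow_natCast, v.ord_zpow,
      ← hf v, hdiv v, ← hcast, hd]
    push_cast
    ring
  obtain ⟨κ, hκ⟩ := eq_algebraMap_of_ord_eq_zero_FF p (f ^ d * u⁻¹) hg
  have hfd : f ^ d = algebraMap Kbar (FF p) κ * u := by
    rw [← hκ, inv_mul_cancel_right₀ hu0]
  have hκ0 : κ ≠ 0 := by
    rintro rfl
    rw [map_zero, zero_mul] at hfd
    exact pow_ne_zero d hf0 hfd
  have hd12 : d ∣ 12 := dvd_twelve_of_pow_eq_unit p hp u hu f hd0 κ hκ0 hfd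
  -- arithmetic
  have hdG : d ∣ Nat.gcd (p - 1) 12 := Nat.dvd_gcd ⟨o, by rw [hd, mul_comm]⟩ hd12
  obtain ⟨e, he⟩ := hdG
  have hG : Nat.gcd (p - 1) 12 ∣ p - 1 := Nat.gcd_dvd_left _ _
  have hGpos : 0 < Nat.gcd (p - 1) 12 := Nat.gcd_pos_of_pos_right _ (by norm_num)
  have hn : eisensteinNumerator p * Nat.gcd (p - 1) 12 = p - 1 := by
    unfold eisensteinNumerator
    exact Nat.div_mul_cancel hG
  have hoe : o = eisensteinNumerator p * e := by
    have h1 : o * d = eisensteinNumerator p * e * d := by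
      rw [← hd, ← hn, he]; ring
    exact Nat.eq_of_mul_eq_mul_right hd0 h1
  exact Dvd.dvd.trans ⟨e, hoe⟩ hom

/-! ### C9a in the shape of the CUSP interface -/

theorem qExpand_jq_congr {d d' : ℕ} [h : NeZero d] [h' : NeZero d'] (e : d = d') :
    qExpand ℚ d jq = qExpand ℚ d' jq := by
  subst e
  rfl

/-- **C9a.**  The Atkin–Lehner involution of `ℚ̄(X₀(p))`: it swaps `j(q)` and `j(q^p)`, commutes
with the Galois action on the coefficients and maps the modular unit `u` to `p¹² u⁻¹`. -/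
theorem exists_atkinLehner_of_mem (p : ℕ) [NeZero p]
    (hu : coeffEmb Kbar (modularUnitSeries p) ∈ modularFunctionFieldBar p) :
    ∃ w : FF p ≃ₐ[Kbar] FF p,
      (∀ f : FF p, (f : LaurentSeries Kbar) = coeffEmb Kbar jq →
        ((w f : FF p) : LaurentSeries Kbar) = coeffEmb Kbar (qExpand ℚ p jq)) ∧
      (∀ f : FF p, (f : LaurentSeries Kbar) = coeffEmb Kbar (qExpand ℚ p jq) →
        ((w f : FF p) : LaurentSeries Kbar) = coeffEmb Kbar jq) ∧
      (∀ f : FF p, w (w f) = f) ∧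
      (∀ (σ : Kbar ≃ₐ[ℚ] Kbar) (f : FF p),
        w (arithmeticGalois (modularFunctionFieldFull p) σ • f) =
          arithmeticGalois (modularFunctionFieldFull p) σ • w f) ∧
      w ⟨_, hu⟩ = algebraMap Kbar (FF p) ((p : Kbar) ^ 12) * (⟨_, hu⟩ : FF p)⁻¹ := by
  have h1p : NeZero (p / 1) := neZero_div p (one_dvd p)
  have hpp : NeZero (p / p) := neZero_div p dvd_rfl
  have hA : wF p (jFd p 1 (one_dvd p)) = jFd p p dvd_rfl := by
    rw [wF_jFd p 1 (one_dvd p)]
    apply Subtype.ext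
    rw [coe_jFd, coe_jFd, qExpand_jq_congr (Nat.div_one p)]
  have hB : wF p (jFd p p dvd_rfl) = jFd p 1 (one_dvd p) := by
    rw [← hA, wF_wF]
  refine ⟨wF p, ?_, ?_, wF_wF p, ?_, ?_⟩
  · intro f hf
    have hf' : f = jFd p 1 (one_dvd p) := by
      apply Subtype.ext
      rw [hf, coe_jFd, qExpand_one_apply]
    rw [hf', hA, coe_jFd]
  · intro f hf
    have hf' : f = jFd p p dvd_rfl := by
      apply Subtype.ext
      rw [hf, coe_jFd]
    rw [hf', hB, coe_jFd, qExpand_one_apply]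
  · intro σ f
    exact wF_gal p σ f
  · have h := wF_mul_self_of_coe_eq p ⟨_, hu⟩ rfl
    have hu0 : (⟨_, hu⟩ : FF p) ≠ 0 := by
      intro h0
      apply unit_coe_ne_zero p
      exact congrArg (fun x : FF p => (x : LaurentSeries Kbar)) h0
    rw [← h, mul_inv_cancel_right₀ hu0]

end Fermat.Agent.S15.H242

end
end
-- ===== PACK-END S15/H242/OggBound.lean

-- ===== PACK-BEGIN S17/H80/GenusZero.lean
section





/-!
# S17, piece G0 (helper80): genus zero

For a function field `F / K` with all places of degree one (`FF1 K F`):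

* `pic0_eq_zero_of_genusFF_eq_zero` : if `genusFF K F = 0` then `Pic⁰(F) = 0`;
* `subsingleton_pic0_iff_genusFF_eq_zero`-direction `←` as an instance-free statement
  `subsingleton_pic0_of_genusFF_eq_zero`;
* `fg_fixedPoints_of_genusFF_eq_zero` : the S17 conclusion for every level `N` with
  `genusFF ℚ̄ ℚ̄(X₀(N)) = 0`.

The remaining input for `N = 5, 7, 13` is `genusFF = 0` for these levels, i.e. the comparison of
the adelic genus `genusFF` with the Riemann–Hurwitz (Kähler) genus computed in S24.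
-/

set_option autoImplicit false

noncomputable section

namespace Fermat.Agent.S17.H80

open AlgebraicCurve ModularCurve Fermat.Agent.Lib.RR

variable {K F : Type*} [Field K] [Field F] [Algebra K F]

/-- In genus zero (Riemann genus) every class of degree zero is trivial. -/
theorem pic0_eq_zero_of_genusR_eq_zero [FF1 K F] (hg : genusR K F = 0) (x : Pic0 K F) :
    x = 0 := by
  obtain ⟨vinf⟩ := FF1.nonempty_place (K := K) (F := F)
  have key : ∀ y : Pic0 K F, H680.minRep vinf y = 0 := by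
    intro y
    have h1 : H680.minDeg vinf y = 0 := by
      have := H680.minDeg_le_genus vinf y
      omega
    have h2 : Divisor.degree (H680.minRep vinf y) = 0 := by
      rw [H680.degree_minRep, h1]
      rfl
    exact H680.eq_zero_of_nonneg_of_degree_eq_zero (H680.minRep_nonneg vinf y) h2
  exact H680.minRep_injective (vinf := vinf) ((key x).trans (key 0).symm)

/-- In genus zero every class of degree zero is trivial. -/
theorem pic0_eq_zero_of_genusFF_eq_zero [FF1 K F] (hg : genusFF K F = 0) (x : Pic0 K F) :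
    x = 0 :=
  pic0_eq_zero_of_genusR_eq_zero (by rw [← genusFF_eq_genusR]; exact hg) x

/-- In genus zero `Pic⁰` is trivial. -/
theorem subsingleton_pic0_of_genusFF_eq_zero [FF1 K F] (hg : genusFF K F = 0) :
    Subsingleton (Pic0 K F) :=
  ⟨fun x y => (pic0_eq_zero_of_genusFF_eq_zero hg x).trans
    (pic0_eq_zero_of_genusFF_eq_zero hg y).symm⟩

/-- In genus zero every divisor of degree zero is principal. -/
theorem isPrincipal_of_genusFF_eq_zero [FF1 K F] (hg : genusFF K F = 0)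
    (D : Divisor K F) (hD : Divisor.degree D = 0) : Divisor.IsPrincipal D := by
  have h := pic0_eq_zero_of_genusFF_eq_zero hg (Pic0.mk ⟨D, hD⟩)
  have h2 := (QuotientAddGroup.eq_zero_iff (⟨D, hD⟩ : Divisor.degZero (K := K) (F := F))).mp h
  exact h2

/-- **G0**: Mordell–Weil for the levels of genus zero. -/
theorem fg_fixedPoints_of_genusFF_eq_zero (N : ℕ) [NeZero N]
    (hg : genusFF (AlgebraicClosure ℚ) (modularFunctionFieldBar N) = 0) :
    AddGroup.FG ↥(FixedPoints.addSubgroup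
      ((AlgebraicClosure ℚ) ≃ₐ[ℚ] (AlgebraicClosure ℚ)) (JZero N)) := by
  have : Subsingleton (JZero N) := subsingleton_pic0_of_genusFF_eq_zero hg
  have : Finite ↥(FixedPoints.addSubgroup
      ((AlgebraicClosure ℚ) ≃ₐ[ℚ] (AlgebraicClosure ℚ)) (JZero N)) := Finite.of_subsingleton
  exact AddGroup.fg_of_finite

end Fermat.Agent.S17.H80

end
end
-- ===== PACK-END S17/H80/GenusZero.lean

-- ===== PACK-BEGIN Lib/RR/H80/Res/ModularGenus.lean
section




/-!
# The adelic genus of `X₀(N)` is given by the classical genus formula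

Combines the bridge `genus_eq_genusFF` (Kähler genus = adelic genus `genusFF`), the landed
statement `S24` (Kähler genus of `ℚ̄(X₀(N))` = `genusFormula N`) and `ff1_modular`.
-/

set_option autoImplicit false

noncomputable section

open AlgebraicCurve ModularCurve

namespace Fermat.Agent.Lib.RR.H80

open Fermat.Agent.Lib.RR

variable (N : ℕ) [NeZero N]

/-- `ℚ̄(X₀(N))` has canonical divisors (in the Prelude's Kähler sense). -/
theorem hasCanonicalDivisor_modular :
    HasCanonicalDivisor (K := AlgebraicClosure ℚ) (F := ↥(modularFunctionFieldBar N)) :=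
  hasCanonicalDivisor_of_FF1 (AlgebraicClosure ℚ) ↥(modularFunctionFieldBar N)

/-- **The adelic genus of `X₀(N)`** is the classical genus formula. -/
theorem genusFF_modular_eq_genusFormula :
    (genusFF (AlgebraicClosure ℚ) ↥(modularFunctionFieldBar N) : ℚ) = genusFormula N := by
  have := hasCanonicalDivisor_modular N
  rw [← genus_eq_genusFF (AlgebraicClosure ℚ) ↥(modularFunctionFieldBar N)]
  exact Fermat.Agent.S24.result N

/-- The Kähler genus of `X₀(N)` is the adelic genus. -/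
theorem genus_modular_eq_genusFF
    [HasCanonicalDivisor (K := AlgebraicClosure ℚ) (F := ↥(modularFunctionFieldBar N))] :
    AlgebraicCurve.genus (AlgebraicClosure ℚ) ↥(modularFunctionFieldBar N) =
      genusFF (AlgebraicClosure ℚ) ↥(modularFunctionFieldBar N) :=
  genus_eq_genusFF (AlgebraicClosure ℚ) ↥(modularFunctionFieldBar N)

/-- `deg div(ω) = 2 g - 2` on `X₀(N)`, `g = genusFF`. -/
theorem degree_kaehler_modular
    {ω : Ω[↥(modularFunctionFieldBar N)⁄AlgebraicClosure ℚ]} (hω : ω ≠ 0)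
    {W : Divisor (AlgebraicClosure ℚ) ↥(modularFunctionFieldBar N)}
    (hW : ∀ v : Place (AlgebraicClosure ℚ) ↥(modularFunctionFieldBar N),
      W v = v.ordDifferential ω) :
    Divisor.degree W =
      2 * (genusFF (AlgebraicClosure ℚ) ↥(modularFunctionFieldBar N) : ℤ) - 2 :=
  degree_kaehler hω hW

end Fermat.Agent.Lib.RR.H80

end
end
-- ===== PACK-END Lib/RR/H80/Res/ModularGenus.lean

-- ===== PACK-BEGIN S15/H808/RtfSmall.lean
section



/-!
# S15 / DESC skeleton leaf RTF, the levels `2` and `3` (helper808)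

`J₀(2) = J₀(3) = 0` (genus zero: landed S24 + the bridge `genusFF_modular_eq_genusFormula` +
`S17.H80.subsingleton_pic0_of_genusFF_eq_zero`).
-/

set_option autoImplicit false

namespace Fermat.Agent.S15.H808

open ModularCurve

theorem nuTwo_two_h808 : nuTwo 2 = 1 := by
  unfold nuTwo
  rw [Nat.card_eq_fintype_card]
  decide

theorem nuThree_two_h808 : nuThree 2 = 0 := by
  unfold nuThree
  rw [Nat.card_eq_fintype_card]
  decide

theorem nuTwo_three_h808 : nuTwo 3 = 0 := by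
  unfold nuTwo
  rw [Nat.card_eq_fintype_card]
  decide

theorem nuThree_three_h808 : nuThree 3 = 1 := by
  unfold nuThree
  rw [Nat.card_eq_fintype_card]
  decide

theorem dedekindPsi_prime_h808 {p : ℕ} (hp : p.Prime) : dedekindPsi p = p + 1 := by
  unfold dedekindPsi
  rw [hp.divisors, Finset.filter_true_of_mem, Finset.sum_pair hp.one_lt.ne]
  · rw [Nat.div_one, Nat.div_self hp.pos]
  · intro d hd
    rcases Finset.mem_insert.mp hd with rfl | hd
    · exact squarefree_one
    · rw [Finset.mem_singleton] at hd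
      subst hd
      exact hp.squarefree

theorem dedekindPsi_two_h808 : dedekindPsi 2 = 3 := dedekindPsi_prime_h808 Nat.prime_two

theorem dedekindPsi_three_h808 : dedekindPsi 3 = 4 := dedekindPsi_prime_h808 Nat.prime_three

theorem cuspCount_two_h808 : cuspCount 2 = 2 := by
  unfold cuspCount
  decide

theorem cuspCount_three_h808 : cuspCount 3 = 2 := by
  unfold cuspCount
  decide

theorem genusFormula_two_h808 : genusFormula 2 = 0 := by
  unfold genusFormula
  rw [nuTwo_two_h808, nuThree_two_h808, dedekindPsi_two_h808, cuspCount_two_h808]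
  norm_num

theorem genusFormula_three_h808 : genusFormula 3 = 0 := by
  unfold genusFormula
  rw [nuTwo_three_h808, nuThree_three_h808, dedekindPsi_three_h808, cuspCount_three_h808]
  norm_num

/-- `J₀(2)(ℚ̄) = 0`. -/
theorem subsingleton_jZero_two : Subsingleton (JZero 2) := by
  apply Fermat.Agent.S17.H80.subsingleton_pic0_of_genusFF_eq_zero
  have h := Fermat.Agent.Lib.RR.H80.genusFF_modular_eq_genusFormula 2
  rw [genusFormula_two_h808] at h
  exact_mod_cast h

/-- `J₀(3)(ℚ̄) = 0`. -/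
theorem subsingleton_jZero_three : Subsingleton (JZero 3) := by
  apply Fermat.Agent.S17.H80.subsingleton_pic0_of_genusFF_eq_zero
  have h := Fermat.Agent.Lib.RR.H80.genusFF_modular_eq_genusFormula 3
  rw [genusFormula_three_h808] at h
  exact_mod_cast h

end Fermat.Agent.S15.H808

end
-- ===== PACK-END S15/H808/RtfSmall.lean

-- ===== PACK-BEGIN A2/IF/H429/IF.lean
section



/-!
# A2 / IF (helper429): good levels exist

`ifStatement : IFStatement` is the interface IF of `Fermat/Agent/A2/Spec.lean` (v2, row-lead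
helper13); `exists_goodField` is the same statement with explicit binders (Skel form).
The good level is `level P S = ℚ̄^{I_P}(all ℚ-conjugates of S)`:

* stable under `I_P` (`level_stable_inertia`);
* `P ∩ E` is a discrete valuation ring (`isDiscreteValuationRing_level`: the inertia field is
  unramified — Hilbert theory at finite level, `Hilbert.lean` — and `[E : E_I] < ∞`);
* henselian (`henselian_RE`: a simple root is fixed by `Gal(ℚ̄/E)`);
* algebraically closed residue field (`isAlgClosed_residueField_RE`: Teichmüller lifts);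
* inertia acts trivially modulo the maximal ideal (definition of inertia);
* every inertia element has finite order on `E` (`level_finite_order`).
-/

set_option autoImplicit false

namespace Fermat.Agent.A2.IF.H429

open Fermat.Agent.A2

theorem goodField_level (q : ℕ) (hq : q.Prime) (P : ValuationSubring Qb)
    (hP : P.LiesOverPrime q) (S : Finset Qb) : GoodField P (level P S) where
  stable := fun _ hτ _ he => level_stable_inertia P S hτ he
  dvr := isDiscreteValuationRing_level P q hq hP S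
  henselian := henselian_RE P (level P S) (inertiaField_le_level P S)
  algClosed := isAlgClosed_residueField_RE P (level P S) q hq hP (inertiaField_le_level P S)
  trivial_mod := fun _ hτ _ _ heP => sub_mem_nonunits_of_inertia P hτ heP
  finite_order := fun _ hτ => level_finite_order P S hτ

/-- **IF** (Skel form).  Every finite set of algebraic numbers lies in a good level for `P`. -/
theorem exists_goodField (q : ℕ) (hq : q.Prime) (P : ValuationSubring Qb)
    (hP : P.LiesOverPrime q) (S : Finset Qb) :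
    ∃ E : IntermediateField ℚ Qb, (∀ s ∈ S, s ∈ E) ∧ GoodField P E :=
  ⟨level P S, fun _ hs => mem_level_of_mem P S hs, goodField_level q hq P hP S⟩

/-- **IF** (interface statement of `Spec.lean`). -/
theorem ifStatement : IFStatement :=
  fun q hq P hP S => exists_goodField q hq P hP S

end Fermat.Agent.A2.IF.H429

end
-- ===== PACK-END A2/IF/H429/IF.lean

-- ===== PACK-BEGIN A2/Mod/H372/S3Noeth.lean
section



/-!
# A2 / MODASM S3 (helper372): the charts of level `Mq` are noetherian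

From leaf L8 (`DegStatement`: `x` transcendental over `E`, `[F_{Mq} : E(x)] < ∞`) and
`S18.H394.chart_instances`.
-/

set_option autoImplicit false
set_option synthInstance.maxHeartbeats 400000
set_option maxHeartbeats 1600000
set_option linter.unusedSectionVars false
set_option linter.style.haveILetI false

noncomputable section

namespace Fermat.Agent.A2.Mod.H372

open ModularCurve HahnSeries Polynomial
open Fermat.Agent.S18

variable {P : ValuationSubring _root_.Fermat.Agent.A2.Mod.Qb} {E : IntermediateField ℚ _root_.Fermat.Agent.A2.Mod.Qb}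

/-- `E(x) ⊆ R_E(x)` inside `F`. -/
theorem adjoin_le_baseField {N : ℕ} (x : _root_.Fermat.Agent.A2.Mod.FE E N) {f : _root_.Fermat.Agent.A2.Mod.FE E N}
    (hf : f ∈ IntermediateField.adjoin E ({x} : Set (_root_.Fermat.Agent.A2.Mod.FE E N))) :
    f ∈ H138.baseField (_root_.Fermat.Agent.A2.Mod.RE P E) x := by
  have hf' : f ∈ Subfield.closure (Set.range (algebraMap E (_root_.Fermat.Agent.A2.Mod.FE E N)) ∪ ({x} : Set (_root_.Fermat.Agent.A2.Mod.FE E N))) := hf
  refine (Subfield.closure_le (t := H138.baseField (_root_.Fermat.Agent.A2.Mod.RE P E) x)).mpr ?_ hf'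
  rintro z (⟨e, rfl⟩ | hz)
  · rcases (_root_.Fermat.Agent.A2.Mod.RE P E).mem_or_inv_mem e with he | he
    · exact Subfield.subset_closure (Or.inl ⟨⟨e, he⟩, rfl⟩)
    · have h1 : algebraMap E (_root_.Fermat.Agent.A2.Mod.FE E N) e⁻¹ ∈ H138.baseField (_root_.Fermat.Agent.A2.Mod.RE P E) x :=
        Subfield.subset_closure (Or.inl ⟨⟨e⁻¹, he⟩, rfl⟩)
      have h2 := (H138.baseField (_root_.Fermat.Agent.A2.Mod.RE P E) x).inv_mem h1
      rwa [map_inv₀, inv_inv] at h2
  · exact Subfield.subset_closure (Or.inr hz)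

/-- finiteness over `E(x)` implies finiteness over `R_E(x)`. -/
theorem finiteDimensional_baseField {N : ℕ} (x : _root_.Fermat.Agent.A2.Mod.FE E N)
    [FiniteDimensional (IntermediateField.adjoin E ({x} : Set (_root_.Fermat.Agent.A2.Mod.FE E N))) (_root_.Fermat.Agent.A2.Mod.FE E N)] :
    FiniteDimensional (H138.baseField (_root_.Fermat.Agent.A2.Mod.RE P E) x) (_root_.Fermat.Agent.A2.Mod.FE E N) := by
  let ι : IntermediateField.adjoin E ({x} : Set (_root_.Fermat.Agent.A2.Mod.FE E N)) →+* H138.baseField (_root_.Fermat.Agent.A2.Mod.RE P E) x :=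
    { toFun := fun a => ⟨a, adjoin_le_baseField x a.2⟩
      map_one' := rfl
      map_mul' := fun _ _ => rfl
      map_zero' := rfl
      map_add' := fun _ _ => rfl }
  letI : Algebra (IntermediateField.adjoin E ({x} : Set (_root_.Fermat.Agent.A2.Mod.FE E N))) (H138.baseField (_root_.Fermat.Agent.A2.Mod.RE P E) x) :=
    ι.toAlgebra
  haveI : IsScalarTower (IntermediateField.adjoin E ({x} : Set (_root_.Fermat.Agent.A2.Mod.FE E N)))
      (H138.baseField (_root_.Fermat.Agent.A2.Mod.RE P E) x) (_root_.Fermat.Agent.A2.Mod.FE E N) := IsScalarTower.of_algebraMap_eq (fun _ => rfl)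
  exact Module.Finite.of_restrictScalars_finite
    (IntermediateField.adjoin E ({x} : Set (_root_.Fermat.Agent.A2.Mod.FE E N))) (H138.baseField (_root_.Fermat.Agent.A2.Mod.RE P E) x) (_root_.Fermat.Agent.A2.Mod.FE E N)

/-- **The charts are noetherian.** -/
theorem isNoetherianRing_chartAlg_of_transcendental {N : ℕ}
    (hdvr : IsDiscreteValuationRing (_root_.Fermat.Agent.A2.Mod.RE P E)) (x : _root_.Fermat.Agent.A2.Mod.FE E N) (hx : Transcendental E x)
    [FiniteDimensional (IntermediateField.adjoin E ({x} : Set (_root_.Fermat.Agent.A2.Mod.FE E N))) (_root_.Fermat.Agent.A2.Mod.FE E N)] :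
    IsNoetherianRing (chartAlg P E N x) ∧ IsNoetherianRing (chartAlg P E N x⁻¹) := by
  haveI := hdvr
  have hinj : Function.Injective (algebraMap (_root_.Fermat.Agent.A2.Mod.RE P E) E) := Subtype.val_injective
  have hxR : Transcendental (_root_.Fermat.Agent.A2.Mod.RE P E) x := hx.restrictScalars hinj
  have hxi : Transcendental E x⁻¹ := fun h => hx (IsAlgebraic.inv_iff.mp h)
  have hxiR : Transcendental (_root_.Fermat.Agent.A2.Mod.RE P E) x⁻¹ := hxi.restrictScalars hinj
  haveI h1 : FiniteDimensional (H138.baseField (_root_.Fermat.Agent.A2.Mod.RE P E) x) (_root_.Fermat.Agent.A2.Mod.FE E N) :=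
    finiteDimensional_baseField x
  haveI h2 : FiniteDimensional (H138.baseField (_root_.Fermat.Agent.A2.Mod.RE P E) x⁻¹) (_root_.Fermat.Agent.A2.Mod.FE E N) := by
    rw [H138.baseField_inv]
    exact h1
  exact ⟨(H394.chart_instances hxR).1, (H394.chart_instances hxiR).1⟩

end Fermat.Agent.A2.Mod.H372

end
end
-- ===== PACK-END A2/Mod/H372/S3Noeth.lean

-- ===== PACK-BEGIN S18/H804/ValPlaceModular.lean
section



/-!
# S18 / GLUE input for the modular function field `F_M = ℚ̄(j(q^d) : d ∣ M)`  (helper804)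

* `exists_place_of_valuationSubring_modular` : every proper valuation subring of `F_M` containing
  `ℚ̄` is the valuation ring of a `Place`.
* `exists_mul_pow_unit_modular` : Place-divisibility of the divisor of `u` by `m` gives the
  valuation-subring form used in `Alg.AlgMainStatement`.
-/

set_option autoImplicit false

namespace Fermat.Agent.S18.H804

open AlgebraicCurve ModularCurve Fermat.Agent.S24

variable (M : ℕ) [NeZero M]

theorem exists_place_of_valuationSubring_modular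
    (O : ValuationSubring ↥(modularFunctionFieldBar M))
    (hK : ∀ a : AlgebraicClosure ℚ,
      algebraMap (AlgebraicClosure ℚ) ↥(modularFunctionFieldBar M) a ∈ O) (hO : O ≠ ⊤) :
    ∃ v : Place (AlgebraicClosure ℚ) ↥(modularFunctionFieldBar M), v.toValuationSubring = O :=
  haveI := Fermat.Agent.Lib.RR.H804.finiteDimensional_jF M
  exists_place_of_valuationSubring (Fermat.Agent.Lib.RR.H804.transcendental_jF M) O hK hO

theorem exists_mul_pow_unit_modular (m : ℕ) (u : ↥(modularFunctionFieldBar M)) (hu : u ≠ 0)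
    (hdiv : ∀ v : Place (AlgebraicClosure ℚ) ↥(modularFunctionFieldBar M), (m : ℤ) ∣ v.ord u)
    (O : ValuationSubring ↥(modularFunctionFieldBar M))
    (hK : ∀ a : AlgebraicClosure ℚ,
      algebraMap (AlgebraicClosure ℚ) ↥(modularFunctionFieldBar M) a ∈ O) :
    ∃ t : ↥(modularFunctionFieldBar M), t ≠ 0 ∧ u * t ^ m ∈ O ∧ (u * t ^ m)⁻¹ ∈ O :=
  haveI := Fermat.Agent.Lib.RR.H804.finiteDimensional_jF M
  exists_mul_pow_unit (Fermat.Agent.Lib.RR.H804.transcendental_jF M) m u hu hdiv O hK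

end Fermat.Agent.S18.H804

end
-- ===== PACK-END S18/H804/ValPlaceModular.lean

-- ===== PACK-BEGIN A2/Mod/H189/GoodRedCoord.lean
section



/-!
# Cell A2 / MOD, GOODRED part G3 (helper189): the Hauptmoduln `t₂`, `t₃` at a level `E`

`t2E E M`, `t3E E M : FE E M` are the images of the integral series `S18.H333.t2Z`, `t3Z`
(`2 ∣ M` resp. `3 ∣ M`); they satisfy `j t₂² = (t₂ + 256)³`, `j t₃³ = (t₃ + 27)(t₃ + 243)³` and are
polar (`t⁻¹ + …`).  Hence (`GoodRedT.lean`):

* `goodRedHyp_of_t2` : `P` over `3`, `2 ∣ M`: `GoodRedAt` at `t₂`, `t₂⁻¹` (for all `w`, `VM`)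
  ⟹ `Mod.GoodRedHyp P E M`;
* `goodRedHyp_of_t3` : `P` over `2`, `3 ∣ M`: `GoodRedAt` at `t₃`, `t₃⁻¹` ⟹ `Mod.GoodRedHyp P E M`.

So a producer of good reduction only has to work in the coordinate of row S18
(`j` for `q ≥ 5`, `t₂` for `q = 3`, `t₃` for `q = 2`).
-/

set_option autoImplicit false
set_option synthInstance.maxHeartbeats 400000
set_option maxHeartbeats 1600000

noncomputable section

namespace Fermat.Agent.A2.Mod.H189

open ModularCurve HahnSeries Polynomial Fermat.Agent.A2 Fermat.Agent.A2.Mod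
open Fermat.Agent.S18.H333 (t2Z t3Z)

variable (P : ValuationSubring _root_.Fermat.Agent.A2.Mod.Qb) (E : IntermediateField ℚ _root_.Fermat.Agent.A2.Mod.Qb) (M : ℕ)

theorem coeffEmb_castQ_eq (X : LaurentSeries ℤ) :
    coeffEmb E (H708.castQ X) = coeffMap (Int.castRingHom E) X := by
  rw [coeffEmb, H708.castQ, coeffMap_coeffMap]
  exact coeffMap_congr (RingHom.ext_int _ _) X

theorem coe_jE_one : ((jE E M 1 (one_dvd _) : _root_.Fermat.Agent.A2.Mod.FE E M) : LaurentSeries E) = jqModC E := by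
  show coeffEmb E (qExpand ℚ 1 jq) = jqModC E
  rw [qExpand_one_apply, ← jqModC_rat, coeffEmb, coeffMap_jqModC]

/-- The element of `F_{M,E}` given by an integral series lying in `ℚ(j_d : d ∣ M)`. -/
def feOf (X : LaurentSeries ℤ) (hX : H708.castQ X ∈ modularFunctionFieldFull M) : _root_.Fermat.Agent.A2.Mod.FE E M :=
  ⟨coeffEmb E (H708.castQ X), coeffEmb_mem_laurentBaseChange E hX⟩

theorem coe_feOf (X : LaurentSeries ℤ) (hX : H708.castQ X ∈ modularFunctionFieldFull M) :
    ((feOf E M X hX : _root_.Fermat.Agent.A2.Mod.FE E M) : LaurentSeries E) = coeffMap (Int.castRingHom E) X :=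
  coeffEmb_castQ_eq E X

theorem coe_feOf_incl (X : LaurentSeries ℤ) (hX : H708.castQ X ∈ modularFunctionFieldFull M) :
    ((feOf E M X hX : _root_.Fermat.Agent.A2.Mod.FE E M) : LaurentSeries E) =
      H708.incl (_root_.Fermat.Agent.A2.Mod.RE P E) (H708.castA (_root_.Fermat.Agent.A2.Mod.RE P E) X) :=
  (H708.incl_castA (_root_.Fermat.Agent.A2.Mod.RE P E) X).symm

/-- `t₂ ∈ F_{M,E}` (`2 ∣ M`). -/
def t2E (hM : 2 ∣ M) : _root_.Fermat.Agent.A2.Mod.FE E M := feOf E M t2Z (Fermat.Agent.S18.H333.t2Q_mem M hM)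

/-- `t₃ ∈ F_{M,E}` (`3 ∣ M`). -/
def t3E (hM : 3 ∣ M) : _root_.Fermat.Agent.A2.Mod.FE E M := feOf E M t3Z (Fermat.Agent.S18.H333.t3Q_mem M hM)

theorem t2E_rel (hM : 2 ∣ M) :
    jE E M 1 (one_dvd _) * t2E E M hM ^ 2 = (t2E E M hM + 256) ^ 3 := by
  apply Subtype.ext
  have h := Fermat.Agent.S18.H333.t2_rel_a E
  have hx : ((t2E E M hM : _root_.Fermat.Agent.A2.Mod.FE E M) : LaurentSeries E) = Fermat.Agent.S18.H333.t2 E :=
    coe_feOf E M t2Z _
  push_cast
  rw [coe_jE_one, hx]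
  exact h

theorem t3E_rel (hM : 3 ∣ M) :
    jE E M 1 (one_dvd _) * t3E E M hM ^ 3 = (t3E E M hM + 27) * (t3E E M hM + 243) ^ 3 := by
  apply Subtype.ext
  have h := Fermat.Agent.S18.H333.t3_rel_a E
  have hx : ((t3E E M hM : _root_.Fermat.Agent.A2.Mod.FE E M) : LaurentSeries E) = Fermat.Agent.S18.H333.t3 E :=
    coe_feOf E M t3Z _
  push_cast
  rw [coe_jE_one, hx]
  exact h

theorem castA_coeff (X : LaurentSeries ℤ) (k : ℤ) :
    (H708.castA (_root_.Fermat.Agent.A2.Mod.RE P E) X).coeff k = ((X.coeff k : ℤ) : _root_.Fermat.Agent.A2.Mod.RE P E) := rfl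

/-- **GOODRED for `q = 3`** from good reduction in the charts of `t₂`. -/
theorem goodRedHyp_of_t2 (hP : P.LiesOverPrime 3) (hM0 : M ≠ 0) (hM : 2 ∣ M)
    (hdvr : IsDiscreteValuationRing (_root_.Fermat.Agent.A2.Mod.RE P E))
    (h : ∀ (w : _root_.Fermat.Agent.A2.Mod.RE P E) (VM : ValuationSubring (_root_.Fermat.Agent.A2.Mod.FE E M)), Irreducible w → IsVinf P E M VM →
      GoodRedAt P E M w VM (t2E E M hM) ∧ GoodRedAt P E M w VM (t2E E M hM)⁻¹) :
    GoodRedHyp P E M := by
  intro w VM hw hVM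
  obtain ⟨hg, hg'⟩ := h w VM hw hVM
  refine goodRedAt_j_of_t2_polar P E M w hP hM0 hdvr hw VM hVM (t2E E M hM)
    (H708.castA (_root_.Fermat.Agent.A2.Mod.RE P E) t2Z) (coe_feOf_incl P E M t2Z _) ?_ ?_ (t2E_rel E M hM) hg hg'
  · intro n hn
    rw [castA_coeff, Fermat.Agent.S18.H333.t2Z_coeff_of_lt hn, Int.cast_zero]
  · rw [castA_coeff, Fermat.Agent.S18.H333.t2Z_coeff_neg_one, Int.cast_one]
    exact isUnit_one

/-- **GOODRED for `q = 2`** from good reduction in the charts of `t₃`. -/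
theorem goodRedHyp_of_t3 (hP : P.LiesOverPrime 2) (hM0 : M ≠ 0) (hM : 3 ∣ M)
    (hdvr : IsDiscreteValuationRing (_root_.Fermat.Agent.A2.Mod.RE P E))
    (h : ∀ (w : _root_.Fermat.Agent.A2.Mod.RE P E) (VM : ValuationSubring (_root_.Fermat.Agent.A2.Mod.FE E M)), Irreducible w → IsVinf P E M VM →
      GoodRedAt P E M w VM (t3E E M hM) ∧ GoodRedAt P E M w VM (t3E E M hM)⁻¹) :
    GoodRedHyp P E M := by
  intro w VM hw hVM
  obtain ⟨hg, hg'⟩ := h w VM hw hVM
  refine goodRedAt_j_of_t3_polar P E M w hP hM0 hdvr hw VM hVM (t3E E M hM)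
    (H708.castA (_root_.Fermat.Agent.A2.Mod.RE P E) t3Z) (coe_feOf_incl P E M t3Z _) ?_ ?_ (t3E_rel E M hM) hg hg'
  · intro n hn
    rw [castA_coeff, Fermat.Agent.S18.H333.t3Z_coeff_of_lt hn, Int.cast_zero]
  · rw [castA_coeff, Fermat.Agent.S18.H333.t3Z_coeff_neg_one, Int.cast_one]
    exact isUnit_one

end Fermat.Agent.A2.Mod.H189

end
end
-- ===== PACK-END A2/Mod/H189/GoodRedCoord.lean

-- ===== PACK-BEGIN Lib/RR/H80/Res/LocalDiff.lean
section


/-!
# Local behaviour of Kähler differentials at an arbitrary place (via residues)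

For a function field `F/K` with `FF1 K F`, a place `v` and a uniformizer `π` at `v`
(no completions, no Laurent expansions):

* `ord_coeff_nonneg` : `f ∈ O_v`, `df = c dπ`  ⟹  `c ∈ O_v`;
* `ord_coeff_sub_pos` : `f = k + π h`, `h ∈ O_v`, `df = c dπ`  ⟹  `c ≡ h mod π`
  (i.e. `(df/dπ)(v) = ((f - f(v))/π)(v)`);
* `ord_coeff_eq` : (char `0`) `ord_v f ≠ 0`, `df = c dπ`  ⟹  `ord_v c = ord_v f - 1`;
* Prelude forms `ordDifferential_D_nonneg`, `ordDifferential_D_eq`.
-/

set_option autoImplicit false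

noncomputable section

open AlgebraicCurve KaehlerDifferential

namespace Fermat.Agent.Lib.RR.H80

open Fermat.Agent.Lib.RR LinearMap Module

variable {K F : Type*} [Field K] [Field F] [Algebra K F] [hFF : FF1 K F]

/-- `dπ ≠ 0` for a uniformizer `π`. -/
theorem D_ne_zero_of_ord_eq_one (v : Place K F) {π : F} (hπ : v.ord π = 1) : D K F π ≠ 0 := by
  intro h0
  have h1 := rho_unif v hπ
  rw [← rhoK_D, h0, map_zero] at h1
  exact zero_ne_one h1

/-- If `f` is integral at `v` and `df = c dπ` with `π` a uniformizer at `v`, then `c` is integral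
at `v`. -/
theorem ord_coeff_nonneg (v : Place K F) {π f c : F} (hπ : v.ord π = 1) (hf : 0 ≤ v.ord f)
    (h : D K F f = c • D K F π) : 0 ≤ v.ord c := by
  by_contra hlt
  rw [not_le] at hlt
  have hπ0 : π ≠ 0 := ne_zero_of_ord_ne_zero v (by rw [hπ]; exact one_ne_zero)
  have hc : c ≠ 0 := ne_zero_of_ord_ne_zero v hlt.ne
  have ha : 0 ≤ v.ord (c * π)⁻¹ := by
    rw [Place.ord_inv, v.ord_mul hc hπ0, hπ]
    omega
  have h0 : rho f (singleA v (c * π)⁻¹) = 0 := rho_singleA_eq_zero v hf ha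
  have h1 := rhoK_singleA_eq_one v hπ hc
  rw [← h, rhoK_D, h0] at h1
  exact zero_ne_one h1

/-- Uniqueness of the coefficient with respect to `dπ`. -/
theorem coeff_unique (v : Place K F) {π c c' : F} (hπ : v.ord π = 1)
    (h : c • D K F π = c' • D K F π) : c = c' := by
  have h0 : (c - c') • D K F π = 0 := by rw [sub_smul, h, sub_self]
  rcases smul_eq_zero.mp h0 with h1 | h1
  · exact sub_eq_zero.mp h1
  · exact absurd h1 (D_ne_zero_of_ord_eq_one v hπ)

/-- `(df/dπ)(v) = ((f - f(v))/π)(v)`: if `f = k + π h` with `h` integral at `v` and `df = c dπ`,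
then `c ≡ h` modulo the maximal ideal at `v`. -/
theorem ord_coeff_sub_pos (v : Place K F) {π f h c : F} (k : K) (hπ : v.ord π = 1)
    (hspan : Submodule.span F {D K F π} = ⊤)
    (hh : 0 ≤ v.ord h) (hf : f = algebraMap K F k + π * h) (hc : D K F f = c • D K F π) :
    c - h = 0 ∨ 0 < v.ord (c - h) := by
  have hπ0 : π ≠ 0 := ne_zero_of_ord_ne_zero v (by rw [hπ]; exact one_ne_zero)
  have hmem : D K F h ∈ Submodule.span F {D K F π} := by rw [hspan]; trivial
  obtain ⟨c', hc'⟩ := Submodule.mem_span_singleton.1 hmem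
  have hc'0 : 0 ≤ v.ord c' := ord_coeff_nonneg v hπ hh hc'.symm
  have e : D K F f = (h + π * c') • D K F π := by
    rw [hf, map_add, Derivation.map_algebraMap, zero_add, Derivation.leibniz, ← hc', smul_smul,
      ← add_smul, add_comm]
  have hcc : c = h + π * c' := coeff_unique v hπ (hc.symm.trans e)
  rw [hcc, add_sub_cancel_left]
  rcases eq_or_ne c' 0 with h0 | h0
  · left
    rw [h0, mul_zero]
  · right
    rw [v.ord_mul hπ0 h0, hπ]
    omega

/-- In characteristic `0`: if `ord_v f ≠ 0` and `df = c dπ` then `ord_v c = ord_v f - 1`. -/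
theorem ord_coeff_eq [CharZero K] (v : Place K F) {π f c : F} (hπ : v.ord π = 1)
    (hspan : Submodule.span F {D K F π} = ⊤)
    (hf : v.ord f ≠ 0) (hc : D K F f = c • D K F π) : v.ord c = v.ord f - 1 := by
  have hπ0 : π ≠ 0 := ne_zero_of_ord_ne_zero v (by rw [hπ]; exact one_ne_zero)
  have hf0 : f ≠ 0 := ne_zero_of_ord_ne_zero v hf
  set n : ℤ := v.ord f with hn
  set u : F := f * π ^ (-n) with hu
  have hpow : ∀ m : ℤ, π ^ m ≠ 0 := fun m => zpow_ne_zero m hπ0
  have hordpow : ∀ m : ℤ, v.ord (π ^ m) = m := fun m => by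
    rw [Place.ord_zpow, hπ, mul_one]
  have hu0 : u ≠ 0 := mul_ne_zero hf0 (hpow _)
  have hordu : v.ord u = 0 := by
    rw [hu, v.ord_mul hf0 (hpow _), hordpow]
    omega
  have hfu : f = π ^ n * u := by
    rw [hu, mul_comm f, ← mul_assoc, ← zpow_add₀ hπ0, add_neg_cancel, zpow_zero, one_mul]
  have hmem : D K F u ∈ Submodule.span F {D K F π} := by rw [hspan]; trivial
  obtain ⟨c', hc'⟩ := Submodule.mem_span_singleton.1 hmem
  have hc'0 : 0 ≤ v.ord c' := ord_coeff_nonneg v hπ hordu.ge hc'.symm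
  have e : D K F f = (π ^ n * c' + u * ((n : F) * π ^ (n - 1))) • D K F π := by
    rw [hfu, Derivation.leibniz, Derivation.leibniz_zpow, ← hc', ← Int.cast_smul_eq_zsmul F n,
      smul_smul, smul_smul, smul_smul, ← add_smul, mul_assoc]
  have hcc : c = π ^ n * c' + u * ((n : F) * π ^ (n - 1)) := coeff_unique v hπ (hc.symm.trans e)
  have hn0 : (n : F) ≠ 0 := by
    have : CharZero F := charZero_of_injective_algebraMap (algebraMap K F).injective
    exact Int.cast_ne_zero.mpr hf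
  have hordn : v.ord (n : F) = 0 := by
    have : (n : F) = algebraMap K F (n : K) := (map_intCast (algebraMap K F) n).symm
    rw [this, ord_algebraMap]
  have h2 : v.ord (u * ((n : F) * π ^ (n - 1))) = n - 1 := by
    rw [v.ord_mul hu0 (mul_ne_zero hn0 (hpow _)), v.ord_mul hn0 (hpow _), hordu, hordn,
      hordpow]
    omega
  have h20 : u * ((n : F) * π ^ (n - 1)) ≠ 0 := mul_ne_zero hu0 (mul_ne_zero hn0 (hpow _))
  rw [hcc]
  rcases eq_or_ne c' 0 with h0 | h0
  · rw [h0, mul_zero, zero_add, h2]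
  · have h1 : v.ord (π ^ n * c') = n + v.ord c' := by
      rw [v.ord_mul (hpow _) h0, hordpow]
    rw [add_comm, ord_add_eq_of_lt v h20 (mul_ne_zero (hpow _) h0) (by rw [h1, h2]; omega), h2]

omit hFF in
/-- A derivation `d` of `F/K` is determined by `d π`: `d f = c · d π` if `df = c dπ`. -/
theorem derivation_eq_mul {π f c : F} (d : Derivation K F F) (h : D K F f = c • D K F π) :
    d f = c * d π := by
  have := congrArg d.liftKaehlerDifferential h
  rwa [map_smul, Derivation.liftKaehlerDifferential_comp_D,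
    Derivation.liftKaehlerDifferential_comp_D, smul_eq_mul] at this

/-! ### Prelude forms -/

variable [IsAlgClosed K] [CharZero K]

/-- every place has a generating coordinate differential -/
theorem dCoordGenerates_of_FF1 (v : Place K F) : v.DCoordGenerates := by
  obtain ⟨j, -, hjfin⟩ := FF1.exists_finite (K := K) (F := F)
  have := hjfin
  exact Fermat.Agent.S24.H84.place_dCoordGenerates j v

/-- `df` has no pole where `f` has none. -/
theorem ordDifferential_D_nonneg (v : Place K F) {f : F} (hf : 0 ≤ v.ord f) :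
    0 ≤ v.ordDifferential (D K F f) := by
  have hgen := dCoordGenerates_of_FF1 v
  obtain ⟨π, hπ, hd⟩ := Fermat.Agent.S24.H84.place_exists_uniformizer v
  have h := v.differentialCoeff_smul_dCoord (D K F f)
  rw [hd] at h
  exact ord_coeff_nonneg v hπ hf h.symm

/-- `ord_v (df) = ord_v f - 1` if `ord_v f ≠ 0`. -/
theorem ordDifferential_D_eq (v : Place K F) {f : F} (hf : v.ord f ≠ 0) :
    v.ordDifferential (D K F f) = v.ord f - 1 := by
  have hgen := dCoordGenerates_of_FF1 v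
  obtain ⟨π, hπ, hd⟩ := Fermat.Agent.S24.H84.place_exists_uniformizer v
  have h := v.differentialCoeff_smul_dCoord (D K F f)
  have hspan := hgen.span_eq_top
  rw [hd] at h hspan
  exact ord_coeff_eq v hπ hspan hf h.symm

/-- `ord_v (d(f - k)) = ord_v (f - k) - 1`, in terms of `df`. -/
theorem ordDifferential_D_eq_sub (v : Place K F) {f : F} (k : K)
    (hf : v.ord (f - algebraMap K F k) ≠ 0) :
    v.ordDifferential (D K F f) = v.ord (f - algebraMap K F k) - 1 := by
  have := ordDifferential_D_eq v hf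
  rwa [map_sub, Derivation.map_algebraMap, sub_zero] at this

end Fermat.Agent.Lib.RR.H80

end
end
-- ===== PACK-END Lib/RR/H80/Res/LocalDiff.lean

-- ===== PACK-BEGIN S17/H440/PtCone.lean
section



/-!
# S17 / tower H, wall leaves G-PT and G-CONE (helper440)

* `ptStatement E   : Wall.PtStatement E`   (`pt P ≠ 0`, `pt P` on the cone, `pt P ∧ pt Q ≠ 0` for
  `P ≠ Q`, `pt P ∧ tn P ≠ 0`);
* `coneStatement E : Wall.ConeStatement E` (every nonzero point of the cone is `c • pt P`).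

No hypothesis beyond `[FF1 K F]` is needed.
-/

set_option autoImplicit false

noncomputable section

open AlgebraicCurve MvPolynomial

namespace Fermat.Agent.S17.H440

open Fermat.Agent.Lib.RR Fermat.Agent.S17.HWall

variable {K F : Type*} [Field K] [Field F] [Algebra K F] [FF1 K F]

/-- Vectors with vanishing wedge are proportional. -/
theorem exists_smul_eq_of_wedge_eq_zero {n : ℕ} {u v : Fin n → K} (hu : u ≠ 0)
    (h : wedge u v = 0) : ∃ c : K, v = c • u := by
  obtain ⟨j, hj⟩ : ∃ j, u j ≠ 0 := by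
    by_contra hcon
    push Not at hcon
    exact hu (funext hcon)
  refine ⟨v j / u j, funext fun i => ?_⟩
  have h1 : u j * v i - u i * v j = 0 := congrFun h (j, i)
  rw [Pi.smul_apply, smul_eq_mul]
  field_simp
  linear_combination h1

/-- Some hyperplane section contains `P` with multiplicity exactly one. -/
theorem exists_Z_eq_one (E : EmbData K F) (P : Place K F) :
    ∃ a : Fin (E.r + 1) → K, a ≠ 0 ∧ E.Z a P = 1 := by
  have hdeg : 2 * (genusFF K F : ℤ) ≤ Divisor.degree (E.m • prim E.vinf - prim P) := by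
    rw [genusFF_eq_genusR]
    have h2 : Divisor.degree (E.m • prim E.vinf) = E.m := by
      rw [map_nsmul]
      unfold prim
      rw [Divisor.degree_single, FF1.deg_eq_one]
      simp
    have h3 : Divisor.degree (prim P) = 1 := by
      unfold prim
      rw [Divisor.degree_single, FF1.deg_eq_one]
      simp
    rw [map_sub, h2, h3]
    have := E.hm
    omega
  obtain ⟨f, hf, hf0, hord⟩ := H439.exists_mem_L_ord_eq hdeg P
  have hf' : f ∈ riemannRochSpace (E.m • prim E.vinf) := L_mono (H439.sub_prim_le _ P) hf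
  obtain ⟨a, ha⟩ := exists_lin_eq E hf'
  have ha0 : a ≠ 0 := by
    rintro rfl
    apply hf0
    rw [← ha]
    simp [lin]
  refine ⟨a, ha0, ?_⟩
  rw [E.Z_apply ha0 P, ha, hord]
  simp only [Finsupp.coe_sub, Pi.sub_apply, prim_apply_self]
  ring

/-- `pt P ∧ pt Q ≠ 0` for `P ≠ Q`. -/
theorem wedge_pt_pt_ne_zero (E : EmbData K F) {P Q : Place K F} (hPQ : P ≠ Q) :
    wedge (E.pt P) (E.pt Q) ≠ 0 := by
  intro h
  obtain ⟨c, hc⟩ := exists_smul_eq_of_wedge_eq_zero (pt_ne_zero E P) h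
  exact hPQ (pt_injective E hc).symm

/-- `pt P ∧ tn P ≠ 0`: the tangent line is a line. -/
theorem wedge_pt_tn_ne_zero (E : EmbData K F) (P : Place K F) :
    wedge (E.pt P) (E.tn P) ≠ 0 := by
  intro h
  obtain ⟨c, hc⟩ := exists_smul_eq_of_wedge_eq_zero (pt_ne_zero E P) h
  obtain ⟨a, ha0, ha⟩ := exists_Z_eq_one E P
  have h1 : dot a (E.pt P) = 0 := (E.pt_spec P a ha0).mpr (by
    show 0 < E.Z a P
    omega)
  have h2 : dot a (E.tn P) = 0 := by
    rw [hc]
    show dotProduct a (c • E.pt P) = 0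
    rw [dotProduct_smul]
    show c • dot a (E.pt P) = 0
    rw [h1, smul_zero]
  have h3 : 2 ≤ E.Z a P := (E.tn_spec P a ha0).mp ⟨h1, h2⟩
  omega

/-- **G-PT.** -/
theorem ptStatement (E : EmbData K F) : Fermat.Agent.S17.Wall.PtStatement E :=
  ⟨fun P => pt_ne_zero E P, fun P => onCone_pt E P,
    fun _ _ hPQ => wedge_pt_pt_ne_zero E hPQ, fun P => wedge_pt_tn_ne_zero E P⟩

/-- **G-CONE.** -/
theorem coneStatement (E : EmbData K F) : Fermat.Agent.S17.Wall.ConeStatement E :=
  fun _ hy0 hy => exists_pt_of_onCone E hy hy0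

end Fermat.Agent.S17.H440

end
end
-- ===== PACK-END S17/H440/PtCone.lean

-- ===== PACK-BEGIN S17/H920/BertiniPencil.lean
section


/-!
# S17 / tower H, leaf BERTINI (helper920): the generic member of a pencil is reduced

`K` algebraically closed of characteristic zero, `F` a function field of one variable over `K`.
For `f₁, f₂ ∈ F` nonzero with `f₂ / f₁` non-constant (`∃ P, ord_P f₁ ≠ ord_P f₂`), all but
finitely many members `f₂ - c f₁` of the pencil satisfy, with `b P := min (ord_P f₁) (ord_P f₂)`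
(minus the base divisor of the pencil):

* `b P ≤ ord_P (f₂ - c f₁) ≤ b P + 1` for every place `P` (the moving part is reduced);
* `ord_P (f₂ - c f₁) = b P` for all `P` in a given finite set `S` (the moving part avoids `S`).

In particular there is such a `c` in every infinite subset of `K` (e.g. the image of `ℚ`):
`exists_reduced_member`.
-/

set_option autoImplicit false
set_option linter.unusedSectionVars false
set_option linter.style.haveILetI false

open AlgebraicCurve Polynomial IntermediateField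

namespace Fermat.Agent.S17.H920

variable {K F : Type*} [Field K] [Field F] [Algebra K F]

/-- The values of `φ` at the places of a finite set form a finite set. -/
theorem finite_values_on (φ : F) (S : Set (Place K F)) (hS : S.Finite) :
    {c : K | ∃ P ∈ S, 0 < P.ord (φ - algebraMap K F c)}.Finite := by
  have h : {c : K | ∃ P ∈ S, 0 < P.ord (φ - algebraMap K F c)} =
      ⋃ P ∈ S, {c : K | 0 < P.ord (φ - algebraMap K F c)} := by
    ext c
    simp only [Set.mem_iUnion, Set.mem_ofPred_eq, exists_prop]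
  rw [h]
  exact Set.Finite.biUnion hS
    (fun w _ => Set.Subsingleton.finite (fun c hc c' hc' => value_unique w φ hc hc'))

/-- Order of a member of the pencil at a place where `f₁` is the smaller one. -/
theorem ord_pencil_of_le (P : Place K F) {f₁ f₂ : F} (hf₁ : f₁ ≠ 0) (c : K)
    (hc : f₂ - c • f₁ ≠ 0) :
    P.ord (f₂ - c • f₁) = P.ord f₁ + P.ord (f₂ / f₁ - algebraMap K F c) := by
  have h1 : f₂ - c • f₁ = f₁ * (f₂ / f₁ - algebraMap K F c) := by
    rw [Algebra.smul_def]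
    field_simp
  have h2 : f₂ / f₁ - algebraMap K F c ≠ 0 := by
    intro h0
    rw [h0, mul_zero] at h1
    exact hc h1
  rw [h1, P.ord_mul hf₁ h2]

/-- Order of a member of the pencil at a place where `f₂` is strictly smaller. -/
theorem ord_pencil_of_lt (P : Place K F) {f₁ f₂ : F} (hf₁ : f₁ ≠ 0) (hf₂ : f₂ ≠ 0) (c : K)
    (h : P.ord f₂ < P.ord f₁) : P.ord (f₂ - c • f₁) = P.ord f₂ := by
  rcases eq_or_ne c 0 with rfl | hc
  · rw [zero_smul, sub_zero]
  have hc' : algebraMap K F c ≠ 0 := (map_ne_zero (algebraMap K F)).mpr hc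
  have h1 : -(c • f₁) ≠ 0 := by
    rw [Algebra.smul_def]
    exact neg_ne_zero.mpr (mul_ne_zero hc' hf₁)
  have h2 : P.ord (-(c • f₁)) = P.ord f₁ := by
    rw [Fermat.Agent.Lib.RR.ord_neg, Algebra.smul_def, P.ord_mul hc' hf₁,
      Fermat.Agent.Lib.RR.ord_algebraMap, zero_add]
  rw [sub_eq_add_neg]
  exact Fermat.Agent.Lib.RR.ord_add_eq_of_lt P hf₂ h1 (by rw [h2]; exact h)

/-- A ratio with a zero or pole is transcendental over the constants. -/
theorem transcendental_div_of_ord_ne [IsAlgClosed K] {f₁ f₂ : F} (hf₁ : f₁ ≠ 0) (hf₂ : f₂ ≠ 0)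
    (hne : ∃ P : Place K F, P.ord f₁ ≠ P.ord f₂) : Transcendental K (f₂ / f₁) := by
  apply Fermat.Agent.S24.FF.transcendental_of_not_mem_range
  rintro ⟨a, ha⟩
  obtain ⟨P, hP⟩ := hne
  have h1 : P.ord (f₂ / f₁) = P.ord f₂ - P.ord f₁ := by
    rw [div_eq_mul_inv, P.ord_mul hf₂ (inv_ne_zero hf₁), P.ord_inv]
    ring
  rw [← ha, Fermat.Agent.Lib.RR.ord_algebraMap] at h1
  omega

/-- **BERTINI, pencil form.**  All but finitely many members of a pencil without fixed
component are reduced and avoid a given finite set of places. -/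
theorem finite_pencil_bad [IsAlgClosed K] [CharZero K] (j : F) (hj : Transcendental K j)
    [FiniteDimensional K⟮j⟯ F] (f₁ f₂ : F) (hf₁ : f₁ ≠ 0) (hf₂ : f₂ ≠ 0)
    (hne : ∃ P : Place K F, P.ord f₁ ≠ P.ord f₂) (S : Set (Place K F)) (hS : S.Finite) :
    {c : K | ¬ (f₂ - c • f₁ ≠ 0 ∧
      (∀ P : Place K F, min (P.ord f₁) (P.ord f₂) ≤ P.ord (f₂ - c • f₁) ∧
        P.ord (f₂ - c • f₁) ≤ min (P.ord f₁) (P.ord f₂) + 1) ∧
      (∀ P ∈ S, P.ord (f₂ - c • f₁) = min (P.ord f₁) (P.ord f₂)))}.Finite := by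
  have hφ : Transcendental K (f₂ / f₁) := transcendental_div_of_ord_ne hf₁ hf₂ hne
  have hB1 := finite_branch_values j hj (f₂ / f₁) hφ
  have hB2 := finite_values_on (K := K) (f₂ / f₁) S hS
  refine (hB1.union hB2).subset ?_
  intro c hc
  by_contra hcB
  rw [Set.mem_union, not_or] at hcB
  obtain ⟨hc1, hc2⟩ := hcB
  have hc1' : ∀ P : Place K F, P.ord (f₂ / f₁ - algebraMap K F c) ≤ 1 := by
    intro P
    by_contra h
    exact hc1 ⟨P, by omega⟩
  have hc2' : ∀ P ∈ S, P.ord (f₂ / f₁ - algebraMap K F c) ≤ 0 := by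
    intro P hP
    by_contra h
    exact hc2 ⟨P, hP, by omega⟩
  have hφc : f₂ / f₁ - algebraMap K F c ≠ 0 := by
    intro h0
    apply hφ
    rw [sub_eq_zero.mp h0]
    exact isAlgebraic_algebraMap c
  have hmem : f₂ - c • f₁ ≠ 0 := by
    intro h0
    apply hφc
    rw [Algebra.smul_def] at h0
    have h1 : f₂ / f₁ = algebraMap K F c := by
      rw [div_eq_iff hf₁]
      exact sub_eq_zero.mp h0
    rw [h1, sub_self]
  -- lower bound for `ord (φ - c)` where `φ` is regular
  have hlow : ∀ P : Place K F, P.ord f₁ ≤ P.ord f₂ →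
      0 ≤ P.ord (f₂ / f₁ - algebraMap K F c) := by
    intro P hP
    have h1 : P.ord (f₂ / f₁) = P.ord f₂ - P.ord f₁ := by
      rw [div_eq_mul_inv, P.ord_mul hf₂ (inv_ne_zero hf₁), P.ord_inv]
      ring
    have h2 := Fermat.Agent.Lib.RR.ord_add_of_le P (n := 0) (f := f₂ / f₁)
      (g := -algebraMap K F c) (Or.inr (by omega))
      (Or.inr (by rw [Fermat.Agent.Lib.RR.ord_neg, Fermat.Agent.Lib.RR.ord_algebraMap]))
    rw [← sub_eq_add_neg] at h2
    exact h2.resolve_left hφc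
  apply hc
  refine ⟨hmem, ?_, ?_⟩
  · intro P
    rcases le_or_gt (P.ord f₁) (P.ord f₂) with hP | hP
    · rw [min_eq_left hP, ord_pencil_of_le P hf₁ c hmem]
      have := hlow P hP
      have := hc1' P
      constructor <;> omega
    · rw [min_eq_right hP.le, ord_pencil_of_lt P hf₁ hf₂ c hP]
      constructor <;> omega
  · intro P hPS
    rcases le_or_gt (P.ord f₁) (P.ord f₂) with hP | hP
    · rw [min_eq_left hP, ord_pencil_of_le P hf₁ c hmem]
      have := hlow P hP
      have := hc2' P hPS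
      omega
    · rw [min_eq_right hP.le, ord_pencil_of_lt P hf₁ hf₂ c hP]

/-- **BERTINI, existence form.**  Every infinite set of parameters (for instance the rational
numbers) contains a `c` such that the member `f₂ - c f₁` of the pencil is reduced and avoids
the finite set `S`. -/
theorem exists_reduced_member [IsAlgClosed K] [CharZero K] (j : F) (hj : Transcendental K j)
    [FiniteDimensional K⟮j⟯ F] (f₁ f₂ : F) (hf₁ : f₁ ≠ 0) (hf₂ : f₂ ≠ 0)
    (hne : ∃ P : Place K F, P.ord f₁ ≠ P.ord f₂) (S : Set (Place K F)) (hS : S.Finite)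
    (A : Set K) (hA : A.Infinite) :
    ∃ c ∈ A, f₂ - c • f₁ ≠ 0 ∧
      (∀ P : Place K F, min (P.ord f₁) (P.ord f₂) ≤ P.ord (f₂ - c • f₁) ∧
        P.ord (f₂ - c • f₁) ≤ min (P.ord f₁) (P.ord f₂) + 1) ∧
      (∀ P ∈ S, P.ord (f₂ - c • f₁) = min (P.ord f₁) (P.ord f₂)) := by
  obtain ⟨c, hcA, hc⟩ := hA.exists_notMem_finite (finite_pencil_bad j hj f₁ f₂ hf₁ hf₂ hne S hS)
  refine ⟨c, hcA, ?_⟩
  by_contra h
  exact hc h

/-- The rational parameters form an infinite set. -/
theorem infinite_range_algebraMap_rat [CharZero K] :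
    (Set.range (algebraMap ℚ K)).Infinite :=
  Set.infinite_range_of_injective (algebraMap ℚ K).injective

end Fermat.Agent.S17.H920

end
-- ===== PACK-END S17/H920/BertiniPencil.lean

-- ===== PACK-BEGIN S17/H920/Mov1.lean
section



/-!
# S17 / tower H, geometric layer: the generic rational member is reduced (G-MOV1, abstract form)

Setting of BASE-2 (helper680) and RAT-AVOID (helper917): `F = ℚ̄ · F₀ ⊆ ℚ̄((q))`.

`exists_fixed_reduced_member`: if `D` is a Galois-invariant divisor of degree `≥ 2g` and `T` a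
finite set of places, there is a Galois-FIXED `f ∈ L(D)`, `f ≠ 0`, such that the member
`E = D + div f` of `|D|` is effective, REDUCED (`E v ≤ 1` for all `v`) and avoids `T`
(`E v = 0` for `v ∈ T`); `E` is Galois-invariant.

Proof: RAT-AVOID twice gives a fixed pencil `f₁, f₂` without base points whose member `f₁`
avoids `T`; BERTINI (`exists_reduced_member`) gives a rational `c` with `f₂ - c f₁` reduced and
avoiding `T`.
-/

set_option autoImplicit false

noncomputable section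

open AlgebraicCurve ModularCurve

namespace Fermat.Agent.S17.H920

open Fermat.Agent.Lib.RR Fermat.Agent.S17.H680 Fermat.Agent.S17.H77 Fermat.Agent.S17.H917

variable {F₀ : IntermediateField ℚ (LaurentSeries ℚ)} [FF1 Qb (laurentBaseChange Qb F₀)]

/-- **G-MOV1, abstract form.**  An invariant divisor of degree `≥ 2g` has a rational member
which is reduced and avoids a given finite set of places. -/
theorem exists_fixed_reduced_member {D : Divisor Qb (laurentBaseChange Qb F₀)}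
    (hD : IsInvariant F₀ D)
    (hdeg : 2 * (genusFF Qb (laurentBaseChange Qb F₀) : ℤ) ≤ Divisor.degree D)
    (T : Finset (Place Qb (laurentBaseChange Qb F₀))) :
    ∃ (f : laurentBaseChange Qb F₀) (hf : f ≠ 0), f ∈ riemannRochSpace D ∧ IsFixed F₀ f ∧
      (∀ v, 0 ≤ (D + divOf (K := Qb) f hf) v ∧ (D + divOf (K := Qb) f hf) v ≤ 1) ∧
      ∀ v ∈ T, (D + divOf (K := Qb) f hf) v = 0 := by
  classical
  obtain ⟨f₁, hf₁L, hf₁fix, hf₁, hf₁T⟩ := exists_fixed_mem_L_forall_ord_eq hD hdeg T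
  have hf₁ord : ∀ v : Place Qb (laurentBaseChange Qb F₀), -D v ≤ v.ord f₁ := fun v =>
    ((mem_L_iff.mp hf₁L) v).resolve_left hf₁
  set Z₁ : Finset (Place Qb (laurentBaseChange Qb F₀)) := (D + divOf f₁ hf₁).support with hZ₁
  have hZ₁mem : ∀ v, v ∉ Z₁ → v.ord f₁ = -D v := by
    intro v hv
    rw [hZ₁, Finsupp.mem_support_iff, not_not, Finsupp.add_apply, divOf_apply] at hv
    omega
  obtain ⟨f₂, hf₂L, hf₂fix, hf₂, hf₂T⟩ := exists_fixed_mem_L_forall_ord_eq hD hdeg (T ∪ Z₁)
  have hf₂ord : ∀ v : Place Qb (laurentBaseChange Qb F₀), -D v ≤ v.ord f₂ := fun v =>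
    ((mem_L_iff.mp hf₂L) v).resolve_left hf₂
  have hmin : ∀ v : Place Qb (laurentBaseChange Qb F₀),
      min (v.ord f₁) (v.ord f₂) = -D v := by
    intro v
    by_cases hv : v ∈ Z₁
    · have h2 := hf₂T v (Finset.mem_union_right _ hv)
      have h1 := hf₁ord v
      rw [h2]
      exact min_eq_right h1
    · have h1 := hZ₁mem v hv
      have h2 := hf₂ord v
      rw [h1]
      exact min_eq_left h2
  by_cases hne : ∃ P : Place Qb (laurentBaseChange Qb F₀), P.ord f₁ ≠ P.ord f₂
  · obtain ⟨j, hj, hjfin⟩ := (inferInstance : FF1 Qb (laurentBaseChange Qb F₀)).exists_finite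
    have := hjfin
    obtain ⟨c, ⟨q, rfl⟩, hc0, hcred, hcT⟩ := exists_reduced_member j hj f₁ f₂ hf₁ hf₂ hne
      (T : Set (Place Qb (laurentBaseChange Qb F₀))) T.finite_toSet
      (Set.range (algebraMap ℚ Qb)) infinite_range_algebraMap_rat
    have hmemfix : f₂ - algebraMap ℚ Qb q • f₁ ∈ fixedPart F₀ (riemannRochSpace D) := by
      rw [algebraMap_smul]
      exact Submodule.sub_mem _ ⟨hf₂L, hf₂fix⟩ (Submodule.smul_mem _ q ⟨hf₁L, hf₁fix⟩)
    refine ⟨f₂ - algebraMap ℚ Qb q • f₁, hc0, hmemfix.1, hmemfix.2, ?_, ?_⟩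
    · intro v
      have h := hcred v
      rw [hmin v] at h
      rw [Finsupp.add_apply, divOf_apply]
      constructor <;> omega
    · intro v hv
      have h := hcT v (Finset.mem_coe.mpr hv)
      rw [hmin v] at h
      rw [Finsupp.add_apply, divOf_apply]
      omega
  · -- degenerate case: `D + div f₁ = 0`
    have hall : ∀ v : Place Qb (laurentBaseChange Qb F₀), v.ord f₁ = -D v := by
      intro v
      have h := hmin v
      have hv : v.ord f₁ = v.ord f₂ := by
        by_contra h'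
        exact hne ⟨v, h'⟩
      rw [← hv, min_self] at h
      exact h
    refine ⟨f₁, hf₁, hf₁L, hf₁fix, ?_, ?_⟩
    · intro v
      rw [Finsupp.add_apply, divOf_apply, hall v]
      constructor <;> omega
    · intro v _
      rw [Finsupp.add_apply, divOf_apply, hall v]
      omega

/-- The reduced member of `exists_fixed_reduced_member` is Galois-invariant. -/
theorem isInvariant_add_divOf {D : Divisor Qb (laurentBaseChange Qb F₀)}
    (hD : IsInvariant F₀ D) {f : laurentBaseChange Qb F₀} (hf : f ≠ 0) (hfix : IsFixed F₀ f) :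
    IsInvariant F₀ (D + divOf (K := Qb) f hf) :=
  isInvariant_add hD (isInvariant_divOf hf hfix)

end Fermat.Agent.S17.H920

end
end
-- ===== PACK-END S17/H920/Mov1.lean

-- ===== PACK-BEGIN S17/H230/Rank.lean
section





/-!
# S17 / tower H, wall leaves G-RANK and G-RANK-JET (helper230)

`rank E : Wall.RankStatement E` and `rankJet E : Wall.RankJetStatement E` (exact frozen shapes of
`S17/H710/Wall/Defs.lean`, no extra hypothesis).

Proof.  The rows of the stacked matrix are the images `Φ G` of the degree `k` forms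
`G = β_s = secProd (pt ∘ A) s` and `G = w_ρ X^α`, where
`Φ G = ((G(y_j))_j, ψ G)`, `ψ = eval z` (RANK) or `ψ = jetP (pt P) (tn P)` (RANK-JET).
`aeval E.x G ∈ L(km∞ - ΣAᵢ)` for these forms, and `Φ` kills the homogeneous relations of `E.x`
(`OnCone` for the columns; for the jet: `d1At` is a point derivation, `E.pt P ∈ span (ptD)`,
`E.tn P ∈ span (ptD, tnD)` by `pt_spec`/`tn_spec`, Euler's identity).  Hence the rank is at most
`dim L(km∞ - ΣAᵢ) = km - k + 1 - g` (Riemann–Roch, `deg > 2g - 2`).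
-/

set_option autoImplicit false

noncomputable section

open AlgebraicCurve MvPolynomial

namespace Fermat.Agent.S17.H230

open Fermat.Agent.Lib.RR Fermat.Agent.S17.HWall Fermat.Agent.S17.H710 Fermat.Agent.S17.Wall

variable {K F : Type*} [Field K] [Field F] [Algebra K F]

/-! ### Linear algebra -/

/-- If `g` kills the kernel of `f` on `S` and `f` maps `S` into the finite dimensional `L`, then
any family of vectors `g G`, `G ∈ S`, spans a space of dimension `≤ dim L`. -/
theorem finrank_span_rows_le {V W U : Type*} [AddCommGroup V] [Module K V] [AddCommGroup W]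
    [Module K W] [AddCommGroup U] [Module K U] [Module.Finite K U]
    (S : Submodule K V) (f : V →ₗ[K] W) (g : V →ₗ[K] U) (L : Submodule K W) [Module.Finite K L]
    (hf : ∀ G ∈ S, f G ∈ L) (hker : ∀ G ∈ S, f G = 0 → g G = 0)
    {σ : Type*} (rows : σ → U) (hrows : ∀ s, ∃ G ∈ S, g G = rows s) :
    Module.finrank K (Submodule.span K (Set.range rows)) ≤ Module.finrank K L := by
  set f' : S →ₗ[K] W := f.domRestrict S with hf'
  set g' : S →ₗ[K] U := g.domRestrict S with hg'
  have hle : LinearMap.ker f' ≤ LinearMap.ker g' := by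
    intro G hG
    rw [LinearMap.mem_ker] at hG ⊢
    exact hker G.1 G.2 hG
  have hrf : LinearMap.range f' ≤ L := by
    rintro _ ⟨G, rfl⟩
    exact hf G.1 G.2
  have : Module.Finite K (LinearMap.range f') :=
    Submodule.finiteDimensional_of_le hrf
  have : Module.Finite K (S ⧸ LinearMap.ker f') :=
    Module.Finite.equiv f'.quotKerEquivRange.symm
  have h1 : Submodule.span K (Set.range rows) ≤ LinearMap.range g' := by
    rw [Submodule.span_le]
    rintro _ ⟨s, rfl⟩
    obtain ⟨G, hG, hGs⟩ := hrows s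
    exact ⟨⟨G, hG⟩, hGs⟩
  have h2 : LinearMap.range g' = LinearMap.range ((LinearMap.ker f').liftQ g' hle) :=
    (Submodule.range_liftQ _ g' hle).symm
  calc Module.finrank K (Submodule.span K (Set.range rows))
      ≤ Module.finrank K (LinearMap.range g') := Submodule.finrank_mono h1
    _ = Module.finrank K (LinearMap.range ((LinearMap.ker f').liftQ g' hle)) := by rw [← h2]
    _ ≤ Module.finrank K (S ⧸ LinearMap.ker f') := LinearMap.finrank_range_le _
    _ = Module.finrank K (LinearMap.range f') := LinearEquiv.finrank_eq f'.quotKerEquivRange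
    _ ≤ Module.finrank K L := Submodule.finrank_mono hrf

variable [FF1 K F]

/-! ### Products in the spaces `L(D)` -/

omit [FF1 K F] in
theorem one_mem_L_zero : (1 : F) ∈ riemannRochSpace (0 : Divisor K F) := by
  rw [mem_L_iff]
  intro v
  right
  rw [Place.ord_one]
  simp

omit [FF1 K F] in
theorem mul_mem_L_add {D D' : Divisor K F} {f g : F} (hf : f ∈ riemannRochSpace D)
    (hg : g ∈ riemannRochSpace D') : f * g ∈ riemannRochSpace (D + D') := by
  rw [mem_L_iff] at hf hg ⊢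
  intro v
  rcases eq_or_ne f 0 with rfl | hf0
  · left; simp
  rcases eq_or_ne g 0 with rfl | hg0
  · left; simp
  right
  rw [v.ord_mul hf0 hg0, Finsupp.add_apply]
  have := (hf v).resolve_left hf0
  have := (hg v).resolve_left hg0
  omega

omit [FF1 K F] in
theorem prod_mem_L_sum {κ : Type*} (s : Finset κ) (f : κ → F) (D : κ → Divisor K F)
    (h : ∀ i ∈ s, f i ∈ riemannRochSpace (D i)) :
    ∏ i ∈ s, f i ∈ riemannRochSpace (∑ i ∈ s, D i) := by
  classical
  induction s using Finset.induction_on with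
  | empty => simpa using one_mem_L_zero (K := K) (F := F)
  | insert a s ha ih =>
    rw [Finset.prod_insert ha, Finset.sum_insert ha]
    exact mul_mem_L_add (h a (Finset.mem_insert_self a s))
      (ih fun i hi ↦ h i (Finset.mem_insert_of_mem hi))

/-! ### The embedding datum versus the canonical points -/

theorem x_mem (E : EmbData K F) (i : Fin (E.r + 1)) :
    E.x i ∈ riemannRochSpace (E.m • prim E.vinf) := by
  rw [← E.x_span]
  exact Submodule.subset_span ⟨i, rfl⟩

theorem dot_eq_sum {n : ℕ} (a y : Fin n → K) : dot a y = ∑ i, a i * y i := rfl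

omit [FF1 K F] in
theorem lin_eq_sum {n : ℕ} (x : Fin n → F) (a : Fin n → K) : lin x a = ∑ i, a i • x i := rfl

/-- `E.pt P` is proportional to the canonical point. -/
theorem exists_pt_eq (E : EmbData K F) (P : Place K F) :
    ∃ l : K, E.pt P = l • ptD (E.m • prim E.vinf) E.x P := by
  have h := mem_span_of_forall_dot (fun _ : Unit ↦ ptD (E.m • prim E.vinf) E.x P) (E.pt P) ?_
  · rw [Set.range_const, Submodule.mem_span_singleton] at h
    obtain ⟨l, hl⟩ := h
    exact ⟨l, hl.symm⟩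
  · intro a ha
    rcases eq_or_ne a 0 with rfl | ha0
    · simp [dot]
    have h0 : lin E.x a ≠ 0 := E.lin_ne_zero ha0
    rw [E.pt_spec P a ha0, hypDiv_apply_of_ne E.vinf E.m h0 P]
    exact (pt_spec_ptD (x_mem E) P a h0).mp (ha ())

/-- `E.tn P` lies in the span of the canonical tangent vector and the canonical point. -/
theorem exists_tn_eq (E : EmbData K F) (P : Place K F) :
    ∃ μ ν : K, E.tn P = μ • tnD (E.m • prim E.vinf) E.x P + ν • ptD (E.m • prim E.vinf) E.x P := by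
  have h := mem_span_of_forall_dot
    (fun b : Bool ↦ if b then tnD (E.m • prim E.vinf) E.x P else ptD (E.m • prim E.vinf) E.x P)
    (E.tn P) ?_
  · have hr : Set.range (fun b : Bool ↦ if b then tnD (E.m • prim E.vinf) E.x P
        else ptD (E.m • prim E.vinf) E.x P) =
        {tnD (E.m • prim E.vinf) E.x P, ptD (E.m • prim E.vinf) E.x P} := by
      ext u
      simp only [Set.mem_range, Bool.exists_bool, Set.mem_insert_iff, Set.mem_singleton_iff]
      constructor
      · rintro (h | h)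
        · right; simpa using h.symm
        · left; simpa using h.symm
      · rintro (h | h)
        · right; simpa using h.symm
        · left; simpa using h.symm
    rw [hr, Submodule.mem_span_pair] at h
    obtain ⟨μ, ν, hμν⟩ := h
    exact ⟨μ, ν, hμν.symm⟩
  · intro a ha
    rcases eq_or_ne a 0 with rfl | ha0
    · simp [dot]
    have h0 : lin E.x a ≠ 0 := E.lin_ne_zero ha0
    have h1 : dot a (ptD (E.m • prim E.vinf) E.x P) = 0 := by simpa using ha false
    have h2 : dot a (tnD (E.m • prim E.vinf) E.x P) = 0 := by simpa using ha true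
    have h3 := (tn_spec_ptD (x_mem E) P a h0).mp ⟨h1, h2⟩
    have h4 := (E.tn_spec P a ha0).mpr (by rw [hypDiv_apply_of_ne E.vinf E.m h0 P]; exact h3)
    exact h4.2

/-- The jet `(E.pt P, E.tn P)` kills the homogeneous relations of `E.x`. -/
theorem jetP_pt_tn_eq_zero (E : EmbData K F) (P : Place K F) {k : ℕ}
    {G : MvPolynomial (Fin (E.r + 1)) K} (hG : G.IsHomogeneous k) (h0 : aeval E.x G = 0) :
    jetP (E.pt P) (E.tn P) G = 0 := by
  obtain ⟨l, hl⟩ := exists_pt_eq E P
  obtain ⟨μ, ν, hμν⟩ := exists_tn_eq E P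
  obtain ⟨h1, h2⟩ := jet_ptD_eq_zero (x_mem E) P hG h0
  rw [hl, hμν]
  exact jetP_eq_zero_of_span hG h1 h2 l μ ν

/-! ### The rows are values of elements of `L(km∞ - ΣAᵢ)` -/

/-- a linear form through `E.pt A` gives a section vanishing at `A` -/
theorem lin_mem_of_dot_eq_zero (E : EmbData K F) (A : Place K F) (a : Fin (E.r + 1) → K)
    (h : dot a (E.pt A) = 0) :
    lin E.x a ∈ riemannRochSpace (E.m • prim E.vinf - prim A) := by
  rcases eq_or_ne a 0 with rfl | ha0
  · simp [lin]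
  have h0 : lin E.x a ≠ 0 := E.lin_ne_zero ha0
  have h1 := (E.pt_spec A a ha0).mp h
  rw [hypDiv_apply_of_ne E.vinf E.m h0 A] at h1
  rw [mem_L_sub_prim_iff (E.lin_mem a)]
  right
  omega

omit [FF1 K F] in
theorem aeval_secForm {n : ℕ} (x : Fin n → F) (u : Fin n → K) (p : Fin n × Fin n) :
    aeval x (secForm u p) =
      lin x (fun i ↦ u p.1 * (if i = p.2 then 1 else 0) - u p.2 * (if i = p.1 then 1 else 0)) := by
  classical
  unfold secForm lin
  simp only [sub_smul, Finset.sum_sub_distrib, mul_ite, mul_one, mul_zero, ite_smul, zero_smul,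
    Finset.sum_ite_eq', Finset.mem_univ, if_true]
  simp only [map_sub, map_mul, aeval_C, aeval_X, Algebra.smul_def]

theorem aeval_secForm_mem (E : EmbData K F) (A : Place K F) (p : Fin (E.r + 1) × Fin (E.r + 1)) :
    aeval E.x (secForm (E.pt A) p) ∈ riemannRochSpace (E.m • prim E.vinf - prim A) := by
  rw [aeval_secForm]
  apply lin_mem_of_dot_eq_zero
  simp only [dot, dotProduct, sub_mul, Finset.sum_sub_distrib, mul_ite, mul_one, mul_zero,
    ite_mul, zero_mul, Finset.sum_ite_eq', Finset.mem_univ, if_true]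
  ring

theorem aeval_secProd_mem (E : EmbData K F) {k : ℕ} (A : Fin k → Place K F)
    (s : Fin k → Fin (E.r + 1) × Fin (E.r + 1)) :
    aeval E.x (secProd (fun i ↦ E.pt (A i)) s) ∈
      riemannRochSpace (k • (E.m • prim E.vinf) - ∑ l, prim (A l)) := by
  unfold secProd
  rw [map_prod]
  have := prod_mem_L_sum (Finset.univ : Finset (Fin k))
    (fun i ↦ aeval E.x (secForm (E.pt (A i)) (s i)))
    (fun i ↦ E.m • prim E.vinf - prim (A i)) (fun i _ ↦ aeval_secForm_mem E (A i) (s i))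
  rwa [Finset.sum_sub_distrib, Finset.sum_const, Finset.card_univ, Fintype.card_fin] at this

omit [FF1 K F] in
theorem aeval_linForm {n : ℕ} (x : Fin n → F) (a : Fin n → K) :
    aeval x (linForm a) = lin x a := by
  unfold linForm lin
  simp only [map_sum, map_mul, aeval_C, aeval_X, Algebra.smul_def]

theorem aeval_monoOrd_mem (E : EmbData K F) {e : ℕ} (α : Fin e → Fin (E.r + 1)) :
    aeval E.x (monoOrd (K := K) α) ∈ riemannRochSpace (e • (E.m • prim E.vinf)) := by
  unfold monoOrd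
  rw [map_prod]
  have := prod_mem_L_sum (Finset.univ : Finset (Fin e))
    (fun i ↦ aeval E.x (X (α i) : MvPolynomial (Fin (E.r + 1)) K))
    (fun _ ↦ E.m • prim E.vinf) (fun i _ ↦ by rw [aeval_X]; exact x_mem E (α i))
  rwa [Finset.sum_const, Finset.card_univ, Fintype.card_fin] at this

theorem lin_mem_of_le (E : EmbData K F) (D : Divisor K F) (a : Fin (E.r + 1) → K)
    (h : a ≠ 0 → D ≤ E.Z a) : lin E.x a ∈ riemannRochSpace (E.m • prim E.vinf - D) := by
  rcases eq_or_ne a 0 with rfl | ha0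
  · simp [lin]
  rw [mem_L_iff]
  intro v
  right
  have h1 := Finsupp.le_def.mp (h ha0) v
  rw [E.Z_apply ha0 v] at h1
  rw [Finsupp.sub_apply]
  omega

theorem aeval_wRow_mem (E : EmbData K F) {k : ℕ} (hk : 1 ≤ k) (D : Divisor K F)
    (a : Fin (E.r + 1) → K) (h : a ≠ 0 → D ≤ E.Z a) (α : Fin (k - 1) → Fin (E.r + 1)) :
    aeval E.x (linForm a * monoOrd α) ∈ riemannRochSpace (k • (E.m • prim E.vinf) - D) := by
  rw [map_mul, aeval_linForm]
  have := mul_mem_L_add (lin_mem_of_le E D a h) (aeval_monoOrd_mem E α)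
  have hD : E.m • prim E.vinf - D + (k - 1) • (E.m • prim E.vinf) =
      k • (E.m • prim E.vinf) - D := by
    obtain ⟨j, rfl⟩ : ∃ j, k = j + 1 := ⟨k - 1, by omega⟩
    rw [Nat.add_sub_cancel, add_smul, one_smul]
    abel
  rwa [hD] at this

/-! ### The dimension -/

theorem ell_rank_eq (E : EmbData K F) {k : ℕ} (hk : 1 ≤ k) (A : Fin k → Place K F) :
    Module.finrank K (riemannRochSpace (k • (E.m • prim E.vinf) - ∑ l, prim (A l))) =
      kapN E k := by
  have hdeg : Divisor.degree (k • (E.m • prim E.vinf) - ∑ l, prim (A l)) =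
      (k : ℤ) * E.m - k := by
    rw [map_sub, map_nsmul, map_nsmul, map_sum]
    simp only [degree_prim', Finset.sum_const, Finset.card_univ, Fintype.card_fin,
      nsmul_eq_mul, mul_one]
  have hm := E.hm
  have hkm : k * (2 * genusR K F + 1) ≤ k * E.m := Nat.mul_le_mul_left k hm
  have hkg : 2 * genusR K F + 1 ≤ k * (2 * genusR K F + 1) := Nat.le_mul_of_pos_left _ hk
  have hell := ell_eq_of_degree_gt (K := K) (F := F)
    (D := k • (E.m • prim E.vinf) - ∑ l, prim (A l)) (by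
      rw [hdeg, genusFF_eq_genusR]
      have : ((k * (2 * genusR K F + 1) : ℕ) : ℤ) ≤ ((k * E.m : ℕ) : ℤ) := by exact_mod_cast hkm
      push_cast at this
      have h2 : ((2 * genusR K F + 1 : ℕ) : ℤ) ≤ ((k * (2 * genusR K F + 1) : ℕ) : ℤ) := by
        exact_mod_cast hkg
      push_cast at h2
      nlinarith)
  rw [hdeg, genusFF_eq_genusR] at hell
  unfold ell at hell
  unfold kapN
  have h3 : k ≤ k * E.m := by nlinarith
  zify [h3]
  have h4 : genusR K F ≤ k * E.m - k + 1 := by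
    have : k * (2 * genusR K F + 1) = 2 * (k * genusR K F) + k := by ring
    have h5 : genusR K F ≤ k * genusR K F := Nat.le_mul_of_pos_left _ hk
    omega
  rw [Nat.cast_sub h4]
  push_cast [h3]
  rw [hell]

/-! ### The evaluation map `Φ` -/

/-- the jet as a linear map -/
def jetL {n : ℕ} (z z' : Fin n → K) : MvPolynomial (Fin n) K →ₗ[K] K where
  toFun := jetP z z'
  map_add' := jetP_add z z'
  map_smul' a G := by simpa using jetP_smul z z' a G

/-- `Φ G = ((G(y_j))_j, ψ G)` -/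
def rowMap {n : ℕ} {c : Type*} (y : c → Fin n → K) (ψ : MvPolynomial (Fin n) K →ₗ[K] K) :
    MvPolynomial (Fin n) K →ₗ[K] (c ⊕ Unit → K) where
  toFun G := Sum.elim (fun j ↦ eval (y j) G) (fun _ ↦ ψ G)
  map_add' G H := by
    funext q
    rcases q with j | j <;> simp
  map_smul' a G := by
    funext q
    rcases q with j | j <;> simp [smul_eval]

omit [FF1 K F] [Algebra K F] [Field F] in
theorem jetP_secForm {n : ℕ} (z z' u : Fin n → K) (p : Fin n × Fin n) :
    jetP z z' (secForm u p) = wedge u z' p := by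
  classical
  unfold secForm wedge
  rw [jetP_sub, jetP_mul, jetP_mul, jetP_C, jetP_C, jetP_X, jetP_X, eval_C, eval_C]
  ring

omit [FF1 K F] [Algebra K F] [Field F] in
theorem jetP_secProd {n d : ℕ} (z z' : Fin n → K) (u : Fin d → Fin n → K)
    (s : Fin d → Fin n × Fin n) : jetP z z' (secProd u s) = betaJet u z z' s := by
  classical
  unfold secProd betaJet
  rw [jetP_prod]
  refine Finset.sum_congr rfl fun l _ ↦ ?_
  rw [jetP_secForm]
  congr 1
  exact Finset.prod_congr rfl fun i _ ↦ eval_secForm (u i) z (s i)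

omit [FF1 K F] [Algebra K F] [Field F] in
theorem jetP_linForm {n : ℕ} (z z' a : Fin n → K) : jetP z z' (linForm a) = dot a z' := by
  classical
  unfold linForm
  rw [jetP_sum]
  simp only [jetP_mul, jetP_C, jetP_X, eval_C, eval_X, mul_zero, add_zero, dot, dotProduct]

omit [FF1 K F] [Algebra K F] [Field F] in
theorem jetP_monoOrd {n e : ℕ} (z z' : Fin n → K) (α : Fin e → Fin n) :
    jetP z z' (monoOrd α) = ∑ l, z' (α l) * ∏ k ∈ Finset.univ.erase l, z (α k) := by
  classical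
  unfold monoOrd
  rw [jetP_prod]
  refine Finset.sum_congr rfl fun l _ ↦ ?_
  rw [jetP_X]
  congr 1
  exact Finset.prod_congr rfl fun i _ ↦ eval_X _

omit [FF1 K F] [Algebra K F] [Field F] in
theorem jetP_wRow {n e : ℕ} (z z' a : Fin n → K) (α : Fin e → Fin n) :
    jetP z z' (linForm a * monoOrd α) =
      dot a z' * ∏ k, z (α k) +
        dot a z * ∑ l, z' (α l) * ∏ k ∈ Finset.univ.erase l, z (α k) := by
  rw [jetP_mul, jetP_linForm, jetP_monoOrd, eval_linForm, eval_monoOrd]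
  ring

/-! ### The core -/

/-- Common core of G-RANK and G-RANK-JET: `ψ` is any linear functional killing the homogeneous
relations of `E.x`. -/
theorem rank_core (E : EmbData K F) {k : ℕ} (hk : 1 ≤ k) (A : Fin k → Place K F) {ρ : Type}
    (W : ρ → Fin (E.r + 1) → K) (hW : ∀ r, W r ≠ 0 → ∑ l, prim (A l) ≤ E.Z (W r))
    {c : Type} [Fintype c] (y : c → Fin (E.r + 1) → K) (hy : ∀ j, OnCone E.x (y j))
    (ψ : MvPolynomial (Fin (E.r + 1)) K →ₗ[K] K)
    (hψ : ∀ G : MvPolynomial (Fin (E.r + 1)) K, G.IsHomogeneous k → aeval E.x G = 0 → ψ G = 0) :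
    Module.finrank K (Submodule.span K (Set.range
      (stack (betaMat (fun i ↦ E.pt (A i)) y) (fun s ↦ ψ (secProd (fun i ↦ E.pt (A i)) s))
        (wMat (e := k - 1) W y) (fun t ↦ ψ (linForm (W t.1) * monoOrd t.2))))) ≤ kapN E k := by
  rw [← ell_rank_eq E hk A]
  refine finrank_span_rows_le
    (homogeneousSubmodule (Fin (E.r + 1)) K k ⊓
      (riemannRochSpace (k • (E.m • prim E.vinf) - ∑ l, prim (A l))).comap
        (aeval E.x).toLinearMap)
    (aeval E.x).toLinearMap (rowMap y ψ) _ ?_ ?_ _ ?_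
  · intro G hG
    exact hG.2
  · intro G hG h0
    have hG' : G.IsHomogeneous k := (mem_homogeneousSubmodule _ _).mp hG.1
    funext q
    rcases q with j | j
    · exact hy j k G hG' h0
    · exact hψ G hG' h0
  · rintro (s | t)
    · refine ⟨secProd (fun i ↦ E.pt (A i)) s, ⟨?_, ?_⟩, ?_⟩
      · exact (mem_homogeneousSubmodule _ _).mpr (secProd_isHomogeneous _ s)
      · exact aeval_secProd_mem E A s
      · funext q
        rcases q with j | j
        · simp [rowMap, stack, betaMat_eq_eval]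
        · simp [rowMap, stack]
    · refine ⟨linForm (W t.1) * monoOrd t.2, ⟨?_, ?_⟩, ?_⟩
      · have := (linForm_isHomogeneous (W t.1)).mul (monoOrd_isHomogeneous (K := K) t.2)
        have hk' : 1 + (k - 1) = k := by omega
        rw [hk'] at this
        exact (mem_homogeneousSubmodule _ _).mpr this
      · exact aeval_wRow_mem E hk _ (W t.1) (hW t.1) t.2
      · funext q
        rcases q with j | j
        · simp [rowMap, stack, wMat_eq_eval]
        · simp [rowMap, stack]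

/-- **G-RANK.** -/
theorem rank (E : EmbData K F) : RankStatement E := by
  intro k A ρ _ W hk hW c _ y z hy hz
  have h := rank_core E hk A W hW y hy (aeval z).toLinearMap
    (fun G hG h0 ↦ by simpa [aeval_eq_eval] using hz k G hG h0)
  have h1 : (fun s ↦ (aeval z).toLinearMap (secProd (fun i ↦ E.pt (A i)) s)) =
      betaCol (fun i ↦ E.pt (A i)) fun _ ↦ z := by
    funext s
    simp [betaCol, aeval_eq_eval, eval_secProd]
  have h2 : (fun t : ρ × (Fin (k - 1) → Fin (E.r + 1)) ↦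
      (aeval z).toLinearMap (linForm (W t.1) * monoOrd t.2)) = wCol W z := by
    funext t
    simp [wCol, aeval_eq_eval, eval_linForm, eval_monoOrd]
  rwa [h1, h2] at h

/-- **G-RANK-JET.** -/
theorem rankJet (E : EmbData K F) : RankJetStatement E := by
  intro k A ρ _ W hk hW c _ y P hy
  have h := rank_core E hk A W hW y hy (jetL (E.pt P) (E.tn P))
    (fun G hG h0 ↦ jetP_pt_tn_eq_zero E P hG h0)
  have h1 : (fun s ↦ jetL (E.pt P) (E.tn P) (secProd (fun i ↦ E.pt (A i)) s)) =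
      betaJet (fun i ↦ E.pt (A i)) (E.pt P) (E.tn P) := by
    funext s
    exact jetP_secProd _ _ _ s
  have h2 : (fun t : ρ × (Fin (k - 1) → Fin (E.r + 1)) ↦
      jetL (E.pt P) (E.tn P) (linForm (W t.1) * monoOrd t.2)) = wJet W (E.pt P) (E.tn P) := by
    funext t
    exact jetP_wRow _ _ _ t.2
  rwa [h1, h2] at h

end Fermat.Agent.S17.H230

end
end
-- ===== PACK-END S17/H230/Rank.lean

-- ===== PACK-BEGIN S17/H290/TanLocal.lean
section




/-!
# S17 / tower H — sub-project GAUSS (helper290): the tangent line, locally (TAN)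

`E : EmbData K F`, `∂` a derivation of `F / K` and `ω` a differential with `dy = ∂y · ω` for
all `y`.  The functions

  `wform E ∂ (j, k) = x_j ∂x_k − x_k ∂x_j`

are the Plücker coordinates of the tangent line, up to ONE common factor at each place:

* `valAt_coeff`   : `(df/dπ)(v) = d1At v f` for `f` regular at `v`, `π = unif v`;
* `ord_der_unif`  : `ord_v (∂π) = − ord_v ω`;
* `tan_local`     : at every place `P` there are `θ ≠ 0`, regular functions `u p` and a constant
                    `c ≠ 0` with `w p = θ · u p`, `ord_P θ = − ord_P ω − 2 (m∞)(P)` and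
                    `u p (P) = c · (pt P ∧ tn P)_p`.

Sorry-free.
-/

set_option autoImplicit false

noncomputable section

namespace Fermat.Agent.S17.H290

open AlgebraicCurve KaehlerDifferential
open Fermat.Agent.Lib.RR Fermat.Agent.S17.HWall Fermat.Agent.S17.H230

variable {K F : Type*} [Field K] [Field F] [Algebra K F] [FF1 K F]

omit [FF1 K F] in
theorem regAt_neg {v : Place K F} {f : F} (hf : RegAt v f) : RegAt v (-f) := neg_mem hf

omit [FF1 K F] in
theorem regAt_sub {v : Place K F} {f g : F} (hf : RegAt v f) (hg : RegAt v g) :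
    RegAt v (f - g) := sub_mem hf hg

theorem valAt_neg {v : Place K F} {f : F} (hf : RegAt v f) : valAt v (-f) = - valAt v f := by
  have h := valAt_smul (-1 : K) hf
  rwa [neg_one_smul, neg_one_mul] at h

theorem valAt_sub {v : Place K F} {f g : F} (hf : RegAt v f) (hg : RegAt v g) :
    valAt v (f - g) = valAt v f - valAt v g := by
  rw [sub_eq_add_neg, valAt_add hf (regAt_neg hg), valAt_neg hg, ← sub_eq_add_neg]

/-- `(df/dπ)(v) = ((f − f(v))/π)(v)` for `f` regular at `v`, `π = unif v`. -/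
theorem valAt_coeff (v : Place K F) {f c : F} (hf : RegAt v f)
    (hspan : Submodule.span F {D K F (unif v)} = ⊤)
    (hc : D K F f = c • D K F (unif v)) : RegAt v c ∧ valAt v c = d1At v f := by
  have hreg : RegAt v c := by
    rw [regAt_iff]
    exact H80.ord_coeff_nonneg v (ord_unif v) ((regAt_iff v f).mp hf) hc
  refine ⟨hreg, ?_⟩
  have hq : RegAt v (quot1 v f) := regAt_quot1 hf
  have h := H80.ord_coeff_sub_pos v (valAt v f) (ord_unif v) hspan ((regAt_iff v _).mp hq)
    (eq_add_unif_mul_quot1 v f) hc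
  have hsub : RegAt v (c - quot1 v f) := by
    rcases h with h | h
    · rw [h]; exact regAt_zero v
    · rw [regAt_iff]; omega
  have h0 : valAt v (c - quot1 v f) = 0 := (valAt_eq_zero_iff hsub).mpr h
  have h1 : c = (c - quot1 v f) + quot1 v f := by ring
  have h2 := valAt_add hsub hq
  rw [← h1, h0, zero_add] at h2
  exact h2

section Der

variable (δ : Derivation K F F) (ω : Ω[F⁄K])

theorem der_ne_zero_of_ord_eq_one (hω : ∀ y : F, D K F y = δ y • ω) (v : Place K F) {π : F}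
    (hπ : v.ord π = 1) : δ π ≠ 0 := by
  intro h
  have h1 := hω π
  rw [h, zero_smul] at h1
  exact H80.D_ne_zero_of_ord_eq_one v hπ h1

theorem D_eq_smul_D (hω : ∀ y : F, D K F y = δ y • ω) (v : Place K F) {π : F}
    (hπ : v.ord π = 1) (y : F) : D K F y = (δ y / δ π) • D K F π := by
  rw [hω y, hω π, smul_smul, div_mul_cancel₀ _ (der_ne_zero_of_ord_eq_one δ ω hω v hπ)]

theorem span_D_eq_top_of_der (hω : ∀ y : F, D K F y = δ y • ω) (v : Place K F) {π : F}
    (hπ : v.ord π = 1) : Submodule.span F {D K F π} = ⊤ := by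
  rw [eq_top_iff, ← KaehlerDifferential.span_range_derivation K F, Submodule.span_le]
  rintro _ ⟨y, rfl⟩
  rw [SetLike.mem_coe, D_eq_smul_D δ ω hω v hπ y]
  exact Submodule.smul_mem _ _ (Submodule.subset_span rfl)

/-- `ord_v (∂π) = − ord_v ω` for every uniformizer `π` at `v`. -/
theorem ord_der_unif [CharZero K] (hω : ∀ y : F, D K F y = δ y • ω) (hω0 : ω ≠ 0)
    (v : Place K F) {π : F} (hπ : v.ord π = 1) : v.ord (δ π) = - v.ordDifferential ω := by
  obtain ⟨π', hπ', hd⟩ := Fermat.Agent.S24.H84.place_exists_uniformizer v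
  have : v.DCoordGenerates := ⟨by rw [hd]; exact span_D_eq_top_of_der δ ω hω v hπ'⟩
  have : Nontrivial Ω[F⁄K] := ⟨⟨ω, 0, hω0⟩⟩
  have hne' := der_ne_zero_of_ord_eq_one δ ω hω v hπ'
  have hne := der_ne_zero_of_ord_eq_one δ ω hω v hπ
  -- `ω = (∂π')⁻¹ • dπ'`
  have h1 : ω = (δ π')⁻¹ • v.dCoord := by
    rw [hd, hω π', smul_smul, inv_mul_cancel₀ hne', one_smul]
  have h2 : v.ordDifferential ω = - v.ord (δ π') := by
    unfold Place.ordDifferential
    rw [v.differentialCoeff_unique h1, v.ord_inv]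
  -- `∂π = c ∂π'` with `ord c = 0`
  have h3 := D_eq_smul_D δ ω hω v hπ' π
  have h4 := H80.ord_coeff_eq v hπ' (span_D_eq_top_of_der δ ω hω v hπ')
    (by rw [hπ]; exact one_ne_zero) h3
  rw [hπ, sub_self, div_eq_mul_inv, v.ord_mul hne (inv_ne_zero hne'), v.ord_inv] at h4
  rw [h2]
  omega

end Der

/-! ### The forms `w_{jk} = x_j ∂x_k − x_k ∂x_j` -/

/-- `w_{jk} = x_j ∂x_k − x_k ∂x_j`. -/
def wform (E : EmbData K F) (δ : Derivation K F F) (p : Fin (E.r + 1) × Fin (E.r + 1)) : F :=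
  E.x p.1 * δ (E.x p.2) - E.x p.2 * δ (E.x p.1)

/-- `pt P ∧ tn P` is a nonzero multiple of the wedge of the canonical point and the canonical
tangent vector. -/
theorem exists_wedge_eq (E : EmbData K F) (P : Place K F) :
    ∃ c : K, c ≠ 0 ∧ ∀ p, wedge (ptD (E.m • prim E.vinf) E.x P) (tnD (E.m • prim E.vinf) E.x P) p
      = c * wedge (E.pt P) (E.tn P) p := by
  obtain ⟨l, hl⟩ := exists_pt_eq E P
  obtain ⟨μ, ν, hμν⟩ := exists_tn_eq E P
  have key : ∀ p, wedge (E.pt P) (E.tn P) p = (l * μ) *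
      wedge (ptD (E.m • prim E.vinf) E.x P) (tnD (E.m • prim E.vinf) E.x P) p := by
    intro p
    unfold wedge
    rw [hl, hμν]
    simp only [Pi.add_apply, Pi.smul_apply, smul_eq_mul]
    ring
  have hne : l * μ ≠ 0 := by
    intro h0
    apply Fermat.Agent.S17.H440.wedge_pt_tn_ne_zero E P
    funext p
    rw [key p, h0, zero_mul]
    rfl
  refine ⟨(l * μ)⁻¹, inv_ne_zero hne, fun p => ?_⟩
  rw [key p, ← mul_assoc, inv_mul_cancel₀ hne, one_mul]

/-- **TAN, local form.**  At every place `P`: `w_p = θ · u_p` with `u_p` regular at `P`,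
`ord_P θ = − ord_P ω − 2 (m ∞)(P)`, and the values `u_p (P)` are the Plücker coordinates of the
tangent line at `P` (up to one nonzero constant). -/
theorem tan_local [CharZero K] (E : EmbData K F) (δ : Derivation K F F) (ω : Ω[F⁄K])
    (hω : ∀ y : F, D K F y = δ y • ω) (hω0 : ω ≠ 0) (P : Place K F) :
    ∃ (θ : F) (u : Fin (E.r + 1) × Fin (E.r + 1) → F) (c : K), θ ≠ 0 ∧ c ≠ 0 ∧
      P.ord θ = - P.ordDifferential ω - 2 * (E.m • prim E.vinf : Divisor K F) P ∧
      (∀ p, RegAt P (u p)) ∧ (∀ p, wform E δ p = θ * u p) ∧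
      ∀ p, valAt P (u p) = c * wedge (E.pt P) (E.tn P) p := by
  set Dv : Divisor K F := E.m • prim E.vinf with hDv
  set π : F := unif P with hπdef
  have hπ : P.ord π = 1 := ord_unif P
  have hπ0 : π ≠ 0 := unif_ne_zero P
  have hdπ : δ π ≠ 0 := der_ne_zero_of_ord_eq_one δ ω hω P hπ
  have hspan := span_D_eq_top_of_der δ ω hω P hπ
  set q : F := π ^ (Dv P) with hq
  have hq0 : q ≠ 0 := zpow_ne_zero _ hπ0
  have hqord : P.ord q = Dv P := ord_unif_zpow P (Dv P)
  -- normalised coordinates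
  set xt : Fin (E.r + 1) → F := fun i => E.x i * q with hxt
  have hxreg : ∀ i, RegAt P (xt i) := fun i => regAt_normD (x_mem E) P i
  set ct : Fin (E.r + 1) → F := fun i => δ (xt i) / δ π with hct
  have hcoef : ∀ i, RegAt P (ct i) ∧ valAt P (ct i) = d1At P (xt i) := fun i =>
    valAt_coeff P (hxreg i) hspan (D_eq_smul_D δ ω hω P hπ (xt i))
  obtain ⟨c, hc0, hc⟩ := exists_wedge_eq E P
  refine ⟨δ π * (q ^ 2)⁻¹, fun p => xt p.1 * ct p.2 - xt p.2 * ct p.1, c,
    mul_ne_zero hdπ (inv_ne_zero (pow_ne_zero 2 hq0)), hc0, ?_, ?_, ?_, ?_⟩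
  · rw [P.ord_mul hdπ (inv_ne_zero (pow_ne_zero 2 hq0)), P.ord_inv, ord_pow, hqord,
      ord_der_unif δ ω hω hω0 P hπ]
    push_cast
    ring
  · intro p
    exact regAt_sub ((hxreg p.1).mul (hcoef p.2).1) ((hxreg p.2).mul (hcoef p.1).1)
  · intro p
    have hleib : ∀ i, δ (xt i) = E.x i * δ q + q * δ (E.x i) := by
      intro i
      show δ (E.x i * q) = _
      rw [Derivation.leibniz, smul_eq_mul, smul_eq_mul]
    show wform E δ p = δ π * (q ^ 2)⁻¹ * (xt p.1 * ct p.2 - xt p.2 * ct p.1)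
    unfold wform
    simp only [hct, hleib]
    simp only [hxt]
    field_simp
    ring
  · intro p
    have h1 : RegAt P (xt p.1 * ct p.2) := (hxreg p.1).mul (hcoef p.2).1
    have h2 : RegAt P (xt p.2 * ct p.1) := (hxreg p.2).mul (hcoef p.1).1
    rw [← hc p]
    show valAt P (xt p.1 * ct p.2 - xt p.2 * ct p.1) = _
    rw [valAt_sub h1 h2, valAt_mul (hxreg p.1) (hcoef p.2).1,
      valAt_mul (hxreg p.2) (hcoef p.1).1, (hcoef p.1).2, (hcoef p.2).2]
    unfold wedge
    rw [ptD_apply, ptD_apply]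
    unfold tnD
    ring

end Fermat.Agent.S17.H290

end
end
-- ===== PACK-END S17/H290/TanLocal.lean

-- ===== PACK-BEGIN S37/H98/Gen.lean
section






/-!
# S37, piece R-f [GEN] (helper98): `PrincipalGeneratedByIntegral` unconditionally

`gen N ℓ hℓ hℓN A hA : PrincipalGeneratedByIntegral A (IsLocalRing.residue A) N`
for every valuation subring `A` of `ℚ̄` over a prime `ℓ ∤ N`: the field `gen` of
`Core.PlaceRed` / `Core.GeoRed` (second half of the Prelude `ReductionInputsModL A N`).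

Assembly of landed pieces only:
* `H700.pgi` (helper700): PGI from `S28.CoreData N k` and `HasPrincipalDivisors ℚ̄ F̄_N`;
* `S28.H867.coreData_of_inputs` + `H807` + `H25` (row S28): `CoreData N k` for every field `k`
  of characteristic `ℓ ∤ N`;
* `Lib.RR.H864.hasPrincipalDivisors_modularFunctionFieldBar` (from row S24).
Also exported: `charP_residueField` (the residue field of `A` has characteristic `ℓ`),
`coreData_residueField`, and `reduction_mem` (hypothesis `hyk` of the Prelude property (ii) is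
automatic).
-/

set_option autoImplicit false
set_option synthInstance.maxHeartbeats 400000

noncomputable section

namespace Fermat.Agent.S37.H98

open ModularCurve ValuationSubring AlgebraicCurve HahnSeries

/-- The residue field of a valuation subring over the prime `ℓ` has characteristic `ℓ`. -/
theorem charP_residueField {L : Type*} [Field L] (A : ValuationSubring L) (ℓ : ℕ)
    (hℓ : ℓ.Prime) (hA : A.LiesOverPrime ℓ) : CharP (IsLocalRing.ResidueField A) ℓ := by
  have hℓm : ((ℓ : ℕ) : A) ∈ IsLocalRing.maximalIdeal A := by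
    obtain ⟨ha, hm⟩ := (ValuationSubring.mem_nonunits_iff_exists_mem_maximalIdeal).mp hA
    have : (⟨(ℓ : L), ha⟩ : A) = ((ℓ : ℕ) : A) := by
      apply Subtype.ext; simp
    rwa [this] at hm
  have h0 : ((ℓ : ℕ) : IsLocalRing.ResidueField A) = 0 := by
    have := (IsLocalRing.residue_eq_zero_iff ((ℓ : ℕ) : A)).mpr hℓm
    rwa [map_natCast] at this
  have : Fact ℓ.Prime := ⟨hℓ⟩
  exact (CharP.charP_iff_prime_eq_zero hℓ).mpr h0

/-- `S28.CoreData` over the residue field of a valuation subring of `ℚ̄` over `ℓ ∤ N`. -/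
theorem coreData_residueField (N : ℕ) [NeZero N] (ℓ : ℕ) (hℓ : ℓ.Prime) (hℓN : ¬ ℓ ∣ N)
    (A : ValuationSubring (AlgebraicClosure ℚ)) (hA : A.LiesOverPrime ℓ) :
    Fermat.Agent.S28.CoreData N (IsLocalRing.ResidueField A) := by
  have : Fact ℓ.Prime := ⟨hℓ⟩
  have : CharP (IsLocalRing.ResidueField A) ℓ := charP_residueField A ℓ hℓ hA
  exact Fermat.Agent.S28.H867.coreData_of_inputs N ℓ hℓN (IsLocalRing.ResidueField A)
    (fun p hp _ _ => Fermat.Agent.S28.H807.nonempty_modPolyData p hp)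
    (fun p hp _ _ => Fermat.Agent.S28.H807.nonempty_unitPolyData p hp)
    Fermat.Agent.S28.H25.theta_identity

/-- **R-f [GEN]**: every principal divisor of `ℚ̄(X₀(N))` is generated by divisors of
Gauss-integral functions with nonzero reduction (Prelude `PrincipalGeneratedByIntegral`), for
every valuation subring `A` of `ℚ̄` over a prime `ℓ ∤ N`. -/
theorem gen (N : ℕ) [NeZero N] (ℓ : ℕ) (hℓ : ℓ.Prime) (hℓN : ¬ ℓ ∣ N)
    (A : ValuationSubring (AlgebraicClosure ℚ)) (hA : A.LiesOverPrime ℓ) :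
    PrincipalGeneratedByIntegral A (IsLocalRing.residue A) N := by
  have := Fermat.Agent.Lib.RR.H864.hasPrincipalDivisors_modularFunctionFieldBar N
  exact Fermat.Agent.S37.H700.pgi (coreData_residueField N ℓ hℓ hℓN A hA)

/-- Reductions of Gauss-integral elements of `ℚ̄(X₀(N))` lie in the function field of the
special fibre: the hypothesis `hyk` of the Prelude property (ii) is automatic. -/
theorem reduction_mem (N : ℕ) [NeZero N] (ℓ : ℕ) (hℓ : ℓ.Prime) (hℓN : ¬ ℓ ∣ N)
    (A : ValuationSubring (AlgebraicClosure ℚ)) (hA : A.LiesOverPrime ℓ)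
    (u : LaurentSeries A) (hu : coeffMap A.subtype u ∈ modularFunctionFieldBar N) :
    coeffMap (IsLocalRing.residue A) u ∈
      modularFunctionFieldFullC (IsLocalRing.ResidueField A) N :=
  Fermat.Agent.S37.H700.reduction_mem (coreData_residueField N ℓ hℓ hℓN A hA) u hu

end Fermat.Agent.S37.H98

end
end
-- ===== PACK-END S37/H98/Gen.lean

-- ===== PACK-BEGIN S29/H389/Dict.lean
section





/-!
# S29 / layer M / BR — piece DICT (helper389)

Places dictionary for the function field `FF N = ℚ̄(j(q^d) : d ∣ N)` of `X₀(N)`, on top of the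
landed S24 library (`H997.analyticCore`, `H117` local theorem).

Main result `dvd_ord_of_analytic_pow` : let `r, t ∈ R_N = ℚ̄[j(q^d)]`, and let `h₁, h₂` be
functions in the S24 ring `Hol` with `e(r) · h₂ ^ p = c · h₁ ^ p · e(t)` (`e` the bridge
`R_N → Hol`), such that the quotient `h₁ / h₂` is invariant under every `δ ∈ Γ₀(N)` which has
finite order or trace `2`.  Then `p ∣ ord_v (r / t)` for EVERY place `v` of `FF N`.

(Intended use: `h₁/h₂ = h·u` with `h` a twisted Eisenstein quotient of character `χ`, `χ` trivial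
on elliptic and parabolic elements, and `u` a modular function; `r / t` the Kummer generator.)
-/

set_option autoImplicit false
set_option linter.style.haveILetI false

noncomputable section

open AlgebraicCurve HahnSeries ModularCurve
open scoped MatrixGroups

namespace Fermat.Agent.S29.H389

open Fermat.Agent.S24 Fermat.Agent.S24.H997

variable {N : ℕ} [NeZero N]

/-- Iterating the rotation data: precomposition with `ε ^ n`. -/
theorem rot_iter (B : HolBase N) (X : Expansion B) (ε : SL(2, ℤ)) (R : RotData B X ε)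
    (n : ℕ) (h : B.Hol) :
    (X.E (B.compH (ε ^ n) h)).order = (X.E h).order ∧
      (X.E (B.compH (ε ^ n) h)).leadingCoeff
        = (R.ζ ^ (X.E h).order) ^ n * (X.E h).leadingCoeff := by
  induction n with
  | zero => simp [B.compH_one]
  | succ n ih =>
    have hstep : B.compH (ε ^ (n + 1)) h = B.compH ε (B.compH (ε ^ n) h) := by
      rw [pow_succ, B.compH_mul]
    have hr := R.rot (B.compH (ε ^ n) h)
    rw [hstep]
    refine ⟨by rw [hr.1, ih.1], ?_⟩
    rw [hr.2, ih.1, ih.2, pow_succ]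
    ring


/-! ### Small facts on Laurent series over `ℂ` -/

theorem ls_order_mul {a b : LaurentSeries ℂ} (ha : a ≠ 0) (hb : b ≠ 0) :
    (a * b).order = a.order + b.order :=
  order_mul_of_ne_zero
    (mul_ne_zero (leadingCoeff_ne_zero.mpr ha) (leadingCoeff_ne_zero.mpr hb))

theorem ls_order_pow {a : LaurentSeries ℂ} (ha : a ≠ 0) (n : ℕ) :
    (a ^ n).order = n * a.order := by
  induction n with
  | zero => simp
  | succ n ih =>
    rw [pow_succ, ls_order_mul (pow_ne_zero n ha) ha, ih]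
    push_cast
    ring

theorem ls_order_C {c : ℂ} : (HahnSeries.C c : LaurentSeries ℂ).order = 0 := order_C

/-! ### "Nice" elements: finite order or trace `2` -/

/-- An element of `SL(2,ℤ)` of finite order, or of trace `2`. -/
def Nice (δ : SL(2, ℤ)) : Prop :=
  IsOfFinOrder δ ∨ (δ : Matrix (Fin 2) (Fin 2) ℤ).trace = 2

theorem Nice.conj {δ : SL(2, ℤ)} (h : Nice δ) (g : SL(2, ℤ)) : Nice (g⁻¹ * δ * g) := by
  rcases h with h | h
  · left
    rw [isOfFinOrder_iff_pow_eq_one] at h ⊢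
    obtain ⟨n, hn, hδ⟩ := h
    refine ⟨n, hn, ?_⟩
    have : (g⁻¹ * δ * g) ^ n = g⁻¹ * δ ^ n * g := by
      have := conj_pow (a := g⁻¹) (b := δ) (i := n)
      simpa using this
    rw [this, hδ]
    simp
  · right
    have h1 : ((g⁻¹ * δ * g : SL(2, ℤ)) : Matrix (Fin 2) (Fin 2) ℤ)
        = (g⁻¹ : SL(2, ℤ)).1 * δ.1 * g.1 := by
      simp
    rw [h1, Matrix.trace_mul_comm, ← mul_assoc]
    have h2 : g.1 * (g⁻¹ : SL(2, ℤ)).1 = 1 := by
      rw [← Matrix.SpecialLinearGroup.coe_mul, mul_inv_cancel,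
        Matrix.SpecialLinearGroup.coe_one]
    rw [h2, one_mul]
    exact h

/-! ### The local statement -/

/-- **DICT, local form.**  For the local data built from an expansion with rotation data,
an analytic `p`-th power relation whose root is invariant under nice elements of `Γ₀(N)`
forces `p ∣ ord_v` at every place over `t = 0`. -/
theorem dvd_ord_mkLocalData (B : HolBase N) (X : Expansion B) (ε : SL(2, ℤ))
    (R : RotData B X ε) (t : FF N) (u : LaurentSeries ℂ)
    (ht : ∀ g : SL(2, ℤ), B.sigmaG X g t = u) (hu : u.order = (R.m : ℤ))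
    [FiniteDimensional ↥(IntermediateField.adjoin Kbar {t}) (FF N)]
    (hrank : Module.finrank ↥(IntermediateField.adjoin Kbar {t}) (FF N) = Nat.card (XX N))
    (hε : ∀ n : ℕ, Nice (ε ^ n))
    (p : ℕ) (r s : RN N) (hr : r ≠ 0) (hs : s ≠ 0) (h₁ h₂ : B.Hol) (hh₁ : h₁ ≠ 0)
    (hh₂ : h₂ ≠ 0) (c : ℂ) (hc : c ≠ 0)
    (hrel : B.bridge r * h₂ ^ p = B.constH c * h₁ ^ p * B.bridge s)
    (hinv : ∀ δ : SL(2, ℤ), δ ∈ CongruenceSubgroup.Gamma0 N → Nice δ →
      B.compH δ h₁ * h₂ = h₁ * B.compH δ h₂)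
    (v : Place Kbar (FF N)) (hv : 0 < v.ord t) :
    (p : ℤ) ∣ v.ord (inclRN N r / inclRN N s) := by
  classical
  set L := B.mkLocalData X ε R t u ht hu with hL
  obtain ⟨x, hx⟩ :=
    H117.exists_placeOf_eq L (IntermediateField.adjoin Kbar {t}) le_rfl hrank v hv
  obtain ⟨g, rfl⟩ := QuotientGroup.mk_surjective x
  have hσ : L.σ (g : XX N) = B.sigmaG X g := B.sigmaX_mk X g
  -- translated functions
  set h₁' := B.compH g⁻¹ h₁ with hh₁'
  set h₂' := B.compH g⁻¹ h₂ with hh₂'
  have hE₁ : X.E h₁' ≠ 0 := by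
    intro h0
    apply hh₁
    apply B.compH_injective g⁻¹
    apply X.inj
    rw [h0, map_zero, map_zero]
  have hE₂ : X.E h₂' ≠ 0 := by
    intro h0
    apply hh₂
    apply B.compH_injective g⁻¹
    apply X.inj
    rw [h0, map_zero, map_zero]
  set k₁ := (X.E h₁').order with hk₁
  set k₂ := (X.E h₂').order with hk₂
  -- the relation, expanded
  have hrel' : B.sigmaG X g (inclRN N r) * (X.E h₂') ^ p
      = HahnSeries.C c * (X.E h₁') ^ p * B.sigmaG X g (inclRN N s) := by
    rw [B.sigmaG_inclRN, B.sigmaG_inclRN]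
    have := congrArg (fun z => X.E (B.compH g⁻¹ z)) hrel
    simp only [map_mul, map_pow, B.compH_constH, X.const] at this
    exact this
  have hr' : inclRN N r ≠ 0 := fun h => hr (inclRN_injective N (by rw [h, map_zero]))
  have hs' : inclRN N s ≠ 0 := fun h => hs (inclRN_injective N (by rw [h, map_zero]))
  have hσr : B.sigmaG X g (inclRN N r) ≠ 0 := (map_ne_zero _).mpr hr'
  have hσs : B.sigmaG X g (inclRN N s) ≠ 0 := (map_ne_zero _).mpr hs'
  have hC : (HahnSeries.C c : LaurentSeries ℂ) ≠ 0 := by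
    intro h0
    apply hc
    have := congrArg (fun z : LaurentSeries ℂ => z.coeff 0) h0
    simpa using this
  have hord : (B.sigmaG X g (inclRN N r / inclRN N s)).order = (p : ℤ) * (k₁ - k₂) := by
    have h1 := congrArg HahnSeries.order hrel'
    rw [ls_order_mul hσr (pow_ne_zero p hE₂), ls_order_pow hE₂,
      ls_order_mul (mul_ne_zero hC (pow_ne_zero p hE₁)) hσs,
      ls_order_mul hC (pow_ne_zero p hE₁), ls_order_pow hE₁, ls_order_C] at h1
    rw [map_div₀, div_eq_mul_inv, ls_order_mul hσr (inv_ne_zero hσs),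
      RotRel.order_inv' hσs]
    linarith
  -- multiplicity
  have hmult := H117.order_eq L (g : XX N) (inclRN N r / inclRN N s)
  rw [hσ, hord, hx] at hmult
  -- orbit length
  have hfin := H117.finite_places_over L (IntermediateField.adjoin Kbar {t}) le_rfl hrank
  have hS : ∀ w : Place Kbar (FF N), w ∈ hfin.toFinset ↔ 0 < w.ord t := fun w => by
    simp
  have hsum := H144.loc_fundamental_inequality L hfin.toFinset hS
  obtain ⟨-, horb, -⟩ :=
    H117.localThm L (IntermediateField.adjoin Kbar {t}) le_rfl hrank hfin.toFinset hS hsum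
  have hn := horb (g : XX N)
  rw [hx] at hn
  set n := Nat.card (MulAction.orbit (Subgroup.zpowers L.perm) (g : XX N)) with hn_def
  have hnpos : 0 < n := by
    have : (0 : ℤ) < n := by rw [hn]; exact hv
    exact_mod_cast this
  -- `perm ^ n` fixes `x`
  have hper : (L.perm ^ n) (g : XX N) = (g : XX N) := by
    letI : Fintype (MulAction.orbit (Subgroup.zpowers L.perm) (g : XX N)) :=
      Fintype.ofFinite _
    have h1 : Function.minimalPeriod (L.perm • ·) (g : XX N) = n := by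
      rw [MulAction.minimalPeriod_eq_card, hn_def, Nat.card_eq_fintype_card]
    have h2 := Function.isPeriodicPt_minimalPeriod (L.perm • ·) (g : XX N)
    rw [h1] at h2
    have h3 : ((L.perm • ·) : XX N → XX N) = ⇑L.perm := rfl
    rw [h3] at h2
    have h4 : (⇑L.perm)^[n] (g : XX N) = (g : XX N) := h2
    rw [Equiv.Perm.iterate_eq_pow] at h4
    exact h4
  -- the element `δ = g⁻¹ ε ^ n g` of `Γ₀(N)`
  have hperm_pow : (L.perm ^ n) (g : XX N) = (((ε⁻¹) ^ n * g : SL(2, ℤ)) : XX N) := by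
    have h1 : L.perm = permOf N ε⁻¹ := rfl
    rw [h1]
    have h2 : (permOf N ε⁻¹) ^ n = permOf N ((ε⁻¹) ^ n) := by
      unfold permOf
      exact (map_pow (MulAction.toPermHom SL(2, ℤ) (XX N)) ε⁻¹ n).symm
    rw [h2]
    rfl
  have hδmem : g⁻¹ * ε ^ n * g ∈ CongruenceSubgroup.Gamma0 N := by
    have h1 := hper
    rw [hperm_pow] at h1
    have h2 := QuotientGroup.eq.mp h1
    have h3 : ((ε⁻¹) ^ n * g)⁻¹ * g = g⁻¹ * ε ^ n * g := by
      rw [mul_inv_rev, inv_pow, inv_inv]
    rwa [h3] at h2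
  have hδnice : Nice (g⁻¹ * ε ^ n * g) := (hε n).conj g
  have hinv' := hinv _ hδmem hδnice
  -- transport by `g⁻¹`
  have hcomp : ∀ h : B.Hol, B.compH g⁻¹ (B.compH (g⁻¹ * ε ^ n * g) h)
      = B.compH (ε ^ n) (B.compH g⁻¹ h) := by
    intro h
    rw [← B.compH_mul, ← B.compH_mul]
    congr 1
    group
  have hrot : B.compH (ε ^ n) h₁' * h₂' = h₁' * B.compH (ε ^ n) h₂' := by
    have := congrArg (B.compH g⁻¹) hinv'
    rw [map_mul, map_mul, hcomp, hcomp] at this
    exact this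
  have hlc := congrArg (fun z => (X.E z).leadingCoeff) hrot
  simp only [map_mul, leadingCoeff_mul] at hlc
  rw [(rot_iter B X ε R n h₁').2, (rot_iter B X ε R n h₂').2] at hlc
  have hl₁ : (X.E h₁').leadingCoeff ≠ 0 := leadingCoeff_ne_zero.mpr hE₁
  have hl₂ : (X.E h₂').leadingCoeff ≠ 0 := leadingCoeff_ne_zero.mpr hE₂
  have hζ0 : R.ζ ≠ 0 := R.hζ.ne_zero R.m_pos.ne'
  have hζeq : (R.ζ ^ k₁) ^ n = (R.ζ ^ k₂) ^ n := by
    have h1 : (R.ζ ^ k₁) ^ n * ((X.E h₁').leadingCoeff * (X.E h₂').leadingCoeff)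
        = (R.ζ ^ k₂) ^ n * ((X.E h₁').leadingCoeff * (X.E h₂').leadingCoeff) := by
      linear_combination hlc
    exact mul_right_cancel₀ (mul_ne_zero hl₁ hl₂) h1
  have hζ1 : R.ζ ^ ((n : ℤ) * (k₁ - k₂)) = 1 := by
    have h1 : R.ζ ^ ((n : ℤ) * k₁) = R.ζ ^ ((n : ℤ) * k₂) := by
      rw [mul_comm (n : ℤ) k₁, mul_comm (n : ℤ) k₂, zpow_mul, zpow_mul, zpow_natCast,
        zpow_natCast]
      exact hζeq
    rw [mul_sub, zpow_sub₀ hζ0, h1]
    exact div_self (zpow_ne_zero _ hζ0)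
  have hdvd : ((R.m : ℕ) : ℤ) ∣ (n : ℤ) * (k₁ - k₂) := (R.hζ.zpow_eq_one_iff_dvd _).mp hζ1
  have hmm := H117.mult_mul_ord_t L (g : XX N)
  rw [hx, ← hn] at hmm
  have hLm : L.m = R.m := rfl
  rw [hLm] at hmm
  rw [← hmm] at hdvd
  have hn0 : (n : ℤ) ≠ 0 := by exact_mod_cast hnpos.ne'
  have hdvd' : (H117.mult L (g : XX N) : ℤ) ∣ (k₁ - k₂) := by
    rw [mul_comm] at hdvd
    exact (mul_dvd_mul_iff_left hn0).mp hdvd
  obtain ⟨q, hq⟩ := hdvd'
  refine ⟨q, ?_⟩
  have hm0 : (H117.mult L (g : XX N) : ℤ) ≠ 0 := by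
    exact_mod_cast (H117.mult_pos L (g : XX N)).ne'
  rw [hq] at hmult
  have : (H117.mult L (g : XX N) : ℤ) * ((p : ℤ) * q)
      = (H117.mult L (g : XX N) : ℤ) * v.ord (inclRN N r / inclRN N s) := by
    rw [← hmult]; ring
  exact (mul_left_cancel₀ hm0 this).symm


/-! ### Nice powers of the four rotation elements -/

theorem nice_pow_one (n : ℕ) : Nice ((1 : SL(2, ℤ)) ^ n) := by
  left
  rw [one_pow]
  exact IsOfFinOrder.one

theorem S_pow_four : ModularGroup.S ^ 4 = 1 := by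
  apply Subtype.ext
  simp only [Matrix.SpecialLinearGroup.coe_pow, Matrix.SpecialLinearGroup.coe_one,
    ModularGroup.coe_S]
  ext i j
  fin_cases i <;> fin_cases j <;> simp [pow_succ, Matrix.mul_apply, Fin.sum_univ_two]

theorem ST_pow_six : (ModularGroup.S * ModularGroup.T) ^ 6 = 1 := by
  apply Subtype.ext
  simp only [Matrix.SpecialLinearGroup.coe_pow, Matrix.SpecialLinearGroup.coe_mul,
    Matrix.SpecialLinearGroup.coe_one, ModularGroup.coe_S, ModularGroup.coe_T]
  ext i j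
  fin_cases i <;> fin_cases j <;> simp [pow_succ, Matrix.mul_apply, Fin.sum_univ_two]

theorem nice_pow_S (n : ℕ) : Nice (ModularGroup.S ^ n) := by
  left
  exact (isOfFinOrder_iff_pow_eq_one.mpr ⟨4, by norm_num, S_pow_four⟩).pow

theorem nice_pow_ST (n : ℕ) : Nice ((ModularGroup.S * ModularGroup.T) ^ n) := by
  left
  exact (isOfFinOrder_iff_pow_eq_one.mpr ⟨6, by norm_num, ST_pow_six⟩).pow

theorem nice_pow_T (n : ℕ) : Nice (ModularGroup.T ^ n) := by
  right
  have h := ModularGroup.coe_T_zpow (n : ℤ)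
  rw [zpow_natCast] at h
  show (ModularGroup.T ^ n).1.trace = 2
  rw [h]
  simp [Matrix.trace_fin_two]

/-! ### The global statement -/

/-- **DICT.**  Let `A` be an analytic core for level `N` (e.g. `S24.H997.analyticCore N`), let
`r, s ∈ R_N` be nonzero and `h₁, h₂ ∈ Hol` nonzero with `e(r) · h₂ ^ p = c · h₁ ^ p · e(s)`,
`c ≠ 0`, and suppose `h₁ / h₂` is invariant under every element of `Γ₀(N)` of finite order or of
trace `2`.  Then `p` divides the order of `r / s` at EVERY place of the function field `FF N`. -/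
theorem dvd_ord_of_analytic_pow (A : AnalyticCore N) (p : ℕ) (r s : RN N) (hr : r ≠ 0)
    (hs : s ≠ 0) (h₁ h₂ : A.toHolBase.Hol) (hh₁ : h₁ ≠ 0) (hh₂ : h₂ ≠ 0) (c : ℂ) (hc : c ≠ 0)
    (hrel : A.toHolBase.bridge r * h₂ ^ p
      = A.toHolBase.constH c * h₁ ^ p * A.toHolBase.bridge s)
    (hinv : ∀ δ : SL(2, ℤ), δ ∈ CongruenceSubgroup.Gamma0 N → Nice δ →
      A.toHolBase.compH δ h₁ * h₂ = h₁ * A.toHolBase.compH δ h₂)
    (v : Place Kbar (FF N)) :
    (p : ℤ) ∣ v.ord (inclRN N r / inclRN N s) := by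
  classical
  obtain ⟨hfd, hle⟩ := Deg457.degree_fields N
  haveI := hfd
  have hrank : Module.finrank ↥(IntermediateField.adjoin Kbar {jF N}) (FF N)
      = Nat.card (XX N) := le_antisymm hle A.card_le_finrank
  by_cases hj : 0 ≤ v.ord (jF N)
  · haveI : Algebra.IsAlgebraic ↥(IntermediateField.adjoin Kbar {jF N}) (FF N) :=
      Algebra.IsAlgebraic.of_finite _ _
    obtain ⟨a, ha⟩ := FF.exists_ord_sub_pos v (jF N) hj
    obtain ⟨hfd', hfr⟩ :=
      finiteDimensional_and_finrank_of_eq (adjoin_sub_algebraMap Kbar (jF N) a)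
    haveI := hfd'
    have hr' := hfr.trans hrank
    have key : ∀ (ε : SL(2, ℤ)) (P : PointData A.toHolBase (ιK a) ε),
        (∀ n : ℕ, Nice (ε ^ n)) → (p : ℤ) ∣ v.ord (inclRN N r / inclRN N s) := fun ε P hε =>
      dvd_ord_mkLocalData A.toHolBase P.X ε P.R _ _ (fun g => A.sigmaG_sub P g) P.order_J hr'
        hε p r s hr hs h₁ h₂ hh₁ hh₂ c hc hrel hinv v ha
    by_cases h0 : a = 0
    · exact key (ModularGroup.S * ModularGroup.T) (by rw [h0, map_zero]; exact A.at0)
        nice_pow_ST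
    · by_cases h1 : a = 1728
      · refine key ModularGroup.S ?_ nice_pow_S
        have : ιK a = 1728 := by rw [h1]; exact map_ofNat ιK 1728
        rw [this]; exact A.at1728
      · exact key 1 (A.generic (ιK a)
          (fun h => h0 (ιK_injective (by rw [h, map_zero])))
          (fun h => h1 (ιK_injective (by rw [h]; exact (map_ofNat ιK 1728).symm))))
          nice_pow_one
  · have hjinv : 0 < v.ord (jF N)⁻¹ := by
      rw [Place.ord_inv]
      omega
    obtain ⟨hfd', hfr⟩ := finiteDimensional_and_finrank_of_eq (adjoin_inv Kbar (jF N))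
    haveI := hfd'
    have hr' := hfr.trans hrank
    exact dvd_ord_mkLocalData A.toHolBase A.toHolBase.qexpExpansion ModularGroup.T A.infRot
      (jF N)⁻¹ (A.qexp (A.toHolBase.JH 1 (one_dvd N)))⁻¹
      (fun g => by rw [map_inv₀, HolBase.sigmaG_jF]; rfl)
      (by
        rw [RotRel.order_inv' A.toHolBase.qexp_J_one_ne_zero, A.toHolBase.order_qexp_J_one,
          neg_neg]
        rfl)
      hr' nice_pow_T p r s hr hs h₁ h₂ hh₁ hh₂ c hc hrel hinv v hjinv

end Fermat.Agent.S29.H389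

end
end
-- ===== PACK-END S29/H389/Dict.lean

-- ===== PACK-BEGIN S29/H389/DictKummer.lean
section




/-!
# S29 / layer M / BR — DICT, Kummer-class form (helper389)

`exists_isKummerClass_of_analytic_pow` : in the situation of `dvd_ord_of_analytic_pow`
(`e(r) · h₂ ^ p = c · h₁ ^ p · e(s)`, `h₁ / h₂` invariant under the elliptic and parabolic elements
of `Γ₀(N)`), the function `f = r / s ∈ FF N` has a `p`-Kummer class in `J₀(N)(ℚ̄) = Pic⁰(FF N)`:
there is a degree-zero divisor `D` with `p • D = div f` (landed predicate `H455.IsKummerClass`).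
-/

set_option autoImplicit false
set_option linter.style.haveILetI false

noncomputable section

open AlgebraicCurve HahnSeries ModularCurve
open scoped MatrixGroups

namespace Fermat.Agent.S29.H389

open Fermat.Agent.S24 Fermat.Agent.S24.H997

variable {N : ℕ} [NeZero N]

/-- A divisor all of whose coefficients are divisible by `p ≠ 0` is `p` times a divisor, of
degree zero if the original one is. -/
theorem exists_divisor_div {K F : Type*} [Field K] [Field F] [Algebra K F]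
    (p : ℕ) (hp : p ≠ 0) (D₀ : Divisor K F) (hdvd : ∀ v, (p : ℤ) ∣ D₀ v)
    (hdeg : Divisor.degree D₀ = 0) :
    ∃ D : Divisor K F, Divisor.degree D = 0 ∧ ∀ v, (p : ℤ) * D v = D₀ v := by
  classical
  have hp' : (p : ℤ) ≠ 0 := by exact_mod_cast hp
  let D : Divisor K F := D₀.mapRange (fun n : ℤ => n / (p : ℤ)) (by simp)
  have hD : ∀ v, (p : ℤ) * D v = D₀ v := by
    intro v
    show (p : ℤ) * (D₀.mapRange (fun n : ℤ => n / (p : ℤ)) (by simp)) v = D₀ v
    rw [Finsupp.mapRange_apply]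
    exact Int.mul_ediv_cancel' (hdvd v)
  have hsmul : (p : ℤ) • D = D₀ := by
    ext v
    rw [Finsupp.smul_apply, smul_eq_mul, hD]
  refine ⟨D, ?_, hD⟩
  have h1 : (p : ℤ) * Divisor.degree D = 0 := by
    rw [← smul_eq_mul, ← map_zsmul, hsmul, hdeg]
  rcases mul_eq_zero.1 h1 with h | h
  · exact absurd h hp'
  · exact h

/-- **DICT, Kummer form.** -/
theorem exists_isKummerClass_of_analytic_pow (A : AnalyticCore N) (p : ℕ) (hp : p ≠ 0)
    (r s : RN N) (hr : r ≠ 0) (hs : s ≠ 0) (h₁ h₂ : A.toHolBase.Hol) (hh₁ : h₁ ≠ 0)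
    (hh₂ : h₂ ≠ 0) (c : ℂ) (hc : c ≠ 0)
    (hrel : A.toHolBase.bridge r * h₂ ^ p
      = A.toHolBase.constH c * h₁ ^ p * A.toHolBase.bridge s)
    (hinv : ∀ δ : SL(2, ℤ), δ ∈ CongruenceSubgroup.Gamma0 N → Nice δ →
      A.toHolBase.compH δ h₁ * h₂ = h₁ * A.toHolBase.compH δ h₂) :
    ∃ x : JZero N, H455.IsKummerClass (p : ℤ) (inclRN N r / inclRN N s) x := by
  have hr' : inclRN N r ≠ 0 := fun h => hr (inclRN_injective N (by rw [h, map_zero]))
  have hs' : inclRN N s ≠ 0 := fun h => hs (inclRN_injective N (by rw [h, map_zero]))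
  have hf : inclRN N r / inclRN N s ≠ 0 := div_ne_zero hr' hs'
  haveI := Fermat.Agent.Lib.RR.H864.hasPrincipalDivisors_modularFunctionFieldBar N
  obtain ⟨D₀, hD₀, hdeg₀⟩ :=
    HasPrincipalDivisors.exists_divisor (K := AlgebraicClosure ℚ) (inclRN N r / inclRN N s) hf
  obtain ⟨D, hdeg, hD⟩ := exists_divisor_div p hp D₀
    (fun v => by
      rw [hD₀ v]
      exact dvd_ord_of_analytic_pow A p r s hr hs h₁ h₂ hh₁ hh₂ c hc hrel hinv v)
    hdeg₀
  refine ⟨Pic0.mk ⟨D, hdeg⟩, hf, ⟨D, hdeg⟩, rfl, fun v => ?_⟩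
  rw [hD v, hD₀ v]

end Fermat.Agent.S29.H389

end
end
-- ===== PACK-END S29/H389/DictKummer.lean

-- ===== PACK-BEGIN S29/H282/FracK.lean
section


/-!
# S29 / M4b-K2 (helper282) — the function field of `X₀(N)` over an arbitrary field `K ⊇ ℚ`

Port of `Fermat/Agent/S24/Mod/H997Frac.lean` from `ℚ̄` to an arbitrary field `K` of
characteristic zero:

* `FFK K N`    : the function field `laurentBaseChange K (modularFunctionFieldFull N)`;
* `RNK K N`    : the `K`-subalgebra of `K((q))` generated by the `j(q^d)`, `d ∣ N`;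
* `inclRNK`    : the inclusion `RNK K N → FFK K N`;
* `liftFK`     : every injective ring hom `RNK K N →+* L` into a field extends to `FFK K N`.
-/

set_option autoImplicit false

noncomputable section

open ModularCurve HahnSeries IntermediateField

namespace Fermat.Agent.S29.H282

open Fermat.Agent.S24 Fermat.Agent.S24.Deg457

variable (K : Type*) [Field K] [Algebra ℚ K] (N : ℕ)

/-- The function field of `X₀(N)` over `K` (as a type). -/
abbrev FFK : Type _ := ↥(laurentBaseChange K (modularFunctionFieldFull N))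

/-- The function field of `X₀(N)` over `K` is generated over `K` by the `j(q^d)`, `d ∣ N`. -/
theorem ffK_eq_adjoin :
    laurentBaseChange K (modularFunctionFieldFull N) = IntermediateField.adjoin K (gens K N) := by
  apply le_antisymm
  · exact laurentBaseChange_full_le N
  · rw [laurentBaseChange]
    exact IntermediateField.adjoin.mono _ _ _
      (Set.image_mono (IntermediateField.subset_adjoin ℚ _))

/-- The polynomial ring `K[j(q^d) : d ∣ N] ⊆ K((q))`. -/
abbrev RNK : Subalgebra K (LaurentSeries K) := AK K N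

theorem RNK_le : RNK K N ≤ (laurentBaseChange K (modularFunctionFieldFull N)).toSubalgebra := by
  rw [ffK_eq_adjoin]
  exact IntermediateField.algebra_adjoin_le_adjoin K (gens K N)

/-- The inclusion `R_N → FFK K N`. -/
def inclRNK : RNK K N →ₐ[K] FFK K N := Subalgebra.inclusion (RNK_le K N)

@[simp] theorem coe_inclRNK (r : RNK K N) :
    ((inclRNK K N r : FFK K N) : LaurentSeries K) = r := rfl

theorem inclRNK_injective : Function.Injective (inclRNK K N) :=
  Subalgebra.inclusion_injective (RNK_le K N)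

theorem exists_div_inclRNK (f : FFK K N) :
    ∃ r t : RNK K N, t ≠ 0 ∧ f = inclRNK K N r / inclRNK K N t := by
  have hf : (f : LaurentSeries K) ∈ IntermediateField.adjoin K (gens K N) := by
    rw [← ffK_eq_adjoin]; exact f.2
  obtain ⟨r, hr, s, hs, h⟩ := IntermediateField.mem_adjoin_iff_div.mp hf
  by_cases hs0 : s = 0
  · refine ⟨0, 1, one_ne_zero, ?_⟩
    apply Subtype.ext
    rw [h, hs0, div_zero]
    simp
  · refine ⟨⟨r, hr⟩, ⟨s, hs⟩, fun h0 => hs0 (congrArg Subtype.val h0), ?_⟩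
    apply Subtype.ext
    rw [h]
    simp

/-- The generator `j(q^d)` as an element of `R_N`. -/
def jRK (d : ℕ) [NeZero d] (hd : d ∣ N) : RNK K N :=
  ⟨coeffEmb K (qExpand ℚ d jq),
    Algebra.subset_adjoin ⟨_, mem_divisorExpansions N hd, rfl⟩⟩

/-- The `j`-function as an element of the function field of `X₀(N)` over `K`. -/
def jFK [NeZero N] : FFK K N :=
  ⟨coeffEmb K jq,
    coeffEmb_mem_laurentBaseChange K (modularFunctionField_le_full N (jq_mem N))⟩

theorem inclRNK_jRK_one [NeZero N] : inclRNK K N (jRK K N 1 (one_dvd N)) = jFK K N := by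
  apply Subtype.ext
  simp [jRK, jFK, qExpand_one_apply]

theorem jFK_Kbar [NeZero N] : jFK Kbar N = jF N := rfl

section Lift

variable {K N}
variable {L : Type*} [Field L]

/-- Extension of an injective ring hom `R_N →+* L` to the fraction field `FFK K N`. -/
def liftFK (s : RNK K N →+* L) (hs : Function.Injective s) : FFK K N →+* L :=
  letI : Algebra (RNK K N) (FFK K N) := (inclRNK K N).toRingHom.toAlgebra
  haveI : FaithfulSMul (RNK K N) (FFK K N) :=
    (faithfulSMul_iff_algebraMap_injective _ _).mpr (inclRNK_injective K N)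
  haveI : IsFractionRing (RNK K N) (FFK K N) :=
    IsFractionRing.of_field _ _ fun z => by
      obtain ⟨r, t, -, h⟩ := exists_div_inclRNK K N z
      exact ⟨r, t, h⟩
  IsFractionRing.lift hs

theorem liftFK_inclRNK (s : RNK K N →+* L) (hs : Function.Injective s) (r : RNK K N) :
    liftFK s hs (inclRNK K N r) = s r := by
  let _ : Algebra (RNK K N) (FFK K N) := (inclRNK K N).toRingHom.toAlgebra
  have : FaithfulSMul (RNK K N) (FFK K N) :=
    (faithfulSMul_iff_algebraMap_injective _ _).mpr (inclRNK_injective K N)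
  have : IsFractionRing (RNK K N) (FFK K N) :=
    IsFractionRing.of_field _ _ fun z => by
      obtain ⟨r, t, -, h⟩ := exists_div_inclRNK K N z
      exact ⟨r, t, h⟩
  exact IsFractionRing.lift_algebraMap hs r

theorem liftFK_div (s : RNK K N →+* L) (hs : Function.Injective s) (r t : RNK K N) :
    liftFK s hs (inclRNK K N r / inclRNK K N t) = s r / s t := by
  rw [map_div₀, liftFK_inclRNK, liftFK_inclRNK]

theorem liftFK_algebraMap (s : RNK K N →+* L) (hs : Function.Injective s) (c : K) :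
    liftFK s hs (algebraMap K (FFK K N) c) = s (algebraMap K (RNK K N) c) := by
  rw [← liftFK_inclRNK s hs]
  congr 1

end Lift

end Fermat.Agent.S29.H282

end
end
-- ===== PACK-END S29/H282/FracK.lean

-- ===== PACK-BEGIN S29/H282/BridgeK.lean
section


/-!
# S29 / M4b-K2 (helper282) — the bridge `R_N(K) → Hol` for an arbitrary coefficient field `K ⊆ ℂ`

Port of the second half of `Fermat/Agent/S24/Mod/H997Bridge.lean` from `(ℚ̄, ιK)` to an arbitrary
field `K` with a ring hom `ι : K →+* ℂ`.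
-/

set_option autoImplicit false

noncomputable section

open ModularCurve HahnSeries UpperHalfPlane
open scoped MatrixGroups

namespace Fermat.Agent.S29.H282

open Fermat.Agent.S24 Fermat.Agent.S24.H997 Fermat.Agent.S24.Deg457

variable {K : Type*} [Field K] [Algebra ℚ K] (ι : K →+* ℂ)
variable {N : ℕ} [NeZero N] (B : HolBase N)

theorem ι_algebraMap (c : ℚ) : ι (algebraMap ℚ K c) = (c : ℂ) := by
  have h : ι.comp (algebraMap ℚ K) = algebraMap ℚ ℂ := Subsingleton.elim _ _
  have := congrArg (fun f : ℚ →+* ℂ => f c) h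
  simpa using this

/-- The formal comparison map `K((q)) → ℂ((z))`, `q ↦ z^N`, coefficients via `ι`. -/
def ΦK (N : ℕ) [NeZero N] : LaurentSeries K →+* LaurentSeries ℂ :=
  (qExpand ℂ N).comp (coeffMap ι)

theorem ΦK_injective : Function.Injective (ΦK ι N) := by
  intro x y h
  have h1 : coeffMap ι x = coeffMap ι y := qExpand_injective N h
  ext k
  apply ι.injective
  have := congrArg (fun s => s.coeff k) h1
  simpa using this

theorem ΦK_coeff (x : LaurentSeries K) (k : ℤ) :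
    (ΦK ι N x).coeff k = if (N : ℤ) ∣ k then ι (x.coeff (k / N)) else 0 := by
  split_ifs with h
  · obtain ⟨m, rfl⟩ := h
    have hN : (N : ℤ) ≠ 0 := by exact_mod_cast NeZero.ne N
    rw [Int.mul_ediv_cancel_left _ hN]
    show (qExpand ℂ N (coeffMap ι x)).coeff (N * m) = _
    rw [qExpand_coeff_mul]; rfl
  · exact qExpand_coeff_of_not_dvd N _ h

theorem ΦK_algebraMap (c : K) :
    ΦK ι N (algebraMap K (LaurentSeries K) c) = HahnSeries.C (ι c) := by
  rw [algebraMap_laurentSeries_eq_single]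
  show qExpand ℂ N (coeffMap ι (HahnSeries.single 0 c)) = _
  rw [coeffMap_single, qExpand_single, mul_zero]; rfl

theorem ΦK_gen (d : ℕ) [NeZero d] (hd : d ∣ N) :
    ΦK ι N (coeffEmb K (qExpand ℚ d jq)) = B.qexp (B.JH d hd) := by
  ext k
  rw [ΦK_coeff]
  show _ = (B.qexp ⟨B.J d, B.J_mem d hd⟩).coeff k
  rw [B.qexp_J d hd k]
  have hN : (N : ℤ) ≠ 0 := by exact_mod_cast NeZero.ne N
  have hd0 : (d : ℤ) ≠ 0 := by exact_mod_cast NeZero.ne d
  by_cases h1 : (N : ℤ) ∣ k
  · obtain ⟨m, rfl⟩ := h1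
    rw [if_pos (dvd_mul_right _ _), Int.mul_ediv_cancel_left _ hN, coeffEmb_coeff, ι_algebraMap]
    by_cases h2 : (d : ℤ) ∣ m
    · obtain ⟨l, rfl⟩ := h2
      have h3 : ((N * d : ℕ) : ℤ) ∣ (N : ℤ) * (d * l) := ⟨l, by push_cast; ring⟩
      rw [if_pos h3, qExpand_coeff_mul]
      have : (N : ℤ) * (d * l) / ((N * d : ℕ) : ℤ) = l := by
        have h4 : (N : ℤ) * (d * l) = ((N * d : ℕ) : ℤ) * l := by push_cast; ring
        rw [h4, Int.mul_ediv_cancel_left]
        exact_mod_cast (Nat.mul_ne_zero (NeZero.ne N) (NeZero.ne d))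
      rw [this]
    · have h3 : ¬ ((N * d : ℕ) : ℤ) ∣ (N : ℤ) * m := by
        rintro ⟨l, hl⟩
        apply h2
        refine ⟨l, ?_⟩
        have : (N : ℤ) * m = N * (d * l) := by rw [hl]; push_cast; ring
        exact mul_left_cancel₀ hN this
      rw [if_neg h3, qExpand_coeff_of_not_dvd d _ h2]
      simp
  · have h3 : ¬ ((N * d : ℕ) : ℤ) ∣ k := by
      intro h; apply h1
      exact dvd_trans ⟨(d : ℤ), by push_cast; ring⟩ h
    rw [if_neg h1, if_neg h3]

theorem ΦK_mem_range {r : LaurentSeries K} (hr : r ∈ RNK K N) : ΦK ι N r ∈ B.qexp.range := by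
  induction hr using Algebra.adjoin_induction with
  | mem x hx =>
      obtain ⟨y, ⟨d, hne, hd, rfl⟩, rfl⟩ := hx
      exact ⟨B.JH d hd, (ΦK_gen ι B d hd).symm⟩
  | algebraMap c =>
      exact ⟨B.constH (ι c), by rw [ΦK_algebraMap]; exact B.qexp_const _⟩
  | add _ _ _ _ hx hy => rw [map_add]; exact add_mem hx hy
  | mul _ _ _ _ hx hy => rw [map_mul]; exact mul_mem hx hy

/-- The bridge `e : R_N(K) →+* Hol`. -/
def bridgeK : RNK K N →+* B.Hol :=
  (B.qexpEquiv.symm : B.qexp.range →+* B.Hol).comp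
    (((ΦK ι N).comp (RNK K N).val.toRingHom).codRestrict B.qexp.range
      fun r => ΦK_mem_range ι B r.2)

theorem qexp_bridgeK (r : RNK K N) :
    B.qexp (bridgeK ι B r) = ΦK ι N (r : LaurentSeries K) := by
  have h := B.qexpEquiv.apply_symm_apply
    ((((ΦK ι N).comp (RNK K N).val.toRingHom).codRestrict B.qexp.range
      fun r => ΦK_mem_range ι B r.2) r)
  exact congrArg Subtype.val h

theorem bridgeK_injective : Function.Injective (bridgeK ι B) := by
  intro r r' h
  apply Subtype.ext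
  apply ΦK_injective ι (N := N)
  rw [← qexp_bridgeK, ← qexp_bridgeK, h]

theorem bridgeK_algebraMap (c : K) :
    bridgeK ι B (algebraMap K (RNK K N) c) = B.constH (ι c) := by
  apply B.qexp_injective
  rw [qexp_bridgeK]
  show ΦK ι N (algebraMap K (LaurentSeries K) c) = _
  rw [ΦK_algebraMap]
  exact (B.qexp_const _).symm

theorem bridgeK_jRK (d : ℕ) [NeZero d] (hd : d ∣ N) :
    bridgeK ι B (jRK K N d hd) = B.JH d hd := by
  apply B.qexp_injective
  rw [qexp_bridgeK]
  exact ΦK_gen ι B d hd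

/-- Every `e r` is `Γ₀(N)`-invariant. -/
theorem compH_bridgeK_of_mem {g : SL(2, ℤ)} (hg : g ∈ CongruenceSubgroup.Gamma0 N)
    (r : RNK K N) : B.compH g (bridgeK ι B r) = bridgeK ι B r := by
  obtain ⟨r, hr⟩ := r
  induction hr using Algebra.adjoin_induction with
  | mem x hx =>
      obtain ⟨y, ⟨d, hne, hd, rfl⟩, rfl⟩ := hx
      have : (⟨coeffEmb K (qExpand ℚ d jq), Algebra.subset_adjoin
          ⟨_, ⟨d, hne, hd, rfl⟩, rfl⟩⟩ : RNK K N) = jRK K N d hd := rfl
      rw [this, bridgeK_jRK]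
      exact B.compH_JH_of_mem d hd hg
  | algebraMap c =>
      have : (⟨algebraMap K (LaurentSeries K) c, Subalgebra.algebraMap_mem _ c⟩ : RNK K N)
          = algebraMap K (RNK K N) c := rfl
      rw [this, bridgeK_algebraMap]
      rfl
  | add x y hx hy ihx ihy =>
      have : (⟨x + y, add_mem hx hy⟩ : RNK K N) = ⟨x, hx⟩ + ⟨y, hy⟩ := rfl
      rw [this, map_add, map_add, ihx, ihy]
  | mul x y hx hy ihx ihy =>
      have : (⟨x * y, mul_mem hx hy⟩ : RNK K N) = ⟨x, hx⟩ * ⟨y, hy⟩ := rfl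
      rw [this, map_mul, map_mul, ihx, ihy]

end Fermat.Agent.S29.H282

end
end
-- ===== PACK-END S29/H282/BridgeK.lean

-- ===== PACK-BEGIN S15/H782/UValFinal.lean
section


/-!
# S15, node GEO, piece UVAL (helper782): final statements in the Prelude's vocabulary

`W : WeierstrassCurve ℤ`, `Q` a point of odd prime order `p` over `ℚ̄`, `A` a place of `ℚ̄` over a
prime `ℓ ≠ p` of multiplicative reduction (`ℓ ∣ Δ`, `ℓ ∤ c₄`; `ℓ = 2, 3` allowed):

* `val_unitU_pow_of_not_inZeroComponentAt` : `Q ∉ E⁰`  ⟹  `v_A(U) ^ p = v_A(Δ) ^ (p - 1)`;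
* `val_unitU_lt_one_of_not_inZeroComponentAt` : `Q ∉ E⁰`  ⟹  `v_A(U) < 1`   (`ord_A U > 0`);
* `one_lt_val_unitU_of_inZeroComponentAt`     : `Q ∈ E⁰`  ⟹  `1 < v_A(U)`   (`ord_A U < 0`).

So the sign of `ord_A U(W, Q)` detects the component of `Q`; no Newton polygon of the modular
equation is needed.
-/

set_option autoImplicit false

namespace Fermat.Agent.S15.H782

open WeierstrassCurve WeierstrassCurve.Affine
open Fermat.Agent.S05.SameRed (IntegralCoeffs InKer)
open Fermat.Agent.Lib.Red.H290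
open Fermat.Agent.S15.H242
open Fermat.Agent.S13.H365

section bridge

variable {K : Type*} [Field K] [DecidableEq K] {κ : Type*} [Field κ] [DecidableEq κ]
variable {A : ValuationSubring K} {φ : A →+* κ} {W : Affine K} {Wκ : Affine κ}

omit [DecidableEq κ] in
/-- `E⁰` of a node model (points away from the node) is contained in the locus of nonsingular
reduction. -/
theorem inE0_of_nodeModel_inE0 (h : IsRedOf A φ W Wκ) (hφ : KerMax A φ)
    (M : NodeModel A.valuation W) (he : A.valuation M.e ≤ 1) {P : W.Point} (hP : M.InE0 P) :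
    InE0 A φ Wκ P := by
  rcases P with _ | ⟨x, y, hxy⟩
  · exact inE0_zero
  · intro hx
    have hy : y ∈ A := y_mem_of_x_mem h hxy.1 hx
    have hxv : A.valuation x ≤ 1 := val_le_of_mem hx
    have hyv : A.valuation y ≤ 1 := val_le_of_mem hy
    have hξ : A.valuation (x - M.e) = 1 :=
      le_antisymm (Valuation.map_sub_le _ hxv he) hP
    have heq := rd_equation h hx hy hxy.1
    obtain ⟨hmemY, hrdY⟩ := rd_psiTwoExpr h hx hy
    obtain ⟨hmemX, hrdX⟩ := rd_slopeNum h hx hy
    rw [Affine.nonsingular_iff']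
    refine ⟨heq, ?_⟩
    rcases M.nonsingular_red h.integralCoeffs hxy.1 hxv hyv hξ with hX | hY
    · left
      have hX' : A.valuation (3 * x ^ 2 + 2 * W.a₂ * x + W.a₄ - W.a₁ * y) = 1 := by
        rw [← Valuation.map_neg, neg_sub]; exact hX
      have := (rd_ne_zero_iff hφ hmemX).mpr hX'
      rw [hrdX] at this
      intro h0
      exact this (by linear_combination -h0)
    · right
      have := (rd_ne_zero_iff hφ hmemY).mpr hY
      rwa [hrdY] at this

end bridge

section final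

variable {W : WeierstrassCurve ℤ} {A : ValuationSubring (AlgebraicClosure ℚ)}

lemma Δ_bar_eq (W : WeierstrassCurve ℤ) :
    ((W.map (Int.castRingHom ℚ))⁄(AlgebraicClosure ℚ)).Δ = ((W.Δ : ℤ) : AlgebraicClosure ℚ) := by
  show ((W.map (Int.castRingHom ℚ)).map (algebraMap ℚ (AlgebraicClosure ℚ))).Δ = _
  rw [WeierstrassCurve.map_Δ, WeierstrassCurve.map_Δ]
  simp

lemma c₄_bar_eq (W : WeierstrassCurve ℤ) :
    ((W.map (Int.castRingHom ℚ))⁄(AlgebraicClosure ℚ)).c₄ = ((W.c₄ : ℤ) : AlgebraicClosure ℚ) := by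
  show ((W.map (Int.castRingHom ℚ)).map (algebraMap ℚ (AlgebraicClosure ℚ))).c₄ = _
  rw [WeierstrassCurve.map_c₄, WeierstrassCurve.map_c₄]
  simp

/-- A node model of `W` at a place over a multiplicative prime. -/
theorem exists_nodeModel_int (hΔ : W.Δ ≠ 0) {ℓ : ℕ} (hℓ : ℓ.Prime) (hℓΔ : (ℓ : ℤ) ∣ W.Δ)
    (hℓc₄ : ¬ (ℓ : ℤ) ∣ W.c₄) (hA : A.LiesOverPrime ℓ) :
    ∃ M : NodeModel A.valuation ((W.map (Int.castRingHom ℚ))⁄(AlgebraicClosure ℚ)),
      A.valuation M.e ≤ 1 := by
  refine exists_nodeModel two_ne_zero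
    (isRedOf_int A W (IsLocalRing.residue A)).integralCoeffs ?_ ?_ ?_
  · rw [c₄_bar_eq]; exact val_intCast_eq_one A hA hℓ hℓc₄
  · rw [Δ_bar_eq]; exact val_Δ_lt_one hℓΔ hA
  · rw [Δ_bar_eq]; exact Int.cast_ne_zero.mpr hΔ

/-- **UVAL (b)-EXACT.**  `Q ∉ E⁰` at a place over a multiplicative prime `ℓ ≠ p`:
`v_A(U(W,Q)) ^ p = v_A(Δ) ^ (p - 1)`, i.e. `ord_A U = (p - 1)/p · ord_A Δ`. -/
theorem val_unitU_pow_of_not_inZeroComponentAt {p : ℕ} (hp : p.Prime) (hp2 : p ≠ 2)
    (hΔ : W.Δ ≠ 0) {Q : PtsBar W} (hord : addOrderOf Q = p) {ℓ : ℕ} (hℓ : ℓ.Prime)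
    (hℓp : ℓ ≠ p) (hℓΔ : (ℓ : ℤ) ∣ W.Δ) (hℓc₄ : ¬ (ℓ : ℤ) ∣ W.c₄) (hA : A.LiesOverPrime ℓ)
    (hQ0 : ¬ W.InZeroComponentAt A Q) :
    A.valuation (unitU W p Q) ^ p = A.valuation ((W.Δ : ℤ) : AlgebraicClosure ℚ) ^ (p - 1) := by
  obtain ⟨m, rfl⟩ : ∃ m, p = 2 * m + 1 := by
    rcases hp.eq_two_or_odd' with h | h
    · exact absurd h hp2
    · exact h
  obtain ⟨M, he⟩ := exists_nodeModel_int hΔ hℓ hℓΔ hℓc₄ hA
  have hred := isRedOf_int A W (IsLocalRing.residue A)
  have hQ : ¬ M.InE0 Q := fun h =>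
    hQ0 (_root_.Fermat.Agent.S15.H782.inZeroComponentAt_of_inE0 W A (inE0_of_nodeModel_inE0 hred (kerMax_residue A) M he h))
  have hprod := val_psiProd_pow_of_not_inE0 M hp hord hQ
  have hvΔ : A.valuation ((W.Δ : ℤ) : AlgebraicClosure ℚ) = A.valuation M.a ^ 2 := by
    rw [← Δ_bar_eq]; exact nodeModel_val_Δ M
  have hv : A.valuation (((2 * m + 1 : ℕ)) : AlgebraicClosure ℚ) = 1 :=
    val_natCast_eq_one A hA hℓ hp hℓp
  have hΔ0 : A.valuation ((W.Δ : ℤ) : AlgebraicClosure ℚ) ≠ 0 :=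
    (Valuation.ne_zero_iff _).mpr (Int.cast_ne_zero.mpr hΔ)
  have hmul : A.valuation (unitU W (2 * m + 1) Q) *
      A.valuation ((W.Δ : ℤ) : AlgebraicClosure ℚ) ^ (2 * m + 1 - 1) =
      A.valuation (psiProd _ Q (2 * m + 1)) ^ 4 := by
    rw [← map_pow, ← map_mul, unitU_mul_Δ_pow W hΔ, map_mul, map_pow, map_pow, hv, one_pow,
      one_mul]
  have h1 : 2 * m + 1 - 1 = 2 * m := by omega
  rw [h1] at hmul ⊢
  have key : A.valuation (unitU W (2 * m + 1) Q) ^ (2 * m + 1) *
      A.valuation ((W.Δ : ℤ) : AlgebraicClosure ℚ) ^ (2 * m * (2 * m + 1)) =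
      A.valuation ((W.Δ : ℤ) : AlgebraicClosure ℚ) ^ (2 * m) *
        A.valuation ((W.Δ : ℤ) : AlgebraicClosure ℚ) ^ (2 * m * (2 * m + 1)) := by
    rw [pow_mul, ← mul_pow, hmul, ← pow_mul, mul_comm 4, pow_mul, hprod, hvΔ, ← pow_mul,
      ← pow_mul, ← pow_mul, ← pow_add]
    congr 1
    ring
  exact mul_right_cancel₀ (pow_ne_zero _ hΔ0) key

/-- **UVAL (b), sign.**  `Q ∉ E⁰` at a multiplicative place `A ∣ ℓ ≠ p` ⟹ `v_A(U) < 1`. -/
theorem val_unitU_lt_one_of_not_inZeroComponentAt {p : ℕ} (hp : p.Prime) (hp2 : p ≠ 2)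
    (hΔ : W.Δ ≠ 0) {Q : PtsBar W} (hord : addOrderOf Q = p) {ℓ : ℕ} (hℓ : ℓ.Prime)
    (hℓp : ℓ ≠ p) (hℓΔ : (ℓ : ℤ) ∣ W.Δ) (hℓc₄ : ¬ (ℓ : ℤ) ∣ W.c₄) (hA : A.LiesOverPrime ℓ)
    (hQ0 : ¬ W.InZeroComponentAt A Q) : A.valuation (unitU W p Q) < 1 := by
  have h := val_unitU_pow_of_not_inZeroComponentAt hp hp2 hΔ hord hℓ hℓp hℓΔ hℓc₄ hA hQ0
  have hlt : A.valuation ((W.Δ : ℤ) : AlgebraicClosure ℚ) ^ (p - 1) < 1 :=
    pow_lt_one₀ zero_le (val_Δ_lt_one hℓΔ hA) (by have := hp.two_le; omega)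
  rw [← h] at hlt
  by_contra hcon
  exact absurd hlt (not_lt.mpr (one_le_pow₀ (not_lt.mp hcon)))

/-- **UVAL (a), sign.**  `Q ∈ E⁰` at a multiplicative place `A ∣ ℓ ≠ p` ⟹ `1 < v_A(U)`. -/
theorem one_lt_val_unitU_of_inZeroComponentAt {p : ℕ} (hp : p.Prime) (hp2 : p ≠ 2)
    (hΔ : W.Δ ≠ 0) {Q : PtsBar W} (hord : addOrderOf Q = p) {ℓ : ℕ} (hℓ : ℓ.Prime)
    (hℓp : ℓ ≠ p) (hℓΔ : (ℓ : ℤ) ∣ W.Δ) (hA : A.LiesOverPrime ℓ)
    (hQ0 : W.InZeroComponentAt A Q) : 1 < A.valuation (unitU W p Q) := by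
  have h := val_unitU_of_inZeroComponentAt hp hp2 hΔ hord hℓ hℓp hA hQ0
  have hlt : A.valuation ((W.Δ : ℤ) : AlgebraicClosure ℚ) ^ (p - 1) < 1 :=
    pow_lt_one₀ zero_le (val_Δ_lt_one hℓΔ hA) (by have := hp.two_le; omega)
  by_contra hcon
  have hle : A.valuation (unitU W p Q) ≤ 1 := not_lt.mp hcon
  have : A.valuation (unitU W p Q) *
      A.valuation ((W.Δ : ℤ) : AlgebraicClosure ℚ) ^ (p - 1) < 1 :=
    lt_of_le_of_lt (mul_le_of_le_one_left zero_le hle) hlt
  rw [h] at this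
  exact lt_irrefl _ this

end final

end Fermat.Agent.S15.H782

end
-- ===== PACK-END S15/H782/UValFinal.lean

-- ===== PACK-BEGIN S15/H542/VeluDiscVal.lean
section




/-!
# S15, node GEO, piece DISC (helper542): the residue disc of the moduli point

`W : WeierstrassCurve ℤ`, `E = curveBar W`, `Q ∈ E(ℚ̄)` of prime order `p > 5`,
`E' = veluCurve E Q p`, `A` a valuation subring of `ℚ̄` over a prime `ℓ ≠ p` of multiplicative
reduction (`ℓ ∣ Δ`, `ℓ ∤ c₄`).  Then `1 < v_A(j(E))` and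

* `val_jInv_velu_of_inZeroComponentAt`     : `Q ∈ E⁰`  ⟹  `v_A(j(E')) = v_A(j(E)) ^ p`;
* `val_jInv_velu_of_not_inZeroComponentAt` : `Q ∉ E⁰`  ⟹  `v_A(j(E')) ^ p = v_A(j(E))`.

(`(j(E), j(E'))` is in the residue disc of the cusp `∞`, resp. `0`, of `X₀(p)`.)

Ingredients: `velu_disc` (`Δ(E') ψ⁴ = Δ(E)^p`), helper782's `unitU` valuations,
helper651's `val_c₄_veluCurve`.
-/

set_option autoImplicit false

noncomputable section

open WeierstrassCurve
open scoped WeierstrassCurve.Affine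

namespace Fermat.Agent.S15.H542

open Fermat.Agent.S15.H782 Fermat.Agent.Lib.Red.H290 Fermat.Agent.S15.H242

section

variable {W : WeierstrassCurve ℤ} {A : ValuationSubring (AlgebraicClosure ℚ)}

/-- The two conventions for `∏ ψ₂(kQ)` agree for a point of prime order. -/
theorem psiProdOf_eq_psiProd {p : ℕ} (hp : p.Prime) (E : WeierstrassCurve (AlgebraicClosure ℚ))
    (Q : E.toAffine.Point) (hord : addOrderOf Q = p) :
    psiProdOf E Q p = psiProd E.toAffine Q p := by
  unfold psiProdOf psiProd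
  refine Finset.prod_congr rfl fun k hk => ?_
  rw [Finset.mem_Ioo] at hk
  have hne : k • Q ≠ 0 := by
    intro h0
    have hd : p ∣ k := by
      rw [← hord]
      exact addOrderOf_dvd_of_nsmul_eq_zero h0
    have := Nat.le_of_dvd hk.1 hd
    omega
  rcases hkQ : k • Q with _ | ⟨x, y, hxy⟩
  · exact absurd hkQ hne
  · rfl

/-- `Δ(E') · U = p¹² · Δ(E)`. -/
theorem Δ_velu_mul_unitU {p : ℕ} (hp : p.Prime) (hp2 : p ≠ 2) (hΔ : W.Δ ≠ 0)
    {Q : PtsBar W} (hord : addOrderOf Q = p) :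
    (veluCurve (curveBar W) Q p).Δ * unitU W p Q =
      (p : AlgebraicClosure ℚ) ^ 12 * ((W.Δ : ℤ) : AlgebraicClosure ℚ) := by
  have hΔ' : ((W.Δ : ℤ) : AlgebraicClosure ℚ) ≠ 0 := Int.cast_ne_zero.mpr hΔ
  have hΔbar : (curveBar W).Δ ≠ 0 := by
    rw [show (curveBar W).Δ = ((W.Δ : ℤ) : AlgebraicClosure ℚ) from Δ_bar_eq W]
    exact hΔ'
  have h1 := velu_disc hp hp2 (curveBar W) hΔbar Q hord
  rw [psiProdOf_eq_psiProd hp _ Q hord,
    show (curveBar W).Δ = ((W.Δ : ℤ) : AlgebraicClosure ℚ) from Δ_bar_eq W] at h1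
  have h2 := unitU_mul_Δ_pow W hΔ p Q
  have h0 : ((W.Δ : ℤ) : AlgebraicClosure ℚ) ^ (p - 1) ≠ 0 := pow_ne_zero _ hΔ'
  apply mul_right_cancel₀ h0
  have hpow : ((W.Δ : ℤ) : AlgebraicClosure ℚ) ^ p =
      ((W.Δ : ℤ) : AlgebraicClosure ℚ) * ((W.Δ : ℤ) : AlgebraicClosure ℚ) ^ (p - 1) := by
    rw [← pow_succ', Nat.sub_add_cancel hp.one_le]
  calc (veluCurve (curveBar W) Q p).Δ * unitU W p Q * ((W.Δ : ℤ) : AlgebraicClosure ℚ) ^ (p - 1)
      = (veluCurve (curveBar W) Q p).Δ *
          (unitU W p Q * ((W.Δ : ℤ) : AlgebraicClosure ℚ) ^ (p - 1)) := by ring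
    _ = (p : AlgebraicClosure ℚ) ^ 12 *
          ((veluCurve (curveBar W) Q p).Δ * psiProd _ Q p ^ 4) := by rw [h2]; ring
    _ = (p : AlgebraicClosure ℚ) ^ 12 * ((W.Δ : ℤ) : AlgebraicClosure ℚ) ^ p := by rw [h1]
    _ = (p : AlgebraicClosure ℚ) ^ 12 * ((W.Δ : ℤ) : AlgebraicClosure ℚ) *
          ((W.Δ : ℤ) : AlgebraicClosure ℚ) ^ (p - 1) := by
        rw [hpow]
        ring

/-- `v_A(Δ(E')) · v_A(U) = v_A(Δ(E))` at a place over `ℓ ≠ p`. -/
theorem val_Δ_velu_mul_val_unitU {p : ℕ} (hp : p.Prime) (hp2 : p ≠ 2) (hΔ : W.Δ ≠ 0)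
    {Q : PtsBar W} (hord : addOrderOf Q = p) {ℓ : ℕ} (hℓ : ℓ.Prime) (hℓp : ℓ ≠ p)
    (hA : A.LiesOverPrime ℓ) :
    A.valuation (veluCurve (curveBar W) Q p).Δ * A.valuation (unitU W p Q) =
      A.valuation ((W.Δ : ℤ) : AlgebraicClosure ℚ) := by
  have hv : A.valuation ((p : ℕ) : AlgebraicClosure ℚ) = 1 := val_natCast_eq_one A hA hℓ hp hℓp
  rw [← map_mul, Δ_velu_mul_unitU hp hp2 hΔ hord, map_mul, map_pow, hv, one_pow, one_mul]

/-- `c₄(E')` is a unit at a place of multiplicative reduction over `ℓ ≠ p`. -/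
theorem val_c₄_velu {p : ℕ} (hp : p.Prime) (hp5 : 5 < p)
    {Q : PtsBar W} (hord : addOrderOf Q = p) {ℓ : ℕ} (hℓ : ℓ.Prime) (hℓp : ℓ ≠ p)
    (hℓΔ : (ℓ : ℤ) ∣ W.Δ) (hℓc₄ : ¬ (ℓ : ℤ) ∣ W.c₄) (hA : A.LiesOverPrime ℓ) :
    A.valuation (veluCurve (curveBar W) Q p).c₄ = 1 := by
  classical
  have hv : A.valuation ((p : ℕ) : AlgebraicClosure ℚ) = 1 := val_natCast_eq_one A hA hℓ hp hℓp
  have hred := isRedOf_int A W (IsLocalRing.residue A)
  have hφ := kerMax_residue A
  have hsq : ∀ a : AlgebraicClosure ℚ, ∃ b : AlgebraicClosure ℚ, b ^ 2 = a := fun a =>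
    IsAlgClosed.exists_pow_nat_eq a (by norm_num)
  have hΔκ : (W⁄(IsLocalRing.ResidueField A)).Δ = 0 := by
    show (W.map (algebraMap ℤ (IsLocalRing.ResidueField A))).Δ = 0
    rw [WeierstrassCurve.map_Δ]
    have h1 : rd A (IsLocalRing.residue A) ((W.Δ : ℤ) : AlgebraicClosure ℚ) =
        ((W.Δ : ℤ) : IsLocalRing.ResidueField A) := rd_intCast A _ _
    have h2 := rd_eq_zero_of_lt (φ := IsLocalRing.residue A) hφ (val_Δ_lt_one hℓΔ hA)
    rw [h1] at h2
    simpa using h2
  have hcκ : (W⁄(IsLocalRing.ResidueField A)).c₄ ≠ 0 := by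
    show (W.map (algebraMap ℤ (IsLocalRing.ResidueField A))).c₄ ≠ 0
    rw [WeierstrassCurve.map_c₄]
    have h1 : rd A (IsLocalRing.residue A) ((W.c₄ : ℤ) : AlgebraicClosure ℚ) =
        ((W.c₄ : ℤ) : IsLocalRing.ResidueField A) := rd_intCast A _ _
    have h2 := (rd_ne_zero_iff (φ := IsLocalRing.residue A) hφ (intCast_mem A W.c₄)).mpr
      (val_intCast_eq_one A hA hℓ hℓc₄)
    rw [h1] at h2
    simpa using h2
  exact Fermat.Agent.S12.H651.val_c₄_veluCurve hred hφ hsq hp hp5 hv hord hΔκ hcκ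

/-- `v_A(j(E)) = v_A(Δ)⁻¹`. -/
theorem val_jInv_curveBar {ℓ : ℕ} (hℓ : ℓ.Prime) (hℓc₄ : ¬ (ℓ : ℤ) ∣ W.c₄)
    (hA : A.LiesOverPrime ℓ) :
    A.valuation (jInv (curveBar W)) = (A.valuation ((W.Δ : ℤ) : AlgebraicClosure ℚ))⁻¹ := by
  unfold jInv
  rw [show (curveBar W).Δ = ((W.Δ : ℤ) : AlgebraicClosure ℚ) from Δ_bar_eq W,
    show (curveBar W).c₄ = ((W.c₄ : ℤ) : AlgebraicClosure ℚ) from c₄_bar_eq W]
  exact val_j_of_mult hℓ hℓc₄ hA

/-- `1 < v_A(j(E))` at a multiplicative place. -/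
theorem one_lt_val_jInv_curveBar (hΔ : W.Δ ≠ 0) {ℓ : ℕ} (hℓ : ℓ.Prime) (hℓΔ : (ℓ : ℤ) ∣ W.Δ)
    (hℓc₄ : ¬ (ℓ : ℤ) ∣ W.c₄) (hA : A.LiesOverPrime ℓ) :
    1 < A.valuation (jInv (curveBar W)) := by
  rw [val_jInv_curveBar hℓ hℓc₄ hA]
  have h0 : 0 < A.valuation ((W.Δ : ℤ) : AlgebraicClosure ℚ) :=
    (Valuation.pos_iff _).mpr (Int.cast_ne_zero.mpr hΔ)
  exact (one_lt_inv₀ h0).mpr (val_Δ_lt_one hℓΔ hA)

/-- `v_A(j(E')) = v_A(Δ(E'))⁻¹`. -/
theorem val_jInv_velu {p : ℕ} (hp : p.Prime) (hp5 : 5 < p)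
    {Q : PtsBar W} (hord : addOrderOf Q = p) {ℓ : ℕ} (hℓ : ℓ.Prime) (hℓp : ℓ ≠ p)
    (hℓΔ : (ℓ : ℤ) ∣ W.Δ) (hℓc₄ : ¬ (ℓ : ℤ) ∣ W.c₄) (hA : A.LiesOverPrime ℓ) :
    A.valuation (jInv (veluCurve (curveBar W) Q p)) =
      (A.valuation (veluCurve (curveBar W) Q p).Δ)⁻¹ := by
  unfold jInv
  rw [map_div₀, map_pow, val_c₄_velu hp hp5 hord hℓ hℓp hℓΔ hℓc₄ hA, one_pow, one_div]

/-- **DISC, cusp `∞`.**  `Q ∈ E⁰` at a multiplicative place `A ∣ ℓ ≠ p`:
`v_A(j(E/⟨Q⟩)) = v_A(j(E)) ^ p`. -/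
theorem val_jInv_velu_of_inZeroComponentAt {p : ℕ} (hp : p.Prime) (hp5 : 5 < p) (hΔ : W.Δ ≠ 0)
    {Q : PtsBar W} (hord : addOrderOf Q = p) {ℓ : ℕ} (hℓ : ℓ.Prime) (hℓp : ℓ ≠ p)
    (hℓΔ : (ℓ : ℤ) ∣ W.Δ) (hℓc₄ : ¬ (ℓ : ℤ) ∣ W.c₄) (hA : A.LiesOverPrime ℓ)
    (hQ0 : W.InZeroComponentAt A Q) :
    A.valuation (jInv (veluCurve (curveBar W) Q p)) = A.valuation (jInv (curveBar W)) ^ p := by
  have hp2 : p ≠ 2 := by omega
  rw [val_jInv_velu hp hp5 hord hℓ hℓp hℓΔ hℓc₄ hA, val_jInv_curveBar hℓ hℓc₄ hA, inv_pow]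
  congr 1
  have h1 := val_Δ_velu_mul_val_unitU (A := A) hp hp2 hΔ hord hℓ hℓp hA
  have h2 := val_unitU_of_inZeroComponentAt hp hp2 hΔ hord hℓ hℓp hA hQ0
  have hpow : A.valuation ((W.Δ : ℤ) : AlgebraicClosure ℚ) ^ p =
      A.valuation ((W.Δ : ℤ) : AlgebraicClosure ℚ) *
        A.valuation ((W.Δ : ℤ) : AlgebraicClosure ℚ) ^ (p - 1) := by
    rw [← pow_succ', Nat.sub_add_cancel hp.one_le]
  calc A.valuation (veluCurve (curveBar W) Q p).Δ
      = A.valuation (veluCurve (curveBar W) Q p).Δ *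
          (A.valuation (unitU W p Q) *
            A.valuation ((W.Δ : ℤ) : AlgebraicClosure ℚ) ^ (p - 1)) := by rw [h2, mul_one]
    _ = A.valuation (veluCurve (curveBar W) Q p).Δ * A.valuation (unitU W p Q) *
            A.valuation ((W.Δ : ℤ) : AlgebraicClosure ℚ) ^ (p - 1) := by rw [mul_assoc]
    _ = A.valuation ((W.Δ : ℤ) : AlgebraicClosure ℚ) ^ p := by
        rw [h1, hpow]

/-- **DISC, cusp `0`.**  `Q ∉ E⁰` at a multiplicative place `A ∣ ℓ ≠ p`:
`v_A(j(E/⟨Q⟩)) ^ p = v_A(j(E))`. -/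
theorem val_jInv_velu_of_not_inZeroComponentAt {p : ℕ} (hp : p.Prime) (hp5 : 5 < p)
    (hΔ : W.Δ ≠ 0) {Q : PtsBar W} (hord : addOrderOf Q = p) {ℓ : ℕ} (hℓ : ℓ.Prime)
    (hℓp : ℓ ≠ p) (hℓΔ : (ℓ : ℤ) ∣ W.Δ) (hℓc₄ : ¬ (ℓ : ℤ) ∣ W.c₄) (hA : A.LiesOverPrime ℓ)
    (hQ0 : ¬ W.InZeroComponentAt A Q) :
    A.valuation (jInv (veluCurve (curveBar W) Q p)) ^ p = A.valuation (jInv (curveBar W)) := by
  have hp2 : p ≠ 2 := by omega
  rw [val_jInv_velu hp hp5 hord hℓ hℓp hℓΔ hℓc₄ hA, val_jInv_curveBar hℓ hℓc₄ hA, inv_pow]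
  congr 1
  have h1 := val_Δ_velu_mul_val_unitU (A := A) hp hp2 hΔ hord hℓ hℓp hA
  have h2 := val_unitU_pow_of_not_inZeroComponentAt hp hp2 hΔ hord hℓ hℓp hℓΔ hℓc₄ hA hQ0
  have hΔ0 : A.valuation ((W.Δ : ℤ) : AlgebraicClosure ℚ) ≠ 0 :=
    (Valuation.ne_zero_iff _).mpr (Int.cast_ne_zero.mpr hΔ)
  have hpow : A.valuation ((W.Δ : ℤ) : AlgebraicClosure ℚ) ^ p =
      A.valuation ((W.Δ : ℤ) : AlgebraicClosure ℚ) *
        A.valuation ((W.Δ : ℤ) : AlgebraicClosure ℚ) ^ (p - 1) := by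
    rw [← pow_succ', Nat.sub_add_cancel hp.one_le]
  have h3 : A.valuation (veluCurve (curveBar W) Q p).Δ ^ p *
      A.valuation ((W.Δ : ℤ) : AlgebraicClosure ℚ) ^ (p - 1) =
      A.valuation ((W.Δ : ℤ) : AlgebraicClosure ℚ) *
        A.valuation ((W.Δ : ℤ) : AlgebraicClosure ℚ) ^ (p - 1) := by
    rw [← h2, ← mul_pow, h1, h2, hpow]
  exact mul_right_cancel₀ (pow_ne_zero _ hΔ0) h3

end

end Fermat.Agent.S15.H542

end
end
-- ===== PACK-END S15/H542/VeluDiscVal.lean

-- ===== PACK-BEGIN S15/H322/BasePiece.lean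
section



/-!
# Row S15 — DESC leaf BASE, part 5 (helper322): the per-piece bound, abstract form

Blueprint `coord/S15-DESC-blueprint.md` §1–2.  `J` an abelian group with an action of
`G = Gal(ℚ̄/ℚ)`, `F' ≤ J` a `G`-stable subgroup, `e ∈ J` with `e ∉ F'`, `r • e ∈ F'` (`r` prime):
the piece is `P = (F' + ℤ e) / F' ≅ ℤ/r`.  A point `y ∈ J` *has coordinate* `f : G → ZMod r` if
`σ y - y ≡ f(σ) e  mod F'` for all `σ` (`HasCoord`).

* `relIndex_le_of_dichotomy` : pure group theory: if any two elements of `K` satisfy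
  `y₁ ∈ H ∨ ∃ m < r, y₂ - m y₁ ∈ H`, then `[K : H ∩ K] ≤ r` (and is finite).
* `HasCoord.isTwCoc`        : `G` acts on `P` by `ω`, `y` of finite level ⟹ `f` is a twisted
  cocycle of finite level.
* `piece_dichotomy_tw`      : **piece `ψ = ω`, `r` odd.**  `y₁, y₂` with coordinates satisfying the
  local conditions `KumDivAt` at all `ℓ ≠ p`:  `y₁ - n e` or `y₂ - m y₁ - n e` has all its
  Kummer values `σ w - w` in `F'`.
* `piece_trivial_tw`        : local conditions at ALL primes: `y - n e` has Kummer values in `F'`.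
* `piece_dichotomy_triv`, `piece_trivial_triv` : **piece `ψ = 1`**, local condition = the
  coordinate vanishes on inertia.
-/

set_option autoImplicit false
set_option linter.unusedSectionVars false
set_option linter.style.haveILetI false

namespace Fermat.Agent.S15.H322

open Fermat.Agent.S56 Fermat.Agent.S56.H786

section Index

variable {J : Type*} [AddCommGroup J]

/-- If any two elements of `K` are dependent modulo `H` with a coefficient `< r`, then
`[K : H ∩ K] ≤ r`. -/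
theorem relIndex_le_of_dichotomy (H K : AddSubgroup J) {r : ℕ} (hr : 0 < r)
    (h : ∀ y₁ ∈ K, ∀ y₂ ∈ K, y₁ ∈ H ∨ ∃ m : ℕ, m < r ∧ y₂ - m • y₁ ∈ H) :
    H.relIndex K ≠ 0 ∧ H.relIndex K ≤ r := by
  classical
  by_cases hKH : K ≤ H
  · rw [AddSubgroup.relIndex_eq_one.mpr hKH]
    exact ⟨one_ne_zero, hr⟩
  · obtain ⟨y₁, hy₁K, hy₁H⟩ := SetLike.not_le_iff_exists.mp hKH
    -- the map `m ↦ [m y₁]` from `Fin r` onto `K / (H ∩ K)`
    let φ : Fin r → K ⧸ H.addSubgroupOf K := fun m =>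
      QuotientAddGroup.mk (⟨(m : ℕ) • y₁, K.nsmul_mem hy₁K _⟩ : K)
    have hφ : Function.Surjective φ := by
      intro q
      induction q using QuotientAddGroup.induction_on with
      | H y₂ =>
        rcases h y₁ hy₁K y₂ y₂.2 with h1 | ⟨m, hm, hmem⟩
        · exact absurd h1 hy₁H
        · refine ⟨⟨m, hm⟩, ?_⟩
          show (QuotientAddGroup.mk _ : K ⧸ H.addSubgroupOf K) = QuotientAddGroup.mk y₂
          rw [QuotientAddGroup.eq]
          show ((-(⟨m • y₁, _⟩ : K) + y₂ : K) : J) ∈ H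
          have : ((-(⟨m • y₁, K.nsmul_mem hy₁K _⟩ : K) + y₂ : K) : J) = (y₂ : J) - m • y₁ := by
            push_cast
            abel
          rw [this]
          exact hmem
    have hfin : Finite (K ⧸ H.addSubgroupOf K) := Finite.of_surjective φ hφ
    have hcard : Nat.card (K ⧸ H.addSubgroupOf K) ≤ r := by
      have := Nat.card_le_card_of_surjective φ hφ
      simpa using this
    have hidx : H.relIndex K = Nat.card (K ⧸ H.addSubgroupOf K) := rfl
    rw [hidx]
    exact ⟨Nat.card_pos.ne', hcard⟩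

end Index

section Piece

variable {J : Type*} [AddCommGroup J] [DistribMulAction GQ J]
variable (r : ℕ) (F' : AddSubgroup J) (e : J)

/-- `y` has coordinate `f` on the piece `(F' + ℤ e) / F'`: `σ y - y ≡ f(σ) e  mod F'`. -/
def HasCoord (y : J) (f : GQ → ZMod r) : Prop :=
  ∀ σ : GQ, σ • y - y - (f σ).val • e ∈ F'

/-- `y` has finite level. -/
def HasLevel (y : J) : Prop :=
  ∃ L : IntermediateField ℚ Qb, FiniteDimensional ℚ L ∧
    ∀ τ : GQ, (∀ x ∈ L, τ x = x) → τ • y = y

/-- All Kummer values `σ y - y` of `y` lie in `F'`. -/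
def KumIn (y : J) : Prop :=
  ∀ σ : GQ, σ • y - y ∈ F'

variable {r F' e}

/-- Multiples of `e` in `F'`: exactly the multiples of `r`. -/
theorem zsmul_mem_iff (hr : r.Prime) (he : e ∉ F') (hre : r • e ∈ F') (k : ℤ) :
    k • e ∈ F' ↔ ((k : ℤ) : ZMod r) = 0 := by
  rw [ZMod.intCast_zmod_eq_zero_iff_dvd]
  constructor
  · intro hk
    by_contra hdvd
    have hcop : IsCoprime k (r : ℤ) := by
      have := (Int.isCoprime_iff_gcd_eq_one).mpr
        (by
          have h1 : Int.gcd (r : ℤ) k = 1 := by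
            rw [Int.gcd_comm]
            have hrp : Prime (r : ℤ) := Nat.prime_iff_prime_int.mp hr
            have := (Int.isCoprime_iff_gcd_eq_one).mp
              ((Prime.coprime_iff_not_dvd hrp).mpr hdvd)
            rw [Int.gcd_comm]; exact this
          rw [Int.gcd_comm]; exact h1)
      exact this
    obtain ⟨u, v, huv⟩ := hcop
    apply he
    have : e = u • (k • e) + v • ((r : ℤ) • e) := by
      rw [smul_smul, smul_smul, ← add_smul, huv, one_smul]
    rw [this]
    refine F'.add_mem (F'.zsmul_mem hk _) (F'.zsmul_mem ?_ _)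
    rw [natCast_zsmul]; exact hre
  · rintro ⟨c, rfl⟩
    rw [mul_comm, mul_smul, natCast_zsmul]
    exact F'.zsmul_mem hre _

/-- `n.val • e` modulo `F'` only depends on `n : ZMod r`. -/
theorem val_smul_sub_zsmul_mem (hr : r.Prime) (he : e ∉ F') (hre : r • e ∈ F') (n : ZMod r)
    (k : ℤ) (hk : ((k : ℤ) : ZMod r) = n) : n.val • e - k • e ∈ F' := by
  haveI : NeZero r := ⟨hr.ne_zero⟩
  have h1 : n.val • e - k • e = ((n.val : ℤ) - k) • e := by
    rw [sub_smul, natCast_zsmul]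
  rw [h1, zsmul_mem_iff hr he hre]
  push_cast
  rw [ZMod.natCast_zmod_val, hk, sub_self]

/-- The coordinate of a point is unique. -/
theorem HasCoord.unique (hr : r.Prime) (he : e ∉ F') (hre : r • e ∈ F') {y : J}
    {f g : GQ → ZMod r} (hf : HasCoord r F' e y f) (hg : HasCoord r F' e y g) : f = g := by
  haveI : NeZero r := ⟨hr.ne_zero⟩
  funext σ
  have h1 := F'.sub_mem (hg σ) (hf σ)
  have h2 : σ • y - y - (g σ).val • e - (σ • y - y - (f σ).val • e) =
      (((f σ).val : ℤ) - ((g σ).val : ℤ)) • e := by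
    rw [sub_smul, natCast_zsmul, natCast_zsmul]; abel
  rw [h2, zsmul_mem_iff hr he hre] at h1
  push_cast at h1
  rw [ZMod.natCast_zmod_val, ZMod.natCast_zmod_val] at h1
  exact sub_eq_zero.mp h1

/-- An integral multiple of `e` with coefficient `≡ 0 mod r` lies in `F'`. -/
theorem zsmul_mem_of_cast_eq_zero (hr : r.Prime) (he : e ∉ F') (hre : r • e ∈ F') {k : ℤ}
    (hk : ((k : ℤ) : ZMod r) = 0) : k • e ∈ F' :=
  (zsmul_mem_iff hr he hre k).mpr hk

/-- **The coordinate of a point of finite level is a twisted cocycle of finite level**, when `G`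
acts on the piece by `ω`. -/
theorem HasCoord.isTwCoc (hr : r.Prime) (hstab : ∀ σ : GQ, ∀ x ∈ F', σ • x ∈ F')
    (he : e ∉ F') (hre : r • e ∈ F')
    (hact : ∀ σ : GQ, ∀ a : ℕ, IsCycExp r σ a → σ • e - a • e ∈ F')
    {y : J} {f : GQ → ZMod r} (hf : HasCoord r F' e y f) (hlev : HasLevel y) :
    IsTwCoc r f := by
  haveI : NeZero r := ⟨hr.ne_zero⟩
  refine ⟨fun σ τ a ha => ?_, ?_⟩
  · have hA := hf (σ * τ)
    have hB := hf σ
    have hu := hstab σ _ (hf τ)
    have hz := hact σ a ha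
    have key : ((((f σ).val : ℤ) + ((f τ).val : ℤ) * (a : ℤ) - ((f (σ * τ)).val : ℤ)) • e) ∈ F' := by
      have e1 : (((f σ).val : ℤ) + ((f τ).val : ℤ) * (a : ℤ) - ((f (σ * τ)).val : ℤ)) • e =
          ((σ * τ) • y - y - (f (σ * τ)).val • e) - (σ • y - y - (f σ).val • e)
            - σ • (τ • y - y - (f τ).val • e) - ((f τ).val : ℤ) • (σ • e - a • e) := by
        have h1 : σ • (τ • y - y - (f τ).val • e) =
            (σ * τ) • y - σ • y - (f τ).val • (σ • e) := by
          rw [smul_sub, smul_sub, ← mul_smul, smul_comm]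
        rw [h1]
        generalize (σ * τ) • y = Y1
        generalize σ • y = Y2
        generalize σ • e = E1
        simp only [← natCast_zsmul]
        module
      rw [e1]
      exact F'.sub_mem (F'.sub_mem (F'.sub_mem hA hB) hu) (F'.zsmul_mem hz _)
    rw [zsmul_mem_iff hr he hre] at key
    push_cast at key
    rw [ZMod.natCast_zmod_val, ZMod.natCast_zmod_val, ZMod.natCast_zmod_val] at key
    linear_combination -key
  · obtain ⟨L, hL, hlev⟩ := hlev
    refine ⟨L, hL, fun σ τ hτ => ?_⟩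
    have hA := hf (σ * τ)
    have hB := hf σ
    rw [mul_smul, hlev τ hτ] at hA
    have key : ((((f σ).val : ℤ) - ((f (σ * τ)).val : ℤ)) • e) ∈ F' := by
      have e1 : (((f σ).val : ℤ) - ((f (σ * τ)).val : ℤ)) • e =
          (σ • y - y - (f (σ * τ)).val • e) - (σ • y - y - (f σ).val • e) := by
        rw [sub_smul, natCast_zsmul, natCast_zsmul]; abel
      rw [e1]
      exact F'.sub_mem hA hB
    rw [zsmul_mem_iff hr he hre] at key
    push_cast at key
    rw [ZMod.natCast_zmod_val, ZMod.natCast_zmod_val] at key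
    linear_combination -key

/-- If `f₂ - m f₁` is the coboundary of `n`, then `y₂ - m y₁ - n e` has all Kummer values in
`F'`. -/
theorem kumIn_of_isTwCob (hr : r.Prime) {ζ : Qb} (hζ : IsPrimitiveRoot ζ r)
    (he : e ∉ F') (hre : r • e ∈ F')
    (hact : ∀ σ : GQ, ∀ a : ℕ, IsCycExp r σ a → σ • e - a • e ∈ F')
    {y₁ y₂ : J} {f₁ f₂ : GQ → ZMod r} (h₁ : HasCoord r F' e y₁ f₁) (h₂ : HasCoord r F' e y₂ f₂)
    (m : ℕ) (n : ZMod r) (hcob : IsTwCob r (fun σ => f₂ σ - (m : ZMod r) * f₁ σ) n) :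
    KumIn F' (y₂ - m • y₁ - n.val • e) := by
  haveI : NeZero r := ⟨hr.ne_zero⟩
  intro σ
  obtain ⟨a, ha⟩ := exists_isCycExp hζ σ
  have hB₁ := h₁ σ
  have hB₂ := h₂ σ
  have hz := hact σ a ha
  have hc := hcob σ a ha
  have hk : ((((f₂ σ).val : ℤ) - (m : ℤ) * ((f₁ σ).val : ℤ) - (n.val : ℤ) * ((a : ℤ) - 1)) • e)
      ∈ F' := by
    apply zsmul_mem_of_cast_eq_zero hr he hre
    push_cast
    rw [ZMod.natCast_zmod_val, ZMod.natCast_zmod_val, ZMod.natCast_zmod_val]
    linear_combination hc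
  have e1 : σ • (y₂ - m • y₁ - n.val • e) - (y₂ - m • y₁ - n.val • e) =
      (σ • y₂ - y₂ - (f₂ σ).val • e) - (m : ℤ) • (σ • y₁ - y₁ - (f₁ σ).val • e)
        - (n.val : ℤ) • (σ • e - a • e)
        + (((f₂ σ).val : ℤ) - (m : ℤ) * ((f₁ σ).val : ℤ) - (n.val : ℤ) * ((a : ℤ) - 1)) • e := by
    have h1 : σ • (y₂ - m • y₁ - n.val • e) = σ • y₂ - m • (σ • y₁) - n.val • (σ • e) := by
      rw [smul_sub, smul_sub, smul_comm σ m, smul_comm σ n.val]
    rw [h1]
    generalize σ • y₂ = Y2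
    generalize σ • y₁ = Y1
    generalize σ • e = E1
    simp only [← natCast_zsmul]
    module
  rw [e1]
  exact F'.add_mem (F'.sub_mem (F'.sub_mem hB₂ (F'.zsmul_mem hB₁ _)) (F'.zsmul_mem hz _)) hk

/-- **Piece `ψ = ω`, `r` an odd prime: the dichotomy.** -/
theorem piece_dichotomy_tw {p : ℕ} (hp : p.Prime) (hr : r.Prime) (hr2 : r ≠ 2) {ζ : Qb}
    (hζ : IsPrimitiveRoot ζ r) (hstab : ∀ σ : GQ, ∀ x ∈ F', σ • x ∈ F')
    (he : e ∉ F') (hre : r • e ∈ F')
    (hact : ∀ σ : GQ, ∀ a : ℕ, IsCycExp r σ a → σ • e - a • e ∈ F')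
    {y₁ y₂ : J} {f₁ f₂ : GQ → ZMod r} (h₁ : HasCoord r F' e y₁ f₁) (h₂ : HasCoord r F' e y₂ f₂)
    (hl₁ : HasLevel y₁) (hl₂ : HasLevel y₂)
    (hdiv₁ : ∀ ℓ : ℕ, ℓ.Prime → ℓ ≠ p → KumDivAt r ζ f₁ ℓ)
    (hdiv₂ : ∀ ℓ : ℕ, ℓ.Prime → ℓ ≠ p → KumDivAt r ζ f₂ ℓ) :
    (∃ n : ℕ, KumIn F' (y₁ - n • e)) ∨
      ∃ m : ℕ, m < r ∧ ∃ n : ℕ, KumIn F' (y₂ - m • y₁ - n • e) := by
  have hc₁ := h₁.isTwCoc hr hstab he hre hact hl₁
  have hc₂ := h₂.isTwCoc hr hstab he hre hact hl₂
  rcases tw_dichotomy_odd hp hr hr2 hζ hc₁ hc₂ hdiv₁ hdiv₂ with ⟨n, hn⟩ | ⟨m, hm, n, hn⟩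
  · left
    refine ⟨n.val, ?_⟩
    have hn' : IsTwCob r (fun σ => f₁ σ - ((0 : ℕ) : ZMod r) * f₁ σ) n := by
      intro σ a ha
      simp only [Nat.cast_zero, zero_mul, sub_zero]
      exact hn σ a ha
    have := kumIn_of_isTwCob hr hζ he hre hact h₁ h₁ 0 n hn'
    rw [zero_smul, sub_zero] at this
    exact this
  · right
    exact ⟨m, hm, n.val, kumIn_of_isTwCob hr hζ he hre hact h₁ h₂ m n hn⟩

/-- **Piece `ψ = ω`, `r` an odd prime, local conditions at all primes.** -/
theorem piece_trivial_tw (hr : r.Prime) (hr2 : r ≠ 2) {ζ : Qb}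
    (hζ : IsPrimitiveRoot ζ r) (hstab : ∀ σ : GQ, ∀ x ∈ F', σ • x ∈ F')
    (he : e ∉ F') (hre : r • e ∈ F')
    (hact : ∀ σ : GQ, ∀ a : ℕ, IsCycExp r σ a → σ • e - a • e ∈ F')
    {y : J} {f : GQ → ZMod r} (h : HasCoord r F' e y f) (hl : HasLevel y)
    (hdiv : ∀ ℓ : ℕ, ℓ.Prime → KumDivAt r ζ f ℓ) :
    ∃ n : ℕ, KumIn F' (y - n • e) := by
  have hc := h.isTwCoc hr hstab he hre hact hl
  obtain ⟨n, hn⟩ := tw_trivial_odd hr hr2 hζ hc hdiv
  refine ⟨n.val, ?_⟩
  have hn' : IsTwCob r (fun σ => f σ - ((0 : ℕ) : ZMod r) * f σ) n := by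
    intro σ a ha
    simp only [Nat.cast_zero, zero_mul, sub_zero]
    exact hn σ a ha
  have := kumIn_of_isTwCob hr hζ he hre hact h h 0 n hn'
  rw [zero_smul, sub_zero] at this
  exact this

/-- **Index bound for a piece `ψ = ω`** (`r` odd).  `Y` a subgroup all of whose elements have a
coordinate, finite level and satisfy the local conditions away from `p`; `H` a subgroup containing
`e` and every element of `Y` with Kummer values in `F'`.  Then `[Y : H ∩ Y] ≤ r`. -/
theorem piece_relIndex_le_tw {p : ℕ} (hp : p.Prime) (hr : r.Prime) (hr2 : r ≠ 2) {ζ : Qb}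
    (hζ : IsPrimitiveRoot ζ r) (hstab : ∀ σ : GQ, ∀ x ∈ F', σ • x ∈ F')
    (he : e ∉ F') (hre : r • e ∈ F')
    (hact : ∀ σ : GQ, ∀ a : ℕ, IsCycExp r σ a → σ • e - a • e ∈ F')
    (Y H : AddSubgroup J) (heY : e ∈ Y) (heH : e ∈ H)
    (hY : ∀ y ∈ Y, ∃ f : GQ → ZMod r, HasCoord r F' e y f ∧ HasLevel y ∧
      ∀ ℓ : ℕ, ℓ.Prime → ℓ ≠ p → KumDivAt r ζ f ℓ)
    (hH : ∀ w ∈ Y, KumIn F' w → w ∈ H) :
    H.relIndex Y ≠ 0 ∧ H.relIndex Y ≤ r := by
  refine relIndex_le_of_dichotomy H Y hr.pos (fun y₁ hy₁ y₂ hy₂ => ?_)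
  obtain ⟨f₁, h₁, hl₁, hd₁⟩ := hY y₁ hy₁
  obtain ⟨f₂, h₂, hl₂, hd₂⟩ := hY y₂ hy₂
  rcases piece_dichotomy_tw hp hr hr2 hζ hstab he hre hact h₁ h₂ hl₁ hl₂ hd₁ hd₂ with
    ⟨n, hn⟩ | ⟨m, hm, n, hn⟩
  · left
    have h1 : y₁ - n • e ∈ H := hH _ (Y.sub_mem hy₁ (Y.nsmul_mem heY n)) hn
    have := H.add_mem h1 (H.nsmul_mem heH n)
    rwa [sub_add_cancel] at this
  · right
    refine ⟨m, hm, ?_⟩
    have h1 : y₂ - m • y₁ - n • e ∈ H :=
      hH _ (Y.sub_mem (Y.sub_mem hy₂ (Y.nsmul_mem hy₁ m)) (Y.nsmul_mem heY n)) hn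
    have := H.add_mem h1 (H.nsmul_mem heH n)
    rwa [sub_add_cancel] at this

/-- **Index for a piece `ψ = ω`, local conditions at all primes**: `Y ≤ H`. -/
theorem piece_le_tw (hr : r.Prime) (hr2 : r ≠ 2) {ζ : Qb}
    (hζ : IsPrimitiveRoot ζ r) (hstab : ∀ σ : GQ, ∀ x ∈ F', σ • x ∈ F')
    (he : e ∉ F') (hre : r • e ∈ F')
    (hact : ∀ σ : GQ, ∀ a : ℕ, IsCycExp r σ a → σ • e - a • e ∈ F')
    (Y H : AddSubgroup J) (heY : e ∈ Y) (heH : e ∈ H)
    (hY : ∀ y ∈ Y, ∃ f : GQ → ZMod r, HasCoord r F' e y f ∧ HasLevel y ∧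
      ∀ ℓ : ℕ, ℓ.Prime → KumDivAt r ζ f ℓ)
    (hH : ∀ w ∈ Y, KumIn F' w → w ∈ H) : Y ≤ H := by
  intro y hy
  obtain ⟨f, h, hl, hd⟩ := hY y hy
  obtain ⟨n, hn⟩ := piece_trivial_tw hr hr2 hζ hstab he hre hact h hl hd
  have h1 : y - n • e ∈ H := hH _ (Y.sub_mem hy (Y.nsmul_mem heY n)) hn
  have := H.add_mem h1 (H.nsmul_mem heH n)
  rwa [sub_add_cancel] at this

/-! ### Pieces with trivial action (`ψ = 1`) -/

/-- A finite-dimensional intermediate field is fixed pointwise as soon as a suitable finite set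
is (technique of `S15.H242.BaseE.FiniteLevel.exists_finset`). -/
theorem exists_finset_of_finiteDimensional (L : IntermediateField ℚ Qb)
    [FiniteDimensional ℚ L] :
    ∃ s : Finset Qb, ∀ σ : GQ, (∀ x ∈ s, σ x = x) → ∀ x ∈ L, σ x = x := by
  classical
  let b := Module.finBasis ℚ L
  refine ⟨Finset.univ.image fun i => ((b i : L) : Qb), fun σ hσ x hx => ?_⟩
  have hb : ∀ i, σ ((b i : L) : Qb) = ((b i : L) : Qb) := fun i =>
    hσ _ (Finset.mem_image.mpr ⟨i, Finset.mem_univ _, rfl⟩)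
  have hrepr := b.sum_repr ⟨x, hx⟩
  have hx' : x = ∑ i, (b.repr ⟨x, hx⟩ i) • ((b i : L) : Qb) := by
    have := congrArg (fun e : L => (e : Qb)) hrepr
    simp only [IntermediateField.coe_sum, IntermediateField.coe_smul] at this
    exact this.symm
  rw [hx', map_sum]
  refine Finset.sum_congr rfl fun i _ => ?_
  rw [Algebra.smul_def, map_mul, AlgEquiv.commutes, hb]

/-- The coordinate of a point is additive when `G` acts trivially on the piece. -/
theorem HasCoord.map_mul_triv (hr : r.Prime) (hstab : ∀ σ : GQ, ∀ x ∈ F', σ • x ∈ F')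
    (he : e ∉ F') (hre : r • e ∈ F') (hact : ∀ σ : GQ, σ • e - e ∈ F')
    {y : J} {f : GQ → ZMod r} (hf : HasCoord r F' e y f) (σ τ : GQ) :
    f (σ * τ) = f σ + f τ := by
  haveI : NeZero r := ⟨hr.ne_zero⟩
  have hA := hf (σ * τ)
  have hB := hf σ
  have hu := hstab σ _ (hf τ)
  have hz := hact σ
  have key : ((((f σ).val : ℤ) + ((f τ).val : ℤ) - ((f (σ * τ)).val : ℤ)) • e) ∈ F' := by
    have e1 : (((f σ).val : ℤ) + ((f τ).val : ℤ) - ((f (σ * τ)).val : ℤ)) • e =
        ((σ * τ) • y - y - (f (σ * τ)).val • e) - (σ • y - y - (f σ).val • e)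
          - σ • (τ • y - y - (f τ).val • e) - ((f τ).val : ℤ) • (σ • e - e) := by
      have h1 : σ • (τ • y - y - (f τ).val • e) =
          (σ * τ) • y - σ • y - (f τ).val • (σ • e) := by
        rw [smul_sub, smul_sub, ← mul_smul, smul_comm]
      rw [h1]
      generalize (σ * τ) • y = Y1
      generalize σ • y = Y2
      generalize σ • e = E1
      simp only [← natCast_zsmul]
      module
    rw [e1]
    exact F'.sub_mem (F'.sub_mem (F'.sub_mem hA hB) hu) (F'.zsmul_mem hz _)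
  rw [zsmul_mem_iff hr he hre] at key
  push_cast at key
  rw [ZMod.natCast_zmod_val, ZMod.natCast_zmod_val, ZMod.natCast_zmod_val] at key
  linear_combination -key

/-- The coordinate of a point of finite level vanishes on a small open subgroup. -/
theorem HasCoord.exists_finset (hr : r.Prime) (he : e ∉ F') (hre : r • e ∈ F')
    {y : J} {f : GQ → ZMod r} (hf : HasCoord r F' e y f) (hlev : HasLevel y) :
    ∃ s : Finset Qb, ∀ σ : GQ, (∀ x ∈ s, σ x = x) → f σ = 0 := by
  haveI : NeZero r := ⟨hr.ne_zero⟩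
  obtain ⟨L, hL, hlev⟩ := hlev
  obtain ⟨s, hs⟩ := exists_finset_of_finiteDimensional L
  refine ⟨s, fun σ hσ => ?_⟩
  have hA := hf σ
  rw [hlev σ (hs σ hσ), sub_self, zero_sub] at hA
  have key : (((f σ).val : ℤ) • e) ∈ F' := by
    rw [natCast_zsmul]
    have := F'.neg_mem hA
    rwa [neg_neg] at this
  rw [zsmul_mem_iff hr he hre] at key
  push_cast at key
  rwa [ZMod.natCast_zmod_val] at key

/-- The coordinate of a point, for a piece with trivial action, is a character unramified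
outside `p` as soon as it vanishes on inertia at the primes `ℓ ≠ p`. -/
theorem HasCoord.isCharUnrOutside (hr : r.Prime) (hstab : ∀ σ : GQ, ∀ x ∈ F', σ • x ∈ F')
    (he : e ∉ F') (hre : r • e ∈ F') (hact : ∀ σ : GQ, σ • e - e ∈ F')
    {y : J} {f : GQ → ZMod r} (hf : HasCoord r F' e y f) (hlev : HasLevel y) {p : ℕ}
    (hunr : ∀ ℓ : ℕ, ℓ.Prime → ℓ ≠ p → ∃ B : ValuationSubring Qb,
      B.LiesOverPrime ℓ ∧ ∀ σ ∈ B.inertiaSubgroupIn ℚ, f σ = 0) :
    IsCharUnrOutside p f :=
  ⟨hf.map_mul_triv hr hstab he hre hact, hf.exists_finset hr he hre hlev, hunr⟩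

/-- If `f₂ = m f₁`, then `y₂ - m y₁` has all Kummer values in `F'` (trivial action). -/
theorem kumIn_of_eq_smul (hr : r.Prime) (he : e ∉ F') (hre : r • e ∈ F')
    {y₁ y₂ : J} {f₁ f₂ : GQ → ZMod r} (h₁ : HasCoord r F' e y₁ f₁) (h₂ : HasCoord r F' e y₂ f₂)
    (m : ℕ) (hm : ∀ σ, f₂ σ = m • f₁ σ) : KumIn F' (y₂ - m • y₁) := by
  haveI : NeZero r := ⟨hr.ne_zero⟩
  intro σ
  have hB₁ := h₁ σ
  have hB₂ := h₂ σ
  have hk : ((((f₂ σ).val : ℤ) - (m : ℤ) * ((f₁ σ).val : ℤ)) • e) ∈ F' := by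
    apply zsmul_mem_of_cast_eq_zero hr he hre
    push_cast
    rw [ZMod.natCast_zmod_val, ZMod.natCast_zmod_val, hm σ, nsmul_eq_mul, sub_self]
  have e1 : σ • (y₂ - m • y₁) - (y₂ - m • y₁) =
      (σ • y₂ - y₂ - (f₂ σ).val • e) - (m : ℤ) • (σ • y₁ - y₁ - (f₁ σ).val • e)
        + (((f₂ σ).val : ℤ) - (m : ℤ) * ((f₁ σ).val : ℤ)) • e := by
    have h1 : σ • (y₂ - m • y₁) = σ • y₂ - m • (σ • y₁) := by
      rw [smul_sub, smul_comm σ m]
    rw [h1]
    generalize σ • y₂ = Y2
    generalize σ • y₁ = Y1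
    simp only [← natCast_zsmul]
    module
  rw [e1]
  exact F'.add_mem (F'.sub_mem hB₂ (F'.zsmul_mem hB₁ _)) hk

/-- **Piece `ψ = 1`: the dichotomy** (`r ≠ p` primes). -/
theorem piece_dichotomy_triv {p : ℕ} (hp : p.Prime) (hr : r.Prime) (hrp : r ≠ p)
    (hstab : ∀ σ : GQ, ∀ x ∈ F', σ • x ∈ F')
    (he : e ∉ F') (hre : r • e ∈ F') (hact : ∀ σ : GQ, σ • e - e ∈ F')
    {y₁ y₂ : J} {f₁ f₂ : GQ → ZMod r} (h₁ : HasCoord r F' e y₁ f₁) (h₂ : HasCoord r F' e y₂ f₂)
    (hl₁ : HasLevel y₁) (hl₂ : HasLevel y₂)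
    (hunr₁ : ∀ ℓ : ℕ, ℓ.Prime → ℓ ≠ p → ∃ B : ValuationSubring Qb,
      B.LiesOverPrime ℓ ∧ ∀ σ ∈ B.inertiaSubgroupIn ℚ, f₁ σ = 0)
    (hunr₂ : ∀ ℓ : ℕ, ℓ.Prime → ℓ ≠ p → ∃ B : ValuationSubring Qb,
      B.LiesOverPrime ℓ ∧ ∀ σ ∈ B.inertiaSubgroupIn ℚ, f₂ σ = 0) :
    KumIn F' y₁ ∨ ∃ m : ℕ, m < r ∧ KumIn F' (y₂ - m • y₁) := by
  haveI : NeZero r := ⟨hr.ne_zero⟩
  have hc₁ := h₁.isCharUnrOutside hr hstab he hre hact hl₁ hunr₁
  have hc₂ := h₂.isCharUnrOutside hr hstab he hre hact hl₂ hunr₂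
  rcases hc₁.dichotomy hc₂ hp hr hrp (Nat.card_zmod r) with h0 | ⟨m, hm, hmf⟩
  · left
    have hz : ∀ σ, f₁ σ = (0 : ℕ) • f₁ σ := fun σ => by rw [h0 σ, smul_zero]
    have := kumIn_of_eq_smul hr he hre h₁ h₁ 0 hz
    rwa [zero_smul, sub_zero] at this
  · right
    exact ⟨m, hm, kumIn_of_eq_smul hr he hre h₁ h₂ m hmf⟩

/-- **Piece `ψ = 1`, unramified everywhere**: Kummer values in `F'`. -/
theorem piece_trivial_triv {p : ℕ} (hp : p.Prime) (hr : r.Prime)
    (hstab : ∀ σ : GQ, ∀ x ∈ F', σ • x ∈ F')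
    (he : e ∉ F') (hre : r • e ∈ F') (hact : ∀ σ : GQ, σ • e - e ∈ F')
    {y : J} {f : GQ → ZMod r} (h : HasCoord r F' e y f) (hl : HasLevel y)
    (hunr : ∀ ℓ : ℕ, ℓ.Prime → ∃ B : ValuationSubring Qb,
      B.LiesOverPrime ℓ ∧ ∀ σ ∈ B.inertiaSubgroupIn ℚ, f σ = 0) :
    KumIn F' y := by
  haveI : NeZero r := ⟨hr.ne_zero⟩
  have hc := h.isCharUnrOutside (p := p) hr hstab he hre hact hl (fun ℓ hℓ _ => hunr ℓ hℓ)
  have h0 : ∀ σ, f σ = 0 := hc.eq_zero_of_unram (hunr p hp)
  have hz : ∀ σ, f σ = (0 : ℕ) • f σ := fun σ => by rw [h0 σ, smul_zero]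
  have := kumIn_of_eq_smul hr he hre h h 0 hz
  rwa [zero_smul, sub_zero] at this

/-- **Index bound for a piece `ψ = 1`.** -/
theorem piece_relIndex_le_triv {p : ℕ} (hp : p.Prime) (hr : r.Prime) (hrp : r ≠ p)
    (hstab : ∀ σ : GQ, ∀ x ∈ F', σ • x ∈ F')
    (he : e ∉ F') (hre : r • e ∈ F') (hact : ∀ σ : GQ, σ • e - e ∈ F')
    (Y H : AddSubgroup J)
    (hY : ∀ y ∈ Y, ∃ f : GQ → ZMod r, HasCoord r F' e y f ∧ HasLevel y ∧
      ∀ ℓ : ℕ, ℓ.Prime → ℓ ≠ p → ∃ B : ValuationSubring Qb,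
        B.LiesOverPrime ℓ ∧ ∀ σ ∈ B.inertiaSubgroupIn ℚ, f σ = 0)
    (hH : ∀ w ∈ Y, KumIn F' w → w ∈ H) :
    H.relIndex Y ≠ 0 ∧ H.relIndex Y ≤ r := by
  refine relIndex_le_of_dichotomy H Y hr.pos (fun y₁ hy₁ y₂ hy₂ => ?_)
  obtain ⟨f₁, h₁, hl₁, hd₁⟩ := hY y₁ hy₁
  obtain ⟨f₂, h₂, hl₂, hd₂⟩ := hY y₂ hy₂
  rcases piece_dichotomy_triv hp hr hrp hstab he hre hact h₁ h₂ hl₁ hl₂ hd₁ hd₂ with
    hn | ⟨m, hm, hn⟩
  · left
    exact hH _ hy₁ hn
  · right
    exact ⟨m, hm, hH _ (Y.sub_mem hy₂ (Y.nsmul_mem hy₁ m)) hn⟩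

end Piece

end Fermat.Agent.S15.H322

end
-- ===== PACK-END S15/H322/BasePiece.lean

-- ===== PACK-BEGIN S29/H126/M3.lean
section
/-
S29 row, piece `M3` (helper126): the Galois action on `J₀(N)(ℚ̄)` is smooth — every class is fixed
by an open subgroup `Gal(ℚ̄/L)`, `L/ℚ` finite.

Route: every element of the function field `ℚ̄(X₀(N))` (a subfield of `ℚ̄((q))` generated by `ℚ̄` and
series with rational coefficients) is fixed by an open subgroup; a place `v` is determined, among the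
finitely many zeros of a function `t` with `v(t) > 0`, by finitely many functions separating it from
the other zeros; a divisor has finite support.
-/




set_option autoImplicit false

noncomputable section

namespace Fermat.Agent.S29.H126

open ModularCurve AlgebraicCurve IntermediateField
open Fermat.Agent.S24 Fermat.Agent.Lib.RR.H804

/-- A property of Galois elements which holds on an open subgroup `Gal(ℚ̄/L)`, `L/ℚ` finite. -/
def M3OpenFixed (P : GQ → Prop) : Prop :=
  ∃ L : IntermediateField ℚ (AlgebraicClosure ℚ), FiniteDimensional ℚ L ∧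
    ∀ σ : GQ, (∀ y ∈ L, σ y = y) → P σ

theorem M3OpenFixed.mono {P Q : GQ → Prop} (h : M3OpenFixed P) (hPQ : ∀ σ, P σ → Q σ) :
    M3OpenFixed Q := by
  obtain ⟨L, hL, hP⟩ := h
  exact ⟨L, hL, fun σ hσ => hPQ σ (hP σ hσ)⟩

theorem M3OpenFixed.of_forall {P : GQ → Prop} (h : ∀ σ, P σ) : M3OpenFixed P :=
  ⟨⊥, inferInstance, fun σ _ => h σ⟩

theorem M3OpenFixed.and {P Q : GQ → Prop} (hP : M3OpenFixed P) (hQ : M3OpenFixed Q) :
    M3OpenFixed (fun σ => P σ ∧ Q σ) := by
  obtain ⟨L₁, hL₁, h₁⟩ := hP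
  obtain ⟨L₂, hL₂, h₂⟩ := hQ
  refine ⟨L₁ ⊔ L₂, inferInstance,
    fun σ hσ => ⟨h₁ σ fun y hy => hσ y ?_, h₂ σ fun y hy => hσ y ?_⟩⟩
  · exact (le_sup_left : L₁ ≤ L₁ ⊔ L₂) hy
  · exact (le_sup_right : L₂ ≤ L₁ ⊔ L₂) hy

theorem M3OpenFixed.finset {ι : Type*} (s : Finset ι) {P : ι → GQ → Prop}
    (h : ∀ i ∈ s, M3OpenFixed (P i)) : M3OpenFixed (fun σ => ∀ i ∈ s, P i σ) := by
  classical
  induction s using Finset.induction_on with
  | empty => exact .of_forall (fun σ i hi => absurd hi (Finset.notMem_empty i))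
  | insert a s ha ih =>
    have h1 := h a (Finset.mem_insert_self a s)
    have h2 := ih (fun i hi => h i (Finset.mem_insert_of_mem hi))
    refine (h1.and h2).mono fun σ hσ i hi => ?_
    rcases Finset.mem_insert.mp hi with rfl | hi
    · exact hσ.1
    · exact hσ.2 i hi

/-- Every element of the base-changed field is fixed (coefficientwise) by an open subgroup. -/
theorem M3_coeffMap_openFixed (F₀ : IntermediateField ℚ (LaurentSeries ℚ))
    {f : LaurentSeries (AlgebraicClosure ℚ)}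
    (hf : f ∈ laurentBaseChange (AlgebraicClosure ℚ) F₀) :
    M3OpenFixed (fun σ => coeffMap (σ : AlgebraicClosure ℚ →+* AlgebraicClosure ℚ) f = f) := by
  rw [mem_laurentBaseChange_iff] at hf
  induction hf using Subfield.closure_induction with
  | mem y hy =>
      rcases hy with ⟨a, rfl⟩ | ⟨z, hz, rfl⟩
      · have ha : IsIntegral ℚ a := ((AlgebraicClosure.isAlgebraic ℚ).isAlgebraic a).isIntegral
        refine ⟨ℚ⟮a⟯, adjoin.finiteDimensional ha, fun σ hσ => ?_⟩
        show coeffMap (σ : AlgebraicClosure ℚ →+* AlgebraicClosure ℚ) (algebraMap _ _ a) = _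
        rw [coeffMap_algebraMap]
        exact congrArg _ (hσ a (mem_adjoin_simple_self ℚ a))
      · exact .of_forall fun σ => coeffMap_coeffEmb σ z
  | one => exact .of_forall fun σ => map_one _
  | add x y _ _ hx hy => exact (hx.and hy).mono fun σ h => by rw [map_add, h.1, h.2]
  | neg x _ hx => exact hx.mono fun σ h => by rw [map_neg, h]
  | inv x _ hx => exact hx.mono fun σ h => by rw [map_inv₀, h]
  | mul x y _ _ hx hy => exact (hx.and hy).mono fun σ h => by rw [map_mul, h.1, h.2]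

/-- Two distinct places are separated by a function. -/
theorem M3_exists_mem_not_mem {K F : Type*} [Field K] [Field F] [Algebra K F] {v w : Place K F}
    (h : w ≠ v) : ∃ g : F, g ∈ v.toValuationSubring ∧ g ∉ w.toValuationSubring := by
  by_contra hcon
  have hle : v.toValuationSubring ≤ w.toValuationSubring := fun g hg =>
    by_contra fun hgw => hcon ⟨g, hg, hgw⟩
  exact h (Place.ext (ValuationSubring.eq_of_le_of_ne_top _ hle w.ne_top').symm)

variable (N : ℕ) [NeZero N]

omit [NeZero N] in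
/-- Every function in `ℚ̄(X₀(N))` is fixed by an open subgroup. -/
theorem M3_elt_openFixed (f : FF N) :
    M3OpenFixed (fun σ => arithmeticGalois (modularFunctionFieldFull N) σ • f = f) :=
  (M3_coeffMap_openFixed _ f.2).mono fun σ h =>
    Subtype.ext (by rw [coe_arithmeticGalois_smul]; exact h)

/-- Every place of `ℚ̄(X₀(N))` is fixed by an open subgroup. -/
theorem M3_place_openFixed (v : Place Kbar (FF N)) :
    M3OpenFixed (fun σ => arithmeticGalois (modularFunctionFieldFull N) σ • v = v) := by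
  classical
  obtain ⟨x, hx⟩ : ∃ x : FF N, x ∉ v.toValuationSubring := by
    by_contra h
    exact v.ne_top' (eq_top_iff.mpr fun x _ => by_contra fun hx => h ⟨x, hx⟩)
  have hx0 : x ≠ 0 := fun h0 => hx (h0 ▸ zero_mem _)
  set t : FF N := x⁻¹ with ht
  have htpos : 0 < v.ord t := by
    have h1 : ¬ 0 ≤ v.ord x := mt (FF.mem_of_ord_nonneg v) hx
    rw [ht, v.ord_inv]
    omega
  have htK : t ∉ (algebraMap Kbar (FF N)).range := by
    rintro ⟨a, ha⟩
    rw [← ha, FF.ord_algebraMap] at htpos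
    exact lt_irrefl _ htpos
  have htr : Transcendental Kbar t := FF.transcendental_of_not_mem_range htK
  have := finiteDimensional_jF N
  have : FiniteDimensional Kbar⟮t⟯ (FF N) :=
    FF.finiteDimensional_adjoin_of_transcendental (transcendental_jF N) htr
  have hZ : {w : Place Kbar (FF N) | 0 < w.ord t}.Finite := FF.finite_setOf_ord_pos htr
  have hQ : ∀ w ∈ hZ.toFinset, M3OpenFixed
      (fun σ => arithmeticGalois (modularFunctionFieldFull N) σ • v = w → w = v) := by
    intro w _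
    by_cases hwv : w = v
    · exact .of_forall fun σ _ => hwv
    · obtain ⟨g, hgv, hgw⟩ := M3_exists_mem_not_mem hwv
      refine (M3_elt_openFixed N g).mono fun σ hσ hσv => ?_
      exfalso
      apply hgw
      rw [← hσv, SemilinearAut.smul_toValuationSubring, ← hσ]
      exact ValuationSubring.smul_mem_pointwise_smul _ g _ hgv
  refine ((M3_elt_openFixed N t).and (M3OpenFixed.finset _ hQ)).mono fun σ hσ => ?_
  obtain ⟨hσt, hσQ⟩ := hσ
  have hmem : arithmeticGalois (modularFunctionFieldFull N) σ • v ∈ hZ.toFinset := by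
    rw [Set.Finite.mem_toFinset]
    show 0 < (arithmeticGalois (modularFunctionFieldFull N) σ • v).ord t
    have := SemilinearAut.ord_smul (arithmeticGalois (modularFunctionFieldFull N) σ) v t
    rw [hσt] at this
    rw [this]
    exact htpos
  exact hσQ _ hmem rfl

/-- Every divisor of `ℚ̄(X₀(N))` is fixed by an open subgroup. -/
theorem M3_divisor_openFixed (D : Divisor Kbar (FF N)) :
    M3OpenFixed (fun σ => arithmeticGalois (modularFunctionFieldFull N) σ • D = D) := by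
  refine (M3OpenFixed.finset D.support (fun v _ => M3_place_openFixed N v)).mono fun σ hσ => ?_
  rw [SemilinearAut.divisor_smul_def]
  conv_rhs => rw [← Finsupp.mapDomain_id (v := D)]
  exact Finsupp.mapDomain_congr fun v hv => hσ v hv

/-- PIECE `M3`: the Galois action on `J₀(N)(ℚ̄)` is smooth. -/
theorem M3_jZero_smooth (x : JZero N) :
    ∃ L : IntermediateField ℚ (AlgebraicClosure ℚ), FiniteDimensional ℚ L ∧
      ∀ σ : GQ, (∀ y ∈ L, σ y = y) → σ • x = x := by
  obtain ⟨D, rfl⟩ := Pic0.mk_surjective x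
  refine (M3_divisor_openFixed N (D : Divisor Kbar (FF N))).mono fun σ hσ => ?_
  rw [galois_smul_pic0_def, SemilinearAut.pic0_smul_mk]
  exact congrArg Pic0.mk (Subtype.ext (by rw [SemilinearAut.coe_degZeroSMulHom]; exact hσ))

end Fermat.Agent.S29.H126

end
end
-- ===== PACK-END S29/H126/M3.lean

-- ===== PACK-BEGIN S15/H322/StepTau.lean
section




/-!
# Row S15 — DESC leaf STEP, part 2 (helper322): the choice of the inertia element `τ₀` at `p`

Route 208 (`coord/S15-LOCp-helper208.md`): the ramification at `p` of the cocycles is measured at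
ONE inertia element `τ₀` at a place over `p`.  `τ₀` is *good* (`IsGoodTau p r τ₀`) if

* `char` : every character `G_ℚ → ℤ/r` unramified outside `p` which vanishes at `τ₀` is trivial;
* `kum`  : every Kummer cocycle vanishing at `τ₀` has a Kummer class of `p`-adic valuation
           divisible by `r` (`KumDivAt r ζ f p`).

`exists_isGoodTau` : a good `τ₀` exists in the inertia group of every place over `p`
(`r ≠ p` primes).  Proof: `τ₀` moves an `r`-th root `π` of `p` (`S15.H11.Tau0`, helper11) and is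
non-trivial for a generator of the group of characters unramified outside `p`
(`BaseChar.dichotomy`: that group is cyclic; Minkowski: a non-trivial one is ramified at `p`);
a group is not the union of two proper subgroups.
-/

set_option autoImplicit false
set_option linter.unusedSectionVars false
set_option linter.style.haveILetI false

namespace Fermat.Agent.S15.H322

open Fermat.Agent.S56 Fermat.Agent.S56.H786

/-- `τ₀` detects the ramification at `p` of characters and Kummer cocycles modulo `r`. -/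
structure IsGoodTau (p r : ℕ) (τ₀ : GQ) : Prop where
  char : ∀ χ : GQ → ZMod r, IsCharUnrOutside p χ → χ τ₀ = 0 → ∀ σ, χ σ = 0
  kum : ∀ ζ : Qb, IsPrimitiveRoot ζ r → ∀ f : GQ → ZMod r, f τ₀ = 0 → KumDivAt r ζ f p

section Good

variable {p r : ℕ}

/-- An inertia element moving an `r`-th root of `p` detects the valuation at `p` of Kummer
classes. -/
theorem kumDivAt_of_moves (hp : p.Prime) (hr : r.Prime) (hrp : r ≠ p)
    (A : ValuationSubring Qb) (hA : A.LiesOverPrime p) {π : Qb} (hπ : π ^ r = (p : Qb))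
    {τ : GQ} (hτ : τ ∈ A.inertiaSubgroupIn ℚ) (hτπ : τ π ≠ π)
    (ζ : Qb) (f : GQ → ZMod r) (hf : f τ = 0) : KumDivAt r ζ f p := by
  haveI : NeZero r := ⟨hr.ne_zero⟩
  intro β a hβ hβa
  have ha : a ≠ 0 := by
    rintro rfl
    rw [Rat.cast_zero] at hβa
    exact hβ.1 (pow_eq_zero_iff hr.ne_zero |>.mp hβa)
  have hfix : τ β = β := by
    rw [hβ.2 τ, hf, zp_zero, one_mul]
  exact Fermat.Agent.S15.H11.dvd_padicValRat_of_fixed_by A hp hr hrp hA hπ hτ hτπ ha hβa hfix

/-- **A good inertia element exists** at every place over `p`. -/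
theorem exists_isGoodTau (hp : p.Prime) (hr : r.Prime) (hrp : r ≠ p)
    (A : ValuationSubring Qb) (hA : A.LiesOverPrime p) :
    ∃ τ₀ ∈ A.inertiaSubgroupIn ℚ, IsGoodTau p r τ₀ := by
  haveI : NeZero r := ⟨hr.ne_zero⟩
  haveI : Fact r.Prime := ⟨hr⟩
  obtain ⟨π, hπ⟩ := IsAlgClosed.exists_pow_nat_eq (p : Qb) hr.pos
  obtain ⟨b, hb, hbπ⟩ := Fermat.Agent.S15.H11.exists_inertia_moves_root A hp hr hA hπ
  by_cases hex : ∃ χ₁ : GQ → ZMod r, IsCharUnrOutside p χ₁ ∧ ∃ σ, χ₁ σ ≠ 0
  · obtain ⟨χ₁, hχ₁, σ₁, hσ₁⟩ := hex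
    -- `χ₁` is ramified at `A`
    obtain ⟨a, ha, haχ⟩ : ∃ a ∈ A.inertiaSubgroupIn ℚ, χ₁ a ≠ 0 := by
      by_contra hcon
      push Not at hcon
      exact hσ₁ (hχ₁.eq_zero_of_unram ⟨A, hA, hcon⟩ σ₁)
    -- an element of the inertia group with both properties
    obtain ⟨τ₀, hτ₀, hτ₀χ, hτ₀π⟩ :
        ∃ τ₀ ∈ A.inertiaSubgroupIn ℚ, χ₁ τ₀ ≠ 0 ∧ τ₀ π ≠ π := by
      by_cases haπ : a π = π
      · by_cases hbχ : χ₁ b = 0
        · refine ⟨b * a, Subgroup.mul_mem _ hb ha, ?_, ?_⟩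
          · rw [hχ₁.map_mul, hbχ, zero_add]
            exact haχ
          · rw [AlgEquiv.mul_apply, haπ]
            exact hbπ
        · exact ⟨b, hb, hbχ, hbπ⟩
      · exact ⟨a, ha, haχ, haπ⟩
    refine ⟨τ₀, hτ₀, ?_, fun ζ _ f hf => kumDivAt_of_moves hp hr hrp A hA hπ hτ₀ hτ₀π ζ f hf⟩
    intro χ hχ hχ0 σ
    rcases hχ₁.dichotomy hχ hp hr hrp (Nat.card_zmod r) with h0 | ⟨m, -, hm⟩
    · exact absurd (h0 τ₀) hτ₀χ
    · have h1 := hm τ₀
      rw [hχ0, nsmul_eq_mul] at h1
      have h2 : (m : ZMod r) = 0 := by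
        rcases mul_eq_zero.mp h1.symm with h | h
        · exact h
        · exact absurd h hτ₀χ
      rw [hm σ, nsmul_eq_mul, h2, zero_mul]
  · push Not at hex
    exact ⟨b, hb, fun χ hχ _ σ => hex χ hχ σ,
      fun ζ _ f hf => kumDivAt_of_moves hp hr hrp A hA hπ hb hbπ ζ f hf⟩

end Good

end Fermat.Agent.S15.H322

end
-- ===== PACK-END S15/H322/StepTau.lean

-- ===== PACK-BEGIN S15/H322/BaseTwo.lean
section


/-!
# Row S15 — DESC leaf BASE, part 6 (helper322): the case `r = 2` (real place)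

For `r = 2` the classes of `ℚˣ / 2` with even valuations away from `p` are `⟨-1, p⟩`; positivity
(Kummer class trivial at the real place, `f c = 0` for `c` = complex conjugation) removes `-1`, an
even valuation at `p` removes `p`.  (`coord/S15-DESC-blueprint.md` §2, with the real place instead
of étaleness at `2`: notes of helper302 / helper111 / helper591.)

* `rat_dichotomy_two_pos`, `rat_dichotomy_two_unr` : the two one-dimensional cases, rational form.
* `kummer_dichotomy_of_rat` : from rational numbers to Kummer generators (any `r ≠ 0`).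
* `isTwCob_two`             : for `r = 2` a coboundary is zero.
* `tw_dichotomy_two_pos`    : `f₁ c = f₂ c = 0`, `KumDivAt` at all `ℓ ≠ p`.
* `tw_dichotomy_two_unr`    : `KumDivAt` at all primes.
* `tw_trivial_two`          : both ⟹ `f = 0`.
-/

set_option autoImplicit false
set_option linter.style.haveILetI false

namespace Fermat.Agent.S15.H322

open Fermat.Agent.S56 Fermat.Agent.S56.H786

section Rat

/-- Positive rational numbers with even valuations away from `p`: classes `1, p`. -/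
theorem rat_dichotomy_two_pos {a₁ a₂ : ℚ} {p : ℕ} (hp : p.Prime) (ha₁ : 0 < a₁) (ha₂ : 0 < a₂)
    (h₁ : ∀ ℓ : ℕ, ℓ.Prime → ℓ ≠ p → (2 : ℤ) ∣ padicValRat ℓ a₁)
    (h₂ : ∀ ℓ : ℕ, ℓ.Prime → ℓ ≠ p → (2 : ℤ) ∣ padicValRat ℓ a₂) :
    (∃ b : ℚ, b ≠ 0 ∧ a₁ = b ^ 2) ∨ ∃ m : ℕ, m < 2 ∧ ∃ b : ℚ, b ≠ 0 ∧ a₂ = a₁ ^ m * b ^ 2 := by
  have hp0 : (p : ℚ) ≠ 0 := by exact_mod_cast hp.ne_zero
  obtain ⟨b₁, hb₁, c₁⟩ := rat_two_cases hp ha₁.ne' h₁
  obtain ⟨b₂, hb₂, c₂⟩ := rat_two_cases hp ha₂.ne' h₂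
  rcases c₁ with e₁ | ⟨-, hneg⟩ | ⟨e₁, -⟩ | ⟨-, hneg, -⟩
  · exact Or.inl ⟨b₁, hb₁, e₁⟩
  · exact absurd ha₁ (not_lt.mpr hneg.le)
  · right
    rcases c₂ with e₂ | ⟨-, hneg⟩ | ⟨e₂, -⟩ | ⟨-, hneg, -⟩
    · exact ⟨0, by norm_num, b₂, hb₂, by rw [pow_zero, one_mul]; exact e₂⟩
    · exact absurd ha₂ (not_lt.mpr hneg.le)
    · refine ⟨1, by norm_num, b₂ / b₁, div_ne_zero hb₂ hb₁, ?_⟩
      rw [pow_one, e₁, e₂, div_pow]
      field_simp
    · exact absurd ha₂ (not_lt.mpr hneg.le)
  · exact absurd ha₁ (not_lt.mpr hneg.le)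

/-- Rational numbers with all valuations even: classes `1, -1`. -/
theorem rat_dichotomy_two_unr {a₁ a₂ : ℚ} (ha₁ : a₁ ≠ 0) (ha₂ : a₂ ≠ 0)
    (h₁ : ∀ ℓ : ℕ, ℓ.Prime → (2 : ℤ) ∣ padicValRat ℓ a₁)
    (h₂ : ∀ ℓ : ℕ, ℓ.Prime → (2 : ℤ) ∣ padicValRat ℓ a₂) :
    (∃ b : ℚ, b ≠ 0 ∧ a₁ = b ^ 2) ∨ ∃ m : ℕ, m < 2 ∧ ∃ b : ℚ, b ≠ 0 ∧ a₂ = a₁ ^ m * b ^ 2 := by
  obtain ⟨b₁, hb₁, c₁⟩ := rat_eq_pow_of_dvd (r := 2) ha₁ (by exact_mod_cast h₁)
  obtain ⟨b₂, hb₂, c₂⟩ := rat_eq_pow_of_dvd (r := 2) ha₂ (by exact_mod_cast h₂)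
  rcases c₁ with e₁ | e₁
  · exact Or.inl ⟨b₁, hb₁, e₁⟩
  · right
    rcases c₂ with e₂ | e₂
    · exact ⟨0, by norm_num, b₂, hb₂, by rw [pow_zero, one_mul]; exact e₂⟩
    · refine ⟨1, by norm_num, b₂ / b₁, div_ne_zero hb₂ hb₁, ?_⟩
      rw [pow_one, e₁, e₂, div_pow]
      field_simp

end Rat

section Kum

/-- `ℚ̄` (local abbreviation). -/
local notation "Qbar" => AlgebraicClosure ℚ

/-- From a dependence of rational numbers modulo `r`-th powers to a dependence of Kummer
generators modulo `μ_r · ℚˣ`. -/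
theorem kummer_dichotomy_of_rat {r : ℕ} (hr : r ≠ 0) {a₁ a₂ : ℚ} (ha₁ : a₁ ≠ 0)
    {β₁ β₂ : Qbar} (hβ₁ : β₁ ^ r = (a₁ : Qbar)) (hβ₂ : β₂ ^ r = (a₂ : Qbar))
    (h : (∃ b : ℚ, b ≠ 0 ∧ a₁ = b ^ r) ∨
      ∃ m : ℕ, m < r ∧ ∃ b : ℚ, b ≠ 0 ∧ a₂ = a₁ ^ m * b ^ r) :
    (∃ ξ : Qbar, ξ ^ r = 1 ∧ ∃ b : ℚ, b ≠ 0 ∧ β₁ = ξ * (b : Qbar)) ∨
      ∃ m : ℕ, m < r ∧ ∃ ξ : Qbar, ξ ^ r = 1 ∧ ∃ b : ℚ, b ≠ 0 ∧
        β₂ = ξ * (β₁ ^ m * (b : Qbar)) := by
  rcases h with ⟨b, hb, e⟩ | ⟨m, hm, b, hb, e⟩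
  · left
    obtain ⟨ξ, hξ, hβξ⟩ := exists_root_mul_of_pow_eq (β := β₁) hb (by rw [hβ₁, e])
    exact ⟨ξ, hξ, b, hb, hβξ⟩
  · right
    have hb' : (b : Qbar) ≠ 0 := by exact_mod_cast hb
    have hβ₁0 : β₁ ≠ 0 := by
      intro h0
      rw [h0, zero_pow hr] at hβ₁
      exact ha₁ (by exact_mod_cast hβ₁.symm)
    have hden : β₁ ^ m * (b : Qbar) ≠ 0 := mul_ne_zero (pow_ne_zero _ hβ₁0) hb'
    refine ⟨m, hm, β₂ / (β₁ ^ m * (b : Qbar)), ?_, b, hb, by rw [div_mul_cancel₀ _ hden]⟩
    rw [div_pow, hβ₂, mul_pow, ← pow_mul, mul_comm m r, pow_mul, hβ₁, e]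
    push_cast
    have hne : ((a₁ : Qbar) ^ m * (b : Qbar) ^ r) ≠ 0 :=
      mul_ne_zero (pow_ne_zero _ (by exact_mod_cast ha₁)) (pow_ne_zero _ hb')
    exact div_self hne

end Kum

section Tw

variable {ζ : Qb}

/-- For `r = 2` every cyclotomic exponent is odd. -/
theorem isCycExp_two_cast (hζ : IsPrimitiveRoot ζ 2) {σ : GQ} {a : ℕ} (ha : IsCycExp 2 σ a) :
    (a : ZMod 2) = 1 := by
  obtain ⟨b, hb⟩ : ∃ b : ℕ, IsCycExp 2 σ b ∧ (b : ZMod 2) = 1 := by
    refine ⟨1, fun μ hμ => ?_, by norm_num⟩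
    rw [pow_one]
    rcases sq_eq_one_iff.mp hμ with h | h <;> rw [h] <;> simp
  rw [← hb.2]
  exact isCycExp_unique hζ ha hb.1

/-- For `r = 2` a coboundary vanishes. -/
theorem isTwCob_two (hζ : IsPrimitiveRoot ζ 2) {f : GQ → ZMod 2} {n : ZMod 2}
    (h : IsTwCob 2 f n) (σ : GQ) : f σ = 0 := by
  obtain ⟨a, ha⟩ := exists_isCycExp hζ σ
  rw [h σ a ha, isCycExp_two_cast hζ ha, sub_self, zero_mul]

/-- The `r`-th power of a Kummer generator of a cocycle vanishing at complex conjugation is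
positive (`r = 2`). -/
theorem IsKumGen.pos_of_conj (_hζ : IsPrimitiveRoot ζ 2) {f : GQ → ZMod 2} {β : Qb}
    (hβ : IsKumGen 2 ζ f β) (hc : f complexConjugation = 0) {a : ℚ} (ha : a ≠ 0)
    (hβa : β ^ 2 = (a : Qb)) : 0 < a := by
  refine pos_of_complexConjugation_fixed ha hβa ?_
  rw [hβ.2 complexConjugation, hc, zp_zero, one_mul]

/-- **`r = 2`, positive at the real place, local conditions away from `p`.** -/
theorem tw_dichotomy_two_pos {p : ℕ} (hp : p.Prime) (hζ : IsPrimitiveRoot ζ 2)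
    {f₁ f₂ : GQ → ZMod 2} (hf₁ : IsTwCoc 2 f₁) (hf₂ : IsTwCoc 2 f₂)
    (hc₁ : f₁ complexConjugation = 0) (hc₂ : f₂ complexConjugation = 0)
    (hdiv₁ : ∀ ℓ : ℕ, ℓ.Prime → ℓ ≠ p → KumDivAt 2 ζ f₁ ℓ)
    (hdiv₂ : ∀ ℓ : ℕ, ℓ.Prime → ℓ ≠ p → KumDivAt 2 ζ f₂ ℓ) :
    (∃ n : ZMod 2, IsTwCob 2 f₁ n) ∨
      ∃ m : ℕ, m < 2 ∧ ∃ n : ZMod 2, IsTwCob 2 (fun σ => f₂ σ - (m : ZMod 2) * f₁ σ) n := by
  obtain ⟨β₁, hβ₁⟩ := hf₁.exists_isKumGen hζ
  obtain ⟨β₂, hβ₂⟩ := hf₂.exists_isKumGen hζ
  obtain ⟨a₁, ha₁, hβa₁⟩ := hβ₁.exists_rat hζ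
  obtain ⟨a₂, ha₂, hβa₂⟩ := hβ₂.exists_rat hζ
  have hpos₁ := hβ₁.pos_of_conj hζ hc₁ ha₁ hβa₁
  have hpos₂ := hβ₂.pos_of_conj hζ hc₂ ha₂ hβa₂
  rcases kummer_dichotomy_of_rat two_ne_zero ha₁ hβa₁ hβa₂
    (rat_dichotomy_two_pos hp hpos₁ hpos₂
      (fun ℓ hℓ hℓp => by exact_mod_cast hdiv₁ ℓ hℓ hℓp β₁ a₁ hβ₁ hβa₁)
      (fun ℓ hℓ hℓp => by exact_mod_cast hdiv₂ ℓ hℓ hℓp β₂ a₂ hβ₂ hβa₂)) with
    ⟨ξ, hξ, b, -, hb⟩ | ⟨m, hm, ξ, hξ, b, -, hb⟩
  · exact Or.inl (isTwCob_of_eq_mul hζ hβ₁ hξ hb)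
  · exact Or.inr ⟨m, hm, isTwCob_sub_of_eq_mul hζ hβ₁ hβ₂ hξ hb⟩

/-- **`r = 2`, local conditions at all primes.** -/
theorem tw_dichotomy_two_unr (hζ : IsPrimitiveRoot ζ 2)
    {f₁ f₂ : GQ → ZMod 2} (hf₁ : IsTwCoc 2 f₁) (hf₂ : IsTwCoc 2 f₂)
    (hdiv₁ : ∀ ℓ : ℕ, ℓ.Prime → KumDivAt 2 ζ f₁ ℓ)
    (hdiv₂ : ∀ ℓ : ℕ, ℓ.Prime → KumDivAt 2 ζ f₂ ℓ) :
    (∃ n : ZMod 2, IsTwCob 2 f₁ n) ∨
      ∃ m : ℕ, m < 2 ∧ ∃ n : ZMod 2, IsTwCob 2 (fun σ => f₂ σ - (m : ZMod 2) * f₁ σ) n := by
  obtain ⟨β₁, hβ₁⟩ := hf₁.exists_isKumGen hζ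
  obtain ⟨β₂, hβ₂⟩ := hf₂.exists_isKumGen hζ
  obtain ⟨a₁, ha₁, hβa₁⟩ := hβ₁.exists_rat hζ
  obtain ⟨a₂, ha₂, hβa₂⟩ := hβ₂.exists_rat hζ
  rcases kummer_dichotomy_of_rat two_ne_zero ha₁ hβa₁ hβa₂
    (rat_dichotomy_two_unr ha₁ ha₂
      (fun ℓ hℓ => by exact_mod_cast hdiv₁ ℓ hℓ β₁ a₁ hβ₁ hβa₁)
      (fun ℓ hℓ => by exact_mod_cast hdiv₂ ℓ hℓ β₂ a₂ hβ₂ hβa₂)) with
    ⟨ξ, hξ, b, -, hb⟩ | ⟨m, hm, ξ, hξ, b, -, hb⟩
  · exact Or.inl (isTwCob_of_eq_mul hζ hβ₁ hξ hb)
  · exact Or.inr ⟨m, hm, isTwCob_sub_of_eq_mul hζ hβ₁ hβ₂ hξ hb⟩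

/-- **`r = 2`, positive and unramified everywhere ⟹ `f = 0`.** -/
theorem tw_trivial_two (hζ : IsPrimitiveRoot ζ 2) {f : GQ → ZMod 2} (hf : IsTwCoc 2 f)
    (hc : f complexConjugation = 0) (hdiv : ∀ ℓ : ℕ, ℓ.Prime → KumDivAt 2 ζ f ℓ) (σ : GQ) :
    f σ = 0 := by
  obtain ⟨β, hβ⟩ := hf.exists_isKumGen hζ
  obtain ⟨a, ha, hβa⟩ := hβ.exists_rat hζ
  have hpos := hβ.pos_of_conj hζ hc ha hβa
  obtain ⟨b, -, hb⟩ := kummer_trivial_two hpos hβa
    (fun ℓ hℓ => by exact_mod_cast hdiv ℓ hℓ β a hβ hβa)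
  have hcob : ∃ n : ZMod 2, IsTwCob 2 f n := by
    rcases hb with h | h
    · exact isTwCob_of_eq_mul hζ hβ (ξ := 1) (one_pow 2) (b := b) (by rw [one_mul]; exact h)
    · exact isTwCob_of_eq_mul hζ hβ (ξ := -1) (by norm_num) (b := b) (by rw [h]; ring)
  obtain ⟨n, hn⟩ := hcob
  exact isTwCob_two hζ hn σ

end Tw

end Fermat.Agent.S15.H322

end
-- ===== PACK-END S15/H322/BaseTwo.lean

-- ===== PACK-BEGIN S15/H322/BasePieceTwo.lean
section



/-!
# Row S15 — DESC leaf BASE, part 7 (helper322): the per-piece bounds for `r = 2`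

`J` an abelian group with an action of `G = Gal(ℚ̄/ℚ)`, `F' ≤ J` a `G`-stable subgroup, `e ∉ F'`,
`2 e ∈ F'`, `G` acting trivially on the piece `(F' + ℤ e) / F'`.  For `r = 2` the cyclotomic
character is trivial, and the coordinate `f : G → ZMod 2` of a point (`HasCoord`) is at the same
time a character and an (`ω`-twisted) Kummer cocycle; its Kummer class is `a ∈ ℚˣ/(ℚˣ)²`.
Local conditions: `KumDivAt 2 ζ f ℓ` (`v_ℓ(a)` even), and `f c = 0` (`a > 0`), `c` the complex
conjugation.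

* `piece_dichotomy_two_pos`, `piece_relIndex_le_two_pos` : `a > 0`, even valuations away from `p`:
  classes `1, p`; index `≤ 2`.
* `piece_dichotomy_two_unr`, `piece_relIndex_le_two_unr` : even valuations everywhere: classes
  `1, -1`; index `≤ 2`.
* `piece_trivial_two`, `piece_le_two` : both: trivial.
* `piece_relIndex_le_four` : even valuations away from `p`: classes `±1, ±p`; index `≤ 4`.
-/

set_option autoImplicit false
set_option linter.unusedSectionVars false
set_option linter.style.haveILetI false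

namespace Fermat.Agent.S15.H322

open Fermat.Agent.S56 Fermat.Agent.S56.H786

section PieceTwo

variable {J : Type*} [AddCommGroup J] [DistribMulAction GQ J]
variable {F' : AddSubgroup J} {e : J}

/-- For `r = 2` a trivial action on the piece is an action through `ω`. -/
theorem hact_tw_of_triv_two {ζ : Qb} (hζ : IsPrimitiveRoot ζ 2) (hre : 2 • e ∈ F')
    (hact : ∀ σ : GQ, σ • e - e ∈ F') (σ : GQ) (a : ℕ) (ha : IsCycExp 2 σ a) :
    σ • e - a • e ∈ F' := by
  have h1 := isCycExp_two_cast hζ ha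
  have hodd : a % 2 = 1 := by
    have h2 : ((a : ℕ) : ZMod 2) = ((1 : ℕ) : ZMod 2) := by rw [h1]; simp
    have := (ZMod.natCast_eq_natCast_iff' a 1 2).mp h2
    simpa using this
  obtain ⟨k, hk⟩ : ∃ k, a = 2 * k + 1 := ⟨a / 2, by omega⟩
  have : σ • e - a • e = (σ • e - e) - k • (2 • e) := by
    rw [hk, add_smul, one_smul, mul_comm, mul_smul]; abel
  rw [this]
  exact F'.sub_mem (hact σ) (F'.nsmul_mem hre k)

/-- For `r = 2` an action through `ω` is a trivial action. -/
theorem hact_triv_of_tw_two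
    (hact : ∀ σ : GQ, ∀ a : ℕ, IsCycExp 2 σ a → σ • e - a • e ∈ F') (σ : GQ) :
    σ • e - e ∈ F' := by
  have h1 : IsCycExp 2 σ 1 := by
    intro μ hμ
    rw [pow_one]
    rcases sq_eq_one_iff.mp hμ with h | h <;> rw [h] <;> simp
  have := hact σ 1 h1
  rwa [one_smul] at this

/-- **`r = 2`, positive, even valuations away from `p`: the dichotomy.** -/
theorem piece_dichotomy_two_pos {p : ℕ} (hp : p.Prime) {ζ : Qb} (hζ : IsPrimitiveRoot ζ 2)
    (hstab : ∀ σ : GQ, ∀ x ∈ F', σ • x ∈ F') (he : e ∉ F') (hre : 2 • e ∈ F')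
    (hact : ∀ σ : GQ, σ • e - e ∈ F')
    {y₁ y₂ : J} {f₁ f₂ : GQ → ZMod 2} (h₁ : HasCoord 2 F' e y₁ f₁) (h₂ : HasCoord 2 F' e y₂ f₂)
    (hl₁ : HasLevel y₁) (hl₂ : HasLevel y₂)
    (hc₁ : f₁ complexConjugation = 0) (hc₂ : f₂ complexConjugation = 0)
    (hdiv₁ : ∀ ℓ : ℕ, ℓ.Prime → ℓ ≠ p → KumDivAt 2 ζ f₁ ℓ)
    (hdiv₂ : ∀ ℓ : ℕ, ℓ.Prime → ℓ ≠ p → KumDivAt 2 ζ f₂ ℓ) :
    KumIn F' y₁ ∨ ∃ m : ℕ, m < 2 ∧ KumIn F' (y₂ - m • y₁) := by
  have hact' := hact_tw_of_triv_two hζ hre hact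
  have hcoc₁ := h₁.isTwCoc Nat.prime_two hstab he hre hact' hl₁
  have hcoc₂ := h₂.isTwCoc Nat.prime_two hstab he hre hact' hl₂
  rcases tw_dichotomy_two_pos hp hζ hcoc₁ hcoc₂ hc₁ hc₂ hdiv₁ hdiv₂ with
    ⟨n, hn⟩ | ⟨m, hm, n, hn⟩
  · left
    have h0 : ∀ σ, f₁ σ = (0 : ℕ) • f₁ σ := fun σ => by rw [isTwCob_two hζ hn σ, smul_zero]
    have := kumIn_of_eq_smul Nat.prime_two he hre h₁ h₁ 0 h0
    rwa [zero_smul, sub_zero] at this
  · right
    refine ⟨m, hm, kumIn_of_eq_smul Nat.prime_two he hre h₁ h₂ m (fun σ => ?_)⟩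
    have := isTwCob_two hζ hn σ
    rw [nsmul_eq_mul]
    exact sub_eq_zero.mp this

/-- **`r = 2`, even valuations everywhere: the dichotomy.** -/
theorem piece_dichotomy_two_unr {ζ : Qb} (hζ : IsPrimitiveRoot ζ 2)
    (hstab : ∀ σ : GQ, ∀ x ∈ F', σ • x ∈ F') (he : e ∉ F') (hre : 2 • e ∈ F')
    (hact : ∀ σ : GQ, σ • e - e ∈ F')
    {y₁ y₂ : J} {f₁ f₂ : GQ → ZMod 2} (h₁ : HasCoord 2 F' e y₁ f₁) (h₂ : HasCoord 2 F' e y₂ f₂)
    (hl₁ : HasLevel y₁) (hl₂ : HasLevel y₂)
    (hdiv₁ : ∀ ℓ : ℕ, ℓ.Prime → KumDivAt 2 ζ f₁ ℓ)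
    (hdiv₂ : ∀ ℓ : ℕ, ℓ.Prime → KumDivAt 2 ζ f₂ ℓ) :
    KumIn F' y₁ ∨ ∃ m : ℕ, m < 2 ∧ KumIn F' (y₂ - m • y₁) := by
  have hact' := hact_tw_of_triv_two hζ hre hact
  have hcoc₁ := h₁.isTwCoc Nat.prime_two hstab he hre hact' hl₁
  have hcoc₂ := h₂.isTwCoc Nat.prime_two hstab he hre hact' hl₂
  rcases tw_dichotomy_two_unr hζ hcoc₁ hcoc₂ hdiv₁ hdiv₂ with ⟨n, hn⟩ | ⟨m, hm, n, hn⟩
  · left
    have h0 : ∀ σ, f₁ σ = (0 : ℕ) • f₁ σ := fun σ => by rw [isTwCob_two hζ hn σ, smul_zero]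
    have := kumIn_of_eq_smul Nat.prime_two he hre h₁ h₁ 0 h0
    rwa [zero_smul, sub_zero] at this
  · right
    refine ⟨m, hm, kumIn_of_eq_smul Nat.prime_two he hre h₁ h₂ m (fun σ => ?_)⟩
    have := isTwCob_two hζ hn σ
    rw [nsmul_eq_mul]
    exact sub_eq_zero.mp this

/-- **`r = 2`, positive and even valuations everywhere: trivial.** -/
theorem piece_trivial_two {ζ : Qb} (hζ : IsPrimitiveRoot ζ 2)
    (hstab : ∀ σ : GQ, ∀ x ∈ F', σ • x ∈ F') (he : e ∉ F') (hre : 2 • e ∈ F')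
    (hact : ∀ σ : GQ, σ • e - e ∈ F')
    {y : J} {f : GQ → ZMod 2} (h : HasCoord 2 F' e y f) (hl : HasLevel y)
    (hc : f complexConjugation = 0) (hdiv : ∀ ℓ : ℕ, ℓ.Prime → KumDivAt 2 ζ f ℓ) :
    KumIn F' y := by
  have hact' := hact_tw_of_triv_two hζ hre hact
  have hcoc := h.isTwCoc Nat.prime_two hstab he hre hact' hl
  have h0 : ∀ σ, f σ = (0 : ℕ) • f σ := fun σ => by
    rw [tw_trivial_two hζ hcoc hc hdiv σ, smul_zero]
  have := kumIn_of_eq_smul Nat.prime_two he hre h h 0 h0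
  rwa [zero_smul, sub_zero] at this

/-- **Index bound, `r = 2`, positive, even valuations away from `p`.** -/
theorem piece_relIndex_le_two_pos {p : ℕ} (hp : p.Prime) {ζ : Qb} (hζ : IsPrimitiveRoot ζ 2)
    (hstab : ∀ σ : GQ, ∀ x ∈ F', σ • x ∈ F') (he : e ∉ F') (hre : 2 • e ∈ F')
    (hact : ∀ σ : GQ, σ • e - e ∈ F') (Y H : AddSubgroup J)
    (hY : ∀ y ∈ Y, ∃ f : GQ → ZMod 2, HasCoord 2 F' e y f ∧ HasLevel y ∧
      f complexConjugation = 0 ∧ ∀ ℓ : ℕ, ℓ.Prime → ℓ ≠ p → KumDivAt 2 ζ f ℓ)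
    (hH : ∀ w ∈ Y, KumIn F' w → w ∈ H) :
    H.relIndex Y ≠ 0 ∧ H.relIndex Y ≤ 2 := by
  refine relIndex_le_of_dichotomy H Y (by norm_num) (fun y₁ hy₁ y₂ hy₂ => ?_)
  obtain ⟨f₁, h₁, hl₁, hc₁, hd₁⟩ := hY y₁ hy₁
  obtain ⟨f₂, h₂, hl₂, hc₂, hd₂⟩ := hY y₂ hy₂
  rcases piece_dichotomy_two_pos hp hζ hstab he hre hact h₁ h₂ hl₁ hl₂ hc₁ hc₂ hd₁ hd₂ with
    hn | ⟨m, hm, hn⟩
  · exact Or.inl (hH _ hy₁ hn)
  · exact Or.inr ⟨m, hm, hH _ (Y.sub_mem hy₂ (Y.nsmul_mem hy₁ m)) hn⟩

/-- **Index bound, `r = 2`, even valuations everywhere.** -/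
theorem piece_relIndex_le_two_unr {ζ : Qb} (hζ : IsPrimitiveRoot ζ 2)
    (hstab : ∀ σ : GQ, ∀ x ∈ F', σ • x ∈ F') (he : e ∉ F') (hre : 2 • e ∈ F')
    (hact : ∀ σ : GQ, σ • e - e ∈ F') (Y H : AddSubgroup J)
    (hY : ∀ y ∈ Y, ∃ f : GQ → ZMod 2, HasCoord 2 F' e y f ∧ HasLevel y ∧
      ∀ ℓ : ℕ, ℓ.Prime → KumDivAt 2 ζ f ℓ)
    (hH : ∀ w ∈ Y, KumIn F' w → w ∈ H) :
    H.relIndex Y ≠ 0 ∧ H.relIndex Y ≤ 2 := by
  refine relIndex_le_of_dichotomy H Y (by norm_num) (fun y₁ hy₁ y₂ hy₂ => ?_)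
  obtain ⟨f₁, h₁, hl₁, hd₁⟩ := hY y₁ hy₁
  obtain ⟨f₂, h₂, hl₂, hd₂⟩ := hY y₂ hy₂
  rcases piece_dichotomy_two_unr hζ hstab he hre hact h₁ h₂ hl₁ hl₂ hd₁ hd₂ with
    hn | ⟨m, hm, hn⟩
  · exact Or.inl (hH _ hy₁ hn)
  · exact Or.inr ⟨m, hm, hH _ (Y.sub_mem hy₂ (Y.nsmul_mem hy₁ m)) hn⟩

/-- **`r = 2`, positive and even valuations everywhere: `Y ≤ H`.** -/
theorem piece_le_two {ζ : Qb} (hζ : IsPrimitiveRoot ζ 2)
    (hstab : ∀ σ : GQ, ∀ x ∈ F', σ • x ∈ F') (he : e ∉ F') (hre : 2 • e ∈ F')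
    (hact : ∀ σ : GQ, σ • e - e ∈ F') (Y H : AddSubgroup J)
    (hY : ∀ y ∈ Y, ∃ f : GQ → ZMod 2, HasCoord 2 F' e y f ∧ HasLevel y ∧
      f complexConjugation = 0 ∧ ∀ ℓ : ℕ, ℓ.Prime → KumDivAt 2 ζ f ℓ)
    (hH : ∀ w ∈ Y, KumIn F' w → w ∈ H) : Y ≤ H := by
  intro y hy
  obtain ⟨f, h, hl, hc, hd⟩ := hY y hy
  exact hH y hy (piece_trivial_two hζ hstab he hre hact h hl hc hd)

/-- The points of `Y` whose Kummer value at complex conjugation lies in `F'`. -/
def posSub (F' Y : AddSubgroup J) : AddSubgroup J where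
  carrier := {y | y ∈ Y ∧ complexConjugation • y - y ∈ F'}
  zero_mem' := ⟨Y.zero_mem, by rw [smul_zero, sub_zero]; exact F'.zero_mem⟩
  add_mem' := by
    rintro a b ⟨ha, ha'⟩ ⟨hb, hb'⟩
    refine ⟨Y.add_mem ha hb, ?_⟩
    have h : complexConjugation • (a + b) - (a + b) =
        (complexConjugation • a - a) + (complexConjugation • b - b) := by
      rw [smul_add]; abel
    rw [h]
    exact F'.add_mem ha' hb'
  neg_mem' := by
    rintro a ⟨ha, ha'⟩
    refine ⟨Y.neg_mem ha, ?_⟩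
    have h : complexConjugation • (-a) - (-a) = -(complexConjugation • a - a) := by
      rw [smul_neg]; abel
    rw [h]
    exact F'.neg_mem ha'

theorem posSub_le (F' Y : AddSubgroup J) : posSub F' Y ≤ Y := fun _ h => h.1

/-- The coordinate of a point of `posSub` vanishes at complex conjugation. -/
theorem HasCoord.apply_conj_eq_zero (he : e ∉ F') (hre : 2 • e ∈ F') {y : J}
    {f : GQ → ZMod 2} (hf : HasCoord 2 F' e y f) (hy : complexConjugation • y - y ∈ F') :
    f complexConjugation = 0 := by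
  have h1 := F'.sub_mem hy (hf complexConjugation)
  have h2 : complexConjugation • y - y -
      (complexConjugation • y - y - (f complexConjugation).val • e) =
      (((f complexConjugation).val : ℤ)) • e := by
    rw [natCast_zsmul]; abel
  rw [h2, zsmul_mem_iff Nat.prime_two he hre] at h1
  rwa [Int.cast_natCast, ZMod.natCast_zmod_val] at h1

/-- `[Y : posSub] ≤ 2`. -/
theorem posSub_relIndex_le (Y : AddSubgroup J)
    (hY : ∀ y ∈ Y, ∃ f : GQ → ZMod 2, HasCoord 2 F' e y f) :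
    (posSub F' Y).relIndex Y ≠ 0 ∧ (posSub F' Y).relIndex Y ≤ 2 := by
  refine relIndex_le_of_dichotomy _ Y (by norm_num) (fun y₁ hy₁ y₂ hy₂ => ?_)
  obtain ⟨f₁, h₁⟩ := hY y₁ hy₁
  obtain ⟨f₂, h₂⟩ := hY y₂ hy₂
  -- the value of a coordinate at `c` decides the membership
  have key : ∀ (y : J) (f : GQ → ZMod 2), HasCoord 2 F' e y f → f complexConjugation = 0 →
      complexConjugation • y - y ∈ F' := by
    intro y f hf h0
    have := hf complexConjugation
    rwa [h0, ZMod.val_zero, zero_smul, sub_zero] at this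
  by_cases h10 : f₁ complexConjugation = 0
  · exact Or.inl ⟨hy₁, key y₁ f₁ h₁ h10⟩
  · right
    have h11 : f₁ complexConjugation = 1 := by
      generalize f₁ complexConjugation = x at h10
      revert x; decide
    refine ⟨(f₂ complexConjugation).val, ZMod.val_lt _, Y.sub_mem hy₂ (Y.nsmul_mem hy₁ _), ?_⟩
    set m := (f₂ complexConjugation).val with hm
    have hB₁ := h₁ complexConjugation
    have hB₂ := h₂ complexConjugation
    rw [h11] at hB₁
    have hv1 : (1 : ZMod 2).val = 1 := by decide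
    rw [hv1, one_smul] at hB₁
    have e1 : complexConjugation • (y₂ - m • y₁) - (y₂ - m • y₁) =
        (complexConjugation • y₂ - y₂ - m • e) -
          m • (complexConjugation • y₁ - y₁ - e) := by
      rw [smul_sub, smul_comm complexConjugation m y₁]
      generalize complexConjugation • y₂ = Y2
      generalize complexConjugation • y₁ = Y1
      simp only [← natCast_zsmul]
      module
    rw [e1]
    exact F'.sub_mem hB₂ (F'.nsmul_mem hB₁ m)

/-- **Index bound, `r = 2`, even valuations away from `p`: `[Y : H ∩ Y] ≤ 4`.** -/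
theorem piece_relIndex_le_four {p : ℕ} (hp : p.Prime) {ζ : Qb} (hζ : IsPrimitiveRoot ζ 2)
    (hstab : ∀ σ : GQ, ∀ x ∈ F', σ • x ∈ F') (he : e ∉ F') (hre : 2 • e ∈ F')
    (hact : ∀ σ : GQ, σ • e - e ∈ F') (Y H : AddSubgroup J)
    (hY : ∀ y ∈ Y, ∃ f : GQ → ZMod 2, HasCoord 2 F' e y f ∧ HasLevel y ∧
      ∀ ℓ : ℕ, ℓ.Prime → ℓ ≠ p → KumDivAt 2 ζ f ℓ)
    (hH : ∀ w ∈ Y, KumIn F' w → w ∈ H) :
    H.relIndex Y ≠ 0 ∧ H.relIndex Y ≤ 4 := by
  set P := posSub F' Y with hP
  have h1 := posSub_relIndex_le (F' := F') (e := e) Y (fun y hy => by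
    obtain ⟨f, hf, -⟩ := hY y hy
    exact ⟨f, hf⟩)
  have h2 := piece_relIndex_le_two_pos hp hζ hstab he hre hact P H
    (fun y hy => by
      obtain ⟨f, hf, hl, hd⟩ := hY y hy.1
      exact ⟨f, hf, hl, hf.apply_conj_eq_zero he hre hy.2, hd⟩)
    (fun w hw hk => hH w hw.1 hk)
  -- `[Y : H ∩ P] = [P : H ∩ P] [Y : P]`
  have h3 : (H ⊓ P).relIndex P * P.relIndex Y = (H ⊓ P).relIndex Y :=
    AddSubgroup.relIndex_mul_relIndex (H ⊓ P) P Y inf_le_right (posSub_le F' Y)
  rw [AddSubgroup.inf_relIndex_right] at h3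
  have h4 : (H ⊓ P).relIndex Y ≠ 0 := by
    rw [← h3]
    exact mul_ne_zero h2.1 h1.1
  have h5 : H.relIndex Y ≤ (H ⊓ P).relIndex Y :=
    AddSubgroup.relIndex_le_of_le_left inf_le_left h4
  have h6 : H.relIndex Y ∣ (H ⊓ P).relIndex Y :=
    AddSubgroup.relIndex_dvd_of_le_left Y inf_le_left
  refine ⟨fun h0 => h4 (by rw [h0] at h6; exact Nat.eq_zero_of_zero_dvd h6), ?_⟩
  calc H.relIndex Y ≤ (H ⊓ P).relIndex Y := h5
    _ = H.relIndex P * P.relIndex Y := h3.symm
    _ ≤ 2 * 2 := Nat.mul_le_mul h2.2 h1.2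
    _ = 4 := by norm_num

end PieceTwo

end Fermat.Agent.S15.H322

end
-- ===== PACK-END S15/H322/BasePieceTwo.lean

-- ===== PACK-BEGIN S18/H383/FF1Modular.lean
section






/-!
# S18 / "FF1 instances" (helper383): the standing hypotheses `Lib.RR.FF1` of the shared
Riemann–Roch library for the modular function fields in characteristic `ℓ`

Exact statements (sorry-free; from the characteristic-free bridge
`Fermat.Agent.Lib.RR.H383.ff1_of_finite` and MOD.1 of helper739):

* `ff1_fullC k N hchar : Lib.RR.FF1 k (modularFunctionFieldFullC k N)` for every algebraically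
  closed field `k` in which the primes dividing `N` are invertible (any characteristic);
* `ff1_residue N ℓ hℓ hℓN A hA : Lib.RR.FF1 (A/𝔪) (modularFunctionFieldFullC (A/𝔪) N)` for a
  valuation subring `A` of `ℚ̄` over `ℓ ∤ N`;
* `hasPrincipalDivisors_fullC`, `deg_eq_one_fullC`, `constStatement_fullC`, `t3Statement`;
* `hpdStatement : Sq05.HpdStatement` (the product formula, characteristic-free, frozen shape).
-/

set_option autoImplicit false

open AlgebraicCurve ModularCurve IntermediateField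

namespace Fermat.Agent.S18.H383

open Fermat.Agent.Lib.RR

section Generic

/-- **HPD.k** in the frozen shape of `Sq05/Spec.lean`. -/
theorem hpdStatement : Fermat.Agent.S18.Sq05.HpdStatement := by
  intro K F _ _ _ _ x hx hfin
  exact Fermat.Agent.Lib.RR.H383.hasPrincipalDivisors_of_finite hx

end Generic

section Modular

variable (k : Type*) [Field k] [IsAlgClosed k] (N : ℕ) [NeZero N]

/-- `FF1` for `k(j(q^d) : d ∣ N)` over an algebraically closed field `k` in which the primes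
dividing `N` are invertible. -/
theorem ff1_fullC (hchar : ∀ p : ℕ, p.Prime → p ∣ N → (p : k) ≠ 0) :
    FF1 k (modularFunctionFieldFullC k N) := by
  have := Fermat.Agent.S18.H739.finiteDimensional_adjoin_jC k N hchar
  exact Fermat.Agent.Lib.RR.H383.ff1_of_finite (Fermat.Agent.S18.H739.transcendental_jC k N)

theorem hasPrincipalDivisors_fullC (hchar : ∀ p : ℕ, p.Prime → p ∣ N → (p : k) ≠ 0) :
    HasPrincipalDivisors k (modularFunctionFieldFullC k N) :=
  (ff1_fullC k N hchar).hpd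

theorem deg_eq_one_fullC (hchar : ∀ p : ℕ, p.Prime → p ∣ N → (p : k) ≠ 0)
    (v : Place k (modularFunctionFieldFullC k N)) : v.deg = 1 :=
  (ff1_fullC k N hchar).deg_eq_one v

/-- CONST_Fk: a modular function over `k` without zeros and poles is constant. -/
theorem constStatement_fullC (hchar : ∀ p : ℕ, p.Prime → p ∣ N → (p : k) ≠ 0) :
    Fermat.Agent.S18.Sq05.ConstStatement k (modularFunctionFieldFullC k N) := by
  intro u _ hu
  have := Fermat.Agent.S18.H739.finiteDimensional_adjoin_jC k N hchar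
  obtain ⟨c, hc⟩ := Fermat.Agent.Lib.RR.H383.eq_algebraMap_of_forall_ord_eq_zero
    (Fermat.Agent.S18.H739.transcendental_jC k N) hu
  exact ⟨c, hc.symm⟩

end Modular

section Residue

variable (N : ℕ) [NeZero N] (ℓ : ℕ)

set_option synthInstance.maxHeartbeats 400000 in
/-- `FF1` for the function field of `X₀(N)` over the residue field of a valuation subring of
`ℚ̄` above `ℓ ∤ N`. -/
theorem ff1_residue (hℓ : ℓ.Prime) (hℓN : ¬ ℓ ∣ N) (A : ValuationSubring (AlgebraicClosure ℚ))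
    (hA : A.LiesOverPrime ℓ) :
    FF1 (IsLocalRing.ResidueField A)
      (modularFunctionFieldFullC (IsLocalRing.ResidueField A) N) := by
  have := Fermat.Agent.S18.H9.resAlgClosed _ A
  refine ff1_fullC _ N fun p hp hpN =>
    Fermat.Agent.S18.H9.resChar _ A ℓ p hℓ hp hA ?_
  rintro rfl
  exact hℓN hpN

/-- **T3** in the frozen shape of `Sq05/Spec.lean`. -/
theorem t3Statement : Fermat.Agent.S18.Sq05.T3Statement := by
  intro N _ ℓ hℓ hℓN A hA
  have := Fermat.Agent.S18.H9.resAlgClosed _ A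
  refine constStatement_fullC _ N fun p hp hpN =>
    Fermat.Agent.S18.H9.resChar _ A ℓ p hℓ hp hA ?_
  rintro rfl
  exact hℓN hpN

end Residue

end Fermat.Agent.S18.H383

end
-- ===== PACK-END S18/H383/FF1Modular.lean

-- ===== PACK-BEGIN A3/GR/Leaves.lean
section







/-!
# A3 / GOODRED-INST — frozen LEAVES and the (proved) assembly   (lead: helper19)

Target: an instance of `Fermat.Agent.A3.H799.GoodRed` for
`K = ℚ̄`, `F = F_M = ℚ̄(X₀(M))`, `k = A/𝔪`, `Fk = F_{M,k} = k(X₀(M))`,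
built on the CANONICAL objects of helper940 (`S37/H940/QSeries.lean`, `S37/Rim/Spec.lean`):

* `V`   = `A`;   `O` = the ring of fractions `a/b` of integral `q`-series with `b̄ ≠ 0`
          (`(Rim.ctx A M).V`; a valuation ring by leaf GAUSS);
* `red` = coefficientwise reduction (`(Rim.ctx A M).ρ`);
* `r`   = the place map of the Prelude's `ReductionInputsModL A M` (node_rim of row S37);
* `I`   = image of the inertia group of `A` under `arithmeticGalois`.

`goodRed_of_leaves` is PROVED here from the leaves below; each leaf is a `def … : Prop`.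
A leaf `X` is DONE when `theorem … : XStatement A M` (with the hypotheses it needs: `ℓ ∤ M`,
`A.LiesOverPrime ℓ`, good level) is on main, sorry-free.
-/

set_option autoImplicit false
set_option synthInstance.maxHeartbeats 400000

noncomputable section

namespace Fermat.Agent.A3.GR

open AlgebraicCurve ModularCurve HahnSeries IsLocalRing
open Fermat.Agent.S37.Rim Fermat.Agent.S37.H940 Fermat.Agent.A3.H799

variable (A : ValuationSubring Qb) (M : ℕ)

/-- the inertia group of `A`, acting on `F_M` -/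
def inertia : Subgroup (SemilinearAut Qb (FM M)) :=
  (A.inertiaSubgroupIn ℚ).map (arithmeticGalois (modularFunctionFieldFull M))

/-- **LEAF GAUSS**: every nonzero function is a constant times a fraction of integral
`q`-series with nonzero reductions (= helper940's `ValueGroupHyp`). -/
def GaussStatement : Prop :=
  ValueGroupHyp A (residue A) (FM M) (FkM A M)

/-- **LEAF RSURJ**: reduction of functions is onto. -/
def RedSurjStatement : Prop :=
  Function.Surjective (ctx A M).ρ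

/-- **LEAF RIM** (node_rim of row S37 in the fraction form of helper940's `Atlas.exists_red`,
together with the pointwise inertia invariance): the place reduction map. -/
def RimStatement : Prop :=
  ∃ r : Place Qb (FM M) → Place (kA A) (FkM A M),
    (∀ P, (r P).deg = P.deg) ∧
    (∀ u : (ctx A M).V, (ctx A M).ρ u ≠ 0 → ∀ D : Divisor Qb (FM M),
      (∀ P, D P = P.ord (u : FM M)) → ∀ Q, Finsupp.mapDomain r D Q = Q.ord ((ctx A M).ρ u)) ∧
    ∀ σ ∈ A.inertiaSubgroupIn ℚ, ∀ P : Place Qb (FM M),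
      r (arithmeticGalois (modularFunctionFieldFull M) σ • P) = r P

/-- **LEAF GENUS**: equal genus. -/
def GenusStatement : Prop :=
  genusFF Qb (FM M) = genusFF (kA A) (FkM A M)

/-- **LEAF ORTHO**: orthonormal bases of Riemann–Roch spaces, inertia-invariant for
inertia-invariant divisors. -/
def OrthoStatement : Prop :=
  ∀ D : Divisor Qb (FM M), ∃ (n : ℕ) (b : Fin n → (ctx A M).V),
    LinearIndependent (kA A) (fun i => (ctx A M).ρ (b i)) ∧
    (∀ i, ((b i : (ctx A M).V) : FM M) ∈ riemannRochSpace D) ∧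
    Submodule.span Qb (Set.range fun i => ((b i : (ctx A M).V) : FM M)) = riemannRochSpace D ∧
    ((∀ g ∈ inertia A M, g • D = D) →
      ∀ i, ∀ g ∈ inertia A M, g • ((b i : (ctx A M).V) : FM M) = ((b i : (ctx A M).V) : FM M))

/-- **LEAF IBASE**: inertia preserves `A` and acts trivially on the residue field. -/
def IBaseStatement : Prop :=
  ∀ σ ∈ A.inertiaSubgroupIn ℚ, ∀ a : A, ∃ h : σ (a : Qb) ∈ A,
    residue A ⟨σ (a : Qb), h⟩ = residue A a

/-- **LEAF IRED**: inertia preserves `O` and acts trivially on reductions. -/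
def IRedStatement : Prop :=
  ∀ σ ∈ A.inertiaSubgroupIn ℚ, ∀ f : (ctx A M).V,
    ∃ h : arithmeticGalois (modularFunctionFieldFull M) σ • (f : FM M) ∈ (ctx A M).V,
      (ctx A M).ρ ⟨arithmeticGalois (modularFunctionFieldFull M) σ • (f : FM M), h⟩ =
        (ctx A M).ρ f

/-- **LEAF ILIFT**: every residue constant has an inertia-invariant lift. -/
def ILiftStatement : Prop :=
  ∀ c : kA A, ∃ a : A, residue A a = c ∧ ∀ σ ∈ A.inertiaSubgroupIn ℚ, σ (a : Qb) = (a : Qb)

/-- **LEAF IFIXED**: there is an inertia-invariant place (the cusp `∞`). -/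
def IFixedStatement : Prop :=
  ∃ P : Place Qb (FM M), ∀ σ ∈ A.inertiaSubgroupIn ℚ,
    arithmeticGalois (modularFunctionFieldFull M) σ • P = P

end Fermat.Agent.A3.GR

end

end
-- ===== PACK-END A3/GR/Leaves.lean

-- ===== PACK-BEGIN S37/H28/NCMod.lean
section






/-!
# S37 / node_rim, NC producer (helper28), part 2: the modular function field

`F = Om M = F_M = ℚ̄(X₀(M))`, `K = ℚ̄`, `x` an admissible coordinate (`Mod.IsCoordinate M ℓ x S`:
`x = j`, `S = {0, 1728}` for `ℓ ≥ 5`; `x = t₂`, `S = {0, -64}` for `ℓ = 3`; `x = t₃`,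
`S = {0, -27}` for `ℓ = 2`), `A ⊆ ℚ̄` a valuation subring over `ℓ`.

For ANY `[Algebra ℚ̄[X] F_M]` with `X ↦ x` (resp. `X ↦ x⁻¹`) and `C a ↦ a`:

* `nc_fin` / `nc_inf` : hypothesis `hNC` of Theorem M (`S37.H159.RedCtx.lift_integral`), verbatim:
  `∀ c : A, c ∉ branchA A S → (Ideal.span {algebraMap K[X] (integralClosure K[X] F) (X - C c)}).IsRadical`
  with `S` resp. `H278.invBranch S`;
* `injOn_branchA` / `injOn_branchA_inv` : hypothesis `hS` of Theorem M (the branch values stay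
  distinct modulo the maximal ideal of `A`), for any ring hom `π` on `A` with kernel `𝔪_A`.
-/

set_option autoImplicit false
set_option linter.unusedSectionVars false
set_option linter.style.haveILetI false

noncomputable section

namespace Fermat.Agent.S37.H28

open Polynomial

section Branch

variable {K : Type*} [Field K] {F : Type*} [Field F] [Algebra K F]

/-- the elements of `A` whose image lies in the finite set `S ⊆ F` -/
def branchA (A : ValuationSubring K) (S : Finset F) : Finset A :=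
  S.preimage (fun c : A => algebraMap K F (c : K))
    (((algebraMap K F).injective.comp Subtype.coe_injective).injOn)

theorem mem_branchA {A : ValuationSubring K} {S : Finset F} {c : A} :
    c ∈ branchA (F := F) A S ↔ algebraMap K F (c : K) ∈ S := by
  rw [branchA, Finset.mem_preimage]

end Branch

section Generic

variable {K : Type*} [Field K] [CharZero K] {F : Type*} [Field F] [Algebra K F] [Algebra K[X] F]
variable (L₀ : Type*) [Field L₀] [Algebra K[X] L₀] [IsFractionRing K[X] L₀] [Algebra L₀ F]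
  [IsScalarTower K[X] L₀ F] [FiniteDimensional L₀ F]

include L₀ in
/-- **NC from `Unramified`**, in the shape `hNC` of Theorem M. -/
theorem nc_of_unramified (hC : ∀ a : K, algebraMap K[X] F (C a) = algebraMap K F a)
    (S : Finset F)
    (hunr : Fermat.Agent.S18.H278.Unramified (algebraMap K F).fieldRange
      (algebraMap K[X] F X) S)
    (A : ValuationSubring K) (c : A) (hc : c ∉ branchA (F := F) A S) :
    (Ideal.span {algebraMap K[X] (integralClosure K[X] F) (X - C (c : K))}).IsRadical := by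
  refine isRadical_span_X_sub_C L₀ (algebraMap K F).fieldRange ?_ S hunr (c : K) ?_ ?_
  · rintro a ⟨a₀, rfl⟩
    exact ⟨a₀, hC a₀⟩
  · rw [hC]
    exact ⟨_, rfl⟩
  · rw [hC]
    exact fun h => hc (mem_branchA.2 h)

end Generic

section Units

variable {K : Type*} [Field K] [CharZero K]

/-- an integer prime to `ℓ` is a unit of a valuation ring over `ℓ` -/
theorem int_inv_mem_of_coprime (A : ValuationSubring K) {ℓ : ℕ} (hA : (ℓ : K) ∈ A.nonunits)
    (n : ℤ) (hn : IsCoprime n (ℓ : ℤ)) : ((n : K))⁻¹ ∈ A := by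
  obtain ⟨a, b, hab⟩ := hn
  have hℓv : A.valuation (ℓ : K) < 1 := A.mem_nonunits_iff.1 hA
  have hint : ∀ m : ℤ, A.valuation (m : K) ≤ 1 := fun m =>
    (A.valuation_le_one_iff _).2 (intCast_mem A m)
  have h1 : (a : K) * (n : K) + (b : K) * (ℓ : K) = 1 := by
    have := congrArg (Int.cast : ℤ → K) hab
    push_cast at this
    exact this
  have hbℓ : A.valuation ((b : K) * (ℓ : K)) < 1 := by
    rw [map_mul]
    exact lt_of_le_of_lt (mul_le_of_le_one_left' (hint b)) hℓv
  have han : A.valuation ((a : K) * (n : K)) = 1 := by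
    have h2 : (a : K) * (n : K) = 1 + -((b : K) * (ℓ : K)) := by
      rw [← h1]; ring
    rw [h2]
    have h3 : A.valuation (-((b : K) * (ℓ : K))) < A.valuation (1 : K) := by
      rw [Valuation.map_neg, map_one]
      exact hbℓ
    rw [Valuation.map_add_eq_of_lt_left _ h3, map_one]
  rw [map_mul] at han
  have hn1 : A.valuation (n : K) = 1 := by
    refine le_antisymm (hint n) ?_
    by_contra hlt
    have hlt' : A.valuation (n : K) < 1 := lt_of_not_ge hlt
    have : A.valuation (a : K) * A.valuation (n : K) < 1 :=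
      lt_of_le_of_lt (mul_le_of_le_one_left' (hint a)) hlt'
    rw [han] at this
    exact lt_irrefl _ this
  rw [← A.valuation_le_one_iff, map_inv₀, hn1, inv_one]

/-- a finite set of elements of `A` with values in `{0, u}`, `u` a unit of `A`, stays injective
under every ring homomorphism to a nontrivial ring -/
theorem injOn_of_pair (A : ValuationSubring K) {k : Type*} [Semiring k] [Nontrivial k]
    (π : A →+* k) (T : Finset A) (u : K) (hu : u ∈ A) (hu' : u⁻¹ ∈ A) (hu0 : u ≠ 0)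
    (hT : ∀ c ∈ T, (c : K) = 0 ∨ (c : K) = u) : Set.InjOn π (T : Set A) := by
  have hπu : π ⟨u, hu⟩ ≠ 0 := by
    intro h0
    have h1 : (⟨u, hu⟩ : A) * ⟨u⁻¹, hu'⟩ = 1 := Subtype.ext (mul_inv_cancel₀ hu0)
    have h2 := congrArg π h1
    rw [map_mul, h0, zero_mul, map_one] at h2
    exact zero_ne_one h2
  intro c₁ h₁ c₂ h₂ h
  rcases hT c₁ h₁ with e₁ | e₁ <;> rcases hT c₂ h₂ with e₂ | e₂
  · exact Subtype.ext (e₁.trans e₂.symm)
  · exfalso
    have hc₁ : c₁ = 0 := Subtype.ext e₁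
    have hc₂ : c₂ = ⟨u, hu⟩ := Subtype.ext e₂
    rw [hc₁, hc₂, map_zero] at h
    exact hπu h.symm
  · exfalso
    have hc₁ : c₁ = ⟨u, hu⟩ := Subtype.ext e₁
    have hc₂ : c₂ = 0 := Subtype.ext e₂
    rw [hc₁, hc₂, map_zero] at h
    exact hπu h
  · exact Subtype.ext (e₁.trans e₂.symm)

end Units

section Modular

open Fermat.Agent.S18 Fermat.Agent.S18.Mod Fermat.Agent.S18.H278 Fermat.Agent.S18.H107

variable {M : ℕ} [NeZero M]

/-- an admissible coordinate is unramified outside its branch set -/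
theorem unramified_of_isCoordinate {ℓ : ℕ} {x : Om M} {S : Finset (Om M)}
    (hx : IsCoordinate M ℓ x S) : Unramified (Lc M) x S := by
  rcases hx with ⟨-, rfl, hS⟩ | ⟨⟨-, hrel, hS⟩ | ⟨-, hrel, hS⟩, -⟩
  · exact unramified_j_concrete107 M S hS
  · intro O hL c hc hcS hz hz'
    exact unramified_t2_107 (Lc M) (jOm M) x hrel (branchJ_concrete107 M) O hL c hc
      (fun h => hcS ((hS c).2 (Or.inr h))) (fun h => hcS ((hS c).2 (Or.inl h))) hz hz'
  · intro O hL c hc hcS hz hz'
    exact unramified_t3_107 (Lc M) (jOm M) x hrel (branchJ_concrete107 M) O hL c hc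
      (fun h => hcS ((hS c).2 (Or.inr h))) (fun h => hcS ((hS c).2 (Or.inl h))) hz hz'

omit [NeZero M] in
/-- the branch set of an admissible coordinate is `{0, n}` with `n` an integer prime to `ℓ` -/
theorem exists_int_of_isCoordinate {ℓ : ℕ} (hℓ : ℓ.Prime) {x : Om M} {S : Finset (Om M)}
    (hx : IsCoordinate M ℓ x S) :
    ∃ n : ℤ, IsCoprime n (ℓ : ℤ) ∧ ∀ s, s ∈ S ↔ s = 0 ∨ s = (n : Om M) := by
  rcases hx with ⟨h5, -, hS⟩ | ⟨⟨h3, -, hS⟩ | ⟨h2, -, hS⟩, -⟩
  · refine ⟨1728, ?_, fun s => by rw [hS]; norm_num⟩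
    have hnd : ¬ ℓ ∣ 1728 := by
      intro h
      have h' : ℓ ∣ 2 ^ 6 * 3 ^ 3 := by norm_num; exact h
      rcases (Nat.Prime.dvd_mul hℓ).1 h' with h2 | h3
      · have := Nat.le_of_dvd (by norm_num) (hℓ.dvd_of_dvd_pow h2)
        omega
      · have := Nat.le_of_dvd (by norm_num) (hℓ.dvd_of_dvd_pow h3)
        omega
    have hc : Nat.Coprime 1728 ℓ := (Nat.Prime.coprime_iff_not_dvd hℓ).2 hnd |>.symm
    exact_mod_cast Nat.isCoprime_iff_coprime.2 hc
  · subst h3
    refine ⟨-64, ?_, fun s => by rw [hS]; norm_num⟩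
    exact ⟨-1, -21, by norm_num⟩
  · subst h2
    refine ⟨-27, ?_, fun s => by rw [hS]; norm_num⟩
    exact ⟨-1, -13, by norm_num⟩

omit [NeZero M] in
theorem coe_eq_of_algebraMap_eq_intCast {c : Qb} {n : ℤ}
    (h : algebraMap Qb (Om M) c = (n : Om M)) : c = (n : Qb) := by
  apply (algebraMap Qb (Om M)).injective
  rw [h, map_intCast]

omit [NeZero M] in
theorem ne_zero_of_isCoprime_prime {ℓ : ℕ} (hℓ : ℓ.Prime) {n : ℤ} (hn : IsCoprime n (ℓ : ℤ)) :
    n ≠ 0 := by
  rintro rfl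
  have h1 : IsUnit (ℓ : ℤ) := isCoprime_zero_left.1 hn
  have h2 := Int.isUnit_iff.1 h1
  have h3 := hℓ.two_le
  rcases h2 with h | h <;> omega

section Inj

variable {ℓ : ℕ} {x : Om M} {S : Finset (Om M)} (A : ValuationSubring Qb)
  {k : Type*} [Semiring k] [Nontrivial k] (π : A →+* k)

omit [NeZero M] in
/-- **`hS` of Theorem M, finite chart**: the branch values stay distinct after reduction. -/
theorem injOn_branchA (hℓ : ℓ.Prime) (hx : IsCoordinate M ℓ x S)
    (hA : (ℓ : Qb) ∈ A.nonunits) : Set.InjOn π (branchA (F := Om M) A S : Set A) := by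
  obtain ⟨n, hn, hS⟩ := exists_int_of_isCoordinate hℓ hx
  have hn0 : (n : Qb) ≠ 0 := by
    exact_mod_cast ne_zero_of_isCoprime_prime hℓ hn
  refine injOn_of_pair A π _ (n : Qb) (intCast_mem A n) (int_inv_mem_of_coprime A hA n hn) hn0 ?_
  intro c hc
  rw [mem_branchA, hS] at hc
  rcases hc with h | h
  · left
    apply (algebraMap Qb (Om M)).injective
    rw [h, map_zero]
  · right
    exact coe_eq_of_algebraMap_eq_intCast h

open Classical in
omit [NeZero M] in
/-- **`hS` of Theorem M, chart at infinity.** -/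
theorem injOn_branchA_inv (hℓ : ℓ.Prime) (hx : IsCoordinate M ℓ x S)
    (hA : (ℓ : Qb) ∈ A.nonunits) :
    Set.InjOn π (branchA (F := Om M) A (invBranch S) : Set A) := by
  obtain ⟨n, hn, hS⟩ := exists_int_of_isCoordinate hℓ hx
  have hn0 : (n : Qb) ≠ 0 := by
    exact_mod_cast ne_zero_of_isCoprime_prime hℓ hn
  refine injOn_of_pair A π _ ((n : Qb))⁻¹ (int_inv_mem_of_coprime A hA n hn) ?_
    (inv_ne_zero hn0) ?_
  · rw [inv_inv]
    exact intCast_mem A n
  intro c hc
  rw [mem_branchA, invBranch, Finset.mem_insert, Finset.mem_image] at hc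
  rcases hc with h | ⟨s, hs, h⟩
  · left
    apply (algebraMap Qb (Om M)).injective
    rw [h, map_zero]
  · rw [hS] at hs
    rcases hs with rfl | rfl
    · left
      apply (algebraMap Qb (Om M)).injective
      rw [← h, inv_zero, map_zero]
    · right
      apply (algebraMap Qb (Om M)).injective
      rw [← h, map_inv₀, map_intCast]

end Inj

section NC

variable [Algebra Qb[X] (Om M)]
variable (L₀ : Type*) [Field L₀] [Algebra Qb[X] L₀] [IsFractionRing Qb[X] L₀] [Algebra L₀ (Om M)]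
  [IsScalarTower Qb[X] L₀ (Om M)] [FiniteDimensional L₀ (Om M)]
variable {ℓ : ℕ} {x : Om M} {S : Finset (Om M)}

include L₀ in
/-- **`hNC` of Theorem M, finite chart** (`X ↦ x`), verbatim. -/
theorem nc_fin (hx : IsCoordinate M ℓ x S) (hX : algebraMap Qb[X] (Om M) X = x)
    (hC : ∀ a : Qb, algebraMap Qb[X] (Om M) (C a) = algebraMap Qb (Om M) a)
    (A : ValuationSubring Qb) (c : A) (hc : c ∉ branchA (F := Om M) A S) :
    (Ideal.span {algebraMap Qb[X] (integralClosure Qb[X] (Om M)) (X - C (c : Qb))}).IsRadical := by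
  refine nc_of_unramified L₀ hC S ?_ A c hc
  rw [hX]
  exact unramified_of_isCoordinate hx

open Classical in
include L₀ in
/-- **`hNC` of Theorem M, chart at infinity** (`X ↦ x⁻¹`), verbatim. -/
theorem nc_inf (hx : IsCoordinate M ℓ x S) (hX : algebraMap Qb[X] (Om M) X = x⁻¹)
    (hC : ∀ a : Qb, algebraMap Qb[X] (Om M) (C a) = algebraMap Qb (Om M) a)
    (A : ValuationSubring Qb) (c : A) (hc : c ∉ branchA (F := Om M) A (invBranch S)) :
    (Ideal.span {algebraMap Qb[X] (integralClosure Qb[X] (Om M)) (X - C (c : Qb))}).IsRadical := by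
  refine nc_of_unramified L₀ hC (invBranch S) ?_ A c hc
  rw [hX]
  exact (unramified_of_isCoordinate hx).inv

end NC

end Modular

end Fermat.Agent.S37.H28

end
end
-- ===== PACK-END S37/H28/NCMod.lean

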