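import Fermat.Prelude.Def_FLTPrelim_Ramification
import Fermat.Agent.Pack.S15.AE0L0
import Fermat.Agent.Pack.S15.AE0L3
import Fermat.Agent.Pack.S15.AE3L2
import Fermat.Agent.Pack.S15.AE4L3
import Fermat.Agent.Pack.S15.AE2L0
import Fermat.Agent.Pack.S15.AE0L2
import Fermat.Agent.Pack.S15.AE1L1
import Fermat.Agent.Pack.S15.AE3L0
import Fermat.Agent.Pack.S15.AE4L1
import Fermat.Agent.Pack.S15.AE2L2
import Fermat.Agent.Pack.S15.AE4L0
import Fermat.Agent.Pack.S15.AE4L2
import Fermat.Agent.Pack.S15.AE2L1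
import Fermat.Agent.Pack.S15.AE3L3
import Fermat.Agent.Pack.S15.AE3L1

-- ===== PACK-BEGIN A2/Mod/H398/L8Core.lean
section






/-!
# A2 / MOD leaf L8 (helper398) — `[k(j, j_q) : k(j j_q)] = 2 (q + 1)`, core

For every field `k` of characteristic `0` (inside `k((t))`):

* `[k(j,j_q) : k(j)] = [k(j,j_q) : k(j_q)] = q + 1`, `[F_{Mq} : k(j,j_q)] = ψ(M)`  (S28 / S37 H988);
* over `ℚ̄`: `[ℚ̄(j,j_q) : ℚ̄(j j_q)] = 2 (q+1)` (poles of `j j_q`: `PoleSum`);
* descent to any `E ⊆ K` (`LinDisj`): the degree of `j` over `E(x)` equals that over `K(x)`.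
-/

set_option autoImplicit false
set_option linter.style.haveILetI false
set_option linter.unusedSectionVars false

noncomputable section

namespace Fermat.Agent.A2.Mod.H398

open ModularCurve HahnSeries Polynomial IntermediateField
open Fermat.Agent.S28 Fermat.Agent.S28.H988 Fermat.Agent.S37.H988

/-! ### Part A: the tower over any field of characteristic zero -/

section Order

variable (k : Type*) [Field k] (q : ℕ)

/-- The coordinate `x = j · j_q` as a Laurent series. -/
def xL : LaurentSeries k := jqModC k * jd k q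

theorem jqModC_ne_zero' : jqModC k ≠ 0 := by
  intro h
  have := orderTop_jq k
  rw [h, HahnSeries.orderTop_zero] at this
  exact WithTop.top_ne_coe this

theorem jd_ne_zero' {e : ℕ} (he : e ≠ 0) : jd k e ≠ 0 := by
  intro h
  have := orderTop_jd k he
  rw [h, HahnSeries.orderTop_zero] at this
  exact WithTop.top_ne_coe this

theorem order_xL {q : ℕ} (hq : q ≠ 0) : (xL k q).order = -(1 + q : ℤ) := by
  have h1 : (jqModC k).order = -1 := by
    have := orderTop_jq k
    rw [← HahnSeries.order_eq_orderTop_of_ne_zero (jqModC_ne_zero' k)] at this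
    exact_mod_cast this
  have h2 : (jd k q).order = -(q : ℤ) := by
    have := orderTop_jd k hq
    rw [← HahnSeries.order_eq_orderTop_of_ne_zero (jd_ne_zero' k hq)] at this
    exact_mod_cast this
  rw [xL, HahnSeries.order_mul (jqModC_ne_zero' k) (jd_ne_zero' k hq), h1, h2]
  ring

theorem transcendental_jqModC' : Transcendental k (jqModC k) := by
  apply laurent_transcendental_of_order_ne_zero
  have := orderTop_jq k
  rw [← HahnSeries.order_eq_orderTop_of_ne_zero (jqModC_ne_zero' k)] at this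
  have h1 : (jqModC k).order = -1 := by exact_mod_cast this
  rw [h1]
  decide

theorem transcendental_xL {q : ℕ} (hq : q ≠ 0) : Transcendental k (xL k q) := by
  apply laurent_transcendental_of_order_ne_zero
  rw [order_xL k hq]
  omega

end Order

section Level

variable (k : Type*) [Field k] [CharZero k] (q : ℕ)

theorem full_prime_eq_sup {q : ℕ} (hq : q.Prime) :
    modularFunctionFieldFullC k q = k⟮jqModC k⟯ ⊔ k⟮jd k q⟯ := by
  have h := full_mul_eq_sup k hq one_ne_zero (by simpa using hq.one_lt.ne')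
  rwa [one_mul, full_one] at h

theorem adjoin_x_sup_adjoin_j {q : ℕ} (hq : q.Prime) :
    k⟮xL k q⟯ ⊔ k⟮jqModC k⟯ = modularFunctionFieldFullC k q := by
  rw [full_prime_eq_sup k hq]
  apply le_antisymm
  · refine sup_le ?_ le_sup_left
    rw [adjoin_simple_le_iff]
    exact mul_mem (le_sup_left (a := k⟮jqModC k⟯) (mem_adjoin_simple_self k _))
      (le_sup_right (b := k⟮jd k q⟯) (mem_adjoin_simple_self k _))
  · refine sup_le le_sup_right ?_
    rw [adjoin_simple_le_iff]
    have h1 : jd k q = xL k q * (jqModC k)⁻¹ := by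
      rw [xL, mul_comm (jqModC k), mul_assoc, mul_inv_cancel₀ (jqModC_ne_zero' k), mul_one]
    rw [h1]
    exact mul_mem (le_sup_left (a := k⟮xL k q⟯) (mem_adjoin_simple_self k _))
      (inv_mem (le_sup_right (b := k⟮jqModC k⟯) (mem_adjoin_simple_self k _)))

theorem charHyp (N r : ℕ) (hr : r.Prime) (_h : r ∣ N) : (r : k) ≠ 0 :=
  Nat.cast_ne_zero.mpr hr.ne_zero

theorem relfinrank_j_full_prime {q : ℕ} (hq : q.Prime) :
    (k⟮jqModC k⟯).relfinrank (modularFunctionFieldFullC k q) = q + 1 := by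
  have h := relfinrank_full_mul_prime k 1 q one_ne_zero hq (charHyp k (1 * q))
  rw [one_mul, full_one, if_neg (by simpa using hq.one_lt.ne')] at h
  exact h

theorem map_VAlg_adjoin_j (q : ℕ) :
    (k⟮jqModC k⟯).map (VAlg k q) = k⟮jd k q⟯ := by
  rw [adjoin_map, Set.image_singleton, VAlg_apply]
  rfl

theorem relfinrank_jq_full_prime {q : ℕ} (hq : q.Prime) :
    (k⟮jd k q⟯).relfinrank (modularFunctionFieldFullC k q) = q + 1 := by
  have h := relfinrank_map_full k hq (N := 1) one_ne_zero (by simpa using hq.one_lt.ne')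
  rw [one_mul, full_one, map_VAlg_adjoin_j] at h
  exact h

theorem relfinrank_full_prime_full {q : ℕ} (hq : q.Prime) {M : ℕ} (hM : M ≠ 0)
    (hqM : ¬ q ∣ M) :
    (modularFunctionFieldFullC k q).relfinrank (modularFunctionFieldFullC k (M * q)) =
      dedekindPsi M := by
  have hMq : M * q ≠ 0 := Nat.mul_ne_zero hM hq.ne_zero
  have i1 : k⟮jqModC k⟯ ≤ modularFunctionFieldFullC k q := by
    rw [← full_one]
    exact full_mono k hq.ne_zero (one_dvd q)
  have i2 : modularFunctionFieldFullC k q ≤ modularFunctionFieldFullC k (M * q) :=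
    full_mono k hMq (Dvd.intro_left M rfl)
  have d2 : (k⟮jqModC k⟯).relfinrank (modularFunctionFieldFullC k (M * q)) =
      dedekindPsi M * (q + 1) := by
    have := relfinrank_jField_full_eq k (M * q) hMq (charHyp k (M * q))
    rw [Fermat.Agent.S28.H626.psi_mul_prime_of_not_dvd hM hq hqM] at this
    exact this.trans (mul_comm _ _)
  have h := relfinrank_mul_relfinrank i1 i2
  rw [relfinrank_j_full_prime k hq, d2, mul_comm] at h
  exact Nat.eq_of_mul_eq_mul_right (Nat.succ_pos q) h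

end Level

/-! ### Part B: the degree over an algebraically closed field (poles of `j j_q`) -/

section Bar

theorem isIntegral_adjoin_of_isRoot_PhiAt {K L : Type*} [Field K] [Field L] [Algebra K L]
    (F : IntermediateField K L) {Φ : Polynomial (Polynomial ℤ)} (hΦ : Φ.Monic) (y z : F)
    (h : (PhiAt Φ (y : L)).IsRoot (z : L)) : IsIntegral (Algebra.adjoin K {y}) z := by
  set A := Algebra.adjoin K {y} with hA
  let yA : A := ⟨y, Algebra.self_mem_adjoin_singleton K y⟩
  refine ⟨PhiAt Φ yA, PhiAt_monic hΦ yA, ?_⟩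
  have hinj : Function.Injective (algebraMap F L) := (algebraMap F L).injective
  apply hinj
  rw [map_zero, Polynomial.hom_eval₂, ← Polynomial.eval_map, PhiAt_map]
  exact h

variable (K : Type*) [Field K] [CharZero K] [IsAlgClosed K] {q : ℕ}

/-- **`[K(j, j_q) : K(j j_q)] = 2 (q + 1)`** over an algebraically closed field. -/
theorem relfinrank_x_full_prime_algClosed (hq : q.Prime) :
    (K⟮xL K q⟯).relfinrank (modularFunctionFieldFullC K q) = 2 * (q + 1) := by
  set F := modularFunctionFieldFullC K q with hF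
  have hjmem : jqModC K ∈ F := by
    have := jd_mem_full K hq.ne_zero (one_dvd q)
    rwa [jd_one] at this
  have hjqmem : jd K q ∈ F := jd_mem_full K hq.ne_zero (dvd_refl q)
  set y : F := ⟨jqModC K, hjmem⟩ with hy_def
  set z : F := ⟨jd K q, hjqmem⟩ with hz_def
  have hy : Transcendental K y := by
    intro halg
    exact transcendental_jqModC' K ((isAlgebraic_algHom_iff F.val F.val.injective).mpr halg)
  have hfy : (K⟮((y : F) : LaurentSeries K)⟯).relfinrank F = q + 1 :=
    relfinrank_j_full_prime K hq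
  have hfz : (K⟮((z : F) : LaurentSeries K)⟯).relfinrank F = q + 1 :=
    relfinrank_jq_full_prime K hq
  haveI : FiniteDimensional K⟮y⟯ F :=
    finiteDimensional_adjoin_simple_of_relfinrank_ne_zero F y (by rw [hfy]; omega)
  obtain ⟨Φ, hΦ⟩ := exists_phiRel K q hq
  have hzy : IsIntegral (Algebra.adjoin K {y}) z :=
    isIntegral_adjoin_of_isRoot_PhiAt F hΦ.monic y z hΦ.root_jp
  have hyz : IsIntegral (Algebra.adjoin K {z}) y :=
    isIntegral_adjoin_of_isRoot_PhiAt F hΦ.monic z y hΦ.root_j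
  obtain ⟨-, -, -, -, h⟩ := finrank_mul_of_mutually_integral hy hzy hyz
  rw [finrank_adjoin_simple_eq_relfinrank, finrank_adjoin_simple_eq_relfinrank,
    finrank_adjoin_simple_eq_relfinrank, hfy, hfz] at h
  have hx : (((y * z : F)) : LaurentSeries K) = xL K q := rfl
  rw [hx] at h
  rw [h]
  ring

end Bar

/-! ### Part C: descent of the degree along a field extension `E ⊆ K` -/

section Descent

theorem isIntegral_of_relfinrank_sup_ne_zero {F Ω : Type*} [Field F] [Field Ω] [Algebra F Ω]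
    (A : IntermediateField F Ω) (x : Ω) (h : A.relfinrank (A ⊔ F⟮x⟯) ≠ 0) : IsIntegral A x := by
  rw [relfinrank_eq_finrank_of_le le_sup_left, extendScalars_sup_adjoin] at h
  haveI : FiniteDimensional A A⟮x⟯ := Module.finite_of_finrank_pos (Nat.pos_of_ne_zero h)
  have h1 : IsIntegral A (AdjoinSimple.gen A x) :=
    Algebra.IsIntegral.isIntegral (R := A) (AdjoinSimple.gen A x)
  have h2 := h1.map (A⟮x⟯.val)
  exact h2

variable {E K : Type*} [Field E] [Field K] [Algebra E K]

theorem linearIndependent_iotaL_iff' (x : LaurentSeries E) (x' : LaurentSeries K)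
    (hx : iotaL E K x = x') {n : ℕ} (b : Fin n → LaurentSeries E) (b' : Fin n → LaurentSeries K)
    (hb : ∀ i, iotaL E K (b i) = b' i) :
    LinearIndependent K⟮x'⟯ b' ↔ LinearIndependent E⟮x⟯ b := by
  subst hx
  obtain rfl : b' = fun i => iotaL E K (b i) := funext fun i => (hb i).symm
  exact linearIndependent_iotaL_iff x b

theorem iotaL_jqModC : iotaL E K (jqModC E) = jqModC K := coeffMap_jqModC _

theorem iotaL_jd {q : ℕ} (hq : q ≠ 0) : iotaL E K (jd E q) = jd K q := by
  haveI : NeZero q := ⟨hq⟩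
  rw [jd_eq, jd_eq, iotaL, coeffMap_qExpand, coeffMap_jqModC]

theorem iotaL_xL {q : ℕ} (hq : q ≠ 0) : iotaL E K (xL E q) = xL K q := by
  rw [xL, map_mul, iotaL_jqModC, iotaL_jd hq]
  rfl

variable [CharZero E] [CharZero K]

/-- **Descent**: `[E(j,j_q) : E(x)] = [K(j,j_q) : K(x)]` for `E ⊆ K`. -/
theorem relfinrank_x_full_prime_descent {q : ℕ} (hq : q.Prime) {D : ℕ} (hD : D ≠ 0)
    (hK : (K⟮xL K q⟯).relfinrank (modularFunctionFieldFullC K q) = D) :
    (E⟮xL E q⟯).relfinrank (modularFunctionFieldFullC E q) = D := by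
  -- the `K`-side
  rw [← adjoin_x_sup_adjoin_j K hq] at hK
  have hintK : IsIntegral K⟮xL K q⟯ (jqModC K) :=
    isIntegral_of_relfinrank_sup_ne_zero _ _ (by rw [hK]; exact hD)
  have hdegK : (minpoly K⟮xL K q⟯ (jqModC K)).natDegree = D := by
    rw [← relfinrank_sup_adjoin _ _ hintK, hK]
  have hQ : LinearIndependent K⟮xL K q⟯ (fun i : Fin D => jqModC K ^ (i : ℕ)) :=
    linearIndependent_pow_of_le (le_of_eq hdegK.symm)
  have hQ' : ¬ LinearIndependent K⟮xL K q⟯ (fun i : Fin (D + 1) => jqModC K ^ (i : ℕ)) := by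
    intro h
    have := le_natDegree_of_linearIndependent_pow hintK h
    omega
  -- transfer
  have hP : LinearIndependent E⟮xL E q⟯ (fun i : Fin D => jqModC E ^ (i : ℕ)) :=
    (linearIndependent_iotaL_iff' (xL E q) (xL K q) (iotaL_xL hq.ne_zero) _ _
      (fun i => by rw [map_pow, iotaL_jqModC])).mp hQ
  have hP' : ¬ LinearIndependent E⟮xL E q⟯ (fun i : Fin (D + 1) => jqModC E ^ (i : ℕ)) :=
    fun h => hQ' ((linearIndependent_iotaL_iff' (xL E q) (xL K q) (iotaL_xL hq.ne_zero) _ _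
      (fun i => by rw [map_pow, iotaL_jqModC])).mpr h)
  -- the `E`-side
  have hintE : IsIntegral E⟮xL E q⟯ (jqModC E) := isIntegral_of_not_linearIndependent_pow hP'
  have hdegE : (minpoly E⟮xL E q⟯ (jqModC E)).natDegree = D := by
    apply le_antisymm
    · by_contra hlt
      rw [not_le] at hlt
      exact hP' (linearIndependent_pow_of_le hlt)
    · exact le_natDegree_of_linearIndependent_pow hintE hP
  rw [← adjoin_x_sup_adjoin_j E hq, relfinrank_sup_adjoin _ _ hintE, hdegE]

end Descent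

end Fermat.Agent.A2.Mod.H398

end

end
-- ===== PACK-END A2/Mod/H398/L8Core.lean

-- ===== PACK-BEGIN A2/Mod/H398/L8.lean
section



/-!
# A2 / MOD leaf **L8 Deg** (helper398)

`theorem deg : DegStatement E M q` — for `q` prime, `q ∤ M`, `x = j · j_q`:
`x` is transcendental over `E`, `[F_{Mq} : E(x)] = 2 (q+1) ψ(M)`, and `E` is algebraically closed
in `F_{Mq}`.

Proof: tower `E(x) ⊆ E(j, j_q) ⊆ F_{Mq}`; `[F_{Mq} : E(j,j_q)] = ψ(M)` (S28 H988);
`[E(j,j_q) : E(x)] = [ℚ̄(j,j_q) : ℚ̄(x)]` (linear disjointness inside Laurent series, `LinDisj`)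
`= [ℚ̄(j,j_q) : ℚ̄(j)] + [ℚ̄(j,j_q) : ℚ̄(j_q)] = 2 (q+1)` (degree of the pole divisor of `x`,
`PoleSum`; `j`, `j_q` are mutually integral by the modular equation, so they have the same poles).
-/

set_option autoImplicit false
set_option linter.style.haveILetI false
set_option linter.unusedSectionVars false
set_option synthInstance.maxHeartbeats 400000
set_option maxHeartbeats 1600000

noncomputable section

namespace Fermat.Agent.A2.Mod.H398

open ModularCurve HahnSeries Polynomial IntermediateField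
open Fermat.Agent.S28 Fermat.Agent.S28.H988 Fermat.Agent.S37.H988

section Final

variable (E : IntermediateField ℚ _root_.Fermat.Agent.A2.Mod.Qb) (M q : ℕ) [NeZero M] [NeZero q]

theorem coeffEmb_qExpand_jq (d : ℕ) [NeZero d] : coeffEmb E (qExpand ℚ d jq) = jd E d := by
  rw [coeffEmb, ← jqModC_rat, coeffMap_qExpand, coeffMap_jqModC, ← jd_eq]

theorem coe_xE : ((xE E M q : _root_.Fermat.Agent.A2.Mod.FE E (M * q)) : LaurentSeries E) = xL E q := by
  show coeffEmb E (qExpand ℚ 1 jq) * coeffEmb E (qExpand ℚ q jq) = xL E q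
  rw [coeffEmb_qExpand_jq, coeffEmb_qExpand_jq, jd_one]
  rfl

theorem relfinrank_x_full (hq : q.Prime) (hqM : ¬ q ∣ M) :
    (E⟮xL E q⟯).relfinrank (modularFunctionFieldFullC E (M * q)) =
      2 * ((q + 1) * dedekindPsi M) := by
  have hM : M ≠ 0 := NeZero.ne M
  have hMq : M * q ≠ 0 := Nat.mul_ne_zero hM hq.ne_zero
  have h1 : (E⟮xL E q⟯).relfinrank (modularFunctionFieldFullC E q) = 2 * (q + 1) :=
    relfinrank_x_full_prime_descent (E := E) (K := _root_.Fermat.Agent.A2.Mod.Qb) hq (by omega)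
      (relfinrank_x_full_prime_algClosed _root_.Fermat.Agent.A2.Mod.Qb hq)
  have h2 := relfinrank_full_prime_full E hq hM hqM
  have i1 : E⟮xL E q⟯ ≤ modularFunctionFieldFullC E q := by
    rw [← adjoin_x_sup_adjoin_j E hq]
    exact le_sup_left
  have i2 : modularFunctionFieldFullC E q ≤ modularFunctionFieldFullC E (M * q) :=
    full_mono E hMq (Dvd.intro_left M rfl)
  rw [← relfinrank_mul_relfinrank i1 i2, h1, h2]
  ring

/-- **Leaf L8.** -/
theorem deg : DegStatement E M q := by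
  intro hq hqM
  refine ⟨?_, ?_, ?_⟩
  · intro halg
    have h1 : IsAlgebraic E ((xE E M q : _root_.Fermat.Agent.A2.Mod.FE E (M * q)) : LaurentSeries E) :=
      (isAlgebraic_algHom_iff (_root_.Fermat.Agent.A2.Mod.FE E (M * q)).val (_root_.Fermat.Agent.A2.Mod.FE E (M * q)).val.injective).mpr halg
    rw [coe_xE] at h1
    exact transcendental_xL E hq.ne_zero h1
  · rw [finrank_adjoin_simple_eq_relfinrank, coe_xE]
    have := relfinrank_x_full E M q hq hqM
    rw [← laurentBaseChange_full_eq_fullC] at this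
    exact this
  · intro f hf
    have h1 : IsAlgebraic E ((f : _root_.Fermat.Agent.A2.Mod.FE E (M * q)) : LaurentSeries E) :=
      (isAlgebraic_algHom_iff (_root_.Fermat.Agent.A2.Mod.FE E (M * q)).val (_root_.Fermat.Agent.A2.Mod.FE E (M * q)).val.injective).mpr hf
    obtain ⟨c, hc⟩ := laurent_mem_range_of_isAlgebraic h1
    exact ⟨c, Subtype.ext hc⟩

end Final

end Fermat.Agent.A2.Mod.H398

end

end
-- ===== PACK-END A2/Mod/H398/L8.lean

-- ===== PACK-BEGIN A2/H876/D2.lean
section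




/-!
# A2 / D2 : auxiliary-level descent of the Kummer form of the wall (helper876)

For `N ∣ M` with `[F̄_M : F̄_N]` prime to `m` the Kummer form of wall A2 descends from level `M`
to level `N`:

* `kummerTarget_descend_of_coprime`, `kummerTarget_descend_of_psi`, `kummerTarget_descend_prime`
  for `Spec.KummerTarget`;
* `a2Kummer_descend_of_coprime`, `a2Kummer_descend_of_psi`, `a2Kummer_descend_prime`
  for `H129.A2Kummer` (one `σ`).

Consequence (`auxLevel`): for `q ∈ {2, 3}` the MODEL may assume that the good-reduction level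
`N / q` is divisible by `3` resp. `2` (existence of the S18 coordinates `t₃`, `t₂`):

* `kummerTarget_aux`, `a2Kummer_aux` : level `auxLevel N q` ⟹ level `N` (`q ∤ m`);
* `kummerTarget_of_ready` : `KummerTarget` at all *ready* levels ⟹ `KummerTarget` everywhere.

Ingredients: restriction of places (`Place.ord_restrict`), the norm trick over the algebraically
closed constant field (`S18.H876.exists_algebraMap_eq_of_pow_eq`), and the degree
`ψ(N) · [F̄_M : F̄_N] = ψ(M)` (`S18.H876.psi_mul_finrank`, from landed S24).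
-/

set_option autoImplicit false
set_option linter.style.haveILetI false

noncomputable section

namespace Fermat.Agent.A2.H876

open ModularCurve AlgebraicCurve HahnSeries
open Fermat.Agent.S18.H876 (barIncl coe_barIncl barIncl_injective barAlgebra
  barAlgebra_isScalarTower exists_algebraMap_eq_of_pow_eq psi_mul_finrank finite_bar
  dedekindPsi_pos')

/-! ### The tower `F̄_N ⊆ F̄_M` -/

section Tower

variable {N M : ℕ} [NeZero N] [NeZero M]

/-- The arithmetic Galois action commutes with the inclusion `F̄_N ⊆ F̄_M`. -/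
theorem act_barIncl (h : N ∣ M) (τ : AlgebraicClosure ℚ ≃ₐ[ℚ] AlgebraicClosure ℚ)
    (f : modularFunctionFieldBar N) :
    arithmeticRingAut (modularFunctionFieldFull M) τ (barIncl h f) =
      barIncl h (arithmeticRingAut (modularFunctionFieldFull N) τ f) := by
  apply Subtype.ext
  rw [coe_barIncl, coe_arithmeticRingAut_apply, coe_arithmeticRingAut_apply, coe_barIncl]

/-- `m ∣ div f` passes from `F̄_N` to `F̄_M`. -/
theorem dvd_ord_barIncl (h : N ∣ M) (m : ℤ) (f : modularFunctionFieldBar N)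
    (hdiv : ∀ v : Place (AlgebraicClosure ℚ) (modularFunctionFieldBar N), m ∣ v.ord f)
    (w : Place (AlgebraicClosure ℚ) (modularFunctionFieldBar M)) :
    m ∣ w.ord (barIncl h f) := by
  letI := barAlgebra h
  haveI := barAlgebra_isScalarTower h
  haveI : FiniteDimensional (modularFunctionFieldBar N) (modularFunctionFieldBar M) :=
    finite_bar h
  haveI : Algebra.IsIntegral (modularFunctionFieldBar N) (modularFunctionFieldBar M) :=
    Algebra.IsIntegral.of_finite _ _
  have h1 : w.ord (algebraMap (modularFunctionFieldBar N) (modularFunctionFieldBar M) f)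
      = _ := w.ord_restrict f
  have h2 : algebraMap (modularFunctionFieldBar N) (modularFunctionFieldBar M) f = barIncl h f :=
    rfl
  rw [← h2, h1]
  exact Dvd.dvd.mul_left (hdiv (w.restrict (modularFunctionFieldBar N))) _

/-- Kummer descent along `F̄_N ⊆ F̄_M`: an element of `F̄_M` whose `m`-th power lies in `F̄_N`
lies in `F̄_N`, if `[F̄_M : F̄_N]` is prime to `m`. -/
theorem exists_barIncl_eq_of_pow_eq (h : N ∣ M) (m : ℕ) (hm : 0 < m)
    (hcop : (@Module.finrank (modularFunctionFieldBar N) (modularFunctionFieldBar M) _ _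
      (barAlgebra h).toModule).Coprime m)
    (y : modularFunctionFieldBar M) (e : modularFunctionFieldBar N)
    (hy : y ^ m = barIncl h e) : ∃ x : modularFunctionFieldBar N, barIncl h x = y := by
  letI := barAlgebra h
  haveI := barAlgebra_isScalarTower h
  haveI : FiniteDimensional (modularFunctionFieldBar N) (modularFunctionFieldBar M) :=
    finite_bar h
  exact exists_algebraMap_eq_of_pow_eq (K := AlgebraicClosure ℚ) m hm hcop y e hy

end Tower

/-! ### Descent of `KummerTarget` -/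

/-- **D2 for `KummerTarget`, degree as hypothesis.** -/
theorem kummerTarget_descend_of_coprime {N M : ℕ} [NeZero N] [NeZero M] (h : N ∣ M) (q m : ℕ)
    (hcop : (@Module.finrank (modularFunctionFieldBar N) (modularFunctionFieldBar M) _ _
      (barAlgebra h).toModule).Coprime m)
    (hM : KummerTarget M q m) : KummerTarget N q m := by
  intro P hP τ hτ f hf hdiv
  have hinj := barIncl_injective h
  have hf' : barIncl h f ≠ 0 := fun h0 => hf (hinj (by rw [h0, map_zero]))
  obtain ⟨y, hy0, hy⟩ := hM P hP τ hτ (barIncl h f) hf'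
    (fun w => dvd_ord_barIncl h (m : ℤ) f hdiv w)
  rw [act, act_barIncl, act_barIncl] at hy
  set g : modularFunctionFieldBar N := arithmeticRingAut (modularFunctionFieldFull N) τ f with hg
  set g2 : modularFunctionFieldBar N :=
    arithmeticRingAut (modularFunctionFieldFull N) τ g with hg2
  have hg0 : g ≠ 0 := fun h0 => hf ((arithmeticRingAut (modularFunctionFieldFull N) τ).injective
    (by rw [← hg, h0, map_zero]))
  have hg0' : barIncl h g ≠ 0 := fun h0 => hg0 (hinj (by rw [h0, map_zero]))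
  rcases Nat.eq_zero_or_pos m with hm0 | hmpos
  · subst hm0
    refine ⟨1, one_ne_zero, ?_⟩
    apply hinj
    rw [pow_zero, one_mul] at hy ⊢
    rw [map_mul, map_pow]
    exact hy
  · have hym : y ^ m = barIncl h (g2 * f / g ^ 2) := by
      rw [map_div₀, map_mul, map_pow, hy]
      field_simp
    obtain ⟨x, hx⟩ := exists_barIncl_eq_of_pow_eq h m hmpos hcop y _ hym
    refine ⟨x, ?_, ?_⟩
    · rintro rfl
      exact hy0 (by rw [← hx, map_zero])
    · apply hinj
      rw [map_mul, map_mul, map_pow, map_pow, hx]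
      exact hy

/-- The degree `[F̄_M : F̄_N]` from `ψ(M) = d · ψ(N)`. -/
theorem finrank_bar_eq_of_psi {N M : ℕ} [NeZero N] [NeZero M] (h : N ∣ M) (d : ℕ)
    (hd : dedekindPsi M = d * dedekindPsi N) :
    @Module.finrank (modularFunctionFieldBar N) (modularFunctionFieldBar M) _ _
      (barAlgebra h).toModule = d := by
  have h1 := psi_mul_finrank h
  have h2 := dedekindPsi_pos' N (NeZero.ne N)
  rw [hd, mul_comm] at h1
  exact Nat.eq_of_mul_eq_mul_right h2 h1

/-- **D2 for `KummerTarget`, general form**: `N ∣ M`, `ψ(M) = d · ψ(N)`, `gcd(d, m) = 1`. -/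
theorem kummerTarget_descend_of_psi {N M : ℕ} [NeZero N] [NeZero M] (h : N ∣ M) (q m d : ℕ)
    (hd : dedekindPsi M = d * dedekindPsi N) (hcop : d.Coprime m)
    (hM : KummerTarget M q m) : KummerTarget N q m := by
  refine kummerTarget_descend_of_coprime h q m ?_ hM
  rw [finrank_bar_eq_of_psi h d hd]
  exact hcop

/-- **D2 for `KummerTarget`, prime form**: `r ∤ N` prime, `gcd(r + 1, m) = 1`. -/
theorem kummerTarget_descend_prime {N : ℕ} [NeZero N] (r : ℕ) (hr : r.Prime) (hrN : ¬ r ∣ N)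
    (q m : ℕ) (hcop : (r + 1).Coprime m) (hM : KummerTarget (r * N) q m) :
    KummerTarget N q m := by
  haveI : NeZero (r * N) := ⟨mul_ne_zero hr.ne_zero (NeZero.ne N)⟩
  exact kummerTarget_descend_of_psi (Dvd.intro_left r rfl) q m (r + 1)
    (Fermat.Agent.S20.Comb694.dedekindPsi_prime_mul_of_not_dvd r N hr (NeZero.ne N) hrN) hcop hM

/-! ### Descent of `H129.A2Kummer` -/

/-- `tauSubOne` commutes with the inclusion `F̄_N ⊆ F̄_M`. -/
theorem tauSubOne_barIncl {N M : ℕ} [NeZero N] [NeZero M] (h : N ∣ M)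
    (σ : AlgebraicClosure ℚ ≃ₐ[ℚ] AlgebraicClosure ℚ) (f : modularFunctionFieldBar N) :
    H129.tauSubOne (arithmeticRingAut (modularFunctionFieldFull M) σ) (barIncl h f) =
      barIncl h (H129.tauSubOne (arithmeticRingAut (modularFunctionFieldFull N) σ) f) := by
  unfold H129.tauSubOne
  rw [act_barIncl, map_mul, map_inv₀]

/-- **D2 for `A2Kummer`, degree as hypothesis.** -/
theorem a2Kummer_descend_of_coprime {N M : ℕ} [NeZero N] [NeZero M] (h : N ∣ M) (m : ℕ)
    (hm : 0 < m) (σ : AlgebraicClosure ℚ ≃ₐ[ℚ] AlgebraicClosure ℚ)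
    (hcop : (@Module.finrank (modularFunctionFieldBar N) (modularFunctionFieldBar M) _ _
      (barAlgebra h).toModule).Coprime m)
    (hM : H129.A2Kummer M m σ) : H129.A2Kummer N m σ := by
  intro f hf hdiv
  have hinj := barIncl_injective h
  have hf' : barIncl h f ≠ 0 := fun h0 => hf (hinj (by rw [h0, map_zero]))
  obtain ⟨y, c, hc, hy⟩ := hM (barIncl h f) hf' (fun w => dvd_ord_barIncl h (m : ℤ) f hdiv w)
  rw [toRingAut_arithmeticGalois, tauSubOne_barIncl, tauSubOne_barIncl] at hy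
  rw [toRingAut_arithmeticGalois]
  set u : modularFunctionFieldBar N :=
    H129.tauSubOne (arithmeticRingAut (modularFunctionFieldFull N) σ)
      (H129.tauSubOne (arithmeticRingAut (modularFunctionFieldFull N) σ) f) with hu
  have hc' : algebraMap (AlgebraicClosure ℚ) (modularFunctionFieldBar M) c ≠ 0 := by
    simpa using hc
  have hym : y ^ m =
      barIncl h (u / algebraMap (AlgebraicClosure ℚ) (modularFunctionFieldBar N) c) := by
    rw [map_div₀, AlgHom.commutes, hy]
    field_simp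
  obtain ⟨x, hx⟩ := exists_barIncl_eq_of_pow_eq h m hm hcop y _ hym
  refine ⟨x, c, hc, ?_⟩
  apply hinj
  rw [map_mul, map_pow, hx, AlgHom.commutes]
  exact hy

/-- **D2 for `A2Kummer`, general form.** -/
theorem a2Kummer_descend_of_psi {N M : ℕ} [NeZero N] [NeZero M] (h : N ∣ M) (m d : ℕ)
    (hm : 0 < m) (σ : AlgebraicClosure ℚ ≃ₐ[ℚ] AlgebraicClosure ℚ)
    (hd : dedekindPsi M = d * dedekindPsi N) (hcop : d.Coprime m)
    (hM : H129.A2Kummer M m σ) : H129.A2Kummer N m σ := by
  refine a2Kummer_descend_of_coprime h m hm σ ?_ hM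
  rw [finrank_bar_eq_of_psi h d hd]
  exact hcop

/-- **D2 for `A2Kummer`, prime form.** -/
theorem a2Kummer_descend_prime {N : ℕ} [NeZero N] (r : ℕ) (hr : r.Prime) (hrN : ¬ r ∣ N)
    (m : ℕ) (hm : 0 < m) (σ : AlgebraicClosure ℚ ≃ₐ[ℚ] AlgebraicClosure ℚ)
    (hcop : (r + 1).Coprime m) (hM : H129.A2Kummer (r * N) m σ) : H129.A2Kummer N m σ := by
  haveI : NeZero (r * N) := ⟨mul_ne_zero hr.ne_zero (NeZero.ne N)⟩
  exact a2Kummer_descend_of_psi (Dvd.intro_left r rfl) m (r + 1) hm σ
    (Fermat.Agent.S20.Comb694.dedekindPsi_prime_mul_of_not_dvd r N hr (NeZero.ne N) hrN) hcop hM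

/-! ### The auxiliary level -/

/-- The auxiliary level: `lcm N 2` for `q = 3`, `lcm N 3` for `q = 2`, `N` otherwise. -/
def auxLevel (N q : ℕ) : ℕ :=
  if q = 3 then Nat.lcm N 2 else if q = 2 then Nat.lcm N 3 else N

/-- A level is *ready* for `q`: the S18 coordinate exists on the good-reduction level `N / q`
(`q ≥ 5`: `j`; `q = 3`: `t₂`, needs `2 ∣ N`; `q = 2`: `t₃`, needs `3 ∣ N`). -/
def Ready (N q : ℕ) : Prop :=
  (q ≠ 2 ∧ q ≠ 3) ∨ (q = 3 ∧ 2 ∣ N) ∨ (q = 2 ∧ 3 ∣ N)

theorem dvd_auxLevel (N q : ℕ) : N ∣ auxLevel N q := by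
  unfold auxLevel
  split_ifs
  · exact Nat.dvd_lcm_left N 2
  · exact Nat.dvd_lcm_left N 3
  · exact dvd_rfl

theorem auxLevel_ne_zero {N : ℕ} (hN : N ≠ 0) (q : ℕ) : auxLevel N q ≠ 0 := by
  unfold auxLevel
  split_ifs
  · exact Nat.lcm_ne_zero hN (by norm_num)
  · exact Nat.lcm_ne_zero hN (by norm_num)
  · exact hN

theorem ready_auxLevel (N q : ℕ) : Ready (auxLevel N q) q := by
  unfold auxLevel Ready
  split_ifs with h3 h2
  · exact Or.inr (Or.inl ⟨h3, Nat.dvd_lcm_right N 2⟩)
  · exact Or.inr (Or.inr ⟨h2, Nat.dvd_lcm_right N 3⟩)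
  · exact Or.inl ⟨h2, h3⟩

theorem auxLevel_of_ready {N q : ℕ} (h : Ready N q) : auxLevel N q = N := by
  unfold auxLevel
  rcases h with ⟨h2, h3⟩ | ⟨h3, hd⟩ | ⟨h2, hd⟩
  · rw [if_neg h3, if_neg h2]
  · rw [if_pos h3, Nat.lcm_eq_left hd]
  · subst h2
    rw [if_neg (by norm_num), if_pos rfl, Nat.lcm_eq_left hd]

theorem dvd_auxLevel_of_dvd {N q : ℕ} (h : q ∣ N) : q ∣ auxLevel N q :=
  h.trans (dvd_auxLevel N q)

/-- `q ‖ N` is preserved by passing to the auxiliary level. -/
theorem not_sq_dvd_auxLevel {N q : ℕ} (hq : q.Prime) (h : ¬ q ^ 2 ∣ N) :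
    ¬ q ^ 2 ∣ auxLevel N q := by
  unfold auxLevel
  split_ifs with h3 h2
  · subst h3
    intro hd
    have h1 : Nat.lcm N 2 ∣ N * 2 := Nat.lcm_dvd_mul N 2
    have h4 : (3 ^ 2).Coprime 2 := by norm_num
    exact h (h4.dvd_of_dvd_mul_right (hd.trans h1))
  · subst h2
    intro hd
    have h1 : Nat.lcm N 3 ∣ N * 3 := Nat.lcm_dvd_mul N 3
    have h4 : (2 ^ 2).Coprime 3 := by norm_num
    exact h (h4.dvd_of_dvd_mul_right (hd.trans h1))
  · exact h

/-- **D2, node form for `KummerTarget`.** -/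
theorem kummerTarget_aux (N : ℕ) [NeZero N] (q m : ℕ) (hm : ¬ q ∣ m) :
    KummerTarget (auxLevel N q) q m → KummerTarget N q m := by
  unfold auxLevel
  split_ifs with h3 h2
  · subst h3
    by_cases h : 2 ∣ N
    · rw [Nat.lcm_eq_left h]
      exact id
    · have hcop : Nat.Coprime N 2 :=
        (Nat.coprime_comm.1 ((Nat.Prime.coprime_iff_not_dvd Nat.prime_two).2 h))
      rw [hcop.lcm_eq_mul, mul_comm]
      refine kummerTarget_descend_prime 2 Nat.prime_two h 3 m ?_
      exact (Nat.Prime.coprime_iff_not_dvd Nat.prime_three).2 hm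
  · subst h2
    by_cases h : 3 ∣ N
    · rw [Nat.lcm_eq_left h]
      exact id
    · have hcop : Nat.Coprime N 3 :=
        (Nat.coprime_comm.1 ((Nat.Prime.coprime_iff_not_dvd Nat.prime_three).2 h))
      rw [hcop.lcm_eq_mul, mul_comm]
      refine kummerTarget_descend_prime 3 Nat.prime_three h 2 m ?_
      have h2m : Nat.Coprime 2 m := (Nat.Prime.coprime_iff_not_dvd Nat.prime_two).2 hm
      exact Nat.Coprime.pow_left 2 h2m
  · exact id

/-- **D2, node form for `A2Kummer`.** -/
theorem a2Kummer_aux (N : ℕ) [NeZero N] (q m : ℕ) (hm0 : 0 < m) (hm : ¬ q ∣ m)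
    (σ : AlgebraicClosure ℚ ≃ₐ[ℚ] AlgebraicClosure ℚ) :
    H129.A2Kummer (auxLevel N q) m σ → H129.A2Kummer N m σ := by
  unfold auxLevel
  split_ifs with h3 h2
  · subst h3
    by_cases h : 2 ∣ N
    · rw [Nat.lcm_eq_left h]
      exact id
    · have hcop : Nat.Coprime N 2 :=
        (Nat.coprime_comm.1 ((Nat.Prime.coprime_iff_not_dvd Nat.prime_two).2 h))
      rw [hcop.lcm_eq_mul, mul_comm]
      refine a2Kummer_descend_prime 2 Nat.prime_two h m hm0 σ ?_
      exact (Nat.Prime.coprime_iff_not_dvd Nat.prime_three).2 hm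
  · subst h2
    by_cases h : 3 ∣ N
    · rw [Nat.lcm_eq_left h]
      exact id
    · have hcop : Nat.Coprime N 3 :=
        (Nat.coprime_comm.1 ((Nat.Prime.coprime_iff_not_dvd Nat.prime_three).2 h))
      rw [hcop.lcm_eq_mul, mul_comm]
      refine a2Kummer_descend_prime 3 Nat.prime_three h m hm0 σ ?_
      have h2m : Nat.Coprime 2 m := (Nat.Prime.coprime_iff_not_dvd Nat.prime_two).2 hm
      exact Nat.Coprime.pow_left 2 h2m
  · exact id

/-- **Reduction to ready levels.**  If the Kummer form of the wall holds at all levels `N'` with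
`q ‖ N'` that are ready for `q`, it holds at all levels `N` with `q ‖ N`. -/
theorem kummerTarget_of_ready (q m : ℕ) (hq : q.Prime) (hm : ¬ q ∣ m)
    (hready : ∀ N' : ℕ, q ∣ N' → ¬ q ^ 2 ∣ N' → N' ≠ 0 → Ready N' q → KummerTarget N' q m)
    (N : ℕ) (hqN : q ∣ N) (hq2 : ¬ q ^ 2 ∣ N) (hN : N ≠ 0) : KummerTarget N q m := by
  haveI : NeZero N := ⟨hN⟩
  exact kummerTarget_aux N q m hm
    (hready (auxLevel N q) (dvd_auxLevel_of_dvd hqN) (not_sq_dvd_auxLevel hq hq2)
      (auxLevel_ne_zero hN q) (ready_auxLevel N q))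

/-- **Reduction to ready levels**, `A2Kummer` form (all inertia groups at `q`). -/
theorem a2Kummer_of_ready (q m : ℕ) (hq : q.Prime) (hm0 : 0 < m) (hm : ¬ q ∣ m)
    (hready : ∀ N' : ℕ, q ∣ N' → ¬ q ^ 2 ∣ N' → N' ≠ 0 → Ready N' q →
      ∀ P : ValuationSubring (AlgebraicClosure ℚ), P.LiesOverPrime q →
        ∀ σ ∈ P.inertiaSubgroupIn ℚ, H129.A2Kummer N' m σ)
    (N : ℕ) (hqN : q ∣ N) (hq2 : ¬ q ^ 2 ∣ N) (hN : N ≠ 0)
    (P : ValuationSubring (AlgebraicClosure ℚ)) (hP : P.LiesOverPrime q)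
    (σ : AlgebraicClosure ℚ ≃ₐ[ℚ] AlgebraicClosure ℚ) (hσ : σ ∈ P.inertiaSubgroupIn ℚ) :
    H129.A2Kummer N m σ := by
  haveI : NeZero N := ⟨hN⟩
  exact a2Kummer_aux N q m hm0 hm σ
    (hready (auxLevel N q) (dvd_auxLevel_of_dvd hqN) (not_sq_dvd_auxLevel hq hq2)
      (auxLevel_ne_zero hN q) (ready_auxLevel N q) P hP σ hσ)

end Fermat.Agent.A2.H876

end
end
-- ===== PACK-END A2/H876/D2.lean

-- ===== PACK-BEGIN A2/H876/D2Wall.lean
section



/-!
# A2 / D2 in the exact shape of `Top.H994.Wall` (helper876)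

* `d2Statement : Top.H994.D2Statement` (verbatim; discharges the hypothesis `hD2` of
  `Top.H994.kummerTarget_all` and `Top.H994.wall`);
* `kummerTarget_all`, `wall` : the same theorems with `hD2` removed:
  `AlgSSStatement → IFStatement → ModSSGoodStatement → Target N q m` for all `q ‖ N`, `q ∤ m`.
-/

set_option autoImplicit false
set_option linter.style.haveILetI false

noncomputable section

namespace Fermat.Agent.A2.H876

open Fermat.Agent.A2 Fermat.Agent.A2.Top.H994

/-- **D2**, verbatim statement of `Top.H994.Wall`. -/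
theorem d2Statement : D2Statement := by
  intro N q m _hq _hqN _hq2 hN _hm hqm h
  haveI : NeZero N := ⟨hN⟩
  exact kummerTarget_aux N q m hqm h

/-- The Kummer form of the wall for all `q`, from ALG, IF and MOD at the ready levels. -/
theorem kummerTarget_all (hALG : AlgSSStatement) (hIF : IFStatement)
    (hMOD : ModSSGoodStatement)
    (N q m : ℕ) (hq : q.Prime) (hqN : q ∣ N) (hq2 : ¬ q ^ 2 ∣ N) (hN : N ≠ 0) (hm : 0 < m)
    (hqm : ¬ q ∣ m) : KummerTarget N q m :=
  Top.H994.kummerTarget_all hALG hIF hMOD d2Statement N q m hq hqN hq2 hN hm hqm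

/-- **The wall A2 for all `q`**, from ALG, IF and MOD at the ready levels. -/
theorem wall (hALG : AlgSSStatement) (hIF : IFStatement) (hMOD : ModSSGoodStatement)
    (N q m : ℕ) (hq : q.Prime) (hqN : q ∣ N) (hq2 : ¬ q ^ 2 ∣ N) (hN : N ≠ 0) (hm : 0 < m)
    (hqm : ¬ q ∣ m) : Target N q m :=
  Top.H994.wall hALG hIF hMOD d2Statement N q m hq hqN hq2 hN hm hqm

end Fermat.Agent.A2.H876

end
end
-- ===== PACK-END A2/H876/D2Wall.lean

-- ===== PACK-BEGIN A2/Mod/H372/S3Coord.lean
section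


/-!
# A2 / MODASM S3, the coordinate facts (helper372)

For the two coordinate pairs `(j, x)` and `(j⁻¹, x⁻¹)`, `x = j · j_q`:
`y = α(y_M) · β(y_M)`, `β y_M ≡ (α y_M)^q mod w V∞`, `α y_M ≡ (β y_M)^q mod w V₀`,
`α y_M, β y_M ∈ chart(y)` (leaf L13).
-/

set_option autoImplicit false
set_option synthInstance.maxHeartbeats 400000
set_option maxHeartbeats 1600000
set_option linter.unusedSectionVars false
set_option linter.style.haveILetI false

noncomputable section

namespace Fermat.Agent.A2.Mod.H372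

open ModularCurve HahnSeries Polynomial

variable {P : ValuationSubring _root_.Fermat.Agent.A2.Mod.Qb} {E : IntermediateField ℚ _root_.Fermat.Agent.A2.Mod.Qb} {M q : ℕ} [NeZero M] [NeZero q]
  (w : _root_.Fermat.Agent.A2.Mod.RE P E)

/-- `f ∈ w V₀ ↔ W f ∈ w V∞`. -/
theorem inW_comap_iff {N : ℕ} (V : ValuationSubring (_root_.Fermat.Agent.A2.Mod.FE E N)) (W : _root_.Fermat.Agent.A2.Mod.FE E N ≃ₐ[E] _root_.Fermat.Agent.A2.Mod.FE E N)
    (f : _root_.Fermat.Agent.A2.Mod.FE E N) :
    InW P E N (V.comap (W : _root_.Fermat.Agent.A2.Mod.FE E N →+* _root_.Fermat.Agent.A2.Mod.FE E N)) w f ↔ InW P E N V w (W f) := by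
  have hWc : W (cE P E N w) = cE P E N w := W.commutes (w : E)
  show W (f * (cE P E N w)⁻¹) ∈ V ↔ W f * (cE P E N w)⁻¹ ∈ V
  rw [map_mul, map_inv₀, hWc]

/-- The facts about a coordinate pair used by S3. -/
structure CoordFacts (VM : ValuationSubring (_root_.Fermat.Agent.A2.Mod.FE E M)) (V : ValuationSubring (_root_.Fermat.Agent.A2.Mod.FE E (M * q)))
    (W : _root_.Fermat.Agent.A2.Mod.FE E (M * q) ≃ₐ[E] _root_.Fermat.Agent.A2.Mod.FE E (M * q)) (yM : _root_.Fermat.Agent.A2.Mod.FE E M) (y : _root_.Fermat.Agent.A2.Mod.FE E (M * q)) : Prop where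
  mem : yM ∈ VM
  eq_mul : y = αE E M q yM * βE E M q yM
  beta_mem : βE E M q yM ∈ V
  alpha_mem₀ : W (αE E M q yM) ∈ V
  beta_mem₀ : W (βE E M q yM) ∈ V
  cong₁ : InW P E (M * q) V w (βE E M q yM - (αE E M q yM) ^ q)
  cong₂ : InW P E (M * q) V w (W (αE E M q yM) - (W (βE E M q yM)) ^ q)
  alpha_chart : αE E M q yM ∈ chartAlg P E (M * q) y
  beta_chart : βE E M q yM ∈ chartAlg P E (M * q) y

theorem beta_jE_one : βE E M q (jE E M 1 (one_dvd _)) = jE E (M * q) q (dvd_mul_left q M) := by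
  rw [beta_jE 1 (one_dvd M)]
  exact jE_congr (one_mul q) _ _

theorem alpha_jE_one : αE E M q (jE E M 1 (one_dvd _)) = jE E (M * q) 1 (one_dvd _) :=
  alpha_jE 1 (one_dvd M)

theorem fricke_jE_one {W : _root_.Fermat.Agent.A2.Mod.FE E (M * q) ≃ₐ[E] _root_.Fermat.Agent.A2.Mod.FE E (M * q)} (hW : IsFricke E (M * q) W) :
    W (jE E (M * q) 1 (one_dvd _)) = jE E (M * q) (M * q) (dvd_refl _) :=
  hW.1 1 (M * q) (one_dvd _) (dvd_refl _) (one_mul _)

theorem fricke_jE_q {W : _root_.Fermat.Agent.A2.Mod.FE E (M * q) ≃ₐ[E] _root_.Fermat.Agent.A2.Mod.FE E (M * q)} (hW : IsFricke E (M * q) W) :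
    W (jE E (M * q) q (dvd_mul_left q M)) = jE E (M * q) M (dvd_mul_right M q) :=
  hW.1 q M (dvd_mul_left q M) (dvd_mul_right M q) (mul_comm q M)

theorem coordFacts_fin (hS : Setting P E M q w) {VM : ValuationSubring (_root_.Fermat.Agent.A2.Mod.FE E M)}
    {V : ValuationSubring (_root_.Fermat.Agent.A2.Mod.FE E (M * q))} {W : _root_.Fermat.Agent.A2.Mod.FE E (M * q) ≃ₐ[E] _root_.Fermat.Agent.A2.Mod.FE E (M * q)}
    (hVM : IsVinf P E M VM) (hV : IsVinf P E (M * q) V) (hW : IsFricke E (M * q) W) :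
    CoordFacts w VM V W (jE E M 1 (one_dvd _)) (xE E M q) := by
  have hN := level_ne_zero w hS
  obtain ⟨h1, h2, -, -⟩ := H873.chartCompat P E M q hS.q_prime
  refine ⟨jE_mem w hS hS.M_ne_zero hVM 1 (one_dvd _), ?_, ?_, ?_, ?_, ?_, ?_, ?_, ?_⟩
  · rw [alpha_jE_one, beta_jE_one]; rfl
  · rw [beta_jE_one]; exact jE_mem w hS hN hV _ _
  · rw [alpha_jE_one, fricke_jE_one hW]; exact jE_mem w hS hN hV _ _
  · rw [beta_jE_one, fricke_jE_q hW]; exact jE_mem w hS hN hV _ _
  · rw [alpha_jE_one, beta_jE_one]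
    have := inW_jE_sub_pow w hS hV 1 (one_dvd M)
    rwa [jE_congr (one_mul q) _ (dvd_mul_left q M)] at this
  · rw [alpha_jE_one, beta_jE_one, fricke_jE_one hW, fricke_jE_q hW]
    exact inW_jE_sub_pow w hS hV M (dvd_refl M)
  · rw [alpha_jE_one]; exact mem_chart_iff.mp h1
  · rw [beta_jE_one]; exact mem_chart_iff.mp h2

theorem coordFacts_inf (hS : Setting P E M q w) {VM : ValuationSubring (_root_.Fermat.Agent.A2.Mod.FE E M)}
    {V : ValuationSubring (_root_.Fermat.Agent.A2.Mod.FE E (M * q))} {W : _root_.Fermat.Agent.A2.Mod.FE E (M * q) ≃ₐ[E] _root_.Fermat.Agent.A2.Mod.FE E (M * q)}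
    (hVM : IsVinf P E M VM) (hV : IsVinf P E (M * q) V) (hW : IsFricke E (M * q) W) :
    CoordFacts w VM V W (jE E M 1 (one_dvd _))⁻¹ (xE E M q)⁻¹ := by
  have hN := level_ne_zero w hS
  obtain ⟨-, -, h3, h4⟩ := H873.chartCompat P E M q hS.q_prime
  have hu := unifE w hS hN hV
  refine ⟨jE_inv_mem w hS hS.M_ne_zero hVM 1 (one_dvd _), ?_, ?_, ?_, ?_, ?_, ?_, ?_, ?_⟩
  · rw [map_inv₀, map_inv₀, alpha_jE_one, beta_jE_one, ← mul_inv]; rfl
  · rw [map_inv₀, beta_jE_one]; exact jE_inv_mem w hS hN hV _ _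
  · rw [map_inv₀, map_inv₀, alpha_jE_one, fricke_jE_one hW]; exact jE_inv_mem w hS hN hV _ _
  · rw [map_inv₀, map_inv₀, beta_jE_one, fricke_jE_q hW]; exact jE_inv_mem w hS hN hV _ _
  · rw [map_inv₀, map_inv₀, alpha_jE_one, beta_jE_one, inv_pow]
    have := inW_jE_sub_pow w hS hV 1 (one_dvd M)
    rw [jE_congr (one_mul q) _ (dvd_mul_left q M)] at this
    refine inv_sub_inv_mul_mem V (H873.jE_ne_zero _ _ _ _) (pow_ne_zero _ (H873.jE_ne_zero _ _ _ _))
      (jE_inv_mem w hS hN hV _ _) ?_ this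
    rw [← inv_pow]
    exact V.pow_mem (jE_inv_mem w hS hN hV _ _) _
  · rw [map_inv₀, map_inv₀, map_inv₀, map_inv₀, alpha_jE_one, beta_jE_one, fricke_jE_one hW,
      fricke_jE_q hW, inv_pow]
    have := inW_jE_sub_pow w hS hV M (dvd_refl M)
    refine inv_sub_inv_mul_mem V (H873.jE_ne_zero _ _ _ _) (pow_ne_zero _ (H873.jE_ne_zero _ _ _ _))
      (jE_inv_mem w hS hN hV _ _) ?_ this
    rw [← inv_pow]
    exact V.pow_mem (jE_inv_mem w hS hN hV _ _) _
  · rw [map_inv₀, alpha_jE_one]; exact mem_chart_iff.mp h3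
  · rw [map_inv₀, beta_jE_one]; exact mem_chart_iff.mp h4

theorem coordFacts_of_isCoordPair (hS : Setting P E M q w) {VM : ValuationSubring (_root_.Fermat.Agent.A2.Mod.FE E M)}
    {V : ValuationSubring (_root_.Fermat.Agent.A2.Mod.FE E (M * q))} {W : _root_.Fermat.Agent.A2.Mod.FE E (M * q) ≃ₐ[E] _root_.Fermat.Agent.A2.Mod.FE E (M * q)}
    (hVM : IsVinf P E M VM) (hV : IsVinf P E (M * q) V) (hW : IsFricke E (M * q) W)
    {yM : _root_.Fermat.Agent.A2.Mod.FE E M} {y : _root_.Fermat.Agent.A2.Mod.FE E (M * q)} (hy : IsCoordPair E M q yM y) :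
    CoordFacts w VM V W yM y := by
  rcases hy with ⟨rfl, rfl⟩ | ⟨rfl, rfl⟩
  · exact coordFacts_fin w hS hVM hV hW
  · exact coordFacts_inf w hS hVM hV hW

end Fermat.Agent.A2.Mod.H372

end
end
-- ===== PACK-END A2/Mod/H372/S3Coord.lean

-- ===== PACK-BEGIN A2/Mod/H372/S3Sides.lean
section



/-!
# A2 / MODASM sub-assembly S3 (helper372): the two sides on the charts

`s3_of_leaves : (leaves L4, L5, L7, L8, L11, L12 + sub-assembly S2) → S3Statement P E M q w`
(`Fermat/Agent/A2/Mod/Asm.lean`, VERBATIM).  The leaves L2 (`H553.vinfBasic`) and L13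
(`H873.chartCompat`) are used directly (on main).

Proof: `H372.KronCong.sup_isRadical` applied to the restrictions `α, β : B_M → B` of the two
degeneracy maps to the charts (`B_M` = chart of `j^{±1}` at level `M`, `B` = chart of `x^{±1}`
at level `Mq`):

* `KronCong` : L12 gives the Kronecker twist `a'` only in `V∞_M`; `GoodRedAt.normal` brings it
  back into the chart (`SideData.cong`); on `C₀` one transports by the Fricke involutions
  (L4, L5, L7);
* `α` is onto `B ⧸ p∞` : L11 + `GoodRedAt.normal` (`SideData.surj`);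
* the branch `B ⧸ p∞` is a Dedekind domain : S2 (normal), `B` noetherian (L8), dimension one.
-/

set_option autoImplicit false
set_option synthInstance.maxHeartbeats 400000
set_option maxHeartbeats 1600000
set_option linter.unusedSectionVars false
set_option linter.style.haveILetI false

noncomputable section

namespace Fermat.Agent.A2.Mod.H372

open ModularCurve HahnSeries Polynomial

variable {P : ValuationSubring _root_.Fermat.Agent.A2.Mod.Qb} {E : IntermediateField ℚ _root_.Fermat.Agent.A2.Mod.Qb} {M q : ℕ} [NeZero M] [NeZero q]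
  (w : _root_.Fermat.Agent.A2.Mod.RE P E)

section Sides

variable (hS : Setting P E M q w) {VM : ValuationSubring (_root_.Fermat.Agent.A2.Mod.FE E M)}
  {V : ValuationSubring (_root_.Fermat.Agent.A2.Mod.FE E (M * q))} {W : _root_.Fermat.Agent.A2.Mod.FE E (M * q) ≃ₐ[E] _root_.Fermat.Agent.A2.Mod.FE E (M * q)}
  (hVM : IsVinf P E M VM) (hV : IsVinf P E (M * q) V) (hW : IsFricke E (M * q) W)
  {yM : _root_.Fermat.Agent.A2.Mod.FE E M} {y : _root_.Fermat.Agent.A2.Mod.FE E (M * q)}

include hS hVM in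
theorem chartM_le (hyM : yM ∈ VM) {a : _root_.Fermat.Agent.A2.Mod.FE E M} (ha : a ∈ chartAlg P E M yM) : a ∈ VM :=
  mem_of_isIntegralElem VM (algebraMap (_root_.Fermat.Agent.A2.Mod.RE P E) (_root_.Fermat.Agent.A2.Mod.FE E M)) yM (fun r => cE_mem w hS hVM r) hyM
    (mem_chartAlg_iff.mp ha)

theorem self_mem_chartAlg (N : ℕ) (y : _root_.Fermat.Agent.A2.Mod.FE E N) : y ∈ chartAlg P E N y := by
  rw [mem_chartAlg_iff]
  have := (Polynomial.eval₂RingHom (algebraMap (_root_.Fermat.Agent.A2.Mod.RE P E) (_root_.Fermat.Agent.A2.Mod.FE E N)) y).isIntegralElem_map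
    (x := Polynomial.X)
  simpa using this

include hS hVM hV in
/-- `β` maps `V∞_M` into `V∞_{Mq}` (consequence of L12). -/
theorem beta_mem (hL12 : KronStatement P E M q w) {a : _root_.Fermat.Agent.A2.Mod.FE E M} (ha : a ∈ VM) :
    βE E M q a ∈ V := by
  obtain ⟨a', ha', h⟩ := hL12 hS VM V hVM hV a ha
  have h1 := mem_of_mul_inv_mem (unifE w hS (level_ne_zero w hS) hV) h
  have h2 : (αE E M q a') ^ q ∈ V := V.pow_mem (alpha_mem hVM hV ha') q
  have := V.add_mem _ _ h1 h2
  simpa using this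

include hS hVM hV in
/-- The side `C∞`. -/
theorem side₁ (hyM : yM ∈ VM) (hgood : GoodRedAt P E M w VM yM) :
    SideData VM V (cE P E M w) (cE P E (M * q) w) (αE E M q : _root_.Fermat.Agent.A2.Mod.FE E M →+* _root_.Fermat.Agent.A2.Mod.FE E (M * q)) q
      (chartAlg P E M yM).toSubring where
  unif₁ := unifE w hS hS.M_ne_zero hVM
  unif₂ := unifE w hS (level_ne_zero w hS) hV
  map_mem := fun x hx => alpha_mem hVM hV hx
  map_unif := alpha_cE P E M q w
  refl := fun x hx => mem_of_alpha_mem w hS hVM hV hx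
  prime := hS.q_prime
  q_mem := q_mul_inv_mem w hS hV
  le := fun a ha => chartM_le w hS hVM hyM ha
  normal := by
    rintro f hf ⟨n, c, hc, hrel⟩
    obtain ⟨b, hb, hfb⟩ := hgood.normal f hf ⟨n, c, fun i => mem_chart_iff.mpr (hc i), hrel⟩
    exact ⟨b, mem_chart_iff.mp hb, hfb⟩

include hS hVM hV hW in
/-- The side `C₀`. -/
theorem side₂ (hL5 : FrickeCompatStatement E M q) (hL7 : FrickeStableStatement P E M q w)
    {WM : _root_.Fermat.Agent.A2.Mod.FE E M ≃ₐ[E] _root_.Fermat.Agent.A2.Mod.FE E M} (hWM : IsFricke E M WM)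
    (hyM : yM ∈ VM) (hgood : GoodRedAt P E M w VM yM) :
    SideData VM (V.comap (W : _root_.Fermat.Agent.A2.Mod.FE E (M * q) →+* _root_.Fermat.Agent.A2.Mod.FE E (M * q))) (cE P E M w) (cE P E (M * q) w)
      (βE E M q : _root_.Fermat.Agent.A2.Mod.FE E M →+* _root_.Fermat.Agent.A2.Mod.FE E (M * q)) q (chartAlg P E M yM).toSubring where
  unif₁ := unifE w hS hS.M_ne_zero hVM
  unif₂ := isUnif_comap (unifE w hS (level_ne_zero w hS) hV) _ (W.commutes (w : E))
  map_mem := fun x hx => by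
    rw [ValuationSubring.mem_comap]
    show W (βE E M q x) ∈ V
    rw [(hL5 WM W hWM hW x).2]
    exact alpha_mem hVM hV (hL7 hS VM WM hVM hWM x hx)
  map_unif := beta_cE P E M q w
  refl := fun x hx => by
    rw [ValuationSubring.mem_comap] at hx
    have hx' : W (βE E M q x) ∈ V := hx
    rw [(hL5 WM W hWM hW x).2] at hx'
    have h1 := mem_of_alpha_mem w hS hVM hV hx'
    have h2 := hL7 hS VM WM hVM hWM _ h1
    rwa [hWM.2] at h2
  prime := hS.q_prime
  q_mem := by
    rw [ValuationSubring.mem_comap]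
    show W (((q : ℕ) : _root_.Fermat.Agent.A2.Mod.FE E (M * q)) * (cE P E (M * q) w)⁻¹) ∈ V
    have hWc : W (cE P E (M * q) w) = cE P E (M * q) w := W.commutes (w : E)
    rw [map_mul, map_inv₀, map_natCast, hWc]
    exact q_mul_inv_mem w hS hV
  le := fun a ha => chartM_le w hS hVM hyM ha
  normal := by
    rintro f hf ⟨n, c, hc, hrel⟩
    obtain ⟨b, hb, hfb⟩ := hgood.normal f hf ⟨n, c, fun i => mem_chart_iff.mpr (hc i), hrel⟩
    exact ⟨b, mem_chart_iff.mp hb, hfb⟩

end Sides

section Congruences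

variable (hS : Setting P E M q w) {VM : ValuationSubring (_root_.Fermat.Agent.A2.Mod.FE E M)}
  {V : ValuationSubring (_root_.Fermat.Agent.A2.Mod.FE E (M * q))} {W : _root_.Fermat.Agent.A2.Mod.FE E (M * q) ≃ₐ[E] _root_.Fermat.Agent.A2.Mod.FE E (M * q)}
  (hVM : IsVinf P E M VM) (hV : IsVinf P E (M * q) V) (hW : IsFricke E (M * q) W)
  {yM : _root_.Fermat.Agent.A2.Mod.FE E M} {y : _root_.Fermat.Agent.A2.Mod.FE E (M * q)} (hC : CoordFacts w VM V W yM y)
  (hgood : GoodRedAt P E M w VM yM)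

include hS hVM hV hC hgood in
/-- **Kronecker congruence on `C∞` inside the charts.** -/
theorem chart_cong₁ (hL12 : KronStatement P E M q w) :
    ∀ a ∈ chartAlg P E M yM, ∃ a' ∈ chartAlg P E M yM,
      InW P E (M * q) V w (βE E M q a - (αE E M q a') ^ q) :=
  (side₁ w hS hVM hV hC.mem hgood).cong (βE E M q : _root_.Fermat.Agent.A2.Mod.FE E M →+* _root_.Fermat.Agent.A2.Mod.FE E (M * q))
    (fun _ hx => beta_mem w hS hVM hV hL12 hx)
    (fun a ha => hL12 hS VM V hVM hV a ha)
    (algebraMap (_root_.Fermat.Agent.A2.Mod.RE P E) (_root_.Fermat.Agent.A2.Mod.FE E M)) yM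
    (fun _ ha => mem_chartAlg_iff.mp ha)
    (fun r => (chartAlg P E M yM).algebraMap_mem r)
    (self_mem_chartAlg M yM)
    (fun r => by
      show βE E M q (cE P E M r) = αE E M q (cE P E M r)
      rw [beta_cE, alpha_cE])
    hC.cong₁

include hS hVM hV hW hC hgood in
/-- **Kronecker congruence on `C₀` inside the charts.** -/
theorem chart_cong₂ (hL5 : FrickeCompatStatement E M q) (hL7 : FrickeStableStatement P E M q w)
    (hL12 : KronStatement P E M q w) {WM : _root_.Fermat.Agent.A2.Mod.FE E M ≃ₐ[E] _root_.Fermat.Agent.A2.Mod.FE E M} (hWM : IsFricke E M WM) :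
    ∀ a ∈ chartAlg P E M yM, ∃ a' ∈ chartAlg P E M yM,
      InW P E (M * q) (V.comap (W : _root_.Fermat.Agent.A2.Mod.FE E (M * q) →+* _root_.Fermat.Agent.A2.Mod.FE E (M * q))) w
        (αE E M q a - (βE E M q a') ^ q) := by
  refine (side₂ w hS hVM hV hW hL5 hL7 hWM hC.mem hgood).cong
    (αE E M q : _root_.Fermat.Agent.A2.Mod.FE E M →+* _root_.Fermat.Agent.A2.Mod.FE E (M * q)) ?_ ?_
    (algebraMap (_root_.Fermat.Agent.A2.Mod.RE P E) (_root_.Fermat.Agent.A2.Mod.FE E M)) yM
    (fun _ ha => mem_chartAlg_iff.mp ha)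
    (fun r => (chartAlg P E M yM).algebraMap_mem r)
    (self_mem_chartAlg M yM)
    (fun r => by
      show αE E M q (cE P E M r) = βE E M q (cE P E M r)
      rw [beta_cE, alpha_cE]) ?_
  · intro x hx
    rw [ValuationSubring.mem_comap]
    show W (αE E M q x) ∈ V
    rw [(hL5 WM W hWM hW x).1]
    exact beta_mem w hS hVM hV hL12 (hL7 hS VM WM hVM hWM x hx)
  · intro a ha
    obtain ⟨c, hc, hac⟩ := hL12 hS VM V hVM hV (WM a) (hL7 hS VM WM hVM hWM a ha)
    refine ⟨WM c, hL7 hS VM WM hVM hWM c hc, ?_⟩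
    show InW P E (M * q) (V.comap (W : _root_.Fermat.Agent.A2.Mod.FE E (M * q) →+* _root_.Fermat.Agent.A2.Mod.FE E (M * q))) w
      (αE E M q a - (βE E M q (WM c)) ^ q)
    rw [inW_comap_iff, map_sub, map_pow, (hL5 WM W hWM hW a).1, (hL5 WM W hWM hW (WM c)).2,
      hWM.2]
    exact hac
  · show InW P E (M * q) (V.comap (W : _root_.Fermat.Agent.A2.Mod.FE E (M * q) →+* _root_.Fermat.Agent.A2.Mod.FE E (M * q))) w
      (αE E M q yM - (βE E M q yM) ^ q)
    rw [inW_comap_iff, map_sub, map_pow]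
    exact hC.cong₂

include hS hVM hV hC hgood in
/-- **`α` is onto the branch `C∞`.** -/
theorem chart_surj (hL11 : ResInfStatement P E M q w) :
    ∀ b ∈ chartAlg P E (M * q) y, b ∈ V ∧ ∃ a ∈ chartAlg P E M yM,
      InW P E (M * q) V w (b - αE E M q a) := by
  have hyV : y ∈ V := by
    rw [hC.eq_mul]
    exact V.mul_mem _ _ (alpha_mem hVM hV hC.mem) hC.beta_mem
  have h := (side₁ w hS hVM hV hC.mem hgood).surj
    (fun b hb => hL11 hS VM V hVM hV b hb)
    (algebraMap (_root_.Fermat.Agent.A2.Mod.RE P E) (_root_.Fermat.Agent.A2.Mod.FE E (M * q))) y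
    (fun r => cE_mem w hS hV r) hyV
    (fun r => ⟨cE P E M r, (chartAlg P E M yM).algebraMap_mem r, by
      show (cE P E (M * q) r - αE E M q (cE P E M r)) * (cE P E (M * q) w)⁻¹ ∈ V
      rw [alpha_cE, sub_self, zero_mul]
      exact V.zero_mem⟩)
    ⟨yM ^ (q + 1), Subalgebra.pow_mem _ (self_mem_chartAlg M yM) _, by
      have e : y - αE E M q (yM ^ (q + 1)) =
          αE E M q yM * (βE E M q yM - (αE E M q yM) ^ q) := by
        rw [hC.eq_mul, map_pow]
        ring
      show (y - αE E M q (yM ^ (q + 1))) * (cE P E (M * q) w)⁻¹ ∈ V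
      rw [e, mul_assoc]
      exact V.mul_mem _ _ (alpha_mem hVM hV hC.mem) hC.cong₁⟩
  intro b hb
  exact h b (mem_chartAlg_iff.mp hb)

end Congruences

section Charts

variable (hS : Setting P E M q w) {VM : ValuationSubring (_root_.Fermat.Agent.A2.Mod.FE E M)}
  {V : ValuationSubring (_root_.Fermat.Agent.A2.Mod.FE E (M * q))} {W : _root_.Fermat.Agent.A2.Mod.FE E (M * q) ≃ₐ[E] _root_.Fermat.Agent.A2.Mod.FE E (M * q)}
  {yM : _root_.Fermat.Agent.A2.Mod.FE E M} {y : _root_.Fermat.Agent.A2.Mod.FE E (M * q)} (hC : CoordFacts w VM V W yM y)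

include hC in
/-- `α` maps the level-`M` chart into the level-`Mq` chart. -/
theorem alpha_chart_mem {a : _root_.Fermat.Agent.A2.Mod.FE E M} (ha : a ∈ chartAlg P E M yM) :
    αE E M q a ∈ chartAlg P E (M * q) y := by
  rw [mem_chartAlg_iff]
  have h1 := isIntegralElem_map _ (αE E M q : _root_.Fermat.Agent.A2.Mod.FE E M →+* _root_.Fermat.Agent.A2.Mod.FE E (M * q)) (mem_chartAlg_iff.mp ha)
  have hcomp : (αE E M q : _root_.Fermat.Agent.A2.Mod.FE E M →+* _root_.Fermat.Agent.A2.Mod.FE E (M * q)).comp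
      (Polynomial.eval₂RingHom (algebraMap (_root_.Fermat.Agent.A2.Mod.RE P E) (_root_.Fermat.Agent.A2.Mod.FE E M)) yM) =
      Polynomial.eval₂RingHom (algebraMap (_root_.Fermat.Agent.A2.Mod.RE P E) (_root_.Fermat.Agent.A2.Mod.FE E (M * q))) (αE E M q yM) := by
    apply Polynomial.ringHom_ext
    · intro r
      simp only [RingHom.comp_apply, Polynomial.coe_eval₂RingHom, Polynomial.eval₂_C]
      exact alpha_cE P E M q r
    · simp
  rw [hcomp] at h1
  exact isIntegralElem_trans _ (mem_chartAlg_iff.mp hC.alpha_chart) h1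

include hC in
/-- `β` maps the level-`M` chart into the level-`Mq` chart. -/
theorem beta_chart_mem {a : _root_.Fermat.Agent.A2.Mod.FE E M} (ha : a ∈ chartAlg P E M yM) :
    βE E M q a ∈ chartAlg P E (M * q) y := by
  rw [mem_chartAlg_iff]
  have h1 := isIntegralElem_map _ (βE E M q : _root_.Fermat.Agent.A2.Mod.FE E M →+* _root_.Fermat.Agent.A2.Mod.FE E (M * q)) (mem_chartAlg_iff.mp ha)
  have hcomp : (βE E M q : _root_.Fermat.Agent.A2.Mod.FE E M →+* _root_.Fermat.Agent.A2.Mod.FE E (M * q)).comp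
      (Polynomial.eval₂RingHom (algebraMap (_root_.Fermat.Agent.A2.Mod.RE P E) (_root_.Fermat.Agent.A2.Mod.FE E M)) yM) =
      Polynomial.eval₂RingHom (algebraMap (_root_.Fermat.Agent.A2.Mod.RE P E) (_root_.Fermat.Agent.A2.Mod.FE E (M * q))) (βE E M q yM) := by
    apply Polynomial.ringHom_ext
    · intro r
      simp only [RingHom.comp_apply, Polynomial.coe_eval₂RingHom, Polynomial.eval₂_C]
      exact beta_cE P E M q r
    · simp
  rw [hcomp] at h1
  exact isIntegralElem_trans _ (mem_chartAlg_iff.mp hC.beta_chart) h1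

/-- A cut of a chart contained in the valuation ring is a prime ideal. -/
theorem isPrime_of_isCut {N : ℕ} {V : ValuationSubring (_root_.Fermat.Agent.A2.Mod.FE E N)}
    (hu : H48.IsUnif V (cE P E N w)) (B : Subalgebra (_root_.Fermat.Agent.A2.Mod.RE P E) (_root_.Fermat.Agent.A2.Mod.FE E N))
    (hBV : ∀ b ∈ B, b ∈ V) (p : Ideal B) (hp : IsCut P E N w V B p) : p.IsPrime := by
  let incB : B →+* V := ((B.val : B →ₐ[_root_.Fermat.Agent.A2.Mod.RE P E] _root_.Fermat.Agent.A2.Mod.FE E N) : B →+* _root_.Fermat.Agent.A2.Mod.FE E N).codRestrict V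
    (fun b => hBV b b.2)
  let ρ : B →+* IsLocalRing.ResidueField V := (IsLocalRing.residue V).comp incB
  have hker : p = RingHom.ker ρ := by
    ext b
    rw [hp b, RingHom.mem_ker]
    show _ ↔ IsLocalRing.residue V (incB b) = 0
    rw [residue_eq_zero_iff hu]
    rfl
  rw [hker]
  exact RingHom.ker_isPrime ρ

end Charts

end Fermat.Agent.A2.Mod.H372

end
end
-- ===== PACK-END A2/Mod/H372/S3Sides.lean

-- ===== PACK-BEGIN A2/Mod/H142/S2.lean
section




/-!
# A2 / MODASM sub-assembly S2 (components normal) (helper142)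

`s2_of_leaves : FrickeStableStatement P E M q w → ResInfStatement P E M q w → S2Statement P E M q w`

The leaves L2 (H553), L4/L5 (H751), L13 (H873) are taken from main; L7 and L11 are hypotheses
(VERBATIM `Mod/Spec.lean` statements).

Route: `normal_side` (`S2Side.lean`) with `(V', γ) = (V∞, α)` for `p₁` and
`(V', γ) = (V₀ = V∞ ∘ W, β)` for `p₂`; the coordinate congruences
`x ≡ α(j)^(q+1) mod w V∞`, `W x ≡ α(j_M)^(q+1) mod w V∞` are Frobenius congruences of integer
series (`frobCong`).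
-/

set_option autoImplicit false
set_option synthInstance.maxHeartbeats 400000
set_option maxHeartbeats 1600000
set_option linter.unusedSectionVars false
set_option linter.style.haveILetI false

noncomputable section

namespace Fermat.Agent.A2.Mod.H142

open ModularCurve HahnSeries Polynomial

variable (P : ValuationSubring _root_.Fermat.Agent.A2.Mod.Qb) (E : IntermediateField ℚ _root_.Fermat.Agent.A2.Mod.Qb)
variable (M q : ℕ) [NeZero M] [NeZero q] (w : _root_.Fermat.Agent.A2.Mod.RE P E)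

/-- `α` maps `V∞` of level `M` into `V∞` of level `M q`. -/
theorem alpha_mem {VM : ValuationSubring (_root_.Fermat.Agent.A2.Mod.FE E M)} {V : ValuationSubring (_root_.Fermat.Agent.A2.Mod.FE E (M * q))}
    (hVM : IsVinf P E M VM) (hV : IsVinf P E (M * q) V) {g : _root_.Fermat.Agent.A2.Mod.FE E M} (hg : g ∈ VM) :
    αE E M q g ∈ V := by
  obtain ⟨U₁, U₂, h0, hm, he⟩ := (hVM g).1 hg
  refine (hV _).2 ⟨U₁, U₂, h0, ?_, ?_⟩
  · have h := (αE E M q ⟨_, hm⟩).2
    rwa [coe_heckeAlphaBar] at h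
  · rw [coe_heckeAlphaBar]
    exact he

/-- The frame of the two coordinates. -/
theorem xE_eq : xE E M q = jE E (M * q) 1 (one_dvd _) * jE E (M * q) q (dvd_mul_left q M) := rfl

/-- **S2 on `C∞`.** -/
theorem normal_inf (hL11 : ResInfStatement P E M q w) (hS : Setting P E M q w)
    (VM : ValuationSubring (_root_.Fermat.Agent.A2.Mod.FE E M)) (V : ValuationSubring (_root_.Fermat.Agent.A2.Mod.FE E (M * q)))
    (hVM : IsVinf P E M VM) (hV : IsVinf P E (M * q) V)
    (yM : _root_.Fermat.Agent.A2.Mod.FE E M) (y : _root_.Fermat.Agent.A2.Mod.FE E (M * q)) (hy : IsCoordPair E M q yM y)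
    (hgood : GoodRedAt P E M w VM yM)
    (p : Ideal (chartAlg P E (M * q) y))
    (hp : IsCut P E (M * q) w V (chartAlg P E (M * q) y) p) :
    IsIntegrallyClosed (chartAlg P E (M * q) y ⧸ p) := by
  have hN : M * q ≠ 0 := Nat.mul_ne_zero hS.M_ne_zero hS.q_prime.ne_zero
  haveI : NeZero (M * q) := ⟨hN⟩
  haveI : NeZero (1 * q) := ⟨by rw [one_mul]; exact hS.q_prime.ne_zero⟩
  have hL2 := H553.vinfBasic P E w (M * q) hN hS.dvr hS.unif V hV
  have hL2M := H553.vinfBasic P E w M hS.M_ne_zero hS.dvr hS.unif VM hVM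
  have hL13 := H873.chartCompat P E M q hS.q_prime
  have hRV : ∀ r : _root_.Fermat.Agent.A2.Mod.RE P E, algebraMap (_root_.Fermat.Agent.A2.Mod.RE P E) (_root_.Fermat.Agent.A2.Mod.FE E (M * q)) r ∈ V := fun r =>
    (hL2.2.1 (r : E)).mpr r.2
  -- notation
  obtain ⟨j, hj⟩ : ∃ j : _root_.Fermat.Agent.A2.Mod.FE E (M * q), j = jE E (M * q) 1 (one_dvd _) := ⟨_, rfl⟩
  obtain ⟨jq, hjq⟩ : ∃ jq : _root_.Fermat.Agent.A2.Mod.FE E (M * q), jq = jE E (M * q) q (dvd_mul_left q M) := ⟨_, rfl⟩
  have hjV : j ∈ V ∧ j⁻¹ ∈ V := hj ▸ hL2.2.2 1 (one_dvd _)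
  have hjqV : jq ∈ V ∧ jq⁻¹ ∈ V := hjq ▸ hL2.2.2 q (dvd_mul_left q M)
  have hx : xE E M q = j * jq := by rw [hj, hjq]; rfl
  have hαj : αE E M q (jE E M 1 (one_dvd _)) = j := by
    rw [hj]
    exact H751.alpha_jE E M q 1 (one_dvd M)
  have hfrob : InW P E (M * q) V w (jq - j ^ q) := by
    have h := frobCong (P := P) (E := E) (w := w) hS.q_prime hS.dvr hS.unif hS.lies_over hN hV 1
      (one_dvd _) (by rw [one_mul]; exact dvd_mul_left q M)
    rw [hj, hjq]
    have h1 : jE E (M * q) (1 * q) (by rw [one_mul]; exact dvd_mul_left q M) =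
        jE E (M * q) q (dvd_mul_left q M) := H751.jE_congr E (M * q) (one_mul q) _ _
    rwa [h1] at h
  have hj0 : j ≠ 0 := hj ▸ H873.jE_ne_zero E (M * q) 1 (one_dvd _)
  have hjq0 : jq ≠ 0 := hjq ▸ H873.jE_ne_zero E (M * q) q (dvd_mul_left q M)
  have hcinv : (j * jq)⁻¹ - j⁻¹ ^ (q + 1) = -(jq - j ^ q) * (j⁻¹ * jq⁻¹ * j⁻¹ ^ q) := by
    have hjqb : jq * jq⁻¹ = 1 := mul_inv_cancel₀ hjq0
    have hpow : j ^ q * j⁻¹ ^ q = 1 := by rw [← mul_pow, mul_inv_cancel₀ hj0, one_pow]
    have h1 : -(jq - j ^ q) * (j⁻¹ * jq⁻¹ * j⁻¹ ^ q) =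
        (j ^ q * j⁻¹ ^ q) * (j⁻¹ * jq⁻¹) - (jq * jq⁻¹) * j⁻¹ ^ (q + 1) := by ring
    rw [h1, hpow, hjqb, mul_inv]
    ring
  rcases hy with ⟨rfl, rfl⟩ | ⟨rfl, rfl⟩
  · -- finite chart
    refine normal_side P E M q w hS VM hVM V hL2.1 hRV (αE E M q)
      (fun g hg => alpha_mem P E M q hVM hV hg) (hL11 hS VM V hVM hV) _ _
      (hL2M.2.2 1 (one_dvd M)).1 ?_ ?_ ?_ hgood p hp
    · rw [hx]
      exact V.mul_mem _ _ hjV.1 hjqV.1
    · rw [map_pow, hαj, hx]
      have : j * jq - j ^ (q + 1) = (jq - j ^ q) * j := by ring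
      rw [this]
      exact inW_mul_right hfrob hjV.1
    · rw [hαj, hj]
      exact (mem_chart_iff P E (M * q) _ _).1 hL13.1
  · -- chart at infinity
    refine normal_side P E M q w hS VM hVM V hL2.1 hRV (αE E M q)
      (fun g hg => alpha_mem P E M q hVM hV hg) (hL11 hS VM V hVM hV) _ _
      (hL2M.2.2 1 (one_dvd M)).2 ?_ ?_ ?_ hgood p hp
    · rw [hx, mul_inv]
      exact V.mul_mem _ _ hjV.2 hjqV.2
    · rw [map_pow, map_inv₀, hαj, hx]
      rw [hcinv]
      exact inW_mul_right (inW_neg hfrob)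
        (V.mul_mem _ _ (V.mul_mem _ _ hjV.2 hjqV.2) (pow_mem hjV.2 q))
    · rw [map_inv₀, hαj, hj]
      exact (mem_chart_iff P E (M * q) _ _).1 hL13.2.2.1

section Comap

variable {P E} {N : ℕ} {V : ValuationSubring (_root_.Fermat.Agent.A2.Mod.FE E N)} {w}

theorem isUnif_comap (W : _root_.Fermat.Agent.A2.Mod.FE E N ≃ₐ[E] _root_.Fermat.Agent.A2.Mod.FE E N) (hU : H48.IsUnif V (cE P E N w)) :
    H48.IsUnif (V.comap (W : _root_.Fermat.Agent.A2.Mod.FE E N →+* _root_.Fermat.Agent.A2.Mod.FE E N)) (cE P E N w) := by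
  have hWc : W (cE P E N w) = cE P E N w := W.commutes _
  refine ⟨?_, ?_, ?_⟩
  · rw [ValuationSubring.mem_comap]
    show W (cE P E N w) ∈ V
    rw [hWc]
    exact hU.mem
  · rw [ValuationSubring.mem_comap]
    show ¬ W (cE P E N w)⁻¹ ∈ V
    rw [map_inv₀, hWc]
    exact hU.inv_not_mem
  · intro f hf hfinv
    rw [ValuationSubring.mem_comap] at hf hfinv ⊢
    show W (f * (cE P E N w)⁻¹) ∈ V
    rw [map_mul, map_inv₀, hWc]
    refine hU.gen _ hf ?_
    have : (W f)⁻¹ = W f⁻¹ := (map_inv₀ W f).symm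
    rw [this]
    exact hfinv

theorem inW_comap_iff (W : _root_.Fermat.Agent.A2.Mod.FE E N ≃ₐ[E] _root_.Fermat.Agent.A2.Mod.FE E N) (f : _root_.Fermat.Agent.A2.Mod.FE E N) :
    InW P E N (V.comap (W : _root_.Fermat.Agent.A2.Mod.FE E N →+* _root_.Fermat.Agent.A2.Mod.FE E N)) w f ↔ InW P E N V w (W f) := by
  have hWc : W (cE P E N w) = cE P E N w := W.commutes _
  unfold InW
  rw [ValuationSubring.mem_comap]
  show W (f * (cE P E N w)⁻¹) ∈ V ↔ _
  rw [map_mul, map_inv₀, hWc]

end Comap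

/-- **S2 on `C₀`.** -/
theorem normal_zero (hL7 : FrickeStableStatement P E M q w) (hL11 : ResInfStatement P E M q w)
    (hS : Setting P E M q w)
    (VM : ValuationSubring (_root_.Fermat.Agent.A2.Mod.FE E M)) (V : ValuationSubring (_root_.Fermat.Agent.A2.Mod.FE E (M * q)))
    (W : _root_.Fermat.Agent.A2.Mod.FE E (M * q) ≃ₐ[E] _root_.Fermat.Agent.A2.Mod.FE E (M * q))
    (hVM : IsVinf P E M VM) (hV : IsVinf P E (M * q) V) (hW : IsFricke E (M * q) W)
    (yM : _root_.Fermat.Agent.A2.Mod.FE E M) (y : _root_.Fermat.Agent.A2.Mod.FE E (M * q)) (hy : IsCoordPair E M q yM y)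
    (hgood : GoodRedAt P E M w VM yM)
    (p : Ideal (chartAlg P E (M * q) y))
    (hp : IsCut P E (M * q) w (V.comap (W : _root_.Fermat.Agent.A2.Mod.FE E (M * q) →+* _root_.Fermat.Agent.A2.Mod.FE E (M * q)))
      (chartAlg P E (M * q) y) p) :
    IsIntegrallyClosed (chartAlg P E (M * q) y ⧸ p) := by
  have hN : M * q ≠ 0 := Nat.mul_ne_zero hS.M_ne_zero hS.q_prime.ne_zero
  haveI : NeZero (M * q) := ⟨hN⟩
  have hL2 := H553.vinfBasic P E w (M * q) hN hS.dvr hS.unif V hV
  have hL2M := H553.vinfBasic P E w M hS.M_ne_zero hS.dvr hS.unif VM hVM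
  have hL13 := H873.chartCompat P E M q hS.q_prime
  have hU0 := isUnif_comap W hL2.1
  have hWM := H751.isFricke_frickeE E M
  have hL5 := H751.frickeCompat E M q (H751.frickeE E M) W hWM hW
  have hRV0 : ∀ r : _root_.Fermat.Agent.A2.Mod.RE P E, algebraMap (_root_.Fermat.Agent.A2.Mod.RE P E) (_root_.Fermat.Agent.A2.Mod.FE E (M * q)) r ∈
      V.comap (W : _root_.Fermat.Agent.A2.Mod.FE E (M * q) →+* _root_.Fermat.Agent.A2.Mod.FE E (M * q)) := fun r => by
    rw [ValuationSubring.mem_comap]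
    show W (algebraMap E (_root_.Fermat.Agent.A2.Mod.FE E (M * q)) (r : E)) ∈ V
    rw [W.commutes]
    exact (hL2.2.1 (r : E)).mpr r.2
  -- notation
  obtain ⟨j, hj⟩ : ∃ j : _root_.Fermat.Agent.A2.Mod.FE E (M * q), j = jE E (M * q) 1 (one_dvd _) := ⟨_, rfl⟩
  obtain ⟨jq, hjq⟩ : ∃ jq : _root_.Fermat.Agent.A2.Mod.FE E (M * q), jq = jE E (M * q) q (dvd_mul_left q M) := ⟨_, rfl⟩
  obtain ⟨jM, hjM⟩ : ∃ jM : _root_.Fermat.Agent.A2.Mod.FE E (M * q), jM = jE E (M * q) M (dvd_mul_right M q) := ⟨_, rfl⟩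
  obtain ⟨jN, hjN⟩ : ∃ jN : _root_.Fermat.Agent.A2.Mod.FE E (M * q), jN = jE E (M * q) (M * q) dvd_rfl := ⟨_, rfl⟩
  have hjMV : jM ∈ V ∧ jM⁻¹ ∈ V := hjM ▸ hL2.2.2 M (dvd_mul_right M q)
  have hjNV : jN ∈ V ∧ jN⁻¹ ∈ V := hjN ▸ hL2.2.2 (M * q) dvd_rfl
  have hx : xE E M q = j * jq := by rw [hj, hjq]; rfl
  have hWj : W j = jN := by
    rw [hj, hjN]
    exact hW.1 1 (M * q) (one_dvd _) dvd_rfl (one_mul _)
  have hWjq : W jq = jM := by
    rw [hjq, hjM]
    exact hW.1 q M (dvd_mul_left q M) (dvd_mul_right M q) (mul_comm q M)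
  have hWx : W (xE E M q) = jN * jM := by rw [hx, map_mul, hWj, hWjq]
  have hβj : βE E M q (jE E M 1 (one_dvd _)) = jq := by
    rw [hjq, H751.beta_jE E M q 1 (one_dvd M)]
    exact H751.jE_congr E (M * q) (mul_one q) _ _
  have hWβj : W (βE E M q (jE E M 1 (one_dvd _))) = jM := by rw [hβj, hWjq]
  have hfrob : InW P E (M * q) V w (jN - jM ^ q) := by
    have h := frobCong (P := P) (E := E) (w := w) hS.q_prime hS.dvr hS.unif hS.lies_over hN hV M
      (dvd_mul_right M q) dvd_rfl
    rw [hjN, hjM]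
    exact h
  have hjM0 : jM ≠ 0 := hjM ▸ H873.jE_ne_zero E (M * q) M (dvd_mul_right M q)
  have hjN0 : jN ≠ 0 := hjN ▸ H873.jE_ne_zero E (M * q) (M * q) dvd_rfl
  have hcinv : (jN * jM)⁻¹ - jM⁻¹ ^ (q + 1) = -(jN - jM ^ q) * (jM⁻¹ * jN⁻¹ * jM⁻¹ ^ q) := by
    have hb : jN * jN⁻¹ = 1 := mul_inv_cancel₀ hjN0
    have hpow : jM ^ q * jM⁻¹ ^ q = 1 := by rw [← mul_pow, mul_inv_cancel₀ hjM0, one_pow]
    have h1 : -(jN - jM ^ q) * (jM⁻¹ * jN⁻¹ * jM⁻¹ ^ q) =
        (jM ^ q * jM⁻¹ ^ q) * (jM⁻¹ * jN⁻¹) - (jN * jN⁻¹) * jM⁻¹ ^ (q + 1) := by ring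
    rw [h1, hpow, hb, mul_inv]
    ring
  -- `β` maps `V∞_M` into `V₀`
  have hβV : ∀ g ∈ VM, βE E M q g ∈ V.comap (W : _root_.Fermat.Agent.A2.Mod.FE E (M * q) →+* _root_.Fermat.Agent.A2.Mod.FE E (M * q)) := by
    intro g hg
    rw [ValuationSubring.mem_comap]
    show W (βE E M q g) ∈ V
    rw [(hL5 g).2]
    exact alpha_mem P E M q hVM hV (hL7 hS VM (H751.frickeE E M) hVM hWM g hg)
  -- residue degree one on `C₀`
  have hres : ∀ f ∈ V.comap (W : _root_.Fermat.Agent.A2.Mod.FE E (M * q) →+* _root_.Fermat.Agent.A2.Mod.FE E (M * q)), ∃ g ∈ VM,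
      InW P E (M * q) (V.comap (W : _root_.Fermat.Agent.A2.Mod.FE E (M * q) →+* _root_.Fermat.Agent.A2.Mod.FE E (M * q))) w (f - βE E M q g) := by
    intro f hf
    rw [ValuationSubring.mem_comap] at hf
    obtain ⟨g', hg', h⟩ := hL11 hS VM V hVM hV (W f) hf
    refine ⟨H751.frickeE E M g', hL7 hS VM (H751.frickeE E M) hVM hWM g' hg', ?_⟩
    rw [inW_comap_iff, map_sub, (hL5 _).2, hWM.2]
    exact h
  rcases hy with ⟨rfl, rfl⟩ | ⟨rfl, rfl⟩
  · -- finite chart
    refine normal_side P E M q w hS VM hVM _ hU0 hRV0 (βE E M q) hβV hres _ _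
      (hL2M.2.2 1 (one_dvd M)).1 ?_ ?_ ?_ hgood p hp
    · rw [ValuationSubring.mem_comap]
      show W (xE E M q) ∈ V
      rw [hWx]
      exact V.mul_mem _ _ hjNV.1 hjMV.1
    · rw [inW_comap_iff, map_sub, hWx, map_pow, map_pow, hWβj]
      have : jN * jM - jM ^ (q + 1) = (jN - jM ^ q) * jM := by ring
      rw [this]
      exact inW_mul_right hfrob hjMV.1
    · rw [hβj, hjq]
      exact (mem_chart_iff P E (M * q) _ _).1 hL13.2.1
  · -- chart at infinity
    refine normal_side P E M q w hS VM hVM _ hU0 hRV0 (βE E M q) hβV hres _ _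
      (hL2M.2.2 1 (one_dvd M)).2 ?_ ?_ ?_ hgood p hp
    · rw [ValuationSubring.mem_comap]
      show W (xE E M q)⁻¹ ∈ V
      rw [map_inv₀, hWx, mul_inv]
      exact V.mul_mem _ _ hjNV.2 hjMV.2
    · rw [inW_comap_iff, map_sub, map_inv₀, hWx, map_pow, map_pow, map_inv₀, map_inv₀, hWβj, hcinv]
      exact inW_mul_right (inW_neg hfrob)
        (V.mul_mem _ _ (V.mul_mem _ _ hjMV.2 hjNV.2) (pow_mem hjMV.2 q))
    · rw [map_inv₀, hβj, hjq]
      exact (mem_chart_iff P E (M * q) _ _).1 hL13.2.2.2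

/-- **MODASM sub-assembly S2** from the leaves L7 (`FrickeStable`) and L11 (`ResInf`);
the leaves L2, L4, L5, L13 are taken from main (H553, H751, H873). -/
theorem s2_of_leaves (hL7 : FrickeStableStatement P E M q w)
    (hL11 : ResInfStatement P E M q w) : S2Statement P E M q w := by
  intro hS VM V W hVM hV hW yM y hy hgood p₁ p₂ hc₁ hc₂
  exact ⟨normal_inf P E M q w hL11 hS VM V hVM hV yM y hy hgood p₁ hc₁,
    normal_zero P E M q w hL7 hL11 hS VM V W hVM hV hW yM y hy hgood p₂ hc₂⟩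

end Fermat.Agent.A2.Mod.H142

end
end
-- ===== PACK-END A2/Mod/H142/S2.lean

-- ===== PACK-BEGIN A2/Mod/H216/NormalChart.lean
section


/-!
# A2 / GOODRED (helper216): normality of the special fibre of a good model, CHART coefficients

`normalAbs_chart` : for `G : Alg.GoodModel Lc Ec Fc R V w x S`, an element `f ∈ V` which is a
root modulo `w` of a monic polynomial with coefficients in the CHART `B = Alg.chart Fc R x`
(not only in `R[x]`) is congruent modulo `w` to an element of `B`.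

Same proof as `S37.Rim.H383.normalAbs` (helper383): `H383.exists_chart_lift` already allows
coefficients in the chart.
-/

set_option autoImplicit false
set_option linter.style.haveILetI false
set_option linter.unusedSectionVars false

noncomputable section

namespace Fermat.Agent.A2.Mod.H216

open Polynomial Fermat.Agent.S18 Fermat.Agent.S18.Alg Fermat.Agent.S18.H438
open Fermat.Agent.S18.H438.GoodModelFront Fermat.Agent.S37.Rim.H383

variable {Ω : Type*} [Field Ω] {Lc Ec Fc : Subfield Ω} {R V : Subring Ω} {w x : Ω}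
  {S : Finset Ω}

/-- A polynomial over `Ω` with coefficients in the chart is the image of a polynomial over `Fc`
with coefficients in the typed chart. -/
theorem exists_poly_Fc_chart (hR : ∀ r ∈ R, r ∈ Fc) (z : Fc) (P : Polynomial Ω)
    (hP : ∀ i, P.coeff i ∈ _root_.Fermat.Agent.S18.Alg.chart Fc R (z : Ω)) :
    ∃ Q : Polynomial Fc, Q.map Fc.subtype = P ∧
      ∀ i, Q.coeff i ∈ chartB (Rf Fc R) z := by
  have hl : P ∈ Polynomial.lifts Fc.subtype := by
    rw [Polynomial.lifts_iff_coeff_lifts]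
    intro i
    exact ⟨⟨P.coeff i, (hP i).1⟩, rfl⟩
  obtain ⟨Q, hQ⟩ := (Polynomial.mem_lifts P).1 hl
  refine ⟨Q, hQ, fun i => ?_⟩
  have h1 : ((Q.coeff i : Fc) : Ω) = P.coeff i := by
    rw [← hQ, coeff_map]
    rfl
  have h2 : Q.coeff i ∈ chartRing (Rf Fc R) z := by
    rw [mem_chartRing_iff Fc R z hR, h1]
    exact hP i
  exact h2

/-- **Normality of the special fibre of a good model, chart coefficients.** -/
theorem normalAbs_chart (G : GoodModel Lc Ec Fc R V w x S) :
    ∀ f ∈ V, ∀ P : Polynomial Ω, P.Monic → (∀ i, P.coeff i ∈ _root_.Fermat.Agent.S18.Alg.chart Fc R x) →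
      P.eval f * w⁻¹ ∈ V → ∃ b ∈ _root_.Fermat.Agent.S18.Alg.chart Fc R x, (f - b) * w⁻¹ ∈ V := by
  intro f hf P hPm hPc hPv
  haveI := charZero_Fc G
  haveI := isDiscreteValuationRing_Rf G
  haveI := isIntegrallyClosed_chartB G
  haveI := finite_chartB G
  have hR : ∀ r ∈ R, r ∈ Fc := fun r hr => R_le_Fc G hr
  obtain ⟨Q, hQ, hQc⟩ := exists_poly_Fc_chart hR (xf G) P hPc
  have hQm : Q.Monic := by
    rw [← hQ] at hPm
    exact Polynomial.monic_of_injective Fc.subtype_injective hPm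
  have hv : (⟨f, G.V_le hf⟩ : Fc) ∈ Vf G := hf
  have hQv : Q.eval (⟨f, G.V_le hf⟩ : Fc) * (wf G)⁻¹ ∈ Vf G := by
    show ((Q.eval (⟨f, G.V_le hf⟩ : Fc) * (wf G)⁻¹ : Fc) : Ω) ∈ V
    rw [Subfield.coe_mul, Subfield.coe_inv, _root_.Fermat.Agent.S37.Rim.H383.coe_eval_Fc, hQ]
    exact hPv
  obtain ⟨b, hb, hbv⟩ := exists_chart_lift (transcendental_xf G)
    (isAlgebraic_adjoin_of_goodModel G) (Vf G) (wf_mem_Rf G) (irreducible_wf G) (Rf_le_Vf G)
    (xf_mem_Vf G) (wf_inv_not_mem_Vf G) (Vf_gen G) (qep_fin' G) (sepB_of_goodModel G) (Sf G)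
    (isUnit_sub_Sf G) (hNC_of_goodModel G) hv Q hQm hQc hQv
  exact ⟨(b : Ω), (mem_chartRing_iff Fc R (xf G) hR).1 hb, hbv⟩

/-- The same on the chart at infinity. -/
theorem normalAbs_chart_inv (G : GoodModel Lc Ec Fc R V w x S) :
    ∀ f ∈ V, ∀ P : Polynomial Ω, P.Monic → (∀ i, P.coeff i ∈ _root_.Fermat.Agent.S18.Alg.chart Fc R x⁻¹) →
      P.eval f * w⁻¹ ∈ V → ∃ b ∈ _root_.Fermat.Agent.S18.Alg.chart Fc R x⁻¹, (f - b) * w⁻¹ ∈ V := by
  classical
  exact normalAbs_chart (Fermat.Agent.S18.H425.goodModel_inv G)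

end Fermat.Agent.A2.Mod.H216

end
end
-- ===== PACK-END A2/Mod/H216/NormalChart.lean

-- ===== PACK-BEGIN S18/H558/BranchT2.lean
section


/-!
# S18 / MOD M2 (part 2): ramification of `F_M / ℚ̄(t)` for the Hauptmodul `t = t₂` of `X₀(2)`

Hypothesis (proved elsewhere, piece c3-i): `t ∈ FF M` with `j * t ^ 2 = (t + 256) ^ 3`.
Then `F_M / ℚ̄(t)` is unramified outside `t ∈ {0, -64, ∞}`:

* `ord_t2_sub_eq_one` : `c ≠ 0`, `c ≠ -64`, `0 < v.ord (t - c)` ⟹ `v.ord (t - c) = 1`;
* `ord_t2_add_64_dvd_two` : `0 < v.ord (t + 64)` ⟹ `v.ord (t + 64) ∣ 2`;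
* `ord_t2_inv_sub_eq_one` : the same in the coordinate `1/t` (chart at infinity).
-/

set_option autoImplicit false

noncomputable section

open AlgebraicCurve ModularCurve

namespace Fermat.Agent.S18.H558

open Fermat.Agent.S24

section Generic

variable {K F : Type*} [Field K] [Field F] [Algebra K F] (v : Place K F)

/-- A nonzero constant plus an element of positive order has order `0`. -/
theorem ord_const_add {g : K} (hg : g ≠ 0) {z : F} (hz : 0 < v.ord z) :
    v.ord (algebraMap K F g + z) = 0 := by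
  have hg' : algebraMap K F g ≠ 0 := (map_ne_zero _).2 hg
  have h0 : v.ord (algebraMap K F g) = 0 := H117.ord_algebraMap v g
  rw [H117.ord_add_eq_of_lt v (by rw [h0]; exact hz) hg', h0]

/-- A nonzero constant plus `T * y` with `0 < ord T`, `y` integral, has order `0`. -/
theorem ord_const_add_mul {g : K} (hg : g ≠ 0) {T y : F} (hT : 0 < v.ord T)
    (hy : y ∈ v.toValuationSubring) : v.ord (algebraMap K F g + T * y) = 0 := by
  rcases eq_or_ne y 0 with rfl | hy0
  · rw [mul_zero, add_zero]; exact H117.ord_algebraMap v g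
  · have hT0 : T ≠ 0 := H117.ne_zero_of_ord_ne_zero v hT.ne'
    refine ord_const_add v hg ?_
    rw [v.ord_mul hT0 hy0]
    have := H117.ord_nonneg_of_mem v hy
    omega

/-- If `0 < ord (t - c)` then `t` is integral at `v`. -/
theorem mem_of_ord_sub_pos {t : F} {c : K} (h : 0 < v.ord (t - algebraMap K F c)) :
    t ∈ v.toValuationSubring := by
  have h1 : t - algebraMap K F c ∈ v.toValuationSubring := H117.mem_of_ord_nonneg v h.le
  have h2 : algebraMap K F c ∈ v.toValuationSubring := v.algebraMap_mem' c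
  have := add_mem h1 h2
  rwa [sub_add_cancel] at this

/-- If `0 < ord (t - c)` and `c ≠ 0` then `ord t = 0`. -/
theorem ord_eq_zero_of_ord_sub_pos {t : F} {c : K} (hc : c ≠ 0)
    (h : 0 < v.ord (t - algebraMap K F c)) : v.ord t = 0 := by
  have := ord_const_add v hc h
  rwa [add_sub_cancel] at this

/-- Nonvanishing version of `ord_const_add_mul`. -/
theorem const_add_mul_ne_zero {g : K} (hg : g ≠ 0) {T y : F} (hT : 0 < v.ord T)
    (hy : y ∈ v.toValuationSubring) : algebraMap K F g + T * y ≠ 0 := by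
  intro h
  rcases eq_or_ne y 0 with rfl | hy0
  · rw [mul_zero, add_zero] at h
    exact hg ((map_eq_zero _).1 h)
  · have hT0 : T ≠ 0 := H117.ne_zero_of_ord_ne_zero v hT.ne'
    have h1 : T * y = algebraMap K F (-g) := by
      rw [map_neg, eq_neg_iff_add_eq_zero, add_comm]; exact h
    have h2 := congrArg v.ord h1
    rw [v.ord_mul hT0 hy0, H117.ord_algebraMap] at h2
    have := H117.ord_nonneg_of_mem v hy
    omega

/-- **Tower lemma.**  If `J * D = T ^ k * U` with `D`, `U` units at `v`, then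
`ord J = k * ord T`. -/
theorem ord_eq_of_key {J D T U : F} (k : ℕ) (hkey : J * D = T ^ k * U)
    (hD0 : D ≠ 0) (hD : v.ord D = 0) (hU0 : U ≠ 0) (hU : v.ord U = 0) (hT0 : T ≠ 0) :
    J ≠ 0 ∧ v.ord J = k * v.ord T := by
  have hJ0 : J ≠ 0 := by
    intro h
    rw [h, zero_mul] at hkey
    exact (mul_ne_zero (pow_ne_zero k hT0) hU0) hkey.symm
  refine ⟨hJ0, ?_⟩
  have h1 := congrArg v.ord hkey
  rw [v.ord_mul hJ0 hD0, v.ord_mul (pow_ne_zero k hT0) hU0, H117.ord_pow, hD, hU] at h1
  simpa using h1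

/-- A positive integer `e` with `k * e ∣ k` (`k > 0`) is `1`. -/
theorem eq_one_of_mul_dvd {k : ℕ} (hk : 0 < k) {e : ℤ} (he : 0 < e) (h : (k : ℤ) * e ∣ (k : ℤ)) :
    e = 1 := by
  have hk' : (k : ℤ) ≠ 0 := by exact_mod_cast hk.ne'
  have h1 : (k : ℤ) * e ∣ (k : ℤ) * 1 := by rwa [mul_one]
  have h2 : e ∣ 1 := (mul_dvd_mul_iff_left hk').mp h1
  exact Int.eq_one_of_dvd_one he.le h2

end Generic

section T2

variable (M : ℕ) [NeZero M] (t : FF M) (hid : jF M * t ^ 2 = (t + 256) ^ 3)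

include hid

theorem t2_ne_zero : t ≠ 0 := by
  rintro rfl
  norm_num at hid

/-- Places over `t = -64`: ramification index `1` or `2`. -/
theorem ord_t2_add_64_dvd_two (v : Place Kbar (FF M))
    (hv : 0 < v.ord (t - algebraMap Kbar (FF M) (-64))) :
    v.ord (t - algebraMap Kbar (FF M) (-64)) ∣ 2 := by
  set T := t - algebraMap Kbar (FF M) (-64) with hT
  have ht0 : t ≠ 0 := t2_ne_zero M t hid
  have hT0 : T ≠ 0 := H117.ne_zero_of_ord_ne_zero v hv.ne'
  have htv : v.ord t = 0 := ord_eq_zero_of_ord_sub_pos v (by norm_num) hv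
  have htmem : t ∈ v.toValuationSubring := mem_of_ord_sub_pos v hv
  have hTmem : T ∈ v.toValuationSubring := H117.mem_of_ord_nonneg v hv.le
  -- (j - 1728) t^2 = (t + 64) (t - 512)^2
  have key : (jF M - algebraMap Kbar (FF M) 1728) * t ^ 2
      = T * (algebraMap Kbar (FF M) (-576) + T * 1) ^ 2 := by
    have e1 : algebraMap Kbar (FF M) (-64) = -64 := by rw [map_neg, map_ofNat]
    have e2 : algebraMap Kbar (FF M) 1728 = 1728 := map_ofNat _ _
    have e3 : algebraMap Kbar (FF M) (-576) = -576 := by rw [map_neg, map_ofNat]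
    rw [hT, e1, e2, e3]
    linear_combination hid
  have hU : v.ord (algebraMap Kbar (FF M) (-576) + T * 1) = 0 :=
    ord_const_add_mul v (by norm_num) hv (one_mem _)
  have hU0 : algebraMap Kbar (FF M) (-576) + T * 1 ≠ 0 := by
    intro h
    have h2 : t ^ 2 ≠ 0 := pow_ne_zero 2 ht0
    rw [h] at key
    simp only [ne_eq, OfNat.ofNat_ne_zero, not_false_eq_true, zero_pow, mul_zero, mul_eq_zero,
      h2, or_false] at key
    -- j = 1728, so `j` would be constant; contradiction with hid? use orders instead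
    have hj : jF M = algebraMap Kbar (FF M) 1728 := sub_eq_zero.mp key
    have ht512 : t = algebraMap Kbar (FF M) 512 := by
      have : t = algebraMap Kbar (FF M) (-64) + T := by rw [hT]; ring
      have hT' : T = algebraMap Kbar (FF M) 576 := by
        have : T * 1 = -algebraMap Kbar (FF M) (-576) := by
          rw [eq_neg_iff_add_eq_zero, add_comm]; exact h
        rw [mul_one] at this
        rw [this, ← map_neg]; norm_num
      rw [this, hT', ← map_add]; norm_num
    have : v.ord T = 0 := by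
      have hT' : T = algebraMap Kbar (FF M) 576 := by
        rw [hT, ht512, ← map_sub]; norm_num
      rw [hT']; exact H117.ord_algebraMap v _
    omega
  have hj0 : jF M - algebraMap Kbar (FF M) 1728 ≠ 0 := by
    intro h
    rw [h, zero_mul] at key
    have := mul_ne_zero hT0 (pow_ne_zero 2 hU0)
    exact this key.symm
  have hord : v.ord (jF M - algebraMap Kbar (FF M) 1728) = v.ord T := by
    have h1 := congrArg v.ord key
    rw [v.ord_mul hj0 (pow_ne_zero 2 ht0), v.ord_mul hT0 (pow_ne_zero 2 hU0),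
      H117.ord_pow, H117.ord_pow, htv, hU] at h1
    simpa using h1
  have hpos : 0 < v.ord (jF M - algebraMap Kbar (FF M) 1728) := by rw [hord]; exact hv
  have := ord_j_sub_1728_dvd_two M v hpos
  rwa [hord] at this

end T2

end Fermat.Agent.S18.H558

namespace Fermat.Agent.S18.H558

open Fermat.Agent.S24

section T2main

variable (M : ℕ) [NeZero M] (t : FF M) (hid : jF M * t ^ 2 = (t + 256) ^ 3)

include hid

/-- **`F_M / ℚ̄(t₂)` is unramified outside `t₂ ∈ {0, -64, ∞}`.** -/
theorem ord_t2_sub_eq_one (c : Kbar) (hc0 : c ≠ 0) (hc64 : c ≠ -64) (v : Place Kbar (FF M))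
    (hv : 0 < v.ord (t - algebraMap Kbar (FF M) c)) :
    v.ord (t - algebraMap Kbar (FF M) c) = 1 := by
  set C : FF M := algebraMap Kbar (FF M) c with hC
  set T := t - C with hT
  have ht0 : t ≠ 0 := t2_ne_zero M t hid
  have hT0 : T ≠ 0 := H117.ne_zero_of_ord_ne_zero v hv.ne'
  have htv : v.ord t = 0 := ord_eq_zero_of_ord_sub_pos v hc0 hv
  have htmem : t ∈ v.toValuationSubring := mem_of_ord_sub_pos v hv
  have hCmem : C ∈ v.toValuationSubring := v.algebraMap_mem' c
  have hC0 : C ≠ 0 := (map_ne_zero _).2 hc0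
  have hCv : v.ord C = 0 := H117.ord_algebraMap v c
  have ht2 : v.ord (t ^ 2) = 0 := by rw [H117.ord_pow, htv]; simp
  by_cases h256 : c = -256
  · -- `j t² = (t + 256)³`
    have hCe : C = -256 := by rw [hC, h256, map_neg, map_ofNat]
    have key : jF M * t ^ 2 = T ^ 3 * 1 := by
      rw [hT, hCe]; linear_combination hid
    obtain ⟨hJ0, hJ⟩ := ord_eq_of_key v 3 key (pow_ne_zero 2 ht0) ht2 one_ne_zero v.ord_one hT0
    have hpos : 0 < v.ord (jF M) := by rw [hJ]; positivity
    have h3 := ord_j_dvd_three M v hpos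
    rw [hJ] at h3
    exact eq_one_of_mul_dvd (k := 3) (by norm_num) hv (by exact_mod_cast h3)
  by_cases h512 : c = 512
  · -- `(j - 1728) t² = (t - 512)² (t + 64)`
    have hCe : C = 512 := by rw [hC, h512, map_ofNat]
    have e2 : algebraMap Kbar (FF M) 1728 = 1728 := map_ofNat _ _
    have e3 : algebraMap Kbar (FF M) 576 = 576 := map_ofNat _ _
    have key : (jF M - algebraMap Kbar (FF M) 1728) * t ^ 2
        = T ^ 2 * (algebraMap Kbar (FF M) 576 + T * 1) := by
      rw [hT, hCe, e2, e3]; linear_combination hid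
    obtain ⟨hJ0, hJ⟩ := ord_eq_of_key v 2 key (pow_ne_zero 2 ht0) ht2
      (const_add_mul_ne_zero v (by norm_num) hv (one_mem _))
      (ord_const_add_mul v (by norm_num) hv (one_mem _)) hT0
    have hpos : 0 < v.ord (jF M - algebraMap Kbar (FF M) 1728) := by rw [hJ]; positivity
    have h2 := ord_j_sub_1728_dvd_two M v hpos
    rw [hJ] at h2
    exact eq_one_of_mul_dvd (k := 2) (by norm_num) hv (by exact_mod_cast h2)
  · -- generic case
    set a : Kbar := (c + 256) ^ 3 / c ^ 2 with ha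
    have hc2 : c ^ 2 ≠ 0 := pow_ne_zero 2 hc0
    have hac : a * c ^ 2 = (c + 256) ^ 3 := by rw [ha]; field_simp
    have ha0 : a ≠ 0 := by
      rw [ha]
      refine div_ne_zero (pow_ne_zero 3 ?_) hc2
      intro h
      exact h256 (eq_neg_of_add_eq_zero_left h)
    have ha1728 : a ≠ 1728 := by
      intro h
      rw [h] at hac
      have : (c + 64) * (c - 512) ^ 2 = 0 := by linear_combination -hac
      rcases mul_eq_zero.mp this with h1 | h1
      · exact hc64 (eq_neg_of_add_eq_zero_left h1)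
      · exact h512 (sub_eq_zero.mp (pow_eq_zero_iff (by norm_num) |>.mp h1))
    set q : Kbar := c * (c + 256) ^ 2 * (c - 512) with hq
    have hq0 : q ≠ 0 := by
      rw [hq]
      refine mul_ne_zero (mul_ne_zero hc0 (pow_ne_zero 2 ?_)) (sub_ne_zero.mpr h512)
      intro h
      exact h256 (eq_neg_of_add_eq_zero_left h)
    have hA : algebraMap Kbar (FF M) a * C ^ 2 = (C + 256) ^ 3 := by
      have := congrArg (algebraMap Kbar (FF M)) hac
      simpa [map_mul, map_pow, map_add, map_ofNat] using this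
    have hQ : algebraMap Kbar (FF M) q = C * (C + 256) ^ 2 * (C - 512) := by
      rw [hq]; simp [map_mul, map_pow, map_add, map_sub, map_ofNat, hC]
    set W : FF M := t * C ^ 2 + C ^ 3 - 196608 * C - 16777216 with hW
    have hWmem : W ∈ v.toValuationSubring := by
      have h1 : (196608 : FF M) ∈ v.toValuationSubring := by
        have := v.algebraMap_mem' (196608 : Kbar); rwa [map_ofNat] at this
      have h2 : (16777216 : FF M) ∈ v.toValuationSubring := by
        have := v.algebraMap_mem' (16777216 : Kbar); rwa [map_ofNat] at this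
      exact sub_mem (sub_mem (add_mem (mul_mem htmem (pow_mem hCmem 2)) (pow_mem hCmem 3))
        (mul_mem h1 hCmem)) h2
    have key : (jF M - algebraMap Kbar (FF M) a) * (t ^ 2 * C ^ 2)
        = T ^ 1 * (algebraMap Kbar (FF M) q + T * W) := by
      rw [hQ, hW, hT]
      linear_combination C ^ 2 * hid - t ^ 2 * hA
    have hD0 : t ^ 2 * C ^ 2 ≠ 0 := mul_ne_zero (pow_ne_zero 2 ht0) (pow_ne_zero 2 hC0)
    have hD : v.ord (t ^ 2 * C ^ 2) = 0 := by
      rw [v.ord_mul (pow_ne_zero 2 ht0) (pow_ne_zero 2 hC0), ht2, H117.ord_pow, hCv]; simp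
    obtain ⟨hJ0, hJ⟩ := ord_eq_of_key v 1 key hD0 hD
      (const_add_mul_ne_zero v hq0 hv hWmem) (ord_const_add_mul v hq0 hv hWmem) hT0
    have hJ' : v.ord (jF M - algebraMap Kbar (FF M) a) = v.ord T := by simpa using hJ
    have hpos : 0 < v.ord (jF M - algebraMap Kbar (FF M) a) := by rw [hJ']; exact hv
    rw [← hJ']
    exact ord_j_sub_eq_one M a ha0 ha1728 v hpos

/-- The same statement in the coordinate `s = 1/t` (chart at infinity): unramified outside
`s ∈ {0, -1/64}`. -/
theorem ord_t2_inv_sub_eq_one (s : Kbar) (hs0 : s ≠ 0) (hs64 : s ≠ -(1 / 64))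
    (v : Place Kbar (FF M)) (hv : 0 < v.ord (t⁻¹ - algebraMap Kbar (FF M) s)) :
    v.ord (t⁻¹ - algebraMap Kbar (FF M) s) = 1 := by
  have ht0 : t ≠ 0 := t2_ne_zero M t hid
  have hti : v.ord t⁻¹ = 0 := ord_eq_zero_of_ord_sub_pos v hs0 hv
  have htv : v.ord t = 0 := by rw [v.ord_inv] at hti; omega
  set S : FF M := algebraMap Kbar (FF M) s with hS
  have hS0 : S ≠ 0 := (map_ne_zero _).2 hs0
  have hSv : v.ord S = 0 := H117.ord_algebraMap v s
  -- `t⁻¹ - s = -(s / t) (t - 1/s)`
  have hrel : t⁻¹ - S = (-(S * t⁻¹)) * (t - algebraMap Kbar (FF M) s⁻¹) := by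
    rw [map_inv₀, ← hS]
    have h1 : S * S⁻¹ = 1 := mul_inv_cancel₀ hS0
    have h2 : t * t⁻¹ = 1 := mul_inv_cancel₀ ht0
    linear_combination (-t⁻¹) * h1 + S * h2
  have hne1 : -(S * t⁻¹) ≠ 0 := neg_ne_zero.mpr (mul_ne_zero hS0 (inv_ne_zero ht0))
  have hord1 : v.ord (-(S * t⁻¹)) = 0 := by
    rw [H117.ord_neg, v.ord_mul hS0 (inv_ne_zero ht0), hSv, hti]; rfl
  have hne2 : t - algebraMap Kbar (FF M) s⁻¹ ≠ 0 := by
    intro h
    rw [h, mul_zero] at hrel
    rw [hrel, v.ord_zero] at hv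
    exact lt_irrefl _ hv
  have hord : v.ord (t⁻¹ - S) = v.ord (t - algebraMap Kbar (FF M) s⁻¹) := by
    rw [hrel, v.ord_mul hne1 hne2, hord1, zero_add]
  rw [hord] at hv ⊢
  refine ord_t2_sub_eq_one M t hid s⁻¹ (inv_ne_zero hs0) ?_ v hv
  intro h
  apply hs64
  have : s = (s⁻¹)⁻¹ := (inv_inv s).symm
  rw [this, h]
  norm_num

end T2main

end Fermat.Agent.S18.H558

namespace Fermat.Agent.S18.H558

open Fermat.Agent.S24

/-- `j`-line, chart at infinity: in the coordinate `s = 1/j`, `F_N / ℚ̄(j)` is unramified outside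
`s ∈ {0, 1/1728}`. -/
theorem ord_j_inv_sub_eq_one (N : ℕ) [NeZero N] (s : Kbar) (hs0 : s ≠ 0) (hs : s ≠ 1 / 1728)
    (v : Place Kbar (FF N)) (hv : 0 < v.ord ((jF N)⁻¹ - algebraMap Kbar (FF N) s)) :
    v.ord ((jF N)⁻¹ - algebraMap Kbar (FF N) s) = 1 := by
  have hti : v.ord (jF N)⁻¹ = 0 := ord_eq_zero_of_ord_sub_pos v hs0 hv
  have ht0 : jF N ≠ 0 := by
    intro h
    rw [h, inv_zero, zero_sub, H117.ord_neg, H117.ord_algebraMap] at hv
    exact lt_irrefl _ hv
  set S : FF N := algebraMap Kbar (FF N) s with hS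
  have hS0 : S ≠ 0 := (map_ne_zero _).2 hs0
  have hSv : v.ord S = 0 := H117.ord_algebraMap v s
  have hrel : (jF N)⁻¹ - S = (-(S * (jF N)⁻¹)) * (jF N - algebraMap Kbar (FF N) s⁻¹) := by
    rw [map_inv₀, ← hS]
    have h1 : S * S⁻¹ = 1 := mul_inv_cancel₀ hS0
    have h2 : jF N * (jF N)⁻¹ = 1 := mul_inv_cancel₀ ht0
    linear_combination (-(jF N)⁻¹) * h1 + S * h2
  have hne1 : -(S * (jF N)⁻¹) ≠ 0 := neg_ne_zero.mpr (mul_ne_zero hS0 (inv_ne_zero ht0))
  have hord1 : v.ord (-(S * (jF N)⁻¹)) = 0 := by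
    rw [H117.ord_neg, v.ord_mul hS0 (inv_ne_zero ht0), hSv, hti]; rfl
  have hne2 : jF N - algebraMap Kbar (FF N) s⁻¹ ≠ 0 := by
    intro h
    rw [h, mul_zero] at hrel
    rw [hrel, v.ord_zero] at hv
    exact lt_irrefl _ hv
  have hord : v.ord ((jF N)⁻¹ - S) = v.ord (jF N - algebraMap Kbar (FF N) s⁻¹) := by
    rw [hrel, v.ord_mul hne1 hne2, hord1, zero_add]
  rw [hord] at hv ⊢
  refine ord_j_sub_eq_one N s⁻¹ (inv_ne_zero hs0) ?_ v hv
  intro h
  apply hs
  have : s = (s⁻¹)⁻¹ := (inv_inv s).symm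
  rw [this, h]
  norm_num

end Fermat.Agent.S18.H558

end
end
-- ===== PACK-END S18/H558/BranchT2.lean

-- ===== PACK-BEGIN S18/H107/M3T.lean
section






/-!
# helper107 — S18 / node_mod, piece M3-T at the CONCRETE objects of `Mod/Defs.lean`

`goodModel_of_isCoordinate107` : for `ℓ ∈ {2, 3}` (`¬ 5 ≤ ℓ`), every admissible coordinate `x`
(`Mod.IsCoordinate M ℓ x S`), every intermediate field `E` and every `V`, `w`:

    BaseModel107 (Lc M) (Ec M E) (Fc M E) (Rc M A E) V w (jOm M)      -- the j-model minus S-fields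
    + x ∈ Fc M E + x ∈ V + gauss for x
    ⟹  Alg.GoodModel (Lc M) (Ec M E) (Fc M E) (Rc M A E) V w x S.

The branch data (`branchJ_concrete107`) and the units `2⁻¹` resp. `3⁻¹ ∈ Rc M A E` are proved here.
-/

set_option autoImplicit false

noncomputable section

namespace Fermat.Agent.S18.H107

open AlgebraicCurve ModularCurve IntermediateField HahnSeries
open Fermat.Agent.S18 Fermat.Agent.S18.Mod Fermat.Agent.S18.Alg

/-- If `A` lies over `ℓ` and `n ≡ 1 mod ℓ`-like: `n = ℓ * k + 1` then `n` is a unit of `A`.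
We only need: `ℓ ∈ 𝔪_A`, `n - 1 ∈ ℓ ℤ` ⟹ `n⁻¹ ∈ A`. -/
theorem inv_natCast_mem_of_liesOver107 {L : Type*} [Field L] (A : ValuationSubring L) {ℓ : ℕ}
    (hA : A.LiesOverPrime ℓ) (n k : ℕ) (hn : n = ℓ * k + 1) : ((n : L))⁻¹ ∈ A := by
  have hℓ : A.valuation (ℓ : L) < 1 := by
    have h : (ℓ : L) ∈ A.nonunits := hA
    exact (A.mem_nonunits_iff).1 h
  have hk : A.valuation ((ℓ : L) * (k : L)) < 1 := by
    rw [map_mul]
    calc A.valuation (ℓ : L) * A.valuation (k : L) ≤ A.valuation (ℓ : L) * 1 := by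
          gcongr
          exact (A.valuation_le_one_iff _).2 (_root_.natCast_mem A k)
      _ = A.valuation (ℓ : L) := mul_one _
      _ < 1 := hℓ
  have hval : A.valuation (n : L) = 1 := by
    have e : (n : L) = 1 + (ℓ : L) * (k : L) := by
      rw [hn]
      push_cast
      ring
    rw [e, ← map_one A.valuation]
    exact Valuation.map_add_eq_of_lt_left _ (by rw [map_one]; exact hk)
  refine (A.valuation_le_one_iff _).1 ?_
  rw [map_inv₀, hval, inv_one]

variable (M : ℕ)

theorem inv_natCast_mem_Rc107 (A : ValuationSubring Qb) (E : IntermediateField ℚ Qb) {ℓ : ℕ}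
    (hA : A.LiesOverPrime ℓ) (n k : ℕ) (hn : n = ℓ * k + 1) :
    ((n : Om M))⁻¹ ∈ Rc M A E := by
  refine ⟨((n : Qb))⁻¹, ⟨inv_natCast_mem_of_liesOver107 A hA n k hn, ?_⟩, ?_⟩
  · exact E.toSubfield.inv_mem (_root_.natCast_mem E.toSubfield n)
  · rw [map_inv₀, map_natCast]

variable [NeZero M]

/-- **M3-T, concrete form.** -/
theorem goodModel_of_isCoordinate107 {ℓ : ℕ} (A : ValuationSubring Qb) (hA : A.LiesOverPrime ℓ)
    (h5 : ¬ 5 ≤ ℓ) {x : Om M} {S : Finset (Om M)} (hx : IsCoordinate M ℓ x S)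
    (E : IntermediateField ℚ Qb) {V : Subring (Om M)} {w : Om M}
    (hb : BaseModel107 (Lc M) (Ec M E) (Fc M E) (Rc M A E) V w (jOm M))
    (hxF : x ∈ Fc M E) (hxV : x ∈ V)
    (hgauss : ∀ P : Polynomial (Om M), (∀ i, P.coeff i ∈ Rc M A E) →
      (∃ i, P.coeff i ≠ 0 ∧ (P.coeff i)⁻¹ ∈ Rc M A E) → (P.eval x)⁻¹ ∈ V) :
    GoodModel (Lc M) (Ec M E) (Fc M E) (Rc M A E) V w x S := by
  rcases hx with ⟨h, -⟩ | ⟨h | h, -⟩
  · exact absurd h h5
  · obtain ⟨hℓ, hrel, hS⟩ := h
    subst hℓ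
    have h2 : (2 : Om M)⁻¹ ∈ Rc M A E := by
      have h4 := inv_natCast_mem_Rc107 M A E hA 4 1 (by norm_num)
      have e : (2 : Om M)⁻¹ = 2 * ((4 : ℕ) : Om M)⁻¹ := by
        push_cast
        norm_num
      rw [e]
      exact (Rc M A E).mul_mem (ofNat_mem _ 2) h4
    exact goodModel_t2_107 hb (branchJ_concrete107 M) hrel hxF hxV h2 hgauss hS
  · obtain ⟨hℓ, hrel, hS⟩ := h
    subst hℓ
    have h3 : (3 : Om M)⁻¹ ∈ Rc M A E := by
      have := inv_natCast_mem_Rc107 M A E hA 3 1 (by norm_num)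
      simpa using this
    exact goodModel_t3_107 hb (branchJ_concrete107 M) hrel hxF hxV h3 hgauss hS

end Fermat.Agent.S18.H107

end
end
-- ===== PACK-END S18/H107/M3T.lean

-- ===== PACK-BEGIN S17/H77/Stab.lean
section



/-!
# S17 / BASE-1 (helper77): `stabilizer_open` in the exact skeleton shape

Every class of `JZero N = Pic⁰(ℚ̄(X₀(N)))` is fixed by `Gal(ℚ̄/K)` for some number field `K`.
Proof: `StabAbstract.lean` (Riemann's theorem: a place is the unique pole of a function; a function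
has its coefficients in a number field) + `FF1` for the modular function field (Lib/RR, H864).
-/

set_option autoImplicit false

noncomputable section

namespace Fermat.Agent.S17.H77

open ModularCurve AlgebraicCurve

/-- **BASE-1** (= `Skel.stabilizer_open`). -/
theorem stabilizer_open (N : ℕ) [NeZero N] (x : JZero N) :
    ∃ K : IntermediateField ℚ (AlgebraicClosure ℚ), FiniteDimensional ℚ K ∧
      ∀ σ : (AlgebraicClosure ℚ) ≃ₐ[ℚ] (AlgebraicClosure ℚ), (∀ a ∈ K, σ a = a) → σ • x = x := by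
  have := Fermat.Agent.Lib.RR.H864.ff1_modularFunctionFieldBar N
  exact stabilizer_open_of_ff1 (modularFunctionFieldFull N) x

/-- Every place of `ℚ̄(X₀(N))` is fixed by `Gal(ℚ̄/K)` for some number field `K`. -/
theorem exists_field_fixing_place_modular (N : ℕ) [NeZero N]
    (P : Place (AlgebraicClosure ℚ) (modularFunctionFieldBar N)) :
    ∃ K : IntermediateField ℚ (AlgebraicClosure ℚ), FiniteDimensional ℚ K ∧
      ∀ σ : (AlgebraicClosure ℚ) ≃ₐ[ℚ] (AlgebraicClosure ℚ), (∀ a ∈ K, σ a = a) →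
        arithmeticGalois (modularFunctionFieldFull N) σ • P = P := by
  have := Fermat.Agent.Lib.RR.H864.ff1_modularFunctionFieldBar N
  exact exists_field_fixing_place (modularFunctionFieldFull N) P

end Fermat.Agent.S17.H77

end
end
-- ===== PACK-END S17/H77/Stab.lean

-- ===== PACK-BEGIN S17/H710/Wall/E3.lean
section


/-!
# S17 / tower H — the WALL: `(E3)` from the leaves (helper710).  Sorry-free.
-/

set_option autoImplicit false

noncomputable section

namespace Fermat.Agent.S17.Wall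

open AlgebraicCurve MvPolynomial
open Fermat.Agent.Lib.RR Fermat.Agent.S17.HWall Fermat.Agent.S17.H710
open Fermat.Agent.S17.HContract

variable {K F : Type*} [Field K] [CharZero K] [Field F] [Algebra K F]

/-! ## heights of small tuples -/

theorem ht_one {ι : Type*} [Finite ι] : ht (1 : ι → K) = 0 := by
  have h := Fermat.Agent.S17.H380.absLogHeight_eq (A := K) (algebraMap ℚ K) (1 : ι → ℚ)
  simp only [Pi.one_apply, map_one, Height.logHeight_one, mul_zero] at h
  exact h

theorem ht_const [Algebra.IsAlgebraic ℚ K] {ι : Type*} [Finite ι] {b : K} (hb : b ≠ 0) :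
    ht (fun _ : ι => b) = 0 := by
  have h := Fermat.Agent.S17.H380.absLogHeight_smul (1 : ι → K)
    (fun _ => isIntegral_one) hb (Algebra.IsIntegral.isIntegral b)
  have e : b • (1 : ι → K) = fun _ : ι => b := by
    funext i; simp
  rw [e] at h
  rw [ht, h]
  exact ht_one

theorem ht_unitProd {n : ℕ} (a : Fin n → K) :
    ht (fun q : Unit × Fin n => a q.2) = ht a := by
  have := Fermat.Agent.S17.H380.absLogHeight_comp_equiv (Equiv.punitProd (Fin n)) a
  simpa [Function.comp_def] using this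

/-! ## nonvanishing of the columns -/

theorem betaCol_ne_zero {n d : ℕ} (u z : Fin d → Fin n → K)
    (h : ∀ i, wedge (u i) (z i) ≠ 0) : betaCol u z ≠ 0 := by
  have h' : ∀ i, ∃ p, wedge (u i) (z i) p ≠ 0 := fun i => Function.ne_iff.mp (h i)
  choose s hs using h'
  intro h0
  have := congrFun h0 s
  simp only [betaCol, Pi.zero_apply] at this
  exact (Finset.prod_ne_zero_iff.mpr fun i _ => hs i) this

theorem tensorPow_ne_zero {n e : ℕ} {ρ : Type*} (v : ρ → K) (z : Fin n → K) (hv : v ≠ 0)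
    (hz : z ≠ 0) : (fun t : ρ × (Fin e → Fin n) => v t.1 * ∏ k, z (t.2 k)) ≠ 0 := by
  obtain ⟨r, hr⟩ := Function.ne_iff.mp hv
  obtain ⟨j, hj⟩ := Function.ne_iff.mp hz
  intro h0
  have := congrFun h0 (r, fun _ => j)
  simp only [Pi.zero_apply, Finset.prod_const, mul_eq_zero] at this
  rcases this with h | h
  · exact hr h
  · exact hj (eq_zero_of_pow_eq_zero h)

variable [FF1 K F]

/-- `(D . P)` for an enumerated divisor -/
theorem pairPt_sum_prim (E : EmbData K F) {k : ℕ} (A : Fin k → Place K F) (P : Place K F) :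
    pairPt E (∑ i, prim (A i)) P = ∑ i, hD E (A i) P := by
  classical
  unfold pairPt
  have h := Finsupp.sum_finsetSum_index (s := (Finset.univ : Finset (Fin k)))
    (g := fun i => prim (A i)) (h := fun B (n : ℤ) => (n : ℝ) * hD E B P)
    (fun _ => by simp) (fun _ _ _ => by push_cast; ring)
  rw [← h]
  refine Finset.sum_congr rfl fun i _ => ?_
  unfold prim
  rw [Finsupp.sum_single_index (by simp)]
  simp

/-- a zero of `a` is a point where `⟨a, pt ·⟩` vanishes -/
theorem dot_pt_eq_zero_of_mem (E : EmbData K F) {a : Fin (E.r + 1) → K} (ha : a ≠ 0)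
    {k : ℕ} (A : Fin k → Place K F) (hA : ∑ l, prim (A l) ≤ E.Z a) (i : Fin k) :
    dot a (E.pt (A i)) = 0 := by
  classical
  rw [E.pt_spec (A i) a ha]
  have h1 : (1 : ℤ) ≤ (∑ l, prim (A l) : Divisor K F) (A i) := by
    rw [Finsupp.finsetSum_apply]
    have h2 : ∀ l ∈ (Finset.univ : Finset (Fin k)), (0 : ℤ) ≤ (prim (A l) : Divisor K F) (A i) := by
      intro l _
      unfold prim
      rw [Finsupp.single_apply]
      split_ifs <;> simp
    have h3 := Finset.single_le_sum h2 (Finset.mem_univ i)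
    have h4 : (prim (A i) : Divisor K F) (A i) = 1 := by
      unfold prim; simp
    rw [h4] at h3
    exact h3
  have h5 := Finsupp.le_def.mp hA (A i)
  change 0 < (E.Z a) (A i)
  omega

/-- **(E3)** for `m ≥ 4g + 1`, from the leaves. -/
theorem e3 [Algebra.IsAlgebraic ℚ K] (E : EmbData K F) (hE : Big E) (hL : Leaves E) :
    E3Statement E E := by
  classical
  have hm1 : 1 ≤ E.m := by unfold Big at hE; omega
  obtain ⟨C₁, L₁, Q₁, -, -, hup⟩ := core_up E hE hL E.m hm1 Unit
  obtain ⟨C₂, L₂, Q₂, -, -, hlow⟩ := core_low E hE hL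
  refine ⟨max C₁ C₂, fun a P ha hP => ?_⟩
  obtain ⟨A, hA⟩ := hL.enum (E.Z a) (E.Z_nonneg a) E.m (E.degree_Z ha)
  have hAle : ∑ l, prim (A l) ≤ E.Z a := le_of_eq hA.symm
  have hne : ∀ i, A i ≠ P := by
    intro i h
    apply hP
    rw [← h]
    exact dot_pt_eq_zero_of_mem E ha A hAle i
  have hw : ∀ i, wedge (E.pt (A i)) (E.pt P) ≠ 0 := fun i => hL.pt.2.2.1 _ _ (hne i)
  set ψu := betaCol (fun i => E.pt (A i)) (fun _ => E.pt P) with hψu
  set ψw := wCol (e := E.m - 1) (fun _ : Unit => a) (E.pt P) with hψw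
  have hhu : ht ψu = ∑ i, ht (wedge (E.pt (A i)) (E.pt P)) := hL.a6 _ _ _ _ hw
  have hv0 : (fun _ : Unit => dot a (E.pt P)) ≠ 0 := fun h => hP (congrFun h ())
  have hhw : ht ψw = ((E.m - 1 : ℕ) : ℝ) * ht (E.pt P) := by
    have h := hL.a7 (E.r + 1) (E.m - 1) Unit (fun _ : Unit => dot a (E.pt P)) (E.pt P) hv0
      (hL.pt.1 P)
    rw [ht_const hP, zero_add] at h
    exact h
  have hψu0 : ψu ≠ 0 := betaCol_ne_zero _ _ hw
  have hψw0 : ψw ≠ 0 := tensorPow_ne_zero (fun _ : Unit => dot a (E.pt P)) (E.pt P) hv0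
    (hL.pt.1 P)
  have hW : ∀ r : Unit, (fun _ : Unit => a) r ≠ 0 → ∑ l, prim (A l) ≤ E.Z ((fun _ : Unit => a) r) :=
    fun _ _ => hAle
  have r1 := hL.rank E.m A Unit (fun _ : Unit => a) hm1 hW (Fin L₁) (fun t => E.pt (Q₁ t))
    (E.pt P) (fun j => hL.pt.2.1 _) (hL.pt.2.1 P)
  have r2 := hL.rank E.m A Unit (fun _ : Unit => a) hm1 hW (Fin L₂) (fun t => E.pt (Q₂ t))
    (E.pt P) (fun j => hL.pt.2.1 _) (hL.pt.2.1 P)
  have u1 := hup A (fun _ : Unit => a) ψu ψw r1 hψw0
  have l1 := hlow a A ψu ψw ha r2 hψu0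
  rw [ht_unitProd] at u1
  rw [hA, pairPt_sum_prim]
  have hsum : ∑ i, hD E (A i) P = ∑ i, ht (E.pt (A i)) + (E.m : ℝ) * ht (E.pt P) - ht ψu := by
    unfold hD
    rw [Finset.sum_sub_distrib, Finset.sum_add_distrib, hhu]
    simp
  have hc : ((E.m - 1 : ℕ) : ℝ) = (E.m : ℝ) - 1 := by
    rw [Nat.cast_sub hm1]; simp
  rw [hsum, abs_le]
  rw [hhw, hc] at u1 l1
  constructor
  · linarith [le_max_right C₁ C₂]
  · linarith [le_max_left C₁ C₂]

end Fermat.Agent.S17.Wall

end
end
-- ===== PACK-END S17/H710/Wall/E3.lean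

-- ===== PACK-BEGIN S17/H710/Wall/Adj.lean
section


/-!
# S17 / tower H — the WALL: `(ADJ)` from the leaves (helper710).  Sorry-free.
-/

set_option autoImplicit false

noncomputable section

namespace Fermat.Agent.S17.Wall

open AlgebraicCurve MvPolynomial
open Fermat.Agent.Lib.RR Fermat.Agent.S17.HWall Fermat.Agent.S17.H710
open Fermat.Agent.S17.HContract

variable {K F : Type*} [Field K] [CharZero K] [Field F] [Algebra K F]

omit [CharZero K] in
theorem wedge_self {n : ℕ} (y : Fin n → K) : wedge y y = 0 := by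
  funext p
  simp [wedge, mul_comm]

omit [CharZero K] in
/-- the jet of `β_s` when the slot `i₀` is the base point -/
theorem betaJet_eq_betaCol {n d : ℕ} (u : Fin d → Fin n → K) (z z' : Fin n → K) (i₀ : Fin d)
    (h : u i₀ = z) :
    betaJet u z z' = betaCol u (Function.update (fun _ => z) i₀ z') := by
  classical
  funext s
  unfold betaJet betaCol
  rw [Finset.sum_eq_single i₀]
  · rw [← Finset.mul_prod_erase Finset.univ _ (Finset.mem_univ i₀)]
    congr 1
    · simp
    · refine Finset.prod_congr rfl fun i hi => ?_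
      rw [Function.update_of_ne (Finset.ne_of_mem_erase hi)]
  · intro l _ hl
    have : ∏ i ∈ Finset.univ.erase l, wedge (u i) z (s i) = 0 := by
      refine Finset.prod_eq_zero (i := i₀) (Finset.mem_erase.mpr ⟨hl.symm, Finset.mem_univ _⟩) ?_
      rw [h, _root_.Fermat.Agent.S17.Wall.wedge_self]
      rfl
    rw [this, mul_zero]
  · intro h'
    exact absurd (Finset.mem_univ i₀) h'

omit [CharZero K] in
/-- the jet of `w X^α` at a zero of `w` -/
theorem wJet_eq {n e : ℕ} {ρ : Type*} (W : ρ → Fin n → K) (z z' : Fin n → K)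
    (h : ∀ r, dot (W r) z = 0) :
    wJet (e := e) W z z' = fun t => dot (W t.1) z' * ∏ k, z (t.2 k) := by
  funext t
  unfold wJet
  rw [h t.1, zero_mul, add_zero]

variable [FF1 K F]

open Classical in
omit [CharZero K] in
/-- multiplicity of `P` in an enumerated divisor -/
theorem sum_prim_apply {k : ℕ} (A : Fin k → Place K F) (P : Place K F) :
    (∑ i, prim (A i) : Divisor K F) P = ((Finset.univ.filter fun i => A i = P).card : ℤ) := by
  rw [Finsupp.finsetSum_apply]
  unfold prim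
  simp only [Finsupp.single_apply]
  rw [Finset.sum_ite, Finset.sum_const_zero, add_zero, Finset.sum_const]
  simp

/-- `(D - P . P)` for an enumerated divisor with `D(P) = 1` -/
theorem pairPt_erase (E : EmbData K F) {k : ℕ} (A : Fin k → Place K F) (P : Place K F)
    (i₀ : Fin k) (hi₀ : A i₀ = P) (huniq : ∀ i, A i = P → i = i₀) :
    pairPt E ((∑ i, prim (A i) : Divisor K F).erase P) P =
      ∑ i ∈ Finset.univ.erase i₀, hD E (A i) P := by
  classical
  have h1 : (∑ i, prim (A i) : Divisor K F) P = 1 := by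
    rw [sum_prim_apply]
    have : (Finset.univ.filter fun i => A i = P) = {i₀} := by
      ext i
      simp only [Finset.mem_filter, Finset.mem_univ, true_and, Finset.mem_singleton]
      exact ⟨huniq i, fun h => h ▸ hi₀⟩
    rw [this]; simp
  have hmem : P ∈ (∑ i, prim (A i) : Divisor K F).support := by
    rw [Finsupp.mem_support_iff, h1]; exact one_ne_zero
  have h2 := Finsupp.add_sum_erase (∑ i, prim (A i) : Divisor K F) P
    (fun B (n : ℤ) => (n : ℝ) * hD E B P) hmem
  have h3 := pairPt_sum_prim E A P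
  unfold pairPt at h3 ⊢
  rw [h3, h1] at h2
  have h4 := Finset.add_sum_erase Finset.univ (fun i => hD E (A i) P) (Finset.mem_univ i₀)
  rw [hi₀] at h4
  simp only [Int.cast_one, one_mul] at h2
  linarith

/-- **(ADJ)** for `m ≥ 4g + 1`, from the leaves. -/
theorem adj [Algebra.IsAlgebraic ℚ K] (E : EmbData K F) (hE : Big E) (hL : Leaves E) :
    ADJStatement E E := by
  classical
  have hm1 : 1 ≤ E.m := by unfold Big at hE; omega
  obtain ⟨C₁, L₁, Q₁, -, -, hup⟩ := core_up E hE hL E.m hm1 Unit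
  obtain ⟨C₂, L₂, Q₂, -, -, hlow⟩ := core_low E hE hL
  refine ⟨max C₁ C₂, fun a P ha hP => ?_⟩
  obtain ⟨A, hA⟩ := hL.enum (E.Z a) (E.Z_nonneg a) E.m (E.degree_Z ha)
  have hAle : ∑ l, prim (A l) ≤ E.Z a := le_of_eq hA.symm
  -- the unique index of `P`
  have hcard : ((Finset.univ.filter fun i => A i = P).card : ℤ) = 1 := by
    rw [← sum_prim_apply, ← hA, hP]
  have hcard' : (Finset.univ.filter fun i => A i = P).card = 1 := by exact_mod_cast hcard
  obtain ⟨i₀, hi₀s⟩ := Finset.card_eq_one.mp hcard'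
  have hi₀ : A i₀ = P := by
    have : i₀ ∈ Finset.univ.filter fun i => A i = P := by rw [hi₀s]; simp
    exact (Finset.mem_filter.mp this).2
  have huniq : ∀ i, A i = P → i = i₀ := by
    intro i hi
    have : i ∈ Finset.univ.filter fun i => A i = P := Finset.mem_filter.mpr ⟨Finset.mem_univ _, hi⟩
    rw [hi₀s] at this
    exact Finset.mem_singleton.mp this
  -- `a` vanishes at `pt P`, not at `tn P`
  have hdot : dot a (E.pt P) = 0 := by
    rw [← hi₀]; exact dot_pt_eq_zero_of_mem E ha A hAle i₀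
  have htn : dot a (E.tn P) ≠ 0 := by
    intro h
    have := (E.tn_spec P a ha).mp ⟨hdot, h⟩
    change 2 ≤ (E.Z a) P at this
    omega
  -- the jet columns
  set z : Fin E.m → Fin (E.r + 1) → K := Function.update (fun _ => E.pt P) i₀ (E.tn P) with hz
  have hju : betaJet (fun i => E.pt (A i)) (E.pt P) (E.tn P) = betaCol (fun i => E.pt (A i)) z :=
    betaJet_eq_betaCol _ _ _ i₀ (by rw [hi₀])
  have hjw : wJet (e := E.m - 1) (fun _ : Unit => a) (E.pt P) (E.tn P) =
      fun t => (fun _ : Unit => dot a (E.tn P)) t.1 * ∏ k, E.pt P (t.2 k) :=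
    wJet_eq _ _ _ (fun _ => hdot)
  have hw : ∀ i, wedge (E.pt (A i)) (z i) ≠ 0 := by
    intro i
    by_cases h : i = i₀
    · subst h
      rw [hz, Function.update_self, hi₀]
      exact hL.pt.2.2.2 P
    · rw [hz, Function.update_of_ne h]
      exact hL.pt.2.2.1 _ _ (fun h' => h (huniq i h'))
  have hhu : ht (betaCol (fun i => E.pt (A i)) z) = ∑ i, ht (wedge (E.pt (A i)) (z i)) :=
    hL.a6 _ _ _ _ hw
  have hv0 : (fun _ : Unit => dot a (E.tn P)) ≠ 0 := fun h => htn (congrFun h ())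
  have hhw : ht (fun t : Unit × (Fin (E.m - 1) → Fin (E.r + 1)) =>
      (fun _ : Unit => dot a (E.tn P)) t.1 * ∏ k, E.pt P (t.2 k)) =
      ((E.m - 1 : ℕ) : ℝ) * ht (E.pt P) := by
    have h := hL.a7 (E.r + 1) (E.m - 1) Unit (fun _ : Unit => dot a (E.tn P)) (E.pt P) hv0
      (hL.pt.1 P)
    rw [ht_const htn, zero_add] at h
    exact h
  have hψu0 : betaCol (fun i => E.pt (A i)) z ≠ 0 := betaCol_ne_zero _ _ hw
  have hψw0 : (fun t : Unit × (Fin (E.m - 1) → Fin (E.r + 1)) =>
      (fun _ : Unit => dot a (E.tn P)) t.1 * ∏ k, E.pt P (t.2 k)) ≠ 0 :=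
    tensorPow_ne_zero (fun _ : Unit => dot a (E.tn P)) (E.pt P) hv0 (hL.pt.1 P)
  have hW : ∀ r : Unit, (fun _ : Unit => a) r ≠ 0 →
      ∑ l, prim (A l) ≤ E.Z ((fun _ : Unit => a) r) := fun _ _ => hAle
  have r1 := hL.rankJet E.m A Unit (fun _ : Unit => a) hm1 hW (Fin L₁) (fun t => E.pt (Q₁ t))
    P (fun j => hL.pt.2.1 _)
  have r2 := hL.rankJet E.m A Unit (fun _ : Unit => a) hm1 hW (Fin L₂) (fun t => E.pt (Q₂ t))
    P (fun j => hL.pt.2.1 _)
  rw [hju, hjw] at r1 r2
  have u1 := hup A (fun _ : Unit => a) _ _ r1 hψw0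
  have l1 := hlow a A _ _ ha r2 hψu0
  rw [ht_unitProd] at u1
  rw [hhu, hhw] at u1 l1
  -- bookkeeping
  rw [hA, pairPt_erase E A P i₀ hi₀ huniq]
  have hs1 := Finset.add_sum_erase Finset.univ (fun i => ht (E.pt (A i))) (Finset.mem_univ i₀)
  have hs2 := Finset.add_sum_erase Finset.univ (fun i => ht (wedge (E.pt (A i)) (z i)))
    (Finset.mem_univ i₀)
  have hs3 : ∑ i ∈ Finset.univ.erase i₀, ht (wedge (E.pt (A i)) (z i)) =
      ∑ i ∈ Finset.univ.erase i₀, ht (wedge (E.pt (A i)) (E.pt P)) := by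
    refine Finset.sum_congr rfl fun i hi => ?_
    rw [hz, Function.update_of_ne (Finset.ne_of_mem_erase hi)]
  have hs4 : ht (wedge (E.pt (A i₀)) (z i₀)) = ht (wedge (E.pt P) (E.tn P)) := by
    rw [hz, Function.update_self, hi₀]
  have hsum : ∑ i ∈ Finset.univ.erase i₀, hD E (A i) P =
      ∑ i ∈ Finset.univ.erase i₀, ht (E.pt (A i)) +
        ((E.m - 1 : ℕ) : ℝ) * ht (E.pt P) -
        ∑ i ∈ Finset.univ.erase i₀, ht (wedge (E.pt (A i)) (E.pt P)) := by
    unfold hD
    rw [Finset.sum_sub_distrib, Finset.sum_add_distrib]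
    simp [Finset.card_erase_of_mem]
  rw [hi₀] at hs1
  rw [hs3, hs4] at hs2
  rw [hsum, abs_le]
  unfold kap
  constructor
  · linarith [le_max_right C₁ C₂]
  · linarith [le_max_left C₁ C₂]

end Fermat.Agent.S17.Wall

end
end
-- ===== PACK-END S17/H710/Wall/Adj.lean

-- ===== PACK-BEGIN S17/H980/WallIndep.lean
section




/-!
# S17 / tower H, WALL leaves G-INDEP, G-ENUM, G-INF, A2 (MINOR), A10 in frozen form (helper980)

* `indep E : Wall.IndepStatement E` — at most `m - 2g + 1` distinct places have linearly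
  independent coordinate vectors, i.e. non-vanishing Plücker vector (Riemann–Roch);
* `enum : Wall.EnumStatement K F` — enumeration of an effective divisor with multiplicities;
* `inf : Wall.InfStatement K F` (`K` infinite) — there are infinitely many places;
* `minorStatement K : Wall.MinorStatement K` — a matrix whose rows span a space of dimension `κ`
  has a non-zero `κ × κ` minor;
* `pluckerStepStatement K : Wall.PluckerStepStatement K` — A10 (`H980.pluckerStep`).
-/

set_option autoImplicit false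

noncomputable section

open AlgebraicCurve

namespace Fermat.Agent.S17.H980

open Fermat.Agent.Lib.RR Fermat.Agent.S17.HWall Fermat.Agent.S17.HContract
open Fermat.Agent.S17.Wall

section Indep

variable {K F : Type*} [Field K] [Field F] [Algebra K F] [FF1 K F]

/-- **G-INDEP.** -/
theorem indep (E : EmbData K F) : IndepStatement E := by
  intro d P hd hP
  have hli : LinearIndependent K fun i => E.pt (P i) :=
    linearIndependent_pt E P hP (by rw [genusFF_eq_genusR]; exact hd)
  obtain ⟨e, he⟩ := exists_det_submatrix_ne_zero (Matrix.of fun i => E.pt (P i)) hli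
  intro h0
  apply he
  have := congrFun h0 e
  exact this

/-- **G-ENUM.** -/
theorem enum : EnumStatement K F := by
  intro D hD k
  induction k generalizing D with
  | zero =>
    intro hdeg
    refine ⟨Fin.elim0, ?_⟩
    rw [Finset.univ_eq_empty, Finset.sum_empty]
    exact H680.eq_zero_of_nonneg_of_degree_eq_zero hD (by simpa using hdeg)
  | succ k ih =>
    intro hdeg
    have hne : D ≠ 0 := by
      rintro rfl
      rw [map_zero] at hdeg
      have : (0 : ℤ) = (k : ℤ) + 1 := by exact_mod_cast hdeg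
      omega
    obtain ⟨P, hP⟩ : ∃ P, D P ≠ 0 := by
      by_contra hcon
      apply hne
      ext v
      by_contra hv
      exact hcon ⟨v, hv⟩
    have hP0 : (0 : ℤ) ≤ D P := by simpa using Finsupp.le_def.mp hD P
    have hD' : 0 ≤ D - prim P := by
      rw [Finsupp.le_def]
      intro v
      have h0 : (0 : ℤ) ≤ D v := by simpa using Finsupp.le_def.mp hD v
      by_cases hv : v = P
      · subst hv
        simp only [Finsupp.coe_zero, Pi.zero_apply, Finsupp.coe_sub, Pi.sub_apply,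
          prim_apply_self]
        omega
      · simp only [Finsupp.coe_zero, Pi.zero_apply, Finsupp.coe_sub, Pi.sub_apply,
          prim_apply_of_ne hv]
        omega
    have hdeg' : Divisor.degree (D - prim P) = (k : ℕ) := by
      rw [map_sub, degree_prim _ (deg_eq_one _), hdeg]
      push_cast
      ring
    obtain ⟨A, hA⟩ := ih (D - prim P) hD' hdeg'
    refine ⟨Fin.snoc A P, ?_⟩
    rw [Fin.sum_univ_castSucc]
    simp only [Fin.snoc_castSucc, Fin.snoc_last]
    rw [← hA]
    abel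

/-- A non-constant function has a zero. -/
theorem exists_ord_pos_of_not_const {f : F} (hf : f ∉ Set.range (algebraMap K F)) :
    ∃ v : Place K F, 0 < v.ord f := by
  by_contra hcon
  have hle : ∀ v : Place K F, v.ord f ≤ 0 := fun v => not_lt.mp fun h => hcon ⟨v, h⟩
  have hf0 : f ≠ 0 := by
    rintro rfl
    exact hf ⟨0, map_zero _⟩
  have h1 : 0 ≤ -divOf (K := K) f hf0 := by
    rw [Finsupp.le_def]
    intro v
    have := hle v
    simp only [Finsupp.coe_zero, Pi.zero_apply, Finsupp.coe_neg, Pi.neg_apply, divOf_apply]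
    omega
  have h2 : -divOf (K := K) f hf0 = 0 :=
    H680.eq_zero_of_nonneg_of_degree_eq_zero h1 (by rw [map_neg, degree_divOf, neg_zero])
  have h3 : f ∈ riemannRochSpace (0 : Divisor K F) := by
    rw [H680.mem_L_iff_nonneg hf0, zero_add]
    have : divOf (K := K) f hf0 = 0 := by simpa using h2
    rw [this]
  rw [L_zero] at h3
  obtain ⟨c, hc⟩ := h3
  exact hf ⟨c, hc⟩

/-- **G-INF.** -/
theorem inf [Infinite K] : InfStatement K F := by
  classical
  obtain ⟨x, hx, -⟩ := FF1.exists_finite (K := K) (F := F)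
  have hnc : ∀ c : K, x - algebraMap K F c ∉ Set.range (algebraMap K F) := by
    rintro c ⟨c', hc'⟩
    apply hx
    have : x = algebraMap K F (c' + c) := by
      rw [map_add, hc']
      ring
    rw [this]
    exact isAlgebraic_algebraMap _
  choose P hP using fun c => exists_ord_pos_of_not_const (hnc c)
  have hinj : Function.Injective P := by
    intro c c' h
    by_contra hne
    have h1 : 0 < (P c).ord (x - algebraMap K F c) := hP c
    have h2 : 0 < (P c).ord (x - algebraMap K F c') := by rw [h]; exact hP c'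
    have h3 := ord_add_of_le (P c) (n := 1) (f := x - algebraMap K F c')
      (g := -(x - algebraMap K F c)) (Or.inr h2) (Or.inr (by rw [ord_neg]; exact h1))
    have h4 : x - algebraMap K F c' + -(x - algebraMap K F c) = algebraMap K F (c - c') := by
      rw [map_sub]
      ring
    rw [h4] at h3
    rcases h3 with h3 | h3
    · have : c - c' = 0 := by
        have hinj' : Function.Injective (algebraMap K F) := (algebraMap K F).injective
        exact hinj' (by rw [h3, map_zero])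
      exact hne (sub_eq_zero.mp this)
    · rw [ord_algebraMap] at h3
      omega
  intro L
  exact ⟨fun i => P (Infinite.natEmbedding K i), fun i j h =>
    Fin.ext ((Infinite.natEmbedding K).injective (hinj h))⟩

end Indep

section Minor

variable (K : Type*) [Field K]

/-- **A2 (MINOR).** -/
theorem minorStatement : MinorStatement K := by
  classical
  intro σ c _ κ B hrank
  have : Fintype c := Fintype.ofFinite c
  -- extract `κ` independent rows
  obtain ⟨ι, a, ha, hsp, hli⟩ := exists_linearIndependent' K B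
  have hfin : Module.finrank K (Submodule.span K (Set.range (B ∘ a))) = κ := by
    rw [hsp, hrank]
  have : Finite ι := hli.finite
  let _ : Fintype ι := Fintype.ofFinite ι
  have hcard : Fintype.card ι = κ := by
    rw [← hfin, finrank_span_eq_card hli]
  let eqv : Fin κ ≃ ι := (Fintype.equivFinOfCardEq hcard).symm
  have hli' : LinearIndependent K (fun i : Fin κ => B (a (eqv i))) :=
    hli.comp eqv eqv.injective
  obtain ⟨e, he⟩ := exists_det_submatrix_ne_zero
    (Matrix.of fun i : Fin κ => B (a (eqv i))) hli'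
  intro h0
  apply he
  have := congrFun h0 (fun i => a (eqv i), fun j => e j)
  exact this

end Minor

section Plucker

variable (K : Type*) [Field K] [CharZero K]

/-- **A10 (PLUCKER / LAPLACE)**, frozen form. -/
theorem pluckerStepStatement (hK : ∀ a : K, IsIntegral ℚ a) : PluckerStepStatement K :=
  pluckerStep K hK

end Plucker

end Fermat.Agent.S17.H980

end
end
-- ===== PACK-END S17/H980/WallIndep.lean

-- ===== PACK-BEGIN S17/H449/ProjNormal.lean
section



/-!
# S17 / tower H — sub-project GAUSS, leaf PN (projective normality)  (helper449)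

`projNormal : Big E → ProjNormalStatement E` (the frozen Prop of `S17/H290/GaussDefs.lean`,
verbatim, under the standing hypothesis `Big E : 4 g + 1 ≤ E.m` of the wall):
every element of `L(e m ∞)` is the value at `E.x` of a form of degree `e`.

Route: induction on `e`; `e = 0` is `L(0) = K`, `e = 1` is `E.x_span`, and the step is
`L(e m ∞) * L(m ∞) = L((e + 1) m ∞)` (`Lib/RR/H259.exists_sum_mul_eq`, both degrees `≥ 4 g`).

Reusable by-products: `pn_exists_form_of_mem_span`, `pn_degree_nsmul_prim`.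
-/

set_option autoImplicit false

noncomputable section

namespace Fermat.Agent.S17.H449

open AlgebraicCurve MvPolynomial
open Fermat.Agent.Lib.RR Fermat.Agent.S17.HWall Fermat.Agent.S17.HContract Fermat.Agent.S17.Wall
open Fermat.Agent.S17.H290

variable {K F : Type*} [Field K] [CharZero K] [Field F] [Algebra K F] [FF1 K F]

omit [CharZero K] in
/-- `deg (n ∞) = n`. -/
theorem pn_degree_nsmul_prim (v : Place K F) (n : ℕ) :
    Divisor.degree (n • prim v) = (n : ℤ) := by
  rw [map_nsmul, degree_prim']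
  simp

omit [CharZero K] in
/-- degree one: elements of the span of `E.x` are values of linear forms. -/
theorem pn_exists_form_of_mem_span (E : EmbData K F) {f : F}
    (hf : f ∈ Submodule.span K (Set.range E.x)) :
    ∃ G : MvPolynomial (Fin (E.r + 1)) K, G.IsHomogeneous 1 ∧ aeval E.x G = f := by
  obtain ⟨a, rfl⟩ := (Submodule.mem_span_range_iff_exists_fun K).mp hf
  refine ⟨linForm a, linForm_isHomogeneous a, ?_⟩
  simp [linForm, Algebra.smul_def]

/-- **PN (projective normality)** under the standing hypothesis `Big E` of the wall. -/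
theorem projNormal (E : EmbData K F) (hBig : Big E) : ProjNormalStatement E := by
  intro e
  induction e with
  | zero =>
    intro f hf
    rw [zero_mul, zero_smul, L_zero] at hf
    obtain ⟨c, rfl⟩ := hf
    exact ⟨C c, isHomogeneous_C _ c, by simp⟩
  | succ e ih =>
    intro f hf
    rcases Nat.eq_zero_or_pos e with he | he
    · subst he
      rw [zero_add, one_mul, ← E.x_span] at hf
      exact pn_exists_form_of_mem_span E hf
    · have hg : (genusFF K F : ℤ) = (genusR K F : ℤ) := by rw [genusFF_eq_genusR]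
      have hm : 4 * (genusR K F : ℤ) + 1 ≤ (E.m : ℤ) := by
        have := hBig
        unfold Big at this
        exact_mod_cast this
      have hA : 4 * (genusFF K F : ℤ) ≤ Divisor.degree ((e * E.m) • prim E.vinf) := by
        rw [pn_degree_nsmul_prim, hg]
        have h1 : (E.m : ℤ) ≤ ((e * E.m : ℕ) : ℤ) := by
          exact_mod_cast Nat.le_mul_of_pos_left E.m he
        linarith
      have hB : 4 * (genusFF K F : ℤ) ≤ Divisor.degree (E.m • prim E.vinf) := by
        rw [pn_degree_nsmul_prim, hg]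
        linarith
      have hsplit : ((e + 1) * E.m) • prim E.vinf
          = (e * E.m) • prim E.vinf + E.m • prim E.vinf := by
        rw [add_mul, one_mul, add_smul]
      rw [hsplit] at hf
      obtain ⟨n, a, b, ha, hb, rfl⟩ := H259.exists_sum_mul_eq hA hB hf
      have hb' : ∀ i, ∃ G : MvPolynomial (Fin (E.r + 1)) K,
          G.IsHomogeneous 1 ∧ aeval E.x G = b i := fun i =>
        pn_exists_form_of_mem_span E (by rw [E.x_span]; exact hb i)
      choose Ga hGa hGa' using fun i => ih (a i) (ha i)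
      choose Gb hGb hGb' using hb'
      refine ⟨∑ i, Ga i * Gb i, ?_, ?_⟩
      · exact IsHomogeneous.sum _ _ _ fun i _ => (hGa i).mul (hGb i)
      · rw [map_sum]
        exact Finset.sum_congr rfl fun i _ => by rw [map_mul, hGa' i, hGb' i]

end Fermat.Agent.S17.H449

end
end
-- ===== PACK-END S17/H449/ProjNormal.lean

-- ===== PACK-BEGIN S59/H585/IntPDMod.lean
section
/-
S59 / S15 — the Manin pairing modulo `m` (helper585).

From integral Poincaré duality (`IntPD.lean`) and LIFT: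

* `pairing_mod_left_kernel`  : for every `m`, the Manin pairing on the cuspidal classes
  `Γ → ZMod m` has trivial left kernel (any `Γ` of finite index with `-1 ∈ Γ`);
* `pairing_mod_right_kernel` : the same on the right;
* `pairing_adj_mod`, `pairing_hecke_mod` : adjunction `r_i ⊣ t_i` and self-adjointness of `T_l`
  for coefficients `ZMod m` on `Γ₀(n)`.
(Bi-additivity, skew-symmetry and base change over any commutative ring are in `IntPD.lean`:
`maninPairing_add_left`, `maninPairing_add_right`, `maninPairing_skew`, `maninPairing_map`.)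
-/


set_option autoImplicit false

namespace Fermat.Agent.S59.H585

open CongruenceSubgroup Matrix.SpecialLinearGroup ModularCurve.Period ModularGroup
open Fermat.Agent.S29.H642 Fermat.Agent.S41.Spec
open scoped MatrixGroups

section General

variable {Γ : Subgroup SL(2, ℤ)} [Γ.FiniteIndex]

/-- If `m ∣ B(x, y)` for all `y`, then `x ∈ m · C_Γ(ℤ)`. -/
theorem exists_eq_smul_of_dvd_pairing (hneg : (-1 : SL(2, ℤ)) ∈ Γ) (m : ℕ)
    (x : cuspSub ℤ Γ ℤ) (h : ∀ y : cuspSub ℤ Γ ℤ, (m : ℤ) ∣ intPairing hneg x y) :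
    ∃ x' : cuspSub ℤ Γ ℤ, x = (m : ℤ) • x' := by
  rcases Nat.eq_zero_or_pos m with rfl | hm
  · refine ⟨0, ?_⟩
    rw [smul_zero]
    apply (intPairing_bijective hneg).1
    rw [map_zero]
    ext y
    have := h y
    rw [Nat.cast_zero, zero_dvd_iff] at this
    exact this
  · have hm' : (m : ℤ) ≠ 0 := by exact_mod_cast hm.ne'
    -- the functional `B(x, ·) / m`
    let f : cuspSub ℤ Γ ℤ →ₗ[ℤ] ℤ :=
      { toFun := fun y => intPairing hneg x y / m
        map_add' := fun y y' => by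
          rw [map_add]
          exact Int.add_ediv_of_dvd_left (h y)
        map_smul' := fun c y => by
          rw [map_smul, smul_eq_mul, RingHom.id_apply, smul_eq_mul]
          exact Int.mul_ediv_assoc c (h y) }
    obtain ⟨x', hx'⟩ := (intPairing_bijective hneg).2 f
    refine ⟨x', ?_⟩
    apply (intPairing_bijective hneg).1
    rw [map_smul, hx']
    ext y
    show intPairing hneg x y = (m : ℤ) * (intPairing hneg x y / m)
    exact (Int.mul_ediv_cancel' (h y)).symm

/-- **The pairing modulo `m` has trivial left kernel.** -/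
theorem pairing_mod_left_kernel (hneg : (-1 : SL(2, ℤ)) ∈ Γ) (m : ℕ)
    {xbar : Additive Γ →+ ZMod m} (hx : IsCuspidalOn Γ xbar)
    (h : ∀ ybar : Additive Γ →+ ZMod m, IsCuspidalOn Γ ybar → maninPairing Γ xbar ybar = 0) :
    xbar = 0 := by
  obtain ⟨x, hxc, rfl⟩ := exists_lift hneg m hx
  have hdvd : ∀ y : cuspSub ℤ Γ ℤ, (m : ℤ) ∣ intPairing hneg ⟨x, hxc⟩ y := by
    intro y
    have h1 := maninPairing_map hneg (Int.castRingHom (ZMod m)) hxc y.2
    have h2 := h _ (isCuspidalOn_comp (Int.castAddHom (ZMod m)) y.2)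
    rw [← ZMod.intCast_zmod_eq_zero_iff_dvd]
    exact h1.symm.trans h2
  obtain ⟨x', hx'⟩ := exists_eq_smul_of_dvd_pairing hneg m ⟨x, hxc⟩ hdvd
  have hx'' : x = (m : ℤ) • (x' : Additive Γ →+ ℤ) := congrArg Subtype.val hx'
  refine AddMonoidHom.ext fun g => ?_
  show ((x g : ℤ) : ZMod m) = 0
  rw [hx'']
  show (((m : ℤ) • (x' : Additive Γ →+ ℤ) g : ℤ) : ZMod m) = 0
  rw [smul_eq_mul, Int.cast_mul, Int.cast_natCast, ZMod.natCast_self, zero_mul]

/-- **The pairing modulo `m` has trivial right kernel.** -/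
theorem pairing_mod_right_kernel (hneg : (-1 : SL(2, ℤ)) ∈ Γ) (m : ℕ)
    {ybar : Additive Γ →+ ZMod m} (hy : IsCuspidalOn Γ ybar)
    (h : ∀ xbar : Additive Γ →+ ZMod m, IsCuspidalOn Γ xbar → maninPairing Γ xbar ybar = 0) :
    ybar = 0 := by
  refine pairing_mod_left_kernel hneg m hy fun xbar hxbar => ?_
  rw [maninPairing_skew hneg hxbar hy, h xbar hxbar, neg_zero]

end General

section Gamma0

variable {N q : ℕ}

/-- Reduction mod `m` of the integral pairing on `Γ₀(n)`. -/
theorem cast_pairing_mod {n : ℕ} (hn : n ≠ 0) (m : ℕ) {x y : Additive (Gamma0 n) →+ ℤ}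
    (hx : IsCuspidal x) (hy : IsCuspidal y) :
    ((maninPairing (Gamma0 n) x y : ℤ) : ZMod m) =
      maninPairing (Gamma0 n) ((Int.castAddHom (ZMod m)).comp x)
        ((Int.castAddHom (ZMod m)).comp y) := by
  have := finiteIndex_Gamma0' hn
  exact (maninPairing_map (neg_one_mem_Gamma0' n) (Int.castRingHom (ZMod m)) hx hy).symm

/-- **Adjunction modulo `m`**: `B(r_i x, y) = B(x, t_i y)`. -/
theorem pairing_adj_mod (m : ℕ) (hN : N ≠ 0) (hq : q.Prime) (hqN : ¬ q ∣ N)
    (x : Additive (Gamma0 N) →+ ZMod m) (y : Additive (Gamma0 (N * q)) →+ ZMod m)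
    (hx : IsCuspidal x) (hy : IsCuspidal y) :
    maninPairing (Gamma0 (N * q)) (r₁ N q x) y = maninPairing (Gamma0 N) x (t₁ N q y) ∧
    maninPairing (Gamma0 (N * q)) (r₂ N q x) y = maninPairing (Gamma0 N) x (t₂ N q y) := by
  have hNq : N * q ≠ 0 := Nat.mul_ne_zero hN hq.ne_zero
  have hFI := finiteIndex_Gamma0' hN
  have hFI' := finiteIndex_Gamma0' hNq
  obtain ⟨hFun, hRC, hTC, -⟩ := Fermat.Agent.S41.H281.hkStatement.{0}
  obtain ⟨x₀, hx₀, rfl⟩ := exists_lift (neg_one_mem_Gamma0' N) m hx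
  obtain ⟨y₀, hy₀, rfl⟩ := exists_lift (neg_one_mem_Gamma0' (N * q)) m hy
  obtain ⟨hr1, hr2⟩ := hRC N q ℤ x₀ hx₀
  obtain ⟨ht1, ht2⟩ := hTC N q ℤ y₀ hy₀
  obtain ⟨a1, a2⟩ := pairing_adj_int hN hq hqN x₀ y₀ hx₀ hy₀
  constructor
  · rw [Fermat.Agent.S41.H41.r₁_comp, Fermat.Agent.S41.H41.t₁_comp hFun,
      ← cast_pairing_mod hNq m hr1 hy₀, ← cast_pairing_mod hN m hx₀ ht1, a1]
  · rw [Fermat.Agent.S41.H41.r₂_comp, Fermat.Agent.S41.H41.t₂_comp hFun,
      ← cast_pairing_mod hNq m hr2 hy₀, ← cast_pairing_mod hN m hx₀ ht2, a2]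

/-- **Hecke operators are self-adjoint modulo `m`**. -/
theorem pairing_hecke_mod (m : ℕ) {n l : ℕ} [Fact l.Prime] (hl : ¬ l ∣ n) (hn : n ≠ 0)
    (x y : Additive (Gamma0 n) →+ ZMod m) (hx : IsCuspidal x) (hy : IsCuspidal y) :
    maninPairing (Gamma0 n) (heckeTransfer hl x) y =
      maninPairing (Gamma0 n) x (heckeTransfer hl y) := by
  have hFI := finiteIndex_Gamma0' hn
  obtain ⟨-, -, -, hHC, -⟩ := Fermat.Agent.S41.H281.hkStatement.{0}
  obtain ⟨x₀, hx₀, rfl⟩ := exists_lift (neg_one_mem_Gamma0' n) m hx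
  obtain ⟨y₀, hy₀, rfl⟩ := exists_lift (neg_one_mem_Gamma0' n) m hy
  have hTx : IsCuspidal (heckeTransfer hl x₀) := hHC n l hl ℤ x₀ hx₀
  have hTy : IsCuspidal (heckeTransfer hl y₀) := hHC n l hl ℤ y₀ hy₀
  rw [heckeTransfer_comp hl, heckeTransfer_comp hl, ← cast_pairing_mod hn m hTx hy₀,
    ← cast_pairing_mod hn m hx₀ hTy, pairing_hecke_int hl hn x₀ y₀ hx₀ hy₀]

end Gamma0

end Fermat.Agent.S59.H585

end
-- ===== PACK-END S59/H585/IntPDMod.lean

-- ===== PACK-BEGIN A3/H255/Nsp.lean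
section



/-!
# A3 / LOCAL, leaf NSP (helper255): non-special reduced divisors on the special fibre

`nspStatement : NspStatement k Fk` (frozen leaf of `A3/H799/LocalSpec.lean`), from
`exists_reduced_nonspecial` (`S19/H255/NSP.lean`, on `Lib/RR/H638`).  Also the version avoiding a
finite set of places.

All proofs complete.
-/

set_option autoImplicit false
set_option linter.style.haveILetI false

noncomputable section

open AlgebraicCurve

namespace Fermat.Agent.A3.H255

open Fermat.Agent.Lib.RR Fermat.Agent.A3.H799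

variable {k Fk : Type*} [Field k] [Field Fk] [Algebra k Fk]

/-- `g` distinct places outside a finite set `S` with `ℓ(Σ Q_i) = 1`, as a family. -/
theorem exists_nonspecial_family [FF1 k Fk] [Infinite k] (S : Finset (Place k Fk)) :
    ∃ Qs : Fin (genusFF k Fk) → Place k Fk, Function.Injective Qs ∧ (∀ i, Qs i ∉ S) ∧
      ell (∑ i, Finsupp.single (Qs i) (1 : ℤ)) = 1 := by
  classical
  obtain ⟨T, hcard, hdisj, hell⟩ := Fermat.Agent.S19.H255.exists_reduced_nonspecial S
  let e : Fin (genusFF k Fk) ≃ T := (T.equivFinOfCardEq hcard).symm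
  refine ⟨fun i => (e i : Place k Fk), ?_, ?_, ?_⟩
  · intro i j h
    exact e.injective (Subtype.ext h)
  · intro i hi
    exact (Finset.disjoint_left.mp hdisj) (e i).2 hi
  · have h1 : (∑ i, Finsupp.single ((e i : T) : Place k Fk) (1 : ℤ)) = H638.divT T := by
      unfold H638.divT prim
      rw [Equiv.sum_comp e (fun v : T => Finsupp.single (v : Place k Fk) (1 : ℤ))]
      exact Finset.sum_coe_sort T (fun v => Finsupp.single v (1 : ℤ))
    rw [h1]
    exact hell

/-- **NSP**: the frozen leaf `NspStatement` of `A3/H799/LocalSpec.lean`. -/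
theorem nspStatement : NspStatement k Fk := by
  intro _ _
  haveI : Infinite k := IsAlgClosed.instInfinite
  obtain ⟨Qs, hinj, -, hell⟩ := exists_nonspecial_family (k := k) (Fk := Fk) ∅
  exact ⟨Qs, hinj, hell⟩

end Fermat.Agent.A3.H255

end
end
-- ===== PACK-END A3/H255/Nsp.lean

-- ===== PACK-BEGIN S19/H979/RankOne.lean
section


/-!
# Cell A3 (S19) — RANK ONE  (helper979)

`rankOneStatement : RankOneStatement`: a valuation ring `V` of `Q̄` in which the prime `ℓ` is not a
unit has rank one, in the form used by the abstract LOCAL theorem: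
`a ∈ 𝔪_V`, `b ≠ 0`  ⟹  `a ^ n / b ∈ V` for some `n`.

Consequence: `localStatement_of_abs_gr' : AbsLocalStatement → GrStatement → S19.LocalStatement`.
-/

set_option autoImplicit false

noncomputable section

namespace Fermat.Agent.S19.H979

open Polynomial Fermat.Agent.S19

section LocalRing

variable {A : Type*} [CommRing A] [IsLocalRing A]

/-- An integer prime to `ℓ` is a unit in a local ring in which `ℓ` is not a unit. -/
theorem isUnit_intCast_of_not_dvd {ℓ : ℕ} (hℓ : ℓ.Prime) (hℓA : ((ℓ : ℤ) : A) ∈ nonunits A)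
    {u : ℤ} (hu : ¬ (ℓ : ℤ) ∣ u) : IsUnit ((u : ℤ) : A) := by
  have hcop : IsCoprime (ℓ : ℤ) u :=
    (Prime.coprime_iff_not_dvd (Nat.prime_iff_prime_int.1 hℓ)).2 hu
  obtain ⟨x, y, hxy⟩ := hcop
  have h1 : ((y : ℤ) : A) * ((u : ℤ) : A) = 1 - ((x : ℤ) : A) * ((ℓ : ℤ) : A) := by
    have := congrArg (Int.cast : ℤ → A) hxy
    push_cast at this
    push_cast
    linear_combination this
  have h2 : ((x : ℤ) : A) * ((ℓ : ℤ) : A) ∈ nonunits A := by
    rw [← IsLocalRing.mem_maximalIdeal] at hℓA ⊢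
    exact Ideal.mul_mem_left _ _ hℓA
  have h3 : IsUnit (((y : ℤ) : A) * ((u : ℤ) : A)) := by
    rw [h1]
    exact IsLocalRing.isUnit_one_sub_self_of_mem_nonunits _ h2
  exact isUnit_of_mul_isUnit_right h3

/-- Newton-polygon step: if `p ∈ ℤ[X]` has its first `ℓ`-unit coefficient in degree `n` and
`ℓ ∣ p(a) a^k` for a non-unit `a`, then `ℓ ∣ a ^ (n + k)`. -/
theorem dvd_pow_of_aeval {ℓ : ℕ} (hℓ : ℓ.Prime) (hℓA : ((ℓ : ℤ) : A) ∈ nonunits A)
    (a : A) (ha : a ∈ nonunits A) :
    ∀ (n k : ℕ) (p : ℤ[X]), (∀ i < n, (ℓ : ℤ) ∣ p.coeff i) → ¬ (ℓ : ℤ) ∣ p.coeff n →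
      ((ℓ : ℤ) : A) ∣ aeval a p * a ^ k → ((ℓ : ℤ) : A) ∣ a ^ (n + k) := by
  intro n
  induction n with
  | zero =>
    intro k p _ h0 hdiv
    have hp : aeval a p = aeval a p.divX * a + ((p.coeff 0 : ℤ) : A) := by
      conv_lhs => rw [← divX_mul_X_add p]
      simp
    have hu : IsUnit (aeval a p) := by
      by_contra hnu
      have h1 : aeval a p.divX * a ∈ nonunits A := by
        rw [← IsLocalRing.mem_maximalIdeal] at ha ⊢
        exact Ideal.mul_mem_left _ _ ha
      have h2 : ((p.coeff 0 : ℤ) : A) ∈ nonunits A := by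
        have h3 : ((p.coeff 0 : ℤ) : A) = aeval a p - aeval a p.divX * a := by
          rw [hp]; ring
        rw [h3]
        rw [← IsLocalRing.mem_maximalIdeal] at h1 ⊢
        exact Ideal.sub_mem _ ((IsLocalRing.mem_maximalIdeal _).2 hnu) h1
      exact h2 (isUnit_intCast_of_not_dvd hℓ hℓA h0)
    rw [zero_add]
    exact (hu.dvd_mul_left).1 hdiv
  | succ n ih =>
    intro k p hlow hn hdiv
    have hp : aeval a p = aeval a p.divX * a + ((p.coeff 0 : ℤ) : A) := by
      conv_lhs => rw [← divX_mul_X_add p]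
      simp
    have h0 : ((ℓ : ℤ) : A) ∣ ((p.coeff 0 : ℤ) : A) := by
      obtain ⟨c, hc⟩ := hlow 0 (Nat.succ_pos n)
      exact ⟨(c : A), by rw [hc]; push_cast; ring⟩
    have h1 : ((ℓ : ℤ) : A) ∣ aeval a p.divX * a ^ (k + 1) := by
      have h2 : aeval a p.divX * a ^ (k + 1) =
          aeval a p * a ^ k - ((p.coeff 0 : ℤ) : A) * a ^ k := by
        rw [hp]; ring
      rw [h2]
      exact dvd_sub hdiv (Dvd.dvd.mul_right h0 _)
    have h3 := ih (k + 1) p.divX
      (fun i hi => by rw [coeff_divX]; exact hlow (i + 1) (Nat.succ_lt_succ hi))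
      (by rw [coeff_divX]; exact hn) h1
    have h4 : n + 1 + k = n + (k + 1) := by ring
    rw [h4]
    exact h3

end LocalRing

/-- Every element of `Q̄` is algebraic over `ℤ`. -/
theorem isAlgebraic_int_qb (x : Qb) : IsAlgebraic ℤ x :=
  (IsFractionRing.isAlgebraic_iff ℤ ℚ Qb).2 ((AlgebraicClosure.isAlgebraic ℚ).isAlgebraic x)

/-- Step B: a power of a non-unit is divisible by `ℓ`. -/
theorem exists_pow_eq_ell_mul {ℓ : ℕ} (hℓ : ℓ.Prime) (V : ValuationSubring Qb)
    (hℓV : (ℓ : Qb) ∈ V.nonunits) (a : Qb) (ha : a ∈ V.nonunits) :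
    ∃ (j : ℕ) (s : Qb), s ∈ V ∧ a ^ j = (ℓ : Qb) * s := by
  by_cases ha0 : a = 0
  · exact ⟨1, 0, V.zero_mem, by rw [ha0]; simp⟩
  obtain ⟨haV, ham⟩ := (V.mem_nonunits_iff_exists_mem_maximalIdeal).1 ha
  obtain ⟨hℓmem, hℓm⟩ := (V.mem_nonunits_iff_exists_mem_maximalIdeal).1 hℓV
  obtain ⟨p, hp0, hpa⟩ := isAlgebraic_int_qb a
  have hq : aeval a p.primPart = 0 := aeval_primPart_eq_zero hp0 hpa
  have hprim : p.primPart.IsPrimitive := isPrimitive_primPart p
  have hex : ∃ i, ¬ (ℓ : ℤ) ∣ p.primPart.coeff i := by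
    by_contra hcon
    push Not at hcon
    have h1 : C (ℓ : ℤ) ∣ p.primPart := (C_dvd_iff_dvd_coeff _ _).2 hcon
    have h2 : IsUnit (ℓ : ℤ) := hprim _ h1
    exact (Nat.prime_iff_prime_int.1 hℓ).not_isUnit h2
  classical
  let n := Nat.find hex
  have hn : ¬ (ℓ : ℤ) ∣ p.primPart.coeff n := Nat.find_spec hex
  have hlow : ∀ i < n, (ℓ : ℤ) ∣ p.primPart.coeff i := fun i hi => by
    have := Nat.find_min hex hi
    push Not at this
    exact this
  -- transfer to the local ring `V`
  let a' : V := ⟨a, haV⟩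
  have ha' : a' ∈ nonunits V := (IsLocalRing.mem_maximalIdeal _).1 ham
  have hℓ' : (((ℓ : ℤ) : V)) ∈ nonunits V := by
    have h : (((ℓ : ℤ) : V)) = ⟨(ℓ : Qb), hℓmem⟩ := Subtype.ext (by simp)
    rw [h]
    exact (IsLocalRing.mem_maximalIdeal _).1 hℓm
  have haev : aeval a' p.primPart = 0 := by
    have h1 : algebraMap V Qb (aeval a' p.primPart) = aeval (algebraMap V Qb a') p.primPart :=
      (aeval_algebraMap_apply Qb a' p.primPart).symm
    have h2 : aeval (algebraMap V Qb a') p.primPart = 0 := hq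
    rw [h2] at h1
    exact (FaithfulSMul.algebraMap_injective V Qb) (by rw [h1, map_zero])
  have hdiv : (((ℓ : ℤ) : V)) ∣ aeval a' p.primPart * a' ^ 0 := by
    rw [haev, zero_mul]
    exact dvd_zero _
  obtain ⟨s, hs⟩ := dvd_pow_of_aeval hℓ hℓ' a' ha' n 0 p.primPart hlow hn hdiv
  refine ⟨n, (s : Qb), s.2, ?_⟩
  have := congrArg (fun x : V => (x : Qb)) hs
  simpa using this

/-- Step A: every nonzero element divides a power of `ℓ`. -/
theorem exists_ell_pow_div_mem {ℓ : ℕ} (hℓ : ℓ.Prime) (V : ValuationSubring Qb)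
    (hℓV : (ℓ : Qb) ∈ V.nonunits) (b : Qb) :
    ∃ m : ℕ, (ℓ : Qb) ^ m / b ∈ V := by
  obtain ⟨hℓmem, hℓm⟩ := (V.mem_nonunits_iff_exists_mem_maximalIdeal).1 hℓV
  have hℓ' : (((ℓ : ℤ) : V)) ∈ nonunits V := by
    have h : (((ℓ : ℤ) : V)) = ⟨(ℓ : Qb), hℓmem⟩ := Subtype.ext (by simp)
    rw [h]
    exact (IsLocalRing.mem_maximalIdeal _).1 hℓm
  obtain ⟨d, hd0, hd⟩ := (isAlgebraic_int_qb b⁻¹).exists_integral_multiple
  -- `d • b⁻¹ ∈ V`
  have hdV : (d : Qb) * b⁻¹ ∈ V := by
    have h1 : IsIntegral V (d • b⁻¹ : Qb) := hd.tower_top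
    obtain ⟨y, hy⟩ := (IsIntegrallyClosed.isIntegral_iff (R := V) (K := Qb)).1 h1
    have h2 : (d • b⁻¹ : Qb) = (d : Qb) * b⁻¹ := by simp [zsmul_eq_mul]
    rw [← h2, ← hy]
    exact y.2
  -- `d = ℓ ^ m * u` with `u` prime to `ℓ`
  have hfin : FiniteMultiplicity (ℓ : ℤ) d :=
    Int.finiteMultiplicity_iff.2 ⟨by simpa using hℓ.ne_one, hd0⟩
  obtain ⟨u, hdu, hu⟩ := hfin.exists_eq_pow_mul_and_not_dvd
  have huV : IsUnit ((u : ℤ) : V) := isUnit_intCast_of_not_dvd hℓ hℓ' hu
  obtain ⟨w, hw⟩ := huV.exists_left_inv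
  refine ⟨multiplicity (ℓ : ℤ) d, ?_⟩
  have hwu : (w : Qb) * (u : Qb) = 1 := by
    have := congrArg (fun x : V => (x : Qb)) hw
    simpa using this
  have key : (ℓ : Qb) ^ multiplicity (ℓ : ℤ) d / b = (w : Qb) * ((d : Qb) * b⁻¹) := by
    have hdq : (d : Qb) = (ℓ : Qb) ^ multiplicity (ℓ : ℤ) d * (u : Qb) := by
      conv_lhs => rw [hdu]
      push_cast
      ring
    rw [hdq, div_eq_mul_inv]
    calc (ℓ : Qb) ^ multiplicity (ℓ : ℤ) d * b⁻¹
        = ((w : Qb) * (u : Qb)) * ((ℓ : Qb) ^ multiplicity (ℓ : ℤ) d * b⁻¹) := by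
          rw [hwu, one_mul]
      _ = (w : Qb) * ((ℓ : Qb) ^ multiplicity (ℓ : ℤ) d * (u : Qb) * b⁻¹) := by ring
  rw [key]
  exact V.mul_mem _ _ w.2 hdV

/-- **RANK ONE.** -/
theorem rankOneStatement : RankOneStatement := by
  intro ℓ hfact V hℓV a b ha _
  obtain ⟨j, s, hs, hjs⟩ := exists_pow_eq_ell_mul hfact.out V hℓV a ha
  obtain ⟨m, hm⟩ := exists_ell_pow_div_mem hfact.out V hℓV b
  refine ⟨j * m, ?_⟩
  have key : a ^ (j * m) / b = s ^ m * ((ℓ : Qb) ^ m / b) := by
    rw [pow_mul, hjs, mul_pow]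
    ring
  rw [key]
  exact V.mul_mem _ _ (V.pow_mem hs m) hm

/-- **Glue, final form**: LOCAL from the abstract LOCAL theorem and the good-reduction
instance. -/
theorem localStatement_of_abs_gr' (hD : AbsLocalStatement) (hG : GrStatement) :
    LocalStatement :=
  localStatement_of_abs_gr hD hG rankOneStatement

end Fermat.Agent.S19.H979

end

end
-- ===== PACK-END S19/H979/RankOne.lean

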