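import Mathlib
import Fermat.Agent.Pack.S15.AE5L2
import Fermat.Agent.Pack.S15.AE0L3
import Fermat.Agent.Pack.S15.AE0L2
import Fermat.Agent.Pack.S15.AE1L1
import Fermat.Agent.Pack.S15.AE3L2
import Fermat.Agent.Pack.S15.AE2L2

-- ===== PACK-BEGIN S17/GDiv/Defs.lean
section



/-!
# S17 / G-DIV (divisibility of `J₀(N)(ℚ̄)`), ALGEBRAIC line: definitions and frozen statements

Architect: helper797.  Route: Weil generic points + rigidity by derivations (helper797) with the
ending "transitivity instead of specialisation" (helper20).  Plan: `coord/S17-GDIV.md`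
(origin/helper797).  No analysis, no torsion input, no Jacobian variety.

Notation: `k = ℚ̄`, `L ⊇ k` an algebraically closed field (in the end `L = ℂ`),
`F_L = laurentBaseChange L (modularFunctionFieldFull N) ⊆ L((q))`, `∞ = cuspL` the place `ord_q`,
`t = j`.  A place `P` of `F_L` is RATIONAL over a subfield `K₁ ⊆ L` if every finite value at `P`
of a function with rational `q`-expansion lies in `K₁`.

This file is complete.  The pieces are the `Prop`s `Stmt…`; each owner proves
`theorem stmt… : Stmt… N L` (with the hypotheses on `L` he needs among those of `Assembly.lean`).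
-/

set_option autoImplicit false

noncomputable section

open AlgebraicCurve ModularCurve

namespace Fermat.Agent.S17.GDiv

open Fermat.Agent.Lib.RR Fermat.Agent.S17.H680

/-- `ℚ̄` -/
abbrev Qb : Type := AlgebraicClosure ℚ

section Defs

variable (N : ℕ) [NeZero N] (L : Type) [Field L] [Algebra ℚ L]

/-- The function field of `X₀(N)` over `L`. -/
abbrev FL : IntermediateField L (LaurentSeries L) :=
  laurentBaseChange L (modularFunctionFieldFull N)

/-- The base change of a function with rational `q`-expansion. -/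
def bcQ (u : modularFunctionFieldFull N) : FL N L :=
  ⟨coeffEmb L (u : LaurentSeries ℚ), coeffEmb_mem_laurentBaseChange L u.2⟩

omit [NeZero N] in
@[simp]
theorem coe_bcQ (u : modularFunctionFieldFull N) :
    ((bcQ N L u : FL N L) : LaurentSeries L) = coeffEmb L (u : LaurentSeries ℚ) := rfl

/-- `j` as an element of the rational function field. -/
def jQ : modularFunctionFieldFull N := ⟨jq, modularFunctionField_le_full N (jq_mem N)⟩

/-- `t = j ∈ F_L`. -/
def tL : FL N L := bcQ N L (jQ N)

theorem exists_order_neg :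
    ∃ f : FL N L, (f : LaurentSeries L).order < 0 := by
  refine ⟨tL N L, ?_⟩
  show (coeffEmb L jq).order < 0
  have h : (coeffEmb L jq).order ≤ -1 :=
    HahnSeries.order_le_of_coeff_ne_zero (by
      rw [coeffEmb_coeff, coeff_jq_neg_one, map_one]; exact one_ne_zero)
  omega

/-- The cusp `∞`, as a place of `F_L`. -/
def cuspL : Place L (FL N L) :=
  cuspInf (modularFunctionFieldFull N) (exists_order_neg N L)

variable {N L}

/-- `f` vanishes at `P` (`f ∈ 𝔪_P`; recall that the Prelude has `ord 0 = 0`). -/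
def VanishesAt (P : Place L (FL N L)) (f : FL N L) : Prop := f = 0 ∨ 0 < P.ord f

/-- `u` has the finite value `c` at `P`. -/
def HasValue (P : Place L (FL N L)) (f : FL N L) (c : L) : Prop :=
  VanishesAt P (f - algebraMap L (FL N L) c)

/-- The place `P` is rational over the subfield `K₁`: all finite values at `P` of functions
with rational `q`-expansion lie in `K₁`. -/
def IsRationalOver (K₁ : Subfield L) (P : Place L (FL N L)) : Prop :=
  ∀ (u : modularFunctionFieldFull N) (c : L), HasValue P (bcQ N L u) c → c ∈ K₁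

/-- A divisor is rational over `K₁` if all places of its support are. -/
def DivRationalOver (K₁ : Subfield L) (D : Divisor L (FL N L)) : Prop :=
  ∀ P ∈ D.support, IsRationalOver K₁ P

/-- `K₁` is algebraically closed in `L`. -/
def AlgClosedIn (K₁ : Subfield L) : Prop := ∀ x : L, IsAlgebraic K₁ x → x ∈ K₁

/-- The `t`-value of a place (`0` if `t` has a pole at `P`). -/
def tval (P : Place L (FL N L)) : L :=
  open Classical in if h : ∃ c : L, HasValue P (tL N L) c then h.choose else 0

/-- A tuple of places is generic and independent over `K₀`: `t` is finite at each of them and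
the values are algebraically independent over `K₀`. -/
def IsGenericTuple (K₀ : Subfield L) {m : ℕ} (P : Fin m → Place L (FL N L)) : Prop :=
  (∀ i, ∃ c : L, HasValue (P i) (tL N L) c) ∧ AlgebraicIndependent K₀ (fun i => tval (P i))

/-- All coefficients of the `q`-expansion lie in `K₁`. -/
def CoeffsIn (K₁ : Subfield L) (f : FL N L) : Prop :=
  ∀ m : ℤ, (f : LaurentSeries L).coeff m ∈ K₁

end Defs

section WithFF1

variable {N : ℕ} [NeZero N] {L : Type} [Field L] [Algebra ℚ L] [FF1 L (FL N L)]

/-- The effective divisor `P₁ + … + P_m`. -/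
def sumPl {m : ℕ} (P : Fin m → Place L (FL N L)) : Divisor L (FL N L) :=
  ∑ i, prim (P i)

omit [NeZero N] in
theorem degree_sumPl {m : ℕ} (P : Fin m → Place L (FL N L)) :
    Divisor.degree (sumPl P) = m := by
  simp [sumPl, map_sum, degree_prim _ (deg_eq_one _)]

theorem degree_sumPl_sub {m : ℕ} (P : Fin m → Place L (FL N L)) :
    Divisor.degree (sumPl P - m • prim (cuspL N L)) = 0 := by
  rw [map_sub, degree_sumPl, map_nsmul, degree_prim _ (deg_eq_one _)]
  simp

/-- The class `[P₁ + … + P_m − m ∞]`. -/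
def cls {m : ℕ} (P : Fin m → Place L (FL N L)) : Pic0 L (FL N L) :=
  Pic0.mk ⟨sumPl P - m • prim (cuspL N L), degree_sumPl_sub P⟩

variable (N L)

/-- The genus of `F_L`. -/
abbrev gL : ℕ := genusR L (FL N L)

/-- The set of generic classes over `K₀`. -/
def Gen (K₀ : Subfield L) : Set (Pic0 L (FL N L)) :=
  {ξ | ∃ P : Fin (gL N L) → Place L (FL N L), IsGenericTuple K₀ P ∧ ξ = cls P}

/-! ## The frozen statements of the pieces -/

/-- **DPRES** (the coefficientwise derivation preserves `F_L`). -/
def StmtDPRES : Prop :=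
  ∀ (d : Derivation ℚ L L) (f : FL N L), ∃ h : FL N L,
    ∀ m : ℤ, (h : LaurentSeries L).coeff m = d ((f : LaurentSeries L).coeff m)

/-- **PLEXT** (a place is determined by its values on the functions with rational
`q`-expansion). -/
def StmtPLEXT : Prop :=
  ∀ P P' : Place L (FL N L),
    (∀ (u : modularFunctionFieldFull N) (c : L),
      HasValue P (bcQ N L u) c → HasValue P' (bcQ N L u) c) → P = P'

/-- **DER** (derivations respect the local rings).  For a derivation `∂` of `L` and
`D` = coefficientwise `∂` on `F_L ⊆ L((q))`: if `g • f = D f` (`g` is the logarithmic derivative of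
`f ≠ 0`), then `g` has at most simple poles, and no pole at `P` if `ord_P f = 0` or if `P` is
rational over a subfield killed by `∂`. -/
def StmtDER : Prop :=
  ∀ (d : Derivation ℚ L L) (f g : FL N L), f ≠ 0 →
    (∀ m : ℤ, ((g * f : FL N L) : LaurentSeries L).coeff m
        = d ((f : LaurentSeries L).coeff m)) →
    ∀ P : Place L (FL N L), g = 0 ∨
      (-1 ≤ P.ord g ∧
        (P.ord f = 0 → 0 ≤ P.ord g) ∧
        (∀ K₁ : Subfield L, (∀ a ∈ K₁, d a = 0) → IsRationalOver K₁ P → 0 ≤ P.ord g))

/-- **DEREX** (enough derivations; Mathlib only).  If `K₁` is algebraically closed in `L`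
(characteristic zero) and `x ∉ K₁`, some derivation of `L` kills `K₁` but not `x`. -/
def StmtDEREX : Prop :=
  ∀ K₁ : Subfield L, AlgClosedIn K₁ → ∀ x : L, x ∉ K₁ →
    ∃ d : Derivation ℚ L L, (∀ a ∈ K₁, d a = 0) ∧ d x ≠ 0

/-- **CORE** (rigidity for functions).  If all zeros and poles of `f` which are not rational over
`K₁` lie in the support of an effective divisor `E` with `ℓ(E) = 1`, then `f` is a constant
multiple of a function with coefficients in `K₁`. -/
def StmtCORE : Prop :=
  ∀ K₁ : Subfield L, AlgClosedIn K₁ → ∀ (f : FL N L), f ≠ 0 →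
    ∀ E : Divisor L (FL N L), 0 ≤ E → ell E = 1 →
      (∀ P : Place L (FL N L), ¬ IsRationalOver K₁ P → P.ord f ≠ 0 → 0 < E P) →
      ∃ c : L, c ≠ 0 ∧ CoeffsIn K₁ (c • f)

/-- **ZRAT** (zeros of functions over `K₁` are rational over `K₁`). -/
def StmtZRAT : Prop :=
  ∀ K₁ : Subfield L, AlgClosedIn K₁ → ∀ (f : FL N L), CoeffsIn K₁ f →
    ∀ P : Place L (FL N L), P.ord f ≠ 0 → IsRationalOver K₁ P

/-- **CUSPRAT** (the cusp is rational over every subfield). -/
def StmtCUSPRAT : Prop := ∀ K₁ : Subfield L, IsRationalOver K₁ (cuspL N L)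

/-- **RIG** (rigidity for classes).  If `n • y` is represented by a divisor rational over `K₁`,
then the minimal representative of `y` is rational over `K₁`. -/
def StmtRIG : Prop :=
  ∀ K₁ : Subfield L, AlgClosedIn K₁ → ∀ (y : Pic0 L (FL N L)) (n : ℕ), n ≠ 0 →
    ∀ B : Divisor.degZero (K := L) (F := FL N L), DivRationalOver K₁ (B : Divisor L (FL N L)) →
      n • y = Pic0.mk B → DivRationalOver K₁ (minRep (cuspL N L) y)

/-- **NS** (generic points are non-special).  Every countable subfield `K` is contained in a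
countable subfield `K₀`, algebraically closed in `L`, such that `ℓ(P₁ + … + P_g) = 1` for every
tuple generic over `K₀`.  (`K₀` = a field of definition of a canonical divisor.) -/
def StmtNS : Prop :=
  ∀ K : Subfield L, (K : Set L).Countable →
    ∃ K₀ : Subfield L, K ≤ K₀ ∧ AlgClosedIn K₀ ∧ (K₀ : Set L).Countable ∧
      ∀ P : Fin (gL N L) → Place L (FL N L), IsGenericTuple K₀ P → ell (sumPl P) = 1

/-- **GEN** (generic tuples exist). -/
def StmtGEN : Prop :=
  ∀ K₀ : Subfield L, (K₀ : Set L).Countable →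
    ∃ P : Fin (gL N L) → Place L (FL N L), IsGenericTuple K₀ P

/-- **GENSTAB** (the set of generic classes is stable under `n •` and under translation by
classes rational over `K₀`). -/
def StmtGENSTAB : Prop :=
  ∀ K₀ : Subfield L, AlgClosedIn K₀ →
    (∀ P : Fin (gL N L) → Place L (FL N L), IsGenericTuple K₀ P → ell (sumPl P) = 1) →
    ∀ ξ ∈ Gen N L K₀,
      (∀ n : ℕ, n ≠ 0 → n • ξ ∈ Gen N L K₀) ∧
      (∀ B : Divisor.degZero (K := L) (F := FL N L),
        DivRationalOver K₀ (B : Divisor L (FL N L)) → Pic0.mk B + ξ ∈ Gen N L K₀)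

/-- **TRANS** (transitivity).  `Aut(L/K₀)` acts transitively on generic tuples. -/
def StmtTRANS : Prop :=
  ∀ K₀ : Subfield L, AlgClosedIn K₀ → (K₀ : Set L).Countable →
    ∀ P Q : Fin (gL N L) → Place L (FL N L), IsGenericTuple K₀ P → IsGenericTuple K₀ Q →
      ∃ σ : L ≃ₐ[ℚ] L, (∀ a ∈ K₀, σ a = a) ∧
        ∀ i, arithmeticGalois (modularFunctionFieldFull N) σ • P i = Q i

end WithFF1

section BaseChange

variable (N : ℕ) [NeZero N] (L : Type) [Field L] [Algebra ℚ L] [Algebra Qb L]
  [FF1 L (FL N L)]

/-- The image of `ℚ̄` in `L`. -/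
def kL : Subfield L := (algebraMap Qb L).fieldRange

/-- **BC** (base change of classes).  An injective homomorphism `J(ℚ̄) → J(L)` whose image
consists of the classes with `ℚ̄`-rational minimal representative; every class in the image is
represented by a `ℚ̄`-rational divisor. -/
def StmtBC : Prop :=
  ∃ β : JZero N →+ Pic0 L (FL N L), Function.Injective β ∧
    (∀ x : JZero N, ∃ B : Divisor.degZero (K := L) (F := FL N L),
      DivRationalOver (kL L) (B : Divisor L (FL N L)) ∧ β x = Pic0.mk B) ∧
    (∀ y : Pic0 L (FL N L), DivRationalOver (kL L) (minRep (cuspL N L) y) → y ∈ Set.range β)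

end BaseChange

end Fermat.Agent.S17.GDiv

end
end
-- ===== PACK-END S17/GDiv/Defs.lean

-- ===== PACK-BEGIN S17/GDiv/Assembly.lean
section



/-!
# S17 / G-DIV, algebraic line: the assembly (complete)

`divisible_of` : `J₀(N)(ℚ̄)` is divisible, from the frozen pieces of `Defs.lean`
(`StmtBC`, `StmtRIG`, `StmtNS`, `StmtGEN`, `StmtGENSTAB`, `StmtTRANS`) for ONE algebraically
closed field `L ⊇ ℚ̄`.

Proof (helper20's ending).  `𝒢` = generic classes over `K₀`, `ξ ∈ 𝒢`.  Then `n ξ ∈ 𝒢` and
`β x + ξ ∈ 𝒢`; by transitivity `n ξ = σ ξ`, `β x + ξ = τ ξ`, hence `ξ = n σ⁻¹ ξ` and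
`β x = n (τ σ⁻¹ ξ - σ⁻¹ ξ) =: n y`; by rigidity `y` is `ℚ̄`-rational, `y = β y₀`, and `n y₀ = x`
by injectivity of `β`.
-/

set_option autoImplicit false

noncomputable section

open AlgebraicCurve ModularCurve

namespace Fermat.Agent.S17.GDiv

open Fermat.Agent.Lib.RR Fermat.Agent.S17.H680

section

variable {N : ℕ} [NeZero N] {L : Type} [Field L] [Algebra ℚ L] [FF1 L (FL N L)]

omit [NeZero N] [FF1 L (FL N L)] in
theorem DivRationalOver.mono {K₁ K₂ : Subfield L} (h : K₁ ≤ K₂) {D : Divisor L (FL N L)}
    (hD : DivRationalOver K₁ D) : DivRationalOver K₂ D :=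
  fun P hP u c hc => h (hD P hP u c hc)

omit [FF1 L (FL N L)] in
theorem galois_smul_cuspL (σ : L ≃ₐ[ℚ] L) :
    arithmeticGalois (modularFunctionFieldFull N) σ • cuspL N L = cuspL N L :=
  arithmeticGalois_smul_cuspInf _ _ σ

omit [NeZero N] [FF1 L (FL N L)] in
theorem galois_smul_sumPl (σ : L ≃ₐ[ℚ] L) {m : ℕ} (P : Fin m → Place L (FL N L)) :
    arithmeticGalois (modularFunctionFieldFull N) σ • sumPl P
      = sumPl (fun i => arithmeticGalois (modularFunctionFieldFull N) σ • P i) := by
  simp only [sumPl, Finset.smul_sum, smul_prim]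

theorem galois_smul_cls (σ : L ≃ₐ[ℚ] L) {m : ℕ} (P : Fin m → Place L (FL N L)) :
    σ • cls P = cls (fun i => arithmeticGalois (modularFunctionFieldFull N) σ • P i) := by
  rw [galois_smul_pic0_def, cls, cls, SemilinearAut.pic0_smul_mk]
  congr 1
  apply Subtype.ext
  rw [SemilinearAut.coe_degZeroSMulHom]
  show arithmeticGalois (modularFunctionFieldFull N) σ • (sumPl P - m • prim (cuspL N L)) = _
  rw [smul_sub, smul_comm, smul_prim, galois_smul_cuspL, galois_smul_sumPl]

/-- Transitivity on generic classes. -/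
theorem exists_smul_eq_of_mem_Gen (hTRANS : StmtTRANS N L) {K₀ : Subfield L}
    (hK₀a : AlgClosedIn K₀) (hK₀c : (K₀ : Set L).Countable)
    {ξ ξ' : Pic0 L (FL N L)} (hξ : ξ ∈ Gen N L K₀) (hξ' : ξ' ∈ Gen N L K₀) :
    ∃ σ : L ≃ₐ[ℚ] L, σ • ξ = ξ' := by
  obtain ⟨P, hP, rfl⟩ := hξ
  obtain ⟨Q, hQ, rfl⟩ := hξ'
  obtain ⟨σ, -, hσ⟩ := hTRANS K₀ hK₀a hK₀c P Q hP hQ
  refine ⟨σ, ?_⟩
  rw [galois_smul_cls]
  congr 1
  funext i
  exact hσ i

end

section Main

variable (N : ℕ) [NeZero N] (L : Type) [Field L] [Algebra ℚ L] [Algebra Qb L]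
  [FF1 L (FL N L)]

/-- **G-DIV from the pieces.** -/
theorem divisible_of (hkc : (kL L : Set L).Countable) (hka : AlgClosedIn (kL L))
    (hBC : StmtBC N L) (hRIG : StmtRIG N L)
    (hNS : StmtNS N L)
    (hGEN : StmtGEN N L) (hSTAB : StmtGENSTAB N L) (hTRANS : StmtTRANS N L)
    (n : ℕ) (hn : n ≠ 0) (x : JZero N) : ∃ y : JZero N, n • y = x := by
  obtain ⟨β, hβinj, hβrat, hβrange⟩ := hBC
  obtain ⟨K₀, hK, hK₀a, hK₀c, hns⟩ := hNS (kL L) hkc
  obtain ⟨P, hP⟩ := hGEN K₀ hK₀c
  have hξ : cls P ∈ Gen N L K₀ := ⟨P, hP, rfl⟩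
  obtain ⟨h1, h2⟩ := hSTAB K₀ hK₀a hns (cls P) hξ
  obtain ⟨B, hB, hβx⟩ := hβrat x
  obtain ⟨σ, hσ⟩ := exists_smul_eq_of_mem_Gen hTRANS hK₀a hK₀c hξ (h1 n hn)
  obtain ⟨τ, hτ⟩ := exists_smul_eq_of_mem_Gen hTRANS hK₀a hK₀c hξ (h2 B (hB.mono hK))
  have comm : ∀ (ρ : L ≃ₐ[ℚ] L) (z : Pic0 L (FL N L)), n • (ρ • z) = ρ • (n • z) :=
    fun ρ z => (map_nsmul (DistribSMul.toAddMonoidHom (Pic0 L (FL N L)) ρ) n z).symm
  have h3 : n • (σ⁻¹ • cls P) = cls P := by
    rw [comm, ← hσ, inv_smul_smul]
  have hy : n • (τ • σ⁻¹ • cls P - σ⁻¹ • cls P) = β x := by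
    rw [nsmul_sub, comm τ, h3, hτ, hβx, add_sub_cancel_right]
  have hyr := hRIG (kL L) hka _ n hn B hB (by rw [hy, hβx])
  obtain ⟨y₀, hy₀⟩ := hβrange _ hyr
  refine ⟨y₀, hβinj ?_⟩
  rw [map_nsmul, hy₀, hy]

end Main

end Fermat.Agent.S17.GDiv

end
end
-- ===== PACK-END S17/GDiv/Assembly.lean

-- ===== PACK-BEGIN S17/H917/CoreRig.lean
section



/-!
# S17 / G-DIV, pieces CORE (rigidity for functions) and RIG (rigidity for classes)

* `stmtCORE : StmtDER N L → StmtDEREX L → StmtDPRES N L → StmtCORE N L`
* `stmtRIG  : StmtCORE N L → StmtZRAT N L → StmtCUSPRAT N L → StmtRIG N L`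

## CORE

Proof (plan `coord/S17-GDIV.md` v2 of helper797).  Normalise the leading `q`-coefficient of `f` to
`1`: `f₁ = c • f`.  If some coefficient `x` of `f₁` is not in `K₁`, DEREX gives a derivation `∂` of
`L` killing `K₁` with `∂ x ≠ 0`; `h := D f₁` (coefficientwise `∂`, DPRES) is nonzero and
`g := h / f₁` has, by DER, at most simple poles, all of them at non-`K₁`-rational zeros or poles of
`f`, i.e. in the support of `E`.  So `g ∈ L(E) = L` (as `ℓ(E) = 1`): `D f₁ = a • f₁` for a constant
`a`; comparing the leading coefficients, `a = ∂ 1 = 0`, so `D f₁ = 0`, a contradiction.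

## RIG

Let `E = minRep y`, `m = minDeg y`, so `y = [E - m ∞]`, `E ≥ 0`, `ℓ(E) = 1`.  From `n • y = [B]`
we get `h ≠ 0` with `B = n (E - m ∞) + div h`.  A place `P` which is not `K₁`-rational is not the
cusp (CUSPRAT) and not in the support of `B`, so `ord_P h = - n E(P)`; in particular all
non-rational zeros and poles of `h` lie in the support of `E`.  By CORE a constant multiple of `h`
has coefficients in `K₁`, hence by ZRAT all zeros and poles of `h` are `K₁`-rational.  So a
non-rational `P` has `E(P) = 0`.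
-/

set_option autoImplicit false

noncomputable section

open AlgebraicCurve ModularCurve

namespace Fermat.Agent.S17.H917

open Fermat.Agent.Lib.RR Fermat.Agent.S17.H680 Fermat.Agent.S17.GDiv

variable {N : ℕ} [NeZero N] {L : Type} [Field L] [Algebra ℚ L]

omit [NeZero N] in
/-- Coefficients of a constant multiple. -/
theorem coeff_algebraMap_mul_FL (a : L) (f : FL N L) (m : ℤ) :
    ((algebraMap L (FL N L) a * f : FL N L) : LaurentSeries L).coeff m
      = a * (f : LaurentSeries L).coeff m := by
  show (algebraMap L (LaurentSeries L) a * (f : LaurentSeries L)).coeff m = _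
  rw [algebraMap_laurentSeries_eq_single, HahnSeries.coeff_single_zero_mul]

omit [NeZero N] in
/-- Coefficients of a scalar multiple. -/
theorem coeff_smul_FL (c : L) (f : FL N L) (m : ℤ) :
    ((c • f : FL N L) : LaurentSeries L).coeff m = c * (f : LaurentSeries L).coeff m := by
  rw [Algebra.smul_def, coeff_algebraMap_mul_FL]

omit [NeZero N] in
/-- A nonzero element of `F_L` has a nonzero coefficient; normalising it gives a coefficient
equal to `1`. -/
theorem exists_coeff_ne_zero_FL {f : FL N L} (hf : f ≠ 0) :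
    ∃ m : ℤ, (f : LaurentSeries L).coeff m ≠ 0 := by
  have hf' : (f : LaurentSeries L) ≠ 0 := fun h => hf (Subtype.ext h)
  exact ⟨_, fun h => hf' (HahnSeries.coeff_order_eq_zero.mp h)⟩

omit [NeZero N] in
/-- If `E ≥ 0` and `ℓ(E) = 1`, then `L(E)` consists of the constants. -/
theorem exists_const_of_mem_L_of_ell_eq_one {E : Divisor L (FL N L)} (hE : 0 ≤ E)
    (hell : ell E = 1) {g : FL N L} (hg : g ∈ riemannRochSpace E) :
    ∃ a : L, g = algebraMap L (FL N L) a := by
  have h1 : (1 : FL N L) ∈ riemannRochSpace E := by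
    rw [mem_riemannRochSpace_iff]
    intro v
    right
    rw [Place.ord_one]
    have := Finsupp.le_def.mp hE v
    simp only [Finsupp.coe_zero, Pi.zero_apply] at this
    omega
  have hne : (⟨1, h1⟩ : riemannRochSpace E) ≠ 0 := by
    intro h
    have := congrArg Subtype.val h
    simp at this
  obtain ⟨a, ha⟩ := (finrank_eq_one_iff_of_nonzero' (⟨1, h1⟩ : riemannRochSpace E) hne).mp hell
    ⟨g, hg⟩
  refine ⟨a, ?_⟩
  have := congrArg Subtype.val ha
  simp only [Submodule.coe_smul] at this
  rw [← this, Algebra.smul_def, mul_one]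

omit [NeZero N] in
/-- **CORE** (rigidity for functions). -/
theorem stmtCORE (hDER : StmtDER N L) (hDEREX : StmtDEREX L) (hDPRES : StmtDPRES N L) :
    StmtCORE N L := by
  intro K₁ hK₁ f hf E hE hell hsupp
  -- normalise
  obtain ⟨n₀, hn₀⟩ := exists_coeff_ne_zero_FL hf
  set c : L := ((f : LaurentSeries L).coeff n₀)⁻¹ with hc
  have hc0 : c ≠ 0 := inv_ne_zero hn₀
  refine ⟨c, hc0, ?_⟩
  have hf₁ : c • f ≠ 0 := by
    rw [Algebra.smul_def]
    exact mul_ne_zero ((map_ne_zero _).mpr hc0) hf
  have hlead : ((c • f : FL N L) : LaurentSeries L).coeff n₀ = 1 := by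
    rw [coeff_smul_FL, hc, inv_mul_cancel₀ hn₀]
  -- coefficients
  intro m
  by_contra hx
  obtain ⟨d, hdK, hdx⟩ := hDEREX K₁ hK₁ _ hx
  obtain ⟨h, hh⟩ := hDPRES d (c • f)
  have hh0 : h ≠ 0 := by
    intro h0
    apply hdx
    rw [← hh m, h0]
    simp
  set g : FL N L := h / (c • f) with hg
  have hgf : g * (c • f) = h := div_mul_cancel₀ h hf₁
  have hg0 : g ≠ 0 := div_ne_zero hh0 hf₁
  have hder := hDER d (c • f) g hf₁ (fun m => by rw [hgf]; exact hh m)
  -- `g ∈ L(E)`
  have hgE : g ∈ riemannRochSpace E := by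
    rw [mem_riemannRochSpace_iff]
    intro P
    right
    rcases hder P with h0 | ⟨h1, h2, h3⟩
    · exact absurd h0 hg0
    have hEP : 0 ≤ E P := by
      have := Finsupp.le_def.mp hE P
      simpa using this
    by_cases hord : P.ord (c • f) = 0
    · have := h2 hord
      omega
    by_cases hrat : IsRationalOver K₁ P
    · have := h3 K₁ hdK hrat
      omega
    · have hordf : P.ord f ≠ 0 := by
        intro h0
        apply hord
        rw [Algebra.smul_def, P.ord_mul ((map_ne_zero _).mpr hc0) hf, ord_algebraMap, h0, zero_add]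
      have := hsupp P hrat hordf
      omega
  obtain ⟨a, ha⟩ := exists_const_of_mem_L_of_ell_eq_one hE hell hgE
  -- compare the coefficients at `n₀`
  have key : ∀ m : ℤ, d (((c • f : FL N L) : LaurentSeries L).coeff m)
      = a * ((c • f : FL N L) : LaurentSeries L).coeff m := by
    intro m
    rw [← hh m, ← hgf, ha, coeff_algebraMap_mul_FL]
  have ha0 : a = 0 := by
    have := key n₀
    rw [hlead, mul_one] at this
    rw [← this]
    exact d.map_one_eq_zero
  apply hdx
  rw [key m, ha0, zero_mul]

section Rig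

variable {N : ℕ} [NeZero N] {L : Type} [Field L] [Algebra ℚ L] [FF1 L (FL N L)]

/-- **RIG** (rigidity for classes). -/
theorem stmtRIG (hCORE : StmtCORE N L) (hZRAT : StmtZRAT N L) (hCUSP : StmtCUSPRAT N L) :
    StmtRIG N L := by
  intro K₁ hK₁ y n hn B hB hny
  have hE0 : 0 ≤ minRep (cuspL N L) y := minRep_nonneg _ y
  have hEell : ell (minRep (cuspL N L) y) = 1 := ell_minRep _ y
  -- the function `h`
  have h1 : Pic0.mk (n • minDiv (cuspL N L) y) = Pic0.mk B := by
    rw [← hny]
    conv_rhs => rw [← mk_minDiv (cuspL N L) y]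
    rfl
  obtain ⟨h, hh, e⟩ := mk_eq_mk_iff'.mp h1
  -- orders of `h` at the non-rational places
  have hord : ∀ P : Place L (FL N L), ¬ IsRationalOver K₁ P →
      P.ord h = - (n : ℤ) * minRep (cuspL N L) y P := by
    intro P hP
    have hPc : P ≠ cuspL N L := fun hc => hP (hc ▸ hCUSP K₁)
    have hPB : (B : Divisor L (FL N L)) P = 0 := by
      by_contra hne
      exact hP (hB P (Finsupp.mem_support_iff.mpr hne))
    have e' := DFunLike.congr_fun e P
    rw [hPB, Finsupp.add_apply, divOf_apply, AddSubgroup.coe_nsmul, coe_minDiv,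
      Finsupp.smul_apply, Finsupp.sub_apply, Finsupp.smul_apply, prim_apply_of_ne hPc] at e'
    simp only [smul_zero, sub_zero, nsmul_eq_mul] at e'
    linarith
  -- CORE
  obtain ⟨c, hc0, hcoef⟩ := hCORE K₁ hK₁ h hh (minRep (cuspL N L) y) hE0 hEell (by
    intro P hP hne
    have hEP : 0 ≤ minRep (cuspL N L) y P := by
      have := Finsupp.le_def.mp hE0 P
      simpa using this
    rcases hEP.lt_or_eq with hlt | heq
    · exact hlt
    · exfalso
      apply hne
      rw [hord P hP, ← heq, mul_zero])
  -- ZRAT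
  have hzr := hZRAT K₁ hK₁ (c • h) hcoef
  intro P hPE
  by_contra hP
  apply hP
  apply hzr P
  rw [Algebra.smul_def, P.ord_mul ((map_ne_zero _).mpr hc0) hh, ord_algebraMap, zero_add,
    hord P hP]
  have hne : minRep (cuspL N L) y P ≠ 0 := Finsupp.mem_support_iff.mp hPE
  have hn' : (n : ℤ) ≠ 0 := by exact_mod_cast hn
  exact mul_ne_zero (neg_ne_zero.mpr hn') hne

end Rig

end Fermat.Agent.S17.H917

end
end
-- ===== PACK-END S17/H917/CoreRig.lean

-- ===== PACK-BEGIN S17/H770/DerStmt.lean
section




/-!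
# S17 / G-DIV (helper770): the pieces `StmtDPRES` and `StmtDEREX` of `GDiv/Defs.lean`
-/

set_option autoImplicit false

open AlgebraicCurve ModularCurve

namespace Fermat.Agent.S17.H770

open Fermat.Agent.S17.GDiv

/-- **DPRES**: the coefficientwise derivation preserves `F_L`. -/
theorem stmtDPRES (N : ℕ) (L : Type) [Field L] [Algebra ℚ L] : StmtDPRES N L := by
  intro d f
  exact ⟨fieldDer d (modularFunctionFieldFull N) f, fun m => rfl⟩

/-- **DEREX**: enough derivations. -/
theorem stmtDEREX (L : Type) [Field L] [Algebra ℚ L] : StmtDEREX L := by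
  intro K₁ hK₁ x hx
  have : CharZero L := charZero_of_injective_algebraMap (algebraMap ℚ L).injective
  have : CharZero K₁ := charZero_of_injective_algebraMap (algebraMap ℚ K₁).injective
  have htr : Transcendental K₁ x := fun halg => hx (hK₁ x halg)
  obtain ⟨D, hD⟩ := exists_derivation_eq_one (K := K₁) x htr
  refine ⟨D.restrictScalars ℚ, fun a ha => ?_, ?_⟩
  · exact D.map_algebraMap (⟨a, ha⟩ : K₁)
  · show D x ≠ 0
    rw [hD]
    exact one_ne_zero

end Fermat.Agent.S17.H770

end
-- ===== PACK-END S17/H770/DerStmt.lean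

-- ===== PACK-BEGIN S17/H797/DerDefs.lean
section




/-!
# S17 / G-DIV, piece DER: reduction to the two local statements (helper797)

`DL d` is the coefficientwise derivation of `F_L = L · F₀ ⊆ L((q))` attached to a derivation `d`
of `L`.  A place `P` of `F_L` is of CONSTANT TYPE if `ord_P` is non-trivial on the functions with
rational `q`-expansion, of GENERIC TYPE otherwise.

* `StmtDERa` : at a place of constant type, `ord_P (D h) ≥ ord_P h`;
* `StmtDERb` : at a place of generic type, `t` is finite at `P`, `ord_P (D h) ≥ ord_P h - 1`,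
  `D h` is regular if `h` is a unit, and `ord_P (D h) ≥ ord_P h` if `d` kills the value of `t`;
* `stmtDER_of` : `StmtDERa → StmtDERb → GDiv.StmtDER`  (proved here);
* `stmtDPRES` : `GDiv.StmtDPRES` (proved here, from helper800's `coeffDer_mem_laurentBaseChange`).
-/

set_option autoImplicit false

noncomputable section

open AlgebraicCurve ModularCurve

namespace Fermat.Agent.S17.H797

open Fermat.Agent.Lib.RR Fermat.Agent.S17.GDiv Fermat.Agent.S17.H800

section Defs

variable {N : ℕ} {L : Type} [Field L] [Algebra ℚ L]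

/-- The coefficientwise derivation of `F_L`. -/
def DL (d : Derivation ℚ L L) : FL N L →+ FL N L where
  toFun f := ⟨coeffDer d (f : LaurentSeries L), coeffDer_mem_laurentBaseChange d _ f.2⟩
  map_zero' := Subtype.ext (map_zero _)
  map_add' _ _ := Subtype.ext (map_add _ _ _)

@[simp]
theorem coe_DL (d : Derivation ℚ L L) (f : FL N L) :
    ((DL d f : FL N L) : LaurentSeries L) = coeffDer d (f : LaurentSeries L) := rfl

theorem coeff_DL (d : Derivation ℚ L L) (f : FL N L) (m : ℤ) :
    ((DL d f : FL N L) : LaurentSeries L).coeff m = d ((f : LaurentSeries L).coeff m) := rfl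

/-- Leibniz rule. -/
theorem DL_mul (d : Derivation ℚ L L) (f g : FL N L) :
    DL d (f * g) = f * DL d g + g * DL d f :=
  Subtype.ext (coeffDer_mul d _ _)

theorem DL_algebraMap (d : Derivation ℚ L L) (c : L) :
    DL d (algebraMap L (FL N L) c) = algebraMap L (FL N L) (d c) :=
  Subtype.ext (coeffDer_algebraMap d c)

theorem DL_bcQ (d : Derivation ℚ L L) (u : modularFunctionFieldFull N) :
    DL d (bcQ N L u) = 0 :=
  Subtype.ext (coeffDer_coeffEmb d _)

theorem DL_one (d : Derivation ℚ L L) : DL d (1 : FL N L) = 0 :=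
  Subtype.ext (coeffDer_one d)

theorem DL_inv (d : Derivation ℚ L L) (f : FL N L) :
    DL d f⁻¹ = -(f⁻¹ ^ 2 * DL d f) :=
  Subtype.ext (coeffDer_inv d _)

/-- Quotient rule. -/
theorem DL_div (d : Derivation ℚ L L) (a b : FL N L) :
    DL d (a / b) = (b * DL d a - a * DL d b) * (b⁻¹) ^ 2 := by
  rcases eq_or_ne b 0 with rfl | hb
  · simp
  rw [div_eq_mul_inv, DL_mul, DL_inv]
  field_simp
  ring

/-- `P` is of constant type: `ord_P` is non-trivial on the functions with rational
`q`-expansion. -/
def IsConstType (P : Place L (FL N L)) : Prop :=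
  ∃ u : modularFunctionFieldFull N, P.ord (bcQ N L u) ≠ 0

end Defs

section Stmts

variable (N : ℕ) [NeZero N] (L : Type) [Field L] [Algebra ℚ L]

/-- **DER-a**: places of constant type. -/
def StmtDERa : Prop :=
  ∀ (d : Derivation ℚ L L) (P : Place L (FL N L)), IsConstType P →
    ∀ h : FL N L, DL d h = 0 ∨ P.ord h ≤ P.ord (DL d h)

/-- **DER-b**: places of generic type. -/
def StmtDERb : Prop :=
  ∀ (d : Derivation ℚ L L) (P : Place L (FL N L)), ¬ IsConstType P →
    (∃ c : L, HasValue P (tL N L) c) ∧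
    ∀ h : FL N L, DL d h = 0 ∨
      (P.ord h - 1 ≤ P.ord (DL d h) ∧
        (P.ord h = 0 → 0 ≤ P.ord (DL d h)) ∧
        ((∀ c : L, HasValue P (tL N L) c → d c = 0) → P.ord h ≤ P.ord (DL d h)))

variable {N L}

omit [NeZero N] in
/-- **DPRES**. -/
theorem stmtDPRES [FF1 L (FL N L)] : StmtDPRES N L :=
  fun d f => ⟨DL d f, fun m => coeff_DL d f m⟩

/-- **DER** from the two local statements. -/
theorem stmtDER_of [FF1 L (FL N L)] (ha : StmtDERa N L) (hb : StmtDERb N L) : StmtDER N L := by
  intro d f g hf hg P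
  have hgf : g * f = DL d f := by
    apply Subtype.ext
    ext m
    exact hg m
  by_cases hg0 : g = 0
  · exact Or.inl hg0
  refine Or.inr ?_
  have hD0 : DL d f ≠ 0 := by
    rw [← hgf]
    exact mul_ne_zero hg0 hf
  have hord : P.ord (DL d f) = P.ord g + P.ord f := by
    rw [← hgf]
    exact P.ord_mul hg0 hf
  by_cases hP : IsConstType P
  · have h1 := (ha d P hP f).resolve_left hD0
    rw [hord] at h1
    have h0 : 0 ≤ P.ord g := by linarith
    exact ⟨by linarith, fun _ => h0, fun _ _ _ => h0⟩
  · obtain ⟨-, hb'⟩ := hb d P hP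
    obtain ⟨h1, h2, h3⟩ := (hb' f).resolve_left hD0
    rw [hord] at h1 h2 h3
    refine ⟨by linarith, fun h => by have := h2 h; linarith, fun K₁ hK₁ hrat => ?_⟩
    have := h3 (fun c hc => hK₁ c (hrat (jQ N) c hc))
    linarith

end Stmts

end Fermat.Agent.S17.H797

end
end
-- ===== PACK-END S17/H797/DerDefs.lean

-- ===== PACK-BEGIN S17/H711/DerB.lean
section





/-!
# S17 / G-DIV, piece DER-b (helper711): places of generic type

`stmtDERb : H797.StmtDERb N L` (exact shape of `H797/DerDefs.lean`, hypothesis `[FF1 L (FL N L)]`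
only), by INSTANTIATION of helper800's abstract local statement `H800.GenericSetup`
(`S17/H800/DerLocal.lean`) with `K₁ = ℚ`, `F₁ =` the image of the rational function field
`ℚ(X₀(N))` in `F_L`, `x = t = j`:

* `isAlgebraic_of_mem_F1` : `F₁` is algebraic over `ℚ(t)` (from the degree bound of S24,
  `Deg457.algDeg_of_mem_field` over `ℚ` + `hyp_complex_card`);
* `evT_injective` : `t` is transcendental over `ℚ`;
* `exists_frac` : `F_L = Frac (L · F₁)`;
* `tL_notMem_range` : `t` is not constant;
* `genericSetup` : the structure `GenericSetup P (DL d) F₁ t` at every place `P` of generic type.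
-/

set_option autoImplicit false
set_option linter.unusedSectionVars false
set_option linter.style.haveILetI false

noncomputable section

open AlgebraicCurve ModularCurve Polynomial

namespace Fermat.Agent.S17.H711

open Fermat.Agent.Lib.RR Fermat.Agent.S17.GDiv Fermat.Agent.S17.H797 Fermat.Agent.S17.H800

section Setup

variable (N : ℕ) [NeZero N] (L : Type) [Field L] [Algebra ℚ L]

/-- The `ℚ`-algebra structure of `F_L` (through `L`). -/
@[reducible] def algQ : Algebra ℚ (FL N L) :=
  ((algebraMap L (FL N L)).comp (algebraMap ℚ L)).toAlgebra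

attribute [local instance] algQ

theorem isScalarTower_algQ :
    @IsScalarTower ℚ L (FL N L) _ _ (algQ N L).toSMul :=
  IsScalarTower.of_algebraMap_eq (fun _ => rfl)

attribute [local instance] isScalarTower_algQ

/-- `bcQ` as a ring homomorphism. -/
def bcQHom : modularFunctionFieldFull N →+* FL N L where
  toFun := bcQ N L
  map_one' := Subtype.ext (map_one (coeffEmb L))
  map_mul' _ _ := Subtype.ext (map_mul (coeffEmb L) _ _)
  map_zero' := Subtype.ext (map_zero (coeffEmb L))
  map_add' _ _ := Subtype.ext (map_add (coeffEmb L) _ _)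

@[simp] theorem bcQHom_apply (u : modularFunctionFieldFull N) : bcQHom N L u = bcQ N L u := rfl

/-- The image of the rational function field in `F_L`, as an intermediate field over `ℚ`. -/
def F1 : IntermediateField ℚ (FL N L) := ((bcQHom N L).toRatAlgHom).fieldRange

theorem mem_F1 {h : FL N L} : h ∈ F1 N L ↔ ∃ u : modularFunctionFieldFull N, bcQ N L u = h := by
  rw [F1, AlgHom.mem_fieldRange]
  rfl

theorem bcQ_mem_F1 (u : modularFunctionFieldFull N) : bcQ N L u ∈ F1 N L :=
  (mem_F1 N L).2 ⟨u, rfl⟩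

/-- `t` is not a constant. -/
theorem tL_notMem_range : tL N L ∉ Set.range (algebraMap L (FL N L)) := by
  rintro ⟨c, hc⟩
  have h1 : ((algebraMap L (FL N L) c : FL N L) : LaurentSeries L).coeff (-1)
      = ((tL N L : FL N L) : LaurentSeries L).coeff (-1) := by rw [hc]
  have h2 : ((algebraMap L (FL N L) c : FL N L) : LaurentSeries L)
      = algebraMap L (LaurentSeries L) c := rfl
  rw [h2, algebraMap_laurentSeries_eq_single] at h1
  have h3 : ((tL N L : FL N L) : LaurentSeries L) = coeffEmb L jq := rfl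
  rw [h3, coeffEmb_coeff, coeff_jq_neg_one, map_one,
    HahnSeries.coeff_single_of_ne (by norm_num)] at h1
  exact zero_ne_one h1

/-- evaluation of rational polynomials at `t`, as a ring homomorphism -/
def evT : ℚ[X] →+* FL N L := (aeval (R := ℚ) (tL N L)).toRingHom

theorem evT_X : evT N L X = tL N L := by
  simp [evT]

open Fermat.Agent.S24.Deg457 in
theorem val_comp_evT :
    ((FL N L).val.toRingHom).comp (evT N L) =
      (coeffMap (algebraMap ℚ L)).comp (evJ (JK ℚ)) := by
  refine Polynomial.ringHom_ext' (Subsingleton.elim _ _) ?_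
  show ((evT N L X : FL N L) : LaurentSeries L) = coeffMap (algebraMap ℚ L) (aeval (JK ℚ) X)
  rw [evT_X, aeval_X, JK, coeffMap_coeffEmb']
  rfl

open Fermat.Agent.S24.Deg457 in
/-- Every function with rational `q`-expansion satisfies a nonzero polynomial relation over
`ℚ[t]`. -/
theorem exists_relation (u : modularFunctionFieldFull N) :
    ∃ Q : ℚ[X][X], Q ≠ 0 ∧ Q.eval₂ (evT N L) (bcQ N L u) = 0 := by
  have hx : coeffEmb ℚ (u : LaurentSeries ℚ) ∈ laurentBaseChange ℚ (modularFunctionFieldFull N) :=
    coeffEmb_mem_laurentBaseChange ℚ u.2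
  obtain ⟨Q, hQ0, -, hQ⟩ := algDeg_of_mem_field (N := N) (algebraMap ℚ ℂ) (hyp_complex_card N) hx
  refine ⟨Q, hQ0, ?_⟩
  have h1 := congrArg (coeffMap (algebraMap ℚ L)) hQ
  rw [Polynomial.hom_eval₂, map_zero, coeffMap_coeffEmb', ← val_comp_evT N L] at h1
  apply Subtype.ext
  show (FL N L).val.toRingHom (Q.eval₂ (evT N L) (bcQ N L u)) = 0
  rw [Polynomial.hom_eval₂]
  exact h1

open Fermat.Agent.S24.Deg457 in
/-- `t` is transcendental over `ℚ`. -/
theorem evT_injective : Function.Injective (evT N L) := by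
  rw [injective_iff_map_eq_zero]
  intro p hp
  by_contra hp0
  have h1 : (p.map (algebraMap ℚ L)) ≠ 0 := by
    rwa [Ne, Polynomial.map_eq_zero]
  have h2 := aeval_JK_ne_zero L h1
  apply h2
  have h3 := congrArg ((FL N L).val.toRingHom) hp
  rw [map_zero] at h3
  rw [← h3, aeval_def, Polynomial.eval₂_map]
  show _ = ((FL N L).val.toRingHom).comp (evT N L) p
  have : ((FL N L).val.toRingHom).comp (evT N L)
      = Polynomial.eval₂RingHom ((algebraMap L (LaurentSeries L)).comp (algebraMap ℚ L)) (JK L) := by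
    refine Polynomial.ringHom_ext' (Subsingleton.elim _ _) ?_
    show ((evT N L X : FL N L) : LaurentSeries L) = Polynomial.eval₂ _ (JK L) X
    rw [evT_X, Polynomial.eval₂_X]
    rfl
  rw [this]
  rfl

/-- Every element of the image of the rational function field is algebraic over `ℚ(t)`. -/
theorem isAlgebraic_of_mem_F1 {h : FL N L} (hh : h ∈ F1 N L) :
    IsAlgebraic (IntermediateField.adjoin ℚ {tL N L}) h := by
  obtain ⟨u, rfl⟩ := (mem_F1 N L).1 hh
  obtain ⟨Q, hQ0, hQ⟩ := exists_relation N L u
  let tE : IntermediateField.adjoin ℚ {tL N L} :=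
    ⟨tL N L, IntermediateField.mem_adjoin_simple_self ℚ (tL N L)⟩
  let ψ : ℚ[X] →+* IntermediateField.adjoin ℚ {tL N L} := (aeval (R := ℚ) tE).toRingHom
  have hcomp : (algebraMap (IntermediateField.adjoin ℚ {tL N L}) (FL N L)).comp ψ = evT N L := by
    refine Polynomial.ringHom_ext' (Subsingleton.elim _ _) ?_
    show algebraMap (IntermediateField.adjoin ℚ {tL N L}) (FL N L) (ψ X) = evT N L X
    rw [evT_X]
    simp [ψ, tE]
  have hψ : Function.Injective ψ := by
    have h1 : Function.Injective
        ((algebraMap (IntermediateField.adjoin ℚ {tL N L}) (FL N L)).comp ψ) := by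
      rw [hcomp]
      exact evT_injective N L
    intro a b hab
    exact h1 (by simp only [RingHom.comp_apply, hab])
  refine ⟨Q.map ψ, ?_, ?_⟩
  · rwa [Ne, ← Polynomial.map_zero ψ, (Polynomial.map_injective ψ hψ).eq_iff]
  · rw [aeval_def, Polynomial.eval₂_map, hcomp]
    exact hQ

/-- `F_L` is the fraction field of `L · F₁`. -/
theorem exists_frac (f : FL N L) :
    ∃ g ∈ Algebra.adjoin L (F1 N L : Set (FL N L)),
      ∃ h ∈ Algebra.adjoin L (F1 N L : Set (FL N L)), h ≠ 0 ∧ f * h = g := by
  have hf : (f : LaurentSeries L) ∈ IntermediateField.adjoin L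
      (⇑(coeffEmb L) '' ((modularFunctionFieldFull N : IntermediateField ℚ (LaurentSeries ℚ)) :
        Set (LaurentSeries ℚ))) := f.2
  rw [IntermediateField.mem_adjoin_iff_div] at hf
  obtain ⟨r, hr, s, hs, hfrs⟩ := hf
  have hle : Algebra.adjoin L
      (⇑(coeffEmb L) '' ((modularFunctionFieldFull N : IntermediateField ℚ (LaurentSeries ℚ)) :
        Set (LaurentSeries ℚ))) ≤
      (Algebra.adjoin L (F1 N L : Set (FL N L))).map (FL N L).val := by
    refine Algebra.adjoin_le ?_
    rintro _ ⟨y, hy, rfl⟩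
    exact ⟨bcQ N L ⟨y, hy⟩, Algebra.subset_adjoin (bcQ_mem_F1 N L _), rfl⟩
  obtain ⟨r', hr', rfl⟩ := hle hr
  obtain ⟨s', hs', rfl⟩ := hle hs
  by_cases hs0 : s' = 0
  · refine ⟨0, Subalgebra.zero_mem _, 1, Subalgebra.one_mem _, one_ne_zero, ?_⟩
    rw [mul_one]
    apply Subtype.ext
    rw [hfrs, hs0]
    simp
  · refine ⟨r', hr', s', hs', hs0, ?_⟩
    apply Subtype.ext
    have hs0' : ((FL N L).val s' : LaurentSeries L) ≠ 0 := by
      intro h
      exact hs0 (Subtype.ext h)
    show (f : LaurentSeries L) * (FL N L).val s' = (FL N L).val r'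
    rw [hfrs]
    exact div_mul_cancel₀ _ hs0'

end Setup

section Main

variable {N : ℕ} [NeZero N] {L : Type} [Field L] [Algebra ℚ L]

attribute [local instance] algQ isScalarTower_algQ

/-- The hypotheses of helper800's abstract local statement hold at a place of generic type of
`F_L`. -/
theorem genericSetup [FF1 L (FL N L)] (d : Derivation ℚ L L) (P : Place L (FL N L))
    (hP : ¬ IsConstType P) :
    GenericSetup (K1 := ℚ) P (DL d) (F1 N L) (tL N L) where
  deg_one := deg_eq_one P
  isDer := ⟨fun f g => DL_mul d f g⟩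
  der_F1 := by
    intro h hh
    obtain ⟨u, rfl⟩ := (mem_F1 N L).1 hh
    exact DL_bcQ d u
  der_const := fun c => ⟨d c, DL_algebraMap d c⟩
  generic := by
    intro h hh _
    obtain ⟨u, rfl⟩ := (mem_F1 N L).1 hh
    by_contra hne
    exact hP ⟨u, hne⟩
  x_mem := bcQ_mem_F1 N L (jQ N)
  x_nonconst := tL_notMem_range N L
  algebraic := fun _ hh => isAlgebraic_of_mem_F1 N L hh
  frac := exists_frac N L

/-- **DER-b**: places of generic type. -/
theorem stmtDERb [FF1 L (FL N L)] : StmtDERb N L := by
  intro d P hP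
  have H := genericSetup d P hP
  obtain ⟨a, ha, hu0⟩ := H.exists_value
  refine ⟨⟨a, ha⟩, fun h => ?_⟩
  by_cases hD : DL d h = 0
  · exact Or.inl hD
  refine Or.inr ?_
  have hh0 : h ≠ 0 := by
    rintro rfl
    exact hD (map_zero _)
  refine ⟨H.ord_sub_one_le_ord_der hh0 hD, fun hord => ?_, fun hval => ?_⟩
  · exact ord_nonneg_of_mem P (H.der_mem_of_ord_eq_zero hh0 hord)
  · have hda : d a = 0 := hval a ha
    refine (H.derLocalData ha hu0).ord_le_ord_der ?_ hh0 hD
    have ht : DL d (tL N L) = 0 := DL_bcQ d (jQ N)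
    rw [map_sub, ht, DL_algebraMap, hda, map_zero, sub_zero]

end Main

end Fermat.Agent.S17.H711

end
end
-- ===== PACK-END S17/H711/DerB.lean

-- ===== PACK-BEGIN S17/H200/PlextVal.lean
section


/-!
# G-DIV / PLEXT, part 1: values of functions at places (small calculus)

`VanishesAt P` is the maximal ideal of `P`, `HasValue P f c` is "`f ≡ c` modulo the maximal
ideal".  We prove existence (for functions regular at `P`), uniqueness and linearity of values.
-/

set_option autoImplicit false

noncomputable section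

open AlgebraicCurve ModularCurve

namespace Fermat.Agent.S17.H200

open Fermat.Agent.Lib.RR Fermat.Agent.S17.GDiv

variable {N : ℕ} [NeZero N] {L : Type} [Field L] [Algebra ℚ L]

omit [NeZero N] in
theorem vanishesAt_zero (P : Place L (FL N L)) : VanishesAt P (0 : FL N L) := Or.inl rfl

omit [NeZero N] in
theorem VanishesAt.add {P : Place L (FL N L)} {f g : FL N L} (hf : VanishesAt P f)
    (hg : VanishesAt P g) : VanishesAt P (f + g) := by
  have h := ord_add_of_le P (n := 1)
    (hf.imp id fun h => by omega) (hg.imp id fun h => by omega)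
  exact h.imp id fun h => by omega

omit [NeZero N] in
theorem VanishesAt.smul {P : Place L (FL N L)} {f : FL N L} (hf : VanishesAt P f) (a : L) :
    VanishesAt P (a • f) := by
  rcases hf with rfl | hf
  · left; rw [smul_zero]
  rcases eq_or_ne a 0 with rfl | ha
  · left; rw [zero_smul]
  right
  have hf0 : f ≠ 0 := ne_zero_of_ord_ne_zero P (by omega)
  have ha0 : algebraMap L (FL N L) a ≠ 0 := by
    rwa [Ne, map_eq_zero]
  rw [Algebra.smul_def, P.ord_mul ha0 hf0, ord_algebraMap]
  omega

omit [NeZero N] in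
theorem VanishesAt.neg {P : Place L (FL N L)} {f : FL N L} (hf : VanishesAt P f) :
    VanishesAt P (-f) := by
  rcases hf with rfl | hf
  · left; rw [neg_zero]
  · right; rwa [ord_neg]

omit [NeZero N] in
theorem not_vanishesAt_algebraMap {P : Place L (FL N L)} {a : L} (ha : a ≠ 0) :
    ¬ VanishesAt P (algebraMap L (FL N L) a) := by
  rintro (h | h)
  · exact ha ((map_eq_zero _).mp h)
  · rw [ord_algebraMap] at h
    exact lt_irrefl _ h

omit [NeZero N] in
theorem hasValue_zero (P : Place L (FL N L)) : HasValue P (0 : FL N L) 0 := by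
  unfold HasValue
  rw [map_zero, sub_zero]
  exact vanishesAt_zero P

omit [NeZero N] in
theorem HasValue.add {P : Place L (FL N L)} {f g : FL N L} {c d : L} (hf : HasValue P f c)
    (hg : HasValue P g d) : HasValue P (f + g) (c + d) := by
  unfold HasValue at *
  have := VanishesAt.add hf hg
  rwa [show f - algebraMap L (FL N L) c + (g - algebraMap L (FL N L) d)
    = f + g - algebraMap L (FL N L) (c + d) by rw [map_add]; ring] at this

omit [NeZero N] in
theorem HasValue.smul {P : Place L (FL N L)} {f : FL N L} {c : L} (hf : HasValue P f c)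
    (a : L) : HasValue P (a • f) (a * c) := by
  unfold HasValue at *
  have := VanishesAt.smul hf a
  rwa [show a • (f - algebraMap L (FL N L) c) = a • f - algebraMap L (FL N L) (a * c) by
    rw [smul_sub, map_mul, Algebra.smul_def a (algebraMap L (FL N L) c)]] at this

omit [NeZero N] in
theorem HasValue.unique {P : Place L (FL N L)} {f : FL N L} {c d : L} (hc : HasValue P f c)
    (hd : HasValue P f d) : c = d := by
  by_contra hne
  unfold HasValue at *
  have h := VanishesAt.add hd (VanishesAt.neg hc)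
  rw [show f - algebraMap L (FL N L) d + -(f - algebraMap L (FL N L) c)
    = algebraMap L (FL N L) (c - d) by rw [map_sub]; ring] at h
  exact not_vanishesAt_algebraMap (sub_ne_zero.mpr hne) h

omit [NeZero N] in
theorem hasValue_zero_iff {P : Place L (FL N L)} {f : FL N L} :
    HasValue P f 0 ↔ VanishesAt P f := by
  unfold HasValue
  rw [map_zero, sub_zero]

variable [FF1 L (FL N L)]

omit [NeZero N] in
/-- A function which is regular at `P` has a value at `P`. -/
theorem exists_hasValue {P : Place L (FL N L)} {f : FL N L} (hf : f = 0 ∨ 0 ≤ P.ord f) :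
    ∃ c : L, HasValue P f c := by
  have hf' : 0 ≤ P.ord f := by
    rcases hf with rfl | h
    · rw [Place.ord_zero]
    · exact h
  exact exists_const_sub P (deg_eq_one P) hf'

end Fermat.Agent.S17.H200

end
end
-- ===== PACK-END S17/H200/PlextVal.lean

-- ===== PACK-BEGIN S17/H830/NSVal.lean
section


/-!
# S17 / G-DIV, piece NS (helper830), part 1: values of functions at places

General API (`K`, `F` arbitrary, places of the Prelude):

* `HasVal P f c` : `f` has the finite value `c` at `P` (`f - c = 0 ∨ 0 < ord_P (f - c)`), the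
  general form of `GDiv.HasValue`;
* `hasVal_iff_residue`, uniqueness, compatibility with `+`, `*`, `⁻¹`, constants;
* `HasVal.smul` : semilinear automorphisms transport values;
* `finite_setOf_ord_ne_zero` : a nonzero function has finitely many zeros and poles.
-/

set_option autoImplicit false

noncomputable section

open AlgebraicCurve

namespace Fermat.Agent.S17.H830

open Fermat.Agent.Lib.RR

section General

variable {K F : Type*} [Field K] [Field F] [Algebra K F]

/-- `f` has the finite value `c` at `P`. -/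
def HasVal (P : Place K F) (f : F) (c : K) : Prop :=
  f - algebraMap K F c = 0 ∨ 0 < P.ord (f - algebraMap K F c)

theorem HasVal.mem {P : Place K F} {f : F} {c : K} (h : HasVal P f c) :
    f ∈ P.toValuationSubring := by
  have h1 : f - algebraMap K F c ∈ P.toValuationSubring := by
    rcases h with h | h
    · rw [h]; exact zero_mem _
    · exact mem_of_ord_nonneg P h.le
  have h2 := add_mem h1 (P.algebraMap_mem' c)
  rwa [sub_add_cancel] at h2

theorem algebraMap_residue (P : Place K F) (c : K) :
    algebraMap K P.ResidueField c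
      = IsLocalRing.residue P.toValuationSubring (algebraMap K P.toValuationSubring c) := by
  rw [IsScalarTower.algebraMap_apply K P.toValuationSubring P.ResidueField]
  rfl

theorem hasVal_iff_residue (P : Place K F) (f : F) (c : K) :
    HasVal P f c ↔ ∃ hf : f ∈ P.toValuationSubring,
      IsLocalRing.residue P.toValuationSubring ⟨f, hf⟩ = algebraMap K P.ResidueField c := by
  constructor
  · intro h
    refine ⟨h.mem, ?_⟩
    rw [algebraMap_residue, ← sub_eq_zero, ← map_sub, IsLocalRing.residue_eq_zero_iff,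
      mem_maximalIdeal_iff]
    exact h
  · rintro ⟨hf, h⟩
    rw [algebraMap_residue, ← sub_eq_zero, ← map_sub, IsLocalRing.residue_eq_zero_iff,
      mem_maximalIdeal_iff] at h
    exact h

theorem HasVal.unique {P : Place K F} {f : F} {c c' : K} (h : HasVal P f c)
    (h' : HasVal P f c') : c = c' := by
  obtain ⟨hf, h1⟩ := (hasVal_iff_residue P f c).mp h
  obtain ⟨_, h2⟩ := (hasVal_iff_residue P f c').mp h'
  exact (algebraMap K P.ResidueField).injective (h1.symm.trans h2)

theorem hasVal_algebraMap (P : Place K F) (c : K) : HasVal P (algebraMap K F c) c :=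
  Or.inl (sub_self _)

theorem HasVal.add {P : Place K F} {f g : F} {c d : K} (hf : HasVal P f c)
    (hg : HasVal P g d) : HasVal P (f + g) (c + d) := by
  obtain ⟨hf', h1⟩ := (hasVal_iff_residue P f c).mp hf
  obtain ⟨hg', h2⟩ := (hasVal_iff_residue P g d).mp hg
  refine (hasVal_iff_residue P _ _).mpr ⟨add_mem hf' hg', ?_⟩
  have : (⟨f + g, add_mem hf' hg'⟩ : P.toValuationSubring) = ⟨f, hf'⟩ + ⟨g, hg'⟩ := rfl
  rw [this, map_add, h1, h2, map_add]

theorem HasVal.mul {P : Place K F} {f g : F} {c d : K} (hf : HasVal P f c)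
    (hg : HasVal P g d) : HasVal P (f * g) (c * d) := by
  obtain ⟨hf', h1⟩ := (hasVal_iff_residue P f c).mp hf
  obtain ⟨hg', h2⟩ := (hasVal_iff_residue P g d).mp hg
  refine (hasVal_iff_residue P _ _).mpr ⟨mul_mem hf' hg', ?_⟩
  have : (⟨f * g, mul_mem hf' hg'⟩ : P.toValuationSubring) = ⟨f, hf'⟩ * ⟨g, hg'⟩ := rfl
  rw [this, map_mul, h1, h2, map_mul]

theorem HasVal.neg {P : Place K F} {f : F} {c : K} (hf : HasVal P f c) :
    HasVal P (-f) (-c) := by
  have h := (hasVal_algebraMap P (-1 : K)).mul hf
  simpa using h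

theorem HasVal.sub {P : Place K F} {f g : F} {c d : K} (hf : HasVal P f c)
    (hg : HasVal P g d) : HasVal P (f - g) (c - d) := by
  rw [sub_eq_add_neg, sub_eq_add_neg]
  exact hf.add hg.neg

/-- A function with a finite value at `P` which vanishes at `P` has value `0`. -/
theorem hasVal_zero_iff (P : Place K F) (f : F) : HasVal P f 0 ↔ (f = 0 ∨ 0 < P.ord f) := by
  unfold HasVal
  rw [map_zero, sub_zero]

theorem HasVal.ord_nonneg {P : Place K F} {f : F} {c : K} (h : HasVal P f c) :
    0 ≤ P.ord f :=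
  ord_nonneg_of_mem P h.mem

/-- At a place of degree one, every function without pole has a value. -/
theorem exists_hasVal (P : Place K F) (hP : P.deg = 1) {f : F} (hf : 0 ≤ P.ord f) :
    ∃ c : K, HasVal P f c :=
  exists_const_sub P hP hf

/-- Semilinear automorphisms transport values. -/
theorem HasVal.smul (g : SemilinearAut K F) {P : Place K F} {f : F} {c : K}
    (h : HasVal P f c) : HasVal (g • P) (g • f) (SemilinearAut.baseAut g c) := by
  have key : g • (f - algebraMap K F c)
      = g • f - algebraMap K F (SemilinearAut.baseAut g c) := by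
    rw [smul_sub, SemilinearAut.smul_algebraMap]
  unfold HasVal
  rw [← key]
  rcases h with h | h
  · left
    rw [h, smul_zero]
  · right
    rw [SemilinearAut.ord_smul]
    exact h

/-- A nonzero function has finitely many zeros and poles. -/
theorem finite_setOf_ord_ne_zero [HasPrincipalDivisors K F] {f : F} (hf : f ≠ 0) :
    {v : Place K F | v.ord f ≠ 0}.Finite := by
  classical
  obtain ⟨D, hD, -⟩ := HasPrincipalDivisors.exists_divisor (K := K) f hf
  refine D.support.finite_toSet.subset ?_
  intro v hv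
  rw [Finset.mem_coe, Finsupp.mem_support_iff, hD]
  exact hv

end General

end Fermat.Agent.S17.H830

end
end
-- ===== PACK-END S17/H830/NSVal.lean

-- ===== PACK-BEGIN S17/H137/Gen.lean
section




/-!
# S17 / G-DIV: the piece GEN (helper137)

`stmtGEN N L : StmtGEN N L` — generic tuples exist: for a countable subfield `K₀` of an
uncountable algebraically closed field `L ⊇ ℚ` there are `g` places `P₁, …, P_g` of `F_L` at
which `t = j` is finite with values algebraically independent over `K₀`.
Hypotheses: `[Field L] [Algebra ℚ L] [IsAlgClosed L] [Uncountable L] [FF1 L (FL N L)]`.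

Also (reusable by the other G-DIV pieces):

* `hasValue_unique` : a function has at most one value at a place;
* `tval_eq_of_hasValue` : `tval P = c` if `t` has the value `c` at `P`;
* `transcendental_tL`, `finiteDimensional_tL` : `t` is transcendental over `L` and `F_L` is finite
  over `L(t)`;
* `exists_place_hasValue_tL` : every `c ∈ L` is the `t`-value of some place;
* `exists_algebraicIndependent_fin` : arbitrarily long algebraically independent tuples over a
  countable subfield of an uncountable algebraically closed field.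
-/

set_option autoImplicit false

noncomputable section

open AlgebraicCurve ModularCurve IntermediateField

namespace Fermat.Agent.S17.H137

open Fermat.Agent.Lib.RR Fermat.Agent.S17.GDiv Fermat.Agent.S24

section Values

variable {N : ℕ} {L : Type} [Field L] [Algebra ℚ L]

/-- A function has at most one value at a place. -/
theorem hasValue_unique (P : Place L (FL N L)) (f : FL N L) {c c' : L}
    (h : HasValue P f c) (h' : HasValue P f c') : c = c' := by
  by_contra hne
  have hd : (f - algebraMap L (FL N L) c') - (f - algebraMap L (FL N L) c)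
      = algebraMap L (FL N L) (c - c') := by
    rw [map_sub]; ring
  have hd0 : algebraMap L (FL N L) (c - c') ≠ 0 := by
    rw [Ne, map_eq_zero, sub_eq_zero]; exact hne
  have hord : P.ord (algebraMap L (FL N L) (c - c')) = 0 := FF.ord_algebraMap P _
  rcases h with h | h <;> rcases h' with h' | h'
  · rw [h, h', sub_self] at hd
    exact hd0 hd.symm
  · rw [h, sub_zero] at hd
    rw [hd, hord] at h'
    exact lt_irrefl _ h'
  · rw [h', zero_sub] at hd
    have h2 : P.ord (-(f - algebraMap L (FL N L) c)) = P.ord (f - algebraMap L (FL N L) c) :=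
      Fermat.Agent.Lib.RR.ord_neg P _
    rw [← h2, hd, hord] at h
    exact lt_irrefl _ h
  · have hsum : (f - algebraMap L (FL N L) c') + -(f - algebraMap L (FL N L) c) ≠ 0 := by
      rw [← sub_eq_add_neg, hd]; exact hd0
    have h2 : P.ord (-(f - algebraMap L (FL N L) c)) = P.ord (f - algebraMap L (FL N L) c) :=
      Fermat.Agent.Lib.RR.ord_neg P _
    have := FF.ord_add_ge P hsum
    rw [← sub_eq_add_neg, hd, hord, h2] at this
    have := lt_min h' h
    omega

/-- The `t`-value of a place at which `t` has the value `c`. -/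
theorem tval_eq_of_hasValue [NeZero N] (P : Place L (FL N L)) {c : L}
    (h : HasValue P (tL N L) c) : tval P = c := by
  have hex : ∃ c : L, HasValue P (tL N L) c := ⟨c, h⟩
  unfold tval
  rw [dif_pos hex]
  exact hasValue_unique P _ hex.choose_spec h

end Values

section Coordinate

variable (N : ℕ) [NeZero N] (L : Type) [Field L] [Algebra ℚ L]

/-- `t = j` is not a constant. -/
theorem tL_not_mem_range : tL N L ∉ (algebraMap L (FL N L)).range := by
  rintro ⟨c, hc⟩
  have h1 : (coeffEmb L jq).order < 0 := by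
    have h : (coeffEmb L jq).order ≤ -1 :=
      HahnSeries.order_le_of_coeff_ne_zero (by
        rw [coeffEmb_coeff, coeff_jq_neg_one, map_one]; exact one_ne_zero)
    omega
  have h2 : ((tL N L : FL N L) : LaurentSeries L) = coeffEmb L jq := rfl
  have h3 : ((algebraMap L (FL N L) c : FL N L) : LaurentSeries L)
      = algebraMap L (LaurentSeries L) c := rfl
  rw [← hc, h3] at h2
  rw [← h2] at h1
  have h4 : (algebraMap L (LaurentSeries L) c).order = 0 :=
    Fermat.Agent.S17.H680.order_algebraMap_laurent c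
  omega

variable [IsAlgClosed L]

/-- `t = j` is transcendental over `L`. -/
theorem transcendental_tL : Transcendental L (tL N L) :=
  FF.transcendental_of_not_mem_range (tL_not_mem_range N L)

variable [FF1 L (FL N L)]

/-- `F_L` is finite over `L(t)`. -/
theorem finiteDimensional_tL : FiniteDimensional L⟮tL N L⟯ (FL N L) := by
  obtain ⟨x, hx, hfin⟩ := FF1.exists_finite (K := L) (F := FL N L)
  exact FF.finiteDimensional_adjoin_of_transcendental hx (transcendental_tL N L)

/-- Every `c ∈ L` is the `t`-value of some place. -/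
theorem exists_place_hasValue_tL (c : L) : ∃ P : Place L (FL N L), HasValue P (tL N L) c := by
  have : CharZero L := charZero_of_injective_algebraMap (algebraMap ℚ L).injective
  have := finiteDimensional_tL N L
  obtain ⟨P, hP⟩ := H804.exists_place_ord_sub_pos (transcendental_tL N L) c
  exact ⟨P, Or.inr hP⟩

end Coordinate

section AlgInd

open Cardinal

/-- Arbitrarily long algebraically independent tuples over a countable subfield of an
uncountable algebraically closed field. -/
theorem exists_algebraicIndependent_fin {L : Type} [Field L] [IsAlgClosed L] [Uncountable L]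
    (K₀ : Subfield L) (hK₀ : (K₀ : Set L).Countable) (g : ℕ) :
    ∃ τ : Fin g → L, AlgebraicIndependent K₀ τ := by
  obtain ⟨s, hs⟩ := exists_isTranscendenceBasis K₀ L
  have hcard := IsAlgClosed.cardinal_le_max_transcendence_basis' ((↑) : s → L) hs
  have hK : #K₀ ≤ ℵ₀ := by
    have : Countable K₀ := hK₀.to_subtype
    exact Cardinal.mk_le_aleph0
  have hL : ℵ₀ < #L := Cardinal.aleph0_lt_mk_iff.mpr inferInstance
  have hinf : Infinite s := by
    by_contra hfin
    rw [not_infinite_iff_finite] at hfin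
    have hs' : #s ≤ ℵ₀ := (Cardinal.lt_aleph0_of_finite s).le
    have : #L ≤ ℵ₀ := hcard.trans (max_le (max_le hK hs') le_rfl)
    exact absurd hL (not_lt.mpr this)
  let e : Fin g ↪ s := (Fin.valEmbedding).trans (Infinite.natEmbedding s)
  exact ⟨fun i => ((e i : s) : L), hs.1.comp e e.injective⟩

end AlgInd

section Main

variable (N : ℕ) [NeZero N] (L : Type) [Field L] [Algebra ℚ L] [IsAlgClosed L]
  [Uncountable L] [FF1 L (FL N L)]

/-- **GEN**, exact frozen shape: generic tuples exist. -/
theorem stmtGEN : StmtGEN N L := by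
  intro K₀ hK₀
  obtain ⟨τ, hτ⟩ := exists_algebraicIndependent_fin K₀ hK₀ (gL N L)
  choose P hP using fun i => exists_place_hasValue_tL N L (τ i)
  refine ⟨P, fun i => ⟨τ i, hP i⟩, ?_⟩
  have h : (fun i => tval (P i)) = τ := funext fun i => tval_eq_of_hasValue (P i) (hP i)
  rw [h]
  exact hτ

end Main

end Fermat.Agent.S17.H137

end
end
-- ===== PACK-END S17/H137/Gen.lean

-- ===== PACK-BEGIN S17/H560/GenStab.lean
section



/-!
# S17 / G-DIV, algebraic line: piece GENSTAB (helper560)

`stmtGENSTAB : StmtRIG N L → StmtCUSPRAT N L → StmtZRAT N L → StmtGENSTAB N L`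

The set of generic classes over `K₀` is stable under `n •` (`n ≠ 0`) and under translation by
classes of `K₀`-rational divisors.

Proof (`coord/S17-GDIV.md` v2, origin/helper797).  Let `ξ = cls P`, `P` generic over `K₀`,
`ℓ(ΣP_i) = 1`, and `z = n ξ` or `z = [B] + ξ`.  `E_z := minRep z` (`m ≤ g` points), `S := supp E_z`,
`K₁ :=` the relative algebraic closure in `L` of `K₀(tval Q : Q ∈ S)`.  By ZRAT all `Q ∈ S` are
rational over `K₁`; RIG gives that `minRep ξ = ΣP_i` is rational over `K₁`, so `tval P_i ∈ K₁`.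
Steinitz exchange (Mathlib's algebraic-independence matroid): `g` independent elements in the
algebraic closure of `K₀(≤ g elements)` force `#S = g`, all multiplicities `1`, `t` finite on `S`
and the `tval Q`, `Q ∈ S`, algebraically independent over `K₀`.  Hence `z = cls Q ∈ Gen K₀`.

Mathlib-only parts: `steinitz560`, `relClosure560`.
-/

set_option autoImplicit false

noncomputable section

open AlgebraicCurve ModularCurve

namespace Fermat.Agent.S17.H560

open Fermat.Agent.Lib.RR Fermat.Agent.S17.H680 Fermat.Agent.S17.GDiv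

section Steinitz

open AlgebraicIndependent

variable {L : Type*} [Field L]

/-- **Steinitz exchange**, in the form needed: if `g` elements, algebraically independent over
`K₀`, are algebraic over `K₀(T(S))` with `#S ≤ g`, then `#S = g`, `T` is injective on `S` and
the `T s`, `s ∈ S`, are algebraically independent over `K₀`. -/
theorem steinitz560 (K₀ : Subfield L) {ι σ : Type*} [Fintype ι]
    (x : ι → L) (hx : AlgebraicIndependent K₀ x)
    (S : Finset σ) (T : σ → L) (hcard : S.card ≤ Fintype.card ι)
    (hxT : ∀ i, IsAlgebraic (Algebra.adjoin K₀ (T '' (S : Set σ))) (x i)) :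
    S.card = Fintype.card ι ∧ Set.InjOn T (S : Set σ) ∧
      AlgebraicIndependent K₀ (fun s : S => T s) := by
  classical
  set M := matroid K₀ L with hM
  have hI : M.Indep (Set.range x) := matroid_indep_iff.mpr hx.to_subtype_range
  have hsub : Set.range x ⊆ M.closure (T '' (S : Set σ)) := by
    rintro _ ⟨i, rfl⟩
    rw [hM, matroid_closure_eq, SetLike.mem_coe, Subalgebra.mem_algebraicClosure]
    exact hxT i
  have h1 : (Set.range x).encard ≤ M.eRk (T '' (S : Set σ)) := by
    have := hI.encard_le_eRk_of_subset hsub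
    rwa [Matroid.eRk_closure_eq] at this
  have h2 : M.eRk (T '' (S : Set σ)) ≤ (T '' (S : Set σ)).encard := M.eRk_le_encard _
  have h3 : (T '' (S : Set σ)).encard ≤ (S : Set σ).encard := Set.encard_image_le _ _
  have h4 : (S : Set σ).encard = S.card := Set.encard_coe_eq_coe_finsetCard S
  have h5 : (Set.range x).encard = Fintype.card ι := by
    rw [← Set.image_univ, hx.injective.injOn.encard_image, Set.encard_univ,
      ENat.card_eq_coe_fintype_card]
  have h6 : ((S.card : ℕ) : ℕ∞) ≤ (Fintype.card ι : ℕ∞) := by exact_mod_cast hcard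
  have e1 : (S : Set σ).encard = (Set.range x).encard := by
    apply le_antisymm
    · rw [h4, h5]; exact h6
    · exact h1.trans (h2.trans h3)
  have e2 : (T '' (S : Set σ)).encard = (S : Set σ).encard := by
    apply le_antisymm h3
    rw [e1]; exact h1.trans h2
  have e3 : M.eRk (T '' (S : Set σ)) = (T '' (S : Set σ)).encard := by
    apply le_antisymm h2
    rw [e2, e1]; exact h1
  have hinj : Set.InjOn T (S : Set σ) := S.finite_toSet.injOn_of_encard_image_eq e2
  have hind : M.Indep (T '' (S : Set σ)) :=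
    (Matroid.indep_iff_eRk_eq_encard_of_finite (S.finite_toSet.image T)).mpr e3
  refine ⟨?_, hinj, ?_⟩
  · have := e1
    rw [h4, h5] at this
    exact_mod_cast this
  · have hind' : AlgebraicIndependent K₀ (fun a : (T '' (S : Set σ)) => (a : L)) :=
      matroid_indep_iff.mp hind
    let f : S → ↥(T '' (S : Set σ)) := fun s => ⟨T s, Set.mem_image_of_mem T s.2⟩
    have hf : Function.Injective f := by
      intro a b hab
      apply Subtype.ext
      exact hinj a.2 b.2 (congrArg Subtype.val hab)
    exact hind'.comp f hf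

end Steinitz


section RelClosure

variable {L : Type*} [Field L]

/-- The relative algebraic closure in `L` of `K₀(s)`, as a subfield of `L`. -/
def relClosure560 (K₀ : Subfield L) (s : Set L) : Subfield L where
  carrier := {a | IsAlgebraic (Algebra.adjoin K₀ s) a}
  mul_mem' := fun ha hb => IsAlgebraic.mul ha hb
  one_mem' := isAlgebraic_one
  add_mem' := fun ha hb => IsAlgebraic.add ha hb
  zero_mem' := isAlgebraic_zero
  neg_mem' := fun ha => IsAlgebraic.neg ha
  inv_mem' := fun _ ha => IsAlgebraic.inv ha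

theorem mem_relClosure560 {K₀ : Subfield L} {s : Set L} {a : L} :
    a ∈ relClosure560 K₀ s ↔ IsAlgebraic (Algebra.adjoin K₀ s) a := Iff.rfl

theorem le_relClosure560 (K₀ : Subfield L) (s : Set L) : K₀ ≤ relClosure560 K₀ s := by
  intro a ha
  rw [mem_relClosure560]
  exact isAlgebraic_algebraMap
    (⟨a, (Algebra.adjoin K₀ s).algebraMap_mem ⟨a, ha⟩⟩ : Algebra.adjoin K₀ s)

theorem subset_relClosure560 (K₀ : Subfield L) (s : Set L) :
    s ⊆ (relClosure560 K₀ s : Set L) := by
  intro a ha
  exact isAlgebraic_algebraMap (⟨a, Algebra.subset_adjoin ha⟩ : Algebra.adjoin K₀ s)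

theorem relClosure560_closed (K₀ : Subfield L) (s : Set L) (x : L)
    (hx : IsAlgebraic (relClosure560 K₀ s) x) : x ∈ relClosure560 K₀ s := by
  rw [mem_relClosure560]
  set A' := Subalgebra.algebraicClosure (Algebra.adjoin K₀ s) L with hA'
  have hmem : ∀ a : L, a ∈ relClosure560 K₀ s ↔ a ∈ A' := fun a => by
    rw [mem_relClosure560, hA', Subalgebra.mem_algebraicClosure]
  let f : relClosure560 K₀ s ≃+* A' :=
    { toFun := fun a => ⟨a.1, (hmem a.1).mp a.2⟩
      invFun := fun a => ⟨a.1, (hmem a.1).mpr a.2⟩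
      left_inv := fun _ => rfl
      right_inv := fun _ => rfl
      map_mul' := fun _ _ => rfl
      map_add' := fun _ _ => rfl }
  have h1 : IsAlgebraic A' x := by
    have := (isAlgebraic_ringHom_iff_of_comp_eq (R := relClosure560 K₀ s) (S := A') (A := L)
      (B := L) f (RingHom.id L) Function.injective_id (by ext a; rfl) (a := x)).mpr hx
    simpa using this
  exact h1.restrictScalars (Algebra.adjoin K₀ s)

end RelClosure


section Laurent

variable (N : ℕ) [NeZero N] (L : Type) [Field L] [Algebra ℚ L]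

theorem coe_tL560 : ((tL N L : FL N L) : LaurentSeries L) = coeffEmb L jq := rfl

theorem coe_tL_sub560 (c : L) :
    ((tL N L - algebraMap L (FL N L) c : FL N L) : LaurentSeries L)
      = coeffEmb L jq - algebraMap L (LaurentSeries L) c := rfl

theorem coeff_tL_sub560 (c : L) (m : ℤ) :
    ((tL N L - algebraMap L (FL N L) c : FL N L) : LaurentSeries L).coeff m
      = algebraMap ℚ L (jq.coeff m) - if m = 0 then c else 0 := by
  rw [coe_tL_sub560, HahnSeries.coeff_sub, coeffEmb_coeff, algebraMap_laurentSeries_eq_single]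
  by_cases hm : m = 0
  · subst hm; simp
  · rw [HahnSeries.coeff_single_of_ne hm, if_neg hm]

theorem order_tL_sub_neg560 (c : L) :
    ((tL N L - algebraMap L (FL N L) c : FL N L) : LaurentSeries L).order < 0 := by
  have h : ((tL N L - algebraMap L (FL N L) c : FL N L) : LaurentSeries L).order ≤ -1 :=
    HahnSeries.order_le_of_coeff_ne_zero (by
      rw [coeff_tL_sub560, coeff_jq_neg_one, map_one, if_neg (by norm_num), sub_zero]
      exact one_ne_zero)
  omega

theorem tL_sub_ne_zero560 (c : L) : tL N L - algebraMap L (FL N L) c ≠ 0 := by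
  intro h
  have := order_tL_sub_neg560 N L c
  rw [h] at this
  simp at this

theorem tL_ne_zero560 : tL N L ≠ 0 := by
  have := tL_sub_ne_zero560 N L 0
  simpa using this

theorem coeffsIn_tL_sub560 (K₁ : Subfield L) {c : L} (hc : c ∈ K₁) :
    CoeffsIn K₁ (tL N L - algebraMap L (FL N L) c) := by
  intro m
  rw [coeff_tL_sub560]
  apply K₁.sub_mem
  · rw [eq_ratCast]; exact SubfieldClass.ratCast_mem K₁ _
  · split_ifs
    · exact hc
    · exact K₁.zero_mem

theorem coeffsIn_tL560 (K₁ : Subfield L) : CoeffsIn K₁ (tL N L) := by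
  have := coeffsIn_tL_sub560 N L K₁ K₁.zero_mem
  simpa using this

end Laurent

section Places

variable {N : ℕ} [NeZero N] {L : Type} [Field L] [Algebra ℚ L] [FF1 L (FL N L)]

omit [FF1 L (FL N L)] in
/-- `t = j` has a pole at the cusp. -/
theorem not_hasValue_cusp560 (c : L) : ¬ HasValue (cuspL N L) (tL N L) c := by
  rintro (h | h)
  · exact tL_sub_ne_zero560 N L c h
  · have hmem : tL N L - algebraMap L (FL N L) c ∈ (cuspL N L).toValuationSubring :=
      mem_of_ord_nonneg _ h.le
    have h0 : 0 ≤ ((tL N L - algebraMap L (FL N L) c : FL N L) : LaurentSeries L).order :=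
      (mem_cuspInf (modularFunctionFieldFull N) (exists_order_neg N L) _).mp hmem
    have := order_tL_sub_neg560 N L c
    omega

omit [FF1 L (FL N L)] in
theorem hasValue_tval560 {P : Place L (FL N L)} (h : ∃ c : L, HasValue P (tL N L) c) :
    HasValue P (tL N L) (tval P) := by
  classical
  unfold tval
  rw [dif_pos h]
  exact h.choose_spec

omit [FF1 L (FL N L)] in
theorem tval_eq_zero560 {P : Place L (FL N L)} (h : ¬ ∃ c : L, HasValue P (tL N L) c) :
    tval P = 0 := by
  classical
  unfold tval
  rw [dif_neg h]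

theorem ord_tL_neg560 {P : Place L (FL N L)} (h : ¬ ∃ c : L, HasValue P (tL N L) c) :
    P.ord (tL N L) < 0 := by
  by_contra hn
  push Not at hn
  obtain ⟨c, hc⟩ := exists_const_sub P (deg_eq_one P) hn
  exact h ⟨c, hc⟩

end Places


section Rational

variable {N : ℕ} [NeZero N] {L : Type} [Field L] [Algebra ℚ L] [FF1 L (FL N L)]

/-- With ZRAT: a place whose `t`-value lies in `K₁` is rational over `K₁`. -/
theorem isRationalOver_of_tval_mem560 (hZRAT : StmtZRAT N L) {K₁ : Subfield L}
    (hK₁ : AlgClosedIn K₁) {P : Place L (FL N L)} (h : tval P ∈ K₁) : IsRationalOver K₁ P := by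
  by_cases hfin : ∃ c : L, HasValue P (tL N L) c
  · refine hZRAT K₁ hK₁ _ (coeffsIn_tL_sub560 N L K₁ h) P ?_
    rcases hasValue_tval560 hfin with h0 | hpos
    · exact absurd h0 (tL_sub_ne_zero560 N L _)
    · exact hpos.ne'
  · exact hZRAT K₁ hK₁ _ (coeffsIn_tL560 N L K₁) P (ord_tL_neg560 hfin).ne

omit [FF1 L (FL N L)] in
theorem tval_mem_of_isRationalOver560 {K₁ : Subfield L} {P : Place L (FL N L)}
    (h : IsRationalOver K₁ P) : tval P ∈ K₁ := by
  by_cases hfin : ∃ c : L, HasValue P (tL N L) c
  · exact h (jQ N) (tval P) (hasValue_tval560 hfin)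
  · rw [tval_eq_zero560 hfin]; exact K₁.zero_mem

end Rational

section MinRep

variable {N : ℕ} [NeZero N] {L : Type} [Field L] [Algebra ℚ L] [FF1 L (FL N L)]

omit [NeZero N] [FF1 L (FL N L)] in
theorem sumPl_apply560 {m : ℕ} (P : Fin m → Place L (FL N L)) (v : Place L (FL N L)) :
    sumPl P v = ∑ i, prim (P i) v := by
  simp [sumPl, Finsupp.finsetSum_apply]

omit [NeZero N] [FF1 L (FL N L)] in
theorem sumPl_nonneg560 {m : ℕ} (P : Fin m → Place L (FL N L)) : 0 ≤ sumPl P := by
  rw [Finsupp.le_def]
  intro v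
  rw [sumPl_apply560]
  refine Finset.sum_nonneg fun i _ => ?_
  by_cases h : v = P i
  · subst h; simp
  · rw [prim_apply_of_ne h]

omit [NeZero N] [FF1 L (FL N L)] in
theorem sumPl_apply_pos560 {m : ℕ} (P : Fin m → Place L (FL N L)) (i : Fin m) :
    0 < sumPl P (P i) := by
  rw [sumPl_apply560]
  have h1 : prim (P i) (P i) ≤ ∑ j, prim (P j) (P i) :=
    Finset.single_le_sum (f := fun j => prim (P j) (P i)) (fun j _ => by
      by_cases h : P i = P j
      · rw [h]; simp
      · rw [prim_apply_of_ne h]) (Finset.mem_univ i)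
  rw [prim_apply_self] at h1
  omega

omit [NeZero N] [FF1 L (FL N L)] in
theorem sumPl_apply_eq_zero560 {m : ℕ} (P : Fin m → Place L (FL N L)) (v : Place L (FL N L))
    (hv : ∀ i, P i ≠ v) : sumPl P v = 0 := by
  rw [sumPl_apply560]
  exact Finset.sum_eq_zero fun i _ => prim_apply_of_ne (fun h => hv i h.symm)

/-- The minimal representative of a generic non-special class is the generic divisor itself. -/
theorem minRep_cls560 {K₀ : Subfield L} {P : Fin (gL N L) → Place L (FL N L)}
    (hP : IsGenericTuple K₀ P) (hell : ell (sumPl P) = 1) :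
    minDeg (cuspL N L) (cls P) = gL N L ∧ minRep (cuspL N L) (cls P) = sumPl P := by
  set x := cls P with hx
  set m' := minDeg (cuspL N L) x with hm'
  set E' := minRep (cuspL N L) x with hE'
  have hle : m' ≤ gL N L := minDeg_le_genus (cuspL N L) x
  have h1 : Pic0.mk (minDiv (cuspL N L) x)
      = Pic0.mk ⟨sumPl P - (gL N L) • prim (cuspL N L), degree_sumPl_sub P⟩ :=
    mk_minDiv (cuspL N L) x
  obtain ⟨h, hh, e⟩ := mk_eq_mk_iff'.mp h1
  have e1 : sumPl P - (gL N L) • prim (cuspL N L)
      = E' - m' • prim (cuspL N L) + divOf h hh := e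
  have e2 : sumPl P = E' + (gL N L - m') • prim (cuspL N L) + divOf h hh := by
    have : ((gL N L - m' : ℕ) • prim (cuspL N L) : Divisor L (FL N L))
        = (gL N L) • prim (cuspL N L) - m' • prim (cuspL N L) := by
      rw [sub_nsmul _ hle, sub_eq_add_neg]
    rw [this]
    have := e1
    rw [sub_eq_iff_eq_add] at this
    rw [this]; abel
  have hE'' : 0 ≤ E' + (gL N L - m') • prim (cuspL N L) := by
    apply add_nonneg (minRep_nonneg _ _)
    apply nsmul_nonneg
    rw [Finsupp.le_def]
    intro v
    by_cases hv : v = cuspL N L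
    · subst hv; simp
    · rw [prim_apply_of_ne hv]; simp
  have hinv : h⁻¹ ∈ riemannRochSpace (sumPl P) := by
    rw [mem_L_iff_nonneg (inv_ne_zero hh), divOf_inv h hh, e2]
    simpa using hE''
  have hone : (1 : FL N L) ∈ riemannRochSpace (sumPl P) := by
    rw [mem_L_iff_nonneg one_ne_zero]
    have : divOf (K := L) (1 : FL N L) one_ne_zero = 0 := by
      ext v; simp [divOf_apply]
    rw [this, add_zero]
    exact sumPl_nonneg560 P
  have hdiv : divOf (K := L) h hh = 0 := by
    have := divOf_eq_of_ell_eq_one hell (inv_ne_zero hh) one_ne_zero hinv hone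
    rw [divOf_inv] at this
    have h0 : divOf (K := L) (1 : FL N L) one_ne_zero = 0 := by
      ext v; simp [divOf_apply]
    rw [h0, neg_eq_zero] at this
    exact this
  rw [hdiv, add_zero] at e2
  have hcusp : ∀ i, P i ≠ cuspL N L := by
    intro i hi
    obtain ⟨c, hc⟩ := hP.1 i
    rw [hi] at hc
    exact not_hasValue_cusp560 c hc
  have e3 := congrArg (fun D : Divisor L (FL N L) => D (cuspL N L)) e2
  simp only [Finsupp.add_apply, Finsupp.smul_apply, prim_apply_self] at e3
  rw [sumPl_apply_eq_zero560 P _ hcusp, hE', minRep_apply_infty] at e3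
  have hm : m' = gL N L := by
    have : ((gL N L - m' : ℕ) : ℤ) = 0 := by
      have := e3
      simp at this
      omega
    omega
  refine ⟨hm, ?_⟩
  rw [e2, hm]
  simp

end MinRep


section Main

variable {N : ℕ} [NeZero N] {L : Type} [Field L] [Algebra ℚ L] [FF1 L (FL N L)]

omit [NeZero N] in
/-- A nonnegative divisor has at most `deg` points in its support; in case of equality all
multiplicities are `1`. -/
theorem card_support_le_degree560 {E : Divisor L (FL N L)} (hE : 0 ≤ E) :
    (E.support.card : ℤ) ≤ Divisor.degree E ∧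
      ((E.support.card : ℤ) = Divisor.degree E → ∀ v ∈ E.support, E v = 1) := by
  have hpos : ∀ v ∈ E.support, 1 ≤ E v := by
    intro v hv
    have h0 : (0 : ℤ) ≤ E v := by simpa using Finsupp.le_def.mp hE v
    have h1 : E v ≠ 0 := Finsupp.mem_support_iff.mp hv
    omega
  have hdeg : Divisor.degree E = ∑ v ∈ E.support, E v := by
    rw [degree_eq_sum]
    refine Finset.sum_congr rfl fun v _ => ?_
    rw [deg_eq_one v]; simp
  have hcard : (E.support.card : ℤ) = ∑ _v ∈ E.support, (1 : ℤ) := by simp
  constructor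
  · rw [hdeg, hcard]
    exact Finset.sum_le_sum hpos
  · intro h v hv
    rw [hdeg, hcard] at h
    have h2 : ∑ v ∈ E.support, (E v - 1) = 0 := by
      rw [Finset.sum_sub_distrib, ← h, sub_self]
    have h3 := (Finset.sum_eq_zero_iff_of_nonneg (fun w hw => by
      have := hpos w hw; omega)).mp h2 v hv
    omega

omit [NeZero N] [FF1 L (FL N L)] in
/-- A divisor all of whose multiplicities are `1` is the sum of the places of its support. -/
theorem eq_sum_prim_of_apply_eq_one560 {E : Divisor L (FL N L)}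
    (h : ∀ v ∈ E.support, E v = 1) : E = ∑ v ∈ E.support, prim v := by
  conv_lhs => rw [← Finsupp.sum_single E]
  rw [Finsupp.sum]
  refine Finset.sum_congr rfl fun v hv => ?_
  rw [h v hv]
  rfl

omit [NeZero N] [FF1 L (FL N L)] in
theorem divRationalOver_zero560 (K₁ : Subfield L) :
    DivRationalOver K₁ (0 : Divisor L (FL N L)) := by
  intro P hP
  simp at hP

/-- **The core of GENSTAB.**  If `n • ξ = z - [B₀]` with `ξ` generic (and non-special) over `K₀`,
`n ≠ 0`, `B₀` rational over `K₀`, then `z` is generic over `K₀`. -/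
theorem mem_Gen_of560 (hRIG : StmtRIG N L) (hCUSP : StmtCUSPRAT N L) (hZRAT : StmtZRAT N L)
    {K₀ : Subfield L} {P : Fin (gL N L) → Place L (FL N L)} (hP : IsGenericTuple K₀ P)
    (hell : ell (sumPl P) = 1) (z : Pic0 L (FL N L)) (n : ℕ) (hn : n ≠ 0)
    (B₀ : Divisor.degZero (K := L) (F := FL N L))
    (hB₀ : DivRationalOver K₀ (B₀ : Divisor L (FL N L)))
    (hz : n • cls P = z - Pic0.mk B₀) : z ∈ Gen N L K₀ := by
  classical
  set E := minRep (cuspL N L) z with hE
  set S := E.support with hS
  set K₁ := relClosure560 K₀ ((fun Q : Place L (FL N L) => tval Q) '' (S : Set _)) with hK₁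
  have hK₁c : AlgClosedIn K₁ := relClosure560_closed K₀ _
  have hK₀₁ : K₀ ≤ K₁ := le_relClosure560 K₀ _
  -- the points of `E` are rational over `K₁`
  have hSrat : ∀ Q ∈ S, IsRationalOver K₁ Q := fun Q hQ =>
    isRationalOver_of_tval_mem560 hZRAT hK₁c
      (subset_relClosure560 K₀ _ (Set.mem_image_of_mem _ (Finset.mem_coe.mpr hQ)))
  -- the divisor `B' = E - m ∞ - B₀`
  have hB' : DivRationalOver K₁
      ((minDiv (cuspL N L) z - B₀ : Divisor.degZero (K := L) (F := FL N L)) :
        Divisor L (FL N L)) := by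
    intro Q hQ
    rw [AddSubgroup.coe_sub, coe_minDiv, Finsupp.mem_support_iff] at hQ
    by_cases h1 : Q ∈ S
    · exact hSrat Q h1
    by_cases h2 : Q = cuspL N L
    · rw [h2]; exact hCUSP K₁
    by_cases h3 : Q ∈ (B₀ : Divisor L (FL N L)).support
    · exact fun u c hc => hK₀₁ (hB₀ Q h3 u c hc)
    · exfalso
      apply hQ
      have e1 : E Q = 0 := by
        rw [hS, Finsupp.mem_support_iff, not_not] at h1
        exact h1
      have e3 : (B₀ : Divisor L (FL N L)) Q = 0 := by
        rw [Finsupp.mem_support_iff, not_not] at h3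
        exact h3
      rw [Finsupp.sub_apply, Finsupp.sub_apply, Finsupp.smul_apply, prim_apply_of_ne h2, e3,
        ← hE, e1]
      simp
  have hmk : n • cls P = Pic0.mk (minDiv (cuspL N L) z - B₀) := by
    have : Pic0.mk (minDiv (cuspL N L) z - B₀)
        = Pic0.mk (minDiv (cuspL N L) z) - Pic0.mk B₀ := rfl
    rw [this, mk_minDiv, hz]
  have hrat := hRIG K₁ hK₁c (cls P) n hn _ hB' hmk
  obtain ⟨-, hmr⟩ := minRep_cls560 hP hell
  rw [hmr] at hrat
  have hPi : ∀ i, tval (P i) ∈ K₁ := fun i =>
    tval_mem_of_isRationalOver560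
      (hrat (P i) (Finsupp.mem_support_iff.mpr (sumPl_apply_pos560 P i).ne'))
  -- Steinitz
  have hEnn : 0 ≤ E := minRep_nonneg _ _
  obtain ⟨hc1, hc2⟩ := card_support_le_degree560 hEnn
  have hdegE : Divisor.degree E = minDeg (cuspL N L) z := degree_minRep _ _
  have hmle : minDeg (cuspL N L) z ≤ gL N L := minDeg_le_genus _ _
  have hcard : S.card ≤ Fintype.card (Fin (gL N L)) := by
    rw [Fintype.card_fin]
    have : (S.card : ℤ) ≤ (gL N L : ℤ) := by
      rw [hdegE] at hc1
      exact hc1.trans (by exact_mod_cast hmle)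
    exact_mod_cast this
  obtain ⟨hScard, -, hind⟩ := steinitz560 K₀ (fun i => tval (P i)) hP.2 S
    (fun Q : Place L (FL N L) => tval Q) hcard (fun i => mem_relClosure560.mp (hPi i))
  rw [Fintype.card_fin] at hScard
  have hmg : minDeg (cuspL N L) z = gL N L := by
    have h1 : (S.card : ℤ) ≤ (minDeg (cuspL N L) z : ℤ) := by rw [← hdegE]; exact hc1
    rw [hScard] at h1
    have : gL N L ≤ minDeg (cuspL N L) z := by exact_mod_cast h1
    omega
  have hmult : ∀ v ∈ S, E v = 1 := hc2 (by rw [hdegE, hmg, hScard])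
  -- `t` is finite on `S`
  have hfin : ∀ Q ∈ S, ∃ c : L, HasValue Q (tL N L) c := by
    intro Q hQ
    by_contra hnf
    have h0 : tval Q = 0 := tval_eq_zero560 hnf
    have htr : Transcendental K₀ (tval Q) := hind.transcendental ⟨Q, hQ⟩
    rw [h0] at htr
    exact htr isAlgebraic_zero
  -- enumerate `S`
  let e : Fin (gL N L) ≃ S := (Finset.equivFinOfCardEq hScard).symm
  refine ⟨fun i => (e i).1, ⟨fun i => hfin _ (e i).2, hind.comp e e.injective⟩, ?_⟩
  have hsum : sumPl (fun i => ((e i).1 : Place L (FL N L))) = E := by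
    rw [eq_sum_prim_of_apply_eq_one560 hmult, sumPl]
    rw [← Finset.sum_coe_sort S (fun v => prim v)]
    exact Equiv.sum_comp e (fun s : S => prim (s : Place L (FL N L)))
  rw [← mk_minDiv (cuspL N L) z, cls]
  congr 1
  apply Subtype.ext
  rw [coe_minDiv]
  show minRep (cuspL N L) z - minDeg (cuspL N L) z • prim (cuspL N L)
    = sumPl (fun i => ((e i).1 : Place L (FL N L))) - (gL N L) • prim (cuspL N L)
  rw [hsum, hmg]

/-- **GENSTAB**: the set of generic classes over `K₀` is stable under `n •` and under translation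
by classes rational over `K₀` (from RIG, CUSPRAT and ZRAT). -/
theorem stmtGENSTAB (hRIG : StmtRIG N L) (hCUSP : StmtCUSPRAT N L) (hZRAT : StmtZRAT N L) :
    StmtGENSTAB N L := by
  intro K₀ _ hns ξ hξ
  obtain ⟨P, hP, rfl⟩ := hξ
  have hell := hns P hP
  refine ⟨fun n hn => ?_, fun B hB => ?_⟩
  · refine mem_Gen_of560 hRIG hCUSP hZRAT hP hell (n • cls P) n hn 0 ?_ ?_
    · exact divRationalOver_zero560 K₀
    · simp
  · refine mem_Gen_of560 hRIG hCUSP hZRAT hP hell (Pic0.mk B + cls P) 1 one_ne_zero B hB ?_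
    rw [one_nsmul]; abel

end Main

end Fermat.Agent.S17.H560

end
end
-- ===== PACK-END S17/H560/GenStab.lean

-- ===== PACK-BEGIN S17/H20/TransStmt.lean
section




/-!
# S17 / G-DIV, piece TRANS (helper20): `Aut(L/K₀)` is transitive on the generic tuples

`stmtTRANS : StmtPLEXT N L → StmtZRAT N L → StmtTRANS N L` for an uncountable algebraically
closed field `L`.

Proof.  Induction on the number `m` of places already matched.  Let `σ` fix `K₀` with
`σ P_j = Q_j` for `j < m`, put `P' = σ P` (again generic over `K₀`) and let `K₁` be the algebraic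
closure in `L` of `K₀(t(Q_j) : j < m)`; it is countable and algebraically closed in `L`, and
`t(P'_m), t(Q_m) ∉ K₁`.  By ZRAT the places `P'_m`, `Q_m` are *generic over `K₁`*: their valuations
are trivial on the field `ratField` of functions defined over `K₁`, so evaluation at them gives
two embeddings of the countable field `ratField` in `L`.  By EXT (`Ext.lean`) some `τ ∈ Aut(L)`
intertwines them; it fixes `K₁`, and `τ P'_m = Q_m` by PLEXT.  For `j < m` the place `Q_j` is
rational over `K₁` (ZRAT, as `t(Q_j) ∈ K₁`), hence fixed by `τ` (PLEXT).  Replace `σ` by `τ σ`.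
-/

set_option autoImplicit false

noncomputable section

open AlgebraicCurve ModularCurve Cardinal
open scoped Pointwise

namespace Fermat.Agent.S17.H20

open Fermat.Agent.Lib.RR Fermat.Agent.S17.GDiv

section General

variable {K F : Type*} [Field K] [Field F] [Algebra K F]

/-- `f ∈ 𝔪_P` in terms of the evaluation at `P`. -/
theorem vanishes_iff_evAt (P : Place K F) (hP : P.deg = 1) (f : F) :
    (f = 0 ∨ 0 < P.ord f) ↔ ∃ h : f ∈ P.toValuationSubring, evAt P hP ⟨f, h⟩ = 0 := by
  constructor
  · intro h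
    have hmem : f ∈ P.toValuationSubring := by
      rcases h with rfl | h
      · exact zero_mem _
      · exact mem_of_ord_nonneg P h.le
    refine ⟨hmem, ?_⟩
    rw [evAt_eq_zero_iff, mem_maximalIdeal_iff]
    exact h
  · rintro ⟨hmem, h⟩
    rw [evAt_eq_zero_iff, mem_maximalIdeal_iff] at h
    exact h

/-- `f` has the value `c` at `P` in terms of the evaluation at `P`. -/
theorem value_iff_evAt (P : Place K F) (hP : P.deg = 1) (f : F) (c : K) :
    (f - algebraMap K F c = 0 ∨ 0 < P.ord (f - algebraMap K F c)) ↔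
      ∃ h : f ∈ P.toValuationSubring, evAt P hP ⟨f, h⟩ = c := by
  rw [vanishes_iff_evAt P hP]
  constructor
  · rintro ⟨hmem, h⟩
    have hf : f ∈ P.toValuationSubring := by
      have := add_mem hmem (P.algebraMap_mem' c)
      rwa [sub_add_cancel] at this
    refine ⟨hf, ?_⟩
    have e : (⟨f - algebraMap K F c, hmem⟩ : P.toValuationSubring)
        = ⟨f, hf⟩ - algebraMap K P.toValuationSubring c := Subtype.ext rfl
    rw [e, map_sub, evAt_algebraMap, sub_eq_zero] at h
    exact h
  · rintro ⟨hf, h⟩
    have hmem : f - algebraMap K F c ∈ P.toValuationSubring :=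
      sub_mem hf (P.algebraMap_mem' c)
    refine ⟨hmem, ?_⟩
    have e : (⟨f - algebraMap K F c, hmem⟩ : P.toValuationSubring)
        = ⟨f, hf⟩ - algebraMap K P.toValuationSubring c := Subtype.ext rfl
    rw [e, map_sub, evAt_algebraMap, h, sub_self]

/-- Values are transported by semilinear automorphisms. -/
theorem value_smul_iff (g : SemilinearAut K F) (v : Place K F) (f : F) (c : K) :
    (g • f - algebraMap K F (SemilinearAut.baseAut g c) = 0 ∨
        0 < (g • v).ord (g • f - algebraMap K F (SemilinearAut.baseAut g c))) ↔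
      (f - algebraMap K F c = 0 ∨ 0 < v.ord (f - algebraMap K F c)) := by
  have e : g • f - algebraMap K F (SemilinearAut.baseAut g c)
      = g • (f - algebraMap K F c) := by
    rw [smul_sub, SemilinearAut.smul_algebraMap]
  rw [e, SemilinearAut.ord_smul, smul_eq_zero_iff_eq]

end General

section Coeffs

variable {L : Type*} [Field L] [Algebra ℚ L]
variable (F₀ : IntermediateField ℚ (LaurentSeries ℚ))

/-- Functions defined over `K₁` have their `q`-expansion coefficients in `K₁`. -/
theorem coeff_mem_of_mem_ratField (K₁ : Subfield L) {a : laurentBaseChange L F₀}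
    (ha : a ∈ ratField F₀ K₁) (m : ℤ) : (a : LaurentSeries L).coeff m ∈ K₁ := by
  have hle : ratField F₀ K₁ ≤
      ((coeffMap (K₁.subtype : K₁ →+* L)).fieldRange).comap
        (algebraMap (laurentBaseChange L F₀) (LaurentSeries L)) := by
    unfold ratField
    rw [Subfield.closure_le]
    rintro x (⟨c, hc, rfl⟩ | ⟨y, hy, hxy⟩)
    · refine ⟨HahnSeries.single 0 (⟨c, hc⟩ : K₁), ?_⟩
      rw [coeffMap_single]
      exact (algebraMap_laurentSeries_eq_single L c).symm
    · refine ⟨coeffMap ((algebraMap ℚ L).codRestrict K₁ fun q => by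
        rw [eq_ratCast]; exact SubfieldClass.ratCast_mem K₁ q) y, ?_⟩
      rw [coeffMap_coeffMap]
      show _ = (x : LaurentSeries L)
      rw [hxy]
      rfl
  obtain ⟨y, hy⟩ := hle ha
  have e : (a : LaurentSeries L).coeff m = ((y.coeff m : K₁) : L) := by
    have h1 : (a : LaurentSeries L) = coeffMap (K₁.subtype : K₁ →+* L) y := hy.symm
    rw [h1]
    rfl
  rw [e]
  exact (y.coeff m).2

end Coeffs

section Values

variable {N : ℕ} [NeZero N] {L : Type} [Field L] [Algebra ℚ L]

omit [NeZero N] in
theorem bcQ_mem_ratField (K₁ : Subfield L) (u : modularFunctionFieldFull N) :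
    bcQ N L u ∈ ratField (modularFunctionFieldFull N) K₁ :=
  coeffEmb_mem_ratField (modularFunctionFieldFull N) K₁ u.2

omit [NeZero N] in
theorem coeffsIn_of_mem_ratField (K₁ : Subfield L) {a : FL N L}
    (ha : a ∈ ratField (modularFunctionFieldFull N) K₁) : CoeffsIn K₁ a :=
  fun m => coeff_mem_of_mem_ratField (modularFunctionFieldFull N) K₁ ha m

omit [NeZero N] in
theorem smul_bcQ (τ : L ≃ₐ[ℚ] L) (u : modularFunctionFieldFull N) :
    arithmeticGalois (modularFunctionFieldFull N) τ • bcQ N L u = bcQ N L u := by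
  apply Subtype.ext
  rw [coe_arithmeticGalois_smul]
  exact coeffMap_coeffEmb τ _

omit [NeZero N] in
/-- Values of functions with rational `q`-expansion are transported by `Aut(L)`. -/
theorem hasValue_smul_iff (τ : L ≃ₐ[ℚ] L) (P : Place L (FL N L))
    (u : modularFunctionFieldFull N) (c : L) :
    HasValue (arithmeticGalois (modularFunctionFieldFull N) τ • P) (bcQ N L u) (τ c) ↔
      HasValue P (bcQ N L u) c := by
  have h := value_smul_iff (arithmeticGalois (modularFunctionFieldFull N) τ) P (bcQ N L u) c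
  rw [smul_bcQ] at h
  exact h

omit [NeZero N] in
theorem hasValue_smul_iff' (τ : L ≃ₐ[ℚ] L) (P : Place L (FL N L))
    (u : modularFunctionFieldFull N) (c : L) :
    HasValue (arithmeticGalois (modularFunctionFieldFull N) τ • P) (bcQ N L u) c ↔
      HasValue P (bcQ N L u) (τ.symm c) := by
  rw [← hasValue_smul_iff τ P u (τ.symm c), AlgEquiv.apply_symm_apply]

variable [FF1 L (FL N L)]

omit [NeZero N] in
theorem hasValue_iff_evAt (P : Place L (FL N L)) (f : FL N L) (c : L) :
    HasValue P f c ↔ ∃ h : f ∈ P.toValuationSubring, evAt P (deg_eq_one P) ⟨f, h⟩ = c :=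
  value_iff_evAt P (deg_eq_one P) f c

omit [NeZero N] in
theorem hasValue_unique {P : Place L (FL N L)} {f : FL N L} {c c' : L}
    (h : HasValue P f c) (h' : HasValue P f c') : c = c' := by
  obtain ⟨h1, e1⟩ := (hasValue_iff_evAt P f c).mp h
  obtain ⟨h2, e2⟩ := (hasValue_iff_evAt P f c').mp h'
  rw [← e1, ← e2]

omit [FF1 L (FL N L)] in
theorem hasValue_tval {P : Place L (FL N L)} (hfin : ∃ c : L, HasValue P (tL N L) c) :
    HasValue P (tL N L) (tval P) := by
  unfold tval
  rw [dif_pos hfin]
  exact hfin.choose_spec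

theorem tval_smul (τ : L ≃ₐ[ℚ] L) (P : Place L (FL N L))
    (hfin : ∃ c : L, HasValue P (tL N L) c) :
    (∃ c : L, HasValue (arithmeticGalois (modularFunctionFieldFull N) τ • P) (tL N L) c) ∧
      tval (arithmeticGalois (modularFunctionFieldFull N) τ • P) = τ (tval P) := by
  have h1 : HasValue (arithmeticGalois (modularFunctionFieldFull N) τ • P) (tL N L)
      (τ (tval P)) :=
    (hasValue_smul_iff τ P (jQ N) (tval P)).mpr (hasValue_tval hfin)
  exact ⟨⟨_, h1⟩, hasValue_unique (hasValue_tval ⟨_, h1⟩) h1⟩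

end Values

section Generic

variable {L : Type*} [Field L] [Algebra ℚ L]
variable (F₀ : IntermediateField ℚ (LaurentSeries ℚ))

/-- A place is *generic over `K₁`* if its valuation is trivial on the functions defined over
`K₁`. -/
def IsGenericOver (K₁ : Subfield L) (P : Place L (laurentBaseChange L F₀)) : Prop :=
  ∀ a ∈ ratField F₀ K₁, a ≠ 0 → P.ord a = 0

variable {F₀}

theorem IsGenericOver.mem {K₁ : Subfield L} {P : Place L (laurentBaseChange L F₀)}
    (hP : IsGenericOver F₀ K₁ P) {a : laurentBaseChange L F₀} (ha : a ∈ ratField F₀ K₁) :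
    a ∈ P.toValuationSubring := by
  rcases eq_or_ne a 0 with rfl | h0
  · exact zero_mem _
  · exact mem_of_ord_nonneg P (hP a ha h0).ge

/-- The evaluation of the functions defined over `K₁` at a generic place. -/
def evRat {K₁ : Subfield L} {P : Place L (laurentBaseChange L F₀)} (hdeg : P.deg = 1)
    (hP : IsGenericOver F₀ K₁ P) : ratField F₀ K₁ →+* L :=
  (evAt P hdeg).comp
    ((ratField F₀ K₁).subtype.codRestrict P.toValuationSubring.toSubring fun a => hP.mem a.2)

theorem evRat_apply {K₁ : Subfield L} {P : Place L (laurentBaseChange L F₀)} (hdeg : P.deg = 1)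
    (hP : IsGenericOver F₀ K₁ P) (a : ratField F₀ K₁) :
    evRat hdeg hP a = evAt P hdeg ⟨(a : laurentBaseChange L F₀), hP.mem a.2⟩ := rfl

/-- An automorphism of `L` intertwining the evaluations at two generic places fixes `K₁`. -/
theorem fixes_of_evRat {K₁ : Subfield L} {P Q : Place L (laurentBaseChange L F₀)}
    (hPdeg : P.deg = 1) (hQdeg : Q.deg = 1)
    (hP : IsGenericOver F₀ K₁ P) (hQ : IsGenericOver F₀ K₁ Q) (τ : L ≃ₐ[ℚ] L)
    (hτ : ∀ a : ratField F₀ K₁, τ (evRat hPdeg hP a) = evRat hQdeg hQ a)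
    (c : L) (hc : c ∈ K₁) : τ c = c := by
  have h := hτ ⟨algebraMap L _ c, algebraMap_mem_ratField F₀ K₁ hc⟩
  rw [evRat_apply, evRat_apply] at h
  have e1 : evAt P hPdeg ⟨algebraMap L (laurentBaseChange L F₀) c,
      hP.mem (algebraMap_mem_ratField F₀ K₁ hc)⟩ = c := evAt_algebraMap P hPdeg c
  have e2 : evAt Q hQdeg ⟨algebraMap L (laurentBaseChange L F₀) c,
      hQ.mem (algebraMap_mem_ratField F₀ K₁ hc)⟩ = c := evAt_algebraMap Q hQdeg c
  rw [e1, e2] at h
  exact h

/-- **EXT** applied to the evaluations at two generic places. -/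
theorem exists_aut_evRat [IsAlgClosed L] [Uncountable L]
    (K₁ : Subfield L) (hK₁ : (K₁ : Set L).Countable)
    (hF₀ : (F₀ : Set (LaurentSeries ℚ)).Countable)
    (P Q : Place L (laurentBaseChange L F₀)) (hPdeg : P.deg = 1) (hQdeg : Q.deg = 1)
    (hP : IsGenericOver F₀ K₁ P) (hQ : IsGenericOver F₀ K₁ Q) :
    ∃ τ : L ≃ₐ[ℚ] L, (∀ c ∈ K₁, τ c = c) ∧
      ∀ a : ratField F₀ K₁, τ (evRat hPdeg hP a) = evRat hQdeg hQ a := by
  obtain ⟨τ₀, hτ₀⟩ := exists_ringEquiv_comp_eq (countable_ratField F₀ K₁ hK₁ hF₀)
    Cardinal.aleph0_lt_mk (evRat hPdeg hP) (evRat hQdeg hQ)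
  obtain ⟨τ, hτ⟩ : ∃ τ : L ≃ₐ[ℚ] L, ∀ x : L, τ x = τ₀ x :=
    ⟨AlgEquiv.ofRingEquiv (f := τ₀) (fun r => by
      rw [eq_ratCast]; exact map_ratCast τ₀ r), fun _ => rfl⟩
  have hτ' : ∀ a : ratField F₀ K₁, τ (evRat hPdeg hP a) = evRat hQdeg hQ a := fun a => by
    rw [hτ]; exact hτ₀ a
  exact ⟨τ, fixes_of_evRat hPdeg hQdeg hP hQ τ hτ', hτ'⟩

end Generic

section Pieces

variable {N : ℕ} [NeZero N] {L : Type} [Field L] [Algebra ℚ L]

omit [NeZero N] in
theorem countable_modularFunctionFieldFull :
    ((modularFunctionFieldFull N : IntermediateField ℚ (LaurentSeries ℚ)) :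
      Set (LaurentSeries ℚ)).Countable := by
  have hs : (divisorExpansions N).Countable := by
    have hsub : divisorExpansions N ⊆
        Set.range (fun d : {d : ℕ // NeZero d} => @qExpand ℚ _ d.1 d.2 jq) := by
      rintro x ⟨d, hd, -, rfl⟩
      exact ⟨⟨d, hd⟩, rfl⟩
    exact (Set.countable_range _).mono hsub
  rw [← Set.countable_coe_iff, ← Cardinal.mk_le_aleph0_iff]
  refine (IntermediateField.cardinalMk_adjoin_le ℚ (divisorExpansions N)).trans ?_
  have a1 : #ℚ ≤ ℵ₀ := Cardinal.mk_le_aleph0
  have a2 : #(divisorExpansions N) ≤ ℵ₀ := Cardinal.mk_le_aleph0_iff.mpr hs.to_subtype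
  exact sup_le (sup_le a1 a2) le_rfl

/-- `t - c ≠ 0`. -/
theorem tL_sub_ne_zero (c : L) : tL N L - algebraMap L (FL N L) c ≠ 0 := by
  intro h
  have h1 : ((tL N L - algebraMap L (FL N L) c : FL N L) : LaurentSeries L).coeff (-1) = 0 := by
    rw [h]; rfl
  have h2 : ((tL N L - algebraMap L (FL N L) c : FL N L) : LaurentSeries L)
      = coeffEmb L jq - algebraMap L (LaurentSeries L) c := rfl
  rw [h2, algebraMap_laurentSeries_eq_single, HahnSeries.coeff_sub, coeffEmb_coeff,
    coeff_jq_neg_one, map_one, HahnSeries.coeff_single_of_ne (by decide), sub_zero] at h1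
  exact one_ne_zero h1

variable [FF1 L (FL N L)]

omit [FF1 L (FL N L)] in
/-- (T2) A place at which `t` is finite with value outside `K₁` is generic over `K₁`. -/
theorem isGenericOver_of_tval_notMem (hZRAT : StmtZRAT N L) (K₁ : Subfield L)
    (hK₁ : AlgClosedIn K₁) (P : Place L (FL N L)) (hfin : ∃ c : L, HasValue P (tL N L) c)
    (hnot : tval P ∉ K₁) : IsGenericOver (modularFunctionFieldFull N) K₁ P := by
  intro a ha _
  by_contra hord
  exact hnot (hZRAT K₁ hK₁ a (coeffsIn_of_mem_ratField K₁ ha) P hord (jQ N) (tval P)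
    (hasValue_tval hfin))

omit [FF1 L (FL N L)] in
/-- (T6) A place at which `t` is finite with value in `K₁` is rational over `K₁`. -/
theorem isRationalOver_of_tval_mem (hZRAT : StmtZRAT N L) (K₁ : Subfield L)
    (hK₁ : AlgClosedIn K₁) (P : Place L (FL N L)) (hfin : ∃ c : L, HasValue P (tL N L) c)
    (hmem : tval P ∈ K₁) : IsRationalOver K₁ P := by
  have hv : HasValue P (tL N L) (tval P) := hasValue_tval hfin
  have hrat : tL N L - algebraMap L (FL N L) (tval P) ∈ ratField (modularFunctionFieldFull N) K₁ :=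
    sub_mem (bcQ_mem_ratField K₁ (jQ N)) (algebraMap_mem_ratField _ K₁ hmem)
  refine hZRAT K₁ hK₁ _ (coeffsIn_of_mem_ratField K₁ hrat) P ?_
  rcases hv with h | h
  · exact absurd h (tL_sub_ne_zero (tval P))
  · exact h.ne'

omit [NeZero N] [FF1 L (FL N L)] in
/-- (T5) A place rational over `K₁` is fixed by `Aut(L/K₁)`. -/
theorem smul_eq_self_of_isRationalOver (hPLEXT : StmtPLEXT N L) (K₁ : Subfield L)
    (τ : L ≃ₐ[ℚ] L) (hfix : ∀ c ∈ K₁, τ c = c) (P : Place L (FL N L))
    (hP : IsRationalOver K₁ P) :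
    arithmeticGalois (modularFunctionFieldFull N) τ • P = P := by
  apply hPLEXT
  intro u c h
  have h' : HasValue P (bcQ N L u) (τ.symm c) := (hasValue_smul_iff' τ P u c).mp h
  have hc : τ.symm c ∈ K₁ := hP u _ h'
  have e : τ.symm c = c := by
    have := hfix _ hc
    rw [AlgEquiv.apply_symm_apply] at this
    exact this.symm
  rwa [e] at h'

omit [NeZero N] in
/-- (T4) `Aut(L/K₁)` is transitive on the places generic over `K₁`. -/
theorem exists_aut_smul_eq_of_isGenericOver [IsAlgClosed L] [Uncountable L]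
    (hPLEXT : StmtPLEXT N L) (K₁ : Subfield L) (hK₁ : (K₁ : Set L).Countable)
    (P Q : Place L (FL N L))
    (hP : IsGenericOver (modularFunctionFieldFull N) K₁ P)
    (hQ : IsGenericOver (modularFunctionFieldFull N) K₁ Q) :
    ∃ τ : L ≃ₐ[ℚ] L, (∀ c ∈ K₁, τ c = c) ∧
      arithmeticGalois (modularFunctionFieldFull N) τ • P = Q := by
  obtain ⟨τ, hfix, hτ⟩ := exists_aut_evRat K₁ hK₁ countable_modularFunctionFieldFull P Q
    (deg_eq_one P) (deg_eq_one Q) hP hQ
  refine ⟨τ, hfix, ?_⟩
  apply hPLEXT
  intro u c h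
  have h' : HasValue P (bcQ N L u) (τ.symm c) := (hasValue_smul_iff' τ P u c).mp h
  obtain ⟨hmem, hev⟩ := (hasValue_iff_evAt P _ _).mp h'
  have h2 := hτ ⟨bcQ N L u, bcQ_mem_ratField K₁ u⟩
  rw [evRat_apply, evRat_apply] at h2
  rw [(hasValue_iff_evAt Q _ _)]
  refine ⟨hQ.mem (bcQ_mem_ratField K₁ u), ?_⟩
  rw [← h2]
  have e3 : evAt P (deg_eq_one P) ⟨bcQ N L u, hP.mem (bcQ_mem_ratField K₁ u)⟩ = τ.symm c := hev
  rw [e3, AlgEquiv.apply_symm_apply]

end Pieces

section Main

variable {N : ℕ} [NeZero N] {L : Type} [Field L] [Algebra ℚ L] [FF1 L (FL N L)]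

/-- The image of a generic tuple under `Aut(L/K₀)` is generic. -/
theorem isGenericTuple_smul (K₀ : Subfield L) (τ : L ≃ₐ[ℚ] L) (hfix : ∀ a ∈ K₀, τ a = a)
    {m : ℕ} (P : Fin m → Place L (FL N L)) (hP : IsGenericTuple K₀ P) :
    IsGenericTuple K₀ (fun i => arithmeticGalois (modularFunctionFieldFull N) τ • P i) := by
  refine ⟨fun i => (tval_smul τ (P i) (hP.1 i)).1, ?_⟩
  have e : (fun i => tval (arithmeticGalois (modularFunctionFieldFull N) τ • P i))
      = fun i => τ (tval (P i)) :=
    funext fun i => (tval_smul τ (P i) (hP.1 i)).2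
  rw [e]
  let τ' : L →ₐ[K₀] L := { (τ : L →+* L) with commutes' := fun a => hfix a a.2 }
  exact hP.2.map' (f := τ') τ.injective

/-- The inductive step of TRANS. -/
theorem trans_step [IsAlgClosed L] [Uncountable L]
    (hPLEXT : StmtPLEXT N L) (hZRAT : StmtZRAT N L)
    (K₀ : Subfield L) (hK₀ : (K₀ : Set L).Countable)
    {g : ℕ} (P Q : Fin g → Place L (FL N L))
    (hP : IsGenericTuple K₀ P) (hQ : IsGenericTuple K₀ Q)
    (m : ℕ) (hm : m < g) (hPQ : ∀ i : Fin g, (i : ℕ) < m → P i = Q i) :
    ∃ τ : L ≃ₐ[ℚ] L, (∀ a ∈ K₀, τ a = a) ∧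
      ∀ i : Fin g, (i : ℕ) < m + 1 →
        arithmeticGalois (modularFunctionFieldFull N) τ • P i = Q i := by
  classical
  set s : Set (Fin g) := {j | (j : ℕ) < m} with hs
  set K₁ : Subfield L := algClosureAdjoin K₀ ((fun i => tval (Q i)) '' s) with hK₁def
  have himg : (fun i => tval (P i)) '' s = (fun i => tval (Q i)) '' s :=
    Set.image_congr fun j hj => by
      show tval (P j) = tval (Q j)
      rw [hPQ j hj]
  have hK₁closed : AlgClosedIn K₁ := algClosedIn_algClosureAdjoin K₀ _
  have hK₁c : (K₁ : Set L).Countable :=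
    countable_algClosureAdjoin K₀ _ hK₀ ((Set.to_countable s).image _)
  have hK₀K₁ : K₀ ≤ K₁ := le_algClosureAdjoin K₀ _
  have hmem : ∀ j : Fin g, (j : ℕ) < m → tval (Q j) ∈ K₁ := fun j hj =>
    subset_algClosureAdjoin K₀ _ ⟨j, hj, rfl⟩
  have hms : (⟨m, hm⟩ : Fin g) ∉ s := fun h => lt_irrefl m h
  have hQm : tval (Q ⟨m, hm⟩) ∉ K₁ :=
    notMem_algClosureAdjoin K₀ (fun i => tval (Q i)) hQ.2 s ⟨m, hm⟩ hms
  have hPm : tval (P ⟨m, hm⟩) ∉ K₁ := by
    rw [hK₁def, ← himg]
    exact notMem_algClosureAdjoin K₀ (fun i => tval (P i)) hP.2 s ⟨m, hm⟩ hms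
  obtain ⟨τ, hτfix, hτ⟩ := exists_aut_smul_eq_of_isGenericOver hPLEXT K₁ hK₁c
    (P ⟨m, hm⟩) (Q ⟨m, hm⟩)
    (isGenericOver_of_tval_notMem hZRAT K₁ hK₁closed _ (hP.1 _) hPm)
    (isGenericOver_of_tval_notMem hZRAT K₁ hK₁closed _ (hQ.1 _) hQm)
  refine ⟨τ, fun a ha => hτfix a (hK₀K₁ ha), fun i hi => ?_⟩
  rcases Nat.lt_succ_iff_lt_or_eq.mp hi with h | h
  · rw [hPQ i h]
    exact smul_eq_self_of_isRationalOver hPLEXT K₁ τ hτfix (Q i)
      (isRationalOver_of_tval_mem hZRAT K₁ hK₁closed (Q i) (hQ.1 i) (hmem i h))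
  · have hi' : i = ⟨m, hm⟩ := Fin.ext h
    rw [hi']
    exact hτ

/-- **TRANS.**  `Aut(L/K₀)` acts transitively on the generic tuples. -/
theorem stmtTRANS [IsAlgClosed L] [Uncountable L]
    (hPLEXT : StmtPLEXT N L) (hZRAT : StmtZRAT N L) : StmtTRANS N L := by
  intro K₀ _ hK₀c P Q hP hQ
  have claim : ∀ m : ℕ, m ≤ gL N L → ∃ σ : L ≃ₐ[ℚ] L, (∀ a ∈ K₀, σ a = a) ∧
      ∀ i : Fin (gL N L), (i : ℕ) < m →
        arithmeticGalois (modularFunctionFieldFull N) σ • P i = Q i := by
    intro m
    induction m with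
    | zero =>
      intro _
      exact ⟨1, fun _ _ => rfl, fun i hi => absurd hi (Nat.not_lt_zero _)⟩
    | succ m ih =>
      intro hm
      obtain ⟨σ, hσ, hσP⟩ := ih (Nat.le_of_succ_le hm)
      obtain ⟨τ, hτ, hτP⟩ := trans_step hPLEXT hZRAT K₀ hK₀c _ Q
        (isGenericTuple_smul K₀ σ hσ P hP) hQ m hm hσP
      refine ⟨τ * σ, fun a ha => ?_, fun i hi => ?_⟩
      · show τ (σ a) = a
        rw [hσ a ha, hτ a ha]
      · rw [map_mul, mul_smul]
        exact hτP i hi
  obtain ⟨σ, hσ, hσP⟩ := claim (gL N L) le_rfl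
  exact ⟨σ, hσ, fun i => hσP i i.2⟩

end Main

end Fermat.Agent.S17.H20

end
end
-- ===== PACK-END S17/H20/TransStmt.lean

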