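import Fermat.Prelude.Def_EllipticCurve_FrobeniusTrace
import Mathlib
import Fermat.Agent.Pack.S15.AE5L0
import Fermat.Agent.Pack.S15.AE1L0
import Fermat.Agent.Pack.S15.AE3L2
import Fermat.Agent.Pack.S15.AE4L3
import Fermat.Agent.Pack.S15.AE3L1
import Fermat.Agent.Pack.S15.AE0L3
import Fermat.Agent.Pack.S15.AE0L2
import Fermat.Agent.Pack.S15.AE2L2
import Fermat.Agent.Pack.S15.AE2L3
import Fermat.Agent.Pack.S15.AE5L2
import Fermat.Agent.Pack.S15.AE5L1
import Fermat.Agent.Pack.S15.AE1L1
import Fermat.Agent.Pack.S15.AE4L2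
import Fermat.Agent.Pack.S15.AE4L0
import Fermat.Agent.Pack.S15.AE1L2
import Fermat.Agent.Pack.S15.AE2L1
import Fermat.Agent.Pack.S15.AE0L1
import Fermat.Agent.Pack.S15.AE3L0
import Fermat.Agent.Pack.S15.AE0L0
import Fermat.Agent.Pack.S15.AE4L1
import Fermat.Agent.Pack.S15.AE3L3

-- ===== PACK-BEGIN S30/H810/Real.lean
section
/-
S30 / piece FIN-ONTO (helper810), part 1: analytic realisation of `R_N = ℚ̄[j(q^d) : d ∣ N]`
by good functions, and the Taylor embeddings `σ_τ : FF N → ℂ((z))`.

* `realRN N : RN N →+* goodRing N` : the good function with `q`-expansion `ι r`;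
* `sigmaTau N τ : FF N →+* LaurentSeries ℂ` : Taylor expansion at `τ` of the realisation;
* `sigmaTau_of_realises` : if `G` realises `u` (M4b `Realises`), then
  `sigmaTau N τ u = taylorLaurent τ G`.
-/





set_option autoImplicit false
set_option linter.unusedSectionVars false

noncomputable section

open ModularCurve AlgebraicCurve CongruenceSubgroup UpperHalfPlane HahnSeries
open scoped MatrixGroups Manifold

namespace Fermat.Agent.S30.H810

open Fermat.Agent.S24 Fermat.Agent.S24.H648 Fermat.Agent.S24.H708 Fermat.Agent.S24.Deg457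
open Fermat.Agent.S24.H624 Fermat.Agent.S24.H997 Fermat.Agent.S29 Fermat.Agent.S29.M4b
open Fermat.Agent.S29.H882

variable (N : ℕ) [NeZero N]

/-- every element of `R_N` is the `q`-expansion of a good function -/
theorem exists_good_of_RN (r : RN N) :
    ∃ f : ℍ → ℂ, f ∈ goodRing N ∧ HasQExp 1 f (coeffMap iotaC (r : LaurentSeries Kbar)) := by
  have h1 : (r : LaurentSeries Kbar) ∈ AK Kbar N := r.2
  have h2 : coeffMap iotaC (r : LaurentSeries Kbar) ∈ AK ℂ N := coeffMap_mem_AK iotaC h1
  exact AK_le_goodQ N h2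

/-- the good function realising `r ∈ R_N` -/
def realFun (r : RN N) : ℍ → ℂ := (exists_good_of_RN N r).choose

theorem realFun_mem (r : RN N) : realFun N r ∈ goodRing N :=
  (exists_good_of_RN N r).choose_spec.1

theorem realFun_hasQExp (r : RN N) :
    HasQExp 1 (realFun N r) (coeffMap iotaC (r : LaurentSeries Kbar)) :=
  (exists_good_of_RN N r).choose_spec.2

/-- the realisation `R_N → goodRing N` as a ring hom -/
def realRN : RN N →+* goodRing N where
  toFun r := ⟨realFun N r, realFun_mem N r⟩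
  map_one' := by
    apply Subtype.ext
    have h := realFun_hasQExp N (1 : RN N)
    have h1 : coeffMap iotaC ((1 : RN N) : LaurentSeries Kbar) = 1 := by
      rw [OneMemClass.coe_one, map_one]
    rw [h1] at h
    exact h.eq_of_eq (HasQExp.one 1)
  map_mul' a b := by
    apply Subtype.ext
    have h := realFun_hasQExp N (a * b)
    have h1 : coeffMap iotaC ((a * b : RN N) : LaurentSeries Kbar)
        = coeffMap iotaC (a : LaurentSeries Kbar) * coeffMap iotaC (b : LaurentSeries Kbar) := by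
      rw [MulMemClass.coe_mul, map_mul]
    rw [h1] at h
    exact h.eq_of_eq ((realFun_hasQExp N a).mul (realFun_hasQExp N b))
  map_zero' := by
    apply Subtype.ext
    have h := realFun_hasQExp N (0 : RN N)
    have h1 : coeffMap iotaC ((0 : RN N) : LaurentSeries Kbar) = 0 := by
      rw [ZeroMemClass.coe_zero, map_zero]
    rw [h1] at h
    exact h.eq_of_eq (HasQExp.zero 1)
  map_add' a b := by
    apply Subtype.ext
    have h := realFun_hasQExp N (a + b)
    have h1 : coeffMap iotaC ((a + b : RN N) : LaurentSeries Kbar)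
        = coeffMap iotaC (a : LaurentSeries Kbar) + coeffMap iotaC (b : LaurentSeries Kbar) := by
      rw [AddMemClass.coe_add, map_add]
    rw [h1] at h
    exact h.eq_of_eq ((realFun_hasQExp N a).add (realFun_hasQExp N b))

@[simp] theorem coe_realRN (r : RN N) : ((realRN N r : goodRing N) : ℍ → ℂ) = realFun N r := rfl

theorem iotaC_injective : Function.Injective iotaC := iotaC.injective

theorem coeffMap_iotaC_injective :
    Function.Injective (coeffMap iotaC : LaurentSeries Kbar → LaurentSeries ℂ) := by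
  intro x y h
  ext k
  apply iotaC_injective
  have := congrArg (fun s : LaurentSeries ℂ => s.coeff k) h
  simpa using this

theorem realRN_injective : Function.Injective (realRN N) := by
  intro a b h
  apply Subtype.ext
  apply coeffMap_iotaC_injective
  have ha := realFun_hasQExp N a
  have hb := realFun_hasQExp N b
  have h' : realFun N a = realFun N b := congrArg Subtype.val h
  rw [h'] at ha
  exact ha.unique hb

/-- good functions are holomorphic -/
theorem goodRing_le_holoRing : goodRing N ≤ holoRing := fun _ hf => hf.1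

/-- the inclusion `goodRing N → holoRing` -/
def goodToHolo : goodRing N →+* holoRing :=
  (Subalgebra.inclusion (goodRing_le_holoRing N)).toRingHom

@[simp] theorem coe_goodToHolo (f : goodRing N) :
    ((goodToHolo N f : holoRing) : ℍ → ℂ) = (f : ℍ → ℂ) := rfl

theorem goodToHolo_injective : Function.Injective (goodToHolo N) :=
  Subalgebra.inclusion_injective (goodRing_le_holoRing N)

/-- Taylor expansion at `τ` of the realisation of `r ∈ R_N` -/
def sTau (τ : ℍ) : RN N →+* LaurentSeries ℂ :=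
  (taylorLaurent τ).comp ((goodToHolo N).comp (realRN N))

theorem sTau_injective (τ : ℍ) : Function.Injective (sTau N τ) :=
  (taylorLaurent_injective τ).comp ((goodToHolo_injective N).comp (realRN_injective N))

/-- **The Taylor embedding** `σ_τ : FF N → ℂ((z))`. -/
def sigmaTau (τ : ℍ) : FF N →+* LaurentSeries ℂ := liftF (sTau N τ) (sTau_injective N τ)

theorem sigmaTau_inclRN (τ : ℍ) (r : RN N) :
    sigmaTau N τ (inclRN N r) = taylorLaurent τ (goodToHolo N (realRN N r)) :=
  liftF_inclRN _ _ r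

theorem algebraMap_laurent_eq_C (c : ℂ) :
    algebraMap ℂ (LaurentSeries ℂ) c = HahnSeries.C c := by
  rw [algebraMap_laurentSeries_eq_single]; rfl

theorem realFun_algebraMap (c : Kbar) :
    realFun N (algebraMap Kbar (RN N) c) = fun _ => iotaC c := by
  have h := realFun_hasQExp N (algebraMap Kbar (RN N) c)
  have h1 : ((algebraMap Kbar (RN N) c : RN N) : LaurentSeries Kbar)
      = algebraMap Kbar (LaurentSeries Kbar) c := rfl
  rw [h1, coeffMap_algebraMap', algebraMap_laurent_eq_C] at h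
  exact h.eq_of_eq (HasQExp.const 1 (iotaC c))

theorem taylorLaurent_const (τ : ℍ) (c : ℂ) (f : holoRing) (hf : (f : ℍ → ℂ) = fun _ => c) :
    taylorLaurent τ f = HahnSeries.C c := by
  have : f = algebraMap ℂ holoRing c := Subtype.ext hf
  rw [this, taylorLaurent_apply, AlgHom.commutes, PowerSeries.algebraMap_apply,
    Algebra.algebraMap_self, RingHom.id_apply, HahnSeries.ofPowerSeries_C]

theorem sigmaTau_algebraMap (τ : ℍ) (c : Kbar) :
    sigmaTau N τ (algebraMap Kbar (FF N) c) = HahnSeries.C (iotaC c) := by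
  rw [sigmaTau, liftF_algebraMap]
  exact taylorLaurent_const τ (iotaC c) _ (realFun_algebraMap N c)

variable {N}

theorem Realises.hasQExp {u : FF N} {G : ℍ → ℂ} (hG : Realises N u G) :
    HasQExp 1 G (coeffMap iotaC ((u : FF N) : LaurentSeries Kbar)) := by
  have h := hasQExp_of_mem_goodRing hG.1
  rwa [hG.2] at h

/-- **Compatibility**: if `G` realises `u`, then `σ_τ u` is the Taylor expansion of `G` at `τ`. -/
theorem sigmaTau_of_realises {u : FF N} {G : ℍ → ℂ} (hG : Realises N u G)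
    (hmd : G ∈ holoRing) (τ : ℍ) :
    sigmaTau N τ u = taylorLaurent τ ⟨G, hmd⟩ := by
  obtain ⟨r, t, ht, hu⟩ := exists_div_inclRN N u
  have ht' : inclRN N t ≠ 0 := fun h => ht (inclRN_injective N (by rw [h, map_zero]))
  have hmul : u * inclRN N t = inclRN N r := by
    rw [hu, div_mul_cancel₀ _ ht']
  have hcoe : ((u : FF N) : LaurentSeries Kbar) * (t : LaurentSeries Kbar)
      = (r : LaurentSeries Kbar) := by
    have := congrArg (fun x : FF N => (x : LaurentSeries Kbar)) hmul
    simpa using this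
  have hq : HasQExp 1 (G * realFun N t) (coeffMap iotaC (r : LaurentSeries Kbar)) := by
    have := (Realises.hasQExp hG).mul (realFun_hasQExp N t)
    rwa [← map_mul, hcoe] at this
  have hfun : G * realFun N t = realFun N r := hq.eq_of_eq (realFun_hasQExp N r)
  have hholo : (⟨G, hmd⟩ : holoRing) * goodToHolo N (realRN N t)
      = goodToHolo N (realRN N r) := Subtype.ext hfun
  have hT0 : taylorLaurent τ (goodToHolo N (realRN N t)) ≠ 0 := by
    intro h
    exact ht (sTau_injective N τ (by rw [map_zero]; exact h))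
  rw [hu, map_div₀, sigmaTau_inclRN, sigmaTau_inclRN, ← hholo, map_mul, mul_div_assoc,
    div_self hT0, mul_one]

end Fermat.Agent.S30.H810

end
end
-- ===== PACK-END S30/H810/Real.lean

-- ===== PACK-BEGIN S30/H810/RevDict.lean
section
/-
S30 / piece FIN-ONTO (helper810), part 2: the REVERSE DICTIONARY.

If `u ∈ FF N` is realised by the good function `G` and `p ∣ ord_v u` at every place `v` of
`FF N / ℚ̄`, then `p ∣ ord_τ G` at EVERY point `τ ∈ ℍ`.

Proof: the Taylor embedding `σ_τ : FF N → ℂ((z))` either is trivial (all orders `0`; this is the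
case of transcendental `j(τ)`) or defines a place `v_τ` with `ord ∘ σ_τ = k * ord_{v_τ}`
(`S24.H117.exists_mult`).
-/


set_option autoImplicit false
set_option linter.unusedSectionVars false

noncomputable section

open ModularCurve AlgebraicCurve CongruenceSubgroup UpperHalfPlane HahnSeries
open scoped MatrixGroups Manifold

namespace Fermat.Agent.S30.H810

open Fermat.Agent.S24 Fermat.Agent.S24.H648 Fermat.Agent.S24.H708 Fermat.Agent.S24.Deg457
open Fermat.Agent.S24.H624 Fermat.Agent.S24.H997 Fermat.Agent.S29 Fermat.Agent.S29.M4b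
open Fermat.Agent.S29.H882

variable {N : ℕ} [NeZero N]

theorem eord_sigmaTau_algebraMap (τ : ℍ) (c : Kbar) :
    H117.eord (sigmaTau N τ) (algebraMap Kbar (FF N) c) = 0 := by
  rw [H117.eord, sigmaTau_algebraMap, HahnSeries.order_C]

/-- the order of the Taylor embedding of a realised element is the analytic order -/
theorem eord_sigmaTau_of_realises {u : FF N} {G : ℍ → ℂ} (hG : Realises N u G)
    (τ : ℍ) {n : ℕ} (hn : ordAt τ G = (n : ℕ∞)) :
    H117.eord (sigmaTau N τ) u = (n : ℤ) := by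
  have hmd : G ∈ holoRing := hG.1.1
  rw [H117.eord, sigmaTau_of_realises hG hmd τ, taylorLaurent_apply]
  apply order_ofPowerSeries
  rw [order_taylorAt]
  exact hn

theorem realises_ne_zero {u : FF N} {G : ℍ → ℂ} (hG : Realises N u G) (hu : u ≠ 0) : G ≠ 0 := by
  intro h0
  have h := Realises.hasQExp hG
  have h1 : coeffMap iotaC ((u : FF N) : LaurentSeries Kbar) = 0 := (h.eq_zero_iff).mpr h0
  apply hu
  apply Subtype.ext
  apply coeffMap_iotaC_injective
  rw [h1]
  simp

/-- **REVERSE DICTIONARY.** -/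
theorem exists_analyticOrderAt_eq_mul {u : FF N} {G : ℍ → ℂ} (hG : Realises N u G) (hu : u ≠ 0)
    (p : ℕ) (hp : p ≠ 0) (hdiv : ∀ v : Place Kbar (FF N), (p : ℤ) ∣ v.ord u) (τ : ℍ) :
    ∃ m : ℕ, analyticOrderAt (G ∘ ofComplex) (τ : ℂ) = ((p * m : ℕ) : ℕ∞) := by
  have hmd : MDiff G := hG.1.1
  have hG0 : G ≠ 0 := realises_ne_zero hG hu
  have htop : ordAt τ G ≠ ⊤ := ordAt_ne_top hmd hG0 τ
  obtain ⟨n, hn⟩ := ENat.ne_top_iff_exists.mp htop
  have hord : H117.eord (sigmaTau N τ) u = (n : ℤ) := eord_sigmaTau_of_realises hG τ hn.symm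
  rw [← ordAt_def, ← hn]
  by_cases hnt : ∃ t : FF N, H117.eord (sigmaTau N τ) t ≠ 0
  · obtain ⟨k, hk, h⟩ := H117.exists_mult (K := Kbar) (sigmaTau N τ)
      (fun c => (eord_sigmaTau_algebraMap τ c).ge) hnt
    obtain ⟨j, hj⟩ := hdiv (H117.placeOfEmb (sigmaTau N τ)
      (fun c => (eord_sigmaTau_algebraMap τ c).ge) hnt)
    have h1 := h u
    rw [hord, hj] at h1
    have hk' : (0 : ℤ) < k := by exact_mod_cast hk
    have hp' : (0 : ℤ) < p := by exact_mod_cast Nat.pos_of_ne_zero hp
    have hj0 : 0 ≤ j := by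
      by_contra hneg
      push Not at hneg
      have : (k : ℤ) * (p * j) < 0 :=
        mul_neg_of_pos_of_neg hk' (mul_neg_of_pos_of_neg hp' hneg)
      omega
    refine ⟨k * j.toNat, ?_⟩
    have h2 : (n : ℤ) = ((p * (k * j.toNat) : ℕ) : ℤ) := by
      push_cast
      rw [Int.toNat_of_nonneg hj0, h1]
      ring
    have h3 : n = p * (k * j.toNat) := by exact_mod_cast h2
    rw [h3]
  · push Not at hnt
    have h1 := hnt u
    rw [hord] at h1
    have h3 : n = 0 := by exact_mod_cast h1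
    exact ⟨0, by rw [h3]; simp⟩

end Fermat.Agent.S30.H810

end
end
-- ===== PACK-END S30/H810/RevDict.lean

-- ===== PACK-BEGIN S30/H109/Onto.lean
section



/-!
# S30 / adic layer, piece ONTO (helper109): every torsion class is a Kummer class

`exists_isKum_of_torsion` : if `m • x = 0` in `J₀(N)(ℚ̄)` then `x` is the Kummer class
(`M4b.IsKum`) of an additive character `c : Γ₀(N) → ℤ/m`.

Input (hypothesis `DCStatement`, the converse direction of the dictionary DICT): a function
`f ∈ FF N` all of whose orders at the places of `FF N / ℚ̄` are divisible by `m` has, after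
multiplication by an `m`-th power, a holomorphic realisation all of whose analytic orders of
vanishing are divisible by `m`.  Then ROOT (landed `H751`) gives the `m`-th root `U`, which
transforms by a character of `Γ₀(N)`.
-/

set_option autoImplicit false

noncomputable section

open ModularCurve AlgebraicCurve CongruenceSubgroup UpperHalfPlane
open scoped MatrixGroups Manifold

namespace Fermat.Agent.S30.H109

open Fermat.Agent.S24 Fermat.Agent.S29 Fermat.Agent.S29.M4b

/-- The converse dictionary: divisibility of all algebraic orders by `m` gives a holomorphic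
realisation (up to an `m`-th power) with all analytic orders divisible by `m`. -/
def DCStatement (N m : ℕ) [NeZero N] : Prop :=
  ∀ f : FF N, f ≠ 0 → (∀ v : Place Kbar (FF N), (m : ℤ) ∣ v.ord f) →
    ∃ (t : FF N) (G : ℍ → ℂ), t ≠ 0 ∧ Realises N (f * t ^ m) G ∧
      ∀ τ : ℍ, ∃ k : ℕ, analyticOrderAt (G ∘ ofComplex) (τ : ℂ) = ((m * k : ℕ) : ℕ∞)

section roots

variable (m : ℕ) [NeZero m]

lemma zetaP_isPrimitiveRoot : IsPrimitiveRoot (zetaP m) m :=
  Complex.isPrimitiveRoot_exp m (NeZero.ne m)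

lemma zetaP_pow_val_add (a b : ZMod m) :
    zetaP m ^ (a + b).val = zetaP m ^ a.val * zetaP m ^ b.val := by
  rw [← pow_add]
  have h1 : (a + b).val = (a.val + b.val) % m := ZMod.val_add a b
  rw [h1]
  exact (pow_mod_orderOf_aux m).symm
where
  pow_mod_orderOf_aux (m : ℕ) [NeZero m] {n : ℕ} :
      zetaP m ^ n = zetaP m ^ (n % m) := by
    conv_lhs => rw [← Nat.div_add_mod n m, pow_add, pow_mul,
      (zetaP_isPrimitiveRoot m).pow_eq_one, one_pow, one_mul]

lemma zetaP_pow_val_injective {a b : ZMod m}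
    (h : zetaP m ^ a.val = zetaP m ^ b.val) : a = b := by
  apply ZMod.val_injective m
  exact (zetaP_isPrimitiveRoot m).pow_inj (ZMod.val_lt a) (ZMod.val_lt b) h

lemma exists_zmod_of_pow_eq_one {z : ℂ} (hz : z ^ m = 1) :
    ∃ c : ZMod m, zetaP m ^ c.val = z := by
  obtain ⟨i, hi, hiz⟩ := (zetaP_isPrimitiveRoot m).eq_pow_of_pow_eq_one hz
  refine ⟨(i : ZMod m), ?_⟩
  rw [ZMod.val_natCast_of_lt hi, hiz]

end roots

section onto

variable (N : ℕ) [NeZero N] (m : ℕ) [NeZero m]

/-- The character of an `m`-th root of a `Γ₀(N)`-invariant function. -/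
theorem exists_hom_hasChar {U : ℍ → ℂ} (hU : MDifferentiable 𝓘(ℂ) 𝓘(ℂ) U)
    (hne : ∃ τ, U τ ≠ 0)
    (hinv : ∀ γ ∈ Gamma0 N, ∀ τ : ℍ, U (γ • τ) ^ m = U τ ^ m) :
    ∃ c : G0 N → ZMod m, (∀ γ γ' : G0 N, c (γ * γ') = c γ + c γ') ∧ HasChar N m c U := by
  have hm : m ≠ 0 := NeZero.ne m
  obtain ⟨τ₁, hτ₁⟩ := hne
  -- the constant attached to `γ`
  have key : ∀ γ : G0 N, ∃ c : ZMod m, ∀ τ : ℍ,
      U ((γ : SL(2, ℤ)) • τ) = zetaP m ^ c.val * U τ := by
    intro γ
    have hA1 : U ((γ : SL(2, ℤ)) • τ₁) ≠ 0 := by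
      intro h0
      have := hinv γ γ.2 τ₁
      rw [h0, zero_pow hm] at this
      exact pow_ne_zero m hτ₁ this.symm
    set z : ℂ := U ((γ : SL(2, ℤ)) • τ₁) / U τ₁ with hz
    have hzm : z ^ m = 1 := by
      rw [hz, div_pow, hinv γ γ.2 τ₁, div_self (pow_ne_zero m hτ₁)]
    obtain ⟨c, hc⟩ := exists_zmod_of_pow_eq_one m hzm
    refine ⟨c, fun τ => ?_⟩
    have hdet : 0 < ((Matrix.SpecialLinearGroup.mapGL ℝ (γ : SL(2, ℤ))).det : ℝ) := by
      simp
    have hAd : MDifferentiable 𝓘(ℂ) 𝓘(ℂ) (fun τ : ℍ => U ((γ : SL(2, ℤ)) • τ)) :=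
      hU.comp (UpperHalfPlane.mdifferentiable_smul hdet)
    have hBd : MDifferentiable 𝓘(ℂ) 𝓘(ℂ) (fun τ : ℍ => zetaP m ^ c.val * U τ) :=
      (mdifferentiable_const (c := zetaP m ^ c.val)).mul hU
    have := H751.eq_of_pow_eq_UHP hAd hBd hm (fun τ => by
      rw [hinv γ γ.2 τ, mul_pow, hc, hzm, one_mul]) (τ₀ := τ₁)
      (by
        simp only [hc, hz]
        field_simp) hA1
    exact congrFun this τ
  choose c hc using key
  refine ⟨c, fun γ γ' => ?_, fun γ τ => hc γ τ⟩
  apply zetaP_pow_val_injective m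
  rw [zetaP_pow_val_add]
  have h1 := hc (γ * γ') τ₁
  have h2 := hc γ ((γ' : SL(2, ℤ)) • τ₁)
  have h3 := hc γ' τ₁
  have hsm : ((γ * γ' : G0 N) : SL(2, ℤ)) • τ₁ = (γ : SL(2, ℤ)) • ((γ' : SL(2, ℤ)) • τ₁) := by
    rw [Subgroup.coe_mul, mul_smul]
  rw [hsm, h2, h3] at h1
  have h5 : zetaP m ^ (c γ).val * zetaP m ^ (c γ').val * U τ₁ =
      zetaP m ^ (c (γ * γ')).val * U τ₁ := by
    linear_combination h1
  exact (mul_right_cancel₀ hτ₁ h5).symm

/-- **ONTO.**  Every `m`-torsion class of `J₀(N)(ℚ̄)` is the Kummer class of an additive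
character of `Γ₀(N)` with values in `ℤ/m`. -/
theorem exists_isKum_of_torsion (hDC : DCStatement N m) {x : JZero N}
    (hx : (m : ℤ) • x = 0) :
    ∃ c : G0 N → ZMod m, (∀ γ γ' : G0 N, c (γ * γ') = c γ + c γ') ∧ IsKum N m c x := by
  have hm : m ≠ 0 := NeZero.ne m
  obtain ⟨f, hf⟩ := H455.exists_isKummerClass_of_zsmul_eq_zero hx
  have hdvd : ∀ v : Place Kbar (FF N), (m : ℤ) ∣ v.ord f := by
    obtain ⟨-, D, -, hD⟩ := hf
    exact fun v => ⟨_, (hD v).symm⟩
  obtain ⟨t, G, ht, hG, hord⟩ := hDC f hf.ne_zero hdvd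
  have hGgood := hG.1
  obtain ⟨U, hUd, hUG⟩ := H751.exists_pow_eq_UHP hGgood.1 m hm hord
  have hpowfun : (fun τ => U τ ^ m) = G := funext hUG
  -- `G` is not identically zero
  have hGne : G ≠ 0 := by
    intro h0
    have hq := hG.2
    have hmer := (H882.hasQExp_of_mem_goodRing hGgood).isMerInf
    rw [(H708.qexpFun_eq_zero_iff hmer).2 h0] at hq
    have hne : (f * t ^ m : FF N) ≠ 0 := mul_ne_zero hf.ne_zero (pow_ne_zero m ht)
    have hne' : ((f * t ^ m : FF N) : LaurentSeries Kbar) ≠ 0 := by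
      intro h
      exact hne (Subtype.ext h)
    exact hne' ((map_eq_zero_iff _ (coeffMap Deg457.iotaC).injective).1 hq.symm)
  have hUne : ∃ τ, U τ ≠ 0 := by
    by_contra hcon
    simp only [not_exists, not_not] at hcon
    apply hGne
    funext τ
    rw [← hUG τ, hcon τ, zero_pow hm]
    rfl
  obtain ⟨c, hcmul, hchar⟩ := exists_hom_hasChar N m hUd hUne (fun γ hγ τ => by
    rw [hUG, hUG, hGgood.2.1 γ hγ τ])
  refine ⟨c, hcmul, f, t, U, ht, hf, ⟨hUd, hUne, hchar, ?_⟩, ?_⟩
  · rw [hpowfun]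
    exact hGgood
  · rw [hpowfun]
    exact hG

/-- The set of additive characters `Γ₀(N) → ℤ/m` is finite (`Γ₀(N)` is finitely generated). -/
theorem finite_hom_set :
    {c : G0 N → ZMod m | ∀ γ γ' : G0 N, c (γ * γ') = c γ + c γ'}.Finite := by
  haveI : Group.FG SL(2, ℤ) := Group.fg_iff.mpr ⟨{ModularGroup.S, ModularGroup.T},
    SpecialLinearGroup.SL2Z_generators, by simp⟩
  haveI : Group.FG (G0 N) := inferInstance
  obtain ⟨s, hs⟩ := Group.fg_def.mp (inferInstance : Group.FG (G0 N))
  let T := {c : G0 N → ZMod m | ∀ γ γ' : G0 N, c (γ * γ') = c γ + c γ'}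
  let r : T → (s → ZMod m) := fun c x => c.1 x
  have hr : Function.Injective r := by
    intro c d hcd
    have hc := c.2
    have hd := d.2
    have hc1 : c.1 1 = 0 := by
      have := hc 1 1
      rw [mul_one] at this
      exact left_eq_add.mp this
    have hd1 : d.1 1 = 0 := by
      have := hd 1 1
      rw [mul_one] at this
      exact left_eq_add.mp this
    have hcinv : ∀ γ, c.1 γ⁻¹ = -c.1 γ := fun γ => by
      have := hc γ γ⁻¹
      rw [mul_inv_cancel, hc1] at this
      exact eq_neg_of_add_eq_zero_right this.symm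
    have hdinv : ∀ γ, d.1 γ⁻¹ = -d.1 γ := fun γ => by
      have := hd γ γ⁻¹
      rw [mul_inv_cancel, hd1] at this
      exact eq_neg_of_add_eq_zero_right this.symm
    apply Subtype.ext
    funext γ
    have hγ : γ ∈ Subgroup.closure (s : Set (G0 N)) := by rw [hs]; trivial
    induction hγ using Subgroup.closure_induction with
    | mem x hx => exact congrFun hcd ⟨x, hx⟩
    | one => rw [hc1, hd1]
    | mul x y _ _ hx hy => rw [hc, hd, hx, hy]
    | inv x _ hx => rw [hcinv, hdinv, hx]
  haveI : Finite T := Finite.of_injective r hr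
  exact Set.toFinite T

/-- **FIN.**  `J₀(N)(ℚ̄)[m]` is finite, given the converse dictionary and the uniqueness of
Kummer classes (piece `K4-UNIQ` of sub-layer M4b). -/
theorem finite_torsion (hDC : DCStatement N m)
    (huniq : ∀ (c : G0 N → ZMod m) (x x' : JZero N),
      IsKum N m c x → IsKum N m c x' → x = x') :
    {x : JZero N | m • x = 0}.Finite := by
  have key : ∀ x : {x : JZero N | m • x = 0}, ∃ c : G0 N → ZMod m,
      (∀ γ γ' : G0 N, c (γ * γ') = c γ + c γ') ∧ IsKum N m c x.1 := fun x =>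
    exists_isKum_of_torsion N m hDC (by rw [natCast_zsmul]; exact x.2)
  choose c hc1 hc2 using key
  let T := {c : G0 N → ZMod m | ∀ γ γ' : G0 N, c (γ * γ') = c γ + c γ'}
  haveI : Finite T := (finite_hom_set N m).to_subtype
  let φ : {x : JZero N | m • x = 0} → T := fun x => ⟨c x, hc1 x⟩
  have hinj : Function.Injective φ := by
    intro x y h
    have hxy : c x = c y := congrArg Subtype.val h
    apply Subtype.ext
    exact huniq (c x) x.1 y.1 (hc2 x) (hxy ▸ hc2 y)
  haveI : Finite {x : JZero N | m • x = 0} := Finite.of_injective φ hinj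
  exact Set.toFinite _

end onto

end Fermat.Agent.S30.H109

end
end
-- ===== PACK-END S30/H109/Onto.lean

-- ===== PACK-BEGIN S15/H422/UnitFricke.lean
section




/-!
# S15 / P-C1 (helper422), part 3: the Fricke involution on the modular unit

`w_N(u) · u = N¹²` for `u = N¹² Δ(q^N)/Δ(q)`, i.e. `w_N(u) = g = Δ(q)/Δ(q^N)`.

The involution `wF` (helper528, cell A2) is defined through the analytic bridge
`toFun : R_N → (ℍ → ℂ)`; we compare with the analytic unit `τ ↦ N¹² Δ(Nτ)/Δ(τ)` of helper589,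
which lies in helper997's ring `holN N` by helper748's expansions of all its conjugates.
-/

set_option autoImplicit false

noncomputable section

open ModularCurve HahnSeries UpperHalfPlane
open scoped MatrixGroups

namespace Fermat.Agent.S15.H422

open Fermat.Agent.S24 Fermat.Agent.S28 Fermat.Agent.S24.H997 Fermat.Agent.A2.H528

local notation "Δ" => ModularForm.discriminant

variable (N : ℕ) [NeZero N]

theorem pos_N : 0 < N := Nat.pos_of_ne_zero (NeZero.ne N)

/-- the analytic unit `τ ↦ N¹² Δ(Nτ)/Δ(τ)`. -/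
def uAn : ℍ → ℂ := H589.unitFun N (pos_N N)

theorem scaleH_eq_infAff (τ : ℍ) : H589.scaleH N (pos_N N) τ = infAff N 0 1 τ := by
  apply UpperHalfPlane.ext
  rw [H589.scaleH_coe, infAff_coe (pos_N N) one_pos]
  simp

theorem uAn_eq (τ : ℍ) : uAn N τ = (N : ℂ) ^ 12 * H748.conjU N 0 1 τ := by
  simp only [uAn, H589.unitFun, H748.conjU, scaleH_eq_infAff]
  simp
  ring

/-- every `SL(2,ℤ)`-translate of the analytic unit has an expansion in `q^{1/N}`. -/
theorem compSL_uAn_mem_expRing (γ : SL(2, ℤ)) : compSL γ (uAn N) ∈ expRing N := by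
  have hmem : (fun τ => H748.conjU N 0 1 (γ • τ)) ∈ H748.famSet N :=
    H748.famSet_smul (H748.conjU_mem_famSet (pos_N N) dvd_rfl) γ
  obtain ⟨φ, hφ, -⟩ := H748.famSet_infExp hmem
  have h := (InfExp.const (N := N) ((N : ℂ) ^ 12)).mul hφ
  refine InfExp.mem_expRing (h.congr fun τ => ?_)
  rw [compSL_apply, uAn_eq]

theorem uAn_mem_holN : uAn N ∈ holN N :=
  ⟨H589.mdifferentiable_unitFun N (pos_N N), compSL_uAn_mem_expRing N⟩

/-- the analytic unit as an element of `Hol`. -/
def uHol : (holBase N).Hol := ⟨uAn N, uAn_mem_holN N⟩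

theorem infExp_uAn : InfExp N (uAn N) (qExpand ℂ N (H589.unitSeriesC N)) :=
  H748.infExp_level (H748.infExp_of_hasTExp_one (H589.hasTExp_unitFun N (pos_N N)))

theorem Φ_uSer : HolBase.Φ N (uSer N) = qExpand ℂ N (H589.unitSeriesC N) := by
  show qExpand ℂ N (coeffMap ιK (uSer N)) = _
  congr 1
  rw [uSer, Deg457.coeffMap_coeffEmb']
  exact coeffMap_uSerQ N

theorem qexp_uHol : (holBase N).qexp (uHol N) = HolBase.Φ N (uSer N) := by
  rw [Φ_uSer]
  exact (infExp_uAn N).expInf_eq

/-- the analytic functional equation `u(-1/(Nτ)) · u(τ) = N¹²`. -/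
theorem uAn_fricke (τ : ℍ) : uAn N (fricke N τ) * uAn N τ = (N : ℂ) ^ 12 := by
  have h1 : fricke N τ = ModularGroup.S • H589.scaleH N (pos_N N) τ := by
    rw [fricke, scaleH_eq_infAff]
  have h2 := H589.unitFun_S_scaleH N (pos_N N) τ
  rw [uAn, h1, h2, H589.unitFun', H589.unitFun]
  have hΔ1 : Δ τ ≠ 0 := ModularForm.discriminant_ne_zero τ
  have hΔ2 : Δ (H589.scaleH N (pos_N N) τ) ≠ 0 := ModularForm.discriminant_ne_zero _
  field_simp

/-- formal relation ⇒ analytic relation for the unit. -/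
theorem toFun_eq_of_uF_mul {a b : RN N} (h : uF N * inclRN N b = inclRN N a) :
    toFun N a = uAn N * toFun N b := by
  have h1 : (holBase N).bridge a = uHol N * (holBase N).bridge b := by
    apply (holBase N).qexp_injective
    rw [map_mul, HolBase.qexp_bridge, HolBase.qexp_bridge, qexp_uHol, ← map_mul]
    congr 1
    have := congrArg (fun x : FF N => (x : LaurentSeries Kbar)) h
    exact this.symm
  have h2 := congrArg (fun x : (holBase N).Hol => (x : ℍ → ℂ)) h1
  exact h2

/-- **`w_N(u) · u = N¹²`.** -/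
theorem wF_uF_mul_uF : wF N (uF N) * uF N = algebraMap Kbar (FF N) ((N : Kbar) ^ 12) := by
  obtain ⟨a, b, hb, hab⟩ := exists_div_inclRN N (uF N)
  have hb' : inclRN N b ≠ 0 := fun h => hb (inclRN_injective N (by rw [h, map_zero]))
  have hmul : uF N * inclRN N b = inclRN N a := by
    rw [hab, div_mul_cancel₀ _ hb']
  have hfun := toFun_eq_of_uF_mul N hmul
  -- apply the Fricke map
  have hfunW : toFun N (wR N a) = compW N (uAn N) * toFun N (wR N b) := by
    rw [toFun_wR, toFun_wR, hfun, map_mul]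
  -- the relation in `R_N`
  have hR : wR N a * a = algebraMap Kbar (RN N) ((N : Kbar) ^ 12) * (wR N b * b) := by
    apply toFun_injective N
    rw [map_mul, map_mul, map_mul, toFun_algebraMap, hfunW, hfun]
    funext τ
    simp only [Pi.mul_apply, compW_apply]
    have h := uAn_fricke N τ
    have hι : ιK ((N : Kbar) ^ 12) = (N : ℂ) ^ 12 := by
      rw [map_pow, map_natCast]
    rw [hι, ← h]
    ring
  have hwb : wR N b ≠ 0 := fun h => hb (wR_injective N (by rw [h, map_zero]))
  have hwb' : inclRN N (wR N b) ≠ 0 := fun h => hwb (inclRN_injective N (by rw [h, map_zero]))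
  have hF := congrArg (inclRN N) hR
  rw [map_mul, map_mul, map_mul, AlgHom.commutes] at hF
  have hwa : wF N (inclRN N a) = inclRN N (wR N a) := wFHom_inclRN N a
  have hwb2 : wF N (inclRN N b) = inclRN N (wR N b) := wFHom_inclRN N b
  rw [hab, map_div₀, hwa, hwb2]
  field_simp
  linear_combination hF

/-- `w_N(u) = g`. -/
theorem wF_uF : wF N (uF N) = gF N := by
  have h1 := wF_uF_mul_uF N
  have h2 := uF_mul_gF N
  have hu := uF_ne_zero N
  apply mul_right_cancel₀ hu
  rw [h1, mul_comm, h2]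

/-- `w_N(g) = u`. -/
theorem wF_gF : wF N (gF N) = uF N := by
  rw [← wF_uF, wF_wF]

end Fermat.Agent.S15.H422

end
end
-- ===== PACK-END S15/H422/UnitFricke.lean

-- ===== PACK-BEGIN A2/Mod/H816/L8Upper.lean
section





/-!
# A2 / MOD leaf L8, part 3 (helper816): the modular polynomial has degree `q + 1` in BOTH
variables, hence `j` has degree `≤ 2 (q + 1)` over `E(j j_q)`

* `natDegree_swap_modPoly` : for `D : S28.ModPolyData q`, `(swap D.Φ).natDegree = q + 1`
  (from `Φ(X, j) = minpoly_{ℚ(j)} j_q` and `Φ(j, j_q) = 0`: `Φ ∣ swap Φ`, compare degrees);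
* `exists_poly_of_mul` : abstract: `Φ ∈ ℤ[Y][X]` monic in `X` of degree `n`, of degree `d` in `Y`,
  `Φ(y, z) = 0`, `x ↦ y z` ⟹ a polynomial `P ≠ 0` over `K ∋ x` of degree `≤ n + d` with
  `P(y) = 0`  (`P(T) = T^d Φ(T, x / T)`).
-/

set_option autoImplicit false
set_option synthInstance.maxHeartbeats 400000
set_option maxHeartbeats 1600000

noncomputable section

namespace Fermat.Agent.A2.Mod.H816

open ModularCurve HahnSeries Polynomial
open scoped Polynomial.Bivariate

/-! ## Bivariate polynomials -/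

section Biv

variable {R A : Type*} [CommRing R] [CommRing A] [Algebra R A]

theorem aevalAeval_eq_eval₂ (x y : A) (p : R[X][Y]) :
    aevalAeval x y p = p.eval₂ (aeval x : R[X] →ₐ[R] A).toRingHom y := by
  induction p using Polynomial.induction_on' with
  | add p q hp hq => rw [map_add, hp, hq, eval₂_add]
  | monomial n a =>
    rw [← C_mul_X_pow_eq_monomial, map_mul, map_pow, aevalAeval_C, aevalAeval_Y, eval₂_mul,
      eval₂_pow, eval₂_C, eval₂_X]
    rfl

theorem eval₂_swap (x y : A) (p : R[X][Y]) :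
    (Bivariate.swap p).eval₂ (aeval x : R[X] →ₐ[R] A).toRingHom y =
      p.eval₂ (aeval y : R[X] →ₐ[R] A).toRingHom x := by
  rw [← aevalAeval_eq_eval₂, ← aevalAeval_eq_eval₂, Bivariate.aevalAeval_swap]

theorem coeff_coeff_swap (p : R[X][Y]) (a b : ℕ) :
    ((Bivariate.swap p).coeff b).coeff a = (p.coeff a).coeff b := by
  induction p using Polynomial.induction_on' with
  | add p q hp hq =>
    rw [map_add, Polynomial.coeff_add, Polynomial.coeff_add, Polynomial.coeff_add,
      Polynomial.coeff_add, hp, hq]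
  | monomial n f =>
    induction f using Polynomial.induction_on' with
    | add f g hf hg =>
      rw [map_add (monomial n), map_add, Polynomial.coeff_add, Polynomial.coeff_add,
        Polynomial.coeff_add, Polynomial.coeff_add, hf, hg]
    | monomial m c =>
      rw [Bivariate.swap_monomial_monomial, Polynomial.coeff_monomial, Polynomial.coeff_monomial]
      by_cases h1 : m = b <;> by_cases h2 : n = a <;>
        simp [h1, h2, Polynomial.coeff_monomial]

end Biv

section EvZ

/-- evaluation `ℤ[X] → L`, `X ↦ z` (instance-free form) -/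
abbrev evZ {L : Type*} [CommRing L] (z : L) : Polynomial ℤ →+* L :=
  Polynomial.eval₂RingHom (Int.castRingHom L) z

theorem evZ_of_algebra {L : Type*} [CommRing L] [Algebra ℤ L] (z : L) :
    (aeval z : Polynomial ℤ →ₐ[ℤ] L).toRingHom = evZ z := by
  refine Polynomial.ringHom_ext' (Subsingleton.elim _ _) ?_
  simp [evZ]

theorem eval₂_swap_int {L : Type*} [CommRing L] (x y : L) (p : ℤ[X][Y]) :
    (Bivariate.swap p).eval₂ (evZ x) y = p.eval₂ (evZ y) x := by
  rw [← evZ_of_algebra, ← evZ_of_algebra]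
  exact eval₂_swap x y p

theorem aeval_map_intCast {K L : Type*} [Field K] [CommRing L] [Algebra K L] (y : L)
    (p : Polynomial ℤ) : aeval y (p.map (Int.castRingHom K)) = evZ y p := by
  rw [aeval_def, eval₂_map]
  show _ = p.eval₂ (Int.castRingHom L) y
  congr 1
  exact Subsingleton.elim _ _

end EvZ

/-! ## The degree of `Φ_q` in the inner variable -/

section Inner

open Fermat.Agent.S28

theorem addVal_jqModC (k : Type*) [Field k] :
    HahnSeries.addVal ℤ k (jqModC k) = ((-1 : ℤ) : WithTop ℤ) := by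
  have h := addVal_jd k 1
  rw [qExpand_one_apply] at h
  rw [h]
  rfl

theorem evalAt_jqModC_injective (k : Type*) [Field k] [CharZero k] :
    Function.Injective (evalAt (jqModC k)) := by
  rw [injective_iff_map_eq_zero]
  intro p hp
  by_contra hne
  have hmap : p.map (Int.castRingHom k) ≠ 0 := by
    intro h
    exact hne (Polynomial.map_injective (Int.castRingHom k) Int.cast_injective
      (by rw [h, Polynomial.map_zero]))
  have := aeval_ne_zero_of_addVal (HahnSeries.addVal ℤ k) (E := k) (F := LaurentSeries k)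
      (fun c hc => addVal_algebraMap_laurent k hc) (a := -1) (by norm_num) (x := jqModC k)
      (addVal_jqModC k) hmap
  apply this
  rw [aeval_map_intCast, ← evZ_of_algebra]
  exact hp

/-- **The modular polynomial has degree `q + 1` in the inner variable.** -/
theorem natDegree_swap_modPoly (q : ℕ) [NeZero q] (hq : q.Prime) (D : ModPolyData q) :
    (Bivariate.swap D.Φ).natDegree = q + 1 := by
  have hB1 : qExpand ℚ q (jqModC ℚ) ∉ jField ℚ :=
    h88_jp_not_mem_jField ℚ q (Nat.cast_ne_zero.mpr hq.ne_zero) hq.one_lt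
      (H807.nonempty_unitPolyData q hq).some H25.theta_identity
  set σ := H145.evalAtSub (jField ℚ) (jqModC ℚ) H145.jqModC_mem_jField with hσ
  have hσinj : Function.Injective σ := by
    intro a b hab
    apply evalAt_jqModC_injective ℚ
    have := congrArg (algebraMap (jField ℚ) (LaurentSeries ℚ)) hab
    rw [← RingHom.comp_apply, ← RingHom.comp_apply, H145.algebraMap_comp_evalAtSub] at this
    exact this
  have hmin := H145.minpoly_jp_over_jField (k := ℚ) D hq.two_le hB1
  have hroot : Polynomial.aeval (qExpand ℚ q (jqModC ℚ)) ((Bivariate.swap D.Φ).map σ) = 0 := by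
    rw [H145.aeval_map_evalAtSub]
    have h1 : evalAt (jqModC ℚ) = evZ (jqModC ℚ) := evZ_of_algebra _
    have h2 : evalAt (qExpand ℚ q (jqModC ℚ)) = evZ (qExpand ℚ q (jqModC ℚ)) :=
      evZ_of_algebra _
    rw [h1, eval₂_swap_int, ← h2]
    exact H145.modPoly_eval_j_field D
  have hmonic := D.monic
  have hdvd : D.Φ.map σ ∣ (Bivariate.swap D.Φ).map σ := by
    rw [← hmin]; exact minpoly.dvd _ _ hroot
  have hdvd' : D.Φ ∣ Bivariate.swap D.Φ := by
    rw [← Polynomial.modByMonic_eq_zero_iff_dvd hmonic]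
    apply Polynomial.map_injective σ hσinj
    rw [Polynomial.map_modByMonic _ hmonic, Polynomial.map_zero]
    exact (Polynomial.modByMonic_eq_zero_iff_dvd (hmonic.map σ)).mpr hdvd
  obtain ⟨h, hh⟩ := hdvd'
  have hΦ0 : D.Φ ≠ 0 := hmonic.ne_zero
  have hsw0 : Bivariate.swap D.Φ ≠ 0 := by
    intro h0
    apply hΦ0
    exact (Bivariate.swap (R := ℤ)).injective (by rw [h0, map_zero])
  have hh0 : h ≠ 0 := by
    rintro rfl
    rw [mul_zero] at hh
    exact hsw0 hh
  have hswh0 : Bivariate.swap h ≠ 0 := by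
    intro h0
    apply hh0
    exact (Bivariate.swap (R := ℤ)).injective (by rw [h0, map_zero])
  have e1 : (Bivariate.swap D.Φ).natDegree = D.Φ.natDegree + h.natDegree := by
    rw [hh, natDegree_mul hΦ0 hh0]
  have e2 : D.Φ.natDegree = (Bivariate.swap D.Φ).natDegree + (Bivariate.swap h).natDegree := by
    have h3 := congrArg (Bivariate.swap (R := ℤ)) hh
    rw [Bivariate.swap_swap_apply, map_mul] at h3
    conv_lhs => rw [h3]
    rw [natDegree_mul hsw0 hswh0]
  rw [D.natDegree_eq] at e1 e2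
  omega

end Inner

/-! ## The polynomial `T^d Φ(T, x / T)` -/

section PolyP

variable {K L : Type*} [Field K] [Field L] [Algebra K L]

theorem exists_poly_of_mul (Φ : ℤ[X][Y]) (hΦ : Φ.Monic) {n d : ℕ} (hn : Φ.natDegree = n)
    (hd : (Bivariate.swap Φ).natDegree = d) (x : K) (y z : L)
    (hxyz : algebraMap K L x = y * z)
    (hroot : Φ.eval₂ (evZ z) y = 0) :
    ∃ P : K[X], P ≠ 0 ∧ P.natDegree ≤ n + d ∧ aeval y P = 0 := by
  classical
  set φ : ℕ → Polynomial ℤ := fun b => (Bivariate.swap Φ).coeff b with hφ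
  set P : K[X] := ∑ b ∈ Finset.range (d + 1),
    (φ b).map (Int.castRingHom K) * Polynomial.C (x ^ b) * X ^ (d - b) with hP
  have hφcoeff : ∀ a b, (φ b).coeff a = (Φ.coeff a).coeff b := fun a b =>
    coeff_coeff_swap Φ a b
  have hφdeg : ∀ b, (φ b).natDegree ≤ n := by
    intro b
    rw [natDegree_le_iff_coeff_eq_zero]
    intro a ha
    have h0 : Φ.coeff a = 0 := coeff_eq_zero_of_natDegree_lt (by rw [hn]; exact ha)
    rw [hφcoeff, h0, Polynomial.coeff_zero]
  have hcoeff : P.coeff (n + d) = 1 := by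
    rw [hP, finsetSum_coeff]
    rw [Finset.sum_eq_single 0]
    · rw [Nat.sub_zero, pow_zero, coeff_mul_X_pow, map_one, mul_one, coeff_map, hφcoeff,
        ← hn, hΦ.coeff_natDegree]
      simp
    · intro b hb hb0
      have hbd : b ≤ d := Nat.lt_succ_iff.mp (Finset.mem_range.mp hb)
      have hle : d - b ≤ n + d := by omega
      rw [coeff_mul_X_pow', if_pos hle, coeff_mul_C, coeff_map, hφcoeff]
      have hlt : Φ.natDegree < n + d - (d - b) := by
        rw [hn]
        have : 0 < b := Nat.pos_of_ne_zero hb0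
        omega
      have h0 : Φ.coeff (n + d - (d - b)) = 0 := coeff_eq_zero_of_natDegree_lt hlt
      rw [h0]
      simp
    · intro h0
      exact absurd (Finset.mem_range.mpr (Nat.succ_pos d)) h0
  refine ⟨P, ?_, ?_, ?_⟩
  · intro h0
    rw [h0, Polynomial.coeff_zero] at hcoeff
    exact zero_ne_one hcoeff
  · rw [hP]
    apply natDegree_sum_le_of_forall_le
    intro b hb
    have hbd : b ≤ d := Nat.lt_succ_iff.mp (Finset.mem_range.mp hb)
    calc ((φ b).map (Int.castRingHom K) * Polynomial.C (x ^ b) * X ^ (d - b)).natDegree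
        ≤ ((φ b).map (Int.castRingHom K) * Polynomial.C (x ^ b)).natDegree + (X ^ (d - b) : K[X]).natDegree :=
          natDegree_mul_le
      _ ≤ ((φ b).map (Int.castRingHom K)).natDegree + (Polynomial.C (x ^ b) : K[X]).natDegree + (d - b) := by
          gcongr
          · exact natDegree_mul_le
          · exact natDegree_X_pow_le _
      _ ≤ n + 0 + d := by
          gcongr
          · exact (natDegree_map_le).trans (hφdeg b)
          · rw [natDegree_C]
          · omega
      _ = n + d := by ring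
  · rw [hP, map_sum]
    have hterm : ∀ b ∈ Finset.range (d + 1),
        aeval y ((φ b).map (Int.castRingHom K) * Polynomial.C (x ^ b) * X ^ (d - b)) =
          (evZ y (φ b) * z ^ b) * y ^ d := by
      intro b hb
      have hbd : b ≤ d := Nat.lt_succ_iff.mp (Finset.mem_range.mp hb)
      rw [map_mul, map_mul, aeval_C, map_pow, map_pow, aeval_X, hxyz]
      rw [aeval_map_intCast]
      have h2 : y ^ d = y ^ b * y ^ (d - b) := by
        rw [← _root_.pow_add]
        congr 1
        omega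
      rw [h2, mul_pow]
      ring
    rw [Finset.sum_congr rfl hterm, ← Finset.sum_mul]
    have h3 : (Bivariate.swap Φ).eval₂ (evZ y) z =
        ∑ b ∈ Finset.range (d + 1), evZ y (φ b) * z ^ b := by
      rw [eval₂_eq_sum_range, hd]
    rw [← h3, eval₂_swap_int, hroot, zero_mul]

end PolyP

end Fermat.Agent.A2.Mod.H816

end

end
-- ===== PACK-END A2/Mod/H816/L8Upper.lean

-- ===== PACK-BEGIN A2/Mod/H816/L8.lean
section



/-!
# A2 / MOD leaf L8 `DegStatement` (helper816)

`x = j j_q` at level `M q` (`q` prime, `q ∤ M`):  `x` is transcendental over `E`,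
`[F_{Mq} : E(x)] = 2 (q + 1) ψ(M)` and `E` is algebraically closed in `F_{Mq}`.

Tower `E(x) ⊆ K₂ = E(j, j_q) ⊆ F_{Mq}` inside `E((t))`:
* `[F_{Mq} : K₂] = ψ(M)` : `S28.H988.relfinrank_jField_full_eq` at levels `q` and `M q`;
* `[K₂ : E(x)] ≤ 2 (q + 1)` : `j` is a root of `T^(q+1) Φ_q(T, x / T)` (`L8Upper`);
* `[K₂ : E(x)] ≥ 2 (q + 1)` : the two cuspidal valuations `vInf`, `vZero = vInf ∘ W` (`L8Val`).

Main result: `deg : DegStatement E M q` (exact frozen leaf of `Mod/Spec.lean`).
-/

set_option autoImplicit false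
set_option linter.unusedSectionVars false
set_option synthInstance.maxHeartbeats 400000
set_option maxHeartbeats 1600000

noncomputable section

namespace Fermat.Agent.A2.Mod.H816

open ModularCurve HahnSeries Polynomial IntermediateField

/-! ## Generalities on `relfinrank` -/

section Gen

variable {k L : Type*} [Field k] [Field L] [Algebra k L]

/-- the degree of `F` over `k(x)`, computed inside `F` or inside the ambient field -/
theorem finrank_adjoin_eq_relfinrank (F : IntermediateField k L) (x : F) :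
    Module.finrank (adjoin k ({x} : Set F)) F = (adjoin k ({(x : L)} : Set L)).relfinrank F := by
  rw [← relfinrank_top_right, ← relfinrank_map_map (adjoin k ({x} : Set F)) ⊤ F.val,
    adjoin_map, Set.image_singleton, ← AlgHom.fieldRange_eq_map, fieldRange_val]
  rfl

/-- `[A(y) : A] ≤ deg P` for a nonzero polynomial `P` over `A` with root `y`,
where `A(y)` is given as an intermediate field `B` over `k`. -/
theorem relfinrank_le_of_root (A B : IntermediateField k L) (hAB : A ≤ B) (y : L)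
    (hB : (adjoin A ({y} : Set L)).restrictScalars k = B) (P : Polynomial A) (hP : P ≠ 0)
    (hroot : aeval y P = 0) :
    0 < A.relfinrank B ∧ A.relfinrank B ≤ P.natDegree := by
  have hint : IsIntegral A y := (isAlgebraic_iff_isIntegral).mp ⟨P, hP, hroot⟩
  have hext : extendScalars hAB = adjoin A ({y} : Set L) := by
    apply restrictScalars_injective k
    rw [extendScalars_restrictScalars, hB]
  rw [relfinrank_eq_finrank_of_le hAB, hext, adjoin.finrank hint]
  refine ⟨minpoly.natDegree_pos hint, ?_⟩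
  exact natDegree_le_natDegree (minpoly.degree_le_of_ne_zero A y hP hroot)

end Gen

/-! ## Level `q` -/

section LevelQ

open Fermat.Agent.S28

variable (E : IntermediateField ℚ _root_.Fermat.Agent.A2.Mod.Qb) (q : ℕ) [NeZero q]

theorem coe_xq : ((xq E q : _root_.Fermat.Agent.A2.Mod.FE E q) : LaurentSeries E) =
    jqModC E * qExpand E q (jqModC E) := by
  show ((jE E q 1 (one_dvd q) : _root_.Fermat.Agent.A2.Mod.FE E q) : LaurentSeries E) *
    ((jE E q q dvd_rfl : _root_.Fermat.Agent.A2.Mod.FE E q) : LaurentSeries E) = _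
  rw [H873.coe_jE, H873.coe_jE, qExpand_one_apply]

theorem coe_xE (M : ℕ) [NeZero M] : ((xE E M q : _root_.Fermat.Agent.A2.Mod.FE E (M * q)) : LaurentSeries E) =
    jqModC E * qExpand E q (jqModC E) := by
  show ((jE E (M * q) 1 (one_dvd _) : _root_.Fermat.Agent.A2.Mod.FE E (M * q)) : LaurentSeries E) *
    ((jE E (M * q) q (dvd_mul_left q M) : _root_.Fermat.Agent.A2.Mod.FE E (M * q)) : LaurentSeries E) = _
  rw [H873.coe_jE, H873.coe_jE, qExpand_one_apply]

theorem FE_eq_fullC (N : ℕ) : _root_.Fermat.Agent.A2.Mod.FE E N = modularFunctionFieldFullC E N :=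
  H988.laurentBaseChange_full_eq_fullC E N

theorem natCast_ne_zero_E {p : ℕ} (hp : p ≠ 0) : ((p : ℕ) : E) ≠ 0 :=
  Nat.cast_ne_zero.mpr hp

/-- `K₂ = E(j, j_q)` -/
theorem fullC_prime (hq : q.Prime) :
    modularFunctionFieldFullC E q =
      adjoin E ({jqModC E, qExpand E q (jqModC E)} : Set (LaurentSeries E)) := by
  rw [modularFunctionFieldFullC]
  congr 1
  ext f
  constructor
  · rintro ⟨d, hne, hd, rfl⟩
    rcases (Nat.dvd_prime hq).mp hd with h | h
    · subst h
      rw [qExpand_one_apply]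
      exact Set.mem_insert _ _
    · subst h
      exact Set.mem_insert_of_mem _ rfl
  · rintro (h | h)
    · rw [h]
      exact ⟨1, inferInstance, one_dvd q, (qExpand_one_apply _).symm⟩
    · rw [Set.mem_singleton_iff] at h
      rw [h]
      exact ⟨q, inferInstance, dvd_rfl, rfl⟩

theorem jqModC_ne_zero_E : jqModC E ≠ 0 := jqModC_ne_zero_of_nontrivial E

/-- `E(x)(j) = K₂` -/
theorem adjoin_x_j_eq (hq : q.Prime) :
    (adjoin (adjoin E ({jqModC E * qExpand E q (jqModC E)} : Set (LaurentSeries E)))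
      ({jqModC E} : Set (LaurentSeries E))).restrictScalars E =
      modularFunctionFieldFullC E q := by
  rw [adjoin_adjoin_left, fullC_prime E q hq]
  apply le_antisymm
  · rw [adjoin_le_iff]
    rintro f (hf | hf)
    · rw [Set.mem_singleton_iff] at hf
      rw [hf]
      exact mul_mem (subset_adjoin E _ (Set.mem_insert _ _))
        (subset_adjoin E _ (Set.mem_insert_of_mem _ rfl))
    · rw [Set.mem_singleton_iff] at hf
      rw [hf]
      exact subset_adjoin E _ (Set.mem_insert _ _)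
  · rw [adjoin_le_iff]
    have hj : jqModC E ∈ adjoin E (({jqModC E * qExpand E q (jqModC E)} : Set (LaurentSeries E))
        ∪ {jqModC E}) := subset_adjoin E _ (Set.mem_union_right _ rfl)
    have hx : jqModC E * qExpand E q (jqModC E) ∈
        adjoin E (({jqModC E * qExpand E q (jqModC E)} : Set (LaurentSeries E))
        ∪ {jqModC E}) := subset_adjoin E _ (Set.mem_union_left _ rfl)
    rintro f (hf | hf)
    · rw [hf]; exact hj
    · rw [Set.mem_singleton_iff] at hf
      rw [hf]
      have h3 : qExpand E q (jqModC E) =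
          (jqModC E)⁻¹ * (jqModC E * qExpand E q (jqModC E)) := by
        rw [← mul_assoc, inv_mul_cancel₀ (jqModC_ne_zero_E E), one_mul]
      have h4 := mul_mem (inv_mem hj) hx
      rwa [← h3] at h4

theorem adjoin_x_le_fullC (hq : q.Prime) :
    adjoin E ({jqModC E * qExpand E q (jqModC E)} : Set (LaurentSeries E)) ≤
      modularFunctionFieldFullC E q := by
  rw [fullC_prime E q hq, adjoin_le_iff]
  rintro f hf
  rw [Set.mem_singleton_iff] at hf
  rw [hf]
  exact mul_mem (subset_adjoin E _ (Set.mem_insert _ _))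
    (subset_adjoin E _ (Set.mem_insert_of_mem _ rfl))

/-- **Upper bound** `0 < [K₂ : E(x)] ≤ 2 (q + 1)`. -/
theorem relfinrank_x_fullC_le (hq : q.Prime) :
    0 < (adjoin E ({jqModC E * qExpand E q (jqModC E)} : Set (LaurentSeries E))).relfinrank
        (modularFunctionFieldFullC E q) ∧
      (adjoin E ({jqModC E * qExpand E q (jqModC E)} : Set (LaurentSeries E))).relfinrank
        (modularFunctionFieldFullC E q) ≤ 2 * (q + 1) := by
  obtain ⟨D⟩ := H807.nonempty_modPolyData q hq
  set A := adjoin E ({jqModC E * qExpand E q (jqModC E)} : Set (LaurentSeries E)) with hA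
  have hroot : D.Φ.eval₂ (evZ (qExpand E q (jqModC E))) (jqModC E) = 0 := by
    rw [← evZ_of_algebra]
    exact H145.modPoly_eval_j_field D
  obtain ⟨P, hP0, hPdeg, hProot⟩ := exists_poly_of_mul (K := A) (L := LaurentSeries E) D.Φ
    D.monic D.natDegree_eq (natDegree_swap_modPoly q hq D)
    ⟨jqModC E * qExpand E q (jqModC E), mem_adjoin_simple_self E _⟩
    (jqModC E) (qExpand E q (jqModC E)) rfl hroot
  obtain ⟨h1, h2⟩ := relfinrank_le_of_root A (modularFunctionFieldFullC E q)
    (adjoin_x_le_fullC E q hq) (jqModC E) (adjoin_x_j_eq E q hq) P hP0 hProot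
  exact ⟨h1, h2.trans (by omega)⟩

/-- **Lower bound** `2 (q + 1) ≤ [K₂ : E(x)]`. -/
theorem le_relfinrank_x_fullC (hq : q.Prime) :
    2 * (q + 1) ≤
      (adjoin E ({jqModC E * qExpand E q (jqModC E)} : Set (LaurentSeries E))).relfinrank
        (modularFunctionFieldFullC E q) := by
  have hpos := (relfinrank_x_fullC_le E q hq).1
  rw [← FE_eq_fullC, ← coe_xq, ← finrank_adjoin_eq_relfinrank] at hpos ⊢
  have : Module.Finite (adjoin E ({xq E q} : Set (_root_.Fermat.Agent.A2.Mod.FE E q))) (_root_.Fermat.Agent.A2.Mod.FE E q) :=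
    Module.finite_of_finrank_pos hpos
  have h := (linearIndependent_pow E q hq.two_le).fintype_card_le_finrank
  rw [Fintype.card_sum, Fintype.card_fin] at h
  omega

theorem relfinrank_x_fullC (hq : q.Prime) :
    (adjoin E ({jqModC E * qExpand E q (jqModC E)} : Set (LaurentSeries E))).relfinrank
        (modularFunctionFieldFullC E q) = 2 * (q + 1) :=
  le_antisymm (relfinrank_x_fullC_le E q hq).2 (le_relfinrank_x_fullC E q hq)

/-- `[F_{Mq} : K₂] = ψ(M)` -/
theorem relfinrank_fullC_fullC (M : ℕ) (hM : M ≠ 0) (hq : q.Prime) (hqM : ¬ q ∣ M) :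
    (modularFunctionFieldFullC E q).relfinrank (modularFunctionFieldFullC E (M * q)) =
      dedekindPsi M := by
  have hN : M * q ≠ 0 := Nat.mul_ne_zero hM hq.ne_zero
  have h1 : (jField E).relfinrank (modularFunctionFieldFullC E q) = q + 1 := by
    rw [H988.relfinrank_jField_full_eq E q hq.ne_zero
      (fun p hp _ => natCast_ne_zero_E E hp.ne_zero)]
    have := H626.psi_mul_prime_of_not_dvd (N := 1) one_ne_zero hq
      (fun h => hq.one_lt.ne' (Nat.dvd_one.mp h))
    rw [one_mul, dedekindPsi_one, mul_one] at this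
    exact this
  have h2 : (jField E).relfinrank (modularFunctionFieldFullC E (M * q)) =
      (q + 1) * dedekindPsi M := by
    rw [H988.relfinrank_jField_full_eq E (M * q) hN
      (fun p hp _ => natCast_ne_zero_E E hp.ne_zero)]
    exact H626.psi_mul_prime_of_not_dvd hM hq hqM
  have hle1 : jField E ≤ modularFunctionFieldFullC E q := by
    rw [jField, ← H988.full_one]
    exact H988.full_mono E hq.ne_zero (one_dvd q)
  have hle2 : modularFunctionFieldFullC E q ≤ modularFunctionFieldFullC E (M * q) :=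
    H988.full_mono E hN (dvd_mul_left q M)
  have h3 := relfinrank_mul_relfinrank hle1 hle2
  rw [h1, h2] at h3
  exact Nat.eq_of_mul_eq_mul_left (Nat.succ_pos q) h3

end LevelQ

/-! ## The leaf -/

section Leaf

variable (E : IntermediateField ℚ _root_.Fermat.Agent.A2.Mod.Qb) (M q : ℕ) [NeZero M] [NeZero q]

/-- **L8** (exact frozen leaf of `Mod/Spec.lean`). -/
theorem deg : DegStatement E M q := by
  intro hq hqM
  refine ⟨transcendental_xE E M q, ?_, fun f hf => mem_range_of_isAlgebraic E (M * q) f hf⟩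
  have hN : M * q ≠ 0 := Nat.mul_ne_zero (NeZero.ne M) hq.ne_zero
  rw [finrank_adjoin_eq_relfinrank, coe_xE, FE_eq_fullC]
  rw [← relfinrank_mul_relfinrank (adjoin_x_le_fullC E q hq)
    (Fermat.Agent.S28.H988.full_mono E hN (dvd_mul_left q M)),
    relfinrank_x_fullC E q hq, relfinrank_fullC_fullC E q M (NeZero.ne M) hq hqM]
  ring

end Leaf

end Fermat.Agent.A2.Mod.H816

end

end
-- ===== PACK-END A2/Mod/H816/L8.lean

-- ===== PACK-BEGIN S15/H608/T6ppDict.lean
section



/-!
# S15 / DESC, leaf T6'' (helper608), part (c): the Kummer dictionary for classes with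
`τ`-invariant multiple

`x ∈ Pic0 K F`, `m • x = [Z]` with `Z` a `g`-invariant divisor.  Write `x = [D]`,
`m D - Z = div f`.  Then `div (g f / f) = m (g - 1) D` is divisible by `m`; if `(g - 1)² f` is a
constant times an `m`-th power (for every such `f`), then `(g - 1)² x = 0`.

* `KummerTwiceP g m`           : the Kummer-side statement, hypothesis on `g f / f`.
* `unipotent_of_kummerTwiceP`  : `KummerTwiceP g m →` (`m • x = [Z]`, `g • Z = Z`)
                                 `→ g • (g • x - x) = g • x - x`.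
* `KummerAtP N m τ`            : the pointwise Kummer statement on `ℚ̄(X₀(N))`.
* `unipotent_of_kummerAtP`     : `KummerAtP N m τ → τ • (m • x) = m • x →
                                 τ • (τ • x) + x = 2 • (τ • x)` on `JZero N`.
-/

set_option autoImplicit false

noncomputable section

namespace Fermat.Agent.S15.H608

open AlgebraicCurve ModularCurve Fermat.Agent.A2.H129

section Abstract

variable {K F : Type*} [Field K] [Field F] [Algebra K F]

/-- **Kummer-side statement, primed form.**  For every `f ≠ 0` such that the divisor of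
`g f / f` is divisible by `m`, the function `(g - 1)² f` is a constant times an `m`-th power. -/
def KummerTwiceP (g : SemilinearAut K F) (m : ℕ) : Prop :=
  ∀ f : F, f ≠ 0 →
    (∀ v : Place K F, (m : ℤ) ∣ v.ord (tauSubOne (SemilinearAut.toRingAut g) f)) →
    ∃ y : F, ∃ c : K, c ≠ 0 ∧
      tauSubOne (SemilinearAut.toRingAut g) (tauSubOne (SemilinearAut.toRingAut g) f)
        = algebraMap K F c * y ^ m

/-- The primed form implies the unprimed one. -/
theorem kummerTwice_of_kummerTwiceP (g : SemilinearAut K F) (m : ℕ)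
    (H : KummerTwiceP g m) : KummerTwice g m := by
  intro f hf hdiv
  refine H f hf (fun v => ?_)
  have hτf : SemilinearAut.toRingAut g f ≠ 0 := by simpa using hf
  show (m : ℤ) ∣ v.ord (SemilinearAut.toRingAut g f * f⁻¹)
  rw [ord_div v hτf hf, ord_smul_eq]
  exact dvd_sub (hdiv _) (hdiv _)

/-- **K1'.**  The primed Kummer-side statement implies `(g - 1)² x = 0` for every class `x` such
that `m • x` is represented by a `g`-invariant divisor. -/
theorem unipotent_of_kummerTwiceP (g : SemilinearAut K F) (m : ℕ) (hm : m ≠ 0)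
    (H : KummerTwiceP g m) (x : Pic0 K F) (Z : Divisor.degZero (K := K) (F := F))
    (hZ : g • (Z : Divisor K F) = Z) (hx : m • x = Pic0.mk Z) :
    g • (g • x - x) = g • x - x := by
  obtain ⟨D, rfl⟩ := Pic0.mk_surjective x
  -- the Kummer generator
  have hprin : ((m • D - Z : Divisor.degZero (K := K) (F := F)) : Divisor K F) ∈
      Divisor.principal (K := K) (F := F) := by
    have h0 : Pic0.mk (m • D - Z) = 0 := by
      have h1 : Pic0.mk (m • D - Z) = m • Pic0.mk D - Pic0.mk Z := rfl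
      rw [h1, hx, sub_self]
    have := (QuotientAddGroup.eq_zero_iff (m • D - Z)).1 h0
    simpa [AddSubgroup.mem_addSubgroupOf] using this
  obtain ⟨f, hf, hfD⟩ := hprin
  have hfD' : ∀ v : Place K F, v.ord f = (m : ℤ) * (D : Divisor K F) v - (Z : Divisor K F) v := by
    intro v
    rw [← hfD v]
    simp [Finsupp.smul_apply]
  have hZv : ∀ v : Place K F, (Z : Divisor K F) (g⁻¹ • v) = (Z : Divisor K F) v := by
    intro v
    have h := SemilinearAut.divisor_smul_apply g (Z : Divisor K F) v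
    rw [hZ] at h
    exact h.symm
  set τ := SemilinearAut.toRingAut g with hτ
  have hτf : τ f ≠ 0 := by simpa using hf
  have h1 : tauSubOne τ f ≠ 0 := tauSubOne_ne_zero τ hf
  have h2 : tauSubOne τ (tauSubOne τ f) ≠ 0 := tauSubOne_ne_zero τ h1
  have e1 : ∀ (h : F), h ≠ 0 → ∀ v : Place K F,
      v.ord (tauSubOne τ h) = (g⁻¹ • v).ord h - v.ord h := by
    intro h hh v
    have hτh : τ h ≠ 0 := by simpa using hh
    show v.ord (τ h * h⁻¹) = _
    rw [ord_div v hτh hh, hτ, ord_smul_eq]
  have hdiv : ∀ v : Place K F, (m : ℤ) ∣ v.ord (tauSubOne τ f) := by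
    intro v
    rw [e1 f hf v, hfD', hfD', hZv]
    exact ⟨(D : Divisor K F) (g⁻¹ • v) - (D : Divisor K F) v, by ring⟩
  obtain ⟨y, c, hc, hyc⟩ := H f hf hdiv
  have hy : y ≠ 0 := by
    rintro rfl
    rw [zero_pow hm, mul_zero] at hyc
    exact h2 hyc
  have hcF : algebraMap K F c ≠ 0 := by simpa using hc
  -- the divisor `E = (g-1)² D`
  set E : Divisor.degZero (K := K) (F := F) :=
    SemilinearAut.degZeroSMulHom g (SemilinearAut.degZeroSMulHom g D - D)
      - (SemilinearAut.degZeroSMulHom g D - D) with hE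
  have hgoal : g • (g • Pic0.mk D - Pic0.mk D) - (g • Pic0.mk D - Pic0.mk D) = Pic0.mk E := by
    rw [SemilinearAut.pic0_smul_mk]
    rfl
  rw [← sub_eq_zero, hgoal]
  refine (QuotientAddGroup.eq_zero_iff E).2 ?_
  rw [AddSubgroup.mem_addSubgroupOf]
  refine ⟨y, hy, fun w => ?_⟩
  have hEw : (E : Divisor K F) w =
      (D : Divisor K F) (g⁻¹ • (g⁻¹ • w)) - (D : Divisor K F) (g⁻¹ • w)
        - ((D : Divisor K F) (g⁻¹ • w) - (D : Divisor K F) w) := by
    simp only [hE, AddSubgroupClass.coe_sub, SemilinearAut.coe_degZeroSMulHom, smul_sub,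
      Finsupp.sub_apply, SemilinearAut.divisor_smul_apply]
  have hord : w.ord (tauSubOne τ (tauSubOne τ f)) =
      (g⁻¹ • (g⁻¹ • w)).ord f - (g⁻¹ • w).ord f - ((g⁻¹ • w).ord f - w.ord f) := by
    rw [e1 _ h1 w, e1 f hf (g⁻¹ • w), e1 f hf w]
  have hord2 : w.ord (tauSubOne τ (tauSubOne τ f)) = (m : ℤ) * w.ord y := by
    rw [hyc, w.ord_mul hcF (pow_ne_zero m hy), ord_algebraMap_eq_zero, zero_add, ord_pow]
  have hmE : (m : ℤ) * (E : Divisor K F) w = (m : ℤ) * w.ord y := by
    rw [← hord2, hord, hEw, hfD', hfD', hfD', hZv, hZv]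
    ring
  have hm' : (m : ℤ) ≠ 0 := by exact_mod_cast hm
  exact mul_left_cancel₀ hm' hmE

end Abstract

section Modular

/-- The pointwise Kummer statement for one `τ`, primed form: the hypothesis is that the divisor of
`τ f / f` is divisible by `m`. -/
def KummerAtP (N m : ℕ) (τ : AlgebraicClosure ℚ ≃ₐ[ℚ] AlgebraicClosure ℚ) : Prop :=
  ∀ f : modularFunctionFieldBar N, f ≠ 0 →
    (∀ v : Place (AlgebraicClosure ℚ) (modularFunctionFieldBar N),
      (m : ℤ) ∣ v.ord (arithmeticRingAut (modularFunctionFieldFull N) τ f * f⁻¹)) →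
    ∃ h : modularFunctionFieldBar N, h ≠ 0 ∧
      arithmeticRingAut (modularFunctionFieldFull N) τ
          (arithmeticRingAut (modularFunctionFieldFull N) τ f) * f =
        h ^ m * (arithmeticRingAut (modularFunctionFieldFull N) τ f) ^ 2

/-- The primed pointwise statement implies the unprimed one (`A2.T0.H669.KummerAt`). -/
theorem kummerAt_of_kummerAtP (N m : ℕ) (τ : AlgebraicClosure ℚ ≃ₐ[ℚ] AlgebraicClosure ℚ)
    (h : KummerAtP N m τ) : Fermat.Agent.A2.T0.H669.KummerAt N m τ := by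
  intro f hf hdiv
  refine h f hf (fun v => ?_)
  have hτf : arithmeticRingAut (modularFunctionFieldFull N) τ f ≠ 0 :=
    (map_ne_zero_iff _ (arithmeticRingAut (modularFunctionFieldFull N) τ).injective).2 hf
  rw [ord_div v hτf hf, ← toRingAut_arithmeticGalois, ord_smul_eq]
  exact dvd_sub (hdiv _) (hdiv _)

/-- One `τ`: the primed pointwise Kummer statement gives `KummerTwiceP`. -/
theorem kummerTwiceP_of_kummerAtP (N m : ℕ) (τ : AlgebraicClosure ℚ ≃ₐ[ℚ] AlgebraicClosure ℚ)
    (h : KummerAtP N m τ) :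
    KummerTwiceP (K := AlgebraicClosure ℚ) (F := modularFunctionFieldBar N)
      (arithmeticGalois (modularFunctionFieldFull N) τ) m := by
  intro f hf hdiv
  have hdiv' : ∀ v : Place (AlgebraicClosure ℚ) (modularFunctionFieldBar N),
      (m : ℤ) ∣ v.ord (arithmeticRingAut (modularFunctionFieldFull N) τ f * f⁻¹) := by
    intro v
    have := hdiv v
    rw [toRingAut_arithmeticGalois] at this
    exact this
  obtain ⟨y, _, hy⟩ := h f hf hdiv'
  refine ⟨y, 1, one_ne_zero, ?_⟩
  rw [toRingAut_arithmeticGalois, Fermat.Agent.A2.T0.H669.tauSubOne_tauSubOne_eq _ hf, hy,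
    map_one, one_mul]
  have hτf : arithmeticRingAut (modularFunctionFieldFull N) τ f ≠ 0 :=
    (map_ne_zero_iff _ (arithmeticRingAut (modularFunctionFieldFull N) τ).injective).2 hf
  field_simp

variable (N : ℕ) [NeZero N]

/-- **T0'.**  One `τ`: the primed pointwise Kummer statement gives `(τ - 1)² x = 0` for every
`x ∈ J₀(N)` such that `m • x` is fixed by `τ`. -/
theorem unipotent_of_kummerAtP (m : ℕ) (hm : 0 < m)
    (τ : AlgebraicClosure ℚ ≃ₐ[ℚ] AlgebraicClosure ℚ) (h : KummerAtP N m τ)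
    (x : JZero N) (hx : τ • (m • x) = m • x) :
    τ • (τ • x) + x = 2 • (τ • x) := by
  have hx' : arithmeticGalois (modularFunctionFieldFull N) τ • (m • x) = m • x := hx
  have hZ := Fermat.Agent.S17.H680.smul_minDiv_eq
    (arithmeticGalois (modularFunctionFieldFull N) τ)
    (Fermat.Agent.S17.H680.JZero.galois_smul_cusp N τ) hx'
  have hmk := Fermat.Agent.S17.H680.mk_minDiv (Fermat.Agent.S17.H680.JZero.cusp N) (m • x)
  have h1 : arithmeticGalois (modularFunctionFieldFull N) τ •
      (arithmeticGalois (modularFunctionFieldFull N) τ • x - x) =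
      arithmeticGalois (modularFunctionFieldFull N) τ • x - x :=
    unipotent_of_kummerTwiceP
      (arithmeticGalois (modularFunctionFieldFull N) τ) m hm.ne'
      (kummerTwiceP_of_kummerAtP N m τ h) x _ hZ hmk.symm
  have h1' : τ • (τ • x - x) = τ • x - x := h1
  rw [smul_sub] at h1'
  rw [two_nsmul]
  have h2 : τ • (τ • x) = τ • x - x + τ • x := by
    rw [← h1']; abel
  rw [h2]; abel

end Modular

end Fermat.Agent.S15.H608

end
end
-- ===== PACK-END S15/H608/T6ppDict.lean

-- ===== PACK-BEGIN S18/H965/Glue.lean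
section


/-!
# S18 / NODE GLUE (helper965)

`node_glue : Mod.GlueStatement M ℓ A m` (for PRIME `m`) — exactly the type of `node_glue` in
`Fermat/Agent/S18/Integ/Skeleton.lean` (interfaces v4 = FINAL, on main b6b9cd58):

    CoordinateStatement M ℓ → GoodModelStatement M ℓ A → AlgStatement M → CoreStatement M A m.

Proof: given integral `U₁, U₂` with the same reduction, put `u = U₁/U₂ ∈ Ω`.
* descent: `U₁, U₂ ∈ Fc M E` as soon as `E ⊇ T` (`exists_finset_mem_Fc`); MOD supplies a member
  `p = (Ec M E, Fc M E, Rc M A E, V, w)` of the good family with `E ⊇ T`;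
* `m⁻¹ ∈ Rc M A E` since `ℓ ∤ m` (`natCast_inv_mem_Rc`);
* `(u - 1)/w ∈ V = VcSet M A E` (`sub_one_mul_inv_mem_VcSet`, uses only `w_mem`, `w_gen`);
* every valuation subring `O ⊇ Q̄` of `Ω` is `⊤` or a place (`H443.exists_place_eq`), whence the
  divisor hypothesis in the form required by ALG (`exists_unit_twist`);
* ALG gives `u = c y^m`.
-/

set_option autoImplicit false

noncomputable section

namespace Fermat.Agent.S18.H965

open ModularCurve AlgebraicCurve HahnSeries Fermat.Agent.S18 Fermat.Agent.S18.Mod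

/-- **NODE GLUE (d1).** -/
theorem node_glue (M : ℕ) [NeZero M] {ℓ : ℕ} [Fact ℓ.Prime] (_hℓM : ¬ ℓ ∣ M)
    (A : ValuationSubring Qb) (hA : A.LiesOverPrime ℓ) (m : ℕ) (hmp : m.Prime) (hm : ¬ ℓ ∣ m) :
    Mod.GlueStatement M ℓ A m := by
  classical
  intro hcoord hmod halg U₁ U₂ h₁ h₂ hred hdiv
  obtain ⟨x, S, hxS⟩ := hcoord
  obtain ⟨𝓕, -, hfam, hT⟩ := hmod x S hxS
  obtain ⟨T₁, hT₁⟩ := exists_finset_mem_Fc M (toF h₁)
  obtain ⟨T₂, hT₂⟩ := exists_finset_mem_Fc M (toF h₂)
  obtain ⟨E, V, w, -, hTE, hV, hp⟩ := hT (T₁ ∪ T₂)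
  have hf₁ : toF h₁ ∈ Fc M E := hT₁ E (fun a ha => hTE a (Finset.mem_union_left _ ha))
  have hf₂ : toF h₂ ∈ Fc M E := hT₂ E (fun a ha => hTE a (Finset.mem_union_right _ ha))
  have hgood : Alg.GoodModel (Lc M) (Ec M E) (Fc M E) (Rc M A E) V w x S := hfam.good _ hp
  have hm0 : m ≠ 0 := hmp.ne_zero
  have hu0 : toF h₁ / toF h₂ ≠ 0 := div_ne_zero (toF_ne_zero h₁) (toF_ne_zero h₂)
  have huV : (toF h₁ / toF h₂ - 1) * w⁻¹ ∈ V := by
    have h := sub_one_mul_inv_mem_VcSet A h₁ h₂ hred hf₁ hf₂ hgood.w_mem hgood.w_gen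
    rw [← hV] at h
    exact h
  obtain ⟨y, c, hcL, hc0, huy⟩ := halg (Lc M) x S 𝓕 hfam _ hp m
    hmp (natCast_inv_mem_Rc Fact.out A hA hm) (toF h₁ / toF h₂) (div_mem hf₁ hf₂) hu0 huV
    (exists_unit_twist (toF_ne_zero h₁) (toF_ne_zero h₂) hdiv)
  obtain ⟨c', rfl⟩ := hcL
  refine ⟨c', y, ?_, ?_, ?_⟩
  · rintro rfl
    exact hc0 (map_zero _)
  · rintro rfl
    rw [zero_pow hm0, mul_zero] at huy
    exact hu0 huy
  · rw [← huy, div_mul_cancel₀ _ (toF_ne_zero h₂)]

end Fermat.Agent.S18.H965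

end
end
-- ===== PACK-END S18/H965/Glue.lean

-- ===== PACK-BEGIN S18/Integ/Final.lean
section









/-!
# S18 — final chain (row-lead helper18): frozen S18 from the two nodes `node_mod` and `node_alg`

    S18(N) ⟸ prime m [H694] ⟸ Top [Integ/Top, H665] ⟸ CONST_Fk [H144] + CORE(N)
    CORE(N) ⟸ D2 [H568] ⟸ CORE(M), M = levelM N ℓ ⟸ GLUE [H965] ⟸ COORD [H634] + MOD + ALG

* `coreStatement_of_mod_alg` : the hub `CoreStatement N A m` (prime `m`, `ℓ ∤ m`) from
  `Mod.GoodModelStatement (levelM N ℓ) ℓ A` and `Mod.AlgStatement (levelM N ℓ)`;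
* `s18_of_mod_alg` : the frozen statement S18 from the same two inputs (for all primes `m`).

Sorry-free; the two inputs are hypotheses.
-/

set_option autoImplicit false

noncomputable section

namespace Fermat.Agent.S18.Integ

open ModularCurve AlgebraicCurve

/-- The level at which good reduction is proved. -/
def levelM (N ℓ : ℕ) : ℕ := if ℓ = 3 then Nat.lcm N 2 else if ℓ = 2 then Nat.lcm N 3 else N

theorem levelM_ne_zero (N ℓ : ℕ) [NeZero N] : levelM N ℓ ≠ 0 := by
  unfold levelM
  split_ifs <;> simp [NeZero.ne N]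

theorem not_dvd_levelM (N : ℕ) {ℓ : ℕ} [Fact ℓ.Prime] (hℓN : ¬ ℓ ∣ N) : ¬ ℓ ∣ levelM N ℓ := by
  have hp : ℓ.Prime := Fact.out
  unfold levelM
  split_ifs with h3 h2
  · subst h3
    intro h
    have := (Nat.Prime.dvd_mul (by norm_num : Nat.Prime 3)).mp (h.trans (Nat.lcm_dvd_mul N 2))
    rcases this with h | h
    · exact hℓN h
    · omega
  · subst h2
    intro h
    have := (Nat.Prime.dvd_mul (by norm_num : Nat.Prime 2)).mp (h.trans (Nat.lcm_dvd_mul N 3))
    rcases this with h | h
    · exact hℓN h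
    · omega
  · exact hℓN

theorem two_dvd_levelM (N : ℕ) {ℓ : ℕ} (h : ℓ = 3) : 2 ∣ levelM N ℓ := by
  unfold levelM
  rw [if_pos h]
  exact Nat.dvd_lcm_right N 2

theorem three_dvd_levelM (N : ℕ) {ℓ : ℕ} (h : ℓ = 2) : 3 ∣ levelM N ℓ := by
  unfold levelM
  rw [if_neg (by omega), if_pos h]
  exact Nat.dvd_lcm_right N 3

/-- **The hub at level `N`** (prime `m`, `ℓ ∤ m`) from MOD and ALG at level `levelM N ℓ`. -/
theorem coreStatement_of_mod_alg (N : ℕ) [NeZero N] {ℓ : ℕ} [Fact ℓ.Prime] (hℓN : ¬ ℓ ∣ N)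
    (A : ValuationSubring Qb) (hA : A.LiesOverPrime ℓ) (m : ℕ) (hmp : m.Prime) (hm : ¬ ℓ ∣ m)
    (hmod : Mod.GoodModelStatement (levelM N ℓ) ℓ A) (halg : Mod.AlgStatement (levelM N ℓ)) :
    CoreStatement N A m := by
  have hM0 : NeZero (levelM N ℓ) := ⟨levelM_ne_zero N ℓ⟩
  have hℓM := not_dvd_levelM N hℓN
  have hcoreM : CoreStatement (levelM N ℓ) A m :=
    H965.node_glue (levelM N ℓ) hℓM A hA m hmp hm
      (H634.node_coord (levelM N ℓ) hℓM (two_dvd_levelM N) (three_dvd_levelM N)) hmod halg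
  exact H568.node_d2 N hℓN A hA m hm hcoreM

/-- **Frozen S18 from `node_mod` and `node_alg`.** -/
theorem s18_of_mod_alg (N : ℕ) [NeZero N] {ℓ : ℕ} [Fact ℓ.Prime] (hℓN : ¬ ℓ ∣ N)
    (A : ValuationSubring Qb) (hA : A.LiesOverPrime ℓ)
    (hmod : Mod.GoodModelStatement (levelM N ℓ) ℓ A) (halg : Mod.AlgStatement (levelM N ℓ))
    (h : ModularCurve.ReductionInputsModL A N) (m : ℕ) (hm : ¬ ℓ ∣ m)
    (z : ModularCurve.JZero N) (hmz : m • z = 0)
    (hz : ModularCurve.reductionModL A N z = 0) : z = 0 := by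
  refine H694.s18_of_prime_case N A (fun p hp hℓp z hpz hz => ?_) m hm z hmz hz
  exact s18_of_coreStatement h p hℓp (H144.node_constFk N hℓN A hA)
    (coreStatement_of_mod_alg N hℓN A hA p hp hℓp hmod halg) z hpz hz

end Fermat.Agent.S18.Integ

end
end
-- ===== PACK-END S18/Integ/Final.lean

-- ===== PACK-BEGIN S17/H77/EmbGal.lean
section







/-!
# S17 / tower H (helper77): Galois-fixed embedding data and Galois equivariance of the points

`F = ℚ̄ · F₀`, `g_σ = arithmeticGalois F₀ σ`.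

* `exists_embData_fixed` : for a Galois-fixed place `∞` and `m ≥ 2g + 1` there is an
  `E : EmbData ℚ̄ F` with `E.vinf = ∞`, `E.m = m`, all `E.x i` Galois-fixed, `E.x 0 = 1`,
  adapted to the pole filtration at `∞` (`E.x i ∈ L((m-1)∞)` for `i < r`, `E.x r ∉ L((m-1)∞)`),
  `E.pt = ptD`, `E.tn = tnD` (helper230's constructor);

for ANY `E : EmbData ℚ̄ F` with Galois-fixed basis and invariant `∞`:

* `smul_lin`, `smul_Z` : `g_σ • Z_a = Z_{σ a}`;  `Z_galVec_smul_apply`;
* `exists_pt_smul` : `E.pt (g_σ • P) = c • σ(E.pt P)` with `c ≠ 0` (projective equivariance);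
* `ht_pt_smul` : `ht (E.pt (g_σ • P)) = ht (E.pt P)`;
* `Z_single_zero` : if `E.x 0 = 1` then `Z_{e₀} = m • ∞`.
-/

set_option autoImplicit false

noncomputable section

open AlgebraicCurve ModularCurve

namespace Fermat.Agent.S17.H77

open Fermat.Agent.Lib.RR Fermat.Agent.S17.H680 Fermat.Agent.S17.HWall

/-- the conjugate `σ ∘ a` of a coordinate vector -/
def galVec {n : ℕ} (σ : GQ) (a : Fin n → Qb) : Fin n → Qb := fun i => σ (a i)

theorem galVec_apply {n : ℕ} (σ : GQ) (a : Fin n → Qb) (i : Fin n) :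
    galVec σ a i = σ (a i) := rfl

theorem galVec_zero {n : ℕ} (σ : GQ) : galVec σ (0 : Fin n → Qb) = 0 := by
  funext i
  simp [galVec]

theorem galVec_eq_zero_iff {n : ℕ} (σ : GQ) (a : Fin n → Qb) : galVec σ a = 0 ↔ a = 0 := by
  constructor
  · intro h
    funext i
    have := congrFun h i
    simpa [galVec] using this
  · rintro rfl
    exact galVec_zero σ

theorem galVec_inv_galVec {n : ℕ} (σ : GQ) (a : Fin n → Qb) :
    galVec σ (galVec σ⁻¹ a) = a := by
  funext i
  show σ (σ⁻¹ (a i)) = a i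
  rw [← AlgEquiv.mul_apply, mul_inv_cancel, AlgEquiv.one_apply]

theorem dot_galVec {n : ℕ} (σ : GQ) (a y : Fin n → Qb) :
    dot (galVec σ a) (galVec σ y) = σ (dot a y) := by
  show ∑ i, σ (a i) * σ (y i) = σ (∑ i, a i * y i)
  rw [map_sum]
  exact Finset.sum_congr rfl fun i _ => (map_mul σ _ _).symm

theorem galVec_smul {n : ℕ} (σ : GQ) (c : Qb) (a : Fin n → Qb) :
    galVec σ (c • a) = σ c • galVec σ a := by
  funext i
  show σ (c * a i) = σ c * σ (a i)
  exact map_mul σ _ _

variable (F₀ : IntermediateField ℚ (LaurentSeries ℚ)) [FF1 Qb (laurentBaseChange Qb F₀)]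

omit [FF1 Qb (laurentBaseChange Qb F₀)] in
/-- `g_σ (Σ aᵢ xᵢ) = Σ σ(aᵢ) xᵢ` for Galois-fixed `xᵢ`. -/
theorem smul_lin {n : ℕ} (x : Fin n → laurentBaseChange Qb F₀) (hxfix : ∀ i, IsFixed F₀ (x i))
    (σ : GQ) (a : Fin n → Qb) :
    arithmeticGalois F₀ σ • lin x a = lin x (galVec σ a) := by
  unfold lin
  rw [Finset.smul_sum]
  refine Finset.sum_congr rfl fun j _ => ?_
  rw [arithmeticGalois_smul_smul, hxfix j σ]
  rfl

/-- `g_σ • Z_a = Z_{σ a}`. -/
theorem smul_Z (E : EmbData Qb (laurentBaseChange Qb F₀))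
    (hxfix : ∀ i, IsFixed F₀ (E.x i)) (hinf : IsInvariant F₀ (prim E.vinf))
    (σ : GQ) (a : Fin (E.r + 1) → Qb) :
    arithmeticGalois F₀ σ • E.Z a = E.Z (galVec σ a) := by
  by_cases ha : a = 0
  · subst ha
    have : E.Z (0 : Fin (E.r + 1) → Qb) = 0 := by
      unfold EmbData.Z hypDiv
      rw [dif_pos (by simp [lin])]
    rw [galVec_zero, this, smul_zero]
  · have ha' : galVec σ a ≠ 0 := fun h => ha ((galVec_eq_zero_iff σ a).mp h)
    rw [E.Z_eq ha, E.Z_eq ha', smul_add, smul_divOf, smul_comm, hinf σ]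
    congr 1
    exact divOf_congr _ (smul_lin F₀ E.x hxfix σ a)

theorem Z_galVec_smul_apply (E : EmbData Qb (laurentBaseChange Qb F₀))
    (hxfix : ∀ i, IsFixed F₀ (E.x i)) (hinf : IsInvariant F₀ (prim E.vinf))
    (σ : GQ) (a : Fin (E.r + 1) → Qb) (P : Place Qb (laurentBaseChange Qb F₀)) :
    E.Z (galVec σ a) (arithmeticGalois F₀ σ • P) = E.Z a P := by
  rw [← smul_Z F₀ E hxfix hinf σ a, SemilinearAut.divisor_smul_apply_smul]

/-- **Projective Galois equivariance of the points.** -/
theorem exists_pt_smul (E : EmbData Qb (laurentBaseChange Qb F₀))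
    (hxfix : ∀ i, IsFixed F₀ (E.x i)) (hinf : IsInvariant F₀ (prim E.vinf))
    (σ : GQ) (P : Place Qb (laurentBaseChange Qb F₀)) :
    ∃ c : Qb, c ≠ 0 ∧ E.pt (arithmeticGalois F₀ σ • P) = c • galVec σ (E.pt P) := by
  refine H440.exists_smul_eq_of_dot_iff (H440.pt_ne_zero E _)
    (fun h => H440.pt_ne_zero E P ((galVec_eq_zero_iff σ _).mp h)) fun a ha => ?_
  have ha' : galVec σ⁻¹ a ≠ 0 := fun h => ha ((galVec_eq_zero_iff σ⁻¹ a).mp h)
  rw [E.pt_spec _ a ha]
  have h1 : hypDiv E.vinf E.m E.x a (arithmeticGalois F₀ σ • P) = E.Z (galVec σ⁻¹ a) P := by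
    have := Z_galVec_smul_apply F₀ E hxfix hinf σ (galVec σ⁻¹ a) P
    rw [galVec_inv_galVec] at this
    exact this
  rw [h1]
  have h2 := E.pt_spec P (galVec σ⁻¹ a) ha'
  rw [show hypDiv E.vinf E.m E.x (galVec σ⁻¹ a) P = E.Z (galVec σ⁻¹ a) P from rfl] at h2
  rw [← h2]
  have h3 := dot_galVec σ (galVec σ⁻¹ a) (E.pt P)
  rw [galVec_inv_galVec] at h3
  rw [h3]
  exact (map_eq_zero_iff σ σ.injective).symm

/-- **Galois invariance of the height of a point.** -/
theorem ht_pt_smul (E : EmbData Qb (laurentBaseChange Qb F₀))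
    (hxfix : ∀ i, IsFixed F₀ (E.x i)) (hinf : IsInvariant F₀ (prim E.vinf))
    (σ : GQ) (P : Place Qb (laurentBaseChange Qb F₀)) :
    HContract.ht (E.pt (arithmeticGalois F₀ σ • P)) = HContract.ht (E.pt P) := by
  obtain ⟨c, hc, h⟩ := exists_pt_smul F₀ E hxfix hinf σ P
  unfold HContract.ht
  rw [h, H380.absLogHeight_smul _ (fun i => isIntegral_Qb _) hc (isIntegral_Qb c)]
  exact H380.absLogHeight_ringHom (σ : Qb →+* Qb) (E.pt P)

/-- `Z_{e₀} = m • ∞` when `x₀ = 1`. -/
theorem Z_single_zero (E : EmbData Qb (laurentBaseChange Qb F₀)) (hx0 : E.x 0 = 1) :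
    E.Z (Pi.single 0 (1 : Qb)) = E.m • prim E.vinf := by
  classical
  have hne : (Pi.single 0 (1 : Qb) : Fin (E.r + 1) → Qb) ≠ 0 := by
    intro h
    have := congrFun h 0
    simp at this
  have hlin : lin E.x (Pi.single 0 (1 : Qb)) = 1 := by
    unfold lin
    rw [Finset.sum_eq_single 0]
    · rw [Pi.single_eq_same, one_smul, hx0]
    · intro j _ hj
      rw [Pi.single_eq_of_ne hj, zero_smul]
    · intro h
      exact absurd (Finset.mem_univ _) h
  rw [E.Z_eq hne]
  have : divOf (K := Qb) (lin E.x (Pi.single 0 (1 : Qb))) (E.lin_ne_zero hne) = 0 := by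
    ext v
    rw [divOf_apply (K := Qb), hlin, Place.ord_one]
    rfl
  rw [this, zero_add]

/-- **Existence of a Galois-fixed adapted embedding datum.** -/
theorem exists_embData_fixed (vinf : Place Qb (laurentBaseChange Qb F₀))
    (hinv : ∀ σ : GQ, arithmeticGalois F₀ σ • vinf = vinf) (m : ℕ)
    (hm : 2 * genusR Qb (laurentBaseChange Qb F₀) + 1 ≤ m) :
    ∃ E : EmbData Qb (laurentBaseChange Qb F₀), E.vinf = vinf ∧ E.m = m ∧
      (∀ i, IsFixed F₀ (E.x i)) ∧ E.x 0 = 1 ∧
      (∀ i, i ≠ Fin.last E.r → E.x i ∈ riemannRochSpace ((m - 1) • prim vinf)) ∧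
      E.x (Fin.last E.r) ∉ riemannRochSpace ((m - 1) • prim vinf) ∧
      E.pt = H230.ptD (m • prim vinf) E.x ∧ E.tn = H230.tnD (m • prim vinf) E.x := by
  have hg : genusFF Qb (laurentBaseChange Qb F₀) = genusR Qb (laurentBaseChange Qb F₀) :=
    genusFF_eq_genusR
  obtain ⟨D, hv, hmm, hfix⟩ := exists_ptData F₀ vinf hinv m (by omega) (by rw [hg]; omega)
  subst hv hmm
  exact ⟨H230.embOfBasis D.vinf D.m hm D.x D.x_li D.x_span, rfl, rfl, hfix, D.x_zero,
    D.x_low, D.x_top, rfl, rfl⟩

/-- **The modular curve**: a Galois-fixed adapted embedding datum of `X₀(N)` at the cusp `∞`,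
for every degree `m ≥ 2g + 1`. -/
theorem exists_embData_cusp (N : ℕ) [NeZero N] [FF1 Qb (modularFunctionFieldBar N)] (m : ℕ)
    (hm : 2 * genusR Qb (modularFunctionFieldBar N) + 1 ≤ m) :
    ∃ E : EmbData Qb (modularFunctionFieldBar N), E.vinf = JZero.cusp N ∧ E.m = m ∧
      (∀ i, IsFixed (modularFunctionFieldFull N) (E.x i)) ∧
      IsInvariant (modularFunctionFieldFull N) (prim E.vinf) ∧ E.x 0 = 1 ∧
      (∀ i, i ≠ Fin.last E.r → E.x i ∈ riemannRochSpace ((m - 1) • prim (JZero.cusp N))) ∧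
      E.x (Fin.last E.r) ∉ riemannRochSpace ((m - 1) • prim (JZero.cusp N)) ∧
      E.pt = H230.ptD (m • prim (JZero.cusp N)) E.x ∧
      E.tn = H230.tnD (m • prim (JZero.cusp N)) E.x := by
  obtain ⟨E, h1, h2, h3, h4, h5, h6, h7, h8⟩ :=
    exists_embData_fixed (modularFunctionFieldFull N) (JZero.cusp N)
      (JZero.galois_smul_cusp N) m hm
  refine ⟨E, h1, h2, h3, ?_, h4, h5, h6, h7, h8⟩
  intro σ
  rw [h1, smul_prim, JZero.galois_smul_cusp]

end Fermat.Agent.S17.H77

end
end
-- ===== PACK-END S17/H77/EmbGal.lean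

-- ===== PACK-BEGIN S17/H77/TopNC.lean
section




/-!
# S17 / tower H, TOP-GLUE leaf T-NC (helper77): Northcott for effective invariant divisors

`theorem northcott (I : Top.TopInput F₀) : Top.NorthcottStatement I`.

Route: an effective divisor `D` gives the cycle `cyc E D = Σ_P D(P) • {npt P}` of NORMALISED
points (`npt P = E.pt P` divided by a coordinate chosen in terms of the support of the vector
only).  `npt` is injective (`H440.pt_injective`) and Galois equivariant (`exists_pt_smul`), so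
`D ↦ cyc E D` is injective, `cyc E D` is Galois stable for invariant `D`, has `deg D` elements
and height `N(D)`; conclude by `H50.northcott_cycle_abs`.
-/

set_option autoImplicit false
set_option linter.unusedSectionVars false

noncomputable section

open AlgebraicCurve ModularCurve

namespace Fermat.Agent.S17.H77

open Fermat.Agent.Lib.RR Fermat.Agent.S17.H680 Fermat.Agent.S17.HWall
open Fermat.Agent.S17.HContract Fermat.Agent.S17.H500.Top

/-! ### Normalisation of a non-zero vector -/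

section Norm

variable {n : ℕ}

/-- the support of a vector -/
def vsupp (v : Fin (n + 1) → Qb) : Finset (Fin (n + 1)) :=
  haveI : DecidablePred fun i => v i ≠ 0 := Classical.decPred _
  Finset.univ.filter fun i => v i ≠ 0

/-- a chosen element of a nonempty set of indices -/
def pickIdx (s : Finset (Fin (n + 1))) : Fin (n + 1) :=
  haveI : Decidable s.Nonempty := Classical.dec _
  if h : s.Nonempty then h.choose else 0

theorem pickIdx_mem {s : Finset (Fin (n + 1))} (h : s.Nonempty) : pickIdx s ∈ s := by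
  unfold pickIdx
  rw [dif_pos h]
  exact h.choose_spec

theorem mem_vsupp (v : Fin (n + 1) → Qb) (i : Fin (n + 1)) : i ∈ vsupp v ↔ v i ≠ 0 := by
  unfold vsupp
  simp only [Finset.mem_filter, Finset.mem_univ, true_and]

theorem vsupp_nonempty {v : Fin (n + 1) → Qb} (hv : v ≠ 0) : (vsupp v).Nonempty := by
  by_contra h
  apply hv
  funext i
  by_contra hi
  exact h ⟨i, (mem_vsupp v i).mpr hi⟩

theorem pick_ne_zero {v : Fin (n + 1) → Qb} (hv : v ≠ 0) : v (pickIdx (vsupp v)) ≠ 0 :=
  (mem_vsupp v _).mp (pickIdx_mem (vsupp_nonempty hv))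

/-- the normalised vector: the chosen coordinate becomes `1` -/
def nvec (v : Fin (n + 1) → Qb) : Fin (n + 1) → Qb := (v (pickIdx (vsupp v)))⁻¹ • v

theorem nvec_pick {v : Fin (n + 1) → Qb} (hv : v ≠ 0) : nvec v (pickIdx (vsupp v)) = 1 := by
  unfold nvec
  rw [Pi.smul_apply, smul_eq_mul, inv_mul_cancel₀ (pick_ne_zero hv)]

theorem vsupp_smul {c : Qb} (hc : c ≠ 0) (v : Fin (n + 1) → Qb) : vsupp (c • v) = vsupp v := by
  ext i
  rw [mem_vsupp, mem_vsupp, Pi.smul_apply, smul_eq_mul]
  exact ⟨fun h h0 => h (by rw [h0, mul_zero]), fun h => mul_ne_zero hc h⟩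

theorem vsupp_galVec (σ : GQ) (v : Fin (n + 1) → Qb) : vsupp (galVec σ v) = vsupp v := by
  ext i
  rw [mem_vsupp, mem_vsupp, galVec_apply]
  exact not_congr (map_eq_zero_iff σ σ.injective)

theorem nvec_smul {c : Qb} (hc : c ≠ 0) (v : Fin (n + 1) → Qb) : nvec (c • v) = nvec v := by
  unfold nvec
  rw [vsupp_smul hc, Pi.smul_apply, smul_eq_mul, smul_smul, mul_inv, mul_assoc,
    mul_comm _ c, ← mul_assoc, inv_mul_cancel₀ hc, one_mul]

theorem nvec_galVec (σ : GQ) (v : Fin (n + 1) → Qb) : nvec (galVec σ v) = galVec σ (nvec v) := by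
  unfold nvec
  rw [vsupp_galVec, galVec_smul, galVec_apply, map_inv₀]

theorem absLogHeight_nvec {v : Fin (n + 1) → Qb} (hv : v ≠ 0) :
    H380.absLogHeight (nvec v) = H380.absLogHeight v :=
  H380.absLogHeight_smul v (fun _ => isIntegral_Qb _) (inv_ne_zero (pick_ne_zero hv))
    (isIntegral_Qb _)

theorem eq_smul_of_nvec_eq {v w : Fin (n + 1) → Qb} (hv : v ≠ 0) (h : nvec v = nvec w) :
    ∃ c : Qb, v = c • w := by
  refine ⟨v (pickIdx (vsupp v)) * (w (pickIdx (vsupp w)))⁻¹, ?_⟩
  have h1 : v = v (pickIdx (vsupp v)) • nvec v := by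
    unfold nvec
    rw [smul_smul, mul_inv_cancel₀ (pick_ne_zero hv), one_smul]
  rw [mul_smul]
  conv_lhs => rw [h1, h]
  rfl

end Norm

/-! ### Normalised points -/

variable {F₀ : IntermediateField ℚ (LaurentSeries ℚ)} [FF1 Qb (laurentBaseChange Qb F₀)]

/-- the normalised point of a place -/
def npt (E : EmbData Qb (laurentBaseChange Qb F₀)) (P : Place Qb (laurentBaseChange Qb F₀)) :
    Fin (E.r + 1) → Qb :=
  nvec (E.pt P)

theorem npt_smul (E : EmbData Qb (laurentBaseChange Qb F₀))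
    (hxfix : ∀ i, IsFixed F₀ (E.x i)) (hinf : IsInvariant F₀ (prim E.vinf))
    (σ : GQ) (P : Place Qb (laurentBaseChange Qb F₀)) :
    npt E (arithmeticGalois F₀ σ • P) = galVec σ (npt E P) := by
  obtain ⟨c, hc, h⟩ := exists_pt_smul F₀ E hxfix hinf σ P
  unfold npt
  rw [h, nvec_smul hc, nvec_galVec]

theorem npt_injective (E : EmbData Qb (laurentBaseChange Qb F₀)) :
    Function.Injective (npt E) := by
  intro P Q h
  obtain ⟨c, hc⟩ := eq_smul_of_nvec_eq (H440.pt_ne_zero E P) h
  exact H440.pt_injective E hc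

theorem exists_npt_eq_one (E : EmbData Qb (laurentBaseChange Qb F₀))
    (P : Place Qb (laurentBaseChange Qb F₀)) : ∃ i, npt E P i = 1 :=
  ⟨_, nvec_pick (H440.pt_ne_zero E P)⟩

theorem ht_npt (E : EmbData Qb (laurentBaseChange Qb F₀))
    (P : Place Qb (laurentBaseChange Qb F₀)) :
    H380.absLogHeight (npt E P) = ht (E.pt P) :=
  absLogHeight_nvec (H440.pt_ne_zero E P)

/-! ### The cycle of an effective divisor -/

/-- the multiplicities of an effective divisor, as natural numbers -/
def natPart (D : Divisor Qb (laurentBaseChange Qb F₀)) :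
    Place Qb (laurentBaseChange Qb F₀) →₀ ℕ :=
  D.mapRange Int.toNat rfl

theorem natPart_apply (D : Divisor Qb (laurentBaseChange Qb F₀))
    (P : Place Qb (laurentBaseChange Qb F₀)) : natPart D P = (D P).toNat := rfl

theorem coe_natPart_apply {D : Divisor Qb (laurentBaseChange Qb F₀)} (hD : 0 ≤ D)
    (P : Place Qb (laurentBaseChange Qb F₀)) : ((natPart D P : ℕ) : ℤ) = D P := by
  rw [natPart_apply]
  have := Finsupp.le_def.mp hD P
  simp only [Finsupp.coe_zero, Pi.zero_apply] at this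
  omega

theorem natPart_injOn {D D' : Divisor Qb (laurentBaseChange Qb F₀)} (hD : 0 ≤ D) (hD' : 0 ≤ D')
    (h : natPart D = natPart D') : D = D' := by
  ext P
  rw [← coe_natPart_apply hD P, ← coe_natPart_apply hD' P, h]

theorem natPart_smul (g : SemilinearAut Qb (laurentBaseChange Qb F₀))
    (D : Divisor Qb (laurentBaseChange Qb F₀)) :
    natPart (g • D) = (natPart D).mapDomain (g • ·) := by
  ext P
  rw [natPart_apply, SemilinearAut.divisor_smul_apply]
  have h := Finsupp.mapDomain_apply (MulAction.injective g) (natPart D) (g⁻¹ • P)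
  rw [smul_inv_smul] at h
  rw [h, natPart_apply]

theorem natPart_support {D : Divisor Qb (laurentBaseChange Qb F₀)} (hD : 0 ≤ D) :
    (natPart D).support = D.support := by
  ext P
  rw [Finsupp.mem_support_iff, Finsupp.mem_support_iff, natPart_apply]
  have := Finsupp.le_def.mp hD P
  simp only [Finsupp.coe_zero, Pi.zero_apply] at this
  omega

/-- the cycle of normalised points of a divisor -/
def cyc (E : EmbData Qb (laurentBaseChange Qb F₀)) (D : Divisor Qb (laurentBaseChange Qb F₀)) :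
    Multiset (Fin (E.r + 1) → Qb) :=
  Finsupp.toMultiset ((natPart D).mapDomain (npt E))

theorem cyc_injOn (E : EmbData Qb (laurentBaseChange Qb F₀))
    {D D' : Divisor Qb (laurentBaseChange Qb F₀)} (hD : 0 ≤ D) (hD' : 0 ≤ D')
    (h : cyc E D = cyc E D') : D = D' := by
  classical
  unfold cyc at h
  have h1 := congrArg Multiset.toFinsupp h
  rw [Finsupp.toMultiset_toFinsupp, Finsupp.toMultiset_toFinsupp] at h1
  exact natPart_injOn hD hD' (Finsupp.mapDomain_injective (npt_injective E) h1)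

theorem mem_cyc (E : EmbData Qb (laurentBaseChange Qb F₀))
    (D : Divisor Qb (laurentBaseChange Qb F₀)) {y : Fin (E.r + 1) → Qb} (hy : y ∈ cyc E D) :
    ∃ P, y = npt E P := by
  classical
  unfold cyc at hy
  rw [Finsupp.mem_toMultiset] at hy
  have h2 := Finsupp.mapDomain_support hy
  obtain ⟨P, -, hP⟩ := Finset.mem_image.mp h2
  exact ⟨P, hP.symm⟩

theorem cyc_normalised (E : EmbData Qb (laurentBaseChange Qb F₀))
    (D : Divisor Qb (laurentBaseChange Qb F₀)) : ∀ y ∈ cyc E D, ∃ i, y i = 1 := by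
  intro y hy
  obtain ⟨P, rfl⟩ := mem_cyc E D hy
  exact exists_npt_eq_one E P

theorem card_cyc (E : EmbData Qb (laurentBaseChange Qb F₀))
    {D : Divisor Qb (laurentBaseChange Qb F₀)} (hD : 0 ≤ D) :
    ((cyc E D).card : ℤ) = Divisor.degree D := by
  classical
  unfold cyc
  rw [Finsupp.card_toMultiset, Finsupp.sum_mapDomain_index (fun _ => rfl) (fun _ _ _ => rfl),
    degree_eq_sum, Finsupp.sum, Nat.cast_sum, natPart_support hD]
  refine Finset.sum_congr rfl fun P _ => ?_
  rw [id, coe_natPart_apply hD, deg_eq_one, Nat.cast_one, mul_one]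

theorem isGStable_cyc (E : EmbData Qb (laurentBaseChange Qb F₀))
    (hxfix : ∀ i, IsFixed F₀ (E.x i)) (hinf : IsInvariant F₀ (prim E.vinf))
    {D : Divisor Qb (laurentBaseChange Qb F₀)} (hD : IsInvariant F₀ D) :
    H50.IsGStable (cyc E D) := by
  intro σ
  show (cyc E D).map (galVec σ) = cyc E D
  unfold cyc
  rw [Finsupp.toMultiset_map, ← Finsupp.mapDomain_comp]
  have hcomp : galVec σ ∘ npt E = npt E ∘ (arithmeticGalois F₀ σ • ·) := by
    funext P
    exact (npt_smul E hxfix hinf σ P).symm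
  rw [hcomp, Finsupp.mapDomain_comp, ← natPart_smul, hD σ]

theorem cycAbs_cyc (E : EmbData Qb (laurentBaseChange Qb F₀))
    {D : Divisor Qb (laurentBaseChange Qb F₀)} (hD : 0 ≤ D) :
    H50.cycAbs (cyc E D) = naive E D := by
  classical
  unfold H50.cycAbs cyc naive
  rw [Finsupp.toMultiset_map, Finsupp.sum_toMultiset, ← Finsupp.mapDomain_comp,
    Finsupp.sum_mapDomain_index (h := fun (a : ℝ) (n : ℕ) => n • a) (fun b => zero_smul ℕ b)
      (fun b m₁ m₂ => add_smul m₁ m₂ b),
    Finsupp.sum, Finsupp.sum, natPart_support hD]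
  refine Finset.sum_congr rfl fun P _ => ?_
  rw [Function.comp_apply, ht_npt, nsmul_eq_mul]
  congr 1
  have := coe_natPart_apply hD P
  exact_mod_cast congrArg (fun z : ℤ => (z : ℝ)) this

/-- **T-NC: Northcott for effective invariant divisors of bounded degree.** -/
theorem northcott (I : TopInput F₀) : NorthcottStatement I := by
  intro e B
  have hfin := H50.northcott_cycle_abs (ι := Fin (I.E.r + 1)) e B
  refine Set.Finite.of_finite_image (f := fun D : Dv F₀ =>
    cyc I.E (D : Divisor Qb (laurentBaseChange Qb F₀))) (hfin.subset ?_) ?_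
  · rintro _ ⟨D, ⟨hdeg, hN⟩, rfl⟩
    refine ⟨?_, isGStable_cyc I.E I.xfix I.inf_inv D.inv, cyc_normalised I.E _, ?_⟩
    · have h1 := card_cyc I.E D.nonneg
      have h2 := coe_degHom D
      have h3 : ((cyc I.E (D : Divisor Qb (laurentBaseChange Qb F₀))).card : ℤ) =
          (degHom D : ℕ) := by rw [h1, h2]
      have h4 : (cyc I.E (D : Divisor Qb (laurentBaseChange Qb F₀))).card = degHom D := by
        exact_mod_cast h3
      rw [h4]
      exact hdeg
    · rw [cycAbs_cyc I.E D.nonneg]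
      exact hN
  · intro D _ D' _ h
    exact Subtype.ext (cyc_injOn I.E D.nonneg D'.nonneg h)

/-- **G-EMB** (exact shape of `coord/S17-HSkel.md` sec. 5): an embedding datum of `X₀(N)` at the
cusp with Galois-fixed basis and `x₀ = 1`, for every degree `m ≥ 2g + 1`. -/
theorem gEmb (N : ℕ) [NeZero N] [FF1 Qb (modularFunctionFieldBar N)] (m : ℕ)
    (hm : 2 * genusR Qb (modularFunctionFieldBar N) + 1 ≤ m) :
    ∃ E : EmbData Qb (modularFunctionFieldBar N), E.m = m ∧ E.vinf = JZero.cusp N ∧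
      (∀ i, IsFixed (modularFunctionFieldFull N) (E.x i)) ∧ E.x 0 = 1 := by
  obtain ⟨E, h1, h2, h3, -, h4, -⟩ := exists_embData_cusp N m hm
  exact ⟨E, h2, h1, h3, h4⟩

end Fermat.Agent.S17.H77

end
end
-- ===== PACK-END S17/H77/TopNC.lean

-- ===== PACK-BEGIN S37/H819/Enum.lean
section


/-!
# S37 / NORM (helper819) — enumeration of the `FF N`-embeddings of `FF (N ℓ)` and the norm
-/

set_option autoImplicit false

noncomputable section

open ModularCurve HahnSeries UpperHalfPlane AlgebraicCurve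
open scoped MatrixGroups

namespace Fermat.Agent.S37.H819

open Fermat.Agent.S24 Fermat.Agent.S24.H997

variable (N ℓ : ℕ) [NeZero N] [NeZero ℓ]

/-- `α (j) = j` -/
theorem alpha_jF : heckeAlphaBar Kbar N ℓ (jF N) = jF (N * ℓ) := by
  apply Subtype.ext
  rw [coe_heckeAlphaBar]
  rfl

/-- every element of `ℚ̄(j) ⊆ FF (N ℓ)` lies in the image of `α` -/
theorem exists_alpha_eq_of_mem_adjoin {c : FF (N * ℓ)}
    (hc : c ∈ IntermediateField.adjoin Kbar {jF (N * ℓ)}) :
    ∃ c' : FF N, heckeAlphaBar Kbar N ℓ c' = c := by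
  induction hc using IntermediateField.adjoin_induction with
  | mem z hz =>
      rw [Set.mem_singleton_iff] at hz
      subst hz
      exact ⟨jF N, alpha_jF N ℓ⟩
  | algebraMap a => exact ⟨algebraMap Kbar (FF N) a, (heckeAlphaBar Kbar N ℓ).commutes a⟩
  | add z w _ _ hz hw =>
      obtain ⟨z', rfl⟩ := hz
      obtain ⟨w', rfl⟩ := hw
      exact ⟨z' + w', map_add _ _ _⟩
  | inv z _ hz =>
      obtain ⟨z', rfl⟩ := hz
      exact ⟨z'⁻¹, map_inv₀ _ _⟩
  | mul z w _ _ hz hw =>
      obtain ⟨z', rfl⟩ := hz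
      obtain ⟨w', rfl⟩ := hw
      exact ⟨z' * w', map_mul _ _ _⟩

/-- `FF (N ℓ)` is finite over `FF N` (along `α`). -/
theorem finite_alpha :
    letI := algebraAlong (heckeAlphaBar Kbar N ℓ)
    Module.Finite (FF N) (FF (N * ℓ)) := by
  letI := algebraAlong (heckeAlphaBar Kbar N ℓ)
  haveI hfd := (Deg457.degree_fields (N * ℓ)).1
  obtain ⟨s, hs⟩ := (Module.Finite.fg_top :
    (⊤ : Submodule ↥(IntermediateField.adjoin Kbar {jF (N * ℓ)}) (FF (N * ℓ))).FG)
  refine ⟨⟨s, ?_⟩⟩
  rw [eq_top_iff]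
  intro x hxt
  have hx : x ∈ Submodule.span ↥(IntermediateField.adjoin Kbar {jF (N * ℓ)})
      (s : Set (FF (N * ℓ))) := by rw [hs]; trivial
  revert hxt
  induction hx using Submodule.span_induction with
  | mem y hy => exact fun _ => Submodule.subset_span hy
  | zero => exact fun _ => zero_mem _
  | add y z _ _ hy hz => exact fun _ => add_mem (hy trivial) (hz trivial)
  | smul c y _ hy =>
      obtain ⟨c', hc'⟩ := exists_alpha_eq_of_mem_adjoin N ℓ c.2
      have e : c • y = c' • y := by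
        show (c : FF (N * ℓ)) * y = heckeAlphaBar Kbar N ℓ c' * y
        rw [hc']
      rw [e]
      exact fun _ => Submodule.smul_mem _ c' (hy trivial)

/-! ### The target field and the algebra structures -/

/-- An algebraic closure of `ℂ((z))` (type synonym carrying `N`, `ℓ`). -/
def Om (_N _ℓ : ℕ) : Type := AlgebraicClosure (LaurentSeries ℂ)

instance : Field (Om N ℓ) := inferInstanceAs (Field (AlgebraicClosure (LaurentSeries ℂ)))

instance : IsAlgClosed (Om N ℓ) :=
  inferInstanceAs (IsAlgClosed (AlgebraicClosure (LaurentSeries ℂ)))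

/-- the inclusion `ℂ((z)) → Ω` -/
def incOm : LaurentSeries ℂ →+* Om N ℓ :=
  algebraMap (LaurentSeries ℂ) (AlgebraicClosure (LaurentSeries ℂ))

theorem incOm_injective : Function.Injective (incOm N ℓ) :=
  (algebraMap (LaurentSeries ℂ) (AlgebraicClosure (LaurentSeries ℂ))).injective

/-- `FF (N ℓ)` as an `FF N`-algebra along `α` (the Prelude's `algebraAlong`) -/
local instance instAlgAlpha : Algebra (FF N) (FF (N * ℓ)) :=
  algebraAlong (heckeAlphaBar Kbar N ℓ)

/-- `Ω` as an `FF N`-algebra through `σ₁ ∘ α` -/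
local instance instAlgOm : Algebra (FF N) (Om N ℓ) :=
  (((incOm N ℓ).comp (sig N ℓ 1)).comp (heckeAlphaBar Kbar N ℓ).toRingHom).toAlgebra

theorem algebraMap_alpha (y : FF N) :
    algebraMap (FF N) (FF (N * ℓ)) y = heckeAlphaBar Kbar N ℓ y := rfl

theorem algebraMap_Om (y : FF N) :
    algebraMap (FF N) (Om N ℓ) y = incOm N ℓ (sig N ℓ 1 (heckeAlphaBar Kbar N ℓ y)) := rfl

local instance instFiniteAlpha : Module.Finite (FF N) (FF (N * ℓ)) := finite_alpha N ℓ

example : Algebra.IsSeparable (FF N) (FF (N * ℓ)) := inferInstance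

/-- the `FF N`-embedding `σ_{h⁻¹}` for `h ∈ Γ₀(N)` -/
def embOf (h : SL(2, ℤ)) (hh : h ∈ CongruenceSubgroup.Gamma0 N) :
    FF (N * ℓ) →ₐ[FF N] Om N ℓ :=
  { (incOm N ℓ).comp (sig N ℓ h⁻¹) with
    commutes' := fun y => by
      show incOm N ℓ (sig N ℓ h⁻¹ (heckeAlphaBar Kbar N ℓ y))
        = incOm N ℓ (sig N ℓ 1 (heckeAlphaBar Kbar N ℓ y))
      rw [sig_alpha N ℓ hh, sig_one, coe_heckeAlphaBar] }

theorem embOf_apply (h : SL(2, ℤ)) (hh : h ∈ CongruenceSubgroup.Gamma0 N) (x : FF (N * ℓ)) :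
    embOf N ℓ h hh x = incOm N ℓ (sig N ℓ h⁻¹ x) := rfl

/-! ### Every `FF N`-embedding is some `σ_g` -/

/-- all the `σ_g` agree with `σ₁` on `ℚ̄(j)` -/
theorem sig_eq_on_adjoin (g : SL(2, ℤ)) {f : FF (N * ℓ)}
    (hf : f ∈ IntermediateField.adjoin Kbar {jF (N * ℓ)}) : sig N ℓ g f = sig N ℓ 1 f := by
  induction hf using IntermediateField.adjoin_induction with
  | mem z hz =>
      rw [Set.mem_singleton_iff] at hz
      subst hz
      unfold sig
      rw [HolBase.sigmaG_jF, HolBase.sigmaG_jF]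
  | algebraMap c => rw [sig_algebraMap, sig_algebraMap]
  | add z w _ _ hz hw => rw [map_add, map_add, hz, hw]
  | inv z _ hz => rw [map_inv₀, map_inv₀, hz]
  | mul z w _ _ hz hw => rw [map_mul, map_mul, hz, hw]

/-- `ℚ̄(j)` inside `FF (N ℓ)` -/
abbrev Kj : Type := ↥(IntermediateField.adjoin Kbar {jF (N * ℓ)})

/-- `Ω` as a `ℚ̄(j)`-algebra through `σ₁` -/
local instance instAlgKjOm : Algebra (Kj N ℓ) (Om N ℓ) :=
  (((incOm N ℓ).comp (sig N ℓ 1)).comp (algebraMap (Kj N ℓ) (FF (N * ℓ)))).toAlgebra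

/-- the `ℚ̄(j)`-embedding attached to a coset -/
def embK (x : XX (N * ℓ)) : FF (N * ℓ) →ₐ[Kj N ℓ] Om N ℓ :=
  { (incOm N ℓ).comp ((holBase (N * ℓ)).sigmaX (holBase (N * ℓ)).qexpExpansion x) with
    commutes' := fun c => by
      show incOm N ℓ (sig N ℓ (Quotient.out x) (c : FF (N * ℓ)))
        = incOm N ℓ (sig N ℓ 1 (c : FF (N * ℓ)))
      rw [sig_eq_on_adjoin N ℓ _ c.2] }

theorem embK_apply (x : XX (N * ℓ)) (f : FF (N * ℓ)) :
    embK N ℓ x f = incOm N ℓ ((holBase (N * ℓ)).sigmaX (holBase (N * ℓ)).qexpExpansion x f) :=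
  rfl

theorem embK_injective : Function.Injective (embK N ℓ) := by
  intro x y hxy
  apply (holBase (N * ℓ)).sigmaX_injective (holBase (N * ℓ)).qexpExpansion
  refine RingHom.ext fun f => ?_
  apply incOm_injective N ℓ
  have := congrArg (fun φ : FF (N * ℓ) →ₐ[Kj N ℓ] Om N ℓ => φ f) hxy
  simpa only [embK_apply] using this

theorem embK_bijective : Function.Bijective (embK N ℓ) := by
  haveI hfd := (Deg457.degree_fields (N * ℓ)).1
  haveI : Module.Finite (Kj N ℓ) (FF (N * ℓ)) := hfd
  haveI : Module.Free (Kj N ℓ) (FF (N * ℓ)) := Module.Free.of_divisionRing _ _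
  haveI : Finite (FF (N * ℓ) →ₐ[Kj N ℓ] Om N ℓ) := Finite.algHom _ _ _
  refine (embK_injective N ℓ).bijective_of_nat_card_le ?_
  calc Nat.card (FF (N * ℓ) →ₐ[Kj N ℓ] Om N ℓ)
      ≤ Module.finrank (Kj N ℓ) (FF (N * ℓ)) := card_algHom_le_finrank _ _ _
    _ ≤ Nat.card (XX (N * ℓ)) := (Deg457.degree_fields (N * ℓ)).2

/-- an `FF N`-embedding agrees with `σ₁` on `ℚ̄(j)` -/
theorem algHom_eq_on_adjoin (τ : FF (N * ℓ) →ₐ[FF N] Om N ℓ) {f : FF (N * ℓ)}
    (hf : f ∈ IntermediateField.adjoin Kbar {jF (N * ℓ)}) :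
    τ f = incOm N ℓ (sig N ℓ 1 f) := by
  obtain ⟨c', rfl⟩ := exists_alpha_eq_of_mem_adjoin N ℓ hf
  exact τ.commutes c'

/-- **Classification.** Every `FF N`-embedding of `FF (N ℓ)` into `Ω` is `σ_{h⁻¹}` for some
`h ∈ Γ₀(N)`. -/
theorem exists_embOf_eq (τ : FF (N * ℓ) →ₐ[FF N] Om N ℓ) :
    ∃ (h : SL(2, ℤ)) (hh : h ∈ CongruenceSubgroup.Gamma0 N), τ = embOf N ℓ h hh := by
  -- view `τ` as a `ℚ̄(j)`-embedding
  let τK : FF (N * ℓ) →ₐ[Kj N ℓ] Om N ℓ :=
    { τ.toRingHom with
      commutes' := fun c => algHom_eq_on_adjoin N ℓ τ c.2 }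
  obtain ⟨x, hx⟩ := (embK_bijective N ℓ).2 τK
  obtain ⟨g, rfl⟩ := QuotientGroup.mk_surjective x
  have hτ : ∀ f : FF (N * ℓ), τ f = incOm N ℓ (sig N ℓ g f) := by
    intro f
    have h1 : τK f = τ f := rfl
    rw [← h1, ← hx, embK_apply, HolBase.sigmaX_mk]
    rfl
  -- `g⁻¹ ∈ Γ₀(N)`
  have hg : g⁻¹ ∈ CongruenceSubgroup.Gamma0 N := by
    have hNN : N ∣ N * ℓ := Dvd.intro ℓ rfl
    have h2 := hτ (heckeAlphaBar Kbar N ℓ (inclRN N (jR N N dvd_rfl)))
    have h3 : τ (heckeAlphaBar Kbar N ℓ (inclRN N (jR N N dvd_rfl)))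
        = incOm N ℓ (sig N ℓ 1 (heckeAlphaBar Kbar N ℓ (inclRN N (jR N N dvd_rfl)))) :=
      τ.commutes _
    rw [h3] at h2
    have h4 := incOm_injective N ℓ h2
    rw [alpha_inclRN_jR N ℓ N dvd_rfl hNN, sig_inclRN, sig_inclRN, HolBase.bridge_jR, inv_one,
      HolBase.compH_one] at h4
    have h5 := (holBase (N * ℓ)).qexp_injective h4
    apply Jd_distinct N
    intro t
    have h6 := congrArg (fun f : (holBase (N * ℓ)).Hol => (f : ℍ → ℂ) t) h5
    exact h6.symm
  refine ⟨g⁻¹, hg, ?_⟩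
  apply AlgHom.ext
  intro f
  rw [hτ f, embOf_apply, inv_inv]

/-! ### Generation of `FF (N ℓ)` by `α(FF N)` and `β(FF N)` -/

omit [NeZero ℓ] in
theorem dvd_cases {ℓ : ℕ} (hℓ : ℓ.Prime) {N d : ℕ} (hd : d ∣ N * ℓ) :
    d ∣ N ∨ ∃ d', d' ∣ N ∧ d = d' * ℓ := by
  by_cases hℓd : ℓ ∣ d
  · right
    obtain ⟨d', rfl⟩ := hℓd
    refine ⟨d', ?_, Nat.mul_comm _ _⟩
    rw [Nat.mul_comm N ℓ] at hd
    exact Nat.dvd_of_mul_dvd_mul_left hℓ.pos hd
  · left
    have hc : Nat.Coprime d ℓ := (Nat.coprime_comm.mp ((Nat.Prime.coprime_iff_not_dvd hℓ).mpr hℓd))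
    exact hc.dvd_of_dvd_mul_right hd

/-- Two ring homs out of `FF (N ℓ)` agreeing on `α(FF N)` and on `β(FF N)` are equal. -/
theorem ringHom_ext_alpha_beta (hℓ : ℓ.Prime) {E : Type*} [Field E]
    (f g : FF (N * ℓ) →+* E)
    (hα : ∀ y : FF N, f (heckeAlphaBar Kbar N ℓ y) = g (heckeAlphaBar Kbar N ℓ y))
    (hβ : ∀ y : FF N, f (heckeBetaBar Kbar N ℓ y) = g (heckeBetaBar Kbar N ℓ y)) : f = g := by
  apply ringHom_ext_FF (N * ℓ) f g
  · intro c
    have := hα (algebraMap Kbar (FF N) c)
    rwa [AlgHom.commutes] at this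
  · intro d hne hd
    rcases dvd_cases hℓ hd with hdN | ⟨d', hd', rfl⟩
    · rw [← alpha_inclRN_jR N ℓ d hdN hd]
      exact hα _
    · haveI : NeZero d' := ⟨fun h0 => hne.out (by rw [h0, Nat.zero_mul])⟩
      rw [← beta_inclRN_jR N ℓ d' hd' hd]
      exact hβ _

/-! ### The `ℓ + 1` embeddings -/

section Reps

variable (hℓ : ℓ.Prime) (hℓN : ¬ ℓ ∣ N)

include hℓ hℓN in
theorem coprime_N_ℓ : Nat.Coprime N ℓ :=
  Nat.coprime_comm.mp ((Nat.Prime.coprime_iff_not_dvd hℓ).mpr hℓN)

/-- a representative `h_b ∈ Γ₀(N)` with `(h_b)₁₁ ≡ b (h_b)₁₀ mod ℓ` -/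
def hrep (b : ℤ) : SL(2, ℤ) := Classical.choose (exists_rep (coprime_N_ℓ N ℓ hℓ hℓN) b)

theorem hrep_mem (b : ℤ) : hrep N ℓ hℓ hℓN b ∈ CongruenceSubgroup.Gamma0 N :=
  (Classical.choose_spec (exists_rep (coprime_N_ℓ N ℓ hℓ hℓN) b)).1

theorem hrep_dvd (b : ℤ) :
    (ℓ : ℤ) ∣ (hrep N ℓ hℓ hℓN b) 1 1 - b * (hrep N ℓ hℓ hℓN b) 1 0 :=
  (Classical.choose_spec (exists_rep (coprime_N_ℓ N ℓ hℓ hℓN) b)).2

/-- the `ℓ + 1` embeddings: `none ↦ σ₁`, `some b ↦ σ_{h_b⁻¹}` -/
def embList : Option (Fin ℓ) → (FF (N * ℓ) →ₐ[FF N] Om N ℓ)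
  | none => embOf N ℓ 1 (one_mem _)
  | some b => embOf N ℓ (hrep N ℓ hℓ hℓN (b : ℕ)) (hrep_mem N ℓ hℓ hℓN _)

theorem embList_none_beta (y : FF N) :
    embList N ℓ hℓ hℓN none (heckeBetaBar Kbar N ℓ y)
      = incOm N ℓ (HolBase.Φ (N * ℓ) (qExpand Kbar ℓ (y : LaurentSeries Kbar))) := by
  show incOm N ℓ (sig N ℓ 1⁻¹ (heckeBetaBar Kbar N ℓ y)) = _
  rw [inv_one, sig_one, coe_heckeBetaBar]

theorem embList_some_beta (b : Fin ℓ) (y : FF N) :
    embList N ℓ hℓ hℓN (some b) (heckeBetaBar Kbar N ℓ y)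
      = incOm N ℓ (qExpand ℂ N (infTwist (infRoot (b : ℕ) ℓ)
          (coeffMap ιK (y : LaurentSeries Kbar)))) := by
  show incOm N ℓ (sig N ℓ (hrep N ℓ hℓ hℓN (b : ℕ))⁻¹ (heckeBetaBar Kbar N ℓ y)) = _
  rw [sig_beta N ℓ (hrep_mem N ℓ hℓ hℓN _) (hrep_dvd N ℓ hℓ hℓN _)]

/-- the test element `j ∈ FF N` -/
def jTest : FF N := inclRN N (jR N 1 (one_dvd N))

theorem coe_jTest : ((jTest N : FF N) : LaurentSeries Kbar) = coeffEmb Kbar (qExpand ℚ 1 jq) :=
  rfl

theorem phi_beta_jTest_order :
    (HolBase.Φ (N * ℓ) (qExpand Kbar ℓ ((jTest N : FF N) : LaurentSeries Kbar))).order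
      = -(((N * ℓ * ℓ : ℕ)) : ℤ) := by
  rw [coe_jTest]
  show (qExpand ℂ (N * ℓ) (coeffMap ιK (qExpand Kbar ℓ
    (coeffEmb Kbar (qExpand ℚ 1 jq))))).order = _
  rw [coeffMap_qExpand, coeffMap_ιK_coeffEmb, coeffEmb, coeffMap_qExpand, inf_qExpand_order,
    inf_qExpand_order, inf_qExpand_order]
  have : coeffMap (algebraMap ℚ ℂ) jq = infJq := rfl
  rw [this, infJq_order]
  push_cast
  ring

theorem twist_jTest_eq (b : ℤ) :
    haveI : NeZero (1 * N) := ⟨by rw [one_mul]; exact NeZero.ne N⟩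
    qExpand ℂ N (infTwist (infRoot b ℓ) (coeffMap ιK ((jTest N : FF N) : LaurentSeries Kbar)))
      = infGenExp (1 * N) (((1 : ℕ) : ℤ) * b) ℓ := by
  rw [coe_jTest]
  exact (infGenExp_eq_twist N ℓ 1 b).symm

include hℓ in
theorem embList_injective : Function.Injective (embList N ℓ hℓ hℓN) := by
  haveI : NeZero (1 * N) := ⟨by rw [one_mul]; exact NeZero.ne N⟩
  have hℓ2 : 2 ≤ ℓ := hℓ.two_le
  have hN1 : 1 ≤ N := Nat.pos_of_ne_zero (NeZero.ne N)
  have key_ns : ∀ b : Fin ℓ, embList N ℓ hℓ hℓN none ≠ embList N ℓ hℓ hℓN (some b) := by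
    intro b hEq
    have h1 := congrArg (fun φ : FF (N * ℓ) →ₐ[FF N] Om N ℓ =>
      φ (heckeBetaBar Kbar N ℓ (jTest N))) hEq
    simp only [embList_none_beta, embList_some_beta] at h1
    have h2 := incOm_injective N ℓ h1
    have h3 := congrArg HahnSeries.order h2
    rw [phi_beta_jTest_order, twist_jTest_eq, infGenExp_order] at h3
    have h4 : N * ℓ * ℓ = 1 * N := by
      have : ((N * ℓ * ℓ : ℕ) : ℤ) = ((1 * N : ℕ) : ℤ) := by linarith
      exact_mod_cast this
    have h5 : N * 4 ≤ N * ℓ * ℓ := by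
      rw [Nat.mul_assoc]
      exact Nat.mul_le_mul_left N (Nat.mul_le_mul hℓ2 hℓ2)
    omega
  have key_ss : ∀ b b' : Fin ℓ, embList N ℓ hℓ hℓN (some b) = embList N ℓ hℓ hℓN (some b') →
      b = b' := by
    intro b b' hEq
    have h1 := congrArg (fun φ : FF (N * ℓ) →ₐ[FF N] Om N ℓ =>
      φ (heckeBetaBar Kbar N ℓ (jTest N))) hEq
    simp only [embList_some_beta] at h1
    have h2 := incOm_injective N ℓ h1
    rw [twist_jTest_eq, twist_jTest_eq] at h2
    have h3 := congrArg HahnSeries.leadingCoeff h2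
    rw [infGenExp_leadingCoeff, infGenExp_leadingCoeff] at h3
    have h4 : infRoot (((1 : ℕ) : ℤ) * ((b : ℕ) : ℤ)) ℓ = infRoot (((1 : ℕ) : ℤ) * ((b' : ℕ) : ℤ)) ℓ :=
      inv_injective (Units.val_inj.mp h3)
    obtain ⟨k, hk⟩ := (infRoot_eq_iff hℓ.pos).mp h4
    have hb := b.2
    have hb' := b'.2
    apply Fin.ext
    have h5 : ((b : ℕ) : ℤ) - ((b' : ℕ) : ℤ) = ℓ * k := by
      simp only [Nat.cast_one, one_mul] at hk
      exact hk
    have hk0 : k = 0 := by
      by_contra hne
      rcases lt_or_gt_of_ne hne with hlt | hgt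
      · have : (ℓ : ℤ) * k ≤ ℓ * (-1) :=
          mul_le_mul_of_nonneg_left (by omega) (by positivity)
        have h6 : ((b : ℕ) : ℤ) < ℓ := by exact_mod_cast hb
        have h7 : (0 : ℤ) ≤ ((b : ℕ) : ℤ) := by positivity
        have h8 : ((b' : ℕ) : ℤ) < ℓ := by exact_mod_cast hb'
        linarith
      · have : (ℓ : ℤ) * 1 ≤ ℓ * k :=
          mul_le_mul_of_nonneg_left (by omega) (by positivity)
        have h6 : ((b : ℕ) : ℤ) < ℓ := by exact_mod_cast hb
        have h7 : (0 : ℤ) ≤ ((b' : ℕ) : ℤ) := by positivity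
        linarith
    rw [hk0, mul_zero] at h5
    have : ((b : ℕ) : ℤ) = ((b' : ℕ) : ℤ) := by linarith
    exact_mod_cast this
  intro o o' hEq
  rcases o with _ | b <;> rcases o' with _ | b'
  · rfl
  · exact absurd hEq (key_ns b')
  · exact absurd hEq.symm (key_ns b)
  · rw [key_ss b b' hEq]

include hℓ in
theorem embList_surjective : Function.Surjective (embList N ℓ hℓ hℓN) := by
  intro τ
  obtain ⟨h, hh, rfl⟩ := exists_embOf_eq N ℓ τ
  rcases dvd_or_exists_b hℓ h with hd | ⟨b, hb⟩
  · -- `h ∈ Γ₀(N ℓ)`, so `σ_{h⁻¹} = σ₁`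
    refine ⟨none, ?_⟩
    have hM : h ∈ CongruenceSubgroup.Gamma0 (N * ℓ) :=
      mem_gamma0_mul (coprime_N_ℓ N ℓ hℓ hℓN) hh hd
    have e : sig N ℓ h⁻¹ = sig N ℓ (1 : SL(2, ℤ))⁻¹ := by
      have := (holBase (N * ℓ)).sigmaG_mul_of_mem (holBase (N * ℓ)).qexpExpansion 1
        (inv_mem hM)
      rw [one_mul] at this
      rw [inv_one]
      exact this
    apply AlgHom.ext
    intro f
    show incOm N ℓ (sig N ℓ (1 : SL(2, ℤ))⁻¹ f) = incOm N ℓ (sig N ℓ h⁻¹ f)
    rw [e]
  · -- `σ_{h⁻¹} = σ_{h_{b₀}⁻¹}` with `b₀ = b mod ℓ`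
    have hℓpos : (0 : ℤ) < ℓ := by exact_mod_cast hℓ.pos
    have hb0 : 0 ≤ b % (ℓ : ℤ) := Int.emod_nonneg b hℓpos.ne'
    have hb1 : b % (ℓ : ℤ) < ℓ := Int.emod_lt_of_pos b hℓpos
    let b₀ : Fin ℓ := ⟨(b % (ℓ : ℤ)).toNat, by
      have := hb1
      omega⟩
    have hb₀ : ((b₀ : ℕ) : ℤ) = b % (ℓ : ℤ) := Int.toNat_of_nonneg hb0
    refine ⟨some b₀, ?_⟩
    have e : sig N ℓ (hrep N ℓ hℓ hℓN ((b₀ : ℕ) : ℤ))⁻¹ = sig N ℓ h⁻¹ := by
      apply ringHom_ext_alpha_beta N ℓ hℓ
      · intro y
        rw [sig_alpha N ℓ (hrep_mem N ℓ hℓ hℓN _), sig_alpha N ℓ hh]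
      · intro y
        rw [sig_beta N ℓ (hrep_mem N ℓ hℓ hℓN _) (hrep_dvd N ℓ hℓ hℓN _), sig_beta N ℓ hh hb]
        have : infRoot ((b₀ : ℕ) : ℤ) ℓ = infRoot b ℓ := by
          rw [infRoot_eq_iff hℓ.pos, hb₀]
          exact ⟨-(b / (ℓ : ℤ)), by linarith [Int.emod_add_mul_ediv b ℓ]⟩
        rw [this]
    apply AlgHom.ext
    intro f
    show incOm N ℓ (sig N ℓ (hrep N ℓ hℓ hℓN ((b₀ : ℕ) : ℤ))⁻¹ f) = incOm N ℓ (sig N ℓ h⁻¹ f)
    rw [e]

include hℓ in
theorem embList_bijective : Function.Bijective (embList N ℓ hℓ hℓN) :=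
  ⟨embList_injective N ℓ hℓ hℓN, embList_surjective N ℓ hℓ hℓN⟩

end Reps

end Fermat.Agent.S37.H819

end
end
-- ===== PACK-END S37/H819/Enum.lean

-- ===== PACK-BEGIN S37/H819/Norm.lean
section


/-!
# S37 / NORM (helper819) — the norm of `β y` over `α(FF N)` is the Kronecker product

Main results (`K = ℚ̄`, `ℓ` prime, `ℓ ∤ N`, `α = heckeAlphaBar`, `β = heckeBetaBar`,
`FF N = ℚ̄(j(q^d) : d ∣ N) ⊆ ℚ̄((q))`, the norm is taken for the Prelude algebra structure
`algebraAlong α` on `FF (N ℓ)`):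

* `norm_heckeBeta` :
  `V_ℓ (Nm_α (β y)) = V_{ℓ²} y * ∏_{b < ℓ} y(ζ^b u)`   in `ℚ̄((u))`, `u = q^{1/ℓ}`,
  i.e. `Nm_α(β y)(q) = y(q^ℓ) ∏_b y(ζ^b q^{1/ℓ})`, for any primitive `ℓ`-th root of unity `ζ`.
-/

set_option autoImplicit false

noncomputable section

open ModularCurve HahnSeries UpperHalfPlane AlgebraicCurve
open scoped MatrixGroups

namespace Fermat.Agent.S37.H819

open Fermat.Agent.S24 Fermat.Agent.S24.H997

variable (N ℓ : ℕ) [NeZero N] [NeZero ℓ]

section Internal

attribute [local instance] instAlgAlpha instAlgOm instFiniteAlpha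

/-- The norm formula over `ℂ((z))`, `z = q^{1/(N ℓ)}`. -/
theorem norm_complex (hℓ : ℓ.Prime) (hℓN : ¬ ℓ ∣ N) (y : FF N) :
    HolBase.Φ (N * ℓ)
        ((Algebra.norm (FF N) (heckeBetaBar Kbar N ℓ y) : FF N) : LaurentSeries Kbar)
      = HolBase.Φ (N * ℓ) (qExpand Kbar ℓ (y : LaurentSeries Kbar))
        * ∏ b : Fin ℓ, qExpand ℂ N (infTwist (infRoot ((b : ℕ) : ℤ) ℓ)
            (coeffMap ιK (y : LaurentSeries Kbar))) := by
  have h := Algebra.norm_eq_prod_embeddings (FF N) (Om N ℓ) (heckeBetaBar Kbar N ℓ y)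
  rw [algebraMap_Om, sig_one, coe_heckeAlphaBar] at h
  have he := embList_bijective N ℓ hℓ hℓN
  rw [← he.prod_comp (fun σ : FF (N * ℓ) →ₐ[FF N] Om N ℓ => σ (heckeBetaBar Kbar N ℓ y)),
    Fintype.prod_option, embList_none_beta] at h
  simp only [embList_some_beta] at h
  rw [← map_prod, ← map_mul] at h
  exact incOm_injective N ℓ h

/-- Products over the powers of a primitive root do not depend on the primitive root. -/
theorem prod_range_pow_primitive {R M : Type*} [CommRing R] [IsDomain R] [CommMonoid M] {n : ℕ}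
    {ω ε : R} (hω : IsPrimitiveRoot ω n) (hε : IsPrimitiveRoot ε n) (T : R → M) :
    ∏ b ∈ Finset.range n, T (ω ^ b) = ∏ b ∈ Finset.range n, T (ε ^ b) := by
  classical
  rcases Nat.eq_zero_or_pos n with rfl | hn
  · simp
  have key : ∀ {ξ : R}, IsPrimitiveRoot ξ n →
      ∏ b ∈ Finset.range n, T (ξ ^ b) = ∏ u ∈ Polynomial.nthRootsFinset n (1 : R), T u := by
    intro ξ hξ
    have himg : (Finset.range n).image (fun b => ξ ^ b) = Polynomial.nthRootsFinset n (1 : R) := by
      apply Finset.eq_of_subset_of_card_le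
      · intro u hu
        obtain ⟨b, -, rfl⟩ := Finset.mem_image.mp hu
        rw [Polynomial.mem_nthRootsFinset hn, ← pow_mul, mul_comm, pow_mul, hξ.pow_eq_one, one_pow]
      · rw [hξ.card_nthRootsFinset, Finset.card_image_of_injOn hξ.injOn_pow, Finset.card_range]
    rw [← himg, Finset.prod_image]
    intro a ha b hb hab
    exact hξ.injOn_pow ha hb hab
  rw [key hω, key hε]

omit [NeZero N] in
theorem coe_infRoot_one_isPrimitiveRoot : IsPrimitiveRoot ((infRoot 1 ℓ : ℂˣ) : ℂ) ℓ := by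
  have h := Complex.isPrimitiveRoot_exp ℓ (NeZero.ne ℓ)
  have e : ((infRoot 1 ℓ : ℂˣ) : ℂ) = Complex.exp (2 * Real.pi * Complex.I / ℓ) := by
    rw [infRoot_coe]
    congr 1
    push_cast
    ring
  rw [e]
  exact h

/-- `Φ_N ∘ V_ℓ = Φ_{N ℓ}` -/
theorem Φ_qExpand (x : LaurentSeries Kbar) :
    HolBase.Φ N (qExpand Kbar ℓ x) = HolBase.Φ (N * ℓ) x := by
  show qExpand ℂ N (coeffMap ιK (qExpand Kbar ℓ x)) = qExpand ℂ (N * ℓ) (coeffMap ιK x)
  rw [coeffMap_qExpand, qExpand_qExpand]

/-- **The norm of `β y` over `α(FF N)`** (Kronecker product formula): for `ℓ ∤ N` prime and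
any primitive `ℓ`-th root of unity `ζ ∈ ℚ̄`,
`Nm(β y)(u^ℓ) = y(u^{ℓ²}) · ∏_{b<ℓ} y(ζ^b u)`. -/
theorem norm_heckeBeta_aux (hℓ : ℓ.Prime) (hℓN : ¬ ℓ ∣ N) (ζ : Kbarˣ)
    (hζ : IsPrimitiveRoot (ζ : Kbar) ℓ) (y : FF N) :
    qExpand Kbar ℓ
        ((Algebra.norm (FF N) (heckeBetaBar Kbar N ℓ y) : FF N) : LaurentSeries Kbar)
      = qExpand Kbar (ℓ * ℓ) (y : LaurentSeries Kbar)
        * ∏ b ∈ Finset.range ℓ, infTwist (ζ ^ b) (y : LaurentSeries Kbar) := by
  apply HolBase.Φ_injective (N := N)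
  have e2 : HolBase.Φ N (qExpand Kbar (ℓ * ℓ) (y : LaurentSeries Kbar))
      = HolBase.Φ (N * ℓ) (qExpand Kbar ℓ (y : LaurentSeries Kbar)) := by
    rw [← Φ_qExpand, qExpand_qExpand]
  rw [map_mul, map_prod, Φ_qExpand, norm_complex N ℓ hℓ hℓN y, e2]
  congr 1
  rw [Fin.prod_univ_eq_prod_range (fun b : ℕ => qExpand ℂ N (infTwist (infRoot ((b : ℕ) : ℤ) ℓ)
    (coeffMap ιK (y : LaurentSeries Kbar)))) ℓ]
  -- both sides are products of `T (ξ ^ b)`
  let T : ℂ → LaurentSeries ℂ := fun u =>
    if h : u = 0 then 1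
    else qExpand ℂ N (infTwist (Units.mk0 u h) (coeffMap ιK (y : LaurentSeries Kbar)))
  have hT : ∀ v : ℂˣ, T (v : ℂ)
      = qExpand ℂ N (infTwist v (coeffMap ιK (y : LaurentSeries Kbar))) := by
    intro v
    simp only [T]
    rw [dif_neg v.ne_zero]
    congr 3
    exact Units.ext rfl
  have hε := coe_infRoot_one_isPrimitiveRoot ℓ
  have hω : IsPrimitiveRoot (ιK (ζ : Kbar)) ℓ := hζ.map_of_injective ιK_injective
  have hL : ∀ b ∈ Finset.range ℓ,
      qExpand ℂ N (infTwist (infRoot ((b : ℕ) : ℤ) ℓ) (coeffMap ιK (y : LaurentSeries Kbar)))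
        = T (((infRoot 1 ℓ : ℂˣ) : ℂ) ^ b) := by
    intro b _
    rw [← Units.val_pow_eq_pow_val, hT, infRoot_pow, mul_one]
  have hR : ∀ b ∈ Finset.range ℓ,
      HolBase.Φ N (infTwist (ζ ^ b) (y : LaurentSeries Kbar)) = T ((ιK (ζ : Kbar)) ^ b) := by
    intro b _
    have e : (ιK (ζ : Kbar)) ^ b = ((Units.map (ιK : Kbar →* ℂ) (ζ ^ b) : ℂˣ) : ℂ) := by
      simp
    rw [e, hT]
    show qExpand ℂ N (coeffMap ιK (infTwist (ζ ^ b) (y : LaurentSeries Kbar))) = _
    rw [coeffMap_infTwist]
  rw [Finset.prod_congr rfl hL, Finset.prod_congr rfl hR]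
  exact prod_range_pow_primitive hε hω T

/-- the degree of `FF (N ℓ)` over `α(FF N)` is `ℓ + 1` -/
theorem finrank_alpha_aux (hℓ : ℓ.Prime) (hℓN : ¬ ℓ ∣ N) :
    Module.finrank (FF N) (FF (N * ℓ)) = ℓ + 1 := by
  rw [← AlgHom.card (FF N) (FF (N * ℓ)) (Om N ℓ),
    ← Fintype.card_of_bijective (embList_bijective N ℓ hℓ hℓN)]
  simp

omit [NeZero N] in
theorem coe_sub_FF (a b : FF N) :
    ((a - b : FF N) : LaurentSeries Kbar) = (a : LaurentSeries Kbar) - (b : LaurentSeries Kbar) :=
  rfl

set_option maxHeartbeats 1000000 in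
set_option synthInstance.maxHeartbeats 200000 in
/-- the characteristic polynomial of `β y` over `α(FF N)` is the Kronecker polynomial -/
theorem charpoly_heckeBeta_aux (hℓ : ℓ.Prime) (hℓN : ¬ ℓ ∣ N) (ζ : Kbarˣ)
    (hζ : IsPrimitiveRoot (ζ : Kbar) ℓ) (y : FF N) :
    (((Algebra.lmul (FF N) (FF (N * ℓ)) (heckeBetaBar Kbar N ℓ y)).charpoly.map
        (coeHom N)).map (qExpand Kbar ℓ))
      = (Polynomial.X - Polynomial.C (qExpand Kbar (ℓ * ℓ) (y : LaurentSeries Kbar)))
        * ∏ b ∈ Finset.range ℓ,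
            (Polynomial.X - Polynomial.C (infTwist (ζ ^ b) (y : LaurentSeries Kbar))) := by
  apply Polynomial.eq_of_infinite_eval_eq
  refine Set.infinite_of_injective_forall_mem
    (f := fun c : Kbar => algebraMap Kbar (LaurentSeries Kbar) c)
    (algebraMap Kbar (LaurentSeries Kbar)).injective ?_
  intro c
  show Polynomial.eval _ _ = Polynomial.eval _ _
  -- the constant `c` as an element of `FF N`
  set t : FF N := algebraMap Kbar (FF N) c with ht
  have hc : algebraMap Kbar (LaurentSeries Kbar) c = qExpand Kbar ℓ (coeHom N t) := by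
    rw [coeHom_apply, ht, coe_algebraMap_FF, algebraMap_laurentSeries_eq_single, qExpand_single,
      mul_zero]
  -- left side
  have hL : Polynomial.eval (algebraMap Kbar (LaurentSeries Kbar) c)
      (((Algebra.lmul (FF N) (FF (N * ℓ)) (heckeBetaBar Kbar N ℓ y)).charpoly.map
        (coeHom N)).map (qExpand Kbar ℓ))
      = qExpand Kbar ℓ ((Algebra.norm (FF N)
          (heckeBetaBar Kbar N ℓ (t - y)) : FF N) : LaurentSeries Kbar) := by
    rw [hc, Polynomial.eval_map, Polynomial.eval₂_hom, Polynomial.eval_map,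
      Polynomial.eval₂_hom, LinearMap.eval_charpoly, coeHom_apply]
    congr 2
    rw [Algebra.norm_apply]
    congr 1
    rw [map_sub, map_sub]
    congr 1
    refine LinearMap.ext fun z => ?_
    show heckeAlphaBar Kbar N ℓ t * z = heckeBetaBar Kbar N ℓ t * z
    rw [ht, AlgHom.commutes, AlgHom.commutes]
  rw [hL, norm_heckeBeta_aux N ℓ hℓ hℓN ζ hζ (t - y)]
  have hsub : ((t - y : FF N) : LaurentSeries Kbar)
      = algebraMap Kbar (LaurentSeries Kbar) c - (y : LaurentSeries Kbar) := by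
    rw [coe_sub_FF, ht, coe_algebraMap_FF]
  have hV : ∀ (n : ℕ) [NeZero n], qExpand Kbar n (algebraMap Kbar (LaurentSeries Kbar) c)
      = algebraMap Kbar (LaurentSeries Kbar) c := by
    intro n _
    rw [algebraMap_laurentSeries_eq_single, qExpand_single, mul_zero]
  have hT : ∀ u : Kbarˣ, infTwist u (algebraMap Kbar (LaurentSeries Kbar) c)
      = algebraMap Kbar (LaurentSeries Kbar) c := by
    intro u
    rw [algebraMap_laurentSeries_eq_single, infTwist_single]
    simp
  rw [hsub, map_sub, hV, Polynomial.eval_mul, Polynomial.eval_sub, Polynomial.eval_X,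
    Polynomial.eval_C, Polynomial.eval_prod]
  congr 1
  refine Finset.prod_congr rfl fun b _ => ?_
  rw [map_sub, hT, Polynomial.eval_sub, Polynomial.eval_X, Polynomial.eval_C]

end Internal

/-! ### Public statements (with the Prelude's `algebraAlong`) -/

/-- `FF (N ℓ)` is a finite extension of `α(FF N)`: the Prelude's `FiniteAlong`. -/
theorem finiteAlong_heckeAlphaBar :
    FiniteAlong Kbar (heckeAlphaBar Kbar N ℓ) :=
  finite_alpha N ℓ

/-- `[FF (N ℓ) : α(FF N)] = ℓ + 1` for a prime `ℓ ∤ N`. -/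
theorem finrankAlong_heckeAlphaBar (hℓ : ℓ.Prime) (hℓN : ¬ ℓ ∣ N) :
    finrankAlong Kbar (heckeAlphaBar Kbar N ℓ) = ℓ + 1 :=
  finrank_alpha_aux N ℓ hℓ hℓN

/-- **NORM.** For a prime `ℓ ∤ N`, a primitive `ℓ`-th root of unity `ζ ∈ ℚ̄` and `y ∈ FF N`:
`Nm_{FF(Nℓ)/α(FF N)}(β y)(u^ℓ) = y(u^{ℓ²}) · ∏_{b<ℓ} y(ζ^b u)` in `ℚ̄((u))`. -/
theorem norm_heckeBeta (hℓ : ℓ.Prime) (hℓN : ¬ ℓ ∣ N) (ζ : Kbarˣ)
    (hζ : IsPrimitiveRoot (ζ : Kbar) ℓ) (y : FF N) :
    letI := algebraAlong (heckeAlphaBar Kbar N ℓ)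
    qExpand Kbar ℓ
        ((Algebra.norm (FF N) (heckeBetaBar Kbar N ℓ y) : FF N) : LaurentSeries Kbar)
      = qExpand Kbar (ℓ * ℓ) (y : LaurentSeries Kbar)
        * ∏ b ∈ Finset.range ℓ, infTwist (ζ ^ b) (y : LaurentSeries Kbar) :=
  norm_heckeBeta_aux N ℓ hℓ hℓN ζ hζ y

set_option maxHeartbeats 1000000 in
set_option synthInstance.maxHeartbeats 200000 in
/-- **CHARPOLY.** The characteristic polynomial of `β y` over `α(FF N)` is the Kronecker
polynomial `(X - y(q^ℓ)) ∏_b (X - y(ζ^b q^{1/ℓ}))` (written in `u = q^{1/ℓ}`). -/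
theorem charpoly_heckeBeta (hℓ : ℓ.Prime) (hℓN : ¬ ℓ ∣ N) (ζ : Kbarˣ)
    (hζ : IsPrimitiveRoot (ζ : Kbar) ℓ) (y : FF N) :
    letI := algebraAlong (heckeAlphaBar Kbar N ℓ)
    haveI : Module.Finite (FF N) (FF (N * ℓ)) := finiteAlong_heckeAlphaBar N ℓ
    (((Algebra.lmul (FF N) (FF (N * ℓ)) (heckeBetaBar Kbar N ℓ y)).charpoly.map
        (coeHom N)).map (qExpand Kbar ℓ))
      = (Polynomial.X - Polynomial.C (qExpand Kbar (ℓ * ℓ) (y : LaurentSeries Kbar)))
        * ∏ b ∈ Finset.range ℓ,
            (Polynomial.X - Polynomial.C (infTwist (ζ ^ b) (y : LaurentSeries Kbar))) :=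
  charpoly_heckeBeta_aux N ℓ hℓ hℓN ζ hζ y

end Fermat.Agent.S37.H819

end
end
-- ===== PACK-END S37/H819/Norm.lean

-- ===== PACK-BEGIN S37/H628/E2Degree.lean
section






/-!
# S37 / RED-E2 (helper628): the four (H1) fields of `Red.Datum.Good` for the modular datum

`Red.Datum.Good` (helper40, `Fermat/Agent/S37/Red/Spec.lean`) asks for
* `finite     : FiniteDimensional K⟮G.x⟯ F`
* `finite_k   : FiniteDimensional k⟮G.xk⟯ Fk`
* `sep_k      : Algebra.IsSeparable k⟮G.xk⟯ Fk`
* `finrank_eq : Module.finrank K⟮G.x⟯ F = Module.finrank k⟮G.xk⟯ Fk`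

Here they are proved for `F = ℚ̄(X₀(N))`, `F_k = k(j(q^d) : d ∣ N)`, `k = A/𝔪`, `A` over `ℓ ∤ N`,
for ANY coordinate whose `q`-expansion is `j` (`jqModC`), so that they plug into any construction
of the datum with `x = j`:

* general field `k` with the primes of `N` invertible:
  `finrank_adjoin_fullC`, `finiteDimensional_adjoin_fullC`, `isSeparable_adjoin_fullC`;
* `ℚ̄`: `finrank_adjoin_bar`, `finiteDimensional_adjoin_bar`;
* `good_H1` : the four fields at once for a `Red.Datum` with `G.x = j`, `G.xk = j̄`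
  (hypotheses on the `q`-expansions of `G.x` and `G.xk` only).
Both degrees are `ψ(N)` (S28 degree theory, helper988/helper867); separability is helper264's
`algebra_isSeparable_full`.
-/

set_option autoImplicit false
set_option synthInstance.maxHeartbeats 400000
set_option linter.style.haveILetI false
set_option linter.unusedSectionVars false

noncomputable section

namespace Fermat.Agent.S37.H628

open ModularCurve IntermediateField AlgebraicCurve

section General

variable {K L : Type*} [Field K] [Field L] [Algebra K L]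

/-- the subfield `K(x)` of the field `↥E` corresponds to the subfield `K(x)` of the ambient
field -/
theorem comap_val_adjoin_singleton (E : IntermediateField K L) (x : E) :
    (K⟮(x : L)⟯).comap E.val = K⟮x⟯ := by
  have h1 : (K⟮x⟯).map E.val = K⟮(x : L)⟯ := by
    rw [adjoin_map, Set.image_singleton]
    rfl
  rw [← h1]
  exact comap_map _ _

/-- degree of `↥E` over `K(x)` as a relative degree in the ambient field -/
theorem finrank_adjoin_subtype_eq_relfinrank (E : IntermediateField K L) (x : E) :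
    Module.finrank K⟮x⟯ E = (K⟮(x : L)⟯).relfinrank E := by
  have h1 := relfinrank_comap (K⟮(x : L)⟯) E.val ⊤
  rw [relfinrank_top_right, ← AlgHom.fieldRange_eq_map, fieldRange_val,
    comap_val_adjoin_singleton] at h1
  exact h1

/-- the same for an element given by its value in the ambient field -/
theorem finrank_adjoin_subtype_eq_relfinrank' (E : IntermediateField K L) (x : E) {y : L}
    (hxy : (x : L) = y) : Module.finrank K⟮x⟯ E = (K⟮y⟯).relfinrank E := by
  rw [finrank_adjoin_subtype_eq_relfinrank, hxy]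

end General

section AnyField

variable (k : Type*) [Field k] (N : ℕ) [NeZero N]

/-- **degree**: `[F_{N,k} : k(x)] = ψ(N)` for every `x ∈ F_{N,k}` with `q`-expansion `j`. -/
theorem finrank_adjoin_fullC (hchar : ∀ p : ℕ, p.Prime → p ∣ N → (p : k) ≠ 0)
    (x : modularFunctionFieldFullC k N) (hx : (x : LaurentSeries k) = jqModC k) :
    Module.finrank k⟮x⟯ (modularFunctionFieldFullC k N) = dedekindPsi N := by
  rw [finrank_adjoin_subtype_eq_relfinrank' _ x hx]
  exact Fermat.Agent.S28.H988.relfinrank_jField_full_eq k N (NeZero.ne N) hchar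

/-- **finiteness** of `F_{N,k}` over `k(x)`. -/
theorem finiteDimensional_adjoin_fullC (hchar : ∀ p : ℕ, p.Prime → p ∣ N → (p : k) ≠ 0)
    (x : modularFunctionFieldFullC k N) (hx : (x : LaurentSeries k) = jqModC k) :
    FiniteDimensional k⟮x⟯ (modularFunctionFieldFullC k N) := by
  apply Module.finite_of_finrank_pos
  rw [finrank_adjoin_fullC k N hchar x hx]
  exact Fermat.Agent.S28.H988.dedekindPsi_pos N (NeZero.ne N)

/-- **separability** of `F_{N,k}` over `k(x)`, `k` perfect of characteristic `p`. -/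
theorem isSeparable_adjoin_fullC [PerfectField k] (p : ℕ) [Fact p.Prime] [CharP k p]
    (hchar : ∀ r : ℕ, r.Prime → r ∣ N → (r : k) ≠ 0)
    (x : modularFunctionFieldFullC k N) (hx : (x : LaurentSeries k) = jqModC k) :
    Algebra.IsSeparable k⟮x⟯ (modularFunctionFieldFullC k N) := by
  have hx' : x = (⟨jqModC k, jqModC_mem_full k N⟩ : modularFunctionFieldFullC k N) :=
    Subtype.ext hx
  subst hx'
  haveI := finiteDimensional_adjoin_fullC k N hchar
    (⟨jqModC k, jqModC_mem_full k N⟩ : modularFunctionFieldFullC k N) rfl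
  exact Fermat.Agent.S18.H264.algebra_isSeparable_full k p N

end AnyField

section Bar

variable (N : ℕ) [NeZero N]

/-- **degree**: `[ℚ̄(X₀(N)) : ℚ̄(x)] = ψ(N)` for every `x` with `q`-expansion `j`. -/
theorem finrank_adjoin_bar (x : modularFunctionFieldBar N)
    (hx : (x : LaurentSeries (AlgebraicClosure ℚ)) = jqModC (AlgebraicClosure ℚ)) :
    Module.finrank (AlgebraicClosure ℚ)⟮x⟯ (modularFunctionFieldBar N) = dedekindPsi N := by
  rw [finrank_adjoin_subtype_eq_relfinrank' _ x hx]
  exact Fermat.Agent.S28.H988.relfinrank_jField_bar_eq N (NeZero.ne N)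

/-- **finiteness** of `ℚ̄(X₀(N))` over `ℚ̄(x)`. -/
theorem finiteDimensional_adjoin_bar (x : modularFunctionFieldBar N)
    (hx : (x : LaurentSeries (AlgebraicClosure ℚ)) = jqModC (AlgebraicClosure ℚ)) :
    FiniteDimensional (AlgebraicClosure ℚ)⟮x⟯ (modularFunctionFieldBar N) := by
  apply Module.finite_of_finrank_pos
  rw [finrank_adjoin_bar N x hx]
  exact Fermat.Agent.S28.H988.dedekindPsi_pos N (NeZero.ne N)

end Bar

section Residue

variable (N : ℕ) [NeZero N] {ℓ : ℕ} (hℓ : ℓ.Prime) (hℓN : ¬ ℓ ∣ N)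
  (A : ValuationSubring (AlgebraicClosure ℚ)) (hA : A.LiesOverPrime ℓ)

include hℓ hℓN hA in
/-- the primes dividing `N` are invertible in the residue field of `A` -/
theorem natCast_ne_zero_residueField (p : ℕ) (hp : p.Prime) (hpN : p ∣ N) :
    ((p : ℕ) : IsLocalRing.ResidueField A) ≠ 0 := by
  haveI : CharP (IsLocalRing.ResidueField A) ℓ :=
    Fermat.Agent.S37.H448.charP_residueField_of_liesOverPrime hℓ A hA
  intro h
  rw [CharP.cast_eq_zero_iff (IsLocalRing.ResidueField A) ℓ] at h
  have : ℓ = p := (Nat.prime_dvd_prime_iff_eq hℓ hp).mp h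
  exact hℓN (this ▸ hpN)

include hℓ hℓN hA in
/-- **RED-E2**: the four (H1) fields of `Red.Datum.Good` for every reduction datum on
`(ℚ̄(X₀(N)), F_{N,k})` whose coordinate is `j`. -/
theorem good_H1 (G : Red.Datum A (IsLocalRing.residue A) (Red.FN N) (Red.FNk A N))
    (hx : ((G.x : Red.FN N) : LaurentSeries (AlgebraicClosure ℚ)) =
      jqModC (AlgebraicClosure ℚ))
    (hxk : ((G.xk : Red.FNk A N) : LaurentSeries (IsLocalRing.ResidueField A)) =
      jqModC (IsLocalRing.ResidueField A)) :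
    FiniteDimensional (AlgebraicClosure ℚ)⟮G.x⟯ (Red.FN N) ∧
      FiniteDimensional (IsLocalRing.ResidueField A)⟮G.xk⟯ (Red.FNk A N) ∧
      Algebra.IsSeparable (IsLocalRing.ResidueField A)⟮G.xk⟯ (Red.FNk A N) ∧
      Module.finrank (AlgebraicClosure ℚ)⟮G.x⟯ (Red.FN N) =
        Module.finrank (IsLocalRing.ResidueField A)⟮G.xk⟯ (Red.FNk A N) := by
  have hchar := natCast_ne_zero_residueField N hℓ hℓN A hA
  haveI : Fact ℓ.Prime := ⟨hℓ⟩
  haveI : CharP (IsLocalRing.ResidueField A) ℓ :=
    Fermat.Agent.S37.H448.charP_residueField_of_liesOverPrime hℓ A hA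
  haveI : IsAlgClosed (IsLocalRing.ResidueField A) :=
    Fermat.Agent.S18.H9.resAlgClosed (AlgebraicClosure ℚ) A
  refine ⟨finiteDimensional_adjoin_bar N G.x hx,
    finiteDimensional_adjoin_fullC _ N hchar G.xk hxk,
    isSeparable_adjoin_fullC _ N ℓ hchar G.xk hxk, ?_⟩
  rw [finrank_adjoin_bar N G.x hx]
  exact (finrank_adjoin_fullC _ N hchar G.xk hxk).symm

end Residue

end Fermat.Agent.S37.H628

end
end
-- ===== PACK-END S37/H628/E2Degree.lean

-- ===== PACK-BEGIN S37/H339/LeafH1.lean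
section





/-!
# S37 BOARD v3, leaf D4 = `Board3.leaf_H1` (helper339)

The four (H1) fields of `Red.Datum.Good` (finite, finite_k, sep_k, finrank_eq) for ANY reduction
datum on `(F_M, F_{M,k})` whose coordinate is an admissible coordinate `x` (`Mod.IsCoordinate`):
`x = j` (`ℓ ≥ 5`), `x = t₂` (`ℓ = 3`, `j x² = (x + 256)³`), `x = t₃` (`ℓ = 2`,
`j x³ = (x + 27)(x + 243)³`), with integral model `X ∈ ℤ((q))`.

`leaf_H1` is the statement of `Board3.leaf_H1` (origin/helper37 `Core/Skeleton4.lean`) with the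
structure `IsModelOf M x X` replaced by its two fields `coeff_neg_one`, `coe_eq` that are used:
apply it as `H339.leaf_H1 M ℓ hℓ hℓM A hA x S hx X hX.coeff_neg_one hX.coe_eq G hGx hGxk`.

Proof: tower law over `K(j)`; `[K(t₂) : K(j)] = 3`, `[K(t₃) : K(j)] = 4` in characteristic `0`
AND in characteristic `ℓ` (`RatTower.lean`), `[F : K(j)] = ψ(M)` on both sides (`S37.H628`).
-/

set_option autoImplicit false
set_option synthInstance.maxHeartbeats 400000

noncomputable section

namespace Fermat.Agent.S37.H339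

/-! ### the two rational functions -/

section Polys

open Polynomial

variable (K : Type*) [Field K]

/-- numerator of `j` as a function of `t₂` -/
def numTwo : K[X] := (X + C 256) ^ 3
/-- denominator of `j` as a function of `t₂` -/
def denTwo : K[X] := X ^ 2
/-- numerator of `j` as a function of `t₃` -/
def numThree : K[X] := (X + C 27) * (X + C 243) ^ 3
/-- denominator of `j` as a function of `t₃` -/
def denThree : K[X] := X ^ 3

theorem natDegree_numTwo : (numTwo K).natDegree = 3 := by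
  rw [numTwo, natDegree_pow, natDegree_X_add_C]

theorem natDegree_denTwo : (denTwo K).natDegree = 2 := by
  rw [denTwo, natDegree_X_pow]

theorem natDegree_numThree : (numThree K).natDegree = 4 := by
  rw [numThree, natDegree_mul (X_add_C_ne_zero _) (pow_ne_zero _ (X_add_C_ne_zero _)),
    natDegree_pow, natDegree_X_add_C, natDegree_X_add_C]

theorem natDegree_denThree : (denThree K).natDegree = 3 := by
  rw [denThree, natDegree_X_pow]

theorem denTwo_ne_zero : denTwo K ≠ 0 := pow_ne_zero _ X_ne_zero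

theorem denThree_ne_zero : denThree K ≠ 0 := pow_ne_zero _ X_ne_zero

variable {K}

theorem isCoprime_X_add_C_X {a : K} (ha : a ≠ 0) : IsCoprime (X + C a : K[X]) X := by
  refine ⟨C a⁻¹, - C a⁻¹, ?_⟩
  have : C a⁻¹ * C a = (1 : K[X]) := by rw [← C_mul, inv_mul_cancel₀ ha, C_1]
  linear_combination this

theorem isCoprime_two (h : (2 : K) ≠ 0) : IsCoprime (numTwo K) (denTwo K) := by
  have h256 : (256 : K) ≠ 0 := by
    have : (256 : K) = 2 ^ 8 := by norm_num
    rw [this]
    exact pow_ne_zero _ h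
  exact ((isCoprime_X_add_C_X h256).pow_left).pow_right

theorem isCoprime_three (h : (3 : K) ≠ 0) : IsCoprime (numThree K) (denThree K) := by
  have h27 : (27 : K) ≠ 0 := by
    have : (27 : K) = 3 ^ 3 := by norm_num
    rw [this]
    exact pow_ne_zero _ h
  have h243 : (243 : K) ≠ 0 := by
    have : (243 : K) = 3 ^ 5 := by norm_num
    rw [this]
    exact pow_ne_zero _ h
  exact (IsCoprime.mul_left (isCoprime_X_add_C_X h27)
    (isCoprime_X_add_C_X h243).pow_left).pow_right

variable {F : Type*} [Field F] [Algebra K F]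

theorem aeval_numTwo (t : F) : aeval t (numTwo K) = (t + 256) ^ 3 := by
  simp [numTwo, map_ofNat]

theorem aeval_denTwo (t : F) : aeval t (denTwo K) = t ^ 2 := by
  simp [denTwo]

theorem aeval_numThree (t : F) : aeval t (numThree K) = (t + 27) * (t + 243) ^ 3 := by
  simp [numThree, map_ofNat]

theorem aeval_denThree (t : F) : aeval t (denThree K) = t ^ 3 := by
  simp [denThree]

end Polys

open ModularCurve AlgebraicCurve HahnSeries IsLocalRing IntermediateField
open Fermat.Agent.S18 (Mod.Om Mod.jOm Mod.IsCoordinate)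

/-- `ℚ̄` -/
local notation "Qb" => AlgebraicClosure ℚ

/-! ### `q`-expansions -/

theorem coeffMap_intCast_jqModC (R : Type*) [CommRing R] :
    coeffMap (Int.castRingHom R) (jqModC ℤ) = jqModC R :=
  (jqModC_eq_map_intCast R).symm

theorem coeffMap_intCast_injective' (R : Type*) [CommRing R] [CharZero R] :
    Function.Injective (coeffMap (Int.castRingHom R)) := by
  intro x y h
  ext n
  have := congrArg (fun z => z.coeff n) h
  simp only [coeffMap_coeff, eq_intCast] at this
  exact Int.cast_injective this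

/-- an element of `F_M` with `q`-expansion `q⁻¹ + …` is transcendental over `ℚ̄` -/
theorem transcendental_of_coeff_neg_one (M : ℕ) (x : Mod.Om M) (X : LaurentSeries ℤ)
    (hX1 : X.coeff (-1) = 1)
    (hXc : (x : LaurentSeries Qb) = coeffMap (Int.castRingHom Qb) X) :
    Transcendental Qb x := by
  intro halg
  have hint : IsIntegral Qb x := halg.isIntegral
  have hdeg : (minpoly Qb x).degree = 1 :=
    IsAlgClosed.degree_eq_one_of_irreducible Qb (minpoly.irreducible hint)
  obtain ⟨c, hc⟩ := minpoly.mem_range_of_degree_eq_one Qb x hdeg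
  have h1 : (x : LaurentSeries Qb).coeff (-1) = 1 := by
    rw [hXc, coeffMap_coeff, hX1, map_one]
  have h2 : (x : LaurentSeries Qb).coeff (-1) = 0 := by
    rw [← hc]
    show (algebraMap Qb (LaurentSeries Qb) c).coeff (-1) = 0
    rw [algebraMap_laurentSeries_eq_single, HahnSeries.coeff_single_of_ne (by norm_num)]
  exact one_ne_zero (h1.symm.trans h2)

/-! ### the generic combination -/

section Combine

variable (M : ℕ) [NeZero M] {ℓ : ℕ} (hℓ : ℓ.Prime) (hℓM : ¬ ℓ ∣ M)
  (A : ValuationSubring Qb) (hA : A.LiesOverPrime ℓ)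

/-- `j̄ ∈ F_{M,k}` -/
def jkElt : modularFunctionFieldFullC (ResidueField A) M :=
  ⟨jqModC (ResidueField A), jqModC_mem_full (ResidueField A) M⟩

set_option maxHeartbeats 2000000 in
include hℓ hℓM hA in
/-- (H1) for a coordinate `t` with `j · Q(t) = P(t)` in characteristic `0` and `ℓ`, the two
rational functions having the same degree `d`. -/
theorem good_H1_of_rel
    (G : Fermat.Agent.S37.Red.Datum A (residue A) (modularFunctionFieldBar M)
      (modularFunctionFieldFullC (ResidueField A) M))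
    (ht : Transcendental Qb G.x)
    (P Q : Polynomial Qb) (Pk Qk : Polynomial (ResidueField A)) (d : ℕ) (hd : 0 < d)
    (hdeg : max P.natDegree Q.natDegree = d) (hdegk : max Pk.natDegree Qk.natDegree = d)
    (hcop : IsCoprime P Q) (hcopk : IsCoprime Pk Qk) (hQ : Q ≠ 0) (hQk : Qk ≠ 0)
    (hrel : Mod.jOm M * Polynomial.aeval G.x Q = Polynomial.aeval G.x P)
    (hrelk : jkElt M A * Polynomial.aeval G.xk Qk = Polynomial.aeval G.xk Pk) :
    FiniteDimensional (IntermediateField.adjoin Qb {G.x}) (modularFunctionFieldBar M) ∧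
      FiniteDimensional (IntermediateField.adjoin (ResidueField A) {G.xk})
        (modularFunctionFieldFullC (ResidueField A) M) ∧
      Algebra.IsSeparable (IntermediateField.adjoin (ResidueField A) {G.xk})
        (modularFunctionFieldFullC (ResidueField A) M) ∧
      Module.finrank (IntermediateField.adjoin Qb {G.x}) (modularFunctionFieldBar M) =
        Module.finrank (IntermediateField.adjoin (ResidueField A) {G.xk})
          (modularFunctionFieldFullC (ResidueField A) M) := by
  haveI : Fact ℓ.Prime := ⟨hℓ⟩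
  haveI : CharP (ResidueField A) ℓ :=
    Fermat.Agent.S37.H448.charP_residueField_of_liesOverPrime hℓ A hA
  haveI : IsAlgClosed (ResidueField A) := Fermat.Agent.S18.H9.resAlgClosed Qb A
  have hchar := Fermat.Agent.S37.H628.natCast_ne_zero_residueField M hℓ hℓM A hA
  have hjfin := Fermat.Agent.S37.H628.finiteDimensional_adjoin_bar M (Mod.jOm M)
    (Fermat.Agent.S18.H333.jOm_coe M)
  have hjrank := Fermat.Agent.S37.H628.finrank_adjoin_bar M (Mod.jOm M)
    (Fermat.Agent.S18.H333.jOm_coe M)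
  have hkfin := Fermat.Agent.S37.H628.finiteDimensional_adjoin_fullC (ResidueField A) M hchar
    (jkElt M A) rfl
  have hkrank := Fermat.Agent.S37.H628.finrank_adjoin_fullC (ResidueField A) M hchar
    (jkElt M A) rfl
  have hksep := Fermat.Agent.S37.H628.isSeparable_adjoin_fullC (ResidueField A) M ℓ hchar
    (jkElt M A) rfl
  have htk : Transcendental (ResidueField A) G.xk := G.xk_transc
  obtain ⟨h1, h2, -⟩ := h1_of_tower G.x (Mod.jOm M) ht P Q hcop hQ hrel hjfin
  obtain ⟨h3, h4, h5⟩ := h1_of_tower G.xk (jkElt M A) htk Pk Qk hcopk hQk hrelk hkfin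
  refine ⟨h1, h3, h5 hksep, ?_⟩
  rw [hdeg, hjrank] at h2
  rw [hdegk, hkrank] at h4
  exact Nat.eq_of_mul_eq_mul_left hd (h2.trans h4.symm)

end Combine

/-! ### the relations in `ℤ((q))` and in characteristic `ℓ` -/

section Relations

variable (M : ℕ) (A : ValuationSubring Qb)

theorem coe_ofNat_bar (n : ℕ) [n.AtLeastTwo] :
    (((ofNat(n) : Mod.Om M)) : LaurentSeries Qb) = ofNat(n) :=
  map_ofNat (modularFunctionFieldBar M).val n

theorem coe_ofNat_fullC (k : Type*) [Field k] (n : ℕ) [n.AtLeastTwo] :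
    (((ofNat(n) : modularFunctionFieldFullC k M)) : LaurentSeries k) = ofNat(n) :=
  map_ofNat (modularFunctionFieldFullC k M).val n

/-- the `t₂`-identity over `ℤ` -/
theorem int_rel_two (x : Mod.Om M) (X : LaurentSeries ℤ)
    (hXc : (x : LaurentSeries Qb) = coeffMap (Int.castRingHom Qb) X)
    (hid : Mod.jOm M * x ^ 2 = (x + 256) ^ 3) :
    jqModC ℤ * X ^ 2 = (X + 256) ^ 3 := by
  apply coeffMap_intCast_injective' Qb
  rw [map_mul, map_pow, map_pow, map_add, map_ofNat, coeffMap_intCast_jqModC, ← hXc,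
    ← Fermat.Agent.S18.H333.jOm_coe M]
  have := congrArg (fun z : Mod.Om M => (z : LaurentSeries Qb)) hid
  simpa only [IntermediateField.coe_mul, IntermediateField.coe_pow, IntermediateField.coe_add,
    coe_ofNat_bar] using this

/-- the `t₃`-identity over `ℤ` -/
theorem int_rel_three (x : Mod.Om M) (X : LaurentSeries ℤ)
    (hXc : (x : LaurentSeries Qb) = coeffMap (Int.castRingHom Qb) X)
    (hid : Mod.jOm M * x ^ 3 = (x + 27) * (x + 243) ^ 3) :
    jqModC ℤ * X ^ 3 = (X + 27) * (X + 243) ^ 3 := by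
  apply coeffMap_intCast_injective' Qb
  rw [map_mul, map_mul, map_pow, map_pow, map_add, map_add, map_ofNat, map_ofNat,
    coeffMap_intCast_jqModC, ← hXc, ← Fermat.Agent.S18.H333.jOm_coe M]
  have := congrArg (fun z : Mod.Om M => (z : LaurentSeries Qb)) hid
  simpa only [IntermediateField.coe_mul, IntermediateField.coe_pow, IntermediateField.coe_add,
    coe_ofNat_bar] using this

/-- the `t₂`-identity in `F_{M,k}` -/
theorem rel_two_fullC (k : Type*) [Field k] (X : LaurentSeries ℤ)
    (hZ : jqModC ℤ * X ^ 2 = (X + 256) ^ 3) (j t : modularFunctionFieldFullC k M)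
    (hj : (j : LaurentSeries k) = jqModC k)
    (ht : (t : LaurentSeries k) = coeffMap (Int.castRingHom k) X) :
    j * t ^ 2 = (t + 256) ^ 3 := by
  apply Subtype.ext
  have := congrArg (coeffMap (Int.castRingHom k)) hZ
  rw [map_mul, map_pow, map_pow, map_add, map_ofNat, coeffMap_intCast_jqModC, ← hj, ← ht] at this
  simpa only [IntermediateField.coe_mul, IntermediateField.coe_pow, IntermediateField.coe_add,
    coe_ofNat_fullC] using this

/-- the `t₃`-identity in `F_{M,k}` -/
theorem rel_three_fullC (k : Type*) [Field k] (X : LaurentSeries ℤ)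
    (hZ : jqModC ℤ * X ^ 3 = (X + 27) * (X + 243) ^ 3) (j t : modularFunctionFieldFullC k M)
    (hj : (j : LaurentSeries k) = jqModC k)
    (ht : (t : LaurentSeries k) = coeffMap (Int.castRingHom k) X) :
    j * t ^ 3 = (t + 27) * (t + 243) ^ 3 := by
  apply Subtype.ext
  have := congrArg (coeffMap (Int.castRingHom k)) hZ
  rw [map_mul, map_mul, map_pow, map_pow, map_add, map_add, map_ofNat, map_ofNat,
    coeffMap_intCast_jqModC, ← hj, ← ht] at this
  simpa only [IntermediateField.coe_mul, IntermediateField.coe_pow, IntermediateField.coe_add,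
    coe_ofNat_fullC] using this

end Relations

/-! ### the leaf -/

set_option maxHeartbeats 4000000 in
/-- **LEAF D4** (`Board3.leaf_H1`): the four (H1) fields of `Red.Datum.Good` for a reduction datum
whose coordinate is an admissible coordinate `x` with integral model `X`
(`hX1`, `hXc` = fields `coeff_neg_one`, `coe_eq` of `Board3.IsModelOf M x X`). -/
theorem leaf_H1 (M ℓ : ℕ) [NeZero M] (hℓ : ℓ.Prime) (hℓM : ¬ ℓ ∣ M)
    (A : ValuationSubring (AlgebraicClosure ℚ)) (hA : A.LiesOverPrime ℓ)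
    (x : Mod.Om M) (S : Finset (Mod.Om M)) (hx : Mod.IsCoordinate M ℓ x S)
    (X : LaurentSeries ℤ) (hX1 : X.coeff (-1) = 1)
    (hXc : (x : LaurentSeries (AlgebraicClosure ℚ)) =
      coeffMap (Int.castRingHom (AlgebraicClosure ℚ)) X)
    (G : Fermat.Agent.S37.Red.Datum A (residue A) (modularFunctionFieldBar M)
      (modularFunctionFieldFullC (ResidueField A) M))
    (hGx : G.x = x)
    (hGxk : ((G.xk : modularFunctionFieldFullC (ResidueField A) M) :
      LaurentSeries (ResidueField A)) = coeffMap (Int.castRingHom (ResidueField A)) X) :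
    FiniteDimensional (IntermediateField.adjoin (AlgebraicClosure ℚ) {G.x})
        (modularFunctionFieldBar M) ∧
      FiniteDimensional (IntermediateField.adjoin (ResidueField A) {G.xk})
        (modularFunctionFieldFullC (ResidueField A) M) ∧
      Algebra.IsSeparable (IntermediateField.adjoin (ResidueField A) {G.xk})
        (modularFunctionFieldFullC (ResidueField A) M) ∧
      Module.finrank (IntermediateField.adjoin (AlgebraicClosure ℚ) {G.x})
          (modularFunctionFieldBar M) =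
        Module.finrank (IntermediateField.adjoin (ResidueField A) {G.xk})
          (modularFunctionFieldFullC (ResidueField A) M) := by
  subst hGx
  haveI : CharP (ResidueField A) ℓ :=
    Fermat.Agent.S37.H448.charP_residueField_of_liesOverPrime hℓ A hA
  rcases hx with ⟨-, hxj, -⟩ | ⟨hrel, -⟩
  · -- `x = j`
    have hx' : ((G.x : Mod.Om M) : LaurentSeries Qb) = jqModC Qb := by
      rw [hxj]
      exact Fermat.Agent.S18.H333.jOm_coe M
    have hXj : X = jqModC ℤ :=
      coeffMap_intCast_injective' Qb (by rw [← hXc, hx', coeffMap_intCast_jqModC])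
    have hxk' : ((G.xk : modularFunctionFieldFullC (ResidueField A) M) :
        LaurentSeries (ResidueField A)) = jqModC (ResidueField A) := by
      rw [hGxk, hXj, coeffMap_intCast_jqModC]
    exact Fermat.Agent.S37.H628.good_H1 M hℓ hℓM A hA G hx' hxk'
  · have ht := transcendental_of_coeff_neg_one M G.x X hX1 hXc
    rcases hrel with ⟨h3, hid, -⟩ | ⟨h2, hid, -⟩
    · -- `x = t₂`, `ℓ = 3`
      subst h3
      have h2k : (2 : ResidueField A) ≠ 0 := by
        intro h
        have h' : ((2 : ℕ) : ResidueField A) = 0 := by exact_mod_cast h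
        rw [CharP.cast_eq_zero_iff (ResidueField A) 3] at h'
        omega
      have hZ := int_rel_two M G.x X hXc hid
      have hrelk := rel_two_fullC M (ResidueField A) X hZ (jkElt M A) G.xk rfl hGxk
      refine good_H1_of_rel M hℓ hℓM A hA G ht (numTwo Qb) (denTwo Qb)
        (numTwo (ResidueField A)) (denTwo (ResidueField A)) 3 (by norm_num) ?_ ?_
        (isCoprime_two two_ne_zero) (isCoprime_two h2k) (denTwo_ne_zero _) (denTwo_ne_zero _)
        ?_ ?_
      · rw [natDegree_numTwo, natDegree_denTwo]; rfl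
      · rw [natDegree_numTwo, natDegree_denTwo]; rfl
      · rw [aeval_denTwo, aeval_numTwo]; exact hid
      · rw [aeval_denTwo, aeval_numTwo]; exact hrelk
    · -- `x = t₃`, `ℓ = 2`
      subst h2
      have h3k : (3 : ResidueField A) ≠ 0 := by
        intro h
        have h' : ((3 : ℕ) : ResidueField A) = 0 := by exact_mod_cast h
        rw [CharP.cast_eq_zero_iff (ResidueField A) 2] at h'
        omega
      have hZ := int_rel_three M G.x X hXc hid
      have hrelk := rel_three_fullC M (ResidueField A) X hZ (jkElt M A) G.xk rfl hGxk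
      refine good_H1_of_rel M hℓ hℓM A hA G ht (numThree Qb) (denThree Qb)
        (numThree (ResidueField A)) (denThree (ResidueField A)) 4 (by norm_num) ?_ ?_
        (isCoprime_three three_ne_zero) (isCoprime_three h3k) (denThree_ne_zero _)
        (denThree_ne_zero _) ?_ ?_
      · rw [natDegree_numThree, natDegree_denThree]; rfl
      · rw [natDegree_numThree, natDegree_denThree]; rfl
      · rw [aeval_denThree, aeval_numThree]; exact hid
      · rw [aeval_denThree, aeval_numThree]; exact hrelk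

end Fermat.Agent.S37.H339

end
end
-- ===== PACK-END S37/H339/LeafH1.lean

-- ===== PACK-BEGIN S29/H509/K1.lean
section



/-!
# S29 / M4b piece K1 (`exists_isTwisted`) in helper822's EXACT shape (helper509)

`U := kumH (chiOfHom c)`, i.e. `E^χ₁₂ / Δ` with `χ = ζ_p ^ c`.
-/

set_option autoImplicit false

namespace Fermat.Agent.S29.H509

open ModularCurve AlgebraicCurve CongruenceSubgroup UpperHalfPlane
open scoped MatrixGroups Manifold

open Fermat.Agent.S24 Fermat.Agent.S29 Fermat.Agent.S29.M4b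

noncomputable section

/-- The additive character `Additive Γ₀(N) →+ ZMod p` underlying a parabolic hom `c`. -/
def homOfParHom {N p : ℕ} {c : G0 N → ZMod p} (hc : IsParHom c) :
    Additive (Gamma0 N) →+ ZMod p where
  toFun γ := c (Additive.toMul γ)
  map_zero' := by
    have h := hc.map_mul 1 1
    rw [mul_one] at h
    have : c 1 + 0 = c 1 + c 1 := by rw [add_zero]; exact h
    exact (add_left_cancel this).symm
  map_add' a b := hc.map_mul _ _

@[simp] lemma homOfParHom_apply {N p : ℕ} {c : G0 N → ZMod p} (hc : IsParHom c)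
    (γ : Gamma0 N) : homOfParHom hc (Additive.ofMul γ) = c γ := rfl

lemma stdAddChar_eq_zetaP_pow (p : ℕ) [NeZero p] (a : ZMod p) :
    ZMod.stdAddChar (N := p) a = zetaP p ^ a.val := by
  have h1 : ((a.val : ℤ) : ZMod p) = a := by
    rw [Int.cast_natCast, ZMod.natCast_zmod_val]
  conv_lhs => rw [← h1]
  rw [ZMod.stdAddChar_coe, zetaP, ← Complex.exp_nat_mul]
  congr 1
  push_cast
  ring

/-- **PIECE K1** of `M4b/Skeleton.lean`, exact type. -/
theorem exists_isTwisted (N : ℕ) [NeZero N] (p : ℕ) [NeZero p] {c : G0 N → ZMod p}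
    (hc : IsParHom c) : ∃ U : ℍ → ℂ, IsTwisted N p c U := by
  have hstab : ∀ γ : Gamma0 N, (γ : SL(2, ℤ)) 1 0 = 0 →
      homOfParHom hc (Additive.ofMul γ) = 0 := by
    intro γ hγ
    rw [homOfParHom_apply]
    apply hc.parabolic
    have hdet := (γ : SL(2, ℤ)).det_coe
    rw [Matrix.det_fin_two] at hdet
    have h' : ((γ : SL(2, ℤ)) : Matrix (Fin 2) (Fin 2) ℤ) 1 0 = 0 := hγ
    rw [h', mul_zero, sub_zero] at hdet
    have htr : (G0.mat γ).trace = ((γ : SL(2, ℤ)) : Matrix (Fin 2) (Fin 2) ℤ) 0 0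
        + ((γ : SL(2, ℤ)) : Matrix (Fin 2) (Fin 2) ℤ) 1 1 := by
      rw [G0.mat, Matrix.trace_fin_two]
    rw [htr]
    rcases Int.eq_one_or_neg_one_of_mul_eq_one' hdet with ⟨h1, h2⟩ | ⟨h1, h2⟩
    · left; rw [h1, h2]; norm_num
    · right; rw [h1, h2]; norm_num
  obtain ⟨h, hmd, hne, hchar, -, hgood⟩ := exists_kummerFun_of_hom N (homOfParHom hc) hstab
  refine ⟨h, hmd, ?_, ?_, hgood⟩
  · by_contra hall
    push_neg at hall
    exact hne (funext hall)
  · intro γ τ
    rw [hchar γ τ, homOfParHom_apply, stdAddChar_eq_zetaP_pow]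

end

end Fermat.Agent.S29.H509

end
-- ===== PACK-END S29/H509/K1.lean

-- ===== PACK-BEGIN S29/H389/K2.lean
section





/-!
# S29 / M4b / PIECE K2 (DICT) — `exists_isKummerClass_of_realised` (helper389)

The piece `K2` of helper822's M4b sub-skeleton, in the EXACT type of `M4b/Skeleton.lean`
(general modulus `p`, `[NeZero p]`):

if `u ∈ FF N` is realised by `U ^ p`, `U` a twisted function whose character kills the parabolic
and the elliptic elements of `Γ₀(N)`, then `u` has a `p`-Kummer class in `J₀(N)(ℚ̄)`.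

Proof: direct route over `ℚ̄` on the landed S24 package.
* `U ∈ holN N` (S24 ring of the concrete analytic core): every `SL₂(ℤ)`-translate of `U` is
  holomorphic, `N`-periodic (`g T^N g⁻¹ ∈ Γ₀(N)` has trace `2`) and of exponential growth (because
  its `p`-th power is), so it has a convergent expansion in `exp(2πiτ/N)`;
* `e(r) = U ^ p · e(s)` for `u = r / s` (equality of expansions at `i∞`);
* `U` is invariant under the elliptic and parabolic elements of `Γ₀(N)`;
* conclude by the landed `H389.exists_isKummerClass_of_analytic_pow` (BR-DICT).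
-/

set_option autoImplicit false

noncomputable section

open ModularCurve AlgebraicCurve CongruenceSubgroup UpperHalfPlane HahnSeries
open scoped MatrixGroups Manifold Real

namespace Fermat.Agent.S29.H389

open Fermat.Agent.S24 Fermat.Agent.S24.H997 Fermat.Agent.S24.H648 Fermat.Agent.S24.H708
  Fermat.Agent.S24.H624 Fermat.Agent.S29 Fermat.Agent.S29.M4b

/-- A function whose `p`-th power (`p ≠ 0`) has exponential growth has exponential growth. -/
theorem K2_expGrowth_of_pow {f : ℍ → ℂ} {p : ℕ} (hp : p ≠ 0)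
    (h : ExpGrowth (fun τ => f τ ^ p)) : ExpGrowth f := by
  obtain ⟨C, m, hC⟩ := h
  refine ⟨max C 1, m, fun τ hτ => ?_⟩
  have h1 := hC τ hτ
  rw [norm_pow] at h1
  have him : 0 < τ.im := τ.im_pos
  have hpi := Real.pi_pos
  have hE : 1 ≤ Real.exp (2 * π * m * τ.im) := Real.one_le_exp (by positivity)
  have hmax : (1 : ℝ) ≤ max C 1 := le_max_right _ _
  have hB : 1 ≤ max C 1 * Real.exp (2 * π * m * τ.im) := by
    calc (1 : ℝ) = 1 * 1 := (one_mul 1).symm
      _ ≤ max C 1 * Real.exp (2 * π * m * τ.im) :=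
        mul_le_mul hmax hE zero_le_one (zero_le_one.trans hmax)
  have hle : ‖f τ‖ ^ p ≤ max C 1 * Real.exp (2 * π * m * τ.im) :=
    h1.trans (mul_le_mul_of_nonneg_right (le_max_left _ _) (Real.exp_pos _).le)
  by_cases h0 : ‖f τ‖ ≤ 1
  · exact h0.trans hB
  · have : ‖f τ‖ ≤ ‖f τ‖ ^ p := le_self_pow₀ (le_of_lt (not_le.mp h0)) hp
    exact this.trans hle

/-- `qh N ^ N = qh 1`. -/
theorem K2_qh_pow (N : ℕ) [NeZero N] (M : ℕ) : qh N ^ (N * M) = qh 1 ^ M := by
  funext τ
  have hN : (N : ℂ) ≠ 0 := by exact_mod_cast NeZero.ne N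
  simp only [Pi.pow_apply, qh_apply, pow_mul]
  congr 1
  simp only [Function.Periodic.qParam]
  rw [← Complex.exp_nat_mul]
  congr 1
  push_cast
  field_simp

section Twisted

variable (N : ℕ) [NeZero N] (p : ℕ) [NeZero p]

omit [NeZero N] [NeZero p] in
/-- All translates of a function with a parabolic character are `N`-periodic. -/
theorem K2_compSL_vadd {c : G0 N → ZMod p} (hc : IsParHom c) {U : ℍ → ℂ}
    (hU : HasChar N p c U) (g : SL(2, ℤ)) (τ : ℍ) :
    compSL g U (((N : ℤ) : ℝ) +ᵥ τ) = compSL g U τ := by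
  have hmem := H332.conj_T_zpow_mem_Gamma0 N g 1
  rw [mul_one] at hmem
  have htr := H332.trace_conj_T_zpow g (N : ℤ)
  have hc0 : c ⟨_, hmem⟩ = 0 := hc.parabolic ⟨_, hmem⟩ (Or.inl htr)
  have h2 := hU ⟨_, hmem⟩ (g • τ)
  rw [hc0] at h2
  simp only [ZMod.val_zero, pow_zero, one_mul] at h2
  rw [← UpperHalfPlane.modular_T_zpow_smul]
  simp only [compSL_apply]
  rw [← h2]
  congr 1
  rw [← mul_smul, ← mul_smul, mul_assoc, mul_assoc, inv_mul_cancel, mul_one]

/-- Every translate of a twisted function is meromorphic at `i∞` of width `N`. -/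
theorem K2_isMerInf {c : G0 N → ZMod p} (hc : IsParHom c) {U : ℍ → ℂ}
    (hU : IsTwisted N p c U) (g : SL(2, ℤ)) : IsMerInf N (compSL g U) := by
  refine ⟨H648.mdifferentiable_comp_smul hU.mdiff g,
    H332.periodic_comp_ofComplex_of_vadd (K2_compSL_vadd N p hc hU.hasChar g), ?_⟩
  have hg : ExpGrowth (compSL g U) :=
    K2_expGrowth_of_pow (NeZero.ne p) (hU.pow_mem.2.2 g)
  obtain ⟨M, hM⟩ := H882.isBounded_mul_qh_pow_of_expGrowth hg
  exact ⟨N * M, by rw [K2_qh_pow]; exact hM⟩

/-- A twisted function lies in the S24 ring `holN N`. -/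
theorem K2_mem_holN {c : G0 N → ZMod p} (hc : IsParHom c) {U : ℍ → ℂ}
    (hU : IsTwisted N p c U) : U ∈ holN N :=
  ⟨hU.mdiff, fun g => ⟨qexpFun N (compSL g U), fun τ => hasSum_qexpFun (K2_isMerInf N p hc hU g) τ⟩⟩

end Twisted

/-- The two fixed embeddings `ℚ̄ → ℂ` of S24 agree. -/
theorem K2_iotaC_eq : Deg457.iotaC = ιK := rfl

/-- An expansion in `q` is an expansion in `q^{1/N}`. -/
theorem K2_infExp_of_one (N : ℕ) [NeZero N] {f : ℍ → ℂ} {φ : LaurentSeries ℂ}
    (h : InfExp 1 f φ) : InfExp N f (qExpand ℂ N φ) := by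
  have hN : 0 < N := Nat.pos_of_ne_zero (NeZero.ne N)
  have h1 := h.comp_infAff (N := N) (e := N) 0 one_pos one_pos one_pos hN (by ring)
  rw [mul_one, infRoot_zero, infTwist_one] at h1
  refine h1.congr fun τ => ?_
  rw [infAff_one_zero_one]

section Main

variable (N : ℕ) [NeZero N] (p : ℕ) [NeZero p]

/-- **PIECE `K2`** of the M4b sub-skeleton (EXACT type of `M4b/Skeleton.lean`). -/
theorem exists_isKummerClass_of_realised {c : G0 N → ZMod p} (hc : IsParHom c) {U : ℍ → ℂ}
    {u : FF N} (hU : IsTwisted N p c U) (hu : Realises N u (fun τ => U τ ^ p)) :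
    ∃ x : JZero N, H455.IsKummerClass (p : ℤ) u x := by
  classical
  set A : AnalyticCore N := analyticCore N with hA
  -- `U` as an element of `Hol`
  have hmem : U ∈ holN N := K2_mem_holN N p hc hU
  let Uh : A.toHolBase.Hol := ⟨U, hmem⟩
  have hUh : Uh ≠ 0 := by
    intro h0
    obtain ⟨τ, hτ⟩ := hU.ne_zero
    apply hτ
    have := congrArg (fun f : A.toHolBase.Hol => (f : ℍ → ℂ) τ) h0
    simpa [Uh] using this
  -- the expansion of `U ^ p`
  have hmer : IsMerInf 1 (fun τ => U τ ^ p) := H882.isMerInf_of_mem_goodRing hu.1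
  have hexp1 : InfExp 1 (fun τ => U τ ^ p)
      (coeffMap ιK ((u : FF N) : LaurentSeries Kbar)) := by
    intro τ
    have := hasSum_qexpFun hmer τ
    rw [hu.2, K2_iotaC_eq] at this
    exact this
  have hexpN := K2_infExp_of_one N hexp1
  have hqU : A.toHolBase.qexp (Uh ^ p) = HolBase.Φ N ((u : FF N) : LaurentSeries Kbar) := by
    have hs : InfExp N (((Uh ^ p : A.toHolBase.Hol) : ℍ → ℂ)) (A.toHolBase.qexp (Uh ^ p)) :=
      expInf_spec (holToExp N (Uh ^ p))
    exact hs.unique' hexpN (fun τ => rfl)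
  -- `u = r / s`
  obtain ⟨r, s, hs, hrs⟩ := exists_div_inclRN N u
  have hs' : inclRN N s ≠ 0 := fun h => hs (inclRN_injective N (by rw [h, map_zero]))
  have hus : ((u : FF N) : LaurentSeries Kbar) * (s : LaurentSeries Kbar)
      = (r : LaurentSeries Kbar) := by
    have h1 : u * inclRN N s = inclRN N r := by rw [hrs, div_mul_cancel₀ _ hs']
    have := congrArg (fun f : FF N => (f : LaurentSeries Kbar)) h1
    simpa using this
  have hrel : A.toHolBase.bridge r * (1 : A.toHolBase.Hol) ^ p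
      = A.toHolBase.constH 1 * Uh ^ p * A.toHolBase.bridge s := by
    apply A.toHolBase.qexp_injective
    have h1 : A.toHolBase.qexp (A.toHolBase.constH 1) = 1 := by
      have := A.toHolBase.qexp_const 1
      rw [HahnSeries.C_one] at this
      exact this
    rw [one_pow, mul_one, map_mul, map_mul, HolBase.qexp_bridge, HolBase.qexp_bridge, hqU,
      h1, one_mul, ← map_mul, hus]
  have hr : r ≠ 0 := by
    intro hr0
    rw [hr0, map_zero, zero_mul] at hrel
    have h1 : A.toHolBase.constH 1 * Uh ^ p * A.toHolBase.bridge s = 0 := hrel.symm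
    have hb : A.toHolBase.bridge s ≠ 0 := fun h =>
      hs (HolBase.bridge_injective A.toHolBase (by rw [h, map_zero]))
    have hc1 : A.toHolBase.constH 1 ≠ 0 := by
      intro h
      have := congrArg A.toHolBase.qexp h
      rw [map_zero] at this
      have h2 := A.toHolBase.qexp_const 1
      rw [HahnSeries.C_one] at h2
      rw [HolBase.constH, h2] at this
      exact one_ne_zero this
    have : IsDomain A.toHolBase.Hol :=
      Function.Injective.isDomain A.toHolBase.qexp A.toHolBase.qexp_injective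
    exact mul_ne_zero (mul_ne_zero hc1 (pow_ne_zero p hUh)) hb h1
  have hinv : ∀ δ : SL(2, ℤ), δ ∈ CongruenceSubgroup.Gamma0 N → Nice δ →
      A.toHolBase.compH δ Uh * 1 = Uh * A.toHolBase.compH δ 1 := by
    intro δ hδ hnice
    rw [map_one, mul_one, mul_one]
    have hc0 : c ⟨δ, hδ⟩ = 0 := by
      rcases hnice with hfin | htr
      · obtain ⟨n, hn, hpow⟩ := isOfFinOrder_iff_pow_eq_one.mp hfin
        exact hc.elliptic ⟨δ, hδ⟩ n hn (Subtype.ext (by simpa using hpow))
      · exact hc.parabolic ⟨δ, hδ⟩ (Or.inl htr)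
    apply Subtype.ext
    funext τ
    have h2 := hU.hasChar ⟨δ, hδ⟩ τ
    rw [hc0] at h2
    simp only [ZMod.val_zero, pow_zero, one_mul] at h2
    exact h2
  obtain ⟨x, hx⟩ := exists_isKummerClass_of_analytic_pow A p (NeZero.ne p) r s hr hs Uh 1 hUh
    one_ne_zero 1 one_ne_zero hrel hinv
  exact ⟨x, by rw [hrs]; exact hx⟩

end Main

end Fermat.Agent.S29.H389

end
end
-- ===== PACK-END S29/H389/K2.lean

-- ===== PACK-BEGIN S29/H332/KummerChar.lean
section




/-!
# S29 / M4b / K1 — Kummer functions of additive characters `Γ₀(N) → ℤ/m`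

For an additive map `c : Γ₀(N) → ZMod m` vanishing on all elements of trace `±2` we package the
character `χ_c(γ) = exp(2πi c(γ)/m)` and the Kummer function `h_c = E^{χ_c}₁₂ / (2Δ)`:

* `h_c ∈ holN N`, `h_c(γτ) = χ_c(γ) h_c(τ)`;
* `h_c ^ m ∈ goodRing N` and its `q`-expansion `kummerExp ^ m` lies in the function field
  `laurentBaseChange ℂ (modularFunctionFieldFull N)` (via helper882's MERO);
* `q`-expansion of `h_c` has order `-1` and leading coefficient `1`.

The modulus `m ≥ 1` is arbitrary (rows S29: `m = p`; S30: `m = p ^ n`).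
-/

set_option autoImplicit false
set_option linter.unusedSectionVars false

noncomputable section

open UpperHalfPlane HahnSeries ModularCurve Complex AlgebraicCurve
open scoped Real MatrixGroups Manifold

namespace Fermat.Agent.S29.H332

open Fermat.Agent.S24 Fermat.Agent.S24.H997 Fermat.Agent.S24.H624 Fermat.Agent.S24.H648

variable {N m : ℕ} [NeZero m]

/-- An additive character `Γ₀(N) → ℤ/m` vanishing on the elements of trace `±2`. -/
structure IsParAdd (c : CongruenceSubgroup.Gamma0 N → ZMod m) : Prop where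
  map_mul : ∀ γ γ' : CongruenceSubgroup.Gamma0 N, c (γ * γ') = c γ + c γ'
  parabolic : ∀ γ : CongruenceSubgroup.Gamma0 N,
    ((γ : SL(2, ℤ)).1.trace = 2 ∨ (γ : SL(2, ℤ)).1.trace = -2) → c γ = 0

namespace IsParAdd

variable {c c' : CongruenceSubgroup.Gamma0 N → ZMod m}

theorem map_one (hc : IsParAdd c) : c 1 = 0 := by
  have h := hc.map_mul 1 1
  rw [mul_one] at h
  exact left_eq_add.mp h

/-- The multiplicative character `γ ↦ exp(2πi c(γ)/m)`. -/
def char (hc : IsParAdd c) : CongruenceSubgroup.Gamma0 N →* ℂˣ :=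
  MonoidHom.toHomUnits
    { toFun := fun γ => ZMod.stdAddChar (c γ)
      map_one' := by rw [hc.map_one, AddChar.map_zero_eq_one]
      map_mul' := fun γ γ' => by rw [hc.map_mul, AddChar.map_add_eq_mul] }

@[simp]
theorem char_apply (hc : IsParAdd c) (γ : CongruenceSubgroup.Gamma0 N) :
    (hc.char γ : ℂ) = ZMod.stdAddChar (c γ) := rfl

theorem norm_char (hc : IsParAdd c) (γ : CongruenceSubgroup.Gamma0 N) :
    ‖(hc.char γ : ℂ)‖ = 1 := by
  rw [char_apply, ZMod.stdAddChar_apply]
  exact Circle.norm_coe _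

theorem char_pow (hc : IsParAdd c) (γ : CongruenceSubgroup.Gamma0 N) : hc.char γ ^ m = 1 := by
  apply Units.ext
  rw [Units.val_pow_eq_pow_val, char_apply, ← AddChar.map_nsmul_eq_pow, Units.val_one]
  have : m • c γ = 0 := by
    rw [nsmul_eq_mul]
    simp
  rw [this, AddChar.map_zero_eq_one]

theorem char_eq_one_iff (hc : IsParAdd c) (γ : CongruenceSubgroup.Gamma0 N) :
    hc.char γ = 1 ↔ c γ = 0 := by
  constructor
  · intro h
    have h1 : (hc.char γ : ℂ) = 1 := by rw [h, Units.val_one]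
    rw [char_apply, ← AddChar.map_zero_eq_one (ZMod.stdAddChar (N := m))] at h1
    exact ZMod.injective_stdAddChar h1
  · intro h
    apply Units.ext
    rw [char_apply, h, AddChar.map_zero_eq_one, Units.val_one]

theorem parTrivial (hc : IsParAdd c) : ParTrivial hc.char := by
  intro γ hγ
  rw [char_eq_one_iff]
  exact hc.parabolic γ hγ

theorem ellTrivial (hc : IsParAdd c)
    (hell : ∀ (γ : CongruenceSubgroup.Gamma0 N) (n : ℕ), 0 < n → γ ^ n = 1 → c γ = 0) :
    EllTrivial hc.char := by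
  intro γ n hn hγ
  rw [char_eq_one_iff]
  exact hell γ n hn hγ

theorem add (hc : IsParAdd c) (hc' : IsParAdd c') : IsParAdd (c + c') where
  map_mul γ γ' := by
    simp only [Pi.add_apply, hc.map_mul, hc'.map_mul]
    abel
  parabolic γ hγ := by
    simp only [Pi.add_apply, hc.parabolic γ hγ, hc'.parabolic γ hγ, add_zero]

theorem char_add (hc : IsParAdd c) (hc' : IsParAdd c') :
    (hc.add hc').char = hc.char * hc'.char := by
  ext γ
  simp [AddChar.map_add_eq_mul]

variable [NeZero N]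

variable (N) in
/-- The Kummer function of an additive parabolic character. -/
def kfun (hc : IsParAdd c) : ℍ → ℂ := kummerFun N hc.char

variable (N) in
/-- Its `q`-expansion at `i∞`. -/
def kexp (hc : IsParAdd c) : LaurentSeries ℂ := kummerExp N hc.char

theorem kfun_mem_holN (hc : IsParAdd c) : hc.kfun N ∈ holN N :=
  kummerFun_mem_holN hc.parTrivial hc.norm_char

theorem kfun_smul (hc : IsParAdd c) (γ : CongruenceSubgroup.Gamma0 N) (τ : ℍ) :
    hc.kfun N ((γ : SL(2, ℤ)) • τ) = ZMod.stdAddChar (c γ) * hc.kfun N τ :=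
  hasCharacter_kummerFun hc.parTrivial γ τ

theorem kfun_pow_mem_goodRing (hc : IsParAdd c) : hc.kfun N ^ m ∈ goodRing N :=
  kummerFun_pow_mem_goodRing hc.parTrivial hc.norm_char hc.char_pow

theorem hasQExp_kfun (hc : IsParAdd c) :
    Fermat.Agent.S24.H708.HasQExp 1 (hc.kfun N) (hc.kexp N) :=
  hasQExp_kummerFun hc.parTrivial hc.norm_char

theorem kexp_order (hc : IsParAdd c) : (hc.kexp N).order = -1 :=
  (kummerExp_eq hc.parTrivial hc.norm_char).1

theorem kexp_leadingCoeff (hc : IsParAdd c) : (hc.kexp N).leadingCoeff = 1 :=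
  (kummerExp_eq hc.parTrivial hc.norm_char).2

theorem kexp_ne_zero (hc : IsParAdd c) : hc.kexp N ≠ 0 :=
  kummerExp_ne_zero hc.parTrivial hc.norm_char

theorem kfun_ne_zero (hc : IsParAdd c) : hc.kfun N ≠ 0 :=
  kummerFun_ne_zero hc.parTrivial hc.norm_char

theorem hasCharacter_kfun (hc : IsParAdd c) : HasCharacter hc.char (hc.kfun N) :=
  hasCharacter_kummerFun hc.parTrivial

/-- **K2 (analytic part)**: local divisibility of the orders of the Kummer function, at a point
with rotation `ε` of finite order (`ε = 1`, `S`, `S * T`), for the coset `g⁻¹ Γ₀(N)` of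
`ε`-period `k`. -/
theorem kfun_dvd_mul_order_of_finite_order (hc : IsParAdd c)
    (hell : ∀ (γ : CongruenceSubgroup.Gamma0 N) (n : ℕ), 0 < n → γ ^ n = 1 → c γ = 0)
    (X : Expansion (holBase N)) {ε : SL(2, ℤ)} (R : RotData (holBase N) X ε)
    {n : ℕ} (hn : 0 < n) (hε : ε ^ n = 1)
    (g : SL(2, ℤ)) (k : ℕ) (hk : g * ε ^ k * g⁻¹ ∈ CongruenceSubgroup.Gamma0 N) :
    (R.m : ℤ) ∣ (k : ℤ) * (X.E ((holBase N).compH g ⟨hc.kfun N, hc.kfun_mem_holN⟩)).order :=
  hc.hasCharacter_kfun.dvd_mul_order_of_finite_order hc.kfun_mem_holN hc.kfun_ne_zero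
    (hc.ellTrivial hell) X R hn hε g k hk

/-- **K2 (analytic part)** at the cusps (`ε = T`). -/
theorem kfun_dvd_mul_order_T (hc : IsParAdd c)
    (X : Expansion (holBase N)) (R : RotData (holBase N) X ModularGroup.T)
    (g : SL(2, ℤ)) (k : ℕ)
    (hk : g * ModularGroup.T ^ k * g⁻¹ ∈ CongruenceSubgroup.Gamma0 N) :
    (R.m : ℤ) ∣ (k : ℤ) * (X.E ((holBase N).compH g ⟨hc.kfun N, hc.kfun_mem_holN⟩)).order :=
  hc.hasCharacter_kfun.dvd_mul_order_T hc.kfun_mem_holN hc.kfun_ne_zero hc.parTrivial X R g k hk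

/-- **K1 + MERO**: the `q`-expansion of `h_c ^ m` lies in the function field of `X₀(N)` over `ℂ`. -/
theorem kexp_pow_mem_FC (hc : IsParAdd c) :
    hc.kexp N ^ m ∈ laurentBaseChange ℂ (modularFunctionFieldFull N) :=
  Fermat.Agent.S29.H882.mem_FC_of_hasQExp hc.kfun_pow_mem_goodRing
    ((hc.hasQExp_kfun).pow m)

end IsParAdd

end Fermat.Agent.S29.H332

end
end
-- ===== PACK-END S29/H332/KummerChar.lean

-- ===== PACK-BEGIN S29/H332/K1.lean
section



/-!
# S29 / M4b — PIECE `K1` (exact skeleton type)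

`exists_isTwisted` : for a parabolic character `c : Γ₀(N) → ℤ/p` (any modulus `p ≥ 1`) there is a
twisted function `U` of character `c`; `U = E^χ₁₂ / (2Δ)`, `χ = ζ_p ^ c`.
-/

set_option autoImplicit false
set_option linter.unusedSectionVars false

noncomputable section

open ModularCurve AlgebraicCurve CongruenceSubgroup UpperHalfPlane
open scoped MatrixGroups Manifold

namespace Fermat.Agent.S29.H332

open Fermat.Agent.S24 Fermat.Agent.S29 Fermat.Agent.S29.M4b

variable {N : ℕ} {p : ℕ} [NeZero p]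

/-- `ζ_p ^ (a.val) = stdAddChar a`. -/
theorem zetaP_pow_val (a : ZMod p) : zetaP p ^ a.val = ZMod.stdAddChar a := by
  have h := ZMod.stdAddChar_coe (N := p) (a.val : ℤ)
  rw [Int.cast_natCast, ZMod.natCast_zmod_val] at h
  rw [h, zetaP, ← Complex.exp_nat_mul]
  congr 1
  push_cast
  ring

/-- A parabolic character in the sense of `DefsM` is one in the sense of `H332`. -/
theorem isParAdd_of_isParHom {c : G0 N → ZMod p} (hc : IsParHom c) : IsParAdd c where
  map_mul := hc.map_mul
  parabolic := hc.parabolic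

variable (N p) in
/-- **PIECE `K1`** of the M4b skeleton (exact type). -/
theorem exists_isTwisted [NeZero N] {c : G0 N → ZMod p} (hc : IsParHom c) :
    ∃ U : ℍ → ℂ, IsTwisted N p c U := by
  have hc' : IsParAdd c := isParAdd_of_isParHom hc
  refine ⟨hc'.kfun N, ?_, ?_, ?_, ?_⟩
  · exact (hc'.kfun_mem_holN).1
  · by_contra hne
    exact hc'.kfun_ne_zero (funext fun τ => by_contra fun h => hne ⟨τ, h⟩)
  · intro γ τ
    rw [zetaP_pow_val]
    exact hc'.kfun_smul γ τ
  · exact hc'.kfun_pow_mem_goodRing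

end Fermat.Agent.S29.H332

end
end
-- ===== PACK-END S29/H332/K1.lean

-- ===== PACK-BEGIN S29/H282/LocalK.lean
section


/-!
# S29 / M4b-K2 (helper282) — `LocalData` for the function field over `K` from an expansion

Port of `Fermat/Agent/S24/Mod/H997Local.lean` (namespace `HolBase`) and of the first half of
`H997Core.lean` from `(ℚ̄, ιK)` to an arbitrary field `K` with `ι : K →+* ℂ`.
-/

set_option autoImplicit false

noncomputable section

open ModularCurve HahnSeries UpperHalfPlane
open scoped MatrixGroups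

namespace Fermat.Agent.S29.H282

open Fermat.Agent.S24 Fermat.Agent.S24.H997 Fermat.Agent.S24.Deg457

variable {K : Type*} [Field K] [Algebra ℚ K] (ι : K →+* ℂ)
variable {N : ℕ} [NeZero N] (B : HolBase N) (X : Expansion B)

/-- the ring hom `R_N(K) → ℂ((z))`, `r ↦ E (e r ∘ g⁻¹)` -/
def sGK (g : SL(2, ℤ)) : RNK K N →+* LaurentSeries ℂ :=
  X.E.comp ((B.compH g⁻¹).comp (bridgeK ι B))

theorem sGK_apply (g : SL(2, ℤ)) (r : RNK K N) :
    sGK ι B X g r = X.E (B.compH g⁻¹ (bridgeK ι B r)) := rfl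

theorem sGK_injective (g : SL(2, ℤ)) : Function.Injective (sGK ι B X g) :=
  X.inj.comp ((B.compH_injective g⁻¹).comp (bridgeK_injective ι B))

/-- the embedding `FFK K N → ℂ((z))` attached to `g` -/
def sigmaGK (g : SL(2, ℤ)) : FFK K N →+* LaurentSeries ℂ :=
  liftFK (sGK ι B X g) (sGK_injective ι B X g)

theorem sigmaGK_inclRNK (g : SL(2, ℤ)) (r : RNK K N) :
    sigmaGK ι B X g (inclRNK K N r) = X.E (B.compH g⁻¹ (bridgeK ι B r)) :=
  liftFK_inclRNK _ _ r

theorem sigmaGK_algebraMap (g : SL(2, ℤ)) (c : K) :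
    sigmaGK ι B X g (algebraMap K (FFK K N) c) = HahnSeries.C (ι c) := by
  rw [sigmaGK, liftFK_algebraMap, sGK_apply, bridgeK_algebraMap, HolBase.compH_constH, X.const]

theorem sigmaGK_jFK (g : SL(2, ℤ)) :
    sigmaGK ι B X g (jFK K N) = X.E (B.JH 1 (one_dvd N)) := by
  rw [← inclRNK_jRK_one, sigmaGK_inclRNK, bridgeK_jRK, HolBase.compH_JH_one]

theorem sGK_mul_of_mem (g : SL(2, ℤ)) {δ : SL(2, ℤ)} (hδ : δ ∈ CongruenceSubgroup.Gamma0 N) :
    sGK ι B X (g * δ) = sGK ι B X g := by
  ext1 r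
  rw [sGK_apply, sGK_apply, mul_inv_rev, HolBase.compH_mul,
    compH_bridgeK_of_mem ι B (inv_mem hδ)]

theorem sigmaGK_mul_of_mem (g : SL(2, ℤ)) {δ : SL(2, ℤ)}
    (hδ : δ ∈ CongruenceSubgroup.Gamma0 N) : sigmaGK ι B X (g * δ) = sigmaGK ι B X g := by
  unfold sigmaGK
  congr 1
  exact sGK_mul_of_mem ι B X g hδ

theorem sigmaGK_eq_of_mk_eq {g g' : SL(2, ℤ)}
    (h : (g : XX N) = (g' : XX N)) : sigmaGK ι B X g = sigmaGK ι B X g' := by
  have hmem : g⁻¹ * g' ∈ CongruenceSubgroup.Gamma0 N := QuotientGroup.eq.mp h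
  have := sigmaGK_mul_of_mem ι B X g hmem
  rw [mul_inv_cancel_left] at this
  exact this.symm

/-- the embedding attached to a coset -/
def sigmaXK (x : XX N) : FFK K N →+* LaurentSeries ℂ := sigmaGK ι B X (Quotient.out x)

theorem sigmaXK_mk (g : SL(2, ℤ)) : sigmaXK ι B X (g : XX N) = sigmaGK ι B X g :=
  sigmaGK_eq_of_mk_eq ι B X (QuotientGroup.out_eq' _)

theorem sigmaXK_injective : Function.Injective (sigmaXK (K := K) ι B X) := by
  intro x y hxy
  obtain ⟨g, rfl⟩ := QuotientGroup.mk_surjective x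
  obtain ⟨g', rfl⟩ := QuotientGroup.mk_surjective y
  rw [sigmaXK_mk, sigmaXK_mk] at hxy
  have h1 := congrArg (fun s => s (inclRNK K N (jRK K N N dvd_rfl))) hxy
  simp only [sigmaGK_inclRNK, bridgeK_jRK] at h1
  have h2 := X.inj h1
  apply QuotientGroup.eq.mpr
  apply B.J_distinct
  intro τ
  have h3 := congrArg (fun h : B.Hol => (h : ℍ → ℂ) (g' • τ)) h2
  simp only [HolBase.compH_apply] at h3
  rw [← mul_smul, ← mul_smul, inv_mul_cancel, one_smul] at h3
  exact h3

theorem rotRel_sigmaGK (ε : SL(2, ℤ)) (R : RotData B X ε) (g : SL(2, ℤ)) (f : FFK K N) :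
    RotRel R.ζ (sigmaGK ι B X g f) (sigmaGK ι B X (ε⁻¹ * g) f) := by
  have hζ : R.ζ ≠ 0 := R.hζ.ne_zero R.m_pos.ne'
  obtain ⟨r, t, -, rfl⟩ := exists_div_inclRNK K N f
  rw [map_div₀, map_div₀]
  have key : ∀ r : RNK K N, RotRel R.ζ (sigmaGK ι B X g (inclRNK K N r))
      (sigmaGK ι B X (ε⁻¹ * g) (inclRNK K N r)) := by
    intro r
    rw [sigmaGK_inclRNK, sigmaGK_inclRNK, mul_inv_rev, inv_inv, HolBase.compH_mul]
    exact R.rot _
  exact (key r).div hζ (key t)

/-- `LocalData` from an expansion with rotation data. -/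
def mkLocalDataK (ε : SL(2, ℤ)) (R : RotData B X ε) (t : FFK K N) (u : LaurentSeries ℂ)
    (ht : ∀ g : SL(2, ℤ), sigmaGK ι B X g t = u) (hu : u.order = (R.m : ℤ)) :
    LocalData K (FFK K N) ℂ (XX N) t where
  m := R.m
  m_pos := R.m_pos
  ζ := R.ζ
  hζ := R.hζ
  ι := ι
  perm := permOf N ε⁻¹
  σ := sigmaXK ι B X
  σ_inj := sigmaXK_injective ι B X
  σ_const x c := sigmaGK_algebraMap ι B X _ c
  σ_t_eq x y := by
    show sigmaGK ι B X _ t = sigmaGK ι B X _ t
    rw [ht, ht]
  σ_t_order x := by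
    show (sigmaGK ι B X _ t).order = _
    rw [ht, hu]
  σ_perm_order x f := by
    obtain ⟨g, rfl⟩ := QuotientGroup.mk_surjective x
    have h : permOf N ε⁻¹ (g : XX N) = ((ε⁻¹ * g : SL(2, ℤ)) : XX N) := rfl
    rw [h, sigmaXK_mk, sigmaXK_mk]
    exact (rotRel_sigmaGK ι B X ε R g f).1
  σ_perm_leadingCoeff x f := by
    obtain ⟨g, rfl⟩ := QuotientGroup.mk_surjective x
    have h : permOf N ε⁻¹ (g : XX N) = ((ε⁻¹ * g : SL(2, ℤ)) : XX N) := rfl
    rw [h, sigmaXK_mk, sigmaXK_mk]
    exact (rotRel_sigmaGK ι B X ε R g f).2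

@[simp] theorem mkLocalDataK_perm (ε : SL(2, ℤ)) (R : RotData B X ε) (t : FFK K N)
    (u : LaurentSeries ℂ) (ht : ∀ g : SL(2, ℤ), sigmaGK ι B X g t = u)
    (hu : u.order = (R.m : ℤ)) :
    (mkLocalDataK ι B X ε R t u ht hu).perm = permOf N ε⁻¹ := rfl

@[simp] theorem mkLocalDataK_σ (ε : SL(2, ℤ)) (R : RotData B X ε) (t : FFK K N)
    (u : LaurentSeries ℂ) (ht : ∀ g : SL(2, ℤ), sigmaGK ι B X g t = u)
    (hu : u.order = (R.m : ℤ)) :
    (mkLocalDataK ι B X ε R t u ht hu).σ = sigmaXK ι B X := rfl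

@[simp] theorem mkLocalDataK_m (ε : SL(2, ℤ)) (R : RotData B X ε) (t : FFK K N)
    (u : LaurentSeries ℂ) (ht : ∀ g : SL(2, ℤ), sigmaGK ι B X g t = u)
    (hu : u.order = (R.m : ℤ)) :
    (mkLocalDataK ι B X ε R t u ht hu).m = R.m := rfl

@[simp] theorem mkLocalDataK_ζ (ε : SL(2, ℤ)) (R : RotData B X ε) (t : FFK K N)
    (u : LaurentSeries ℂ) (ht : ∀ g : SL(2, ℤ), sigmaGK ι B X g t = u)
    (hu : u.order = (R.m : ℤ)) :
    (mkLocalDataK ι B X ε R t u ht hu).ζ = R.ζ := rfl

end Fermat.Agent.S29.H282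

end
end
-- ===== PACK-END S29/H282/LocalK.lean

-- ===== PACK-BEGIN S29/H282/CoreK.lean
section


/-!
# S29 / M4b-K2 (helper282) — the local data of the function field over `K` at every point

Port of the second half of `Fermat/Agent/S24/Mod/H997Core.lean` from `(ℚ̄, ιK)` to an arbitrary
field `K` with `ι : K →+* ℂ`.
-/

set_option autoImplicit false

noncomputable section

open ModularCurve HahnSeries UpperHalfPlane
open scoped MatrixGroups

namespace Fermat.Agent.S29.H282

open Fermat.Agent.S24 Fermat.Agent.S24.H997 Fermat.Agent.S24.Deg457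

variable {K : Type*} [Field K] [Algebra ℚ K] (ι : K →+* ℂ)
variable {N : ℕ} [NeZero N] (A : AnalyticCore N)

/-- the local data at `∞` -/
def dataInfK : LocalData K (FFK K N) ℂ (XX N) (jFK K N)⁻¹ :=
  mkLocalDataK ι A.toHolBase A.toHolBase.qexpExpansion ModularGroup.T A.infRot (jFK K N)⁻¹
    (A.qexp (A.toHolBase.JH 1 (one_dvd N)))⁻¹
    (fun g => by rw [map_inv₀, sigmaGK_jFK]; rfl)
    (by
      rw [RotRel.order_inv' A.toHolBase.qexp_J_one_ne_zero, A.toHolBase.order_qexp_J_one, neg_neg]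
      rfl)

theorem sigmaGK_sub {a : K} {ε : SL(2, ℤ)} (P : PointData A.toHolBase (ι a) ε)
    (g : SL(2, ℤ)) :
    sigmaGK ι A.toHolBase P.X g (jFK K N - algebraMap K (FFK K N) a)
      = P.X.E (A.toHolBase.JH 1 (one_dvd N) - A.toHolBase.constH (ι a)) := by
  rw [map_sub, sigmaGK_jFK, sigmaGK_algebraMap, map_sub, P.X.const]

/-- the local data attached to point data over `a` -/
def dataOfPointK {a : K} {ε : SL(2, ℤ)} (P : PointData A.toHolBase (ι a) ε) :
    LocalData K (FFK K N) ℂ (XX N) (jFK K N - algebraMap K (FFK K N) a) :=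
  mkLocalDataK ι A.toHolBase P.X ε P.R _ _ (fun g => sigmaGK_sub ι A P g) P.order_J

/-- all the embeddings `σ_x` agree on `K(j)` -/
theorem sigmaXK_eq_on_adjoin (X : Expansion A.toHolBase) (x y : XX N) {f : FFK K N}
    (hf : f ∈ IntermediateField.adjoin K {jFK K N}) :
    sigmaXK ι A.toHolBase X x f = sigmaXK ι A.toHolBase X y f := by
  induction hf using IntermediateField.adjoin_induction with
  | mem z hz =>
      rw [Set.mem_singleton_iff] at hz
      subst hz
      show sigmaGK ι A.toHolBase X _ (jFK K N) = sigmaGK ι A.toHolBase X _ (jFK K N)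
      rw [sigmaGK_jFK, sigmaGK_jFK]
  | algebraMap c =>
      show sigmaGK ι A.toHolBase X _ _ = sigmaGK ι A.toHolBase X _ _
      rw [sigmaGK_algebraMap, sigmaGK_algebraMap]
  | add z w _ _ hz hw => rw [map_add, map_add, hz, hw]
  | inv z _ hz => rw [map_inv₀, map_inv₀, hz]
  | mul z w _ _ hz hw => rw [map_mul, map_mul, hz, hw]

include ι A in
/-- lower bound for the degree: `|SL₂(ℤ)/Γ₀(N)| ≤ [FFK K N : K(j)]`. -/
theorem card_le_finrankK
    [FiniteDimensional ↥(IntermediateField.adjoin K {jFK K N}) (FFK K N)] :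
    Nat.card (XX N) ≤ Module.finrank ↥(IntermediateField.adjoin K {jFK K N}) (FFK K N) := by
  classical
  set E := IntermediateField.adjoin K {jFK K N} with hE
  let X := A.toHolBase.qexpExpansion
  let x0 : XX N := ((1 : SL(2, ℤ)) : XX N)
  let ψ : ↥E →+* LaurentSeries ℂ := (sigmaXK ι A.toHolBase X x0).comp (algebraMap ↥E (FFK K N))
  letI : Algebra ↥E (LaurentSeries ℂ) := ψ.toAlgebra
  let a : XX N → (FFK K N →ₐ[↥E] LaurentSeries ℂ) := fun x =>
    { sigmaXK ι A.toHolBase X x with
      commutes' := fun y => sigmaXK_eq_on_adjoin ι A X x x0 y.2 }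
  have ha : Function.Injective a := by
    intro x y hxy
    apply sigmaXK_injective ι A.toHolBase X
    refine RingHom.ext fun f => ?_
    exact congrArg (fun φ : FFK K N →ₐ[↥E] LaurentSeries ℂ => φ f) hxy
  haveI : Module.Free ↥E (FFK K N) := Module.Free.of_divisionRing ↥E (FFK K N)
  haveI : Module.Finite ↥E (FFK K N) := ‹FiniteDimensional ↥E (FFK K N)›
  haveI : Finite (FFK K N →ₐ[↥E] LaurentSeries ℂ) :=
    Finite.algHom ↥E (FFK K N) (LaurentSeries ℂ)
  calc Nat.card (XX N) ≤ Nat.card (FFK K N →ₐ[↥E] LaurentSeries ℂ) :=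
        Nat.card_le_card_of_injective a ha
    _ ≤ Module.finrank ↥E (FFK K N) := card_algHom_le_finrank ↥E (FFK K N) (LaurentSeries ℂ)

/-- the stabiliser generator used over the point `a` -/
def epsAt (a : K) : SL(2, ℤ) :=
  letI := Classical.propDecidable
  if ι a = 0 then ModularGroup.S * ModularGroup.T
  else if ι a = 1728 then ModularGroup.S else 1

/-- the point data over the point `a` -/
def pointAt (a : K) : PointData A.toHolBase (ι a) (epsAt ι a) :=
  letI := Classical.propDecidable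
  if h0 : ι a = 0 then by
    rw [epsAt, if_pos h0, h0]; exact A.at0
  else if h1 : ι a = 1728 then by
    rw [epsAt, if_neg h0, if_pos h1, h1]; exact A.at1728
  else by
    rw [epsAt, if_neg h0, if_neg h1]; exact A.generic (ι a) h0 h1

/-- the local data over a finite point `a : K` -/
def dataFinK (a : K) : LocalData K (FFK K N) ℂ (XX N) (jFK K N - algebraMap K (FFK K N) a) :=
  dataOfPointK ι A (pointAt ι A a)

theorem dataFinK_perm (a : K) : (dataFinK ι A a).perm = permOf N (epsAt ι a)⁻¹ := rfl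

theorem dataFinK_σ (a : K) :
    (dataFinK ι A a).σ = sigmaXK ι A.toHolBase (pointAt ι A a).X := rfl

theorem dataFinK_m (a : K) : (dataFinK ι A a).m = (pointAt ι A a).R.m := rfl

theorem dataFinK_ζ (a : K) : (dataFinK ι A a).ζ = (pointAt ι A a).R.ζ := rfl

theorem dataInfK_perm : (dataInfK (K := K) ι A).perm = permOf N ModularGroup.T⁻¹ := rfl

theorem dataInfK_σ :
    (dataInfK (K := K) ι A).σ = sigmaXK ι A.toHolBase A.toHolBase.qexpExpansion := rfl

theorem dataInfK_m : (dataInfK (K := K) ι A).m = N := rfl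

end Fermat.Agent.S29.H282

end
end
-- ===== PACK-END S29/H282/CoreK.lean

-- ===== PACK-BEGIN S37/Red/H208/H1.lean
section
/-
S37 / RED-E2 (helper208, squad S28/S28): the four (H1) fields of `Red.Datum.Good`
for ANY reduction datum on `(F_N, F_{N,k})` whose coordinate is `j`.

  theorem good_H1 (N) [NeZero N] (A : ValuationSubring Qb) (hN : (N : kA A) ≠ 0)
      (G : Datum A (residue A) (FN N) (FNk A N))
      (hx  : ((G.x  : FN N)    : LaurentSeries Qb)     = jqModC Qb)
      (hxk : ((G.xk : FNk A N) : LaurentSeries (kA A)) = jqModC (kA A)) :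
      FiniteDimensional Qb⟮G.x⟯ (FN N) ∧ FiniteDimensional (kA A)⟮G.xk⟯ (FNk A N) ∧
      Algebra.IsSeparable (kA A)⟮G.xk⟯ (FNk A N) ∧
      Module.finrank Qb⟮G.x⟯ (FN N) = Module.finrank (kA A)⟮G.xk⟯ (FNk A N)

Both degrees are `ψ(N)` (`finrank_bar`, `finrank_k`).  Source: the uniform integral basis and the
separability theorem of `Fermat/Agent/S18/H208` (unconditional, on main).
-/





set_option autoImplicit false
set_option synthInstance.maxHeartbeats 400000
set_option linter.unusedSectionVars false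
set_option linter.style.haveILetI false

noncomputable section

namespace Fermat.Agent.S37.Red.H208

open ModularCurve AlgebraicCurve HahnSeries IsLocalRing IntermediateField Fermat.Agent.S28

section Generic

variable {k : Type} [Field k] {L : Type} [Field L] [Algebra k L] (F : IntermediateField k L)

/-- Elements of `k⟮x⟯ ⊆ F` lie in `k⟮x⟯ ⊆ L`. -/
theorem coe_mem_adjoin (x : F) (c : k⟮x⟯) : ((c : F) : L) ∈ k⟮(x : L)⟯ := by
  have h : (k⟮x⟯).map F.val = k⟮(x : L)⟯ := by
    rw [IntermediateField.adjoin_map, Set.image_singleton]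
    rfl
  rw [← h]
  exact ⟨(c : F), c.2, rfl⟩

/-- Elements of `k⟮x⟯ ⊆ L` come from `k⟮x⟯ ⊆ F`. -/
theorem exists_coe_eq (x : F) (d : k⟮(x : L)⟯) : ∃ c : k⟮x⟯, ((c : F) : L) = (d : L) := by
  have h : (k⟮x⟯).map F.val = k⟮(x : L)⟯ := by
    rw [IntermediateField.adjoin_map, Set.image_singleton]
    rfl
  have hd : (d : L) ∈ (k⟮x⟯).map F.val := by rw [h]; exact d.2
  obtain ⟨c, hc, hcd⟩ := hd
  exact ⟨⟨c, hc⟩, hcd⟩

/-- **Transfer of a basis** from the tower inside `L` to the tower of types. -/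
theorem finrank_of_basis (x : F) {n : ℕ} (v : Fin n → L) (hv : ∀ i, v i ∈ F)
    (hli : LinearIndependent k⟮(x : L)⟯ v)
    (hspan : ∀ y ∈ F, y ∈ Submodule.span k⟮(x : L)⟯ (Set.range v)) :
    FiniteDimensional k⟮x⟯ F ∧ Module.finrank k⟮x⟯ F = n := by
  classical
  set v' : Fin n → F := fun i => ⟨v i, hv i⟩ with hv'
  have hli' : LinearIndependent k⟮x⟯ v' := by
    rw [Fintype.linearIndependent_iff]
    intro c hc i
    have h1 : ∑ i, ((c i : F) : L) * v i = 0 := by
      have := congrArg (fun y : F => (y : L)) hc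
      simpa [Algebra.smul_def, hv'] using this
    have h2 := Fintype.linearIndependent_iff.mp hli
      (fun i => ⟨((c i : F) : L), coe_mem_adjoin F x (c i)⟩) (by
        simpa [IntermediateField.smul_def] using h1) i
    have h3 : ((c i : F) : L) = 0 := congrArg Subtype.val h2
    apply Subtype.ext
    apply Subtype.ext
    simpa using h3
  have hspan' : ⊤ ≤ Submodule.span k⟮x⟯ (Set.range v') := by
    intro y _
    obtain ⟨d, hd⟩ := (Submodule.mem_span_range_iff_exists_fun _).mp (hspan (y : L) y.2)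
    have hc : ∀ i, ∃ c : k⟮x⟯, ((c : F) : L) = (d i : L) := fun i => exists_coe_eq F x (d i)
    choose c hc using hc
    rw [Submodule.mem_span_range_iff_exists_fun]
    refine ⟨c, ?_⟩
    apply Subtype.ext
    rw [← hd]
    have : ((∑ i, c i • v' i : F) : L) = ∑ i, ((c i : F) : L) * v i := by
      rw [← IntermediateField.coe_val, map_sum]
      refine Finset.sum_congr rfl fun i _ => ?_
      simp [Algebra.smul_def, hv']
    rw [this]
    refine Finset.sum_congr rfl fun i _ => ?_
    rw [hc i, IntermediateField.smul_def, smul_eq_mul]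
  let b : Module.Basis (Fin n) k⟮x⟯ F := Module.Basis.mk hli' hspan'
  refine ⟨Module.Finite.of_basis b, ?_⟩
  rw [Module.finrank_eq_card_basis b, Fintype.card_fin]

/-- **Transfer of separability.** -/
theorem isSeparable_of_forall (x : F)
    (hsep : ∀ y ∈ F, IsSeparable k⟮(x : L)⟯ y) : Algebra.IsSeparable k⟮x⟯ F := by
  refine ⟨fun y => ?_⟩
  -- the comparison ring hom `k⟮x⟯ → k⟮x⟯`
  let φ : k⟮x⟯ →+* k⟮(x : L)⟯ :=
    { toFun := fun c => ⟨((c : F) : L), coe_mem_adjoin F x c⟩
      map_one' := rfl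
      map_mul' := fun _ _ => rfl
      map_zero' := rfl
      map_add' := fun _ _ => rfl }
  have hφsurj : Function.Surjective φ := by
    intro d
    obtain ⟨c, hc⟩ := exists_coe_eq F x d
    exact ⟨c, Subtype.ext hc⟩
  have hy := hsep (y : L) y.2
  obtain ⟨Q, hQ⟩ := Polynomial.map_surjective φ hφsurj (minpoly k⟮(x : L)⟯ (y : L))
  have hQsep : Q.Separable := by
    have : (Q.map φ).Separable := by rw [hQ]; exact hy
    exact (Polynomial.separable_map φ).mp this
  have hcomp : (F.val : F →+* L).comp (algebraMap k⟮x⟯ F) =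
      (algebraMap k⟮(x : L)⟯ L).comp φ := by
    ext c
    rfl
  have hroot : Polynomial.aeval y Q = 0 := by
    apply F.val.injective
    have h1 : (F.val : F →+* L) (Polynomial.eval₂ (algebraMap k⟮x⟯ F) y Q) =
        Polynomial.eval₂ ((F.val : F →+* L).comp (algebraMap k⟮x⟯ F)) ((F.val : F →+* L) y) Q :=
      Polynomial.hom_eval₂ _ _ _ _
    rw [hcomp, ← Polynomial.eval₂_map, hQ] at h1
    have h2 : Polynomial.eval₂ (algebraMap k⟮(x : L)⟯ L) (y : L)
        (minpoly k⟮(x : L)⟯ (y : L)) = 0 := minpoly.aeval _ _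
    rw [map_zero, Polynomial.aeval_def]
    exact h1.trans h2
  exact hQsep.of_dvd (minpoly.dvd _ _ hroot)

/-- `finrank_of_basis` with the coordinate given by an equation. -/
theorem finrank_of_basis' (x : F) {t : L} (ht : (x : L) = t) {n : ℕ} (v : Fin n → L)
    (hv : ∀ i, v i ∈ F) (hli : LinearIndependent k⟮t⟯ v)
    (hspan : ∀ y ∈ F, y ∈ Submodule.span k⟮t⟯ (Set.range v)) :
    FiniteDimensional k⟮x⟯ F ∧ Module.finrank k⟮x⟯ F = n := by
  subst ht
  exact finrank_of_basis F x v hv hli hspan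

/-- `isSeparable_of_forall` with the coordinate given by an equation. -/
theorem isSeparable_of_forall' (x : F) {t : L} (ht : (x : L) = t)
    (hsep : ∀ y ∈ F, IsSeparable k⟮t⟯ y) : Algebra.IsSeparable k⟮x⟯ F := by
  subst ht
  exact isSeparable_of_forall F x hsep

end Generic

section Modular

variable (N : ℕ) [NeZero N]

/-- `[F_{N,k} : k(x)] = ψ(N)` for every `x ∈ F_{N,k}` with `q`-expansion `j`
(`N` invertible in `k`). -/
theorem finrank_fullC (k : Type) [Field k] (hN : (N : k) ≠ 0)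
    (x : modularFunctionFieldFullC k N) (hx : (x : LaurentSeries k) = jqModC k) :
    FiniteDimensional k⟮x⟯ (modularFunctionFieldFullC k N) ∧
      Module.finrank k⟮x⟯ (modularFunctionFieldFullC k N) = dedekindPsi N := by
  obtain ⟨y, hy, h⟩ := S18.H208.M1.exists_basis N
  obtain ⟨hspan, hli⟩ := h k hN
  exact finrank_of_basis' (modularFunctionFieldFullC k N) x hx
    (fun i => coeffMap (Int.castRingHom k) (y i))
    (fun i => S18.H208.coeffMap_intCast_mem_full k N (hy i)) hli hspan

/-- `F_{N,k} / k(x)` is separable for every `x ∈ F_{N,k}` with `q`-expansion `j`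
(`N` invertible in `k`). -/
theorem isSeparable_fullC (k : Type) [Field k] (hN : (N : k) ≠ 0)
    (x : modularFunctionFieldFullC k N) (hx : (x : LaurentSeries k) = jqModC k) :
    Algebra.IsSeparable k⟮x⟯ (modularFunctionFieldFullC k N) :=
  isSeparable_of_forall' (modularFunctionFieldFullC k N) x hx
    (fun _ hy => S18.H208.M1.isSeparable k N hN hy)

/-- `[F_N : Q̄(x)] = ψ(N)` for every `x ∈ F_N` with `q`-expansion `j`. -/
theorem finrank_bar (x : FN N) (hx : ((x : FN N) : LaurentSeries Qb) = jqModC Qb) :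
    FiniteDimensional Qb⟮x⟯ (FN N) ∧ Module.finrank Qb⟮x⟯ (FN N) = dedekindPsi N := by
  obtain ⟨y, hy, h⟩ := S18.H208.M1.exists_basis N
  obtain ⟨hspan, hli⟩ := h Qb (Nat.cast_ne_zero.mpr (NeZero.ne N))
  refine finrank_of_basis' (modularFunctionFieldBar N) x hx
    (fun i => coeffMap (Int.castRingHom Qb) (y i)) (fun i => ?_) hli (fun z hz => ?_)
  · rw [S28.H988.modularFunctionFieldBar_eq_fullC]
    exact S18.H208.coeffMap_intCast_mem_full Qb N (hy i)
  · rw [S28.H988.modularFunctionFieldBar_eq_fullC] at hz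
    exact hspan z hz

/-- `[F_{N,k} : k(x̄)] = ψ(N)` for the residue field `k` of `A`. -/
theorem finrank_k (A : ValuationSubring Qb) (hN : (N : kA A) ≠ 0) (x : FNk A N)
    (hx : ((x : FNk A N) : LaurentSeries (kA A)) = jqModC (kA A)) :
    FiniteDimensional (kA A)⟮x⟯ (FNk A N) ∧
      Module.finrank (kA A)⟮x⟯ (FNk A N) = dedekindPsi N :=
  finrank_fullC N (kA A) hN x hx

/-- **RED-E2**: the four (H1) fields of `Datum.Good`, for ANY reduction datum on
`(F_N, F_{N,k})` whose coordinate and reduced coordinate have `q`-expansion `j`. -/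
theorem good_H1 (A : ValuationSubring Qb) (hN : (N : kA A) ≠ 0)
    (G : Datum A (residue A) (FN N) (FNk A N))
    (hx : ((G.x : FN N) : LaurentSeries Qb) = jqModC Qb)
    (hxk : ((G.xk : FNk A N) : LaurentSeries (kA A)) = jqModC (kA A)) :
    FiniteDimensional Qb⟮G.x⟯ (FN N) ∧ FiniteDimensional (kA A)⟮G.xk⟯ (FNk A N) ∧
      Algebra.IsSeparable (kA A)⟮G.xk⟯ (FNk A N) ∧
      Module.finrank Qb⟮G.x⟯ (FN N) = Module.finrank (kA A)⟮G.xk⟯ (FNk A N) := by
  obtain ⟨h1, h2⟩ := finrank_bar N G.x hx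
  obtain ⟨h3, h4⟩ := finrank_k N A hN G.xk hxk
  exact ⟨h1, h3, isSeparable_fullC N (kA A) hN G.xk hxk, h2.trans h4.symm⟩

end Modular

end Fermat.Agent.S37.Red.H208

end

end
-- ===== PACK-END S37/Red/H208/H1.lean

-- ===== PACK-BEGIN S15/H602/IdentInf.lean
section








/-!
# S15 / GEO-PARTS (b) IDENT (helper602): zeros and poles of `j` under a place reduction

For ANY place reduction `r` in the sense of the Prelude (`IsPlaceReductionAlong A (residue A) N r`,
`A` a valuation subring of `ℚ̄` whose residue characteristic does not divide `N`):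

* `ord_red_pos_of_ord_pos602` : zeros of `j` reduce to zeros of `j̄`;
* `ord_red_neg_of_ord_neg602` : poles of `j` (cusps) reduce to poles of `j̄`.

Proof: conservation `r_* div j = div j̄` and `deg (j)_∞ = ψ(N) = deg (j̄)_∞` (no cancellation).
These are the hypotheses `hzero`, `hpole` of `H722.modInfCoord` / `H722.r_eq_cusp`.
-/

set_option autoImplicit false
set_option synthInstance.maxHeartbeats 400000

noncomputable section

open AlgebraicCurve ModularCurve HahnSeries IntermediateField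

namespace Fermat.Agent.S15.H602

section Pure

variable {α β : Type*}

theorem mapDomain_nonneg602 (r : α → β) (E : α →₀ ℤ) (hE : ∀ a, 0 ≤ E a) (b : β) :
    0 ≤ Finsupp.mapDomain r E b := by
  classical
  rw [mapDomain_apply_eq_sum602]
  refine Finset.sum_nonneg fun a _ => ?_
  split_ifs
  · exact hE a
  · exact le_rfl

theorem le_mapDomain602 (r : α → β) (E : α →₀ ℤ) (hE : ∀ a, 0 ≤ E a) (a : α) :
    E a ≤ Finsupp.mapDomain r E (r a) := by
  classical
  rw [mapDomain_apply_eq_sum602]
  by_cases ha : a ∈ E.support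
  · have hnn : ∀ c ∈ E.support, 0 ≤ (if r c = r a then E c else 0) := by
      intro c _
      split_ifs
      · exact hE c
      · exact le_rfl
    have := Finset.single_le_sum hnn ha
    rwa [if_pos rfl] at this
  · rw [Finsupp.notMem_support_iff.mp ha]
    refine Finset.sum_nonneg fun c _ => ?_
    split_ifs
    · exact hE c
    · exact le_rfl

/-- **No cancellation.**  If `r_* D = D̄` and the polar parts of `D` and `D̄` have the same
degree, then `r` maps poles to poles and zeros to zeros. -/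
theorem sign_of_mapDomain602 (r : α → β) (w : α → ℤ) (w' : β → ℤ) (hw' : ∀ b, 0 < w' b)
    (hww : ∀ a, w' (r a) = w a) (D : α →₀ ℤ) (Dbar : β →₀ ℤ)
    (h : Finsupp.mapDomain r D = Dbar)
    (Dm : α →₀ ℤ) (hDm : ∀ a, Dm a = max 0 (-D a))
    (Dbm : β →₀ ℤ) (hDbm : ∀ b, Dbm b = max 0 (-Dbar b))
    (hdeg : wdeg602 w Dm = wdeg602 w' Dbm) :
    ∀ a, (D a < 0 → Dbar (r a) < 0) ∧ (0 < D a → 0 < Dbar (r a)) := by
  classical
  set Dp : α →₀ ℤ := D + Dm with hDp
  have hDpa : ∀ a, Dp a = max 0 (D a) := by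
    intro a
    rw [hDp, Finsupp.add_apply, hDm]
    rcases le_total 0 (D a) with h0 | h0
    · rw [max_eq_left (by omega), max_eq_right h0]; ring
    · rw [max_eq_right (by omega), max_eq_left h0]; ring
  have hDm0 : ∀ a, 0 ≤ Dm a := fun a => by rw [hDm]; exact le_max_left _ _
  have hDp0 : ∀ a, 0 ≤ Dp a := fun a => by rw [hDpa]; exact le_max_left _ _
  set mp := Finsupp.mapDomain r Dp with hmp
  set mm := Finsupp.mapDomain r Dm with hmm
  have hmp0 : ∀ b, 0 ≤ mp b := mapDomain_nonneg602 r Dp hDp0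
  have hmm0 : ∀ b, 0 ≤ mm b := mapDomain_nonneg602 r Dm hDm0
  have hbar : ∀ b, Dbar b = mp b - mm b := by
    intro b
    have hD : D = Dp - Dm := by rw [hDp]; abel
    rw [← h, hD, Finsupp.mapDomain_sub, Finsupp.sub_apply]
  -- `E = mm - Dbm ≥ 0` has degree `0`
  have hE0 : ∀ b, 0 ≤ (mm - Dbm) b := by
    intro b
    rw [Finsupp.sub_apply, hDbm, hbar]
    have h1 := hmp0 b
    have h2 := hmm0 b
    rcases le_total 0 (-(mp b - mm b)) with h0 | h0
    · rw [max_eq_right h0]; omega
    · rw [max_eq_left h0]; omega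
  have hEdeg : wdeg602 w' (mm - Dbm) = 0 := by
    rw [map_sub, hmm, wdeg602_mapDomain' r w w' hww, hdeg, sub_self]
  have hE := eq_zero_of_wdeg602_eq_zero w' hw' _ hE0 hEdeg
  have hmmeq : ∀ b, mm b = max 0 (-(mp b - mm b)) := by
    intro b
    have := congrArg (fun f : β →₀ ℤ => f b) hE
    simp only [Finsupp.sub_apply, Finsupp.zero_apply] at this
    rw [hDbm, hbar] at this
    omega
  intro a
  constructor
  · intro ha
    have h1 : Dm a ≤ mm (r a) := le_mapDomain602 r Dm hDm0 a
    have h2 : 0 < Dm a := by rw [hDm, max_eq_right (by omega)]; omega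
    have h3 := hmmeq (r a)
    have h4 := hmp0 (r a)
    rw [hbar]
    rcases le_total 0 (-(mp (r a) - mm (r a))) with h0 | h0
    · rw [max_eq_right h0] at h3; omega
    · rw [max_eq_left h0] at h3; omega
  · intro ha
    have h1 : Dp a ≤ mp (r a) := le_mapDomain602 r Dp hDp0 a
    have h2 : 0 < Dp a := by rw [hDpa, max_eq_right (by omega)]; omega
    have h3 := hmmeq (r a)
    have h4 := hmm0 (r a)
    rw [hbar]
    rcases le_total 0 (-(mp (r a) - mm (r a))) with h0 | h0
    · rw [max_eq_right h0] at h3; omega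
    · rw [max_eq_left h0] at h3; omega

end Pure

section Modular

open Fermat.Agent.S15.H722 Fermat.Agent.Lib.RR Fermat.Agent.S37.Red

variable (N : ℕ) [NeZero N] (A : ValuationSubring (AlgebraicClosure ℚ))

omit [NeZero N] in
theorem transcendental_jF602 : Transcendental (AlgebraicClosure ℚ) (jF (AlgebraicClosure ℚ) N) := by
  intro h
  apply Fermat.Agent.S18.H905.transcendental_jqModC (AlgebraicClosure ℚ)
  exact (isAlgebraic_algHom_iff
    (laurentBaseChange (AlgebraicClosure ℚ) (modularFunctionFieldFull N)).val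
    Subtype.val_injective).mpr h

/-- **Zeros and poles of `j` reduce to zeros and poles of `j̄`.** -/
theorem sign_red_jF602 (hN : (N : IsLocalRing.ResidueField A) ≠ 0)
    (r : Place (AlgebraicClosure ℚ)
        (laurentBaseChange (AlgebraicClosure ℚ) (modularFunctionFieldFull N)) →
      Place (IsLocalRing.ResidueField A) (modularFunctionFieldFullC (IsLocalRing.ResidueField A) N))
    (hr : IsPlaceReductionAlong A (IsLocalRing.residue A) N r)
    (P : Place (AlgebraicClosure ℚ)
        (laurentBaseChange (AlgebraicClosure ℚ) (modularFunctionFieldFull N))) :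
    (P.ord (jF (AlgebraicClosure ℚ) N) < 0 →
        (r P).ord (jFk (IsLocalRing.ResidueField A) N) < 0) ∧
      (0 < P.ord (jF (AlgebraicClosure ℚ) N) →
        0 < (r P).ord (jFk (IsLocalRing.ResidueField A) N)) := by
  classical
  haveI : IsAlgClosed (IsLocalRing.ResidueField A) :=
    Fermat.Agent.S18.H9.resAlgClosed (AlgebraicClosure ℚ) A
  -- the two coordinates
  set x : FN N := jF (AlgebraicClosure ℚ) N with hx
  set xk : FNk A N := jFk (IsLocalRing.ResidueField A) N with hxk
  have hxt : Transcendental (AlgebraicClosure ℚ) x := transcendental_jF602 N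
  have hxkt : Transcendental (IsLocalRing.ResidueField A) xk :=
    Fermat.Agent.S18.H739.transcendental_jC (IsLocalRing.ResidueField A) N
  obtain ⟨hfin, hrank⟩ := H208.finrank_bar N x rfl
  obtain ⟨hfink, hrankk⟩ := H208.finrank_k N A hN xk rfl
  haveI := hfin
  haveI := hfink
  have hdeg1 : ∀ v : Place (AlgebraicClosure ℚ) (FN N), v.deg = 1 := H560.hdeg_all x hxt
  have hdeg1k : ∀ v : Place (IsLocalRing.ResidueField A) (FNk A N), v.deg = 1 :=
    H560.hdeg_all xk hxkt
  -- conservation for `j`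
  have hπ : ∀ a : A, ¬ IsUnit a → IsLocalRing.residue A a = 0 := fun a ha =>
    (IsLocalRing.residue_eq_zero_iff a).mpr ((IsLocalRing.mem_maximalIdeal a).mpr ha)
  set Φ := modRedCore A (IsLocalRing.residue A) N hπ r hr with hΦ
  have hρ : Φ.ρ (jO A (IsLocalRing.residue A) N) = xk := redO_jO A (IsLocalRing.residue A) N
  have hρ0 : Φ.ρ (jO A (IsLocalRing.residue A) N) ≠ 0 := by
    rw [hρ]; exact jFk_ne_zero _ N
  have hcons : Finsupp.mapDomain r (H560.divF x hxt x) = H560.divF xk hxkt xk := by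
    ext Q
    have := Φ.red (jO A (IsLocalRing.residue A) N) hρ0 (H560.divF x hxt x)
      (fun P => by rw [H560.divF_apply, coe_jO]) Q
    rw [hρ] at this
    rw [H560.divF_apply]
    exact this
  have hdeg : wdeg602 (fun v : Place (AlgebraicClosure ℚ) (FN N) => (v.deg : ℤ))
        (H560.poleD x hxt x) =
      wdeg602 (fun v : Place (IsLocalRing.ResidueField A) (FNk A N) => (v.deg : ℤ))
        (H560.poleD xk hxkt xk) := by
    rw [← degree_eq_wdeg602', ← degree_eq_wdeg602', H560.degree_poleD x hxt x hxt,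
      H560.degree_poleD xk hxkt xk hxkt, hrank, hrankk]
  have key := sign_of_mapDomain602 r (fun v => (v.deg : ℤ)) (fun v => (v.deg : ℤ))
    (fun b => by rw [hdeg1k b]; norm_num) (fun a => by rw [hr.1 a])
    (H560.divF x hxt x) (H560.divF xk hxkt xk) hcons
    (H560.poleD x hxt x) (fun a => by rw [H560.poleD_apply, H560.divF_apply])
    (H560.poleD xk hxkt xk) (fun b => by rw [H560.poleD_apply, H560.divF_apply]) hdeg P
  rw [H560.divF_apply, H560.divF_apply] at key
  exact key

end Modular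

end Fermat.Agent.S15.H602

end

end
-- ===== PACK-END S15/H602/IdentInf.lean

-- ===== PACK-BEGIN S15/H962/GeoK.lean
section



/-!
# Row S15, node GEO-PARTS (helper962): the subgroup `K` — FROZEN DEFINITIONS

`GeoPartsStatement p` (`H962/IterRed.lean`) asks, at every multiplicative prime `q ≠ p` and every
place `A ∣ q` of `ℚ̄`, for a subgroup `K` of `J₀(p)` with

* (a) `T K ⊆ K` for the Hecke operators `T_ℓ`, `ℓ ≠ p`;
* (b) `sp₀ = 0` on `K`;
* (c) `D ∈ K` if `Q ∉ E⁰`, `D + c ∈ K` if `Q ∈ E⁰`.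

This file fixes `K := discK p A P₀` once and for all (`v = A.valuation`, multiplicative notation):

* `InDiscZero p A P`  : `P` has values `j(P) = a`, `j_p(P) = a'` with `1 < v a`, `(v a')^p = v a`
  (the residue disc of the cusp `0`, the cusp itself excluded);
* `InDiscInfty p A P` : the same with `v a' = (v a)^p` (the residue disc of the cusp `∞`);
* `discGens p A P₀`   : the classes `cl((P) - (P₀))`, `P` in the first disc, and
  `cl((P) - (∞))`, `P` in the second disc;
* `discK p A P₀`      : the subgroup of `J₀(p)` generated by them.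

Values are `H542.HasValueAt` (`0 < ord_P (f - a)`), functions are `H542.jBar p`, `H542.jNBar p`.
The three statements (a), (b), (c) for this `K` are `PropagationStatement`, `KilledStatement`
(per specialisation map) and helper542's DISC.
-/

set_option autoImplicit false

noncomputable section

open AlgebraicCurve ModularCurve

namespace Fermat.Agent.S15.H962

open Fermat.Agent.S15.Core Fermat.Agent.S15.H542

variable (p : ℕ) [NeZero p]

/-- The residue disc of the cusp `0` at `A` (cusp excluded): `j(P) = a`, `j_p(P) = a'`,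
`1 < v a`, `(v a')^p = v a`. -/
def InDiscZero (A : ValuationSubring (AlgebraicClosure ℚ))
    (P : Place (AlgebraicClosure ℚ) (modularFunctionFieldBar p)) : Prop :=
  ∃ a a' : AlgebraicClosure ℚ, HasValueAt P (H542.jBar p) a ∧ HasValueAt P (jNBar p) a' ∧
    1 < A.valuation a ∧ A.valuation a' ^ p = A.valuation a

/-- The residue disc of the cusp `∞` at `A` (cusp excluded): `j(P) = a`, `j_p(P) = a'`,
`1 < v a`, `v a' = (v a)^p`. -/
def InDiscInfty (A : ValuationSubring (AlgebraicClosure ℚ))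
    (P : Place (AlgebraicClosure ℚ) (modularFunctionFieldBar p)) : Prop :=
  ∃ a a' : AlgebraicClosure ℚ, HasValueAt P (H542.jBar p) a ∧ HasValueAt P (jNBar p) a' ∧
    1 < A.valuation a ∧ A.valuation a' = A.valuation a ^ p

/-- The generators of `K`. -/
def discGens (A : ValuationSubring (AlgebraicClosure ℚ))
    (P₀ : Place (AlgebraicClosure ℚ) (modularFunctionFieldBar p)) : Set (JZero p) :=
  {z | ∃ P, InDiscZero p A P ∧ IsDiffClass P P₀ z} ∪
    {z | ∃ P, InDiscInfty p A P ∧ IsDiffClass P (cuspInfty p) z}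

/-- **The subgroup `K`** of GEO-PARTS. -/
def discK (A : ValuationSubring (AlgebraicClosure ℚ))
    (P₀ : Place (AlgebraicClosure ℚ) (modularFunctionFieldBar p)) : AddSubgroup (JZero p) :=
  AddSubgroup.closure (discGens p A P₀)

variable {p}

theorem mem_discK_of_inDiscZero {A : ValuationSubring (AlgebraicClosure ℚ)}
    {P₀ P : Place (AlgebraicClosure ℚ) (modularFunctionFieldBar p)} {z : JZero p}
    (hP : InDiscZero p A P) (hz : IsDiffClass P P₀ z) : z ∈ discK p A P₀ :=
  AddSubgroup.subset_closure (Or.inl ⟨P, hP, hz⟩)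

theorem mem_discK_of_inDiscInfty {A : ValuationSubring (AlgebraicClosure ℚ)}
    {P₀ P : Place (AlgebraicClosure ℚ) (modularFunctionFieldBar p)} {z : JZero p}
    (hP : InDiscInfty p A P) (hz : IsDiffClass P (cuspInfty p) z) : z ∈ discK p A P₀ :=
  AddSubgroup.subset_closure (Or.inr ⟨P, hP, hz⟩)

/-- A subgroup property holds on `K` as soon as it holds on the generators. -/
theorem discK_le {A : ValuationSubring (AlgebraicClosure ℚ)}
    {P₀ : Place (AlgebraicClosure ℚ) (modularFunctionFieldBar p)} {H : AddSubgroup (JZero p)}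
    (h₀ : ∀ P z, InDiscZero p A P → IsDiffClass P P₀ z → z ∈ H)
    (hInf : ∀ P z, InDiscInfty p A P → IsDiffClass P (cuspInfty p) z → z ∈ H) :
    discK p A P₀ ≤ H := by
  refine (AddSubgroup.closure_le H).mpr ?_
  rintro z (⟨P, hP, hz⟩ | ⟨P, hP, hz⟩)
  · exact h₀ P z hP hz
  · exact hInf P z hP hz

variable (p)

/-- **GEO-PARTS (a), PROPAGATION**: `K` is stable under every `T_ℓ`, `ℓ ≠ p`
(any valuation ring `A` of `ℚ̄`, no condition on the residue characteristic). -/
def PropagationStatement : Prop :=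
  p.Prime → ∀ (A : ValuationSubring (AlgebraicClosure ℚ))
    (P₀ : Place (AlgebraicClosure ℚ) (modularFunctionFieldBar p)), IsCuspZero p P₀ →
    ∀ ℓ : Nat.Primes, (ℓ : ℕ) ≠ p → ∀ z ∈ discK p A P₀, heckeOperatorBar p ℓ z ∈ discK p A P₀

/-- (a) in the form consumed by `GeoPartsStatement`. -/
theorem goodHecke_stable_of_propagation (h : PropagationStatement p) (hp : p.Prime)
    (A : ValuationSubring (AlgebraicClosure ℚ))
    (P₀ : Place (AlgebraicClosure ℚ) (modularFunctionFieldBar p)) (hP₀ : IsCuspZero p P₀)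
    (S : Set ℕ) : ∀ T ∈ goodHecke p S, ∀ z ∈ discK p A P₀, T z ∈ discK p A P₀ := by
  rintro T ⟨ℓ, hℓp, -, rfl⟩ z hz
  exact h hp A P₀ hP₀ ℓ hℓp z hz

/-- **GEO-PARTS (b), IDENTIFICATION**, for one specialisation map `sp₀`: `sp₀` kills `K` as soon
as it kills the classes of the differences of two places in the same residue disc. -/
def KilledBy {X : Type} [AddCommGroup X] (A : ValuationSubring (AlgebraicClosure ℚ))
    (P₀ : Place (AlgebraicClosure ℚ) (modularFunctionFieldBar p)) (sp₀ : JZero p →+ X) : Prop :=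
  ∀ z ∈ discK p A P₀, sp₀ z = 0

variable {p}

theorem killedBy_of_gens {X : Type} [AddCommGroup X]
    {A : ValuationSubring (AlgebraicClosure ℚ)}
    {P₀ : Place (AlgebraicClosure ℚ) (modularFunctionFieldBar p)} {sp₀ : JZero p →+ X}
    (h₀ : ∀ P z, InDiscZero p A P → IsDiffClass P P₀ z → sp₀ z = 0)
    (hInf : ∀ P z, InDiscInfty p A P → IsDiffClass P (cuspInfty p) z → sp₀ z = 0) :
    KilledBy p A P₀ sp₀ := by
  intro z hz
  have : discK p A P₀ ≤ sp₀.ker := discK_le (fun P z hP hz => h₀ P z hP hz)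
    (fun P z hP hz => hInf P z hP hz)
  exact this hz

end Fermat.Agent.S15.H962

end

end
-- ===== PACK-END S15/H962/GeoK.lean

-- ===== PACK-BEGIN S15/H542/ModNode.lean
section





/-!
# S15, piece MOD: THE NODE, unconditional (helper542, architect)

`moduliPlace : ModuliPlaceStatement`.

For a prime `p ≥ 5`, an integral Weierstrass curve `W` with `2 ∣ Δ`, `2 ∤ c₄`, and a Galois-fixed
point `Q ∈ E(ℚ̄)` of order `p`: Vélu's curve `E' = E/⟨Q⟩` is nonsingular with rational
`j`-invariant, and there is a Galois-fixed place `P` of the function field of `X₀(p)` over `ℚ̄`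
with `j(P) = j(E)` and `j_p(P) = j(E')`.

Pieces: MOD-V, GLUE, MOD-A2 (helper542); MOD-A1 (helper602); MOD-B (helper215, with B3 by
helper902, addition theorem by helper226, modular shape of `Φ_p` by helper386, Newton polygon by
helper962).
-/

set_option autoImplicit false

namespace Fermat.Agent.S15.H542

/-- **The MOD node.** -/
theorem moduliPlace : ModuliPlaceStatement :=
  moduliPlace_of_pieces Fermat.Agent.S15.H602.placeOfModularPairStatement placeUnique
    Fermat.Agent.S15.H215.veluModularPair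

end Fermat.Agent.S15.H542

end
-- ===== PACK-END S15/H542/ModNode.lean

-- ===== PACK-BEGIN S37/H579/RimOfBase.lean
section










/-!
# S37 / node_rim — assembly through the `Red` route, from (H3) alone (helper579)

NODE [RIM] (`ReductionInputsModL A N`, the place reduction map with the Prelude's (i), (ii) and
PGI) for every prime `ℓ ∤ N` and every valuation subring `A ⊆ ℚ̄` over `ℓ`, from the ONE remaining
input: normality (H3) of the special fibre of the `j`-line model.

* `node_rim_of_lift` : from `LiftFin A N`, `LiftInf A N` ((H3) over `A`, `Core.IntElt` language =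
  the conclusions of `H448.lift_fin_of_base_liesOver` / `lift_inf_of_base_liesOver`);
* `node_rim_of_base` : from (H3) for the functions defined over `𝔽_ℓ` (hypotheses `hbase` of H448);
* `node_rim_of_ring` : from (H3) for a model over a base ring `R₀` (e.g. `ℤ_(ℓ)`), in the shape
  `h0` of `H448.base_fin_of_ring` (+ the analogous shape at infinity).

Chain (all landed, no further hypothesis): `Red.H940.mainStatement` (RED-MAIN, helper940/160/399),
`Red.modG` + `node_rim_of_modG` (helper40), `H568.valueGroupHyp_modular`, `H628.good_H1` (H1),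
`Red.H217.good_of` (H4' from H1), `H448` (ascent `𝔽_ℓ → k`, CoreData, PGI), `H700.pgi`.
New here: the bridge between the `q`-expansion language of (H3) and `Red.Datum.chart/chartk`
(`isIntegralElem_of_mem_chartk`, `mem_chart_of_isIntegralElem`, `lift_fin_modGj`,
`lift_inf_modGj`, `good_modGj`).
-/

set_option autoImplicit false
set_option synthInstance.maxHeartbeats 400000
set_option linter.unusedSectionVars false

noncomputable section

namespace Fermat.Agent.S37.H579.RimBase

open ModularCurve AlgebraicCurve HahnSeries IsLocalRing Polynomial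
open Fermat.Agent.S37.Red Fermat.Agent.S37.Core Fermat.Agent.S37.H448

/-! ### generic: integrality along ring homomorphisms -/

section Generic

variable {R R' S : Type*} [CommRing R] [CommRing R'] [CommRing S]

/-- integrality with respect to `h` lifts along a surjection `f` onto the source of `h` -/
theorem isIntegralElem_comp_of_surjective (f : R →+* R') (hf : Function.Surjective f)
    (h : R' →+* S) {x : S} (hx : h.IsIntegralElem x) : (h.comp f).IsIntegralElem x := by
  obtain ⟨p, hp, hpx⟩ := hx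
  have hl : p ∈ Polynomial.lifts f :=
    (Polynomial.lifts_iff_coeff_lifts p).mpr fun i => by
      obtain ⟨r, hr⟩ := hf (p.coeff i)
      exact ⟨r, hr⟩
  obtain ⟨q, hq, -, hqm⟩ := Polynomial.lifts_and_natDegree_eq_and_monic hl hp
  refine ⟨q, hqm, ?_⟩
  rw [← Polynomial.eval₂_map, hq, hpx]

/-- integrality over `k[s] ⊆ F`, transported along `ι : F → L`, in `IsIntegralElem` form -/
theorem isIntegralElem_of_isIntegral_adjoin {k F L : Type*} [Field k] [Field F] [CommRing L]
    [Algebra k F] (ι : F →+* L) (e : k[X] →+* L) {s c : F}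
    (he_C : ∀ a, e (Polynomial.C a) = ι (algebraMap k F a)) (he_X : e Polynomial.X = ι s)
    (hc : IsIntegral (Algebra.adjoin k ({s} : Set F)) c) : e.IsIntegralElem (ι c) := by
  let sB : Algebra.adjoin k ({s} : Set F) := ⟨s, Algebra.subset_adjoin rfl⟩
  let f : k[X] →+* Algebra.adjoin k ({s} : Set F) := (Polynomial.aeval sB).toRingHom
  have hf : Function.Surjective f := by
    intro b
    have hb : (b : F) ∈ (Polynomial.aeval (R := k) s).range := by
      rw [← Algebra.adjoin_singleton_eq_range_aeval]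
      exact b.2
    obtain ⟨p, hp⟩ := hb
    refine ⟨p, Subtype.ext ?_⟩
    show ((Polynomial.aeval sB p : Algebra.adjoin k ({s} : Set F)) : F) = b
    rw [Polynomial.aeval_subalgebra_coe]
    exact hp
  have h1 : (ι.comp (algebraMap (Algebra.adjoin k ({s} : Set F)) F)).IsIntegralElem (ι c) :=
    RingHom.IsIntegralElem.map hc ι
  have h2 := isIntegralElem_comp_of_surjective f hf _ h1
  have heq : (ι.comp (algebraMap (Algebra.adjoin k ({s} : Set F)) F)).comp f = e := by
    apply Polynomial.ringHom_ext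
    · intro a
      rw [he_C]
      show ι ((Polynomial.aeval sB (Polynomial.C a) : Algebra.adjoin k ({s} : Set F)) : F) = _
      rw [Polynomial.aeval_C]
      rfl
    · rw [he_X]
      show ι ((Polynomial.aeval sB Polynomial.X : Algebra.adjoin k ({s} : Set F)) : F) = _
      rw [Polynomial.aeval_X]
  rw [heq] at h2
  exact h2

/-- integrality w.r.t. a ring hom with range in a subring `T` gives integrality over `T` -/
theorem isIntegral_of_isIntegralElem_range_le {R L : Type*} [CommRing R] [CommRing L]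
    (e : R →+* L) (T : Subring L) (h : ∀ r, e r ∈ T) {x : L} (hx : e.IsIntegralElem x) :
    IsIntegral T x := by
  have h1 : (T.subtype.comp (e.codRestrict T h)).IsIntegralElem x := by
    have : T.subtype.comp (e.codRestrict T h) = e := RingHom.ext fun r => rfl
    rw [this]
    exact hx
  exact RingHom.IsIntegralElem.of_comp h1

/-- range of an evaluation `R[X] → L` lies in every subring containing the constants and the
point -/
theorem eval₂RingHom_mem {R L : Type*} [CommRing R] [CommRing L] (φ : R →+* L) (u : L)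
    (T : Subring L) (hC : ∀ a, φ a ∈ T) (hu : u ∈ T) (p : R[X]) :
    Polynomial.eval₂RingHom φ u p ∈ T := by
  show Polynomial.eval₂ φ u p ∈ T
  rw [Polynomial.eval₂_eq_sum_range]
  exact sum_mem fun i _ => mul_mem (hC _) (pow_mem hu i)

end Generic

/-! ### bridge `q`-expansion language ↔ `Red.Datum` language -/

section Bridge

variable {N : ℕ} {A : ValuationSubring Qb} (G : Datum A (residue A) (FN N) (FNk A N))

/-- `c ∈ G.chartk s` in `q`-expansion language -/
theorem isIntegralElem_of_mem_chartk {s c : FNk A N} (hc : c ∈ G.chartk s) :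
    (evalSer (kA A) (s : LaurentSeries (kA A))).IsIntegralElem (c : LaurentSeries (kA A)) := by
  have hc' : IsIntegral (Algebra.adjoin (kA A) {s}) c := hc
  refine isIntegralElem_of_isIntegral_adjoin (algebraMap (FNk A N) (LaurentSeries (kA A)))
    (evalSer (kA A) (s : LaurentSeries (kA A))) ?_ ?_ hc'
  · intro a
    rw [evalSer_C]
    show HahnSeries.C a = algebraMap (kA A) (LaurentSeries (kA A)) a
    rw [algebraMap_laurentSeries_eq_single]
    rfl
  · rw [evalSer_X]
    rfl

/-- `b ∈ G.chart t` from `q`-expansion language: `y ∈ A((q))` integral over `A[u]`, where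
`u ∈ A((q))` is the `q`-expansion of `t`. -/
theorem mem_chart_of_isIntegralElem {t b : FN N} (u y : LaurentSeries A)
    (hu : coeffMap A.subtype u = (t : LaurentSeries Qb))
    (hy : coeffMap A.subtype y = (b : LaurentSeries Qb))
    (hint : (evalSeries A u).IsIntegralElem y) : b ∈ G.chart t := by
  show IsIntegral (G.polyRing t) b
  refine Fermat.Agent.S37.Red.H759.isIntegral_of_map_subring
    (algebraMap (FN N) (LaurentSeries Qb)) (algebraMap (FN N) (LaurentSeries Qb)).injective _ ?_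
  have h1 : ((coeffMap A.subtype).comp (evalSeries A u)).IsIntegralElem
      (coeffMap A.subtype y) := RingHom.IsIntegralElem.map hint _
  have heq : (coeffMap A.subtype).comp (evalSeries A u) =
      Polynomial.eval₂RingHom ((coeffMap A.subtype).comp (HahnSeries.C : A →+* LaurentSeries A))
        (coeffMap A.subtype u) := by
    apply Polynomial.ringHom_ext
    · intro a
      simp [evalSeries]
    · simp [evalSeries]
  rw [heq, hy] at h1
  refine isIntegral_of_isIntegralElem_range_le _ _ (fun p => ?_) h1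
  refine eval₂RingHom_mem _ _ _ (fun a => ?_) ?_ p
  · refine Subring.mem_map.mpr ⟨algebraMap Qb (FN N) (a : Qb), ?_, ?_⟩
    · exact (le_sup_left : G.constRing ≤ G.polyRing t)
        (Subring.mem_map.mpr ⟨(a : Qb), a.2, rfl⟩)
    · show ((algebraMap Qb (FN N) (a : Qb) : FN N) : LaurentSeries Qb) = _
      rw [RingHom.comp_apply, coeffMap_C']
      show algebraMap Qb (LaurentSeries Qb) (a : Qb) = _
      rw [algebraMap_laurentSeries_eq_single]
      rfl
  · rw [hu]
    exact Subring.mem_map.mpr ⟨t, (le_sup_right : Subring.closure {t} ≤ G.polyRing t)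
      (Subring.subset_closure rfl), rfl⟩

end Bridge

/-! ### (H3) in `IntElt` language ⟹ `Good` ⟹ NODE [RIM] -/

section Lift

variable (A : ValuationSubring Qb) (N : ℕ)

/-- **(H3), finite chart, `IntElt` form** (conclusion of `H448.lift_fin_of_base_liesOver`):
every element of `F_k` integral over `k[j̄]` is the reduction of an `A`-integral `q`-series of
`F̄_N` integral over `A[j]`. -/
def LiftFin : Prop :=
  ∀ z : FNk A N, (evalSer (kA A) (jqModC (kA A))).IsIntegralElem (z : LaurentSeries (kA A)) →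
    ∃ c : IntElt A N, c.IsFin ∧ c.sp = z

/-- **(H3), chart at infinity, `IntElt` form** (conclusion of
`H448.lift_inf_of_base_liesOver`). -/
def LiftInf : Prop :=
  ∀ z : FNk A N, (evalSer (kA A) (jqModC (kA A))⁻¹).IsIntegralElem (z : LaurentSeries (kA A)) →
    ∃ c : IntElt A N, c.IsInf ∧ c.sp = z

variable {A N}

theorem coe_x_modGj (hVG : ModVG N A) (htr : Transcendental (kA A) (jk N A)) :
    (((modGj hVG htr).x : FN N) : LaurentSeries Qb) = jqModC Qb :=
  coeffMap_jqModC A.subtype

theorem xk_modGj (hVG : ModVG N A) (htr : Transcendental (kA A) (jk N A)) :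
    (modGj hVG htr).xk = jk N A :=
  modρ_ofSeries hVG (jqModC A) (coeffMap_jqModC_mem_bar N A) (coeffMap_jqModC_mem_fullC N A)

theorem coe_xk_modGj (hVG : ModVG N A) (htr : Transcendental (kA A) (jk N A)) :
    (((modGj hVG htr).xk : FNk A N) : LaurentSeries (kA A)) = jqModC (kA A) := by
  rw [xk_modGj]
  exact coeffMap_jqModC (residue A)

/-- field `lift_fin` of `Good` for the modular datum with coordinate `j` -/
theorem lift_fin_modGj (hVG : ModVG N A) (htr : Transcendental (kA A) (jk N A))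
    (h : LiftFin A N) :
    ∀ c ∈ (modGj hVG htr).chartk (modGj hVG htr).xk,
      ∃ b ∈ (modGj hVG htr).chart (modGj hVG htr).x,
        ∃ hb : b ∈ (modGj hVG htr).O, (modGj hVG htr).ρ ⟨b, hb⟩ = c := by
  intro c hc
  have h1 := isIntegralElem_of_mem_chartk (modGj hVG htr) hc
  rw [coe_xk_modGj] at h1
  obtain ⟨c', hfin, hsp⟩ := h c h1
  obtain ⟨hO, hρ⟩ := modG_link hVG c'.y c'.mem c'.memk
  refine ⟨c'.gen, ?_, hO, ?_⟩
  · exact mem_chart_of_isIntegralElem (modGj hVG htr) (jqModC A) c'.y rfl rfl hfin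
  · exact hρ.trans hsp

/-- field `lift_inf` of `Good` for the modular datum with coordinate `j` -/
theorem lift_inf_modGj (hVG : ModVG N A) (htr : Transcendental (kA A) (jk N A))
    (h : LiftInf A N) :
    ∀ c ∈ (modGj hVG htr).chartk (modGj hVG htr).xk⁻¹,
      ∃ b ∈ (modGj hVG htr).chart (modGj hVG htr).x⁻¹,
        ∃ hb : b ∈ (modGj hVG htr).O, (modGj hVG htr).ρ ⟨b, hb⟩ = c := by
  intro c hc
  have h1 := isIntegralElem_of_mem_chartk (modGj hVG htr) hc
  have h2 : ((((modGj hVG htr).xk)⁻¹ : FNk A N) : LaurentSeries (kA A)) =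
      (jqModC (kA A))⁻¹ := by
    rw [IntermediateField.coe_inv, coe_xk_modGj]
  rw [h2] at h1
  obtain ⟨c', ⟨u, hu, hint⟩, hsp⟩ := h c h1
  obtain ⟨hO, hρ⟩ := modG_link hVG c'.y c'.mem c'.memk
  refine ⟨c'.gen, ?_, hO, ?_⟩
  · refine mem_chart_of_isIntegralElem (modGj hVG htr) u c'.y ?_ rfl hint
    rw [IntermediateField.coe_inv, coe_x_modGj]
    have h3 := congrArg (coeffMap A.subtype) hu
    rw [map_mul, map_one, coeffMap_jqModC] at h3
    exact eq_inv_of_mul_eq_one_left h3
  · exact hρ.trans hsp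

end Lift

section Node

variable (N : ℕ) [NeZero N] {ℓ : ℕ} (hℓ : ℓ.Prime) (hℓN : ¬ ℓ ∣ N)
  (A : ValuationSubring Qb) (hA : A.LiesOverPrime ℓ)

include hℓ hℓN hA

/-- the value-group hypothesis for the modular function fields -/
theorem modVG : ModVG N A :=
  Fermat.Agent.S37.H568.valueGroupHyp_modular (coreData_residueField N hℓ hℓN A hA)

omit [NeZero N] hℓ hℓN hA in
/-- `j̄` is transcendental over `k` -/
theorem transcendental_jk : Transcendental (kA A) (jk N A) := by
  have h := Fermat.Agent.S18.H739.transcendental_jC (kA A) N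
  have heq : jk N A = ⟨jqModC (kA A), jqModC_mem_full (kA A) N⟩ := by
    apply Subtype.ext
    exact coeffMap_jqModC (residue A)
  rw [heq]
  exact h

/-- **`Good` for the modular datum with coordinate `j`, from (H3).** -/
theorem good_modGj (hfin : LiftFin A N) (hinf : LiftInf A N) :
    (modGj (modVG N hℓ hℓN A hA) (transcendental_jk N A)).Good := by
  obtain ⟨h1, h2, h3, h4⟩ := Fermat.Agent.S37.H628.good_H1 N hℓ hℓN A hA
    (modGj (modVG N hℓ hℓN A hA) (transcendental_jk N A))
    (coe_x_modGj _ _) (coe_xk_modGj _ _)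
  exact Fermat.Agent.S37.Red.H217.good_of _ h1 h2 h3 h4
    (lift_fin_modGj _ _ hfin) (lift_inf_modGj _ _ hinf)

/-- **NODE [RIM] from (H3) in `IntElt` form** (`ℓ ∤ N`, any `ℓ`). -/
theorem node_rim_of_lift (hfin : LiftFin A N) (hinf : LiftInf A N) :
    ReductionInputsModL A N :=
  node_rim_of_modG Fermat.Agent.S37.Red.H940.mainStatement (modVG N hℓ hℓN A hA) (jqModC A)
    (coeffMap_jqModC_mem_bar N A) (coeffMap_jqModC_mem_fullC N A) (transcendental_jk N A)
    (good_modGj N hℓ hℓN A hA hfin hinf)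
    (principalGeneratedByIntegral N hℓ hℓN A hA)

end Node

section NodeBase

variable (N : ℕ) [NeZero N] {ℓ : ℕ} [hF : Fact ℓ.Prime] (hℓN : ¬ ℓ ∣ N)
  (A : ValuationSubring Qb) (hA : A.LiesOverPrime ℓ)

include hF hℓN hA

/-- **NODE [RIM] from (H3) over `𝔽_ℓ`** (the hypotheses `hbase` of
`H448.lift_fin_of_base_liesOver` / `lift_inf_of_base_liesOver`): normality of the special fibre
is needed only for the functions defined over `𝔽_ℓ`. -/
theorem node_rim_of_base
    (hbfin : ∀ (φ : ZMod ℓ →+* kA A) (w : LaurentSeries (ZMod ℓ)),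
      w ∈ modularFunctionFieldFullC (ZMod ℓ) N →
      (evalSer (ZMod ℓ) (jqModC (ZMod ℓ))).IsIntegralElem w →
      ∃ c : IntElt A N, c.IsFin ∧ coeffMap (residue A) c.y = coeffMap φ w)
    (hbinf : ∀ (φ : ZMod ℓ →+* kA A) (w : LaurentSeries (ZMod ℓ)),
      w ∈ modularFunctionFieldFullC (ZMod ℓ) N →
      (evalSer (ZMod ℓ) (jqModC (ZMod ℓ))⁻¹).IsIntegralElem w →
      ∃ c : IntElt A N, c.IsInf ∧ coeffMap (residue A) c.y = coeffMap φ w) :
    ReductionInputsModL A N :=
  node_rim_of_lift N hF.out hℓN A hA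
    (fun z hz => lift_fin_of_base_liesOver A hA hbfin z hz)
    (fun z hz => lift_inf_of_base_liesOver A hA hbinf z hz)

/-- **NODE [RIM] from (H3) for a model over a base ring `R₀`** (e.g. `R₀ = ℤ_(ℓ)`):
* `h0fin` : every `w ∈ F_{N,𝔽_ℓ}` integral over `𝔽_ℓ[j̄]` is the reduction of a series
  `y₀ ∈ R₀((q))`, integral over `R₀[j]`, whose image in `ℚ̄((q))` lies in `F̄_N`;
* `h0inf` : the same with `j⁻¹` (`u₀ ∈ R₀((q))` the inverse of `j`). -/
theorem node_rim_of_ring {R₀ : Type*} [CommRing R₀] (ψ : R₀ →+* A) (ρ₀ : R₀ →+* ZMod ℓ)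
    (φ₀ : ZMod ℓ →+* kA A) (hcomp : (residue A).comp ψ = φ₀.comp ρ₀)
    (h0fin : ∀ w : LaurentSeries (ZMod ℓ), w ∈ modularFunctionFieldFullC (ZMod ℓ) N →
      (evalSer (ZMod ℓ) (jqModC (ZMod ℓ))).IsIntegralElem w →
      ∃ y₀ : LaurentSeries R₀,
        coeffMap (A.subtype.comp ψ) y₀ ∈ modularFunctionFieldBar N ∧
        (evalSer R₀ (jqModC R₀)).IsIntegralElem y₀ ∧ coeffMap ρ₀ y₀ = w)
    (h0inf : ∀ w : LaurentSeries (ZMod ℓ), w ∈ modularFunctionFieldFullC (ZMod ℓ) N →
      (evalSer (ZMod ℓ) (jqModC (ZMod ℓ))⁻¹).IsIntegralElem w →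
      ∃ u₀ y₀ : LaurentSeries R₀, u₀ * jqModC R₀ = 1 ∧
        coeffMap (A.subtype.comp ψ) y₀ ∈ modularFunctionFieldBar N ∧
        (evalSer R₀ u₀).IsIntegralElem y₀ ∧ coeffMap ρ₀ y₀ = w) :
    ReductionInputsModL A N := by
  have hφ : ∀ φ : ZMod ℓ →+* kA A, φ = φ₀ := fun φ => Subsingleton.elim _ _
  have hmemk := reduction_mem_fullC N hF.out hℓN A hA
  refine node_rim_of_base N hℓN A hA ?_ ?_
  · intro φ w hw hwi
    rw [hφ φ]
    exact base_fin_of_ring A ψ ρ₀ φ₀ hcomp hmemk h0fin w hw hwi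
  · intro φ w hw hwi
    rw [hφ φ]
    obtain ⟨u₀, y₀, hu, hy1, hy2, hy3⟩ := h0inf w hw hwi
    have hmem : coeffMap A.subtype (coeffMap ψ y₀) ∈ modularFunctionFieldBar N := by
      rw [coeffMap_coeffMap]
      exact hy1
    refine ⟨⟨coeffMap ψ y₀, hmem, hmemk _ hmem⟩, ⟨coeffMap ψ u₀, ?_, ?_⟩, ?_⟩
    · have h1 := congrArg (coeffMap ψ) hu
      rw [map_mul, map_one, coeffMap_jqModC] at h1
      exact h1
    · exact isIntegralElem_coeffMap ψ hy2
    · show coeffMap (residue A) (coeffMap ψ y₀) = coeffMap φ₀ w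
      rw [coeffMap_coeffMap, hcomp, ← coeffMap_coeffMap, hy3]

end NodeBase

end Fermat.Agent.S37.H579.RimBase

end
end
-- ===== PACK-END S37/H579/RimOfBase.lean

-- ===== PACK-BEGIN S29/H718/KAdd.lean
section
/-
S29 / layer M / sub-layer M4b, piece `K4-ADD` (helper718): additivity of the Kummer relation.
-/



set_option autoImplicit false

noncomputable section

open ModularCurve AlgebraicCurve CongruenceSubgroup UpperHalfPlane
open scoped MatrixGroups Manifold

namespace Fermat.Agent.S29.H718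

open Fermat.Agent.S24 Fermat.Agent.S29 Fermat.Agent.S29.M4b

/-- `ζ_p ^ p = 1`. -/
theorem zetaP_pow_self (p : ℕ) [NeZero p] : zetaP p ^ p = 1 := by
  unfold zetaP
  rw [← Complex.exp_nat_mul]
  have hp : (p : ℂ) ≠ 0 := Nat.cast_ne_zero.mpr (NeZero.ne p)
  rw [mul_div_cancel₀ _ hp]
  exact Complex.exp_two_pi_mul_I

/-- `ζ_p ^ (a + b).val = ζ_p ^ a.val * ζ_p ^ b.val` for `a b : ZMod p`. -/
theorem zetaP_pow_val_add (p : ℕ) [NeZero p] (a b : ZMod p) :
    zetaP p ^ (a + b).val = zetaP p ^ a.val * zetaP p ^ b.val := by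
  rw [← pow_add, ZMod.val_add]
  conv_rhs => rw [← Nat.mod_add_div (a.val + b.val) p]
  rw [pow_add, pow_mul, zetaP_pow_self, one_pow, mul_one]

end Fermat.Agent.S29.H718

namespace Fermat.Agent.S29.H718

open Fermat.Agent.S24 Fermat.Agent.S29 Fermat.Agent.S29.M4b

/-- A realised nonzero element is realised by a function which is not identically zero. -/
theorem exists_ne_zero_of_realises (N : ℕ) [NeZero N] {u : FF N} (hu : u ≠ 0) {G : ℍ → ℂ}
    (hG : Realises N u G) : ∃ τ : ℍ, G τ ≠ 0 := by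
  by_contra hcon
  push Not at hcon
  have hG0 : G = 0 := funext hcon
  have hmer : H708.IsMerInf 1 G := H882.isMerInf_of_mem_goodRing hG.1
  have h0 : H708.qexpFun 1 G = 0 := (H708.qexpFun_eq_zero_iff hmer).mpr hG0
  have h1 := hG.2
  rw [h0] at h1
  have h2 : ((u : FF N) : LaurentSeries Kbar) = 0 :=
    (coeffMap Deg457.iotaC).injective (by rw [← h1, map_zero])
  exact hu (Subtype.ext h2)

/-- Realisation is multiplicative. -/
theorem realises_mul (N : ℕ) [NeZero N] {u v : FF N} {G G' : ℍ → ℂ}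
    (hG : Realises N u G) (hG' : Realises N v G') : Realises N (u * v) (G * G') := by
  refine ⟨(H648.goodRing N).mul_mem hG.1 hG'.1, ?_⟩
  rw [H708.qexpFun_mul (H882.isMerInf_of_mem_goodRing hG.1)
    (H882.isMerInf_of_mem_goodRing hG'.1), hG.2, hG'.2, ← map_mul]
  rfl

/-- PIECE `K4-ADD`: additivity of the Kummer relation (product of the data). -/
theorem isKum_add (N : ℕ) [NeZero N] (p : ℕ) [NeZero p] {c c' : G0 N → ZMod p} {x x' : JZero N}
    (h : IsKum N p c x) (h' : IsKum N p c' x') : IsKum N p (c + c') (x + x') := by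
  obtain ⟨f, t, U, ht, hx, hU, hR⟩ := h
  obtain ⟨f', t', U', ht', hx', hU', hR'⟩ := h'
  have hpow : (fun τ => (U τ * U' τ) ^ p) = (fun τ => U τ ^ p) * (fun τ => U' τ ^ p) := by
    funext τ
    simp [mul_pow]
  have hprod : f * f' * (t * t') ^ p = (f * t ^ p) * (f' * t' ^ p) := by ring
  have hRR : Realises N (f * f' * (t * t') ^ p) (fun τ => (U τ * U' τ) ^ p) := by
    rw [hpow, hprod]
    exact realises_mul N hR hR'
  have hne : f * f' * (t * t') ^ p ≠ 0 :=
    mul_ne_zero (mul_ne_zero hx.ne_zero hx'.ne_zero) (pow_ne_zero _ (mul_ne_zero ht ht'))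
  refine ⟨f * f', t * t', fun τ => U τ * U' τ, mul_ne_zero ht ht', hx.add hx', ?_, hRR⟩
  refine ⟨hU.mdiff.mul hU'.mdiff, ?_, ?_, hRR.1⟩
  · obtain ⟨τ, hτ⟩ := exists_ne_zero_of_realises N hne hRR
    exact ⟨τ, fun h0 => hτ (by simp only [h0]; exact zero_pow (NeZero.ne p))⟩
  · intro γ τ
    show U ((γ : SL(2, ℤ)) • τ) * U' ((γ : SL(2, ℤ)) • τ) = _
    rw [hU.hasChar γ τ, hU'.hasChar γ τ, Pi.add_apply, zetaP_pow_val_add]
    ring

end Fermat.Agent.S29.H718

end
end
-- ===== PACK-END S29/H718/KAdd.lean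

-- ===== PACK-BEGIN S15/H379/T2.lean
section



/-!
# S15 / DESC, leaves T2-ω and T2-1 — VERBATIM (helper379)

`t2Omega : H975.T2OmegaStatement` and `t2One : H975.T2OneStatement`, the frozen leaves of
`Fermat/Agent/S15/H975/DescSpec.lean`, from `peuKummer_of_hopfModel` / `peu1_of_hopfModel`
(`Peu.lean`; the mathematics is the S56 FLAT-O library: `flatUnit`, `flatInertia`, `unrVal`).
-/

set_option autoImplicit false
set_option linter.unusedSectionVars false
set_option linter.style.haveILetI false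

noncomputable section

namespace Fermat.Agent.S15.H379

open Fermat.Agent.S15

/-- There is a valuation subring of `ℚ̄` over every prime number. -/
theorem exists_valuationSubring_liesOver (r : ℕ) (hr : r.Prime) :
    ∃ A : ValuationSubring H975.Qb, A.LiesOverPrime r := by
  let A₀ : Subring H975.Qb := (algebraMap ℤ H975.Qb).range
  let l₀ : A₀ := ⟨((r : ℕ) : H975.Qb), ⟨((r : ℕ) : ℤ), by simp⟩⟩
  have hI : Ideal.span {l₀} ≠ ⊤ := by
    intro h
    rw [Ideal.span_singleton_eq_top] at h
    obtain ⟨⟨m, n, rfl⟩, hm⟩ := h.exists_right_inv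
    have h1 : (((r : ℕ) : ℤ) : H975.Qb) * ((n : ℤ) : H975.Qb) = 1 := by
      have := congrArg Subtype.val hm
      simpa [l₀] using this
    have h2 : ((r : ℕ) : ℤ) * n = 1 := by exact_mod_cast h1
    have h3 : ((r : ℕ) : ℤ) ∣ 1 := ⟨n, h2.symm⟩
    have h4 : (r : ℤ) ≤ 1 := Int.le_of_dvd one_pos h3
    have := hr.two_le
    omega
  obtain ⟨A, -, hA⟩ := Ideal.image_subset_nonunits_valuationSubring _ hI
  refine ⟨A, ?_⟩
  apply hA
  exact ⟨l₀, Ideal.subset_span rfl, rfl⟩

/-- A linear coordinate: if `e` is not a multiple of `y`, some additive `ξ : Q → 𝔽_r` has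
`ξ e = 1`, `ξ y = 0`. -/
theorem exists_coord (r : ℕ) [Fact r.Prime] (Q : Type) [AddCommGroup Q] [Module (ZMod r) Q]
    (e y : Q) (he : ∀ c : ZMod r, c • y ≠ e) :
    ∃ ξ : Q →+ ZMod r, ξ e = 1 ∧ ξ y = 0 := by
  have hey : e ∉ Submodule.span (ZMod r) ({y} : Set Q) := by
    intro h
    obtain ⟨c, hc⟩ := Submodule.mem_span_singleton.mp h
    exact he c hc
  obtain ⟨f, hf, hfZ⟩ : ∃ f : Q →ₗ[ZMod r] ZMod r, f e ≠ 0 ∧
      (Submodule.span (ZMod r) ({y} : Set Q)).map f = ⊥ :=
    Submodule.exists_dual_map_eq_bot_of_notMem hey inferInstance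
  have hfy : f y = 0 := by
    have : f y ∈ (Submodule.span (ZMod r) ({y} : Set Q)).map f :=
      ⟨y, Submodule.subset_span rfl, rfl⟩
    rw [hfZ] at this
    exact (Submodule.mem_bot _).mp this
  refine ⟨(((f e)⁻¹ • f : Q →ₗ[ZMod r] ZMod r)).toAddMonoidHom, ?_, ?_⟩
  · show (f e)⁻¹ * f e = 1
    exact inv_mul_cancel₀ hf
  · show (f e)⁻¹ * f y = 0
    rw [hfy, mul_zero]

/-- **T2-1**, verbatim. -/
theorem t2One : H975.T2OneStatement := by
  intro r hr hr2 Q _ _ act hact hH e y hre hry hgen he hy A hA τ hτ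
  haveI : Fact r.Prime := ⟨hr⟩
  have hM : ∀ x : Q, r • x = 0 := by
    intro x
    obtain ⟨i, j, rfl⟩ := hgen x
    rw [nsmul_add, smul_comm r i e, smul_comm r j y, hre, hry, nsmul_zero, nsmul_zero,
      add_zero]
  have hnsmul : ∀ (σ : H975.Gal) (m : ℕ) (x : Q), act σ (m • x) = m • act σ x := by
    intro σ m x
    induction m with
    | zero =>
      rw [zero_nsmul, zero_nsmul]
      have h := hact.act_add σ 0 0
      rw [add_zero] at h
      exact left_eq_add.mp h
    | succ m ih => rw [succ_nsmul, succ_nsmul, hact.act_add, ih]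
  refine peu1_of_hopfModel r hr2 Q act hH hM A hA τ hτ y ?_
  intro τ' _
  obtain ⟨m, hm⟩ := hy τ
  rw [hm, add_sub_cancel_left, hnsmul, he]

/-- **T2-ω**, verbatim. -/
theorem t2Omega : H975.T2OmegaStatement := by
  intro r hr Q _ _ act hact hH e y hre hry he0 hindep hgen ζ hζ hωe a α ha hα hκ
  classical
  haveI : Fact r.Prime := ⟨hr⟩
  haveI : NeZero r := ⟨hr.ne_zero⟩
  have hM : ∀ x : Q, r • x = 0 := by
    intro x
    obtain ⟨i, j, rfl⟩ := hgen x
    rw [nsmul_add, smul_comm r i e, smul_comm r j y, hre, hry, nsmul_zero, nsmul_zero,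
      add_zero]
  have hnsmul : ∀ (σ : H975.Gal) (m : ℕ) (x : Q), act σ (m • x) = m • act σ x := by
    intro σ m x
    induction m with
    | zero =>
      rw [zero_nsmul, zero_nsmul]
      have h := hact.act_add σ 0 0
      rw [add_zero] at h
      exact left_eq_add.mp h
    | succ m ih => rw [succ_nsmul, succ_nsmul, hact.act_add, ih]
  obtain ⟨P, hP⟩ := exists_valuationSubring_liesOver r hr
  -- the `e`-coordinate
  obtain ⟨ξ, hξe, hξy⟩ : ∃ ξ : Q →+ ZMod r, ξ e = 1 ∧ ξ y = 0 := by
    refine @exists_coord r _ Q _ (AddCommGroup.zmodModule hM) e y ?_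
    intro c hc
    have h2 := @Nat.cast_smul_eq_nsmul (ZMod r) Q _ _ (AddCommGroup.zmodModule hM) c.val y
    rw [ZMod.natCast_zmod_val c] at h2
    rw [h2] at hc
    have h1 : c.val • y ∈ AddSubgroup.zmultiples e := by
      rw [hc]
      exact AddSubgroup.mem_zmultiples e
    obtain ⟨k, hk⟩ := hindep _ h1
    rw [hk, mul_nsmul', smul_comm, hry, nsmul_zero] at hc
    exact he0 hc.symm
  have hξm : ∀ m : ℕ, ξ (m • e) = (m : ZMod r) := by
    intro m
    rw [map_nsmul, hξe, nsmul_eq_mul, mul_one]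
  have hζr : ζ ^ r = 1 := hζ.pow_eq_one
  -- every `σ` moves `α` by a power of `ζ`
  have hαpow : ∀ σ : H975.Gal, ∃ m : ℕ, σ α = ζ ^ m * α := by
    intro σ
    have hα0 : α ≠ 0 := by
      intro h
      rw [h, zero_pow hr.ne_zero] at hα
      exact ha ((algebraMap ℚ H975.Qb).injective (by rw [← hα, map_zero]))
    have h1 : (σ α / α) ^ r = 1 := by
      rw [div_pow, ← map_pow, hα, AlgEquiv.commutes, div_self]
      rw [← hα]
      exact pow_ne_zero _ hα0
    obtain ⟨m, -, hm⟩ := hζ.eq_pow_of_pow_eq_one h1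
    exact ⟨m, by rw [hm, div_mul_cancel₀ _ hα0]⟩
  refine peuKummer_of_hopfModel r Q act hH hM P hP ζ hζ (AddSubgroup.zmultiples e) ?_ ?_ ξ y a ha
    α hα ?_
  · -- `I₁` fixes `⟨e⟩` pointwise
    intro σ _ hσζ t ht
    obtain ⟨k, rfl⟩ := AddSubgroup.mem_zmultiples_iff.mp ht
    have h1 : act σ e = e := by
      have := hωe σ 1 (by rw [pow_one]; exact hσζ)
      rwa [one_nsmul] at this
    have hneg : ∀ x : Q, act σ (-x) = - act σ x := by
      intro x
      have h0 : act σ 0 = 0 := by
        have h := hact.act_add σ 0 0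
        rw [add_zero] at h
        exact left_eq_add.mp h
      have h := hact.act_add σ x (-x)
      rw [add_neg_cancel, h0] at h
      exact (neg_eq_of_add_eq_zero_right h.symm).symm
    rcases Int.eq_nat_or_neg k with ⟨n, rfl | rfl⟩
    · rw [natCast_zsmul, hnsmul, h1]
    · rw [neg_zsmul, natCast_zsmul, hneg, hnsmul, h1]
  · -- `σ x - x ∈ ⟨e⟩`
    intro σ _ _ x
    obtain ⟨i, j, rfl⟩ := hgen x
    obtain ⟨m, hm⟩ := hαpow σ
    obtain ⟨k, hk⟩ : ∃ k : ℕ, σ ζ = ζ ^ k := by
      have h1 : (σ ζ) ^ r = 1 := by rw [← map_pow, hζr, map_one]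
      obtain ⟨k, -, hk⟩ := hζ.eq_pow_of_pow_eq_one h1
      exact ⟨k, hk.symm⟩
    rw [hact.act_add, hnsmul, hnsmul, hωe σ k hk, hκ σ m hm]
    have : i • k • e + j • (y + m • e) - (i • e + j • y) =
        ((i * k + j * m : ℕ) : ℤ) • e - (i : ℤ) • e := by
      rw [natCast_zsmul, natCast_zsmul, add_nsmul, mul_nsmul', mul_nsmul', nsmul_add]
      abel
    rw [this]
    exact AddSubgroup.sub_mem _ (AddSubgroup.zsmul_mem _ (AddSubgroup.mem_zmultiples e) _)
      (AddSubgroup.zsmul_mem _ (AddSubgroup.mem_zmultiples e) _)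
  · -- the Kummer cocycle
    intro σ _ _
    obtain ⟨m, hm⟩ := hαpow σ
    rw [hκ σ m hm, add_sub_cancel_left, hξm, ZMod.val_natCast, ← pow_eq_pow_mod _ hζr, hm]

end Fermat.Agent.S15.H379

end
end
-- ===== PACK-END S15/H379/T2.lean

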