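import Mathlib
import Fermat.Agent.Pack.S15.AE1L1
import Fermat.Agent.Pack.S15.AE5L2
import Fermat.Agent.Pack.S15.AE5L1
import Fermat.Agent.Pack.S15.AE2L2
import Fermat.Agent.Pack.S15.AE5L0
import Fermat.Agent.Pack.S15.AE3L2
import Fermat.Agent.Pack.S15.AE0L0
import Fermat.Agent.Pack.S15.AE0L2
import Fermat.Agent.Pack.S15.AE5L3
import Fermat.Agent.Pack.S15.AE4L2
import Fermat.Agent.Pack.S15.AE3L1
import Fermat.Agent.Pack.S15.AE3L0
import Fermat.Agent.Pack.S15.AE4L0
import Fermat.Agent.Pack.S15.AE0L3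
import Fermat.Agent.Pack.S15.AE2L1
import Fermat.Agent.Pack.S15.AE3L3
import Fermat.Agent.Pack.S15.AE0L1
import Fermat.Agent.Pack.S15.AE4L1

-- ===== PACK-BEGIN S29/HI.lean
section



/-!
# S29, layer M, piece `HI` (helper812): exact `SkeletonM` statement.
Proof in `Fermat/Agent/S29/H812/HeckeInputs.lean` (holds for every `ℓ ≠ 0`).
-/

set_option autoImplicit false

noncomputable section

namespace Fermat.Agent.S29

open ModularCurve AlgebraicCurve

variable (N : ℕ) [NeZero N]

/-- PIECE `HI`: the Prelude Hecke operator is the genuine correspondence (all six inputs hold). -/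
theorem heckeInputsAlong_bar (ℓ : ℕ) [NeZero ℓ] (_hℓ : ℓ.Prime) :
    HeckeInputsAlong (AlgebraicClosure ℚ) N ℓ :=
  H812.heckeInputsAlong N ℓ

end Fermat.Agent.S29

end
end
-- ===== PACK-END S29/HI.lean

-- ===== PACK-BEGIN S29/M1.lean
section





/-!
# S29, layer M, piece `M1` (helper801): exact `SkeletonM` statement

`heckeOperatorsCommuteBar : HeckeOperatorsCommuteBar N` — the Prelude Hecke operators
`heckeOperatorBar N ℓ` on `J₀(N)(ℚ̄) = Pic⁰(ℚ̄(X₀(N)))` commute.  This is the hypothesis `hcomm`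
of the frozen statement S37.

Purely algebraic proof (no places ↔ points dictionary): both `T_ℓ T_ℓ'` and `T_ℓ' T_ℓ` are the
correspondence through the common cover `F_{Nℓℓ'}`
(`H801.pic0_correspondence_comm`, on top of helper818's base-change lemma), with inputs
* `HI` at all levels (helper812 / helper864 / helper460),
* local generators from weak approximation (shared library RR, helper623),
* norm compatibility of the mixed square from `F_{Nℓℓ'} = F_{Nℓ} ⊔ V_ℓ(F_{Nℓ'})` and
  `[F_{Nℓℓ'} : F_{Nℓ}] = [F_{Nℓ'} : F_N]` (shared library X0DEG, helper760).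
-/

set_option autoImplicit false
set_option linter.style.haveILetI false

noncomputable section

namespace Fermat.Agent.S29

open ModularCurve AlgebraicCurve

/-- All inputs of the commutation theorem hold over `ℚ̄`. -/
theorem H801.m1Inputs_bar : H801.M1Inputs (AlgebraicClosure ℚ) where
  hi := fun M ℓ _ _ hℓ => heckeInputsAlong_bar M ℓ hℓ
  lg := fun M ℓ _ _ hℓ hα => by
    obtain ⟨_, _, hP, _, _, _⟩ := heckeInputsAlong_bar M ℓ hℓ
    haveI := hP
    exact H801.hasLocalGenerators_of_hasPrincipalDivisors _ hα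
  nc := fun N ℓ ℓ' _ _ _ hℓ hℓ' hne => H801.normCompat_bar N ℓ ℓ' hℓ hℓ' hne

variable (N : ℕ) [NeZero N]

/-- PIECE `M1`: Hecke operators on `J₀(N)(ℚ̄)` commute. -/
theorem heckeOperatorsCommuteBar : HeckeOperatorsCommuteBar N :=
  H801.heckeOperatorsCommuteBar_of_inputs H801.m1Inputs_bar N

end Fermat.Agent.S29

end

end
-- ===== PACK-END S29/M1.lean

-- ===== PACK-BEGIN S29/H102/KBasic.lean
section
/-
S29 / M4b / K4 (helper102) — basic lemmas shared by the K4 pieces.

* `KBasic_zetaP_pow`            : `zetaP p ^ p = 1`;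
* `KBasic_expGrowth_of_pow`     : `ExpGrowth (F ^ p) → ExpGrowth F` (`p ≠ 0`);
* `KBasic_mem_goodRing_of_pow`  : a holomorphic `Γ₀(N)`-invariant `V` with `V ^ p` good is good;
* `KBasic_realises_hasQExp`     : `Realises N u G → HasQExp 1 G (coeffMap iotaC u)`;
* `KBasic_exists_root`          : a good function `V` whose `p`-th power realises `w ∈ FF N`
                                  realises a `p`-th root `v ∈ FF N` of `w`
                                  (MERO + root descent + `F_ℂ ∩ ℚ̄((q)) = FF N`).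
-/




set_option autoImplicit false

noncomputable section

open ModularCurve AlgebraicCurve CongruenceSubgroup UpperHalfPlane
open scoped MatrixGroups Manifold

namespace Fermat.Agent.S29.H102

open Fermat.Agent.S24 Fermat.Agent.S29 Fermat.Agent.S29.M4b
open Fermat.Agent.S24.H648 Fermat.Agent.S24.H708

theorem KBasic_zetaP_pow (p : ℕ) [NeZero p] : zetaP p ^ p = 1 := by
  have hp : (p : ℂ) ≠ 0 := Nat.cast_ne_zero.mpr (NeZero.ne p)
  rw [zetaP, ← Complex.exp_nat_mul, mul_div_cancel₀ _ hp]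
  exact Complex.exp_two_pi_mul_I

theorem KBasic_zetaP_ne_zero (p : ℕ) : zetaP p ≠ 0 := Complex.exp_ne_zero _

/-- `ζ_p ^ a = 1` iff `p ∣ a`. -/
theorem KBasic_zetaP_pow_eq_one_iff (p : ℕ) [NeZero p] (a : ℕ) : zetaP p ^ a = 1 ↔ p ∣ a := by
  have h : IsPrimitiveRoot (zetaP p) p := by
    have := Complex.isPrimitiveRoot_exp p (NeZero.ne p)
    simpa [zetaP] using this
  exact h.pow_eq_one_iff_dvd a

/-- The character value only depends on the class mod `p`. -/
theorem KBasic_zetaP_pow_val_add (p : ℕ) [NeZero p] (a b : ZMod p) :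
    zetaP p ^ (a + b).val = zetaP p ^ a.val * zetaP p ^ b.val := by
  rw [← pow_add, ZMod.val_add]
  conv_rhs => rw [← Nat.mod_add_div (a.val + b.val) p]
  rw [pow_add, pow_mul, KBasic_zetaP_pow, one_pow, mul_one]

theorem KBasic_expGrowth_of_pow {F : ℍ → ℂ} {p : ℕ} (hp : p ≠ 0)
    (h : ExpGrowth (fun τ => F τ ^ p)) : ExpGrowth F := by
  obtain ⟨C, m, hC⟩ := h
  refine ⟨max C 1, m, fun τ hτ => ?_⟩
  have hexp : (1 : ℝ) ≤ Real.exp (2 * Real.pi * m * τ.im) := by
    apply Real.one_le_exp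
    have := Real.pi_pos
    have := τ.im_pos
    positivity
  have hmax1 : (1 : ℝ) ≤ max C 1 := le_max_right _ _
  by_cases h1 : ‖F τ‖ ≤ 1
  · calc ‖F τ‖ ≤ 1 := h1
      _ = 1 * 1 := (one_mul 1).symm
      _ ≤ max C 1 * Real.exp (2 * Real.pi * m * τ.im) :=
          mul_le_mul hmax1 hexp zero_le_one (le_trans zero_le_one hmax1)
  · have h1' : 1 ≤ ‖F τ‖ := le_of_lt (not_le.mp h1)
    have h2 : ‖F τ‖ ≤ ‖F τ‖ ^ p := le_self_pow₀ h1' hp
    have h3 : ‖F τ‖ ^ p ≤ C * Real.exp (2 * Real.pi * m * τ.im) := by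
      have := hC τ hτ
      rwa [norm_pow] at this
    calc ‖F τ‖ ≤ ‖F τ‖ ^ p := h2
      _ ≤ C * Real.exp (2 * Real.pi * m * τ.im) := h3
      _ ≤ max C 1 * Real.exp (2 * Real.pi * m * τ.im) :=
          mul_le_mul_of_nonneg_right (le_max_left _ _) (Real.exp_pos _).le

theorem KBasic_mem_goodRing_of_pow {N : ℕ} {V : ℍ → ℂ} {p : ℕ} (hp : p ≠ 0)
    (hV : MDifferentiable 𝓘(ℂ) 𝓘(ℂ) V)
    (hinv : ∀ γ ∈ Gamma0 N, ∀ τ : ℍ, V (γ • τ) = V τ)
    (hpow : (fun τ => V τ ^ p) ∈ goodRing N) : V ∈ goodRing N := by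
  refine ⟨hV, hinv, fun g => ?_⟩
  exact KBasic_expGrowth_of_pow hp (hpow.2.2 g)

variable {N : ℕ} [NeZero N]

theorem KBasic_realises_hasQExp {u : FF N} {G : ℍ → ℂ} (h : Realises N u G) :
    HasQExp 1 G (coeffMap Deg457.iotaC ((u : FF N) : LaurentSeries Kbar)) :=
  ⟨H882.isMerInf_of_mem_goodRing h.1, h.2⟩

theorem KBasic_coeffMap_iotaC_injective :
    Function.Injective (coeffMap Deg457.iotaC : LaurentSeries Kbar → LaurentSeries ℂ) := by
  intro x y h
  ext k
  have := congrArg (fun z : LaurentSeries ℂ => z.coeff k) h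
  simp only [coeffMap_coeff] at this
  exact Deg457.iotaC.injective this

/-- **Analytic `p`-th roots are algebraic.**  If `V` is good of level `N` and `V ^ p` realises
`w ∈ FF N`, then `V` realises some `v ∈ FF N` with `v ^ p = w`. -/
theorem KBasic_exists_root {p : ℕ} (hp : p ≠ 0) {V : ℍ → ℂ} (hV : V ∈ goodRing N) {w : FF N}
    (hw : Realises N w (fun τ => V τ ^ p)) :
    ∃ v : FF N, v ^ p = w ∧ Realises N v V := by
  have hVq : HasQExp 1 V (qexpFun 1 V) := H882.hasQExp_of_mem_goodRing hV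
  have hVp : HasQExp 1 (fun τ => V τ ^ p) (qexpFun 1 V ^ p) := hVq.pow p
  have hwq := KBasic_realises_hasQExp hw
  have heq : qexpFun 1 V ^ p = coeffMap Deg457.iotaC ((w : FF N) : LaurentSeries Kbar) :=
    hVp.unique hwq
  obtain ⟨v₀, hv₀⟩ := RootDesc_laurent Deg457.iotaC hp (qexpFun 1 V)
    ((w : FF N) : LaurentSeries Kbar) heq
  have hmem : v₀ ∈ modularFunctionFieldBar N := by
    apply H882.mem_laurentBaseChange_of_coeffMap_mem Deg457.iotaC (modularFunctionFieldFull N)
    rw [hv₀]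
    exact H882.qexpFun_mem_FC hV
  refine ⟨⟨v₀, hmem⟩, ?_, hV, hv₀.symm⟩
  apply Subtype.ext
  apply KBasic_coeffMap_iotaC_injective
  show coeffMap Deg457.iotaC (v₀ ^ p) = _
  rw [map_pow, hv₀, heq]

end Fermat.Agent.S29.H102

end
end
-- ===== PACK-END S29/H102/KBasic.lean

-- ===== PACK-BEGIN S29/H102/KUniq.lean
section
/-
S29 / M4b / PIECE `K4-UNIQ` (helper102): the Kummer class of a character is unique.

EXACT statement of `origin/helper822:Fermat/Agent/S29/M4b/Skeleton.lean` (`isKum_unique`):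

    theorem isKum_unique (N : ℕ) [NeZero N] (p : ℕ) [NeZero p] {c : G0 N → ZMod p}
        {x x' : JZero N} (h : IsKum N p c x) (h' : IsKum N p c x') : x = x'

Proof.  Data `(f, t, U)`, `(f', t', U')`.  `V := U * U' ^ (p-1)` has trivial character and
`V ^ p = U ^ p * (U' ^ p) ^ (p-1)` is good, so `V` is good and realises a `p`-th root `v ∈ FF N`
of `w := (f t^p) (f' t'^p)^(p-1)` (`KBasic_exists_root`: MERO + root descent + coefficient
descent).  Hence `f * f' ^ (p-1) = (v / (t * t' ^ (p-1))) ^ p`, so `x + (p-1) • x' = 0`; as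
`p • x' = 0` we get `x = x'`.
-/


set_option autoImplicit false

noncomputable section

open ModularCurve AlgebraicCurve CongruenceSubgroup UpperHalfPlane
open scoped MatrixGroups Manifold

namespace Fermat.Agent.S29.H102

open Fermat.Agent.S24 Fermat.Agent.S29 Fermat.Agent.S29.M4b
open Fermat.Agent.S24.H648 Fermat.Agent.S24.H708

section Algebra

variable {K F : Type*} [Field K] [Field F] [Algebra K F]

/-- Kummer classes of powers. -/
theorem KUniq_isKummerClass_pow {n : ℤ} {g : F} {y : Pic0 K F}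
    (h : H455.IsKummerClass n g y) (k : ℕ) : H455.IsKummerClass n (g ^ k) (k • y) := by
  induction k with
  | zero =>
    rw [pow_zero, zero_nsmul]
    exact H455.IsKummerClass.zero
  | succ k ih =>
    rw [pow_succ, succ_nsmul]
    exact ih.add h

/-- The Kummer class of an `n`-th power is trivial. -/
theorem KUniq_eq_zero_of_pow {p : ℕ} (hp : p ≠ 0) {g : F} (hg : g ≠ 0) {y : Pic0 K F}
    (h : H455.IsKummerClass (p : ℤ) (g ^ p) y) : y = 0 := by
  have hn : (p : ℤ) ≠ 0 := Int.natCast_ne_zero.mpr hp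
  rw [h.eq_zero_iff hn]
  refine ⟨g, hg, fun v => ?_⟩
  rw [← zpow_natCast, Place.ord_zpow]

end Algebra

variable (N : ℕ) [NeZero N] (p : ℕ) [NeZero p]

omit [NeZero N] in
/-- The product `U * U' ^ (p-1)` of two twisted functions of the same character is
`Γ₀(N)`-invariant. -/
theorem KUniq_invariant {c : G0 N → ZMod p} {U U' : ℍ → ℂ} (hU : HasChar N p c U)
    (hU' : HasChar N p c U') (γ : SL(2, ℤ)) (hγ : γ ∈ Gamma0 N) (τ : ℍ) :
    U (γ • τ) * U' (γ • τ) ^ (p - 1) = U τ * U' τ ^ (p - 1) := by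
  have h1 := hU ⟨γ, hγ⟩ τ
  have h2 := hU' ⟨γ, hγ⟩ τ
  simp only at h1 h2
  rw [h1, h2, mul_pow]
  have hp : p - 1 + 1 = p := Nat.sub_add_cancel (Nat.one_le_iff_ne_zero.mpr (NeZero.ne p))
  have h3 : zetaP p ^ (c ⟨γ, hγ⟩).val * (zetaP p ^ (c ⟨γ, hγ⟩).val) ^ (p - 1) = 1 := by
    rw [← pow_succ', hp, ← pow_mul, mul_comm, pow_mul, KBasic_zetaP_pow, one_pow]
  calc zetaP p ^ (c ⟨γ, hγ⟩).val * U τ * ((zetaP p ^ (c ⟨γ, hγ⟩).val) ^ (p - 1) * U' τ ^ (p - 1))
      = (zetaP p ^ (c ⟨γ, hγ⟩).val * (zetaP p ^ (c ⟨γ, hγ⟩).val) ^ (p - 1))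
          * (U τ * U' τ ^ (p - 1)) := by ring
    _ = U τ * U' τ ^ (p - 1) := by rw [h3, one_mul]

/-- **PIECE `K4-UNIQ`.** -/
theorem isKum_unique {c : G0 N → ZMod p} {x x' : JZero N}
    (h : IsKum N p c x) (h' : IsKum N p c x') : x = x' := by
  obtain ⟨f, t, U, ht, hx, hU, hR⟩ := h
  obtain ⟨f', t', U', ht', hx', hU', hR'⟩ := h'
  have hp : p ≠ 0 := NeZero.ne p
  have hp1 : p - 1 + 1 = p := Nat.sub_add_cancel (Nat.one_le_iff_ne_zero.mpr hp)
  -- the invariant function
  set V : ℍ → ℂ := fun τ => U τ * U' τ ^ (p - 1) with hVdef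
  have hVmd : MDifferentiable 𝓘(ℂ) 𝓘(ℂ) V := hU.mdiff.mul (hU'.mdiff.pow (p - 1))
  have hVinv : ∀ γ ∈ Gamma0 N, ∀ τ : ℍ, V (γ • τ) = V τ := fun γ hγ τ =>
    KUniq_invariant N p hU.hasChar hU'.hasChar γ hγ τ
  have hVfun : (fun τ => V τ ^ p)
      = (fun τ => U τ ^ p) * (fun τ => U' τ ^ p) ^ (p - 1) := by
    funext τ
    simp only [hVdef, Pi.mul_apply, Pi.pow_apply]
    rw [mul_pow, ← pow_mul, ← pow_mul, mul_comm (p - 1) p]
  have hVpow : (fun τ => V τ ^ p) ∈ goodRing N := by
    rw [hVfun]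
    exact (goodRing N).mul_mem hR.1 ((goodRing N).pow_mem hR'.1 _)
  have hVgood : V ∈ goodRing N := KBasic_mem_goodRing_of_pow hp hVmd hVinv hVpow
  -- the algebraic function realised by `V ^ p`
  set w : FF N := (f * t ^ p) * (f' * t' ^ p) ^ (p - 1) with hwdef
  have hw : Realises N w (fun τ => V τ ^ p) := by
    refine ⟨hVpow, ?_⟩
    have h1 := (KBasic_realises_hasQExp hR).mul ((KBasic_realises_hasQExp hR').pow (p - 1))
    rw [← hVfun] at h1
    rw [h1.qexpFun_eq, hwdef]
    simp only [MulMemClass.coe_mul, SubmonoidClass.coe_pow, map_mul, map_pow]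
  obtain ⟨v, hvp, -⟩ := KBasic_exists_root hp hVgood hw
  -- `f * f' ^ (p-1)` is a `p`-th power
  have hf0 : f ≠ 0 := hx.ne_zero
  have hf0' : f' ≠ 0 := hx'.ne_zero
  have hd0 : t * t' ^ (p - 1) ≠ 0 := mul_ne_zero ht (pow_ne_zero _ ht')
  have hv0 : v ≠ 0 := by
    intro h0
    have : w = 0 := by rw [← hvp, h0, zero_pow hp]
    rw [hwdef] at this
    exact (mul_ne_zero (mul_ne_zero hf0 (pow_ne_zero _ ht))
      (pow_ne_zero _ (mul_ne_zero hf0' (pow_ne_zero _ ht')))) this
  have hg0 : v / (t * t' ^ (p - 1)) ≠ 0 := div_ne_zero hv0 hd0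
  have hpow : f * f' ^ (p - 1) = (v / (t * t' ^ (p - 1))) ^ p := by
    rw [div_pow, hvp, hwdef, eq_div_iff (pow_ne_zero _ hd0)]
    ring
  have hcl : H455.IsKummerClass (p : ℤ) (f * f' ^ (p - 1)) (x + (p - 1) • x') :=
    hx.add (KUniq_isKummerClass_pow hx' (p - 1))
  rw [hpow] at hcl
  have hzero : x + (p - 1) • x' = 0 := KUniq_eq_zero_of_pow hp hg0 hcl
  have hpx' : p • x' = 0 := by
    have := hx'.zsmul_eq_zero
    rwa [natCast_zsmul] at this
  have h2 : (p - 1) • x' + x' = 0 := by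
    rw [← succ_nsmul, hp1]
    exact hpx'
  have h3 : (p - 1) • x' = -x' := eq_neg_of_add_eq_zero_left h2
  rw [h3] at hzero
  exact eq_of_sub_eq_zero (by rw [sub_eq_add_neg]; exact hzero)

end Fermat.Agent.S29.H102

end
end
-- ===== PACK-END S29/H102/KUniq.lean

-- ===== PACK-BEGIN S15/H808/Rtf.lean
section




/-!
# S15 / DESC skeleton leaf RTF (helper808)

`rtfStatement_of_mw : MWShape → H975.RtfStatement`, where `MWShape` is verbatim the type of the
frozen statement S17 (Mordell–Weil for `J₀(N)`, `N ≥ 5` prime).  The levels `2` and `3`, not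
covered by S17, have `J₀ = 0` (`RtfSmall.lean`).

Also the pointwise form `rtf_of_fg` (one level, from `AddGroup.FG` of the rational points).
-/

set_option autoImplicit false

namespace Fermat.Agent.S15.H808

open ModularCurve Fermat.Agent.S15.H975

/-- The shape of the frozen statement S17. -/
def MWShape : Prop :=
  ∀ (N : ℕ) [NeZero N], N.Prime → 5 ≤ N →
    AddGroup.FG ↥(FixedPoints.addSubgroup
      ((AlgebraicClosure ℚ) ≃ₐ[ℚ] (AlgebraicClosure ℚ)) (JZero N))

/-- **RTF at one level** from Mordell–Weil at that level. -/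
theorem rtf_of_fg (p : ℕ) [NeZero p]
    (h : AddGroup.FG ↥(FixedPoints.addSubgroup
      ((AlgebraicClosure ℚ) ≃ₐ[ℚ] (AlgebraicClosure ℚ)) (JZero p))) :
    ∃ e : ℕ, 0 < e ∧
      ∀ t : JZero p, (∀ σ : _root_.Fermat.Agent.S15.H975.Gal, σ • t = t) → (∃ m : ℕ, 0 < m ∧ m • t = 0) → e • t = 0 := by
  obtain ⟨e, he, hE⟩ := exists_exponent_of_fg _ h
  refine ⟨e, he, fun t ht ⟨m, hm0, hm⟩ => ?_⟩
  have h1 := hE ⟨t, ht⟩ ⟨m, hm0, Subtype.ext hm⟩
  exact congrArg Subtype.val h1

/-- **RTF at one level** when `J₀(p) = 0`. -/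
theorem rtf_of_subsingleton (p : ℕ) [NeZero p] (h : Subsingleton (JZero p)) :
    ∃ e : ℕ, 0 < e ∧
      ∀ t : JZero p, (∀ σ : _root_.Fermat.Agent.S15.H975.Gal, σ • t = t) → (∃ m : ℕ, 0 < m ∧ m • t = 0) → e • t = 0 :=
  ⟨1, one_pos, fun _ _ _ => Subsingleton.elim _ _⟩

/-- **RTF** from the frozen S17 shape. -/
theorem rtfStatement_of_mw (h : MWShape) : RtfStatement := by
  intro p _ hp
  rcases Nat.lt_or_ge p 5 with h5 | h5
  · have h2 := hp.two_le
    have hp' : p = 2 ∨ p = 3 := by
      rcases (show p = 2 ∨ p = 3 ∨ p = 4 by omega) with h | h | h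
      · exact Or.inl h
      · exact Or.inr h
      · subst h
        exact absurd hp (by decide)
    rcases hp' with rfl | rfl
    · exact rtf_of_subsingleton 2 subsingleton_jZero_two
    · exact rtf_of_subsingleton 3 subsingleton_jZero_three
  · exact _root_.Fermat.Agent.S15.H808.rtf_of_fg p (h p hp h5)

end Fermat.Agent.S15.H808

end
-- ===== PACK-END S15/H808/Rtf.lean

-- ===== PACK-BEGIN A2/Mod/H372/S3.lean
section



/-!
# A2 / MODASM sub-assembly S3 (helper372): ordinary double points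

`s3_of_leaves : (leaves L4, L5, L7, L8, L11, L12 + sub-assembly S2) → S3Statement P E M q w`
(`Fermat/Agent/A2/Mod/Asm.lean`, VERBATIM).  The leaves L2 (`H553.vinfBasic`) and L13
(`H873.chartCompat`) are used directly (on main).

Proof: `H372.KronCong.sup_isRadical` applied to the restrictions `α, β : B_M → B` of the two
degeneracy maps to the charts (`B_M` = chart of `j^{±1}` at level `M`, `B` = chart of `x^{±1}`
at level `Mq`):

* `KronCong` : L12 gives the Kronecker twist `a'` only in `V∞_M`; `GoodRedAt.normal` brings it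
  back into the chart (`SideData.cong`); on `C₀` one transports by the Fricke involutions
  (L4, L5, L7);
* `α` is onto `B ⧸ p∞` : L11 + `GoodRedAt.normal` (`SideData.surj`);
* the branch `B ⧸ p∞` is a Dedekind domain : S2 (normal), `B` noetherian (L8), dimension one.
-/

set_option autoImplicit false
set_option synthInstance.maxHeartbeats 400000
set_option maxHeartbeats 1600000
set_option linter.unusedSectionVars false
set_option linter.style.haveILetI false

noncomputable section

namespace Fermat.Agent.A2.Mod.H372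

open ModularCurve HahnSeries Polynomial

variable (P : ValuationSubring _root_.Fermat.Agent.A2.Mod.Qb) (E : IntermediateField ℚ _root_.Fermat.Agent.A2.Mod.Qb) (M q : ℕ) [NeZero M] [NeZero q]
  (w : _root_.Fermat.Agent.A2.Mod.RE P E)

/-- **S3 (ordinary double points)** from the leaves and S2. -/
theorem s3_of_leaves (hL4 : FrickeExistsStatement E) (hL5 : FrickeCompatStatement E M q)
    (hL7 : FrickeStableStatement P E M q w) (hL8 : DegStatement E M q)
    (hL11 : ResInfStatement P E M q w) (hL12 : KronStatement P E M q w)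
    (hS2 : S2Statement P E M q w) : S3Statement P E M q w := by
  intro hS VM V W hVM hV hW yM y hy hgood p₁ p₂ hc₁ hc₂
  have hC := coordFacts_of_isCoordPair w hS hVM hV hW hy
  obtain ⟨WM, hWM⟩ := hL4 M hS.M_ne_zero
  have hN := level_ne_zero w hS
  have hu := unifE w hS hN hV
  -- the restrictions of `α`, `β` to the charts
  let α' : chartAlg P E M yM →+* chartAlg P E (M * q) y :=
    ((αE E M q : _root_.Fermat.Agent.A2.Mod.FE E M →+* _root_.Fermat.Agent.A2.Mod.FE E (M * q)).comp
      ((chartAlg P E M yM).val : chartAlg P E M yM →+* _root_.Fermat.Agent.A2.Mod.FE E M)).codRestrict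
      (chartAlg P E (M * q) y) (fun a => alpha_chart_mem w hC a.2)
  let β' : chartAlg P E M yM →+* chartAlg P E (M * q) y :=
    ((βE E M q : _root_.Fermat.Agent.A2.Mod.FE E M →+* _root_.Fermat.Agent.A2.Mod.FE E (M * q)).comp
      ((chartAlg P E M yM).val : chartAlg P E M yM →+* _root_.Fermat.Agent.A2.Mod.FE E M)).codRestrict
      (chartAlg P E (M * q) y) (fun a => beta_chart_mem w hC a.2)
  have hKC : Fermat.Agent.A2.H372.KronCong q α' β' p₁ p₂ := by
    refine ⟨fun a => ?_, fun a => ?_⟩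
    · obtain ⟨a', ha', h⟩ := chart_cong₁ w hS hVM hV hC hgood hL12 a a.2
      exact ⟨⟨a', ha'⟩, (hc₁ _).mpr h⟩
    · obtain ⟨a', ha', h⟩ := chart_cong₂ w hS hVM hV hW hC hgood hL5 hL7 hL12 hWM a a.2
      exact ⟨⟨a', ha'⟩, (hc₂ _).mpr h⟩
  have hsurj := chart_surj w hS hVM hV hC hgood hL11
  have hα : ∀ b : chartAlg P E (M * q) y, ∃ a : chartAlg P E M yM, b - α' a ∈ p₁ := by
    intro b
    obtain ⟨-, a, ha, h⟩ := hsurj b b.2
    exact ⟨⟨a, ha⟩, (hc₁ _).mpr h⟩
  -- the branch is Dedekind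
  haveI hp₁ : p₁.IsPrime :=
    isPrime_of_isCut w hu (chartAlg P E (M * q) y) (fun b hb => (hsurj b hb).1) p₁ hc₁
  obtain ⟨hx, hfr, -⟩ := hL8 hS.q_prime hS.q_not_dvd
  have hpos : 0 < Module.finrank (IntermediateField.adjoin E ({xE E M q} : Set (_root_.Fermat.Agent.A2.Mod.FE E (M * q))))
      (_root_.Fermat.Agent.A2.Mod.FE E (M * q)) := by
    rw [hfr]
    have h1 := dedekindPsi_pos_of_ne_zero M hS.M_ne_zero
    positivity
  haveI hfin : FiniteDimensional (IntermediateField.adjoin E ({xE E M q} : Set (_root_.Fermat.Agent.A2.Mod.FE E (M * q))))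
      (_root_.Fermat.Agent.A2.Mod.FE E (M * q)) := Module.finite_of_finrank_pos hpos
  obtain ⟨hn₁, hn₂⟩ := isNoetherianRing_chartAlg_of_transcendental (P := P) hS.dvr (xE E M q) hx
  haveI hnoeth : IsNoetherianRing (chartAlg P E (M * q) y) := by
    rcases hy with ⟨-, rfl⟩ | ⟨-, rfl⟩
    · exact hn₁
    · exact hn₂
  haveI hic : IsIntegrallyClosed (chartAlg P E (M * q) y ⧸ p₁) :=
    (hS2 hS VM V W hVM hV hW yM y hy hgood p₁ p₂ hc₁ hc₂).1
  haveI := hS.dvr
  have hint : ∀ b : chartAlg P E (M * q) y,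
      (Polynomial.eval₂RingHom (algebraMap (_root_.Fermat.Agent.A2.Mod.RE P E) (chartAlg P E (M * q) y))
        (⟨y, self_mem_chartAlg (M * q) y⟩ : chartAlg P E (M * q) y)).IsIntegralElem b := by
    intro b
    obtain ⟨p, hp, hpb⟩ := mem_chartAlg_iff.mp b.2
    refine ⟨p, hp, Subtype.ext ?_⟩
    have hcomp : ((chartAlg P E (M * q) y).val : chartAlg P E (M * q) y →+* _root_.Fermat.Agent.A2.Mod.FE E (M * q)).comp
        (Polynomial.eval₂RingHom (algebraMap (_root_.Fermat.Agent.A2.Mod.RE P E) (chartAlg P E (M * q) y))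
          (⟨y, self_mem_chartAlg (M * q) y⟩ : chartAlg P E (M * q) y)) =
        Polynomial.eval₂RingHom (algebraMap (_root_.Fermat.Agent.A2.Mod.RE P E) (_root_.Fermat.Agent.A2.Mod.FE E (M * q))) y := by
      apply Polynomial.ringHom_ext
      · intro r
        simp only [RingHom.comp_apply, Polynomial.coe_eval₂RingHom, Polynomial.eval₂_C]
        rfl
      · simp
    have := Polynomial.hom_eval₂ p (Polynomial.eval₂RingHom (algebraMap (_root_.Fermat.Agent.A2.Mod.RE P E)
      (chartAlg P E (M * q) y)) (⟨y, self_mem_chartAlg (M * q) y⟩ : chartAlg P E (M * q) y))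
      ((chartAlg P E (M * q) y).val : chartAlg P E (M * q) y →+* _root_.Fermat.Agent.A2.Mod.FE E (M * q)) b
    rw [hcomp] at this
    rw [ZeroMemClass.coe_zero, ← hpb]
    exact this
  have hpR : ∀ r ∈ IsLocalRing.maximalIdeal (_root_.Fermat.Agent.A2.Mod.RE P E),
      algebraMap (_root_.Fermat.Agent.A2.Mod.RE P E) (chartAlg P E (M * q) y) r ∈ p₁ := by
    intro r hr
    rw [hS.unif.maximalIdeal_eq, Ideal.mem_span_singleton'] at hr
    obtain ⟨s, rfl⟩ := hr
    rw [hc₁]
    show cE P E (M * q) (s * w) * (cE P E (M * q) w)⁻¹ ∈ V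
    have hw0 := cE_ne_zero w hS (M * q)
    have e : cE P E (M * q) (s * w) * (cE P E (M * q) w)⁻¹ = cE P E (M * q) s := by
      have : cE P E (M * q) (s * w) = cE P E (M * q) s * cE P E (M * q) w :=
        map_mul (algebraMap (_root_.Fermat.Agent.A2.Mod.RE P E) (_root_.Fermat.Agent.A2.Mod.FE E (M * q))) s w
      rw [this, mul_assoc, mul_inv_cancel₀ hw0, mul_one]
    rw [e]
    exact cE_mem w hS hV s
  haveI : IsDedekindDomain (chartAlg P E (M * q) y ⧸ p₁) :=
    isDedekindDomain_quotient_of_integral _ _ hint p₁ hpR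
  exact sup_isRadical_of_quotient hS.q_prime.two_le hKC hα

end Fermat.Agent.A2.Mod.H372

end
end
-- ===== PACK-END A2/Mod/H372/S3.lean

-- ===== PACK-BEGIN A2/Mod/H142/S2Final.lean
section




/-!
# A2 / MODASM sub-assembly S2 (components normal), unconditional (helper142)

`s2 : S2Statement P E M q w` (VERBATIM `A2/Mod/Asm.lean`), from `s2_of_leaves` with the leaves
L7 (`H900.frickeStable`) and L11 (`H378.resInf`) taken from main.
-/

set_option autoImplicit false
set_option synthInstance.maxHeartbeats 400000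
set_option maxHeartbeats 1600000

namespace Fermat.Agent.A2.Mod.H142

/-- **MODASM sub-assembly S2** (components of the special fibre are normal). -/
theorem s2 (P : ValuationSubring _root_.Fermat.Agent.A2.Mod.Qb) (E : IntermediateField ℚ _root_.Fermat.Agent.A2.Mod.Qb) (M q : ℕ) [NeZero M]
    [NeZero q] (w : _root_.Fermat.Agent.A2.Mod.RE P E) : S2Statement P E M q w :=
  s2_of_leaves P E M q w (H900.frickeStable P E M q w) (H378.resInf P E M q w)

end Fermat.Agent.A2.Mod.H142

end
-- ===== PACK-END A2/Mod/H142/S2Final.lean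

-- ===== PACK-BEGIN S17/H677/UnramifiedCore.lean
section



/-!
# S17 piece W-UNR, route B (helper677): from the S18 hub `CoreStatement`, WITHOUT a place reduction

`unramified_division` (skeleton): for `ℓ ∤ n N`, `A` over `ℓ`, `σ` in the inertia group of `A`,
`y ∈ J₀(N)(ℚ̄)` with `n • y ∈ J₀(N)(ℚ)`:  `σ • y = y`.

Route B needs

* `CoreStatement N A n`  — the Kummer-type hub of the S18 row (`Fermat.Agent.S18.Spec`);
* a divisor of degree zero representing `n • y` which is fixed by `σ` (`HasFixedRep`; BASE-2 of the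
  S17 plan: a Galois-fixed class has a Galois-fixed divisor, because the cusp `∞` is rational).

`PrincipalGeneratedByIntegral` is on `main` unconditionally (helper448/helper700).
No place reduction map `r`, no special fibre, no frozen S18, no divisibility of `Pic⁰`.

Proof (variant of helper222's ESK-U): `y = [D]`, `n D = D_x + div U₁ - div U₂` with `U₁, U₂` integral
and `σ D_x = D_x`.  Put `V₁ = σU₁ · U₂`, `V₂ = U₁ · σU₂`: same reduction, and
`div V₁ - div V₂ = n (σD - D)`.  CORE gives `V₁ = c y^n V₂`, hence `σD - D = div y`.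
-/

set_option autoImplicit false
set_option linter.style.haveILetI false

noncomputable section

namespace Fermat.Agent.S17.H677

open ModularCurve AlgebraicCurve HahnSeries IsLocalRing
open Fermat.Agent.S18 (IsInt toF CoreStatement)
open Fermat.Agent.S29.H222

/-- The class `x` is represented by a divisor of degree zero fixed by `τ`. -/
def HasFixedRep (N : ℕ) (τ : AlgebraicClosure ℚ ≃ₐ[ℚ] AlgebraicClosure ℚ) (x : JZero N) : Prop :=
  ∃ D : Divisor.degZero (K := AlgebraicClosure ℚ) (F := modularFunctionFieldBar N),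
    (Pic0.mk D : JZero N) = x ∧
      arithmeticGalois (modularFunctionFieldFull N) τ •
        (D : Divisor (AlgebraicClosure ℚ) (modularFunctionFieldBar N)) = D

/-- If `[E] = n • [D]` in `Pic⁰`, then `n D - E` is principal. -/
theorem wunr_sub_mem_principal {N : ℕ} {n : ℕ}
    (D E : Divisor.degZero (K := AlgebraicClosure ℚ) (F := modularFunctionFieldBar N))
    (h : (Pic0.mk E : JZero N) = n • (Pic0.mk D : JZero N)) :
    (n : ℤ) • (D : Divisor (AlgebraicClosure ℚ) (modularFunctionFieldBar N))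
        - (E : Divisor (AlgebraicClosure ℚ) (modularFunctionFieldBar N))
      ∈ Divisor.principal (K := AlgebraicClosure ℚ) (F := modularFunctionFieldBar N) := by
  have h1 : (Pic0.mk E : JZero N) = Pic0.mk (n • D) := by
    rw [h]; rfl
  have h2 : -E + n • D ∈
      (Divisor.principal (K := AlgebraicClosure ℚ) (F := modularFunctionFieldBar N)).addSubgroupOf
        (Divisor.degZero (K := AlgebraicClosure ℚ) (F := modularFunctionFieldBar N)) :=
    QuotientAddGroup.eq.mp h1
  rw [AddSubgroup.mem_addSubgroupOf] at h2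
  have h3 : ((-E + n • D : Divisor.degZero (K := AlgebraicClosure ℚ)
      (F := modularFunctionFieldBar N)) : Divisor (AlgebraicClosure ℚ) (modularFunctionFieldBar N))
      = (n : ℤ) • (D : Divisor (AlgebraicClosure ℚ) (modularFunctionFieldBar N))
        - (E : Divisor (AlgebraicClosure ℚ) (modularFunctionFieldBar N)) := by
    push_cast
    rw [natCast_zsmul]
    abel
  rwa [h3] at h2

/-- **W-UNR, route B, local form.** -/
theorem unramified_division_of_core_local (N : ℕ) [NeZero N] (n : ℕ) (hn : n ≠ 0)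
    (A : ValuationSubring (AlgebraicClosure ℚ)) (hcore : CoreStatement N A n)
    (hpgi : PrincipalGeneratedByIntegral A (residue A) N)
    (σ : AlgebraicClosure ℚ ≃ₐ[ℚ] AlgebraicClosure ℚ) (hσ : σ ∈ A.inertiaSubgroupIn ℚ)
    (y : JZero N) (hrep : HasFixedRep N σ (n • y)) : σ • y = y := by
  obtain ⟨g, hg, rfl⟩ := hσ
  obtain ⟨D, rfl⟩ := Pic0.mk_surjective y
  obtain ⟨E, hE, hfix⟩ := hrep
  obtain ⟨U₁, U₂, h₁, h₂, D₁, D₂, hd₁, hd₂, hDD⟩ :=
    exists_isInt_of_principal hpgi (wunr_sub_mem_principal D E hE)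
  set G := arithmeticGalois (modularFunctionFieldFull N)
    (((A.decompositionSubgroup ℚ).subtype g : AlgebraicClosure ℚ ≃ₐ[ℚ] AlgebraicClosure ℚ))
    with hG
  have hV₁ : IsInt A N (galA g U₁ * U₂) := isInt_mul (isInt_galA g h₁) h₂
  have hV₂ : IsInt A N (U₁ * galA g U₂) := isInt_mul h₁ (isInt_galA g h₂)
  have hred : coeffMap (residue A) (galA g U₁ * U₂) = coeffMap (residue A) (U₁ * galA g U₂) := by
    rw [map_mul, map_mul, coeffMap_residue_galA, coeffMap_residue_galA,
      coeffMap_decK_of_mem_inertia hg, coeffMap_decK_of_mem_inertia hg]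
  have hgd₁ : IsDivOf (toF (isInt_galA g h₁)) (G • D₁) := by
    rw [toF_galA]; exact hd₁.smul G
  have hgd₂ : IsDivOf (toF (isInt_galA g h₂)) (G • D₂) := by
    rw [toF_galA]; exact hd₂.smul G
  have hdV₁ : IsDivOf (toF hV₁) (G • D₁ + D₂) := by
    rw [toF_mul (isInt_galA g h₁) h₂]
    exact hgd₁.mul (toF_ne_zero _) (toF_ne_zero _) hd₂
  have hdV₂ : IsDivOf (toF hV₂) (D₁ + G • D₂) := by
    rw [toF_mul h₁ (isInt_galA g h₂)]
    exact hd₁.mul (toF_ne_zero _) (toF_ne_zero _) hgd₂
  have hkey : ∀ v : Place (AlgebraicClosure ℚ) (modularFunctionFieldBar N),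
      (n : ℤ) * (G • (D : Divisor (AlgebraicClosure ℚ) (modularFunctionFieldBar N)) - D) v
        = v.ord (toF hV₁) - v.ord (toF hV₂) := by
    intro v
    rw [← hdV₁ v, ← hdV₂ v]
    have e1 : ((n : ℤ) • (D : Divisor (AlgebraicClosure ℚ) (modularFunctionFieldBar N))
        - (E : Divisor (AlgebraicClosure ℚ) (modularFunctionFieldBar N))) v = D₁ v - D₂ v := by
      rw [hDD, Finsupp.sub_apply]
    have e2 : ((n : ℤ) • (D : Divisor (AlgebraicClosure ℚ) (modularFunctionFieldBar N))
        - (E : Divisor (AlgebraicClosure ℚ) (modularFunctionFieldBar N))) (G⁻¹ • v)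
        = D₁ (G⁻¹ • v) - D₂ (G⁻¹ • v) := by
      rw [hDD, Finsupp.sub_apply]
    have e3 : (E : Divisor (AlgebraicClosure ℚ) (modularFunctionFieldBar N)) (G⁻¹ • v)
        = (E : Divisor (AlgebraicClosure ℚ) (modularFunctionFieldBar N)) v := by
      have := congrArg (fun X : Divisor (AlgebraicClosure ℚ) (modularFunctionFieldBar N) => X v)
        hfix
      simp only [SemilinearAut.divisor_smul_apply] at this
      exact this
    rw [Finsupp.sub_apply, Finsupp.smul_apply, smul_eq_mul] at e1 e2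
    simp only [Finsupp.sub_apply, Finsupp.add_apply, SemilinearAut.divisor_smul_apply]
    linear_combination e2 - e1 + e3
  have hord : ∀ v : Place (AlgebraicClosure ℚ) (modularFunctionFieldBar N),
      (n : ℤ) ∣ v.ord (toF hV₁) - v.ord (toF hV₂) := fun v => ⟨_, (hkey v).symm⟩
  obtain ⟨c, y, hc, hy, hcy⟩ := hcore _ _ hV₁ hV₂ hred hord
  have hEy := isDivOf_of_eq_const_mul_pow hn hc hy (toF_ne_zero hV₂) hcy hkey
  show (((A.decompositionSubgroup ℚ).subtype g : AlgebraicClosure ℚ ≃ₐ[ℚ] AlgebraicClosure ℚ))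
    • (Pic0.mk D : JZero N) = Pic0.mk D
  rw [galois_smul_pic0_def, SemilinearAut.pic0_smul_mk]
  exact pic0_mk_eq_of_isDivOf D _ hy hEy

/-- Every rational class has a Galois-fixed divisor of degree zero (BASE-2 of the S17 plan). -/
def RationalRep (N : ℕ) : Prop :=
  ∀ x : JZero N,
    x ∈ FixedPoints.addSubgroup (AlgebraicClosure ℚ ≃ₐ[ℚ] AlgebraicClosure ℚ) (JZero N) →
      ∀ τ : AlgebraicClosure ℚ ≃ₐ[ℚ] AlgebraicClosure ℚ, HasFixedRep N τ x

/-- The S18 hub at all places over `ℓ`. -/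
def CoreAt (N ℓ n : ℕ) : Prop :=
  ∀ A : ValuationSubring (AlgebraicClosure ℚ), A.LiesOverPrime ℓ → CoreStatement N A n

/-- **W-UNR, route B, skeleton shape** (`Fermat.Agent.S17.Skel.unramified_division`), from the
S18 hub `CoreStatement` and rational representatives. -/
theorem unramified_division_of_core
    (N : ℕ) [NeZero N] (_hN : N.Prime) (_hN5 : 5 ≤ N) (n : ℕ) (hn : n ≠ 0)
    (ℓ : ℕ) (hℓ : ℓ.Prime) (hℓn : ¬ ℓ ∣ n * N)
    (hcore : CoreAt N ℓ n) (hrat : RationalRep N)
    (A : ValuationSubring (AlgebraicClosure ℚ)) (hA : A.LiesOverPrime ℓ)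
    (σ : AlgebraicClosure ℚ ≃ₐ[ℚ] AlgebraicClosure ℚ) (hσ : σ ∈ A.inertiaSubgroupIn ℚ)
    (y : JZero N)
    (hy : n • y ∈
      FixedPoints.addSubgroup (AlgebraicClosure ℚ ≃ₐ[ℚ] AlgebraicClosure ℚ) (JZero N)) :
    σ • y = y :=
  unramified_division_of_core_local N n hn A (hcore A hA)
    (Fermat.Agent.S37.H448.principalGeneratedByIntegral N hℓ
      (fun hd => hℓn (Dvd.dvd.mul_left hd n)) A hA)
    σ hσ y (hrat _ hy σ)

end Fermat.Agent.S17.H677

end
end
-- ===== PACK-END S17/H677/UnramifiedCore.lean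

-- ===== PACK-BEGIN S17/H677/UnramifiedHub.lean
section



/-!
# S17 piece W-UNR from the S18 hub ALONE (helper677)

`unramified_division_of_hub`: the skeleton statement `Skel.unramified_division` with the single
extra hypothesis `CoreAt N ℓ n` (= `Fermat.Agent.S18.CoreStatement N A n` for every valuation
subring `A` of `ℚ̄` over `ℓ`), which is the hub statement the S18 row proves on its way to S18.

No place reduction map (S37 `node_rim`) and no frozen S18 are used:
* `PrincipalGeneratedByIntegral` is on `main` (helper448);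
* rational classes have Galois-fixed divisors (helper680, minimal representatives w.r.t. the
  cusp `∞`).
-/

set_option autoImplicit false
set_option linter.style.haveILetI false

noncomputable section

namespace Fermat.Agent.S17.H677

open ModularCurve AlgebraicCurve HahnSeries

/-- **BASE-2** in the shape used by route B: every rational class is represented by a divisor of
degree zero fixed by Galois (helper680's minimal representative). -/
theorem rationalRep (N : ℕ) [NeZero N] : RationalRep N := by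
  intro x hx τ
  haveI := Fermat.Agent.Lib.RR.H804.ff1_modular N
  refine ⟨Fermat.Agent.S17.H680.minDiv (Fermat.Agent.S17.H680.JZero.cusp N) x,
    Fermat.Agent.S17.H680.mk_minDiv _ x, ?_⟩
  exact Fermat.Agent.S17.H680.smul_minDiv_eq _
    (Fermat.Agent.S17.H680.JZero.galois_smul_cusp N τ)
    ((Fermat.Agent.S17.H680.JZero.mem_fixedPoints_iff N x).mp hx τ)

/-- **W-UNR from the S18 hub alone**: skeleton shape, single hypothesis `CoreAt N ℓ n`. -/
theorem unramified_division_of_hub
    (N : ℕ) [NeZero N] (hN : N.Prime) (hN5 : 5 ≤ N) (n : ℕ) (hn : n ≠ 0)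
    (ℓ : ℕ) (hℓ : ℓ.Prime) (hℓn : ¬ ℓ ∣ n * N)
    (hcore : CoreAt N ℓ n)
    (A : ValuationSubring (AlgebraicClosure ℚ)) (hA : A.LiesOverPrime ℓ)
    (σ : AlgebraicClosure ℚ ≃ₐ[ℚ] AlgebraicClosure ℚ) (hσ : σ ∈ A.inertiaSubgroupIn ℚ)
    (y : JZero N)
    (hy : n • y ∈
      FixedPoints.addSubgroup (AlgebraicClosure ℚ ≃ₐ[ℚ] AlgebraicClosure ℚ) (JZero N)) :
    σ • y = y :=
  unramified_division_of_core N hN hN5 n hn ℓ hℓ hℓn hcore (rationalRep N) A hA σ hσ y hy

end Fermat.Agent.S17.H677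

end
end
-- ===== PACK-END S17/H677/UnramifiedHub.lean

-- ===== PACK-BEGIN S17/H290/TanForms.lean
section






/-!
# S17 / tower H — sub-project GAUSS (helper290): the tangent forms (GG-1)

`tangentForms_of : ProjNormalStatement E → CanonicalStatement K F → TangentFormsStatement E`.

* `exists_der_diff` : a derivation `∂` of `F / K` and a differential `ω ≠ 0` with `dy = ∂y · ω`;
* `W = div ω` (CAN), `deg W = 2g − 2`; `e = 3g + 3`; `ρ ≠ 0` in `L((e − 2) m ∞ − W)` (Riemann);
* `G_p` a form of degree `e` with `G_p(x) = ρ · w_p`, `w_{jk} = x_j ∂x_k − x_k ∂x_j` (PN);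
* `Z = (e − 2) m ∞ − W + div ρ ≥ 0` is the exact common zero divisor of the `G_p(x)` and
  `G(pt P) = c · (pt P ∧ tn P)` off `Z` (`TanLocal.tan_local`).

Sorry-free.
-/

set_option autoImplicit false

noncomputable section

namespace Fermat.Agent.S17.H290

open AlgebraicCurve KaehlerDifferential MvPolynomial
open Fermat.Agent.Lib.RR Fermat.Agent.S17.HWall Fermat.Agent.S17.HContract Fermat.Agent.S17.Wall
open Fermat.Agent.S17.H230

variable {K F : Type*} [Field K] [CharZero K] [Field F] [Algebra K F] [FF1 K F]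

variable (K F) in
/-- A derivation `∂` of `F / K` and a differential `ω ≠ 0` with `dy = ∂y · ω` for all `y`. -/
theorem exists_der_diff :
    ∃ (δ : Derivation K F F) (ω : Ω[F⁄K]), ω ≠ 0 ∧ ∀ y : F, D K F y = δ y • ω := by
  obtain ⟨t, ht, hfin⟩ := FF1.exists_finite (K := K) (F := F)
  have := hfin
  have hspan : Submodule.span F {D K F t} = ⊤ := Fermat.Agent.S24.H84.span_D_eq_top t
  obtain ⟨δ, hδ⟩ := Fermat.Agent.S17.H800.exists_derivation_eq_one (K := K) ht
  have key : ∀ y : F, D K F y = δ y • D K F t := by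
    intro y
    have hmem : D K F y ∈ Submodule.span F {D K F t} := by rw [hspan]; trivial
    obtain ⟨c, hc⟩ := Submodule.mem_span_singleton.1 hmem
    have h1 := Fermat.Agent.Lib.RR.H80.derivation_eq_mul δ hc.symm
    rw [hδ, mul_one] at h1
    rw [h1, hc]
  refine ⟨δ, D K F t, ?_, key⟩
  intro h0
  have h1 := congrArg δ.liftKaehlerDifferential h0
  rw [Derivation.liftKaehlerDifferential_comp_D, map_zero, hδ] at h1
  exact one_ne_zero h1

omit [CharZero K] [FF1 K F] in
theorem smul_smul_prim_apply (vinf P : Place K F) (a m : ℕ) :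
    ((a * m) • prim vinf : Divisor K F) P = (a : ℤ) * (m • prim vinf : Divisor K F) P := by
  rw [Finsupp.smul_apply, Finsupp.smul_apply, nsmul_eq_mul, nsmul_eq_mul]
  push_cast
  ring

/-- **GG-1 (TANGENT FORMS)** from projective normality and the canonical divisor. -/
theorem tangentForms_of (E : EmbData K F) (hPN : ProjNormalStatement E)
    (hCAN : CanonicalStatement K F) : TangentFormsStatement E := by
  classical
  obtain ⟨δ, ω, hω0, hω⟩ := exists_der_diff K F
  obtain ⟨W, hW, hWdeg⟩ := hCAN ω hω0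
  set g : ℕ := genusR K F with hg
  have hm1 : 1 ≤ E.m := by have := E.hm; omega
  -- the divisor `B = (e − 2) m ∞ − W`, `e = 3 g + 3`
  set B : Divisor K F := ((3 * g + 1) * E.m) • prim E.vinf - W with hB
  have hdegB : Divisor.degree B = ((3 * g + 1 : ℕ) : ℤ) * E.m - (2 * (g : ℤ) - 2) := by
    rw [hB, map_sub, map_nsmul, hWdeg]
    unfold prim
    rw [Divisor.degree_single, FF1.deg_eq_one]
    push_cast
    simp only [nsmul_eq_mul]
    push_cast
    ring
  have hell : 0 < ell B := by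
    have h1 := riemann_inequality B
    rw [hdegB] at h1
    have h2 : ((3 * g + 1 : ℕ) : ℤ) * 1 ≤ ((3 * g + 1 : ℕ) : ℤ) * E.m :=
      mul_le_mul_of_nonneg_left (by exact_mod_cast hm1) (by positivity)
    push_cast at h1 h2
    have h3 : (0 : ℤ) < ell B := by linarith
    exact_mod_cast h3
  obtain ⟨ρ, hρ0, hρ⟩ := H98.exists_ne_zero_mem_L_of_ell_pos hell
  have hρord : ∀ P : Place K F, 0 ≤ B P + P.ord ρ := by
    intro P
    rcases (mem_L_iff.mp hρ) P with h | h
    · exact absurd h hρ0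
    · linarith
  have hBP : ∀ P : Place K F,
      B P = (3 * (g : ℤ) + 1) * (E.m • prim E.vinf : Divisor K F) P - W P := by
    intro P
    rw [hB, Finsupp.sub_apply, smul_smul_prim_apply]
    push_cast
    ring
  -- the local data
  choose θ u c hθ0 hc0 hθord hureg hw hval using tan_local E δ ω hω hω0
  -- the sections `ρ w_p` of `O(e m ∞)`
  have hord : ∀ (P : Place K F) p, ρ * wform E δ p ≠ 0 →
      P.ord (ρ * wform E δ p) = B P + P.ord ρ
        - (3 * (g : ℤ) + 3) * (E.m • prim E.vinf : Divisor K F) P + P.ord (u P p) := by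
    intro P p hne
    rw [hw P p] at hne ⊢
    have hu0 : u P p ≠ 0 := fun h => hne (by rw [h, mul_zero, mul_zero])
    rw [P.ord_mul hρ0 (mul_ne_zero (hθ0 P) hu0), P.ord_mul (hθ0 P) hu0, hθord P, hBP P, hW P]
    ring
  have hmem : ∀ p, ρ * wform E δ p ∈ riemannRochSpace (((3 * g + 3) * E.m) • prim E.vinf) := by
    intro p
    rw [mem_L_iff]
    intro P
    by_cases hne : ρ * wform E δ p = 0
    · exact Or.inl hne
    · right
      rw [hord P p hne, smul_smul_prim_apply]
      have h1 := hρord P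
      have h2 : 0 ≤ P.ord (u P p) := (regAt_iff P _).mp (hureg P p)
      push_cast
      linarith
  choose G hGhom hGev using fun p => hPN (3 * g + 3) (ρ * wform E δ p) (hmem p)
  have hzdiv : ∀ (P : Place K F) p, aeval E.x (G p) ≠ 0 →
      zdiv E (3 * g + 3) (G p) P = B P + P.ord ρ + P.ord (u P p) := by
    intro P p hne
    unfold zdiv
    rw [dif_neg hne, Finsupp.add_apply, divOf_apply, smul_smul_prim_apply]
    rw [hGev p] at hne ⊢
    rw [hord P p hne]
    push_cast
    ring
  refine ⟨3 * g + 3, G, B + divOf ρ hρ0, by omega, hGhom, ?_, ⟨?_, ?_⟩, ?_, ?_⟩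
  · -- `0 ≤ Z`
    rw [Finsupp.le_def]
    intro P
    rw [Finsupp.add_apply, divOf_apply, Finsupp.coe_zero, Pi.zero_apply]
    exact hρord P
  · -- `Z ≤ zdiv`
    intro p hne
    rw [Finsupp.le_def]
    intro P
    rw [hzdiv P p hne, Finsupp.add_apply, divOf_apply]
    have h2 : 0 ≤ P.ord (u P p) := (regAt_iff P _).mp (hureg P p)
    linarith
  · -- exactness
    intro P
    obtain ⟨p, hp⟩ : ∃ p, wedge (E.pt P) (E.tn P) p ≠ 0 := by
      by_contra hcon
      push Not at hcon
      exact Fermat.Agent.S17.H440.wedge_pt_tn_ne_zero E P (funext hcon)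
    have hv : valAt P (u P p) ≠ 0 := by
      rw [hval P p]
      exact mul_ne_zero (hc0 P) hp
    have hu : u P p ≠ 0 ∧ P.ord (u P p) = 0 := by
      have h1 := (valAt_eq_zero_iff (hureg P p)).not.mp hv
      push Not at h1
      have h2 : 0 ≤ P.ord (u P p) := (regAt_iff P _).mp (hureg P p)
      exact ⟨h1.1, by omega⟩
    have hne : aeval E.x (G p) ≠ 0 := by
      rw [hGev p, hw P p]
      exact mul_ne_zero hρ0 (mul_ne_zero (hθ0 P) hu.1)
    refine ⟨p, hne, ?_⟩
    rw [hzdiv P p hne, hu.2, Finsupp.add_apply, divOf_apply, add_zero]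
  · -- the degree
    rw [map_add, degree_divOf, add_zero, hdegB]
    push_cast
    ring
  · -- the tangent relation
    intro P hZP
    rw [Finsupp.add_apply, divOf_apply] at hZP
    obtain ⟨l, hl⟩ := exists_pt_eq E P
    have hl0 : l ≠ 0 := by
      rintro rfl
      apply Fermat.Agent.S17.H440.pt_ne_zero E P
      rw [hl, zero_smul]
    set q : F := unif P ^ ((E.m • prim E.vinf : Divisor K F) P) with hq
    have hq0 : q ≠ 0 := zpow_ne_zero _ (unif_ne_zero P)
    have hqord : P.ord q = (E.m • prim E.vinf : Divisor K F) P := ord_unif_zpow P _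
    have hxreg : ∀ i, RegAt P (q * E.x i) := fun i => by
      rw [mul_comm]; exact regAt_normD (x_mem E) P i
    have hpt : (fun i => valAt P (q * E.x i)) = ptD (E.m • prim E.vinf) E.x P := by
      funext i
      rw [ptD_apply, mul_comm]
    -- the unit `a = q ^ e ρ θ`
    set a : F := q ^ (3 * g + 3) * (ρ * θ P) with ha
    have ha0 : a ≠ 0 := mul_ne_zero (pow_ne_zero _ hq0) (mul_ne_zero hρ0 (hθ0 P))
    have haord : P.ord a = 0 := by
      rw [ha, P.ord_mul (pow_ne_zero _ hq0) (mul_ne_zero hρ0 (hθ0 P)), P.ord_mul hρ0 (hθ0 P),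
        ord_pow, hqord, hθord P]
      have h1 := hBP P
      have h2 := hW P
      have h3 : ((3 * g + 3 : ℕ) : ℤ) = 3 * (g : ℤ) + 3 := by push_cast; ring
      rw [h3]
      linarith
    have hareg : RegAt P a := (regAt_iff P a).mpr haord.ge
    refine ⟨l ^ (3 * g + 3) * valAt P a * c P,
      mul_ne_zero (mul_ne_zero (pow_ne_zero _ hl0) (valAt_ne_zero ha0 haord)) (hc0 P), fun p => ?_⟩
    have h1 : q ^ (3 * g + 3) * (ρ * (θ P * u P p)) = a * u P p := by
      rw [ha]; ring
    have hev : eval (E.pt P) (G p) = l ^ (3 * g + 3) * (valAt P a * valAt P (u P p)) := by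
      rw [hl, Fermat.Agent.S17.H230.eval_smul_of_isHomogeneous (hGhom p), ← hpt,
        ← valAt_aeval hxreg (G p), Fermat.Agent.S17.H710.aeval_mul_of_isHomogeneous (hGhom p),
        hGev p, hw P p, h1, valAt_mul hareg (hureg P p)]
    rw [hev, hval P p]
    ring

end Fermat.Agent.S17.H290

end
end
-- ===== PACK-END S17/H290/TanForms.lean

-- ===== PACK-BEGIN S17/H290/TanFormsAt.lean
section


/-!
# S17 / tower H — sub-project GAUSS (helper290): the tangent forms, EXPLICIT divisor

`tangentForms_at` : for EVERY nonzero Kähler differential `ω` with divisor `W` there are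
`e ≥ 1`, `ρ ≠ 0` and forms `G_p` of degree `e + 2` with `G_p(x) = ρ · w_p`
(`w_{jk} = x_j ∂x_k − x_k ∂x_j`, `dy = ∂y · ω`) whose exact common zero divisor is

  `Z = e m ∞ − W + div ρ ≥ 0`,

and `G(pt P) = c · (pt P ∧ tn P)`, `c ≠ 0`, for `P ∉ Z`.  (No degree of `W` is needed.)

Sorry-free.
-/

set_option autoImplicit false

noncomputable section

namespace Fermat.Agent.S17.H290

open AlgebraicCurve KaehlerDifferential MvPolynomial
open Fermat.Agent.Lib.RR Fermat.Agent.S17.HWall Fermat.Agent.S17.HContract Fermat.Agent.S17.Wall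
open Fermat.Agent.S17.H230

variable {K F : Type*} [Field K] [CharZero K] [Field F] [Algebra K F] [FF1 K F]

/-- Every nonzero differential is `ω` with `dy = ∂y · ω` for a derivation `∂`. -/
theorem exists_der_of_diff (ω : Ω[F⁄K]) (hω0 : ω ≠ 0) :
    ∃ δ : Derivation K F F, ∀ y : F, D K F y = δ y • ω := by
  obtain ⟨δ₀, ω₀, hω₀, h₀⟩ := exists_der_diff K F
  have hspan : Submodule.span F {ω₀} = ⊤ := by
    rw [eq_top_iff, ← KaehlerDifferential.span_range_derivation K F, Submodule.span_le]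
    rintro _ ⟨y, rfl⟩
    rw [SetLike.mem_coe, h₀ y]
    exact Submodule.smul_mem _ _ (Submodule.subset_span rfl)
  have hmem : ω ∈ Submodule.span F {ω₀} := by rw [hspan]; trivial
  obtain ⟨f, hf⟩ := Submodule.mem_span_singleton.1 hmem
  have hf0 : f ≠ 0 := by
    rintro rfl
    exact hω0 (by rw [← hf, zero_smul])
  refine ⟨f⁻¹ • δ₀, fun y => ?_⟩
  have h1 : f⁻¹ * δ₀ y * f = δ₀ y := by field_simp
  rw [Derivation.smul_apply, smul_eq_mul, ← hf, smul_smul, h1, h₀ y]

/-- **GG-1 (TANGENT FORMS), explicit form.** -/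
theorem tangentForms_at (E : EmbData K F) (hPN : ProjNormalStatement E)
    (ω : Ω[F⁄K]) (hω0 : ω ≠ 0) (W : Divisor K F)
    (hW : ∀ v : Place K F, W v = v.ordDifferential ω) :
    ∃ (e : ℕ) (G : Fin (E.r + 1) × Fin (E.r + 1) → MvPolynomial (Fin (E.r + 1)) K)
      (ρ : F) (hρ : ρ ≠ 0),
      1 ≤ e ∧ (∀ p, (G p).IsHomogeneous (e + 2)) ∧
      0 ≤ ((e * E.m) • prim E.vinf - W + divOf ρ hρ : Divisor K F) ∧
      ExactZero E (e + 2) G ((e * E.m) • prim E.vinf - W + divOf ρ hρ) ∧
      ∀ P : Place K F, ((e * E.m) • prim E.vinf - W + divOf ρ hρ : Divisor K F) P = 0 →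
        ∃ c : K, c ≠ 0 ∧ ∀ p, eval (E.pt P) (G p) = c * wedge (E.pt P) (E.tn P) p := by
  classical
  obtain ⟨δ, hω⟩ := exists_der_of_diff ω hω0
  set g : ℕ := genusR K F with hg
  have hm1 : 1 ≤ E.m := by have := E.hm; omega
  set e : ℕ := (Divisor.degree W + g).toNat + 1 with he
  have he1 : 1 ≤ e := by omega
  have heW : Divisor.degree W + g < (e : ℤ) := by
    have := Int.self_le_toNat (Divisor.degree W + g)
    rw [he]
    push_cast
    omega
  -- the divisor `B = e m ∞ − W`
  set B : Divisor K F := (e * E.m) • prim E.vinf - W with hB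
  have hdegB : Divisor.degree B = (e : ℤ) * E.m - Divisor.degree W := by
    rw [hB, map_sub, map_nsmul]
    unfold prim
    rw [Divisor.degree_single, FF1.deg_eq_one]
    push_cast
    simp only [nsmul_eq_mul]
    push_cast
    ring
  have hell : 0 < ell B := by
    have h1 := riemann_inequality B
    rw [hdegB] at h1
    have h2 : (e : ℤ) * 1 ≤ (e : ℤ) * E.m :=
      mul_le_mul_of_nonneg_left (by exact_mod_cast hm1) (by positivity)
    have h3 : (0 : ℤ) < ell B := by linarith
    exact_mod_cast h3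
  obtain ⟨ρ, hρ0, hρ⟩ := H98.exists_ne_zero_mem_L_of_ell_pos hell
  have hρord : ∀ P : Place K F, 0 ≤ B P + P.ord ρ := by
    intro P
    rcases (mem_L_iff.mp hρ) P with h | h
    · exact absurd h hρ0
    · linarith
  have hBP : ∀ P : Place K F,
      B P = (e : ℤ) * (E.m • prim E.vinf : Divisor K F) P - W P := by
    intro P
    rw [hB, Finsupp.sub_apply, smul_smul_prim_apply]
  -- the local data
  choose θ u c hθ0 hc0 hθord hureg hw hval using tan_local E δ ω hω hω0
  -- the sections `ρ w_p` of `O((e + 2) m ∞)`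
  have hord : ∀ (P : Place K F) p, ρ * wform E δ p ≠ 0 →
      P.ord (ρ * wform E δ p) = B P + P.ord ρ
        - ((e : ℤ) + 2) * (E.m • prim E.vinf : Divisor K F) P + P.ord (u P p) := by
    intro P p hne
    rw [hw P p] at hne ⊢
    have hu0 : u P p ≠ 0 := fun h => hne (by rw [h, mul_zero, mul_zero])
    rw [P.ord_mul hρ0 (mul_ne_zero (hθ0 P) hu0), P.ord_mul (hθ0 P) hu0, hθord P, hBP P, hW P]
    ring
  have hcast : (((e + 2 : ℕ) : ℤ)) = (e : ℤ) + 2 := by push_cast; ring
  have hmem : ∀ p, ρ * wform E δ p ∈ riemannRochSpace (((e + 2) * E.m) • prim E.vinf) := by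
    intro p
    rw [mem_L_iff]
    intro P
    by_cases hne : ρ * wform E δ p = 0
    · exact Or.inl hne
    · right
      rw [hord P p hne, smul_smul_prim_apply, hcast]
      have h1 := hρord P
      have h2 : 0 ≤ P.ord (u P p) := (regAt_iff P _).mp (hureg P p)
      linarith
  choose G hGhom hGev using fun p => hPN (e + 2) (ρ * wform E δ p) (hmem p)
  have hzdiv : ∀ (P : Place K F) p, aeval E.x (G p) ≠ 0 →
      zdiv E (e + 2) (G p) P = B P + P.ord ρ + P.ord (u P p) := by
    intro P p hne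
    unfold zdiv
    rw [dif_neg hne, Finsupp.add_apply, divOf_apply, smul_smul_prim_apply, hcast]
    rw [hGev p] at hne ⊢
    rw [hord P p hne]
    ring
  refine ⟨e, G, ρ, hρ0, he1, hGhom, ?_, ⟨?_, ?_⟩, ?_⟩
  · -- `0 ≤ Z`
    rw [Finsupp.le_def]
    intro P
    rw [Finsupp.add_apply, divOf_apply, Finsupp.coe_zero, Pi.zero_apply]
    exact hρord P
  · -- `Z ≤ zdiv`
    intro p hne
    rw [Finsupp.le_def]
    intro P
    rw [hzdiv P p hne, Finsupp.add_apply, divOf_apply]
    have h2 : 0 ≤ P.ord (u P p) := (regAt_iff P _).mp (hureg P p)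
    linarith
  · -- exactness
    intro P
    obtain ⟨p, hp⟩ : ∃ p, wedge (E.pt P) (E.tn P) p ≠ 0 := by
      by_contra hcon
      push Not at hcon
      exact Fermat.Agent.S17.H440.wedge_pt_tn_ne_zero E P (funext hcon)
    have hv : valAt P (u P p) ≠ 0 := by
      rw [hval P p]
      exact mul_ne_zero (hc0 P) hp
    have hu : u P p ≠ 0 ∧ P.ord (u P p) = 0 := by
      have h1 := (valAt_eq_zero_iff (hureg P p)).not.mp hv
      push Not at h1
      have h2 : 0 ≤ P.ord (u P p) := (regAt_iff P _).mp (hureg P p)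
      exact ⟨h1.1, by omega⟩
    have hne : aeval E.x (G p) ≠ 0 := by
      rw [hGev p, hw P p]
      exact mul_ne_zero hρ0 (mul_ne_zero (hθ0 P) hu.1)
    refine ⟨p, hne, ?_⟩
    rw [hzdiv P p hne, hu.2, Finsupp.add_apply, divOf_apply, add_zero]
  · -- the tangent relation
    intro P hZP
    rw [Finsupp.add_apply, divOf_apply] at hZP
    obtain ⟨l, hl⟩ := exists_pt_eq E P
    have hl0 : l ≠ 0 := by
      rintro rfl
      apply Fermat.Agent.S17.H440.pt_ne_zero E P
      rw [hl, zero_smul]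
    set q : F := unif P ^ ((E.m • prim E.vinf : Divisor K F) P) with hq
    have hq0 : q ≠ 0 := zpow_ne_zero _ (unif_ne_zero P)
    have hqord : P.ord q = (E.m • prim E.vinf : Divisor K F) P := ord_unif_zpow P _
    have hxreg : ∀ i, RegAt P (q * E.x i) := fun i => by
      rw [mul_comm]; exact regAt_normD (x_mem E) P i
    have hpt : (fun i => valAt P (q * E.x i)) = ptD (E.m • prim E.vinf) E.x P := by
      funext i
      rw [ptD_apply, mul_comm]
    -- the unit `a = q ^ (e + 2) ρ θ`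
    set a : F := q ^ (e + 2) * (ρ * θ P) with ha
    have ha0 : a ≠ 0 := mul_ne_zero (pow_ne_zero _ hq0) (mul_ne_zero hρ0 (hθ0 P))
    have haord : P.ord a = 0 := by
      rw [ha, P.ord_mul (pow_ne_zero _ hq0) (mul_ne_zero hρ0 (hθ0 P)), P.ord_mul hρ0 (hθ0 P),
        ord_pow, hqord, hθord P]
      have h1 := hBP P
      have h2 := hW P
      rw [hcast]
      linarith
    have hareg : RegAt P a := (regAt_iff P a).mpr haord.ge
    refine ⟨l ^ (e + 2) * valAt P a * c P,
      mul_ne_zero (mul_ne_zero (pow_ne_zero _ hl0) (valAt_ne_zero ha0 haord)) (hc0 P), fun p => ?_⟩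
    have h1 : q ^ (e + 2) * (ρ * (θ P * u P p)) = a * u P p := by
      rw [ha]; ring
    have hev : eval (E.pt P) (G p) = l ^ (e + 2) * (valAt P a * valAt P (u P p)) := by
      rw [hl, Fermat.Agent.S17.H230.eval_smul_of_isHomogeneous (hGhom p), ← hpt,
        ← valAt_aeval hxreg (G p), Fermat.Agent.S17.H710.aeval_mul_of_isHomogeneous (hGhom p),
        hGev p, hw P p, h1, valAt_mul hareg (hureg P p)]
    rw [hev, hval P p]
    ring

end Fermat.Agent.S17.H290

end
end
-- ===== PACK-END S17/H290/TanFormsAt.lean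

-- ===== PACK-BEGIN S29/M4b/Top.lean
section
/-
S29 row, LAYER M, SUB-LAYER M4b (the Kummer map) — TOP ASSEMBLY over the seven pieces of
helper822's sub-skeleton (`origin/helper822:Fermat/Agent/S29/M4b/Skeleton.lean`), with the pieces
as `Prop`s (row-lead helper269; the assembly proof is helper822's `exists_kummerMap_of`).

A piece is DONE when it proves one of the `Prop`s `PieceK1 N p`, ..., `PieceHecke N p` below
(they are the EXACT statements of the skeleton, for a fixed level `N` and modulus `p`).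

`M4b_of_pieces` : the seven pieces for `(N, p)`, `p` prime ⟹ the Kummer bridge for `(N, p)`;
`M4bStatement_of_pieces` : the seven pieces for all `N` and all primes `p` ⟹ `M4bStatement`
(the `Prop` of `Fermat/Agent/S29/Parts.lean` consumed by `Main.S29_of_parts`).
The two group-theoretic facts about Hecke factorisations come from the landed `H149/HCoh.lean`.
-/




set_option autoImplicit false

noncomputable section

open ModularCurve AlgebraicCurve CongruenceSubgroup UpperHalfPlane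
open scoped MatrixGroups Manifold

namespace Fermat.Agent.S29.M4b

open Fermat.Agent.S24 Fermat.Agent.S29

section Pieces

variable (N : ℕ) [NeZero N] (p : ℕ)

/-- PIECE `K1` (twisted Eisenstein series). -/
def PieceK1 : Prop :=
  ∀ {c : G0 N → ZMod p}, IsParHom c → ∃ U : ℍ → ℂ, IsTwisted N p c U

/-- PIECE `K3` (descent `ℂ → ℚ̄`). -/
def PieceK3 : Prop :=
  ∀ {c : G0 N → ZMod p}, IsParHom c → ∀ {U : ℍ → ℂ}, IsTwisted N p c U →
    ∃ (U' : ℍ → ℂ) (u : FF N), IsTwisted N p c U' ∧ Realises N u (fun τ => U' τ ^ p)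

/-- PIECE `K2` (dictionary over `ℚ̄`). -/
def PieceK2 : Prop :=
  ∀ {c : G0 N → ZMod p}, IsParHom c → ∀ {U : ℍ → ℂ} {u : FF N}, IsTwisted N p c U →
    Realises N u (fun τ => U τ ^ p) → ∃ x : JZero N, H455.IsKummerClass (p : ℤ) u x

/-- PIECE `K4-UNIQ`. -/
def PieceUniq : Prop :=
  ∀ {c : G0 N → ZMod p} {x x' : JZero N}, IsKum N p c x → IsKum N p c x' → x = x'

/-- PIECE `K4-INJ`. -/
def PieceInj : Prop :=
  ∀ {c : G0 N → ZMod p}, IsKum N p c (0 : JZero N) → c = 0

/-- PIECE `K4-ADD`. -/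
def PieceAdd : Prop :=
  ∀ {c c' : G0 N → ZMod p} {x x' : JZero N},
    IsKum N p c x → IsKum N p c' x' → IsKum N p (c + c') (x + x')

/-- PIECE `K4-HECKE`. -/
def PieceHecke : Prop :=
  ∀ (ℓ : Nat.Primes), ¬ (ℓ : ℕ) ∣ N * p →
    (∀ γ : G0 N, ∃ (π : Equiv.Perm (Option (Fin (ℓ : ℕ)))) (δ : Option (Fin (ℓ : ℕ)) → G0 N),
      ∀ i, IsHeckeFactor (ℓ : ℕ) γ i (π i, δ i)) →
    ∀ {c c' : G0 N → ZMod p}, IsParHom c → IsTransfer N (ℓ : ℕ) c c' →
      ∀ {x : JZero N}, IsKum N p c x → IsKum N p c' (heckeOperatorBar N ℓ x)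

end Pieces

section Assembly

variable {N : ℕ} [NeZero N] {p : ℕ}

theorem top_isKum_exists (h1 : PieceK1 N p) (h3 : PieceK3 N p) (h2 : PieceK2 N p)
    {c : G0 N → ZMod p} (hc : IsParHom c) : ∃ x : JZero N, IsKum N p c x := by
  obtain ⟨U, hU⟩ := h1 hc
  obtain ⟨U', u, hU', hu⟩ := h3 hc hU
  obtain ⟨x, hx⟩ := h2 hc hU' hu
  refine ⟨x, u, 1, U', one_ne_zero, hx, hU', ?_⟩
  simpa using hu

theorem top_isKum_mem_Jp {c : G0 N → ZMod p} {x : JZero N} (h : IsKum N p c x) :
    x ∈ Jp N p := by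
  obtain ⟨f, t, U, -, hx, -, -⟩ := h
  rw [Submodule.mem_torsionBy_iff]
  exact hx.zsmul_eq_zero

open Classical in
/-- The Kummer map: `κ c` is THE Kummer class of `c` (and `0` if there is none). -/
def topKummerMap (N : ℕ) [NeZero N] (p : ℕ) (c : G0 N → ZMod p) : Jp N p :=
  if h : ∃ x : JZero N, IsKum N p c x then ⟨h.choose, top_isKum_mem_Jp h.choose_spec⟩ else 0

theorem top_isKum_kummerMap (h1 : PieceK1 N p) (h3 : PieceK3 N p) (h2 : PieceK2 N p)
    {c : G0 N → ZMod p} (hc : IsParHom c) :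
    IsKum N p c (topKummerMap N p c : JZero N) := by
  have h := top_isKum_exists h1 h3 h2 hc
  rw [topKummerMap, dif_pos h]
  exact h.choose_spec

theorem top_kummerMap_eq (hu : PieceUniq N p) {c : G0 N → ZMod p} {x : JZero N}
    (h : IsKum N p c x) : (topKummerMap N p c : JZero N) = x := by
  have h' : ∃ x : JZero N, IsKum N p c x := ⟨x, h⟩
  rw [topKummerMap, dif_pos h']
  exact hu h'.choose_spec h

/-- The transfer of `c` is `heckeCoh N ℓ c` (`ℓ ∤ N` prime). -/
theorem top_isTransfer_heckeCoh {ℓ : ℕ} (hℓ : ℓ.Prime) (hℓN : ¬ ℓ ∣ N) (c : G0 N → ZMod p) :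
    IsTransfer N ℓ c (heckeCoh N ℓ c) := by
  intro γ π δ hfac
  unfold heckeCoh
  refine Finset.sum_congr rfl fun i _ => ?_
  rw [H149.HCoh_heckeFac_unique hℓ hℓN (hfac i)]

/-- Existence of the Hecke factorisation, with the index map a permutation. -/
theorem top_exists_factor {ℓ : ℕ} (hℓ : ℓ.Prime) (hℓN : ¬ ℓ ∣ N) (γ : G0 N) :
    ∃ (π : Equiv.Perm (Option (Fin ℓ))) (δ : Option (Fin ℓ) → G0 N),
      ∀ i, IsHeckeFactor ℓ γ i (π i, δ i) :=
  ⟨H149.HCoh_perm (H149.HCoh_isFactorSystem hℓ hℓN) γ, fun i => (heckeFac N ℓ γ i).2,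
    fun i => H149.HCoh_heckeFac_spec hℓ hℓN γ i⟩

/-- **Output of sub-layer M4b** for a fixed level and modulus, from the seven pieces. -/
theorem M4b_of_pieces (N : ℕ) [NeZero N] (p : ℕ)
    (h1 : PieceK1 N p) (h3 : PieceK3 N p) (h2 : PieceK2 N p) (hu : PieceUniq N p)
    (hi : PieceInj N p) (ha : PieceAdd N p) (hh : PieceHecke N p) :
    ∃ κ : (G0 N → ZMod p) → Jp N p,
      (∀ c c', IsParHom c → IsParHom c' → κ (c + c') = κ c + κ c') ∧
      (∀ c, IsParHom c → κ c = 0 → c = 0) ∧
      (∀ ℓ : Nat.Primes, ¬ (ℓ : ℕ) ∣ N * p → ∀ c, IsParHom c →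
        κ (heckeCoh N ℓ c) = heckeJp N p ℓ (κ c)) := by
  refine ⟨topKummerMap N p, fun c c' hc hc' => ?_, fun c hc h0 => ?_, fun ℓ hℓ c hc => ?_⟩
  · apply Subtype.ext
    rw [Submodule.coe_add]
    exact top_kummerMap_eq hu
      (ha (top_isKum_kummerMap h1 h3 h2 hc) (top_isKum_kummerMap h1 h3 h2 hc'))
  · have h := top_isKum_kummerMap h1 h3 h2 hc
    rw [h0] at h
    exact hi h
  · apply Subtype.ext
    rw [coe_heckeJp]
    have hℓN : ¬ (ℓ : ℕ) ∣ N := fun h => hℓ (Dvd.dvd.mul_right h p)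
    exact top_kummerMap_eq hu (hh ℓ hℓ (top_exists_factor ℓ.2 hℓN) hc
      (top_isTransfer_heckeCoh ℓ.2 hℓN c) (top_isKum_kummerMap h1 h3 h2 hc))

/-- The seven pieces for all levels and all PRIME moduli give `M4bStatement`. -/
theorem M4bStatement_of_pieces
    (h1 : ∀ (N : ℕ) [NeZero N] (p : ℕ), p.Prime → PieceK1 N p)
    (h3 : ∀ (N : ℕ) [NeZero N] (p : ℕ), p.Prime → PieceK3 N p)
    (h2 : ∀ (N : ℕ) [NeZero N] (p : ℕ), p.Prime → PieceK2 N p)
    (hu : ∀ (N : ℕ) [NeZero N] (p : ℕ), p.Prime → PieceUniq N p)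
    (hi : ∀ (N : ℕ) [NeZero N] (p : ℕ), p.Prime → PieceInj N p)
    (ha : ∀ (N : ℕ) [NeZero N] (p : ℕ), p.Prime → PieceAdd N p)
    (hh : ∀ (N : ℕ) [NeZero N] (p : ℕ), p.Prime → PieceHecke N p) :
    M4bStatement := by
  intro N _ p hp
  exact M4b_of_pieces N p (h1 N p hp.out) (h3 N p hp.out) (h2 N p hp.out) (hu N p hp.out)
    (hi N p hp.out) (ha N p hp.out) (hh N p hp.out)

end Assembly

end Fermat.Agent.S29.M4b

end
end
-- ===== PACK-END S29/M4b/Top.lean

-- ===== PACK-BEGIN S37/H818/NodePull.lean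
section
/-
S37 / node_pull (helper818): the interface `Core.PullData N (N * a) ℓ` of the row plan, for
`(ℓ, a) = (3, 2)` and `(2, 3)`, `a ∤ N`, `ℓ ∤ N`  — UNCONDITIONAL.

`pull := π^* : J₀(N) → J₀(N a)` (conorm along the inclusion `F_N ⊂ F_{N a}` of function fields),
Galois equivariant, commuting with `T_ℓ`, injective on prime-to-`ℓ` torsion because
`π_* π^* = [F_{N a} : F_N] = a + 1` is a power of `ℓ`.
-/





set_option autoImplicit false
set_option linter.style.haveILetI false

noncomputable section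

namespace Fermat.Agent.S37.H818

open AlgebraicCurve ModularCurve IntermediateField Fermat.Agent.S37.H99 Fermat.Agent.S37.Core

/-- **The inputs of the level transfer hold unconditionally** (as soon as the degree of the
degeneracy map is a power of `ℓ`). -/
theorem transferInputs (N k ℓ : ℕ) [NeZero N] [NeZero k] [NeZero ℓ] (hℓ : ℓ.Prime)
    (hk : k.Prime) (hℓN : ¬ ℓ ∣ N) (hℓk : ¬ ℓ ∣ k)
    (hdeg : ∃ e : ℕ, finrankAlong Qb (heckeAlphaBar Qb N k) = ℓ ^ e) :
    TransferInputs N k ℓ where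
  hℓ := hℓ
  hk := hk
  hℓN := hℓN
  hℓk := hℓk
  heckeN := Fermat.Agent.Lib.FF398.heckeInputsAlong N ℓ
  heckeM := Fermat.Agent.Lib.FF398.heckeInputsAlong (N * k) ℓ
  normFormula := Fermat.Agent.Lib.FF398.normFormulaAlong_alpha N k
  deg_pow := hdeg

/-- The degree of `X₀(N a) → X₀(N)` is a power of `ℓ` in the two cases of the row plan. -/
theorem finrankAlong_pow (N a ℓ : ℕ) [NeZero N] [NeZero a]
    (ha : (ℓ = 3 ∧ a = 2) ∨ (ℓ = 2 ∧ a = 3)) (haN : ¬ a ∣ N) :
    ∃ e : ℕ, finrankAlong Qb (heckeAlphaBar Qb N a) = ℓ ^ e := by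
  rcases ha with ⟨rfl, rfl⟩ | ⟨rfl, rfl⟩
  · refine ⟨1, ?_⟩
    rw [finrankAlong_heckeAlphaBar' (L := Qb) N 2 Nat.prime_two, if_neg haN]
    norm_num
  · refine ⟨2, ?_⟩
    rw [finrankAlong_heckeAlphaBar' (L := Qb) N 3 Nat.prime_three, if_neg haN]
    norm_num

/-- The pull datum attached to transfer inputs. -/
def TransferInputs.pullData {N k ℓ : ℕ} [NeZero N] [NeZero k] [NeZero ℓ]
    (T : TransferInputs N k ℓ) : PullData N (N * k) ℓ where
  pull := T.pullback
  galois σ x := T.pullback_galois σ x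
  inj_torsion m hm x hmx hx :=
    T.pullback_injective_of_coprime m
      ((Nat.Coprime.symm ((Nat.Prime.coprime_iff_not_dvd T.hℓ).mpr hm))) x hmx hx
  hecke x := T.pullback_hecke x

/-- **NODE [PULL]** (exact statement of `Board.node_pull`). -/
theorem node_pull (N a ℓ : ℕ) [NeZero N] [NeZero a] [NeZero ℓ] (hℓ : ℓ.Prime)
    (ha : (ℓ = 3 ∧ a = 2) ∨ (ℓ = 2 ∧ a = 3)) (haN : ¬ a ∣ N) (hℓN : ¬ ℓ ∣ N) :
    Nonempty (PullData N (N * a) ℓ) := by
  have hk : a.Prime := by
    rcases ha with ⟨-, rfl⟩ | ⟨-, rfl⟩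
    · exact Nat.prime_two
    · exact Nat.prime_three
  have hℓa : ¬ ℓ ∣ a := by
    rcases ha with ⟨rfl, rfl⟩ | ⟨rfl, rfl⟩ <;> decide
  exact ⟨(transferInputs N a ℓ hℓ hk hℓN hℓa (finrankAlong_pow N a ℓ ha haN)).pullData⟩

/-- General form: `PullData N (N * k) ℓ` for primes `k`, `ℓ ∤ N k`, with `[F_{N k} : F_N]` a
power of `ℓ`. -/
theorem nonempty_pullData (N k ℓ : ℕ) [NeZero N] [NeZero k] [NeZero ℓ] (hℓ : ℓ.Prime)
    (hk : k.Prime) (hℓN : ¬ ℓ ∣ N) (hℓk : ¬ ℓ ∣ k)
    (hdeg : ∃ e : ℕ, finrankAlong Qb (heckeAlphaBar Qb N k) = ℓ ^ e) :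
    Nonempty (PullData N (N * k) ℓ) :=
  ⟨(transferInputs N k ℓ hℓ hk hℓN hℓk hdeg).pullData⟩

end Fermat.Agent.S37.H818

end

end
-- ===== PACK-END S37/H818/NodePull.lean

-- ===== PACK-BEGIN S30/H450/KumCompat.lean
section
/-
S30 (p-adic version), helper450: the Kummer relation of S29 sub-layer M4b (`M4b.IsKum`, frozen
definitions of helper822, general modulus) is compatible with change of modulus.

* `isKum_red`  : REDUCTION.  `IsKum N (m * d) c x → IsKum N m (c mod m) (d • x)`
  (data `(f, t, U) ↦ (f, t ^ d, U ^ d)`).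
* `isKum_infl` : INFLATION.  `IsKum N m c x → IsKum N (m * d) (d * c) x`
  (data `(f, t, U) ↦ (f ^ d, t, U)`).

Everything here is formal: no analysis beyond `ζ_{md} ^ d = ζ_m`.
-/


set_option autoImplicit false

noncomputable section

open ModularCurve AlgebraicCurve CongruenceSubgroup UpperHalfPlane
open scoped MatrixGroups Manifold

namespace Fermat.Agent.S30.H450

open Fermat.Agent.S24 Fermat.Agent.S29 Fermat.Agent.S29.M4b

/-! ### Roots of unity -/

theorem zetaP_pow_self (m : ℕ) (hm : m ≠ 0) : zetaP m ^ m = 1 := by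
  unfold zetaP
  rw [← Complex.exp_nat_mul]
  have hm' : (m : ℂ) ≠ 0 := by exact_mod_cast hm
  have : (m : ℂ) * (2 * Real.pi * Complex.I / m) = 2 * Real.pi * Complex.I := by
    field_simp
  rw [this, Complex.exp_two_pi_mul_I]

theorem zetaP_mul_pow (m d : ℕ) (hd : d ≠ 0) : zetaP (m * d) ^ d = zetaP m := by
  unfold zetaP
  rw [← Complex.exp_nat_mul]
  congr 1
  have hd' : (d : ℂ) ≠ 0 := by exact_mod_cast hd
  by_cases hm : m = 0
  · subst hm
    simp
  have hm' : (m : ℂ) ≠ 0 := by exact_mod_cast hm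
  push_cast
  field_simp

theorem zetaP_pow_mod (m : ℕ) (hm : m ≠ 0) (a : ℕ) : zetaP m ^ (a % m) = zetaP m ^ a := by
  conv_rhs => rw [← Nat.mod_add_div a m]
  rw [pow_add, pow_mul, zetaP_pow_self m hm, one_pow, mul_one]

/-! ### Reduction and inflation of characters -/

/-- Reduction of a character modulo a divisor of the modulus. -/
def redChar {N m m' : ℕ} (h : m ∣ m') (c : G0 N → ZMod m') : G0 N → ZMod m :=
  fun γ => ZMod.castHom h (ZMod m) (c γ)

/-- Inflation of a character: `ZMod m → ZMod (m * d)`, `a ↦ d * a` (on representatives). -/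
def inflChar {N : ℕ} (m d : ℕ) (c : G0 N → ZMod m) : G0 N → ZMod (m * d) :=
  fun γ => ((d * (c γ).val : ℕ) : ZMod (m * d))

theorem isParHom_redChar {N m m' : ℕ} (h : m ∣ m') {c : G0 N → ZMod m'} (hc : IsParHom c) :
    IsParHom (redChar h c) where
  map_mul γ γ' := by
    simp only [redChar, hc.map_mul, map_add]
  parabolic γ hγ := by
    simp only [redChar, hc.parabolic γ hγ, map_zero]
  elliptic γ n hn hγ := by
    simp only [redChar, hc.elliptic γ n hn hγ, map_zero]

theorem redChar_add {N m m' : ℕ} (h : m ∣ m') (c c' : G0 N → ZMod m') :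
    redChar h (c + c') = redChar h c + redChar h c' := by
  funext γ
  simp only [redChar, Pi.add_apply, map_add]

theorem val_redChar {N m m' : ℕ} [NeZero m'] (h : m ∣ m') (c : G0 N → ZMod m') (γ : G0 N) :
    (redChar h c γ).val = (c γ).val % m := by
  unfold redChar
  have h1 : ZMod.castHom h (ZMod m) (c γ) = (((c γ).val : ℕ) : ZMod m) := by
    conv_lhs => rw [← ZMod.natCast_zmod_val (c γ)]
    rw [map_natCast]
  rw [h1, ZMod.val_natCast]

/-! ### Kummer classes under change of modulus (Prelude language) -/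

section Alg

variable {K F : Type*} [Field K] [Field F] [Algebra K F]

theorem isKummerClass_red {m d : ℕ} {f : F} {x : Pic0 K F}
    (h : H455.IsKummerClass ((m * d : ℕ) : ℤ) f x) :
    H455.IsKummerClass (m : ℤ) f (d • x) := by
  obtain ⟨hf, D, rfl, hD⟩ := h
  refine ⟨hf, d • D, rfl, fun v => ?_⟩
  rw [← hD v]
  simp only [AddSubmonoidClass.coe_nsmul, Finsupp.smul_apply, nsmul_eq_mul]
  push_cast
  ring

theorem isKummerClass_infl {m d : ℕ} {f : F} {x : Pic0 K F}
    (h : H455.IsKummerClass (m : ℤ) f x) :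
    H455.IsKummerClass ((m * d : ℕ) : ℤ) (f ^ d) x := by
  obtain ⟨hf, D, rfl, hD⟩ := h
  refine ⟨pow_ne_zero d hf, D, rfl, fun v => ?_⟩
  rw [← zpow_natCast, Place.ord_zpow, ← hD v]
  push_cast
  ring

end Alg

/-! ### The analytic part -/

section An

variable {N : ℕ}

theorem isTwisted_red {m d : ℕ} [NeZero m] [NeZero d] {c : G0 N → ZMod (m * d)} {U : ℍ → ℂ}
    (hU : IsTwisted N (m * d) c U) :
    IsTwisted N m (redChar (Dvd.intro d rfl) c) (fun τ => U τ ^ d) where
  mdiff := hU.mdiff.pow d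
  ne_zero := by
    obtain ⟨τ, hτ⟩ := hU.ne_zero
    exact ⟨τ, pow_ne_zero d hτ⟩
  hasChar := by
    intro γ τ
    have : NeZero (m * d) := ⟨Nat.mul_ne_zero (NeZero.ne m) (NeZero.ne d)⟩
    beta_reduce
    rw [hU.hasChar γ τ, mul_pow, ← pow_mul, mul_comm (c γ).val d, pow_mul,
      zetaP_mul_pow m d (NeZero.ne d), val_redChar, zetaP_pow_mod m (NeZero.ne m)]
  pow_mem := by
    have h := hU.pow_mem
    have e : (fun τ => (U τ ^ d) ^ m) = fun τ => U τ ^ (m * d) := by
      funext τ
      rw [← pow_mul, mul_comm]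
    rw [e]
    exact h

variable [NeZero N]

theorem realises_red {m d : ℕ} {f t : FF N} {U : ℍ → ℂ}
    (h : Realises N (f * t ^ (m * d)) (fun τ => U τ ^ (m * d))) :
    Realises N (f * (t ^ d) ^ m) (fun τ => (U τ ^ d) ^ m) := by
  have e : (fun τ => (U τ ^ d) ^ m) = fun τ => U τ ^ (m * d) := by
    funext τ
    rw [← pow_mul, mul_comm]
  have e' : f * (t ^ d) ^ m = f * t ^ (m * d) := by
    rw [← pow_mul, mul_comm d m]
  rw [e, e']
  exact h

/-- **REDUCTION.**  If `x` is the Kummer class of `c` for the modulus `m * d`, then `d • x` is the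
Kummer class of `c mod m` for the modulus `m`. -/
theorem isKum_red {m d : ℕ} [NeZero m] [NeZero d] {c : G0 N → ZMod (m * d)} {x : JZero N}
    (h : IsKum N (m * d) c x) :
    IsKum N m (redChar (Dvd.intro d rfl) c) (d • x) := by
  obtain ⟨f, t, U, ht, hx, hU, hR⟩ := h
  exact ⟨f, t ^ d, fun τ => U τ ^ d, pow_ne_zero d ht, isKummerClass_red hx, isTwisted_red hU,
    realises_red hR⟩

/-- Variant of `isKum_red` with a propositional equality of moduli (e.g. `p ^ (n+1) = p ^ n * p`). -/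
theorem isKum_red' {m m' d : ℕ} [NeZero m] [NeZero d] (hm : m' = m * d) (hdvd : m ∣ m')
    {c : G0 N → ZMod m'} {x : JZero N} (h : IsKum N m' c x) :
    IsKum N m (redChar hdvd c) (d • x) := by
  subst hm
  exact isKum_red h

theorem realises_pow {u : FF N} {G : ℍ → ℂ} (h : Realises N u G) (d : ℕ) :
    Realises N (u ^ d) (fun τ => G τ ^ d) := by
  obtain ⟨h1, h2⟩ := h
  have hq : H708.HasQExp 1 G (coeffMap Deg457.iotaC ((u : FF N) : LaurentSeries Kbar)) :=
    h2 ▸ H882.hasQExp_of_mem_goodRing h1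
  have hG : (fun τ => G τ ^ d) = G ^ d := rfl
  refine ⟨hG ▸ (H648.goodRing N).pow_mem h1 d, ?_⟩
  rw [hG, (hq.pow d).qexpFun_eq]
  rw [IntermediateField.coe_pow, map_pow]

omit [NeZero N] in
theorem zetaP_pow_val_inflChar {m d : ℕ} [NeZero m] [NeZero d] (c : G0 N → ZMod m) (γ : G0 N) :
    zetaP (m * d) ^ (inflChar m d c γ).val = zetaP m ^ (c γ).val := by
  have hmd : m * d ≠ 0 := Nat.mul_ne_zero (NeZero.ne m) (NeZero.ne d)
  have : NeZero (m * d) := ⟨hmd⟩
  unfold inflChar
  rw [ZMod.val_natCast, zetaP_pow_mod (m * d) hmd, pow_mul, zetaP_mul_pow m d (NeZero.ne d)]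

/-- **INFLATION.**  If `x` is the Kummer class of `c` for the modulus `m`, then `x` is the Kummer
class of `d * c` for the modulus `m * d`. -/
theorem isKum_infl {m d : ℕ} [NeZero m] [NeZero d] {c : G0 N → ZMod m} {x : JZero N}
    (h : IsKum N m c x) : IsKum N (m * d) (inflChar m d c) x := by
  obtain ⟨f, t, U, ht, hx, hU, hR⟩ := h
  have e : (fun τ => U τ ^ (m * d)) = fun τ => (U τ ^ m) ^ d := by
    funext τ
    rw [pow_mul]
  refine ⟨f ^ d, t, U, ht, isKummerClass_infl hx, ⟨hU.mdiff, hU.ne_zero, fun γ τ => ?_, ?_⟩, ?_⟩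
  · rw [zetaP_pow_val_inflChar]
    exact hU.hasChar γ τ
  · rw [e]
    exact (realises_pow hR d).1
  · have e' : f ^ d * t ^ (m * d) = (f * t ^ m) ^ d := by
      rw [mul_pow, pow_mul]
    rw [e, e']
    exact realises_pow hR d

end An

end Fermat.Agent.S30.H450

end
end
-- ===== PACK-END S30/H450/KumCompat.lean

-- ===== PACK-BEGIN S15/H337/Conj.lean
section





/-!
# Row S15, DESC tower COUNT (`r` odd), piece CONJ, analytic part (helper337)

The operator `cj G = (τ ↦ conj (G (-conj τ)))` on functions `ℍ → ℂ`: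

* `cj_mdiff`        : it preserves holomorphy;
* `cj_mem_goodRing` : it preserves the good ring of level `N`;
* `qexpFun_cj`      : it conjugates the coefficients of the `q`-expansion at `i∞`.
-/

set_option autoImplicit false

noncomputable section

namespace Fermat.Agent.S15.H337

open UpperHalfPlane CongruenceSubgroup ModularCurve ModularCurve.Period Filter Topology
open Fermat.Agent.S24 Fermat.Agent.S24.H648 Fermat.Agent.S24.H708 Fermat.Agent.S29
open Fermat.Agent.S21.ConjPartner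
open scoped MatrixGroups ComplexConjugate Manifold ModularForm

/-- `cj G τ = conj (G (-conj τ))`. -/
def cj (G : ℍ → ℂ) : ℍ → ℂ := fun τ => conj (G (J • τ))

theorem cj_apply (G : ℍ → ℂ) (τ : ℍ) : cj G τ = conj (G (J • τ)) := rfl

theorem J_smul_J_smul (τ : ℍ) : J • (J • τ) = τ := by
  rw [← mul_smul, J_mul_J, one_smul]

theorem cj_cj (G : ℍ → ℂ) : cj (cj G) = G := by
  funext τ
  rw [cj_apply, cj_apply, Complex.conj_conj, J_smul_J_smul]

theorem cj_mul (G H : ℍ → ℂ) : cj (G * H) = cj G * cj H := by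
  funext τ
  simp [cj_apply]

theorem cj_pow (G : ℍ → ℂ) (n : ℕ) : cj (G ^ n) = cj G ^ n := by
  funext τ
  simp [cj_apply]

theorem cj_pow' (G : ℍ → ℂ) (n : ℕ) : cj (fun τ => G τ ^ n) = fun τ => cj G τ ^ n := by
  funext τ
  simp [cj_apply]

theorem cj_smul (G : ℍ → ℂ) (γ : SL(2, ℤ)) (τ : ℍ) :
    cj G (γ • τ) = conj (G (jConjSL γ • (J • τ))) := by
  rw [cj_apply, J_smul_smul]

theorem cj_eq_slash (G : ℍ → ℂ) : cj G = G ∣[(0 : ℤ)] J := by
  funext τ
  simp [ModularForm.slash_def, cj_apply]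

theorem cj_mdiff {G : ℍ → ℂ} (hG : MDifferentiable 𝓘(ℂ) 𝓘(ℂ) G) :
    MDifferentiable 𝓘(ℂ) 𝓘(ℂ) (cj G) := by
  rw [cj_eq_slash]
  exact hG.slash 0 J

theorem cj_mem_goodRing {N : ℕ} {G : ℍ → ℂ} (hG : G ∈ goodRing N) : cj G ∈ goodRing N := by
  obtain ⟨h1, h2, h3⟩ := hG
  refine ⟨cj_mdiff h1, fun γ hγ τ => ?_, fun g => ?_⟩
  · rw [cj_smul, h2 _ (jConjSL_mem_Gamma0 hγ), cj_apply]
  · obtain ⟨C, m, h⟩ := h3 (jConjSL g)
    refine ⟨C, m, fun τ hτ => ?_⟩
    have := h (J • τ) (by rw [im_J_smul]; exact hτ)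
    rw [im_J_smul] at this
    show ‖cj G (g • τ)‖ ≤ _
    rw [cj_smul, Complex.norm_conj]
    exact this

/-! ## `q`-expansions -/

theorem qh_J_smul (τ : ℍ) : qh 1 (J • τ) = conj (qh 1 τ) := by
  rw [qh_apply, qh_apply, coe_J_smul]
  unfold Function.Periodic.qParam
  rw [← Complex.exp_conj]
  congr 1
  simp only [map_div₀, map_mul, Complex.conj_ofReal, Complex.conj_I, map_ofNat]
  push_cast
  ring

theorem cj_qh : cj (qh 1) = qh 1 := by
  funext τ
  rw [cj_apply, qh_J_smul, Complex.conj_conj]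

theorem cj_periodic {F : ℍ → ℂ} (hF : Function.Periodic (F ∘ ofComplex) ((1 : ℕ) : ℝ)) :
    Function.Periodic (cj F ∘ ofComplex) ((1 : ℕ) : ℝ) := by
  intro w
  by_cases hw : 0 < w.im
  · have hw' : 0 < (w + ((1 : ℕ) : ℝ)).im := by simpa using hw
    simp only [Function.comp_apply, cj_apply]
    congr 1
    rw [J_smul, J_smul, ofComplex_apply_of_im_pos hw', ofComplex_apply_of_im_pos hw]
    have h1 := hF (-(conj w) - ((1 : ℕ) : ℝ))
    simp only [Function.comp_apply] at h1
    rw [sub_add_cancel] at h1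
    show F (ofComplex (-(conj (w + (((1 : ℕ) : ℝ) : ℂ))))) = F (ofComplex (-(conj w)))
    have e1 : -(conj (w + (((1 : ℕ) : ℝ) : ℂ))) = -(conj w) - (((1 : ℕ) : ℝ) : ℂ) := by
      rw [map_add, Complex.conj_ofReal]
      ring
    rw [e1]
    exact h1.symm
  · have hw0 : w.im ≤ 0 := not_lt.mp hw
    have hw' : (w + ((1 : ℕ) : ℝ)).im ≤ 0 := by simpa using hw0
    simp only [Function.comp_apply]
    rw [ofComplex_apply_of_im_nonpos hw', ofComplex_apply_of_im_nonpos hw0]

theorem isHolInf_cj {F : ℍ → ℂ} (hF : IsHolInf 1 F) : IsHolInf 1 (cj F) := by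
  refine ⟨cj_mdiff hF.hol, cj_periodic hF.per, ?_⟩
  have hb := hF.bdd
  rw [UpperHalfPlane.isBoundedAtImInfty_iff] at hb ⊢
  obtain ⟨M, A, h⟩ := hb
  refine ⟨M, A, fun τ hτ => ?_⟩
  rw [cj_apply, Complex.norm_conj]
  exact h (J • τ) (by rw [im_J_smul]; exact hτ)

theorem qExpansion_cj {F : ℍ → ℂ} (hF : IsHolInf 1 F) :
    qExpansion ((1 : ℕ) : ℝ) (cj F) =
      PowerSeries.map (starRingEnd ℂ) (qExpansion ((1 : ℕ) : ℝ) F) := by
  ext m
  rw [PowerSeries.coeff_map]
  have hF' := isHolInf_cj hF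
  refine (qExpansion_coeff_unique_fun 1 (hpos 1) hF'.hol.continuous hF'.analyticAt
    (c := fun m => conj ((qExpansion ((1 : ℕ) : ℝ) F).coeff m)) (fun τ => ?_) m).symm
  have h := hF.hasSum (J • τ)
  have h2 := h.map (starRingEnd ℂ : ℂ →+* ℂ) Complex.continuous_conj
  rw [cj_apply]
  convert h2 using 1
  funext k
  simp only [Function.comp_apply, smul_eq_mul, map_mul, map_pow]
  rw [qh_J_smul, Complex.conj_conj, qh_apply]

theorem coeffMap_ofPowerSeries (f : ℂ →+* ℂ) (P : PowerSeries ℂ) :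
    coeffMap f (HahnSeries.ofPowerSeries ℤ ℂ P) =
      HahnSeries.ofPowerSeries ℤ ℂ (PowerSeries.map f P) := by
  ext k
  rw [coeffMap_coeff]
  have h1 : ∀ Q : PowerSeries ℂ, (HahnSeries.ofPowerSeries ℤ ℂ Q).coeff k =
      if k < 0 then 0 else PowerSeries.coeff k.natAbs Q := fun Q => PowerSeries.coeff_coe Q k
  rw [h1, h1]
  split_ifs
  · exact map_zero f
  · rw [PowerSeries.coeff_map]

theorem isMerInf_cj {G : ℍ → ℂ} (hG : IsMerInf 1 G) : IsMerInf 1 (cj G) := by
  obtain ⟨M, hM⟩ := hG.bdd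
  have h1 := isHolInf_cj (hG.isHolInf_mul_pow hM)
  rw [cj_mul, cj_pow, cj_qh] at h1
  exact ⟨cj_mdiff hG.hol, cj_periodic hG.per, M, h1.bdd⟩

/-- **`cj` conjugates the `q`-expansion at `i∞`.** -/
theorem qexpFun_cj {G : ℍ → ℂ} (hG : IsMerInf 1 G) :
    qexpFun 1 (cj G) = coeffMap (starRingEnd ℂ) (qexpFun 1 G) := by
  obtain ⟨M, hM⟩ := hG.bdd
  have hH := hG.isHolInf_mul_pow hM
  have h1 := isHolInf_cj hH
  have h2 : cj (G * qh 1 ^ M) = cj G * qh 1 ^ M := by rw [cj_mul, cj_pow, cj_qh]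
  rw [h2] at h1
  rw [qexpFun_eq_lau (isMerInf_cj hG) h1.bdd, qexpFun_eq_lau hG hM]
  unfold lau
  rw [map_mul, coeffMap_single, coeffMap_ofPowerSeries, ← h2, qExpansion_cj hH,
    RingHom.map_one]

end Fermat.Agent.S15.H337

end
end
-- ===== PACK-END S15/H337/Conj.lean

-- ===== PACK-BEGIN S37/H28/NoRam.lean
section



/-!
# S37 / node_rim (helper28): `NoRamOutside` from `Unramified`  (input (NC) of Theorem M)

For a reduction datum `G : Red.Datum A π F Fk` and a coordinate `t : F`: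
`H278.Unramified (constants) t S`  ⟹  `Red.H159.NoRamOutside G t (branchA A S)`.

Proof: `β = f / (t - c)` lies in every valuation subring `V ⊇ K ∪ {t}` of `F`
(if `t - c` is a nonunit of `V` it is a uniformiser; `f` is a nonunit of `V` because
`f² / (t - c) ∈ V`), and the integral closure of `K[t]` is the intersection of these `V`
(Mathlib `iInf_valuationSubring_superset`).
-/

set_option autoImplicit false
set_option linter.unusedSectionVars false
set_option linter.style.haveILetI false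

noncomputable section

namespace Fermat.Agent.S37.H28

open Polynomial Fermat.Agent.S37.Red

section Mono

variable {F : Type*} [Field F]

/-- integrality over a subring passes to a larger subalgebra -/
theorem isIntegral_adjoin_of_isIntegral_closure {K : Type*} [Field K] [Algebra K F] (t : F)
    {z : F}
    (hz : IsIntegral (Subring.closure (Set.range (algebraMap K F) ∪ {t})) z) :
    IsIntegral (Algebra.adjoin K {t}) z := by
  have hle : Subring.closure (Set.range (algebraMap K F) ∪ {t}) ≤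
      (Algebra.adjoin K ({t} : Set F)).toSubring := by
    rw [Subring.closure_le]
    rintro y (⟨a, rfl⟩ | hy)
    · exact (Algebra.adjoin K ({t} : Set F)).algebraMap_mem a
    · rw [Set.mem_singleton_iff] at hy
      subst hy
      exact Algebra.self_mem_adjoin_singleton K y
  obtain ⟨P, hP, hPz⟩ := hz
  let ι : Subring.closure (Set.range (algebraMap K F) ∪ {t}) →+* Algebra.adjoin K ({t} : Set F) :=
    Subring.inclusion hle
  refine ⟨P.map ι, hP.map ι, ?_⟩
  rw [Polynomial.eval₂_map]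
  exact hPz

/-- elements integral over `K[t]` lie in every valuation subring containing `K` and `t` -/
theorem mem_valuationSubring_of_isIntegral_adjoin {K : Type*} [Field K] [Algebra K F] (t : F)
    (V : ValuationSubring F) (hK : ∀ a : K, algebraMap K F a ∈ V) (ht : t ∈ V) {z : F}
    (hz : IsIntegral (Algebra.adjoin K {t}) z) : z ∈ V := by
  have hle : (Algebra.adjoin K ({t} : Set F)).toSubring ≤ V.toSubring := by
    rw [Algebra.adjoin_eq_ring_closure, Subring.closure_le]
    rintro y (⟨a, rfl⟩ | hy)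
    · exact hK a
    · rw [Set.mem_singleton_iff] at hy
      subst hy
      exact ht
  obtain ⟨P, hP, hPz⟩ := hz
  let g : Algebra.adjoin K ({t} : Set F) →+* V :=
    (Algebra.adjoin K ({t} : Set F)).val.toRingHom.codRestrict V.toSubring (fun b => hle b.2)
  have hint : IsIntegral V z := by
    refine ⟨P.map g, hP.map g, ?_⟩
    rw [Polynomial.eval₂_map]
    exact hPz
  obtain ⟨y, hy⟩ := IsIntegrallyClosed.isIntegral_iff.1 hint
  rw [← hy]
  exact y.2

/-- the integral closure of `K[t]` is the intersection of the valuation subrings containing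
`K` and `t` -/
theorem isIntegral_adjoin_of_forall_mem {K : Type*} [Field K] [Algebra K F] (t : F) {z : F}
    (h : ∀ V : ValuationSubring F, (∀ a : K, algebraMap K F a ∈ V) → t ∈ V → z ∈ V) :
    IsIntegral (Algebra.adjoin K {t}) z := by
  apply isIntegral_adjoin_of_isIntegral_closure
  have hmem : z ∈ (⨅ V : {V : ValuationSubring F //
      (Set.range (algebraMap K F) ∪ {t}) ⊆ V.toSubring}, V.1.toSubring) := by
    rw [Subring.mem_iInf]
    rintro ⟨V, hV⟩
    exact h V (fun a => hV (Or.inl ⟨a, rfl⟩)) (hV (Or.inr rfl))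
  rw [iInf_valuationSubring_superset] at hmem
  exact hmem

end Mono

section NoRam

universe u

variable {K k F Fk : Type u} [Field K] [Field k] [Field F] [Field Fk] [Algebra K F]
  [Algebra k Fk] {A : ValuationSubring K} {π : A →+* k}

/-- **(NC) of Theorem M from `Unramified`.** -/
theorem noRamOutside_of_unramified (G : Datum A π F Fk) (t : F) (S : Finset F)
    (hunr : Fermat.Agent.S18.H278.Unramified (algebraMap K F).fieldRange t S) :
    H159.NoRamOutside G t (branchA (F := F) A S) := by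
  intro c hc f hf hf2
  have hcS : algebraMap K F (c : K) ∉ S := fun h => hc (mem_branchA.2 h)
  have hf' : IsIntegral (Algebra.adjoin K {t}) f := hf
  have hf2' : IsIntegral (Algebra.adjoin K {t}) (f ^ 2 / (t - algebraMap K F (c : K))) := hf2
  show IsIntegral (Algebra.adjoin K {t}) (f / (t - algebraMap K F (c : K)))
  apply isIntegral_adjoin_of_forall_mem
  intro V hK ht
  set z := t - algebraMap K F (c : K) with hz
  have hfV : f ∈ V := mem_valuationSubring_of_isIntegral_adjoin t V hK ht hf'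
  have hf2V : f ^ 2 / z ∈ V := mem_valuationSubring_of_isIntegral_adjoin t V hK ht hf2'
  have hzV : z ∈ V := sub_mem ht (hK _)
  rcases eq_or_ne f 0 with hf0 | hf0
  · rw [hf0, zero_div]
    exact V.zero_mem
  by_cases hzu : z⁻¹ ∈ V
  · rw [div_eq_mul_inv]
    exact mul_mem hfV hzu
  by_cases hfu : f⁻¹ ∈ V
  · exfalso
    apply hzu
    have hz0 : z ≠ 0 := by
      intro h0
      apply hzu
      rw [h0, inv_zero]
      exact V.zero_mem
    have h1 : z⁻¹ = f⁻¹ * f⁻¹ * (f ^ 2 / z) := by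
      field_simp
    rw [h1]
    exact mul_mem (mul_mem hfu hfu) hf2V
  · have hL : ∀ a ∈ (algebraMap K F).fieldRange, a ∈ V := by
      rintro a ⟨a₀, rfl⟩
      exact hK a₀
    have := hunr V hL (algebraMap K F (c : K)) ⟨_, rfl⟩ hcS hzV hzu f hfV hfu
    rw [div_eq_mul_inv]
    exact this

end NoRam

end Fermat.Agent.S37.H28

end
end
-- ===== PACK-END S37/H28/NoRam.lean

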