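import Fermat.Prelude.Def_FLTPrelim_Ramification
import Mathlib
import Fermat.Prelude.Def_ModularCurve_PeriodHomPair
import Fermat.Prelude.Def_GaloisRep_ComplexConjugation
import Fermat.Prelude.Def_ModularCurve_HeckeModule
import Fermat.Agent.Pack.S15.AE2L2
import Fermat.Agent.Pack.S15.AE5L2
import Fermat.Agent.Pack.S15.AE4L3
import Fermat.Agent.Pack.S15.AE4L1
import Fermat.Agent.Pack.S15.AE5L0
import Fermat.Agent.Pack.S15.AE1L2
import Fermat.Agent.Pack.S15.AE3L0
import Fermat.Agent.Pack.S15.AE2L3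
import Fermat.Agent.Pack.S15.AE5L1
import Fermat.Agent.Pack.S15.AE4L0
import Fermat.Agent.Pack.S15.AE2L0
import Fermat.Agent.Pack.S15.AE5L3
import Fermat.Agent.Pack.S15.AE1L1
import Fermat.Agent.Pack.S15.AE3L2
import Fermat.Agent.Pack.S15.AE4L2
import Fermat.Agent.Pack.S15.AE0L1
import Fermat.Agent.Pack.S15.AE3L1
import Fermat.Agent.Pack.S15.AE0L0
import Fermat.Agent.Pack.S15.AE2L1

-- ===== PACK-BEGIN S15/H362/CuspZero.lean
section





/-!
# S15 / piece CUSP (architect helper362): the cusp `0` and the cuspidal class — definitions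

On top of objects on main:
* `∞ = cuspInfty p` (`CuspDefs.lean`) `= Core.cuspInfty p = S17.H680.JZero.cusp p` (`cuspInfty_eq_core`);
* `w = A2.H528.wSemi p` (Fricke involution);
* `cuspZero p := w • ∞`, `cuspDivisor p = (0) - (∞)`, `cuspClass p : JZero p`.

Everything in this file is sorry-free.
-/

set_option autoImplicit false
set_option synthInstance.maxHeartbeats 400000

noncomputable section

open AlgebraicCurve ModularCurve HahnSeries

namespace Fermat.Agent.S15.H362

open Fermat.Agent.A2.H528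

variable (p : ℕ) [NeZero p]

/-- Our cusp `∞` is the one of `Core/Top.lean` (and of row S17). -/
theorem cuspInfty_eq_core : cuspInfty p = Fermat.Agent.S15.Core.cuspInfty p := by
  apply Place.ext
  ext f
  rfl

/-- **The cusp `0`**: the Fricke image of the cusp `∞`. -/
def cuspZero : Place Qb (FB p) := wSemi p • cuspInfty p

theorem deg_cuspInfty : (cuspInfty p).deg = 1 :=
  Fermat.Agent.Lib.FF398.deg_eq_one_FF p (cuspInfty p)

theorem deg_cuspZero : (cuspZero p).deg = 1 :=
  Fermat.Agent.Lib.FF398.deg_eq_one_FF p (cuspZero p)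

theorem galois_smul_cuspInfty (σ : Qb ≃ₐ[ℚ] Qb) :
    arithmeticGalois (modularFunctionFieldFull p) σ • cuspInfty p = cuspInfty p := by
  rw [cuspInfty_eq_core]
  exact Fermat.Agent.S17.H680.JZero.galois_smul_cusp p σ

theorem galois_smul_cuspZero (σ : Qb ≃ₐ[ℚ] Qb) :
    arithmeticGalois (modularFunctionFieldFull p) σ • cuspZero p = cuspZero p := by
  rw [cuspZero, ← mul_smul, ← wSemi_comm, mul_smul, galois_smul_cuspInfty]

/-- `w • 0 = ∞`. -/
theorem wSemi_smul_cuspZero : wSemi p • cuspZero p = cuspInfty p := by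
  rw [cuspZero, ← mul_smul, wSemi_mul_self, one_smul]

/-- `ord_0 f = ord_∞ (w f)`. -/
theorem ord_cuspZero (f : FB p) : (cuspZero p).ord f = (cuspInfty p).ord (wF p f) := by
  have h := SemilinearAut.ord_smul (wSemi p) (cuspInfty p) (wF p f)
  rw [wSemi_smul, wF_wF] at h
  exact h

theorem degree_cuspDivisor :
    Divisor.degree (Finsupp.single (cuspZero p) (1 : ℤ) - Finsupp.single (cuspInfty p) 1) = 0 := by
  rw [map_sub, Divisor.degree_single, Divisor.degree_single, deg_cuspZero, deg_cuspInfty]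
  simp

/-- The divisor `(0) - (∞)`. -/
def cuspDivisor : Divisor.degZero (K := Qb) (F := FB p) :=
  ⟨Finsupp.single (cuspZero p) (1 : ℤ) - Finsupp.single (cuspInfty p) 1, degree_cuspDivisor p⟩

@[simp] theorem coe_cuspDivisor :
    ((cuspDivisor p : Divisor.degZero (K := Qb) (F := FB p)) : Divisor Qb (FB p)) =
      Finsupp.single (cuspZero p) (1 : ℤ) - Finsupp.single (cuspInfty p) 1 := rfl

/-- **The cuspidal class** `c = cl((0) - (∞)) ∈ J₀(p)(ℚ̄)`. -/
def cuspClass : JZero p := Pic0.mk (cuspDivisor p)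

theorem isDiffClass_cuspClass :
    Fermat.Agent.S15.Core.IsDiffClass (cuspZero p) (Fermat.Agent.S15.Core.cuspInfty p)
      (cuspClass p) := by
  rw [← cuspInfty_eq_core]
  exact ⟨degree_cuspDivisor p, rfl⟩

/-- The cuspidal class is rational. -/
theorem galois_smul_cuspClass (σ : Qb ≃ₐ[ℚ] Qb) : σ • cuspClass p = cuspClass p := by
  rw [galois_smul_pic0_def, cuspClass, SemilinearAut.pic0_smul_mk]
  congr 1
  apply Subtype.ext
  rw [SemilinearAut.coe_degZeroSMulHom, coe_cuspDivisor, smul_sub, SemilinearAut.smul_single,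
    SemilinearAut.smul_single, galois_smul_cuspZero, galois_smul_cuspInfty]

end Fermat.Agent.S15.H362

end
end
-- ===== PACK-END S15/H362/CuspZero.lean

-- ===== PACK-BEGIN S15/H362/CuspOrd.lean
section


/-!
# S15 / piece CUSP (helper362): orders of `j`, `j(q^p)` at the two cusps

* K1 `ord_cuspInfty` : `ord_∞ f = ord_q f`;
* `ord_cuspInfty_jBar = -1`, `ord_cuspInfty_jLevelBar = -N`;
* `ord_cuspZero_jBar = -N`, `ord_cuspZero_jLevelBar = -1`;
* K9 `isCuspZero_cuspZero` : for `1 < N` the cusp `0` is a pole of `j` different from `∞`.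

Sorry-free.
-/

set_option autoImplicit false
set_option synthInstance.maxHeartbeats 400000

noncomputable section

open AlgebraicCurve ModularCurve HahnSeries

namespace Fermat.Agent.S15.H362

open Fermat.Agent.A2.H528

/-- `coeffEmb` preserves the order. -/
theorem order_coeffEmb (x : LaurentSeries ℚ) : (coeffEmb Qb x).order = x.order := by
  classical
  have hinj : Function.Injective (algebraMap ℚ Qb) := (algebraMap ℚ Qb).injective
  rcases eq_or_ne x 0 with rfl | hx
  · simp
  have hx' : coeffEmb Qb x ≠ 0 := by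
    intro h
    apply hx
    ext k
    have := congrArg (fun y => HahnSeries.coeff y k) h
    simp only [coeffEmb_coeff, HahnSeries.coeff_zero] at this
    rw [HahnSeries.coeff_zero]
    exact hinj (by rw [this, map_zero])
  have hsupp : (coeffEmb Qb x).support = x.support := by
    ext k
    simp only [HahnSeries.mem_support, coeffEmb_coeff, ne_eq]
    rw [map_eq_zero_iff _ hinj]
  rw [HahnSeries.order_of_ne hx', HahnSeries.order_of_ne hx]
  congr 1

theorem isMonicOfOrder_jq : IsMonicOfOrder jq (-1) := by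
  have hne : jq ≠ 0 := jq_ne_zero
  have horder : jq.order = -1 := by
    refine le_antisymm (HahnSeries.order_le_of_coeff_ne_zero ?_) ?_
    · rw [coeff_jq_neg_one]; exact one_ne_zero
    · by_contra hlt
      rw [not_le] at hlt
      apply hne
      rw [← HahnSeries.coeff_order_eq_zero, coeff_jq_of_lt (by omega)]
  exact ⟨horder, by rw [HahnSeries.leadingCoeff_eq, horder, coeff_jq_neg_one]⟩

variable (N : ℕ) [NeZero N]

/-- **K1.** The order at `∞` is the `q`-adic order. -/
theorem ord_cuspInfty (f : FB N) :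
    (cuspInfty N).ord f = (f : LaurentSeries Qb).order := by
  have hσ : Fermat.Agent.S24.H144.Induces (K := Qb) (inclQ N) (cuspInfty N) :=
    Fermat.Agent.S24.H144.induces_placeOfEmb _ _ _
  obtain ⟨g, hg, h⟩ := Fermat.Agent.S24.H144.loc_exists_mult (cuspInfty N) (inclQ N) hσ
  have hj := h (jBar N)
  rw [inclQ_apply, coe_jBar, order_coeffEmb_jq] at hj
  have hg1 : (g : ℤ) = 1 := by
    have hdvd : (g : ℤ) ∣ 1 := ⟨-(cuspInfty N).ord (jBar N), by linarith⟩
    have hg0 : (0 : ℤ) ≤ g := by positivity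
    exact Int.eq_one_of_dvd_one hg0 hdvd
  have hf := h f
  rw [hg1, one_mul, inclQ_apply] at hf
  exact hf.symm

theorem ord_cuspInfty_jBar : (cuspInfty N).ord (jBar N) = -1 := by
  rw [ord_cuspInfty, coe_jBar, order_coeffEmb_jq]

theorem ord_cuspInfty_jLevelBar : (cuspInfty N).ord (jLevelBar N) = -(N : ℤ) := by
  rw [ord_cuspInfty, coe_jLevelBar, order_coeffEmb, (isMonicOfOrder_jq.qExpand N).1]
  ring

theorem jBar_eq_jFd : jBar N = jFd N 1 (one_dvd N) := by
  apply Subtype.ext
  rw [coe_jBar, coe_jFd, qExpand_one_apply]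

theorem jLevelBar_eq_jFd : jLevelBar N = jFd N N dvd_rfl := by
  apply Subtype.ext
  rw [coe_jLevelBar, coe_jFd]

/-- `w j = j(q^N)`. -/
theorem wF_jBar : wF N (jBar N) = jLevelBar N := by
  have hne : NeZero (N / 1) := neZero_div N (one_dvd N)
  rw [jBar_eq_jFd, jLevelBar_eq_jFd]
  have h := wF_jFd N 1 (one_dvd N)
  rw [h]
  apply Subtype.ext
  rw [coe_jFd, coe_jFd]
  exact congrArg _ (qExpand_congr (Nat.div_one N) jq)

/-- `w j(q^N) = j`. -/
theorem wF_jLevelBar : wF N (jLevelBar N) = jBar N := by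
  rw [← wF_jBar, wF_wF]

theorem ord_cuspZero_jBar : (cuspZero N).ord (jBar N) = -(N : ℤ) := by
  rw [ord_cuspZero, wF_jBar, ord_cuspInfty_jLevelBar]

theorem ord_cuspZero_jLevelBar : (cuspZero N).ord (jLevelBar N) = -1 := by
  rw [ord_cuspZero, wF_jLevelBar, ord_cuspInfty_jBar]

theorem cuspZero_ne_cuspInfty (hN : 1 < N) : cuspZero N ≠ cuspInfty N := by
  intro h
  have h1 := ord_cuspZero_jBar N
  rw [h, ord_cuspInfty_jBar] at h1
  omega

/-- **K9.** The cusp `0` is a pole of `j` different from `∞`. -/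
theorem isCuspZero_cuspZero (hN : 1 < N) : Fermat.Agent.S15.Core.IsCuspZero N (cuspZero N) := by
  refine ⟨?_, ?_⟩
  · rw [← cuspInfty_eq_core]
    exact cuspZero_ne_cuspInfty N hN
  · have h : Fermat.Agent.S15.Core.jBar N = jBar N := rfl
    rw [h, ord_cuspZero_jBar]
    have : (0 : ℤ) < N := by exact_mod_cast Nat.pos_of_ne_zero (NeZero.ne N)
    omega

end Fermat.Agent.S15.H362

end
end
-- ===== PACK-END S15/H362/CuspOrd.lean

-- ===== PACK-BEGIN S15/H422/UnitInt.lean
section




/-!
# S15 / P-C1 (helper422), part 2: the modular unit is integral over `ℤ[j]`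

For `N` prime, `uF N = N¹² Δ(q^N)/Δ(q)` is a root of a monic polynomial with coefficients in
`ℤ[j]` (helper589/helper807: `UnitPolyData`), hence lies in every valuation ring of `FF N`
containing `j`: it has no poles outside the cusps.
-/

set_option autoImplicit false

noncomputable section

open ModularCurve HahnSeries AlgebraicCurve Polynomial

namespace Fermat.Agent.S15.H422

open Fermat.Agent.S24 Fermat.Agent.S28

theorem coeffEmb_deltaSeries : coeffEmb Kbar deltaSeries = deltaL Kbar := by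
  have h : deltaSeries = deltaL ℚ := rfl
  rw [h, coeffEmb, h88_coeffMap_deltaL]

theorem deltaL_inv (k : Type*) [Field k] : (deltaL k)⁻¹ = deltaInvL k :=
  inv_eq_of_mul_eq_one_right (h88_deltaL_mul_deltaInvL k)

theorem uSer_eq_unitL (N : ℕ) [NeZero N] :
    uSer N = (N : LaurentSeries Kbar) ^ 12 * unitL Kbar N := by
  rw [uSer, uSerQ, map_mul, map_mul, map_inv₀, coeffEmb_deltaSeries, deltaL_inv, deltaSeriesN,
    unitL]
  have h1 : coeffEmb Kbar (qExpand ℚ N deltaSeries) = qExpand Kbar N (deltaL Kbar) := by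
    rw [coeffEmb, coeffMap_qExpand]
    congr 1
    exact coeffEmb_deltaSeries
  have h2 : coeffEmb Kbar (HahnSeries.C ((N : ℚ) ^ 12)) = (N : LaurentSeries Kbar) ^ 12 := by
    rw [coeffEmb, coeffMap_C, map_pow, map_natCast, map_pow, map_natCast]
  rw [h1, h2, mul_assoc]

/-- the unit polynomial relation for `uSer`, in `ℚ̄((q))`. -/
theorem unitPoly_relation (N : ℕ) [NeZero N] (W : UnitPolyData N) :
    W.W.eval₂ (evalAt (jqModC Kbar)) (uSer N) = 0 := by
  rw [uSer_eq_unitL]
  exact h88_unitPoly_field Kbar N W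

theorem coe_jF_eq (N : ℕ) [NeZero N] : ((jF N : FF N) : LaurentSeries Kbar) = jqModC Kbar :=
  Deg457.JK_eq Kbar

/-- **No poles outside the cusps.** -/
theorem uF_mem_of_jF_mem (N : ℕ) [NeZero N] (hN : N.Prime) (A : ValuationSubring (FF N))
    (hj : jF N ∈ A) : uF N ∈ A := by
  obtain ⟨W⟩ := H807.nonempty_unitPolyData (p := N) hN
  -- the coefficient homomorphism `ℤ[Y] → A`, `Y ↦ j`
  let ψ : Polynomial ℤ →+* A := (Polynomial.aeval (R := ℤ) (⟨jF N, hj⟩ : A)).toRingHom
  have hint : IsIntegral A (uF N) := by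
    refine ⟨W.W.map ψ, W.monic.map ψ, ?_⟩
    rw [Polynomial.eval₂_map]
    -- compare inside `ℚ̄((q))`
    apply Subtype.ext
    have hcomp : ((modularFunctionFieldBar N).val.toRingHom.comp
        ((algebraMap A (FF N)).comp ψ)) = evalAt (jqModC Kbar) := by
      apply Polynomial.ringHom_ext
      · intro a
        simp [ψ, evalAt]
      · simp only [RingHom.coe_comp, Function.comp_apply, ψ, evalAt, AlgHom.toRingHom_eq_coe,
          RingHom.coe_coe, Polynomial.aeval_X]
        exact coe_jF_eq N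
    have h := unitPoly_relation N W
    rw [← hcomp] at h
    have h2 := Polynomial.hom_eval₂ W.W ((algebraMap A (FF N)).comp ψ)
      (modularFunctionFieldBar N).val.toRingHom (uF N)
    show (modularFunctionFieldBar N).val.toRingHom _ = _
    rw [h2]
    exact h
  obtain ⟨y, hy⟩ := (IsIntegrallyClosed.isIntegral_iff (R := A) (K := FF N)).mp hint
  rw [← hy]
  exact y.2

end Fermat.Agent.S15.H422

end
end
-- ===== PACK-END S15/H422/UnitInt.lean

-- ===== PACK-BEGIN S15/H482/CuspK.lean
section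



/-!
# S15 / piece CUSP, interface v2 (architect helper362): nodes K1, K5, K9 (helper482)

EXACT statements of `H362.CuspSpec`:

* `ord_cuspInfty` (K1) : `ord_∞ f = ord_q f`;
* `eq_algebraMap_of_ord_eq_zero` (K5) : a function without zeros and poles is constant;
* `isCuspZero_cuspZero` (K9) : the cusp `0 = w • ∞` is a pole of `j` different from `∞`.

Extras: `order_coeffEmb_qExpand_jq`, `ord_cuspInfty_jLevelBar` (`= -p`),
`ord_cuspZero_jBar` (`= -p`), `ord_cuspZero_jLevelBar` (`= -1`), `cuspZero_ne_cuspInfty`.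
Everything in this file is sorry-free.
-/

set_option autoImplicit false
set_option synthInstance.maxHeartbeats 400000

noncomputable section

open AlgebraicCurve ModularCurve HahnSeries

namespace Fermat.Agent.S15.H482

open Fermat.Agent.S15.H362 Fermat.Agent.A2.H528

/-! ## K1 : the order at `∞` -/

section Infty

variable (N : ℕ) [NeZero N]

theorem induces_cuspInfty' : Fermat.Agent.S24.H144.Induces (inclQ N) (H362.cuspInfty N) :=
  Fermat.Agent.S24.H144.induces_placeOfEmb _ _ _

/-- **K1.** The order at `∞` is the `q`-adic order. -/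
theorem ord_cuspInfty (f : FB N) :
    (H362.cuspInfty N).ord f = (f : LaurentSeries Qb).order := by
  obtain ⟨g, hg, h⟩ :=
    Fermat.Agent.S24.H144.loc_exists_mult (H362.cuspInfty N) (inclQ N) (induces_cuspInfty' N)
  have hj := h (H362.jBar N)
  rw [inclQ_apply, coe_jBar, order_coeffEmb_jq] at hj
  have hg1 : g = 1 := by
    have h1 : (g : ℤ) ∣ 1 := ⟨-(H362.cuspInfty N).ord (H362.jBar N), by linarith⟩
    have h2 : (g : ℤ) = 1 := Int.eq_one_of_dvd_one (by positivity) h1
    exact_mod_cast h2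
  have hf := h f
  rw [hg1, Nat.cast_one, one_mul, inclQ_apply] at hf
  exact hf.symm

/-- The `q`-order of `j(q^d)` is `-d`. -/
theorem order_coeffEmb_qExpand_jq (d : ℕ) [NeZero d] :
    (coeffEmb Qb (qExpand ℚ d jq)).order = -(d : ℤ) := by
  have hd0 : 0 < (d : ℤ) := by exact_mod_cast Nat.pos_of_ne_zero (NeZero.ne d)
  have hc : (coeffEmb Qb (qExpand ℚ d jq)).coeff (-(d : ℤ)) = 1 := by
    rw [coeffEmb_coeff, show (-(d : ℤ)) = (d : ℤ) * (-1) by ring, qExpand_coeff_mul,
      coeff_jq_neg_one, map_one]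
  have hne : coeffEmb Qb (qExpand ℚ d jq) ≠ 0 := fun h => by
    rw [h] at hc; simp at hc
  refine le_antisymm (HahnSeries.order_le_of_coeff_ne_zero ?_) ?_
  · rw [hc]; exact one_ne_zero
  · by_contra hlt
    rw [not_le] at hlt
    apply hne
    rw [← HahnSeries.coeff_order_eq_zero, coeffEmb_coeff]
    by_cases hdk : (d : ℤ) ∣ (coeffEmb Qb (qExpand ℚ d jq)).order
    · obtain ⟨m, hm⟩ := hdk
      rw [hm, qExpand_coeff_mul]
      have hm1 : m < -1 := by
        by_contra hge
        rw [not_lt] at hge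
        have : (d : ℤ) * (-1) ≤ (d : ℤ) * m := mul_le_mul_of_nonneg_left hge hd0.le
        rw [hm] at hlt
        linarith
      rw [coeff_jq_of_lt hm1, map_zero]
    · rw [qExpand_coeff_of_not_dvd d _ hdk, map_zero]

theorem ord_cuspInfty_jBar : (H362.cuspInfty N).ord (H362.jBar N) = -1 := by
  rw [_root_.Fermat.Agent.S15.H482.ord_cuspInfty, coe_jBar, order_coeffEmb_jq]

theorem ord_cuspInfty_jLevelBar : (H362.cuspInfty N).ord (jLevelBar N) = -(N : ℤ) := by
  rw [_root_.Fermat.Agent.S15.H482.ord_cuspInfty, coe_jLevelBar, order_coeffEmb_qExpand_jq]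

end Infty

/-! ## K5 : functions without zeros and poles are constant -/

section Const

variable (p : ℕ) [NeZero p]

/-- **K5.** A function without zeros and poles is constant. -/
theorem eq_algebraMap_of_ord_eq_zero (f : FB p) (_hf : f ≠ 0)
    (h : ∀ P : Place Qb (FB p), P.ord f = 0) : ∃ a : Qb, f = algebraMap Qb (FB p) a := by
  have : Fermat.Agent.Lib.RR.FF1 Qb (FB p) :=
    Fermat.Agent.Lib.RR.H864.ff1_modularFunctionFieldBar p
  have hmem : f ∈ riemannRochSpace (0 : Divisor Qb (FB p)) := by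
    rw [Fermat.Agent.Lib.RR.mem_L_iff]
    intro v
    right
    rw [h v]
    simp
  rw [Fermat.Agent.Lib.RR.L_zero] at hmem
  obtain ⟨a, ha⟩ := hmem
  exact ⟨a, ha.symm⟩

end Const

/-! ## K9 : the cusp `0` -/

section Zero

variable (p : ℕ) [NeZero p]

theorem coreJBar_eq : Fermat.Agent.S15.Core.jBar p = H362.jBar p := rfl

theorem jBar_eq_jFd : H362.jBar p = jFd p 1 (one_dvd p) := by
  apply Subtype.ext
  rw [coe_jBar, coe_jFd, qExpand_one_apply]

theorem jLevelBar_eq_jFd : jLevelBar p = jFd p p dvd_rfl := by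
  apply Subtype.ext
  rw [coe_jLevelBar, coe_jFd]

omit [NeZero p] in
theorem jFd_congr_of_eq {d d' : ℕ} [NeZero d] [NeZero d'] (hd : d ∣ p) (hd' : d' ∣ p)
    (h : d = d') : jFd p d hd = jFd p d' hd' := by
  subst h
  rfl

/-- `w j = j_p`. -/
theorem wF_jBar : wF p (H362.jBar p) = jLevelBar p := by
  have := neZero_div p (one_dvd p)
  rw [_root_.Fermat.Agent.S15.H482.jBar_eq_jFd, wF_jFd, _root_.Fermat.Agent.S15.H482.jLevelBar_eq_jFd]
  exact jFd_congr_of_eq p _ _ (Nat.div_one p)

/-- `w j_p = j`. -/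
theorem wF_jLevelBar : wF p (jLevelBar p) = H362.jBar p := by
  rw [← _root_.Fermat.Agent.S15.H482.wF_jBar, wF_wF]

/-- `ord_0 j = -p`. -/
theorem ord_cuspZero_jBar : (cuspZero p).ord (H362.jBar p) = -(p : ℤ) := by
  rw [ord_cuspZero, _root_.Fermat.Agent.S15.H482.wF_jBar, _root_.Fermat.Agent.S15.H482.ord_cuspInfty_jLevelBar]

/-- `ord_0 j_p = -1`. -/
theorem ord_cuspZero_jLevelBar : (cuspZero p).ord (jLevelBar p) = -1 := by
  rw [ord_cuspZero, _root_.Fermat.Agent.S15.H482.wF_jLevelBar, _root_.Fermat.Agent.S15.H482.ord_cuspInfty_jBar]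

/-- The two cusps are different (level `≠ 1`). -/
theorem cuspZero_ne_cuspInfty (hp1 : p ≠ 1) : cuspZero p ≠ H362.cuspInfty p := by
  intro h
  have h1 := _root_.Fermat.Agent.S15.H482.ord_cuspZero_jBar p
  rw [h, _root_.Fermat.Agent.S15.H482.ord_cuspInfty_jBar] at h1
  apply hp1
  have : (p : ℤ) = 1 := by linarith
  exact_mod_cast this

/-- **K9.** The cusp `0` is a pole of `j` different from `∞`. -/
theorem isCuspZero_cuspZero (hp : p.Prime) :
    Fermat.Agent.S15.Core.IsCuspZero p (cuspZero p) := by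
  refine ⟨?_, ?_⟩
  · rw [← cuspInfty_eq_core]
    exact _root_.Fermat.Agent.S15.H482.cuspZero_ne_cuspInfty p hp.one_lt.ne'
  · rw [coreJBar_eq, _root_.Fermat.Agent.S15.H482.ord_cuspZero_jBar]
    have := hp.pos
    omega

end Zero

end Fermat.Agent.S15.H482

end
end
-- ===== PACK-END S15/H482/CuspK.lean

-- ===== PACK-BEGIN A2/Top/H553/WallS.lean
section


















/-!
# WALL A2 — the `SepCoord`-free final chain (helper553)

Route S of ALG (`Alg/H34`, `Alg/H609`, `Alg/H754`) never uses the separating coordinate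
(`SepCoord`) nor the finite order of `τ`.  This file assembles the wall WITHOUT the MOD
sub-assembly S4 (`Mod.S4Statement`):

* `algS`            : the conclusion of ALG from two `SSChart`s only (no `SepCoord`, no `hfo`);
* `HasModelS`       : the semistable model without `SepCoord` (conclusion of
                      `Mod.exists_model_of_parts`);
* `t1S`             : `IF + HasModelS` at ONE level `N` ⟹ `KummerTarget N q m`;
* `hasModelS_of_parts` : S2 + S3 + GOODRED ⟹ `HasModelS` at the ready levels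
                      (L1, L4, L6, L8, L9, L10, S1, Sτ plugged in from main);
* `kummerTargetS`, `wallS` : S2 + S3 + GOODRED ⟹ `KummerTarget N q m`, `Target N q m` for all
                      `q ‖ N`, `q ∤ m` (IF and D2 plugged in from main).

So the wall A2 is closed modulo exactly: S2 (components normal), S3 (ordinary double points)
and GOODRED (`Top.H994.GoodRedStatement`).
-/

set_option autoImplicit false
set_option linter.unusedSectionVars false
set_option linter.unusedVariables false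
set_option synthInstance.maxHeartbeats 400000
set_option maxHeartbeats 1600000

noncomputable section

namespace Fermat.Agent.A2.Top.H553

open ModularCurve AlgebraicCurve Fermat.Agent.A2 Fermat.Agent.A2.Alg Fermat.Agent.A2.Alg.H34
  Fermat.Agent.A2.T1.H669 Fermat.Agent.A2.Top.H994

/-! ## ALG, route S, without `SepCoord` -/

section Alg

variable {R E F : Type} [CommRing R] [IsDomain R] [IsDiscreteValuationRing R]
  [HenselianLocalRing R] [IsAlgClosed (IsLocalRing.ResidueField R)]
  [Field E] [CharZero E] [Algebra R E] [IsFractionRing R E]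
  [Field F] [Algebra E F] [Algebra R F] [IsScalarTower R E F]

/-- Purity at every closed point of the special fibre (no `SepCoord`). -/
theorem purityS (q m : ℕ) (hq : q.Prime) (hqR : (q : R) ∈ IsLocalRing.maximalIdeal R)
    (hm : 0 < m) (hqm : ¬ q ∣ m)
    (w : R) (x : F) (B : Subalgebra R F) (hB : ChartCtx E w x B)
    (c : SSChart w B)
    (u : F) (hu : u ≠ 0) (hdiv : DivisibleDiv E m u) (hs : IsSplit B c u)
    (n : Ideal B) (hn : n.IsMaximal) (hwn : algebraMap R B w ∈ n) : PureAt B c m u n := by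
  by_cases h1 : c.p₁ ≤ n ∧ c.p₂ ≤ n
  · exact Fermat.Agent.A2.Alg.H609.purity_node m hm w x B hB c u hdiv hs n hn.isPrime h1.1 h1.2
  · exact Fermat.Agent.A2.Alg.H754.puritySmoothLeaf q m hq hqR hm hqm w x B hB c
      (incomparable_of_ssChart c) u hu hdiv hs n hn hwn h1

/-- **Step II** (no `SepCoord`).  A split Kummer class is fixed by `τ`. -/
theorem stepIIS (q m : ℕ) (hq : q.Prime) (hqR : (q : R) ∈ IsLocalRing.maximalIdeal R)
    (hm : 0 < m) (hqm : ¬ q ∣ m)
    (w : R) (x : F) (Bf Bi : Subalgebra R F)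
    (hBf : ChartCtx E w x Bf) (hBi : ChartCtx E w x⁻¹ Bi)
    (cf : SSChart w Bf) (ci : SSChart w Bi)
    (τ : F ≃+* F) (τE : E ≃+* E) (τR : R ≃+* R)
    (hτf : TauCtx w Bf τ τE τR) (hτi : TauCtx w Bi τ τE τR)
    (u : F) (hu : u ≠ 0) (hdiv : DivisibleDiv E m u)
    (hsf : IsSplit Bf cf u) (hsi : IsSplit Bi ci u) :
    ∃ h : F, h ≠ 0 ∧ τ u = h ^ m * u := by
  have hτu : τ u ≠ 0 := (map_ne_zero τ).2 hu
  have hu' : τ u * u⁻¹ ≠ 0 := mul_ne_zero hτu (inv_ne_zero hu)
  have hdiv' : DivisibleDiv E m (τ u * u⁻¹) :=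
    divisibleDiv_mul_inv m _ _ (divisibleDiv_tau τ τE hτf.hτE m u hdiv) hdiv
  have hf : LocallyFactored Bf cf m (τ u * u⁻¹) := fun n hn hwn =>
    localFactor_of_pureAt w Bf cf τ τE τR hτf m u hu n hn.isPrime hwn
      (purityS q m hq hqR hm hqm w x Bf hBf cf u hu hdiv hsf n hn hwn)
  have hi : LocallyFactored Bi ci m (τ u * u⁻¹) := fun n hn hwn =>
    localFactor_of_pureAt w Bi ci τ τE τR hτi m u hu n hn.isPrime hwn
      (purityS q m hq hqR hm hqm w x⁻¹ Bi hBi ci u hu hdiv hsi n hn hwn)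
  obtain ⟨y, hy, hyu⟩ := glueLeaf q m hq hqR hm hqm w x Bf Bi hBf hBi cf ci
    (incomparable_of_ssChart cf) (incomparable_of_ssChart ci) _ hu' hdiv' hf hi
  refine ⟨y, hy, ?_⟩
  rw [← hyu, mul_assoc, inv_mul_cancel₀ hu, mul_one]

/-- **ALG, route S, without `SepCoord` and without the finite order of `τ`.** -/
theorem algS (w : R) (hw : Irreducible w) (q m : ℕ) (hq : q.Prime)
    (hqR : (q : R) ∈ IsLocalRing.maximalIdeal R) (hm : 0 < m) (hqm : ¬ q ∣ m)
    (x : F) (hx : Transcendental E x)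
    (hfin : FiniteDimensional (IntermediateField.adjoin E ({x} : Set F)) F)
    (hconst : ∀ f : F, IsAlgebraic E f → f ∈ (algebraMap E F).range)
    (Bf Bi : Subalgebra R F)
    (hBf : ∀ f : F, f ∈ Bf ↔ IsIntegral (Algebra.adjoin R ({x} : Set F)) f)
    (hBi : ∀ f : F, f ∈ Bi ↔ IsIntegral (Algebra.adjoin R ({x⁻¹} : Set F)) f)
    (cf : SSChart w Bf) (ci : SSChart w Bi)
    (τ : F ≃+* F) (τE : E ≃+* E) (τR : R ≃+* R)
    (hτE : ∀ e : E, τ (algebraMap E F e) = algebraMap E F (τE e))
    (hτR : ∀ r : R, τE (algebraMap R E r) = algebraMap R E (τR r))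
    (hτf : ∀ b ∈ Bf, ∃ c ∈ Bf, τ b - b = algebraMap R F w * c)
    (hτi : ∀ b ∈ Bi, ∃ c ∈ Bi, τ b - b = algebraMap R F w * c) :
    AlgSSConclusion E m τ := by
  have hCf : ChartCtx E w x Bf := ⟨hw, hx, hfin, hconst, hBf⟩
  have hCi : ChartCtx E w x⁻¹ Bi := chartCtx_inv w hw x hx hfin hconst Bi hBi
  have hTf : TauCtx w Bf τ τE τR := ⟨hτE, hτR, hτf⟩
  have hTi : TauCtx w Bi τ τE τR := ⟨hτE, hτR, hτi⟩
  intro f hf hdiv
  have hτf0 : τ f ≠ 0 := (map_ne_zero τ).2 hf
  have hu : τ f * f⁻¹ ≠ 0 := mul_ne_zero hτf0 (inv_ne_zero hf)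
  have hdivu : DivisibleDiv E m (τ f * f⁻¹) :=
    divisibleDiv_mul_inv m _ _ (divisibleDiv_tau τ τE hτE m f hdiv) hdiv
  obtain ⟨h, hh, hh2⟩ := stepIIS q m hq hqR hm hqm w x Bf Bi hCf hCi cf ci
    τ τE τR hTf hTi (τ f * f⁻¹) hu hdivu
    (stepI w x Bf hCf cf (incomparable_of_ssChart cf) τ τE τR hTf f hf)
    (stepI w x⁻¹ Bi hCi ci (incomparable_of_ssChart ci) τ τE τR hTi f hf)
  refine ⟨h, hh, ?_⟩
  rw [map_mul, map_inv₀] at hh2
  have h3 : τ (τ f) = h ^ m * (τ f * f⁻¹) * τ f := by
    rw [← hh2, mul_assoc, inv_mul_cancel₀ hτf0, mul_one]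
  rw [h3]
  field_simp

end Alg

/-! ## The model without `SepCoord` and T1 -/

/-- The semistable two-chart model of level `N` over the good level `E`, WITHOUT `SepCoord`
(= the conclusion of `Mod.exists_model_of_parts`). -/
def HasModelS (P : ValuationSubring Qb) (E : IntermediateField ℚ Qb) (N : ℕ) : Prop :=
  ∃ (x : FE E N) (Bf Bi : Subalgebra (RE P E) (FE E N)),
    Transcendental E x ∧
    FiniteDimensional (IntermediateField.adjoin E ({x} : Set (FE E N))) (FE E N) ∧
    (∀ f : FE E N, IsAlgebraic E f → f ∈ (algebraMap E (FE E N)).range) ∧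
    (∀ f : FE E N, f ∈ Bf ↔
      IsIntegral (Algebra.adjoin (RE P E) ({x} : Set (FE E N))) f) ∧
    (∀ f : FE E N, f ∈ Bi ↔
      IsIntegral (Algebra.adjoin (RE P E) ({x⁻¹} : Set (FE E N))) f) ∧
    (∀ w : RE P E, Irreducible w → Nonempty (SSChart w Bf)) ∧
    (∀ w : RE P E, Irreducible w → Nonempty (SSChart w Bi)) ∧
    (∀ τ ∈ P.inertiaSubgroupIn ℚ, ∀ τE : E ≃ₐ[ℚ] E,
      (∀ e : E, ((τE e : E) : Qb) = τ (e : Qb)) →
      arithmeticRingAut (modularFunctionFieldFull N) τE x = x) ∧
    (∀ τ ∈ P.inertiaSubgroupIn ℚ, ∀ τE : E ≃ₐ[ℚ] E,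
      (∀ e : E, ((τE e : E) : Qb) = τ (e : Qb)) →
      ∀ w : RE P E, Irreducible w → ∀ b ∈ Bf, ∃ c ∈ Bf,
        arithmeticRingAut (modularFunctionFieldFull N) τE b - b =
          algebraMap (RE P E) (FE E N) w * c) ∧
    (∀ τ ∈ P.inertiaSubgroupIn ℚ, ∀ τE : E ≃ₐ[ℚ] E,
      (∀ e : E, ((τE e : E) : Qb) = τ (e : Qb)) →
      ∀ w : RE P E, Irreducible w → ∀ b ∈ Bi, ∃ c ∈ Bi,
        arithmeticRingAut (modularFunctionFieldFull N) τE b - b =
          algebraMap (RE P E) (FE E N) w * c)

/-- **T1 for one level, without `SepCoord`.**  `IF + (model at the level N) ⟹ KummerTarget`. -/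
theorem t1S (N q m : ℕ) (hq : q.Prime) (hm : 0 < m) (hqm : ¬ q ∣ m)
    (hMOD : ∀ (P : ValuationSubring Qb) (E : IntermediateField ℚ Qb),
      P.LiesOverPrime q → GoodField P E → HasModelS P E N) :
    KummerTarget N q m := by
  intro P hP τ hτ f hf hdiv
  refine kummer_of_levels (modularFunctionFieldFull N) m τ (fun S => ?_) f hf hdiv
  obtain ⟨E, hSE, hE⟩ := Fermat.Agent.A2.IF.H429.ifStatement q hq P hP S
  refine ⟨E, hSE, hE.res τ hτ, fun e => rfl, fun y hy0 hdd => ?_⟩
  obtain ⟨x, Bf, Bi, hx, hfin, hconst, hBf, hBi, hcf, hci, hτx, hτf, hτi⟩ := hMOD P E hP hE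
  haveI : IsDiscreteValuationRing ↥(RE P E) := hE.dvr
  haveI : HenselianLocalRing ↥(RE P E) := hE.henselian
  haveI : IsAlgClosed (IsLocalRing.ResidueField ↥(RE P E)) := hE.algClosed
  obtain ⟨w, hw⟩ := IsDiscreteValuationRing.exists_irreducible ↥(RE P E)
  obtain ⟨cf⟩ := hcf w hw
  obtain ⟨ci⟩ := hci w hw
  have hconcl : AlgSSConclusion E m
      (arithmeticRingAut (modularFunctionFieldFull N) (hE.res τ hτ)) :=
    algS (R := ↥(RE P E)) (E := E) (F := ↥(FE E N)) w hw q m hq
      (natCast_mem_maximalIdeal_RE E hP) hm hqm x hx hfin hconst Bf Bi hBf hBi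
      cf ci
      (arithmeticRingAut (modularFunctionFieldFull N) (hE.res τ hτ))
      (hE.res τ hτ).toRingEquiv (resR hE τ hτ)
      (fun e => arithmeticRingAut_algebraMap (modularFunctionFieldFull N) (hE.res τ hτ) e)
      (fun r => rfl)
      (hτf τ hτ (hE.res τ hτ) (fun e => rfl) w hw)
      (hτi τ hτ (hE.res τ hτ) (fun e => rfl) w hw)
  exact hconcl y hy0 hdd

/-! ## MOD without S4 -/

/-- **MOD without `SepCoord`**: S2 + S3 + GOODRED give the model at the ready levels. -/
theorem hasModelS_of_parts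
    (hS2 : ∀ (P : ValuationSubring Qb) (E : IntermediateField ℚ Qb) (M q : ℕ) [NeZero M]
      [NeZero q] (w : RE P E), Mod.S2Statement P E M q w)
    (hS3 : ∀ (P : ValuationSubring Qb) (E : IntermediateField ℚ Qb) (M q : ℕ) [NeZero M]
      [NeZero q] (w : RE P E), Mod.S3Statement P E M q w)
    (hGood : GoodRedStatement)
    (P : ValuationSubring Qb) (E : IntermediateField ℚ Qb) (N q : ℕ)
    (hq : q.Prime) (hqN : q ∣ N) (hq2 : ¬ q ^ 2 ∣ N) (hN : N ≠ 0)
    (h3 : q = 3 → 2 ∣ N) (h2 : q = 2 → 3 ∣ N)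
    (hP : P.LiesOverPrime q) (hE : GoodField P E) : HasModelS P E N := by
  obtain ⟨M, hM⟩ := hqN
  have hNM : N = M * q := by rw [hM, mul_comm]
  subst hNM
  have hM0 : M ≠ 0 := fun h => hN (by rw [h, zero_mul])
  haveI : NeZero M := ⟨hM0⟩
  haveI : NeZero q := ⟨hq.ne_zero⟩
  have hqM : ¬ q ∣ M := by
    rintro ⟨c, hc⟩
    exact hq2 ⟨c, by rw [hc]; ring⟩
  have h3' : q = 3 → 2 ∣ M := by
    intro h
    have h2N := h3 h
    subst h
    exact (Nat.Coprime.dvd_mul_right (by norm_num : Nat.Coprime 2 3)).1 h2N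
  have h2' : q = 2 → 3 ∣ M := by
    intro h
    have h3N := h2 h
    subst h
    exact (Nat.Coprime.dvd_mul_right (by norm_num : Nat.Coprime 3 2)).1 h3N
  have hS1 : ∀ w : RE P E, Mod.S1Statement P E M q w := fun w =>
    Mod.H13.s1 (Mod.H553.vzeroNe P E M q w) (Mod.H398.deg E M q) (Mod.H753.indInf P E M q w)
      (Mod.H753.indZero P E M q w)
  exact Mod.exists_model_of_parts P E M q hq hqM hP hE.dvr
    (Mod.H553.vinfExists P E M hM0 hE.dvr)
    (Mod.H553.vinfExists P E (M * q) hN hE.dvr)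
    (Mod.H553.frickeExists E (M * q) hN)
    (Mod.H398.deg E M q) hS1 (hS2 P E M q) (hS3 P E M q)
    (fun w => Mod.H751.stau_of_s1 P E M q w (hS1 w))
    (hGood P E M q hq hqM h3' h2' hP hE)

/-- **The Kummer form of the wall for all `q ‖ N`, `q ∤ m`, from S2 + S3 + GOODRED.** -/
theorem kummerTargetS
    (hS2 : ∀ (P : ValuationSubring Qb) (E : IntermediateField ℚ Qb) (M q : ℕ) [NeZero M]
      [NeZero q] (w : RE P E), Mod.S2Statement P E M q w)
    (hS3 : ∀ (P : ValuationSubring Qb) (E : IntermediateField ℚ Qb) (M q : ℕ) [NeZero M]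
      [NeZero q] (w : RE P E), Mod.S3Statement P E M q w)
    (hGood : GoodRedStatement)
    (N q m : ℕ) (hq : q.Prime) (hqN : q ∣ N) (hq2 : ¬ q ^ 2 ∣ N) (hN : N ≠ 0) (hm : 0 < m)
    (hqm : ¬ q ∣ m) : KummerTarget N q m := by
  apply Fermat.Agent.A2.H876.d2Statement N q m hq hqN hq2 hN hm hqm
  apply t1S (auxLevel N q) q m hq hm hqm
  intro P E hP hE
  exact hasModelS_of_parts hS2 hS3 hGood P E (auxLevel N q) q hq
    (hqN.trans (dvd_auxLevel N q)) (not_sq_dvd_auxLevel hq hq2) (auxLevel_ne_zero q hN)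
    aux_two_dvd aux_three_dvd hP hE

/-- **The wall A2 for all `q ‖ N`, `q ∤ m`, from S2 + S3 + GOODRED** (no `SepCoord`). -/
theorem wallS
    (hS2 : ∀ (P : ValuationSubring Qb) (E : IntermediateField ℚ Qb) (M q : ℕ) [NeZero M]
      [NeZero q] (w : RE P E), Mod.S2Statement P E M q w)
    (hS3 : ∀ (P : ValuationSubring Qb) (E : IntermediateField ℚ Qb) (M q : ℕ) [NeZero M]
      [NeZero q] (w : RE P E), Mod.S3Statement P E M q w)
    (hGood : GoodRedStatement)
    (N q m : ℕ) (hq : q.Prime) (hqN : q ∣ N) (hq2 : ¬ q ^ 2 ∣ N) (hN : N ≠ 0) (hm : 0 < m)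
    (hqm : ¬ q ∣ m) : Target N q m :=
  Fermat.Agent.A2.T0.H669.target_of_kummerTarget N q m hm
    (kummerTargetS hS2 hS3 hGood N q m hq hqN hq2 hN hm hqm)

end Fermat.Agent.A2.Top.H553

end

end
-- ===== PACK-END A2/Top/H553/WallS.lean

-- ===== PACK-BEGIN S18/H558/BranchT3.lean
section


/-!
# S18 / MOD M2 (part 3): ramification of `F_M / ℚ̄(t)` for the Hauptmodul `t = t₃` of `X₀(3)`

Hypothesis (proved elsewhere, piece c3-i): `t ∈ FF M` with `j * t ^ 3 = (t + 27) * (t + 243) ^ 3`.
Then `F_M / ℚ̄(t)` is unramified outside `t ∈ {0, -27, ∞}`: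

* `ord_t3_sub_eq_one` : `c ≠ 0`, `c ≠ -27`, `0 < v.ord (t - c)` ⟹ `v.ord (t - c) = 1`;
* `ord_t3_add_27_dvd_three` : `0 < v.ord (t + 27)` ⟹ `v.ord (t + 27) ∣ 3`;
* `ord_t3_inv_sub_eq_one` : the same in the coordinate `1/t` (chart at infinity).
-/

set_option autoImplicit false

noncomputable section

open AlgebraicCurve ModularCurve

namespace Fermat.Agent.S18.H558

open Fermat.Agent.S24

section T3

variable (M : ℕ) [NeZero M] (t : FF M) (hid : jF M * t ^ 3 = (t + 27) * (t + 243) ^ 3)

include hid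

theorem t3_ne_zero : t ≠ 0 := by
  rintro rfl
  norm_num at hid

/-- Places over `t = -27`: ramification index `1` or `3`. -/
theorem ord_t3_add_27_dvd_three (v : Place Kbar (FF M))
    (hv : 0 < v.ord (t - algebraMap Kbar (FF M) (-27))) :
    v.ord (t - algebraMap Kbar (FF M) (-27)) ∣ 3 := by
  set T := t - algebraMap Kbar (FF M) (-27) with hT
  have ht0 : t ≠ 0 := t3_ne_zero M t hid
  have hT0 : T ≠ 0 := H117.ne_zero_of_ord_ne_zero v hv.ne'
  have htv : v.ord t = 0 := ord_eq_zero_of_ord_sub_pos v (by norm_num) hv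
  have ht3 : v.ord (t ^ 3) = 0 := by rw [H117.ord_pow, htv]; simp
  have e1 : algebraMap Kbar (FF M) (-27) = -27 := by rw [map_neg, map_ofNat]
  have e3 : algebraMap Kbar (FF M) 216 = 216 := map_ofNat _ _
  have key : jF M * t ^ 3 = T ^ 1 * (algebraMap Kbar (FF M) 216 + T * 1) ^ 3 := by
    rw [hT, e1, e3]; linear_combination hid
  have hU0 := const_add_mul_ne_zero v (g := (216 : Kbar)) (by norm_num) hv (one_mem _)
  have hU := ord_const_add_mul v (g := (216 : Kbar)) (by norm_num) hv (one_mem _)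
  obtain ⟨hJ0, hJ⟩ := ord_eq_of_key v 1 key (pow_ne_zero 3 ht0) ht3 (pow_ne_zero 3 hU0)
    (by rw [H117.ord_pow, hU]; simp) hT0
  have hJ' : v.ord (jF M) = v.ord T := by simpa using hJ
  have hpos : 0 < v.ord (jF M) := by rw [hJ']; exact hv
  have := ord_j_dvd_three M v hpos
  rwa [hJ'] at this

/-- **`F_M / ℚ̄(t₃)` is unramified outside `t₃ ∈ {0, -27, ∞}`.** -/
theorem ord_t3_sub_eq_one (c : Kbar) (hc0 : c ≠ 0) (hc27 : c ≠ -27) (v : Place Kbar (FF M))
    (hv : 0 < v.ord (t - algebraMap Kbar (FF M) c)) :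
    v.ord (t - algebraMap Kbar (FF M) c) = 1 := by
  set C : FF M := algebraMap Kbar (FF M) c with hC
  set T := t - C with hT
  have ht0 : t ≠ 0 := t3_ne_zero M t hid
  have hT0 : T ≠ 0 := H117.ne_zero_of_ord_ne_zero v hv.ne'
  have htv : v.ord t = 0 := ord_eq_zero_of_ord_sub_pos v hc0 hv
  have htmem : t ∈ v.toValuationSubring := mem_of_ord_sub_pos v hv
  have hCmem : C ∈ v.toValuationSubring := v.algebraMap_mem' c
  have hC0 : C ≠ 0 := (map_ne_zero _).2 hc0
  have hCv : v.ord C = 0 := H117.ord_algebraMap v c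
  have ht3 : v.ord (t ^ 3) = 0 := by rw [H117.ord_pow, htv]; simp
  by_cases h243 : c = -243
  · -- `j t³ = (t + 243)³ (t + 27)`
    have hCe : C = -243 := by rw [hC, h243, map_neg, map_ofNat]
    have e3 : algebraMap Kbar (FF M) (-216) = -216 := by rw [map_neg, map_ofNat]
    have key : jF M * t ^ 3 = T ^ 3 * (algebraMap Kbar (FF M) (-216) + T * 1) := by
      rw [hT, hCe, e3]; linear_combination hid
    obtain ⟨hJ0, hJ⟩ := ord_eq_of_key v 3 key (pow_ne_zero 3 ht0) ht3
      (const_add_mul_ne_zero v (by norm_num) hv (one_mem _))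
      (ord_const_add_mul v (by norm_num) hv (one_mem _)) hT0
    have hpos : 0 < v.ord (jF M) := by rw [hJ]; positivity
    have h3 := ord_j_dvd_three M v hpos
    rw [hJ] at h3
    exact eq_one_of_mul_dvd (k := 3) (by norm_num) hv (by exact_mod_cast h3)
  by_cases hquad : c ^ 2 - 486 * c - 19683 = 0
  · -- `(j - 1728) t³ = (t² - 486 t - 19683)² = (t - c)² (t - c')²`
    have e2 : algebraMap Kbar (FF M) 1728 = 1728 := map_ofNat _ _
    have hg : (2 * c - 486 : Kbar) ≠ 0 := by
      intro h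
      have hc : c = 243 := by linear_combination h / 2
      rw [hc] at hquad
      norm_num at hquad
    have hG : algebraMap Kbar (FF M) (2 * c - 486) = 2 * C - 486 := by
      simp [map_sub, map_mul, map_ofNat, hC]
    have hquad' : C ^ 2 - 486 * C - 19683 = 0 := by
      have := congrArg (algebraMap Kbar (FF M)) hquad
      simpa [map_sub, map_mul, map_pow, map_ofNat, hC] using this
    have key : (jF M - algebraMap Kbar (FF M) 1728) * t ^ 3
        = T ^ 2 * (algebraMap Kbar (FF M) (2 * c - 486) + T * 1) ^ 2 := by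
      rw [hG, hT, e2]
      linear_combination hid + (2 * t ^ 2 - 972 * t - 39366 - (C ^ 2 - 486 * C - 19683)) * hquad'
    have hU0 := const_add_mul_ne_zero v hg hv (one_mem _)
    have hU := ord_const_add_mul v hg hv (one_mem _)
    obtain ⟨hJ0, hJ⟩ := ord_eq_of_key v 2 key (pow_ne_zero 3 ht0) ht3 (pow_ne_zero 2 hU0)
      (by rw [H117.ord_pow, hU]; simp) hT0
    have hpos : 0 < v.ord (jF M - algebraMap Kbar (FF M) 1728) := by rw [hJ]; positivity
    have h2 := ord_j_sub_1728_dvd_two M v hpos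
    rw [hJ] at h2
    exact eq_one_of_mul_dvd (k := 2) (by norm_num) hv (by exact_mod_cast h2)
  · -- generic case
    set a : Kbar := (c + 27) * (c + 243) ^ 3 / c ^ 3 with ha
    have hc3 : c ^ 3 ≠ 0 := pow_ne_zero 3 hc0
    have h27' : c + 27 ≠ 0 := fun h => hc27 (eq_neg_of_add_eq_zero_left h)
    have h243' : c + 243 ≠ 0 := fun h => h243 (eq_neg_of_add_eq_zero_left h)
    have hac : a * c ^ 3 = (c + 27) * (c + 243) ^ 3 := by rw [ha]; field_simp
    have ha0 : a ≠ 0 := by
      rw [ha]
      exact div_ne_zero (mul_ne_zero h27' (pow_ne_zero 3 h243')) hc3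
    have ha1728 : a ≠ 1728 := by
      intro h
      rw [h] at hac
      have : (c ^ 2 - 486 * c - 19683) ^ 2 = 0 := by linear_combination -hac
      exact hquad (pow_eq_zero_iff (by norm_num) |>.mp this)
    set q : Kbar := c ^ 2 * (c + 243) ^ 2 * (c ^ 2 - 486 * c - 19683) with hq
    have hq0 : q ≠ 0 := by
      rw [hq]
      exact mul_ne_zero (mul_ne_zero (pow_ne_zero 2 hc0) (pow_ne_zero 2 h243')) hquad
    have hA : algebraMap Kbar (FF M) a * C ^ 3 = (C + 27) * (C + 243) ^ 3 := by
      have := congrArg (algebraMap Kbar (FF M)) hac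
      simpa [map_mul, map_pow, map_add, map_ofNat] using this
    have hQ : algebraMap Kbar (FF M) q = C ^ 2 * (C + 243) ^ 2 * (C ^ 2 - 486 * C - 19683) := by
      rw [hq]; simp [map_mul, map_pow, map_add, map_sub, map_ofNat, hC]
    set W : FF M := t ^ 2 * C ^ 3 + t * C ^ 4 - 196830 * (t * C ^ 2) - 19131876 * (t * C)
      - 387420489 * t + C ^ 5 - 196830 * C ^ 3 - 38263752 * C ^ 2 - 774840978 * C with hW
    have hnum : ∀ n : ℕ, (n : FF M) ∈ v.toValuationSubring := fun n => natCast_mem _ n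
    have hWmem : W ∈ v.toValuationSubring := by
      have h1 : (196830 : FF M) ∈ v.toValuationSubring := by exact_mod_cast hnum 196830
      have h2 : (19131876 : FF M) ∈ v.toValuationSubring := by exact_mod_cast hnum 19131876
      have h3 : (387420489 : FF M) ∈ v.toValuationSubring := by exact_mod_cast hnum 387420489
      have h4 : (38263752 : FF M) ∈ v.toValuationSubring := by exact_mod_cast hnum 38263752
      have h5 : (774840978 : FF M) ∈ v.toValuationSubring := by exact_mod_cast hnum 774840978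
      refine sub_mem (sub_mem (sub_mem (add_mem (sub_mem (sub_mem (sub_mem (add_mem ?_ ?_) ?_) ?_)
        ?_) ?_) ?_) ?_) ?_
      · exact mul_mem (pow_mem htmem 2) (pow_mem hCmem 3)
      · exact mul_mem htmem (pow_mem hCmem 4)
      · exact mul_mem h1 (mul_mem htmem (pow_mem hCmem 2))
      · exact mul_mem h2 (mul_mem htmem hCmem)
      · exact mul_mem h3 htmem
      · exact pow_mem hCmem 5
      · exact mul_mem h1 (pow_mem hCmem 3)
      · exact mul_mem h4 (pow_mem hCmem 2)
      · exact mul_mem h5 hCmem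
    have key : (jF M - algebraMap Kbar (FF M) a) * (t ^ 3 * C ^ 3)
        = T ^ 1 * (algebraMap Kbar (FF M) q + T * W) := by
      rw [hQ, hW, hT]
      linear_combination C ^ 3 * hid - t ^ 3 * hA
    have hD0 : t ^ 3 * C ^ 3 ≠ 0 := mul_ne_zero (pow_ne_zero 3 ht0) (pow_ne_zero 3 hC0)
    have hD : v.ord (t ^ 3 * C ^ 3) = 0 := by
      rw [v.ord_mul (pow_ne_zero 3 ht0) (pow_ne_zero 3 hC0), ht3, H117.ord_pow, hCv]; simp
    obtain ⟨hJ0, hJ⟩ := ord_eq_of_key v 1 key hD0 hD
      (const_add_mul_ne_zero v hq0 hv hWmem) (ord_const_add_mul v hq0 hv hWmem) hT0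
    have hJ' : v.ord (jF M - algebraMap Kbar (FF M) a) = v.ord T := by simpa using hJ
    have hpos : 0 < v.ord (jF M - algebraMap Kbar (FF M) a) := by rw [hJ']; exact hv
    rw [← hJ']
    exact ord_j_sub_eq_one M a ha0 ha1728 v hpos

/-- The same statement in the coordinate `s = 1/t` (chart at infinity): unramified outside
`s ∈ {0, -1/27}`. -/
theorem ord_t3_inv_sub_eq_one (s : Kbar) (hs0 : s ≠ 0) (hs27 : s ≠ -(1 / 27))
    (v : Place Kbar (FF M)) (hv : 0 < v.ord (t⁻¹ - algebraMap Kbar (FF M) s)) :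
    v.ord (t⁻¹ - algebraMap Kbar (FF M) s) = 1 := by
  have ht0 : t ≠ 0 := t3_ne_zero M t hid
  have hti : v.ord t⁻¹ = 0 := ord_eq_zero_of_ord_sub_pos v hs0 hv
  have htv : v.ord t = 0 := by rw [v.ord_inv] at hti; omega
  set S : FF M := algebraMap Kbar (FF M) s with hS
  have hS0 : S ≠ 0 := (map_ne_zero _).2 hs0
  have hSv : v.ord S = 0 := H117.ord_algebraMap v s
  have hrel : t⁻¹ - S = (-(S * t⁻¹)) * (t - algebraMap Kbar (FF M) s⁻¹) := by
    rw [map_inv₀, ← hS]
    have h1 : S * S⁻¹ = 1 := mul_inv_cancel₀ hS0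
    have h2 : t * t⁻¹ = 1 := mul_inv_cancel₀ ht0
    linear_combination (-t⁻¹) * h1 + S * h2
  have hne1 : -(S * t⁻¹) ≠ 0 := neg_ne_zero.mpr (mul_ne_zero hS0 (inv_ne_zero ht0))
  have hord1 : v.ord (-(S * t⁻¹)) = 0 := by
    rw [H117.ord_neg, v.ord_mul hS0 (inv_ne_zero ht0), hSv, hti]; rfl
  have hne2 : t - algebraMap Kbar (FF M) s⁻¹ ≠ 0 := by
    intro h
    rw [h, mul_zero] at hrel
    rw [hrel, v.ord_zero] at hv
    exact lt_irrefl _ hv
  have hord : v.ord (t⁻¹ - S) = v.ord (t - algebraMap Kbar (FF M) s⁻¹) := by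
    rw [hrel, v.ord_mul hne1 hne2, hord1, zero_add]
  rw [hord] at hv ⊢
  refine ord_t3_sub_eq_one M t hid s⁻¹ (inv_ne_zero hs0) ?_ v hv
  intro h
  apply hs27
  have : s = (s⁻¹)⁻¹ := (inv_inv s).symm
  rw [this, h]
  norm_num

end T3

end Fermat.Agent.S18.H558

end
end
-- ===== PACK-END S18/H558/BranchT3.lean

-- ===== PACK-BEGIN S18/H558/PartBr.lean
section






/-!
# S18 / MOD / G-BR (helper558): the branch-value fields of `Alg.GoodModel` at the concrete objects

Target: the four fields `S_mem`, `S_distinct`, `S_unit`, `unramified` of `Alg.GoodModel`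
(= the structure `PartBr (Lc M) (Rc M A E) x S` of MOD-ASM helper216) for

* `x = jOm M`, `S = {0, 1728}`, `ℓ ≥ 5`                       (`brJ_*`),
* `x` with `jOm M * x ^ 2 = (x + 256) ^ 3`, `S = {0, -64}`, `ℓ = 3`   (`brT2_*`),
* `x` with `jOm M * x ^ 3 = (x + 27) * (x + 243) ^ 3`, `S = {0, -27}`, `ℓ = 2` (`brT3_*`),

for EVERY intermediate field `E` of `Q̄/ℚ` (no finiteness needed) and every valuation subring `A`
of `Q̄` lying over `ℓ`.  The bundled forms `brJ`, `brT2`, `brT3` are conjunctions of the four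
fields in the order of the structure, so `PartBr` is `⟨h.1, h.2.1, h.2.2.1, h.2.2.2⟩`.

Inputs: M2 (`H558/Branch*.lean`, Place language) and `H804.exists_place_of_valuationSubring_modular`
(every proper valuation subring of `F_M` containing `Q̄` is a `Place`).
-/

set_option autoImplicit false

noncomputable section

namespace Fermat.Agent.S18.H558

open AlgebraicCurve ModularCurve Fermat.Agent.S24 Fermat.Agent.S18 Fermat.Agent.S18.Mod

variable (M : ℕ) [NeZero M]

/-- The frozen coordinate `jOm M` is the `j`-function `jF M` of the S24 library. -/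
theorem jOm_eq_jF : jOm M = jF M := by
  apply Subtype.ext
  show coeffEmb Qb (qExpand ℚ 1 jq) = coeffEmb Kbar jq
  rw [qExpand_one_apply]

/-! ### Integers in `Rc` -/

section Consts

variable (A : ValuationSubring Qb) (E : IntermediateField ℚ Qb)

theorem algebraMap_mem_Rc {a : Qb} (hA : a ∈ A) (hE : a ∈ E) :
    algebraMap Qb (Om M) a ∈ Rc M A E :=
  Subring.mem_map.2 ⟨a, ⟨hA, hE⟩, rfl⟩

theorem intCast_mem_Rc (n : ℤ) : ((n : ℤ) : Om M) ∈ Rc M A E := by
  have h : ((n : ℤ) : Om M) = algebraMap Qb (Om M) (n : Qb) := (map_intCast _ n).symm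
  rw [h]
  exact algebraMap_mem_Rc M A E (intCast_mem A n) (intCast_mem E n)

theorem inv_intCast_mem_Rc (n : ℤ) (hn : ((n : ℤ) : Qb)⁻¹ ∈ A) :
    (((n : ℤ) : Om M))⁻¹ ∈ Rc M A E := by
  have h : (((n : ℤ) : Om M))⁻¹ = algebraMap Qb (Om M) ((n : Qb)⁻¹) := by
    rw [map_inv₀, map_intCast]
  rw [h]
  exact algebraMap_mem_Rc M A E hn (inv_mem (intCast_mem E n))

/-- An integer prime to the residue characteristic is a unit of `A`. -/
theorem inv_intCast_mem_of_coprime {ℓ : ℕ} (hA : A.LiesOverPrime ℓ) (n : ℤ)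
    (hn : IsCoprime n (ℓ : ℤ)) : ((n : ℤ) : Qb)⁻¹ ∈ A := by
  obtain ⟨a, b, hab⟩ := hn
  have hℓ : A.valuation (ℓ : Qb) < 1 := (A.mem_nonunits_iff).1 hA
  have hb : A.valuation (b : Qb) ≤ 1 := (A.valuation_le_one_iff _).2 (intCast_mem A b)
  have ha : A.valuation (a : Qb) ≤ 1 := (A.valuation_le_one_iff _).2 (intCast_mem A a)
  have hnv : A.valuation (n : Qb) ≤ 1 := (A.valuation_le_one_iff _).2 (intCast_mem A n)
  have hbℓ : A.valuation ((b : Qb) * (ℓ : Qb)) < 1 := by
    rw [map_mul]
    calc A.valuation (b : Qb) * A.valuation (ℓ : Qb) ≤ 1 * A.valuation (ℓ : Qb) :=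
          mul_le_mul' hb le_rfl
      _ = A.valuation (ℓ : Qb) := one_mul _
      _ < 1 := hℓ
  have hone : (a : Qb) * (n : Qb) = 1 - (b : Qb) * (ℓ : Qb) := by
    have h := congrArg (Int.cast : ℤ → Qb) hab
    push_cast at h
    linear_combination h
  have h1 : A.valuation (1 - (b : Qb) * (ℓ : Qb)) = 1 := Valuation.map_one_sub_of_lt _ hbℓ
  have h2 : A.valuation (a : Qb) * A.valuation (n : Qb) = 1 := by
    rw [← map_mul, hone, h1]
  have h3 : A.valuation (n : Qb) = 1 := by
    apply le_antisymm hnv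
    calc (1 : _) = A.valuation (a : Qb) * A.valuation (n : Qb) := h2.symm
      _ ≤ 1 * A.valuation (n : Qb) := mul_le_mul' ha le_rfl
      _ = A.valuation (n : Qb) := one_mul _
  rw [← A.valuation_le_one_iff, map_inv₀, h3, inv_one]

end Consts

/-! ### From the Place statement to the valuation-subring statement -/

/-- If `x - c` has order `1` at every place where it vanishes (for the constants `c ∉ S`), then
`x` satisfies the field `unramified` of `Alg.GoodModel`. -/
theorem unramified_of_ord (x : Om M) (S : Finset (Om M))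
    (h : ∀ c : Qb, algebraMap Qb (Om M) c ∉ S → ∀ v : Place Qb (Om M),
      0 < v.ord (x - algebraMap Qb (Om M) c) → v.ord (x - algebraMap Qb (Om M) c) = 1) :
    ∀ O : ValuationSubring (Om M), (∀ a ∈ Lc M, a ∈ O) → ∀ c ∈ Lc M, c ∉ S →
      x - c ∈ O → (x - c)⁻¹ ∉ O → ∀ t ∈ O, t⁻¹ ∉ O → t * (x - c)⁻¹ ∈ O := by
  intro O hL c hc hcS hxO hxinv t ht htinv
  obtain ⟨c₀, rfl⟩ := hc
  have hK : ∀ a : Qb, algebraMap Qb (Om M) a ∈ O := fun a => hL _ ⟨a, rfl⟩
  have hO : O ≠ ⊤ := by
    intro htop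
    exact hxinv (htop ▸ ValuationSubring.mem_top _)
  obtain ⟨v, rfl⟩ := H804.exists_place_of_valuationSubring_modular M O hK hO
  have hx0 : x - algebraMap Qb (Om M) c₀ ≠ 0 := by
    intro h0
    rw [h0, inv_zero] at hxinv
    exact hxinv (zero_mem _)
  have ht0 : t ≠ 0 := by
    intro h0
    rw [h0, inv_zero] at htinv
    exact htinv (zero_mem _)
  have h1 : 0 ≤ v.ord (x - algebraMap Qb (Om M) c₀) := H117.ord_nonneg_of_mem v hxO
  have h2 : ¬ 0 ≤ v.ord (x - algebraMap Qb (Om M) c₀)⁻¹ := fun hh =>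
    hxinv (H117.mem_of_ord_nonneg v hh)
  rw [v.ord_inv] at h2
  have h3 : 0 ≤ v.ord t := H117.ord_nonneg_of_mem v ht
  have h4 : ¬ 0 ≤ v.ord t⁻¹ := fun hh => htinv (H117.mem_of_ord_nonneg v hh)
  rw [v.ord_inv] at h4
  have h5 := h c₀ hcS v (by omega)
  apply H117.mem_of_ord_nonneg v
  rw [v.ord_mul ht0 (inv_ne_zero hx0), v.ord_inv, h5]
  omega

/-! ### The coordinate `j`, `ℓ ≥ 5` -/

section J

variable (A : ValuationSubring Qb) (E : IntermediateField ℚ Qb) {ℓ : ℕ}

theorem inv_1728_mem (hℓ : ℓ.Prime) (h5 : 5 ≤ ℓ) (hA : A.LiesOverPrime ℓ) :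
    ((1728 : ℤ) : Qb)⁻¹ ∈ A := by
  apply inv_intCast_mem_of_coprime A hA
  have hcop : Nat.Coprime 1728 ℓ := by
    rw [Nat.coprime_comm, Nat.Prime.coprime_iff_not_dvd hℓ]
    intro hdvd
    have h1728 : (1728 : ℕ) = 2 ^ 6 * 3 ^ 3 := by norm_num
    rw [h1728] at hdvd
    rcases (Nat.Prime.dvd_mul hℓ).1 hdvd with h | h
    · have := Nat.le_of_dvd (by norm_num) (hℓ.dvd_of_dvd_pow h)
      omega
    · have := Nat.le_of_dvd (by norm_num) (hℓ.dvd_of_dvd_pow h)
      omega
  exact_mod_cast (Nat.isCoprime_iff_coprime.2 hcop)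

theorem brJ_unramified (S : Finset (Om M)) (hS : ∀ s, s ∈ S ↔ s = 0 ∨ s = 1728) :
    ∀ O : ValuationSubring (Om M), (∀ a ∈ Lc M, a ∈ O) → ∀ c ∈ Lc M, c ∉ S →
      jOm M - c ∈ O → (jOm M - c)⁻¹ ∉ O → ∀ t ∈ O, t⁻¹ ∉ O → t * (jOm M - c)⁻¹ ∈ O := by
  apply unramified_of_ord
  intro c hcS v hv
  rw [jOm_eq_jF] at hv ⊢
  have h0 : c ≠ 0 := by
    rintro rfl
    exact hcS ((hS _).2 (Or.inl (map_zero _)))
  have h1 : c ≠ 1728 := by
    rintro rfl
    exact hcS ((hS _).2 (Or.inr (map_ofNat _ 1728)))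
  exact ord_j_sub_eq_one M c h0 h1 v hv

/-- **G-BR for `x = j`, `ℓ ≥ 5`**: the four fields `S_mem`, `S_distinct`, `S_unit`, `unramified`. -/
theorem brJ (hℓ : ℓ.Prime) (h5 : 5 ≤ ℓ) (hA : A.LiesOverPrime ℓ) (S : Finset (Om M))
    (hS : ∀ s, s ∈ S ↔ s = 0 ∨ s = 1728) :
    (∀ s ∈ S, s ∈ Rc M A E) ∧
    (∀ s ∈ S, ∀ t ∈ S, s ≠ t → (s - t)⁻¹ ∈ Rc M A E) ∧
    (∀ s ∈ S, s ≠ 0 → s⁻¹ ∈ Rc M A E) ∧
    (∀ O : ValuationSubring (Om M), (∀ a ∈ Lc M, a ∈ O) → ∀ c ∈ Lc M, c ∉ S →
      jOm M - c ∈ O → (jOm M - c)⁻¹ ∉ O → ∀ t ∈ O, t⁻¹ ∉ O → t * (jOm M - c)⁻¹ ∈ O) := by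
  have hu : ((1728 : ℤ) : Om M)⁻¹ ∈ Rc M A E :=
    inv_intCast_mem_Rc M A E 1728 (inv_1728_mem A hℓ h5 hA)
  have hcast : ((1728 : ℤ) : Om M) = 1728 := by norm_num
  rw [hcast] at hu
  refine ⟨?_, ?_, ?_, brJ_unramified M S hS⟩
  · intro s hs
    rcases (hS s).1 hs with rfl | rfl
    · exact zero_mem _
    · have := intCast_mem_Rc M A E 1728
      rwa [hcast] at this
  · intro s hs t ht hst
    rcases (hS s).1 hs with rfl | rfl <;> rcases (hS t).1 ht with rfl | rfl
    · exact absurd rfl hst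
    · rw [zero_sub, inv_neg]
      exact neg_mem hu
    · rwa [sub_zero]
    · exact absurd rfl hst
  · intro s hs hs0
    rcases (hS s).1 hs with rfl | rfl
    · exact absurd rfl hs0
    · exact hu

end J

/-! ### The Hauptmodul `t₂`, `ℓ = 3` -/

section T2

variable (A : ValuationSubring Qb) (E : IntermediateField ℚ Qb)

theorem inv_64_mem (hA : A.LiesOverPrime 3) : ((64 : ℤ) : Qb)⁻¹ ∈ A := by
  apply inv_intCast_mem_of_coprime A hA
  have hcop : Nat.Coprime 64 3 := by norm_num
  exact_mod_cast (Nat.isCoprime_iff_coprime.2 hcop)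

theorem brT2_unramified (x : Om M) (hx : jOm M * x ^ 2 = (x + 256) ^ 3) (S : Finset (Om M))
    (hS : ∀ s, s ∈ S ↔ s = 0 ∨ s = -64) :
    ∀ O : ValuationSubring (Om M), (∀ a ∈ Lc M, a ∈ O) → ∀ c ∈ Lc M, c ∉ S →
      x - c ∈ O → (x - c)⁻¹ ∉ O → ∀ t ∈ O, t⁻¹ ∉ O → t * (x - c)⁻¹ ∈ O := by
  apply unramified_of_ord
  intro c hcS v hv
  rw [jOm_eq_jF] at hx
  have h0 : c ≠ 0 := by
    rintro rfl
    exact hcS ((hS _).2 (Or.inl (map_zero _)))
  have h1 : c ≠ -64 := by
    rintro rfl
    exact hcS ((hS _).2 (Or.inr (by rw [map_neg, map_ofNat])))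
  exact ord_t2_sub_eq_one M x hx c h0 h1 v hv

/-- **G-BR for `x = t₂`, `ℓ = 3`**. -/
theorem brT2 (hA : A.LiesOverPrime 3) (x : Om M) (hx : jOm M * x ^ 2 = (x + 256) ^ 3)
    (S : Finset (Om M)) (hS : ∀ s, s ∈ S ↔ s = 0 ∨ s = -64) :
    (∀ s ∈ S, s ∈ Rc M A E) ∧
    (∀ s ∈ S, ∀ t ∈ S, s ≠ t → (s - t)⁻¹ ∈ Rc M A E) ∧
    (∀ s ∈ S, s ≠ 0 → s⁻¹ ∈ Rc M A E) ∧
    (∀ O : ValuationSubring (Om M), (∀ a ∈ Lc M, a ∈ O) → ∀ c ∈ Lc M, c ∉ S →
      x - c ∈ O → (x - c)⁻¹ ∉ O → ∀ t ∈ O, t⁻¹ ∉ O → t * (x - c)⁻¹ ∈ O) := by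
  have hu : ((64 : ℤ) : Om M)⁻¹ ∈ Rc M A E :=
    inv_intCast_mem_Rc M A E 64 (inv_64_mem A hA)
  have hcast : ((64 : ℤ) : Om M) = 64 := by norm_num
  rw [hcast] at hu
  refine ⟨?_, ?_, ?_, brT2_unramified M x hx S hS⟩
  · intro s hs
    rcases (hS s).1 hs with rfl | rfl
    · exact zero_mem _
    · have := intCast_mem_Rc M A E 64
      rw [hcast] at this
      exact neg_mem this
  · intro s hs t ht hst
    rcases (hS s).1 hs with rfl | rfl <;> rcases (hS t).1 ht with rfl | rfl
    · exact absurd rfl hst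
    · rwa [zero_sub, neg_neg]
    · rw [sub_zero, inv_neg]
      exact neg_mem hu
    · exact absurd rfl hst
  · intro s hs hs0
    rcases (hS s).1 hs with rfl | rfl
    · exact absurd rfl hs0
    · rw [inv_neg]
      exact neg_mem hu

end T2

/-! ### The Hauptmodul `t₃`, `ℓ = 2` -/

section T3

variable (A : ValuationSubring Qb) (E : IntermediateField ℚ Qb)

theorem inv_27_mem (hA : A.LiesOverPrime 2) : ((27 : ℤ) : Qb)⁻¹ ∈ A := by
  apply inv_intCast_mem_of_coprime A hA
  have hcop : Nat.Coprime 27 2 := by norm_num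
  exact_mod_cast (Nat.isCoprime_iff_coprime.2 hcop)

theorem brT3_unramified (x : Om M) (hx : jOm M * x ^ 3 = (x + 27) * (x + 243) ^ 3)
    (S : Finset (Om M)) (hS : ∀ s, s ∈ S ↔ s = 0 ∨ s = -27) :
    ∀ O : ValuationSubring (Om M), (∀ a ∈ Lc M, a ∈ O) → ∀ c ∈ Lc M, c ∉ S →
      x - c ∈ O → (x - c)⁻¹ ∉ O → ∀ t ∈ O, t⁻¹ ∉ O → t * (x - c)⁻¹ ∈ O := by
  apply unramified_of_ord
  intro c hcS v hv
  rw [jOm_eq_jF] at hx
  have h0 : c ≠ 0 := by
    rintro rfl
    exact hcS ((hS _).2 (Or.inl (map_zero _)))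
  have h1 : c ≠ -27 := by
    rintro rfl
    exact hcS ((hS _).2 (Or.inr (by rw [map_neg, map_ofNat])))
  exact ord_t3_sub_eq_one M x hx c h0 h1 v hv

/-- **G-BR for `x = t₃`, `ℓ = 2`**. -/
theorem brT3 (hA : A.LiesOverPrime 2) (x : Om M)
    (hx : jOm M * x ^ 3 = (x + 27) * (x + 243) ^ 3)
    (S : Finset (Om M)) (hS : ∀ s, s ∈ S ↔ s = 0 ∨ s = -27) :
    (∀ s ∈ S, s ∈ Rc M A E) ∧
    (∀ s ∈ S, ∀ t ∈ S, s ≠ t → (s - t)⁻¹ ∈ Rc M A E) ∧
    (∀ s ∈ S, s ≠ 0 → s⁻¹ ∈ Rc M A E) ∧
    (∀ O : ValuationSubring (Om M), (∀ a ∈ Lc M, a ∈ O) → ∀ c ∈ Lc M, c ∉ S →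
      x - c ∈ O → (x - c)⁻¹ ∉ O → ∀ t ∈ O, t⁻¹ ∉ O → t * (x - c)⁻¹ ∈ O) := by
  have hu : ((27 : ℤ) : Om M)⁻¹ ∈ Rc M A E :=
    inv_intCast_mem_Rc M A E 27 (inv_27_mem A hA)
  have hcast : ((27 : ℤ) : Om M) = 27 := by norm_num
  rw [hcast] at hu
  refine ⟨?_, ?_, ?_, brT3_unramified M x hx S hS⟩
  · intro s hs
    rcases (hS s).1 hs with rfl | rfl
    · exact zero_mem _
    · have := intCast_mem_Rc M A E 27
      rw [hcast] at this
      exact neg_mem this
  · intro s hs t ht hst
    rcases (hS s).1 hs with rfl | rfl <;> rcases (hS t).1 ht with rfl | rfl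
    · exact absurd rfl hst
    · rwa [zero_sub, neg_neg]
    · rw [sub_zero, inv_neg]
      exact neg_mem hu
    · exact absurd rfl hst
  · intro s hs hs0
    rcases (hS s).1 hs with rfl | rfl
    · exact absurd rfl hs0
    · rw [inv_neg]
      exact neg_mem hu

end T3

/-- **G-BR, all admissible coordinates at once**: for every coordinate `x` with branch set `S`
in the sense of `Mod.IsCoordinate`, the four branch fields of `Alg.GoodModel` hold at the concrete
objects, for every intermediate field `E`. -/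
theorem br_of_isCoordinate {ℓ : ℕ} [Fact ℓ.Prime] (A : ValuationSubring Qb)
    (hA : A.LiesOverPrime ℓ) (E : IntermediateField ℚ Qb) (x : Om M) (S : Finset (Om M))
    (hx : IsCoordinate M ℓ x S) :
    (∀ s ∈ S, s ∈ Rc M A E) ∧
    (∀ s ∈ S, ∀ t ∈ S, s ≠ t → (s - t)⁻¹ ∈ Rc M A E) ∧
    (∀ s ∈ S, s ≠ 0 → s⁻¹ ∈ Rc M A E) ∧
    (∀ O : ValuationSubring (Om M), (∀ a ∈ Lc M, a ∈ O) → ∀ c ∈ Lc M, c ∉ S →
      x - c ∈ O → (x - c)⁻¹ ∉ O → ∀ t ∈ O, t⁻¹ ∉ O → t * (x - c)⁻¹ ∈ O) := by
  rcases hx with ⟨h5, rfl, hS⟩ | ⟨⟨h3, hid, hS⟩ | ⟨h2, hid, hS⟩, -⟩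
  · exact brJ M A E Fact.out h5 hA S hS
  · subst h3
    exact brT2 M A E hA x hid S hS
  · subst h2
    exact brT3 M A E hA x hid S hS

end Fermat.Agent.S18.H558

end

end
-- ===== PACK-END S18/H558/PartBr.lean

-- ===== PACK-BEGIN S18/Mod/H216/NodeMod.lean
section








/-!
# S18 / MOD-ASM (helper216): **node_mod** — `Mod.GoodModelStatement M ℓ A`, UNCONDITIONAL

`node_mod (M) [NeZero M] {ℓ} [Fact ℓ.Prime] (hℓM : ¬ ℓ ∣ M) (A) (hA : A.LiesOverPrime ℓ) :
  Mod.GoodModelStatement M ℓ A` — exact type of `Integ.node_mod` (Skeleton v4c).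

Wiring of the six parts at the concrete objects of `Mod/Defs.lean`:

| part | source |
|---|---|
| G-R   | `H456.IsUnif`, `H456.field_residue_perfect`, `H602.isDiscreteValuationRing_RE` |
| G-FLD | `H456.field_*`, `H24.field_finite_j` |
| G-V   | `H216.partVStatement_j` (coordinate `j`), `H24.gv_fields_of_isCoordinate` (`t₂, t₃`) |
| G-QEP | `H216.partQepStatement_j` |
| G-SEP | `H264.separable_jOm` |
| G-BR  | `H558.br_of_isCoordinate` |
| M3-T  | `H107.goodModel_of_isCoordinate107` (transfer `j ↦ t₂, t₃` for `ℓ = 3, 2`) |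
-/

set_option autoImplicit false
set_option linter.unusedSectionVars false

noncomputable section

namespace Fermat.Agent.S18.Mod.H216

open ModularCurve AlgebraicCurve HahnSeries Fermat.Agent.S18 Fermat.Agent.S18.Mod
open Fermat.Agent.S18.Alg

variable (M : ℕ) [NeZero M] {ℓ : ℕ} [Fact ℓ.Prime] (A : ValuationSubring Qb)

/-- **G-R** at the concrete objects. -/
theorem partRStatement (hA : A.LiesOverPrime ℓ) : PartRStatement M A := by
  intro E hE
  have := hE
  have hℓ : ℓ.Prime := Fact.out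
  have : IsDiscreteValuationRing (H602.RE A E) :=
    H602.isDiscreteValuationRing_RE A E hℓ.ne_zero hA
  obtain ⟨w, hw⟩ := H456.exists_isUnif M A E
  exact ⟨w, H456.field_R_le M A E, H456.field_R_total M A E, hw.mem, hw.ne_zero, hw.inv_not_mem,
    hw.gen, hw.discrete, H456.field_residue_perfect A E M hℓ hA hw⟩

/-- **G-FLD** for the coordinate `j`. -/
theorem partFldStatement_j : PartFldStatement M (jOm M) := by
  intro E _
  exact ⟨H456.field_E_le_L M E, H456.field_E_le_F M E, H456.field_L_algebraic M E,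
    H456.field_L_algClosed M, H456.field_E_closed_in_F M E, H456.field_compositum M E,
    H456.mem_Fc_of_hasIntExp M E (H456.hasIntExp_jOm M),
    H456.transcendental_of_hasIntExp M (H456.hasIntExp_jOm M), H24.field_finite_j M E⟩

/-- **G-SEP** for the coordinate `j`. -/
theorem partSepStatement_j (hℓM : ¬ ℓ ∣ M) (hA : A.LiesOverPrime ℓ) :
    PartSepStatement M A (jOm M) :=
  fun E _ w hw => ⟨H264.separable_jOm M hℓM A hA E (Vc M A E) (coe_Vc M A E) w hw.w_mem
    hw.w_ne_zero hw.w_gen⟩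

/-- **G-BR** for every admissible coordinate. -/
theorem partBrStatement_of_isCoordinate (hA : A.LiesOverPrime ℓ) (x : Om M) (S : Finset (Om M))
    (hx : IsCoordinate M ℓ x S) : PartBrStatement M A x S := by
  intro E _
  obtain ⟨h1, h2, h3, h4⟩ := H558.br_of_isCoordinate M A hA E x S hx
  exact ⟨h1, h2, h3, h4⟩

/-- The `j`-model without its branch fields, for every `ℓ ∤ M` (input of the transfer M3-T). -/
theorem baseModel_j (hℓM : ¬ ℓ ∣ M) (hA : A.LiesOverPrime ℓ) (E : IntermediateField ℚ Qb)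
    (hE : FiniteDimensional ℚ E) {w : Om M} (hw : PartR (Ec M E) (Rc M A E) w) :
    H107.BaseModel107 (Lc M) (Ec M E) (Fc M E) (Rc M A E) (Vc M A E) w (jOm M) := by
  have hF := partFldStatement_j M E hE
  have hV := partVStatement_j A hℓM hA E hE w hw
  have hQ := partQepStatement_j A hℓM hA E hE w hw
  have hS := partSepStatement_j M A hℓM hA E hE w hw
  exact
    { charZero := charZero_Om M
      R_le := hw.R_le
      R_total := hw.R_total
      w_mem := hw.w_mem
      w_ne_zero := hw.w_ne_zero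
      w_inv_not_mem := hw.w_inv_not_mem
      w_gen := hw.w_gen
      w_discrete := hw.w_discrete
      residue_perfect := hw.residue_perfect
      E_le_L := hF.E_le_L
      E_le_F := hF.E_le_F
      L_algebraic := hF.L_algebraic
      L_algClosed := hF.L_algClosed
      E_closed_in_F := hF.E_closed_in_F
      compositum := hF.compositum
      x_mem := hF.x_mem
      x_transcendental := hF.x_transcendental
      finite := hF.finite
      V_le := hV.V_le
      V_total := hV.V_total
      R_le_V := hV.R_le_V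
      w_inv_not_mem_V := hV.w_inv_not_mem_V
      V_gen := hV.V_gen
      x_mem_V := hV.x_mem_V
      gauss := hV.gauss
      qep_fin := hQ.qep_fin
      qep_inf := hQ.qep_inf
      separable := hS.separable }

/-- **M3-T**: for `ℓ ∈ {2, 3}` every admissible coordinate is good. -/
theorem goodAt_of_lt_five (hℓM : ¬ ℓ ∣ M) (hA : A.LiesOverPrime ℓ) (h5 : ¬ 5 ≤ ℓ) (x : Om M)
    (S : Finset (Om M)) (hx : IsCoordinate M ℓ x S) : GoodAt M A x S := by
  intro E hE
  obtain ⟨w, hw⟩ := partRStatement M A hA E hE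
  obtain ⟨-, -, -, hxV, -, -, hgauss⟩ :=
    H24.gv_fields_of_isCoordinate (M := M) (A := A) (E := E) (Vc M A E) (coe_Vc M A E)
      hw.w_mem hw.w_ne_zero hw.w_inv_not_mem hw.w_gen hw.w_discrete hx
  exact ⟨Vc M A E, w, coe_Vc M A E,
    H107.goodModel_of_isCoordinate107 M A hA h5 hx E (baseModel_j M A hℓM hA E hE hw)
      (H456.field_x_mem M E hx) hxV hgauss⟩

/-- **NODE MOD**: the concrete objects at level `M` form a good model
(exact type of `Integ.node_mod`, Skeleton v4c). -/
theorem node_mod (M : ℕ) [NeZero M] {ℓ : ℕ} [Fact ℓ.Prime] (hℓM : ¬ ℓ ∣ M)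
    (A : ValuationSubring Qb) (hA : A.LiesOverPrime ℓ) : Mod.GoodModelStatement M ℓ A :=
  goodModelStatement_of_parts M ℓ A
    (fun _ => partRStatement M A hA)
    (fun _ => partFldStatement_j M)
    (fun _ => partVStatement_j A hℓM hA)
    (fun _ => partQepStatement_j A hℓM hA)
    (fun _ => partSepStatement_j M A hℓM hA)
    (fun h5 S hS => partBrStatement_of_isCoordinate M A hA (jOm M) S (Or.inl ⟨h5, rfl, hS⟩))
    (fun h5 x S hx => goodAt_of_lt_five M A hℓM hA h5 x S hx)

end Fermat.Agent.S18.Mod.H216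

end
end
-- ===== PACK-END S18/Mod/H216/NodeMod.lean

-- ===== PACK-BEGIN S29/H871/FunctionField.lean
section


/-!
# S29 / E3, part 6: the constant field extension of a function field is a function field

If `F/K` is a function field with coordinate `t` (`K` algebraically closed of characteristic
zero) and `F'/K'` is its constant field extension, then `t` is still transcendental over `K'`
and `F'` is finite over `K'(t)`.

(helper871)
-/

set_option autoImplicit false
set_option linter.unusedSectionVars false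

noncomputable section

namespace Fermat.Agent.S29.H871

open AlgebraicCurve TensorProduct IntermediateField

variable {K F K' F' : Type*} [Field K] [Field F] [Field K'] [Field F']
  [Algebra K F] [Algebra K' F'] [Algebra K K'] [Algebra F F'] [Algebra K F']
  [IsScalarTower K F F'] [IsScalarTower K K' F']

section Zero

variable [IsAlgClosed K] [CharZero K]

/-- A nonconstant function has a zero. -/
theorem exists_ord_pos {t : F} (ht : Transcendental K t) [FiniteDimensional K⟮t⟯ F] :
    ∃ v : Place K F, 0 < v.ord t := by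
  classical
  have hfin := Fermat.Agent.S24.FF.finite_setOf_ord_pos (K := K) ht
  have hsum := Fermat.Agent.S24.FF.sum_ord_eq_finrank (K := K) ht hfin.toFinset
    (fun v => by simp)
  by_contra hcon
  have hempty : hfin.toFinset = ∅ := by
    ext v
    simp only [Set.Finite.mem_toFinset, Set.mem_ofPred_eq, Finset.notMem_empty, iff_false]
    intro hv
    exact hcon ⟨v, hv⟩
  rw [hempty, Finset.sum_empty] at hsum
  have hpos : 0 < Module.finrank K⟮t⟯ F := Module.finrank_pos
  omega

/-- A function without zeros is constant. -/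
theorem mem_range_of_forall_ord_le {f : F} {t : F} (ht : Transcendental K t)
    [FiniteDimensional K⟮t⟯ F] (hf : ∀ v : Place K F, v.ord f ≤ 0) :
    f ∈ (algebraMap K F).range := by
  by_contra hcon
  have hftr : Transcendental K f := Fermat.Agent.S24.FF.transcendental_of_not_mem_range hcon
  have : FiniteDimensional K⟮f⟯ F :=
    Fermat.Agent.S24.FF.finiteDimensional_adjoin_of_transcendental ht hftr
  obtain ⟨v, hv⟩ := exists_ord_pos (K := K) hftr
  have := hf v
  omega

end Zero

section Transc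

variable [IsConstExt K F K' F'] [IsAlgClosed K] [CharZero K] [IsAlgClosed K']

theorem isRationalPlace_all {t : F} (ht : Transcendental K t) [FiniteDimensional K⟮t⟯ F]
    (v : Place K F) : IsRationalPlace v :=
  isRationalPlace_of_isAlgClosed v ht

/-- The coordinate stays transcendental after constant field extension. -/
theorem transcendental_algebraMap {t : F} (ht : Transcendental K t) [FiniteDimensional K⟮t⟯ F] :
    Transcendental K' (algebraMap F F' t) := by
  intro halg
  obtain ⟨c, hc⟩ := Fermat.Agent.S24.FF.mem_range_of_isAlgebraic halg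
  obtain ⟨v, hv⟩ := exists_ord_pos (K := K) ht
  have hrat := isRationalPlace_all ht v
  have h1 := ord_placeBC_algebraMap (K' := K') (F' := F') hrat t
  rw [← hc, Fermat.Agent.S24.FF.ord_algebraMap] at h1
  omega

end Transc

section Finite

variable [IsConstExt K F K' F']

theorem algebraMap_mem_adjoin_of_mem_adjoin {t : F} {r : F} (hr : r ∈ K⟮t⟯) :
    algebraMap F F' r ∈ K'⟮algebraMap F F' t⟯ := by
  induction hr using IntermediateField.adjoin_induction with
  | mem x hx =>
    rw [Set.mem_singleton_iff] at hx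
    rw [hx]
    exact mem_adjoin_simple_self K' _
  | algebraMap x =>
    rw [← IsScalarTower.algebraMap_apply K F F', IsScalarTower.algebraMap_apply K K' F']
    exact IntermediateField.algebraMap_mem _ _
  | add x y _ _ hx hy => rw [map_add]; exact add_mem hx hy
  | inv x _ hx => rw [map_inv₀]; exact inv_mem hx
  | mul x y _ _ hx hy => rw [map_mul]; exact mul_mem hx hy

/-- The ring homomorphism `K(t) → K'(t)`. -/
def adjoinMap (t : F) : K⟮t⟯ →+* K'⟮algebraMap F F' t⟯ where
  toFun r := ⟨algebraMap F F' (r : F), algebraMap_mem_adjoin_of_mem_adjoin r.2⟩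
  map_one' := Subtype.ext (by simp)
  map_mul' x y := Subtype.ext (by simp)
  map_zero' := Subtype.ext (by simp)
  map_add' x y := Subtype.ext (by simp)

theorem isIntegral_algebraMap {t : F} [FiniteDimensional K⟮t⟯ F] (f : F) :
    IsIntegral K'⟮algebraMap F F' t⟯ (algebraMap F F' f) := by
  have hf : IsIntegral K⟮t⟯ f := Algebra.IsIntegral.isIntegral f
  exact IsIntegral.map_of_comp_eq (adjoinMap (K := K) (K' := K') (F' := F') t)
    (algebraMap F F') (RingHom.ext fun r => rfl) hf

/-- The constant field extension is finite over `K'(t)`. -/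
theorem finiteDimensional_adjoin_algebraMap (t : F) [FiniteDimensional K⟮t⟯ F] :
    FiniteDimensional K'⟮algebraMap F F' t⟯ F' := by
  classical
  obtain ⟨S, hS⟩ := (Module.Finite.fg_top : (⊤ : Submodule K⟮t⟯ F).FG)
  set t' := algebraMap F F' t with ht'
  let S' : Set F' := (algebraMap F F') '' (S : Set F)
  have hS'fin : Finite S' := (S.finite_toSet.image _).to_subtype
  let E : IntermediateField K'⟮t'⟯ F' := IntermediateField.adjoin K'⟮t'⟯ S'
  have hEfin : FiniteDimensional K'⟮t'⟯ E := by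
    apply IntermediateField.finiteDimensional_adjoin
    rintro x ⟨f, _, rfl⟩
    exact isIntegral_algebraMap (K := K) (K' := K') f
  -- `E` contains the image of `F`
  have hF : ∀ f : F, algebraMap F F' f ∈ E := by
    intro f
    have hf : f ∈ Submodule.span K⟮t⟯ (S : Set F) := by rw [hS]; trivial
    induction hf using Submodule.span_induction with
    | mem x hx => exact IntermediateField.subset_adjoin _ _ ⟨x, hx, rfl⟩
    | zero => rw [map_zero]; exact zero_mem _
    | add x y _ _ hx hy => rw [map_add]; exact add_mem hx hy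
    | smul a x _ hx =>
      rw [Algebra.smul_def, map_mul]
      refine mul_mem ?_ hx
      have h1 : algebraMap F F' (algebraMap K⟮t⟯ F a) ∈ K'⟮t'⟯ :=
        algebraMap_mem_adjoin_of_mem_adjoin a.2
      exact IntermediateField.algebraMap_mem E (⟨_, h1⟩ : K'⟮t'⟯)
  have hK' : ∀ c : K', algebraMap K' F' c ∈ E := by
    intro c
    have h1 : algebraMap K' F' c ∈ K'⟮t'⟯ := IntermediateField.algebraMap_mem _ _
    exact IntermediateField.algebraMap_mem E (⟨_, h1⟩ : K'⟮t'⟯)
  have hμ : ∀ x : F ⊗[K] K', mulMapF K F K' F' x ∈ E := by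
    intro x
    induction x using TensorProduct.induction_on with
    | zero => rw [map_zero]; exact zero_mem _
    | tmul f c => rw [mulMapF_tmul]; exact mul_mem (hF f) (hK' c)
    | add x y hx hy => rw [map_add]; exact add_mem hx hy
  have htop : E = ⊤ := by
    rw [eq_top_iff]
    intro z _
    obtain ⟨x, y, hy, hxy⟩ := IsConstExt.gen (K := K) (F := F) (K' := K') z
    have hz : z = mulMapF K F K' F' x * (mulMapF K F K' F' y)⁻¹ := by
      rw [← hxy]; field_simp
    rw [hz]
    exact mul_mem (hμ x) (inv_mem (hμ y))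
  have hfin_top : FiniteDimensional K'⟮t'⟯ (⊤ : IntermediateField K'⟮t'⟯ F') := htop ▸ hEfin
  exact Module.Finite.equiv (IntermediateField.topEquiv (F := K'⟮t'⟯) (E := F')).toLinearEquiv

end Finite

end Fermat.Agent.S29.H871

end
end
-- ===== PACK-END S29/H871/FunctionField.lean

-- ===== PACK-BEGIN S29/H871/DivBC.lean
section


/-!
# S29 / E3, part 7: base change of divisors and of `Pic0`

(helper871)
-/

set_option autoImplicit false
set_option linter.unusedSectionVars false

noncomputable section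

namespace Fermat.Agent.S29.H871

open AlgebraicCurve TensorProduct IntermediateField

variable {K F K' F' : Type*} [Field K] [Field F] [Field K'] [Field F']
  [Algebra K F] [Algebra K' F'] [Algebra K K'] [Algebra F F'] [Algebra K F']
  [IsScalarTower K F F'] [IsScalarTower K K' F']
  [IsConstExt K F K' F'] [IsAlgClosed K] [CharZero K] [IsAlgClosed K']

variable (K' F') {t : F} (ht : Transcendental K t) [FiniteDimensional K⟮t⟯ F]

/-- Base change of a place of a function field over an algebraically closed field. -/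
def bcPlace (v : Place K F) : Place K' F' := placeBC K' F' (isRationalPlace_all ht v)

variable {K' F'}

theorem bcPlace_injective : Function.Injective (bcPlace K' F' ht) := fun _ _ h =>
  placeBC_injective _ _ h

theorem ord_bcPlace (v : Place K F) (f : F) :
    (bcPlace K' F' ht v).ord (algebraMap F F' f) = v.ord f :=
  ord_placeBC_algebraMap _ f

/-- A place of `F'` that is nontrivial on `F` is a base change. -/
theorem exists_bcPlace_eq (w : Place K' F') (hnt : ∃ f : F, rord w f ≠ 0) :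
    ∃ v : Place K F, bcPlace K' F' ht v = w :=
  ⟨restrictPlace (K := K) w hnt, placeBC_restrictPlace w hnt _⟩

theorem rord_eq_zero_of_notMem_range {w : Place K' F'} (hw : w ∉ Set.range (bcPlace K' F' ht))
    (f : F) : rord w f = 0 := by
  by_contra h
  exact hw (exists_bcPlace_eq ht w ⟨f, h⟩)

theorem deg_bcPlace (v : Place K F) : (bcPlace K' F' ht v).deg = v.deg := by
  have := finiteDimensional_adjoin_algebraMap (K := K) (K' := K') (F' := F') t
  rw [Fermat.Agent.S24.FF.deg_eq_one v ht,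
    Fermat.Agent.S24.FF.deg_eq_one _ (transcendental_algebraMap (K' := K') (F' := F') ht)]

variable (K' F')

/-- Base change of divisors. -/
def bcDiv : Divisor K F →+ Divisor K' F' :=
  Finsupp.mapDomain.addMonoidHom (bcPlace K' F' ht)

variable {K' F'}

@[simp]
theorem bcDiv_single (v : Place K F) (n : ℤ) :
    bcDiv K' F' ht (Finsupp.single v n) = Finsupp.single (bcPlace K' F' ht v) n := by
  simp [bcDiv]

theorem bcDiv_apply_bcPlace (D : Divisor K F) (v : Place K F) :
    bcDiv K' F' ht D (bcPlace K' F' ht v) = D v :=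
  Finsupp.mapDomain_apply (bcPlace_injective ht) D v

theorem bcDiv_apply_of_notMem_range (D : Divisor K F) {w : Place K' F'}
    (hw : w ∉ Set.range (bcPlace K' F' ht)) : bcDiv K' F' ht D w = 0 :=
  Finsupp.mapDomain_of_notMem_range D w hw

theorem bcDiv_injective : Function.Injective (bcDiv K' F' ht) :=
  Finsupp.mapDomain_injective (bcPlace_injective ht)

theorem degree_bcDiv (D : Divisor K F) :
    Divisor.degree (bcDiv K' F' ht D) = Divisor.degree D := by
  have h : (Divisor.degree (K := K') (F := F')).comp (bcDiv K' F' ht) = Divisor.degree := by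
    refine Finsupp.addHom_ext fun v n => ?_
    rw [AddMonoidHom.comp_apply, bcDiv_single, Divisor.degree_single, Divisor.degree_single,
      deg_bcPlace]
  exact DFunLike.congr_fun h D

/-- The base change of the divisor of `f ∈ F` is the divisor of `f` in `F'`. -/
theorem bcDiv_eq_ord {f : F} {D : Divisor K F} (hD : ∀ v : Place K F, D v = v.ord f)
    (w : Place K' F') : bcDiv K' F' ht D w = w.ord (algebraMap F F' f) := by
  by_cases hw : w ∈ Set.range (bcPlace K' F' ht)
  · obtain ⟨v, rfl⟩ := hw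
    rw [bcDiv_apply_bcPlace, hD, ord_bcPlace]
  · rw [bcDiv_apply_of_notMem_range ht D hw]
    exact (rord_eq_zero_of_notMem_range ht hw f).symm

theorem bcDiv_mem_principal {D : Divisor K F} (hD : D ∈ Divisor.principal (K := K) (F := F)) :
    bcDiv K' F' ht D ∈ Divisor.principal (K := K') (F := F') := by
  obtain ⟨f, hf, hDf⟩ := hD
  exact ⟨algebraMap F F' f, by simpa using hf, fun w => bcDiv_eq_ord ht hDf w⟩

variable (K' F')

/-- Base change of degree-zero divisors. -/
def bcDegZero : Divisor.degZero (K := K) (F := F) →+ Divisor.degZero (K := K') (F := F') :=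
  ((bcDiv K' F' ht).domRestrict (Divisor.degZero (K := K) (F := F))).codRestrict _
    fun D => by
      rw [Divisor.mem_degZero]
      show Divisor.degree (bcDiv K' F' ht (D : Divisor K F)) = 0
      rw [degree_bcDiv]
      exact D.2

/-- **Base change on `Pic0`** along a constant field extension. -/
def bcPic0 : Pic0 K F →+ Pic0 K' F' :=
  QuotientAddGroup.map _ _ (bcDegZero K' F' ht) (by
    rintro ⟨D, hD0⟩ hD
    simp only [AddSubgroup.mem_addSubgroupOf] at hD ⊢
    exact bcDiv_mem_principal ht hD)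

variable {K' F'}

@[simp]
theorem coe_bcDegZero (D : Divisor.degZero (K := K) (F := F)) :
    (bcDegZero K' F' ht D : Divisor K' F') = bcDiv K' F' ht (D : Divisor K F) := rfl

theorem bcPic0_mk (D : Divisor.degZero (K := K) (F := F)) :
    bcPic0 K' F' ht (Pic0.mk D) = Pic0.mk (bcDegZero K' F' ht D) := rfl

end Fermat.Agent.S29.H871

end
end
-- ===== PACK-END S29/H871/DivBC.lean

-- ===== PACK-BEGIN S29/H871/Inj.lean
section



/-!
# S29 / E3, part 8: injectivity of base change on `Pic0`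

`G` acts semilinearly on `F'/K'`, fixing `F` pointwise, with `F'^G = F`.  Then
`Pic0 K F → Pic0 K' F'` is injective.

(helper871)
-/

set_option autoImplicit false
set_option linter.unusedSectionVars false

noncomputable section

namespace Fermat.Agent.S29.H871

open AlgebraicCurve TensorProduct IntermediateField
open Fermat.Agent.S24.H117 (mem_iff_ord_nonneg ord_pow ord_add_eq_of_lt place_ext_of_le
  mem_of_ord_nonneg ord_nonneg_of_mem exists_ord_eq_one ord_div)

variable {K F K' F' : Type*} [Field K] [Field F] [Field K'] [Field F']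
  [Algebra K F] [Algebra K' F'] [Algebra K K'] [Algebra F F'] [Algebra K F']
  [IsScalarTower K F F'] [IsScalarTower K K' F']

variable (K F) in
/-- A group acting semilinearly on `F'/K'`, fixing `F` pointwise, with fixed field `F`, such that
the elements of `K'` with finite orbit lie in `K`. -/
structure IsDescentAction {G : Type*} [Group G] (θ : G →* SemilinearAut K' F') : Prop where
  fixes : ∀ (g : G) (f : F), θ g • algebraMap F F' f = algebraMap F F' f
  fixed : ∀ x : F', (∀ g : G, θ g • x = x) → x ∈ (algebraMap F F').range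
  finite_orbit : ∀ c : K', (Set.range fun g : G => SemilinearAut.baseAut (θ g) c).Finite →
    c ∈ (algebraMap K K').range

section Action

variable {G : Type*} [Group G] {θ : G →* SemilinearAut K' F'} (hθ : IsDescentAction K F θ)

theorem ord_smul_eq (g : SemilinearAut K' F') (w : Place K' F') (x : F') :
    w.ord (g • x) = (g⁻¹ • w).ord x := by
  have h := SemilinearAut.ord_smul g⁻¹ w (g • x)
  rw [inv_smul_smul] at h
  exact h.symm

theorem ord_smul_place (g : SemilinearAut K' F') (w : Place K' F') (x : F') :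
    (g • w).ord x = w.ord (g⁻¹ • x) := by
  rw [ord_smul_eq, inv_inv]

variable [IsConstExt K F K' F'] [IsAlgClosed K] [CharZero K] [IsAlgClosed K']
variable {t : F} (ht : Transcendental K t) [FiniteDimensional K⟮t⟯ F]

include hθ in
theorem ord_smul_algebraMap (g : G) (w : Place K' F') (f : F) :
    (θ g • w).ord (algebraMap F F' f) = w.ord (algebraMap F F' f) := by
  have h := SemilinearAut.ord_smul (θ g) w (algebraMap F F' f)
  rwa [hθ.fixes] at h

include hθ in
/-- Base-changed places are fixed by the descent action. -/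
theorem smul_bcPlace (g : G) (v : Place K F) :
    θ g • bcPlace K' F' ht v = bcPlace K' F' ht v := by
  obtain ⟨π, hπ⟩ := IsDiscreteValuationRing.exists_irreducible v.toValuationSubring
  refine (placeBC_eq_of_le (isRationalPlace_all ht v) (θ g • bcPlace K' F' ht v) ?_ hπ ?_).symm
  · intro f hf
    rw [ord_smul_algebraMap hθ, ord_bcPlace]
    exact ord_nonneg_of_mem v hf
  · rw [ord_smul_algebraMap hθ, ord_bcPlace, v.ord_coe_irreducible hπ]
    exact one_pos

include hθ in
theorem smul_bcDiv (g : G) (D : Divisor K F) :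
    θ g • bcDiv K' F' ht D = bcDiv K' F' ht D := by
  induction D using Finsupp.induction with
  | zero => simp
  | single_add v n D _ _ ih =>
    rw [map_add, smul_add, ih, bcDiv_single, SemilinearAut.smul_single, smul_bcPlace hθ]

end Action

section Const

variable [IsAlgClosed K'] [CharZero K']

/-- An element of `F'` all of whose orders vanish is a nonzero constant. -/
theorem exists_const_of_forall_ord_eq_zero {t' : F'} (ht' : Transcendental K' t')
    [FiniteDimensional K'⟮t'⟯ F'] {x : F'} (hx0 : x ≠ 0) (hx : ∀ w : Place K' F', w.ord x = 0) :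
    ∃ c : K', c ≠ 0 ∧ x = algebraMap K' F' c := by
  obtain ⟨c, hc⟩ := mem_range_of_forall_ord_le (K := K') ht' (fun w => (hx w).le)
  refine ⟨c, ?_, hc.symm⟩
  rintro rfl
  rw [map_zero] at hc
  exact hx0 hc.symm

end Const

section InMax

variable (P : Place K' F')

/-- `a` lies in the maximal ideal of `P`. -/
def InMax (a : F') : Prop := a = 0 ∨ 0 < P.ord a

variable {P}

theorem InMax.add {a b : F'} (ha : InMax P a) (hb : InMax P b) : InMax P (a + b) := by
  have ha' : a = 0 ∨ (0 + 1 : ℤ) ≤ P.ord a := ha.imp id (fun h => by omega)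
  have hb' : b = 0 ∨ (0 + 1 : ℤ) ≤ P.ord b := hb.imp id (fun h => by omega)
  exact (Fermat.Agent.S24.le_ord_add P ha' hb').imp id (fun h => by omega)

theorem InMax.neg {a : F'} (ha : InMax P a) : InMax P (-a) := by
  rcases ha with h | h
  · left; rw [h, neg_zero]
  · right; rwa [Fermat.Agent.S24.ord_neg]

theorem InMax.sub {a b : F'} (ha : InMax P a) (hb : InMax P b) : InMax P (a - b) := by
  rw [sub_eq_add_neg]
  exact ha.add hb.neg

theorem InMax.const_mul {a : F'} (c : K') (ha : InMax P a) : InMax P (algebraMap K' F' c * a) := by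
  rcases ha with h | h
  · left; rw [h, mul_zero]
  · by_cases hc : c = 0
    · left; rw [hc, map_zero, zero_mul]
    · right
      have hcF : algebraMap K' F' c ≠ 0 := by simpa using hc
      have ha0 : a ≠ 0 := by
        rintro rfl
        rw [P.ord_zero] at h
        exact lt_irrefl _ h
      rw [P.ord_mul hcF ha0, Fermat.Agent.S24.FF.ord_algebraMap, zero_add]
      exact h

theorem InMax.const_eq_zero {c : K'} (h : InMax P (algebraMap K' F' c)) : c = 0 := by
  rcases h with h | h
  · exact (algebraMap K' F').injective (by rw [h, map_zero])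
  · rw [Fermat.Agent.S24.FF.ord_algebraMap] at h
    exact absurd h (lt_irrefl _)

theorem inMax_of_mem_nonunits {a : F'} (h : a ∈ P.toValuationSubring.nonunits) : InMax P a := by
  by_cases ha : a = 0
  · exact Or.inl ha
  · exact Or.inr ((Fermat.Agent.S24.FF.ord_pos_iff_mem_nonunits P ha).mpr h)

theorem InMax.smul {a : F'} (g : SemilinearAut K' F') (hg : g⁻¹ • P = P) (ha : InMax P a) :
    InMax P (g • a) := by
  rcases ha with h | h
  · left; rw [h, smul_zero]
  · right; rw [ord_smul_eq, hg]; exact h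

end InMax

section Inj

variable {G : Type*} [Group G] {θ : G →* SemilinearAut K' F'} (hθ : IsDescentAction K F θ)
variable [IsConstExt K F K' F'] [IsAlgClosed K] [CharZero K] [IsAlgClosed K'] [CharZero K']
variable {t : F} (ht : Transcendental K t) [FiniteDimensional K⟮t⟯ F]

include hθ in
/-- **Rigidity**: an element of `F'` whose divisor is `G`-invariant and which takes the value `1`
at a base-changed place is `G`-invariant. -/
theorem smul_eq_self_of_ord_invariant {z : F'} (hz0 : z ≠ 0)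
    (hz : ∀ (g : G) (w : Place K' F'), w.ord (θ g • z) = w.ord z)
    (v₀ : Place K F) (h1 : InMax (bcPlace K' F' ht v₀) (z - 1)) (g : G) : θ g • z = z := by
  have hfd := finiteDimensional_adjoin_algebraMap (K := K) (K' := K') (F' := F') t
  have ht' := transcendental_algebraMap (K' := K') (F' := F') ht
  set P := bcPlace K' F' ht v₀ with hP
  have hgz0 : θ g • z ≠ 0 := by
    rw [SemilinearAut.smul_def]
    simpa using hz0
  have hq : ∀ w : Place K' F', w.ord (θ g • z / z) = 0 := by
    intro w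
    rw [ord_div w hgz0 hz0, hz]
    ring
  obtain ⟨d, hd0, hd⟩ := exists_const_of_forall_ord_eq_zero ht' (div_ne_zero hgz0 hz0) hq
  have hgz : θ g • z = algebraMap K' F' d * z := by
    rw [← hd]; field_simp
  have hgP : (θ g)⁻¹ • P = P := by
    rw [hP, ← map_inv, smul_bcPlace hθ]
  have h2 : InMax P (θ g • z - 1) := by
    have := h1.smul (θ g) hgP
    rwa [smul_sub, smul_one] at this
  have h3 : InMax P (algebraMap K' F' d * (z - 1)) := h1.const_mul d
  have h4 : InMax P (algebraMap K' F' (d - 1)) := by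
    have := h2.sub h3
    rw [hgz] at this
    have heq : algebraMap K' F' d * z - 1 - algebraMap K' F' d * (z - 1)
        = algebraMap K' F' (d - 1) := by
      rw [map_sub, map_one]; ring
    rwa [heq] at this
  have hd1 : d = 1 := sub_eq_zero.mp h4.const_eq_zero
  rw [hgz, hd1, map_one, one_mul]

include hθ in
/-- If the base change of `D` is the divisor of `x ∈ F'`, then `x` is a constant multiple of an
element of `F`. -/
theorem exists_algebraMap_of_bcDiv_eq {D : Divisor K F} {x : F'} (hx0 : x ≠ 0)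
    (hx : ∀ w : Place K' F', bcDiv K' F' ht D w = w.ord x) :
    ∃ (c : K') (f : F), c ≠ 0 ∧ f ≠ 0 ∧ x = algebraMap K' F' c * algebraMap F F' f := by
  have hfd := finiteDimensional_adjoin_algebraMap (K := K) (K' := K') (F' := F') t
  have ht' := transcendental_algebraMap (K' := K') (F' := F') ht
  -- a base place and a uniformizer
  obtain ⟨v₀, _⟩ := exists_ord_pos (K := K) ht
  obtain ⟨π, hπ0, hπ⟩ := exists_ord_eq_one v₀
  set P := bcPlace K' F' ht v₀ with hP
  have hPπ : P.ord (algebraMap F F' π) = 1 := by rw [hP, ord_bcPlace, hπ]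
  set n := P.ord x with hn
  have hpn0 : π ^ (-n) ≠ 0 := zpow_ne_zero _ hπ0
  have hpn0' : algebraMap F F' (π ^ (-n)) ≠ 0 := fun h =>
    hpn0 ((algebraMap F F').injective (by rw [h, map_zero]))
  set y := x * algebraMap F F' (π ^ (-n)) with hy
  have hy0 : y ≠ 0 := mul_ne_zero hx0 hpn0'
  have hyord : P.ord y = 0 := by
    rw [hy, P.ord_mul hx0 hpn0', hP, ord_bcPlace, v₀.ord_zpow, hπ, ← hP]
    omega
  -- the value of `y` at `P`
  have hPrat : IsRationalPlace P := isRationalPlace_of_isAlgClosed P ht'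
  obtain ⟨c, hc⟩ := hPrat y (mem_of_ord_nonneg P hyord.ge)
  have hyc : InMax P (y - algebraMap K' F' c) := inMax_of_mem_nonunits hc
  have hc0 : c ≠ 0 := by
    rintro rfl
    rw [map_zero, sub_zero] at hyc
    rcases hyc with h | h
    · exact hy0 h
    · omega
  have hcF : algebraMap K' F' c⁻¹ ≠ 0 := by simpa using hc0
  set z := algebraMap K' F' c⁻¹ * y with hz
  have hz0 : z ≠ 0 := mul_ne_zero hcF hy0
  have hz1 : InMax P (z - 1) := by
    have := hyc.const_mul c⁻¹
    have heq : algebraMap K' F' c⁻¹ * (y - algebraMap K' F' c) = z - 1 := by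
      rw [hz, mul_sub, ← map_mul, inv_mul_cancel₀ hc0, map_one]
    rwa [heq] at this
  have hzord : ∀ (g : G) (w : Place K' F'), w.ord (θ g • z) = w.ord z := by
    intro g w
    rw [ord_smul_eq, hz, hy]
    rw [((θ g)⁻¹ • w).ord_mul hcF hy0, w.ord_mul hcF hy0,
      ((θ g)⁻¹ • w).ord_mul hx0 hpn0', w.ord_mul hx0 hpn0',
      Fermat.Agent.S24.FF.ord_algebraMap, Fermat.Agent.S24.FF.ord_algebraMap,
      ← map_inv, ord_smul_algebraMap hθ, ← hx, ← hx]
    have h1 : bcDiv K' F' ht D (θ g⁻¹ • w) = bcDiv K' F' ht D w := by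
      have h := congrArg (fun E : Divisor K' F' => E w) (smul_bcDiv hθ ht g D)
      simp only [SemilinearAut.divisor_smul_apply] at h
      rwa [← map_inv] at h
    rw [h1]
  have hfix : ∀ g : G, θ g • z = z := smul_eq_self_of_ord_invariant hθ ht hz0 hzord v₀ hz1
  obtain ⟨f₀, hf₀⟩ := hθ.fixed z hfix
  have hf₀0 : f₀ ≠ 0 := by
    rintro rfl
    rw [map_zero] at hf₀
    exact hz0 hf₀.symm
  refine ⟨c, f₀ * π ^ n, hc0, mul_ne_zero hf₀0 (zpow_ne_zero _ hπ0), ?_⟩
  have hcF' : algebraMap K' F' c ≠ 0 := by simpa using hc0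
  have hπ' : algebraMap F F' π ≠ 0 := by simpa using hπ0
  rw [map_mul, hf₀, hz, hy, map_zpow₀, map_zpow₀, map_inv₀]
  field_simp
  rw [zpow_neg]
  field_simp

include hθ in
/-- **Descent of principality**: if the base change of `D` is principal, so is `D`. -/
theorem mem_principal_of_bcDiv_mem_principal {D : Divisor K F}
    (hD : bcDiv K' F' ht D ∈ Divisor.principal (K := K') (F := F')) :
    D ∈ Divisor.principal (K := K) (F := F) := by
  obtain ⟨x, hx0, hx⟩ := hD
  obtain ⟨c, f, hc0, hf0, hxf⟩ := exists_algebraMap_of_bcDiv_eq hθ ht hx0 hx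
  refine ⟨f, hf0, fun v => ?_⟩
  have hcF : algebraMap K' F' c ≠ 0 := by simpa using hc0
  have hfF : algebraMap F F' f ≠ 0 := by simpa using hf0
  rw [← bcDiv_apply_bcPlace (K' := K') (F' := F') ht D v, hx, hxf,
    (bcPlace K' F' ht v).ord_mul hcF hfF, Fermat.Agent.S24.FF.ord_algebraMap, zero_add,
    ord_bcPlace]

include hθ in
/-- **E3 (a)**: base change is injective on `Pic0`. -/
theorem bcPic0_injective : Function.Injective (bcPic0 K' F' ht) := by
  rw [injective_iff_map_eq_zero]
  intro x hx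
  obtain ⟨D, rfl⟩ := Pic0.mk_surjective x
  rw [bcPic0_mk] at hx
  have h1 : bcDegZero K' F' ht D ∈ (Divisor.principal (K := K') (F := F')).addSubgroupOf
      (Divisor.degZero (K := K') (F := F')) := (QuotientAddGroup.eq_zero_iff _).mp hx
  rw [AddSubgroup.mem_addSubgroupOf, coe_bcDegZero] at h1
  have h2 := mem_principal_of_bcDiv_mem_principal hθ ht h1
  exact (QuotientAddGroup.eq_zero_iff _).mpr (AddSubgroup.mem_addSubgroupOf.mpr h2)

end Inj

end Fermat.Agent.S29.H871

end
end
-- ===== PACK-END S29/H871/Inj.lean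

-- ===== PACK-BEGIN S37/H697/Final.lean
section




/-!
# S37 (helper697): the frozen statement S37 from THREE named inputs (route B)

With `HeckeInputsAlong` (helper398, `Lib/FF398`), the Riemann bound (helper98) and `deg = 1`
on `main`, the bounded-homomorphism route reduces S37 to

* `hRed : ReductionInputsModL A N`   — existence of a place reduction with conservation
  `r_* div y = div ȳ` (Prelude `IsPlaceReductionAlong`) and `PrincipalGeneratedByIntegral`;
* `hS18 : Core.InjTorsionModL N ℓ A` — the conclusion of the frozen statement S18;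
* `hK   : KroneckerNorm A (residue A) N ℓ φ` for the Frobenius `φ` of the residue field —
  the norm of `y(q^ℓ)` along `α` is integral with reduction `(Φ⁻¹ ȳ)^ℓ · Φ ȳ`.

No pointwise statement about the reduction of places (`inertia`, `es` of `Core.PlaceRed`,
value compatibility, separation) is needed.
-/

set_option autoImplicit false
set_option synthInstance.maxHeartbeats 400000
set_option maxHeartbeats 1600000

noncomputable section

open HahnSeries IntermediateField AlgebraicCurve ModularCurve ValuationSubring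

namespace Fermat.Agent.S37.H697

/-- The Riemann bound for `ℚ̄(X₀(N))` (helper98). -/
theorem riemannBound_modular (N : ℕ) [NeZero N] :
    RiemannBound (AlgebraicClosure ℚ) (modularFunctionFieldBar N) :=
  H98.riemannBound_modularFunctionFieldBar N

/-- **`Core.WeakRedData` from a place reduction, S18 and the Kronecker congruence.** -/
def weakRedData_of_kronecker (N : ℕ) [NeZero N] (A : ValuationSubring (AlgebraicClosure ℚ))
    (ℓ : ℕ) [NeZero ℓ]
    (h : ReductionInputsModL A N)
    (hinj : Core.InjTorsionModL N ℓ A)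
    (hK : ∀ φ : IsLocalRing.ResidueField A ≃+* IsLocalRing.ResidueField A, (∀ x, φ x = x ^ ℓ) →
        KroneckerNorm A (IsLocalRing.residue A) N ℓ φ)
    (σ₀ : AlgebraicClosure ℚ ≃ₐ[ℚ] AlgebraicClosure ℚ) (hσ₀ : A.IsFrobeniusAt σ₀ ℓ) :
    Core.WeakRedData N A ℓ σ₀ :=
  weakRedData_of N A ℓ h hinj (riemannBound_modular N)
    (fun P => Fermat.Agent.Lib.FF398.deg_eq_one_FF N P)
    (Fermat.Agent.Lib.FF398.heckeInputsAlong N ℓ) hK σ₀ hσ₀

/-- **The frozen statement S37 from a place reduction, S18 and the Kronecker congruence.** -/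
theorem result_of_kronecker (N p : ℕ) [NeZero N]
    (hRed : ∀ ℓ : ℕ, ℓ.Prime → ¬ ℓ ∣ N →
      ∀ A : ValuationSubring (AlgebraicClosure ℚ), A.LiesOverPrime ℓ → ReductionInputsModL A N)
    (hS18 : ∀ ℓ : ℕ, ℓ.Prime → ¬ ℓ ∣ N →
      ∀ A : ValuationSubring (AlgebraicClosure ℚ), A.LiesOverPrime ℓ → Core.InjTorsionModL N ℓ A)
    (hK : ∀ (ℓ : ℕ) (hℓ : ℓ.Prime), ¬ ℓ ∣ N →
      ∀ A : ValuationSubring (AlgebraicClosure ℚ), A.LiesOverPrime ℓ →
        haveI : NeZero ℓ := ⟨hℓ.ne_zero⟩
        ∀ φ : IsLocalRing.ResidueField A ≃+* IsLocalRing.ResidueField A, (∀ x, φ x = x ^ ℓ) →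
          KroneckerNorm A (IsLocalRing.residue A) N ℓ φ)
    (hcomm : ModularCurve.HeckeOperatorsCommuteBar N) :
    letI := ModularCurve.heckeModuleBar N
    ∀ (_ : SMulCommClass (AlgebraicClosure ℚ ≃ₐ[ℚ] AlgebraicClosure ℚ) ModularCurve.HeckeAlg
      (ModularCurve.JZero N)),
      ModularCurve.SpecializationExists (K := ℚ) (L := AlgebraicClosure ℚ) N p
        (ModularCurve.JZero N) :=
  H99.result_of_redData N p
    (fun ℓ hℓ hℓN A hA =>
      haveI : NeZero ℓ := ⟨hℓ.ne_zero⟩
      redData_of N A ℓ hℓ (hRed ℓ hℓ hℓN A hA) (hS18 ℓ hℓ hℓN A hA) (riemannBound_modular N)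
        (fun P => Fermat.Agent.Lib.FF398.deg_eq_one_FF N P)
        (Fermat.Agent.Lib.FF398.heckeInputsAlong N ℓ) (hK ℓ hℓ hℓN A hA))
    hcomm

end Fermat.Agent.S37.H697

end
end
-- ===== PACK-END S37/H697/Final.lean

-- ===== PACK-BEGIN S17/H17/Assembly.lean
section




/-!
# S17 (row-lead helper17): the frozen statement S17 from NAMED INPUTS (sorry-free)

`result_of` proves the frozen statement S17 (Mordell–Weil for `J₀(N)`) from

* `hRed  : GoodReductionOutside N S₀`  — `ReductionInputsModL A N` for all `A ∣ ℓ`, `ℓ ∉ S₀`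
  (S37 row, `node_rim`);
* `hS18  : InjTorsionOutside N S₀`     — the conclusion of the frozen statement S18 at those `ℓ`;
* `hTors : Finite (J₀(N)[n])`, `hDiv : J₀(N)(ℚ̄) = n J₀(N)(ℚ̄)`   (tower G);
* `hHM`   — Hermite–Minkowski (piece W-HM);
* `hH    : HasDescentHeight N n`       — a descent height (tower H).

Proved here: W-UNR (`unramified_division_of`: division points of rational points are unramified
outside `S₀ ∪ {ℓ ∣ n}`), the descent step and the wiring.  Landed pieces used:
BASE-1 (`H77.stabilizer_open`), W-KUM (`H857.weakMW_of`), `S37.H697.reductionModL_inertia`.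
-/

set_option autoImplicit false
set_option synthInstance.maxHeartbeats 400000

noncomputable section

namespace Fermat.Agent.S17.H17

open ModularCurve AlgebraicCurve

/-- `ℚ̄` -/
abbrev Qb : Type := AlgebraicClosure ℚ

/-- the absolute Galois group of `ℚ` -/
abbrev GQ : Type := Qb ≃ₐ[ℚ] Qb

/-- The Mordell–Weil group `J₀(N)(ℚ)`. -/
abbrev MW (N : ℕ) : AddSubgroup (JZero N) := FixedPoints.addSubgroup GQ (JZero N)

/-- weak Mordell–Weil for the exponent `n` -/
def WeakMW (N n : ℕ) : Prop := (nsmulAddMonoidHom n : MW N →+ MW N).range.FiniteIndex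

/-- a descent height for the exponent `n` on the Mordell–Weil group -/
def HasDescentHeight (N n : ℕ) : Prop :=
  ∃ (h : MW N → ℝ) (a b c₀ : ℝ) (c : MW N → ℝ), 0 ≤ a ∧ a < b ∧
    (∀ B : ℝ, {x : MW N | h x ≤ B}.Finite) ∧
    (∀ g x : MW N, h x ≤ a * h (g + x) + c g) ∧
    (∀ x : MW N, b * h x - c₀ ≤ h (n • x))

/-- good reduction of `X₀(N)` (existence of a place reduction) at all primes outside `S₀` -/
def GoodReductionOutside (N : ℕ) (S₀ : Finset ℕ) : Prop :=
  ∀ ℓ : ℕ, ℓ.Prime → ℓ ∉ S₀ → ∀ A : ValuationSubring Qb, A.LiesOverPrime ℓ →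
    ReductionInputsModL A N

/-- the conclusion of the frozen statement S18 at all primes outside `S₀` -/
def InjTorsionOutside (N : ℕ) (S₀ : Finset ℕ) : Prop :=
  ∀ ℓ : ℕ, ℓ.Prime → ℓ ∉ S₀ → ∀ A : ValuationSubring Qb, A.LiesOverPrime ℓ →
    ReductionInputsModL A N → ∀ m : ℕ, ¬ ℓ ∣ m → ∀ z : JZero N, m • z = 0 →
      reductionModL A N z = 0 → z = 0

/-- Hermite–Minkowski for the finite set `S` of primes (piece W-HM). -/
def HermiteMinkowski (S : Finset ℕ) : Prop :=
  ∀ d : ℕ, {K : IntermediateField ℚ Qb | FiniteDimensional ℚ K ∧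
    Module.finrank ℚ K ≤ d ∧ ∀ ℓ : ℕ, ℓ.Prime → ℓ ∉ S →
      ∀ A : ValuationSubring Qb, A.LiesOverPrime ℓ → ∀ σ ∈ A.inertiaSubgroupIn ℚ,
        ∀ a ∈ K, σ a = a}.Finite

/-- TOP: descent (Mathlib `AddCommGroup.fg_of_descent`). -/
theorem fg_of_weakMW_of_height (N n : ℕ) (hW : WeakMW N n) (hH : HasDescentHeight N n) :
    AddGroup.FG (MW N) := by
  obtain ⟨h, a, b, c₀, c, ha, hab, hfin, h2, h3⟩ := hH
  have : Northcott h := ⟨hfin⟩
  exact AddCommGroup.fg_of_descent ha hab hW h2 h3

/-- W-UNR: division points of rational points are unramified at `ℓ ∉ S₀`, `ℓ ∤ n`. -/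
theorem unramified_division_of (N : ℕ) [NeZero N] (S₀ : Finset ℕ)
    (hRed : GoodReductionOutside N S₀) (hS18 : InjTorsionOutside N S₀)
    (n : ℕ) (ℓ : ℕ) (hℓ : ℓ.Prime) (hℓS : ℓ ∉ S₀) (hℓn : ¬ ℓ ∣ n)
    (A : ValuationSubring Qb) (hA : A.LiesOverPrime ℓ) (σ : GQ) (hσ : σ ∈ A.inertiaSubgroupIn ℚ)
    (y : JZero N) (hy : n • y ∈ MW N) : σ • y = y := by
  have h := hRed ℓ hℓ hℓS A hA
  have hz : σ • y - y = 0 := by
    refine hS18 ℓ hℓ hℓS A hA h n hℓn (σ • y - y) ?_ ?_
    · have hfix : σ • (n • y) = n • y := hy σ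
      have hcomm : n • (σ • y) = σ • (n • y) :=
        (map_nsmul (DistribSMul.toAddMonoidHom (JZero N) σ) n y).symm
      rw [nsmul_sub, hcomm, hfix, sub_self]
    · rw [map_sub, Fermat.Agent.S37.H697.reductionModL_inertia N A h
        (Fermat.Agent.S37.H697.riemannBound_modular N) σ hσ y, sub_self]
  exact sub_eq_zero.mp hz

/-- unramifiedness of the `n`-division points of rational points outside the finite set `S`
(the conclusion of piece W-UNR, in the shape consumed by W-KUM) -/
def UnramifiedDivisionOutside (N : ℕ) (n : ℕ) (S : Finset ℕ) : Prop :=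
  ∀ ℓ : ℕ, ℓ.Prime → ℓ ∉ S → ∀ A : ValuationSubring Qb, A.LiesOverPrime ℓ →
    ∀ σ ∈ A.inertiaSubgroupIn ℚ, ∀ y : JZero N,
      n • y ∈ FixedPoints.addSubgroup GQ (JZero N) → σ • y = y

/-- W-UNR in the shape `UnramifiedDivisionOutside`, from good reduction and S18. -/
theorem unramifiedDivisionOutside_of (N : ℕ) [NeZero N] (S₀ : Finset ℕ)
    (hRed : GoodReductionOutside N S₀) (hS18 : InjTorsionOutside N S₀) (n : ℕ) (hn : n ≠ 0) :
    UnramifiedDivisionOutside N n (S₀ ∪ n.primeFactors) := by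
  classical
  intro ℓ hℓ hℓS A hA σ hσ y hy
  rw [Finset.mem_union, not_or] at hℓS
  refine unramified_division_of N S₀ hRed hS18 n ℓ hℓ hℓS.1 ?_ A hA σ hσ y hy
  intro hdvd
  exact hℓS.2 (Nat.mem_primeFactors.mpr ⟨hℓ, hdvd, hn⟩)

/-- weak Mordell–Weil from: finite `n`-torsion, `n`-divisibility, unramified division points
outside `S`, Hermite–Minkowski for `S`.  (BASE-1 and W-KUM are on main.) -/
theorem weakMW_of_inputs (N : ℕ) [NeZero N] (n : ℕ) (hn : n ≠ 0)
    (hTors : Finite (Pic0.torsion Qb (modularFunctionFieldBar N) n))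
    (hDiv : ∀ x : JZero N, ∃ y : JZero N, n • y = x)
    (S : Finset ℕ) (hUnr : UnramifiedDivisionOutside N n S) (hHM : HermiteMinkowski S) :
    WeakMW N n :=
  Fermat.Agent.S17.H857.weakMW_of N n hn (Fermat.Agent.S17.H77.stabilizer_open N) hTors hDiv
    S hUnr hHM

/-- **The frozen statement S17 from named inputs** (abstract unramifiedness hypothesis). -/
theorem result_of_unr (N : ℕ) [NeZero N] (n : ℕ) (hn : 2 ≤ n)
    (hTors : Finite (Pic0.torsion Qb (modularFunctionFieldBar N) n))
    (hDiv : ∀ x : JZero N, ∃ y : JZero N, n • y = x)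
    (S : Finset ℕ) (hUnr : UnramifiedDivisionOutside N n S) (hHM : HermiteMinkowski S)
    (hH : HasDescentHeight N n) :
    AddGroup.FG ↥(FixedPoints.addSubgroup ((AlgebraicClosure ℚ) ≃ₐ[ℚ] (AlgebraicClosure ℚ))
      (JZero N)) :=
  fg_of_weakMW_of_height N n (weakMW_of_inputs N n (by omega) hTors hDiv S hUnr hHM) hH

/-- **The frozen statement S17 from named inputs** (good reduction + S18 form). -/
theorem result_of (N : ℕ) [NeZero N] (S₀ : Finset ℕ)
    (hRed : GoodReductionOutside N S₀) (hS18 : InjTorsionOutside N S₀)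
    (n : ℕ) (hn : 2 ≤ n)
    (hTors : Finite (Pic0.torsion Qb (modularFunctionFieldBar N) n))
    (hDiv : ∀ x : JZero N, ∃ y : JZero N, n • y = x)
    (hHM : HermiteMinkowski (S₀ ∪ n.primeFactors))
    (hH : HasDescentHeight N n) :
    AddGroup.FG ↥(FixedPoints.addSubgroup ((AlgebraicClosure ℚ) ≃ₐ[ℚ] (AlgebraicClosure ℚ))
      (JZero N)) :=
  result_of_unr N n hn hTors hDiv _
    (unramifiedDivisionOutside_of N S₀ hRed hS18 n (by omega)) hHM hH

/-- A descent height for `n = 2` from a nonnegative Northcott function with the approximate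
parallelogram law (the output shape of tower H). -/
theorem hasDescentHeight_two_of_parallelogram (N : ℕ) (h : MW N → ℝ) (C : ℝ)
    (h0 : ∀ x, 0 ≤ h x)
    (hpar : ∀ x y : MW N, |h (x + y) + h (x - y) - 2 * (h x + h y)| ≤ C)
    (hfin : ∀ B : ℝ, {x : MW N | h x ≤ B}.Finite) :
    HasDescentHeight N 2 := by
  refine ⟨h, 2, 4, h 0 + C, fun g => 2 * h (-g) + C, by norm_num, by norm_num, hfin, ?_, ?_⟩
  · intro g x
    have := hpar (g + x) (-g)
    have e1 : g + x + -g = x := by abel
    have e2 : g + x - -g = g + x + g := by abel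
    rw [e1, e2, abs_le] at this
    have := h0 (g + x + g)
    linarith [this]
  · intro x
    have := hpar x x
    rw [sub_self, abs_le] at this
    have e : (2 : ℕ) • x = x + x := two_nsmul x
    rw [e]
    linarith [this.1]

end Fermat.Agent.S17.H17

end
end
-- ===== PACK-END S17/H17/Assembly.lean

-- ===== PACK-BEGIN S17/H680/Rational.lean
section



/-!
# S17 / BASE-2 (helper680): rational structures for `J₀(N)`

* `JZero.isInvariant_nsmul_cusp` : `k · ∞` is a Galois-invariant divisor;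
* `JZero.isInvariant_minRep`     : the minimal representative of a rational class is invariant;
* `JZero.exists_fixed_basis_cusp`: `L(k ∞)` has a basis of Galois-fixed functions;
* `JZero.exists_rational_coordinate` : a Galois-fixed non-constant function with poles only at `∞`.
-/

set_option autoImplicit false

noncomputable section

open AlgebraicCurve ModularCurve

namespace Fermat.Agent.S17.H680

open Fermat.Agent.Lib.RR Fermat.Agent.S17.H77

variable (N : ℕ) [NeZero N]

theorem JZero.isInvariant_nsmul_cusp (k : ℕ) :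
    IsInvariant (modularFunctionFieldFull N) (k • prim (JZero.cusp N)) := by
  intro σ
  rw [smul_comm, smul_prim, JZero.galois_smul_cusp]

theorem JZero.isInvariant_minRep {x : JZero N}
    (hx : x ∈ FixedPoints.addSubgroup (AlgebraicClosure ℚ ≃ₐ[ℚ] AlgebraicClosure ℚ) (JZero N)) :
    IsInvariant (modularFunctionFieldFull N) (minRep (JZero.cusp N) x) :=
  fun σ => JZero.galois_smul_minRep N hx σ

/-- `L(k ∞)` has a basis of Galois-fixed functions (a `ℚ`-structure). -/
theorem JZero.exists_fixed_basis_cusp (k : ℕ) :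
    ∃ b : Fin (ell (k • prim (JZero.cusp N))) → modularFunctionFieldBar N,
      (∀ i, b i ∈ riemannRochSpace (k • prim (JZero.cusp N))) ∧
      (∀ i, IsFixed (modularFunctionFieldFull N) (b i)) ∧
      LinearIndependent (AlgebraicClosure ℚ) b ∧
      Submodule.span (AlgebraicClosure ℚ) (Set.range b)
        = riemannRochSpace (k • prim (JZero.cusp N)) ∧
      Submodule.span ℚ (Set.range b)
        = fixedPart (modularFunctionFieldFull N) (riemannRochSpace (k • prim (JZero.cusp N))) :=
  exists_fixed_basis_L _ (JZero.isInvariant_nsmul_cusp N k)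

theorem JZero.two_le_ell_cusp :
    2 ≤ ell ((genusR (AlgebraicClosure ℚ) (modularFunctionFieldBar N) + 1) •
      prim (JZero.cusp N)) := by
  have h := riemann_inequality
    ((genusR (AlgebraicClosure ℚ) (modularFunctionFieldBar N) + 1) • prim (JZero.cusp N))
  rw [map_nsmul, degree_prim _ (deg_eq_one _), nsmul_eq_mul, mul_one] at h
  have : (2 : ℤ) ≤ ell ((genusR (AlgebraicClosure ℚ) (modularFunctionFieldBar N) + 1) •
      prim (JZero.cusp N)) := by
    push_cast at h
    linarith
  exact_mod_cast this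

/-- A Galois-fixed (i.e. rational) non-constant function whose only pole is the cusp `∞`, of
pole order at most `g + 1`. -/
theorem JZero.exists_rational_coordinate :
    ∃ t : modularFunctionFieldBar N,
      t ∈ riemannRochSpace ((genusR (AlgebraicClosure ℚ) (modularFunctionFieldBar N) + 1) •
        prim (JZero.cusp N)) ∧
      IsFixed (modularFunctionFieldFull N) t ∧
      t ∉ Set.range (algebraMap (AlgebraicClosure ℚ) (modularFunctionFieldBar N)) :=
  exists_fixed_nonconstant _ (JZero.isInvariant_nsmul_cusp N _) (JZero.two_le_ell_cusp N)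

end Fermat.Agent.S17.H680

end
end
-- ===== PACK-END S17/H680/Rational.lean

-- ===== PACK-BEGIN S17/H736/TopData.lean
section





/-!
# S17 / tower H, leaf T-DATA (helper736): the concrete data of the pairing package of `J₀(N)`

For `F = ℚ̄(X₀(N))`, `∞ = JZero.cusp N` and a `TopInput N`

* `E₁` : the embedding used for POINTS and DISTANCES, `E₂` : the embedding used for FORMS
  (both at `∞`; the basis of `E₂` is Galois-fixed and contains the constant function `1`);
* `Rt ≥ 0` : a Galois-invariant effective divisor avoiding `∞` (the finite ramification divisor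
  of the rational coordinate `t`);
* `d` and the numerical conditions `1 ≤ g`, `2g ≤ d`, `4d + 2g ≤ m = E₂.m`;

this file fixes the DATA of `H500.PairingPackage (MW N)`:

| package | here | definition |
|---|---|---|
| `Dv`   | `Dv N = ↥(effInv N)` | effective Galois-invariant divisors (an `AddSubmonoid`) |
| `deg`  | `degHom N`  | `(Divisor.degree D).toNat` |
| `cls`  | `clsHom N`  | `[D - deg D • ∞] ∈ J₀(N)(ℚ)` |
| `Disj` | `Disj N`    | `∀ P, D P = 0 ∨ E P = 0` |
| `Good` | `T.Good`    | reduced, disjoint from `∞` and from `Rt` |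
| `N`    | `T.NN`      | `HContract.naive E₂` |
| `pr`   | `T.pr`      | `HContract.pair E₁` |
| `δ`    | `T.del`     | `(1/2) Σ_{P ≠ Q} D(P) D(Q) hD E₁ P Q` |
| `K`    | `T.KK`      | `Σ_P D(P) kap E₁ P` |
| `Pl`   | `T.Pl`      | `ht (plucker (E₂.pt ∘ enum D))`, `enum D = D.support.equivFin.symm` |
| `Lin`  | `T.Lin`     | nonzero vectors `a : Fin (E₂.r + 1) → ℚ` |
| `ht`   | `T.htL`     | `HContract.ht (castQ a)` |
| `Z`    | `T.ZL`      | `E₂.Z (castQ a)` |
| `inf`  | `infD N`    | `prim ∞` |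
| `one`  | `T.oneL`    | `Pi.single i₀ 1` (`E₂.x i₀ = 1`) |
| `Rt`   | `T.RtD`     | `Rt` |

All STRUCTURE fields of the package are proved here; the nine AXIOMS are stated as `Prop`s
(`T.NorthcottStatement`, `T.Mov1Statement`, `T.Mov2Statement`, `T.E3Statement`,
`T.BezStatement`, `T.AdjStatement`, `T.GaussStatement`, `T.VdmStatement`, `T.MinkStatement`)
and `T.mkPackage` assembles the package from them.
-/

set_option autoImplicit false
set_option linter.unusedSectionVars false

noncomputable section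

open AlgebraicCurve ModularCurve

namespace Fermat.Agent.S17.H736

open Fermat.Agent.Lib.RR Fermat.Agent.S17.HWall Fermat.Agent.S17.HContract
open Fermat.Agent.S17.H77 Fermat.Agent.S17.H680 Fermat.Agent.S17.H980

variable (N : ℕ) [NeZero N]

/-! ## Divisors -/

/-- The effective Galois-invariant divisors of `X₀(N)`. -/
def effInv : AddSubmonoid (Divisor Qb (modularFunctionFieldBar N)) where
  carrier := {D | 0 ≤ D ∧ IsInvariant (modularFunctionFieldFull N) D}
  zero_mem' := ⟨le_rfl, fun σ => smul_zero _⟩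
  add_mem' := by
    rintro D E ⟨hD, hD'⟩ ⟨hE, hE'⟩
    exact ⟨add_nonneg hD hE, fun σ => by rw [smul_add, hD' σ, hE' σ]⟩

/-- The type of effective Galois-invariant divisors. -/
abbrev Dv : Type := ↥(effInv N)

variable {N}

theorem Dv.nonneg (D : Dv N) : (0 : Divisor Qb (modularFunctionFieldBar N)) ≤ D.1 := D.2.1

theorem Dv.isInvariant (D : Dv N) : IsInvariant (modularFunctionFieldFull N) D.1 := D.2.2

theorem Dv.apply_nonneg (D : Dv N) (P : Place Qb (modularFunctionFieldBar N)) : 0 ≤ D.1 P := by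
  have h := Finsupp.le_def.mp D.nonneg P
  simpa using h

theorem Dv.degree_nonneg (D : Dv N) : 0 ≤ Divisor.degree D.1 :=
  Fermat.Agent.Lib.RR.degree_nonneg D.nonneg

@[simp] theorem Dv.coe_add (D E : Dv N) : (D + E).1 = D.1 + E.1 := rfl

@[simp] theorem Dv.coe_zero : (0 : Dv N).1 = 0 := rfl

theorem Dv.coe_nsmul (k : ℕ) (D : Dv N) : (k • D).1 = k • D.1 :=
  AddSubmonoidClass.coe_nsmul D k

variable (N)

/-- The degree of an effective divisor, as a natural number. -/
def degHom : Dv N →+ ℕ where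
  toFun D := (Divisor.degree D.1).toNat
  map_zero' := by simp
  map_add' D E := by
    rw [Dv.coe_add, map_add, Int.toNat_add D.degree_nonneg E.degree_nonneg]

variable {N}

theorem degHom_apply (D : Dv N) : degHom N D = (Divisor.degree D.1).toNat := rfl

theorem coe_degHom (D : Dv N) : ((degHom N D : ℕ) : ℤ) = Divisor.degree D.1 := by
  rw [degHom_apply, Int.toNat_of_nonneg D.degree_nonneg]

variable (N)

/-- `D ↦ D - deg D • ∞`, as a homomorphism to the divisors of degree zero. -/
def shiftHom : Divisor Qb (modularFunctionFieldBar N) →+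
    Divisor.degZero (K := Qb) (F := modularFunctionFieldBar N) where
  toFun D := ⟨D - Divisor.degree D • prim (JZero.cusp N), by
    rw [Divisor.mem_degZero, map_sub, map_zsmul, degree_prim _ (deg_eq_one _)]
    simp⟩
  map_zero' := by
    apply Subtype.ext
    simp
  map_add' D E := by
    apply Subtype.ext
    simp only [map_add, AddSubgroup.coe_add, add_smul]
    abel

variable {N}

theorem coe_shiftHom (D : Divisor Qb (modularFunctionFieldBar N)) :
    (shiftHom N D : Divisor Qb (modularFunctionFieldBar N))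
      = D - Divisor.degree D • prim (JZero.cusp N) := rfl

/-- The class `[D - deg D • ∞]` of an invariant divisor is a rational point. -/
theorem mk_shiftHom_mem {D : Divisor Qb (modularFunctionFieldBar N)}
    (hD : IsInvariant (modularFunctionFieldFull N) D) :
    Pic0.mk (shiftHom N D) ∈
      FixedPoints.addSubgroup (AlgebraicClosure ℚ ≃ₐ[ℚ] AlgebraicClosure ℚ) (JZero N) := by
  rw [JZero.mem_fixedPoints_iff]
  intro σ
  rw [SemilinearAut.pic0_smul_mk]
  congr 1
  apply Subtype.ext
  rw [SemilinearAut.coe_degZeroSMulHom, coe_shiftHom, smul_sub, hD σ, smul_comm, smul_prim,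
    JZero.galois_smul_cusp]

variable (N)

/-- The class `[D - deg D • ∞] ∈ J₀(N)(ℚ)` of an effective Galois-invariant divisor. -/
def clsHom : Dv N →+
    ↥(FixedPoints.addSubgroup (AlgebraicClosure ℚ ≃ₐ[ℚ] AlgebraicClosure ℚ) (JZero N)) where
  toFun D := ⟨Pic0.mk (shiftHom N D.1), mk_shiftHom_mem D.isInvariant⟩
  map_zero' := by
    apply Subtype.ext
    show Pic0.mk (shiftHom N (0 : Dv N).1) = 0
    rw [Dv.coe_zero, map_zero]
    rfl
  map_add' D E := by
    apply Subtype.ext
    show Pic0.mk (shiftHom N (D + E).1) = Pic0.mk (shiftHom N D.1) + Pic0.mk (shiftHom N E.1)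
    rw [Dv.coe_add, map_add]
    rfl

variable {N}

theorem coe_clsHom (D : Dv N) : ((clsHom N D : _) : JZero N) = Pic0.mk (shiftHom N D.1) := rfl

/-- `cls D = cls E` iff `D - deg D • ∞` and `E - deg E • ∞` are linearly equivalent. -/
theorem clsHom_eq_iff (D E : Dv N) :
    clsHom N D = clsHom N E ↔
      ∃ (h : modularFunctionFieldBar N) (hh : h ≠ 0),
        E.1 - Divisor.degree E.1 • prim (JZero.cusp N)
          = D.1 - Divisor.degree D.1 • prim (JZero.cusp N) + divOf h hh := by
  rw [Subtype.ext_iff, coe_clsHom, coe_clsHom, mk_eq_mk_iff']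
  rfl

/-- Disjoint supports. -/
def Disj (D E : Dv N) : Prop := ∀ P, D.1 P = 0 ∨ E.1 P = 0

theorem disj_iff_disjoint (D E : Dv N) : Disj D E ↔ Disjoint D.1.support E.1.support := by
  rw [Finset.disjoint_left]
  constructor
  · intro h P hP hQ
    rcases h P with h | h
    · exact (Finsupp.mem_support_iff.mp hP) h
    · exact (Finsupp.mem_support_iff.mp hQ) h
  · intro h P
    by_cases hP : D.1 P = 0
    · exact Or.inl hP
    · right
      by_contra hQ
      exact h (Finsupp.mem_support_iff.mpr hP) (Finsupp.mem_support_iff.mpr hQ)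

theorem disj_symm (D E : Dv N) (h : Disj D E) : Disj E D := fun P => (h P).symm

theorem disj_zero (E : Dv N) : Disj 0 E := fun _ => Or.inl rfl

theorem disj_add_left (D₁ D₂ E : Dv N) : Disj (D₁ + D₂) E ↔ Disj D₁ E ∧ Disj D₂ E := by
  constructor
  · intro h
    refine ⟨fun P => ?_, fun P => ?_⟩
    · rcases h P with h | h
      · left
        rw [Dv.coe_add, Finsupp.add_apply] at h
        have h1 := D₁.apply_nonneg P
        have h2 := D₂.apply_nonneg P
        omega
      · exact Or.inr h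
    · rcases h P with h | h
      · left
        rw [Dv.coe_add, Finsupp.add_apply] at h
        have h1 := D₁.apply_nonneg P
        have h2 := D₂.apply_nonneg P
        omega
      · exact Or.inr h
  · rintro ⟨h1, h2⟩ P
    rcases h1 P with h | h
    · rcases h2 P with h' | h'
      · left
        rw [Dv.coe_add, Finsupp.add_apply, h, h', add_zero]
      · exact Or.inr h'
    · exact Or.inr h

variable (N)

/-- The point at infinity, as an effective invariant divisor. -/
def infD : Dv N :=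
  ⟨prim (JZero.cusp N), prim_nonneg _, fun σ => by rw [smul_prim, JZero.galois_smul_cusp]⟩

variable {N}

@[simp] theorem coe_infD : (infD N).1 = prim (JZero.cusp N) := rfl

theorem deg_infD : degHom N (infD N) = 1 := by
  rw [degHom_apply, coe_infD, degree_prim _ (deg_eq_one _)]
  rfl

theorem cls_infD : clsHom N (infD N) = 0 := by
  apply Subtype.ext
  rw [coe_clsHom]
  have h : shiftHom N (infD N).1 = 0 := by
    apply Subtype.ext
    rw [coe_shiftHom, coe_infD, degree_prim _ (deg_eq_one _), one_smul, sub_self]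
    rfl
  rw [h]
  rfl

/-! ## The input of TOP -/

variable (N)

/-- The input of the TOP layer: two embedding data at the cusp `∞` (points/distances and
forms), a rational structure on the forms, the ramification divisor and the numerics. -/
structure TopInput where
  /-- the embedding used for points and distances -/
  E₁ : EmbData Qb (modularFunctionFieldBar N)
  /-- the embedding used for forms / hyperplane sections -/
  E₂ : EmbData Qb (modularFunctionFieldBar N)
  vinf₁ : E₁.vinf = JZero.cusp N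
  vinf₂ : E₂.vinf = JZero.cusp N
  /-- the basis of `E₂` is Galois-fixed -/
  x_fixed : ∀ i, IsFixed (modularFunctionFieldFull N) (E₂.x i)
  /-- the index of the constant function -/
  i₀ : Fin (E₂.r + 1)
  x_one : E₂.x i₀ = 1
  /-- the finite ramification divisor of the coordinate `t` -/
  Rt : Divisor Qb (modularFunctionFieldBar N)
  Rt_nonneg : 0 ≤ Rt
  Rt_inv : IsInvariant (modularFunctionFieldFull N) Rt
  Rt_inf : Rt (JZero.cusp N) = 0
  /-- the degree of the representatives -/
  d : ℕ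
  one_le_g : 1 ≤ genusR Qb (modularFunctionFieldBar N)
  two_g_le_d : 2 * genusR Qb (modularFunctionFieldBar N) ≤ d
  four_d_le_m : 4 * d + 2 * genusR Qb (modularFunctionFieldBar N) ≤ E₂.m

variable {N}

namespace TopInput

variable (T : TopInput N)

theorem isInvariant_vinf₂ : IsInvariant (modularFunctionFieldFull N) (prim T.E₂.vinf) := by
  intro σ
  rw [T.vinf₂, smul_prim, JZero.galois_smul_cusp]

/-- the genus -/
def g (_T : TopInput N) : ℕ := genusR Qb (modularFunctionFieldBar N)

/-- the degree of the forms -/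
def m : ℕ := T.E₂.m

/-- The ramification divisor, as an effective invariant divisor. -/
def RtD : Dv N := ⟨T.Rt, T.Rt_nonneg, T.Rt_inv⟩

@[simp] theorem coe_RtD : T.RtD.1 = T.Rt := rfl

/-- Generic divisors: reduced, avoiding `∞` and `Rt`. -/
def Good (D : Dv N) : Prop := (∀ P, D.1 P ≤ 1) ∧ Disj D (infD N) ∧ Disj D T.RtD

theorem good_disj_inf (D : Dv N) (h : T.Good D) : Disj D (infD N) := h.2.1

theorem good_disj_Rt (D : Dv N) (h : T.Good D) : Disj D T.RtD := h.2.2

/-! ### Heights of divisors -/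

/-- The naive height `N(D) = Σ_P D(P) h(E₂.pt P)`. -/
def NN (D : Dv N) : ℝ := naive T.E₂ D.1

/-- The diagonal pairing `(D . E) = Σ_{A,P} D(A) E(P) hD E₁ A P`. -/
def pr (D E : Dv N) : ℝ := pair T.E₁ D.1 E.1

open Classical in
/-- The off-diagonal self pairing `δ(D) = (1/2) Σ_{P ≠ Q} D(P) D(Q) hD E₁ P Q`
(`= Σ_{P < Q} hD E₁ P Q` for reduced `D`). -/
def del (D : Dv N) : ℝ :=
  (1 / 2 : ℝ) * ∑ P ∈ D.1.support, ∑ Q ∈ D.1.support.erase P,
    (D.1 P : ℝ) * (D.1 Q : ℝ) * hD T.E₁ P Q

/-- The tangent term `K(D) = Σ_P D(P) κ(P)`. -/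
def KK (D : Dv N) : ℝ := D.1.sum fun P n => (n : ℝ) * kap T.E₁ P

/-- The standard enumeration of the support of a divisor. -/
def enum (D : Dv N) : Fin D.1.support.card → Place Qb (modularFunctionFieldBar N) :=
  fun i => (D.1.support.equivFin.symm i : Place Qb (modularFunctionFieldBar N))

theorem enum_injective (D : Dv N) : Function.Injective (_root_.Fermat.Agent.S17.H736.TopInput.enum D) := by
  intro i j h
  exact D.1.support.equivFin.symm.injective (Subtype.ext h)

theorem enum_mem (D : Dv N) (i : Fin D.1.support.card) : _root_.Fermat.Agent.S17.H736.TopInput.enum D i ∈ D.1.support :=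
  (D.1.support.equivFin.symm i).2

theorem exists_enum_eq (D : Dv N) {P : Place Qb (modularFunctionFieldBar N)}
    (hP : P ∈ D.1.support) : ∃ i, _root_.Fermat.Agent.S17.H736.TopInput.enum D i = P :=
  ⟨D.1.support.equivFin ⟨P, hP⟩, by unfold _root_.Fermat.Agent.S17.H736.TopInput.enum; rw [Equiv.symm_apply_apply]⟩

/-- The Plücker height `h(E₂.pt P₁ ∧ … ∧ E₂.pt P_k)` of the points of the support of `D`. -/
def Pl (D : Dv N) : ℝ := ht (plucker fun i => T.E₂.pt (_root_.Fermat.Agent.S17.H736.TopInput.enum D i))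

/-! ### Linear forms -/

/-- The nonzero rational linear forms. -/
def Lin : Type := {a : Fin (T.E₂.r + 1) → ℚ // a ≠ 0}

/-- The height of a rational linear form. -/
def htL (a : T.Lin) : ℝ := ht (castQ a.1)

/-- The hyperplane section of a rational linear form. -/
def ZL (a : T.Lin) : Dv N :=
  ⟨T.E₂.Z (castQ a.1), T.E₂.Z_nonneg _,
    isInvariant_Z (modularFunctionFieldFull N) T.E₂ T.x_fixed T.isInvariant_vinf₂ a.1⟩

@[simp] theorem coe_ZL (a : T.Lin) : (T.ZL a).1 = T.E₂.Z (castQ a.1) := rfl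

theorem castQ_ne_zero' (a : T.Lin) : castQ a.1 ≠ 0 := castQ_ne_zero a.2

/-- The constant function `1`, as a linear form. -/
def oneL : T.Lin := ⟨Pi.single T.i₀ 1, by
  intro h
  have := congrFun h T.i₀
  simp at this⟩

@[simp] theorem coe_oneL : T.oneL.1 = Pi.single T.i₀ 1 := rfl

theorem lin_castQ_oneL : lin T.E₂.x (castQ T.oneL.1) = 1 := by
  unfold lin
  rw [Finset.sum_eq_single T.i₀]
  · simp [castQ, T.x_one]
  · intro j _ hj
    simp [castQ, Pi.single_eq_of_ne hj]
  · intro h
    exact absurd (Finset.mem_univ _) h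

/-! ### Structure fields -/

theorem deg_ZL (a : T.Lin) : degHom N (T.ZL a) = T.m := by
  rw [degHom_apply, coe_ZL, T.E₂.degree_Z (T.castQ_ne_zero' a)]
  rfl

theorem cls_ZL (a : T.Lin) : clsHom N (T.ZL a) = 0 := by
  apply Subtype.ext
  rw [coe_clsHom]
  show Pic0.mk (shiftHom N (T.ZL a).1) = Pic0.mk 0
  rw [mk_eq_mk_iff, isPrincipal_iff]
  refine ⟨(lin T.E₂.x (castQ a.1))⁻¹, inv_ne_zero (T.E₂.lin_ne_zero (T.castQ_ne_zero' a)), ?_⟩
  rw [divOf_inv _ (T.E₂.lin_ne_zero (T.castQ_ne_zero' a)), coe_shiftHom, coe_ZL,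
    T.E₂.degree_Z (T.castQ_ne_zero' a), T.E₂.Z_eq (T.castQ_ne_zero' a), T.vinf₂]
  simp only [AddSubgroup.coe_zero, zero_sub, natCast_zsmul]
  abel

theorem ZL_oneL : T.ZL T.oneL = T.m • infD N := by
  apply Subtype.ext
  rw [Dv.coe_nsmul, coe_ZL, T.E₂.Z_eq (T.castQ_ne_zero' T.oneL), coe_infD, T.vinf₂]
  have h : divOf (lin T.E₂.x (castQ T.oneL.1)) (T.E₂.lin_ne_zero (T.castQ_ne_zero' T.oneL))
      = (0 : Divisor Qb (modularFunctionFieldBar N)) := by
    ext P
    rw [divOf_apply, T.lin_castQ_oneL]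
    simp
  rw [h, zero_add]
  rfl

theorem htL_eq_logHeight (a : T.Lin) : T.htL a = Height.logHeight a.1 := by
  have h := H380.absLogHeight_eq (algebraMap ℚ Qb) a.1
  rw [Module.finrank_self, Nat.cast_one, inv_one, one_mul] at h
  rw [← h]
  unfold htL castQ
  have e : (fun j => ((a.1 j : ℚ) : Qb)) = fun j => algebraMap ℚ Qb (a.1 j) := by
    funext j
    rw [eq_ratCast]
  rw [e]

theorem htL_oneL : T.htL T.oneL = 0 := by
  rw [htL_eq_logHeight, coe_oneL, Height.logHeight_eq_logHeight_restrict_support]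
  have : Subsingleton (Function.support (Pi.single T.i₀ (1 : ℚ))) := by
    refine ⟨fun ⟨i, hi⟩ ⟨j, hj⟩ => Subtype.ext ?_⟩
    have hi' : i = T.i₀ := by
      by_contra h
      exact hi (Pi.single_eq_of_ne h _)
    have hj' : j = T.i₀ := by
      by_contra h
      exact hj (Pi.single_eq_of_ne h _)
    exact hi'.trans hj'.symm
  exact Height.logHeight_eq_zero_of_subsingleton _

theorem NN_add (D E : Dv N) : T.NN (D + E) = T.NN D + T.NN E := by
  unfold NN naive
  rw [Dv.coe_add]
  exact Finsupp.sum_add_index' (fun _ => by simp) (fun _ _ _ => by push_cast; ring)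

theorem NN_nonneg (D : Dv N) : 0 ≤ T.NN D := by
  unfold NN naive
  refine Finset.sum_nonneg fun P _ => ?_
  have h : (0 : ℝ) ≤ ((D.1 P : ℤ) : ℝ) := by exact_mod_cast D.apply_nonneg P
  exact mul_nonneg h (H380.absLogHeight_nonneg _)

theorem wedge_swap {n : ℕ} (y z : Fin n → Qb) : wedge y z = (-1 : Qb) • wedge z y := by
  funext p
  simp only [wedge, Pi.smul_apply, smul_eq_mul]
  ring

theorem hD_symm (E : EmbData Qb (modularFunctionFieldBar N))
    (A P : Place Qb (modularFunctionFieldBar N)) : hD E A P = hD E P A := by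
  unfold hD
  have h : ht (wedge (E.pt A) (E.pt P)) = ht (wedge (E.pt P) (E.pt A)) := by
    rw [wedge_swap]
    exact H380.absLogHeight_smul _ (fun _ => H77.isIntegral_Qb _) (by norm_num)
      (H77.isIntegral_Qb _)
  rw [h]
  ring

theorem pr_symm (D E : Dv N) : T.pr D E = T.pr E D := by
  unfold pr pair pairPt
  simp only [Finsupp.sum, Finset.mul_sum]
  rw [Finset.sum_comm]
  refine Finset.sum_congr rfl fun A _ => Finset.sum_congr rfl fun P _ => ?_
  rw [hD_symm T.E₁ A P]
  ring

theorem pr_add_left (D₁ D₂ E : Dv N) : T.pr (D₁ + D₂) E = T.pr D₁ E + T.pr D₂ E := by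
  unfold pr pair
  rw [Dv.coe_add]
  have h : ∀ P, pairPt T.E₁ (D₁.1 + D₂.1) P = pairPt T.E₁ D₁.1 P + pairPt T.E₁ D₂.1 P := by
    intro P
    unfold pairPt
    exact Finsupp.sum_add_index' (fun _ => by simp) (fun _ _ _ => by push_cast; ring)
  simp only [Finsupp.sum, h, mul_add, Finset.sum_add_distrib]

/-! ## The axioms of the package, as statements about the concrete data -/

/-- (NC) Northcott for the naive height. -/
def NorthcottStatement : Prop :=
  ∀ (e : ℕ) (B : ℝ), {D : Dv N | degHom N D ≤ e ∧ T.NN D ≤ B}.Finite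

/-- (Mov1) generic representatives of degree `d`. -/
def Mov1Statement : Prop :=
  ∀ (x : ↥(FixedPoints.addSubgroup (AlgebraicClosure ℚ ≃ₐ[ℚ] AlgebraicClosure ℚ) (JZero N)))
    (S : Dv N), ∃ D, degHom N D = T.d ∧ clsHom N D = x ∧ Disj D S ∧ T.Good D

/-- (Mov2) common generic residual divisor. -/
def Mov2Statement : Prop :=
  ∀ D₁ D₂ : Dv N, degHom N D₁ = degHom N D₂ → degHom N D₁ + 2 * T.g ≤ T.m →
    clsHom N D₁ = clsHom N D₂ → ∀ S : Dv N,
    ∃ (R : Dv N) (a₁ a₂ : T.Lin), T.ZL a₁ = D₁ + R ∧ T.ZL a₂ = D₂ + R ∧ Disj R S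

/-- (E3) -/
def E3Statement : Prop :=
  ∃ C : ℝ, ∀ (a : T.Lin) (E : Dv N), Disj (T.ZL a) E →
    |T.pr (T.ZL a) E - (degHom N E * T.htL a + T.NN E)| ≤ C * degHom N E

/-- (BEZ) -/
def BezStatement : Prop :=
  ∃ C : ℝ, ∀ a : T.Lin, |T.NN (T.ZL a) - T.m * T.htL a| ≤ C

/-- (ADJ) -/
def AdjStatement : Prop :=
  ∃ C : ℝ, ∀ (a : T.Lin) (D D' : Dv N), T.Good D → T.ZL a = D + D' → Disj D D' →
    |2 * T.del D - T.KK D + T.pr D' D - (degHom N D * T.htL a + T.NN D)| ≤ C * degHom N D

/-- (GAUSS) -/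
def GaussStatement : Prop :=
  ∃ C : ℝ, ∀ D : Dv N, T.Good D →
    |T.KK D - (T.pr T.RtD D - (((degHom N T.RtD : ℝ) - (2 * T.g - 2)) / T.m) * T.NN D)|
      ≤ C * degHom N D

/-- (VDM) -/
def VdmStatement : Prop :=
  ∃ C : ℝ, ∀ D : Dv N, T.Good D → degHom N D = T.d → T.Pl D ≤ T.NN D - T.del D + C

/-- (MINK) -/
def MinkStatement : Prop :=
  ∃ C : ℝ, ∀ D : Dv N, T.Good D → degHom N D = T.d →
    ∃ (a : T.Lin) (D' : Dv N), T.ZL a = D + D' ∧
      ((T.m : ℝ) - T.d + 1 - T.g) * T.htL a ≤ T.Pl D + C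

/-- **The pairing package of `J₀(N)`** from the nine axioms. -/
def mkPackage (hnc : T.NorthcottStatement) (hmov1 : T.Mov1Statement)
    (hmov2 : T.Mov2Statement) (he3 : T.E3Statement) (hbez : T.BezStatement)
    (hadj : T.AdjStatement) (hgauss : T.GaussStatement) (hvdm : T.VdmStatement)
    (hmink : T.MinkStatement) :
    Fermat.Agent.S17.H500.PairingPackage
      ↥(FixedPoints.addSubgroup (AlgebraicClosure ℚ ≃ₐ[ℚ] AlgebraicClosure ℚ) (JZero N)) where
  Dv := Dv N
  deg := degHom N
  cls := clsHom N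
  Disj := Disj
  Good := T.Good
  N := T.NN
  pr := T.pr
  δ := T.del
  K := T.KK
  Pl := T.Pl
  Lin := T.Lin
  ht := T.htL
  Z := T.ZL
  m := T.m
  d := T.d
  g := T.g
  inf := infD N
  one := T.oneL
  Rt := T.RtD
  one_le_g := T.one_le_g
  two_g_le_d := T.two_g_le_d
  four_d_le_m := T.four_d_le_m
  disj_symm := disj_symm
  disj_zero := disj_zero
  disj_add_left := disj_add_left
  deg_inf := deg_infD
  cls_inf := cls_infD
  deg_Z := T.deg_ZL
  cls_Z := T.cls_ZL
  Z_one := T.ZL_oneL
  ht_one := T.htL_oneL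
  good_disj_inf := T.good_disj_inf
  good_disj_Rt := T.good_disj_Rt
  N_add := T.NN_add
  N_nonneg := T.NN_nonneg
  pr_symm := T.pr_symm
  pr_add := fun D₁ D₂ E _ => T.pr_add_left D₁ D₂ E
  northcott := hnc
  mov1 := hmov1
  mov2 := hmov2
  e3 := he3
  bez := hbez
  adj := hadj
  gauss := hgauss
  vdm := hvdm
  mink := hmink

end TopInput

end Fermat.Agent.S17.H736

end
end
-- ===== PACK-END S17/H736/TopData.lean

-- ===== PACK-BEGIN S17/H710/Wall/Vdm.lean
section


/-!
# S17 / tower H — the WALL: `(VDM)` from the leaves (helper710).  Sorry-free.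
-/

set_option autoImplicit false

noncomputable section

namespace Fermat.Agent.S17.Wall

open AlgebraicCurve MvPolynomial
open Fermat.Agent.Lib.RR Fermat.Agent.S17.HWall Fermat.Agent.S17.H710
open Fermat.Agent.S17.HContract

variable {K F : Type*} [Field K] [CharZero K] [Field F] [Algebra K F]

/-- embeddings of `Fin 1` are points -/
def embFinOne (n : ℕ) : (Fin 1 ↪ Fin n) ≃ Fin n where
  toFun e := e 0
  invFun j := ⟨fun _ => j, fun a b _ => Subsingleton.elim a b⟩
  left_inv e := by
    ext i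
    rw [Subsingleton.elim i 0]
    rfl
  right_inv j := rfl

theorem plucker_one {n : ℕ} (y : Fin 1 → Fin n → K) :
    plucker y = (y 0) ∘ (embFinOne n) := by
  funext e
  unfold plucker
  rw [Matrix.det_fin_one]
  rfl

theorem plucker_zero {n : ℕ} (y : Fin 0 → Fin n → K) : plucker y = 1 := by
  funext e
  unfold plucker
  rw [Matrix.det_fin_zero]
  rfl

omit [CharZero K] in
theorem sum_sum_lt_succ {d : ℕ} (f : Fin (d + 1) → Fin (d + 1) → ℝ) :
    (∑ i, ∑ j, if i < j then f i j else 0) =
      (∑ i : Fin d, ∑ j : Fin d, if i < j then f i.castSucc j.castSucc else 0) +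
        ∑ i : Fin d, f i.castSucc (Fin.last d) := by
  rw [Fin.sum_univ_castSucc]
  have h1 : (∑ j, if Fin.last d < j then f (Fin.last d) j else 0) = 0 := by
    refine Finset.sum_eq_zero fun j _ => ?_
    rw [if_neg (not_lt.mpr (Fin.le_last j))]
  rw [h1, add_zero, ← Finset.sum_add_distrib]
  refine Finset.sum_congr rfl fun i _ => ?_
  rw [Fin.sum_univ_castSucc (f := fun j => if i.castSucc < j then f i.castSucc j else 0)]
  rw [if_pos (Fin.castSucc_lt_last i)]
  congr 1

variable [FF1 K F]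

omit [CharZero K] in
/-- forms vanishing at distinct points vanish on their sum -/
theorem sum_prim_le_Z (E : EmbData K F) {a : Fin (E.r + 1) → K} (ha : a ≠ 0) {k : ℕ}
    (A : Fin k → Place K F) (hA : Function.Injective A) (h : ∀ l, dot a (E.pt (A l)) = 0) :
    ∑ l, prim (A l) ≤ E.Z a := by
  classical
  rw [Finsupp.le_def]
  intro B
  rw [sum_prim_apply]
  have hZ := Finsupp.le_def.mp (E.Z_nonneg a) B
  simp only [Finsupp.coe_zero, Pi.zero_apply] at hZ
  by_cases hB : ∃ l, A l = B
  · obtain ⟨l, rfl⟩ := hB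
    have hc : (Finset.univ.filter fun i => A i = A l).card ≤ 1 := by
      rw [Finset.card_le_one]
      intro i hi j hj
      exact hA ((Finset.mem_filter.mp hi).2.trans (Finset.mem_filter.mp hj).2.symm)
    have hpos : 0 < (E.Z a) (A l) := (E.pt_spec (A l) a ha).mp (h l)
    have : ((Finset.univ.filter fun i => A i = A l).card : ℤ) ≤ 1 := by exact_mod_cast hc
    omega
  · have : (Finset.univ.filter fun i => A i = B) = ∅ := by
      ext i
      simp only [Finset.mem_filter, Finset.mem_univ, true_and, Finset.notMem_empty, iff_false]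
      exact fun hi => hB ⟨i, hi⟩
    rw [this]
    simpa using hZ

/-- the induction for `(VDM)` -/
theorem vdm_aux [Algebra.IsAlgebraic ℚ K] (E : EmbData K F) (hE : Big E) (hL : Leaves E)
    (d₀ : ℕ) (hd₀ : d₀ + 2 * genusR K F ≤ E.m + 1) :
    ∀ d : ℕ, d ≤ d₀ → ∃ C : ℝ, ∀ P : Fin d → Place K F, Function.Injective P →
      ht (plucker fun i => E.pt (P i)) ≤
        (∑ i, ht (E.pt (P i))) - (∑ i, ∑ j, if i < j then hD E (P i) (P j) else 0) + C := by
  classical
  intro d
  induction d with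
  | zero =>
    intro _
    refine ⟨0, fun P _ => ?_⟩
    rw [plucker_zero, ht_one]
    simp
  | succ d ih =>
    intro hd
    obtain ⟨C₀, hC₀⟩ := ih (by omega)
    rcases Nat.eq_zero_or_pos d with hd0 | hdpos
    · subst hd0
      refine ⟨0, fun P _ => ?_⟩
      rw [plucker_one]
      have := Fermat.Agent.S17.H380.absLogHeight_comp_equiv (embFinOne (E.r + 1)) (E.pt (P 0))
      rw [ht, this]
      simp
    · obtain ⟨C₁₀, hC₁₀⟩ := hL.a10 (E.r + 1) d
      obtain ⟨C, L, Q, -, -, hup⟩ := core_up E hE hL d hdpos (Fin (d + 1) ↪ Fin (E.r + 1))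
      refine ⟨C₀ + C₁₀ + C, fun P hP => ?_⟩
      set A : Fin d → Place K F := fun i => P i.castSucc with hA
      have hAinj : Function.Injective A := fun i j h => Fin.castSucc_injective _ (hP h)
      set z := E.pt (P (Fin.last d)) with hz
      obtain ⟨W, hW1, hW2, hW3⟩ := hC₁₀ (fun i => E.pt (A i))
      have hsnoc : (Fin.snoc (fun i => E.pt (A i)) z : Fin (d + 1) → Fin (E.r + 1) → K) =
          fun i => E.pt (P i) := by
        funext i
        refine Fin.lastCases ?_ (fun j => ?_) i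
        · simp [hz]
        · simp [hA]
      have hv : (fun e => dot (W e) z) = plucker fun i => E.pt (P i) := by
        funext e
        rw [hW2 z e, hsnoc]
      have hindep : (plucker fun i => E.pt (P i)) ≠ 0 := hL.indep (d + 1) P (by omega) hP
      have hne : ∀ i, A i ≠ P (Fin.last d) := fun i h =>
        absurd (hP h) (Fin.castSucc_lt_last i).ne
      have hw : ∀ i, wedge (E.pt (A i)) ((fun _ : Fin d => z) i) ≠ 0 :=
        fun i => hL.pt.2.2.1 _ _ (hne i)
      have hWZ : ∀ e, W e ≠ 0 → ∑ l, prim (A l) ≤ E.Z (W e) :=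
        fun e he => sum_prim_le_Z E he A hAinj (fun l => hW1 e l)
      have hrank := hL.rank d A _ W hdpos hWZ (Fin L) (fun t => E.pt (Q t)) z
        (fun j => hL.pt.2.1 _) (hL.pt.2.1 _)
      have hψw0 : wCol (e := d - 1) W z ≠ 0 := by
        have := tensorPow_ne_zero (e := d - 1) (fun e => dot (W e) z) z (by rw [hv]; exact hindep)
          (hL.pt.1 _)
        exact this
      have u1 := hup A W _ _ hrank hψw0
      have hhu : ht (betaCol (fun i => E.pt (A i)) fun _ => z) =
          ∑ i, ht (wedge (E.pt (A i)) z) := hL.a6 _ _ _ _ hw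
      have hhw : ht (wCol (e := d - 1) W z) =
          ht (plucker fun i => E.pt (P i)) + ((d - 1 : ℕ) : ℝ) * ht z := by
        have := hL.a7 (E.r + 1) (d - 1) _ (fun e => dot (W e) z) z (by rw [hv]; exact hindep)
          (hL.pt.1 _)
        rw [hv] at this
        exact this
      rw [hhu, hhw] at u1
      have ih' := hC₀ A hAinj
      have hc : ((d - 1 : ℕ) : ℝ) = (d : ℝ) - 1 := by
        rw [Nat.cast_sub hdpos]; simp
      rw [hc] at u1
      rw [sum_sum_lt_succ, Fin.sum_univ_castSucc]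
      have hsumD : ∑ i : Fin d, hD E (P i.castSucc) (P (Fin.last d)) =
          ∑ i, ht (E.pt (A i)) + (d : ℝ) * ht z - ∑ i, ht (wedge (E.pt (A i)) z) := by
        unfold hD
        rw [Finset.sum_sub_distrib, Finset.sum_add_distrib]
        simp [hA, hz]
      rw [hsumD]
      linarith

/-- **(VDM)** for `d₀ ≤ m - 2g + 1`, from the leaves. -/
theorem vdm [Algebra.IsAlgebraic ℚ K] (E : EmbData K F) (hE : Big E) (hL : Leaves E)
    (d₀ : ℕ) (hd₀ : d₀ + 2 * genusR K F ≤ E.m + 1) : VDMStatement E E d₀ := by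
  classical
  have h : ∀ d : Fin (d₀ + 1), ∃ C : ℝ, ∀ P : Fin d → Place K F, Function.Injective P →
      ht (plucker fun i => E.pt (P i)) ≤
        (∑ i, ht (E.pt (P i))) - (∑ i, ∑ j, if i < j then hD E (P i) (P j) else 0) + C :=
    fun d => vdm_aux E hE hL d₀ hd₀ d (by omega)
  choose Cf hCf using h
  refine ⟨∑ d, |Cf d|, fun d P hd hP => ?_⟩
  have h1 := hCf ⟨d, by omega⟩ P hP
  have h2 : Cf ⟨d, by omega⟩ ≤ ∑ d, |Cf d| :=
    (le_abs_self _).trans (Finset.single_le_sum (f := fun d => |Cf d|)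
      (fun _ _ => abs_nonneg _) (Finset.mem_univ _))
  linarith

/-- (NC) is trivial for `E₁ = E₂`. -/
theorem nc (E : EmbData K F) : NCStatement E E :=
  ⟨0, fun P => by simp⟩

/-- **THE WALL**: the contract for one embedding of degree `m ≥ 4g + 1`, from the leaves and
`(GAUSS)`. -/
theorem contract [Algebra.IsAlgebraic ℚ K] (E : EmbData K F) (hE : Big E)
    (hL : Leaves E) (hG : GAUSSStatement E) (d₀ : ℕ) (hd : d₀ + 2 * genusR K F ≤ E.m + 1) :
    Contract E E d₀ where
  vinf_eq := rfl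
  e3 := e3 E hE hL
  adj := adj E hE hL
  vdm := vdm E hE hL d₀ hd
  gauss := hG
  nc := nc E

end Fermat.Agent.S17.Wall

end
end
-- ===== PACK-END S17/H710/Wall/Vdm.lean

-- ===== PACK-BEGIN S17/H317/MinorA.lean
section


/-!
# S17 / tower H — WALL leaf **G-MINOR-a** (helper317)

`minorA : Big E → Wall.MinorAStatement E` :
for ANY `L > m²` distinct places `Q_t` and every `a ≠ 0` the matrix of the rows `a X^α`,
`|α| = m - 1`, evaluated at the points `pt (Q t)`, has rank `κ_m = m² - m + 1 - g`.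

* `finrank_span_eval_eq` (**RANK-EV**): for forms `p_s` homogeneous of degree `k` and `L > k m`
  distinct places, the rank of the matrix of values `eval (pt (Q t)) (p s)` is the dimension of
  the span of the sections `aeval E.x (p s)`;
* `prod_L_minf` : `L(m∞)^(e+1) = L((e+1) m∞)` (projective normality, `m ≥ 4g + 1`);
* multiplication by `lin E.x a ≠ 0` is injective.
-/

set_option autoImplicit false
set_option linter.unusedSectionVars false

noncomputable section

open AlgebraicCurve MvPolynomial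

namespace Fermat.Agent.S17.H317

open Fermat.Agent.Lib.RR Fermat.Agent.S17.HWall Fermat.Agent.S17.H710 Fermat.Agent.S17.Wall
open Fermat.Agent.S17.H230

variable {K F : Type*} [Field K] [Field F] [Algebra K F] [FF1 K F]

/-- **RANK-EV.**  For forms `p s` homogeneous of degree `k` and `L > k m` distinct places `Q t`,
the rank of the matrix of values `eval (pt (Q t)) (p s)` equals the dimension of the span of the
sections `aeval E.x (p s)`. -/
theorem finrank_span_eval_eq (E : EmbData K F) {k L : ℕ} (Q : Fin L → Place K F)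
    (hQ : Function.Injective Q) (hL : k * E.m < L) {σ : Type*} [Finite σ]
    (p : σ → MvPolynomial (Fin (E.r + 1)) K) (hp : ∀ s, (p s).IsHomogeneous k) :
    Module.finrank K (Submodule.span K (Set.range fun s => fun t => eval (E.pt (Q t)) (p s))) =
      Module.finrank K (Submodule.span K (Set.range fun s => aeval E.x (p s))) := by
  classical
  haveI := Fintype.ofFinite σ
  have hker : LinearMap.ker (Fintype.linearCombination K
        (fun s => fun t => eval (E.pt (Q t)) (p s))) =
      LinearMap.ker (Fintype.linearCombination K (fun s => aeval E.x (p s))) := by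
    ext c
    simp only [LinearMap.mem_ker, Fintype.linearCombination_apply]
    have hGhom : (∑ s, C (c s) * p s : MvPolynomial (Fin (E.r + 1)) K).IsHomogeneous k :=
      IsHomogeneous.sum _ _ _ fun s _ => by
        simpa using (isHomogeneous_C _ (c s)).mul (hp s)
    have h1 : ∀ t, (∑ s, c s • fun t => eval (E.pt (Q t)) (p s)) t =
        eval (E.pt (Q t)) (∑ s, C (c s) * p s) := by
      intro t
      simp [Finset.sum_apply, map_sum]
    have h2 : ∑ s, c s • aeval E.x (p s) = aeval E.x (∑ s, C (c s) * p s) := by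
      simp [map_sum, Algebra.smul_def]
    rw [h2, ← forall_eval_pt_eq_zero_iff E Q hQ hL hGhom]
    constructor
    · intro h t
      rw [← h1, h]
      rfl
    · intro h
      funext t
      rw [h1]
      exact h t
  have hfr := finrank_range_eq_of_ker_eq _ _ hker
  rw [Fintype.range_linearCombination, Fintype.range_linearCombination] at hfr
  exact hfr

/-- Projective normality: `L(m∞)^(e+1) = L((e+1) m∞)` for `m ≥ 4g + 1`. -/
theorem prod_L_minf [Infinite K] (E : EmbData K F) (hBig : Big E) :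
    ∀ e : ℕ, ∏ _i : Fin (e + 1), riemannRochSpace (E.m • prim E.vinf) =
      riemannRochSpace ((e + 1) • (E.m • prim E.vinf) : Divisor K F) := by
  have hB : 4 * genusR K F + 1 ≤ E.m := hBig
  intro e
  induction e with
  | zero => simp
  | succ e ih =>
    rw [Fin.prod_univ_succ, ih, succ_nsmul (E.m • prim E.vinf) (e + 1),
      add_comm ((e + 1) • (E.m • prim E.vinf))]
    apply H259.L_mul_L
    · rw [emb_degree_minf, genusFF_eq_genusR]
      omega
    · rw [map_nsmul, emb_degree_minf, genusFF_eq_genusR]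
      have h1 : (4 * (genusR K F : ℤ)) ≤ (E.m : ℤ) := by omega
      have h2 : (0 : ℤ) ≤ (e : ℤ) := Int.natCast_nonneg e
      simp only [nsmul_eq_mul]
      push_cast
      nlinarith

theorem aeval_linForm {n : ℕ} (x : Fin n → F) (a : Fin n → K) :
    aeval x (linForm a) = lin x a := by
  simp [linForm, lin, Algebra.smul_def]

theorem aeval_monoOrd {n e : ℕ} (x : Fin n → F) (α : Fin e → Fin n) :
    aeval x (monoOrd (K := K) α) = ∏ k, x (α k) := by
  simp [monoOrd]

/-- The monomials of degree `e` in the `x i` span `(span x)^e`. -/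
theorem span_monomials {n : ℕ} (x : Fin n → F) (e : ℕ) :
    Submodule.span K (Set.range fun α : Fin e → Fin n => ∏ k, x (α k)) =
      ∏ _i : Fin e, Submodule.span K (Set.range x) := by
  rw [Submodule.prod_span]
  congr 1
  ext f
  simp only [Set.mem_range, Set.mem_finsetProd]
  constructor
  · rintro ⟨α, rfl⟩
    exact ⟨fun i => x (α i), fun {i} _ => ⟨α i, rfl⟩, rfl⟩
  · rintro ⟨b, hb, rfl⟩
    choose α hα using fun i => hb (Finset.mem_univ i)
    exact ⟨α, Finset.prod_congr rfl fun i _ => hα i⟩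

/-- Multiplication by a nonzero function preserves dimensions. -/
theorem finrank_map_mulLeft {f : F} (hf : f ≠ 0) (V : Submodule K F) :
    Module.finrank K (V.map (LinearMap.mulLeft K f)) = Module.finrank K V :=
  (Submodule.equivMapOfInjective (LinearMap.mulLeft K f)
    (fun _ _ h => mul_left_cancel₀ hf h) V).finrank_eq.symm

/-- **G-MINOR-a.** -/
theorem minorA [Infinite K] (E : EmbData K F) (hBig : Big E) : MinorAStatement E := by
  classical
  intro L Q hQ hL a ha
  have hB : 4 * genusR K F + 1 ≤ E.m := hBig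
  have hf : lin E.x a ≠ 0 := E.lin_ne_zero ha
  -- the forms
  have hp : ∀ τ : Unit × (Fin (E.m - 1) → Fin (E.r + 1)),
      (linForm a * monoOrd τ.2 : MvPolynomial (Fin (E.r + 1)) K).IsHomogeneous E.m := by
    intro τ
    have h := (linForm_isHomogeneous a).mul (monoOrd_isHomogeneous (K := K) τ.2)
    have hm : 1 + (E.m - 1) = E.m := by omega
    rwa [hm] at h
  have hmat : (wMat (e := E.m - 1) (fun _ : Unit => a) fun t => E.pt (Q t)) =
      fun τ => fun t => eval (E.pt (Q t)) (linForm a * monoOrd τ.2) := by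
    funext τ t
    exact wMat_eq_eval _ _ τ t
  rw [hmat, finrank_span_eval_eq E Q hQ hL _ hp]
  -- the span of the sections
  have hspan : Submodule.span K (Set.range fun τ : Unit × (Fin (E.m - 1) → Fin (E.r + 1)) =>
        aeval E.x (linForm a * monoOrd τ.2)) =
      (∏ _i : Fin (E.m - 1), riemannRochSpace (E.m • prim E.vinf)).map
        (LinearMap.mulLeft K (lin E.x a)) := by
    rw [← E.x_span, ← span_monomials E.x (E.m - 1), Submodule.map_span]
    congr 1
    ext f
    simp only [Set.mem_range, Set.mem_image, map_mul, _root_.Fermat.Agent.S17.H317.aeval_linForm, aeval_monoOrd,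
      LinearMap.mulLeft_apply]
    constructor
    · rintro ⟨τ, rfl⟩
      exact ⟨_, ⟨τ.2, rfl⟩, rfl⟩
    · rintro ⟨_, ⟨α, rfl⟩, rfl⟩
      exact ⟨((), α), rfl⟩
  rw [hspan, finrank_map_mulLeft hf]
  unfold kapN
  rcases Nat.eq_zero_or_pos (E.m - 1) with h0 | hpos
  · -- `m = 1`, `g = 0`
    have hm1 : E.m = 1 := by omega
    have hg : genusR K F = 0 := by omega
    rw [h0, hm1, hg]
    rw [Fin.prod_univ_zero, Submodule.one_eq_span, finrank_span_singleton one_ne_zero]
  · obtain ⟨e, he⟩ : ∃ e, E.m - 1 = e + 1 := ⟨E.m - 1 - 1, by omega⟩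
    rw [he, prod_L_minf E hBig e]
    have hdeg : Divisor.degree ((e + 1) • (E.m • prim E.vinf) : Divisor K F) =
        ((e + 1 : ℕ) : ℤ) * (E.m : ℤ) := by
      rw [map_nsmul, emb_degree_minf, nsmul_eq_mul]
    have h3 : (4 * (genusR K F : ℤ)) + 1 ≤ (E.m : ℤ) := by exact_mod_cast hB
    have h4 : (0 : ℤ) ≤ (e : ℤ) := Int.natCast_nonneg e
    have hell := ell_eq_of_degree_gt (K := K) (F := F)
      (D := ((e + 1) • (E.m • prim E.vinf) : Divisor K F)) (by
        rw [hdeg, genusFF_eq_genusR]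
        push_cast
        nlinarith)
    rw [hdeg, genusFF_eq_genusR] at hell
    unfold ell at hell
    have hem : E.m = e + 2 := by omega
    have h5 : ((e + 1 : ℕ) : ℤ) * (E.m : ℤ) = ((E.m * E.m : ℕ) : ℤ) - (E.m : ℤ) := by
      rw [hem]; push_cast; ring
    rw [h5] at hell
    have h6 : E.m ≤ E.m * E.m := Nat.le_mul_self E.m
    have h7 : E.m * (4 * genusR K F + 1) ≤ E.m * E.m := Nat.mul_le_mul_left _ hB
    have h8 : E.m * (4 * genusR K F + 1) = 4 * (E.m * genusR K F) + E.m := by ring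
    have h9 : genusR K F ≤ E.m * genusR K F := Nat.le_mul_of_pos_left _ (by omega)
    generalize E.m * E.m = mm at *
    generalize E.m * genusR K F = mg at *
    omega

end Fermat.Agent.S17.H317

end
end
-- ===== PACK-END S17/H317/MinorA.lean

-- ===== PACK-BEGIN S17/H710/Wall/Main.lean
section











/-!
# S17 / tower H — THE WALL, unconditional (architect helper710).  Sorry-free.

`K` algebraically closed and algebraic over `ℚ`, `F / K` a function field with `FF1 K F`,
`E : EmbData K F` with `Big E : 4 g + 1 ≤ E.m`: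

* `leaves E hE : Leaves E` — all 19 leaves of `Wall/Defs.lean`, from main
  (A1 H860, A2 H980, A3 H740, A4–A7 H380, A8–A9 H410, A10 H980, G-PT/G-CONE H440,
  G-ENUM/G-INF/G-INDEP H980, G-RANK/G-RANK-JET H230, G-MINOR-β/G-MINOR-a H317);
* `e3_main`, `adj_main`, `vdm_main` — `(E3)`, `(ADJ)`, `(VDM)` of `HContract`, UNCONDITIONAL;
* `contract_main` — the contract from `(GAUSS)`.
-/

set_option autoImplicit false

noncomputable section

namespace Fermat.Agent.S17.Wall

open AlgebraicCurve MvPolynomial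
open Fermat.Agent.Lib.RR Fermat.Agent.S17.HWall Fermat.Agent.S17.H710
open Fermat.Agent.S17.HContract

variable {K F : Type*} [Field K] [CharZero K] [Field F] [Algebra K F] [FF1 K F]
variable [IsAlgClosed K] [Algebra.IsAlgebraic ℚ K]

/-- all the leaves of the wall -/
theorem leaves (E : EmbData K F) (hE : Big E) : Leaves E where
  a1 := Fermat.Agent.S17.H860.cramerHeightStatement K
  a2 := Fermat.Agent.S17.H980.minorStatement K
  a3 := Fermat.Agent.S17.H740.multislot K
  a4 := Fermat.Agent.S17.H380.htBetaMat K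
  a5 := Fermat.Agent.S17.H380.htWMat K
  a6 := Fermat.Agent.S17.H380.htBetaCol K
  a7 := Fermat.Agent.S17.H380.htWCol K
  a8 := Fermat.Agent.S17.H410.minorPolyBeta K
  a9 := Fermat.Agent.S17.H410.minorPolyA K
  a10 := Fermat.Agent.S17.H980.pluckerStepStatement K (fun a => Algebra.IsIntegral.isIntegral a)
  pt := Fermat.Agent.S17.H440.ptStatement E
  cone := Fermat.Agent.S17.H440.coneStatement E
  enum := Fermat.Agent.S17.H980.enum
  inf := Fermat.Agent.S17.H980.inf
  indep := Fermat.Agent.S17.H980.indep E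
  rank := Fermat.Agent.S17.H230.rank E
  rankJet := Fermat.Agent.S17.H230.rankJet E
  minorBeta := Fermat.Agent.S17.H317.minorBeta E hE
  minorA := Fermat.Agent.S17.H317.minorA E hE

/-- **(E3)**: `|(Z_a . P) − h(a) − h(P)| ≤ C` for all `a ≠ 0`, `P ∉ Z_a`. -/
theorem e3_main (E : EmbData K F) (hE : Big E) : E3Statement E E :=
  e3 E hE (leaves E hE)

/-- **(ADJ)**: `(E3)` at a simple zero, regularised by `κ`. -/
theorem adj_main (E : EmbData K F) (hE : Big E) : ADJStatement E E :=
  adj E hE (leaves E hE)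

/-- **(VDM)** for at most `m − 2g + 1` distinct points. -/
theorem vdm_main (E : EmbData K F) (hE : Big E) (d₀ : ℕ)
    (hd : d₀ + 2 * genusR K F ≤ E.m + 1) : VDMStatement E E d₀ :=
  vdm E hE (leaves E hE) d₀ hd

/-- **THE WALL**: the contract, from `(GAUSS)`. -/
theorem contract_main (E : EmbData K F) (hE : Big E) (hG : GAUSSStatement E) (d₀ : ℕ)
    (hd : d₀ + 2 * genusR K F ≤ E.m + 1) : Contract E E d₀ :=
  contract E hE (leaves E hE) hG d₀ hd

end Fermat.Agent.S17.Wall

end
end
-- ===== PACK-END S17/H710/Wall/Main.lean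

-- ===== PACK-BEGIN S30/Fin/Count.lean
section
/-
S30 row, piece FIN (helper49): finiteness of the `m`-torsion of `J₀(N)(ℚ̄)` from the Kummer
relation `IsKum` of `Fermat.Agent.S29.M4b.Defs`.

`finite_torsion_of` : if every `m`-torsion class is the Kummer class of SOME function
`c : Γ₀(N) → ℤ/m` (piece `ONTO`), and Kummer classes are unique (piece `K4-UNIQ` of S29/M4b), then
`J₀(N)(ℚ̄)[m]` is finite.  Reason: the character of a twisted function is additive, `Γ₀(N)` is
finitely generated, so there are only finitely many characters.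
-/


set_option autoImplicit false

noncomputable section

open ModularCurve AlgebraicCurve CongruenceSubgroup UpperHalfPlane
open scoped MatrixGroups Manifold

namespace Fermat.Agent.S30.Fin

open Fermat.Agent.S29 Fermat.Agent.S29.M4b

/-- `SL(2, ℤ)` is finitely generated. -/
theorem fin_fg_SL2Z : Group.FG SL(2, ℤ) :=
  Group.fg_iff.mpr ⟨{ModularGroup.S, ModularGroup.T}, SpecialLinearGroup.SL2Z_generators,
    Set.toFinite _⟩

/-- `Γ₀(N)` is finitely generated (Schreier). -/
theorem fin_fg_Gamma0 (N : ℕ) [NeZero N] : Group.FG (G0 N) := by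
  have := fin_fg_SL2Z
  exact Subgroup.fg_of_index_ne_zero (Gamma0 N)

theorem fin_zetaP_isPrimitiveRoot (m : ℕ) [NeZero m] : IsPrimitiveRoot (zetaP m) m :=
  Complex.isPrimitiveRoot_exp m (NeZero.ne m)

/-- `ζ_m ^ a = ζ_m ^ b` forces `a = b` in `ℤ/m`. -/
theorem fin_natCast_eq_of_zetaP_pow_eq (m : ℕ) [NeZero m] {a b : ℕ}
    (h : zetaP m ^ a = zetaP m ^ b) : (a : ZMod m) = (b : ZMod m) := by
  have hζ := fin_zetaP_isPrimitiveRoot m
  have hne : zetaP m ≠ 0 := hζ.ne_zero (NeZero.ne m)
  have key : ∀ a b : ℕ, a ≤ b → zetaP m ^ a = zetaP m ^ b → (a : ZMod m) = (b : ZMod m) := by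
    intro a b hab h
    obtain ⟨d, rfl⟩ := Nat.exists_eq_add_of_le hab
    rw [pow_add] at h
    have h1 : zetaP m ^ d = 1 := by
      have h2 : zetaP m ^ a * 1 = zetaP m ^ a * zetaP m ^ d := by rw [mul_one]; exact h
      exact (mul_left_cancel₀ (pow_ne_zero a hne) h2).symm
    have h3 : m ∣ d := (hζ.pow_eq_one_iff_dvd d).mp h1
    rw [Nat.cast_add, (ZMod.natCast_eq_zero_iff d m).mpr h3, add_zero]
  rcases le_total a b with hab | hab
  · exact key a b hab h
  · exact (key b a hab h.symm).symm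

/-- The character of a twisted function is additive. -/
theorem fin_isTwisted_map_mul {N m : ℕ} [NeZero m] {c : G0 N → ZMod m} {U : ℍ → ℂ}
    (h : IsTwisted N m c U) (γ γ' : G0 N) : c (γ * γ') = c γ + c γ' := by
  obtain ⟨τ₀, hτ₀⟩ := h.ne_zero
  have h1 := h.hasChar (γ * γ') τ₀
  have h2 := h.hasChar γ (((γ' : G0 N) : SL(2, ℤ)) • τ₀)
  have h3 := h.hasChar γ' τ₀
  have hsmul : (((γ * γ' : G0 N) : SL(2, ℤ))) • τ₀
      = ((γ : G0 N) : SL(2, ℤ)) • ((γ' : G0 N) : SL(2, ℤ)) • τ₀ := by
    rw [← mul_smul]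
    rfl
  rw [hsmul, h2, h3, ← mul_assoc, ← pow_add] at h1
  have h4 : zetaP m ^ ((c γ).val + (c γ').val) = zetaP m ^ (c (γ * γ')).val :=
    mul_right_cancel₀ hτ₀ h1
  have h5 := fin_natCast_eq_of_zetaP_pow_eq m h4
  rw [Nat.cast_add, ZMod.natCast_zmod_val, ZMod.natCast_zmod_val, ZMod.natCast_zmod_val] at h5
  exact h5.symm

/-- The character of a Kummer class is additive. -/
theorem fin_isKum_map_mul {N m : ℕ} [NeZero N] [NeZero m] {c : G0 N → ZMod m} {x : JZero N}
    (h : IsKum N m c x) (γ γ' : G0 N) : c (γ * γ') = c γ + c γ' := by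
  obtain ⟨f, t, U, -, -, hU, -⟩ := h
  exact fin_isTwisted_map_mul hU γ γ'

/-- **FIN from ONTO and UNIQ.** -/
theorem finite_torsion_of (N : ℕ) [NeZero N] (m : ℕ) [NeZero m]
    (hex : ∀ x : JZero N, (m : ℤ) • x = 0 → ∃ c : G0 N → ZMod m, IsKum N m c x)
    (huniq : ∀ (c : G0 N → ZMod m) (x x' : JZero N), IsKum N m c x → IsKum N m c x' → x = x') :
    {x : JZero N | (m : ℤ) • x = 0}.Finite := by
  classical
  obtain ⟨S, hS, hSfin⟩ := Group.fg_iff.mp (fin_fg_Gamma0 N)
  have : Finite S := hSfin.to_subtype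
  choose! c hc using hex
  -- the character of `x` as a monoid homomorphism
  have hone : ∀ x : JZero N, (m : ℤ) • x = 0 → c x 1 = 0 := by
    intro x hx
    have h := fin_isKum_map_mul (hc x hx) 1 1
    rw [mul_one] at h
    exact left_eq_add.mp h
  let φ : {x : JZero N // (m : ℤ) • x = 0} → (S → ZMod m) := fun x s => c x.1 s.1
  have hinj : Function.Injective φ := by
    rintro ⟨x, hx⟩ ⟨x', hx'⟩ h
    let f : G0 N →* Multiplicative (ZMod m) :=
      { toFun := fun γ => Multiplicative.ofAdd (c x γ)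
        map_one' := by
          show Multiplicative.ofAdd (c x 1) = 1
          rw [hone x hx]; rfl
        map_mul' := fun γ γ' => by
          show Multiplicative.ofAdd (c x (γ * γ')) = _
          rw [fin_isKum_map_mul (hc x hx) γ γ']; rfl }
    let f' : G0 N →* Multiplicative (ZMod m) :=
      { toFun := fun γ => Multiplicative.ofAdd (c x' γ)
        map_one' := by
          show Multiplicative.ofAdd (c x' 1) = 1
          rw [hone x' hx']; rfl
        map_mul' := fun γ γ' => by
          show Multiplicative.ofAdd (c x' (γ * γ')) = _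
          rw [fin_isKum_map_mul (hc x' hx') γ γ']; rfl }
    have hff' : f = f' := by
      refine MonoidHom.eq_of_eqOn_dense hS ?_
      intro s hs
      show Multiplicative.ofAdd (c x s) = Multiplicative.ofAdd (c x' s)
      have := congrFun h ⟨s, hs⟩
      exact congrArg Multiplicative.ofAdd this
    have hcc : c x = c x' := by
      funext γ
      have := DFunLike.congr_fun hff' γ
      exact Multiplicative.ofAdd.injective this
    apply Subtype.ext
    have h1 := hc x hx
    rw [hcc] at h1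
    exact huniq (c x') x x' h1 (hc x' hx')
  have hfin : Finite {x : JZero N // (m : ℤ) • x = 0} := Finite.of_injective φ hinj
  exact Set.finite_coe_iff.mp hfin

end Fermat.Agent.S30.Fin

end
end
-- ===== PACK-END S30/Fin/Count.lean

-- ===== PACK-BEGIN S37/Core/RimGlue.lean
section







/-!
# S37 row-lead (helper37): `node_rim` from ONE concrete reduction datum      (BOARD v3)

The abstract reduction theorem is complete on `main`
(`Red.H940.main_of_fibreSum` + `Red.H160.fibreSumStatement` + `Red.H399.normRed`):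
a reduction datum `G : Red.Datum A π F Fk` with good charts has a place map `r` with (i), (ii).

This file is the last formal step: for a datum on `(F_M, F_{M,k})` which is *linked* to the
`q`-expansion integrality of the Prelude (`Red.H759.Link`, helper759), the abstract (i), (ii) are the Prelude's
`IsPlaceReductionModL`, and with PGI (`H98.gen`, on main) we get

  `node_rim_of_datum : G.Good → Red.H759.Link G → ReductionInputsModL A M`.

So `node_rim` of the S37 board == existence of `G` with `G.Good` and `H759.Link G`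
(= `Red.ModDatum` without its two Galois fields, which are no longer needed).
The coordinate `G.x` is arbitrary (`j`, `t₂`, `t₃`, …).
-/

set_option autoImplicit false
set_option synthInstance.maxHeartbeats 400000

noncomputable section

namespace Fermat.Agent.S37.Core

open ModularCurve AlgebraicCurve HahnSeries IsLocalRing Fermat.Agent.S37.Red

/-- **RED-E1**: the abstract (i), (ii) of a linked datum are the Prelude's
`IsPlaceReductionModL`. -/
theorem isPlaceReductionModL_of_isRed {M : ℕ} {A : ValuationSubring (AlgebraicClosure ℚ)}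
    (G : Datum A (residue A) (modularFunctionFieldBar M)
      (modularFunctionFieldFullC (ResidueField A) M))
    (hlink : H759.Link G)
    (r : Place (AlgebraicClosure ℚ) (modularFunctionFieldBar M) →
      Place (ResidueField A) (modularFunctionFieldFullC (ResidueField A) M))
    (hr : IsRed G r) : IsPlaceReductionModL A M r := by
  refine ⟨hr.1, ?_⟩
  intro y hy hyk hne D hD Q
  obtain ⟨h, hρ⟩ := hlink y hy hyk hne
  have hne' : G.ρ ⟨⟨coeffMap A.subtype y, hy⟩, h⟩ ≠ 0 := by
    rw [hρ]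
    intro h0
    exact hne (congrArg Subtype.val h0)
  have := hr.2 ⟨coeffMap A.subtype y, hy⟩ h hne' D hD Q
  rw [this, hρ]

/-- **`node_rim` from a linked datum with good charts.** -/
theorem node_rim_of_datum (M : ℕ) [NeZero M] (ℓ : ℕ) (hℓ : ℓ.Prime) (hℓM : ¬ ℓ ∣ M)
    (A : ValuationSubring (AlgebraicClosure ℚ)) (hA : A.LiesOverPrime ℓ)
    (G : Datum A (residue A) (modularFunctionFieldBar M)
      (modularFunctionFieldFullC (ResidueField A) M))
    (hgood : G.Good) (hlink : H759.Link G) : ReductionInputsModL A M := by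
  haveI : IsAlgClosed (ResidueField A) := Fermat.Agent.S18.H9.resAlgClosed _ A
  obtain ⟨r, hr, -⟩ := H940.main_of_fibreSum G hgood (H160.fibreSumStatement G)
  exact ⟨r, isPlaceReductionModL_of_isRed G hlink r hr, H98.gen M ℓ hℓ hℓM A hA⟩

/-- The same with (H4') removed: (H1) + (H3) + link. -/
theorem node_rim_of_datum' (M : ℕ) [NeZero M] (ℓ : ℕ) (hℓ : ℓ.Prime) (hℓM : ¬ ℓ ∣ M)
    (A : ValuationSubring (AlgebraicClosure ℚ)) (hA : A.LiesOverPrime ℓ)
    (G : Datum A (residue A) (modularFunctionFieldBar M)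
      (modularFunctionFieldFullC (ResidueField A) M))
    (finite : FiniteDimensional (IntermediateField.adjoin (AlgebraicClosure ℚ) {G.x})
      (modularFunctionFieldBar M))
    (finite_k : FiniteDimensional (IntermediateField.adjoin (ResidueField A) {G.xk})
      (modularFunctionFieldFullC (ResidueField A) M))
    (sep_k : Algebra.IsSeparable (IntermediateField.adjoin (ResidueField A) {G.xk})
      (modularFunctionFieldFullC (ResidueField A) M))
    (finrank_eq : Module.finrank (IntermediateField.adjoin (AlgebraicClosure ℚ) {G.x})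
        (modularFunctionFieldBar M) =
      Module.finrank (IntermediateField.adjoin (ResidueField A) {G.xk})
        (modularFunctionFieldFullC (ResidueField A) M))
    (lift_fin : ∀ c ∈ G.chartk G.xk, ∃ b ∈ G.chart G.x, ∃ hb : b ∈ G.O, G.ρ ⟨b, hb⟩ = c)
    (lift_inf : ∀ c ∈ G.chartk G.xk⁻¹, ∃ b ∈ G.chart G.x⁻¹, ∃ hb : b ∈ G.O, G.ρ ⟨b, hb⟩ = c)
    (hlink : H759.Link G) : ReductionInputsModL A M :=
  node_rim_of_datum M ℓ hℓ hℓM A hA G
    (H217.good_of G finite finite_k sep_k finrank_eq lift_fin lift_inf) hlink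

end Fermat.Agent.S37.Core

end
end
-- ===== PACK-END S37/Core/RimGlue.lean

-- ===== PACK-BEGIN S29/M4b/K3/Defs.lean
section
/-
S29 row, LAYER M, SUB-LAYER M4b, PIECE K3 (descent `ℂ → ℚ̄`) — interface definitions of the
K3 sub-skeleton (helper42, squad-lead S29/S42).  Namespace `Fermat.Agent.S29.M4b.K3`.

K3 (`exists_realised_isTwisted` of `M4b/Skeleton.lean`) is PROVED in `M4b/K3/Top.lean` from
* `H152.desc_main` (helper152; places-free descent of Kummer classes),
* the landed ROOT lemma `H751.exists_pow_eq_UHP`, MERO `H882`, and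
* the two `Prop`s below: `DegStatement` (bounded degree of `F_ℂ` over `ℂ(j)`) and `FinStatement`
  (finiteness of the `Aut(ℂ/ℚ̄)`-orbit of the Kummer class of a twisted function).
-/


set_option autoImplicit false

noncomputable section

open ModularCurve AlgebraicCurve CongruenceSubgroup UpperHalfPlane
open scoped MatrixGroups Manifold

namespace Fermat.Agent.S29.M4b.K3

open Fermat.Agent.S24 Fermat.Agent.S24.H648 Fermat.Agent.S24.H708 Fermat.Agent.S24.Deg457
open Fermat.Agent.S29 Fermat.Agent.S29.M4b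

/-- `ℂ` as an algebra over `ℚ̄` along the fixed embedding `Deg457.iotaC`.  (A `def`, not an
instance: use `letI := algKC`.) -/
@[reducible] def algKC : Algebra Kbar ℂ := iotaC.toAlgebra

/-- The function field of `X₀(N)` over `ℂ` inside `ℂ((q))` (Prelude object). -/
abbrev FC (N : ℕ) : IntermediateField ℂ (LaurentSeries ℂ) :=
  laurentBaseChange ℂ (modularFunctionFieldFull N)

/-- SUB-PIECE `K3-DEG`: the function field `F_ℂ = ℂ(j(q^d) : d ∣ N)` has bounded degree over
`ℂ(j)` (every element is a root of a polynomial of degree `≤ n` over `ℂ(j)`).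
Exactly the hypothesis `hdeg` of `H152.desc_main`. -/
def DegStatement (N : ℕ) : Prop :=
  ∃ n : ℕ, ∀ u ∈ FC N,
    IsIntegral (IntermediateField.adjoin ℂ {coeffEmb ℂ jq}) u ∧
      (minpoly (IntermediateField.adjoin ℂ {coeffEmb ℂ jq}) u).natDegree ≤ n

/-- SUB-PIECE `K3-FIN` (the arithmetic heart of K3): for a twisted function `U` of a parabolic
character, the `Aut(ℂ/ℚ̄)`-orbit of the class of `f = qexp (U ^ p)` in `F_ℂˣ / (F_ℂˣ) ^ p` is
finite.  Exactly the hypothesis `horb` of `H152.desc_main`.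

Why true: `p ∣ ord_w f` at every place `w` of `F_ℂ/ℂ` (K2 over `ℂ`); `σ` permutes the places, so
the same holds for `σ f`, which is again the `q`-expansion of a good function `G_σ` (`σ f` is
integral over `ℂ[j]`); by the easy half of the dictionary `p ∣ ord_τ G_σ` for all `τ ∈ ℍ`, so
`G_σ = U_σ ^ p` (ROOT) and `U_σ` has a character `χ_σ : Γ₀(N) → μ_p`
(`H751.exists_character_of_pow_eq`); there are finitely many characters (`Γ₀(N)` is finitely
generated), and `χ_σ = χ_σ'` implies `σ f / σ' f = (U_σ U_σ' ^ (p-1) / G_σ') ^ p ∈ (F_ℂˣ) ^ p`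
(MERO applied to the good invariant function `U_σ U_σ' ^ (p-1)`). -/
def FinStatement (N p : ℕ) : Prop :=
  letI := algKC
  ∀ (c : G0 N → ZMod p), IsParHom c → ∀ U : ℍ → ℂ, IsTwisted N p c U →
    ∃ T : Set (LaurentSeries ℂ), T.Finite ∧ ∀ σ : ℂ ≃ₐ[Kbar] ℂ, ∃ t ∈ T,
      ∃ u ∈ FC N, u ≠ 0 ∧
        coeffMap (σ : ℂ →+* ℂ) (qexpFun 1 (fun τ => U τ ^ p)) = t * u ^ p

end Fermat.Agent.S29.M4b.K3

end
end
-- ===== PACK-END S29/M4b/K3/Defs.lean

-- ===== PACK-BEGIN S29/H942/SameChar.lean
section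


/-!
# S29 / M4b / K3 (DESC), sub-piece (B) "FINITE" (helper942)

Two twisted functions of the SAME character have `p`-th powers whose `q`-expansions differ by a
`p`-th power of the function field `F_ℂ = laurentBaseChange ℂ (modularFunctionFieldFull N)`.

* `expGrowth_of_pow` : root of a growth bound.
* `mem_goodRing_of_pow_mem` : a holomorphic `Γ₀(N)`-invariant function with a good power is good.
* `mul_pow_pred_mem_goodRing` : `U * V ^ (p - 1)` is good for `U`, `V` twisted of the same
  character.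
* `exists_pow_mul_eq_of_isTwisted` : `qexp (U ^ p) = g ^ p * qexp (V ^ p)` with `g ∈ F_ℂ`, `g ≠ 0`.
* `exists_pow_mul_eq_of_realised` : the same for data `(f, t, U)` with `qexp (U ^ p) = f * t ^ p`
  (the shape used in `IsKum`).
-/

set_option autoImplicit false

noncomputable section

open ModularCurve AlgebraicCurve CongruenceSubgroup UpperHalfPlane
open scoped MatrixGroups Manifold

namespace Fermat.Agent.S29.H942

open Fermat.Agent.S24 Fermat.Agent.S29 Fermat.Agent.S29.M4b

/-- Root of a growth bound: if `f ^ p` (`p ≠ 0`) has at most exponential growth, so has `f`. -/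
theorem expGrowth_of_pow {f : ℍ → ℂ} {p : ℕ} (hp : p ≠ 0)
    (h : H648.ExpGrowth (fun τ => f τ ^ p)) : H648.ExpGrowth f := by
  obtain ⟨C, m, hC⟩ := h
  refine ⟨max C 1, m, fun τ hτ => ?_⟩
  have hexp : (1 : ℝ) ≤ Real.exp (2 * Real.pi * m * τ.im) := by
    apply Real.one_le_exp
    have := Real.pi_pos
    have := τ.im_pos
    positivity
  have hpow := hC τ hτ
  rw [norm_pow] at hpow
  rcases le_total ‖f τ‖ 1 with h1 | h1
  · calc ‖f τ‖ ≤ 1 := h1
      _ = 1 * 1 := (one_mul 1).symm
      _ ≤ max C 1 * Real.exp (2 * Real.pi * m * τ.im) :=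
          mul_le_mul (le_max_right _ _) hexp zero_le_one (le_trans zero_le_one (le_max_right _ _))
  · calc ‖f τ‖ ≤ ‖f τ‖ ^ p := le_self_pow₀ h1 hp
      _ ≤ C * Real.exp (2 * Real.pi * m * τ.im) := hpow
      _ ≤ max C 1 * Real.exp (2 * Real.pi * m * τ.im) := by
          gcongr
          exact le_max_left _ _

/-- A holomorphic `Γ₀(N)`-invariant function one of whose powers is good is good. -/
theorem mem_goodRing_of_pow_mem (N : ℕ) {W : ℍ → ℂ} {p : ℕ} (hp : p ≠ 0)
    (hW : MDifferentiable 𝓘(ℂ) 𝓘(ℂ) W)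
    (hinv : ∀ γ ∈ Gamma0 N, ∀ τ : ℍ, W (γ • τ) = W τ)
    (hpow : (fun τ => W τ ^ p) ∈ H648.goodRing N) : W ∈ H648.goodRing N := by
  refine ⟨hW, hinv, fun g => ?_⟩
  exact expGrowth_of_pow hp (hpow.2.2 g)

/-- `ζ_p ^ p = 1`. -/
theorem zetaP_pow_self' (p : ℕ) [NeZero p] : zetaP p ^ p = 1 := by
  unfold zetaP
  rw [← Complex.exp_nat_mul]
  have hp : (p : ℂ) ≠ 0 := Nat.cast_ne_zero.mpr (NeZero.ne p)
  rw [mul_div_cancel₀ _ hp]
  exact Complex.exp_two_pi_mul_I

variable (N : ℕ) [NeZero N] (p : ℕ) [NeZero p]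

/-- For `U`, `V` of the same character, `U * V ^ (p - 1)` is `Γ₀(N)`-invariant. -/
theorem mul_pow_pred_invariant {c : G0 N → ZMod p} {U V : ℍ → ℂ}
    (hU : HasChar N p c U) (hV : HasChar N p c V) (γ : SL(2, ℤ)) (hγ : γ ∈ Gamma0 N) (τ : ℍ) :
    U (γ • τ) * V (γ • τ) ^ (p - 1) = U τ * V τ ^ (p - 1) := by
  have h1 := hU ⟨γ, hγ⟩ τ
  have h2 := hV ⟨γ, hγ⟩ τ
  simp only at h1 h2
  rw [h1, h2, mul_pow, ← pow_mul]
  have hp1 : 1 ≤ p := Nat.one_le_iff_ne_zero.mpr (NeZero.ne p)
  have hz : zetaP p ^ (c ⟨γ, hγ⟩).val * zetaP p ^ ((c ⟨γ, hγ⟩).val * (p - 1)) = 1 := by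
    rw [← pow_add]
    have : (c ⟨γ, hγ⟩).val + (c ⟨γ, hγ⟩).val * (p - 1) = p * (c ⟨γ, hγ⟩).val := by
      have hpp : p - 1 + 1 = p := Nat.sub_add_cancel hp1
      calc (c ⟨γ, hγ⟩).val + (c ⟨γ, hγ⟩).val * (p - 1)
          = (c ⟨γ, hγ⟩).val * (p - 1 + 1) := by ring
        _ = p * (c ⟨γ, hγ⟩).val := by rw [hpp, mul_comm]
    rw [this, pow_mul, zetaP_pow_self', one_pow]
  calc zetaP p ^ (c ⟨γ, hγ⟩).val * U τ * (zetaP p ^ ((c ⟨γ, hγ⟩).val * (p - 1)) * V τ ^ (p - 1))
      = (zetaP p ^ (c ⟨γ, hγ⟩).val * zetaP p ^ ((c ⟨γ, hγ⟩).val * (p - 1))) *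
          (U τ * V τ ^ (p - 1)) := by ring
    _ = U τ * V τ ^ (p - 1) := by rw [hz, one_mul]

/-- For `U`, `V` twisted of the same character, `U * V ^ (p - 1)` is good. -/
theorem mul_pow_pred_mem_goodRing {c : G0 N → ZMod p} {U V : ℍ → ℂ}
    (hU : IsTwisted N p c U) (hV : IsTwisted N p c V) :
    (fun τ => U τ * V τ ^ (p - 1)) ∈ H648.goodRing N := by
  refine mem_goodRing_of_pow_mem N (NeZero.ne p) (hU.mdiff.mul (hV.mdiff.pow (p - 1)))
    (fun γ hγ τ => mul_pow_pred_invariant N p hU.hasChar hV.hasChar γ hγ τ) ?_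
  have h : (fun τ => (U τ * V τ ^ (p - 1)) ^ p)
      = (fun τ => U τ ^ p) * (fun τ => V τ ^ p) ^ (p - 1) := by
    funext τ
    simp only [Pi.mul_apply, Pi.pow_apply]
    rw [mul_pow, ← pow_mul, ← pow_mul, mul_comm (p - 1) p]
  rw [h]
  exact (H648.goodRing N).mul_mem hU.pow_mem ((H648.goodRing N).pow_mem hV.pow_mem _)

/-- `qexpFun` commutes with powers of functions meromorphic at `i∞`. -/
theorem qexpFun_pow' {f : ℍ → ℂ} (hf : H708.IsMerInf 1 f) (n : ℕ) :
    H708.qexpFun 1 (f ^ n) = H708.qexpFun 1 f ^ n := by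
  induction n with
  | zero =>
      rw [pow_zero, pow_zero]
      have h1 : (1 : ℍ → ℂ) = fun _ => (1 : ℂ) := rfl
      rw [h1, H708.qexpFun_const]
      simp
  | succ n ih => rw [pow_succ, H708.qexpFun_mul (hf.pow n) hf, ih, pow_succ]

omit [NeZero N] [NeZero p] in
/-- A twisted function has a nonzero `p`-th power. -/
theorem pow_ne_zero_of_isTwisted {c : G0 N → ZMod p} {U : ℍ → ℂ} (hU : IsTwisted N p c U) :
    (fun τ => U τ ^ p) ≠ 0 := by
  obtain ⟨τ, hτ⟩ := hU.ne_zero
  intro h0
  exact pow_ne_zero p hτ (congrFun h0 τ)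

/-- The `q`-expansion of the `p`-th power of a twisted function is a nonzero element of `F_ℂ`. -/
theorem qexpFun_pow_ne_zero_of_isTwisted {c : G0 N → ZMod p} {U : ℍ → ℂ}
    (hU : IsTwisted N p c U) : H708.qexpFun 1 (fun τ => U τ ^ p) ≠ 0 := by
  intro h0
  exact pow_ne_zero_of_isTwisted N p hU
    ((H708.qexpFun_eq_zero_iff (H882.isMerInf_of_mem_goodRing hU.pow_mem)).mp h0)

/-- **Sub-piece (B) of K3.**  If `U` and `V` are twisted functions of the same character `c`, then
the `q`-expansions of `U ^ p` and `V ^ p` differ by the `p`-th power of a nonzero element of the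
function field `F_ℂ` of `X₀(N)` over `ℂ`. -/
theorem exists_pow_mul_eq_of_isTwisted {c : G0 N → ZMod p} {U V : ℍ → ℂ}
    (hU : IsTwisted N p c U) (hV : IsTwisted N p c V) :
    ∃ g : LaurentSeries ℂ, g ∈ H882.FC N ∧ g ≠ 0 ∧
      H708.qexpFun 1 (fun τ => U τ ^ p) = g ^ p * H708.qexpFun 1 (fun τ => V τ ^ p) := by
  set W : ℍ → ℂ := fun τ => U τ * V τ ^ (p - 1) with hWdef
  have hW : W ∈ H648.goodRing N := mul_pow_pred_mem_goodRing N p hU hV
  have hWm := H882.isMerInf_of_mem_goodRing hW
  have hUm := H882.isMerInf_of_mem_goodRing hU.pow_mem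
  have hVm := H882.isMerInf_of_mem_goodRing hV.pow_mem
  set w := H708.qexpFun 1 W with hw
  set a := H708.qexpFun 1 (fun τ => U τ ^ p) with ha
  set b := H708.qexpFun 1 (fun τ => V τ ^ p) with hb
  have hwFC : w ∈ H882.FC N := H882.qexpFun_mem_FC hW
  have hbFC : b ∈ H882.FC N := H882.qexpFun_mem_FC hV.pow_mem
  have hb0 : b ≠ 0 := qexpFun_pow_ne_zero_of_isTwisted N p hV
  have ha0 : a ≠ 0 := qexpFun_pow_ne_zero_of_isTwisted N p hU
  -- `w ^ p = a * b ^ (p - 1)`
  have hfun : W ^ p = (fun τ => U τ ^ p) * (fun τ => V τ ^ p) ^ (p - 1) := by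
    funext τ
    simp only [hWdef, Pi.mul_apply, Pi.pow_apply]
    rw [mul_pow, ← pow_mul, ← pow_mul, mul_comm (p - 1) p]
  have hwp : w ^ p = a * b ^ (p - 1) := by
    rw [hw, ← qexpFun_pow' hWm p, hfun, H708.qexpFun_mul hUm (hVm.pow (p - 1)),
      qexpFun_pow' hVm (p - 1)]
  have hp1 : p - 1 + 1 = p := Nat.sub_add_cancel (Nat.one_le_iff_ne_zero.mpr (NeZero.ne p))
  refine ⟨w * b⁻¹, mul_mem hwFC (inv_mem hbFC), ?_, ?_⟩
  · refine mul_ne_zero ?_ (inv_ne_zero hb0)
    intro h0
    rw [h0, zero_pow (NeZero.ne p)] at hwp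
    exact mul_ne_zero ha0 (pow_ne_zero _ hb0) hwp.symm
  · rw [mul_pow, hwp, inv_pow]
    have hbp : b ^ p = b ^ (p - 1) * b := by rw [← pow_succ, hp1]
    rw [hbp, mul_inv]
    field_simp

/-- Variant of (B) for data in the shape of `IsKum`: if `qexp (U ^ p) = f * t ^ p` and
`qexp (V ^ p) = f' * t' ^ p` with `U`, `V` twisted of the same character, `t, t' ≠ 0`, then
`f = g ^ p * f'` for some nonzero `g ∈ F_ℂ` (provided `t, t' ∈ F_ℂ`). -/
theorem exists_pow_mul_eq_of_realised {c : G0 N → ZMod p} {U V : ℍ → ℂ}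
    (hU : IsTwisted N p c U) (hV : IsTwisted N p c V) {f t f' t' : LaurentSeries ℂ}
    (ht : t ∈ H882.FC N) (ht0 : t ≠ 0) (ht' : t' ∈ H882.FC N) (ht0' : t' ≠ 0)
    (hf : H708.qexpFun 1 (fun τ => U τ ^ p) = f * t ^ p)
    (hf' : H708.qexpFun 1 (fun τ => V τ ^ p) = f' * t' ^ p) :
    ∃ g : LaurentSeries ℂ, g ∈ H882.FC N ∧ g ≠ 0 ∧ f = g ^ p * f' := by
  obtain ⟨g, hg, hg0, h⟩ := exists_pow_mul_eq_of_isTwisted N p hU hV
  refine ⟨g * t' * t⁻¹, mul_mem (mul_mem hg ht') (inv_mem ht),
    mul_ne_zero (mul_ne_zero hg0 ht0') (inv_ne_zero ht0), ?_⟩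
  rw [hf, hf'] at h
  have htp : t ^ p ≠ 0 := pow_ne_zero _ ht0
  rw [mul_pow, mul_pow, inv_pow]
  field_simp
  rw [h]
  ring

end Fermat.Agent.S29.H942

end
end
-- ===== PACK-END S29/H942/SameChar.lean

-- ===== PACK-BEGIN S29/M4b/H822/Basic.lean
section
/-
S29 / M4b (helper822): basic API for the frozen definitions of `M4b/Defs.lean`
(roots of unity, characters, realisations).  Sorry-free.
-/


set_option autoImplicit false

noncomputable section

open ModularCurve AlgebraicCurve CongruenceSubgroup UpperHalfPlane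
open scoped MatrixGroups Manifold

namespace Fermat.Agent.S29.M4b.H822

open Fermat.Agent.S24 Fermat.Agent.S29 Fermat.Agent.S29.M4b

/-! ### The root of unity `zetaP p` -/

theorem isPrimitiveRoot_zetaP (p : ℕ) [NeZero p] : IsPrimitiveRoot (zetaP p) p := by
  unfold zetaP
  exact Complex.isPrimitiveRoot_exp p (NeZero.ne p)

theorem zetaP_pow_self (p : ℕ) [NeZero p] : zetaP p ^ p = 1 :=
  (isPrimitiveRoot_zetaP p).pow_eq_one

theorem zetaP_ne_zero (p : ℕ) [NeZero p] : zetaP p ≠ 0 := by
  unfold zetaP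
  exact Complex.exp_ne_zero _

theorem zetaP_pow_val_add (p : ℕ) [NeZero p] (a b : ZMod p) :
    zetaP p ^ (a + b).val = zetaP p ^ a.val * zetaP p ^ b.val := by
  rw [ZMod.val_add, ← pow_add, ← pow_eq_pow_mod _ (zetaP_pow_self p)]

theorem zetaP_pow_val_eq_one_iff (p : ℕ) [NeZero p] (a : ZMod p) :
    zetaP p ^ a.val = 1 ↔ a = 0 := by
  rw [(isPrimitiveRoot_zetaP p).pow_eq_one_iff_dvd]
  constructor
  · intro h
    have h1 : a.val = 0 := Nat.eq_zero_of_dvd_of_lt h (ZMod.val_lt a)
    exact (ZMod.val_eq_zero a).mp h1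
  · rintro rfl
    simp

theorem zetaP_pow_val_zero (p : ℕ) [NeZero p] : zetaP p ^ (0 : ZMod p).val = 1 := by
  simp

/-! ### Characters -/

theorem hasChar_mul {N p : ℕ} [NeZero p] {c c' : G0 N → ZMod p} {U U' : ℍ → ℂ}
    (h : HasChar N p c U) (h' : HasChar N p c' U') :
    HasChar N p (c + c') (fun τ => U τ * U' τ) := by
  intro γ τ
  show U _ * U' _ = _
  rw [h γ τ, h' γ τ, Pi.add_apply, zetaP_pow_val_add]
  ring

theorem hasChar_pow_invariant {N p : ℕ} [NeZero p] {c : G0 N → ZMod p} {U : ℍ → ℂ}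
    (h : HasChar N p c U) (γ : G0 N) (τ : ℍ) :
    U ((γ : SL(2, ℤ)) • τ) ^ p = U τ ^ p := by
  rw [h γ τ, mul_pow, ← pow_mul, mul_comm (c γ).val p, pow_mul, zetaP_pow_self, one_pow, one_mul]

/-! ### Realisations -/

section Realises

variable {N : ℕ} [NeZero N]

theorem realises_mem {u : FF N} {G : ℍ → ℂ} (h : Realises N u G) : G ∈ H648.goodRing N := h.1

theorem realises_isMerInf {u : FF N} {G : ℍ → ℂ} (h : Realises N u G) : H708.IsMerInf 1 G :=
  H882.isMerInf_of_mem_goodRing h.1

theorem realises_hasQExp {u : FF N} {G : ℍ → ℂ} (h : Realises N u G) :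
    H708.HasQExp 1 G (coeffMap Deg457.iotaC ((u : FF N) : LaurentSeries Kbar)) :=
  ⟨realises_isMerInf h, h.2⟩

theorem realises_of_hasQExp {u : FF N} {G : ℍ → ℂ} (hG : G ∈ H648.goodRing N)
    (h : H708.HasQExp 1 G (coeffMap Deg457.iotaC ((u : FF N) : LaurentSeries Kbar))) :
    Realises N u G :=
  ⟨hG, h.2⟩

theorem realises_mul {u v : FF N} {G H : ℍ → ℂ} (hu : Realises N u G) (hv : Realises N v H) :
    Realises N (u * v) (G * H) := by
  refine realises_of_hasQExp ((H648.goodRing N).mul_mem hu.1 hv.1) ?_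
  have := (realises_hasQExp hu).mul (realises_hasQExp hv)
  simpa using this

theorem realises_pow {u : FF N} {G : ℍ → ℂ} (hu : Realises N u G) (n : ℕ) :
    Realises N (u ^ n) (G ^ n) := by
  refine realises_of_hasQExp ((H648.goodRing N).pow_mem hu.1 n) ?_
  have := (realises_hasQExp hu).pow n
  simpa using this

theorem coeffMap_iotaC_injective :
    Function.Injective (coeffMap Deg457.iotaC : LaurentSeries Kbar → LaurentSeries ℂ) := by
  intro x y h
  ext n
  have h1 := congrArg (fun z : LaurentSeries ℂ => z.coeff n) h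
  simp only [coeffMap] at h1
  exact Deg457.iotaC.injective (by simpa using h1)

/-- A realisation of a nonzero element is not the zero function. -/
theorem realises_ne_zero {u : FF N} {G : ℍ → ℂ} (h : Realises N u G) (hu : u ≠ 0) : G ≠ 0 := by
  intro hG
  have h1 := ((realises_hasQExp h).eq_zero_iff).mpr hG
  have h2 : ((u : FF N) : LaurentSeries Kbar) = 0 :=
    coeffMap_iotaC_injective (by rw [h1, map_zero])
  exact hu (Subtype.ext h2)

/-- The realised element is determined by the function. -/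
theorem realises_unique_left {u v : FF N} {G : ℍ → ℂ} (hu : Realises N u G)
    (hv : Realises N v G) : u = v := by
  apply Subtype.ext
  apply coeffMap_iotaC_injective
  rw [← hu.2, ← hv.2]

/-- The function is determined by the realised element. -/
theorem realises_unique_right {u : FF N} {G H : ℍ → ℂ} (hG : Realises N u G)
    (hH : Realises N u H) : G = H :=
  (realises_hasQExp hG).eq_of_eq (realises_hasQExp hH)

/-- Every element of the polynomial ring `ℚ̄[j(q^d) : d ∣ N]` is realised by a good function. -/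
theorem exists_realises_of_mem_AK {a : FF N}
    (ha : ((a : FF N) : LaurentSeries Kbar) ∈ Deg457.AK Kbar N) :
    ∃ G : ℍ → ℂ, Realises N a G := by
  have h1 := Deg457.coeffMap_mem_AK Deg457.iotaC ha
  obtain ⟨G, hG, hq⟩ := H882.AK_le_goodQ N h1
  exact ⟨G, hG, hq.2⟩

end Realises

end Fermat.Agent.S29.M4b.H822

end
end
-- ===== PACK-END S29/M4b/H822/Basic.lean

-- ===== PACK-BEGIN S15/H337/Spec.lean
section







/-!
# Row S15, DESC tower COUNT for `r` odd — interface (helper337)

Blueprint: `coord/S15-DESC-blueprint.md` sec. 6 (row-lead helper975); design of this tower: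
`coord/S15-COUNT-helper337.md` (origin/helper337).

Target `CountOddStatement`: for every level `N`, every odd prime `r` and every element `t` of the
ring generated by the Hecke operators `T_ℓ`, `ℓ ∤ N r`, the `+1` and the `-1` eigenspace of the
complex conjugation on `ker t ∩ J₀(N)[r]` have the same number of elements.  With `t = 1 - e`,
`e` the Hecke projector on the Eisenstein part `W_E` of `W = J₀(N)[r]`, this is
`#{ψ_i = 1} = dim W_E^{c = +1} = D / 2`.

Route (no Weil pairing, no Jacobian over `ℂ`):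

* (KUM) the Kummer dictionary `J₀(N)[r] ≃ {parabolic characters Γ₀(N) → ℤ/r}` on main
  (`S30.Chain.kumPackage`, `S30.H810.exists_isParHom_isKum_of_torsion`) is bijective, additive and
  Hecke-equivariant at `ℓ ∤ N r`;
* (CONJ) `KumConjStatement`: it turns the complex conjugation into `c ↦ - c ∘ ε`,
  `ε = ` conjugation by `diag(1,-1)` (Prelude `jConjGamma0`): if `U` is a twisted function of
  character `c` then `τ ↦ conj (U (-conj τ))` is one of character `- c ∘ ε`, with conjugate
  `q`-expansion;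
* (EPS) `ManinPairingEpsStatement`: the Manin pairing of row S41 (perfect, Hecke self-adjoint:
  `S41.H221.pd`, `pdHecke`) is ANTI-invariant under `ε`; proof by the β-formula, `ε` maps the
  positive primitive parabolic generators to the inverses of such (`CuspSystemEpsStatement`);
* (LIN) for `r` odd the two eigenspaces of `ε` are then isotropic, hence dual to each other as
  Hecke modules, hence `dim ker (t | C⁺) = dim ker (t | C⁻)`.

Definitions and statements only (all proved in `CountMain.lean`).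
-/

set_option autoImplicit false

noncomputable section

namespace Fermat.Agent.S15.H337

open CongruenceSubgroup Matrix.SpecialLinearGroup ModularCurve ModularCurve.Period
open Fermat.Agent.S41.Spec Fermat.Agent.S29 Fermat.Agent.S29.M4b
open scoped MatrixGroups

universe u

/-- (CUSP-eps) `γ ↦ ε(γ)⁻¹` maps cusp systems of `Γ₀(n)` to cusp systems. -/
def CuspSystemEpsStatement : Prop :=
  ∀ (n : ℕ) (ι : Type) (γ : ι → Gamma0 n), IsCuspSystem (Gamma0 n) γ →
    IsCuspSystem (Gamma0 n) (fun i => (jConjGamma0 n (γ i))⁻¹)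

/-- (EPS) the Manin pairing is anti-invariant under the involution `ε`. -/
def ManinPairingEpsStatement : Prop :=
  ∀ (n : ℕ), n ≠ 0 → ∀ (F : Type u) [Field F] (φ ψ : Additive (Gamma0 n) →+ F),
    IsCuspidal φ → IsCuspidal ψ →
      maninPairing (Gamma0 n) (charInvolution n F F φ) (charInvolution n F F ψ) =
        - maninPairing (Gamma0 n) φ ψ

/-- (CONJ) the Kummer dictionary turns the complex conjugation into `c ↦ - c ∘ ε`. -/
def KumConjStatement : Prop :=
  ∀ (N m : ℕ) [NeZero N] [NeZero m] (c : G0 N → ZMod m) (x : JZero N),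
    IsKum N m c x → IsKum N m (fun γ => - c (jConjGamma0 N γ)) (complexConjugation • x)

/-- The Hecke operators `T_ℓ`, `ℓ ∤ N r`, on `J₀(N)(ℚ̄)`. -/
def awayHecke (N r : ℕ) [NeZero N] : Set (Module.End ℤ (JZero N)) :=
  {T | ∃ ℓ : Nat.Primes, ¬ (ℓ : ℕ) ∣ N * r ∧ T = heckeOperatorBar N ℓ}

/-- The ring generated by them. -/
def awayHeckeAlg (N r : ℕ) [NeZero N] : Subalgebra ℤ (Module.End ℤ (JZero N)) :=
  Algebra.adjoin ℤ (awayHecke N r)

/-- The `s`-eigenspace (`s = ± 1`) of the complex conjugation on `ker t ∩ J₀(N)[r]`. -/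
def conjEigen (N r : ℕ) [NeZero N] (t : Module.End ℤ (JZero N)) (s : ℤ) : Set (JZero N) :=
  {x | (r : ℤ) • x = 0 ∧ t x = 0 ∧ complexConjugation • x = s • x}

/-- **COUNT, `r` odd.**  The two eigenspaces of the complex conjugation on `ker t ∩ J₀(N)[r]` are
equinumerous, for every `t` in the Hecke ring away from `N r`. -/
def CountOddStatement : Prop :=
  ∀ (N r : ℕ) [NeZero N], r.Prime → r ≠ 2 → ∀ t ∈ awayHeckeAlg N r,
    Nat.card (conjEigen N r t 1) = Nat.card (conjEigen N r t (-1))

/-- **COUNT, `r` odd, square form.**  `|ker t ∩ W| = |(ker t ∩ W)^{c = 1}| ^ 2`, `W = J₀(N)[r]`. -/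
def CountOddSqStatement : Prop :=
  ∀ (N r : ℕ) [NeZero N], r.Prime → r ≠ 2 → ∀ t ∈ awayHeckeAlg N r,
    Nat.card {x : JZero N | (r : ℤ) • x = 0 ∧ t x = 0} = Nat.card (conjEigen N r t 1) ^ 2

/-- **COUNT, `r` odd, projector form.**  For `e` in the Hecke ring away from `N r` (e.g. the
projector on the Eisenstein part `W_E` of `W = J₀(N)[r]`): `|e-fixed part of W| =
|its c-fixed part| ^ 2`, i.e. `dim W_E^{c = 1} = D / 2`. -/
def CountOddProjStatement : Prop :=
  ∀ (N r : ℕ) [NeZero N], r.Prime → r ≠ 2 → ∀ e ∈ awayHeckeAlg N r,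
    Nat.card {x : JZero N | (r : ℤ) • x = 0 ∧ e x = x} =
      Nat.card {x : JZero N | (r : ℤ) • x = 0 ∧ e x = x ∧ complexConjugation • x = x} ^ 2

end Fermat.Agent.S15.H337

end
end
-- ===== PACK-END S15/H337/Spec.lean

-- ===== PACK-BEGIN S15/H962/IterRed.lean
section


/-!
# Row S15, node GEO (helper962): kernel stability under Hecke operators is FORMAL

The node `Core.GeoStatement p` of `Fermat/Agent/S15/Core/Top.lean` asks, at every multiplicative
prime `q ≠ p`, for a specialisation map `sp` of `J₀(p)` which is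

* (i)  injective on torsion of order prime to `q`,
* (ii) with kernel stable under every `T_ℓ`, `ℓ ≠ p, q`,

and such that `sp D = 0`, resp. `sp (D + c) = 0`.

The geometric reduction `sp₀ = reductionModL A M ∘ π^*` supplied by rows S18/S37 is only known to
satisfy (i).  (The frozen S37 does NOT contain a genuine Hecke-compatibility of the reduction:
its field `hecke_comm` is obtained by the same formal trick as below, and `node_wrd` only
contains the relation for the one operator `T_q` at the residue characteristic `q`.)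

This file shows that (ii) costs nothing.  Replace `sp₀` by
`iterSp q sp₀ : z ↦ (h ↦ sp₀ (h z))`, `h` running over all words in the `T_ℓ`, `ℓ ≠ p, q`.  Then

* `iterSp_inj`, `iterSp_hecke` : `iterSp q sp₀` satisfies (i) and (ii) as soon as `sp₀` has (i);
* `iterSp_eq_zero_of_mem`      : `iterSp q sp₀` kills every element of a subgroup `K` of `J₀(p)`
  which is stable under the `T_ℓ` and killed by `sp₀`.

Consequently (`geoStatement_of_geoParts`) the node GEO follows from `GeoPartsStatement p`: at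
each multiplicative prime there is a Hecke-stable subgroup `K` of `J₀(p)` killed by `sp₀`
(`K` = the classes of the divisors `∑ ((P_i) - (P₀))`, `P_i` in the residue disc of the cusp `0`,
plus the same for the cusp `∞`), with `D ∈ K` if `Q ∉ E⁰` and `D + c ∈ K` if `Q ∈ E⁰`.
-/

set_option autoImplicit false

noncomputable section

open AlgebraicCurve ModularCurve WeierstrassCurve WeierstrassCurve.Affine

namespace Fermat.Agent.S15.H962

open Fermat.Agent.S15.Core

variable {p : ℕ} [NeZero p]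

/-- The multiplicative monoid of all words in the Hecke operators `T_ℓ`, `ℓ ≠ p`, `ℓ ≠ q`. -/
def heckeWords (p q : ℕ) [NeZero p] : Submonoid (Module.End ℤ (JZero p)) :=
  Submonoid.closure (goodHecke p {q})

/-- The iterated specialisation map `z ↦ (h ↦ sp₀ (h z))`, `h` a Hecke word. -/
def iterSp (q : ℕ) {X : Type} [AddCommGroup X] (sp₀ : JZero p →+ X) :
    JZero p →+ (heckeWords p q → X) where
  toFun z h := sp₀ ((h : Module.End ℤ (JZero p)) z)
  map_zero' := by
    funext h
    simp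
  map_add' x y := by
    funext h
    simp

@[simp] theorem iterSp_apply (q : ℕ) {X : Type} [AddCommGroup X] (sp₀ : JZero p →+ X)
    (z : JZero p) (h : heckeWords p q) :
    iterSp q sp₀ z h = sp₀ ((h : Module.End ℤ (JZero p)) z) := rfl

theorem iterSp_eq_zero_iff {q : ℕ} {X : Type} [AddCommGroup X] {sp₀ : JZero p →+ X}
    {z : JZero p} :
    iterSp q sp₀ z = 0 ↔ ∀ h ∈ heckeWords p q, sp₀ (h z) = 0 := by
  constructor
  · intro hz h hh
    exact congrFun hz ⟨h, hh⟩
  · intro hz
    funext h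
    exact hz h h.2

/-- `iterSp` kills `z` only if `sp₀` does. -/
theorem sp_eq_zero_of_iterSp_eq_zero {q : ℕ} {X : Type} [AddCommGroup X]
    {sp₀ : JZero p →+ X} {z : JZero p} (hz : iterSp q sp₀ z = 0) : sp₀ z = 0 := by
  have := iterSp_eq_zero_iff.mp hz 1 (one_mem _)
  simpa using this

/-- (i) is inherited by the iterated specialisation. -/
theorem iterSp_inj {q : ℕ} {X : Type} [AddCommGroup X] {sp₀ : JZero p →+ X}
    (hinj : ∀ (m : ℕ) (z : JZero p), ¬ q ∣ m → m • z = 0 → sp₀ z = 0 → z = 0)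
    (m : ℕ) (z : JZero p) (hm : ¬ q ∣ m) (hmz : m • z = 0) (hz : iterSp q sp₀ z = 0) : z = 0 :=
  hinj m z hm hmz (sp_eq_zero_of_iterSp_eq_zero hz)

/-- **(ii) is formal**: the kernel of the iterated specialisation is stable under the `T_ℓ`. -/
theorem iterSp_hecke {q : ℕ} {X : Type} [AddCommGroup X] (sp₀ : JZero p →+ X)
    (T : Module.End ℤ (JZero p)) (hT : T ∈ goodHecke p {q}) (z : JZero p)
    (hz : iterSp q sp₀ z = 0) : iterSp q sp₀ (T z) = 0 := by
  rw [iterSp_eq_zero_iff] at hz ⊢
  intro h hh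
  have hmem : h * T ∈ heckeWords p q := mul_mem hh (Submonoid.subset_closure hT)
  have := hz _ hmem
  rwa [Module.End.mul_apply] at this

/-- A subgroup stable under the `T_ℓ` is stable under all Hecke words. -/
theorem mem_of_mem_heckeWords {q : ℕ} (K : AddSubgroup (JZero p))
    (hK : ∀ T ∈ goodHecke p {q}, ∀ z ∈ K, T z ∈ K)
    {h : Module.End ℤ (JZero p)} (hh : h ∈ heckeWords p q) : ∀ z ∈ K, h z ∈ K := by
  unfold heckeWords at hh
  induction hh using Submonoid.closure_induction with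
  | mem T hT => exact hK T hT
  | one =>
    intro z hz
    simpa using hz
  | mul a b _ _ ha hb =>
    intro z hz
    rw [Module.End.mul_apply]
    exact ha _ (hb z hz)

/-- The iterated specialisation kills every Hecke-stable subgroup killed by `sp₀`. -/
theorem iterSp_eq_zero_of_mem {q : ℕ} {X : Type} [AddCommGroup X] {sp₀ : JZero p →+ X}
    (K : AddSubgroup (JZero p))
    (hK : ∀ T ∈ goodHecke p {q}, ∀ z ∈ K, T z ∈ K)
    (hsp : ∀ z ∈ K, sp₀ z = 0) {z : JZero p} (hz : z ∈ K) : iterSp q sp₀ z = 0 :=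
  iterSp_eq_zero_iff.mpr fun _ hh => hsp _ (mem_of_mem_heckeWords K hK hh z hz)

variable (p)

/-- **Sub-node GEO-PARTS**: what GE-1 + GE-2 + GE-3 really have to deliver.

Same as `Core.GeoStatement p`, except that at each multiplicative prime `q ≠ p`, `A ∣ q`, we ask for

* an additive map `sp₀` out of `J₀(p)` which is injective on torsion of order prime to `q`
  (`reductionModL A M ∘ π^*`, `M = p` for `q ≥ 5`, `M = 3p` for `q = 2`, `M = 2p` for `q = 3`:
  frozen S18 at level `M` + `π_* π^* = deg π`);  NO Hecke-compatibility of `sp₀` is required;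
* a subgroup `K` of `J₀(p)`, stable under all `T_ℓ` (`ℓ ≠ p, q`) and killed by `sp₀`;
* `D ∈ K` if `Q ∉ E⁰`, and `D + c ∈ K` if `Q ∈ E⁰`. -/
def GeoPartsStatement : Prop :=
  ∀ (W : WeierstrassCurve ℤ), W.Δ ≠ 0 →
  ∀ (Q : ((W.map (Int.castRingHom ℚ))⁄(AlgebraicClosure ℚ)).Point),
    (∀ σ : AlgebraicClosure ℚ ≃ₐ[ℚ] AlgebraicClosure ℚ, σ • Q = Q) → addOrderOf Q = p →
  ∀ (P₀ : Place (AlgebraicClosure ℚ) (modularFunctionFieldBar p)) (c : JZero p),
    IsCuspZero p P₀ → IsDiffClass P₀ (cuspInfty p) c →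
  ∃ D : JZero p, (∀ σ : AlgebraicClosure ℚ ≃ₐ[ℚ] AlgebraicClosure ℚ, σ • D = D) ∧
    ∀ q : ℕ, q.Prime → q ≠ p → (q : ℤ) ∣ W.Δ → ¬ (q : ℤ) ∣ W.c₄ →
    ∀ A : ValuationSubring (AlgebraicClosure ℚ), A.LiesOverPrime q →
    ∃ (X : Type) (_ : AddCommGroup X) (sp₀ : JZero p →+ X) (K : AddSubgroup (JZero p)),
      (∀ (m : ℕ) (z : JZero p), ¬ q ∣ m → m • z = 0 → sp₀ z = 0 → z = 0) ∧
      (∀ T ∈ goodHecke p {q}, ∀ z ∈ K, T z ∈ K) ∧
      (∀ z ∈ K, sp₀ z = 0) ∧
      (¬ W.InZeroComponentAt A Q → D ∈ K) ∧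
      (W.InZeroComponentAt A Q → D + c ∈ K)

/-- **GEO from GEO-PARTS** (formal). -/
theorem geoStatement_of_geoParts (h : GeoPartsStatement p) : _root_.Fermat.Agent.S15.Core.GeoStatement p := by
  intro W hΔ Q hQfix hQord P₀ c hP₀ hc
  obtain ⟨D, hDfix, hD⟩ := h W hΔ Q hQfix hQord P₀ c hP₀ hc
  refine ⟨D, hDfix, ?_⟩
  intro q hq hqp hqΔ hqc₄ A hA
  obtain ⟨X, instX, sp₀, K, hinj, hK, hsp, hD₀, hDinf⟩ := hD q hq hqp hqΔ hqc₄ A hA
  exact ⟨heckeWords p q → X, inferInstance, iterSp q sp₀, iterSp_inj hinj,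
    fun T hT z hz => iterSp_hecke sp₀ T hT z hz,
    fun hQ => iterSp_eq_zero_of_mem K hK hsp (hD₀ hQ),
    fun hQ => iterSp_eq_zero_of_mem K hK hsp (hDinf hQ)⟩

end Fermat.Agent.S15.H962

end

end
-- ===== PACK-END S15/H962/IterRed.lean

-- ===== PACK-BEGIN S17/H126/StabilizerOpen.lean
section
/-
S17 row, piece `BASE-1` (helper126): every class of `J₀(N)(ℚ̄)` is fixed by an open subgroup of
`G_ℚ` (is defined over a number field).  Exact skeleton statement (`Skel.stabilizer_open`), with the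
abbreviations `Qb`, `GQ` unfolded.  Proof: S29 piece `M3` (`Fermat/Agent/S29/H126/M3.lean`).
-/


set_option autoImplicit false

noncomputable section

namespace Fermat.Agent.S17.H126

open ModularCurve AlgebraicCurve

/-- BASE-1. Every class is fixed by an open subgroup (is defined over a number field). -/
theorem stabilizer_open (N : ℕ) [NeZero N] (x : JZero N) :
    ∃ K : IntermediateField ℚ (AlgebraicClosure ℚ), FiniteDimensional ℚ K ∧
      ∀ σ : (AlgebraicClosure ℚ ≃ₐ[ℚ] AlgebraicClosure ℚ), (∀ a ∈ K, σ a = a) → σ • x = x :=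
  Fermat.Agent.S29.H126.M3_jZero_smooth N x

/-- Every place of `ℚ̄(X₀(N))` is fixed by an open subgroup of `G_ℚ`. -/
theorem place_stabilizer_open (N : ℕ) [NeZero N]
    (v : Place (AlgebraicClosure ℚ) (modularFunctionFieldBar N)) :
    ∃ K : IntermediateField ℚ (AlgebraicClosure ℚ), FiniteDimensional ℚ K ∧
      ∀ σ : (AlgebraicClosure ℚ ≃ₐ[ℚ] AlgebraicClosure ℚ), (∀ a ∈ K, σ a = a) →
        arithmeticGalois (modularFunctionFieldFull N) σ • v = v :=
  Fermat.Agent.S29.H126.M3_place_openFixed N v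

/-- Every function in `ℚ̄(X₀(N))` is fixed by an open subgroup of `G_ℚ`. -/
theorem function_stabilizer_open (N : ℕ) (f : modularFunctionFieldBar N) :
    ∃ K : IntermediateField ℚ (AlgebraicClosure ℚ), FiniteDimensional ℚ K ∧
      ∀ σ : (AlgebraicClosure ℚ ≃ₐ[ℚ] AlgebraicClosure ℚ), (∀ a ∈ K, σ a = a) →
        arithmeticGalois (modularFunctionFieldFull N) σ • f = f :=
  Fermat.Agent.S29.H126.M3_elt_openFixed N f

end Fermat.Agent.S17.H126

end
end
-- ===== PACK-END S17/H126/StabilizerOpen.lean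

-- ===== PACK-BEGIN S15/H322/StepCoord.lean
section




/-!
# Row S15 — DESC leaf STEP, part 1 (helper322): coordinates on an Eisenstein piece

Frozen skeleton: `Fermat/Agent/S15/H975/DescSpec.lean`, `DescSpec2.lean` (`StepStatement`).
For an Eisenstein piece `F' ≤ F ≤ J₀(p)[r]` (`IsEisPiece`), `e ∈ F`, `e ∉ F'`:

* `exists_gen_of_relIndex`   : such an `e` exists;
* `exists_coeff_of_relIndex` : every `x ∈ F` is `≡ n e mod F'` for some `n : ZMod r`;
* `exists_hasCoord`          : every `y ∈ Y(F)` has a coordinate (`H322.HasCoord`);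
* `hasLevel_jzero`           : every point of `J₀(p)` has finite level (`S17.H126`);
* `HasCoord.eq_zero_of_sub_mem` : `τ y - y ∈ F'` ⟹ the coordinate vanishes at `τ`;
* `fixIndex_ne_zero`, `fixIndex_eq_of_triv` : `g ≥ 1`, and `g = r` for a trivial action;
* `selIndex_*`               : the index `s = [Y(F) : Y(F') + F]` from a bound on
                               `{w ∈ Y(F) | KumIn F' w}`.
-/

set_option autoImplicit false
set_option linter.unusedSectionVars false
set_option linter.style.haveILetI false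

namespace Fermat.Agent.S15.H322

open Fermat.Agent.S56 Fermat.Agent.S56.H786 Fermat.Agent.S15.H975 ModularCurve

section Abstract

variable {J : Type*} [AddCommGroup J] [DistribMulAction GQ J]

/-- A subgroup of prime relative index is proper. -/
theorem exists_gen_of_relIndex {F' F : AddSubgroup J} {r : ℕ} (hr : r.Prime)
    (hidx : F'.relIndex F = r) : ∃ e ∈ F, e ∉ F' := by
  by_contra hcon
  push Not at hcon
  have hle : F ≤ F' := fun x hx => hcon x hx
  rw [AddSubgroup.relIndex_eq_one.mpr hle] at hidx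
  exact hr.one_lt.ne hidx

/-- In a piece of prime index every element is a multiple of the generator. -/
theorem exists_coeff_of_relIndex {F' F : AddSubgroup J} {r : ℕ} (hr : r.Prime)
    (hidx : F'.relIndex F = r) {e : J} (heF : e ∈ F) (he : e ∉ F') (hre : r • e ∈ F')
    {x : J} (hx : x ∈ F) : ∃ n : ZMod r, x - n.val • e ∈ F' := by
  haveI : Fact r.Prime := ⟨hr⟩
  haveI : NeZero r := ⟨hr.ne_zero⟩
  have hcard : Nat.card (F ⧸ F'.addSubgroupOf F) = r := hidx
  set ebar : F ⧸ F'.addSubgroupOf F := QuotientAddGroup.mk (⟨e, heF⟩ : F) with hebar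
  have hebar0 : ebar ≠ 0 := by
    intro h0
    rw [hebar, QuotientAddGroup.eq_zero_iff] at h0
    exact he h0
  have htop := zmultiples_eq_top_of_prime_card hcard hebar0
  have hmem : (QuotientAddGroup.mk (⟨x, hx⟩ : F) : F ⧸ F'.addSubgroupOf F) ∈
      AddSubgroup.zmultiples ebar := by
    rw [htop]; exact AddSubgroup.mem_top _
  obtain ⟨k, hk⟩ := AddSubgroup.mem_zmultiples_iff.mp hmem
  have h1 : x - k • e ∈ F' := by
    have h2 : (QuotientAddGroup.mk (k • (⟨e, heF⟩ : F)) : F ⧸ F'.addSubgroupOf F) =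
        QuotientAddGroup.mk (⟨x, hx⟩ : F) := by
      rw [← hk]; rfl
    rw [QuotientAddGroup.eq] at h2
    have h3 : ((-(k • (⟨e, heF⟩ : F)) + (⟨x, hx⟩ : F) : F) : J) ∈ F' := h2
    have h4 : ((-(k • (⟨e, heF⟩ : F)) + (⟨x, hx⟩ : F) : F) : J) = x - k • e := by
      push_cast
      abel
    rwa [h4] at h3
  refine ⟨(k : ZMod r), ?_⟩
  have h5 := val_smul_sub_zsmul_mem hr he hre (k : ZMod r) k rfl
  have h6 : x - ((k : ZMod r)).val • e = (x - k • e) - (((k : ZMod r)).val • e - k • e) := by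
    abel
  rw [h6]
  exact F'.sub_mem h1 h5

end Abstract

section Coord

variable {J : Type*} [AddCommGroup J] [DistribMulAction GQ J]
variable {r : ℕ} {F' : AddSubgroup J} {e : J}

/-- If `τ y - y ∈ F'`, the coordinate of `y` vanishes at `τ`. -/
theorem HasCoord.eq_zero_of_sub_mem (hr : r.Prime) (he : e ∉ F') (hre : r • e ∈ F') {y : J}
    {f : GQ → ZMod r} (hf : HasCoord r F' e y f) {τ : GQ} (hy : τ • y - y ∈ F') :
    f τ = 0 := by
  haveI : NeZero r := ⟨hr.ne_zero⟩
  have h1 := F'.sub_mem hy (hf τ)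
  have h2 : τ • y - y - (τ • y - y - (f τ).val • e) = (((f τ).val : ℤ)) • e := by
    rw [natCast_zsmul]; abel
  rw [h2, zsmul_mem_iff hr he hre] at h1
  rwa [Int.cast_natCast, ZMod.natCast_zmod_val] at h1

/-- If the coordinate of `y` vanishes at `τ`, then `τ y - y ∈ F'`. -/
theorem HasCoord.sub_mem_of_eq_zero [NeZero r] {y : J}
    {f : GQ → ZMod r} (hf : HasCoord r F' e y f) {τ : GQ} (h0 : f τ = 0) :
    τ • y - y ∈ F' := by
  have := hf τ
  rwa [h0, ZMod.val_zero, zero_smul, sub_zero] at this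

/-- If the coordinate of `y` vanishes identically, all Kummer values of `y` lie in `F'`. -/
theorem HasCoord.kumIn_of_eq_zero [NeZero r] {y : J}
    {f : GQ → ZMod r} (hf : HasCoord r F' e y f) (h0 : ∀ σ, f σ = 0) : KumIn F' y :=
  fun σ => hf.sub_mem_of_eq_zero (h0 σ)

end Coord

section JZero

variable {p : ℕ} [NeZero p]

/-- Every point of `J₀(p)` has finite level. -/
theorem hasLevel_jzero (y : JZero p) : HasLevel y :=
  Fermat.Agent.S17.H126.stabilizer_open p y

theorem sel_mono (r : ℕ) {F F₂ : AddSubgroup (JZero p)} (h : F ≤ F₂) :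
    sel p r F ≤ sel p r F₂ :=
  fun _ hy => ⟨hy.1, fun σ => h (hy.2 σ)⟩

theorem mem_sel_iff {r : ℕ} {F : AddSubgroup (JZero p)} {y : JZero p} :
    y ∈ sel p r F ↔ (∀ σ : _root_.Fermat.Agent.S15.H975.Gal, σ • (r • y) = r • y) ∧ ∀ σ : _root_.Fermat.Agent.S15.H975.Gal, σ • y - y ∈ F :=
  Iff.rfl

theorem mem_tors_iff {r : ℕ} {w : JZero p} : w ∈ tors p r ↔ r • w = 0 := Iff.rfl

theorem eis_le_tors_h322 (S : Set ℕ) (r : ℕ) : eis p S r ≤ tors p r := fun _ hw => hw.1

/-- A Galois-stable subgroup of `J[r]` lies in its own Selmer group. -/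
theorem le_sel_of_stable {r : ℕ} {F : AddSubgroup (JZero p)} (hst : IsStable p F)
    (hF : F ≤ tors p r) : F ≤ sel p r F := by
  intro f hf
  refine ⟨fun σ => ?_, fun σ => F.sub_mem (hst σ f hf) hf⟩
  rw [mem_tors_iff.mp (hF hf)]
  exact smul_zero (M := _root_.Fermat.Agent.S15.H975.Gal) (A := JZero p) σ

/-- A subgroup `F ≤ J[r]` on which the Galois group acts trivially modulo `F'` lies in `Y(F')`. -/
theorem le_sel_of_triv {r : ℕ} {F' F : AddSubgroup (JZero p)} (hF : F ≤ tors p r)
    (htriv : ∀ σ : _root_.Fermat.Agent.S15.H975.Gal, ∀ f ∈ F, σ • f - f ∈ F') : F ≤ sel p r F' := by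
  intro f hf
  refine ⟨fun σ => ?_, fun σ => htriv σ f hf⟩
  rw [mem_tors_iff.mp (hF hf)]
  exact smul_zero (M := _root_.Fermat.Agent.S15.H975.Gal) (A := JZero p) σ

/-- Every point of `Y(F)` has a coordinate on the piece `F / F'`. -/
theorem exists_hasCoord {r : ℕ} (hr : r.Prime) {F' F : AddSubgroup (JZero p)}
    (hidx : F'.relIndex F = r) {e : JZero p} (heF : e ∈ F) (he : e ∉ F') (hre : r • e ∈ F')
    {y : JZero p} (hy : y ∈ sel p r F) : ∃ f : GQ → ZMod r, HasCoord r F' e y f := by
  have h : ∀ σ : GQ, ∃ n : ZMod r, σ • y - y - n.val • e ∈ F' := fun σ =>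
    exists_coeff_of_relIndex hr hidx heF he hre (hy.2 σ)
  choose f hf using h
  exact ⟨f, hf⟩

/-- `g = [F ∩ Y(F') : F'] ≠ 0` and divides `r`. -/
theorem fixIndex_dvd {r : ℕ} {F' F : AddSubgroup (JZero p)} (hle : F' ≤ F)
    (hst : IsStable p F') (hF : F ≤ tors p r) (hidx : F'.relIndex F = r) :
    fixIndex p r F' F ∣ r := by
  have h1 : F' ≤ F ⊓ sel p r F' := le_inf hle (le_sel_of_stable hst (hle.trans hF))
  have h2 := AddSubgroup.relIndex_mul_relIndex F' (F ⊓ sel p r F') F h1 inf_le_left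
  rw [hidx] at h2
  exact Dvd.intro _ h2

theorem fixIndex_pos {r : ℕ} (hr : r.Prime) {F' F : AddSubgroup (JZero p)} (hle : F' ≤ F)
    (hst : IsStable p F') (hF : F ≤ tors p r) (hidx : F'.relIndex F = r) :
    1 ≤ fixIndex p r F' F :=
  Nat.pos_of_dvd_of_pos (fixIndex_dvd hle hst hF hidx) hr.pos

/-- `g = r` for a piece with trivial action. -/
theorem fixIndex_eq_of_triv {r : ℕ} {F' F : AddSubgroup (JZero p)} (hF : F ≤ tors p r)
    (hidx : F'.relIndex F = r) (htriv : ∀ σ : _root_.Fermat.Agent.S15.H975.Gal, ∀ f ∈ F, σ • f - f ∈ F') :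
    fixIndex p r F' F = r := by
  have h1 : F ⊓ sel p r F' = F := inf_eq_left.mpr (le_sel_of_triv hF htriv)
  show F'.relIndex (F ⊓ sel p r F') = r
  rw [h1, hidx]

/-- The points of `Y(F)` with Kummer values in `F'` lie in `Y(F') + F`. -/
theorem mem_sup_of_kumIn {r : ℕ} {F' F : AddSubgroup (JZero p)} {w : JZero p}
    (hw : w ∈ sel p r F) (hk : KumIn F' w) : w ∈ sel p r F' ⊔ F :=
  AddSubgroup.mem_sup_left ⟨hw.1, hk⟩

/-- `s = 1` as soon as `Y(F) ≤ Y(F') + F`. -/
theorem selIndex_eq_one_of_le {r : ℕ} {F' F : AddSubgroup (JZero p)}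
    (h : sel p r F ≤ sel p r F' ⊔ F) : selIndex p r F' F = 1 :=
  AddSubgroup.relIndex_eq_one.mpr h

end JZero

end Fermat.Agent.S15.H322

end
-- ===== PACK-END S15/H322/StepCoord.lean

-- ===== PACK-BEGIN A3/H799/Zgen.lean
section



/-!
# A3 / LOCAL — ZGEN from GEO and DET  (helper799)

`zgen_of : GeoStatement → DetStatement → ZgenStatement` is one application of the abstract LOCAL
theorem `local_mem`; `ZtriStatement` (`s = 2`) and `ZnegStatement` (`s = 1`) are special cases.
-/

set_option autoImplicit false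

noncomputable section

open AlgebraicCurve Fermat.Agent.Lib.RR Polynomial

namespace Fermat.Agent.A3.H799

universe u₁ u₂ u₃ u₄ w

variable {K : Type u₁} {F : Type u₂} {k : Type u₃} {Fk : Type u₄}
  [Field K] [Field F] [Algebra K F] [Field k] [Field Fk] [Algebra k Fk]

/-- Constants of `V` as integral functions. -/
def GoodRed.constO (𝓡 : GoodRed K F k Fk) (a : 𝓡.V) : 𝓡.O :=
  ⟨algebraMap K F (a : K), (𝓡.algebraMap_mem _).2 a.2⟩

theorem GoodRed.red_constO (𝓡 : GoodRed K F k Fk) (a : 𝓡.V) :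
    𝓡.red (𝓡.constO a) = algebraMap k Fk (𝓡.res a) :=
  𝓡.red_algebraMap a _

theorem GoodRed.res_eq_zero_of_mem (𝓡 : GoodRed K F k Fk) (a : IsLocalRing.maximalIdeal 𝓡.V) :
    𝓡.res (a : 𝓡.V) = 0 := by
  rw [𝓡.res_eq_zero, ValuationSubring.mem_nonunits_iff_exists_mem_maximalIdeal]
  exact ⟨(a : 𝓡.V).2, a.2⟩

theorem one_mem_L_of_nonneg [FF1 K F] {D : Divisor K F} (hD : 0 ≤ D) :
    (1 : F) ∈ riemannRochSpace D := by
  apply L_mono hD
  rw [L_zero]
  exact ⟨1, by simp⟩

theorem zsmul_polyDiv_nonneg {𝓡 : GoodRed K F k Fk} {ι : Type*} [Fintype ι]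
    {Qs : ι → Place k Fk} (d : ∀ i, DiscData 𝓡 (Qs i)) (z : ι → IsLocalRing.maximalIdeal 𝓡.V)
    (s : ℕ) : 0 ≤ ((s : ℤ) + 1) • polyDiv d z :=
  smul_nonneg (by positivity) (polyDiv_nonneg d z)

/-- **ZGEN** from GEO and DET. -/
theorem zgen_of (hgeo : GeoStatement K F k Fk) (hdet : DetStatement K F k Fk) :
    ZgenStatement.{u₁, u₂, u₃, u₄, w} K F k Fk := by
  intro 𝓡 Qs hinj hnsp d T _ Λ s hs zs zw hzs hprin
  classical
  haveI := 𝓡.ff1
  obtain ⟨φ, f, P, H, hφL, hfφ, hfP, hdetP⟩ := hdet 𝓡 Qs hinj hnsp d s hs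
  refine local_mem (A := 𝓡.V) (T := T) (ι := Fin (genusFF k Fk)) (𝒪 := fun i => (d i).ring)
    Λ (fun i => (d i).D) (fun _ => s)
    (fun i r => ⟨⟨fun τ => ((zs r τ i : IsLocalRing.maximalIdeal 𝓡.V) : 𝓡.V), hzs r i⟩,
      fun τ => (zs r τ i).2⟩)
    (fun i => (d i).D.t ^ (s + 1)) f (fun _ => X ^ (s + 1)) (fun _ => 0) ?_ P H hfP hdetP ?_
    (fun i τ => zw τ i) ?_
  · intro i
    simp
  · intro i r
    rw [coeff_X_pow, if_neg (by have := r.2; omega)]
    exact zero_mem _
  · intro τ a hdiv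
    -- the section `φ_a = 1 + Σ a_j φ_j`
    set φa : 𝓡.O := 1 + ∑ j, 𝓡.constO (a j : 𝓡.V) * φ j with hφa
    have hφaF : ((φa : 𝓡.O) : F) =
        1 + ∑ j, algebraMap K F (((a j : IsLocalRing.maximalIdeal 𝓡.V) : 𝓡.V) : K) *
          ((φ j : 𝓡.O) : F) := by
      rw [hφa]
      push_cast
      rfl
    have hφaL : ((φa : 𝓡.O) : F) ∈ riemannRochSpace (((s : ℤ) + 1) • polyDiv d 0) := by
      rw [hφaF]
      refine Submodule.add_mem _ (one_mem_L_of_nonneg (zsmul_polyDiv_nonneg d 0 s)) ?_
      refine Submodule.sum_mem _ fun j _ => ?_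
      have := Submodule.smul_mem _ ((((a j : IsLocalRing.maximalIdeal 𝓡.V) : 𝓡.V) : K)) (hφL j)
      rwa [Algebra.smul_def] at this
    have hred : 𝓡.red φa = 1 := by
      rw [hφa, map_add, map_one, map_sum]
      rw [Finset.sum_eq_zero, add_zero]
      intro j _
      rw [map_mul, 𝓡.red_constO, 𝓡.res_eq_zero_of_mem, map_zero, zero_mul]
    have hG : ∀ i, (((d i).D.t ^ (s + 1) +
        ∑ j, ((a j : IsLocalRing.maximalIdeal 𝓡.V) : 𝓡.V) • f j i : (d i).ring) : F) =
          ((((d i).D.t : (d i).ring) : F)) ^ (s + 1) * ((φa : 𝓡.O) : F) := by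
      intro i
      rw [hφaF, mul_add, mul_one, Finset.mul_sum]
      push_cast
      congr 1
      refine Finset.sum_congr rfl fun j _ => ?_
      rw [hfφ, Algebra.smul_def]
      show algebraMap K F (((a j : IsLocalRing.maximalIdeal 𝓡.V) : 𝓡.V) : K) * _ = _
      ring
    have hlist : ∀ i, (List.ofFn fun r : Fin s =>
        (⟨⟨fun τ => ((zs r τ i : IsLocalRing.maximalIdeal 𝓡.V) : 𝓡.V), hzs r i⟩,
          fun τ => (zs r τ i).2⟩ : radIdeal Λ)).map (ptAt Λ τ) =
        List.ofFn fun r => zs r τ i := by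
      intro i
      rw [List.map_ofFn]
      rfl
    simp only [hlist] at hdiv ⊢
    exact hgeo 𝓡 Qs hinj hnsp d s (fun r => zs r τ) (zw τ) (hprin τ) φa hφaL hred
      (fun i => (d i).D.t ^ (s + 1) + ∑ j, ((a j : IsLocalRing.maximalIdeal 𝓡.V) : 𝓡.V) • f j i)
      hG hdiv

/-- ZTRI is ZGEN with two moving points. -/
theorem ztri_of_zgen (h : ZgenStatement.{u₁, u₂, u₃, u₄, w} K F k Fk) : ZtriStatement.{u₁, u₂, u₃, u₄, w} K F k Fk := by
  intro 𝓡 Qs hinj hnsp d T _ Λ zx zy zw hzx hzy hprin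
  refine h 𝓡 Qs hinj hnsp d T Λ 2 (by norm_num) ![zx, zy] zw ?_ ?_
  · intro r j
    fin_cases r
    · exact hzx j
    · exact hzy j
  · intro τ
    have := hprin τ
    rw [Fin.sum_univ_two]
    have h3 : ((2 : ℕ) : ℤ) + 1 = 3 := by norm_num
    rw [h3]
    exact this

/-- ZNEG is ZGEN with one moving point. -/
theorem zneg_of_zgen (h : ZgenStatement.{u₁, u₂, u₃, u₄, w} K F k Fk) : ZnegStatement.{u₁, u₂, u₃, u₄, w} K F k Fk := by
  intro 𝓡 Qs hinj hnsp d T _ Λ zx zn hzx hprin
  refine h 𝓡 Qs hinj hnsp d T Λ 1 (by norm_num) ![zx] zn ?_ ?_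
  · intro r j
    fin_cases r
    exact hzx j
  · intro τ
    have := hprin τ
    rw [Fin.sum_univ_one]
    have h2 : ((1 : ℕ) : ℤ) + 1 = 2 := by norm_num
    rw [h2]
    exact this

end Fermat.Agent.A3.H799

end
end
-- ===== PACK-END A3/H799/Zgen.lean

-- ===== PACK-BEGIN A3/H255/Geo.lean
section




/-!
# A3 / LOCAL, leaf GEO (helper255): the section through the moving points has exactly one
further zero in each disc

`geoStatement : GeoStatement K F k Fk` (frozen leaf of `A3/H799/LocalSpec2.lean`).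

Proof.  `E = polyDiv d 0`, `D_r = polyDiv d (zs r)`, `D_w = polyDiv d zw`,
`div ψ = Σ D_r + D_w - (s+1) E`.
* `G_i = t_i^{s+1} φ = ∏_r (t_i - zs r i) · h_i` with `h_i` regular on the disc gives
  `φ ∈ L((s+1) E - Σ D_r)`, so `φ / ψ ∈ L(D_w) = K` (`ℓ(D_w) = 1`, leaf COORD), i.e.
  `div φ = div ψ`.
* Hence `ord h_i = 1` at `pt_i (zw i)`, so `h_i = (t_i - zw i) · u` in the disc ring.
* Reduction: `t̄^{s+1} = t̄^s · t̄ · red u`, so `red u = 1` and `ev u` is a unit (`red_ev`).

All proofs complete.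
-/

set_option autoImplicit false
set_option linter.style.haveILetI false

noncomputable section

open AlgebraicCurve

namespace Fermat.Agent.A3.H255.Geo

open Fermat.Agent.Lib.RR Fermat.Agent.A3.H799

variable {K F k Fk : Type*} [Field K] [Field F] [Algebra K F] [Field k] [Field Fk] [Algebra k Fk]

section Disc

variable {𝓡 : GoodRed K F k Fk} {Q : Place k Fk} (d : DiscData 𝓡 Q)

theorem aeval_nodal_cons' (a : IsLocalRing.maximalIdeal 𝓡.V)
    (l : List (IsLocalRing.maximalIdeal 𝓡.V)) :
    Polynomial.aeval d.D.t (DiscAlg.nodal (a :: l)) =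
      d.tSub a * Polynomial.aeval d.D.t (DiscAlg.nodal l) :=
  d.D.aeval_nodal_cons a l

theorem coe_aeval_nodal_ne_zero (l : List (IsLocalRing.maximalIdeal 𝓡.V)) :
    ((Polynomial.aeval d.D.t (DiscAlg.nodal l) : d.ring) : F) ≠ 0 := by
  induction l with
  | nil => simp
  | cons a l ih =>
    rw [aeval_nodal_cons']
    exact mul_ne_zero (d.tSub_ne_zero a) ih

open scoped Classical in
theorem ord_pt_aeval_nodal (l : List (IsLocalRing.maximalIdeal 𝓡.V))
    (b : IsLocalRing.maximalIdeal 𝓡.V) :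
    (d.pt b).ord ((Polynomial.aeval d.D.t (DiscAlg.nodal l) : d.ring) : F) =
      (l.map fun a => if a = b then (1 : ℤ) else 0).sum := by
  induction l with
  | nil => simp
  | cons a l ih =>
    rw [aeval_nodal_cons']
    have h1 : (((d.tSub a * Polynomial.aeval d.D.t (DiscAlg.nodal l) : d.ring)) : F) =
        ((d.tSub a : d.ring) : F) * ((Polynomial.aeval d.D.t (DiscAlg.nodal l) : d.ring) : F) :=
      rfl
    rw [h1, (d.pt b).ord_mul (d.tSub_ne_zero a) (coe_aeval_nodal_ne_zero d l), ih,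
      d.ord_pt_tSub_eq a b, List.map_cons, List.sum_cons]
    congr 1
    by_cases h : a = b
    · rw [if_pos h, if_pos h.symm]
    · rw [if_neg h, if_neg (Ne.symm h)]

theorem redHom_aeval_nodal (l : List (IsLocalRing.maximalIdeal 𝓡.V)) :
    d.redHom (Polynomial.aeval d.D.t (DiscAlg.nodal l)) = d.redHom d.D.t ^ l.length := by
  induction l with
  | nil => simp
  | cons a l ih =>
    rw [aeval_nodal_cons', map_mul, ih, d.redHom_tSub, List.length_cons, pow_succ, mul_comm]

open scoped Classical in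
theorem ord_pt_t (b : IsLocalRing.maximalIdeal 𝓡.V) :
    (d.pt b).ord ((d.D.t : d.ring) : F) = if (0 : IsLocalRing.maximalIdeal 𝓡.V) = b then 1 else 0 := by
  have h : d.D.t = d.tSub 0 := by
    unfold DiscData.tSub
    simp
  have h2 := d.ord_pt_tSub_eq 0 b
  rw [← h] at h2
  rw [h2]
  by_cases hb : b = 0
  · rw [if_pos hb, if_pos hb.symm]
  · rw [if_neg hb, if_neg (Ne.symm hb)]

/-- If the reduction of `u` is `1`, every value of `u` is a unit. -/
theorem isUnit_ev_of_redHom_eq_one (u : d.ring) (hu : d.redHom u = 1)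
    (a : IsLocalRing.maximalIdeal 𝓡.V) : IsUnit (d.D.ev a u) := by
  haveI := 𝓡.ff1k
  have h := d.red_ev a u
  have hu' : 𝓡.red ⟨(u : F), d.ring_le _ u.2⟩ = 1 := hu
  rw [hu'] at h
  have hres : 𝓡.res (d.D.ev a u) = 1 := by
    have e : (1 : Fk) - algebraMap k Fk (𝓡.res (d.D.ev a u)) =
        algebraMap k Fk (1 - 𝓡.res (d.D.ev a u)) := by
      rw [map_sub, map_one]
    rcases h with h | h
    · have : algebraMap k Fk 1 = algebraMap k Fk (𝓡.res (d.D.ev a u)) := by
        rw [map_one]; exact h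
      exact ((algebraMap k Fk).injective this).symm
    · rw [e] at h
      by_contra hne
      have hc : (1 : k) - 𝓡.res (d.D.ev a u) ≠ 0 := fun h0 => hne (sub_eq_zero.mp h0).symm
      rw [ord_algebraMap] at h
      omega
  rw [← IsLocalRing.notMem_maximalIdeal]
  intro hmem
  have h1 : ((d.D.ev a u : 𝓡.V) : K) ∈ 𝓡.V.nonunits :=
    ValuationSubring.coe_mem_nonunits_iff.mpr hmem
  rw [← 𝓡.res_eq_zero, hres] at h1
  exact one_ne_zero h1

end Disc

section Sum

variable {𝓡 : GoodRed K F k Fk} {ι : Type*} [Fintype ι] {Qs : ι → Place k Fk}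
  (d : ∀ i, DiscData 𝓡 (Qs i))

open scoped Classical in
theorem sum_polyDiv_apply_pt (hQ : Function.Injective Qs) {s : ℕ}
    (zs : Fin s → ι → IsLocalRing.maximalIdeal 𝓡.V) (i : ι)
    (a : IsLocalRing.maximalIdeal 𝓡.V) :
    (∑ r, polyDiv d (zs r)) ((d i).pt a) = ∑ r, if zs r i = a then (1 : ℤ) else 0 := by
  rw [Finsupp.finsetSum_apply]
  refine Finset.sum_congr rfl fun r _ => ?_
  exact polyDiv_apply_pt d hQ (zs r) i a

theorem sum_polyDiv_apply_of_not_mem {s : ℕ}
    (zs : Fin s → ι → IsLocalRing.maximalIdeal 𝓡.V) (P : Place K F)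
    (hP : ∀ i, 𝓡.r P ≠ Qs i) : (∑ r, polyDiv d (zs r)) P = 0 := by
  rw [Finsupp.finsetSum_apply]
  refine Finset.sum_eq_zero fun r _ => ?_
  exact polyDiv_apply_of_not_mem d (zs r) P hP

open scoped Classical in
theorem sum_map_ofFn {s : ℕ} (f : Fin s → IsLocalRing.maximalIdeal 𝓡.V)
    (a : IsLocalRing.maximalIdeal 𝓡.V) :
    ((List.ofFn f).map fun b => if b = a then (1 : ℤ) else 0).sum =
      ∑ r, if f r = a then (1 : ℤ) else 0 := by
  rw [List.map_ofFn, List.sum_ofFn]
  rfl

end Sum

/-- **GEO**: the frozen leaf `GeoStatement` of `A3/H799/LocalSpec2.lean`. -/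
theorem geoStatement : GeoStatement K F k Fk := by
  classical
  intro 𝓡 Qs hQs hell d s zs zw hprin φ hφL hφred G hG hdiv i
  haveI := 𝓡.ff1
  haveI := 𝓡.ff1k
  -- `φ ≠ 0`
  have hφ0 : ((φ : 𝓡.O) : F) ≠ 0 := by
    intro h
    have : φ = 0 := Subtype.ext h
    rw [this, map_zero] at hφred
    exact zero_ne_one hφred
  -- the quotients `h_i`
  choose h hh using hdiv
  have hGF : ∀ j, ((G j : (d j).ring) : F) ≠ 0 := by
    intro j
    rw [hG j]
    refine mul_ne_zero (pow_ne_zero _ ?_) hφ0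
    have := (d j).tSub_ne_zero 0
    rw [DiscData.coe_tSub] at this
    simpa [DiscData.tF] using this
  have hGF' : ∀ j, ((G j : (d j).ring) : F) =
      ((Polynomial.aeval (d j).D.t (DiscAlg.nodal (List.ofFn fun r => zs r j)) : (d j).ring) : F) *
        ((h j : (d j).ring) : F) := by
    intro j
    rw [hh j]
    rfl
  have hh0 : ∀ j, ((h j : (d j).ring) : F) ≠ 0 := by
    intro j h0
    apply hGF j
    rw [hGF' j, h0, mul_zero]
  -- orders of `φ` on the discs
  have hordφ : ∀ (j : Fin (genusFF k Fk)) (a : IsLocalRing.maximalIdeal 𝓡.V),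
      ((s : ℤ) + 1) * (if (0 : IsLocalRing.maximalIdeal 𝓡.V) = a then 1 else 0) +
        ((d j).pt a).ord ((φ : 𝓡.O) : F) =
      (∑ r, if zs r j = a then (1 : ℤ) else 0) + ((d j).pt a).ord ((h j : (d j).ring) : F) := by
    intro j a
    have e1 := congrArg ((d j).pt a).ord (hGF' j)
    rw [hG j, ((d j).pt a).ord_mul (pow_ne_zero _ (by
        have := (d j).tSub_ne_zero 0
        rw [DiscData.coe_tSub] at this
        simpa [DiscData.tF] using this)) hφ0,
      ord_pow, ord_pt_t (d j) a,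
      ((d j).pt a).ord_mul (coe_aeval_nodal_ne_zero (d j) _) (hh0 j),
      ord_pt_aeval_nodal (d j), sum_map_ofFn] at e1
    push_cast at e1
    exact e1
  -- `φ ∈ L((s+1) E - Σ D_r)`
  have hφB : ∀ P : Place K F,
      (∑ r, polyDiv d (zs r)) P - ((s : ℤ) + 1) * polyDiv d 0 P ≤ P.ord ((φ : 𝓡.O) : F) := by
    intro P
    by_cases hP : ∃ j, 𝓡.r P = Qs j
    · obtain ⟨j, hj⟩ := hP
      obtain ⟨a, rfl⟩ := (d j).pt_surj P hj
      rw [sum_polyDiv_apply_pt d hQs zs j a, polyDiv_apply_pt d hQs 0 j a]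
      have e := hordφ j a
      have hnn := (d j).ord_nonneg (h j) ((d j).pt a) ((d j).r_pt a)
      have hz : ((0 : Fin (genusFF k Fk) → IsLocalRing.maximalIdeal 𝓡.V) j = a) ↔
          ((0 : IsLocalRing.maximalIdeal 𝓡.V) = a) := Iff.rfl
      simp only [hz]
      linarith
    · push Not at hP
      rw [sum_polyDiv_apply_of_not_mem d zs P hP, polyDiv_apply_of_not_mem d 0 P hP]
      have := (mem_L_iff.mp hφL P).resolve_left hφ0
      have h0 : (((s : ℤ) + 1) • polyDiv d (0 : Fin (genusFF k Fk) →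
          IsLocalRing.maximalIdeal 𝓡.V)) P = 0 := by
        rw [Finsupp.smul_apply, polyDiv_apply_of_not_mem d 0 P hP, smul_zero]
      rw [h0] at this
      simpa using this
  -- `div φ = div ψ`
  obtain ⟨ψ, hψ0, hψ⟩ := hprin
  have hψ' : ∀ P : Place K F, P.ord ψ =
      (∑ r, polyDiv d (zs r)) P + polyDiv d zw P - ((s : ℤ) + 1) * polyDiv d 0 P := by
    intro P
    rw [← hψ P]
    simp only [Finsupp.coe_sub, Finsupp.coe_add, Pi.sub_apply, Pi.add_apply, Finsupp.smul_apply,
      smul_eq_mul]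
  have hquot : ((φ : 𝓡.O) : F) * ψ⁻¹ ∈ riemannRochSpace (polyDiv d zw) := by
    rw [mem_L_iff]
    intro P
    right
    rw [P.ord_mul hφ0 (inv_ne_zero hψ0), P.ord_inv, hψ' P]
    have := hφB P
    linarith
  rw [H638.L_eq_range_of_ell_eq_one (Fermat.Agent.A3.H255.polyDiv_nonneg d zw)
    (Fermat.Agent.A3.H255.ell_polyDiv 𝓡 Qs hell d zw)] at hquot
  obtain ⟨c, hc⟩ := hquot
  have hc' : algebraMap K F c = ((φ : 𝓡.O) : F) * ψ⁻¹ := hc
  have hc0 : algebraMap K F c ≠ 0 := by
    rw [hc']
    exact mul_ne_zero hφ0 (inv_ne_zero hψ0)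
  have hφψ : ∀ P : Place K F, P.ord ((φ : 𝓡.O) : F) = P.ord ψ := by
    intro P
    have e : ((φ : 𝓡.O) : F) = algebraMap K F c * ψ := by
      rw [hc']
      field_simp
    rw [e, P.ord_mul hc0 hψ0, ord_algebraMap, zero_add]
  -- `h_i` vanishes at `pt_i (zw i)`
  have hordh : ((d i).pt (zw i)).ord ((h i : (d i).ring) : F) = 1 := by
    have e := hordφ i (zw i)
    rw [hφψ, hψ', sum_polyDiv_apply_pt d hQs zs i (zw i), polyDiv_apply_pt d hQs zw i (zw i),
      polyDiv_apply_pt d hQs 0 i (zw i), if_pos rfl] at e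
    have hz : ((0 : Fin (genusFF k Fk) → IsLocalRing.maximalIdeal 𝓡.V) i = zw i) ↔
        ((0 : IsLocalRing.maximalIdeal 𝓡.V) = zw i) := Iff.rfl
    simp only [hz] at e
    linarith
  have hhi0 : h i ≠ 0 := fun h0 => hh0 i (by rw [h0]; rfl)
  have hev : (d i).D.ev (zw i) (h i) = 0 :=
    ((d i).ev_eq_zero_iff (zw i) (h i) hhi0).mpr (by rw [hordh])
  obtain ⟨u, hu⟩ := (d i).exists_eq_mul_of_ev_eq_zero (zw i) (h i) hev
  -- the reduction of `u` is `1`
  have hred1 : (d i).redHom (G i) = (d i).redHom (d i).D.t ^ (s + 1) := by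
    have e : (⟨((G i : (d i).ring) : F), (d i).ring_le _ (G i).2⟩ : 𝓡.O) =
        (⟨(((d i).D.t : (d i).ring) : F), (d i).ring_le _ (d i).D.t.2⟩ : 𝓡.O) ^ (s + 1) * φ := by
      apply Subtype.ext
      rw [hG i]
      rfl
    rw [DiscData.redHom_apply, e, map_mul, map_pow, hφred, mul_one, DiscData.redHom_apply]
  have hred2 : (d i).redHom (G i) = (d i).redHom (d i).D.t ^ (s + 1) * (d i).redHom u := by
    rw [hh i, hu, map_mul, map_mul, redHom_aeval_nodal, (d i).redHom_tSub, List.length_ofFn,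
      pow_succ]
    ring
  have hu1 : (d i).redHom u = 1 := by
    have h0 : (d i).redHom (d i).D.t ^ (s + 1) ≠ 0 := pow_ne_zero _ (d i).redHom_t_ne_zero
    have e : (d i).redHom (d i).D.t ^ (s + 1) * (d i).redHom u =
        (d i).redHom (d i).D.t ^ (s + 1) * 1 := by
      rw [← hred2, hred1, mul_one]
    exact mul_left_cancel₀ h0 e
  refine ⟨u, isUnit_ev_of_redHom_eq_one (d i) u hu1 (zw i), ?_⟩
  rw [hh i, hu, mul_assoc]
  rfl

end Fermat.Agent.A3.H255.Geo

end
end
-- ===== PACK-END A3/H255/Geo.lean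

-- ===== PACK-BEGIN A3/H799/LocalFinal.lean
section









/-!
# A3 / LOCAL — `LocalStatement` from the single remaining leaf DET  (helper799)

All other leaves are on main: DISC (`H75.discStatement`), DISC-I (`H555.discEquivStatement`),
NSP (`H255.nspStatement`), COORD (`H255.coordStatement`), GEO (`H255.Geo.geoStatement`),
KER-I (`H555.kerInertiaStatement`), LIFTI (`H555.liftiStatement_of_disc`).
-/

set_option autoImplicit false

open AlgebraicCurve

namespace Fermat.Agent.A3.H799

universe u₁ u₂ u₃ u₄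

variable {K : Type u₁} {F : Type u₂} {k : Type u₃} {Fk : Type u₄}
  [Field K] [Field F] [Algebra K F] [Field k] [Field Fk] [Algebra k Fk]

/-- ZADD from DET. -/
theorem zaddStatement_of_det.{w} (hdet : DetStatement K F k Fk) :
    ZaddStatement.{u₁, u₂, u₃, u₄, w} K F k Fk :=
  zadd_of H255.coordStatement
    (ztri_of_zgen (zgen_of H255.Geo.geoStatement hdet))
    (zneg_of_zgen (zgen_of H255.Geo.geoStatement hdet))

/-- CHART from DET. -/
theorem chartStatement_of_det.{w} [IsAlgClosed k] (hdet : DetStatement K F k Fk) :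
    ChartStatement.{u₁, u₂, u₃, u₄, w} K F k Fk :=
  chart_of H255.nspStatement (H75.discStatement K F k Fk) H555.discEquivStatement
    H255.coordStatement (zaddStatement_of_det hdet)

/-- **`LocalStatement` from DET.** -/
theorem localStatement_of_det [IsAlgClosed K] [IsAlgClosed k] [CharZero K]
    (hdet : DetStatement K F k Fk) : LocalStatement K F k Fk :=
  local_of_chart (chartStatement_of_det hdet) H555.kerInertiaStatement
    (H555.liftiStatement_of_disc (H75.discStatement K F k Fk) H555.discEquivStatement)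

end Fermat.Agent.A3.H799

end
-- ===== PACK-END A3/H799/LocalFinal.lean

-- ===== PACK-BEGIN A3/H255/Det.lean
section





/-!
# A3 / LOCAL, leaf DET (helper255): integral functions in `L((s+1)E)` with unit jet determinant

`detStatement : DetStatement K F k Fk` (frozen leaf of `A3/H799/LocalSpec2.lean`).

Proof.  `Ē = Σ Q_i` attains Riemann's bound (`ℓ(Ē) = 1 = deg Ē + 1 - g`), hence
`𝔸 = 𝔸(Ē) + Fk` and principal parts modulo `𝔸(Ē)` can be prescribed: for every
`c = (i₀, m)` there is `ψ_c ∈ L_k((s+1)Ē)` with `ψ_c ≡ t̄_{i₀}^{m-s-1}` at `Q_{i₀}` and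
`ψ_c ≡ 0` at the other `Q_i` (modulo functions of order `≥ -1`).  Lift `ψ_c` to an integral
`φ_c ∈ L((s+1)E)` (integral Riemann–Roch, `GoodRed.exists_lift`), interpolate
`t_i^{s+1} φ_c = P(t_i) + t_i^s H` in the disc algebra; the reduction of `P` is
`δ · X^m` modulo `X^s`, so the jet matrix reduces to the identity and has unit determinant.

All proofs complete.
-/

set_option autoImplicit false
set_option linter.style.haveILetI false
set_option linter.unusedSectionVars false

noncomputable section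

open AlgebraicCurve

namespace Fermat.Agent.A3.H255.Det

open Fermat.Agent.Lib.RR Fermat.Agent.A3.H799

/-! ### Prescribing principal parts -/

section Approx

variable {K F : Type*} [Field K] [Field F] [Algebra K F] [FF1 K F]

open Classical in
/-- Strong approximation from `𝔸 = 𝔸(D) + F`. -/
theorem exists_approx_of_sup {D : Divisor K F}
    (hsup : repartitionsOf D ⊔ principalRepartitions K F = ⊤) (S : Finset (Place K F))
    (φ : Place K F → F) :
    ∃ f : F, (∀ v ∈ S, H623.Big v (-D v) (f - φ v)) ∧ ∀ v ∉ S, H623.Big v (-D v) f := by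
  let α₀ : Place K F → F := fun v => if v ∈ S then φ v else 0
  have hα₀ : α₀ ∈ repartitions K F := by
    apply mem_repartitions_of_finite_ord
    refine (Finset.finite_toSet S).subset fun v hv => ?_
    by_contra hvS
    have hv' : v.ord (α₀ v) < 0 := hv
    have : α₀ v = 0 := if_neg hvS
    rw [this, v.ord_zero] at hv'
    exact lt_irrefl _ hv'
  let α : ↥(repartitions K F) := ⟨α₀, hα₀⟩
  have hmem : α ∈ repartitionsOf D ⊔ principalRepartitions K F := by
    rw [hsup]; trivial
  obtain ⟨β, hβ, γ, hγ, hsum⟩ := Submodule.mem_sup.mp hmem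
  obtain ⟨f, hf⟩ := mem_principalRepartitions_iff.mp hγ
  rw [mem_repartitionsOf_iff] at hβ
  have hval : ∀ v, (β : Place K F → F) v = α₀ v - f := by
    intro v
    have h1 := congrArg (fun x : ↥(repartitions K F) => (x : Place K F → F) v) hsum
    simp only [H439.coe_add_apply] at h1
    have h2 : (γ : Place K F → F) v = f := by rw [hf]
    rw [h2] at h1
    have h3 : (α : Place K F → F) v = α₀ v := rfl
    rw [h3] at h1
    rw [← h1]; ring
  refine ⟨f, fun v hv => ?_, fun v hv => ?_⟩
  · have h := hβ v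
    rw [hval v] at h
    have hα : α₀ v = φ v := if_pos hv
    rw [hα] at h
    have h' : H623.Big v (-D v) (φ v - f) := h
    have := h'.neg
    rwa [neg_sub] at this
  · have h := hβ v
    rw [hval v] at h
    have hα : α₀ v = 0 := if_neg hv
    rw [hα, zero_sub] at h
    have h' : H623.Big v (-D v) (-f) := h
    have := h'.neg
    rwa [neg_neg] at this

/-- Principal parts modulo `𝔸(Ē)` at `g` distinct points with `ℓ(Σ Q_i) = 1`. -/
theorem exists_jet {ι : Type*} [Fintype ι] (Qs : ι → Place K F) (hQs : Function.Injective Qs)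
    (hcard : Fintype.card ι = genusFF K F)
    (hell : ell (∑ i, Finsupp.single (Qs i) (1 : ℤ)) = 1) (τ : ι → F) :
    ∃ f : F, (∀ i, H623.Big (Qs i) (-1) (f - τ i)) ∧
      ∀ v : Place K F, (∀ i, Qs i ≠ v) → H623.Big v 0 f := by
  classical
  have hatt : (ell (∑ i, Finsupp.single (Qs i) (1 : ℤ)) : ℤ) =
      Divisor.degree (∑ i, Finsupp.single (Qs i) (1 : ℤ)) + 1 - (genusFF K F : ℤ) := by
    rw [hell, Fermat.Agent.A3.H255.degree_sum_single, hcard]
    simp
  have hsup := H439.sup_eq_top_of_attains (genusFF K F : ℤ)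
    (fun D' => riemann_inequality_genusFF D') _ hatt
  let φ : Place K F → F := fun v => if h : ∃ i, Qs i = v then τ h.choose else 0
  have hφ : ∀ i, φ (Qs i) = τ i := by
    intro i
    have hex : ∃ j, Qs j = Qs i := ⟨i, rfl⟩
    have : φ (Qs i) = τ hex.choose := dif_pos hex
    rw [this, hQs hex.choose_spec]
  obtain ⟨f, h1, h2⟩ := exists_approx_of_sup hsup (Finset.univ.image Qs) φ
  refine ⟨f, fun i => ?_, fun v hv => ?_⟩
  · have := h1 (Qs i) (Finset.mem_image_of_mem Qs (Finset.mem_univ i))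
    rwa [hφ i, Fermat.Agent.A3.H255.sum_single_apply_of_injective hQs i] at this
  · have hvS : v ∉ Finset.univ.image Qs := by
      intro hmem
      obtain ⟨i, -, hi⟩ := Finset.mem_image.mp hmem
      exact hv i hi
    have := h2 v hvS
    rwa [Fermat.Agent.A3.H255.sum_single_apply_of_forall_ne hv, neg_zero] at this

end Approx

variable {K F k Fk : Type*} [Field K] [Field F] [Algebra K F] [Field k] [Field Fk] [Algebra k Fk]

/-! ### Disc algebra lemmas -/

section Disc

variable {𝓡 : GoodRed K F k Fk} {Q : Place k Fk} (d : DiscData 𝓡 Q)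

theorem nodal_replicate_zero (s : ℕ) :
    DiscAlg.nodal (List.replicate s (0 : IsLocalRing.maximalIdeal 𝓡.V)) =
      (Polynomial.X : Polynomial 𝓡.V) ^ s := by
  induction s with
  | zero => simp
  | succ n ih =>
    rw [List.replicate_succ, DiscAlg.nodal_cons, ih, pow_succ]
    simp
    ring

/-- Interpolation at the centre: `f = P(t) + t^s H`. -/
theorem exists_interp_center (s : ℕ) (f : d.ring) :
    ∃ (P : Polynomial 𝓡.V) (H : d.ring), f = Polynomial.aeval d.D.t P + d.D.t ^ s * H := by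
  obtain ⟨P, H, h⟩ := d.D.exists_interp (List.replicate s 0) f
  refine ⟨P, H, ?_⟩
  rw [h, _root_.Fermat.Agent.A3.H255.Det.nodal_replicate_zero]
  simp

theorem redHom_comp_algebraMap :
    d.redHom.comp (algebraMap 𝓡.V d.ring) = (algebraMap k Fk).comp 𝓡.res := by
  ext a
  exact d.redHom_algebraMap a

theorem redHom_aeval (P : Polynomial 𝓡.V) :
    d.redHom (Polynomial.aeval d.D.t P) =
      Polynomial.aeval (d.redHom d.D.t) (P.map 𝓡.res) := by
  rw [Polynomial.aeval_def, Polynomial.hom_eval₂, redHom_comp_algebraMap, Polynomial.aeval_def,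
    Polynomial.eval₂_map]

/-- The reduction of a function of the disc ring is regular at `Q`. -/
theorem big_redHom (h : d.ring) : H623.Big Q 0 (d.redHom h) := by
  haveI := 𝓡.ff1k
  have h1 := d.red_ev 0 h
  have hc : H623.Big Q 0 (algebraMap k Fk (𝓡.res (d.D.ev 0 h))) := by
    rcases eq_or_ne (algebraMap k Fk (𝓡.res (d.D.ev 0 h))) 0 with h0 | h0
    · exact Or.inl h0
    · right
      have hne : 𝓡.res (d.D.ev 0 h) ≠ 0 := fun hz => h0 (by rw [hz, map_zero])
      rw [ord_algebraMap]
  have hd : H623.Big Q 0 (d.redHom h - algebraMap k Fk (𝓡.res (d.D.ev 0 h))) := by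
    rcases h1 with h1 | h1
    · left
      rw [DiscData.redHom_apply, h1, sub_self]
    · right
      rw [DiscData.redHom_apply]
      omega
  have := hd.add hc
  rwa [sub_add_cancel] at this

/-- A polynomial in a uniformiser vanishing to order `≥ s` has no coefficients below `s`. -/
theorem coeff_eq_zero_of_big {K' F' : Type*} [Field K'] [Field F'] [Algebra K' F'] [FF1 K' F']
    (v : Place K' F') {x : F'} (hx : v.ord x = 1) (q : Polynomial K') (s : ℕ)
    (h : H623.Big v s (Polynomial.aeval x q)) (n : ℕ) (hn : n < s) : q.coeff n = 0 := by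
  rcases eq_or_ne q 0 with rfl | hq
  · simp
  obtain ⟨h1, h2⟩ := aeval_ord v (by rw [hx]; exact zero_lt_one) hq
  have h3 := h.le_ord h1
  rw [h2, hx, mul_one] at h3
  have h4 : s ≤ q.rootMultiplicity 0 := by exact_mod_cast h3
  have h5 : (Polynomial.X - Polynomial.C (0 : K')) ^ s ∣ q :=
    (Polynomial.le_rootMultiplicity_iff hq).mp h4
  rw [Polynomial.C_0, sub_zero] at h5
  exact Polynomial.X_pow_dvd_iff.mp h5 n hn

/-- `res x = 1` implies `x` is a unit of `V`. -/
theorem isUnit_of_res_eq_one (x : 𝓡.V) (hx : 𝓡.res x = 1) : IsUnit x := by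
  rw [← IsLocalRing.notMem_maximalIdeal]
  intro hmem
  have h1 : ((x : 𝓡.V) : K) ∈ 𝓡.V.nonunits :=
    ValuationSubring.coe_mem_nonunits_iff.mpr hmem
  rw [← 𝓡.res_eq_zero, hx] at h1
  exact one_ne_zero h1

end Disc

/-- **DET**: the frozen leaf `DetStatement` of `A3/H799/LocalSpec2.lean`. -/
theorem detStatement : DetStatement K F k Fk := by
  classical
  intro 𝓡 Qs hQs hell d s hs
  haveI := 𝓡.ff1
  haveI := 𝓡.ff1k
  -- uniformisers on the special fibre
  have htb : ∀ i, (Qs i).ord ((d i).redHom (d i).D.t) = 1 := fun i => (d i).ord_redHom_t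
  have htb0 : ∀ i, (d i).redHom (d i).D.t ≠ 0 := fun i => (d i).redHom_t_ne_zero
  -- targets
  let τ : (Σ _ : Fin (genusFF k Fk), Fin s) → Fin (genusFF k Fk) → Fk := fun c i =>
    if i = c.1 then (d i).redHom (d i).D.t ^ (((c.2 : ℕ) : ℤ) - ((s : ℤ) + 1)) else 0
  have hτbig : ∀ c i, H623.Big (Qs i) (-((s : ℤ) + 1)) (τ c i) := by
    intro c i
    by_cases hi : i = c.1
    · right
      simp only [τ, if_pos hi]
      rw [Place.ord_zpow, htb i, mul_one]
      have : (0 : ℤ) ≤ ((c.2 : ℕ) : ℤ) := Int.natCast_nonneg _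
      omega
    · left
      simp only [τ, if_neg hi]
  -- step 1: functions on the special fibre
  have h1 : ∀ c, ∃ ψ : Fk, (∀ i, H623.Big (Qs i) (-1) (ψ - τ c i)) ∧
      ∀ v : Place k Fk, (∀ i, Qs i ≠ v) → H623.Big v 0 ψ :=
    fun c => exists_jet Qs hQs (by simp) hell (τ c)
  choose ψ hψ1 hψ2 using h1
  have hrE : Finsupp.mapDomain 𝓡.r (((s : ℤ) + 1) • polyDiv d 0) =
      ((s : ℤ) + 1) • ∑ i, Finsupp.single (Qs i) (1 : ℤ) := by
    rw [Finsupp.mapDomain_smul, Fermat.Agent.A3.H255.mapDomain_polyDiv]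
  have hψL : ∀ c, ψ c ∈ riemannRochSpace (Finsupp.mapDomain 𝓡.r (((s : ℤ) + 1) • polyDiv d 0)) := by
    intro c
    rw [hrE, mem_L_iff]
    intro v
    by_cases hv : ∃ i, Qs i = v
    · obtain ⟨i, rfl⟩ := hv
      have hb : H623.Big (Qs i) (-((s : ℤ) + 1)) (ψ c) := by
        have h := ((hψ1 c i).mono (s := -((s : ℤ) + 1)) (by omega)).add (hτbig c i)
        rwa [sub_add_cancel] at h
      rw [Finsupp.smul_apply, Fermat.Agent.A3.H255.sum_single_apply_of_injective hQs i,
        smul_eq_mul, mul_one]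
      exact hb
    · push Not at hv
      have hb := hψ2 c v hv
      rw [Finsupp.smul_apply, Fermat.Agent.A3.H255.sum_single_apply_of_forall_ne hv, smul_zero,
        neg_zero]
      exact hb
  -- step 2: integral lifts
  have hdeg : 2 * (genusFF k Fk : ℤ) - 2 < Divisor.degree (((s : ℤ) + 1) • polyDiv d 0) := by
    rw [map_zsmul, Fermat.Agent.A3.H255.degree_polyDiv, smul_eq_mul, Fintype.card_fin]
    have h1 : (1 : ℤ) ≤ (s : ℤ) := by exact_mod_cast hs
    have h2 : (0 : ℤ) ≤ (genusFF k Fk : ℤ) := Int.natCast_nonneg _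
    nlinarith
  have h2 : ∀ c, ∃ (f : F) (hf : f ∈ 𝓡.O),
      f ∈ riemannRochSpace (((s : ℤ) + 1) • polyDiv d 0) ∧ 𝓡.red ⟨f, hf⟩ = ψ c :=
    fun c => 𝓡.exists_lift _ hdeg (hψL c)
  choose φF hφO hφL hφred using h2
  -- step 3: `t_i^{s+1} φ_c` lies in the disc ring
  have hmem : ∀ c i, (((d i).D.t : (d i).ring) : F) ^ (s + 1) * φF c ∈ (d i).ring := by
    intro c i
    refine (d i).mem_ring _ (mul_mem (pow_mem ((d i).ring_le _ (d i).D.t.2) _) (hφO c)) ?_
    intro P hP
    obtain ⟨a, rfl⟩ := (d i).pt_surj P hP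
    rcases eq_or_ne (φF c) 0 with h0 | h0
    · rw [h0, mul_zero]
      exact zero_mem _
    · apply mem_of_ord_nonneg
      have ht0 : (((d i).D.t : (d i).ring) : F) ≠ 0 := by
        have := (d i).tSub_ne_zero 0
        rw [DiscData.coe_tSub] at this
        simpa [DiscData.tF] using this
      rw [((d i).pt a).ord_mul (pow_ne_zero _ ht0) h0, ord_pow, Geo.ord_pt_t (d i) a]
      have h3 := (mem_L_iff.mp (hφL c) ((d i).pt a)).resolve_left h0
      rw [Finsupp.smul_apply, polyDiv_apply_pt d hQs 0 i a, smul_eq_mul] at h3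
      have hz : ((0 : Fin (genusFF k Fk) → IsLocalRing.maximalIdeal 𝓡.V) i = a) ↔
          ((0 : IsLocalRing.maximalIdeal 𝓡.V) = a) := Iff.rfl
      simp only [hz] at h3
      push_cast
      linarith
  -- step 4: interpolation
  have h4 : ∀ c i, ∃ (P : Polynomial 𝓡.V) (H : (d i).ring),
      (⟨_, hmem c i⟩ : (d i).ring) = Polynomial.aeval (d i).D.t P + (d i).D.t ^ s * H :=
    fun c i => exists_interp_center (d i) s _
  choose P H hPH using h4
  refine ⟨fun c => ⟨φF c, hφO c⟩, fun c i => ⟨_, hmem c i⟩, P, H, hφL, fun c i => rfl, hPH, ?_⟩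
  intro inst
  -- step 5: the reduction of the coefficients
  have hcoeff : ∀ (c : Σ _ : Fin (genusFF k Fk), Fin s) (i : Fin (genusFF k Fk)) (n : ℕ),
      n < s → 𝓡.res ((P c i).coeff n) = if i = c.1 ∧ n = (c.2 : ℕ) then 1 else 0 := by
    intro c i n hn
    set tb := (d i).redHom (d i).D.t with htbdef
    -- reduction of the interpolation identity
    have e1 : (d i).redHom (⟨_, hmem c i⟩ : (d i).ring) = tb ^ (s + 1) * ψ c := by
      have e : (⟨(((d i).D.t : (d i).ring) : F) ^ (s + 1) * φF c,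
          (d i).ring_le _ (hmem c i)⟩ : 𝓡.O) =
          (⟨(((d i).D.t : (d i).ring) : F), (d i).ring_le _ (d i).D.t.2⟩ : 𝓡.O) ^ (s + 1) *
            ⟨φF c, hφO c⟩ := by
        apply Subtype.ext
        rfl
      rw [DiscData.redHom_apply]
      show 𝓡.red ⟨(((d i).D.t : (d i).ring) : F) ^ (s + 1) * φF c, _⟩ = _
      rw [e, map_mul, map_pow, hφred c]
      rfl
    have e2 : (d i).redHom (⟨_, hmem c i⟩ : (d i).ring) =
        Polynomial.aeval tb ((P c i).map 𝓡.res) + tb ^ s * (d i).redHom (H c i) := by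
      rw [hPH c i, map_add, map_mul, map_pow, redHom_aeval]
    let mono : Polynomial k := if i = c.1 then Polynomial.X ^ (c.2 : ℕ) else 0
    have e3 : tb ^ (s + 1) * τ c i = Polynomial.aeval tb mono := by
      by_cases hi : i = c.1
      · simp only [τ, mono, if_pos hi, map_pow, Polynomial.aeval_X]
        rw [← zpow_natCast tb (s + 1), ← zpow_add₀ (htb0 i), ← zpow_natCast tb (c.2 : ℕ)]
        congr 1
        push_cast
        ring
      · simp only [τ, mono, if_neg hi, mul_zero, map_zero]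
    have hbig : H623.Big (Qs i) (s : ℤ)
        (Polynomial.aeval tb ((P c i).map 𝓡.res - mono)) := by
      have e4 : Polynomial.aeval tb ((P c i).map 𝓡.res - mono) =
          tb ^ (s + 1) * (ψ c - τ c i) - tb ^ s * (d i).redHom (H c i) := by
        rw [map_sub, ← e3]
        have := e1.symm.trans e2
        linear_combination -this
      rw [e4]
      have b1 : H623.Big (Qs i) ((s : ℤ) + 1) (tb ^ (s + 1)) := by
        right
        rw [ord_pow, htb i]
        push_cast
        omega
      have b2 : H623.Big (Qs i) (s : ℤ) (tb ^ s) := by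
        right
        rw [ord_pow, htb i]
        omega
      have b3 := b1.mul (hψ1 c i)
      have b4 := b2.mul (big_redHom (d i) (H c i))
      have b3' : H623.Big (Qs i) (s : ℤ) (tb ^ (s + 1) * (ψ c - τ c i)) := b3.mono (by omega)
      have b4' : H623.Big (Qs i) (s : ℤ) (tb ^ s * (d i).redHom (H c i)) := b4.mono (by omega)
      exact b3'.sub b4'
    have h0 := coeff_eq_zero_of_big (Qs i) (htb i) _ s hbig n hn
    rw [Polynomial.coeff_sub, Polynomial.coeff_map, sub_eq_zero] at h0
    rw [h0]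
    by_cases hi : i = c.1
    · simp only [mono, if_pos hi, Polynomial.coeff_X_pow, hi, true_and]
    · simp only [mono, if_neg hi, Polynomial.coeff_zero, hi, false_and, if_false]
  -- step 6: the determinant
  apply isUnit_of_res_eq_one
  rw [RingHom.map_det]
  have hone : 𝓡.res.mapMatrix (Matrix.of fun (c j : Σ _ : Fin (genusFF k Fk), Fin s) =>
      (P j c.1).coeff (c.2 : ℕ)) = 1 := by
    ext c j
    rw [RingHom.mapMatrix_apply, Matrix.map_apply, Matrix.of_apply, hcoeff j c.1 c.2 c.2.2,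
      Matrix.one_apply]
    rcases c with ⟨c1, c2⟩
    rcases j with ⟨j1, j2⟩
    by_cases h : (⟨c1, c2⟩ : Σ _ : Fin (genusFF k Fk), Fin s) = ⟨j1, j2⟩
    · rw [if_pos h]
      have h' := Sigma.mk.inj_iff.mp h
      rw [if_pos ⟨h'.1, by rw [eq_of_heq h'.2]⟩]
    · rw [if_neg h, if_neg]
      rintro ⟨h1, h2⟩
      apply h
      have h1' : c1 = j1 := h1
      have h2' : c2 = j2 := Fin.ext h2
      rw [h1', h2']
  rw [hone, Matrix.det_one]

end Fermat.Agent.A3.H255.Det

end
end
-- ===== PACK-END A3/H255/Det.lean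

-- ===== PACK-BEGIN A3/H615/GrRed.lean
section






/-!
# Cell A3 / GR-INST, block RED (helper615): the place map of a linked datum with good charts

Input: the output of the S37 node `DatumStatement` (`S37/Core/Board.lean`), i.e. a reduction datum
`G : Red.Datum A (residue A) F_M F_{M,k}` with `G.Good` and `Red.H759.Link G`.

Output (`exists_red`): a map `r : Place Q̄ F_M → Place k F_{M,k}` with

* `div_red`  : `r_* div f = div (G.ρ f)` for every `f ∈ G.O` with `G.ρ f ≠ 0`
               (= field `div_red` of `A3.H799.GoodRed` for `O := G.O`, `red := G.ρ`);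
* `I_place`  : `r (σ • P) = r P` for every `σ ∈ Gal(Q̄/Q)` with `σ a - a ∈ 𝔪_A` for all `a ∈ A`
               (= `S19.IsInertiaAt A σ`; field `I_place` of `GoodRed` for the image of inertia);
* the Prelude's `IsPlaceReductionModL A M r`, and evaluation compatibility `Red.EvalCompat G r`.

Proof: `Red.H940.main_of_fibreSum` (existence, S37-RED) and helper697's uniqueness by the Riemann
bound (`H697.placeReduction_equivariant`), which needs only that `r` is not constant; this follows
from `r_* div x = div x̄` and the transcendence of `x̄`.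
-/

set_option autoImplicit false
set_option synthInstance.maxHeartbeats 400000

noncomputable section

namespace Fermat.Agent.A3.H615

open ModularCurve AlgebraicCurve HahnSeries IsLocalRing Fermat.Agent.S37.Red
open Fermat.Agent.Lib.RR

namespace GrRed

/-- `Q̄` -/
abbrev Qb : Type := AlgebraicClosure ℚ

variable {M : ℕ} {A : ValuationSubring _root_.Fermat.Agent.A3.H615.GrRed.Qb}

/-- principal divisors have degree zero -/
theorem degree_eq_zero_of_mem_principal {K F : Type*} [Field K] [Field F] [Algebra K F]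
    [HasPrincipalDivisors K F] {D : Divisor K F}
    (hD : D ∈ Divisor.principal (K := K) (F := F)) : Divisor.degree D = 0 := by
  obtain ⟨f, hf, hDf⟩ := hD
  obtain ⟨D', hD', hdeg⟩ := HasPrincipalDivisors.exists_divisor (K := K) f hf
  have : D = D' := Finsupp.ext fun v => by rw [hDf v, hD' v]
  rw [this, hdeg]

/-- A map on places with `r_* div f = div (ρ f)` is not constant: the divisor of the coordinate
has nonzero reduction. -/
theorem exists_mapDomain_ne_zero [NeZero M] {ℓ : ℕ} (hℓ : ℓ.Prime) (hℓM : ¬ ℓ ∣ M)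
    (hA : A.LiesOverPrime ℓ)
    (G : Datum A (residue A) (modularFunctionFieldBar M)
      (modularFunctionFieldFullC (ResidueField A) M))
    (r : Place _root_.Fermat.Agent.A3.H615.GrRed.Qb (modularFunctionFieldBar M) →
      Place (ResidueField A) (modularFunctionFieldFullC (ResidueField A) M))
    (hr : IsRed G r) :
    ∃ D ∈ Divisor.principal (K := _root_.Fermat.Agent.A3.H615.GrRed.Qb) (F := modularFunctionFieldBar M),
      Finsupp.mapDomain r D ≠ 0 := by
  have hff : FF1 (ResidueField A) (modularFunctionFieldFullC (ResidueField A) M) :=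
    Fermat.Agent.S18.H383.ff1_residue M ℓ hℓ hℓM A hA
  have hpd : HasPrincipalDivisors _root_.Fermat.Agent.A3.H615.GrRed.Qb (modularFunctionFieldBar M) :=
    Fermat.Agent.Lib.RR.H864.hasPrincipalDivisors_modularFunctionFieldBar M
  have hxk : G.ρ ⟨G.x, G.x_mem⟩ ≠ 0 := fun h0 =>
    G.xk_transc (by rw [h0]; exact isAlgebraic_zero)
  have hx0 : G.x ≠ 0 := by
    rintro h0
    apply hxk
    have : (⟨G.x, G.x_mem⟩ : G.O) = 0 := Subtype.ext h0
    rw [this, map_zero]
  obtain ⟨D, hD, -⟩ := HasPrincipalDivisors.exists_divisor (K := _root_.Fermat.Agent.A3.H615.GrRed.Qb) G.x hx0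
  refine ⟨D, ⟨G.x, hx0, hD⟩, fun h0 => ?_⟩
  -- then `x̄` has no zeros and no poles, hence is a constant
  have hord : ∀ Q : Place (ResidueField A) (modularFunctionFieldFullC (ResidueField A) M),
      Q.ord (G.ρ ⟨G.x, G.x_mem⟩) = 0 := by
    intro Q
    rw [← hr.2 G.x G.x_mem hxk D hD Q, h0, Finsupp.zero_apply]
  have hmem : G.ρ ⟨G.x, G.x_mem⟩ ∈
      riemannRochSpace (0 : Divisor (ResidueField A)
        (modularFunctionFieldFullC (ResidueField A) M)) := by
    rw [mem_L_iff]
    intro v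
    right
    rw [hord v]
    simp
  rw [L_zero] at hmem
  obtain ⟨c, hc⟩ := hmem
  apply G.xk_transc
  rw [← hc]
  exact isAlgebraic_algebraMap c

/-- **Inertia acts trivially on the special fibre, pointwise**: for a place reduction map `r`
which is not constant, and `σ` acting trivially on the residue field of `A`. -/
theorem inertia_place [NeZero M] {ℓ : ℕ} (hℓ : ℓ.Prime) (hℓM : ¬ ℓ ∣ M)
    (hA : A.LiesOverPrime ℓ)
    {r : Place _root_.Fermat.Agent.A3.H615.GrRed.Qb (modularFunctionFieldBar M) →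
      Place (ResidueField A) (modularFunctionFieldFullC (ResidueField A) M)}
    (hr : IsPlaceReductionModL A M r)
    (hnc : ∃ D ∈ Divisor.principal (K := _root_.Fermat.Agent.A3.H615.GrRed.Qb) (F := modularFunctionFieldBar M),
      Finsupp.mapDomain r D ≠ 0)
    (σ : _root_.Fermat.Agent.A3.H615.GrRed.Qb ≃ₐ[ℚ] _root_.Fermat.Agent.A3.H615.GrRed.Qb) (hσ : ∀ a : _root_.Fermat.Agent.A3.H615.GrRed.Qb, a ∈ A → σ a - a ∈ A.nonunits)
    (P : Place _root_.Fermat.Agent.A3.H615.GrRed.Qb (modularFunctionFieldBar M)) :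
    r (arithmeticGalois (modularFunctionFieldFull M) σ • P) = r P := by
  have hpd : HasPrincipalDivisors _root_.Fermat.Agent.A3.H615.GrRed.Qb (modularFunctionFieldBar M) :=
    Fermat.Agent.Lib.RR.H864.hasPrincipalDivisors_modularFunctionFieldBar M
  have hσA : ∀ a ∈ A, σ a ∈ A := fun a ha => by
    have h1 := add_mem (A.nonunits_subset (hσ a ha)) ha
    rwa [sub_add_cancel] at h1
  have hφ : ∀ a : A, residue A ⟨σ a, hσA a a.2⟩ = (RingEquiv.refl (ResidueField A)) (residue A a) := by
    intro a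
    rw [RingEquiv.refl_apply, ← sub_eq_zero, ← map_sub, residue_eq_zero_iff]
    exact ValuationSubring.coe_mem_nonunits_iff.mp (hσ a a.2)
  have h := Fermat.Agent.S37.H697.placeReduction_equivariant (N := M) (A := A) hr
    (Fermat.Agent.S37.H98.gen M ℓ hℓ hℓM A hA)
    (fun P => Fermat.Agent.Lib.FF398.deg_eq_one_FF M P)
    (fun D hD => degree_eq_zero_of_mem_principal hD)
    (Fermat.Agent.S37.H98.riemannBound_modularFunctionFieldBar M)
    hnc σ hσA (RingEquiv.refl (ResidueField A)) hφ P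
  rw [h, Fermat.Agent.S37.H697.coeffSL_refl, one_smul]

/-- **GR-INST, block RED.**  The place map of a linked reduction datum with good charts:
conservation (`div_red`), triviality of inertia (`I_place`), the Prelude's
`IsPlaceReductionModL`, and evaluation compatibility. -/
theorem exists_red [NeZero M] {ℓ : ℕ} (hℓ : ℓ.Prime) (hℓM : ¬ ℓ ∣ M)
    (hA : A.LiesOverPrime ℓ)
    (G : Datum A (residue A) (modularFunctionFieldBar M)
      (modularFunctionFieldFullC (ResidueField A) M))
    (hgood : G.Good) (hlink : H759.Link G) :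
    ∃ r : Place _root_.Fermat.Agent.A3.H615.GrRed.Qb (modularFunctionFieldBar M) →
        Place (ResidueField A) (modularFunctionFieldFullC (ResidueField A) M),
      (∀ f : G.O, G.ρ f ≠ 0 → ∀ D : Divisor _root_.Fermat.Agent.A3.H615.GrRed.Qb (modularFunctionFieldBar M),
        (∀ P, D P = P.ord (f : modularFunctionFieldBar M)) →
          ∀ Q, Finsupp.mapDomain r D Q = Q.ord (G.ρ f)) ∧
      (∀ σ : _root_.Fermat.Agent.A3.H615.GrRed.Qb ≃ₐ[ℚ] _root_.Fermat.Agent.A3.H615.GrRed.Qb, (∀ a : _root_.Fermat.Agent.A3.H615.GrRed.Qb, a ∈ A → σ a - a ∈ A.nonunits) →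
        ∀ P, r (arithmeticGalois (modularFunctionFieldFull M) σ • P) = r P) ∧
      IsPlaceReductionModL A M r ∧ EvalCompat G r := by
  have : IsAlgClosed (ResidueField A) := Fermat.Agent.S18.H9.resAlgClosed _ A
  obtain ⟨r, hr, hec⟩ := H940.main_of_fibreSum G hgood (H160.fibreSumStatement G)
  have hmod : IsPlaceReductionModL A M r :=
    Fermat.Agent.S37.Core.isPlaceReductionModL_of_isRed G hlink r hr
  refine ⟨r, fun f hf D hD Q => hr.2 (f : modularFunctionFieldBar M) f.2 hf D hD Q,
    fun σ hσ P => inertia_place hℓ hℓM hA hmod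
      (exists_mapDomain_ne_zero hℓ hℓM hA G r hr) σ hσ P, hmod, hec⟩

end GrRed

end Fermat.Agent.A3.H615

end
end
-- ===== PACK-END A3/H615/GrRed.lean

-- ===== PACK-BEGIN A3/H739/GrAsm.lean
section










/-!
# A3 / GR (helper739): assembly of the `GoodRed` instance for `X₀(N)`

Target: `Fermat.Agent.S19.H979.GrStatement` (frozen by helper979).

For a valuation ring `V ⊆ Q̄` above `ℓ ∤ N` we take

* `O   := S37.Red.modO hVG`  (fractions of integral `q`-series, helper40/helper940),
* `red := S37.Red.modρ hVG`  (coefficientwise reduction of fractions),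
* `I   := inertiaImage N V`  (image under `arithmeticGalois` of `{σ | IsInertiaAt V σ}`),
* `hVG` from `S37.H568.valueGroupHyp_modular` and `S18.H516.coreData_residue`.

PROVED HERE (no holes): `res_*`, `algebraMap_mem`, `red_algebraMap`, `red_surjective`, `gauss`,
`ff1`, `ff1k`, `I_base`, `I_red`, `I_lift_const`, `I_fixed_place`, and the passage of `div_red`
from integral series (Prelude `IsPlaceReductionModL`) to all of `O`.

OPEN LEAVES (exact Props below):
* `RedLeaf N V`    : a place map `r` with the Prelude's `IsPlaceReductionModL V N r`, commuting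
                     with inertia;
* `GenusLeaf N V`  : `genusFF` of the generic and the special fibre agree;
* `OrthLeaf N V hVG` : the field `orthonormal` for `(modO, modρ, inertiaImage)`.

`grStatement_of_leaves` : the three leaves (for ONE `V` above each `ℓ`)  ⟹  `GrStatement`.
-/

set_option autoImplicit false
set_option synthInstance.maxHeartbeats 400000

noncomputable section

namespace Fermat.Agent.A3.H739

open AlgebraicCurve ModularCurve HahnSeries IsLocalRing
open Fermat.Agent.S19 (GalQ IsInertiaAt GoodLevel)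
open Fermat.Agent.S37.Red (Qb FN kA FNk ModVG modO modρ modFrac)

/-! ## The inertia group -/

section Inertia

variable (V : ValuationSubring _root_.Fermat.Agent.S37.Red.Qb)

theorem zero_mem_nonunits_gr : (0 : _root_.Fermat.Agent.S37.Red.Qb) ∈ V.nonunits := by
  rw [ValuationSubring.mem_nonunits_iff, map_zero]
  exact zero_lt_one

theorem nonunits_le_gr {a : _root_.Fermat.Agent.S37.Red.Qb} (ha : a ∈ V.nonunits) : a ∈ V := by
  rw [ValuationSubring.mem_nonunits_iff] at ha
  exact (V.valuation_le_one_iff a).mp ha.le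

theorem add_mem_nonunits_gr {a b : _root_.Fermat.Agent.S37.Red.Qb} (ha : a ∈ V.nonunits) (hb : b ∈ V.nonunits) :
    a + b ∈ V.nonunits := by
  rw [ValuationSubring.mem_nonunits_iff] at ha hb ⊢
  exact lt_of_le_of_lt (V.valuation.map_add a b) (max_lt ha hb)

theorem neg_mem_nonunits_gr {a : _root_.Fermat.Agent.S37.Red.Qb} (ha : a ∈ V.nonunits) : -a ∈ V.nonunits := by
  rw [ValuationSubring.mem_nonunits_iff] at ha ⊢
  rwa [Valuation.map_neg]

variable {V}

theorem inertia_map_mem {σ : GalQ} (hσ : IsInertiaAt V σ) {a : _root_.Fermat.Agent.S37.Red.Qb} (ha : a ∈ V) :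
    σ a ∈ V := by
  have h := V.add_mem _ _ (nonunits_le_gr V (hσ a ha)) ha
  simpa using h

theorem inertia_map_mem_nonunits {σ : GalQ} (hσ : IsInertiaAt V σ) {a : _root_.Fermat.Agent.S37.Red.Qb}
    (ha : a ∈ V.nonunits) : σ a ∈ V.nonunits := by
  have h := add_mem_nonunits_gr V (hσ a (nonunits_le_gr V ha)) ha
  simpa using h

theorem inertia_symm_mem {σ : GalQ} (hσ : IsInertiaAt V σ) {a : _root_.Fermat.Agent.S37.Red.Qb} (ha : a ∈ V) :
    σ.symm a ∈ V := by
  by_contra hb
  have hb' : (σ.symm a)⁻¹ ∈ V.nonunits := by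
    rw [ValuationSubring.mem_nonunits_iff]
    have h1 : ¬ V.valuation (σ.symm a) ≤ 1 := fun h => hb ((V.valuation_le_one_iff _).mp h)
    have h2 : 1 < V.valuation (σ.symm a) := not_le.mp h1
    rw [map_inv₀]
    exact inv_lt_one_of_one_lt₀ h2
  have h3 := inertia_map_mem_nonunits hσ hb'
  rw [map_inv₀, AlgEquiv.apply_symm_apply] at h3
  rw [ValuationSubring.mem_nonunits_iff, map_inv₀] at h3
  have h4 : V.valuation a ≤ 1 := (V.valuation_le_one_iff a).mpr ha
  have ha0 : V.valuation a ≠ 0 := by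
    intro h0
    rw [h0, inv_zero] at h3
    have hz : a = 0 := (V.valuation.zero_iff).mp h0
    apply hb
    rw [hz, map_zero]
    exact V.zero_mem
  have h5 : 1 ≤ (V.valuation a)⁻¹ := (one_le_inv₀ (zero_lt_iff.mpr ha0)).mpr h4
  exact absurd h3 (not_lt.mpr h5)

variable (V)

/-- the inertia group of `V` in `Gal(Q̄/Q)`, in the form used by `S19.IsInertiaAt` -/
def inertiaGroup : Subgroup GalQ where
  carrier := {σ | IsInertiaAt V σ}
  one_mem' := fun a _ => by
    show (1 : GalQ) a - a ∈ V.nonunits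
    rw [AlgEquiv.one_apply, sub_self]
    exact zero_mem_nonunits_gr V
  mul_mem' := fun {σ τ} hσ hτ a ha => by
    show (σ * τ) a - a ∈ V.nonunits
    have h1 : σ (τ a - a) ∈ V.nonunits := inertia_map_mem_nonunits hσ (hτ a ha)
    have h2 := add_mem_nonunits_gr V h1 (hσ a ha)
    rw [map_sub] at h2
    have e : σ (τ a) - σ a + (σ a - a) = (σ * τ) a - a := by
      rw [AlgEquiv.mul_apply]; ring
    rwa [e] at h2
  inv_mem' := fun {σ} hσ a ha => by
    show σ⁻¹ a - a ∈ V.nonunits
    have hb : σ.symm a ∈ V := inertia_symm_mem hσ ha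
    have h1 := neg_mem_nonunits_gr V (hσ (σ.symm a) hb)
    rw [AlgEquiv.apply_symm_apply, neg_sub] at h1
    exact h1

theorem mem_inertiaGroup {σ : GalQ} : σ ∈ inertiaGroup V ↔ IsInertiaAt V σ := Iff.rfl

/-- the image of the inertia group in the semilinear automorphisms of `Q̄(X₀(N))` -/
def inertiaImage (N : ℕ) : Subgroup (SemilinearAut _root_.Fermat.Agent.S37.Red.Qb (FN N)) :=
  (inertiaGroup V).map (arithmeticGalois (modularFunctionFieldFull N))

theorem mem_inertiaImage {N : ℕ} {g : SemilinearAut _root_.Fermat.Agent.S37.Red.Qb (FN N)} :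
    g ∈ inertiaImage V N ↔
      ∃ σ : GalQ, IsInertiaAt V σ ∧ arithmeticGalois (modularFunctionFieldFull N) σ = g :=
  Subgroup.mem_map

theorem arithmeticGalois_mem_inertiaImage (N : ℕ) {σ : GalQ} (hσ : IsInertiaAt V σ) :
    arithmeticGalois (modularFunctionFieldFull N) σ ∈ inertiaImage V N :=
  Subgroup.mem_map_of_mem _ hσ

end Inertia

/-! ## The datum `(modO, modρ)` -/

section Datum

open Fermat.Agent.S37.H940

variable {N : ℕ} {V : ValuationSubring _root_.Fermat.Agent.S37.Red.Qb}

theorem gr_res_eq_zero (a : V) : residue V a = 0 ↔ (a : _root_.Fermat.Agent.S37.Red.Qb) ∈ V.nonunits := by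
  rw [residue_eq_zero_iff, ValuationSubring.coe_mem_nonunits_iff]

theorem inv_mem_nonunits_of_notMem_gr {a : _root_.Fermat.Agent.S37.Red.Qb} (ha : a ∉ V) : a⁻¹ ∈ V.nonunits := by
  rw [ValuationSubring.mem_nonunits_iff, map_inv₀]
  have h1 : ¬ V.valuation a ≤ 1 := fun h => ha ((V.valuation_le_one_iff _).mp h)
  exact inv_lt_one_of_one_lt₀ (not_le.mp h1)

/-- constants of `O` are the constants of `V` -/
theorem gr_algebraMap_mem (hVG : ModVG N V) (a : _root_.Fermat.Agent.S37.Red.Qb) :
    algebraMap _root_.Fermat.Agent.S37.Red.Qb (FN N) a ∈ modO hVG ↔ a ∈ V := by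
  constructor
  · intro h
    by_contra ha
    have hnu : (a⁻¹ : _root_.Fermat.Agent.S37.Red.Qb) ∈ V.nonunits := inv_mem_nonunits_of_notMem_gr ha
    have hinv : a⁻¹ ∈ V := nonunits_le_gr V hnu
    have ha0 : a ≠ 0 := fun h0 => ha (h0 ▸ V.zero_mem)
    let u : modO hVG := ⟨algebraMap _root_.Fermat.Agent.S37.Red.Qb (FN N) a, h⟩
    let w : modO hVG := ⟨algebraMap _root_.Fermat.Agent.S37.Red.Qb (FN N) a⁻¹, (modFrac N V).ctx.A_mem ⟨a⁻¹, hinv⟩⟩
    have huw : u * w = 1 := by
      apply Subtype.ext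
      show algebraMap _root_.Fermat.Agent.S37.Red.Qb (FN N) a * algebraMap _root_.Fermat.Agent.S37.Red.Qb (FN N) a⁻¹ = 1
      rw [← map_mul, mul_inv_cancel₀ ha0, map_one]
    have hw : modρ hVG w = 0 := by
      have h1 : modρ hVG w = algebraMap (kA V) (FNk V N) (residue V ⟨a⁻¹, hinv⟩) :=
        (modFrac N V).ctx.ρ_A ⟨a⁻¹, hinv⟩
      rw [h1, (gr_res_eq_zero ⟨a⁻¹, hinv⟩).mpr hnu, map_zero]
    have h2 := congrArg (modρ hVG) huw
    rw [map_mul, hw, mul_zero, map_one] at h2
    exact zero_ne_one h2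
  · intro ha
    exact (modFrac N V).ctx.A_mem ⟨a, ha⟩

theorem gr_red_algebraMap (hVG : ModVG N V) (a : V)
    (h : algebraMap _root_.Fermat.Agent.S37.Red.Qb (FN N) (a : _root_.Fermat.Agent.S37.Red.Qb) ∈ modO hVG) :
    modρ hVG ⟨algebraMap _root_.Fermat.Agent.S37.Red.Qb (FN N) (a : _root_.Fermat.Agent.S37.Red.Qb), h⟩ = algebraMap (kA V) (FNk V N) (residue V a) :=
  (modFrac N V).ctx.ρ_A a

/-- Gauss: every nonzero function is a constant times a function of norm one -/
theorem gr_gauss (hVG : ModVG N V) (f : FN N) (hf : f ≠ 0) :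
    ∃ a : _root_.Fermat.Agent.S37.Red.Qb, a ≠ 0 ∧ ∃ h : algebraMap _root_.Fermat.Agent.S37.Red.Qb (FN N) a * f ∈ modO hVG,
      modρ hVG ⟨algebraMap _root_.Fermat.Agent.S37.Red.Qb (FN N) a * f, h⟩ ≠ 0 := by
  obtain ⟨c, hc, y₁, y₂, h₁, h₂, hfy⟩ := hVG f hf
  let z₁ : (modFrac N V).O := y₁
  let z₂ : (modFrac N V).O := y₂
  have hz₁ : (modFrac N V).ρ₀ z₁ ≠ 0 := h₁
  have hz₂ : (modFrac N V).ρ₀ z₂ ≠ 0 := h₂
  have hfrac : (algebraMap _root_.Fermat.Agent.S37.Red.Qb (FN N) c⁻¹ * f) * (z₂ : FN N) = (z₁ : FN N) := by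
    have hfy' : f * (z₂ : FN N) = algebraMap _root_.Fermat.Agent.S37.Red.Qb (FN N) c * (z₁ : FN N) := hfy
    rw [mul_assoc, hfy', ← mul_assoc, ← map_mul, inv_mul_cancel₀ hc, map_one, one_mul]
  have hmem : algebraMap _root_.Fermat.Agent.S37.Red.Qb (FN N) c⁻¹ * f ∈ modO hVG := ⟨z₁, z₂, hz₂, hfrac⟩
  refine ⟨c⁻¹, inv_ne_zero hc, hmem, ?_⟩
  have h3 : modρ hVG ⟨algebraMap _root_.Fermat.Agent.S37.Red.Qb (FN N) c⁻¹ * f, hmem⟩ =
      (modFrac N V).ρ₀ z₁ / (modFrac N V).ρ₀ z₂ :=
    (modFrac N V).ρ_apply ⟨algebraMap _root_.Fermat.Agent.S37.Red.Qb (FN N) c⁻¹ * f, hmem⟩ hz₂ hfrac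
  rw [h3]
  exact div_ne_zero hz₁ hz₂

end Datum

/-! ## Inertia acts trivially on reductions -/

section InertiaRed

open Fermat.Agent.S37.H940

variable {N : ℕ} {V : ValuationSubring _root_.Fermat.Agent.S37.Red.Qb}

/-- the restriction of an inertia element to `V` -/
def resV {σ : GalQ} (hσ : IsInertiaAt V σ) : V →+* V :=
  ((σ : _root_.Fermat.Agent.S37.Red.Qb →+* _root_.Fermat.Agent.S37.Red.Qb).comp V.subtype).codRestrict V fun a => inertia_map_mem hσ a.2

theorem subtype_comp_resV {σ : GalQ} (hσ : IsInertiaAt V σ) :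
    V.subtype.comp (resV hσ) = (σ : _root_.Fermat.Agent.S37.Red.Qb →+* _root_.Fermat.Agent.S37.Red.Qb).comp V.subtype :=
  RingHom.ext fun _ => rfl

theorem residue_comp_resV {σ : GalQ} (hσ : IsInertiaAt V σ) :
    (residue V).comp (resV hσ) = residue V := by
  refine RingHom.ext fun a => ?_
  show residue V (resV hσ a) = residue V a
  rw [← sub_eq_zero, ← map_sub, gr_res_eq_zero]
  exact hσ (a : _root_.Fermat.Agent.S37.Red.Qb) a.2

/-- an inertia element maps integral series to integral series with the same reduction -/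
theorem smul_intQ {σ : GalQ} (hσ : IsInertiaAt V σ) (y : (modFrac N V).O) :
    ∃ h : arithmeticGalois (modularFunctionFieldFull N) σ • (y : FN N) ∈ (modFrac N V).O,
      (modFrac N V).ρ₀ ⟨arithmeticGalois (modularFunctionFieldFull N) σ • (y : FN N), h⟩ =
        (modFrac N V).ρ₀ y := by
  obtain ⟨s, hs, hsk⟩ := (y.2 : IsIntQ V (residue V) (modularFunctionFieldBar N)
    (modularFunctionFieldFullC (kA V) N) (y : FN N))
  have h1 : coeffMap V.subtype (coeffMap (resV hσ) s) =
      ((arithmeticGalois (modularFunctionFieldFull N) σ • (y : FN N) : FN N) :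
        LaurentSeries _root_.Fermat.Agent.S37.Red.Qb) := by
    rw [coe_arithmeticGalois_smul, coeffMap_coeffMap, subtype_comp_resV, ← coeffMap_coeffMap, hs]
  have h2 : coeffMap (residue V) (coeffMap (resV hσ) s) = coeffMap (residue V) s := by
    rw [coeffMap_coeffMap, residue_comp_resV]
  have hmem : IsIntQ V (residue V) (modularFunctionFieldBar N)
      (modularFunctionFieldFullC (kA V) N)
      (arithmeticGalois (modularFunctionFieldFull N) σ • (y : FN N)) :=
    ⟨coeffMap (resV hσ) s, h1, by rw [h2]; exact hsk⟩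
  refine ⟨hmem, ?_⟩
  apply Subtype.ext
  have e1 := coe_redQ V (residue V) (modularFunctionFieldBar N)
    (modularFunctionFieldFullC (kA V) N)
    ⟨arithmeticGalois (modularFunctionFieldFull N) σ • (y : FN N), hmem⟩ h1
  have e2 := coe_redQ V (residue V) (modularFunctionFieldBar N)
    (modularFunctionFieldFullC (kA V) N) y hs
  exact e1.trans (h2.trans e2.symm)

/-- **`I_red`**: inertia preserves `O` and acts trivially on reductions -/
theorem gr_I_red (hVG : ModVG N V) (g : SemilinearAut _root_.Fermat.Agent.S37.Red.Qb (FN N)) (hg : g ∈ inertiaImage V N)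
    (f : modO hVG) :
    ∃ h : g • (f : FN N) ∈ modO hVG, modρ hVG ⟨g • (f : FN N), h⟩ = modρ hVG f := by
  obtain ⟨σ, hσ, rfl⟩ := (mem_inertiaImage V).mp hg
  obtain ⟨a, b, hb, hab⟩ := (f.2 : (modFrac N V).IsFrac (f : FN N))
  obtain ⟨ha', hρa⟩ := smul_intQ hσ a
  obtain ⟨hb', hρb⟩ := smul_intQ hσ b
  set γ : SemilinearAut _root_.Fermat.Agent.S37.Red.Qb (FN N) := arithmeticGalois (modularFunctionFieldFull N) σ with hγ
  let a' : (modFrac N V).O := ⟨γ • (a : FN N), ha'⟩
  let b' : (modFrac N V).O := ⟨γ • (b : FN N), hb'⟩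
  have hb'' : (modFrac N V).ρ₀ b' ≠ 0 := by
    show (modFrac N V).ρ₀ ⟨γ • (b : FN N), hb'⟩ ≠ 0
    rw [hρb]; exact hb
  have hfrac : (γ • (f : FN N)) * (b' : FN N) = (a' : FN N) := by
    show γ • (f : FN N) * γ • (b : FN N) = γ • (a : FN N)
    rw [← smul_mul', hab]
  have hmem : (modFrac N V).IsFrac (γ • (f : FN N)) := ⟨a', b', hb'', hfrac⟩
  refine ⟨hmem, ?_⟩
  have e1 : (modFrac N V).ρ ⟨γ • (f : FN N), hmem⟩ =
      (modFrac N V).ρ₀ a' / (modFrac N V).ρ₀ b' :=
    (modFrac N V).ρ_apply ⟨γ • (f : FN N), hmem⟩ hb'' hfrac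
  have e2 : (modFrac N V).ρ f = (modFrac N V).ρ₀ a / (modFrac N V).ρ₀ b :=
    (modFrac N V).ρ_apply f hb hab
  have e3 : (modFrac N V).ρ₀ a' = (modFrac N V).ρ₀ a := hρa
  have e4 : (modFrac N V).ρ₀ b' = (modFrac N V).ρ₀ b := hρb
  show (modFrac N V).ρ ⟨γ • (f : FN N), hmem⟩ = (modFrac N V).ρ f
  rw [e1, e2, e3, e4]

/-- **`I_base`** -/
theorem gr_I_base (g : SemilinearAut _root_.Fermat.Agent.S37.Red.Qb (FN N)) (hg : g ∈ inertiaImage V N) (a : V) :
    ∃ h : SemilinearAut.baseAut g (a : _root_.Fermat.Agent.S37.Red.Qb) ∈ V,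
      residue V ⟨SemilinearAut.baseAut g (a : _root_.Fermat.Agent.S37.Red.Qb), h⟩ = residue V a := by
  obtain ⟨σ, hσ, rfl⟩ := (mem_inertiaImage V).mp hg
  have h : σ (a : _root_.Fermat.Agent.S37.Red.Qb) ∈ V := inertia_map_mem hσ a.2
  refine ⟨h, ?_⟩
  show residue V ⟨σ (a : _root_.Fermat.Agent.S37.Red.Qb), h⟩ = residue V a
  rw [← sub_eq_zero, ← map_sub, gr_res_eq_zero]
  exact hσ (a : _root_.Fermat.Agent.S37.Red.Qb) a.2

/-- **`I_lift_const`** (helper439's Teichmüller lifts) -/
theorem gr_I_lift_const (N : ℕ) {ℓ : ℕ} [Fact ℓ.Prime] (hV : V.LiesOverPrime ℓ) (c : kA V) :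
    ∃ a : V, residue V a = c ∧
      ∀ g ∈ inertiaImage V N, SemilinearAut.baseAut g (a : _root_.Fermat.Agent.S37.Red.Qb) = (a : _root_.Fermat.Agent.S37.Red.Qb) := by
  have : Algebra.IsAlgebraic ℚ _root_.Fermat.Agent.S37.Red.Qb := AlgebraicClosure.isAlgebraic ℚ
  obtain ⟨a, ha, hac, hfix⟩ :=
    Fermat.Agent.S19.H439.exists_inertia_fixed_lift (K := _root_.Fermat.Agent.S37.Red.Qb) V (ℓ := ℓ) hV c
  refine ⟨⟨a, ha⟩, hac, ?_⟩
  intro g hg
  obtain ⟨σ, hσ, rfl⟩ := (mem_inertiaImage V).mp hg
  exact hfix (σ : _root_.Fermat.Agent.S37.Red.Qb →+* _root_.Fermat.Agent.S37.Red.Qb) hσ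

/-- **`I_fixed_place`**: the cusp `∞` -/
theorem gr_I_fixed_place (N : ℕ) [NeZero N] (V : ValuationSubring _root_.Fermat.Agent.S37.Red.Qb) :
    ∃ P : Place _root_.Fermat.Agent.S37.Red.Qb (FN N), ∀ g ∈ inertiaImage V N, g • P = P := by
  refine ⟨Fermat.Agent.S17.H680.JZero.cusp N, fun g hg => ?_⟩
  obtain ⟨σ, -, rfl⟩ := (mem_inertiaImage V).mp hg
  exact Fermat.Agent.S17.H680.JZero.galois_smul_cusp N σ

end InertiaRed

/-! ## `div_red` on all of `O` from the Prelude's `IsPlaceReductionModL` -/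

section DivRed

open Fermat.Agent.S37.H940

variable {N : ℕ} [NeZero N] {V : ValuationSubring _root_.Fermat.Agent.S37.Red.Qb}

/-- the reduction of divisors of integral series extends to fractions -/
theorem gr_div_red (hVG : ModVG N V)
    (r : Place _root_.Fermat.Agent.S37.Red.Qb (FN N) → Place (kA V) (FNk V N)) (hr : IsPlaceReductionModL V N r)
    (f : modO hVG) (hf : modρ hVG f ≠ 0) (D : Divisor _root_.Fermat.Agent.S37.Red.Qb (FN N))
    (hD : ∀ P, D P = P.ord (f : FN N)) (Q : Place (kA V) (FNk V N)) :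
    Finsupp.mapDomain r D Q = Q.ord (modρ hVG f) := by
  obtain ⟨a, b, hb, hab⟩ := (f.2 : (modFrac N V).IsFrac (f : FN N))
  have e : modρ hVG f = (modFrac N V).ρ₀ a / (modFrac N V).ρ₀ b :=
    (modFrac N V).ρ_apply f hb hab
  have ha : (modFrac N V).ρ₀ a ≠ 0 := by
    intro h0
    apply hf
    rw [e, h0, zero_div]
  have hb0 : (b : FN N) ≠ 0 := (modFrac N V).coe_ne_zero hb
  have ha0 : (a : FN N) ≠ 0 := (modFrac N V).coe_ne_zero ha
  have hf0 : (f : FN N) ≠ 0 := by
    intro h0
    rw [h0, zero_mul] at hab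
    exact ha0 hab.symm
  -- the series
  obtain ⟨sa, hsa, hsak⟩ := (a.2 : IsIntQ V (residue V) (modularFunctionFieldBar N)
    (modularFunctionFieldFullC (kA V) N) (a : FN N))
  obtain ⟨sb, hsb, hsbk⟩ := (b.2 : IsIntQ V (residue V) (modularFunctionFieldBar N)
    (modularFunctionFieldFullC (kA V) N) (b : FN N))
  have hya : coeffMap V.subtype sa ∈ modularFunctionFieldBar N := by
    rw [hsa]; exact (a : FN N).2
  have hyb : coeffMap V.subtype sb ∈ modularFunctionFieldBar N := by
    rw [hsb]; exact (b : FN N).2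
  have ea : (⟨coeffMap V.subtype sa, hya⟩ : FN N) = (a : FN N) := Subtype.ext hsa
  have eb : (⟨coeffMap V.subtype sb, hyb⟩ : FN N) = (b : FN N) := Subtype.ext hsb
  have eρa : (modFrac N V).ρ₀ a = ⟨coeffMap (residue V) sa, hsak⟩ :=
    Subtype.ext (coe_redQ V (residue V) (modularFunctionFieldBar N)
      (modularFunctionFieldFullC (kA V) N) a hsa)
  have eρb : (modFrac N V).ρ₀ b = ⟨coeffMap (residue V) sb, hsbk⟩ :=
    Subtype.ext (coe_redQ V (residue V) (modularFunctionFieldBar N)
      (modularFunctionFieldFullC (kA V) N) b hsb)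
  have hnea : coeffMap (residue V) sa ≠ 0 := by
    intro h0
    apply ha
    rw [eρa]
    exact Subtype.ext h0
  have hneb : coeffMap (residue V) sb ≠ 0 := by
    intro h0
    apply hb
    rw [eρb]
    exact Subtype.ext h0
  -- the divisors of `a` and `b`
  have hpd : HasPrincipalDivisors _root_.Fermat.Agent.S37.Red.Qb (FN N) :=
    (Fermat.Agent.Lib.RR.H864.ff1_modularFunctionFieldBar N).hpd
  obtain ⟨Da, hDa, -⟩ := hpd.exists_divisor (a : FN N) ha0
  obtain ⟨Db, hDb, -⟩ := hpd.exists_divisor (b : FN N) hb0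
  have hsum : D + Db = Da := by
    ext P
    rw [Finsupp.add_apply, hD, hDa, hDb, ← Place.ord_mul P hf0 hb0, hab]
  have ka := hr.2 sa hya hsak hnea Da (fun P => by rw [hDa, ea]) Q
  have kb := hr.2 sb hyb hsbk hneb Db (fun P => by rw [hDb, eb]) Q
  have hmap : Finsupp.mapDomain r D Q + Finsupp.mapDomain r Db Q = Finsupp.mapDomain r Da Q := by
    rw [← Finsupp.add_apply, ← Finsupp.mapDomain_add, hsum]
  have hmul : modρ hVG f * (modFrac N V).ρ₀ b = (modFrac N V).ρ₀ a := by
    rw [e, div_mul_cancel₀ _ hb]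
  have hord : Q.ord (modρ hVG f) + Q.ord ((modFrac N V).ρ₀ b) = Q.ord ((modFrac N V).ρ₀ a) := by
    rw [← Place.ord_mul Q hf hb, hmul]
  rw [← eρa] at ka
  rw [← eρb] at kb
  rw [ka, kb] at hmap
  linarith

end DivRed

/-! ## The leaves and the assembly -/

section Assembly

/-- the value-group hypothesis, from S28 (core data) and S37/H568 -/
theorem gr_vg (N : ℕ) [NeZero N] {ℓ : ℕ} [Fact ℓ.Prime] (hℓN : ¬ ℓ ∣ N)
    (V : ValuationSubring _root_.Fermat.Agent.S37.Red.Qb) (hV : V.LiesOverPrime ℓ) : ModVG N V :=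
  Fermat.Agent.S37.H568.valueGroupHyp_modular
    (Fermat.Agent.S18.H516.coreData_residue N hℓN V hV)

/-- **Leaf GR-RED**: a place reduction map in the sense of the Prelude, commuting with inertia.
(S37 `node_rim` gives the first half; the second is S37's `PlaceRed.inertia`.) -/
def RedLeaf (N : ℕ) (V : ValuationSubring _root_.Fermat.Agent.S37.Red.Qb) : Prop :=
  ∃ r : Place _root_.Fermat.Agent.S37.Red.Qb (FN N) → Place (kA V) (FNk V N),
    IsPlaceReductionModL V N r ∧
      ∀ σ : GalQ, IsInertiaAt V σ → ∀ P : Place _root_.Fermat.Agent.S37.Red.Qb (FN N),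
        r (arithmeticGalois (modularFunctionFieldFull N) σ • P) = r P

/-- **Leaf GR-GENUS**: the generic and the special fibre have the same genus. -/
def GenusLeaf (N : ℕ) (V : ValuationSubring _root_.Fermat.Agent.S37.Red.Qb) : Prop :=
  genusFF _root_.Fermat.Agent.S37.Red.Qb (FN N) = genusFF (kA V) (FNk V N)

/-- **Leaf GR-ORTH**: the field `orthonormal` of `GoodRed` for `(modO, modρ, inertiaImage)`. -/
def OrthLeaf (N : ℕ) (V : ValuationSubring _root_.Fermat.Agent.S37.Red.Qb) (hVG : ModVG N V) : Prop :=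
  ∀ D : Divisor _root_.Fermat.Agent.S37.Red.Qb (FN N), ∃ (n : ℕ) (b : Fin n → modO hVG),
    LinearIndependent (kA V) (fun i => modρ hVG (b i)) ∧
    (∀ i, ((b i : modO hVG) : FN N) ∈ riemannRochSpace D) ∧
    Submodule.span _root_.Fermat.Agent.S37.Red.Qb (Set.range fun i => ((b i : modO hVG) : FN N)) = riemannRochSpace D ∧
    ((∀ g ∈ inertiaImage V N, g • D = D) →
      ∀ i, ∀ g ∈ inertiaImage V N, g • ((b i : modO hVG) : FN N) = ((b i : modO hVG) : FN N))

/-- **The `GoodRed` datum of `X₀(N)` at `V`**, from the three leaves. -/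
def goodRedOfLeaves (N : ℕ) [NeZero N] {ℓ : ℕ} [Fact ℓ.Prime] (hℓN : ¬ ℓ ∣ N)
    (V : ValuationSubring _root_.Fermat.Agent.S37.Red.Qb) (hV : V.LiesOverPrime ℓ)
    (r : Place _root_.Fermat.Agent.S37.Red.Qb (FN N) → Place (kA V) (FNk V N)) (hr : IsPlaceReductionModL V N r)
    (hrI : ∀ σ : GalQ, IsInertiaAt V σ → ∀ P : Place _root_.Fermat.Agent.S37.Red.Qb (FN N),
        r (arithmeticGalois (modularFunctionFieldFull N) σ • P) = r P)
    (hgen : GenusLeaf N V) (horth : OrthLeaf N V (gr_vg N hℓN V hV)) :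
    Fermat.Agent.A3.H799.GoodRed _root_.Fermat.Agent.S37.Red.Qb (FN N) (kA V) (FNk V N) where
  V := V
  O := modO (gr_vg N hℓN V hV)
  res := residue V
  red := modρ (gr_vg N hℓN V hV)
  r := r
  I := inertiaImage V N
  res_surjective := residue_surjective
  res_eq_zero := gr_res_eq_zero
  algebraMap_mem := gr_algebraMap_mem (gr_vg N hℓN V hV)
  red_algebraMap := gr_red_algebraMap (gr_vg N hℓN V hV)
  red_surjective := Fermat.Agent.S37.Red.modρ_surjective (gr_vg N hℓN V hV)
  gauss := gr_gauss (gr_vg N hℓN V hV)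
  div_red := fun f hf D hD Q => gr_div_red (gr_vg N hℓN V hV) r hr f hf D hD Q
  ff1 := Fermat.Agent.Lib.RR.H864.ff1_modularFunctionFieldBar N
  ff1k := Fermat.Agent.S18.H383.ff1_residue N ℓ Fact.out hℓN V hV
  genus_eq := hgen
  orthonormal := horth
  I_base := gr_I_base
  I_red := gr_I_red (gr_vg N hℓN V hV)
  I_place := fun g hg P => by
    obtain ⟨σ, hσ, rfl⟩ := (mem_inertiaImage V).mp hg
    exact hrI σ hσ P
  I_lift_const := gr_I_lift_const N hV
  I_fixed_place := gr_I_fixed_place N V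

/-- **GR assembly**: `GrStatement` from the three leaves, for ONE valuation ring above each
prime `ℓ ∤ N` at good levels. -/
theorem grStatement_of_leaves
    (h : ∀ (N : ℕ) [NeZero N] (ℓ : ℕ) [Fact ℓ.Prime] (hℓN : ¬ ℓ ∣ N), GoodLevel N ℓ →
      ∃ (V : ValuationSubring _root_.Fermat.Agent.S37.Red.Qb) (hV : V.LiesOverPrime ℓ),
        RedLeaf N V ∧ GenusLeaf N V ∧ OrthLeaf N V (gr_vg N hℓN V hV)) :
    Fermat.Agent.S19.H979.GrStatement := by
  intro N _ ℓ _ hℓN hgood
  obtain ⟨V, hV, ⟨r, hr, hrI⟩, hgen, horth⟩ := h N ℓ hℓN hgood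
  refine ⟨kA V, inferInstance, Fermat.Agent.S18.H9.resAlgClosed _root_.Fermat.Agent.S37.Red.Qb V, FNk V N, inferInstance,
    inferInstance, goodRedOfLeaves N hℓN V hV r hr hrI hgen horth, hV, ?_⟩
  intro σ hσ
  exact arithmeticGalois_mem_inertiaImage V N hσ

/-- the same, with the leaves for EVERY valuation ring above `ℓ` -/
theorem grStatement_of_leaves_forall
    (hred : ∀ (N : ℕ) [NeZero N] (ℓ : ℕ) [Fact ℓ.Prime], ¬ ℓ ∣ N → GoodLevel N ℓ →
      ∀ V : ValuationSubring _root_.Fermat.Agent.S37.Red.Qb, V.LiesOverPrime ℓ → RedLeaf N V)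
    (hgen : ∀ (N : ℕ) [NeZero N] (ℓ : ℕ) [Fact ℓ.Prime], ¬ ℓ ∣ N → GoodLevel N ℓ →
      ∀ V : ValuationSubring _root_.Fermat.Agent.S37.Red.Qb, V.LiesOverPrime ℓ → GenusLeaf N V)
    (horth : ∀ (N : ℕ) [NeZero N] (ℓ : ℕ) [Fact ℓ.Prime] (hℓN : ¬ ℓ ∣ N), GoodLevel N ℓ →
      ∀ (V : ValuationSubring _root_.Fermat.Agent.S37.Red.Qb) (hV : V.LiesOverPrime ℓ), OrthLeaf N V (gr_vg N hℓN V hV)) :
    Fermat.Agent.S19.H979.GrStatement := by
  refine grStatement_of_leaves fun N _ ℓ _ hℓN hgood => ?_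
  obtain ⟨V, hV⟩ := Fermat.Agent.S54.exists_valuationSubring_liesOver ℓ Fact.out
  exact ⟨V, hV, hred N ℓ hℓN hgood V hV, hgen N ℓ hℓN hgood V hV, horth N ℓ hℓN hgood V hV⟩

end Assembly

end Fermat.Agent.A3.H739

end
end
-- ===== PACK-END A3/H739/GrAsm.lean

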