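import Mathlib
import Fermat.Prelude.Def_ModularCurve_ArithmeticGalois
import Fermat.Statements.S17
import Fermat.Statements.S18
import Fermat.Statements.S37
import Fermat.Prelude.Def_GaloisRep_ComplexConjugation
import Fermat.Prelude.Def_AlgebraicCurve_Correspondence
import Fermat.Prelude.Def_ModularCurve_ReductionModL
import Fermat.Prelude.Def_ModularCurve_HeckeOperator
import Fermat.Agent.Pack.S15.AE5L2
import Fermat.Agent.Pack.S15.AE0L0
import Fermat.Agent.Pack.S15.AE6L2
import Fermat.Agent.Pack.S15.AE1L2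
import Fermat.Agent.Pack.S15.AE3L1
import Fermat.Agent.Pack.S15.AE6L1
import Fermat.Agent.Pack.S15.AE1L1
import Fermat.Agent.Pack.S15.AE2L1
import Fermat.Agent.Pack.S15.AE6L3
import Fermat.Agent.Pack.S15.AE4L2
import Fermat.Agent.Pack.S15.AE4L1
import Fermat.Agent.Pack.S15.AE4L3
import Fermat.Agent.Pack.S15.AE3L2
import Fermat.Agent.Pack.S15.AE0L2
import Fermat.Agent.Pack.S15.AE1L3
import Fermat.Agent.Pack.S15.AE5L0
import Fermat.Agent.Pack.S15.AE3L3
import Fermat.Agent.Pack.S15.AE5L3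
import Fermat.Agent.Pack.S15.AE2L0
import Fermat.Agent.Pack.S15.AE0L1
import Fermat.Agent.Pack.S15.AE0L3
import Fermat.Agent.Pack.S15.AE6L0
import Fermat.Agent.Pack.S15.AE1L0
import Fermat.Agent.Pack.S15.AE5L1
import Fermat.Agent.Pack.S15.AE4L0
import Fermat.Agent.Pack.S15.AE2L3
import Fermat.Agent.Pack.S15.AE2L2
import Fermat.Agent.Pack.S15.AE3L0

-- ===== PACK-BEGIN S15/H302/DescAlg.lean
section






/-!
# Row S15, piece DESC-ALG (helper302): `DescentStatement p` from the descent core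

`descentStatement_of_descCore` : the node `Core.DescentStatement p` (the wall of row S15) follows
from

* Mordell–Weil for `J₀(p)` (the frozen statement S17, as a hypothesis), and
* the **descent core** `DescCoreAt p S r` at ONE prime `r ∣ n = eisensteinNumerator p` :
  a rational point `z` of `J₀(p)` with `T_ℓ z ≡ (1 + ℓ) z` modulo `r J₀(p)(ℚ) + torsion` for all
  primes `ℓ ∉ S ∪ {p}` lies in `r J₀(p)(ℚ) + torsion`
  (i.e. `(M / r M)[𝔓] = 0` for `M = J₀(p)(ℚ) / torsion`, `𝔓 = (r, T_ℓ - 1 - ℓ)`).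

Inputs from main: commutativity of the Hecke operators (`S29.heckeOperatorsCommuteBar`, helper801)
and their Galois-equivariance (`S29.H571.heckeEvalBar_smul`, helper571).
The algebra is `H302.exists_sub_one_mem_smul_eq_zero_of_socle` (Nakayama).  No `sorry`.
-/

set_option autoImplicit false

noncomputable section

namespace Fermat.Agent.S15.H302

open ModularCurve Fermat.Agent.S15.Core

/-- the absolute Galois group of `ℚ` -/
abbrev GalQ : Type := AlgebraicClosure ℚ ≃ₐ[ℚ] AlgebraicClosure ℚ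

/-- `z ≡ z'` modulo `r J₀(p)(ℚ) + J₀(p)(ℚ)_tors`. -/
def CongModRTors (p : ℕ) [NeZero p] (r : ℕ) (z z' : JZero p) : Prop :=
  ∃ w : JZero p, (∀ σ : GalQ, σ • w = w) ∧ ∃ m : ℕ, 0 < m ∧ m • (z - z' - r • w) = 0

/-- **The descent core at the prime `r`** (node DESC-CORE): a rational point which is Eisenstein
modulo `r J₀(p)(ℚ) + torsion` lies in `r J₀(p)(ℚ) + torsion`. -/
def DescCoreAt (p : ℕ) [NeZero p] (S : Set ℕ) (r : ℕ) : Prop :=
  ∀ z : JZero p, (∀ σ : GalQ, σ • z = z) →
    (∀ ℓ : Nat.Primes, (ℓ : ℕ) ≠ p → (ℓ : ℕ) ∉ S →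
      CongModRTors p r (heckeOperatorBar p ℓ z) ((1 + (ℓ : ℕ) : ℕ) • z)) →
    CongModRTors p r z 0

section Good

variable (p : ℕ) [NeZero p] (S : Set ℕ)

/-- the good primes: `ℓ ≠ p`, `ℓ ∉ S` -/
abbrev GoodPrime : Type := {ℓ : Nat.Primes // (ℓ : ℕ) ≠ p ∧ (ℓ : ℕ) ∉ S}

/-- the polynomial ring on the good Hecke operators -/
abbrev GoodAlg : Type := MvPolynomial (GoodPrime p S) ℤ

/-- the action of the good polynomial ring on `J₀(p)(ℚ̄)` -/
def goodEval : GoodAlg p S →+* Module.End ℤ (JZero p) :=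
  (heckeEvalBar (Fermat.Agent.S29.heckeOperatorsCommuteBar p)).comp
    (MvPolynomial.rename (Subtype.val : GoodPrime p S → Nat.Primes)).toRingHom

theorem goodEval_C (a : ℤ) : goodEval p S (MvPolynomial.C a) = (a : Module.End ℤ (JZero p)) := by
  show heckeEvalBar _ (MvPolynomial.rename _ (MvPolynomial.C a)) = _
  rw [MvPolynomial.rename_C, heckeEvalBar_C]

theorem goodEval_X (ℓ : GoodPrime p S) :
    goodEval p S (MvPolynomial.X ℓ) = heckeOperatorBar p ℓ.1 := by
  show heckeEvalBar _ (MvPolynomial.rename _ (MvPolynomial.X ℓ)) = _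
  rw [MvPolynomial.rename_X]
  exact heckeEvalBar_heckeGen _ ℓ.1

theorem goodEval_mem (t : GoodAlg p S) : goodEval p S t ∈ goodHeckeAlg p S := by
  induction t using MvPolynomial.induction_on with
  | C a =>
    rw [goodEval_C]
    exact intCast_mem _ a
  | add u v hu hv =>
    rw [map_add]
    exact add_mem hu hv
  | mul_X u ℓ hu =>
    rw [map_mul, goodEval_X]
    exact mul_mem hu (Algebra.subset_adjoin ⟨ℓ.1, ℓ.2.1, ℓ.2.2, rfl⟩)

theorem goodEval_galois (t : GoodAlg p S) (σ : GalQ) (x : JZero p) :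
    goodEval p S t (σ • x) = σ • goodEval p S t x :=
  Fermat.Agent.S29.H571.heckeEvalBar_smul p _ _ σ x

/-- the Eisenstein character `T_ℓ ↦ 1 + ℓ` -/
def eisChar : GoodAlg p S →+* ℤ :=
  MvPolynomial.eval fun ℓ : GoodPrime p S => ((1 + (ℓ.1 : ℕ) : ℕ) : ℤ)

variable {p}

theorem goodEval_eisenstein {c : JZero p} (hc : IsEisensteinClass c) (t : GoodAlg p S) :
    goodEval p S t c = eisChar p S t • c := by
  induction t using MvPolynomial.induction_on with
  | C a =>
    rw [goodEval_C, Module.End.intCast_apply]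
    simp [eisChar]
  | add u v hu hv =>
    rw [map_add, LinearMap.add_apply, hu, hv, map_add]
    exact (add_smul _ _ _).symm
  | mul_X u ℓ hu =>
    rw [map_mul, Module.End.mul_apply, goodEval_X, hc ℓ.1 ℓ.2.1, map_zsmul, hu, map_mul,
      smul_smul]
    congr 1
    simp [eisChar, mul_comm]

end Good

/-- The Nakayama step: from the descent core, a good Hecke operator `t ≡ 1` modulo
`(r, T_ℓ - 1 - ℓ)` which maps `J₀(p)(ℚ)` into the torsion. -/
theorem exists_goodAlg_of_descCore (p : ℕ) [NeZero p] (S : Set ℕ) (r : ℕ) (hr : 0 < r)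
    (hMW : AddGroup.FG ↥(FixedPoints.addSubgroup GalQ (JZero p)))
    (hcore : DescCoreAt p S r) :
    ∃ t : GoodAlg p S, (r : ℤ) ∣ eisChar p S t - 1 ∧
      ∀ z : JZero p, (∀ σ : GalQ, σ • z = z) → ∃ m : ℕ, 0 < m ∧ m • goodEval p S t z = 0 := by
  classical
  letI modJ : Module (GoodAlg p S) (JZero p) := Module.compHom (JZero p) (goodEval p S)
  have hsmul : ∀ (t : GoodAlg p S) (x : JZero p), t • x = goodEval p S t x := fun _ _ => rfl
  -- the rational points, as a submodule
  let A : Submodule (GoodAlg p S) (JZero p) :=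
    { carrier := {z | ∀ σ : GalQ, σ • z = z}
      zero_mem' := fun σ => smul_zero σ
      add_mem' := fun {a b} ha hb σ => by rw [smul_add, ha σ, hb σ]
      smul_mem' := fun t z hz σ => by
        rw [hsmul, ← goodEval_galois, hz σ] }
  have hA : ∀ z : JZero p, z ∈ A ↔ ∀ σ : GalQ, σ • z = z := fun _ => Iff.rfl
  -- its torsion
  let Tors : Submodule (GoodAlg p S) A :=
    { carrier := {a | ∃ m : ℕ, 0 < m ∧ m • a = 0}
      zero_mem' := ⟨1, one_pos, smul_zero _⟩
      add_mem' := by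
        rintro a b ⟨m, hm, hma⟩ ⟨n, hn, hnb⟩
        refine ⟨m * n, Nat.mul_pos hm hn, ?_⟩
        rw [smul_add, mul_comm m n, mul_smul, hma, smul_zero, mul_comm n m, mul_smul, hnb,
          smul_zero, add_zero]
      smul_mem' := by
        rintro t a ⟨m, hm, hma⟩
        exact ⟨m, hm, by rw [smul_comm, hma, smul_zero]⟩ }
  have hTors : ∀ a : A, a ∈ Tors ↔ ∃ m : ℕ, 0 < m ∧ m • (a : JZero p) = 0 := by
    intro a
    constructor
    · rintro ⟨m, hm, hma⟩
      refine ⟨m, hm, ?_⟩
      have := congrArg (Subtype.val) hma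
      simpa using this
    · rintro ⟨m, hm, hma⟩
      refine ⟨m, hm, ?_⟩
      apply Subtype.ext
      simpa using hma
  -- `M = A / Tors` is a finitely generated abelian group
  have hfin : Module.Finite ℤ (A ⧸ Tors) := by
    rw [Module.Finite.iff_addGroup_fg]
    let f : ↥(FixedPoints.addSubgroup GalQ (JZero p)) →+ (A ⧸ Tors) :=
      { toFun := fun a => Submodule.Quotient.mk ⟨a.1, fun σ => a.2 σ⟩
        map_zero' := rfl
        map_add' := fun a b => rfl }
    have hf : Function.Surjective f := by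
      intro x
      obtain ⟨a, rfl⟩ := Submodule.Quotient.mk_surjective Tors x
      exact ⟨⟨a.1, fun σ => a.2 σ⟩, rfl⟩
    haveI := hMW
    exact AddGroup.fg_of_surjective hf
  -- the ideal `𝔓 = (r, T_ℓ - 1 - ℓ)`
  let gen : GoodPrime p S → GoodAlg p S := fun ℓ =>
    MvPolynomial.X ℓ - MvPolynomial.C (((1 + (ℓ.1 : ℕ) : ℕ) : ℤ))
  let P : Ideal (GoodAlg p S) := Ideal.span (insert (r : GoodAlg p S) (Set.range gen))
  have hrP : (r : GoodAlg p S) ∈ P := Ideal.subset_span (Set.mem_insert _ _)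
  have hgenP : ∀ ℓ, gen ℓ ∈ P := fun ℓ =>
    Ideal.subset_span (Set.mem_insert_of_mem _ (Set.mem_range_self ℓ))
  have hgen : ∀ (ℓ : GoodPrime p S) (z : JZero p),
      goodEval p S (gen ℓ) z = heckeOperatorBar p ℓ.1 z - (1 + (ℓ.1 : ℕ) : ℕ) • z := by
    intro ℓ z
    simp only [gen, map_sub, goodEval_X, goodEval_C, LinearMap.sub_apply,
      Module.End.intCast_apply]
    rw [natCast_zsmul]
  -- the socle hypothesis of ALG1 from the descent core
  have hsocle : ∀ x : A ⧸ Tors, (∀ s ∈ P, ∃ w : A ⧸ Tors, s • x = r • w) →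
      ∃ w : A ⧸ Tors, x = r • w := by
    intro x hx
    obtain ⟨a, rfl⟩ := Submodule.Quotient.mk_surjective Tors x
    have hz := (hA a.1).1 a.2
    have key : CongModRTors p r (a : JZero p) 0 := by
      refine hcore a.1 hz fun ℓ hℓp hℓS => ?_
      obtain ⟨w, hw⟩ := hx (gen ⟨ℓ, hℓp, hℓS⟩) (hgenP _)
      obtain ⟨b, rfl⟩ := Submodule.Quotient.mk_surjective Tors w
      have h1 : gen ⟨ℓ, hℓp, hℓS⟩ • a - r • b ∈ Tors := by
        rw [← Submodule.Quotient.mk_eq_zero, Submodule.Quotient.mk_sub,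
          Submodule.Quotient.mk_smul, sub_eq_zero]
        rw [hw]
        rfl
      obtain ⟨m, hm, hmz⟩ := (hTors _).1 h1
      refine ⟨b.1, (hA b.1).1 b.2, m, hm, ?_⟩
      rw [← hmz]
      congr 1
      have : ((gen ⟨ℓ, hℓp, hℓS⟩ • a - r • b : A) : JZero p)
          = goodEval p S (gen ⟨ℓ, hℓp, hℓS⟩) a.1 - r • b.1 := by
        simp [hsmul]
      rw [this, hgen]
    obtain ⟨w, hw, m, hm, hmz⟩ := key
    refine ⟨Submodule.Quotient.mk ⟨w, (hA w).2 hw⟩, ?_⟩
    have h2 : a - r • (⟨w, (hA w).2 hw⟩ : A) ∈ Tors := by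
      rw [hTors]
      refine ⟨m, hm, ?_⟩
      rw [← hmz]
      congr 1
      simp
    rw [← Submodule.Quotient.mk_eq_zero, Submodule.Quotient.mk_sub, sub_eq_zero] at h2
    rw [h2]
    rfl
  obtain ⟨t, htP, htM⟩ := exists_sub_one_mem_smul_eq_zero_of_socle (M := A ⧸ Tors) P r hr hrP
    hsocle
  refine ⟨t, ?_, fun z hz => ?_⟩
  · -- `ε(t) ≡ 1 mod r`
    have hle : P ≤ (Ideal.span {(r : ℤ)}).comap (eisChar p S) := by
      refine Ideal.span_le.2 ?_
      rintro s (rfl | ⟨ℓ, rfl⟩)
      · show eisChar p S (r : GoodAlg p S) ∈ Ideal.span {(r : ℤ)}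
        rw [map_natCast]
        exact Ideal.subset_span rfl
      · show eisChar p S (gen ℓ) ∈ Ideal.span {(r : ℤ)}
        have : eisChar p S (gen ℓ) = 0 := by simp [gen, eisChar]
        rw [this]
        exact Ideal.zero_mem _
    have := hle htP
    rw [Ideal.mem_comap, map_sub, map_one, Ideal.mem_span_singleton] at this
    exact this
  · -- `t` maps rational points to torsion
    have h3 := htM (Submodule.Quotient.mk ⟨z, (hA z).2 hz⟩)
    rw [← Submodule.Quotient.mk_smul, Submodule.Quotient.mk_eq_zero, hTors] at h3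
    obtain ⟨m, hm, hmz⟩ := h3
    exact ⟨m, hm, by simpa [hsmul] using hmz⟩

/-- **DESC-ALG.**  The node `Core.DescentStatement p` from Mordell–Weil (frozen S17) and the
descent core at one Eisenstein prime. -/
theorem descentStatement_of_descCore (p : ℕ) [NeZero p]
    (hMW : AddGroup.FG ↥(FixedPoints.addSubgroup GalQ (JZero p)))
    (hcore : ∀ S : Finset ℕ, ∃ r : ℕ, r.Prime ∧ r ∣ eisensteinNumerator p ∧
      DescCoreAt p (S : Set ℕ) r) :
    DescentStatement p := by
  intro S
  obtain ⟨r, hr, hrn, hc⟩ := hcore S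
  obtain ⟨t, ht1, htM⟩ := exists_goodAlg_of_descCore p (S : Set ℕ) r hr.pos hMW hc
  refine ⟨r, goodEval p (S : Set ℕ) t, eisChar p (S : Set ℕ) t, hr, hrn, goodEval_mem p _ t,
    fun c hc' => goodEval_eisenstein _ hc' t, ?_, htM⟩
  intro hdvd
  have h1 : (r : ℤ) ∣ 1 := by
    have := dvd_sub hdvd ht1
    simpa using this
  have h2 : (r : ℤ) = 1 ∨ (r : ℤ) = -1 := Int.isUnit_iff.1 (isUnit_of_dvd_one h1)
  rcases h2 with h2 | h2
  · exact hr.one_lt.ne' (by exact_mod_cast h2)
  · have : (0 : ℤ) ≤ r := Int.natCast_nonneg r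
    omega

end Fermat.Agent.S15.H302

end

end
-- ===== PACK-END S15/H302/DescAlg.lean

-- ===== PACK-BEGIN S15/H302/DescWeak.lean
section




/-!
# Row S15, piece DESC-ALG (helper302): `DescWeakStatement` from the descent core

`descWeakStatement_of_descCore` : the weak descent node `Fermat.Agent.S15.DescWeakStatement`
(consumed by `S15_of_weak`, row-lead helper975) follows from Mordell–Weil (frozen S17, as a
hypothesis) and the descent core `H302.DescCoreAt p S r` at ONE prime `r` dividing the order of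
the given Eisenstein vector `c`.  No `sorry`.
-/

set_option autoImplicit false

noncomputable section

namespace Fermat.Agent.S15.H302

open ModularCurve Fermat.Agent.S15

theorem isEisensteinClass_of_isEisensteinVector {p : ℕ} [NeZero p] {c : JZero p}
    (hc : IsEisensteinVector p c) : Core.IsEisensteinClass c := by
  intro ℓ hℓ
  rw [hc ℓ hℓ, natCast_zsmul]

theorem goodHeckeAlg_eq_heckeRingAway (p : ℕ) [NeZero p] (S : Finset ℕ) :
    Core.goodHeckeAlg p (S : Set ℕ) = heckeRingAway p S := by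
  unfold Core.goodHeckeAlg Core.goodHecke heckeRingAway
  congr 1
  ext T
  constructor
  · rintro ⟨ℓ, h1, h2, rfl⟩
    exact ⟨ℓ, by simpa using h2, h1, rfl⟩
  · rintro ⟨ℓ, h1, h2, rfl⟩
    exact ⟨ℓ, h2, by simpa using h1, rfl⟩

/-- **DESC-ALG, weak form.**  `DescWeakStatement` from Mordell–Weil and the descent core at one
prime `r ∣ addOrderOf c`. -/
theorem descWeakStatement_of_descCore
    (hMW : ∀ (p : ℕ) [NeZero p], p.Prime → 5 ≤ p →
      AddGroup.FG ↥(FixedPoints.addSubgroup GalQ (JZero p)))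
    (hcore : ∀ (p : ℕ) [NeZero p], p.Prime → p ∉ ({2, 3, 5, 7, 13} : Finset ℕ) →
      ∀ (S : Finset ℕ) (c : JZero p), (∀ σ : GalQ, σ • c = c) → c ≠ 0 →
        (∃ m : ℕ, 0 < m ∧ m • c = 0) → IsEisensteinVector p c →
        ∃ r : ℕ, r.Prime ∧ r ∣ addOrderOf c ∧ DescCoreAt p (S : Set ℕ) r) :
    DescWeakStatement := by
  intro p _ hp hp' S c hcfix hc0 hct hcE
  obtain ⟨r, hr, hrc, hD⟩ := hcore p hp hp' S c hcfix hc0 hct hcE
  have hp5 : 5 ≤ p := by
    have h2 := hp.two_le
    by_contra hlt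
    push Not at hlt
    have : p = 2 ∨ p = 3 ∨ p = 4 := by omega
    rcases this with rfl | rfl | rfl
    · exact hp' (by simp)
    · exact hp' (by simp)
    · exact absurd hp (by decide)
  obtain ⟨t, ht1, htM⟩ := exists_goodAlg_of_descCore p (S : Set ℕ) r hr.pos (hMW p hp hp5) hD
  refine ⟨goodEval p (S : Set ℕ) t, ?_, htM, ?_⟩
  · rw [← goodHeckeAlg_eq_heckeRingAway]
    exact goodEval_mem p _ t
  · -- `t c ≠ 0`
    have hE := isEisensteinClass_of_isEisensteinVector hcE
    rw [goodEval_eisenstein _ hE t]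
    intro h0
    -- `addOrderOf c ∣ ε(t)`, hence `r ∣ ε(t)`, hence `r ∣ 1`
    have h1 : (addOrderOf c : ℤ) ∣ eisChar p (S : Set ℕ) t :=
      (addOrderOf_dvd_iff_zsmul_eq_zero).2 h0
    have h2 : (r : ℤ) ∣ eisChar p (S : Set ℕ) t :=
      (Int.natCast_dvd_natCast.2 hrc).trans h1
    have h3 : (r : ℤ) ∣ 1 := by
      have := dvd_sub h2 ht1
      simpa using this
    have h4 : (r : ℤ) = 1 ∨ (r : ℤ) = -1 := Int.isUnit_iff.1 (isUnit_of_dvd_one h3)
    rcases h4 with h4 | h4
    · exact hr.one_lt.ne' (by exact_mod_cast h4)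
    · have : (0 : ℤ) ≤ r := Int.natCast_nonneg r
      omega

end Fermat.Agent.S15.H302

end

end
-- ===== PACK-END S15/H302/DescWeak.lean

-- ===== PACK-BEGIN S30/H810/Fin.lean
section
/-
S30 / piece FIN (helper810): `J₀(N)(ℚ̄)[m]` is FINITE, unconditionally, for every `m ≥ 1`.

* `dcStatement N m : H109.DCStatement N m` — the converse dictionary in helper109's shape,
  from the reverse dictionary `exists_analyticOrderAt_eq_mul` (`RevDict.lean`);
* `torsion_finite N m : {x : JZero N | m • x = 0}.Finite` — via helper109's `finite_torsion`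
  and the landed M4b piece K4-UNIQ (`H102.isKum_unique`);
* `exists_hom_isKum_of_torsion` — ONTO with an additive character.
-/




set_option autoImplicit false
set_option linter.unusedSectionVars false

noncomputable section

open ModularCurve AlgebraicCurve CongruenceSubgroup UpperHalfPlane HahnSeries
open scoped MatrixGroups Manifold

namespace Fermat.Agent.S30.H810

open Fermat.Agent.S24 Fermat.Agent.S24.H648 Fermat.Agent.S24.H708 Fermat.Agent.S24.Deg457
open Fermat.Agent.S24.H624 Fermat.Agent.S24.H997 Fermat.Agent.S29 Fermat.Agent.S29.M4b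
open Fermat.Agent.S29.H882

variable (N : ℕ) [NeZero N]

/-- Clearing poles: every `f ∈ FF N` times a suitable `m`-th power is realised by a good
function. -/
theorem exists_realises_mul_pow (m : ℕ) (hm : m ≠ 0) (f : FF N) :
    ∃ (t : FF N) (G : ℍ → ℂ), t ≠ 0 ∧ Realises N (f * t ^ m) G := by
  obtain ⟨r, t, ht, hft⟩ := exists_div_inclRN N f
  have ht' : inclRN N t ≠ 0 := fun h => ht (inclRN_injective N (by rw [h, map_zero]))
  obtain ⟨q, hq⟩ : ∃ q : ℕ, m = q + 1 := ⟨m - 1, by have := Nat.pos_of_ne_zero hm; omega⟩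
  have hur : f * inclRN N t ^ m = inclRN N (r * t ^ q) := by
    rw [hft, hq, map_mul, map_pow, pow_succ]
    field_simp
  refine ⟨inclRN N t, realFun N (r * t ^ q), ht', realFun_mem N _, ?_⟩
  rw [(realFun_hasQExp N (r * t ^ q)).qexpFun_eq, hur]
  rfl

/-- **The converse dictionary** in helper109's shape. -/
theorem dcStatement (m : ℕ) [NeZero m] : H109.DCStatement N m := by
  intro f hf hdiv
  have hm : m ≠ 0 := NeZero.ne m
  obtain ⟨t, G, ht, hG⟩ := exists_realises_mul_pow N m hm f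
  refine ⟨t, G, ht, hG, fun τ => ?_⟩
  refine exists_analyticOrderAt_eq_mul hG (mul_ne_zero hf (pow_ne_zero _ ht)) m hm ?_ τ
  intro v
  rw [Place.ord_mul v hf (pow_ne_zero _ ht), H117.ord_pow]
  exact dvd_add (hdiv v) (dvd_mul_right _ _)

/-- **FIN**: the `m`-torsion of `J₀(N)(ℚ̄)` is finite. -/
theorem torsion_finite (m : ℕ) [NeZero m] : {x : JZero N | m • x = 0}.Finite :=
  H109.finite_torsion N m (dcStatement N m)
    (fun _ _ _ h h' => H102.isKum_unique N m h h')

/-- **ONTO** with an additive character. -/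
theorem exists_hom_isKum_of_torsion (m : ℕ) [NeZero m] {x : JZero N} (hx : (m : ℤ) • x = 0) :
    ∃ c : G0 N → ZMod m, (∀ γ γ' : G0 N, c (γ * γ') = c γ + c γ') ∧ IsKum N m c x :=
  H109.exists_isKum_of_torsion N m (dcStatement N m) hx

end Fermat.Agent.S30.H810

end
end
-- ===== PACK-END S30/H810/Fin.lean

-- ===== PACK-BEGIN S17/H317/TorsionFinite.lean
section
/-
S17 row, piece G-TORS (helper317): `torsion_finite`, EXACT statement of the row skeleton
(`origin/helper17:Fermat/Agent/S17/Skeleton.lean`, `Skel.torsion_finite`, abbreviation `Qb`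
unfolded): the `n`-torsion of `J₀(N)(ℚ̄) = Pic⁰ ℚ̄ (ℚ̄(X₀(N)))` is finite for every `n ≠ 0`.

Adapter on top of the landed unconditional S30 piece FIN
(`Fermat.Agent.S30.H810.torsion_finite : {x : JZero N | m • x = 0}.Finite`).
-/


set_option autoImplicit false

noncomputable section

open ModularCurve AlgebraicCurve

namespace Fermat.Agent.S17.H317

/-- G-TORS. The `n`-torsion of `J₀(N)(ℚ̄)` is finite. -/
theorem torsion_finite (N : ℕ) [NeZero N] (n : ℕ) (hn : n ≠ 0) :
    Finite (Pic0.torsion (AlgebraicClosure ℚ) (modularFunctionFieldBar N) n) := by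
  haveI : NeZero n := ⟨hn⟩
  have hfin : {x : JZero N | n • x = 0}.Finite := Fermat.Agent.S30.H810.torsion_finite N n
  have hsub : ((Pic0.torsion (AlgebraicClosure ℚ) (modularFunctionFieldBar N) n :
      AddSubgroup (JZero N)) : Set (JZero N)) ⊆ {x : JZero N | n • x = 0} := by
    intro x hx
    have h1 : (n : ℤ) • x = 0 := Pic0.mem_torsion.mp hx
    show n • x = 0
    rw [← natCast_zsmul]
    exact h1
  exact (hfin.subset hsub).to_subtype

end Fermat.Agent.S17.H317

end
end
-- ===== PACK-END S17/H317/TorsionFinite.lean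

-- ===== PACK-BEGIN S15/H975/DescTop.lean
section




/-!
# Row S15: FINAL ASSEMBLY from the nodes of `DescSpec.lean` (row-lead helper975)

    frozen S15  <==  GeoWeak  +  Mordell–Weil (frozen S17)  +  the nodes of `DescSpec.lean`

* `finStatement`            : FIN, from `S30.H810.torsion_finite` (on main);
* `rtf_of_fg`               : RTF from Mordell–Weil;
* `descCoreAt_of_nodes`     : `H302.DescCoreAt p S r` for every prime `r ∣ p - 1`;
* `descWeak_of_nodes`       : the weak descent node, for Eisenstein vectors killed by `p - 1`;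
* `S15_of_nodes`            : the frozen statement S15.

Everything is sorry-free; the nodes are hypotheses.
-/

set_option autoImplicit false

noncomputable section

open WeierstrassCurve WeierstrassCurve.Affine

namespace Fermat.Agent.S15.H975

open ModularCurve Fermat.Agent.S15

/-- **FIN** (on main). -/
theorem finStatement : FinStatement := by
  intro p _ n hn
  haveI : NeZero n := ⟨hn.ne'⟩
  exact (Fermat.Agent.S30.H810.torsion_finite p n).to_subtype

/-- the target of `DescSpec.lean` is the descent core of helper302, verbatim -/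
theorem descCoreAt_of_target {p : ℕ} [NeZero p] {S : Set ℕ} {r : ℕ}
    (h : DescCoreTarget p S r) : H302.DescCoreAt p S r := h

/-- **RTF from Mordell–Weil**: a finitely generated abelian group has finite torsion. -/
theorem rtf_of_fg (p : ℕ) [NeZero p]
    (hMW : AddGroup.FG ↥(FixedPoints.addSubgroup _root_.Fermat.Agent.S15.H975.Gal (JZero p))) :
    ∃ e : ℕ, 0 < e ∧
      ∀ t : JZero p, (∀ σ : _root_.Fermat.Agent.S15.H975.Gal, σ • t = t) → (∃ m : ℕ, 0 < m ∧ m • t = 0) → e • t = 0 := by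
  classical
  set A : AddSubgroup (JZero p) := FixedPoints.addSubgroup _root_.Fermat.Agent.S15.H975.Gal (JZero p) with hA
  haveI : Module.Finite ℤ A := Module.Finite.iff_addGroup_fg.mpr hMW
  -- the torsion submodule is finitely generated and torsion, hence finite
  haveI : IsNoetherian ℤ A := isNoetherian_of_isNoetherianRing_of_finite ℤ A
  haveI : Module.Finite ℤ (Submodule.torsion ℤ A) :=
    Module.Finite.of_fg (IsNoetherian.noetherian _)
  haveI hfin : Finite (Submodule.torsion ℤ A) :=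
    Module.finite_of_fg_torsion _ (Submodule.torsion_isTorsion (R := ℤ) (M := A))
  refine ⟨Nat.card (Submodule.torsion ℤ A), Nat.card_pos, ?_⟩
  intro t ht ⟨m, hm, hmt⟩
  have htA : t ∈ A := fun σ => ht σ
  have htt : (⟨t, htA⟩ : A) ∈ Submodule.torsion ℤ A := by
    rw [Submodule.mem_torsion_iff]
    refine ⟨⟨(m : ℤ), mem_nonZeroDivisors_of_ne_zero (by exact_mod_cast hm.ne')⟩, ?_⟩
    apply Subtype.ext
    show ((m : ℤ) • (⟨t, htA⟩ : A) : A).1 = 0
    rw [natCast_zsmul]
    exact hmt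
  have h1 : Nat.card (Submodule.torsion ℤ A) • (⟨⟨t, htA⟩, htt⟩ : Submodule.torsion ℤ A) = 0 :=
    card_nsmul_eq_zero'
  have h2 := congrArg (fun x : Submodule.torsion ℤ A => ((x : A) : JZero p)) h1
  simpa using h2

/-- **The descent core from the nodes.** -/
theorem descCoreAt_of_nodes (hA : Alg0Statement) (hE : EngineStatement)
    (hDiv : DivStatement) (hFlag : FlagStatement) (hLoc : LocalStatement)
    (p : ℕ) [NeZero p] (hp : p.Prime)
    (hMW : AddGroup.FG ↥(FixedPoints.addSubgroup _root_.Fermat.Agent.S15.H975.Gal (JZero p)))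
    (S : Finset ℕ) (r : ℕ) (hr : r.Prime) (hrp : r ∣ p - 1) :
    H302.DescCoreAt p (S : Set ℕ) r := by
  have hW : Finite ↥(tors p r) := finStatement p r hr.pos
  obtain ⟨D, F, hF⟩ := hFlag p hp S r hr hrp
  obtain ⟨K, U, hK, hU, hKU, hstep⟩ := hLoc p hp S r hr hrp
  have hmono : ∀ j, j ≤ D → ∀ i, i ≤ j → F i ≤ F j := by
    intro j
    induction j with
    | zero =>
      intro _ i hi
      rw [Nat.le_zero.mp hi]
    | succ j ih =>
      intro hj i hi
      rcases Nat.lt_or_ge i (j + 1) with h | h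
      · exact (ih (Nat.le_of_succ_le hj) i (Nat.lt_succ_iff.mp h)).trans
          (hF.2.2 j (Nat.lt_of_succ_le hj)).1
      · rw [le_antisymm hi h]
  have hsel : SelBound p (S : Set ℕ) r :=
    hE p (S : Set ℕ) r hr hW K U hK hU hKU D F hF fun i hi =>
      hstep (F i) (F (i + 1)) (by rw [← hF.2.1]; exact hmono D le_rfl (i + 1) hi) (hF.2.2 i hi)
  exact descCoreAt_of_target
    (hA p (S : Set ℕ) r hp hr (hDiv p hp r hr) (fun n hn => finStatement p n hn)
      (rtf_of_fg p hMW) hsel)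

/-- **NODE DESC, weak form, for vectors killed by `p - 1`.** -/
def DescWeakStatement' : Prop :=
  ∀ (p : ℕ) [NeZero p] (_hp : p.Prime) (_hp' : p ∉ ({2, 3, 5, 7, 13} : Finset ℕ))
    (S : Finset ℕ) (c : ModularCurve.JZero p) (_hc : ∀ σ : _root_.Fermat.Agent.S15.H975.Gal, σ • c = c) (_hc0 : c ≠ 0)
    (_hct : (p - 1) • c = 0) (_hcE : IsEisensteinVector p c),
    ∃ t ∈ heckeRingAway p S,
      (∀ z : ModularCurve.JZero p, (∀ σ : _root_.Fermat.Agent.S15.H975.Gal, σ • z = z) → ∃ m : ℕ, 0 < m ∧ m • t z = 0) ∧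
      t c ≠ 0

theorem five_le_of_notMem {p : ℕ} (hp : p.Prime) (hp' : p ∉ ({2, 3, 5, 7, 13} : Finset ℕ)) :
    5 ≤ p := by
  have h2 := hp.two_le
  by_contra hlt
  push Not at hlt
  have : p = 2 ∨ p = 3 ∨ p = 4 := by omega
  rcases this with rfl | rfl | rfl
  · exact hp' (by simp)
  · exact hp' (by simp)
  · exact absurd hp (by decide)

/-- **The weak descent node from Mordell–Weil and the nodes of `DescSpec.lean`.** -/
theorem descWeak_of_nodes
    (hMW : ∀ (p : ℕ) [NeZero p], p.Prime → 5 ≤ p →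
      AddGroup.FG ↥(FixedPoints.addSubgroup _root_.Fermat.Agent.S15.H975.Gal (JZero p)))
    (hA : Alg0Statement) (hE : EngineStatement)
    (hDiv : DivStatement) (hFlag : FlagStatement) (hLoc : LocalStatement) :
    DescWeakStatement' := by
  intro p _ hp hp' S c hcfix hc0 hct hcE
  have hp5 : 5 ≤ p := five_le_of_notMem hp hp'
  have hp1 : 0 < p - 1 := by omega
  -- a prime `r` dividing the order of `c`
  have hord : addOrderOf c ∣ p - 1 := addOrderOf_dvd_of_nsmul_eq_zero hct
  have hord1 : addOrderOf c ≠ 1 := by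
    intro h
    exact hc0 (AddMonoid.addOrderOf_eq_one_iff.mp h)
  obtain ⟨r, hr, hrc⟩ := Nat.exists_prime_and_dvd hord1
  have hrp : r ∣ p - 1 := hrc.trans hord
  have hD : H302.DescCoreAt p (S : Set ℕ) r :=
    descCoreAt_of_nodes hA hE hDiv hFlag hLoc p hp (hMW p hp hp5) S r hr hrp
  obtain ⟨t, ht1, htM⟩ :=
    H302.exists_goodAlg_of_descCore p (S : Set ℕ) r hr.pos (hMW p hp hp5) hD
  refine ⟨H302.goodEval p (S : Set ℕ) t, ?_, htM, ?_⟩
  · rw [← H302.goodHeckeAlg_eq_heckeRingAway]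
    exact H302.goodEval_mem p _ t
  · have hE' := H302.isEisensteinClass_of_isEisensteinVector hcE
    rw [H302.goodEval_eisenstein _ hE' t]
    intro h0
    have h1 : (addOrderOf c : ℤ) ∣ H302.eisChar p (S : Set ℕ) t :=
      (addOrderOf_dvd_iff_zsmul_eq_zero).2 h0
    have h2 : (r : ℤ) ∣ H302.eisChar p (S : Set ℕ) t :=
      (Int.natCast_dvd_natCast.2 hrc).trans h1
    have h3 : (r : ℤ) ∣ 1 := by
      have := dvd_sub h2 ht1
      simpa using this
    have h4 : (r : ℤ) = 1 ∨ (r : ℤ) = -1 := Int.isUnit_iff.1 (isUnit_of_dvd_one h3)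
    rcases h4 with h4 | h4
    · exact hr.one_lt.ne' (by exact_mod_cast h4)
    · have : (0 : ℤ) ≤ r := Int.natCast_nonneg r
      omega

/-- **S15 from `GeoWeak` and `DescWeakStatement'`** (the proof of `S15_of_weak`, which only uses
the descent node for the vector `c` of `GeoWeak`, killed by `p - 1`). -/
theorem S15_of_weak' (hgeo : GeoWeak) (hdesc : DescWeakStatement')
    {p : ℕ} (hp : p.Prime) (hp' : p ∉ ({2, 3, 5, 7, 13} : Finset ℕ))
    (W : WeierstrassCurve ℤ) (hΔ : W.Δ ≠ 0)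
    (Q : ((W.map (Int.castRingHom ℚ))⁄(AlgebraicClosure ℚ)).Point)
    (hQfix : ∀ σ : AlgebraicClosure ℚ ≃ₐ[ℚ] AlgebraicClosure ℚ, σ • Q = Q)
    (hQord : addOrderOf Q = p)
    (h2Δ : (2 : ℤ) ∣ W.Δ) (h2c₄ : ¬ (2 : ℤ) ∣ W.c₄)
    (h2 : ∀ A : ValuationSubring (AlgebraicClosure ℚ), A.LiesOverPrime 2 →
      ¬ W.InZeroComponentAt A Q)
    (h3Δ : (3 : ℤ) ∣ W.Δ) (h3c₄ : ¬ (3 : ℤ) ∣ W.c₄)
    (h3 : ∀ A : ValuationSubring (AlgebraicClosure ℚ), A.LiesOverPrime 3 →
      ¬ W.InZeroComponentAt A Q)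
    {ℓ : ℕ} (hℓ : ℓ.Prime) (hℓp : ℓ ≠ p) (hℓΔ : (ℓ : ℤ) ∣ W.Δ) (hℓc₄ : ¬ (ℓ : ℤ) ∣ W.c₄)
    (A : ValuationSubring (AlgebraicClosure ℚ)) (hA : A.LiesOverPrime ℓ) :
    ¬ W.InZeroComponentAt A Q := by
  refine H242.step3_of_pm_one hp W Q hQfix hQord hℓ hℓp hℓΔ hℓc₄ A hA (fun hpm hQ0 => ?_)
  haveI : NeZero p := ⟨hp.ne_zero⟩
  have hp2 : (2 : ℕ) ≠ p := by rintro rfl; simp at hp'
  have hp3 : (3 : ℕ) ≠ p := by rintro rfl; simp at hp'
  obtain ⟨c, D, hcfix, hDfix, hc0, hcord, hcE, hred⟩ := hgeo p hp hp' W hΔ Q hQfix hQord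
  obtain ⟨A₂, hA₂⟩ := S54.exists_valuationSubring_liesOver 2 Nat.prime_two
  obtain ⟨A₃, hA₃⟩ := S54.exists_valuationSubring_liesOver 3 Nat.prime_three
  obtain ⟨S₂, Y₂, _, red₂, hg₂, hn₂, -⟩ :=
    hred 2 Nat.prime_two hp2 (by exact_mod_cast h2Δ) (by exact_mod_cast h2c₄) A₂ hA₂
  obtain ⟨S₃, Y₃, _, red₃, hg₃, hn₃, -⟩ :=
    hred 3 Nat.prime_three hp3 (by exact_mod_cast h3Δ) (by exact_mod_cast h3c₄) A₃ hA₃
  obtain ⟨Sℓ, Yℓ, _, redℓ, hgℓ, -, hzℓ⟩ := hred ℓ hℓ hℓp hℓΔ hℓc₄ A hA
  obtain ⟨t, htmem, httors, htc⟩ :=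
    hdesc p hp hp' (S₂ ∪ S₃ ∪ Sℓ) c hcfix hc0 hcord hcE
  have ht₂ : t ∈ heckeRingAway p S₂ :=
    heckeRingAway_mono p (fun x hx => by simp [hx]) htmem
  have ht₃ : t ∈ heckeRingAway p S₃ :=
    heckeRingAway_mono p (fun x hx => by simp [hx]) htmem
  have htℓ : t ∈ heckeRingAway p Sℓ :=
    heckeRingAway_mono p (fun x hx => by simp [hx]) htmem
  have htD₂ : red₂ (t D) = 0 :=
    red_eq_zero_of_mem_heckeRingAway' hg₂ ht₂ D (hn₂ (h2 A₂ hA₂))
  have htD₃ : red₃ (t D) = 0 :=
    red_eq_zero_of_mem_heckeRingAway' hg₃ ht₃ D (hn₃ (h3 A₃ hA₃))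
  obtain ⟨m, hm0, hm⟩ := httors D hDfix
  have htD : t D = 0 := eq_zero_of_red_two_three' hg₂ hg₃ (t D) hm0 hm htD₂ htD₃
  have hcℓ : redℓ (t c) = 0 := by
    rcases hzℓ hQ0 with h | h
    · have h0 : redℓ (D - c) = 0 := by rw [map_sub, h, sub_self]
      have h1 := red_eq_zero_of_mem_heckeRingAway' hgℓ htℓ (D - c) h0
      rw [map_sub, htD, zero_sub, map_neg, neg_eq_zero] at h1
      exact h1
    · have h0 : redℓ (D + c) = 0 := by rw [map_add, h, neg_add_cancel]
      have h1 := red_eq_zero_of_mem_heckeRingAway' hgℓ htℓ (D + c) h0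
      rw [map_add, htD, zero_add] at h1
      exact h1
  have htc1 : (p - 1) • t c = 0 := by rw [← map_nsmul, hcord, map_zero]
  exact htc (hgℓ.inj (p - 1) (t c)
    (not_dvd_pred_of_pm_one' hp hℓ (Ne.symm hp2) (Ne.symm hp3) hpm) htc1 hcℓ)

/-- **The frozen statement S15 from the nodes**: `GeoWeak` (GEO side), Mordell–Weil (frozen
S17) and the DESC nodes of `DescSpec.lean`. -/
theorem S15_of_nodes (hgeo : GeoWeak)
    (hMW : ∀ (p : ℕ) [NeZero p], p.Prime → 5 ≤ p →
      AddGroup.FG ↥(FixedPoints.addSubgroup _root_.Fermat.Agent.S15.H975.Gal (JZero p)))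
    (hA : Alg0Statement) (hE : EngineStatement)
    (hDiv : DivStatement) (hFlag : FlagStatement) (hLoc : LocalStatement)
    {p : ℕ} (hp : p.Prime) (hp' : p ∉ ({2, 3, 5, 7, 13} : Finset ℕ))
    (W : WeierstrassCurve ℤ) (hΔ : W.Δ ≠ 0)
    (Q : ((W.map (Int.castRingHom ℚ))⁄(AlgebraicClosure ℚ)).Point)
    (hQfix : ∀ σ : AlgebraicClosure ℚ ≃ₐ[ℚ] AlgebraicClosure ℚ, σ • Q = Q)
    (hQord : addOrderOf Q = p)
    (h2Δ : (2 : ℤ) ∣ W.Δ) (h2c₄ : ¬ (2 : ℤ) ∣ W.c₄)
    (h2 : ∀ A : ValuationSubring (AlgebraicClosure ℚ), A.LiesOverPrime 2 →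
      ¬ W.InZeroComponentAt A Q)
    (h3Δ : (3 : ℤ) ∣ W.Δ) (h3c₄ : ¬ (3 : ℤ) ∣ W.c₄)
    (h3 : ∀ A : ValuationSubring (AlgebraicClosure ℚ), A.LiesOverPrime 3 →
      ¬ W.InZeroComponentAt A Q)
    {ℓ : ℕ} (hℓ : ℓ.Prime) (hℓp : ℓ ≠ p) (hℓΔ : (ℓ : ℤ) ∣ W.Δ) (hℓc₄ : ¬ (ℓ : ℤ) ∣ W.c₄)
    (A : ValuationSubring (AlgebraicClosure ℚ)) (hA' : A.LiesOverPrime ℓ) :
    ¬ W.InZeroComponentAt A Q :=
  S15_of_weak' hgeo (descWeak_of_nodes hMW hA hE hDiv hFlag hLoc)
    hp hp' W hΔ Q hQfix hQord h2Δ h2c₄ h2 h3Δ h3c₄ h3 hℓ hℓp hℓΔ hℓc₄ A hA'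

end Fermat.Agent.S15.H975

end

end
-- ===== PACK-END S15/H975/DescTop.lean

-- ===== PACK-BEGIN S15/H975/DescTop2.lean
section



/-!
# Row S15: FINAL ASSEMBLY, official route (row-lead helper975)

    frozen S15  <==  GeoWeak + Mordell–Weil (frozen S17) + ALG0 + DIV + SEL
    SEL         <==  SEL-ASM + FLAG + COUNT + CNT + STEP        (`DescSpec2.lean`)

Everything is sorry-free; the nodes are hypotheses.
-/

set_option autoImplicit false

noncomputable section

open WeierstrassCurve WeierstrassCurve.Affine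

namespace Fermat.Agent.S15.H975

open ModularCurve Fermat.Agent.S15

/-- **The descent core from SEL.** -/
theorem descCoreAt_of_sel (hA : Alg0Statement) (hDiv : DivStatement) (hSel : SelStatement)
    (p : ℕ) [NeZero p] (hp : p.Prime)
    (hMW : AddGroup.FG ↥(FixedPoints.addSubgroup _root_.Fermat.Agent.S15.H975.Gal (JZero p)))
    (S : Finset ℕ) (r : ℕ) (hr : r.Prime) (hrp : r ∣ p - 1) :
    H302.DescCoreAt p (S : Set ℕ) r :=
  descCoreAt_of_target
    (hA p (S : Set ℕ) r hp hr (hDiv p hp r hr) (fun n hn => finStatement p n hn)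
      (rtf_of_fg p hMW) (hSel p hp S r hr hrp))

/-- **The weak descent node from Mordell–Weil, ALG0, DIV and SEL.** -/
theorem descWeak_of_sel
    (hMW : ∀ (p : ℕ) [NeZero p], p.Prime → 5 ≤ p →
      AddGroup.FG ↥(FixedPoints.addSubgroup _root_.Fermat.Agent.S15.H975.Gal (JZero p)))
    (hA : Alg0Statement) (hDiv : DivStatement) (hSel : SelStatement) :
    DescWeakStatement' := by
  intro p _ hp hp' S c hcfix hc0 hct hcE
  have hp5 : 5 ≤ p := five_le_of_notMem hp hp'
  have hord : addOrderOf c ∣ p - 1 := addOrderOf_dvd_of_nsmul_eq_zero hct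
  have hord1 : addOrderOf c ≠ 1 := by
    intro h
    exact hc0 (AddMonoid.addOrderOf_eq_one_iff.mp h)
  obtain ⟨r, hr, hrc⟩ := Nat.exists_prime_and_dvd hord1
  have hrp : r ∣ p - 1 := hrc.trans hord
  have hD : H302.DescCoreAt p (S : Set ℕ) r :=
    descCoreAt_of_sel hA hDiv hSel p hp (hMW p hp hp5) S r hr hrp
  obtain ⟨t, ht1, htM⟩ :=
    H302.exists_goodAlg_of_descCore p (S : Set ℕ) r hr.pos (hMW p hp hp5) hD
  refine ⟨H302.goodEval p (S : Set ℕ) t, ?_, htM, ?_⟩
  · rw [← H302.goodHeckeAlg_eq_heckeRingAway]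
    exact H302.goodEval_mem p _ t
  · have hE' := H302.isEisensteinClass_of_isEisensteinVector hcE
    rw [H302.goodEval_eisenstein _ hE' t]
    intro h0
    have h1 : (addOrderOf c : ℤ) ∣ H302.eisChar p (S : Set ℕ) t :=
      (addOrderOf_dvd_iff_zsmul_eq_zero).2 h0
    have h2 : (r : ℤ) ∣ H302.eisChar p (S : Set ℕ) t :=
      (Int.natCast_dvd_natCast.2 hrc).trans h1
    have h3 : (r : ℤ) ∣ 1 := by
      have := dvd_sub h2 ht1
      simpa using this
    have h4 : (r : ℤ) = 1 ∨ (r : ℤ) = -1 := Int.isUnit_iff.1 (isUnit_of_dvd_one h3)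
    rcases h4 with h4 | h4
    · exact hr.one_lt.ne' (by exact_mod_cast h4)
    · have : (0 : ℤ) ≤ r := Int.natCast_nonneg r
      omega

/-- **The frozen statement S15 from the nodes of the official route.** -/
theorem S15_of_sel (hgeo : GeoWeak)
    (hMW : ∀ (p : ℕ) [NeZero p], p.Prime → 5 ≤ p →
      AddGroup.FG ↥(FixedPoints.addSubgroup _root_.Fermat.Agent.S15.H975.Gal (JZero p)))
    (hA : Alg0Statement) (hDiv : DivStatement) (hSel : SelStatement)
    {p : ℕ} (hp : p.Prime) (hp' : p ∉ ({2, 3, 5, 7, 13} : Finset ℕ))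
    (W : WeierstrassCurve ℤ) (hΔ : W.Δ ≠ 0)
    (Q : ((W.map (Int.castRingHom ℚ))⁄(AlgebraicClosure ℚ)).Point)
    (hQfix : ∀ σ : AlgebraicClosure ℚ ≃ₐ[ℚ] AlgebraicClosure ℚ, σ • Q = Q)
    (hQord : addOrderOf Q = p)
    (h2Δ : (2 : ℤ) ∣ W.Δ) (h2c₄ : ¬ (2 : ℤ) ∣ W.c₄)
    (h2 : ∀ A : ValuationSubring (AlgebraicClosure ℚ), A.LiesOverPrime 2 →
      ¬ W.InZeroComponentAt A Q)
    (h3Δ : (3 : ℤ) ∣ W.Δ) (h3c₄ : ¬ (3 : ℤ) ∣ W.c₄)
    (h3 : ∀ A : ValuationSubring (AlgebraicClosure ℚ), A.LiesOverPrime 3 →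
      ¬ W.InZeroComponentAt A Q)
    {ℓ : ℕ} (hℓ : ℓ.Prime) (hℓp : ℓ ≠ p) (hℓΔ : (ℓ : ℤ) ∣ W.Δ) (hℓc₄ : ¬ (ℓ : ℤ) ∣ W.c₄)
    (A : ValuationSubring (AlgebraicClosure ℚ)) (hA' : A.LiesOverPrime ℓ) :
    ¬ W.InZeroComponentAt A Q :=
  S15_of_weak' hgeo (descWeak_of_sel hMW hA hDiv hSel)
    hp hp' W hΔ Q hQfix hQord h2Δ h2c₄ h2 h3Δ h3c₄ h3 hℓ hℓp hℓΔ hℓc₄ A hA'

/-- The official route in one statement. -/
theorem S15_of_route2 (hgeo : GeoWeak)
    (hMW : ∀ (p : ℕ) [NeZero p], p.Prime → 5 ≤ p →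
      AddGroup.FG ↥(FixedPoints.addSubgroup _root_.Fermat.Agent.S15.H975.Gal (JZero p)))
    (hA : Alg0Statement) (hDiv : DivStatement) (hAsm : SelAsmStatement)
    (hFlag : FlagStatement) (hCount : CountStatement) (hCnt : CntStatement)
    (hStep : StepStatement)
    {p : ℕ} (hp : p.Prime) (hp' : p ∉ ({2, 3, 5, 7, 13} : Finset ℕ))
    (W : WeierstrassCurve ℤ) (hΔ : W.Δ ≠ 0)
    (Q : ((W.map (Int.castRingHom ℚ))⁄(AlgebraicClosure ℚ)).Point)
    (hQfix : ∀ σ : AlgebraicClosure ℚ ≃ₐ[ℚ] AlgebraicClosure ℚ, σ • Q = Q)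
    (hQord : addOrderOf Q = p)
    (h2Δ : (2 : ℤ) ∣ W.Δ) (h2c₄ : ¬ (2 : ℤ) ∣ W.c₄)
    (h2 : ∀ A : ValuationSubring (AlgebraicClosure ℚ), A.LiesOverPrime 2 →
      ¬ W.InZeroComponentAt A Q)
    (h3Δ : (3 : ℤ) ∣ W.Δ) (h3c₄ : ¬ (3 : ℤ) ∣ W.c₄)
    (h3 : ∀ A : ValuationSubring (AlgebraicClosure ℚ), A.LiesOverPrime 3 →
      ¬ W.InZeroComponentAt A Q)
    {ℓ : ℕ} (hℓ : ℓ.Prime) (hℓp : ℓ ≠ p) (hℓΔ : (ℓ : ℤ) ∣ W.Δ) (hℓc₄ : ¬ (ℓ : ℤ) ∣ W.c₄)
    (A : ValuationSubring (AlgebraicClosure ℚ)) (hA' : A.LiesOverPrime ℓ) :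
    ¬ W.InZeroComponentAt A Q :=
  S15_of_sel hgeo hMW hA hDiv (hAsm hFlag hCount hCnt hStep)
    hp hp' W hΔ Q hQfix hQord h2Δ h2c₄ h2 h3Δ h3c₄ h3 hℓ hℓp hℓΔ hℓc₄ A hA'

end Fermat.Agent.S15.H975

end

end
-- ===== PACK-END S15/H975/DescTop2.lean

-- ===== PACK-BEGIN S15/H362/CuspTwo.lean
section



/-!
# S15 / piece CUSP (helper362): at prime level the only poles of `j` are the cusps `∞` and `0`

* `cuspCount_prime` : `cuspCount m = 2` for a prime `m`;
* `eq_cusp_of_ord_jBar_neg` (C4) : a place of `ℚ̄(X₀(m))`, `m` prime, at which `j` has a pole is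
  `∞` or `0`;
* `eq_cusp_of_ord_jLevelBar_neg` : the same for `j(q^m)`.

Sorry-free.
-/

set_option autoImplicit false
set_option synthInstance.maxHeartbeats 400000

noncomputable section

open AlgebraicCurve ModularCurve HahnSeries

namespace Fermat.Agent.S15.H362

open Fermat.Agent.A2.H528

theorem cuspCount_prime {m : ℕ} (hm : m.Prime) : cuspCount m = 2 := by
  unfold cuspCount
  rw [Nat.Prime.divisors hm, Finset.sum_pair hm.one_lt.ne]
  simp [Nat.div_self hm.pos]

variable (m : ℕ) [NeZero m]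

theorem jBar_eq_jF : jBar m = Fermat.Agent.S24.jF m := rfl

/-- **C4.** At prime level, a pole of `j` is one of the two cusps `∞`, `0`. -/
theorem eq_cusp_of_ord_jBar_neg (hm : m.Prime) (P : Place Qb (FB m))
    (h : P.ord (jBar m) < 0) : P = cuspInfty m ∨ P = cuspZero m := by
  classical
  obtain ⟨hfin, hcard, -⟩ := Fermat.Agent.Lib.X0Branch.places_inv m
  rw [cuspCount_prime hm, Nat.card_eq_card_finite_toFinset hfin] at hcard
  obtain ⟨x, y, hxy, hS⟩ := Finset.card_eq_two.mp hcard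
  have hmem : ∀ v : Place Qb (FB m), v.ord (jBar m) < 0 → v = x ∨ v = y := by
    intro v hv
    have hv' : v ∈ hfin.toFinset := by
      rw [Set.Finite.mem_toFinset, Set.mem_ofPred_eq, ← jBar_eq_jF, Place.ord_inv]
      omega
    rw [hS] at hv'
    simpa using hv'
  have h1 : (cuspInfty m).ord (jBar m) < 0 := by rw [ord_cuspInfty_jBar]; omega
  have hm0 : (0 : ℤ) < m := by exact_mod_cast hm.pos
  have h2 : (cuspZero m).ord (jBar m) < 0 := by rw [ord_cuspZero_jBar]; omega
  have hne := cuspZero_ne_cuspInfty m hm.one_lt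
  rcases hmem _ h1 with e1 | e1 <;> rcases hmem _ h2 with e2 | e2 <;>
    rcases hmem P h with e3 | e3
  · exact absurd (e2.trans e1.symm) hne
  · exact absurd (e2.trans e1.symm) hne
  · exact Or.inl (e3.trans e1.symm)
  · exact Or.inr (e3.trans e2.symm)
  · exact Or.inr (e3.trans e2.symm)
  · exact Or.inl (e3.trans e1.symm)
  · exact absurd (e2.trans e1.symm) hne
  · exact absurd (e2.trans e1.symm) hne

/-- `ord_{w P} f = ord_P (w f)`. -/
theorem ord_wSemi_smul (P : Place Qb (FB m)) (f : FB m) :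
    (wSemi m • P).ord f = P.ord (wF m f) := by
  have h := SemilinearAut.ord_smul (wSemi m) P (wF m f)
  rw [wSemi_smul, wF_wF] at h
  exact h

/-- At prime level, a pole of `j(q^m)` is one of the two cusps `∞`, `0`. -/
theorem eq_cusp_of_ord_jLevelBar_neg (hm : m.Prime) (P : Place Qb (FB m))
    (h : P.ord (jLevelBar m) < 0) : P = cuspInfty m ∨ P = cuspZero m := by
  have h' : (wSemi m • P).ord (jBar m) < 0 := by
    rw [ord_wSemi_smul, wF_jBar]; exact h
  have hP : wSemi m • (wSemi m • P) = P := by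
    rw [← mul_smul, wSemi_mul_self, one_smul]
  rcases eq_cusp_of_ord_jBar_neg m hm _ h' with e | e
  · right
    rw [← hP, e]; rfl
  · left
    rw [← hP, e, wSemi_smul_cuspZero]

end Fermat.Agent.S15.H362

end
end
-- ===== PACK-END S15/H362/CuspTwo.lean

-- ===== PACK-BEGIN S15/H362/CuspRatio.lean
section


/-!
# S15 / piece CUSP (helper362): the ratio lemma

Let `m` be a prime, `ι : ℚ̄(X₀(m)) → Z` an integral embedding into a function field and `W` a place
of `Z` at which `ι j` or `ι j(q^m)` has a pole.  Then `W` lies over `∞` or over `0`, and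
accordingly `ord_W (ι j_m) = m · ord_W (ι j)` or `ord_W (ι j) = m · ord_W (ι j_m)`.

Sorry-free.
-/

set_option autoImplicit false
set_option synthInstance.maxHeartbeats 400000
set_option linter.style.haveILetI false

noncomputable section

open AlgebraicCurve ModularCurve HahnSeries

namespace Fermat.Agent.S15.H362

variable {Z : Type*} [Field Z] [Algebra Qb Z]
variable (m : ℕ) [NeZero m]

/-- **Ratio lemma.** -/
theorem cusp_ratio (hm : m.Prime) (ι : FB m →ₐ[Qb] Z) (hι : ι.toRingHom.IsIntegral)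
    (W : Place Qb Z)
    (h : W.ord (ι (jBar m)) < 0 ∨ W.ord (ι (jLevelBar m)) < 0) :
    (W.restrictAlong ι hι = cuspInfty m ∧ W.ord (ι (jBar m)) < 0 ∧
        W.ord (ι (jLevelBar m)) = m * W.ord (ι (jBar m))) ∨
      (W.restrictAlong ι hι = cuspZero m ∧ W.ord (ι (jLevelBar m)) < 0 ∧
        W.ord (ι (jBar m)) = m * W.ord (ι (jLevelBar m))) := by
  have h1 := Place.ord_restrictAlong ι hι W (jBar m)
  have h2 := Place.ord_restrictAlong ι hι W (jLevelBar m)
  set e : ℕ := Place.ramificationIndexAlong ι W with he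
  set P := W.restrictAlong ι hι with hP
  have hm0 : (0 : ℤ) < m := by exact_mod_cast hm.pos
  have he0 : (0 : ℤ) < e := by
    rcases Nat.eq_zero_or_pos e with h0 | h0
    · rw [h0] at h1 h2
      simp only [Nat.cast_zero, zero_mul] at h1 h2
      rw [h1, h2] at h
      omega
    · exact_mod_cast h0
  have hcusp : P = cuspInfty m ∨ P = cuspZero m := by
    rcases h with h | h
    · refine eq_cusp_of_ord_jBar_neg m hm P ?_
      rw [h1] at h
      by_contra hc
      rw [not_lt] at hc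
      have := mul_nonneg he0.le hc
      omega
    · refine eq_cusp_of_ord_jLevelBar_neg m hm P ?_
      rw [h2] at h
      by_contra hc
      rw [not_lt] at hc
      have := mul_nonneg he0.le hc
      omega
  rcases hcusp with e1 | e1
  · left
    rw [e1, ord_cuspInfty_jBar] at h1
    rw [e1, ord_cuspInfty_jLevelBar] at h2
    refine ⟨e1, by rw [h1]; omega, ?_⟩
    rw [h1, h2]; ring
  · right
    rw [e1, ord_cuspZero_jBar] at h1
    rw [e1, ord_cuspZero_jLevelBar] at h2
    refine ⟨e1, by rw [h2]; omega, ?_⟩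
    rw [h1, h2]; ring

/-- A place over `∞`: `ι j` has a pole and `ord (ι j_m) = m · ord (ι j)`. -/
theorem ord_of_restrict_eq_cuspInfty (ι : FB m →ₐ[Qb] Z) (hι : ι.toRingHom.IsIntegral)
    (W : Place Qb Z) (hW : W.restrictAlong ι hι = cuspInfty m) :
    W.ord (ι (jBar m)) < 0 ∧ W.ord (ι (jLevelBar m)) = m * W.ord (ι (jBar m)) := by
  have h1 := Place.ord_restrictAlong ι hι W (jBar m)
  have h2 := Place.ord_restrictAlong ι hι W (jLevelBar m)
  rw [hW, ord_cuspInfty_jBar] at h1
  rw [hW, ord_cuspInfty_jLevelBar] at h2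
  have he0 : 0 < Place.ramificationIndexAlong ι W := by
    letI := algebraAlong ι
    haveI := isScalarTower_along ι
    haveI := isIntegral_along ι hι
    exact Place.ramificationIndex_pos (F := FB m) W
  have he0' : (0 : ℤ) < (Place.ramificationIndexAlong ι W : ℤ) := by exact_mod_cast he0
  refine ⟨by rw [h1]; omega, ?_⟩
  rw [h1, h2]; ring

/-- A place over `0`: `ι j_m` has a pole and `ord (ι j) = m · ord (ι j_m)`. -/
theorem ord_of_restrict_eq_cuspZero (ι : FB m →ₐ[Qb] Z) (hι : ι.toRingHom.IsIntegral)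
    (W : Place Qb Z) (hW : W.restrictAlong ι hι = cuspZero m) :
    W.ord (ι (jLevelBar m)) < 0 ∧ W.ord (ι (jBar m)) = m * W.ord (ι (jLevelBar m)) := by
  have h1 := Place.ord_restrictAlong ι hι W (jBar m)
  have h2 := Place.ord_restrictAlong ι hι W (jLevelBar m)
  rw [hW, ord_cuspZero_jBar] at h1
  rw [hW, ord_cuspZero_jLevelBar] at h2
  have he0 : 0 < Place.ramificationIndexAlong ι W := by
    letI := algebraAlong ι
    haveI := isScalarTower_along ι
    haveI := isIntegral_along ι hι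
    exact Place.ramificationIndex_pos (F := FB m) W
  have he0' : (0 : ℤ) < (Place.ramificationIndexAlong ι W : ℤ) := by exact_mod_cast he0
  refine ⟨by rw [h2]; omega, ?_⟩
  rw [h1, h2]; ring

end Fermat.Agent.S15.H362

end
end
-- ===== PACK-END S15/H362/CuspRatio.lean

-- ===== PACK-BEGIN S15/H362/CuspLevel.lean
section



/-!
# S15 / piece CUSP (helper362): the cusps of `X₀(pℓ)` over the cusps of `X₀(p)`

For distinct primes `p`, `ℓ` and a place `W` of `ℚ̄(X₀(pℓ))`:
`W|_β = ∞ → W|_α = ∞` and `W|_β = 0 → W|_α = 0`, where `α, β : ℚ̄(X₀(p)) → ℚ̄(X₀(pℓ))` are the two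
degeneracy maps (`α` the inclusion, `β : q ↦ q^ℓ`).

Proof: the four functions `j(q), j(q^ℓ), j(q^p), j(q^{pℓ})` of level `pℓ` are the images of
`j, j_p` under `α, β` and of `j, j_ℓ` under the two degeneracy maps `γ, δ` from level `ℓ`; the
ratio lemma (`cusp_ratio`) for the four maps gives four relations between the pole orders,
which exclude the mixed cases.

Sorry-free.
-/

set_option autoImplicit false
set_option synthInstance.maxHeartbeats 400000
set_option linter.style.haveILetI false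

noncomputable section

open AlgebraicCurve ModularCurve HahnSeries

namespace Fermat.Agent.S15.H362

/-- `coeffEmb` commutes with `q ↦ q^n`. -/
theorem coeffEmb_qExpand_h362 (n : ℕ) [NeZero n] (x : LaurentSeries ℚ) :
    coeffEmb Qb (qExpand ℚ n x) = qExpand Qb n (coeffEmb Qb x) := by
  ext k
  by_cases hk : (n : ℤ) ∣ k
  · obtain ⟨m, rfl⟩ := hk
    rw [coeffEmb_coeff, qExpand_coeff_mul, qExpand_coeff_mul, coeffEmb_coeff]
  · rw [coeffEmb_coeff, qExpand_coeff_of_not_dvd n _ hk, qExpand_coeff_of_not_dvd n _ hk,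
      map_zero]

theorem FB_congr {a b : ℕ} [NeZero a] [NeZero b] (h : a = b) :
    modularFunctionFieldBar a = modularFunctionFieldBar b := by
  subst h; rfl

variable (p ℓ : ℕ) [NeZero p] [NeZero ℓ]

/-- The identification `ℚ̄(X₀(ℓp)) = ℚ̄(X₀(pℓ))`. -/
def castLevel : FB (ℓ * p) →ₐ[Qb] FB (p * ℓ) :=
  IntermediateField.inclusion (le_of_eq (FB_congr (Nat.mul_comm ℓ p)))

/-- The inclusion `ℚ̄(X₀(ℓ)) → ℚ̄(X₀(pℓ))`. -/
def gammaL : FB ℓ →ₐ[Qb] FB (p * ℓ) := (castLevel p ℓ).comp (heckeAlphaBar Qb ℓ p)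

/-- The map `q ↦ q^p : ℚ̄(X₀(ℓ)) → ℚ̄(X₀(pℓ))`. -/
def deltaL : FB ℓ →ₐ[Qb] FB (p * ℓ) := (castLevel p ℓ).comp (heckeBetaBar Qb ℓ p)

theorem coe_castLevel (x : FB (ℓ * p)) :
    ((castLevel p ℓ x : FB (p * ℓ)) : LaurentSeries Qb) = (x : LaurentSeries Qb) :=
  IntermediateField.coe_inclusion _ x

theorem coe_gammaL (x : FB ℓ) :
    ((gammaL p ℓ x : FB (p * ℓ)) : LaurentSeries Qb) = (x : LaurentSeries Qb) := by
  rw [gammaL, AlgHom.comp_apply, coe_castLevel, coe_heckeAlphaBar]

theorem coe_deltaL (x : FB ℓ) :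
    ((deltaL p ℓ x : FB (p * ℓ)) : LaurentSeries Qb) = qExpand Qb p (x : LaurentSeries Qb) := by
  rw [deltaL, AlgHom.comp_apply, coe_castLevel, coe_heckeBetaBar]

theorem gammaL_integral : (gammaL p ℓ).toRingHom.IsIntegral := by
  obtain ⟨h, -⟩ := Fermat.Agent.Lib.FF398.heckeInputs_general (gammaL p ℓ) (deltaL p ℓ)
    (Fermat.Agent.S24.jF ℓ) (Fermat.Agent.Lib.FF398.transcendental_jF ℓ)
    (Fermat.Agent.S24.jF (p * ℓ)) (Fermat.Agent.Lib.FF398.transcendental_jF (p * ℓ))
  exact h

theorem deltaL_integral : (deltaL p ℓ).toRingHom.IsIntegral := by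
  obtain ⟨-, h, -⟩ := Fermat.Agent.Lib.FF398.heckeInputs_general (gammaL p ℓ) (deltaL p ℓ)
    (Fermat.Agent.S24.jF ℓ) (Fermat.Agent.Lib.FF398.transcendental_jF ℓ)
    (Fermat.Agent.S24.jF (p * ℓ)) (Fermat.Agent.Lib.FF398.transcendental_jF (p * ℓ))
  exact h

/-! ### The four `j`-functions of level `pℓ` -/

theorem alpha_jBar : heckeAlphaBar Qb p ℓ (jBar p) = gammaL p ℓ (jBar ℓ) := by
  apply Subtype.ext
  rw [coe_heckeAlphaBar, coe_gammaL, coe_jBar, coe_jBar]

theorem beta_jBar : heckeBetaBar Qb p ℓ (jBar p) = gammaL p ℓ (jLevelBar ℓ) := by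
  apply Subtype.ext
  rw [coe_heckeBetaBar, coe_gammaL, coe_jBar, coe_jLevelBar, coeffEmb_qExpand_h362]

theorem alpha_jLevelBar : heckeAlphaBar Qb p ℓ (jLevelBar p) = deltaL p ℓ (jBar ℓ) := by
  apply Subtype.ext
  rw [coe_heckeAlphaBar, coe_deltaL, coe_jBar, coe_jLevelBar, coeffEmb_qExpand_h362]

theorem beta_jLevelBar : heckeBetaBar Qb p ℓ (jLevelBar p) = deltaL p ℓ (jLevelBar ℓ) := by
  apply Subtype.ext
  rw [coe_heckeBetaBar, coe_deltaL, coe_jLevelBar, coe_jLevelBar, coeffEmb_qExpand_h362,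
    coeffEmb_qExpand_h362, qExpand_qExpand, qExpand_qExpand]
  exact qExpand_congr (Nat.mul_comm ℓ p) _

/-! ### The key lemma -/

/-- Arithmetic core, case `β ↦ ∞`, `α ↦ 0`. -/
theorem no_mixed_cusp_aux {P L a b c d : ℤ} (hP : 1 < P) (hL : 1 < L) (hPL : P ≠ L)
    (hc : c < 0)
    (h1 : d = P * b) (h2 : a = P * c)
    (h3 : b = L * a ∨ a = L * b) (h4 : d = L * c ∨ c = L * d) : False := by
  have hP2 : 1 < P * P := by nlinarith
  have hL2 : 1 < L * L := by nlinarith
  rcases h3 with h3 | h3 <;> rcases h4 with h4 | h4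
  · -- d = P b = P L a = P L P c,  d = L c
    have h : (P * P - 1) * (L * c) = 0 := by
      have : d = P * (L * (P * c)) := by rw [h1, h3, h2]
      rw [h4] at this
      linear_combination -this
    rcases mul_eq_zero.mp h with h | h
    · omega
    · rcases mul_eq_zero.mp h with h | h <;> omega
  · -- c = L d = L P b = L P L a = L P L P c
    have h : (P * P * (L * L) - 1) * c = 0 := by
      have : c = L * (P * (L * (P * c))) := by
        conv_lhs => rw [h4, h1, h3, h2]
      linear_combination -this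
    have hPL2 : 1 < P * P * (L * L) := by nlinarith
    rcases mul_eq_zero.mp h with h | h <;> omega
  · -- a = L b, a = P c, d = P b, d = L c:  L a = L P c = P d = P P b, and L a = L L b
    have hb : b < 0 := by
      by_contra hb
      rw [not_lt] at hb
      have : 0 ≤ L * b := mul_nonneg (by omega) hb
      have : P * c < 0 := mul_neg_of_pos_of_neg (by omega) hc
      omega
    have h : (L * L - P * P) * b = 0 := by
      have e1 : L * b = P * c := by rw [← h3, h2]
      have e2 : P * b = L * c := by rw [← h1, h4]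
      linear_combination L * e1 - P * e2
    rcases mul_eq_zero.mp h with h | h
    · have h' : (L - P) * (L + P) = 0 := by linear_combination h
      rcases mul_eq_zero.mp h' with h' | h' <;> omega
    · omega
  · -- a = L b, c = L d, d = P b, a = P c: a = P c = P L d = P L P b, a = L b
    have hb : b < 0 := by
      by_contra hb
      rw [not_lt] at hb
      have : 0 ≤ L * b := mul_nonneg (by omega) hb
      have : P * c < 0 := mul_neg_of_pos_of_neg (by omega) hc
      omega
    have h : (P * P - 1) * (L * b) = 0 := by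
      have : a = P * (L * (P * b)) := by
        conv_lhs => rw [h2, h4, h1]
      rw [h3] at this
      linear_combination -this
    rcases mul_eq_zero.mp h with h | h
    · omega
    · rcases mul_eq_zero.mp h with h | h <;> omega

end Fermat.Agent.S15.H362

end
end
-- ===== PACK-END S15/H362/CuspLevel.lean

-- ===== PACK-BEGIN S15/H362/CuspHecke.lean
section



/-!
# S15 / piece CUSP (helper362): **K8** — the cuspidal class is Eisenstein

For primes `ℓ ≠ p`:
* `restrictAlpha_cuspInfty`, `restrictAlpha_cuspZero` : a place of `X₀(pℓ)` over `∞` (resp. `0`)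
  along `β` lies over `∞` (resp. `0`) along `α`;
* `heckeDivBar_cuspInfty`, `heckeDivBar_cuspZero` : `T_ℓ (n[∞]) = n(ℓ+1)[∞]`, same for `0`;
* `heckeOperatorBar_cuspClass` : `T_ℓ c = (1 + ℓ) c` for `c = cl((0) - (∞))`;
* `isEisensteinClass_cuspClass : Core.IsEisensteinClass (cuspClass p)`.

Sorry-free.
-/

set_option autoImplicit false
set_option synthInstance.maxHeartbeats 400000
set_option linter.style.haveILetI false

noncomputable section

open AlgebraicCurve ModularCurve HahnSeries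

namespace Fermat.Agent.S15.H362

variable (p ℓ : ℕ) [NeZero p] [NeZero ℓ]

/-- The four pole orders at a cusp of `X₀(pℓ)`: relations coming from level `ℓ`. -/
theorem cusp_relations_level (hℓ : ℓ.Prime) (W : Place Qb (FB (p * ℓ)))
    (h : W.ord (gammaL p ℓ (jBar ℓ)) < 0 ∨ W.ord (gammaL p ℓ (jLevelBar ℓ)) < 0) :
    W.ord (gammaL p ℓ (jBar ℓ)) < 0 ∧ W.ord (gammaL p ℓ (jLevelBar ℓ)) < 0 ∧
      (W.ord (gammaL p ℓ (jLevelBar ℓ)) = ℓ * W.ord (gammaL p ℓ (jBar ℓ)) ∨
        W.ord (gammaL p ℓ (jBar ℓ)) = ℓ * W.ord (gammaL p ℓ (jLevelBar ℓ))) := by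
  have hℓ0 : (0 : ℤ) < ℓ := by exact_mod_cast hℓ.pos
  rcases cusp_ratio ℓ hℓ (gammaL p ℓ) (gammaL_integral p ℓ) W h with ⟨-, h1, h2⟩ | ⟨-, h1, h2⟩
  · refine ⟨h1, ?_, Or.inl h2⟩
    rw [h2]; exact mul_neg_of_pos_of_neg hℓ0 h1
  · refine ⟨?_, h1, Or.inr h2⟩
    rw [h2]; exact mul_neg_of_pos_of_neg hℓ0 h1

theorem cusp_relations_level' (hℓ : ℓ.Prime) (W : Place Qb (FB (p * ℓ)))
    (h : W.ord (deltaL p ℓ (jBar ℓ)) < 0 ∨ W.ord (deltaL p ℓ (jLevelBar ℓ)) < 0) :
    W.ord (deltaL p ℓ (jBar ℓ)) < 0 ∧ W.ord (deltaL p ℓ (jLevelBar ℓ)) < 0 ∧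
      (W.ord (deltaL p ℓ (jLevelBar ℓ)) = ℓ * W.ord (deltaL p ℓ (jBar ℓ)) ∨
        W.ord (deltaL p ℓ (jBar ℓ)) = ℓ * W.ord (deltaL p ℓ (jLevelBar ℓ))) := by
  have hℓ0 : (0 : ℤ) < ℓ := by exact_mod_cast hℓ.pos
  rcases cusp_ratio ℓ hℓ (deltaL p ℓ) (deltaL_integral p ℓ) W h with ⟨-, h1, h2⟩ | ⟨-, h1, h2⟩
  · refine ⟨h1, ?_, Or.inl h2⟩
    rw [h2]; exact mul_neg_of_pos_of_neg hℓ0 h1
  · refine ⟨?_, h1, Or.inr h2⟩
    rw [h2]; exact mul_neg_of_pos_of_neg hℓ0 h1

/-- **Key lemma at `∞`.** -/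
theorem restrictAlpha_cuspInfty (hp : p.Prime) (hℓ : ℓ.Prime) (hne : ℓ ≠ p)
    (hα : HeckeAlphaBarIntegral Qb p ℓ) (hβ : HeckeBetaBarIntegral Qb p ℓ)
    (W : Place Qb (FB (p * ℓ)))
    (hW : W.restrictAlong (heckeBetaBar Qb p ℓ) hβ = cuspInfty p) :
    W.restrictAlong (heckeAlphaBar Qb p ℓ) hα = cuspInfty p := by
  obtain ⟨hb, hd⟩ := ord_of_restrict_eq_cuspInfty p (heckeBetaBar Qb p ℓ) hβ W hW
  rw [beta_jBar] at hb hd
  rw [beta_jLevelBar] at hd
  obtain ⟨ha, -, h3⟩ := cusp_relations_level p ℓ hℓ W (Or.inr hb)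
  rcases cusp_ratio p hp (heckeAlphaBar Qb p ℓ) hα W (Or.inl (by rw [alpha_jBar]; exact ha))
    with ⟨h, -⟩ | ⟨-, hc, h2⟩
  · exact h
  · exfalso
    rw [alpha_jBar, alpha_jLevelBar] at h2
    rw [alpha_jLevelBar] at hc
    obtain ⟨-, -, h4⟩ := cusp_relations_level' p ℓ hℓ W (Or.inl hc)
    have hP : (1 : ℤ) < p := by exact_mod_cast hp.one_lt
    have hL : (1 : ℤ) < ℓ := by exact_mod_cast hℓ.one_lt
    have hPL : (p : ℤ) ≠ ℓ := by exact_mod_cast hne.symm
    exact no_mixed_cusp_aux hP hL hPL hc hd h2 h3 h4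

/-- **Key lemma at `0`.** -/
theorem restrictAlpha_cuspZero (hp : p.Prime) (hℓ : ℓ.Prime) (hne : ℓ ≠ p)
    (hα : HeckeAlphaBarIntegral Qb p ℓ) (hβ : HeckeBetaBarIntegral Qb p ℓ)
    (W : Place Qb (FB (p * ℓ)))
    (hW : W.restrictAlong (heckeBetaBar Qb p ℓ) hβ = cuspZero p) :
    W.restrictAlong (heckeAlphaBar Qb p ℓ) hα = cuspZero p := by
  obtain ⟨hd, hb⟩ := ord_of_restrict_eq_cuspZero p (heckeBetaBar Qb p ℓ) hβ W hW
  rw [beta_jLevelBar] at hd hb
  rw [beta_jBar] at hb
  obtain ⟨hc, -, h4⟩ := cusp_relations_level' p ℓ hℓ W (Or.inr hd)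
  rcases cusp_ratio p hp (heckeAlphaBar Qb p ℓ) hα W
    (Or.inr (by rw [alpha_jLevelBar]; exact hc)) with ⟨-, ha, h2⟩ | ⟨h, -⟩
  · exfalso
    rw [alpha_jBar, alpha_jLevelBar] at h2
    rw [alpha_jBar] at ha
    obtain ⟨-, -, h3⟩ := cusp_relations_level p ℓ hℓ W (Or.inl ha)
    have hP : (1 : ℤ) < p := by exact_mod_cast hp.one_lt
    have hL : (1 : ℤ) < ℓ := by exact_mod_cast hℓ.one_lt
    have hPL : (p : ℤ) ≠ ℓ := by exact_mod_cast hne.symm
    exact no_mixed_cusp_aux hP hL hPL ha hb h2 h4 h3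
  · exact h

/-- `T_ℓ` on a multiple of a place `P` all of whose `β`-preimages lie over `P` along `α`. -/
theorem heckeDivBar_single_of_fixed (hℓ : ℓ.Prime) (hN : ¬ ℓ ∣ p)
    (hα : HeckeAlphaBarIntegral Qb p ℓ) (hβ : HeckeBetaBarIntegral Qb p ℓ)
    (P : Place Qb (FB p))
    (hP : ∀ W : Place Qb (FB (p * ℓ)), W.restrictAlong (heckeBetaBar Qb p ℓ) hβ = P →
      W.restrictAlong (heckeAlphaBar Qb p ℓ) hα = P) (n : ℤ) :
    heckeDivBar hα hβ (Finsupp.single P n) = Finsupp.single P (n * ((ℓ : ℤ) + 1)) := by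
  classical
  rw [Fermat.Agent.Lib.FF398.heckeDivBar_single p ℓ hα hβ P n]
  have h1 : ∀ W ∈ Place.fiberAlong (heckeBetaBar Qb p ℓ) hβ P,
      Finsupp.single (W.restrictAlong (heckeAlphaBar Qb p ℓ) hα)
          (n * (W.ramificationIndexAlong (heckeBetaBar Qb p ℓ) : ℤ)) =
        Finsupp.single P (n * (W.ramificationIndexAlong (heckeBetaBar Qb p ℓ) : ℤ)) := by
    intro W hW
    rw [hP W (Place.mem_fiberAlong.mp hW)]
  rw [Finset.sum_congr rfl h1, ← Finsupp.single_finsetSum, ← Finset.mul_sum,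
    Fermat.Agent.Lib.FF398.sum_ramificationIndexAlong_beta p ℓ hβ P,
    Fermat.Agent.S37.H218.finrankAlong_heckeBetaBar_of_not_dvd p ℓ hℓ hN]
  push_cast
  rfl

theorem not_dvd_of_prime_ne {p ℓ : ℕ} (hp : p.Prime) (hℓ : ℓ.Prime) (hne : ℓ ≠ p) : ¬ ℓ ∣ p := by
  intro h
  rcases (Nat.dvd_prime hp).mp h with h1 | h1
  · exact hℓ.one_lt.ne' h1
  · exact hne h1

/-- `T_ℓ ((0) - (∞)) = (ℓ + 1) ((0) - (∞))` on divisors. -/
theorem heckeDivBar_cuspDivisor (hp : p.Prime) (hℓ : ℓ.Prime) (hne : ℓ ≠ p)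
    (hα : HeckeAlphaBarIntegral Qb p ℓ) (hβ : HeckeBetaBarIntegral Qb p ℓ) :
    heckeDivBar hα hβ (Finsupp.single (cuspZero p) (1 : ℤ) - Finsupp.single (cuspInfty p) 1) =
      ((1 + ℓ : ℕ) : ℤ) • (Finsupp.single (cuspZero p) (1 : ℤ) - Finsupp.single (cuspInfty p) 1) := by
  have hN := not_dvd_of_prime_ne hp hℓ hne
  rw [map_sub,
    heckeDivBar_single_of_fixed p ℓ hℓ hN hα hβ (cuspZero p)
      (restrictAlpha_cuspZero p ℓ hp hℓ hne hα hβ) 1,
    heckeDivBar_single_of_fixed p ℓ hℓ hN hα hβ (cuspInfty p)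
      (restrictAlpha_cuspInfty p ℓ hp hℓ hne hα hβ) 1,
    smul_sub, Finsupp.smul_single, Finsupp.smul_single, smul_eq_mul, one_mul, mul_one]
  push_cast
  rw [add_comm]

/-- **K8.** `T_q c = (1 + q) c` for the cuspidal class `c` and every prime `q ≠ p`. -/
theorem heckeOperatorBar_cuspClass (hp : p.Prime) (q : Nat.Primes) (hne : (q : ℕ) ≠ p) :
    heckeOperatorBar p q (cuspClass p) = ((1 + (q : ℕ) : ℕ) : ℤ) • cuspClass p := by
  haveI : NeZero (q : ℕ) := ⟨q.2.ne_zero⟩
  rw [cuspClass, Fermat.Agent.Lib.FF398.heckeOperatorBar_mk p q (cuspDivisor p)]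
  have h : Pic0.degZeroCorrespondence (heckeBetaBar Qb p q) (heckeAlphaBar Qb p q)
      (Fermat.Agent.Lib.FF398.heckeBetaBarIntegral p q)
      (Fermat.Agent.Lib.FF398.heckeAlphaBarIntegral p q)
      (Fermat.Agent.Lib.FF398.fundamentalIdentityAlong_beta p q) (cuspDivisor p) =
      ((1 + (q : ℕ) : ℕ) : ℤ) • cuspDivisor p := by
    apply Subtype.ext
    exact heckeDivBar_cuspDivisor p q hp q.2 hne
      (Fermat.Agent.Lib.FF398.heckeAlphaBarIntegral p q)
      (Fermat.Agent.Lib.FF398.heckeBetaBarIntegral p q)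
  rw [h]
  rfl

/-- **K8** in the form of `Core/Top.lean`. -/
theorem isEisensteinClass_cuspClass (hp : p.Prime) :
    Fermat.Agent.S15.Core.IsEisensteinClass (cuspClass p) :=
  fun q hq => heckeOperatorBar_cuspClass p hp q hq

/-- **K8** with natural-number multiples. -/
theorem heckeOperatorBar_cuspClass_nsmul (hp : p.Prime) (q : Nat.Primes) (hne : (q : ℕ) ≠ p) :
    heckeOperatorBar p q (cuspClass p) = (1 + (q : ℕ)) • cuspClass p := by
  rw [heckeOperatorBar_cuspClass p hp q hne, natCast_zsmul]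

end Fermat.Agent.S15.H362

end
end
-- ===== PACK-END S15/H362/CuspHecke.lean

-- ===== PACK-BEGIN S15/H482/CuspPoles.lean
section





/-!
# S15 / piece CUSP (helper482): the poles of `j` at prime level are exactly the two cusps

Level `p` prime, `F = ℚ̄(X₀(p))`, `∞ = H362.cuspInfty p`, `0 = H362.cuspZero p = w • ∞`.

* `ord_jBar_neg_iff`          : `ord_P j < 0 ↔ P = ∞ ∨ P = 0`   (the old node C4, on the v2 objects);
* `eq_cusp_of_ord_jBar_neg`   : a pole of `j` is a cusp;
* `ord_jBar_nonneg_of_ne`     : `P ≠ ∞`, `P ≠ 0` ⟹ `0 ≤ ord_P j`;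
* `ord_jLevelBar_neg_iff`, `ord_jLevelBar_nonneg_of_ne` : the same for `j_p = j(q^p)`;
* `IsCuspZero.eq_cuspZero`    : `Core.IsCuspZero p P₀ → P₀ = cuspZero p` (uniqueness of the cusp `0`).

Inputs: the S24 modular package (local data at `j = ∞`, degree `[F : ℚ̄(j)] = ψ(p) = p + 1`) and
the orbit count `#(T-orbits) = cuspCount p = 2`.  Everything in this file is sorry-free.
-/

set_option autoImplicit false
set_option synthInstance.maxHeartbeats 400000

noncomputable section

open AlgebraicCurve ModularCurve HahnSeries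

namespace Fermat.Agent.S15.H482

open Fermat.Agent.S15.H362 Fermat.Agent.A2.H528 Fermat.Agent.S24

/-! ## Numerics at prime level -/

theorem cuspCount_prime {p : ℕ} (hp : p.Prime) : cuspCount p = 2 := by
  unfold cuspCount
  rw [hp.divisors, Finset.sum_pair hp.one_lt.ne]
  have h1 : Nat.gcd 1 (p / 1) = 1 := Nat.gcd_one_left _
  have h2 : Nat.gcd p (p / p) = 1 := by
    rw [Nat.div_self hp.pos]; exact Nat.gcd_one_right _
  rw [h1, h2]
  simp

theorem dedekindPsi_prime {p : ℕ} (hp : p.Prime) : dedekindPsi p = p + 1 := by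
  unfold dedekindPsi
  rw [hp.divisors, Finset.filter_true_of_mem, Finset.sum_pair hp.one_lt.ne]
  · rw [Nat.div_one, Nat.div_self hp.pos]
  · intro d hd
    rcases Finset.mem_insert.mp hd with rfl | hd
    · exact squarefree_one
    · rw [Finset.mem_singleton] at hd
      subst hd
      exact hp.squarefree

/-! ## The poles of `j` -/

section Poles

variable (p : ℕ) [NeZero p]

theorem jBar_eq_jF : H362.jBar p = jF p := rfl

/-- The poles of `j`: a finset of exactly two places, with total pole order `p + 1`. -/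
theorem exists_poles_jBar (hp : p.Prime) :
    ∃ Z : Finset (Place Qb (FB p)),
      (∀ P : Place Qb (FB p), P ∈ Z ↔ P.ord (H362.jBar p) < 0) ∧ Z.card = 2 ∧
        ∑ P ∈ Z, P.ord (H362.jBar p) = -((p : ℤ) + 1) := by
  classical
  obtain ⟨M⟩ := nonempty_modularPackage p
  have := M.finiteDimensional
  obtain ⟨hfd, hfr⟩ := finiteDimensional_and_finrank_of_eq (adjoin_inv Kbar (jF p))
  have hr := hfr.trans M.finrank_eq
  have hcard := card_zeroPlaces_toFinset (jF p)⁻¹ hr M.dataInf
  have hsum := sum_ord_zeroPlaces (jF p)⁻¹ hr M.dataInf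
  rw [M.orbits_inf, numOrbits_T, _root_.Fermat.Agent.S15.H482.cuspCount_prime hp] at hcard
  rw [card_XX, dedekindPsi_prime hp] at hsum
  refine ⟨(zeroPlaces_finite (jF p)⁻¹ hr M.dataInf).toFinset, fun P => ?_,
    by exact_mod_cast hcard, ?_⟩
  · rw [Set.Finite.mem_toFinset]
    show 0 < P.ord (jF p)⁻¹ ↔ P.ord (jF p) < 0
    rw [Place.ord_inv]
    omega
  · have h2 : ∑ P ∈ (zeroPlaces_finite (jF p)⁻¹ hr M.dataInf).toFinset, P.ord (H362.jBar p)
        = -∑ P ∈ (zeroPlaces_finite (jF p)⁻¹ hr M.dataInf).toFinset, P.ord (jF p)⁻¹ := by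
      rw [← Finset.sum_neg_distrib]
      refine Finset.sum_congr rfl fun P _ => ?_
      rw [Place.ord_inv, neg_neg]
      rfl
    rw [h2, hsum]
    push_cast
    ring

/-- **The poles of `j` at prime level are exactly the cusps `∞` and `0`.** -/
theorem ord_jBar_neg_iff (hp : p.Prime) (P : Place Qb (FB p)) :
    P.ord (H362.jBar p) < 0 ↔ (P = H362.cuspInfty p ∨ P = cuspZero p) := by
  classical
  obtain ⟨Z, hZ, hcard, -⟩ := exists_poles_jBar p hp
  have hinf : H362.cuspInfty p ∈ Z := by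
    rw [hZ, _root_.Fermat.Agent.S15.H482.ord_cuspInfty_jBar]; norm_num
  have h0 : cuspZero p ∈ Z := by
    rw [hZ, _root_.Fermat.Agent.S15.H482.ord_cuspZero_jBar]
    have := hp.pos
    omega
  have hne : H362.cuspInfty p ≠ cuspZero p := (_root_.Fermat.Agent.S15.H482.cuspZero_ne_cuspInfty p hp.one_lt.ne').symm
  have hZeq : Z = {H362.cuspInfty p, cuspZero p} := by
    symm
    apply Finset.eq_of_subset_of_card_le
    · intro Q hQ
      rcases Finset.mem_insert.mp hQ with rfl | hQ
      · exact hinf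
      · rw [Finset.mem_singleton] at hQ; rw [hQ]; exact h0
    · rw [hcard, Finset.card_pair hne]
  rw [← hZ, hZeq, Finset.mem_insert, Finset.mem_singleton]

/-- A pole of `j` is a cusp. -/
theorem eq_cusp_of_ord_jBar_neg (hp : p.Prime) {P : Place Qb (FB p)}
    (h : P.ord (H362.jBar p) < 0) : P = H362.cuspInfty p ∨ P = cuspZero p :=
  (ord_jBar_neg_iff p hp P).mp h

/-- `j` is regular away from the cusps. -/
theorem ord_jBar_nonneg_of_ne (hp : p.Prime) {P : Place Qb (FB p)}
    (h₁ : P ≠ H362.cuspInfty p) (h₂ : P ≠ cuspZero p) : 0 ≤ P.ord (H362.jBar p) := by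
  by_contra h
  rw [not_le] at h
  rcases _root_.Fermat.Agent.S15.H482.eq_cusp_of_ord_jBar_neg p hp h with h | h
  · exact h₁ h
  · exact h₂ h

/-- **The poles of `j_p = j(q^p)` at prime level are exactly the cusps `∞` and `0`.** -/
theorem ord_jLevelBar_neg_iff (hp : p.Prime) (P : Place Qb (FB p)) :
    P.ord (jLevelBar p) < 0 ↔ (P = H362.cuspInfty p ∨ P = cuspZero p) := by
  have h := SemilinearAut.ord_smul (wSemi p) P (jLevelBar p)
  rw [wSemi_smul, _root_.Fermat.Agent.S15.H482.wF_jLevelBar] at h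
  have hP : wSemi p • (wSemi p • P) = P := by
    rw [← mul_smul, wSemi_mul_self, one_smul]
  rw [← h, ord_jBar_neg_iff p hp]
  constructor
  · rintro (h' | h')
    · right
      rw [cuspZero, ← h', hP]
    · left
      rw [← wSemi_smul_cuspZero, ← h', hP]
  · rintro (h' | h')
    · right
      rw [h']; rfl
    · left
      rw [h', wSemi_smul_cuspZero]

/-- `j_p` is regular away from the cusps. -/
theorem ord_jLevelBar_nonneg_of_ne (hp : p.Prime) {P : Place Qb (FB p)}
    (h₁ : P ≠ H362.cuspInfty p) (h₂ : P ≠ cuspZero p) : 0 ≤ P.ord (jLevelBar p) := by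
  by_contra h
  rw [not_le] at h
  rcases (ord_jLevelBar_neg_iff p hp P).mp h with h | h
  · exact h₁ h
  · exact h₂ h

/-- **Uniqueness of the cusp `0`**: any place satisfying `Core.IsCuspZero` is `cuspZero p`. -/
theorem IsCuspZero.eq_cuspZero (hp : p.Prime) {P₀ : Place Qb (FB p)}
    (h : Fermat.Agent.S15.Core.IsCuspZero p P₀) : P₀ = cuspZero p := by
  rcases _root_.Fermat.Agent.S15.H482.eq_cusp_of_ord_jBar_neg p hp (P := P₀) h.2 with h' | h'
  · exact absurd (h'.trans (cuspInfty_eq_core p)) h.1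
  · exact h'

end Poles

end Fermat.Agent.S15.H482

end
end
-- ===== PACK-END S15/H482/CuspPoles.lean

-- ===== PACK-BEGIN S15/H422/CuspUnit.lean
section






/-!
# S15 / piece CUSP, nodes K2, K3, K4, K6 (helper422) — exact statements of `H362/CuspSpec.lean`

* K2 `unitSeriesBar_mem`  : `Δ(q)/Δ(q^p) ∈ ℚ̄(X₀(p))`;
* `unitBar p hp`          : the modular unit as an element of the function field
                            (same definition as in `CuspSpec.lean`);
* K3 `ord_unitBar_of_ne`  : no zeros or poles off the cusps `∞`, `0`;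
* K4 `wF_unitBar`         : `w u = p¹² u⁻¹`;
* `ord_cuspInfty_unitBar = 1 - p`, `ord_cuspZero_unitBar = p - 1`;
* K6 `pred_smul_cuspClass`: `(p - 1) • c = 0`.

Sorry-free.
-/

set_option autoImplicit false
set_option synthInstance.maxHeartbeats 400000

noncomputable section

open AlgebraicCurve ModularCurve HahnSeries

namespace Fermat.Agent.S15.H422

open Fermat.Agent.S15.H362 Fermat.Agent.A2.H528 Fermat.Agent.S24

variable (p : ℕ) [NeZero p]

/-- **K2.** `Δ(q)/Δ(q^p)` is a modular function of level `p`. -/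
theorem unitSeriesBar_mem (_hp : p.Prime) : unitSeriesBar p ∈ modularFunctionFieldBar p :=
  gSer_mem p

/-- The modular unit `u = Δ(q)/Δ(q^p)` as an element of `ℚ̄(X₀(p))`. -/
def unitBar (hp : p.Prime) : FB p := ⟨unitSeriesBar p, unitSeriesBar_mem p hp⟩

theorem unitBar_eq_gF (hp : p.Prime) : unitBar p hp = gF p := rfl

@[simp] theorem coe_unitBar (hp : p.Prime) :
    ((unitBar p hp : FB p) : LaurentSeries Qb) = unitSeriesBar p := rfl

theorem unitBar_ne_zero (hp : p.Prime) : unitBar p hp ≠ 0 := gF_ne_zero p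

/-- **K4.** `w u = p¹² u⁻¹`. -/
theorem wF_unitBar (hp : p.Prime) :
    wF p (unitBar p hp) = algebraMap Qb (FB p) ((p : Qb) ^ 12) * (unitBar p hp)⁻¹ := by
  rw [unitBar_eq_gF, wF_gF, ← uF_mul_gF p, mul_assoc, mul_inv_cancel₀ (gF_ne_zero p), mul_one]

/-- the inverse unit `p¹² Δ(q^p)/Δ(q)` is regular away from the cusps. -/
theorem ord_uF_nonneg_of_ne (hp : p.Prime) (P : Place Qb (FB p))
    (h₁ : P ≠ H362.cuspInfty p) (h₂ : P ≠ cuspZero p) : 0 ≤ P.ord (uF p) := by
  have hj : 0 ≤ P.ord (H362.jBar p) := Fermat.Agent.S15.H482.ord_jBar_nonneg_of_ne p hp h₁ h₂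
  have hjm : jF p ∈ P.toValuationSubring := H144.loc_mem_of_ord_nonneg P hj
  exact H144.loc_ord_nonneg_of_mem P (uF_mem_of_jF_mem p hp P.toValuationSubring hjm)

theorem wSemi_smul_wSemi_smul (P : Place Qb (FB p)) : wSemi p • (wSemi p • P) = P := by
  rw [← mul_smul, wSemi_mul_self, one_smul]

/-- `ord_P (w f) = ord_{w P} f`. -/
theorem ord_wF (P : Place Qb (FB p)) (f : FB p) :
    P.ord (wF p f) = (wSemi p • P).ord f := by
  have h := SemilinearAut.ord_smul (wSemi p) P (wF p f)
  rw [wSemi_smul, wF_wF] at h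
  exact h.symm

theorem ord_gF_nonneg_of_ne (hp : p.Prime) (P : Place Qb (FB p))
    (h₁ : P ≠ H362.cuspInfty p) (h₂ : P ≠ cuspZero p) : 0 ≤ P.ord (gF p) := by
  rw [← wF_uF, ord_wF]
  refine ord_uF_nonneg_of_ne p hp _ ?_ ?_
  · intro h
    apply h₂
    rw [cuspZero, ← h, wSemi_smul_wSemi_smul]
  · intro h
    apply h₁
    rw [← wSemi_smul_cuspZero, ← h, wSemi_smul_wSemi_smul]

theorem ord_uF_add_ord_gF (P : Place Qb (FB p)) : P.ord (uF p) + P.ord (gF p) = 0 := by
  rw [← P.ord_mul (uF_ne_zero p) (gF_ne_zero p), uF_mul_gF]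
  exact Fermat.Agent.S24.ord_algebraMap P _

/-- **K3.** The modular unit has neither zeros nor poles away from the cusps. -/
theorem ord_unitBar_of_ne (hp : p.Prime) (P : Place Qb (FB p))
    (h₁ : P ≠ H362.cuspInfty p) (h₂ : P ≠ cuspZero p) : P.ord (unitBar p hp) = 0 := by
  rw [unitBar_eq_gF]
  have h1 := ord_uF_nonneg_of_ne p hp P h₁ h₂
  have h2 := ord_gF_nonneg_of_ne p hp P h₁ h₂
  have h3 := ord_uF_add_ord_gF p P
  omega

/-- the order of the modular unit at `∞`. -/
theorem ord_cuspInfty_unitBar (hp : p.Prime) :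
    (H362.cuspInfty p).ord (unitBar p hp) = 1 - (p : ℤ) := by
  rw [H362.ord_cuspInfty, coe_unitBar, unitSeriesBar, H362.order_coeffEmb,
    (isMonicOfOrder_modularUnitSeries p).1]

/-- the order of the modular unit at `0`. -/
theorem ord_cuspZero_unitBar (hp : p.Prime) :
    (cuspZero p).ord (unitBar p hp) = (p : ℤ) - 1 := by
  have h1 := ord_cuspInfty_unitBar p hp
  have h2 := ord_uF_add_ord_gF p (H362.cuspInfty p)
  rw [ord_cuspZero, unitBar_eq_gF, wF_gF]
  rw [unitBar_eq_gF] at h1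
  omega

/-- `div u = (p - 1) ((0) - (∞))`. -/
theorem ord_unitBar_eq (hp : p.Prime) (P : Place Qb (FB p)) :
    (((p - 1 : ℕ) : ℤ) • (Finsupp.single (cuspZero p) (1 : ℤ)
        - Finsupp.single (H362.cuspInfty p) (1 : ℤ)) : Divisor Qb (FB p)) P
      = P.ord (unitBar p hp) := by
  classical
  have hne : cuspZero p ≠ H362.cuspInfty p := cuspZero_ne_cuspInfty p hp.one_lt
  have hp1 : ((p - 1 : ℕ) : ℤ) = (p : ℤ) - 1 := by
    have := hp.one_le
    push_cast [Nat.cast_sub this]
    ring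
  rw [Finsupp.smul_apply, Finsupp.sub_apply, smul_eq_mul, hp1]
  by_cases h1 : P = H362.cuspInfty p
  · subst h1
    rw [Finsupp.single_eq_same, Finsupp.single_eq_of_ne hne.symm, ord_cuspInfty_unitBar]
    ring
  by_cases h2 : P = cuspZero p
  · subst h2
    rw [Finsupp.single_eq_same, Finsupp.single_eq_of_ne hne, ord_cuspZero_unitBar]
    ring
  rw [Finsupp.single_eq_of_ne h1, Finsupp.single_eq_of_ne h2, ord_unitBar_of_ne p hp P h1 h2]
  ring

/-- **K6.** `(p - 1) • c = 0`. -/
theorem pred_smul_cuspClass (hp : p.Prime) : (p - 1) • cuspClass p = 0 := by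
  show (p - 1) • (QuotientAddGroup.mk (cuspDivisor p) : JZero p) = 0
  rw [← QuotientAddGroup.mk_nsmul, QuotientAddGroup.eq_zero_iff, AddSubgroup.mem_addSubgroupOf,
    Divisor.mem_principal]
  refine ⟨unitBar p hp, unitBar_ne_zero p hp, fun P => ?_⟩
  rw [← ord_unitBar_eq p hp P]
  show ((p - 1) • (Finsupp.single (cuspZero p) (1 : ℤ)
        - Finsupp.single (H362.cuspInfty p) (1 : ℤ)) : Divisor Qb (FB p)) P = _
  rw [← natCast_zsmul]

end Fermat.Agent.S15.H422

end
end
-- ===== PACK-END S15/H422/CuspUnit.lean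

-- ===== PACK-BEGIN S15/H362/CuspFinal.lean
section





/-!
# S15 / piece CUSP (architect helper362): **NODE CUSP CLOSED**

Assembly of the nodes K1–K9 (helper362, helper422, helper482, helper242, helper62):

* `cuspStatement (hp : p.Prime) : Core.CuspStatement p` — the node CUSP of `Core/Top.lean`;
* `cusp_geo_part` — the CUSP part of `GeoStatement` / `GeoWeak` of `Skeleton.lean`:
  for a prime `p ∉ {2, 3, 5, 7, 13}` the class `c = cl((0) - (∞)) ∈ J₀(p)` is Galois-fixed,
  `c ≠ 0`, `(p - 1) c = 0` and `T_q c = (1 + q) c` for all primes `q ≠ p`.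

Sorry-free.
-/

set_option autoImplicit false
set_option synthInstance.maxHeartbeats 400000

noncomputable section

open AlgebraicCurve ModularCurve HahnSeries

namespace Fermat.Agent.S15.H362

open Fermat.Agent.S15.Core

variable (p : ℕ) [NeZero p]

/-- **K7** (Ogg, lower bound). `m • c = 0 → n ∣ m`, `n = num((p-1)/12)`. -/
theorem eisensteinNumerator_dvd_of_smul_cuspClass (hp : p.Prime) (m : ℕ)
    (h : m • cuspClass p = 0) : eisensteinNumerator p ∣ m := by
  refine Fermat.Agent.S15.H242.eisensteinNumerator_dvd_of_nsmul_eq_zero p hp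
    (Fermat.Agent.S15.H422.unitBar p hp) rfl (cuspDivisor p) ?_ m h
  intro v
  rw [← Fermat.Agent.S15.H422.ord_unitBar_eq p hp v, coe_cuspDivisor, Finsupp.smul_apply,
    smul_eq_mul, Nat.cast_sub hp.one_le, Nat.cast_one]

/-- **K6** (helper422). -/
theorem pred_smul_cuspClass' (hp : p.Prime) : (p - 1) • cuspClass p = 0 :=
  Fermat.Agent.S15.H422.pred_smul_cuspClass p hp

theorem addOrderOf_cuspClass_ne_zero (hp : p.Prime) : addOrderOf (cuspClass p) ≠ 0 := by
  have h1 : 0 < p - 1 := by have := hp.two_le; omega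
  have h2 := addOrderOf_dvd_of_nsmul_eq_zero (pred_smul_cuspClass' p hp)
  exact fun h0 => h1.ne' (by simpa [h0] using h2)

theorem eisensteinNumerator_dvd_addOrderOf_cuspClass (hp : p.Prime) :
    eisensteinNumerator p ∣ addOrderOf (cuspClass p) :=
  eisensteinNumerator_dvd_of_smul_cuspClass p hp _ (addOrderOf_nsmul_eq_zero _)

/-- **NODE CUSP** of `Fermat/Agent/S15/Core/Top.lean`. -/
theorem cuspStatement (hp : p.Prime) : CuspStatement p :=
  ⟨cuspZero p, cuspClass p, isCuspZero_cuspZero p hp.one_lt, isDiffClass_cuspClass p,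
    isEisensteinClass_cuspClass p hp, addOrderOf_cuspClass_ne_zero p hp,
    fun _ _ hr => hr.trans (eisensteinNumerator_dvd_addOrderOf_cuspClass p hp)⟩

theorem one_lt_eisensteinNumerator {p : ℕ} (hp : p.Prime)
    (hp' : p ∉ ({2, 3, 5, 7, 13} : Finset ℕ)) : 1 < eisensteinNumerator p := by
  have hg : 0 < Nat.gcd (p - 1) 12 := Nat.gcd_pos_of_pos_right _ (by norm_num)
  have hG : Nat.gcd (p - 1) 12 ∣ p - 1 := Nat.gcd_dvd_left _ _
  have hn : eisensteinNumerator p * Nat.gcd (p - 1) 12 = p - 1 := by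
    unfold eisensteinNumerator
    exact Nat.div_mul_cancel hG
  have h2 := hp.two_le
  by_contra hlt
  rw [not_lt] at hlt
  rcases Nat.le_one_iff_eq_zero_or_eq_one.mp hlt with h0 | h1
  · rw [h0, zero_mul] at hn
    omega
  · rw [h1, one_mul] at hn
    have h12 : p - 1 ∣ 12 := by
      rw [← hn]; exact Nat.gcd_dvd_right _ _
    have hle : p - 1 ≤ 12 := Nat.le_of_dvd (by norm_num) h12
    have hp13 : p ≤ 13 := by omega
    simp only [Finset.mem_insert, Finset.mem_singleton, not_or] at hp'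
    obtain ⟨a2, a3, a5, a7, a13⟩ := hp'
    interval_cases p
    all_goals first
      | omega
      | exact absurd hp (by decide)

/-- The cuspidal class is non-zero for `p ∉ {2, 3, 5, 7, 13}`. -/
theorem cuspClass_ne_zero (hp : p.Prime) (hp' : p ∉ ({2, 3, 5, 7, 13} : Finset ℕ)) :
    cuspClass p ≠ 0 := by
  intro h0
  have h1 : (1 : ℕ) • cuspClass p = 0 := by rw [one_smul, h0]
  have := Nat.le_of_dvd Nat.one_pos (eisensteinNumerator_dvd_of_smul_cuspClass p hp 1 h1)
  have := one_lt_eisensteinNumerator hp hp'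
  omega

/-- The cuspidal class is an Eisenstein vector in the sense of `Skeleton.lean`. -/
theorem isEisensteinVector_cuspClass (hp : p.Prime) :
    Fermat.Agent.S15.IsEisensteinVector p (cuspClass p) :=
  fun q hq => heckeOperatorBar_cuspClass_nsmul p hp q hq

/-- **The CUSP part of `GeoStatement` / `GeoWeak`** (`Skeleton.lean`, `TopWeak.lean`). -/
theorem cusp_geo_part (hp : p.Prime) (hp' : p ∉ ({2, 3, 5, 7, 13} : Finset ℕ)) :
    (∀ σ : Fermat.Agent.S15.Gal, σ • cuspClass p = cuspClass p) ∧ cuspClass p ≠ 0 ∧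
      (p - 1) • cuspClass p = 0 ∧ Fermat.Agent.S15.IsEisensteinVector p (cuspClass p) :=
  ⟨galois_smul_cuspClass p, cuspClass_ne_zero p hp hp', pred_smul_cuspClass' p hp,
    isEisensteinVector_cuspClass p hp⟩

end Fermat.Agent.S15.H362

end
end
-- ===== PACK-END S15/H362/CuspFinal.lean

-- ===== PACK-BEGIN S15/H975/DescTop3.lean
section



/-!
# Row S15: FINAL ASSEMBLY on the three-node TOP of helper915 (row-lead helper975)

    frozen S15  <==  Core.GeoStatement p  +  Mordell–Weil (frozen S17)  +  ALG0 + DIV + SEL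

`Core.CuspStatement p` is on main (`H362.cuspStatement`, helper362); `Core.DescentStatement p` is
`H302.descentStatement_of_descCore` (helper302) applied to `descCoreAt_of_sel`.
Everything is sorry-free; the nodes are hypotheses.
-/

set_option autoImplicit false

noncomputable section

open WeierstrassCurve WeierstrassCurve.Affine

namespace Fermat.Agent.S15.H975

open ModularCurve Fermat.Agent.S15

/-- **NODE DESC of the three-node TOP** from Mordell–Weil, ALG0, DIV and SEL. -/
theorem descentStatement_of_sel (hA : Alg0Statement) (hDiv : DivStatement)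
    (hSel : SelStatement) {p : ℕ} [NeZero p] (hp : p.Prime)
    (hp' : p ∉ ({2, 3, 5, 7, 13} : Finset ℕ))
    (hMW : AddGroup.FG ↥(FixedPoints.addSubgroup _root_.Fermat.Agent.S15.H975.Gal (JZero p))) :
    Core.DescentStatement p := by
  refine H302.descentStatement_of_descCore p hMW fun S => ?_
  have h1 : eisensteinNumerator p ≠ 1 := (H362.one_lt_eisensteinNumerator hp hp').ne'
  obtain ⟨r, hr, hrn⟩ := Nat.exists_prime_and_dvd h1
  exact ⟨r, hr, hrn, descCoreAt_of_sel hA hDiv hSel p hp hMW S r hr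
    (hrn.trans (eisensteinNumerator_dvd p))⟩

/-- **The frozen statement S15** from `Core.GeoStatement`, Mordell–Weil and the DESC nodes. -/
theorem S15_of_geo_sel
    (hGeo : ∀ (p : ℕ) [NeZero p], p.Prime → p ∉ ({2, 3, 5, 7, 13} : Finset ℕ) →
      Core.GeoStatement p)
    (hMW : ∀ (p : ℕ) [NeZero p], p.Prime → 5 ≤ p →
      AddGroup.FG ↥(FixedPoints.addSubgroup _root_.Fermat.Agent.S15.H975.Gal (JZero p)))
    (hA : Alg0Statement) (hDiv : DivStatement) (hSel : SelStatement)
    {p : ℕ} (hp : p.Prime) (hp' : p ∉ ({2, 3, 5, 7, 13} : Finset ℕ))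
    (W : WeierstrassCurve ℤ) (hΔ : W.Δ ≠ 0)
    (Q : ((W.map (Int.castRingHom ℚ))⁄(AlgebraicClosure ℚ)).Point)
    (hQfix : ∀ σ : AlgebraicClosure ℚ ≃ₐ[ℚ] AlgebraicClosure ℚ, σ • Q = Q)
    (hQord : addOrderOf Q = p)
    (h2Δ : (2 : ℤ) ∣ W.Δ) (h2c₄ : ¬ (2 : ℤ) ∣ W.c₄)
    (h2 : ∀ A : ValuationSubring (AlgebraicClosure ℚ), A.LiesOverPrime 2 →
      ¬ W.InZeroComponentAt A Q)
    (h3Δ : (3 : ℤ) ∣ W.Δ) (h3c₄ : ¬ (3 : ℤ) ∣ W.c₄)
    (h3 : ∀ A : ValuationSubring (AlgebraicClosure ℚ), A.LiesOverPrime 3 →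
      ¬ W.InZeroComponentAt A Q)
    {ℓ : ℕ} (hℓ : ℓ.Prime) (hℓp : ℓ ≠ p) (hℓΔ : (ℓ : ℤ) ∣ W.Δ) (hℓc₄ : ¬ (ℓ : ℤ) ∣ W.c₄)
    (A : ValuationSubring (AlgebraicClosure ℚ)) (hA' : A.LiesOverPrime ℓ) :
    ¬ W.InZeroComponentAt A Q := by
  haveI : NeZero p := ⟨hp.ne_zero⟩
  exact Core.s15_of_nodes hp hp' (H362.cuspStatement p hp) (hGeo p hp hp')
    (descentStatement_of_sel hA hDiv hSel hp hp' (hMW p hp (five_le_of_notMem hp hp')))
    W hΔ Q hQfix hQord h2Δ h2c₄ h2 h3Δ h3c₄ h3 hℓ hℓp hℓΔ hℓc₄ A hA'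

end Fermat.Agent.S15.H975

end

end
-- ===== PACK-END S15/H975/DescTop3.lean

-- ===== PACK-BEGIN S15/H302/Alg0.lean
section





/-!
# Row S15, node DESC, leaf ALG0 (helper302)

`alg0 : H975.Alg0Statement` — the descent core `DescCoreTarget p S r` (= `H302.DescCoreAt`)
from DIV, FINW, RTF and SEL-BOUND.  Instance of the abstract `alg0_descCore_of_selBound`
(`Alg0Abs.lean`) for `J = J₀(p)(ℚ̄)`, `G = Gal(ℚ̄/ℚ)`, `T = ℤ[X_ℓ : ℓ good]` acting through the
Hecke operators (`goodEval`), `η_ℓ = X_ℓ - (1 + ℓ)`.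

Also `descCoreTarget_iff` : `H975.DescCoreTarget p S r ↔ H302.DescCoreAt p S r`.
-/

set_option autoImplicit false

noncomputable section

namespace Fermat.Agent.S15.H302

open ModularCurve Fermat.Agent.S15.H975

/-- The target of the skeleton is `DescCoreAt`. -/
theorem descCoreTarget_iff (p : ℕ) [NeZero p] (S : Set ℕ) (r : ℕ) :
    DescCoreTarget p S r ↔ DescCoreAt p S r :=
  Iff.rfl

/-- the Eisenstein generator `X_ℓ - (1 + ℓ)` of the good polynomial ring -/
def eisGen (p : ℕ) [NeZero p] (S : Set ℕ) (ℓ : GoodPrime p S) : GoodAlg p S :=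
  MvPolynomial.X ℓ - MvPolynomial.C (((1 + (ℓ.1 : ℕ) : ℕ) : ℤ))

theorem goodEval_eisGen (p : ℕ) [NeZero p] (S : Set ℕ) (ℓ : GoodPrime p S) :
    goodEval p S (eisGen p S ℓ) = eta p ℓ.1 := by
  unfold eisGen eta
  rw [map_sub, goodEval_X, goodEval_C]
  congr 1

theorem eta_apply (p : ℕ) [NeZero p] (ℓ : Nat.Primes) (z : JZero p) :
    eta p ℓ z = heckeOperatorBar p ℓ z - (1 + (ℓ : ℕ) : ℕ) • z := by
  unfold eta
  rw [LinearMap.sub_apply, LinearMap.smul_apply, Module.End.one_apply, natCast_zsmul]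

/-- **ALG0.** -/
theorem alg0 : Alg0Statement := by
  intro p _ S r _ hr hdiv hfin hrtf hsel
  classical
  let modJ : Module (GoodAlg p S) (JZero p) := Module.compHom (JZero p) (goodEval p S)
  have hsmul : ∀ (t : GoodAlg p S) (x : JZero p), t • x = goodEval p S t x := fun _ _ => rfl
  have hpow : ∀ (ℓ : GoodPrime p S) (k : ℕ) (w : JZero p),
      eisGen p S ℓ ^ k • w = (eta p ℓ.1 ^ k) w := by
    intro ℓ k w
    rw [hsmul, map_pow, goodEval_eisGen]
  intro z hz hE
  have key := alg0_descCore_of_selBound (J := JZero p) (G := _root_.Fermat.Agent.S15.H975.Gal) (T := GoodAlg p S)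
    (fun t σ x => goodEval_galois p S t σ x) (eisGen p S) r hr.pos hdiv
    (fun n hn => Set.finite_coe_iff.1 (hfin n hn)) hrtf
    (rat p) (eis p S r) (sel p r (eis p S r)) (fun _ => Iff.rfl)
    (by
      intro w
      constructor
      · rintro ⟨h1, h2⟩
        refine ⟨h1, fun ℓ => ?_⟩
        obtain ⟨k, hk⟩ := h2 ℓ.1 ℓ.2.1 ℓ.2.2
        exact ⟨k, by rw [hpow, hk]⟩
      · rintro ⟨h1, h2⟩
        refine ⟨h1, fun ℓ hℓp hℓS => ?_⟩
        obtain ⟨k, hk⟩ := h2 ⟨ℓ, hℓp, hℓS⟩
        exact ⟨k, by rw [← hk, hpow]⟩)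
    (fun _ => Iff.rfl) hsel z hz
    (by
      intro ℓ
      obtain ⟨w, hw, m, hm, hmz⟩ := hE ℓ.1 ℓ.2.1 ℓ.2.2
      refine ⟨w, hw, m, hm, ?_⟩
      rw [← hmz]
      congr 2
      rw [hsmul, goodEval_eisGen, eta_apply])
  obtain ⟨w, hw, m, hm, hmz⟩ := key
  exact ⟨w, hw, m, hm, by rw [sub_zero]; exact hmz⟩

end Fermat.Agent.S15.H302

end

end
-- ===== PACK-END S15/H302/Alg0.lean

-- ===== PACK-BEGIN A2/Mod/H372/S3Final.lean
section








/-!
# A2 / MODASM sub-assembly S3 (ordinary double points), UNCONDITIONAL (helper372)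

`s3 : S3Statement P E M q w` (VERBATIM `A2/Mod/Asm.lean`), from `s3_of_leaves` with the leaves
L4, L5 (`H553`), L7 (`H900`), L8 (`H816`), L11 (`H378`), L12 (`H96`) and the sub-assembly S2
(`H142.s2`) taken from main.
-/

set_option autoImplicit false
set_option synthInstance.maxHeartbeats 400000
set_option maxHeartbeats 1600000

namespace Fermat.Agent.A2.Mod.H372

/-- **MODASM sub-assembly S3** (`(p∞ ⊔ p₀).IsRadical`: the two components of the special fibre
meet in ordinary double points). -/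
theorem s3 (P : ValuationSubring _root_.Fermat.Agent.A2.Mod.Qb) (E : IntermediateField ℚ _root_.Fermat.Agent.A2.Mod.Qb) (M q : ℕ) [NeZero M]
    [NeZero q] (w : _root_.Fermat.Agent.A2.Mod.RE P E) : S3Statement P E M q w :=
  s3_of_leaves P E M q w (H553.frickeExists E) (H553.frickeCompat E M q)
    (H900.frickeStable P E M q w) (H816.deg E M q) (H378.resInf P E M q w)
    (H96.kron P E M q w) (H142.s2 P E M q w)

end Fermat.Agent.A2.Mod.H372

end
-- ===== PACK-END A2/Mod/H372/S3Final.lean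

-- ===== PACK-BEGIN S18/Mod/H216/GoodLevel.lean
section


/-!
# S18 / MOD (helper216): the good model over an ARBITRARY level `E` (for A2 / GOODRED)

`node_mod` quantifies over number fields `E`, but finiteness of `E / ℚ` is used ONLY to produce the
uniformiser (`PartR`).  Here the same wiring is stated for EVERY intermediate field `E ⊆ Q̄`
(e.g. a good level `E ⊇ Q̄^{I}` of A2, infinite over `ℚ`), with `PartR` as the hypothesis:

* `partR_of_dvr`        : `PartR` from `[IsDiscreteValuationRing (H602.RE A E)]` + Frobenius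
                          surjective on the residue field (`∀ r, ∃ s, r - s ^ ℓ ∈ 𝔪`);
* `partR_of_dvr_of_isAlgClosed` : the same when the residue field is algebraically closed;
* `baseModel_j_of_partR`: the `j`-model without branch fields, every `ℓ ∤ M` (also `ℓ = 2, 3`);
* `goodModel_of_partR`  : `Alg.GoodModel (Lc M) (Ec M E) (Fc M E) (Rc M A E) (Vc M A E) w x S`
                          for every admissible coordinate (`x = j` if `ℓ ≥ 5`, Hauptmoduln else).
-/

set_option autoImplicit false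
set_option linter.unusedSectionVars false

noncomputable section

namespace Fermat.Agent.S18.Mod.H216

open ModularCurve AlgebraicCurve HahnSeries Fermat.Agent.S18 Fermat.Agent.S18.Mod
open Fermat.Agent.S18.Alg

variable (M : ℕ) [NeZero M] {ℓ : ℕ} [Fact ℓ.Prime] (A : ValuationSubring Qb)
  (E : IntermediateField ℚ Qb)

/-- **G-R over an arbitrary level**: `PartR` from the DVR property of `R_E = A ∩ E` and the
surjectivity of Frobenius on its residue field. -/
theorem partR_of_dvr [IsDiscreteValuationRing (H602.RE A E)] (hA : A.LiesOverPrime ℓ)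
    (hperf : ∀ r : H602.RE A E,
      ∃ s : H602.RE A E, r - s ^ ℓ ∈ IsLocalRing.maximalIdeal (H602.RE A E)) :
    ∃ w : Om M, H456.IsUnif M A E w ∧ PartR (Ec M E) (Rc M A E) w := by
  have hℓ : ℓ.Prime := Fact.out
  obtain ⟨w, hw⟩ := H456.exists_isUnif M A E
  refine ⟨w, hw, H456.field_R_le M A E, H456.field_R_total M A E, hw.mem, hw.ne_zero,
    hw.inv_not_mem, hw.gen, hw.discrete, ℓ, hℓ, ?_, ?_⟩
  · rw [← H456.cstR_natCast M A E, hw.mul_inv_mem_iff, IsLocalRing.mem_maximalIdeal,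
      mem_nonunits_iff]
    exact H602.natCast_not_isUnit_RE A E hA
  · intro r hr
    obtain ⟨r₀, rfl⟩ := (H456.mem_Rc_iff_cstR M A E).1 hr
    obtain ⟨s, hs⟩ := hperf r₀
    refine ⟨H456.cstR M A E s, H456.cstR_mem_Rc M A E s, ?_⟩
    rw [← H456.cstR_pow, ← H456.cstR_sub, hw.mul_inv_mem_iff]
    exact hs

/-- Frobenius is surjective modulo the maximal ideal when the residue field is algebraically
closed. -/
theorem exists_pow_sub_mem_of_isAlgClosed [IsDiscreteValuationRing (H602.RE A E)]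
    [IsAlgClosed (IsLocalRing.ResidueField (H602.RE A E))] (r : H602.RE A E) :
    ∃ s : H602.RE A E, r - s ^ ℓ ∈ IsLocalRing.maximalIdeal (H602.RE A E) := by
  have hℓ : ℓ.Prime := Fact.out
  obtain ⟨y, hy⟩ := IsAlgClosed.exists_pow_nat_eq (IsLocalRing.residue (H602.RE A E) r) hℓ.pos
  obtain ⟨s, rfl⟩ := IsLocalRing.residue_surjective y
  refine ⟨s, ?_⟩
  rw [← IsLocalRing.residue_eq_zero_iff, map_sub, map_pow, sub_eq_zero]
  exact hy.symm

/-- **G-R over a good level**: `R_E` a DVR with algebraically closed residue field. -/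
theorem partR_of_dvr_of_isAlgClosed [IsDiscreteValuationRing (H602.RE A E)]
    [IsAlgClosed (IsLocalRing.ResidueField (H602.RE A E))] (hA : A.LiesOverPrime ℓ) :
    ∃ w : Om M, H456.IsUnif M A E w ∧ PartR (Ec M E) (Rc M A E) w :=
  partR_of_dvr M A E hA (exists_pow_sub_mem_of_isAlgClosed A E)

/-- **G-FLD** for the coordinate `j`, arbitrary level. -/
theorem partFld_j_any : PartFld (Lc M) (Ec M E) (Fc M E) (jOm M) :=
  ⟨H456.field_E_le_L M E, H456.field_E_le_F M E, H456.field_L_algebraic M E,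
    H456.field_L_algClosed M, H456.field_E_closed_in_F M E, H456.field_compositum M E,
    H456.mem_Fc_of_hasIntExp M E (H456.hasIntExp_jOm M),
    H456.transcendental_of_hasIntExp M (H456.hasIntExp_jOm M), H24.field_finite_j M E⟩

/-- **G-FLD** for every admissible coordinate, arbitrary level. -/
theorem partFld_of_isCoordinate {x : Om M} {S : Finset (Om M)} (hx : IsCoordinate M ℓ x S) :
    PartFld (Lc M) (Ec M E) (Fc M E) x :=
  ⟨H456.field_E_le_L M E, H456.field_E_le_F M E, H456.field_L_algebraic M E,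
    H456.field_L_algClosed M, H456.field_E_closed_in_F M E, H456.field_compositum M E,
    H456.field_x_mem M E hx, H456.field_x_transcendental M hx, H24.field_finite M E hx⟩

/-- The `j`-model without its branch fields over an arbitrary level, for every `ℓ ∤ M`
(including `ℓ = 2, 3`). -/
theorem baseModel_j_of_partR (hℓM : ¬ ℓ ∣ M) (hA : A.LiesOverPrime ℓ) {w : Om M}
    (hw : PartR (Ec M E) (Rc M A E) w) :
    H107.BaseModel107 (Lc M) (Ec M E) (Fc M E) (Rc M A E) (Vc M A E) w (jOm M) := by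
  have hF := partFld_j_any M E
  have hV := partV_j A E (coreData_residue A hℓM hA) hw
  have hQ := partQep_j A E (coreData_residue A hℓM hA) hw
  have hS : PartSep (Rc M A E) (Vc M A E) w (jOm M) :=
    ⟨H264.separable_jOm M hℓM A hA E (Vc M A E) (coe_Vc M A E) w hw.w_mem hw.w_ne_zero hw.w_gen⟩
  exact
    { charZero := charZero_Om M
      R_le := hw.R_le
      R_total := hw.R_total
      w_mem := hw.w_mem
      w_ne_zero := hw.w_ne_zero
      w_inv_not_mem := hw.w_inv_not_mem
      w_gen := hw.w_gen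
      w_discrete := hw.w_discrete
      residue_perfect := hw.residue_perfect
      E_le_L := hF.E_le_L
      E_le_F := hF.E_le_F
      L_algebraic := hF.L_algebraic
      L_algClosed := hF.L_algClosed
      E_closed_in_F := hF.E_closed_in_F
      compositum := hF.compositum
      x_mem := hF.x_mem
      x_transcendental := hF.x_transcendental
      finite := hF.finite
      V_le := hV.V_le
      V_total := hV.V_total
      R_le_V := hV.R_le_V
      w_inv_not_mem_V := hV.w_inv_not_mem_V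
      V_gen := hV.V_gen
      x_mem_V := hV.x_mem_V
      gauss := hV.gauss
      qep_fin := hQ.qep_fin
      qep_inf := hQ.qep_inf
      separable := hS.separable }

/-- **The good model over an arbitrary level `E`** (`R_E = A ∩ E` a DVR with uniformiser `w` and
perfect residue field, packaged as `PartR`), for every admissible coordinate. -/
theorem goodModel_of_partR (hℓM : ¬ ℓ ∣ M) (hA : A.LiesOverPrime ℓ) {w : Om M}
    (hw : PartR (Ec M E) (Rc M A E) w) {x : Om M} {S : Finset (Om M)}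
    (hx : IsCoordinate M ℓ x S) :
    GoodModel (Lc M) (Ec M E) (Fc M E) (Rc M A E) (Vc M A E) w x S := by
  by_cases h5 : 5 ≤ ℓ
  · obtain ⟨h1, h2, h3, h4⟩ := H558.br_of_isCoordinate M A hA E x S hx
    have hB : PartBr (Lc M) (Rc M A E) x S := ⟨h1, h2, h3, h4⟩
    rcases hx with ⟨-, rfl, -⟩ | ⟨h | h, -⟩
    · exact goodModel_of_parts (charZero_Om M) hw (partFld_j_any M E)
        (partV_j A E (coreData_residue A hℓM hA) hw)
        (partQep_j A E (coreData_residue A hℓM hA) hw)
        ⟨H264.separable_jOm M hℓM A hA E (Vc M A E) (coe_Vc M A E) w hw.w_mem hw.w_ne_zero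
          hw.w_gen⟩ hB
    · exact absurd h.1 (by omega)
    · exact absurd h.1 (by omega)
  · obtain ⟨-, -, -, hxV, -, -, hgauss⟩ :=
      H24.gv_fields_of_isCoordinate (M := M) (A := A) (E := E) (Vc M A E) (coe_Vc M A E)
        hw.w_mem hw.w_ne_zero hw.w_inv_not_mem hw.w_gen hw.w_discrete hx
    exact H107.goodModel_of_isCoordinate107 M A hA h5 hx E (baseModel_j_of_partR M A E hℓM hA hw)
      (H456.field_x_mem M E hx) hxV hgauss

end Fermat.Agent.S18.Mod.H216

end
end
-- ===== PACK-END S18/Mod/H216/GoodLevel.lean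

-- ===== PACK-BEGIN A2/Mod/H216/GoodRed.lean
section






/-!
# A2 / GOODRED (helper216): the level-`M` hypothesis `GoodRedAt` of MODASM, DISCHARGED

For `q ≥ 5` prime, `q ∤ M`, `P` over `q`, ANY intermediate field `E ⊆ Q̄` with `R_E = P ∩ E` a
discrete valuation ring, uniformiser `w`, Gauss valuation ring `VM` (`IsVinf`):

    goodRedAt_j     : GoodRedAt P E M w VM j
    goodRedAt_j_inv : GoodRedAt P E M w VM j⁻¹
    goodRedHyp      : GoodRedHyp P E M                       (`A2/Mod/Asm.lean`)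

Proof: `S18.Mod.H216.goodModel_of_partR` (good model of row S18 over the level `E`),
`normalAbs_chart` (normality of its special fibre; S37 `H383.exists_chart_lift`), and the
bridge `FE E M ≃ Fc M E` of `Bridge.lean`.

`goodRedAt_of_goodModel` is the general adapter (any coordinate `y`, any good model).
-/

set_option autoImplicit false
set_option linter.unusedSectionVars false
set_option linter.style.haveILetI false
set_option synthInstance.maxHeartbeats 400000
set_option maxHeartbeats 1600000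

noncomputable section

namespace Fermat.Agent.A2.Mod.H216

open ModularCurve Polynomial

variable (P : ValuationSubring _root_.Fermat.Agent.A2.Mod.Qb) (E : IntermediateField ℚ _root_.Fermat.Agent.A2.Mod.Qb) (M : ℕ)

/-! ### The chart as a subring -/

section ChartSub

variable {Ω : Type*} [Field Ω]

/-- `S18.Alg.chart Fc R x` is (the carrier of) a subring. -/
def chartSub (Fc : Subfield Ω) (R : Subring Ω) (x : Ω) : Subring Ω :=
  Fc.toSubring ⊓ (integralClosure ↥(S18.Alg.polyRing R x) Ω).toSubring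

theorem mem_chartSub {Fc : Subfield Ω} {R : Subring Ω} {x b : Ω} :
    b ∈ chartSub Fc R x ↔ b ∈ S18.Alg.chart Fc R x := Iff.rfl

/-- The monic polynomial `X ^ n + ∑ aᵢ X ^ i`. -/
def monicOf {n : ℕ} (a : Fin n → Ω) : Polynomial Ω :=
  X ^ n + ∑ i : Fin n, C (a i) * X ^ (i : ℕ)

theorem monicOf_monic {n : ℕ} (a : Fin n → Ω) : (monicOf a).Monic :=
  Polynomial.monic_X_pow_add (Polynomial.degree_sum_fin_lt a)

theorem monicOf_eval {n : ℕ} (a : Fin n → Ω) (z : Ω) :
    (monicOf a).eval z = z ^ n + ∑ i : Fin n, a i * z ^ (i : ℕ) := by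
  simp [monicOf, Polynomial.eval_finsetSum]

theorem monicOf_coeff_mem {n : ℕ} (a : Fin n → Ω) (T : Subring Ω) (ha : ∀ i, a i ∈ T) (k : ℕ) :
    (monicOf a).coeff k ∈ T := by
  rw [monicOf, Polynomial.coeff_add, Polynomial.coeff_X_pow, Polynomial.finsetSum_coeff]
  refine add_mem ?_ (sum_mem fun i _ => ?_)
  · split_ifs
    · exact one_mem T
    · exact zero_mem T
  · rw [Polynomial.coeff_C_mul_X_pow]
    split_ifs
    · exact ha i
    · exact zero_mem T

end ChartSub

/-! ### The adapter -/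

variable {P E M}

/-- **GOODRED adapter**: a good model of row S18 at the concrete objects over `E`, with
uniformiser `w` and coordinate `y`, gives `GoodRedAt` in the language of `A2/Mod/Spec.lean`. -/
theorem goodRedAt_of_goodModel {w : _root_.Fermat.Agent.A2.Mod.RE P E} {VM : ValuationSubring (_root_.Fermat.Agent.A2.Mod.FE E M)}
    (hV : IsVinf P E M VM) (y : _root_.Fermat.Agent.A2.Mod.FE E M) {x : S18.Mod.Om M} (hx : bridge E M y = x)
    {S : Finset (S18.Mod.Om M)}
    (G : S18.Alg.GoodModel (S18.Mod.Lc M) (S18.Mod.Ec M E) (S18.Mod.Fc M E) (S18.Mod.Rc M P E)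
      (S18.Mod.H216.Vc M P E) (bridge E M (cE P E M w)) x S) :
    GoodRedAt P E M w VM y := by
  subst hx
  have hinv : ∀ g : _root_.Fermat.Agent.A2.Mod.FE E M, bridge E M (g * (cE P E M w)⁻¹) =
      bridge E M g * (bridge E M (cE P E M w))⁻¹ := fun g => by
    rw [map_mul, map_inv₀]
  constructor
  · intro b hb hbw
    rw [bridge_mem_chart_iff] at hb ⊢
    rw [hinv]
    refine G.qep_fin _ hb ?_
    rw [← hinv]
    exact (mem_iff_bridge_mem_Vc P hV _).1 hbw
  · rintro f hf ⟨n, c, hc, hcw⟩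
    have hfV : bridge E M f ∈ S18.Mod.H216.Vc M P E := (mem_iff_bridge_mem_Vc P hV _).1 hf
    have hPc : ∀ i, (monicOf fun i => bridge E M (c i)).coeff i ∈
        S18.Alg.chart (S18.Mod.Fc M E) (S18.Mod.Rc M P E) (bridge E M y) := fun k =>
      mem_chartSub.1 (monicOf_coeff_mem _ (chartSub _ _ _)
        (fun i => mem_chartSub.2 ((bridge_mem_chart_iff P y (c i)).1 (hc i))) k)
    have hPv : (monicOf fun i => bridge E M (c i)).eval (bridge E M f) *
        (bridge E M (cE P E M w))⁻¹ ∈ S18.Mod.H216.Vc M P E := by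
      have h1 : (monicOf fun i => bridge E M (c i)).eval (bridge E M f) =
          bridge E M (f ^ n + ∑ i : Fin n, c i * f ^ (i : ℕ)) := by
        rw [monicOf_eval, map_add, map_pow, map_sum]
        simp only [map_mul, map_pow]
      rw [h1, ← hinv]
      exact (mem_iff_bridge_mem_Vc P hV _).1 hcw
    obtain ⟨b', hb', hbv⟩ := normalAbs_chart G (bridge E M f) hfV _ (monicOf_monic _) hPc hPv
    obtain ⟨b, rfl⟩ := exists_bridge_eq hb'.1
    refine ⟨b, (bridge_mem_chart_iff P y b).2 hb', ?_⟩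
    show (f - b) * (cE P E M w)⁻¹ ∈ VM
    rw [mem_iff_bridge_mem_Vc P hV, hinv, map_sub]
    exact hbv

/-- The same on the chart at infinity. -/
theorem goodRedAt_inv_of_goodModel {w : _root_.Fermat.Agent.A2.Mod.RE P E} {VM : ValuationSubring (_root_.Fermat.Agent.A2.Mod.FE E M)}
    (hV : IsVinf P E M VM) (y : _root_.Fermat.Agent.A2.Mod.FE E M) {x : S18.Mod.Om M} (hx : bridge E M y = x)
    {S : Finset (S18.Mod.Om M)}
    (G : S18.Alg.GoodModel (S18.Mod.Lc M) (S18.Mod.Ec M E) (S18.Mod.Fc M E) (S18.Mod.Rc M P E)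
      (S18.Mod.H216.Vc M P E) (bridge E M (cE P E M w)) x S) :
    GoodRedAt P E M w VM y⁻¹ := by
  classical
  exact goodRedAt_of_goodModel hV y⁻¹ (by rw [map_inv₀, hx])
    (Fermat.Agent.S18.H425.goodModel_inv G)

/-! ### `PartR` for a given uniformiser, over an arbitrary level -/

variable (P E M)

theorem isUnif_bridge_cE {w : _root_.Fermat.Agent.A2.Mod.RE P E} (hw : Irreducible w) :
    S18.H456.IsUnif M P E (bridge E M (cE P E M w)) :=
  ⟨w, hw, bridge_algebraMap (w : E)⟩

/-- `PartR` of row S18 for the image of a given uniformiser `w` of `R_E` (`E` arbitrary). -/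
theorem partR_bridge_cE {q : ℕ} (hq : q.Prime) (hP : P.LiesOverPrime q)
    [IsDiscreteValuationRing (_root_.Fermat.Agent.A2.Mod.RE P E)] {w : _root_.Fermat.Agent.A2.Mod.RE P E} (hw : Irreducible w) :
    S18.Mod.H216.PartR (S18.Mod.Ec M E) (S18.Mod.Rc M P E) (bridge E M (cE P E M w)) := by
  haveI : IsDiscreteValuationRing (S18.H602.RE P E) :=
    (inferInstance : IsDiscreteValuationRing (_root_.Fermat.Agent.A2.Mod.RE P E))
  have hu := isUnif_bridge_cE P E M hw
  refine ⟨S18.H456.field_R_le M P E, S18.H456.field_R_total M P E, hu.mem, hu.ne_zero,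
    hu.inv_not_mem, hu.gen, hu.discrete, q, hq, ?_, ?_⟩
  · rw [← S18.H456.cstR_natCast M P E, hu.mul_inv_mem_iff, IsLocalRing.mem_maximalIdeal,
      mem_nonunits_iff]
    exact S18.H602.natCast_not_isUnit_RE P E hP
  · have hperf : ∀ r : S18.H602.RE P E, ∃ s : S18.H602.RE P E,
        r - s ^ q ∈ IsLocalRing.maximalIdeal (S18.H602.RE P E) := by
      intro r
      have key : ∀ r : _root_.Fermat.Agent.A2.Mod.RE P E, ∃ s : _root_.Fermat.Agent.A2.Mod.RE P E, r - s ^ q ∈ IsLocalRing.maximalIdeal (_root_.Fermat.Agent.A2.Mod.RE P E) := by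
        intro r
        obtain ⟨c', hc'⟩ := H96.exists_pow_eq_residue P E hq hP
          (IsLocalRing.residue (_root_.Fermat.Agent.A2.Mod.RE P E) r)
        obtain ⟨s, rfl⟩ := IsLocalRing.residue_surjective c'
        refine ⟨s, ?_⟩
        have h1 : IsLocalRing.residue (_root_.Fermat.Agent.A2.Mod.RE P E) (r - s ^ q) = 0 := by
          rw [map_sub, map_pow, hc', sub_self]
        exact (IsLocalRing.residue_eq_zero_iff _).1 h1
      exact key r
    intro r hr
    obtain ⟨r₀, rfl⟩ := (S18.H456.mem_Rc_iff_cstR M P E).1 hr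
    obtain ⟨s, hs⟩ := hperf r₀
    refine ⟨S18.H456.cstR M P E s, S18.H456.cstR_mem_Rc M P E s, ?_⟩
    rw [← S18.H456.cstR_pow, ← S18.H456.cstR_sub, hu.mul_inv_mem_iff]
    exact hs

/-! ### GOODRED for `q ≥ 5` -/

variable [NeZero M]

/-- The good model of row S18 with coordinate `j` over the level `E`, for the uniformiser `w`. -/
theorem goodModel_j {q : ℕ} (hq : q.Prime) (h5 : 5 ≤ q) (hqM : ¬ q ∣ M)
    (hP : P.LiesOverPrime q) [IsDiscreteValuationRing (_root_.Fermat.Agent.A2.Mod.RE P E)] {w : _root_.Fermat.Agent.A2.Mod.RE P E}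
    (hw : Irreducible w) :
    ∃ S : Finset (S18.Mod.Om M),
      S18.Alg.GoodModel (S18.Mod.Lc M) (S18.Mod.Ec M E) (S18.Mod.Fc M E) (S18.Mod.Rc M P E)
        (S18.Mod.H216.Vc M P E) (bridge E M (cE P E M w)) (S18.Mod.jOm M) S := by
  classical
  haveI : Fact q.Prime := ⟨hq⟩
  refine ⟨{0, 1728}, ?_⟩
  exact S18.Mod.H216.goodModel_of_partR M P E hqM hP (partR_bridge_cE P E M hq hP hw)
    (Or.inl ⟨h5, rfl, fun s => by simp⟩)

/-- **GOODRED**, chart of `j`. -/
theorem goodRedAt_j {q : ℕ} (hq : q.Prime) (h5 : 5 ≤ q) (hqM : ¬ q ∣ M)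
    (hP : P.LiesOverPrime q) [IsDiscreteValuationRing (_root_.Fermat.Agent.A2.Mod.RE P E)] (w : _root_.Fermat.Agent.A2.Mod.RE P E)
    (hw : Irreducible w) (VM : ValuationSubring (_root_.Fermat.Agent.A2.Mod.FE E M)) (hV : IsVinf P E M VM) :
    GoodRedAt P E M w VM (jE E M 1 (one_dvd _)) := by
  obtain ⟨S, G⟩ := goodModel_j P E M hq h5 hqM hP hw
  exact goodRedAt_of_goodModel hV _ (bridge_jE 1 (one_dvd M)) G

/-- **GOODRED**, chart of `j⁻¹`. -/
theorem goodRedAt_j_inv {q : ℕ} (hq : q.Prime) (h5 : 5 ≤ q) (hqM : ¬ q ∣ M)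
    (hP : P.LiesOverPrime q) [IsDiscreteValuationRing (_root_.Fermat.Agent.A2.Mod.RE P E)] (w : _root_.Fermat.Agent.A2.Mod.RE P E)
    (hw : Irreducible w) (VM : ValuationSubring (_root_.Fermat.Agent.A2.Mod.FE E M)) (hV : IsVinf P E M VM) :
    GoodRedAt P E M w VM (jE E M 1 (one_dvd _))⁻¹ := by
  obtain ⟨S, G⟩ := goodModel_j P E M hq h5 hqM hP hw
  exact goodRedAt_inv_of_goodModel hV _ (bridge_jE 1 (one_dvd M)) G

/-- **GOODRED**: the level-`M` hypothesis `GoodRedHyp` of MODASM (`A2/Mod/Asm.lean`), `q ≥ 5`. -/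
theorem goodRedHyp {q : ℕ} (hq : q.Prime) (h5 : 5 ≤ q) (hqM : ¬ q ∣ M)
    (hP : P.LiesOverPrime q) (hdvr : IsDiscreteValuationRing (_root_.Fermat.Agent.A2.Mod.RE P E)) :
    GoodRedHyp P E M :=
  fun w VM hw hV =>
    ⟨goodRedAt_j P E M hq h5 hqM hP w hw VM hV, goodRedAt_j_inv P E M hq h5 hqM hP w hw VM hV⟩

end Fermat.Agent.A2.Mod.H216

end
end
-- ===== PACK-END A2/Mod/H216/GoodRed.lean

-- ===== PACK-BEGIN A2/Mod/H216/GoodRedAll.lean
section




/-!
# A2 / GOODRED (helper216): `Top.H994.GoodRedStatement` — CLOSED (all primes `q`)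

    goodRedStatement : Top.H994.GoodRedStatement

i.e. for every prime `q ∤ M` (with `2 ∣ M` if `q = 3`, `3 ∣ M` if `q = 2`), `P` over `q` and every
good level `E`: `Mod.GoodRedHyp P E M` (good reduction at level `M` in the charts of `j`, `1/j`).

* `q ≥ 5` : `goodRedHyp` (`GoodRed.lean`), coordinate `j` of row S18;
* `q = 3` : the good model of row S18 in the coordinate `t₂` (`S18.Mod.H216.goodModel_of_partR`),
  the adapter `goodRedAt_of_goodModel`, and helper189's chart change `H189.goodRedHyp_of_t2`;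
* `q = 2` : the same with `t₃`, `H189.goodRedHyp_of_t3`.

Only `GoodField.dvr` is used (no henselian / algebraically closed residue field hypothesis).
-/

set_option autoImplicit false
set_option linter.unusedSectionVars false
set_option linter.style.haveILetI false
set_option synthInstance.maxHeartbeats 400000
set_option maxHeartbeats 1600000

noncomputable section

namespace Fermat.Agent.A2.Mod.H216

open ModularCurve Polynomial

variable (P : ValuationSubring _root_.Fermat.Agent.A2.Mod.Qb) (E : IntermediateField ℚ _root_.Fermat.Agent.A2.Mod.Qb) (M : ℕ)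

theorem bridge_t2E (hM : 2 ∣ M) :
    bridge E M (H189.t2E E M hM) = S18.H333.t2Om M hM := by
  apply Subtype.ext
  rw [coe_bridge]
  exact S18.H602.coeffMap_coeffEmb' (algebraMap E _root_.Fermat.Agent.A2.Mod.Qb) _

theorem bridge_t3E (hM : 3 ∣ M) :
    bridge E M (H189.t3E E M hM) = S18.H333.t3Om M hM := by
  apply Subtype.ext
  rw [coe_bridge]
  exact S18.H602.coeffMap_coeffEmb' (algebraMap E _root_.Fermat.Agent.A2.Mod.Qb) _

theorem isCoordinate_t2Om (hM : 2 ∣ M) :
    ∃ S : Finset (S18.Mod.Om M), S18.Mod.IsCoordinate M 3 (S18.H333.t2Om M hM) S := by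
  classical
  refine ⟨{0, -64}, Or.inr ⟨Or.inl ⟨rfl, S18.H333.t2Om_rel M hM, ?_⟩, ?_⟩⟩
  · intro s; simp
  · exact ⟨S18.H333.t2Z, S18.H333.t2Z_coeff_neg_one, fun k hk => S18.H333.t2Z_coeff_of_lt hk,
      S18.H333.omOf_coe M S18.H333.t2Z _, S18.H333.t2Q_mem M hM⟩

theorem isCoordinate_t3Om (hM : 3 ∣ M) :
    ∃ S : Finset (S18.Mod.Om M), S18.Mod.IsCoordinate M 2 (S18.H333.t3Om M hM) S := by
  classical
  refine ⟨{0, -27}, Or.inr ⟨Or.inr ⟨rfl, S18.H333.t3Om_rel M hM, ?_⟩, ?_⟩⟩
  · intro s; simp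
  · exact ⟨S18.H333.t3Z, S18.H333.t3Z_coeff_neg_one, fun k hk => S18.H333.t3Z_coeff_of_lt hk,
      S18.H333.omOf_coe M S18.H333.t3Z _, S18.H333.t3Q_mem M hM⟩

variable [NeZero M]

/-- **GOODRED for `q = 3`** (`2 ∣ M`). -/
theorem goodRedHyp_three (hqM : ¬ 3 ∣ M) (hM : 2 ∣ M) (hP : P.LiesOverPrime 3)
    (hdvr : IsDiscreteValuationRing (_root_.Fermat.Agent.A2.Mod.RE P E)) : GoodRedHyp P E M := by
  haveI := hdvr
  haveI : Fact (Nat.Prime 3) := ⟨Nat.prime_three⟩
  refine H189.goodRedHyp_of_t2 P E M hP (NeZero.ne M) hM hdvr fun w VM hw hV => ?_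
  obtain ⟨S, hS⟩ := isCoordinate_t2Om M hM
  have G := S18.Mod.H216.goodModel_of_partR M P E hqM hP
    (partR_bridge_cE P E M Nat.prime_three hP hw) hS
  exact ⟨goodRedAt_of_goodModel hV _ (bridge_t2E E M hM) G,
    goodRedAt_inv_of_goodModel hV _ (bridge_t2E E M hM) G⟩

/-- **GOODRED for `q = 2`** (`3 ∣ M`). -/
theorem goodRedHyp_two (hqM : ¬ 2 ∣ M) (hM : 3 ∣ M) (hP : P.LiesOverPrime 2)
    (hdvr : IsDiscreteValuationRing (_root_.Fermat.Agent.A2.Mod.RE P E)) : GoodRedHyp P E M := by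
  haveI := hdvr
  haveI : Fact (Nat.Prime 2) := ⟨Nat.prime_two⟩
  refine H189.goodRedHyp_of_t3 P E M hP (NeZero.ne M) hM hdvr fun w VM hw hV => ?_
  obtain ⟨S, hS⟩ := isCoordinate_t3Om M hM
  have G := S18.Mod.H216.goodModel_of_partR M P E hqM hP
    (partR_bridge_cE P E M Nat.prime_two hP hw) hS
  exact ⟨goodRedAt_of_goodModel hV _ (bridge_t3E E M hM) G,
    goodRedAt_inv_of_goodModel hV _ (bridge_t3E E M hM) G⟩

/-- **GOODRED, all primes**: any level `E` with `R_E` a discrete valuation ring. -/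
theorem goodRedHyp_of_dvr {q : ℕ} (hq : q.Prime) (hqM : ¬ q ∣ M) (h3 : q = 3 → 2 ∣ M)
    (h2 : q = 2 → 3 ∣ M) (hP : P.LiesOverPrime q) (hdvr : IsDiscreteValuationRing (_root_.Fermat.Agent.A2.Mod.RE P E)) :
    GoodRedHyp P E M := by
  by_cases h5 : 5 ≤ q
  · exact goodRedHyp P E M hq h5 hqM hP hdvr
  · have hq2 := hq.two_le
    have hcases : q = 2 ∨ q = 3 := by
      by_contra hne
      have : q = 4 := by omega
      subst this
      exact absurd hq (by norm_num)
    rcases hcases with rfl | rfl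
    · exact goodRedHyp_two P E M hqM (h2 rfl) hP hdvr
    · exact goodRedHyp_three P E M hqM (h3 rfl) hP hdvr

end Fermat.Agent.A2.Mod.H216

namespace Fermat.Agent.A2.Top.H216

open Fermat.Agent.A2

/-- **`Top.H994.GoodRedStatement`** (exact target of the GOODRED owners, `Top/H994/ModTop.lean`). -/
theorem goodRedStatement : Top.H994.GoodRedStatement :=
  fun P E M q _ _ hq hqM h3 h2 hP hE =>
    Mod.H216.goodRedHyp_of_dvr P E M hq hqM h3 h2 hP hE.dvr

end Fermat.Agent.A2.Top.H216

end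
end
-- ===== PACK-END A2/Mod/H216/GoodRedAll.lean

-- ===== PACK-BEGIN S15/H608/T6ppKum.lean
section





/-!
# S15 / DESC, leaf T6'' (helper608), parts (a), (b), (d): the Kummer form of the wall A2 with the
divisibility hypothesis moved from `f` to `τ f / f`

* `algSP`              : ALG route S (no `SepCoord`), hypothesis `DivisibleDiv E m (τ f * f⁻¹)`;
* `kummer_of_levelsP`  : T1' (descent from `F̄` to good finite levels);
* `t1SP`               : `HasModelS` at level `N` ⟹ the primed Kummer statement at level `N`;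
* `kummerP`            : UNCONDITIONAL, for `q ‖ N`, `q ∤ m` (`q = 3 → 2 ∣ N`, `q = 2 → 3 ∣ N`;
                         both vacuous for `q ≥ 5`): for `τ` in the inertia group at `q` and
                         `f ≠ 0` with `m ∣ div (τ f / f)`:  `τ²f · f = h^m · (τ f)²`.
-/

set_option autoImplicit false
set_option linter.unusedSectionVars false
set_option linter.unusedVariables false
set_option synthInstance.maxHeartbeats 400000
set_option maxHeartbeats 1600000

noncomputable section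

namespace Fermat.Agent.S15.H608

open ModularCurve AlgebraicCurve Fermat.Agent.A2 Fermat.Agent.A2.Alg Fermat.Agent.A2.Alg.H34
  Fermat.Agent.A2.T1.H669 Fermat.Agent.A2.Top.H994 Fermat.Agent.A2.Top.H553

/-! ## (a) ALG -/

section Alg

variable {R E F : Type} [CommRing R] [IsDomain R] [IsDiscreteValuationRing R]
  [HenselianLocalRing R] [IsAlgClosed (IsLocalRing.ResidueField R)]
  [Field E] [CharZero E] [Algebra R E] [IsFractionRing R E]
  [Field F] [Algebra E F] [Algebra R F] [IsScalarTower R E F]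

/-- **ALG, route S, primed form**: the hypothesis is `DivisibleDiv` for `τ f / f` only. -/
theorem algSP (w : R) (hw : Irreducible w) (q m : ℕ) (hq : q.Prime)
    (hqR : (q : R) ∈ IsLocalRing.maximalIdeal R) (hm : 0 < m) (hqm : ¬ q ∣ m)
    (x : F) (hx : Transcendental E x)
    (hfin : FiniteDimensional (IntermediateField.adjoin E ({x} : Set F)) F)
    (hconst : ∀ f : F, IsAlgebraic E f → f ∈ (algebraMap E F).range)
    (Bf Bi : Subalgebra R F)
    (hBf : ∀ f : F, f ∈ Bf ↔ IsIntegral (Algebra.adjoin R ({x} : Set F)) f)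
    (hBi : ∀ f : F, f ∈ Bi ↔ IsIntegral (Algebra.adjoin R ({x⁻¹} : Set F)) f)
    (cf : SSChart w Bf) (ci : SSChart w Bi)
    (τ : F ≃+* F) (τE : E ≃+* E) (τR : R ≃+* R)
    (hτE : ∀ e : E, τ (algebraMap E F e) = algebraMap E F (τE e))
    (hτR : ∀ r : R, τE (algebraMap R E r) = algebraMap R E (τR r))
    (hτf : ∀ b ∈ Bf, ∃ c ∈ Bf, τ b - b = algebraMap R F w * c)
    (hτi : ∀ b ∈ Bi, ∃ c ∈ Bi, τ b - b = algebraMap R F w * c) :
    ∀ f : F, f ≠ 0 → DivisibleDiv E m (τ f * f⁻¹) →
      ∃ h : F, h ≠ 0 ∧ τ (τ f) * f = h ^ m * (τ f) ^ 2 := by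
  have hCf : ChartCtx E w x Bf := ⟨hw, hx, hfin, hconst, hBf⟩
  have hCi : ChartCtx E w x⁻¹ Bi := chartCtx_inv w hw x hx hfin hconst Bi hBi
  have hTf : TauCtx w Bf τ τE τR := ⟨hτE, hτR, hτf⟩
  have hTi : TauCtx w Bi τ τE τR := ⟨hτE, hτR, hτi⟩
  intro f hf hdivu
  have hτf0 : τ f ≠ 0 := (map_ne_zero τ).2 hf
  have hu : τ f * f⁻¹ ≠ 0 := mul_ne_zero hτf0 (inv_ne_zero hf)
  obtain ⟨h, hh, hh2⟩ := stepIIS q m hq hqR hm hqm w x Bf Bi hCf hCi cf ci
    τ τE τR hTf hTi (τ f * f⁻¹) hu hdivu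
    (stepI w x Bf hCf cf (incomparable_of_ssChart cf) τ τE τR hTf f hf)
    (stepI w x⁻¹ Bi hCi ci (incomparable_of_ssChart ci) τ τE τR hTi f hf)
  refine ⟨h, hh, ?_⟩
  rw [map_mul, map_inv₀] at hh2
  have h3 : τ (τ f) = h ^ m * (τ f * f⁻¹) * τ f := by
    rw [← hh2, mul_assoc, inv_mul_cancel₀ hτf0, mul_one]
  rw [h3]
  field_simp

end Alg

/-! ## (b) T1' -/

/-- **T1', core.**  One `τ`: the primed Kummer statement on `F̄` from the primed Kummer statement
at suitable finite levels. -/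
theorem kummer_of_levelsP (F₀ : IntermediateField ℚ (LaurentSeries ℚ)) (m : ℕ)
    (τ : (AlgebraicClosure ℚ) ≃ₐ[ℚ] (AlgebraicClosure ℚ))
    (hlevel : ∀ S : Finset (AlgebraicClosure ℚ),
      ∃ E : IntermediateField ℚ (AlgebraicClosure ℚ), (∀ s ∈ S, s ∈ E) ∧
      ∃ τE : E ≃ₐ[ℚ] E,
        (∀ e : E, ((τE e : E) : (AlgebraicClosure ℚ)) = τ (e : (AlgebraicClosure ℚ))) ∧
        ∀ y : ↥(laurentBaseChange E F₀), y ≠ 0 →
          (∀ V : ValuationSubring ↥(laurentBaseChange E F₀), IsDiscreteValuationRing V →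
            (∀ e : E, algebraMap E ↥(laurentBaseChange E F₀) e ∈ V) →
            ∃ h u : ↥(laurentBaseChange E F₀), h ≠ 0 ∧ u ∈ V ∧ u⁻¹ ∈ V ∧
              arithmeticRingAut F₀ τE y * y⁻¹ = u * h ^ m) →
          ∃ h : ↥(laurentBaseChange E F₀), h ≠ 0 ∧
            arithmeticRingAut F₀ τE (arithmeticRingAut F₀ τE y) * y =
              h ^ m * (arithmeticRingAut F₀ τE y) ^ 2)
    (f : ↥(laurentBaseChange (AlgebraicClosure ℚ) F₀)) (hf : f ≠ 0)
    (hdiv : ∀ v : Place (AlgebraicClosure ℚ) ↥(laurentBaseChange (AlgebraicClosure ℚ) F₀),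
      (m : ℤ) ∣ v.ord (arithmeticRingAut F₀ τ f * f⁻¹)) :
    ∃ h : ↥(laurentBaseChange (AlgebraicClosure ℚ) F₀), h ≠ 0 ∧
      arithmeticRingAut F₀ τ (arithmeticRingAut F₀ τ f) * f =
        h ^ m * (arithmeticRingAut F₀ τ f) ^ 2 := by
  obtain ⟨S, hS⟩ := exists_finset_descent F₀ f
  obtain ⟨E, hSE, τE, hτE, hE⟩ := hlevel S
  obtain ⟨y, hιy⟩ := hS E hSE
  have hy0 : y ≠ 0 := by
    rintro h0
    apply hf
    rw [← hιy, h0, map_zero]
  have hτy0 : arithmeticRingAut F₀ τE y ≠ 0 :=
    (map_ne_zero_iff _ (arithmeticRingAut F₀ τE).injective).2 hy0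
  have hu0 : arithmeticRingAut F₀ τE y * y⁻¹ ≠ 0 := mul_ne_zero hτy0 (inv_ne_zero hy0)
  have hιu : iota E F₀ (arithmeticRingAut F₀ τE y * y⁻¹) = arithmeticRingAut F₀ τ f * f⁻¹ := by
    rw [map_mul, map_inv₀, iota_arithmeticRingAut E F₀ τ τE hτE, hιy]
  obtain ⟨h, hh0, hh⟩ := hE y hy0
    (divisibleDiv_of_ord E F₀ m _ hu0 (fun v => by rw [hιu]; exact hdiv v))
  refine ⟨iota E F₀ h, iota_ne_zero E _ hh0, ?_⟩
  have := congrArg (iota E F₀) hh
  rw [map_mul, map_mul, map_pow, map_pow,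
    iota_arithmeticRingAut E F₀ τ τE hτE,
    iota_arithmeticRingAut E F₀ τ τE hτE, hιy] at this
  exact this

/-- The primed Kummer form of the wall at `(N, q, m)`. -/
def KummerTargetP (N q m : ℕ) : Prop :=
  ∀ P : ValuationSubring (AlgebraicClosure ℚ), P.LiesOverPrime q →
    ∀ τ ∈ P.inertiaSubgroupIn ℚ, ∀ f : modularFunctionFieldBar N, f ≠ 0 →
      (∀ v : Place (AlgebraicClosure ℚ) (modularFunctionFieldBar N),
        (m : ℤ) ∣ v.ord (arithmeticRingAut (modularFunctionFieldFull N) τ f * f⁻¹)) →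
      ∃ h : modularFunctionFieldBar N, h ≠ 0 ∧
        arithmeticRingAut (modularFunctionFieldFull N) τ
            (arithmeticRingAut (modularFunctionFieldFull N) τ f) * f =
          h ^ m * (arithmeticRingAut (modularFunctionFieldFull N) τ f) ^ 2

/-- **T1' for one level, without `SepCoord`.** -/
theorem t1SP (N q m : ℕ) (hq : q.Prime) (hm : 0 < m) (hqm : ¬ q ∣ m)
    (hMOD : ∀ (P : ValuationSubring (AlgebraicClosure ℚ))
        (E : IntermediateField ℚ (AlgebraicClosure ℚ)),
      P.LiesOverPrime q → GoodField P E → HasModelS P E N) :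
    KummerTargetP N q m := by
  intro P hP τ hτ f hf hdiv
  refine kummer_of_levelsP (modularFunctionFieldFull N) m τ (fun S => ?_) f hf hdiv
  obtain ⟨E, hSE, hE⟩ := Fermat.Agent.A2.IF.H429.ifStatement q hq P hP S
  refine ⟨E, hSE, hE.res τ hτ, fun e => rfl, fun y hy0 hdd => ?_⟩
  obtain ⟨x, Bf, Bi, hx, hfin, hconst, hBf, hBi, hcf, hci, hτx, hτf, hτi⟩ := hMOD P E hP hE
  haveI : IsDiscreteValuationRing ↥(RE P E) := hE.dvr
  haveI : HenselianLocalRing ↥(RE P E) := hE.henselian
  haveI : IsAlgClosed (IsLocalRing.ResidueField ↥(RE P E)) := hE.algClosed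
  obtain ⟨w, hw⟩ := IsDiscreteValuationRing.exists_irreducible ↥(RE P E)
  obtain ⟨cf⟩ := hcf w hw
  obtain ⟨ci⟩ := hci w hw
  exact algSP (R := ↥(RE P E)) (E := E) (F := ↥(FE E N)) w hw q m hq
      (natCast_mem_maximalIdeal_RE E hP) hm hqm x hx hfin hconst Bf Bi hBf hBi
      cf ci
      (arithmeticRingAut (modularFunctionFieldFull N) (hE.res τ hτ))
      (hE.res τ hτ).toRingEquiv (resR hE τ hτ)
      (fun e => arithmeticRingAut_algebraMap (modularFunctionFieldFull N) (hE.res τ hτ) e)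
      (fun r => rfl)
      (hτf τ hτ (hE.res τ hτ) (fun e => rfl) w hw)
      (hτi τ hτ (hE.res τ hτ) (fun e => rfl) w hw) y hy0 hdd

/-! ## (d) MOD plugged in -/

/-- **The primed Kummer form of the wall, UNCONDITIONAL**, for `q ‖ N`, `q ∤ m`, at the levels
where the semistable model is available without auxiliary level (always if `q ≥ 5`). -/
theorem kummerP (N q m : ℕ) (hq : q.Prime) (hqN : q ∣ N) (hq2 : ¬ q ^ 2 ∣ N) (hN : N ≠ 0)
    (h3 : q = 3 → 2 ∣ N) (h2 : q = 2 → 3 ∣ N) (hm : 0 < m) (hqm : ¬ q ∣ m) :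
    KummerTargetP N q m := by
  apply t1SP N q m hq hm hqm
  intro P E hP hE
  exact hasModelS_of_parts
    (fun P E M q _ _ w => Fermat.Agent.A2.Mod.H142.s2 P E M q w)
    (fun P E M q _ _ w => Fermat.Agent.A2.Mod.H372.s3 P E M q w)
    Fermat.Agent.A2.Top.H216.goodRedStatement
    P E N q hq hqN hq2 hN h3 h2 hP hE

end Fermat.Agent.S15.H608

end
end
-- ===== PACK-END S15/H608/T6ppKum.lean

-- ===== PACK-BEGIN S15/H608/T6pp.lean
section




/-!
# S15 / DESC, leaf T6'' (helper608): `(τ - 1)² = 0` on the divisible hull of the `τ`-fixed classes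

`coord/S15-LOCp-helper208.md`, sec. 3.  UNCONDITIONAL.

For `q ‖ N`, `q ∤ m` (and `q = 3 → 2 ∣ N`, `q = 2 → 3 ∣ N`, vacuous for `q ≥ 5`), `P` a place of
`ℚ̄` over `q`, `τ` in the inertia group of `P` and `x ∈ J₀(N)`:

* `t6pp`        : `τ • (m • x) = m • x  →  τ • (τ • x) + x = 2 • (τ • x)`;
* `t6pp_sub`    : the same conclusion in the form `τ • (τ • x - x) = τ • x - x`;
* `t6pp_fixed`  : hypothesis `m • x ∈ J₀(N)^{G_ℚ}` (`FixedPoints.addSubgroup`);
* `t6ppStatement`       : `H208.T6ppStatement N q m` (VERBATIM `S15/H208/LocPSpec.lean`);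
* `t6ppStatement_prime` : `H208.T6ppStatement p p (r ^ k)` for `p ≥ 5` prime, `r ≠ p` prime;
* `t6pp_prime`  : level `p ≥ 5` prime, `q = p`, `m = r ^ k` with `r ≠ p` prime: for every `h` in the
                  `r`-divisible hull of `A = J₀(p)(ℚ)`, `N (N h) = 0`, `N = τ - 1`.

The case `m • x = 0` is the wall A2 (`A2.Spec.Target`).
-/

set_option autoImplicit false

noncomputable section

namespace Fermat.Agent.S15.H608

open ModularCurve AlgebraicCurve

/-- **T6''.**  Unipotence of inertia at `q ‖ N` on the classes with `τ`-fixed `m`-th multiple. -/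
theorem t6pp (N q m : ℕ) (hq : q.Prime) (hqN : q ∣ N) (hq2 : ¬ q ^ 2 ∣ N) (hN : N ≠ 0)
    (h3 : q = 3 → 2 ∣ N) (h2 : q = 2 → 3 ∣ N) (hm : 0 < m) (hqm : ¬ q ∣ m)
    (P : ValuationSubring (AlgebraicClosure ℚ)) (hP : P.LiesOverPrime q)
    (τ : AlgebraicClosure ℚ ≃ₐ[ℚ] AlgebraicClosure ℚ) (hτ : τ ∈ P.inertiaSubgroupIn ℚ)
    (x : JZero N) (hx : τ • (m • x) = m • x) :
    τ • (τ • x) + x = 2 • (τ • x) := by
  haveI : NeZero N := ⟨hN⟩
  exact unipotent_of_kummerAtP N m hm τ
    (kummerP N q m hq hqN hq2 hN h3 h2 hm hqm P hP τ hτ) x hx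

/-- **T6''**, subtraction form: `N (N x) = 0` for `N = τ - 1`. -/
theorem t6pp_sub (N q m : ℕ) (hq : q.Prime) (hqN : q ∣ N) (hq2 : ¬ q ^ 2 ∣ N) (hN : N ≠ 0)
    (h3 : q = 3 → 2 ∣ N) (h2 : q = 2 → 3 ∣ N) (hm : 0 < m) (hqm : ¬ q ∣ m)
    (P : ValuationSubring (AlgebraicClosure ℚ)) (hP : P.LiesOverPrime q)
    (τ : AlgebraicClosure ℚ ≃ₐ[ℚ] AlgebraicClosure ℚ) (hτ : τ ∈ P.inertiaSubgroupIn ℚ)
    (x : JZero N) (hx : τ • (m • x) = m • x) :
    τ • (τ • x - x) = τ • x - x := by
  have h := t6pp N q m hq hqN hq2 hN h3 h2 hm hqm P hP τ hτ x hx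
  rw [two_nsmul] at h
  rw [smul_sub, sub_eq_sub_iff_add_eq_add]
  rw [h]

/-- **T6''** for classes with rational `m`-th multiple. -/
theorem t6pp_fixed (N q m : ℕ) (hq : q.Prime) (hqN : q ∣ N) (hq2 : ¬ q ^ 2 ∣ N) (hN : N ≠ 0)
    (h3 : q = 3 → 2 ∣ N) (h2 : q = 2 → 3 ∣ N) (hm : 0 < m) (hqm : ¬ q ∣ m)
    (P : ValuationSubring (AlgebraicClosure ℚ)) (hP : P.LiesOverPrime q)
    (τ : AlgebraicClosure ℚ ≃ₐ[ℚ] AlgebraicClosure ℚ) (hτ : τ ∈ P.inertiaSubgroupIn ℚ)
    (x : JZero N)
    (hx : m • x ∈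
      FixedPoints.addSubgroup (AlgebraicClosure ℚ ≃ₐ[ℚ] AlgebraicClosure ℚ) (JZero N)) :
    τ • (τ • x) + x = 2 • (τ • x) :=
  t6pp N q m hq hqN hq2 hN h3 h2 hm hqm P hP τ hτ x (hx τ)

/-- **T6''** in the frozen shape of `S15/H208/LocPSpec.lean`. -/
theorem t6ppStatement (N q m : ℕ) (hq : q.Prime) (hqN : q ∣ N) (hq2 : ¬ q ^ 2 ∣ N) (hN : N ≠ 0)
    (h3 : q = 3 → 2 ∣ N) (h2 : q = 2 → 3 ∣ N) (hm : 0 < m) (hqm : ¬ q ∣ m) :
    Fermat.Agent.S15.H208.T6ppStatement N q m :=
  fun P hP τ hτ x hx => t6pp N q m hq hqN hq2 hN h3 h2 hm hqm P hP τ hτ x (hx τ)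

/-- **T6''** in the frozen shape, at prime level `p ≥ 5`, `q = p`, `m = r ^ k`, `r ≠ p` prime
(the instance consumed by `H208.CountInst`). -/
theorem t6ppStatement_prime (p r : ℕ) (hp : p.Prime) (hp5 : 5 ≤ p) (hr : r.Prime) (hrp : r ≠ p)
    (k : ℕ) : Fermat.Agent.S15.H208.T6ppStatement p p (r ^ k) := by
  have hq2 : ¬ p ^ 2 ∣ p := by
    intro h
    have h1 := Nat.le_of_dvd hp.pos h
    have h2 : p * 2 ≤ p ^ 2 := by
      rw [pow_two]; exact Nat.mul_le_mul_left p (by omega)
    omega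
  have hpm : ¬ p ∣ r ^ k := by
    intro h
    have h1 := hp.dvd_of_dvd_pow h
    exact hrp ((Nat.prime_dvd_prime_iff_eq hp hr).1 h1).symm
  exact t6ppStatement p p (r ^ k) hp dvd_rfl hq2 hp.ne_zero (fun h => by omega)
    (fun h => by omega) (pow_pos hr.pos k) hpm

/-- **T6'' at prime level** `p ≥ 5`, `q = p`, `m = r ^ k`, `r ≠ p` prime: `N (N h) = 0` on the
`r`-divisible hull of `J₀(p)(ℚ)` for `N = τ - 1`, `τ` in an inertia group at `p`. -/
theorem t6pp_prime (p r : ℕ) (hp : p.Prime) (hp5 : 5 ≤ p) (hr : r.Prime) (hrp : r ≠ p) (k : ℕ)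
    (P : ValuationSubring (AlgebraicClosure ℚ)) (hP : P.LiesOverPrime p)
    (τ : AlgebraicClosure ℚ ≃ₐ[ℚ] AlgebraicClosure ℚ) (hτ : τ ∈ P.inertiaSubgroupIn ℚ)
    (x : JZero p)
    (hx : (r ^ k) • x ∈
      FixedPoints.addSubgroup (AlgebraicClosure ℚ ≃ₐ[ℚ] AlgebraicClosure ℚ) (JZero p)) :
    τ • (τ • x - x) = τ • x - x := by
  have hq2 : ¬ p ^ 2 ∣ p := by
    intro h
    have h1 := Nat.le_of_dvd hp.pos h
    have h2 : p * 2 ≤ p ^ 2 := by
      rw [pow_two]; exact Nat.mul_le_mul_left p (by omega)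
    omega
  have hpm : ¬ p ∣ r ^ k := by
    intro h
    have h1 := hp.dvd_of_dvd_pow h
    exact hrp ((Nat.prime_dvd_prime_iff_eq hp hr).1 h1).symm
  exact t6pp_sub p p (r ^ k) hp dvd_rfl hq2 hp.ne_zero (fun h => by omega) (fun h => by omega)
    (pow_pos hr.pos k) hpm P hP τ hτ x (hx τ)

end Fermat.Agent.S15.H608

end
end
-- ===== PACK-END S15/H608/T6pp.lean

-- ===== PACK-BEGIN S29/H871/Surj.lean
section




/-!
# S29 / E3, part 9: descent of divisor classes with finite orbit

`G` acts semilinearly on `F'/K'` (constant field extension of `F/K`), fixing `F` pointwise, with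
`F'^G = F`, and the elements of `K'` with finite orbit lie in `K`.

* `mem_range_bcPlace_of_finite_orbit` : a place of `F'` with finite `G`-orbit is a base change;
* `exists_bcDiv_sub_principal` : a divisor of degree `0` of `F'` whose class has finite `G`-orbit
  is linearly equivalent to the base change of a divisor of `F`
  (Riemann's inequality: the first `n` with `ℓ(D + n P) ≥ 1` has `ℓ = 1`, so the effective divisor
  in the class of `D + n P` is unique, hence has finite orbit);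
* `exists_descent_of_dvd_ord` : **Kummer form**: `f ∈ F'` with `p ∣ div f` and finitely many
  classes `[σ f]` modulo `K'ˣ (F'ˣ)^p` is `ι(f₀) * y ^ p` with `f₀ ∈ F`.

(helper871)
-/

set_option autoImplicit false
set_option linter.unusedSectionVars false

noncomputable section

namespace Fermat.Agent.S29.H871

open AlgebraicCurve TensorProduct IntermediateField
open Fermat.Agent.S24.H117 (mem_iff_ord_nonneg ord_pow ord_add_eq_of_lt place_ext_of_le
  mem_of_ord_nonneg ord_nonneg_of_mem exists_ord_eq_one ord_div)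
open Fermat.Agent.Lib.RR (ell prim)

variable {K F K' F' : Type*} [Field K] [Field F] [Field K'] [Field F']
  [Algebra K F] [Algebra K' F'] [Algebra K K'] [Algebra F F'] [Algebra K F']
  [IsScalarTower K F F'] [IsScalarTower K K' F']

variable {G : Type*} [Group G] {θ : G →* SemilinearAut K' F'} (hθ : IsDescentAction K F θ)
variable [IsConstExt K F K' F'] [IsAlgClosed K] [CharZero K] [IsAlgClosed K'] [CharZero K']
variable {t : F} (ht : Transcendental K t) [FiniteDimensional K⟮t⟯ F]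

section Places

include hθ in
theorem inMax_smul_sub_const (g : G) (w : Place K' F') (f : F) (c : K')
    (h : InMax w (algebraMap F F' f - algebraMap K' F' c)) :
    InMax (θ g • w) (algebraMap F F' f
      - algebraMap K' F' (SemilinearAut.baseAut (θ g) c)) := by
  have key : (θ g)⁻¹ • (algebraMap F F' f - algebraMap K' F' (SemilinearAut.baseAut (θ g) c))
      = algebraMap F F' f - algebraMap K' F' c := by
    rw [smul_sub, ← map_inv, hθ.fixes, SemilinearAut.smul_algebraMap, map_inv,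
      SemilinearAut.baseAut_inv]
    simp
  rcases h with h | h
  · left
    have h2 := congrArg (fun x => θ g • x) key
    simp only [smul_inv_smul] at h2
    rw [h2, h, smul_zero]
  · right
    rw [ord_smul_place, key]
    exact h

include hθ in
/-- A place of `F'` with finite orbit is a base change. -/
theorem mem_range_bcPlace_of_finite_orbit (w : Place K' F')
    (hw : (Set.range fun g : G => θ g • w).Finite) : w ∈ Set.range (bcPlace K' F' ht) := by
  classical
  have hfd := finiteDimensional_adjoin_algebraMap (K := K) (K' := K') (F' := F') t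
  have ht' := transcendental_algebraMap (K' := K') (F' := F') ht
  by_contra hnot
  have hr := rord_eq_zero_of_notMem_range ht hnot
  have htO : algebraMap F F' t ∈ w.toValuationSubring :=
    _root_.Fermat.Agent.S24.H117.mem_of_ord_nonneg w (hr t).ge
  obtain ⟨c, hc⟩ := isRationalPlace_of_isAlgClosed w ht' _ htO
  have hcm : InMax w (algebraMap F F' t - algebraMap K' F' c) := inMax_of_mem_nonunits hc
  -- the value of `t` at a place
  let val : Place K' F' → K' := fun w' =>
    if h : ∃ c' : K', InMax w' (algebraMap F F' t - algebraMap K' F' c') then h.choose else 0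
  have hval : ∀ g : G, val (θ g • w) = SemilinearAut.baseAut (θ g) c := by
    intro g
    have h1 := inMax_smul_sub_const hθ g w t c hcm
    have hex : ∃ c' : K', InMax (θ g • w) (algebraMap F F' t - algebraMap K' F' c') := ⟨_, h1⟩
    have h2 : InMax (θ g • w) (algebraMap F F' t - algebraMap K' F' (val (θ g • w))) := by
      simp only [val, dif_pos hex]
      exact hex.choose_spec
    have h3 := h1.sub h2
    have heq : algebraMap F F' t - algebraMap K' F' (SemilinearAut.baseAut (θ g) c)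
        - (algebraMap F F' t - algebraMap K' F' (val (θ g • w)))
        = algebraMap K' F' (val (θ g • w) - SemilinearAut.baseAut (θ g) c) := by
      rw [map_sub]; ring
    rw [heq] at h3
    exact sub_eq_zero.mp h3.const_eq_zero
  have hfin : (Set.range fun g : G => SemilinearAut.baseAut (θ g) c).Finite := by
    refine (hw.image val).subset ?_
    rintro _ ⟨g, rfl⟩
    exact ⟨θ g • w, ⟨g, rfl⟩, hval g⟩
  obtain ⟨c₀, rfl⟩ := hθ.finite_orbit c hfin
  have hne : t - algebraMap K F c₀ ≠ 0 := by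
    intro h
    rw [sub_eq_zero] at h
    exact ht (h ▸ isAlgebraic_algebraMap c₀)
  have hmap : algebraMap F F' (t - algebraMap K F c₀)
      = algebraMap F F' t - algebraMap K' F' (algebraMap K K' c₀) := by
    rw [map_sub, ← IsScalarTower.algebraMap_apply, ← IsScalarTower.algebraMap_apply]
  have h0 := hr (t - algebraMap K F c₀)
  rw [rord, hmap] at h0
  rcases hcm with h | h
  · rw [← hmap] at h
    exact hne ((algebraMap F F').injective (by rw [h, map_zero]))
  · omega

/-- A divisor supported on base-changed places is a base change. -/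
theorem exists_bcDiv_eq (E : Divisor K' F')
    (hE : ∀ w ∈ E.support, w ∈ Set.range (bcPlace K' F' ht)) :
    ∃ E₀ : Divisor K F, bcDiv K' F' ht E₀ = E := by
  classical
  refine ⟨Finsupp.comapDomain (bcPlace K' F' ht) E (bcPlace_injective ht).injOn, ?_⟩
  exact Finsupp.mapDomain_comapDomain _ (bcPlace_injective ht) E (fun w hw => hE w hw)

end Places

section Main

open Fermat.Agent.Lib.RR in
include hθ in
/-- **Descent of divisor classes with finite orbit.**  A divisor of degree `0` of `F'` whose class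
has finite orbit under `G` is linearly equivalent to the base change of a divisor of `F`. -/
theorem exists_bcDiv_sub_principal (D' : Divisor K' F') (hdeg : Divisor.degree D' = 0)
    (hfin : ∃ s : Finset G, ∀ g : G, ∃ h ∈ s,
      θ g • D' - θ h • D' ∈ Divisor.principal (K := K') (F := F')) :
    ∃ D₀ : Divisor K F, Divisor.degree D₀ = 0 ∧
      ∃ u : F', u ≠ 0 ∧ ∀ w : Place K' F', bcDiv K' F' ht D₀ w = D' w + w.ord u := by
  classical
  have hfd := finiteDimensional_adjoin_algebraMap (K := K) (K' := K') (F' := F') t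
  have ht' := transcendental_algebraMap (K' := K') (F' := F') ht
  have : FF1 K' F' := H443.ff1_of_isAlgClosed ht'
  obtain ⟨v₀, _⟩ := exists_ord_pos (K := K) ht
  set P := bcPlace K' F' ht v₀ with hP
  -- `n` minimal with `ℓ(D' + n P) ≥ 1`
  have hex : ∃ n : ℕ, 1 ≤ ell (D' + n • prim P) := by
    refine ⟨genusR K' F', ?_⟩
    have h := riemann_inequality (D' + (genusR K' F') • prim P)
    rw [map_add, map_nsmul, degree_prim', hdeg] at h
    simp only [zero_add, nsmul_eq_mul, mul_one] at h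
    omega
  set n := Nat.find hex with hn_def
  have hn : 1 ≤ ell (D' + n • prim P) := Nat.find_spec hex
  have hle : ell (D' + n • prim P) ≤ 1 := by
    rcases Nat.eq_zero_or_pos n with h0 | hpos
    · rw [h0, zero_smul, add_zero]
      have := ell_le_degree_add_one (D := D') (by omega)
      omega
    · obtain ⟨m, hm⟩ := Nat.exists_eq_succ_of_ne_zero hpos.ne'
      have hmin := Nat.find_min hex (m := m) (by omega)
      have := ell_add_prim_le (D' + m • prim P) P
      rw [add_assoc, ← succ_nsmul, ← Nat.succ_eq_add_one, ← hm] at this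
      omega
  have hone : Module.finrank K' (riemannRochSpace (D' + n • prim P)) = 1 := le_antisymm hle hn
  obtain ⟨⟨u, hu⟩, hu0, hspan⟩ := finrank_eq_one_iff'.mp hone
  have hu0' : u ≠ 0 := fun h => hu0 (Subtype.ext h)
  -- the effective divisor
  have hEnn : ∀ w : Place K' F', 0 ≤ D' w + (n • prim P) w + w.ord u := by
    intro w
    have := (mem_L_iff.mp hu w).resolve_left hu0'
    simp only [Finsupp.coe_add, Pi.add_apply] at this
    omega
  -- `P` is fixed
  have hPfix : ∀ g : G, θ g • (n • prim P) = n • prim P := by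
    intro g
    rw [smul_comm, prim, SemilinearAut.smul_single, hP, smul_bcPlace hθ]
  have hPfix' : ∀ (g : G) (w : Place K' F'), (n • prim P) ((θ g)⁻¹ • w) = (n • prim P) w := by
    intro g w
    rw [← SemilinearAut.divisor_smul_apply, hPfix]
  -- invariance of `E` under the stabiliser of the class
  have hstab : ∀ k : G, θ k • D' - D' ∈ Divisor.principal (K := K') (F := F') →
      ∀ w : Place K' F', ((θ k)⁻¹ • w).ord u + D' ((θ k)⁻¹ • w) = w.ord u + D' w := by
    rintro k ⟨y, hy0, hy⟩ w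
    have hku0 : θ k • u ≠ 0 := by
      rw [SemilinearAut.smul_def]; simpa using hu0'
    have hmem : y * (θ k • u) ∈ riemannRochSpace (D' + n • prim P) := by
      rw [mem_L_iff]
      intro w'
      right
      rw [w'.ord_mul hy0 hku0, ← hy w', ord_smul_eq]
      have h1 := hEnn ((θ k)⁻¹ • w')
      rw [hPfix'] at h1
      simp only [Finsupp.coe_add, Pi.add_apply, Finsupp.coe_sub, Pi.sub_apply,
        SemilinearAut.divisor_smul_apply]
      omega
    obtain ⟨c, hc⟩ := hspan ⟨_, hmem⟩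
    have hc' : algebraMap K' F' c * u = y * (θ k • u) := by
      have := congrArg Subtype.val hc
      simpa [Algebra.smul_def] using this
    have hc0 : c ≠ 0 := by
      rintro rfl
      rw [map_zero, zero_mul] at hc'
      exact mul_ne_zero hy0 hku0 hc'.symm
    have hcF : algebraMap K' F' c ≠ 0 := by simpa using hc0
    have h2 : w.ord u = w.ord y + w.ord (θ k • u) := by
      rw [← w.ord_mul hy0 hku0, ← hc', w.ord_mul hcF hu0', Fermat.Agent.S24.FF.ord_algebraMap,
        zero_add]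
    have h3 := hy w
    simp only [Finsupp.coe_sub, Pi.sub_apply, SemilinearAut.divisor_smul_apply] at h3
    rw [ord_smul_eq] at h2
    omega
  -- the effective divisor `E`
  set E : Divisor K' F' := D' + n • prim P + divOf u hu0' with hE
  have hEapp : ∀ w : Place K' F', E w = D' w + (n • prim P) w + w.ord u := by
    intro w
    rw [hE]
    simp only [Finsupp.coe_add, Pi.add_apply, divOf_apply]
  have hEstab : ∀ k : G, θ k • D' - D' ∈ Divisor.principal (K := K') (F := F') →
      θ k • E = E := by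
    intro k hk
    ext w
    rw [SemilinearAut.divisor_smul_apply, hEapp, hEapp, hPfix']
    have := hstab k hk w
    omega
  have hEeq : ∀ g h : G, θ g • D' - θ h • D' ∈ Divisor.principal (K := K') (F := F') →
      θ g • E = θ h • E := by
    intro g h hgh
    have h1 := SemilinearAut.smul_mem_principal (θ h)⁻¹ hgh
    rw [smul_sub, inv_smul_smul, ← mul_smul, ← map_inv, ← map_mul] at h1
    have h2 := hEstab _ h1
    rw [map_mul, mul_smul, map_inv, inv_smul_eq_iff] at h2
    exact h2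
  obtain ⟨s, hs⟩ := hfin
  have horb : ∀ w ∈ E.support, w ∈ Set.range (bcPlace K' F' ht) := by
    intro w hw
    apply mem_range_bcPlace_of_finite_orbit hθ ht
    have hfinite : (⋃ h ∈ s, ((θ h • E).support : Set (Place K' F'))).Finite :=
      s.finite_toSet.biUnion fun h _ => (θ h • E).support.finite_toSet
    refine hfinite.subset ?_
    rintro _ ⟨g, rfl⟩
    obtain ⟨h, hhs, hgh⟩ := hs g
    simp only [Set.mem_iUnion, Finset.mem_coe, Finsupp.mem_support_iff]
    refine ⟨h, hhs, ?_⟩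
    rw [← hEeq g h hgh, SemilinearAut.divisor_smul_apply_smul]
    exact Finsupp.mem_support_iff.mp hw
  obtain ⟨E₀, hE₀⟩ := exists_bcDiv_eq ht E horb
  refine ⟨E₀ - n • Finsupp.single v₀ 1, ?_, u, hu0', fun w => ?_⟩
  · rw [← degree_bcDiv (K' := K') (F' := F') ht, map_sub, hE₀, map_nsmul, bcDiv_single, hE,
      map_sub, map_add, map_add, degree_divOf, hdeg, map_nsmul, map_nsmul]
    simp [prim, hP]
  · rw [map_sub, hE₀, map_nsmul, bcDiv_single, Finsupp.sub_apply, hEapp]
    simp only [prim, hP]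
    ring

end Main

section Kummer

/-- Representatives of the fibres of a map to a finite type. -/
theorem exists_finset_rep {G X : Type*} [Finite X] (χ : G → X) :
    ∃ s : Finset G, ∀ g : G, ∃ h ∈ s, χ g = χ h := by
  classical
  haveI : Fintype (Set.range χ) := Fintype.ofFinite _
  let r : Set.range χ → G := fun x => x.2.choose
  have hr : ∀ x : Set.range χ, χ (r x) = x := fun x => x.2.choose_spec
  refine ⟨Finset.univ.image r, fun g => ⟨r ⟨χ g, g, rfl⟩, ?_, ?_⟩⟩
  · exact Finset.mem_image_of_mem _ (Finset.mem_univ _)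
  · exact (hr ⟨χ g, g, rfl⟩).symm

open Fermat.Agent.Lib.RR in
include hθ ht in
/-- **Descent of Kummer functions.**  Let `f' ∈ F'` have a divisor divisible by `p`, and assume
that the conjugates `σ f'` fall into finitely many classes modulo `K'ˣ (F'ˣ)^p`.  Then
`f' = ι(f) * y ^ p` with `f ∈ F` (whose divisor is again divisible by `p`). -/
theorem exists_descent_of_dvd_ord {p : ℕ} (hp : p ≠ 0) {f' : F'} (hf' : f' ≠ 0)
    (hdvd : ∀ w : Place K' F', (p : ℤ) ∣ w.ord f')
    (hfin : ∃ s : Finset G, ∀ g : G, ∃ h ∈ s, ∃ u : F', u ≠ 0 ∧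
      ∀ w : Place K' F', w.ord (θ g • f') = w.ord (θ h • f') + p * w.ord u) :
    ∃ (f : F) (y : F'), f ≠ 0 ∧ y ≠ 0 ∧ f' = algebraMap F F' f * y ^ p ∧
      ∀ v : Place K F, (p : ℤ) ∣ v.ord f := by
  classical
  have hfd := finiteDimensional_adjoin_algebraMap (K := K) (K' := K') (F' := F') t
  have ht' := transcendental_algebraMap (K' := K') (F' := F') ht
  have : FF1 K' F' := H443.ff1_of_isAlgClosed ht'
  have hpZ : (p : ℤ) ≠ 0 := by exact_mod_cast hp
  set D' : Divisor K' F' := Finsupp.mapRange (fun k : ℤ => k / (p : ℤ)) (by simp)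
    (divOf f' hf') with hD'
  have hD'app : ∀ w : Place K' F', (p : ℤ) * D' w = w.ord f' := by
    intro w
    rw [hD', Finsupp.mapRange_apply, divOf_apply]
    exact Int.mul_ediv_cancel' (hdvd w)
  have hdeg : Divisor.degree D' = 0 := by
    have h1 : p • D' = divOf f' hf' := by
      ext w
      rw [Finsupp.smul_apply, nsmul_eq_mul, hD'app, divOf_apply]
    have h2 : Divisor.degree (p • D') = 0 := by rw [h1, degree_divOf]
    rw [map_nsmul, nsmul_eq_mul] at h2
    rcases mul_eq_zero.mp h2 with h | h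
    · exact absurd h hpZ
    · exact h
  have hfin' : ∃ s : Finset G, ∀ g : G, ∃ h ∈ s,
      θ g • D' - θ h • D' ∈ Divisor.principal (K := K') (F := F') := by
    obtain ⟨s, hs⟩ := hfin
    refine ⟨s, fun g => ?_⟩
    obtain ⟨h, hhs, u, hu0, hu⟩ := hs g
    refine ⟨h, hhs, u, hu0, fun w => ?_⟩
    have h1 := hu w
    rw [ord_smul_eq, ord_smul_eq, ← hD'app, ← hD'app] at h1
    simp only [Finsupp.coe_sub, Pi.sub_apply, SemilinearAut.divisor_smul_apply]
    have h2 : (p : ℤ) * (D' ((θ g)⁻¹ • w) - D' ((θ h)⁻¹ • w)) = (p : ℤ) * w.ord u := by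
      rw [mul_sub]; omega
    exact mul_left_cancel₀ hpZ h2
  obtain ⟨D₀, -, u, hu0, hu⟩ := exists_bcDiv_sub_principal hθ ht D' hdeg hfin'
  have hup0 : u ^ p ≠ 0 := pow_ne_zero _ hu0
  have hx0 : f' * u ^ p ≠ 0 := mul_ne_zero hf' hup0
  have hx : ∀ w : Place K' F', bcDiv K' F' ht (p • D₀) w = w.ord (f' * u ^ p) := by
    intro w
    rw [map_nsmul, Finsupp.smul_apply, nsmul_eq_mul, hu, w.ord_mul hf' hup0,
      Fermat.Agent.S24.H117.ord_pow,
      mul_add, hD'app]
  obtain ⟨c, f, hc0, hf0, hxf⟩ := exists_algebraMap_of_bcDiv_eq hθ ht hx0 hx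
  obtain ⟨c₁, hc₁⟩ := IsAlgClosed.exists_pow_nat_eq c (Nat.pos_of_ne_zero hp)
  have hc₁0 : c₁ ≠ 0 := by
    rintro rfl
    rw [zero_pow hp] at hc₁
    exact hc0 hc₁.symm
  have hc₁F : algebraMap K' F' c₁ ≠ 0 := by simpa using hc₁0
  have hfF : algebraMap F F' f ≠ 0 := by simpa using hf0
  have hy0 : algebraMap K' F' c₁ / u ≠ 0 := div_ne_zero hc₁F hu0
  have hfy : f' = algebraMap F F' f * (algebraMap K' F' c₁ / u) ^ p := by
    rw [div_pow, ← map_pow, hc₁]
    field_simp
    rw [hxf]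
    ring
  refine ⟨f, algebraMap K' F' c₁ / u, hf0, hy0, hfy, fun v => ?_⟩
  have h1 := hdvd (bcPlace K' F' ht v)
  rw [hfy, (bcPlace K' F' ht v).ord_mul hfF (pow_ne_zero _ hy0), ord_bcPlace,
    Fermat.Agent.S24.H117.ord_pow] at h1
  exact (Int.dvd_add_left (dvd_mul_right _ _)).mp h1

end Kummer

end Fermat.Agent.S29.H871

end
end
-- ===== PACK-END S29/H871/Surj.lean

-- ===== PACK-BEGIN S29/H871/Concrete.lean
section





/-!
# S29 / E3, part 10: the concrete constant field extension `F_k ⊆ F_Ω` of Laurent base changes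

For `k ⊆ Ω` algebraically closed of characteristic zero and `F₀ ≤ ℚ((q))`:
`laurentBaseChange Ω F₀` is the constant field extension of `laurentBaseChange k F₀`
(`isConstExt_lbc`), and `Aut(Ω/k)`, acting on coefficients, is a descent action
(`isDescentAction_lbc`).  Consequence (`exists_descent_laurent`): descent of Kummer functions, in a
form free of auxiliary instances.

(helper871)
-/

set_option autoImplicit false
set_option linter.unusedSectionVars false

noncomputable section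

namespace Fermat.Agent.S29.H871

open AlgebraicCurve TensorProduct IntermediateField ModularCurve HahnSeries

variable {k Ω : Type*} [Field k] [Field Ω] [Algebra k Ω] [Algebra ℚ k] [Algebra ℚ Ω]
  [IsScalarTower ℚ k Ω]
variable (F₀ : IntermediateField ℚ (LaurentSeries ℚ))

/-- Coefficientwise base change `F_k → F_Ω`. -/
def lbcMap : laurentBaseChange k F₀ →+* laurentBaseChange Ω F₀ where
  toFun x := ⟨coeffMap (algebraMap k Ω) x, H32.coeffMap_mem_laurentBaseChange_of_mem F₀ x.2⟩
  map_one' := Subtype.ext (map_one _)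
  map_mul' x y := Subtype.ext (map_mul _ _ _)
  map_zero' := Subtype.ext (map_zero _)
  map_add' x y := Subtype.ext (map_add _ _ _)

@[simp]
theorem coe_lbcMap (x : laurentBaseChange k F₀) :
    ((lbcMap (Ω := Ω) F₀ x : laurentBaseChange Ω F₀) : LaurentSeries Ω)
      = coeffMap (algebraMap k Ω) (x : LaurentSeries k) := rfl

/-- The algebra structure `F_k → F_Ω` (to be used as a local instance). -/
@[reducible] def lbcAlgebra : Algebra (laurentBaseChange k F₀) (laurentBaseChange Ω F₀) :=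
  (lbcMap F₀).toAlgebra

/-- The algebra structure `k → F_Ω` (to be used as a local instance). -/
@[reducible] def lbcAlgebraBase : Algebra k (laurentBaseChange Ω F₀) :=
  ((algebraMap Ω (laurentBaseChange Ω F₀)).comp (algebraMap k Ω)).toAlgebra

attribute [local instance] lbcAlgebra lbcAlgebraBase

theorem lbc_algebraMap_apply (x : laurentBaseChange k F₀) :
    algebraMap (laurentBaseChange k F₀) (laurentBaseChange Ω F₀) x = lbcMap F₀ x := rfl

theorem lbc_isScalarTower₁ :
    IsScalarTower k (laurentBaseChange k F₀) (laurentBaseChange Ω F₀) :=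
  IsScalarTower.of_algebraMap_eq fun c => by
    apply Subtype.ext
    show algebraMap Ω (LaurentSeries Ω) (algebraMap k Ω c)
      = coeffMap (algebraMap k Ω) (algebraMap k (LaurentSeries k) c)
    rw [H32.coeffMap_algebraMap_up]

theorem lbc_isScalarTower₂ : IsScalarTower k Ω (laurentBaseChange Ω F₀) :=
  IsScalarTower.of_algebraMap_eq fun _ => rfl

attribute [local instance] lbc_isScalarTower₁ lbc_isScalarTower₂

section ConstExt

theorem coe_mulMapF_sum {I : Type*} (β : I → Ω) (g : I →₀ laurentBaseChange k F₀) :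
    ((mulMapF k (laurentBaseChange k F₀) Ω (laurentBaseChange Ω F₀)
        (g.sum fun i m => m ⊗ₜ[k] β i) : laurentBaseChange Ω F₀) : LaurentSeries Ω)
      = H32.comb β (g.mapRange (Subtype.val) rfl) := by
  classical
  induction g using Finsupp.induction with
  | zero => simp [H32.comb_zero]
  | single_add i y g hi hy ih =>
    rw [Finsupp.sum_add_index' (by intro j; simp) (by intro j a b; simp [add_tmul]),
      map_add, Finsupp.mapRange_add (by intro a b; rfl), H32.comb_add,
      Finsupp.sum_single_index (by simp), Finsupp.mapRange_single, H32.comb_single]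
    rw [IntermediateField.coe_add, ih, mulMapF_tmul]
    congr 1
    rw [mul_comm]
    rfl

theorem isConstExt_lbc : IsConstExt k (laurentBaseChange k F₀) Ω (laurentBaseChange Ω F₀) := by
  classical
  let β := Module.Basis.ofVectorSpace k Ω
  refine ⟨?_, ?_⟩
  · rw [injective_iff_map_eq_zero]
    intro x hx
    obtain ⟨g, rfl⟩ := (TensorProduct.equivFinsuppOfBasisRight β).symm.surjective x
    rw [TensorProduct.equivFinsuppOfBasisRight_symm_apply] at hx ⊢
    have h1 := congrArg (Subtype.val) hx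
    rw [coe_mulMapF_sum] at h1
    have h2 := H32.eq_zero_of_comb_eq_zero β.linearIndependent _ h1
    have h3 : g = 0 := by
      refine Finsupp.ext fun i => ?_
      have := DFunLike.congr_fun h2 i
      simpa using this
    rw [h3]
    simp
  · intro z
    have hz : (z : LaurentSeries Ω) ∈ IntermediateField.adjoin Ω
        (⇑(coeffEmb Ω) '' (F₀ : Set (LaurentSeries ℚ))) := z.2
    obtain ⟨r, hr, s, hs, hzrs⟩ := IntermediateField.mem_adjoin_iff_div.mp hz
    have key : ∀ a ∈ Algebra.adjoin Ω (⇑(coeffEmb Ω) '' (F₀ : Set (LaurentSeries ℚ))),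
        ∃ x : laurentBaseChange k F₀ ⊗[k] Ω,
          ((mulMapF k (laurentBaseChange k F₀) Ω (laurentBaseChange Ω F₀) x :
            laurentBaseChange Ω F₀) : LaurentSeries Ω) = a := by
      intro a ha
      obtain ⟨g, hg, rfl⟩ := H32.exists_comb_of_mem_span F₀ β ha
      let g' : Module.Basis.ofVectorSpaceIndex k Ω →₀ laurentBaseChange k F₀ :=
        Finsupp.onFinset g.support (fun i => ⟨g i, hg i⟩) (by
          intro i hi
          rw [Finsupp.mem_support_iff]
          intro h0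
          exact hi (Subtype.ext h0))
      refine ⟨g'.sum fun i m => m ⊗ₜ[k] β i, ?_⟩
      rw [coe_mulMapF_sum]
      congr 1
      ext i : 1
      simp [g']
    obtain ⟨x, hx⟩ := key r hr
    obtain ⟨y, hy⟩ := key s hs
    by_cases hs0 : s = 0
    · refine ⟨0, 1, by simp, ?_⟩
      have : z = 0 := Subtype.ext (by rw [hzrs, hs0, div_zero]; rfl)
      rw [this]; simp
    · refine ⟨x, y, ?_, ?_⟩
      · intro h0
        apply hs0
        rw [← hy, h0]; rfl
      · apply Subtype.ext
        rw [IntermediateField.coe_mul, hx, hy, hzrs]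
        field_simp

end ConstExt

section Action

/-- `Aut(Ω/k)` acting on the coefficients of `F_Ω`. -/
def lbcAction : (Ω ≃ₐ[k] Ω) →* SemilinearAut Ω (laurentBaseChange Ω F₀) :=
  (arithmeticGalois F₀).comp (AlgEquiv.restrictScalarsHom ℚ)

theorem coe_lbcAction_smul (σ : Ω ≃ₐ[k] Ω) (x : laurentBaseChange Ω F₀) :
    ((lbcAction F₀ σ • x : laurentBaseChange Ω F₀) : LaurentSeries Ω)
      = coeffMap ((σ : Ω ≃+* Ω) : Ω →+* Ω) (x : LaurentSeries Ω) := rfl

theorem baseAut_lbcAction (σ : Ω ≃ₐ[k] Ω) (c : Ω) :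
    SemilinearAut.baseAut (lbcAction F₀ σ) c = σ c := rfl

theorem isDescentAction_lbc [IsAlgClosed k] [IsAlgClosed Ω] :
    IsDescentAction k (laurentBaseChange k F₀) (lbcAction (k := k) (Ω := Ω) F₀) where
  fixes σ f := by
    apply Subtype.ext
    rw [coe_lbcAction_smul]
    show coeffMap _ (coeffMap (algebraMap k Ω) (f : LaurentSeries k)) = coeffMap _ _
    rw [coeffMap_coeffMap]
    exact coeffMap_congr (RingHom.ext fun c => σ.commutes c) _
  fixed x hx := by
    have hcoeff : ∀ n, (x : LaurentSeries Ω).coeff n ∈ Set.range (algebraMap k Ω) := by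
      intro n
      apply H32.mem_range_of_finite_orbit
      refine (Set.finite_singleton ((x : LaurentSeries Ω).coeff n)).subset ?_
      rintro _ ⟨σ, rfl⟩
      have h := congrArg (fun y : laurentBaseChange Ω F₀ => (y : LaurentSeries Ω).coeff n) (hx σ)
      simp only [coe_lbcAction_smul, coeffMap_coeff] at h
      exact h
    obtain ⟨y, hy, hyx⟩ := H32.exists_of_coeff_mem_range F₀ x.2 hcoeff
    exact ⟨⟨y, hy⟩, Subtype.ext hyx⟩
  finite_orbit c h := by
    obtain ⟨a, ha⟩ := H32.mem_range_of_finite_orbit c h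
    exact ⟨a, ha⟩

end Action

end Fermat.Agent.S29.H871

end
end
-- ===== PACK-END S29/H871/Concrete.lean

-- ===== PACK-BEGIN S17/H871/BC.lean
section



/-!
# S17 / G-DIV, piece BC: base change of classes `J₀(N)(ℚ̄) → Pic⁰(F_L)`

`stmtBC : StmtBC N L` for every algebraically closed field `L ⊇ ℚ̄`: the homomorphism
`β = bcPic0` (constant field extension of divisor classes, `S29/H871`) is injective, its values
are represented by `ℚ̄`-rational divisors, and every class with `ℚ̄`-rational minimal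
representative lies in its image.

Adapter over the library `Fermat.Agent.S29.H871` (abstract constant field extensions
`IsConstExt` / `IsDescentAction`, instantiated for Laurent base changes in `Concrete.lean`):
* `bcPlace`, `ord_bcPlace` : base change of places;
* `exists_bcPlace_eq` : a place of `F_L` which is nontrivial on `F_ℚ̄` is a base change;
* `bcPic0_injective`.

(helper871)
-/

set_option autoImplicit false
set_option linter.unusedSectionVars false

noncomputable section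

namespace Fermat.Agent.S17.H871

open AlgebraicCurve ModularCurve IntermediateField
open Fermat.Agent.Lib.RR Fermat.Agent.S17.H680 Fermat.Agent.S17.GDiv Fermat.Agent.S24

section

variable (N : ℕ) [NeZero N] (L : Type) [Field L] [Algebra ℚ L] [Algebra Qb L]

/-- The tower `ℚ ⊆ ℚ̄ ⊆ L` is automatically compatible. -/
theorem isScalarTower_rat : IsScalarTower ℚ Qb L :=
  IsScalarTower.of_algebraMap_eq fun q => by
    have h : algebraMap ℚ L = (algebraMap Qb L).comp (algebraMap ℚ Qb) := Subsingleton.elim _ _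
    exact congrFun (congrArg DFunLike.coe h) q

/-- `L` has characteristic zero. -/
theorem charZero_of_algebraRat : CharZero L := algebraRat.charZero L

end

section Main

variable (N : ℕ) [NeZero N] (L : Type) [Field L] [Algebra ℚ L] [Algebra Qb L] [IsAlgClosed L]

attribute [local instance] Fermat.Agent.S29.H871.lbcAlgebra Fermat.Agent.S29.H871.lbcAlgebraBase
  Fermat.Agent.S29.H871.lbc_isScalarTower₁ Fermat.Agent.S29.H871.lbc_isScalarTower₂
  Fermat.Agent.S29.H871.isConstExt_lbc isScalarTower_rat charZero_of_algebraRat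

/-- Base change of the function with rational `q`-expansion `u` to `ℚ̄`. -/
def bcQb (u : modularFunctionFieldFull N) : FF N :=
  ⟨coeffEmb Qb (u : LaurentSeries ℚ), coeffEmb_mem_laurentBaseChange Qb u.2⟩

theorem algebraMap_bcQb (u : modularFunctionFieldFull N) :
    algebraMap (FF N) (FL N L) (bcQb N u) = bcQ N L u := by
  apply Subtype.ext
  show coeffMap (algebraMap Qb L) (coeffEmb Qb (u : LaurentSeries ℚ))
    = coeffEmb L (u : LaurentSeries ℚ)
  exact Fermat.Agent.S29.H32.coeffMap_coeffEmb_up _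

theorem algebraMap_jF : algebraMap (FF N) (FL N L) (jF N) = tL N L :=
  algebraMap_bcQb N L (jQ N)

theorem algebraMap_const (c : Qb) :
    algebraMap (FF N) (FL N L) (algebraMap Qb (FF N) c)
      = algebraMap L (FL N L) (algebraMap Qb L c) := by
  rw [← IsScalarTower.algebraMap_apply Qb (FF N) (FL N L),
    IsScalarTower.algebraMap_apply Qb L (FL N L)]


open Fermat.Agent.S29.H871 in
/-- Base-changed places are rational over `ℚ̄`. -/
theorem isRationalOver_bcPlace [FiniteDimensional Qb⟮jF N⟯ (FF N)]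
    (ht : Transcendental Qb (jF N)) (v : Place Qb (FF N)) :
    IsRationalOver (kL L) (bcPlace L (FL N L) ht v) := by
  intro u c hc
  set P := bcPlace L (FL N L) ht v with hP
  have hc' : InMax P (bcQ N L u - algebraMap L (FL N L) c) := hc
  -- `bcQ u` is integral at `P`
  have h1 : bcQ N L u ∈ P.toValuationSubring := by
    have h2 : bcQ N L u - algebraMap L (FL N L) c ∈ P.toValuationSubring := by
      rcases hc' with h | h
      · rw [h]; exact zero_mem _
      · exact FF.mem_of_ord_nonneg P h.le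
    have h3 := add_mem h2 (P.algebraMap_mem' c)
    rwa [sub_add_cancel] at h3
  -- hence so is its model over `ℚ̄`
  have h4 : bcQb N u ∈ v.toValuationSubring := by
    apply FF.mem_of_ord_nonneg
    rw [← ord_bcPlace (K' := L) (F' := FL N L) ht v, algebraMap_bcQb]
    exact FF.ord_nonneg_of_mem P h1
  obtain ⟨a, ha⟩ := FF.exists_const_sub_mem_nonunits v ht h4
  have h5 : InMax P (bcQ N L u - algebraMap L (FL N L) (algebraMap Qb L a)) := by
    rw [← algebraMap_bcQb, ← algebraMap_const, ← map_sub]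
    by_cases h0 : bcQb N u - algebraMap Qb (FF N) a = 0
    · left; rw [h0, map_zero]
    · right
      rw [hP, ord_bcPlace]
      exact (FF.ord_pos_iff_mem_nonunits v h0).mpr ha
  have h6 : InMax P (algebraMap L (FL N L) (algebraMap Qb L a - c)) := by
    have := hc'.sub h5
    rwa [sub_sub_sub_cancel_left, ← map_sub] at this
  have h7 := h6.const_eq_zero
  exact ⟨a, sub_eq_zero.mp h7⟩

open Fermat.Agent.S29.H871 in
/-- A place of `F_L` that is rational over `ℚ̄` is a base change. -/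
theorem exists_bcPlace_eq_of_isRationalOver [FiniteDimensional Qb⟮jF N⟯ (FF N)]
    (ht : Transcendental Qb (jF N)) {P : Place L (FL N L)} (hP : IsRationalOver (kL L) P) :
    ∃ v : Place Qb (FF N), bcPlace L (FL N L) ht v = P := by
  apply exists_bcPlace_eq ht P
  by_cases hneg : P.ord (tL N L) < 0
  · refine ⟨jF N, ?_⟩
    show P.ord (algebraMap (FF N) (FL N L) (jF N)) ≠ 0
    rw [algebraMap_jF]
    omega
  · have hmem : tL N L ∈ P.toValuationSubring := FF.mem_of_ord_nonneg P (not_lt.mp hneg)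
    have ht' := transcendental_algebraMap (K' := L) (F' := FL N L) ht
    have hfd := finiteDimensional_adjoin_algebraMap (K := Qb) (K' := L) (F' := FL N L) (jF N)
    rw [algebraMap_jF] at ht' hfd
    obtain ⟨c, hc⟩ := FF.exists_const_sub_mem_nonunits P ht' hmem
    have hval : HasValue P (bcQ N L (jQ N)) c := inMax_of_mem_nonunits hc
    obtain ⟨c₀, rfl⟩ := hP (jQ N) c hval
    refine ⟨jF N - algebraMap Qb (FF N) c₀, ?_⟩
    have hne : jF N - algebraMap Qb (FF N) c₀ ≠ 0 := by
      intro h0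
      apply ht
      rw [sub_eq_zero.mp h0]
      exact isAlgebraic_algebraMap c₀
    have himg : algebraMap (FF N) (FL N L) (jF N - algebraMap Qb (FF N) c₀)
        = tL N L - algebraMap L (FL N L) (algebraMap Qb L c₀) := by
      rw [map_sub, algebraMap_jF, algebraMap_const]
    have hne' : tL N L - algebraMap L (FL N L) (algebraMap Qb L c₀) ≠ 0 := by
      rw [← himg]
      exact fun h => hne ((algebraMap (FF N) (FL N L)).injective (by rw [h, map_zero]))
    show P.ord (algebraMap (FF N) (FL N L) (jF N - algebraMap Qb (FF N) c₀)) ≠ 0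
    rw [himg]
    have := (FF.ord_pos_iff_mem_nonunits P hne').mpr hc
    omega

open Fermat.Agent.S29.H871 in
/-- The cusp `∞` of `F_L` is a base change. -/
theorem exists_bcPlace_eq_cuspL [FiniteDimensional Qb⟮jF N⟯ (FF N)]
    (ht : Transcendental Qb (jF N)) :
    ∃ v : Place Qb (FF N), bcPlace L (FL N L) ht v = cuspL N L := by
  apply exists_bcPlace_eq ht (cuspL N L)
  refine ⟨jF N, ?_⟩
  show (cuspL N L).ord (algebraMap (FF N) (FL N L) (jF N)) ≠ 0
  rw [algebraMap_jF]
  intro h0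
  have hmem : tL N L ∈ (cuspL N L).toValuationSubring :=
    FF.mem_of_ord_nonneg _ (le_of_eq h0.symm)
  have h1 : 0 ≤ ((tL N L : FL N L) : LaurentSeries L).order :=
    (mem_cuspInf (modularFunctionFieldFull N) (exists_order_neg N L) (tL N L)).mp hmem
  have h2 : (coeffEmb L jq).order ≤ -1 :=
    HahnSeries.order_le_of_coeff_ne_zero (by
      rw [coeffEmb_coeff, coeff_jq_neg_one, map_one]; exact one_ne_zero)
  have h3 : ((tL N L : FL N L) : LaurentSeries L) = coeffEmb L jq := rfl
  rw [h3] at h1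
  omega

open Fermat.Agent.S29.H871 in
/-- **G-DIV, piece BC.**  Base change of divisor classes `J₀(N)(ℚ̄) → Pic⁰(F_L)` is injective,
its values are represented by `ℚ̄`-rational divisors, and every class with `ℚ̄`-rational minimal
representative is a base change. -/
theorem stmtBC [FF1 L (FL N L)] : StmtBC N L := by
  classical
  have hfd : FiniteDimensional Qb⟮jF N⟯ (FF N) := Fermat.Agent.Lib.RR.H804.finiteDimensional_jF N
  have ht : Transcendental Qb (jF N) := Fermat.Agent.Lib.RR.H804.transcendental_jF N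
  refine ⟨bcPic0 L (FL N L) ht,
    bcPic0_injective (isDescentAction_lbc (k := Qb) (Ω := L) (modularFunctionFieldFull N)) ht,
    ?_, ?_⟩
  · intro x
    obtain ⟨D, rfl⟩ := Pic0.mk_surjective x
    refine ⟨bcDegZero L (FL N L) ht D, ?_, bcPic0_mk ht D⟩
    intro P hP
    rw [coe_bcDegZero] at hP
    have hP' : P ∈ ((D : Divisor Qb (FF N)).support).image (bcPlace L (FL N L) ht) :=
      Finsupp.mapDomain_support hP
    obtain ⟨v, -, rfl⟩ := Finset.mem_image.mp hP'
    exact isRationalOver_bcPlace N L ht v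
  · intro y hy
    have hsupp : ∀ w ∈ (minDiv (cuspL N L) y : Divisor L (FL N L)).support,
        w ∈ Set.range (bcPlace L (FL N L) ht) := by
      intro w hw
      by_cases hwc : w = cuspL N L
      · rw [hwc]; exact exists_bcPlace_eq_cuspL N L ht
      · apply exists_bcPlace_eq_of_isRationalOver N L ht
        apply hy
        rw [Finsupp.mem_support_iff] at hw ⊢
        intro h0
        apply hw
        rw [coe_minDiv, Finsupp.sub_apply, h0, Finsupp.smul_apply, prim,
          Finsupp.single_apply, if_neg (Ne.symm hwc)]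
        simp
    obtain ⟨E₀, hE₀⟩ := exists_bcDiv_eq ht _ hsupp
    have hdeg : E₀ ∈ Divisor.degZero (K := Qb) (F := FF N) := by
      rw [Divisor.mem_degZero, ← degree_bcDiv (K' := L) (F' := FL N L) ht, hE₀]
      exact (minDiv (cuspL N L) y).2
    refine ⟨Pic0.mk ⟨E₀, hdeg⟩, ?_⟩
    rw [bcPic0_mk]
    conv_rhs => rw [← mk_minDiv (cuspL N L) y]
    congr 1
    exact Subtype.ext hE₀

end Main

end Fermat.Agent.S17.H871

end
end
-- ===== PACK-END S17/H871/BC.lean

-- ===== PACK-BEGIN S17/H871/ZRat.lean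
section


/-!
# S17 / G-DIV, pieces ZRAT and CUSPRAT (and the standing facts about `F_L`)

For every algebraically closed field `L` of characteristic zero:
* `transcendental_tL`, `finiteDimensional_tL`, `ff1_FL` : `t = j` is transcendental over `L`,
  `F_L` is finite over `L(t)`, and `F_L` satisfies the standing hypotheses `FF1` of `Lib/RR`;
* `stmtZRAT : StmtZRAT N L` : the zeros and poles of a function with coefficients in a subfield
  `K₁`, algebraically closed in `L`, are rational over `K₁`;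
* `stmtCUSPRAT : StmtCUSPRAT N L`.

Method for ZRAT: `F_L` is the constant field extension of `F_{K₁}` (`S29/H871`), a function with
coefficients in `K₁` comes from `F_{K₁}` (`S29/H32`), a place of `F_L` which is nontrivial on
`F_{K₁}` is a base change (`exists_bcPlace_eq`), and base-changed places are rational.

(helper871)
-/

set_option autoImplicit false
set_option linter.unusedSectionVars false

noncomputable section

namespace Fermat.Agent.S17.H871

open AlgebraicCurve ModularCurve IntermediateField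
open Fermat.Agent.Lib.RR Fermat.Agent.S17.H680 Fermat.Agent.S17.GDiv Fermat.Agent.S24

section Tower

variable (k L : Type) [Field k] [Field L] [Algebra ℚ k] [Algebra ℚ L] [Algebra k L]

/-- The tower `ℚ ⊆ k ⊆ L` is automatically compatible. -/
theorem isScalarTower_rat_gen : IsScalarTower ℚ k L :=
  IsScalarTower.of_algebraMap_eq fun q => by
    have h : algebraMap ℚ L = (algebraMap k L).comp (algebraMap ℚ k) := Subsingleton.elim _ _
    exact congrFun (congrArg DFunLike.coe h) q

/-- A `ℚ`-algebra which is a field has characteristic zero. -/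
theorem charZero_gen (L : Type) [Field L] [Algebra ℚ L] : CharZero L := algebraRat.charZero L

end Tower

section Generic

variable (N : ℕ) [NeZero N] (k L : Type) [Field k] [Field L] [Algebra ℚ k] [Algebra ℚ L]
  [Algebra k L] [IsAlgClosed k] [IsAlgClosed L]

attribute [local instance] Fermat.Agent.S29.H871.lbcAlgebra Fermat.Agent.S29.H871.lbcAlgebraBase
  Fermat.Agent.S29.H871.lbc_isScalarTower₁ Fermat.Agent.S29.H871.lbc_isScalarTower₂
  Fermat.Agent.S29.H871.isConstExt_lbc isScalarTower_rat_gen charZero_gen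

theorem algebraMap_bcQ_gen (u : modularFunctionFieldFull N) :
    algebraMap (FL N k) (FL N L) (bcQ N k u) = bcQ N L u := by
  apply Subtype.ext
  show coeffMap (algebraMap k L) (coeffEmb k (u : LaurentSeries ℚ))
    = coeffEmb L (u : LaurentSeries ℚ)
  exact Fermat.Agent.S29.H32.coeffMap_coeffEmb_up _

theorem algebraMap_tL_gen : algebraMap (FL N k) (FL N L) (tL N k) = tL N L :=
  algebraMap_bcQ_gen N k L (jQ N)

theorem algebraMap_const_gen (c : k) :
    algebraMap (FL N k) (FL N L) (algebraMap k (FL N k) c)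
      = algebraMap L (FL N L) (algebraMap k L c) := by
  rw [← IsScalarTower.algebraMap_apply k (FL N k) (FL N L),
    IsScalarTower.algebraMap_apply k L (FL N L)]

open Fermat.Agent.S29.H871 in
/-- Base-changed places are rational over the image of `k`. -/
theorem isRationalOver_bcPlace_gen [FiniteDimensional k⟮tL N k⟯ (FL N k)]
    (ht : Transcendental k (tL N k)) (v : Place k (FL N k)) :
    IsRationalOver (algebraMap k L).fieldRange (bcPlace L (FL N L) ht v) := by
  intro u c hc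
  set P := bcPlace L (FL N L) ht v with hP
  have hc' : InMax P (bcQ N L u - algebraMap L (FL N L) c) := hc
  have h1 : bcQ N L u ∈ P.toValuationSubring := by
    have h2 : bcQ N L u - algebraMap L (FL N L) c ∈ P.toValuationSubring := by
      rcases hc' with h | h
      · rw [h]; exact zero_mem _
      · exact FF.mem_of_ord_nonneg P h.le
    have h3 := add_mem h2 (P.algebraMap_mem' c)
    rwa [sub_add_cancel] at h3
  have h4 : bcQ N k u ∈ v.toValuationSubring := by
    apply FF.mem_of_ord_nonneg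
    rw [← ord_bcPlace (K' := L) (F' := FL N L) ht v, algebraMap_bcQ_gen]
    exact FF.ord_nonneg_of_mem P h1
  obtain ⟨a, ha⟩ := FF.exists_const_sub_mem_nonunits v ht h4
  have h5 : InMax P (bcQ N L u - algebraMap L (FL N L) (algebraMap k L a)) := by
    rw [← algebraMap_bcQ_gen N k L, ← algebraMap_const_gen, ← map_sub]
    by_cases h0 : bcQ N k u - algebraMap k (FL N k) a = 0
    · left; rw [h0, map_zero]
    · right
      rw [hP, ord_bcPlace]
      exact (FF.ord_pos_iff_mem_nonunits v h0).mpr ha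
  have h6 : InMax P (algebraMap L (FL N L) (algebraMap k L a - c)) := by
    have := hc'.sub h5
    rwa [sub_sub_sub_cancel_left, ← map_sub] at this
  have h7 := h6.const_eq_zero
  exact ⟨a, sub_eq_zero.mp h7⟩

open Fermat.Agent.S29.H871 in
/-- The zeros and poles of a function coming from `F_k` are rational over the image of `k`. -/
theorem isRationalOver_of_ord_ne_zero [FiniteDimensional k⟮tL N k⟯ (FL N k)]
    (ht : Transcendental k (tL N k)) (f₀ : FL N k) {P : Place L (FL N L)}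
    (hP : P.ord (algebraMap (FL N k) (FL N L) f₀) ≠ 0) :
    IsRationalOver (algebraMap k L).fieldRange P := by
  obtain ⟨v, rfl⟩ := exists_bcPlace_eq ht P ⟨f₀, hP⟩
  exact isRationalOver_bcPlace_gen N k L ht v

end Generic

section Standing

variable (N : ℕ) [NeZero N] (L : Type) [Field L] [Algebra ℚ L] [IsAlgClosed L]

attribute [local instance] Fermat.Agent.S29.H871.lbcAlgebra Fermat.Agent.S29.H871.lbcAlgebraBase
  Fermat.Agent.S29.H871.lbc_isScalarTower₁ Fermat.Agent.S29.H871.lbc_isScalarTower₂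
  Fermat.Agent.S29.H871.isConstExt_lbc isScalarTower_rat_gen charZero_gen

theorem isAlgebraic_Qb : @Algebra.IsAlgebraic ℚ Qb _ _ (inferInstance : Algebra ℚ Qb) := by
  have h : (inferInstance : Algebra ℚ Qb) =
      (AlgebraicClosure.instAlgebra ℚ : Algebra ℚ (AlgebraicClosure ℚ)) := Subsingleton.elim _ _
  rw [h]
  infer_instance

/-- An embedding `ℚ̄ → L`. -/
@[reducible] def algebraQb : Algebra Qb L :=
  have : CharZero L := charZero_gen L
  have := isAlgebraic_Qb
  ((IsAlgClosed.lift : Qb →ₐ[ℚ] L) : Qb →+* L).toAlgebra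

open Fermat.Agent.S29.H871 in
/-- `t = j` is transcendental over `L`. -/
theorem transcendental_tL : Transcendental L (tL N L) := by
  let _ := algebraQb L
  have hfd : FiniteDimensional Qb⟮jF N⟯ (FF N) := Fermat.Agent.Lib.RR.H804.finiteDimensional_jF N
  have h := transcendental_algebraMap (K' := L) (F' := FL N L)
    (Fermat.Agent.Lib.RR.H804.transcendental_jF N)
  rwa [algebraMap_jF] at h

open Fermat.Agent.S29.H871 in
/-- `F_L` is finite over `L(t)`. -/
theorem finiteDimensional_tL : FiniteDimensional L⟮tL N L⟯ (FL N L) := by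
  let _ := algebraQb L
  have hfd : FiniteDimensional Qb⟮jF N⟯ (FF N) := Fermat.Agent.Lib.RR.H804.finiteDimensional_jF N
  have h := finiteDimensional_adjoin_algebraMap (K := Qb) (K' := L) (F' := FL N L) (jF N)
  rwa [algebraMap_jF] at h

/-- `F_L` satisfies the standing hypotheses of `Lib/RR`, for every algebraically closed field `L`
of characteristic zero. -/
theorem ff1_FL : FF1 L (FL N L) :=
  have := finiteDimensional_tL N L
  Fermat.Agent.Lib.RR.H804.ff1 (transcendental_tL N L)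

end Standing

section ZRat

variable (N : ℕ) [NeZero N] (L : Type) [Field L] [Algebra ℚ L] [IsAlgClosed L]

/-- A subfield which is algebraically closed in an algebraically closed field is algebraically
closed. -/
theorem isAlgClosed_of_algClosedIn {K₁ : Subfield L} (hK₁ : AlgClosedIn K₁) : IsAlgClosed K₁ := by
  apply IsAlgClosed.of_exists_root
  intro p hp hirr
  have hdeg : (p.map (algebraMap K₁ L)).degree ≠ 0 := by
    rw [Polynomial.degree_map]
    exact (Polynomial.degree_pos_of_irreducible hirr).ne'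
  obtain ⟨x, hx⟩ := IsAlgClosed.exists_root (p.map (algebraMap K₁ L)) hdeg
  have hx' : Polynomial.aeval x p = 0 := by
    rwa [Polynomial.IsRoot, Polynomial.eval_map_algebraMap] at hx
  have hxK : x ∈ K₁ := hK₁ x ⟨p, hirr.ne_zero, hx'⟩
  refine ⟨⟨x, hxK⟩, ?_⟩
  have h2 : Polynomial.aeval ((algebraMap K₁ L) ⟨x, hxK⟩) p = 0 := hx'
  rw [Polynomial.aeval_algebraMap_apply] at h2
  have h3 : Polynomial.aeval (⟨x, hxK⟩ : K₁) p = 0 :=
    (algebraMap K₁ L).injective (by rw [h2, map_zero])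
  rwa [Polynomial.coe_aeval_eq_eval] at h3

/-- **G-DIV, piece ZRAT.**  The zeros and poles of a function with coefficients in `K₁` are
rational over `K₁`. -/
theorem stmtZRAT : StmtZRAT N L := by
  intro K₁ hK₁ f hf P hP
  have hac : IsAlgClosed K₁ := isAlgClosed_of_algClosedIn L hK₁
  have hcz : CharZero L := charZero_gen L
  let _ : Algebra ℚ K₁ := DivisionRing.toRatAlgebra
  have hst : IsScalarTower ℚ K₁ L := isScalarTower_rat_gen K₁ L
  have hfd := finiteDimensional_tL N K₁
  have ht := transcendental_tL N K₁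
  have hcoeff : ∀ n, (f : LaurentSeries L).coeff n ∈ Set.range (algebraMap K₁ L) :=
    fun n => ⟨⟨_, hf n⟩, rfl⟩
  obtain ⟨y, hy, hyf⟩ :=
    Fermat.Agent.S29.H32.exists_of_coeff_mem_range (modularFunctionFieldFull N) f.2 hcoeff
  have hfy : @algebraMap (FL N K₁) (FL N L) _ _
      (Fermat.Agent.S29.H871.lbcAlgebra (modularFunctionFieldFull N)) ⟨y, hy⟩ = f :=
    Subtype.ext hyf
  have hrange : (algebraMap K₁ L).fieldRange = K₁ := by
    ext x
    constructor
    · rintro ⟨a, rfl⟩; exact a.2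
    · intro hx; exact ⟨⟨x, hx⟩, rfl⟩
  have key := isRationalOver_of_ord_ne_zero N K₁ L ht ⟨y, hy⟩ (P := P) (by rw [hfy]; exact hP)
  rwa [hrange] at key

end ZRat

section CuspRat

variable (N : ℕ) [NeZero N] (L : Type) [Field L] [Algebra ℚ L]

/-- **G-DIV, piece CUSPRAT.**  The cusp `∞` is rational over every subfield: the value of a
function with rational `q`-expansion at `∞` is its constant term. -/
theorem stmtCUSPRAT : StmtCUSPRAT N L := by
  intro K₁ u c hc
  set f : FL N L := bcQ N L u - algebraMap L (FL N L) c with hf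
  have hcoeff : (f : LaurentSeries L).coeff 0 = 0 := by
    rcases hc with h | h
    · have h' : f = 0 := h
      rw [h']; rfl
    · have h' : 0 < (cuspL N L).ord f := h
      have h0 : f ≠ 0 := by
        intro h0; rw [h0, (cuspL N L).ord_zero] at h'; exact lt_irrefl _ h'
      have h1 : ¬ f⁻¹ ∈ (cuspL N L).toValuationSubring := by
        intro hmem
        have := FF.ord_nonneg_of_mem _ hmem
        rw [(cuspL N L).ord_inv] at this
        omega
      have h2 : ¬ 0 ≤ ((f⁻¹ : FL N L) : LaurentSeries L).order := fun h2 =>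
        h1 ((mem_cuspInf (modularFunctionFieldFull N) (exists_order_neg N L) f⁻¹).mpr h2)
      have hf0 : (f : LaurentSeries L) ≠ 0 := fun h => h0 (Subtype.ext h)
      have h3 : (f : LaurentSeries L).order + ((f⁻¹ : FL N L) : LaurentSeries L).order = 0 := by
        have hinv0 : ((f⁻¹ : FL N L) : LaurentSeries L) ≠ 0 := fun h =>
          inv_ne_zero h0 (Subtype.ext h)
        rw [← HahnSeries.order_mul hf0 hinv0]
        have : (f : LaurentSeries L) * ((f⁻¹ : FL N L) : LaurentSeries L) = 1 := by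
          have := congrArg (Subtype.val) (mul_inv_cancel₀ h0)
          simpa using this
        rw [this, HahnSeries.order_one]
      exact HahnSeries.coeff_eq_zero_of_lt_order (by omega)
  have hval : (f : LaurentSeries L).coeff 0 = algebraMap ℚ L ((u : LaurentSeries ℚ).coeff 0) - c := by
    show (coeffEmb L (u : LaurentSeries ℚ) - algebraMap L (LaurentSeries L) c).coeff 0 = _
    rw [HahnSeries.coeff_sub, coeffEmb_coeff, algebraMap_laurentSeries_eq_single,
      HahnSeries.coeff_single_same]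
  rw [hval, sub_eq_zero] at hcoeff
  rw [← hcoeff, eq_ratCast]
  exact SubfieldClass.ratCast_mem K₁ _

end CuspRat

end Fermat.Agent.S17.H871

end
end
-- ===== PACK-END S17/H871/ZRat.lean

-- ===== PACK-BEGIN S17/H770/DerA.lean
section







/-!
# S17 / G-DIV, piece DER-a (helper770): places of constant type

`stmtDERa : H797.StmtDERa N L` : at a place `P` of `F_L` on which some function with rational
`q`-expansion has a zero or a pole, the coefficientwise derivation `D` satisfies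
`ord_P (D h) ≥ ord_P h`.

Proof.  `P` is the base change of a place `v` of `F_{ℚ̄}` (helper871's dichotomy), so every
`h ∈ O_P` is a quotient `μ(x)/μ(s)` with `x, s ∈ O_v ⊗ L` and `μ(s)` a unit at `P`.  `D` kills
`F_{ℚ̄}` (derivations kill algebraic numbers), hence maps the image of `μ` into itself.  So
`D (O_P) ⊆ O_P` (`dIntegral_of_approx`); `P` is a zero or pole of a `D`-constant function, hence
`D (𝔪_P) ⊆ 𝔪_P` (`dStable_of_der_eq_zero`), and `ord_le_ord_der_of_dStable` concludes.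
-/

set_option autoImplicit false
set_option linter.unusedSectionVars false
set_option linter.style.haveILetI false

noncomputable section

open AlgebraicCurve ModularCurve TensorProduct IntermediateField

namespace Fermat.Agent.S17.H770

open Fermat.Agent.Lib.RR Fermat.Agent.S17.GDiv Fermat.Agent.S17.H797 Fermat.Agent.S29.H871

/-- Characteristic `0`: a derivation kills the algebraic numbers. -/
theorem derivation_eq_zero_of_isAlgebraic {L : Type*} [Field L] [Algebra ℚ L]
    (d : Derivation ℚ L L) {x : L} (hx : IsAlgebraic ℚ x) : d x = 0 := by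
  have hint : IsIntegral ℚ x := hx.isIntegral
  have hsep : (minpoly ℚ x).Separable := (minpoly.irreducible hint).separable
  have h0 : Polynomial.aeval x (minpoly ℚ x) = 0 := minpoly.aeval ℚ x
  have h1 := congrArg d h0
  rw [Derivation.map_aeval, map_zero, smul_eq_mul] at h1
  have h2 : Polynomial.aeval x (Polynomial.derivative (minpoly ℚ x)) ≠ 0 :=
    hsep.aeval_derivative_ne_zero h0
  exact (mul_eq_zero.1 h1).resolve_left h2

section Main

variable (N : ℕ) [NeZero N] (L : Type) [Field L] [Algebra ℚ L] [Algebra Qb L]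
  [IsScalarTower ℚ Qb L] [IsAlgClosed L]

attribute [local instance] lbcAlgebra lbcAlgebraBase lbc_isScalarTower₁ lbc_isScalarTower₂

/-- The base change `F_{ℚ̄} → F_L` of a function with rational `q`-expansion. -/
theorem algebraMap_bcQ_bar (u : modularFunctionFieldFull N) :
    algebraMap (modularFunctionFieldBar N) (FL N L)
      ⟨coeffEmb Qb (u : LaurentSeries ℚ), coeffEmb_mem_laurentBaseChange Qb u.2⟩ = bcQ N L u := by
  apply Subtype.ext
  show coeffMap (algebraMap Qb L) (coeffEmb Qb (u : LaurentSeries ℚ)) = coeffEmb L _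
  rw [coeffEmb, coeffMap_coeffMap, coeffEmb]
  exact coeffMap_congr (IsScalarTower.algebraMap_eq ℚ Qb L).symm _

/-- The coefficientwise derivation kills `F_{ℚ̄}`. -/
theorem fieldDer_algebraMap_bar (d : Derivation ℚ L L) (a : modularFunctionFieldBar N) :
    fieldDer d (modularFunctionFieldFull N) (algebraMap (modularFunctionFieldBar N) (FL N L) a)
      = 0 := by
  rw [fieldDer_eq_zero_iff]
  intro m
  show d ((coeffMap (algebraMap Qb L) (a : LaurentSeries Qb)).coeff m) = 0
  rw [coeffMap_coeff]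
  have halg : Algebra.IsAlgebraic ℚ Qb := AlgebraicClosure.isAlgebraic ℚ
  exact derivation_eq_zero_of_isAlgebraic d
    ((halg.isAlgebraic ((a : LaurentSeries Qb).coeff m)).algebraMap)

/-- The coefficientwise derivation maps the image of `O_v ⊗ L` into itself. -/
theorem exists_fieldDer_muA (d : Derivation ℚ L L) (v : Place Qb (modularFunctionFieldBar N))
    (x : v.toValuationSubring ⊗[Qb] L) :
    ∃ y : v.toValuationSubring ⊗[Qb] L,
      fieldDer d (modularFunctionFieldFull N) (muA L (FL N L) v x) = muA L (FL N L) v y := by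
  induction x using TensorProduct.induction_on with
  | zero => exact ⟨0, by simp⟩
  | tmul a c =>
    refine ⟨a ⊗ₜ[Qb] d c, ?_⟩
    rw [muA_tmul, muA_tmul, Derivation.leibniz, fieldDer_algebraMap_bar, fieldDer_algebraMap,
      smul_zero, add_zero, smul_eq_mul]
  | add x y hx hy =>
    obtain ⟨x', hx'⟩ := hx
    obtain ⟨y', hy'⟩ := hy
    exact ⟨x' + y', by rw [map_add, map_add, map_add, hx', hy']⟩

/-- **DER-a**, with a chosen embedding `ℚ̄ → L`. -/
theorem stmtDERa_of_algebra : StmtDERa N L := by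
  intro d P hP h
  classical
  have hchar : CharZero (FL N L) :=
    charZero_of_injective_algebraMap (algebraMap ℚ (FL N L)).injective
  have hce : IsConstExt Qb (modularFunctionFieldBar N) L (FL N L) :=
    isConstExt_lbc (modularFunctionFieldFull N)
  have ht := Fermat.Agent.Lib.RR.H804.transcendental_jF N
  have hfin := Fermat.Agent.Lib.RR.H804.finiteDimensional_jF N
  obtain ⟨u, hu⟩ := hP
  -- `P` is a base change
  obtain ⟨v, rfl⟩ := exists_bcPlace_eq (K' := L) (F' := FL N L) ht P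
    ⟨⟨coeffEmb Qb (u : LaurentSeries ℚ), coeffEmb_mem_laurentBaseChange Qb u.2⟩, by
      show (P.ord (algebraMap (modularFunctionFieldBar N) (FL N L) _)) ≠ 0
      rw [algebraMap_bcQ_bar]
      exact hu⟩
  set P := bcPlace L (FL N L) ht v with hPdef
  have hrat : IsRationalPlace v := isRationalPlace_all ht v
  have h1 : ∀ f ∈ v.toValuationSubring,
      0 ≤ P.ord (algebraMap (modularFunctionFieldBar N) (FL N L) f) := by
    intro f hf
    rw [hPdef, ord_bcPlace]
    exact ord_nonneg_of_mem v hf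
  obtain ⟨π, hπ⟩ := IsDiscreteValuationRing.exists_irreducible v.toValuationSubring
  have h2 : 0 < P.ord (algebraMap (modularFunctionFieldBar N) (FL N L) (π : _)) := by
    rw [hPdef, ord_bcPlace, v.ord_coe_irreducible hπ]
    norm_num
  set D := fieldDer d (modularFunctionFieldFull N) with hD
  -- `D (O_P) ⊆ O_P`
  have hint : DIntegral D P := by
    refine dIntegral_of_approx D P (Set.range (muA L (FL N L) v)) ?_ ?_
    · rintro a ⟨x, rfl⟩ -
      obtain ⟨y, hy⟩ := exists_fieldDer_muA N L d v x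
      rw [hD, hy]
      exact ord_nonneg_of_mem P (muA_mem_of_le P h1 y)
    · intro f hf
      have hfmem : f ∈ P.toValuationSubring := mem_of_ord_nonneg P hf
      obtain ⟨x, s, hs, hxs⟩ : IsIntegralBC L (FL N L) hrat f := hfmem
      have hs0 : muA L (FL N L) v s ≠ 0 := muA_ne_zero (eps_ne_zero_ne_zero hrat hs)
      refine ⟨_, ⟨x, rfl⟩, _, ⟨s, rfl⟩, hs0,
        ord_muA_eq_zero_of_eps_ne_zero hrat P h1 hπ h2 hs,
        ord_nonneg_of_mem P (muA_mem_of_le P h1 x), ?_⟩
      rw [← hxs]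
      field_simp
  -- `D (𝔪_P) ⊆ 𝔪_P`
  have hst : DStable D P :=
    dStable_of_der_eq_zero D P hint (f := bcQ N L u)
      (fieldDer_coeffEmb d (modularFunctionFieldFull N) u.2) hu
  have hDL : DL d h = D h := rfl
  rw [hDL]
  rcases eq_or_ne h 0 with rfl | h0
  · left
    exact map_zero D
  · exact ord_le_ord_der_of_dStable D P hst h0

end Main

/-- **DER-a** (exact shape of `H797/DerDefs.lean`): at a place of constant type the
coefficientwise derivation does not lower the order. -/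
theorem stmtDERa (N : ℕ) [NeZero N] (L : Type) [Field L] [Algebra ℚ L] [IsAlgClosed L] :
    StmtDERa N L := by
  haveI halg : Algebra.IsAlgebraic ℚ Qb := AlgebraicClosure.isAlgebraic ℚ
  let φ : Qb →ₐ[ℚ] L := IsAlgClosed.lift
  letI : Algebra Qb L := φ.toRingHom.toAlgebra
  haveI : IsScalarTower ℚ Qb L := IsScalarTower.of_algebraMap_eq fun r => (φ.commutes r).symm
  exact stmtDERa_of_algebra N L

end Fermat.Agent.S17.H770

end
end
-- ===== PACK-END S17/H770/DerA.lean

-- ===== PACK-BEGIN S17/H711/Der.lean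
section




/-!
# S17 / G-DIV, piece DER (helper711): assembly

`stmtDER : GDiv.StmtDER N L` for every algebraically closed field `L` of characteristic zero
(exact shape of `GDiv/Defs.lean`), from

* `H770.stmtDERa` (helper770, places of constant type),
* `H711.stmtDERb` (places of generic type, instantiation of helper800's `GenericSetup`),
* `H797.stmtDER_of` (helper797).
-/

set_option autoImplicit false

namespace Fermat.Agent.S17.H711

open Fermat.Agent.Lib.RR Fermat.Agent.S17.GDiv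

/-- **DER**. -/
theorem stmtDER (N : ℕ) [NeZero N] (L : Type) [Field L] [Algebra ℚ L] [IsAlgClosed L]
    [FF1 L (FL N L)] : StmtDER N L :=
  Fermat.Agent.S17.H797.stmtDER_of (Fermat.Agent.S17.H770.stmtDERa N L) stmtDERb

end Fermat.Agent.S17.H711

end
-- ===== PACK-END S17/H711/Der.lean

-- ===== PACK-BEGIN S17/H200/Plext.lean
section







/-!
# G-DIV / PLEXT: a place is determined by its values on the rational functions

`stmtPLEXT : StmtPLEXT N L` for `L` algebraically closed of characteristic zero.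

Route (Riemann–Roch, no structure theory of the local rings):
* `W = L(n ∞) ⊆ L((q))` is finite-dimensional and stable under the coefficientwise action of
  `Aut(L/ℚ)` (which fixes the cusp `∞`), hence spanned by vectors with rational coefficients
  (`le_span_fixed`, `mem_range_of_forall_algEquiv_eq`), i.e. by functions `bcQ u`;
* hence every `f ∈ L(n ∞)` has the same value at `P` and `P'` (both `≠ ∞`);
* for `n > 2g` a function `f ∈ L(n ∞ - P) ∖ L(n ∞ - P - P')` separates `P ≠ P'`;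
* the cusp is recognised by a rational function whose only pole is `∞`.
-/

set_option autoImplicit false

noncomputable section

open AlgebraicCurve ModularCurve

namespace Fermat.Agent.S17.H200

open Fermat.Agent.Lib.RR Fermat.Agent.S17.GDiv Fermat.Agent.S17.H680

variable {N : ℕ} [NeZero N] {L : Type} [Field L] [Algebra ℚ L]

/-! ### Rational Laurent series -/

omit [NeZero N] in
/-- A function in `F_L` all of whose coefficients are rational is of the form `bcQ u`. -/
theorem exists_bcQ_eq_of_coeff_mem_range {v : LaurentSeries L} (hv : v ∈ FL N L)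
    (hc : ∀ m : ℤ, v.coeff m ∈ Set.range (algebraMap ℚ L)) :
    ∃ u : modularFunctionFieldFull N, ((bcQ N L u : FL N L) : LaurentSeries L) = v := by
  have h1 : coeffMap (algebraMap ℚ L) (Fermat.Agent.S29.H32.coeffDown (k := ℚ) v) = v :=
    Fermat.Agent.S29.H32.coeffMap_coeffDown hc
  set y : LaurentSeries ℚ := Fermat.Agent.S29.H32.coeffDown (k := ℚ) v with hy
  have h2 : y ∈ laurentBaseChange ℚ (modularFunctionFieldFull N) := by
    apply Fermat.Agent.S29.H882.mem_laurentBaseChange_of_coeffMap_mem (algebraMap ℚ L)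
    rw [h1]
    exact hv
  have h3 : y ∈ modularFunctionFieldFull N := by
    have hle : laurentBaseChange ℚ (modularFunctionFieldFull N) ≤ modularFunctionFieldFull N := by
      unfold laurentBaseChange
      rw [IntermediateField.adjoin_le_iff]
      rintro _ ⟨z, hz, rfl⟩
      have : coeffEmb ℚ z = z := by
        ext m
        simp
      rw [this]
      exact hz
    exact hle h2
  exact ⟨⟨y, h3⟩, h1⟩

/-! ### The image of `L(D)` in the Laurent series -/

omit [Algebra ℚ L] in
/-- The coefficientwise scalar multiplication on Laurent series is multiplication by the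
constant. -/
theorem hahn_smul_eq (c : L) (v : LaurentSeries L) :
    c • v = algebraMap L (LaurentSeries L) c * v := by
  rw [algebraMap_laurentSeries_eq_single, HahnSeries.single_zero_mul_eq_smul]

omit [NeZero N] in
theorem coe_smul_FL (c : L) (f : FL N L) :
    ((c • f : FL N L) : LaurentSeries L) = c • (f : LaurentSeries L) := by
  rw [hahn_smul_eq, Algebra.smul_def]
  rfl

/-- The inclusion `F_L → L((q))` as an `L`-linear map (coefficientwise module structure on the
target). -/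
def inclL (N : ℕ) (L : Type) [Field L] [Algebra ℚ L] : FL N L →ₗ[L] LaurentSeries L where
  toFun f := (f : LaurentSeries L)
  map_add' _ _ := rfl
  map_smul' c f := by
    show ((c • f : FL N L) : LaurentSeries L) = c • (f : LaurentSeries L)
    exact coe_smul_FL c f

omit [NeZero N] in
@[simp]
theorem inclL_apply (f : FL N L) : inclL N L f = (f : LaurentSeries L) := rfl

/-- The image of `L(D)` in `L((q))`. -/
def imgL (D : Divisor L (FL N L)) : Submodule L (LaurentSeries L) :=
  (riemannRochSpace D).map (inclL N L)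

omit [NeZero N] in
theorem mem_imgL {D : Divisor L (FL N L)} {v : LaurentSeries L} :
    v ∈ imgL D ↔ ∃ f : FL N L, f ∈ riemannRochSpace D ∧ (f : LaurentSeries L) = v := by
  simp only [imgL, Submodule.mem_map, inclL_apply]

section FF1

variable [FF1 L (FL N L)]

omit [NeZero N] in
instance finiteDimensional_imgL (D : Divisor L (FL N L)) : FiniteDimensional L (imgL D) :=
  Module.Finite.map _ _

/-- `L(n ∞)` is stable under the coefficientwise Galois action. -/
theorem arithmeticGalois_smul_mem_L_cusp (σ : L ≃ₐ[ℚ] L) (n : ℕ) {f : FL N L}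
    (hf : f ∈ riemannRochSpace (n • prim (cuspL N L))) :
    arithmeticGalois (modularFunctionFieldFull N) σ • f ∈
      riemannRochSpace (n • prim (cuspL N L)) := by
  have h := smul_mem_L (arithmeticGalois (modularFunctionFieldFull N) σ) hf
  have e : arithmeticGalois (modularFunctionFieldFull N) σ • (n • prim (cuspL N L))
      = n • prim (cuspL N L) := by
    rw [smul_comm, smul_prim]
    unfold cuspL
    rw [arithmeticGalois_smul_cuspInf]
  rwa [e] at h

variable [IsAlgClosed L]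

/-- **Rational span of `L(n ∞)`** in the form of an induction principle: a property of functions
which is stable under `L`-linear combinations and holds for the functions `bcQ u ∈ L(n ∞)` holds
on all of `L(n ∞)`. -/
theorem induction_L_cusp (n : ℕ) (p : FL N L → Prop) (h0 : p 0)
    (hadd : ∀ f g, p f → p g → p (f + g)) (hsmul : ∀ (a : L) f, p f → p (a • f))
    (hgen : ∀ u : modularFunctionFieldFull N,
      bcQ N L u ∈ riemannRochSpace (n • prim (cuspL N L)) → p (bcQ N L u)) :
    ∀ f ∈ riemannRochSpace (n • prim (cuspL N L)), p f := by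
  intro f hf
  set W := imgL (n • prim (cuspL N L)) with hW
  set H : Set (L →+* L) := Set.range fun σ : L ≃ₐ[ℚ] L => (σ : L →+* L) with hH
  have hstab : ∀ σ ∈ H, ∀ v ∈ W, coeffMap σ v ∈ W := by
    rintro _ ⟨σ, rfl⟩ v hv
    obtain ⟨f', hf', rfl⟩ := mem_imgL.mp hv
    exact mem_imgL.mpr ⟨_, arithmeticGalois_smul_mem_L_cusp σ n hf',
      coe_arithmeticGalois_smul _ σ f'⟩
  have hspan := le_span_fixed W H hstab
  have hfW : (f : LaurentSeries L) ∈ W := mem_imgL.mpr ⟨f, hf, rfl⟩
  have key : ∀ v ∈ Submodule.span L {v | v ∈ W ∧ ∀ σ ∈ H, coeffMap σ v = v},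
      ∃ hv : v ∈ FL N L, p ⟨v, hv⟩ := by
    intro v hv
    induction hv using Submodule.span_induction with
    | mem v hv =>
      obtain ⟨hvW, hvfix⟩ := hv
      obtain ⟨f', hf', rfl⟩ := mem_imgL.mp hvW
      have hc : ∀ m : ℤ, (f' : LaurentSeries L).coeff m ∈ Set.range (algebraMap ℚ L) := by
        intro m
        apply mem_range_of_forall_algEquiv_eq
        intro σ
        have := congrArg (fun z : LaurentSeries L => z.coeff m) (hvfix _ ⟨σ, rfl⟩)
        simpa using this
      obtain ⟨u, hu⟩ := exists_bcQ_eq_of_coeff_mem_range f'.2 hc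
      have hu' : bcQ N L u = f' := Subtype.ext hu
      refine ⟨f'.2, ?_⟩
      have := hgen u (by rw [hu']; exact hf')
      rwa [hu'] at this
    | zero => exact ⟨zero_mem _, h0⟩
    | add v w _ _ hv hw =>
      obtain ⟨hv1, hv2⟩ := hv
      obtain ⟨hw1, hw2⟩ := hw
      exact ⟨add_mem hv1 hw1, hadd _ _ hv2 hw2⟩
    | smul a v _ hv =>
      obtain ⟨hv1, hv2⟩ := hv
      have e : a • v = ((a • (⟨v, hv1⟩ : FL N L) : FL N L) : LaurentSeries L) :=
        (coe_smul_FL a ⟨v, hv1⟩).symm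
      refine ⟨e ▸ (a • (⟨v, hv1⟩ : FL N L)).2, ?_⟩
      have := hsmul a _ hv2
      convert this using 1
      exact Subtype.ext e
  obtain ⟨_, h⟩ := key _ (hspan hfW)
  exact h

omit [NeZero N] [FF1 L (FL N L)] [IsAlgClosed L] in
theorem nsmul_prim_apply_of_ne (n : ℕ) {v P : Place L (FL N L)} (hP : P ≠ v) :
    (n • prim v) P = 0 := by
  rw [Finsupp.smul_apply, prim_apply_of_ne hP, smul_zero]

omit [NeZero N] [FF1 L (FL N L)] [IsAlgClosed L] in
theorem bcQ_inv (u : modularFunctionFieldFull N) : bcQ N L u⁻¹ = (bcQ N L u)⁻¹ := by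
  apply Subtype.ext
  rw [IntermediateField.coe_inv, coe_bcQ, coe_bcQ, IntermediateField.coe_inv, map_inv₀]

/-- Every function of `L(n ∞)` has the same value at `P` and `P'`. -/
theorem exists_common_value {P P' : Place L (FL N L)} (hP : P ≠ cuspL N L)
    (h : ∀ (u : modularFunctionFieldFull N) (c : L),
      HasValue P (bcQ N L u) c → HasValue P' (bcQ N L u) c) (n : ℕ) :
    ∀ f ∈ riemannRochSpace (n • prim (cuspL N L)), ∃ c, HasValue P f c ∧ HasValue P' f c := by
  apply induction_L_cusp n (fun f => ∃ c, HasValue P f c ∧ HasValue P' f c)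
  · exact ⟨0, hasValue_zero P, hasValue_zero P'⟩
  · rintro f g ⟨c, hc, hc'⟩ ⟨d, hd, hd'⟩
    exact ⟨c + d, HasValue.add hc hd, HasValue.add hc' hd'⟩
  · rintro a f ⟨c, hc, hc'⟩
    exact ⟨a * c, HasValue.smul hc a, HasValue.smul hc' a⟩
  · intro u hu
    have := (mem_L_iff.mp hu) P
    rw [nsmul_prim_apply_of_ne n hP, neg_zero] at this
    obtain ⟨c, hc⟩ := exists_hasValue this
    exact ⟨c, hc, h u c hc⟩

/-- If `ℓ(n ∞) ≥ 2`, some rational function of `L(n ∞)` has a pole at the cusp. -/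
theorem exists_bcQ_pole (n : ℕ) (hn : 2 ≤ ell (n • prim (cuspL N L))) :
    ∃ u : modularFunctionFieldFull N,
      bcQ N L u ∈ riemannRochSpace (n • prim (cuspL N L)) ∧
        (cuspL N L).ord (bcQ N L u) < 0 := by
  by_contra hcon
  simp only [not_exists, not_and, not_lt] at hcon
  have hall : ∀ f ∈ riemannRochSpace (n • prim (cuspL N L)),
      f ∈ (cuspL N L).toValuationSubring := by
    apply induction_L_cusp n (fun f => f ∈ (cuspL N L).toValuationSubring)
    · exact zero_mem _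
    · intro f g hf hg
      exact add_mem hf hg
    · intro a f hf
      rw [Algebra.smul_def]
      exact mul_mem ((cuspL N L).algebraMap_mem' a) hf
    · intro u hu
      exact mem_of_ord_nonneg _ (hcon u hu)
  have hle : riemannRochSpace (n • prim (cuspL N L)) ≤
      riemannRochSpace (0 : Divisor L (FL N L)) := by
    intro f hf
    have hf' := hf
    rw [mem_L_iff] at hf ⊢
    intro v
    by_cases hv : v = cuspL N L
    · subst hv
      right
      rw [Finsupp.zero_apply, neg_zero]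
      exact ord_nonneg_of_mem _ (hall f hf')
    · have := hf v
      rwa [nsmul_prim_apply_of_ne n hv] at this
  have h1 : ell (n • prim (cuspL N L)) ≤ ell (0 : Divisor L (FL N L)) :=
    Submodule.finrank_mono hle
  rw [ell_zero] at h1
  omega

omit [NeZero N] [IsAlgClosed L] in
theorem degree_nsmul_cusp (v : Place L (FL N L)) (n : ℕ) :
    Divisor.degree (n • prim v) = n := by
  rw [map_nsmul, degree_prim _ (deg_eq_one _), nsmul_eq_mul, mul_one]

omit [NeZero N] [FF1 L (FL N L)] [IsAlgClosed L] in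
theorem sub_prim_apply_self (D : Divisor L (FL N L)) (P : Place L (FL N L)) :
    (D - prim P) P = D P - 1 := by
  rw [Finsupp.sub_apply, prim_apply_self]

omit [NeZero N] [FF1 L (FL N L)] [IsAlgClosed L] in
theorem sub_prim_apply_of_ne (D : Divisor L (FL N L)) {P v : Place L (FL N L)} (h : v ≠ P) :
    (D - prim P) v = D v := by
  rw [Finsupp.sub_apply, prim_apply_of_ne h, sub_zero]

omit [NeZero N] [FF1 L (FL N L)] [IsAlgClosed L] in
theorem sub_prim_le (D : Divisor L (FL N L)) (P : Place L (FL N L)) : D - prim P ≤ D := by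
  rw [Finsupp.le_def]
  intro v
  by_cases hv : v = P
  · subst hv
    rw [sub_prim_apply_self]
    omega
  · rw [sub_prim_apply_of_ne D hv]

omit [NeZero N] [IsAlgClosed L] in
/-- Riemann–Roch: if `deg D > 2g`, some function of `L(D - P)` is not in `L(D - P - P')`. -/
theorem exists_mem_not_mem (D : Divisor L (FL N L))
    (hD : 2 * (genusFF L (FL N L) : ℤ) < Divisor.degree D) (P P' : Place L (FL N L)) :
    ∃ f ∈ riemannRochSpace (D - prim P), f ∉ riemannRochSpace (D - prim P - prim P') := by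
  have hd1 : Divisor.degree (D - prim P) = Divisor.degree D - 1 := by
    rw [map_sub, degree_prim _ (deg_eq_one _)]
  have hd2 : Divisor.degree (D - prim P - prim P') = Divisor.degree D - 2 := by
    rw [map_sub, hd1, degree_prim _ (deg_eq_one _)]
    ring
  have he1 := ell_eq_of_degree_gt (D := D - prim P) (by rw [hd1]; omega)
  have he2 := ell_eq_of_degree_gt (D := D - prim P - prim P') (by rw [hd2]; omega)
  rw [hd1] at he1
  rw [hd2] at he2
  by_contra hcon
  simp only [not_exists, not_and, not_not] at hcon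
  have hle : riemannRochSpace (D - prim P) ≤ riemannRochSpace (D - prim P - prim P') := hcon
  have h3 : ell (D - prim P) ≤ ell (D - prim P - prim P') := Submodule.finrank_mono hle
  omega

omit [FF1 L (FL N L)] [IsAlgClosed L] in
/-- The cusp case of PLEXT. -/
theorem plext_cusp {P' : Place L (FL N L)}
    (h : ∀ (u : modularFunctionFieldFull N) (c : L),
      HasValue (cuspL N L) (bcQ N L u) c → HasValue P' (bcQ N L u) c)
    {n : ℕ} {u : modularFunctionFieldFull N}
    (huL : bcQ N L u ∈ riemannRochSpace (n • prim (cuspL N L)))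
    (hupole : (cuspL N L).ord (bcQ N L u) < 0) : P' = cuspL N L := by
  have hx0 : bcQ N L u ≠ 0 := ne_zero_of_ord_ne_zero (cuspL N L) (by omega)
  by_contra hP'
  have hv : HasValue (cuspL N L) (bcQ N L u⁻¹) 0 := by
    rw [hasValue_zero_iff, bcQ_inv]
    right
    rw [Place.ord_inv]
    omega
  have hv' := h _ _ hv
  rw [hasValue_zero_iff, bcQ_inv] at hv'
  rcases hv' with h0 | hpos
  · exact hx0 (inv_eq_zero.mp h0)
  · rw [Place.ord_inv] at hpos
    have := (mem_L_iff.mp huL) P'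
    rw [nsmul_prim_apply_of_ne n hP', neg_zero] at this
    rcases this with h0 | h1
    · exact hx0 h0
    · omega

omit [NeZero N] [FF1 L (FL N L)] [IsAlgClosed L] in
/-- A function with a pole at `v` has no value at `v`. -/
theorem not_hasValue_of_ord_neg {v : Place L (FL N L)} {x : FL N L} (hx : v.ord x < 0) (c : L) :
    ¬ HasValue v x c := by
  have hx0 : x ≠ 0 := ne_zero_of_ord_ne_zero v (by omega)
  intro hc
  rcases eq_or_ne c 0 with rfl | hc0
  · rw [hasValue_zero_iff] at hc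
    rcases hc with h0 | h1
    · exact hx0 h0
    · omega
  · have hC : algebraMap L (FL N L) c ≠ 0 := by rwa [Ne, map_eq_zero]
    have hord : v.ord (x - algebraMap L (FL N L) c) = v.ord x := by
      rw [sub_eq_add_neg]
      apply ord_add_eq_of_lt _ hx0 (neg_ne_zero.mpr hC)
      rw [ord_neg, ord_algebraMap]
      exact hx
    rcases hc with h0 | h1
    · rw [sub_eq_zero] at h0
      rw [h0, ord_algebraMap] at hx
      exact lt_irrefl _ hx
    · rw [hord] at h1
      omega

/-- The separation step of PLEXT. -/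
theorem plext_sep {P P' : Place L (FL N L)} (hP : P ≠ cuspL N L) (hP' : P' ≠ cuspL N L)
    (h : ∀ (u : modularFunctionFieldFull N) (c : L),
      HasValue P (bcQ N L u) c → HasValue P' (bcQ N L u) c)
    {n : ℕ} (hn : 2 * (genusFF L (FL N L) : ℤ) < n) : P = P' := by
  by_contra hne
  have hne' : P' ≠ P := fun h' => hne h'.symm
  have hcv := exists_common_value hP h n
  obtain ⟨f, hf1, hf2⟩ := exists_mem_not_mem (n • prim (cuspL N L))
    (by rw [degree_nsmul_cusp]; exact hn) P P'
  have hfL : f ∈ riemannRochSpace (n • prim (cuspL N L)) := L_mono (sub_prim_le _ P) hf1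
  obtain ⟨c, hc, hc'⟩ := hcv f hfL
  have hfP : HasValue P f 0 := by
    rw [hasValue_zero_iff]
    have := (mem_L_iff.mp hf1) P
    rw [sub_prim_apply_self, nsmul_prim_apply_of_ne n hP] at this
    exact this.imp id fun h => by omega
  have hc0 : c = 0 := HasValue.unique hc hfP
  rw [hc0] at hc'
  have hfP' : VanishesAt P' f := hasValue_zero_iff.mp hc'
  apply hf2
  rw [mem_L_iff]
  intro v
  by_cases hv : v = P'
  · rw [hv, sub_prim_apply_self, sub_prim_apply_of_ne _ hne', nsmul_prim_apply_of_ne n hP']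
    exact hfP'.imp id fun h => by omega
  · have := (mem_L_iff.mp hf1) v
    rwa [sub_prim_apply_of_ne _ hv]

/-- **PLEXT**: a place of `F_L` is determined by its values on the functions with rational
`q`-expansion. -/
theorem stmtPLEXT : StmtPLEXT N L := by
  intro P P' h
  obtain ⟨n, hn⟩ : ∃ n : ℕ, n = 2 * genusFF L (FL N L) + 2 := ⟨_, rfl⟩
  have hell := ell_eq_of_degree_gt (D := n • prim (cuspL N L))
    (by rw [degree_nsmul_cusp]; omega)
  rw [degree_nsmul_cusp] at hell
  have h2 : 2 ≤ ell (n • prim (cuspL N L)) := by omega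
  obtain ⟨u, huL, hupole⟩ := exists_bcQ_pole n h2
  by_cases hP : P = cuspL N L
  · rw [hP] at h ⊢
    exact (plext_cusp h huL hupole).symm
  · have hP' : P' ≠ cuspL N L := by
      intro hP'
      obtain ⟨c, -, hc'⟩ := exists_common_value hP h n _ huL
      rw [hP'] at hc'
      exact not_hasValue_of_ord_neg hupole c hc'
    exact plext_sep hP hP' h (n := n) (by omega)

end FF1

end Fermat.Agent.S17.H200

end
end
-- ===== PACK-END S17/H200/Plext.lean

-- ===== PACK-BEGIN S17/H830/NSRat.lean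
section



/-!
# S17 / G-DIV, piece NS (helper830), part 2: rationality of places

For the function field `F_L = FL N L` of `GDiv/Defs.lean`:

* `galois_smul_bcQ`, `HasValue.galois_smul`, `hasValue_bcQ_smul` : the coefficientwise Galois action
  and values;
* `hasValue_tval`, `tval_eq` : the `t`-value;
* `exists_aut_add` : if `K₁` is algebraically closed in `L` and `c ∉ K₁`, some automorphism of `L`
  fixing `K₁` maps `c` to `c + n`;
* **ALGVAL** `isRationalOver_of_tval_mem` : if `K₁` is algebraically closed in `L` and contains the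
  `t`-value of `Q`, then `Q` is rational over `K₁` (all finite values at `Q` of functions with
  rational `q`-expansion lie in `K₁`).  Proof by automorphisms: otherwise `t - t(Q)` (or `t`) would
  have infinitely many zeros (poles).
-/

set_option autoImplicit false

noncomputable section

open AlgebraicCurve ModularCurve

namespace Fermat.Agent.S17.H830

open Fermat.Agent.Lib.RR Fermat.Agent.S17.GDiv Fermat.Agent.S17.H680

section Modular

variable {N : ℕ} [NeZero N] {L : Type} [Field L] [Algebra ℚ L]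

omit [NeZero N] in
theorem hasValue_iff {P : Place L (FL N L)} {f : FL N L} {c : L} :
    HasValue P f c ↔ HasVal P f c := Iff.rfl

omit [NeZero N] in
/-- Functions with rational `q`-expansion are fixed by the Galois action. -/
theorem galois_smul_bcQ (σ : L ≃ₐ[ℚ] L) (u : modularFunctionFieldFull N) :
    arithmeticGalois (modularFunctionFieldFull N) σ • bcQ N L u = bcQ N L u := by
  apply Subtype.ext
  rw [coe_arithmeticGalois_smul, coe_bcQ, coeffMap_coeffEmb]

omit [NeZero N] in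
theorem galois_smul_algebraMap (σ : L ≃ₐ[ℚ] L) (c : L) :
    arithmeticGalois (modularFunctionFieldFull N) σ • algebraMap L (FL N L) c
      = algebraMap L (FL N L) (σ c) :=
  SemilinearAut.smul_algebraMap _ c

omit [NeZero N] in
theorem HasValue.galois_smul (σ : L ≃ₐ[ℚ] L) {P : Place L (FL N L)} {f : FL N L} {c : L}
    (h : HasValue P f c) :
    HasValue (arithmeticGalois (modularFunctionFieldFull N) σ • P)
      (arithmeticGalois (modularFunctionFieldFull N) σ • f) (σ c) :=
  HasVal.smul (arithmeticGalois (modularFunctionFieldFull N) σ) h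

omit [NeZero N] in
theorem hasValue_bcQ_smul (σ : L ≃ₐ[ℚ] L) {P : Place L (FL N L)}
    {u : modularFunctionFieldFull N} {c : L} (h : HasValue P (bcQ N L u) c) :
    HasValue (arithmeticGalois (modularFunctionFieldFull N) σ • P) (bcQ N L u) (σ c) := by
  have := HasValue.galois_smul σ h
  rwa [galois_smul_bcQ] at this

theorem galois_smul_tL (σ : L ≃ₐ[ℚ] L) :
    arithmeticGalois (modularFunctionFieldFull N) σ • tL N L = tL N L :=
  galois_smul_bcQ σ _

theorem hasValue_tL_smul (σ : L ≃ₐ[ℚ] L) {P : Place L (FL N L)} {c : L}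
    (h : HasValue P (tL N L) c) :
    HasValue (arithmeticGalois (modularFunctionFieldFull N) σ • P) (tL N L) (σ c) :=
  hasValue_bcQ_smul σ h

/-! ### The `t`-value -/

theorem hasValue_tval {P : Place L (FL N L)} (h : ∃ c : L, HasValue P (tL N L) c) :
    HasValue P (tL N L) (tval P) := by
  classical
  unfold tval
  rw [dif_pos h]
  exact h.choose_spec

theorem tval_eq {P : Place L (FL N L)} {c : L} (h : HasValue P (tL N L) c) : tval P = c :=
  HasVal.unique (hasValue_tval ⟨c, h⟩) h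

theorem tval_of_not {P : Place L (FL N L)} (h : ¬ ∃ c : L, HasValue P (tL N L) c) :
    tval P = 0 := by
  classical
  unfold tval
  rw [dif_neg h]

theorem tval_smul (σ : L ≃ₐ[ℚ] L) {P : Place L (FL N L)}
    (h : ∃ c : L, HasValue P (tL N L) c) :
    tval (arithmeticGalois (modularFunctionFieldFull N) σ • P) = σ (tval P) :=
  tval_eq (hasValue_tL_smul σ (hasValue_tval h))

/-- `t` is not a constant. -/
theorem tL_sub_ne_zero (c : L) : tL N L - algebraMap L (FL N L) c ≠ 0 := by
  intro h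
  have h1 : (tL N L : LaurentSeries L) = algebraMap L (LaurentSeries L) c := by
    have := congrArg (fun x : FL N L => (x : LaurentSeries L)) (sub_eq_zero.mp h)
    exact this
  have h2 : (coeffEmb L jq).order < 0 := by
    have h : (coeffEmb L jq).order ≤ -1 :=
      HahnSeries.order_le_of_coeff_ne_zero (by
        rw [coeffEmb_coeff, coeff_jq_neg_one, map_one]; exact one_ne_zero)
    omega
  have h3 : ((tL N L : FL N L) : LaurentSeries L) = coeffEmb L jq := rfl
  rw [h3] at h1
  rw [h1, order_algebraMap_laurent] at h2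
  exact lt_irrefl _ h2

theorem tL_ne_zero : tL N L ≠ 0 := by
  have := tL_sub_ne_zero (N := N) (L := L) 0
  rwa [map_zero, sub_zero] at this

/-! ### Automorphisms -/

/-- If `K₁` is algebraically closed in the algebraically closed field `L` and `c ∉ K₁`, then
some automorphism of `L` fixing `K₁` maps `c` to `c + n`. -/
theorem exists_aut_add [IsAlgClosed L] (K₁ : Subfield L) (hK₁ : AlgClosedIn K₁) {c : L}
    (hc : c ∉ K₁) (n : ℕ) :
    ∃ σ : L ≃ₐ[ℚ] L, (∀ a ∈ K₁, σ a = a) ∧ σ c = c + n := by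
  have htr : Transcendental K₁ c := fun halg => hc (hK₁ c halg)
  obtain ⟨σ, hσ⟩ := Fermat.Agent.S29.H32.exists_algEquiv_apply_eq_add (k := K₁) c htr (n : K₁)
  refine ⟨AlgEquiv.ofRingEquiv (f := σ.toRingEquiv) (fun r => ?_), fun a ha => ?_, ?_⟩
  · rw [eq_ratCast (algebraMap ℚ L) r]
    exact map_ratCast σ r
  · exact σ.commutes ⟨a, ha⟩
  · show σ c = c + n
    rw [hσ]
    simp

end Modular

section Rational

variable {N : ℕ} [NeZero N] {L : Type} [Field L] [Algebra ℚ L] [IsAlgClosed L]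
  [FF1 L (FL N L)]

/-- **ALGVAL**.  If `K₁` is algebraically closed in `L` and contains the `t`-value of `Q`, then
the place `Q` is rational over `K₁`. -/
theorem isRationalOver_of_tval_mem (K₁ : Subfield L) (hK₁ : AlgClosedIn K₁)
    (Q : Place L (FL N L)) (hQ : tval Q ∈ K₁) : IsRationalOver K₁ Q := by
  intro u c hc
  by_contra hcK
  have : CharZero L := algebraRat.charZero L
  -- a function `f ≠ 0`, fixed by `Aut(L/K₁)`, with `ord_Q f ≠ 0`
  obtain ⟨f, hf0, hfix, hord⟩ : ∃ f : FL N L, f ≠ 0 ∧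
      (∀ σ : L ≃ₐ[ℚ] L, (∀ a ∈ K₁, σ a = a) →
        arithmeticGalois (modularFunctionFieldFull N) σ • f = f) ∧ Q.ord f ≠ 0 := by
    by_cases ht : ∃ c : L, HasValue Q (tL N L) c
    · refine ⟨tL N L - algebraMap L (FL N L) (tval Q), tL_sub_ne_zero _, fun σ hσ => ?_, ?_⟩
      · rw [smul_sub, galois_smul_tL, galois_smul_algebraMap, hσ _ hQ]
      · have h := hasValue_tval ht
        rcases h with h | h
        · exact absurd h (tL_sub_ne_zero _)
        · exact h.ne'
    · refine ⟨tL N L, tL_ne_zero, fun σ _ => galois_smul_tL σ, ?_⟩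
      intro h0
      exact ht (exists_hasVal Q (deg_eq_one Q) h0.ge)
  -- the automorphisms
  choose σ hσ1 hσ2 using fun n : ℕ => exists_aut_add K₁ hK₁ hcK n
  let Pn : ℕ → Place L (FL N L) := fun n =>
    arithmeticGalois (modularFunctionFieldFull N) (σ n) • Q
  have hval : ∀ n, HasValue (Pn n) (bcQ N L u) (c + n) := by
    intro n
    have := hasValue_bcQ_smul (σ n) hc
    rwa [hσ2 n] at this
  have hinj : Function.Injective Pn := by
    intro n m hnm
    have h1 := hval n
    rw [hnm] at h1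
    have h2 : c + (n : L) = c + (m : L) := HasVal.unique h1 (hval m)
    exact_mod_cast add_left_cancel h2
  have hordn : ∀ n, (Pn n).ord f ≠ 0 := by
    intro n
    have h := SemilinearAut.ord_smul (arithmeticGalois (modularFunctionFieldFull N) (σ n)) Q f
    rw [hfix (σ n) (hσ1 n)] at h
    show (arithmeticGalois (modularFunctionFieldFull N) (σ n) • Q).ord f ≠ 0
    rw [h]
    exact hord
  have hfin := finite_setOf_ord_ne_zero (K := L) hf0
  exact Set.infinite_range_of_injective hinj (hfin.subset (by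
    rintro _ ⟨n, rfl⟩
    exact hordn n))

end Rational

end Fermat.Agent.S17.H830

end
end
-- ===== PACK-END S17/H830/NSRat.lean

-- ===== PACK-BEGIN S17/H830/NSAbs.lean
section




/-!
# S17 / G-DIV, piece NS (helper830), part 4: the abstract counting argument

General function field `F / K` with `FF1 K F`, semilinear automorphisms:

* `smul_divisor_eq_of_forall` : a divisor all of whose places are fixed is fixed;
* `ell_sub_prim_add_one_of_orbit` : if `D` is fixed by automorphisms `g n` which move `P` to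
  pairwise different places, `D P = 0` and `ℓ(D) ≥ 1`, then `ℓ(D - P) = ℓ(D) - 1`;
* `nsDiv W P i = W - P_0 - … - P_{i-1}` and `ell_sumPrim_eq_one` : if every step drops the
  dimension by one (starting from a canonical divisor `W`), then `ℓ(P_0 + … + P_{g-1}) = 1`.
-/

set_option autoImplicit false

noncomputable section

open AlgebraicCurve

namespace Fermat.Agent.S17.H830

open Fermat.Agent.Lib.RR

section Abstract

variable {K F : Type*} [Field K] [Field F] [Algebra K F]

/-- A divisor all of whose places are fixed is fixed. -/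
theorem smul_divisor_eq_of_forall (g : SemilinearAut K F) {D : Divisor K F}
    (h : ∀ v ∈ D.support, g • v = v) : g • D = D := by
  rw [SemilinearAut.divisor_smul_def]
  have h1 : Finsupp.mapDomain (g • ·) D = Finsupp.mapDomain id D :=
    Finsupp.mapDomain_congr (fun v hv => h v hv)
  rw [h1, Finsupp.mapDomain_id]

theorem prim_nonneg (P : Place K F) : (0 : Divisor K F) ≤ prim P := by
  intro v
  by_cases hv : v = P
  · subst hv
    rw [prim_apply_self]
    exact zero_le_one
  · rw [prim_apply_of_ne hv]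
    exact le_rfl

/-- A space `L(D)` of positive dimension contains a nonzero function. -/
theorem exists_ne_zero_of_ell_pos {D : Divisor K F} (h : 1 ≤ ell D) :
    ∃ f ∈ riemannRochSpace D, f ≠ 0 := by
  by_contra hcon
  have hbot : riemannRochSpace D = ⊥ := by
    rw [Submodule.eq_bot_iff]
    intro f hf
    by_contra hf0
    exact hcon ⟨f, hf, hf0⟩
  have h0 : ell D = 0 := by
    unfold ell
    rw [hbot]
    exact finrank_bot K F
  omega

variable [FF1 K F]

/-- **The step.**  If `D` is fixed by automorphisms `g n` moving `P` to pairwise different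
places, `D P = 0` and `ℓ(D) ≥ 1`, then `ℓ(D - P) + 1 = ℓ(D)`. -/
theorem ell_sub_prim_add_one_of_orbit (D : Divisor K F) (P : Place K F) (hDP : D P = 0)
    (hℓ : 1 ≤ ell D) (g : ℕ → SemilinearAut K F) (hgD : ∀ n, g n • D = D)
    (hinj : Function.Injective fun n => g n • P) :
    ell (D - prim P) + 1 = ell D := by
  classical
  have h1 : ell D ≤ ell (D - prim P) + 1 := by
    have := ell_add_prim_le (D - prim P) P
    rwa [sub_add_cancel] at this
  have hle : D - prim P ≤ D := sub_le_self D (prim_nonneg P)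
  have h2 : ell (D - prim P) ≤ ell D := ell_mono hle
  by_contra hne
  have heq : ell (D - prim P) = ell D := by omega
  have hLeq : riemannRochSpace (D - prim P) = riemannRochSpace D :=
    Submodule.eq_of_le_of_finrank_eq (L_mono hle) heq
  obtain ⟨f, hfD, hf0⟩ := exists_ne_zero_of_ell_pos hℓ
  have hgD' : ∀ n, (g n)⁻¹ • D = D := by
    intro n
    rw [inv_smul_eq_iff]
    exact (hgD n).symm
  have hord : ∀ n, (g n • P).ord f ≠ 0 := by
    intro n
    have hmem : (g n)⁻¹ • f ∈ riemannRochSpace (D - prim P) := by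
      rw [hLeq]
      have := Fermat.Agent.S17.H680.smul_mem_L (g n)⁻¹ hfD
      rwa [hgD' n] at this
    have hne0 : (g n)⁻¹ • f ≠ 0 := Fermat.Agent.S17.H680.smul_ne_zero (g n)⁻¹ hf0
    have h3 := (mem_L_iff.mp hmem P).resolve_left hne0
    have h4 : (D - prim P) P = -1 := by
      rw [Finsupp.sub_apply, hDP, prim_apply_self, zero_sub]
    rw [h4] at h3
    have h5 := SemilinearAut.ord_smul (g n) P ((g n)⁻¹ • f)
    rw [smul_inv_smul] at h5
    rw [h5]
    omega
  have hfin := finite_setOf_ord_ne_zero (K := K) hf0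
  exact Set.infinite_range_of_injective hinj (hfin.subset (by
    rintro _ ⟨n, rfl⟩
    exact hord n))

end Abstract

section NsDiv

variable {K F : Type*} [Field K] [Field F] [Algebra K F]

/-- The divisor `W - P_0 - … - P_{i-1}`. -/
def nsDiv {g : ℕ} (W : Divisor K F) (P : Fin g → Place K F) (i : ℕ) : Divisor K F :=
  W - ∑ j ∈ Finset.univ.filter (fun j : Fin g => j.val < i), prim (P j)

theorem nsDiv_zero {g : ℕ} (W : Divisor K F) (P : Fin g → Place K F) :
    nsDiv W P 0 = W := by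
  simp [nsDiv]

theorem nsDiv_succ {g : ℕ} (W : Divisor K F) (P : Fin g → Place K F) (i : ℕ)
    (hi : i < g) : nsDiv W P (i + 1) = nsDiv W P i - prim (P ⟨i, hi⟩) := by
  classical
  have hfilter : Finset.univ.filter (fun j : Fin g => j.val < i + 1)
      = insert (⟨i, hi⟩ : Fin g) (Finset.univ.filter (fun j : Fin g => j.val < i)) := by
    ext j
    simp only [Finset.mem_filter, Finset.mem_univ, true_and, Finset.mem_insert, Fin.ext_iff]
    omega
  have hnot : (⟨i, hi⟩ : Fin g) ∉ Finset.univ.filter (fun j : Fin g => j.val < i) := by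
    simp
  rw [nsDiv, nsDiv, hfilter, Finset.sum_insert hnot]
  abel

theorem nsDiv_self {g : ℕ} (W : Divisor K F) (P : Fin g → Place K F) :
    nsDiv W P g = W - ∑ j, prim (P j) := by
  have hfilter : Finset.univ.filter (fun j : Fin g => j.val < g) = Finset.univ := by
    ext j
    simp
  rw [nsDiv, hfilter]

/-- The support of `nsDiv W P i` consists of places of `supp W` and the `P j`, `j < i`. -/
theorem mem_support_nsDiv {g : ℕ} {W : Divisor K F} {P : Fin g → Place K F}
    {i : ℕ} {v : Place K F} (hv : v ∈ (nsDiv W P i).support) :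
    v ∈ W.support ∨ ∃ j : Fin g, j.val < i ∧ v = P j := by
  classical
  by_contra hcon
  rw [not_or, not_exists] at hcon
  obtain ⟨h1, h2⟩ := hcon
  apply Finsupp.mem_support_iff.mp hv
  have hW : W v = 0 := by
    by_contra h
    exact h1 (Finsupp.mem_support_iff.mpr h)
  rw [nsDiv, Finsupp.sub_apply, hW, Finsupp.finsetSum_apply, zero_sub, neg_eq_zero]
  apply Finset.sum_eq_zero
  intro j hj
  have hj' : j.val < i := (Finset.mem_filter.mp hj).2
  have hne : v ≠ P j := fun h => h2 j ⟨hj', h⟩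
  exact prim_apply_of_ne hne

/-- If every step drops the dimension, then `ℓ(W - ΣP) = 0` (`ℓ(W) = g`). -/
theorem ell_nsDiv_add {g : ℕ} (W : Divisor K F) (hW : ell W = g) (P : Fin g → Place K F)
    (hstep : ∀ (i : ℕ) (hi : i < g), 1 ≤ ell (nsDiv W P i) →
      ell (nsDiv W P i - prim (P ⟨i, hi⟩)) + 1 = ell (nsDiv W P i)) :
    ∀ i : ℕ, i ≤ g → ell (nsDiv W P i) + i = g := by
  intro i
  induction i with
  | zero =>
    intro _
    rw [nsDiv_zero, hW]
    rfl
  | succ i ih =>
    intro hi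
    have hi' : i < g := hi
    have ih' := ih hi'.le
    have h1 : 1 ≤ ell (nsDiv W P i) := by omega
    have h2 := hstep i hi' h1
    rw [nsDiv_succ W P i hi']
    omega

variable [FF1 K F]

/-- **Abstract NS.**  `W` canonical, every step drops the dimension ⟹ `ℓ(ΣP) = 1`. -/
theorem ell_sumPrim_eq_one {g : ℕ} (W : Divisor K F) (hW : ell W = g)
    (hRR : ∀ D : Divisor K F,
      (ell D : ℤ) = Divisor.degree D + 1 - (g : ℤ) + ell (W - D))
    (P : Fin g → Place K F)
    (hstep : ∀ (i : ℕ) (hi : i < g), 1 ≤ ell (nsDiv W P i) →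
      ell (nsDiv W P i - prim (P ⟨i, hi⟩)) + 1 = ell (nsDiv W P i)) :
    ell (∑ j, prim (P j)) = 1 := by
  have h0 : ell (W - ∑ j, prim (P j)) = 0 := by
    have := ell_nsDiv_add W hW P hstep g le_rfl
    rw [nsDiv_self] at this
    omega
  have hdeg : Divisor.degree (∑ j, prim (P j)) = (g : ℤ) := by
    simp [map_sum, degree_prim _ (deg_eq_one _)]
  have h1 := hRR (∑ j, prim (P j))
  rw [h0, hdeg] at h1
  have h2 : (ell (∑ j, prim (P j)) : ℤ) = 1 := by
    rw [h1]
    push_cast
    ring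
  exact_mod_cast h2

end NsDiv

end Fermat.Agent.S17.H830

end
end
-- ===== PACK-END S17/H830/NSAbs.lean

-- ===== PACK-BEGIN S17/H830/NSMain.lean
section




/-!
# S17 / G-DIV, piece NS (helper830): generic points are non-special

`stmtNS : StmtPLEXT N L → StmtNS N L` (exact frozen shape of `GDiv/Defs.lean`).

Proof.  `W` a canonical divisor (Riemann–Roch), `K₀ :=` the algebraic closure in `L` of
`K(t(Q) : Q ∈ supp W)`; it is countable, algebraically closed in `L`, and `W` is rational over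
`K₀` (ALGVAL).  For a tuple `P` generic over `K₀` put `D_i := W - P_0 - … - P_{i-1}` and
`K_i :=` the algebraic closure of `K₀(t(P_j) : j < i)`.  `D_i` is rational over `K_i`, hence fixed
by `Aut(L/K_i)` (PLEXT), while `t(P_i)` is transcendental over `K_i`, so the orbit of `P_i` under
`Aut(L/K_i)` is infinite.  If `ℓ(D_i - P_i) = ℓ(D_i) ≥ 1`, a nonzero `f ∈ L(D_i)` vanishes on the
whole orbit: impossible.  Hence `ℓ(D_i) = g - i`, `ℓ(W - ΣP_i) = 0` and `ℓ(ΣP_i) = 1`.
-/

set_option autoImplicit false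

noncomputable section

open AlgebraicCurve ModularCurve

namespace Fermat.Agent.S17.H830

open Fermat.Agent.Lib.RR Fermat.Agent.S17.GDiv Fermat.Agent.S17.H680

section Fix

variable {N : ℕ} [NeZero N] {L : Type} [Field L] [Algebra ℚ L]

omit [NeZero N] in
/-- A place rational over `K₁` is fixed by the automorphisms fixing `K₁` (from PLEXT). -/
theorem galois_smul_eq_of_rational (hPLEXT : StmtPLEXT N L) {K₁ : Subfield L}
    {P : Place L (FL N L)} (hP : IsRationalOver K₁ P) (σ : L ≃ₐ[ℚ] L)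
    (hσ : ∀ a ∈ K₁, σ a = a) :
    arithmeticGalois (modularFunctionFieldFull N) σ • P = P := by
  symm
  apply hPLEXT
  intro u c hc
  have h := hasValue_bcQ_smul σ hc
  rwa [hσ c (hP u c hc)] at h

omit [NeZero N] in
theorem galois_smul_divisor_eq (hPLEXT : StmtPLEXT N L) {K₁ : Subfield L}
    {D : Divisor L (FL N L)} (hD : DivRationalOver K₁ D) (σ : L ≃ₐ[ℚ] L)
    (hσ : ∀ a ∈ K₁, σ a = a) :
    arithmeticGalois (modularFunctionFieldFull N) σ • D = D :=
  smul_divisor_eq_of_forall _ fun v hv => galois_smul_eq_of_rational hPLEXT (hD v hv) σ hσ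

end Fix

section Step

variable {N : ℕ} [NeZero N] {L : Type} [Field L] [Algebra ℚ L] [IsAlgClosed L]
  [FF1 L (FL N L)]

/-- **The step.**  If `D` is rational over `K'` (algebraically closed in `L`), `ℓ(D) ≥ 1` and the
`t`-value of `P` does not lie in `K'`, then `ℓ(D - P) = ℓ(D) - 1`. -/
theorem ell_sub_prim_add_one (hPLEXT : StmtPLEXT N L) (K' : Subfield L) (hK' : AlgClosedIn K')
    (D : Divisor L (FL N L)) (hD : DivRationalOver K' D) (P : Place L (FL N L))
    (hP : ∃ c : L, HasValue P (tL N L) c) (hτ : tval P ∉ K') (hℓ : 1 ≤ ell D) :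
    ell (D - prim P) + 1 = ell D := by
  classical
  have : CharZero L := algebraRat.charZero L
  -- `P` is not in the support of `D`
  have hDP : D P = 0 := by
    by_contra h
    have hmem : P ∈ D.support := Finsupp.mem_support_iff.mpr h
    exact hτ (hD P hmem (jQ N) (tval P) (hasValue_tval hP))
  -- the automorphisms
  choose σ hσ1 hσ2 using fun n : ℕ => exists_aut_add K' hK' hτ n
  refine ell_sub_prim_add_one_of_orbit D P hDP hℓ
    (fun n => arithmeticGalois (modularFunctionFieldFull N) (σ n))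
    (fun n => galois_smul_divisor_eq hPLEXT hD (σ n) (hσ1 n)) ?_
  have htv : ∀ n : ℕ, tval (arithmeticGalois (modularFunctionFieldFull N) (σ n) • P)
      = tval P + n := by
    intro n
    rw [tval_smul (σ n) hP, hσ2 n]
  intro n m hnm
  have h3 : tval P + (n : L) = tval P + (m : L) := by
    rw [← htv n, ← htv m]
    exact congrArg tval hnm
  exact_mod_cast add_left_cancel h3

end Step

section Main

variable {N : ℕ} [NeZero N] {L : Type} [Field L] [Algebra ℚ L] [IsAlgClosed L]
  [FF1 L (FL N L)]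

/-- **NS** (generic points are non-special), from PLEXT. -/
theorem stmtNS (hPLEXT : StmtPLEXT N L) : StmtNS N L := by
  classical
  intro K hK
  obtain ⟨W, -, hellW, hRR⟩ := riemann_roch (K := L) (F := FL N L)
  rw [genusFF_eq_genusR] at hellW
  simp only [genusFF_eq_genusR] at hRR
  have hT : (tval '' (W.support : Set (Place L (FL N L)))).Countable :=
    (W.support.finite_toSet.image _).countable
  refine ⟨aclo K (tval '' (W.support : Set (Place L (FL N L)))), le_aclo K _,
    aclo_algClosed K _, countable_aclo hK hT, ?_⟩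
  intro P hP
  have hW : DivRationalOver (aclo K (tval '' (W.support : Set (Place L (FL N L))))) W :=
    fun Q hQ => isRationalOver_of_tval_mem _ (aclo_algClosed K _) Q
      (subset_aclo K _ ⟨Q, hQ, rfl⟩)
  refine ell_sumPrim_eq_one W hellW hRR P ?_
  intro i hi h1
  have hK'a : AlgClosedIn (aclo (aclo K (tval '' (W.support : Set (Place L (FL N L)))))
      ((fun j => tval (P j)) '' {j : Fin (gL N L) | j.val < i})) := aclo_algClosed _ _
  have hDrat : DivRationalOver (aclo (aclo K (tval '' (W.support : Set (Place L (FL N L)))))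
      ((fun j => tval (P j)) '' {j : Fin (gL N L) | j.val < i})) (nsDiv W P i) := by
    intro v hv
    rcases mem_support_nsDiv hv with h | ⟨j, hj, rfl⟩
    · exact fun u c hc => le_aclo _ _ (hW v h u c hc)
    · exact isRationalOver_of_tval_mem _ hK'a (P j) (subset_aclo _ _ ⟨j, hj, rfl⟩)
  have hτ : tval (P ⟨i, hi⟩) ∉ aclo (aclo K (tval '' (W.support : Set (Place L (FL N L)))))
      ((fun j => tval (P j)) '' {j : Fin (gL N L) | j.val < i}) :=
    not_mem_aclo_of_algebraicIndependent hP.2 (s := {j : Fin (gL N L) | j.val < i})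
      (i := ⟨i, hi⟩) (fun h => lt_irrefl i h)
  exact ell_sub_prim_add_one hPLEXT _ hK'a (nsDiv W P i) hDrat (P ⟨i, hi⟩) (hP.1 ⟨i, hi⟩) hτ h1

end Main

end Fermat.Agent.S17.H830

end
end
-- ===== PACK-END S17/H830/NSMain.lean

-- ===== PACK-BEGIN S17/GDiv/Final.lean
section











/-!
# S17 / tower G-DIV: `J₀(N)(ℚ̄)` is divisible  (architect helper797)

`divisible : ∀ x : JZero N, ∃ y, n • y = x` for every `n ≠ 0`, UNCONDITIONALLY.

Instantiation of `GDiv.divisible_of` at `L = ℂ` with one copy of every piece of route v2.1: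

| piece | file | owner |
|---|---|---|
| BC, ZRAT, CUSPRAT, `ff1_FL` | `S17/H871/{BC,ZRat}.lean` | helper871 |
| DEREX, DPRES | `S17/H770/DerStmt.lean` | helper770 |
| DER (= DER-a + DER-b) | `S17/H711/Der.lean` | helper770, helper711, helper800 |
| CORE, RIG | `S17/H917/CoreRig.lean` | helper917 |
| PLEXT | `S17/H200/Plext.lean` | helper200 |
| NS | `S17/H830/NSMain.lean` | helper830 |
| GEN | `S17/H137/Gen.lean` | helper137 |
| GENSTAB | `S17/H560/GenStab.lean` | helper560 |
| TRANS | `S17/H20/TransStmt.lean` | helper20 |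
-/

set_option autoImplicit false
set_option linter.style.haveILetI false

noncomputable section

namespace Fermat.Agent.S17.GDiv

open AlgebraicCurve ModularCurve Fermat.Agent.Lib.RR

/-- The chosen embedding `ℚ̄ → ℂ`. -/
def embQbC : Qb →+* ℂ :=
  letI : Algebra ℚ (AlgebraicClosure ℚ) := AlgebraicClosure.instAlgebra ℚ
  haveI : Algebra.IsAlgebraic ℚ (AlgebraicClosure ℚ) := AlgebraicClosure.isAlgebraic ℚ
  ((IsAlgClosed.lift : AlgebraicClosure ℚ →ₐ[ℚ] ℂ) : AlgebraicClosure ℚ →+* ℂ)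

/-- The `ℚ̄`-algebra structure of `ℂ` used in the instantiation. -/
@[reducible] def algQbC : Algebra Qb ℂ := embQbC.toAlgebra

/-- `ℚ̄` is countable. -/
theorem countable_Qb : Countable Qb := by
  letI : Algebra ℚ (AlgebraicClosure ℚ) := AlgebraicClosure.instAlgebra ℚ
  haveI : Algebra.IsAlgebraic ℚ (AlgebraicClosure ℚ) := AlgebraicClosure.isAlgebraic ℚ
  have h := Algebra.IsAlgebraic.cardinalMk_le_max ℚ (AlgebraicClosure ℚ)
  rw [Cardinal.mk_eq_aleph0 ℚ, max_self] at h
  exact Cardinal.mk_le_aleph0_iff.mp h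

/-- `ℂ` is uncountable. -/
theorem uncountable_complex : Uncountable ℂ := by
  rw [← Cardinal.aleph0_lt_mk_iff, Cardinal.mk_complex]
  exact Cardinal.aleph0_lt_continuum

section Abstract

variable (L : Type) [Field L] [Algebra Qb L]

/-- The image of `ℚ̄` in `L` is countable. -/
theorem countable_kL : ((kL L : Subfield L) : Set L).Countable := by
  haveI := countable_Qb
  have : ((kL L : Subfield L) : Set L) = Set.range (algebraMap Qb L) := by
    ext x
    simp [kL]
  rw [this]
  exact Set.countable_range _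

/-- The image of `ℚ̄` in `L` is algebraically closed in `L`. -/
theorem algClosedIn_kL : AlgClosedIn (kL L) := by
  intro x hx
  have hx' : IsAlgebraic Qb x :=
    IsAlgebraic.of_ringHom_of_comp_eq (R := Qb) (S := kL L) (A := L) (B := L)
      (algebraMap Qb L).rangeRestrictField (RingHom.id L) (a := x) hx
      (algebraMap Qb L).rangeRestrictField_bijective.2 Function.injective_id
      (by ext y; rfl)
  have hint : IsIntegral Qb x := hx'.isIntegral
  obtain ⟨z, hz⟩ := minpoly.mem_range_of_degree_eq_one Qb x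
    (IsAlgClosed.degree_eq_one_of_irreducible Qb (minpoly.irreducible hint))
  exact ⟨z, hz⟩

end Abstract

/-- **G-DIV over any uncountable algebraically closed field of characteristic zero receiving
`ℚ̄`** (all pieces instantiated). -/
theorem divisible_over (N : ℕ) [NeZero N] (L : Type) [Field L] [Algebra ℚ L] [Algebra Qb L]
    [IsAlgClosed L] [Uncountable L] (n : ℕ) (hn : n ≠ 0) (x : JZero N) :
    ∃ y : JZero N, n • y = x := by
  haveI : FF1 L (FL N L) := Fermat.Agent.S17.H871.ff1_FL N L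
  have hZRAT : StmtZRAT N L := Fermat.Agent.S17.H871.stmtZRAT N L
  have hCUSP : StmtCUSPRAT N L := Fermat.Agent.S17.H871.stmtCUSPRAT N L
  have hBC : StmtBC N L := Fermat.Agent.S17.H871.stmtBC N L
  have hDER : StmtDER N L := Fermat.Agent.S17.H711.stmtDER N L
  have hDEREX : StmtDEREX L := Fermat.Agent.S17.H770.stmtDEREX L
  have hDPRES : StmtDPRES N L := Fermat.Agent.S17.H770.stmtDPRES N L
  have hCORE : StmtCORE N L := Fermat.Agent.S17.H917.stmtCORE hDER hDEREX hDPRES
  have hRIG : StmtRIG N L := Fermat.Agent.S17.H917.stmtRIG hCORE hZRAT hCUSP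
  have hPLEXT : StmtPLEXT N L := Fermat.Agent.S17.H200.stmtPLEXT
  have hNS : StmtNS N L := Fermat.Agent.S17.H830.stmtNS hPLEXT
  have hGEN : StmtGEN N L := Fermat.Agent.S17.H137.stmtGEN N L
  have hSTAB : StmtGENSTAB N L := Fermat.Agent.S17.H560.stmtGENSTAB hRIG hCUSP hZRAT
  have hTRANS : StmtTRANS N L := Fermat.Agent.S17.H20.stmtTRANS hPLEXT hZRAT
  exact divisible_of N L (countable_kL L) (algClosedIn_kL L) hBC hRIG hNS hGEN hSTAB hTRANS
    n hn x

/-- **G-DIV**: the group `J₀(N)(ℚ̄)` is divisible. -/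
theorem divisible (N : ℕ) [NeZero N] (n : ℕ) (hn : n ≠ 0) (x : JZero N) :
    ∃ y : JZero N, n • y = x := by
  letI : Algebra Qb ℂ := algQbC
  haveI : Uncountable ℂ := uncountable_complex
  exact divisible_over N ℂ n hn x

end Fermat.Agent.S17.GDiv

end
end
-- ===== PACK-END S17/GDiv/Final.lean

-- ===== PACK-BEGIN S17/H677/UnramifiedFinal.lean
section






/-!
# S17 piece W-UNR, UNCONDITIONAL (helper677)

`unramified_division`: the skeleton statement `Skel.unramified_division` of row S17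
(`origin/helper17:Fermat/Agent/S17/Skeleton.lean`), verbatim and without extra hypotheses:

  for `N ≥ 5` prime, `n ≠ 0`, `ℓ ∤ nN` prime, `A` a valuation subring of `ℚ̄` over `ℓ`,
  `σ` in the inertia group of `A`, and `y ∈ J₀(N)` with `n • y` rational:  `σ • y = y`.

Proof: `unramified_division_of_hub` (this seat, on main) needs the hub
`Fermat.Agent.S18.CoreStatement N A n` for every `A` over `ℓ`; row S18 landed it for prime
exponents (`Integ.coreStatement_of_mod_alg` with the closed nodes `Mod.H216.node_mod`,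
`H438.node_alg`), and `H694.coreStatement_of_prime` passes from primes to all `n` prime to `ℓ`.
-/

set_option autoImplicit false
set_option linter.style.haveILetI false

noncomputable section

namespace Fermat.Agent.S17.H677

open ModularCurve AlgebraicCurve

/-- The S18 hub at level `N` for every exponent prime to `ℓ`, unconditionally. -/
theorem coreAt_of_s18 (N : ℕ) [NeZero N] (n ℓ : ℕ) (hℓ : ℓ.Prime) (hℓN : ¬ ℓ ∣ N)
    (hℓn : ¬ ℓ ∣ n) : CoreAt N ℓ n := by
  haveI : Fact ℓ.Prime := ⟨hℓ⟩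
  haveI : NeZero (Fermat.Agent.S18.Integ.levelM N ℓ) :=
    ⟨Fermat.Agent.S18.Integ.levelM_ne_zero N ℓ⟩
  intro A hA
  refine Fermat.Agent.S18.H694.coreStatement_of_prime hℓN hA (fun p hp hℓp => ?_) n hℓn
  exact Fermat.Agent.S18.Integ.coreStatement_of_mod_alg N hℓN A hA p hp hℓp
    (Fermat.Agent.S18.Mod.H216.node_mod (Fermat.Agent.S18.Integ.levelM N ℓ)
      (Fermat.Agent.S18.Integ.not_dvd_levelM N hℓN) A hA)
    (Fermat.Agent.S18.H438.node_alg (Fermat.Agent.S18.Integ.levelM N ℓ))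

/-- **W-UNR** (skeleton statement `Skel.unramified_division`, verbatim, unconditional). -/
theorem unramified_division
    (N : ℕ) [NeZero N] (hN : N.Prime) (hN5 : 5 ≤ N) (n : ℕ) (hn : n ≠ 0)
    (ℓ : ℕ) (hℓ : ℓ.Prime) (hℓn : ¬ ℓ ∣ n * N)
    (A : ValuationSubring (AlgebraicClosure ℚ)) (hA : A.LiesOverPrime ℓ)
    (σ : AlgebraicClosure ℚ ≃ₐ[ℚ] AlgebraicClosure ℚ) (hσ : σ ∈ A.inertiaSubgroupIn ℚ)
    (y : JZero N)
    (hy : n • y ∈
      FixedPoints.addSubgroup (AlgebraicClosure ℚ ≃ₐ[ℚ] AlgebraicClosure ℚ) (JZero N)) :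
    σ • y = y :=
  unramified_division_of_hub N hN hN5 n hn ℓ hℓ hℓn
    (coreAt_of_s18 N n ℓ hℓ (fun h => hℓn (Dvd.dvd.mul_left h n))
      (fun h => hℓn (Dvd.dvd.mul_right h N)))
    A hA σ hσ y hy

end Fermat.Agent.S17.H677

end
end
-- ===== PACK-END S17/H677/UnramifiedFinal.lean

-- ===== PACK-BEGIN S17/H17/Top.lean
section






/-!
# S17 (row-lead helper17): the frozen statement from tower H alone

`result_of_height` : the frozen statement S17 from `HasDescentHeight N 2`.
Towers W (BASE-1 `H77`, W-KUM `H857`, W-UNR `H677` unconditional via the S18 hub, W-HM `H497`)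
and G (G-TORS `H317`, G-DIV `GDiv.divisible`) are on main and wired here.
-/

set_option autoImplicit false

noncomputable section

namespace Fermat.Agent.S17.H17

open ModularCurve AlgebraicCurve

/-- **S17 from a descent height.** -/
theorem result_of_height (N : ℕ) [NeZero N] (hN : N.Prime) (hN5 : 5 ≤ N)
    (hH : HasDescentHeight N 2) :
    AddGroup.FG ↥(FixedPoints.addSubgroup ((AlgebraicClosure ℚ) ≃ₐ[ℚ] (AlgebraicClosure ℚ))
      (JZero N)) := by
  classical
  refine result_of_unr N 2 le_rfl (Fermat.Agent.S17.H317.torsion_finite N 2 two_ne_zero)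
    (fun x => Fermat.Agent.S17.GDiv.divisible N 2 two_ne_zero x)
    ((2 * N).primeFactors) ?_
    (fun d => Fermat.Agent.S17.H497.finite_unramified_fields _ d) hH
  intro ℓ hℓ hℓS A hA σ hσ y hy
  refine Fermat.Agent.S17.H677.unramified_division N hN hN5 2 two_ne_zero ℓ hℓ ?_ A hA σ hσ y hy
  intro hdvd
  exact hℓS (Nat.mem_primeFactors.mpr ⟨hℓ, hdvd, mul_ne_zero two_ne_zero hN.ne_zero⟩)

end Fermat.Agent.S17.H17

end
end
-- ===== PACK-END S17/H17/Top.lean

-- ===== PACK-BEGIN S17/H500/Formal.lean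
section











/-!
# S17 / tower H : the FORMAL layer, assembled (architect helper500)

Everything here is complete (no open leaf):

* `formal P : EndStatement A` for every `P : PairingPackage A`
  (leaves F-B, F-INV `H587`, F-WD, F-QP `H637`, F-ELL `H199`, F-KEY `H924`, F-POS `H934`,
  F-END `H924`);
* `hasDescentHeight_of_package : PairingPackage (MW N) → HasDescentHeight N 2`
  (via `H737.descent_data_of_pairing_height`);
* `hasDescentHeight_of_genus_zero` (via `H80.pic0_eq_zero_of_genusR_eq_zero`);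
* `hasDescentHeight_of_exists_package` : tower H is reduced to the single statement
  `1 ≤ genusR → Nonempty (PairingPackage (MW N))`  (the geometric layer / TOP-GLUE + WALL).
-/

set_option autoImplicit false

noncomputable section

namespace Fermat.Agent.S17.H500

open Fermat.Agent.S17.H17 Fermat.Agent.Lib.RR ModularCurve AlgebraicCurve

/-- **The formal layer of tower H.** Every pairing package yields the hypotheses of the abstract
descent-height lemma `H737.descent_data_of_pairing_height`. -/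
theorem formal {A : Type} [AddCommGroup A] (P : PairingPackage A) : EndStatement A := by
  have hBZ := Fermat.Agent.S17.H587.bz P
  have hInv := Fermat.Agent.S17.H587.inv P hBZ
  obtain ⟨q, hq⟩ := Fermat.Agent.S17.H637.wd P hInv
  obtain ⟨l, hl⟩ := Fermat.Agent.S17.H199.ell P
  exact Fermat.Agent.S17.H924.end_of P q l (Fermat.Agent.S17.H637.qp P hBZ hInv q hq) hl
    (Fermat.Agent.S17.H934.pos P q l hq hl (Fermat.Agent.S17.H924.key P))

/-- A pairing package on the Mordell--Weil group gives the descent height. -/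
theorem hasDescentHeight_of_package (N : ℕ) (P : PairingPackage (MW N)) :
    HasDescentHeight N 2 := by
  obtain ⟨q, l, ν, C, c₁, c₂, hc₁, hq, hl, hν0, hν, hpos⟩ := formal P
  exact Fermat.Agent.S17.H737.descent_data_of_pairing_height q l ν C c₁ c₂ hc₁ hq hl hν0 hν hpos

/-- The trivial descent height on a trivial group. -/
theorem hasDescentHeight_of_subsingleton (N : ℕ) [Subsingleton (MW N)] :
    HasDescentHeight N 2 := by
  refine ⟨fun _ => 0, 0, 1, 0, fun _ => 0, le_refl _, zero_lt_one, ?_, ?_, ?_⟩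
  · intro B
    exact Set.toFinite _
  · intro g x; simp
  · intro x; simp

/-- Genus zero: `J₀(N)` is trivial. -/
theorem hasDescentHeight_of_genus_zero (N : ℕ) [NeZero N]
    (hg0 : genusR (AlgebraicClosure ℚ) (modularFunctionFieldBar N) = 0) :
    HasDescentHeight N 2 := by
  have : Subsingleton (JZero N) :=
    ⟨fun x y => (Fermat.Agent.S17.H80.pic0_eq_zero_of_genusR_eq_zero hg0 x).trans
      (Fermat.Agent.S17.H80.pic0_eq_zero_of_genusR_eq_zero hg0 y).symm⟩
  have : Subsingleton (MW N) := ⟨fun x y => Subtype.ext (Subsingleton.elim _ _)⟩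
  exact hasDescentHeight_of_subsingleton N

/-- **Tower H, reduced to the existence of a pairing package in genus `≥ 1`.** -/
theorem hasDescentHeight_of_exists_package (N : ℕ) [NeZero N]
    (h : 1 ≤ genusR (AlgebraicClosure ℚ) (modularFunctionFieldBar N) →
      Nonempty (PairingPackage (MW N))) :
    HasDescentHeight N 2 := by
  by_cases hg : 1 ≤ genusR (AlgebraicClosure ℚ) (modularFunctionFieldBar N)
  · obtain ⟨P⟩ := h hg
    exact hasDescentHeight_of_package N P
  · exact hasDescentHeight_of_genus_zero N (by omega)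

end Fermat.Agent.S17.H500

end
end
-- ===== PACK-END S17/H500/Formal.lean

-- ===== PACK-BEGIN S17/H500/TopGlue.lean
section



/-!
# S17 / tower H : TOP-GLUE, the master statement (architect helper500)

* `hasDescentHeight_of_leaves` : `HasDescentHeight N 2` from a `TopInput` for `X₀(N)` and the
  leaves of TOP-GLUE (`Top.Leaves I`, one `Prop` per field of the pairing package).
* `GaussPlusStatement F₀ E` : the interface with the GAUSS team (existence of `Rt`, `c`);
  `TopInput.ofGauss` builds a `TopInput` from it.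
* `Top.Goal N` : what remains to be proved for tower H in genus `≥ 1`;
  `hasDescentHeight_of_goal` : tower H from it (genus zero is done).

Everything here is complete.
-/

set_option autoImplicit false

noncomputable section

open AlgebraicCurve

namespace Fermat.Agent.S17.H500.Top

open Fermat.Agent.Lib.RR Fermat.Agent.S17.HWall Fermat.Agent.S17.HContract
open Fermat.Agent.S17.H77 Fermat.Agent.S17.H680 Fermat.Agent.S17.H980 ModularCurve

/-- **TOP-GLUE, master statement.** -/
theorem hasDescentHeight_of_leaves (N : ℕ) [NeZero N]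
    (I : TopInput (modularFunctionFieldFull N))
    (h : Leaves I) : Fermat.Agent.S17.H17.HasDescentHeight N 2 :=
  hasDescentHeight_of_package N (mkPackage I h)

variable (F₀ : IntermediateField ℚ (LaurentSeries ℚ)) [FF1 Qb (laurentBaseChange Qb F₀)]

/-- **(GAUSS⁺), interface with the GAUSS team**: `κ(P) = (Rt . P) - c (∞ . P) + O(1)` for an
effective Galois-invariant divisor `Rt` prime to `∞` with `deg Rt = 2g - 2 + c`
(`Rt - c ∞ = div(dt)` for a Galois-fixed coordinate `t`). -/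
def GaussPlusStatement (E : EmbData Qb (laurentBaseChange Qb F₀)) : Prop :=
  ∃ (Rt : Divisor Qb (laurentBaseChange Qb F₀)) (c : ℕ) (C : ℝ),
    0 ≤ Rt ∧ IsInvariant F₀ Rt ∧ Rt E.vinf = 0 ∧
    Divisor.degree Rt = 2 * (genusR Qb (laurentBaseChange Qb F₀) : ℤ) - 2 + c ∧
    ∀ P : Place Qb (laurentBaseChange Qb F₀), Rt P = 0 → P ≠ E.vinf →
      |kap E P - (pairPt E Rt P - (c : ℝ) * hD E E.vinf P)| ≤ C

variable {F₀}

/-- A `TopInput` from an embedding and (GAUSS⁺). -/
theorem exists_topInput (E : EmbData Qb (laurentBaseChange Qb F₀))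
    (hxfix : ∀ i, IsFixed F₀ (E.x i)) (hinf : IsInvariant F₀ (prim E.vinf))
    (hx0 : E.x 0 = 1) (d : ℕ)
    (hg : 1 ≤ genusR Qb (laurentBaseChange Qb F₀))
    (hd : 2 * genusR Qb (laurentBaseChange Qb F₀) ≤ d)
    (hm : 4 * d + 2 * genusR Qb (laurentBaseChange Qb F₀) ≤ E.m)
    (hG : GaussPlusStatement F₀ E) :
    ∃ I : TopInput F₀, I.E = E ∧ I.d = d ∧ GaussPlus I := by
  obtain ⟨Rt, c, C, h0, hinv, hRinf, hdeg, hb⟩ := hG
  exact ⟨⟨E, hxfix, hinf, hx0, d, Rt, h0, hinv, hRinf, c, hdeg, hg, hd, hm⟩, rfl, rfl, C, hb⟩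

/-- **What remains to be proved for tower H** (genus `≥ 1`): an input with all its leaves. -/
def Goal (N : ℕ) [NeZero N] : Prop :=
  1 ≤ genusR Qb (laurentBaseChange Qb (modularFunctionFieldFull N)) →
    ∃ I : TopInput (modularFunctionFieldFull N), Leaves I

/-- **Tower H from the goal of TOP-GLUE.** -/
theorem hasDescentHeight_of_goal (N : ℕ) [NeZero N] (h : Goal N) :
    Fermat.Agent.S17.H17.HasDescentHeight N 2 := by
  refine hasDescentHeight_of_exists_package N fun hg => ?_
  obtain ⟨I, hI⟩ := h hg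
  exact ⟨mkPackage I hI⟩

end Fermat.Agent.S17.H500.Top

end
end
-- ===== PACK-END S17/H500/TopGlue.lean

-- ===== PACK-BEGIN S17/H497/RtData.lean
section





/-!
# S17 / tower H — bridge RT-DATA (helper497): `GAUSSCanStatement E ⟹ GaussPlusStatement F₀ E`

TOP needs (GAUSS) at a canonical divisor of the shape `K₀ = Rt − c ∞` with `Rt ≥ 0`
GALOIS-INVARIANT and prime to `∞`.  The GAUSS sub-project delivers `HContract.GAUSSCanStatement E`
((GAUSS) at `div ω` for every Kähler differential `ω ≠ 0`).  Here is the bridge: for a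
non-constant function `t ∈ L(m ∞)` (poles at `∞` only) take `ω = dt`, `W = div(dt)`,
`c = − W(∞) ≥ 2`, `Rt = W + c ∞`.

Abstract part (`K` algebraically closed of characteristic `0`, `[FF1 K F]`):

* `exists_const_ord_sub_ne_zero497` : at every place some `t − const` has nonzero order;
* `D_ne_zero_of_ord_neg497`         : `dt ≠ 0` if `t` has a pole;
* `ordDifferential_D_smul497`       : `div(dt)` is invariant under a semilinear automorphism
                                      fixing `t`;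
* `exists_rt497`                    : the data `W`, `Rt`, `c` with all their properties.

Galois part (`F = laurentBaseChange ℚ̄ F₀`):

* `isInvariant_divD497`     : `div(dt)` is Galois-invariant for a Galois-fixed `t`;
* `exists_rtData497`        : `Rt ≥ 0` invariant, `Rt(∞) = 0`, `deg Rt = 2g − 2 + c`, `2 ≤ c`, and
                              `GaussRtStatement E Rt c` (the input of `H35.gauss_sum`/`H35.gauss`);
* `exists_rtData_deg497`    : the same with `c` replaced by `deg Rt − (2g − 2)`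
                              (shape of `H736.TopInput` + `H35.gauss`);
* `gaussPlus_of_gaussCan497`: `GAUSSCanStatement E → H500.Top.GaussPlusStatement F₀ E`;
* `gaussPlus_of_gaussCan_x497` : the same with `t` found among the (fixed) basis `E.x`.
-/

set_option autoImplicit false

noncomputable section

open AlgebraicCurve KaehlerDifferential

namespace Fermat.Agent.S17.H497

open Fermat.Agent.Lib.RR Fermat.Agent.S17.HWall Fermat.Agent.S17.HContract

section Abstract

variable {K F : Type*} [Field K] [Field F] [Algebra K F] [FF1 K F]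

/-- At every place, some `t − const` has nonzero order (for `t` non-constant). -/
theorem exists_const_ord_sub_ne_zero497 (v : Place K F) {t : F}
    (hnc : t ∉ Set.range (algebraMap K F)) :
    ∃ c : K, v.ord (t - algebraMap K F c) ≠ 0 := by
  by_cases h : 0 ≤ v.ord t
  · obtain ⟨c, hc | hc⟩ := exists_const_sub v (deg_eq_one v) h
    · exact absurd ⟨c, (sub_eq_zero.mp hc).symm⟩ hnc
    · exact ⟨c, hc.ne'⟩
  · refine ⟨0, ?_⟩
    rw [map_zero, sub_zero]
    omega

/-- A function of `L(m ∞)` which is regular at `∞` is constant. -/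
theorem mem_range_of_mem_L_of_ord_nonneg497 {vinf : Place K F} {m : ℕ} {t : F}
    (ht : t ∈ riemannRochSpace (m • prim vinf)) (h : 0 ≤ vinf.ord t) :
    t ∈ Set.range (algebraMap K F) := by
  have h0 : t ∈ riemannRochSpace (0 : Divisor K F) := by
    rw [mem_L_iff] at ht ⊢
    intro v
    rcases ht v with h1 | h1
    · exact Or.inl h1
    · right
      by_cases hv : v = vinf
      · subst hv
        simpa using h
      · rw [Finsupp.smul_apply, prim_apply_of_ne hv, smul_zero, neg_zero] at h1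
        simpa using h1
  rw [L_zero] at h0
  obtain ⟨c, hc⟩ := h0
  exact ⟨c, hc⟩

/-- A non-constant function of `L(m ∞)` has a pole at `∞`. -/
theorem ord_neg_of_mem_L497 {vinf : Place K F} {m : ℕ} {t : F}
    (ht : t ∈ riemannRochSpace (m • prim vinf)) (hnc : t ∉ Set.range (algebraMap K F)) :
    vinf.ord t < 0 := by
  by_contra h
  exact hnc (mem_range_of_mem_L_of_ord_nonneg497 ht (not_lt.mp h))

/-- A function of `L(m ∞)` is regular away from `∞`. -/
theorem ord_nonneg_of_mem_L497 {vinf : Place K F} {m : ℕ} {t : F}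
    (ht : t ∈ riemannRochSpace (m • prim vinf)) {v : Place K F} (hv : v ≠ vinf) :
    0 ≤ v.ord t := by
  rcases (mem_L_iff.mp ht) v with h1 | h1
  · rw [h1, v.ord_zero]
  · rw [Finsupp.smul_apply, prim_apply_of_ne hv, smul_zero, neg_zero] at h1
    exact h1

variable [IsAlgClosed K] [CharZero K]

/-- `dt ≠ 0` if `t` has a pole. -/
theorem D_ne_zero_of_ord_neg497 (v : Place K F) {t : F} (h : v.ord t < 0) : D K F t ≠ 0 := by
  intro h0
  have h1 := Fermat.Agent.Lib.RR.H80.ordDifferential_D_eq v (f := t) (by omega)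
  have hgen := Fermat.Agent.Lib.RR.H80.dCoordGenerates_of_FF1 v
  have hnt : Nontrivial Ω[F⁄K] := by
    obtain ⟨ω, hω⟩ := Fermat.Agent.Lib.RR.H80.exists_kaehler_ne_zero K F
    exact ⟨⟨ω, 0, hω⟩⟩
  rw [h0, Place.ordDifferential, Place.differentialCoeff_zero, v.ord_zero] at h1
  omega

/-- **`div(dt)` is invariant under every semilinear automorphism fixing `t`.** -/
theorem ordDifferential_D_smul497 (g : SemilinearAut K F) {t : F} (ht : g • t = t)
    (hnc : t ∉ Set.range (algebraMap K F)) (v : Place K F) :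
    (g • v).ordDifferential (D K F t) = v.ordDifferential (D K F t) := by
  obtain ⟨c, hc⟩ := exists_const_ord_sub_ne_zero497 v hnc
  have e : g • (t - algebraMap K F c) = t - algebraMap K F (SemilinearAut.baseAut g c) := by
    rw [smul_sub, ht, SemilinearAut.smul_algebraMap]
  have h1 : (g • v).ord (t - algebraMap K F (SemilinearAut.baseAut g c)) =
      v.ord (t - algebraMap K F c) := by
    rw [← e]
    exact SemilinearAut.ord_smul g v _
  rw [Fermat.Agent.Lib.RR.H80.ordDifferential_D_eq_sub v c hc,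
    Fermat.Agent.Lib.RR.H80.ordDifferential_D_eq_sub (g • v) (SemilinearAut.baseAut g c)
      (by rw [h1]; exact hc), h1]

/-- **The ramification data of a coordinate `t ∈ L(m ∞)`**: `W = div(dt)`, `c = − W(∞) ≥ 2`,
`Rt = W + c ∞ ≥ 0`, `Rt(∞) = 0`, `deg Rt = 2g − 2 + c`. -/
theorem exists_rt497 (vinf : Place K F) (m : ℕ) {t : F}
    (ht : t ∈ riemannRochSpace (m • prim vinf)) (hnc : t ∉ Set.range (algebraMap K F)) :
    ∃ (W Rt : Divisor K F) (c : ℕ), D K F t ≠ 0 ∧
      (∀ v : Place K F, W v = v.ordDifferential (D K F t)) ∧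
      Rt = W + c • prim vinf ∧ 0 ≤ Rt ∧ Rt vinf = 0 ∧ 2 ≤ c ∧
      Divisor.degree Rt = 2 * (genusR K F : ℤ) - 2 + c := by
  have hpole := ord_neg_of_mem_L497 ht hnc
  have hD := D_ne_zero_of_ord_neg497 vinf hpole
  obtain ⟨W, hW, -⟩ := Fermat.Agent.Lib.RR.H80.exists_canonical_kaehler (D K F t) hD
  have hWinf : W vinf = vinf.ord t - 1 := by
    rw [hW, Fermat.Agent.Lib.RR.H80.ordDifferential_D_eq vinf (by omega)]
  have hc : ((- W vinf).toNat : ℤ) = - W vinf := Int.toNat_of_nonneg (by omega)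
  refine ⟨W, W + (- W vinf).toNat • prim vinf, (- W vinf).toNat, hD, hW, rfl, ?_, ?_, ?_, ?_⟩
  · rw [Finsupp.le_def]
    intro v
    rw [Finsupp.coe_zero, Pi.zero_apply, Finsupp.add_apply, Finsupp.smul_apply]
    by_cases hv : v = vinf
    · subst hv
      rw [prim_apply_self, nsmul_eq_mul, mul_one, hc]
      omega
    · rw [prim_apply_of_ne hv, smul_zero, add_zero, hW]
      exact Fermat.Agent.Lib.RR.H80.ordDifferential_D_nonneg v (ord_nonneg_of_mem_L497 ht hv)
  · rw [Finsupp.add_apply, Finsupp.smul_apply, prim_apply_self, nsmul_eq_mul, mul_one, hc]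
    omega
  · omega
  · rw [map_add, map_nsmul, degree_prim', Fermat.Agent.Lib.RR.H80.degree_kaehler hD hW,
      genusFF_eq_genusR, nsmul_eq_mul, mul_one]

end Abstract

/-! ## The Galois part -/

section Galois

open Fermat.Agent.S17.H77 Fermat.Agent.S17.H680 Fermat.Agent.S17.H980 ModularCurve
open Fermat.Agent.S17.H35 Fermat.Agent.S17.H500.Top

variable (F₀ : IntermediateField ℚ (LaurentSeries ℚ)) [FF1 Qb (laurentBaseChange Qb F₀)]

/-- **`div(dt)` is Galois-invariant** for a Galois-fixed non-constant `t`. -/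
theorem isInvariant_divD497 {t : laurentBaseChange Qb F₀} (htfix : IsFixed F₀ t)
    (hnc : t ∉ Set.range (algebraMap Qb (laurentBaseChange Qb F₀)))
    {W : Divisor Qb (laurentBaseChange Qb F₀)}
    (hW : ∀ v : Place Qb (laurentBaseChange Qb F₀),
      W v = v.ordDifferential (D Qb (laurentBaseChange Qb F₀) t)) :
    IsInvariant F₀ W := by
  intro σ
  ext v
  rw [SemilinearAut.divisor_smul_apply, hW, hW]
  have hfix : (arithmeticGalois F₀ σ)⁻¹ • t = t := by
    have h := htfix σ
    rw [← h, inv_smul_smul, h]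
  exact ordDifferential_D_smul497 _ hfix hnc v

/-- **RT-DATA.** For a Galois-fixed non-constant `t ∈ L(m ∞)` (`∞` invariant) and (GAUSS) at
canonical divisors: an effective Galois-invariant divisor `Rt` prime to `∞` and `c ≥ 2` with
`Rt − c ∞ = div(dt)`, `deg Rt = 2g − 2 + c`, and (GAUSS) at `Rt − c ∞`. -/
theorem exists_rtData497 (E : EmbData Qb (laurentBaseChange Qb F₀))
    (hinf : IsInvariant F₀ (prim E.vinf))
    {t : laurentBaseChange Qb F₀} (htfix : IsFixed F₀ t)
    (htmem : t ∈ riemannRochSpace (E.m • prim E.vinf))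
    (hnc : t ∉ Set.range (algebraMap Qb (laurentBaseChange Qb F₀)))
    (hG : GAUSSCanStatement E) :
    ∃ (Rt : Divisor Qb (laurentBaseChange Qb F₀)) (c : ℕ),
      0 ≤ Rt ∧ IsInvariant F₀ Rt ∧ Rt E.vinf = 0 ∧ 2 ≤ c ∧
      Divisor.degree Rt = 2 * (genusR Qb (laurentBaseChange Qb F₀) : ℤ) - 2 + c ∧
      (∀ v : Place Qb (laurentBaseChange Qb F₀),
        (Rt - (c : ℤ) • prim E.vinf) v =
          v.ordDifferential (D Qb (laurentBaseChange Qb F₀) t)) ∧
      GaussRtStatement E Rt c := by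
  obtain ⟨W, Rt, c, hD, hW, hRt, h0, hRinf, hc, hdeg⟩ := exists_rt497 E.vinf E.m htmem hnc
  have hWinv : IsInvariant F₀ W := isInvariant_divD497 F₀ htfix hnc hW
  have hWeq : Rt - (c : ℤ) • prim E.vinf = W := by
    rw [hRt, natCast_zsmul]
    abel
  refine ⟨Rt, c, h0, ?_, hRinf, hc, hdeg, ?_, ?_⟩
  · intro σ
    rw [hRt, smul_add, hWinv σ, smul_comm, hinf σ]
  · intro v
    rw [hWeq, hW]
  · apply gaussRt_of
    rw [hWeq]
    exact hG _ W hD hW

/-- RT-DATA with `c` expressed through `deg Rt` (shape consumed by `H35.gauss` on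
`H736.TopInput`). -/
theorem exists_rtData_deg497 (E : EmbData Qb (laurentBaseChange Qb F₀))
    (hinf : IsInvariant F₀ (prim E.vinf))
    {t : laurentBaseChange Qb F₀} (htfix : IsFixed F₀ t)
    (htmem : t ∈ riemannRochSpace (E.m • prim E.vinf))
    (hnc : t ∉ Set.range (algebraMap Qb (laurentBaseChange Qb F₀)))
    (hG : GAUSSCanStatement E) :
    ∃ Rt : Divisor Qb (laurentBaseChange Qb F₀),
      0 ≤ Rt ∧ IsInvariant F₀ Rt ∧ Rt E.vinf = 0 ∧
      GaussRtStatement E Rt
        (Divisor.degree Rt - (2 * (genusR Qb (laurentBaseChange Qb F₀) : ℤ) - 2)) := by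
  obtain ⟨Rt, c, h0, hinv, hRinf, -, hdeg, -, hGR⟩ :=
    exists_rtData497 F₀ E hinf htfix htmem hnc hG
  refine ⟨Rt, h0, hinv, hRinf, ?_⟩
  have e : Divisor.degree Rt - (2 * (genusR Qb (laurentBaseChange Qb F₀) : ℤ) - 2) = (c : ℤ) := by
    rw [hdeg]; ring
  rw [e]
  exact hGR

/-- **`GAUSSCanStatement E ⟹ GaussPlusStatement F₀ E`**, given a Galois-fixed non-constant
`t ∈ L(m ∞)`. -/
theorem gaussPlus_of_gaussCan497 (E : EmbData Qb (laurentBaseChange Qb F₀))
    (hinf : IsInvariant F₀ (prim E.vinf))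
    {t : laurentBaseChange Qb F₀} (htfix : IsFixed F₀ t)
    (htmem : t ∈ riemannRochSpace (E.m • prim E.vinf))
    (hnc : t ∉ Set.range (algebraMap Qb (laurentBaseChange Qb F₀)))
    (hG : GAUSSCanStatement E) : GaussPlusStatement F₀ E := by
  obtain ⟨Rt, c, h0, hinv, hRinf, -, hdeg, -, C, hC⟩ :=
    exists_rtData497 F₀ E hinf htfix htmem hnc hG
  refine ⟨Rt, c, C, h0, hinv, hRinf, hdeg, fun P hP hPinf => ?_⟩
  have := hC P hP hPinf
  push_cast at this
  exact this

end Galois

end Fermat.Agent.S17.H497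

end
end
-- ===== PACK-END S17/H497/RtData.lean

-- ===== PACK-BEGIN S17/H35/TopAxioms.lean
section



/-!
# S17 / tower H, TOP-GLUE (helper35, subtask 606): the package axioms (E3), (BEZ), (ADJ),
(GAUSS), (VDM) of `H736.TopInput` from the CONTRACT

For `T : H736.TopInput N`:

* `e3    : HContract.E3Statement T.E₁ T.E₂ → T.E3Statement`;
* `bez   : HContract.E3Statement T.E₁ T.E₂ → T.BezStatement`;
* `adj   : HContract.ADJStatement T.E₁ T.E₂ → T.AdjStatement`;
* `vdm   : HContract.VDMStatement T.E₁ T.E₂ d₀ → T.d ≤ d₀ → T.VdmStatement`;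
* `gauss : HContract.E3Statement T.E₁ T.E₂ →
           GaussRtStatement T.E₁ T.Rt (deg Rt − (2g − 2)) → T.GaussStatement`.
-/

set_option autoImplicit false
set_option linter.unusedSectionVars false

noncomputable section

open AlgebraicCurve ModularCurve

namespace Fermat.Agent.S17.H35

open Fermat.Agent.Lib.RR Fermat.Agent.S17.HWall Fermat.Agent.S17.HContract
open Fermat.Agent.S17.H77 Fermat.Agent.S17.H680 Fermat.Agent.S17.H980
open Fermat.Agent.S17.H736

variable {N : ℕ} [NeZero N] (T : TopInput N)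

theorem cast_degHom (D : Dv N) :
    ((degHom N D : ℕ) : ℝ) = ((Divisor.degree D.1 : ℤ) : ℝ) := by
  have h := coe_degHom D
  exact_mod_cast congrArg (fun z : ℤ => (z : ℝ)) h

theorem top_NN (D : Dv N) : T.NN D = naive T.E₂ D.1 := rfl

theorem top_pr (D E : Dv N) : T.pr D E = pair T.E₁ D.1 E.1 := rfl

theorem top_KK (D : Dv N) : T.KK D = kapSum T.E₁ D.1 := rfl

theorem top_Pl (D : Dv N) : T.Pl D = plHt T.E₂ D.1 := rfl

theorem top_htL (a : T.Lin) : T.htL a = ht (castQ a.1) := rfl

theorem top_del (D : Dv N) : T.del D = delta T.E₁ D.1 := by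
  classical
  unfold TopInput.del delta selfPair
  rw [one_div, mul_comm, ← div_eq_mul_inv]
  congr 1
  unfold Finsupp.sum
  refine Finset.sum_congr rfl fun P _ => ?_
  dsimp only
  unfold pairPt Finsupp.sum
  rw [Finset.mul_sum, Finsupp.support_erase]
  refine Finset.sum_congr (by congr) fun Q hQ => ?_
  have hQP : Q ≠ P := Finset.ne_of_mem_erase hQ
  rw [Finsupp.erase_ne hQP]
  dsimp only
  rw [hD_symm T.E₁ Q P]
  ring

/-- reducedness, in the form used by the generic lemmas -/
theorem good_reduced {D : Dv N} (h : T.Good D) (P : Place Qb (modularFunctionFieldBar N)) :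
    D.1 P = 0 ∨ D.1 P = 1 := by
  have h1 := h.1 P
  have h2 := D.apply_nonneg P
  omega

/-- **(E3)** of the package. -/
theorem e3 (h : HContract.E3Statement T.E₁ T.E₂) : T.E3Statement := by
  obtain ⟨C, _, hC⟩ := e3_sum h
  refine ⟨C, fun a E hdisj => ?_⟩
  rw [top_pr, top_NN, top_htL, cast_degHom, TopInput.coe_ZL]
  refine hC (castQ a.1) E.1 (T.castQ_ne_zero' a) E.nonneg fun P hP => ?_
  rcases hdisj P with h1 | h1
  · rwa [TopInput.coe_ZL] at h1
  · exact absurd h1 hP

/-- **(BEZ)** of the package. -/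
theorem bez_top (h : HContract.E3Statement T.E₁ T.E₂) : T.BezStatement := by
  obtain ⟨C, hC⟩ := bez h
  refine ⟨C, fun a => ?_⟩
  rw [top_NN, top_htL, TopInput.coe_ZL]
  exact hC (castQ a.1) (T.castQ_ne_zero' a)

/-- **(ADJ)** of the package. -/
theorem adj (h : HContract.ADJStatement T.E₁ T.E₂) : T.AdjStatement := by
  obtain ⟨C, _, hC⟩ := adj_sum h
  refine ⟨C, fun a D D' hgood hZ hdisj => ?_⟩
  rw [top_del, top_KK, top_pr, top_NN, top_htL, cast_degHom]
  refine hC (castQ a.1) D.1 D'.1 (T.castQ_ne_zero' a) (good_reduced T hgood) ?_ fun P hP => ?_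
  · rw [← TopInput.coe_ZL, hZ, Dv.coe_add]
  · exact (hdisj P).resolve_left hP

/-- **(VDM)** of the package. -/
theorem vdm {d₀ : ℕ} (h : HContract.VDMStatement T.E₁ T.E₂ d₀) (hd : T.d ≤ d₀) :
    T.VdmStatement := by
  obtain ⟨C, hC⟩ := vdm_sum h
  refine ⟨C, fun D hgood hdeg => ?_⟩
  rw [top_Pl, top_NN, top_del]
  refine hC D.1 (good_reduced T hgood) ?_
  have h1 := card_support_of_reduced D.1 (good_reduced T hgood)
  have h2 := coe_degHom D
  rw [hdeg] at h2
  have h3 : (D.1.support.card : ℤ) = T.d := by rw [h1, ← h2]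
  have h4 : D.1.support.card = T.d := by exact_mod_cast h3
  omega

/-- **(GAUSS)** of the package, from (GAUSS) for the divisor `K₀ = Rt − c ∞`,
`c = deg Rt − (2g − 2)`. -/
theorem gauss (h3 : HContract.E3Statement T.E₁ T.E₂)
    (hG : GaussRtStatement T.E₁ T.Rt
      (Divisor.degree T.Rt - (2 * (genusR Qb (modularFunctionFieldBar N) : ℤ) - 2))) :
    T.GaussStatement := by
  have hv : T.E₁.vinf = T.E₂.vinf := by rw [T.vinf₁, T.vinf₂]
  have hZ₁ : T.E₂.Z (castQ T.oneL.1) = T.E₂.m • prim T.E₂.vinf := by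
    have := congrArg Subtype.val T.ZL_oneL
    rw [TopInput.coe_ZL, Dv.coe_nsmul, coe_infD] at this
    rw [this, T.vinf₂]
    rfl
  obtain ⟨C, _, hC⟩ := gauss_sum hv h3 (T.castQ_ne_zero' T.oneL) hZ₁ hG
  refine ⟨C, fun D hgood => ?_⟩
  rw [top_KK, top_pr, top_NN, cast_degHom D]
  have hc : (((degHom N T.RtD : ℕ) : ℝ) - (2 * (T.g : ℝ) - 2)) =
      (((Divisor.degree T.Rt - (2 * (genusR Qb (modularFunctionFieldBar N) : ℤ) - 2) : ℤ)) : ℝ) := by
    rw [cast_degHom, TopInput.coe_RtD]
    push_cast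
    rfl
  rw [hc]
  refine hC D.1 D.nonneg fun P hP => ⟨?_, ?_⟩
  · exact (hgood.2.2 P).resolve_left hP
  · intro hPinf
    have h1 := (hgood.2.1 P).resolve_left hP
    rw [coe_infD, hPinf, T.vinf₂, prim_apply_self] at h1
    exact one_ne_zero h1

end Fermat.Agent.S17.H35

end
end
-- ===== PACK-END S17/H35/TopAxioms.lean

-- ===== PACK-BEGIN S17/H500/TopFinal.lean
section




/-!
# S17 / tower H : FINAL WIRING of TOP (architect helper500)

Canonical data: `H736.TopInput N` (`S17/H736/TopData.lean`), adapters `H35` (`TopAxioms.lean`),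
embedding `H77.exists_embData_cusp`, formal layer `H500.formal`.

* `OpenInputs N` : the inputs of tower H which are NOT yet on main, in their external form
  (WALL: `E3`, `ADJ`, `VDM` for one embedding of degree `≥ 4g + 1`; GAUSS in the form
  `H35.GaussRtStatement`; the adapters `Northcott`, `Mov1`, `Mov2`, `Mink` of `H736`);
* `hasDescentHeight_of_openInputs : OpenInputs N → HasDescentHeight N 2`.

Choice of the parameters: `d = 2g`, `m = 10g`, `d₀ = d`, `E₁ = E₂ = E`.
Everything here is complete.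
-/

set_option autoImplicit false

noncomputable section

open AlgebraicCurve ModularCurve

namespace Fermat.Agent.S17.H500.Final

open Fermat.Agent.Lib.RR Fermat.Agent.S17.HWall Fermat.Agent.S17.HContract
open Fermat.Agent.S17.H77 Fermat.Agent.S17.H680 Fermat.Agent.S17.H736

/-- The inputs of tower H (genus `≥ 1`) which are not yet on main. -/
structure OpenInputs (N : ℕ) [NeZero N] : Prop where
  wall_e3 : ∀ E : EmbData Qb (modularFunctionFieldBar N),
    4 * genusR Qb (modularFunctionFieldBar N) + 1 ≤ E.m → E3Statement E E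
  wall_adj : ∀ E : EmbData Qb (modularFunctionFieldBar N),
    4 * genusR Qb (modularFunctionFieldBar N) + 1 ≤ E.m → ADJStatement E E
  wall_vdm : ∀ (E : EmbData Qb (modularFunctionFieldBar N)) (d₀ : ℕ),
    4 * genusR Qb (modularFunctionFieldBar N) + 1 ≤ E.m →
    d₀ + 2 * genusR Qb (modularFunctionFieldBar N) ≤ E.m + 1 → VDMStatement E E d₀
  gauss : ∀ E : EmbData Qb (modularFunctionFieldBar N), E.vinf = JZero.cusp N →
    (∀ i, IsFixed (modularFunctionFieldFull N) (E.x i)) →
    4 * genusR Qb (modularFunctionFieldBar N) + 1 ≤ E.m →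
    E.pt = Fermat.Agent.S17.H230.ptD (E.m • prim (JZero.cusp N)) E.x →
    E.tn = Fermat.Agent.S17.H230.tnD (E.m • prim (JZero.cusp N)) E.x →
    ∃ Rt : Divisor Qb (modularFunctionFieldBar N), 0 ≤ Rt ∧
      IsInvariant (modularFunctionFieldFull N) Rt ∧ Rt (JZero.cusp N) = 0 ∧
      Fermat.Agent.S17.H35.GaussRtStatement E Rt
        (Divisor.degree Rt - (2 * (genusR Qb (modularFunctionFieldBar N) : ℤ) - 2))
  northcott : ∀ T : TopInput N, T.NorthcottStatement
  mov1 : ∀ T : TopInput N, T.Mov1Statement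
  mov2 : ∀ T : TopInput N, T.Mov2Statement
  mink : ∀ T : TopInput N, T.MinkStatement

/-- The pairing package of `J₀(N)` in genus `≥ 1`. -/
theorem exists_package_of_openInputs (N : ℕ) [NeZero N] (h : OpenInputs N)
    (hg : 1 ≤ genusR Qb (modularFunctionFieldBar N)) :
    Nonempty (PairingPackage (Fermat.Agent.S17.H17.MW N)) := by
  obtain ⟨E, hvinf, hm, hxfix, -, hx0, -, -, hpt, htn⟩ :=
    exists_embData_cusp N (10 * genusR Qb (modularFunctionFieldBar N)) (by omega)
  have hBig : 4 * genusR Qb (modularFunctionFieldBar N) + 1 ≤ E.m := by omega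
  obtain ⟨Rt, hRt0, hRtinv, hRtinf, hG⟩ :=
    h.gauss E hvinf hxfix hBig (by rw [hm] at *; exact hpt) (by rw [hm] at *; exact htn)
  let T : TopInput N :=
    { E₁ := E
      E₂ := E
      vinf₁ := hvinf
      vinf₂ := hvinf
      x_fixed := hxfix
      i₀ := 0
      x_one := hx0
      Rt := Rt
      Rt_nonneg := hRt0
      Rt_inv := hRtinv
      Rt_inf := hRtinf
      d := 2 * genusR Qb (modularFunctionFieldBar N)
      one_le_g := hg
      two_g_le_d := le_refl _
      four_d_le_m := by omega }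
  have he3 : E3Statement T.E₁ T.E₂ := h.wall_e3 E hBig
  have hadj : ADJStatement T.E₁ T.E₂ := h.wall_adj E hBig
  have hvdm : VDMStatement T.E₁ T.E₂ T.d :=
    h.wall_vdm E (2 * genusR Qb (modularFunctionFieldBar N)) hBig (by omega)
  exact ⟨T.mkPackage (h.northcott T) (h.mov1 T) (h.mov2 T)
    (Fermat.Agent.S17.H35.e3 T he3) (Fermat.Agent.S17.H35.bez_top T he3)
    (Fermat.Agent.S17.H35.adj T hadj) (Fermat.Agent.S17.H35.gauss T he3 hG)
    (Fermat.Agent.S17.H35.vdm T hvdm (le_refl _)) (h.mink T)⟩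

/-- **Tower H from the open inputs.** -/
theorem hasDescentHeight_of_openInputs (N : ℕ) [NeZero N] (h : OpenInputs N) :
    Fermat.Agent.S17.H17.HasDescentHeight N 2 :=
  hasDescentHeight_of_exists_package N fun hg => exists_package_of_openInputs N h hg

end Fermat.Agent.S17.H500.Final

end
end
-- ===== PACK-END S17/H500/TopFinal.lean

-- ===== PACK-BEGIN S17/H696/TopMink.lean
section
/-
S17 / tower H / TOP-GLUE — leaf T-MINK (subtask 607), helper696.

`topMink T : T.MinkStatement` for every `T : H736.TopInput N` (exact T-DATA shape of helper736,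
`S17/H736/TopData.lean`), from helper980's `H980.exists_form_through` (Siegel + Riemann–Roch +
Galois descent, `S17/H980/PosLinEmb.lean`) and helper35's reduced-divisor calculus.
No hypotheses.  Constant: `C = k log k`, `k = r + 1 - d = m - d + 1 - g`.
-/



set_option autoImplicit false

noncomputable section

open AlgebraicCurve ModularCurve

namespace Fermat.Agent.S17.H696

open Fermat.Agent.Lib.RR Fermat.Agent.S17.HWall Fermat.Agent.S17.HContract
open Fermat.Agent.S17.H77 Fermat.Agent.S17.H680 Fermat.Agent.S17.H980 Fermat.Agent.S17.H736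

variable {N : ℕ} [NeZero N]

/-- a good divisor is reduced -/
theorem good_reduced (T : TopInput N) {D : Dv N} (h : T.Good D) (P) : D.1 P = 0 ∨ D.1 P = 1 := by
  have h1 := D.apply_nonneg P
  have h2 := h.1 P
  omega

/-- a good divisor of degree `d` has `d` points -/
theorem good_card (T : TopInput N) {D : Dv N} (h : T.Good D) :
    D.1.support.card = degHom N D := by
  have h1 := H35.card_support_of_reduced D.1 (good_reduced T h)
  rw [← coe_degHom] at h1
  exact_mod_cast h1

/-- **T-MINK**: the (MINK) axiom of the pairing package of `J₀(N)`. -/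
theorem topMink (T : TopInput N) : T.MinkStatement := by
  classical
  refine ⟨((T.E₂.r + 1 - T.d : ℕ) : ℝ) * Real.log ((T.E₂.r + 1 - T.d : ℕ) : ℝ),
    fun D hgood hdeg => ?_⟩
  have hred := good_reduced T hgood
  have hcard : D.1.support.card = T.d := (good_card T hgood).trans hdeg
  have hsum : D.1 = H980.sumPrim (TopInput.enum D) := H35.eq_sumPrim_of_reduced D.1 hred
  have hinv : IsInvariant (modularFunctionFieldFull N) (H980.sumPrim (TopInput.enum D)) := by
    rw [← hsum]
    exact D.isInvariant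
  have hg : genusFF Qb (modularFunctionFieldBar N) = genusR Qb (modularFunctionFieldBar N) :=
    genusFF_eq_genusR
  have h4 := T.four_d_le_m
  have hr := H980.r_add_one_eq T.E₂
  rw [hg] at hr
  obtain ⟨a, ha0, hle, hht⟩ := H980.exists_form_through (modularFunctionFieldFull N) T.E₂
    T.x_fixed T.isInvariant_vinf₂ (TopInput.enum D) (TopInput.enum_injective D) hinv
    (by rw [hg, hcard]; omega)
  have hkeq : T.E₂.r + 1 - D.1.support.card = T.E₂.r + 1 - T.d := by rw [hcard]
  rw [hkeq] at hht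
  -- the rational form
  have hcast : (fun j => ((a j : ℤ) : Qb)) = castQ (fun j => ((a j : ℤ) : ℚ)) := by
    funext j
    simp [castQ]
  have ha0' : (fun j => ((a j : ℤ) : ℚ)) ≠ 0 := by
    intro h
    apply ha0
    funext j
    have := congrFun h j
    simpa using this
  rw [hcast] at hle hht
  rw [← hsum] at hle
  let aL : T.Lin := ⟨fun j => ((a j : ℤ) : ℚ), ha0'⟩
  have hZinv := (T.ZL aL).isInvariant
  refine ⟨aL, ⟨T.E₂.Z (castQ aL.1) - D.1, sub_nonneg.2 hle, fun σ => ?_⟩, ?_, ?_⟩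
  · rw [smul_sub, D.isInvariant σ]
    congr 1
    exact hZinv σ
  · apply Subtype.ext
    show T.E₂.Z (castQ aL.1) = D.1 + (T.E₂.Z (castQ aL.1) - D.1)
    abel
  · have hk : (((T.E₂.r + 1 - T.d : ℕ) : ℕ) : ℝ) = (T.m : ℝ) - T.d + 1 - T.g := by
      have h1 : T.d ≤ T.E₂.r + 1 := by
        have : (T.d : ℤ) ≤ ((T.E₂.r + 1 : ℕ) : ℤ) := by rw [hr]; omega
        exact_mod_cast this
      rw [Nat.cast_sub h1]
      have h2 : (((T.E₂.r + 1 : ℕ) : ℤ) : ℝ) =
          ((T.E₂.m : ℤ) : ℝ) + 1 - ((genusR Qb (modularFunctionFieldBar N) : ℤ) : ℝ) := by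
        rw [hr]
        push_cast
        ring
      have h3 : ((T.E₂.r + 1 : ℕ) : ℝ) = (T.E₂.m : ℝ) + 1 -
          (genusR Qb (modularFunctionFieldBar N) : ℝ) := by
        exact_mod_cast h2
      rw [h3]
      unfold TopInput.m TopInput.g
      ring
    have hkpos : (0 : ℝ) < ((T.E₂.r + 1 - T.d : ℕ) : ℝ) := by
      have : 0 < T.E₂.r + 1 - T.d := by
        have : (T.d : ℤ) < ((T.E₂.r + 1 : ℕ) : ℤ) := by rw [hr]; omega
        have : T.d < T.E₂.r + 1 := by exact_mod_cast this
        omega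
      exact_mod_cast this
    rw [← hk]
    show ((T.E₂.r + 1 - T.d : ℕ) : ℝ) * ht (castQ aL.1) ≤
      ht (plucker fun i => T.E₂.pt (TopInput.enum D i)) + _
    calc ((T.E₂.r + 1 - T.d : ℕ) : ℝ) * ht (castQ aL.1)
        ≤ ((T.E₂.r + 1 - T.d : ℕ) : ℝ) * ((1 / ((T.E₂.r + 1 - T.d : ℕ) : ℝ)) *
            ht (plucker fun i => T.E₂.pt (TopInput.enum D i)) +
              Real.log ((T.E₂.r + 1 - T.d : ℕ) : ℝ)) :=
          mul_le_mul_of_nonneg_left hht hkpos.le
      _ = ht (plucker fun i => T.E₂.pt (TopInput.enum D i)) +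
            ((T.E₂.r + 1 - T.d : ℕ) : ℝ) * Real.log ((T.E₂.r + 1 - T.d : ℕ) : ℝ) := by
          field_simp

end Fermat.Agent.S17.H696

end

end
-- ===== PACK-END S17/H696/TopMink.lean

-- ===== PACK-BEGIN S17/H736/TopMov1.lean
section



/-!
# S17 / tower H, TOP layer (helper736): the package axiom (Mov1) for the concrete data

`TopInput.mov1 : T.Mov1Statement` (unconditional): every rational class `x ∈ J₀(N)(ℚ)` has a
representative `D` (i.e. `x = [D - d • ∞]`) which is effective, Galois-invariant, of degree `d`,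
REDUCED, and avoids `∞`, `Rt` and any given divisor.

Inputs (all on main): `H680.JZero.exists_invariant_rep` (Galois descent of the minimal
representative) and `H920.exists_fixed_reduced_member` (G-MOV1, abstract form).
-/

set_option autoImplicit false
set_option linter.unusedSectionVars false

noncomputable section

open AlgebraicCurve ModularCurve

namespace Fermat.Agent.S17.H736

open Fermat.Agent.Lib.RR Fermat.Agent.S17.HWall Fermat.Agent.S17.HContract
open Fermat.Agent.S17.H77 Fermat.Agent.S17.H680 Fermat.Agent.S17.H980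

variable {N : ℕ} [NeZero N]

namespace TopInput

variable (T : TopInput N)

/-- **(Mov1)** for the concrete data. -/
theorem mov1 : T.Mov1Statement := by
  classical
  intro x S
  obtain ⟨m₀, E, hdegE, hm₀, hE0, hEdeg, -, -, hEinv, hmk⟩ := JZero.exists_invariant_rep N x.2
  have hm₀d : m₀ ≤ T.d := by
    have h1 : m₀ ≤ genusR Qb (modularFunctionFieldBar N) := hm₀
    have h2 : 2 * genusR Qb (modularFunctionFieldBar N) ≤ T.d := T.two_g_le_d
    omega
  -- the invariant divisor `D₀ = E + (d - m₀) ∞` of degree `d` and class `x`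
  set D₀ : Divisor Qb (modularFunctionFieldBar N) := E + (T.d - m₀) • prim (JZero.cusp N)
    with hD₀
  have hD₀inv : IsInvariant (modularFunctionFieldFull N) D₀ := by
    intro σ
    rw [hD₀, smul_add, hEinv σ, JZero.isInvariant_nsmul_cusp N (T.d - m₀) σ]
  have hD₀deg : Divisor.degree D₀ = T.d := by
    rw [hD₀, map_add, hEdeg, map_nsmul, degree_prim _ (deg_eq_one _)]
    simp only [nsmul_eq_mul, mul_one]
    push_cast [Nat.cast_sub hm₀d]
    ring
  have hgen : 2 * (genusFF Qb (modularFunctionFieldBar N) : ℤ) ≤ Divisor.degree D₀ := by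
    rw [hD₀deg, genusFF_eq_genusR]
    exact_mod_cast T.two_g_le_d
  obtain ⟨f, hf, -, hffix, hred, hav⟩ :=
    Fermat.Agent.S17.H920.exists_fixed_reduced_member (F₀ := modularFunctionFieldFull N)
      hD₀inv hgen (S.1.support ∪ {JZero.cusp N} ∪ T.Rt.support)
  set D : Divisor Qb (modularFunctionFieldBar N) := D₀ + divOf f hf with hD
  have hDinv : IsInvariant (modularFunctionFieldFull N) D :=
    Fermat.Agent.S17.H920.isInvariant_add_divOf hD₀inv hf hffix
  have hD0 : 0 ≤ D := by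
    rw [Finsupp.le_def]
    intro v
    simpa using (hred v).1
  have hDdeg : Divisor.degree D = T.d := by
    rw [hD, map_add, degree_divOf, add_zero, hD₀deg]
  have hS : ∀ P ∈ S.1.support, D P = 0 := fun P hP =>
    hav P (Finset.mem_union_left _ (Finset.mem_union_left _ hP))
  have hinf : D (JZero.cusp N) = 0 :=
    hav _ (Finset.mem_union_left _ (Finset.mem_union_right _ (Finset.mem_singleton_self _)))
  have hRt : ∀ P ∈ T.Rt.support, D P = 0 := fun P hP => hav P (Finset.mem_union_right _ hP)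
  refine ⟨⟨D, hD0, hDinv⟩, ?_, ?_, ?_, ?_, ?_, ?_⟩
  · -- degree
    rw [degHom_apply]
    show (Divisor.degree D).toNat = T.d
    rw [hDdeg]
    simp
  · -- class
    apply Subtype.ext
    rw [coe_clsHom, ← hmk]
    symm
    rw [mk_eq_mk_iff']
    refine ⟨f, hf, ?_⟩
    rw [coe_shiftHom]
    show D - Divisor.degree D • prim (JZero.cusp N)
      = E - m₀ • prim (JZero.cusp N) + divOf f hf
    rw [hDdeg, hD, hD₀, natCast_zsmul]
    have e : T.d • prim (JZero.cusp N)
        = (T.d - m₀) • prim (JZero.cusp N) + m₀ • prim (JZero.cusp N) := by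
      rw [← add_nsmul, Nat.sub_add_cancel hm₀d]
    rw [e]
    abel
  · -- disjoint from `S`
    intro P
    by_cases hP : P ∈ S.1.support
    · exact Or.inl (hS P hP)
    · exact Or.inr (Finsupp.notMem_support_iff.mp hP)
  · -- reduced
    intro P
    exact (hred P).2
  · -- avoids `∞`
    intro P
    by_cases hP : P = JZero.cusp N
    · left
      rw [hP]
      exact hinf
    · right
      rw [coe_infD]
      exact prim_apply_of_ne hP
  · -- avoids `Rt`
    intro P
    by_cases hP : P ∈ T.Rt.support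
    · exact Or.inl (hRt P hP)
    · exact Or.inr (Finsupp.notMem_support_iff.mp hP)

end TopInput

end Fermat.Agent.S17.H736

end
end
-- ===== PACK-END S17/H736/TopMov1.lean

-- ===== PACK-BEGIN S17/H736/TopMov2.lean
section


/-!
# S17 / tower H, TOP layer (helper736): the package axiom (Mov2) for the concrete data

`TopInput.mov2 : T.Mov2Statement`, from `H980.exists_common_residual` (G-MOV2, on main).
Unconditional.
-/

set_option autoImplicit false
set_option linter.unusedSectionVars false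

noncomputable section

open AlgebraicCurve ModularCurve

namespace Fermat.Agent.S17.H736

open Fermat.Agent.Lib.RR Fermat.Agent.S17.HWall Fermat.Agent.S17.HContract
open Fermat.Agent.S17.H77 Fermat.Agent.S17.H680 Fermat.Agent.S17.H980

variable {N : ℕ} [NeZero N]

namespace TopInput

variable (T : TopInput N)

/-- **(Mov2)** for the concrete data: linearly equivalent effective invariant divisors of the
same degree `≤ m - 2g` are cut out by rational hyperplane sections with a common residual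
divisor avoiding any given divisor. -/
theorem mov2 : T.Mov2Statement := by
  intro D₁ D₂ hdeg hm hcls S
  have hd : Divisor.degree D₁.1 = Divisor.degree D₂.1 := by
    rw [← coe_degHom, ← coe_degHom, hdeg]
  obtain ⟨h, hh, e⟩ := (clsHom_eq_iff D₁ D₂).mp hcls
  have hdiv : divOf h⁻¹ (inv_ne_zero hh) = D₁.1 - D₂.1 := by
    rw [divOf_inv _ hh]
    rw [hd] at e
    have e' : divOf h hh = D₂.1 - D₁.1 := by
      have e2 : divOf h hh = (D₂.1 - Divisor.degree D₂.1 • prim (JZero.cusp N))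
          - (D₁.1 - Divisor.degree D₂.1 • prim (JZero.cusp N)) := by
        rw [e]
        abel
      rw [e2]
      abel
    rw [e']
    abel
  have hgen : Divisor.degree D₁.1 +
      2 * (genusFF Qb (modularFunctionFieldBar N) : ℤ) ≤ T.E₂.m := by
    rw [genusFF_eq_genusR, ← coe_degHom]
    have : degHom N D₁ + 2 * genusR Qb (modularFunctionFieldBar N) ≤ T.E₂.m := hm
    exact_mod_cast this
  obtain ⟨a₁, a₂, R, ha₁, ha₂, hR0, hRinv, hZ₁, hZ₂, hRS⟩ :=
    exists_common_residual (modularFunctionFieldFull N) T.E₂ T.x_fixed T.isInvariant_vinf₂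
      D₁.1 D₂.1 D₁.nonneg D₂.nonneg D₁.isInvariant D₂.isInvariant hgen h⁻¹ (inv_ne_zero hh)
      hdiv S.1.support
  refine ⟨⟨R, hR0, hRinv⟩, ⟨a₁, ha₁⟩, ⟨a₂, ha₂⟩, Subtype.ext hZ₁, Subtype.ext hZ₂, fun P => ?_⟩
  by_cases hP : P ∈ S.1.support
  · exact Or.inl (hRS P hP)
  · exact Or.inr (Finsupp.notMem_support_iff.mp hP)

end TopInput

end Fermat.Agent.S17.H736

end
end
-- ===== PACK-END S17/H736/TopMov2.lean

-- ===== PACK-BEGIN S17/H500/TopFinal2.lean
section






/-!
# S17 / tower H : TOP is COMPLETE modulo WALL + GAUSS (architect helper500)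

* `northcott736 T : T.NorthcottStatement` for the canonical data `H736.TopInput N`
  (adapter of `H77.northcott`, via `H50.northcott_cycle_abs`);
* `WallInputs N` : the ONLY remaining inputs of tower H:
  `E3`, `ADJ`, `VDM` (WALL, for every embedding of degree `≥ 4g + 1`) and
  `GaussRt` (GAUSS, for the embeddings `ptD`/`tnD` at the cusp with Galois-fixed basis);
* `hasDescentHeight_of_wallInputs : WallInputs N → HasDescentHeight N 2`.

Everything here is complete.
-/

set_option autoImplicit false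

noncomputable section

open AlgebraicCurve ModularCurve

namespace Fermat.Agent.S17.H500.Final

open Fermat.Agent.Lib.RR Fermat.Agent.S17.HWall Fermat.Agent.S17.HContract
open Fermat.Agent.S17.H77 Fermat.Agent.S17.H680 Fermat.Agent.S17.H736

/-- **Northcott** for the canonical data. -/
theorem northcott736 {N : ℕ} [NeZero N] (T : TopInput N) : T.NorthcottStatement := by
  intro e B
  have hfin := Fermat.Agent.S17.H50.northcott_cycle_abs (ι := Fin (T.E₂.r + 1)) e B
  refine Set.Finite.of_finite_image (f := fun D : Dv N => cyc T.E₂ D.1) (hfin.subset ?_) ?_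
  · rintro _ ⟨D, ⟨hdeg, hN⟩, rfl⟩
    refine ⟨?_, isGStable_cyc T.E₂ T.x_fixed T.isInvariant_vinf₂ D.isInvariant,
      cyc_normalised T.E₂ _, ?_⟩
    · have h1 := card_cyc T.E₂ D.nonneg
      have h2 := coe_degHom D
      have h3 : ((cyc T.E₂ D.1).card : ℤ) = (degHom N D : ℕ) := by rw [h1, h2]
      have h4 : (cyc T.E₂ D.1).card = degHom N D := by exact_mod_cast h3
      rw [h4]
      exact hdeg
    · rw [cycAbs_cyc T.E₂ D.nonneg]
      exact hN
  · intro D _ D' _ h
    exact Subtype.ext (cyc_injOn T.E₂ D.nonneg D'.nonneg h)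

/-- **The only remaining inputs of tower H** (genus `≥ 1`): the WALL and GAUSS. -/
structure WallInputs (N : ℕ) [NeZero N] : Prop where
  wall_e3 : ∀ E : EmbData Qb (modularFunctionFieldBar N),
    4 * genusR Qb (modularFunctionFieldBar N) + 1 ≤ E.m → E3Statement E E
  wall_adj : ∀ E : EmbData Qb (modularFunctionFieldBar N),
    4 * genusR Qb (modularFunctionFieldBar N) + 1 ≤ E.m → ADJStatement E E
  wall_vdm : ∀ (E : EmbData Qb (modularFunctionFieldBar N)) (d₀ : ℕ),
    4 * genusR Qb (modularFunctionFieldBar N) + 1 ≤ E.m →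
    d₀ + 2 * genusR Qb (modularFunctionFieldBar N) ≤ E.m + 1 → VDMStatement E E d₀
  gauss : ∀ E : EmbData Qb (modularFunctionFieldBar N), E.vinf = JZero.cusp N →
    (∀ i, IsFixed (modularFunctionFieldFull N) (E.x i)) →
    4 * genusR Qb (modularFunctionFieldBar N) + 1 ≤ E.m →
    E.pt = Fermat.Agent.S17.H230.ptD (E.m • prim (JZero.cusp N)) E.x →
    E.tn = Fermat.Agent.S17.H230.tnD (E.m • prim (JZero.cusp N)) E.x →
    ∃ Rt : Divisor Qb (modularFunctionFieldBar N), 0 ≤ Rt ∧
      IsInvariant (modularFunctionFieldFull N) Rt ∧ Rt (JZero.cusp N) = 0 ∧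
      Fermat.Agent.S17.H35.GaussRtStatement E Rt
        (Divisor.degree Rt - (2 * (genusR Qb (modularFunctionFieldBar N) : ℤ) - 2))

/-- The open inputs from the wall inputs. -/
theorem openInputs_of_wallInputs (N : ℕ) [NeZero N] (h : WallInputs N) : OpenInputs N where
  wall_e3 := h.wall_e3
  wall_adj := h.wall_adj
  wall_vdm := h.wall_vdm
  gauss := h.gauss
  northcott := northcott736
  mov1 := fun T => T.mov1
  mov2 := fun T => T.mov2
  mink := Fermat.Agent.S17.H696.topMink

/-- **Tower H from the WALL and GAUSS.** -/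
theorem hasDescentHeight_of_wallInputs (N : ℕ) [NeZero N] (h : WallInputs N) :
    Fermat.Agent.S17.H17.HasDescentHeight N 2 :=
  hasDescentHeight_of_openInputs N (openInputs_of_wallInputs N h)

end Fermat.Agent.S17.H500.Final

end
end
-- ===== PACK-END S17/H500/TopFinal2.lean

-- ===== PACK-BEGIN S17/H290/GaussCan.lean
section





/-!
# S17 / tower H — sub-project GAUSS (helper290): `GAUSSCanStatement` from PN + WEIL

FROZEN output of the GAUSS sub-project (`S17/H17/HGauss.lean`):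

* `princ_of_weil   : ProjNormalStatement E → WeilStatement E → PRINCStatement E`
    (`f = G₁(x) / G₂(x)`, Weil for the single forms `G₁`, `G₂`);
* `gaussAt_of_weil : ProjNormalStatement E → WeilStatement E → GAUSSAtStatement E W` for the
    divisor `W` of EVERY nonzero Kähler differential
    (`tangentForms_at` + Weil for `(G, Z)`, for the form `1 ∈ L(m ∞)` and for `ρ`);
* `gaussCan_of_weil : ProjNormalStatement E → WeilStatement E → GAUSSCanStatement E`.

Sorry-free.
-/

set_option autoImplicit false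

noncomputable section

namespace Fermat.Agent.S17.H290

open AlgebraicCurve KaehlerDifferential MvPolynomial
open Fermat.Agent.Lib.RR Fermat.Agent.S17.HWall Fermat.Agent.S17.HContract Fermat.Agent.S17.Wall
open Fermat.Agent.S17.H380

variable {K F : Type*} [Field K] [CharZero K] [Field F] [Algebra K F] [FF1 K F]

/-- finitely many exceptions are absorbed by the constant -/
theorem bounded_of_off_finset {α : Type*} (S : Finset α) (φ : α → ℝ) (C : ℝ)
    (h : ∀ P, P ∉ S → |φ P| ≤ C) : ∃ C' : ℝ, ∀ P, |φ P| ≤ C' := by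
  classical
  refine ⟨|C| + ∑ P ∈ S, |φ P|, fun P => ?_⟩
  have hsum : 0 ≤ ∑ Q ∈ S, |φ Q| := Finset.sum_nonneg fun _ _ => abs_nonneg _
  by_cases hPS : P ∈ S
  · have := Finset.single_le_sum (f := fun Q => |φ Q|) (fun _ _ => abs_nonneg _) hPS
    have h2 := abs_nonneg C
    linarith
  · have := h P hPS
    have h2 := le_abs_self C
    linarith

omit [CharZero K] in
/-- the zero divisor of a single nonzero section is its own exact zero divisor -/
theorem exactZero_single (E : EmbData K F) (k : ℕ) (G : MvPolynomial (Fin (E.r + 1)) K)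
    (hG : aeval E.x G ≠ 0) : ExactZero E k (fun _ : Unit => G) (zdiv E k G) :=
  ⟨fun _ _ => le_refl _, fun _ => ⟨(), hG, rfl⟩⟩

omit [CharZero K] in
theorem zdiv_apply (E : EmbData K F) (k : ℕ) (G : MvPolynomial (Fin (E.r + 1)) K)
    (hG : aeval E.x G ≠ 0) (P : Place K F) :
    zdiv E k G P = P.ord (aeval E.x G) + (k : ℤ) * (E.m • prim E.vinf : Divisor K F) P := by
  unfold zdiv
  rw [dif_neg hG, Finsupp.add_apply, divOf_apply, smul_smul_prim_apply]

omit [CharZero K] in
theorem zdiv_nonneg (E : EmbData K F) (k : ℕ) (G : MvPolynomial (Fin (E.r + 1)) K)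
    (hG : aeval E.x G ≠ 0) (hmem : aeval E.x G ∈ riemannRochSpace ((k * E.m) • prim E.vinf)) :
    0 ≤ zdiv E k G := by
  rw [Finsupp.le_def]
  intro P
  rw [zdiv_apply E k G hG P, Finsupp.coe_zero, Pi.zero_apply]
  rcases (mem_L_iff.mp hmem) P with h | h
  · exact absurd h hG
  · rw [smul_smul_prim_apply] at h
    linarith

/-- **Weil's machine for ONE form**: `(Z_G . P) = k h(P) + O(1)` off `Z_G`. -/
theorem weil_single [Algebra.IsAlgebraic ℚ K] (E : EmbData K F) (hWeil : WeilStatement E)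
    (k : ℕ) (G : MvPolynomial (Fin (E.r + 1)) K) (hGh : G.IsHomogeneous k)
    (hG : aeval E.x G ≠ 0) (hmem : aeval E.x G ∈ riemannRochSpace ((k * E.m) • prim E.vinf)) :
    ∃ C : ℝ, ∀ P : Place K F, zdiv E k G P = 0 →
      |pairPt E (zdiv E k G) P - (k : ℝ) * ht (E.pt P)| ≤ C := by
  obtain ⟨C, hC⟩ := hWeil Unit k (fun _ => G) (zdiv E k G) (fun _ => hGh)
    (zdiv_nonneg E k G hG hmem) (exactZero_single E k G hG)
  refine ⟨C, fun P hP => ?_⟩
  have h := hC P hP
  have h0 : ht (fun _ : Unit => eval (E.pt P) G) = 0 :=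
    absLogHeight_const _ (isIntegral_of_isAlgebraic _)
  rw [h0, zero_sub] at h
  have e : pairPt E (zdiv E k G) P - (k : ℝ) * ht (E.pt P)
      = -(k : ℝ) * ht (E.pt P) + pairPt E (zdiv E k G) P := by ring
  rw [e, neg_mul]
  exact h

/-- **(PRINC)** from projective normality and Weil's machine. -/
theorem princ_of_weil [Algebra.IsAlgebraic ℚ K] (E : EmbData K F)
    (hPN : ProjNormalStatement E) (hWeil : WeilStatement E) : PRINCStatement E := by
  classical
  intro f Df hf hDf
  set g : ℕ := genusR K F with hg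
  have hm1 : 1 ≤ E.m := by have := E.hm; omega
  -- the pole divisor of `f`
  set N : Divisor K F := Df.mapRange (fun n : ℤ => max (-n) 0) (by simp) with hN
  have hNv : ∀ v : Place K F, N v = max (-Df v) 0 := fun v => by
    rw [hN, Finsupp.mapRange_apply]
  set k : ℕ := (Divisor.degree N + g).toNat + 1 with hk
  have hkN : Divisor.degree N + g < (k : ℤ) := by
    have := Int.self_le_toNat (Divisor.degree N + g)
    rw [hk]
    push_cast
    omega
  set B : Divisor K F := (k * E.m) • prim E.vinf - N with hB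
  have hdegB : Divisor.degree B = (k : ℤ) * E.m - Divisor.degree N := by
    rw [hB, map_sub, map_nsmul]
    unfold prim
    rw [Divisor.degree_single, FF1.deg_eq_one]
    push_cast
    simp only [nsmul_eq_mul]
    push_cast
    ring
  have hell : 0 < ell B := by
    have h1 := riemann_inequality B
    rw [hdegB] at h1
    have h2 : (k : ℤ) * 1 ≤ (k : ℤ) * E.m :=
      mul_le_mul_of_nonneg_left (by exact_mod_cast hm1) (by positivity)
    have h3 : (0 : ℤ) < ell B := by linarith
    exact_mod_cast h3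
  obtain ⟨g₂, hg₂0, hg₂⟩ := H98.exists_ne_zero_mem_L_of_ell_pos hell
  have hg₂ord : ∀ v : Place K F,
      N v - ((k * E.m) • prim E.vinf : Divisor K F) v ≤ v.ord g₂ := by
    intro v
    rcases (mem_L_iff.mp hg₂) v with h | h
    · exact absurd h hg₂0
    · rw [hB, Finsupp.sub_apply] at h
      linarith
  have hg₁0 : f * g₂ ≠ 0 := mul_ne_zero hf hg₂0
  have hmem₂ : g₂ ∈ riemannRochSpace ((k * E.m) • prim E.vinf) := by
    rw [mem_L_iff]
    intro v
    right
    have h1 := hg₂ord v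
    have h2 : 0 ≤ N v := by rw [hNv v]; exact le_max_right _ _
    linarith
  have hmem₁ : f * g₂ ∈ riemannRochSpace ((k * E.m) • prim E.vinf) := by
    rw [mem_L_iff]
    intro v
    right
    rw [v.ord_mul hf hg₂0, ← hDf v]
    have h1 := hg₂ord v
    have h2 : -Df v ≤ N v := by rw [hNv v]; exact le_max_left _ _
    linarith
  obtain ⟨G₁, hG₁h, hG₁⟩ := hPN k (f * g₂) hmem₁
  obtain ⟨G₂, hG₂h, hG₂⟩ := hPN k g₂ hmem₂
  have hG₁0 : aeval E.x G₁ ≠ 0 := by rw [hG₁]; exact hg₁0
  have hG₂0 : aeval E.x G₂ ≠ 0 := by rw [hG₂]; exact hg₂0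
  obtain ⟨C₁, hC₁⟩ := weil_single E hWeil k G₁ hG₁h hG₁0 (by rw [hG₁]; exact hmem₁)
  obtain ⟨C₂, hC₂⟩ := weil_single E hWeil k G₂ hG₂h hG₂0 (by rw [hG₂]; exact hmem₂)
  have hDfeq : Df = zdiv E k G₁ - zdiv E k G₂ := by
    ext v
    rw [Finsupp.sub_apply, zdiv_apply E k G₁ hG₁0, zdiv_apply E k G₂ hG₂0, hG₁, hG₂,
      v.ord_mul hf hg₂0, hDf v]
    ring
  obtain ⟨C, hC⟩ := bounded_of_off_finset ((zdiv E k G₁).support ∪ (zdiv E k G₂).support)
    (fun P => pairPt E Df P) (C₁ + C₂) (by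
      intro P hP
      rw [Finset.mem_union, not_or, Finsupp.notMem_support_iff, Finsupp.notMem_support_iff] at hP
      have h1 := hC₁ P hP.1
      have h2 := hC₂ P hP.2
      show |pairPt E Df P| ≤ C₁ + C₂
      rw [hDfeq, pairPt_sub]
      have e : pairPt E (zdiv E k G₁) P - pairPt E (zdiv E k G₂) P
          = (pairPt E (zdiv E k G₁) P - (k : ℝ) * ht (E.pt P))
            - (pairPt E (zdiv E k G₂) P - (k : ℝ) * ht (E.pt P)) := by ring
      rw [e]
      exact (abs_sub _ _).trans (add_le_add h1 h2))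
  exact ⟨C, fun P _ => hC P⟩

/-- **(GAUSS) at the divisor of a Kähler differential**, from PN and WEIL. -/
theorem gaussAt_of_weil [Algebra.IsAlgebraic ℚ K] (E : EmbData K F)
    (hPN : ProjNormalStatement E) (hWeil : WeilStatement E)
    (ω : Ω[F⁄K]) (hω0 : ω ≠ 0) (W : Divisor K F)
    (hW : ∀ v : Place K F, W v = v.ordDifferential ω) : GAUSSAtStatement E W := by
  classical
  obtain ⟨e, G, ρ, hρ, -, hGhom, hZ0, hex, htan⟩ := tangentForms_at E hPN ω hω0 W hW
  set Z : Divisor K F := (e * E.m) • prim E.vinf - W + divOf ρ hρ with hZ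
  obtain ⟨C₁, hC₁⟩ := hWeil _ (e + 2) G Z hGhom hZ0 hex
  obtain ⟨C₂, hC₂⟩ := princ_of_weil E hPN hWeil ρ (divOf ρ hρ) hρ (fun v => divOf_apply ρ hρ v)
  -- the form `1 ∈ L(m ∞)`
  have h1mem : (1 : F) ∈ riemannRochSpace (E.m • prim E.vinf) := by
    rw [mem_L_iff]
    intro v
    right
    rw [Place.ord_one, Fermat.Agent.S17.H440.smul_prim_apply]
    have h0 : (0 : ℤ) ≤ prim E.vinf v := by
      unfold prim
      rw [Finsupp.single_apply]
      split_ifs <;> norm_num
    have : (0 : ℤ) ≤ (E.m : ℤ) * prim E.vinf v := mul_nonneg (by positivity) h0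
    linarith
  obtain ⟨a₁, ha₁⟩ := Fermat.Agent.S17.H440.exists_lin_eq E h1mem
  have hL : aeval E.x (linForm a₁) = 1 := by
    rw [Fermat.Agent.S17.H230.aeval_linForm, ha₁]
  have hL0 : aeval E.x (linForm a₁) ≠ 0 := by rw [hL]; exact one_ne_zero
  have hLmem : aeval E.x (linForm a₁) ∈ riemannRochSpace ((1 * E.m) • prim E.vinf) := by
    rw [hL, one_mul]; exact h1mem
  obtain ⟨C₃, hC₃⟩ := weil_single E hWeil 1 (linForm a₁) (linForm_isHomogeneous a₁) hL0 hLmem
  have hZ₁ : zdiv E 1 (linForm a₁) = E.m • prim E.vinf := by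
    ext v
    rw [zdiv_apply E 1 (linForm a₁) hL0, hL, Place.ord_one]
    push_cast
    ring
  rw [hZ₁] at hC₃
  refine GAUSSAtStatement.of_off_finset
    (Z.support ∪ (E.m • prim E.vinf : Divisor K F).support ∪ (divOf ρ hρ).support)
    ⟨C₁ + (e : ℝ) * C₃ + C₂, fun P hPS _ => ?_⟩
  rw [Finset.mem_union, Finset.mem_union, not_or, not_or, Finsupp.notMem_support_iff,
    Finsupp.notMem_support_iff, Finsupp.notMem_support_iff] at hPS
  obtain ⟨⟨hPZ, hPm⟩, hPρ⟩ := hPS
  have b1 := hC₁ P hPZ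
  have b2 := hC₂ P hPρ
  have b3 := hC₃ P hPm
  obtain ⟨c, hc, hGc⟩ := htan P hPZ
  have hht : ht (fun p => eval (E.pt P) (G p)) = ht (wedge (E.pt P) (E.tn P)) := by
    have e1 : (fun p => eval (E.pt P) (G p)) = c • wedge (E.pt P) (E.tn P) := by
      funext p
      rw [hGc p, Pi.smul_apply, smul_eq_mul]
    rw [e1]
    exact absLogHeight_smul _ (fun i => isIntegral_of_isAlgebraic _) hc
      (isIntegral_of_isAlgebraic c)
  rw [hht] at b1
  have hpZ : pairPt E Z P = (e : ℝ) * pairPt E (E.m • prim E.vinf) P - pairPt E W P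
      + pairPt E (divOf ρ hρ) P := by
    rw [hZ, pairPt_add', pairPt_sub]
    have h2 : ((e * E.m) • prim E.vinf : Divisor K F) = (e : ℤ) • (E.m • prim E.vinf) := by
      rw [natCast_zsmul, mul_smul]
    rw [h2, pairPt_zsmul]
    push_cast
    ring
  rw [hpZ] at b1
  unfold kap
  have key : ht (wedge (E.pt P) (E.tn P)) - 2 * ht (E.pt P) - pairPt E W P =
      (ht (wedge (E.pt P) (E.tn P)) - ((e + 2 : ℕ) : ℝ) * ht (E.pt P) +
        ((e : ℝ) * pairPt E (E.m • prim E.vinf) P - pairPt E W P + pairPt E (divOf ρ hρ) P))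
      - (e : ℝ) * (pairPt E (E.m • prim E.vinf) P - ((1 : ℕ) : ℝ) * ht (E.pt P))
      - pairPt E (divOf ρ hρ) P := by
    push_cast
    ring
  rw [key]
  have he0 : (0 : ℝ) ≤ (e : ℝ) := by positivity
  have b3' : |(e : ℝ) * (pairPt E (E.m • prim E.vinf) P - ((1 : ℕ) : ℝ) * ht (E.pt P))|
      ≤ (e : ℝ) * C₃ := by
    rw [abs_mul, abs_of_nonneg he0]
    exact mul_le_mul_of_nonneg_left b3 he0
  calc _ ≤ |(ht (wedge (E.pt P) (E.tn P)) - ((e + 2 : ℕ) : ℝ) * ht (E.pt P) +
        ((e : ℝ) * pairPt E (E.m • prim E.vinf) P - pairPt E W P + pairPt E (divOf ρ hρ) P))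
      - (e : ℝ) * (pairPt E (E.m • prim E.vinf) P - ((1 : ℕ) : ℝ) * ht (E.pt P))|
        + |pairPt E (divOf ρ hρ) P| := abs_sub _ _
    _ ≤ (|ht (wedge (E.pt P) (E.tn P)) - ((e + 2 : ℕ) : ℝ) * ht (E.pt P) +
        ((e : ℝ) * pairPt E (E.m • prim E.vinf) P - pairPt E W P + pairPt E (divOf ρ hρ) P)|
        + |(e : ℝ) * (pairPt E (E.m • prim E.vinf) P - ((1 : ℕ) : ℝ) * ht (E.pt P))|)
        + |pairPt E (divOf ρ hρ) P| := by
          gcongr
          exact abs_sub _ _
    _ ≤ C₁ + (e : ℝ) * C₃ + C₂ := add_le_add (add_le_add b1 b3') b2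

/-- **The FROZEN output of the GAUSS sub-project**: (GAUSS) at the divisor of every nonzero
Kähler differential, from projective normality and Weil's height machine. -/
theorem gaussCan_of_weil [Algebra.IsAlgebraic ℚ K] (E : EmbData K F)
    (hPN : ProjNormalStatement E) (hWeil : WeilStatement E) : GAUSSCanStatement E :=
  fun ω W hω hW => gaussAt_of_weil E hPN hWeil ω hω W hW

end Fermat.Agent.S17.H290

end
end
-- ===== PACK-END S17/H290/GaussCan.lean

-- ===== PACK-BEGIN S17/H290/GaussMain.lean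
section



/-!
# S17 / tower H — sub-project GAUSS (helper290): the output, with ONE open leaf (WEIL)

`gaussCan_main : Big E → WeilStatement E → GAUSSCanStatement E` and
`gauss_main    : Big E → WeilStatement E → GAUSSStatement E`
(projective normality: `H449.projNormal`; canonical divisors: `H17/HGauss`).

Sorry-free.
-/

set_option autoImplicit false

noncomputable section

namespace Fermat.Agent.S17.H290

open AlgebraicCurve
open Fermat.Agent.Lib.RR Fermat.Agent.S17.HWall Fermat.Agent.S17.HContract Fermat.Agent.S17.Wall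

variable {K F : Type*} [Field K] [CharZero K] [Field F] [Algebra K F] [FF1 K F]

/-- **GAUSS, final form**, from Weil's height machine. -/
theorem gaussCan_main [Algebra.IsAlgebraic ℚ K] (E : EmbData K F) (hBig : Big E)
    (hWeil : WeilStatement E) : GAUSSCanStatement E :=
  gaussCan_of_weil E (Fermat.Agent.S17.H449.projNormal E hBig) hWeil

/-- **GAUSS** (the input of `Wall.contract`), from Weil's height machine. -/
theorem gauss_main [IsAlgClosed K] [Algebra.IsAlgebraic ℚ K] (E : EmbData K F) (hBig : Big E)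
    (hWeil : WeilStatement E) : GAUSSStatement E :=
  gaussStatement_of_can (gaussCan_main E hBig hWeil)

end Fermat.Agent.S17.H290

end
end
-- ===== PACK-END S17/H290/GaussMain.lean

-- ===== PACK-BEGIN S17/H497/TowerH.lean
section






/-!
# S17 / tower H — CLOSED (helper497): `HasDescentHeight N 2`, unconditionally

* `gaussCan497 E hBig : HContract.GAUSSCanStatement E` for every embedding of degree `≥ 4g + 1`
  of a function field over `ℚ̄` (`H290.gaussCan_main` + `H320.weil` + wall leaves A3 `H740`,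
  G-PT `H440`);
* `gaussRt_cusp497` : the field `gauss` of `H500.Final.WallInputs N` (bridge RT-DATA of
  `S17/H497/RtData.lean` with the rational coordinate `H680.JZero.exists_rational_coordinate`);
* `wallInputs497 N : H500.Final.WallInputs N`;
* `hasDescentHeight497 N : H17.HasDescentHeight N 2`  — the input `hH` of
  `H17.result_of_core`.
-/

set_option autoImplicit false

noncomputable section

open AlgebraicCurve ModularCurve

namespace Fermat.Agent.S17.H497

open Fermat.Agent.Lib.RR Fermat.Agent.S17.HWall Fermat.Agent.S17.HContract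
open Fermat.Agent.S17.H77 Fermat.Agent.S17.H680

/-- **(GAUSS) at all canonical divisors**, for every embedding of degree `≥ 4g + 1` over `ℚ̄`. -/
theorem gaussCan497 {F : Type} [Field F] [Algebra Qb F] [FF1 Qb F] (E : EmbData Qb F)
    (hBig : Fermat.Agent.S17.Wall.Big E) : GAUSSCanStatement E := by
  have := Fermat.Agent.S17.H77.isAlgebraic_Qb
  exact Fermat.Agent.S17.H290.gaussCan_main E hBig
    (Fermat.Agent.S17.H320.weil E (Fermat.Agent.S17.H740.multislot Qb)
      (Fermat.Agent.S17.H440.ptStatement E))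

/-- **The field `gauss` of `WallInputs N`.** -/
theorem gaussRt_cusp497 (N : ℕ) [NeZero N] (E : EmbData Qb (modularFunctionFieldBar N))
    (hvinf : E.vinf = JZero.cusp N)
    (hBig : 4 * genusR Qb (modularFunctionFieldBar N) + 1 ≤ E.m) :
    ∃ Rt : Divisor Qb (modularFunctionFieldBar N), 0 ≤ Rt ∧
      IsInvariant (modularFunctionFieldFull N) Rt ∧ Rt (JZero.cusp N) = 0 ∧
      Fermat.Agent.S17.H35.GaussRtStatement E Rt
        (Divisor.degree Rt - (2 * (genusR Qb (modularFunctionFieldBar N) : ℤ) - 2)) := by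
  obtain ⟨t, htmem, htfix, hnc⟩ := JZero.exists_rational_coordinate N
  have hinf : IsInvariant (modularFunctionFieldFull N) (prim E.vinf) := by
    intro σ
    rw [hvinf, smul_prim, JZero.galois_smul_cusp]
  have htmem' : t ∈ riemannRochSpace (E.m • prim E.vinf) := by
    rw [hvinf]
    refine L_mono ?_ htmem
    rw [Finsupp.le_def]
    intro v
    rw [Finsupp.smul_apply, Finsupp.smul_apply]
    by_cases hv : v = JZero.cusp N
    · subst hv
      rw [prim_apply_self, nsmul_eq_mul, nsmul_eq_mul, mul_one, mul_one]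
      exact_mod_cast (by omega : genusR Qb (modularFunctionFieldBar N) + 1 ≤ E.m)
    · rw [prim_apply_of_ne hv, smul_zero, smul_zero]
  obtain ⟨Rt, h0, hinv, hRinf, hG⟩ :=
    exists_rtData_deg497 (modularFunctionFieldFull N) E hinf htfix htmem' hnc
      (gaussCan497 E hBig)
  exact ⟨Rt, h0, hinv, by rw [← hvinf]; exact hRinf, hG⟩

/-- **All inputs of TOP** (WALL + GAUSS). -/
theorem wallInputs497 (N : ℕ) [NeZero N] : Fermat.Agent.S17.H500.Final.WallInputs N := by
  have := Fermat.Agent.S17.H77.isAlgebraic_Qb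
  exact
    { wall_e3 := fun E h => Fermat.Agent.S17.Wall.e3_main E h
      wall_adj := fun E h => Fermat.Agent.S17.Wall.adj_main E h
      wall_vdm := fun E d₀ h hd => Fermat.Agent.S17.Wall.vdm_main E h d₀ hd
      gauss := fun E hvinf _ hBig _ _ => gaussRt_cusp497 N E hvinf hBig }

/-- **TOWER H.**  The descent height on `J₀(N)(ℚ)`. -/
theorem hasDescentHeight497 (N : ℕ) [NeZero N] : Fermat.Agent.S17.H17.HasDescentHeight N 2 :=
  Fermat.Agent.S17.H500.Final.hasDescentHeight_of_wallInputs N (wallInputs497 N)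

end Fermat.Agent.S17.H497

end
end
-- ===== PACK-END S17/H497/TowerH.lean

-- ===== PACK-BEGIN S17.lean
section




set_option autoImplicit false
open ModularCurve AlgebraicCurve
open ModularCurve ModularCurve.JZero

namespace Fermat.Agent.S17

theorem result (N : ℕ) [NeZero N] (hN : N.Prime) (hN5 : 5 ≤ N) :
    AddGroup.FG ↥(FixedPoints.addSubgroup ((AlgebraicClosure ℚ) ≃ₐ[ℚ] (AlgebraicClosure ℚ)) (JZero N)) :=
  Fermat.Agent.S17.H17.result_of_height N hN hN5 (Fermat.Agent.S17.H497.hasDescentHeight497 N)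

end Fermat.Agent.S17

end
-- ===== PACK-END S17.lean

-- ===== PACK-BEGIN S15/H975/Final.lean
section








/-!
# Row S15: the FINAL CHAIN with every landed node plugged in (row-lead helper975)

    frozen S15  <==  Core.GeoStatement p  +  FLAG  +  COUNT  +  STEP  +  PROJ

Plugged in from main: Mordell–Weil (`S17.result`), DIV (`S17.GDiv.divisible`), ALG0
(`H302.alg0`), FIN (`finStatement`), RTF (`H808.rtfStatement_of_mw`), T6'' (`H608`),
Hecke–Galois (`S29.H571.heckeOperatorBar_smul`), the route-208 consumer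
(`H466.selBound_of_nodes208`), CUSP (`H362.cuspStatement`), the three-node TOP
(`Core.s15_of_nodes`) and `H302.descentStatement_of_descCore`.
-/

set_option autoImplicit false

noncomputable section

open WeierstrassCurve WeierstrassCurve.Affine

namespace Fermat.Agent.S15.H975

open ModularCurve Fermat.Agent.S15

/-- Mordell–Weil (frozen S17, on main). -/
theorem mordellWeil (p : ℕ) [NeZero p] (hp : p.Prime) (hp5 : 5 ≤ p) :
    AddGroup.FG ↥(FixedPoints.addSubgroup _root_.Fermat.Agent.S15.H975.Gal (JZero p)) :=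
  Fermat.Agent.S17.result p hp hp5

/-- **DIV** (row S17, helper797). -/
theorem divStatement : DivStatement := fun p _ _ r hr x =>
  Fermat.Agent.S17.GDiv.divisible p r hr.ne_zero x

/-- **RTF** (helper808, from Mordell–Weil). -/
theorem rtfStatement : RtfStatement :=
  Fermat.Agent.S15.H808.rtfStatement_of_mw fun N _ hN hN5 => Fermat.Agent.S17.result N hN hN5

/-- Hecke–Galois equivariance (helper571). -/
theorem heckeGalStatement : Fermat.Agent.S15.H466.HeckeGalStatement := fun p _ ℓ σ x =>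
  Fermat.Agent.S29.H571.heckeOperatorBar_smul p ℓ σ x

/-- **T6''** at all prime levels (helper608; levels `2`, `3` are trivial). -/
theorem t6ppAllStatement : Fermat.Agent.S15.H466.T6ppAllStatement := by
  intro p _ hp r hr hrp k
  rcases Nat.lt_or_ge p 5 with h5 | h5
  · have h2 := hp.two_le
    have hp' : p = 2 ∨ p = 3 := by
      rcases (show p = 2 ∨ p = 3 ∨ p = 4 by omega) with h | h | h
      · exact Or.inl h
      · exact Or.inr h
      · subst h
        exact absurd hp (by decide)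
    rcases hp' with rfl | rfl
    · exfalso
      have h1 : r ∣ 1 := hrp
      exact hr.one_lt.ne' (Nat.dvd_one.mp h1)
    · intro P _ τ _ x _
      haveI := Fermat.Agent.S15.H808.subsingleton_jZero_three
      exact Subsingleton.elim _ _
  · have hrp' : r ≠ p := by
      rintro rfl
      have h1 := Nat.le_of_dvd (by omega) hrp
      omega
    exact Fermat.Agent.S15.H608.t6ppStatement_prime p r hp h5 hr hrp' k

/-- LOCAL on route 208 from COUNT and STEP. -/
theorem local208_of_count_step (hCount : CountStatement) (hStep : StepStatement) :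
    Fermat.Agent.S15.H466.Local208Statement := by
  intro p _ hp S r hr hrp
  obtain ⟨A, hA, τ₀, hτ, hstep⟩ := hStep p hp S r hr hrp
  exact ⟨A, τ₀, cocImage p (S : Set ℕ) r complexConjugation, hA, hτ,
    cocImage_le p (S : Set ℕ) r complexConjugation, hCount p hp S r hr hrp, hstep⟩

/-- **SEL** from the open nodes. -/
theorem selStatement_of_open (hFlag : FlagStatement) (hCount : CountStatement)
    (hStep : StepStatement) (hProj : Fermat.Agent.S15.H466.ProjStatement) : SelStatement :=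
  fun p _ hp S r hr hrp =>
    Fermat.Agent.S15.H466.selBound_of_nodes208 divStatement finStatement rtfStatement hFlag
      (local208_of_count_step hCount hStep) t6ppAllStatement heckeGalStatement hProj
      p hp S r hr hrp

/-- **The frozen statement S15 from the open nodes.** -/
theorem S15_of_open
    (hGeo : ∀ (p : ℕ) [NeZero p], p.Prime → p ∉ ({2, 3, 5, 7, 13} : Finset ℕ) →
      Core.GeoStatement p)
    (hFlag : FlagStatement) (hCount : CountStatement) (hStep : StepStatement)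
    (hProj : Fermat.Agent.S15.H466.ProjStatement)
    {p : ℕ} (hp : p.Prime) (hp' : p ∉ ({2, 3, 5, 7, 13} : Finset ℕ))
    (W : WeierstrassCurve ℤ) (hΔ : W.Δ ≠ 0)
    (Q : ((W.map (Int.castRingHom ℚ))⁄(AlgebraicClosure ℚ)).Point)
    (hQfix : ∀ σ : AlgebraicClosure ℚ ≃ₐ[ℚ] AlgebraicClosure ℚ, σ • Q = Q)
    (hQord : addOrderOf Q = p)
    (h2Δ : (2 : ℤ) ∣ W.Δ) (h2c₄ : ¬ (2 : ℤ) ∣ W.c₄)
    (h2 : ∀ A : ValuationSubring (AlgebraicClosure ℚ), A.LiesOverPrime 2 →
      ¬ W.InZeroComponentAt A Q)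
    (h3Δ : (3 : ℤ) ∣ W.Δ) (h3c₄ : ¬ (3 : ℤ) ∣ W.c₄)
    (h3 : ∀ A : ValuationSubring (AlgebraicClosure ℚ), A.LiesOverPrime 3 →
      ¬ W.InZeroComponentAt A Q)
    {ℓ : ℕ} (hℓ : ℓ.Prime) (hℓp : ℓ ≠ p) (hℓΔ : (ℓ : ℤ) ∣ W.Δ) (hℓc₄ : ¬ (ℓ : ℤ) ∣ W.c₄)
    (A : ValuationSubring (AlgebraicClosure ℚ)) (hA' : A.LiesOverPrime ℓ) :
    ¬ W.InZeroComponentAt A Q :=
  S15_of_geo_sel hGeo (fun p _ hp hp5 => mordellWeil p hp hp5) Fermat.Agent.S15.H302.alg0
    divStatement (selStatement_of_open hFlag hCount hStep hProj)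
    hp hp' W hΔ Q hQfix hQord h2Δ h2c₄ h2 h3Δ h3c₄ h3 hℓ hℓp hℓΔ hℓc₄ A hA'

end Fermat.Agent.S15.H975

end

end
-- ===== PACK-END S15/H975/Final.lean

-- ===== PACK-BEGIN S30/H810/Onto.lean
section
/-
S30 / piece FIN-ONTO (helper810), part 3: REVERSE KUMMER (ONTO, weak form).

Every `p`-torsion class `x ∈ J₀(N)(ℚ̄)` is the Kummer class (M4b `IsKum`) of some character
`c : Γ₀(N) → ℤ/p`:  `x = [D]`, `p D = div f`, `f t^p` is realised by a good function `G`, all
analytic orders of `G` are divisible by `p` (reverse dictionary), so `G = U^p` with `U` holomorphic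
on `ℍ` (ROOT, landed `H751`), and `U ∘ γ = ζ_p^{c(γ)} U` by the identity theorem.
-/




set_option autoImplicit false
set_option linter.unusedSectionVars false

noncomputable section

open ModularCurve AlgebraicCurve CongruenceSubgroup UpperHalfPlane HahnSeries
open scoped MatrixGroups Manifold

namespace Fermat.Agent.S30.H810

open Fermat.Agent.S24 Fermat.Agent.S24.H648 Fermat.Agent.S24.H708 Fermat.Agent.S24.Deg457
open Fermat.Agent.S24.H624 Fermat.Agent.S24.H997 Fermat.Agent.S29 Fermat.Agent.S29.M4b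
open Fermat.Agent.S29.H882

theorem isPrimitiveRoot_zetaP (p : ℕ) (hp : p ≠ 0) : IsPrimitiveRoot (zetaP p) p :=
  Complex.isPrimitiveRoot_exp p hp

theorem mdiff_comp_smul {U : ℍ → ℂ} (hU : MDiff U) (γ : SL(2, ℤ)) :
    MDiff (fun τ => U (γ • τ)) := by
  have h := (γ⁻¹ • (⟨U, hU⟩ : holoRing)).2
  have h2 : ((γ⁻¹ • (⟨U, hU⟩ : holoRing) : holoRing) : ℍ → ℂ) = fun τ => U (γ • τ) := by
    funext τ
    rw [smul_holoRing_apply, inv_inv]
  rw [← h2]
  exact h

/-- Two holomorphic functions on `ℍ` with the same `p`-th power differ by a power of `ζ_p`. -/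
theorem exists_zetaP_pow_of_pow_eq {A B : ℍ → ℂ} (hA : MDiff A) (hB : MDiff B) (p : ℕ)
    (hp : p ≠ 0) (hB0 : ∃ τ, B τ ≠ 0) (h : ∀ τ, A τ ^ p = B τ ^ p) :
    ∃ k : ZMod p, ∀ τ, A τ = zetaP p ^ k.val * B τ := by
  obtain ⟨τ₀, hτ₀⟩ := hB0
  have hA0 : A τ₀ ≠ 0 := by
    intro h0
    have := h τ₀
    rw [h0, zero_pow hp] at this
    exact hτ₀ (pow_eq_zero_iff hp |>.mp this.symm)
  have hζ : (A τ₀ / B τ₀) ^ p = 1 := by
    rw [div_pow, h τ₀, div_self (pow_ne_zero _ hτ₀)]
  have : NeZero p := ⟨hp⟩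
  obtain ⟨i, hi, hiζ⟩ := (isPrimitiveRoot_zetaP p hp).eq_pow_of_pow_eq_one hζ
  refine ⟨(i : ZMod p), ?_⟩
  rw [ZMod.val_natCast_of_lt hi, hiζ]
  have hB' : MDiff (fun τ => A τ₀ / B τ₀ * B τ) := by
    have : (fun τ => A τ₀ / B τ₀ * B τ) = (fun _ : ℍ => A τ₀ / B τ₀) * B := rfl
    rw [this]
    exact mdifferentiable_const.mul hB
  have key := H751.eq_of_pow_eq_UHP hA hB' hp (fun τ => by rw [mul_pow, hζ, one_mul, h τ])
    (τ₀ := τ₀) (by rw [div_mul_cancel₀ _ hτ₀]) hA0
  intro τ
  exact congrFun key τ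

variable (N : ℕ) [NeZero N]

/-- **REVERSE KUMMER (ONTO)**, weak form: every `p`-torsion class is the Kummer class of a
character. -/
theorem exists_isKum_of_torsion (p : ℕ) [NeZero p] {x : JZero N} (hx : (p : ℤ) • x = 0) :
    ∃ c : G0 N → ZMod p, IsKum N p c x := by
  classical
  have hp : p ≠ 0 := NeZero.ne p
  obtain ⟨f, hf⟩ := H455.exists_isKummerClass_of_zsmul_eq_zero hx
  have hf0 : f ≠ 0 := hf.ne_zero
  obtain ⟨r, t, ht, hft⟩ := exists_div_inclRN N f
  have ht' : inclRN N t ≠ 0 := fun h => ht (inclRN_injective N (by rw [h, map_zero]))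
  -- the pole-free representative
  obtain ⟨q, hq⟩ : ∃ q : ℕ, p = q + 1 := ⟨p - 1, by have := Nat.pos_of_ne_zero hp; omega⟩
  set u : FF N := f * inclRN N t ^ p with hu
  have hu0 : u ≠ 0 := mul_ne_zero hf0 (pow_ne_zero _ ht')
  have hur : u = inclRN N (r * t ^ q) := by
    rw [hu, hft, hq, map_mul, map_pow, pow_succ]
    field_simp
  set G : ℍ → ℂ := realFun N (r * t ^ q) with hG
  have hGr : Realises N u G := by
    refine ⟨realFun_mem N _, ?_⟩
    rw [(realFun_hasQExp N (r * t ^ q)).qexpFun_eq, hur]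
    rfl
  have hmd : MDiff G := hGr.1.1
  -- divisibility of the algebraic orders
  have hdiv : ∀ v : Place Kbar (FF N), (p : ℤ) ∣ v.ord u := by
    intro v
    obtain ⟨-, D, -, hD⟩ := hf
    rw [hu, Place.ord_mul v hf0 (pow_ne_zero _ ht'), H117.ord_pow, ← hD v]
    exact dvd_add (dvd_mul_right _ _) (dvd_mul_right _ _)
  -- the p-th root
  obtain ⟨U, hU, hUp⟩ := H751.exists_pow_eq_UHP hmd p hp
    (fun τ => exists_analyticOrderAt_eq_mul hGr hu0 p hp hdiv τ)
  have hG0 : G ≠ 0 := realises_ne_zero hGr hu0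
  have hU0 : ∃ τ, U τ ≠ 0 := by
    by_contra hcon
    push Not at hcon
    apply hG0
    funext τ
    rw [← hUp τ, hcon τ, zero_pow hp]
    rfl
  -- the character
  have hchar : ∀ γ : G0 N, ∃ k : ZMod p, ∀ τ : ℍ,
      U ((γ : SL(2, ℤ)) • τ) = zetaP p ^ k.val * U τ := by
    intro γ
    refine exists_zetaP_pow_of_pow_eq (_root_.Fermat.Agent.S30.H810.mdiff_comp_smul hU (γ : SL(2, ℤ))) hU p hp hU0 ?_
    intro τ
    rw [hUp, hUp]
    exact hGr.1.2.1 _ γ.2 τ
  choose c hc using hchar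
  refine ⟨c, f, inclRN N t, U, ht', hf, ⟨hU, hU0, hc, ?_⟩, ?_⟩
  · have : (fun τ => U τ ^ p) = G := funext hUp
    rw [this]
    exact hGr.1
  · have : (fun τ => U τ ^ p) = G := funext hUp
    rw [this]
    exact hGr

end Fermat.Agent.S30.H810

end
end
-- ===== PACK-END S30/H810/Onto.lean

-- ===== PACK-BEGIN S29/M4b/H89/K4Uniq.lean
section
/-
S29 row, layer M, sub-layer M4b — PIECE `K4-UNIQ` (helper89): the Kummer class of a character is
unique.  Exact statement of `M4b/Skeleton.lean` (helper822); `pieceUniq : PieceUniq N p` is the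
shape of `M4b/Top.lean` (helper269).

Proof: for two data `(f, t, U)`, `(f', t', U')` of the same character `c`, the function
`V := U * U' ^ (p-1)` is `Γ₀(N)`-invariant, holomorphic, and good (its `p`-th power is), so its
`q`-expansion `b` lies in `F_ℂ` (MERO, `H882`).  `b ^ p` is the image of
`w = (f t^p) (f' t'^p)^(p-1) ∈ FF N`, so `b = ι v` with `v ∈ ℚ̄((q))` (PROOT), and `v ∈ FF N`
(`H882` (C)).  Hence `f * f' ^ (p-1)` is a `p`-th power in `FF N`, so `x + (p-1) x' = 0`, and
`p x' = 0` gives `x = x'`.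
-/




set_option autoImplicit false

noncomputable section

open ModularCurve AlgebraicCurve CongruenceSubgroup UpperHalfPlane
open scoped MatrixGroups Manifold

namespace Fermat.Agent.S29.M4b.H89

open Fermat.Agent.S24 Fermat.Agent.S29 Fermat.Agent.S29.M4b

section K4Uniq

variable (N : ℕ) [NeZero N] (p : ℕ) [NeZero p]

theorem K4Uniq_zetaP_pow : zetaP p ^ p = 1 := by
  have hp : (p : ℂ) ≠ 0 := Nat.cast_ne_zero.2 (NeZero.ne p)
  rw [zetaP, ← Complex.exp_nat_mul]
  have : (p : ℂ) * (2 * Real.pi * Complex.I / p) = 2 * Real.pi * Complex.I := by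
    field_simp
  rw [this, Complex.exp_two_pi_mul_I]

/-- `p`-th root of a growth bound. -/
theorem K4Uniq_expGrowth_of_pow {f : ℍ → ℂ}
    (hf : H648.ExpGrowth (fun τ => f τ ^ p)) : H648.ExpGrowth f := by
  obtain ⟨C, m, h⟩ := hf
  refine ⟨1 + |C|, m, fun τ hτ => ?_⟩
  have h1 := h τ hτ
  rw [norm_pow] at h1
  have hexp : 1 ≤ Real.exp (2 * Real.pi * m * τ.im) := by
    apply Real.one_le_exp
    have := Real.pi_pos
    have := τ.im_pos
    positivity
  have hpos : 0 < p := Nat.pos_of_ne_zero (NeZero.ne p)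
  by_cases hle : ‖f τ‖ ≤ 1
  · calc ‖f τ‖ ≤ 1 := hle
      _ ≤ 1 * Real.exp (2 * Real.pi * m * τ.im) := by rw [one_mul]; exact hexp
      _ ≤ (1 + |C|) * Real.exp (2 * Real.pi * m * τ.im) := by
          apply mul_le_mul_of_nonneg_right _ (Real.exp_pos _).le
          linarith [abs_nonneg C]
  · rw [not_le] at hle
    calc ‖f τ‖ ≤ ‖f τ‖ ^ p := le_self_pow₀ hle.le (NeZero.ne p)
      _ ≤ C * Real.exp (2 * Real.pi * m * τ.im) := h1
      _ ≤ (1 + |C|) * Real.exp (2 * Real.pi * m * τ.im) := by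
          apply mul_le_mul_of_nonneg_right _ (Real.exp_pos _).le
          linarith [le_abs_self C]


omit [NeZero N] in
/-- `V = U * U' ^ (p-1)` is invariant under `Γ₀(N)` when `U`, `U'` have the same character. -/
theorem K4Uniq_invariant {c : G0 N → ZMod p} {U U' : ℍ → ℂ} (hU : HasChar N p c U)
    (hU' : HasChar N p c U') (γ : SL(2, ℤ)) (hγ : γ ∈ Gamma0 N) (τ : ℍ) :
    U (γ • τ) * U' (γ • τ) ^ (p - 1) = U τ * U' τ ^ (p - 1) := by
  have h1 := hU ⟨γ, hγ⟩ τ
  have h2 := hU' ⟨γ, hγ⟩ τ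
  simp only at h1 h2
  rw [h1, h2, mul_pow, ← pow_mul]
  have hp : 1 ≤ p := Nat.one_le_iff_ne_zero.2 (NeZero.ne p)
  have e : zetaP p ^ (c ⟨γ, hγ⟩).val * U τ * (zetaP p ^ ((c ⟨γ, hγ⟩).val * (p - 1)) * U' τ ^ (p - 1))
      = zetaP p ^ ((c ⟨γ, hγ⟩).val * p) * (U τ * U' τ ^ (p - 1)) := by
    have : (c ⟨γ, hγ⟩).val * p = (c ⟨γ, hγ⟩).val + (c ⟨γ, hγ⟩).val * (p - 1) := by
      rw [Nat.mul_sub_one, Nat.add_sub_cancel' (Nat.le_mul_of_pos_right _ hp)]
    rw [this, pow_add]
    ring
  rw [e, mul_comm (c ⟨γ, hγ⟩).val p, pow_mul, K4Uniq_zetaP_pow, one_pow, one_mul]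

omit [NeZero N] in
/-- `V = U * U' ^ (p-1)` is a good function. -/
theorem K4Uniq_mem_goodRing {c : G0 N → ZMod p} {U U' : ℍ → ℂ} (hU : IsTwisted N p c U)
    (hU' : IsTwisted N p c U') : (fun τ => U τ * U' τ ^ (p - 1)) ∈ H648.goodRing N := by
  have hp : 1 ≤ p := Nat.one_le_iff_ne_zero.2 (NeZero.ne p)
  refine ⟨hU.mdiff.mul (hU'.mdiff.pow (p - 1)), fun γ hγ τ => ?_, fun g => ?_⟩
  · exact K4Uniq_invariant N p hU.hasChar hU'.hasChar γ hγ τ
  · apply K4Uniq_expGrowth_of_pow p
    have h1 : (fun τ => U τ ^ p) * (fun τ => U' τ ^ p) ^ (p - 1) ∈ H648.goodRing N :=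
      (H648.goodRing N).mul_mem hU.pow_mem ((H648.goodRing N).pow_mem hU'.pow_mem _)
    have h2 := h1.2.2 g
    have e : (fun τ : ℍ => (U (g • τ) * U' (g • τ) ^ (p - 1)) ^ p)
        = fun τ => ((fun τ => U τ ^ p) * (fun τ => U' τ ^ p) ^ (p - 1)) (g • τ) := by
      funext τ
      simp only [Pi.mul_apply, Pi.pow_apply]
      ring
    rw [e]
    exact h2


/-- Kummer classes of powers. -/
theorem K4Uniq_kummer_pow {K F : Type*} [Field K] [Field F] [Algebra K F] {n : ℤ} {f : F}
    {x : Pic0 K F} (hx : H455.IsKummerClass n f x) (k : ℕ) :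
    H455.IsKummerClass n (f ^ k) (k • x) := by
  induction k with
  | zero =>
    rw [pow_zero, zero_nsmul]
    exact H455.IsKummerClass.zero
  | succ k ih =>
    rw [pow_succ, succ_nsmul]
    exact ih.add hx

theorem K4Uniq_coeffMap_injective {K L : Type*} [Field K] [Field L] (ι : K →+* L) :
    Function.Injective (coeffMap ι) := by
  intro a b hab
  ext n
  have := congrArg (fun z : LaurentSeries L => z.coeff n) hab
  simp only [coeffMap_coeff] at this
  exact ι.injective this

/-- PIECE `K4-UNIQ`: the Kummer class of a character is unique. -/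
theorem isKum_unique {c : G0 N → ZMod p} {x x' : JZero N}
    (h : IsKum N p c x) (h' : IsKum N p c x') : x = x' := by
  obtain ⟨f, t, U, ht, hx, hU, hR⟩ := h
  obtain ⟨f', t', U', ht', hx', hU', hR'⟩ := h'
  have hp1 : 1 ≤ p := Nat.one_le_iff_ne_zero.2 (NeZero.ne p)
  have hpK : ((p : ℕ) : Kbar) ≠ 0 := Nat.cast_ne_zero.2 (NeZero.ne p)
  -- the invariant function `V`
  have hV := K4Uniq_mem_goodRing N p hU hU'
  have hVq := H882.hasQExp_of_mem_goodRing hV
  have hUq : H708.HasQExp 1 (fun τ => U τ ^ p)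
      (coeffMap Deg457.iotaC ((f * t ^ p : FF N) : LaurentSeries Kbar)) :=
    ⟨H882.isMerInf_of_mem_goodRing hR.1, hR.2⟩
  have hU'q : H708.HasQExp 1 (fun τ => U' τ ^ p)
      (coeffMap Deg457.iotaC ((f' * t' ^ p : FF N) : LaurentSeries Kbar)) :=
    ⟨H882.isMerInf_of_mem_goodRing hR'.1, hR'.2⟩
  have hprod := hUq.mul (hU'q.pow (p - 1))
  have hfun : (fun τ => U τ * U' τ ^ (p - 1)) ^ p
      = (fun τ => U τ ^ p) * (fun τ => U' τ ^ p) ^ (p - 1) := by
    funext τ
    simp only [Pi.pow_apply, Pi.mul_apply]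
    ring
  have hVp := hVq.pow p
  rw [hfun] at hVp
  have hbw := hVp.unique hprod
  have hbw' : H708.qexpFun 1 (fun τ => U τ * U' τ ^ (p - 1)) ^ p
      = coeffMap Deg457.iotaC
        ((((f * t ^ p) * (f' * t' ^ p) ^ (p - 1) : FF N)) : LaurentSeries Kbar) := by
    rw [hbw]
    push_cast
    simp only [map_mul, map_pow]
  obtain ⟨v, hv⟩ := PRoot.exists_coeffMap_eq_of_pow Deg457.iotaC hpK _ _ hbw'
  have hbFC := H882.qexpFun_mem_FC hV
  have hvFF : v ∈ modularFunctionFieldBar N :=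
    H882.mem_laurentBaseChange_of_coeffMap_mem Deg457.iotaC _ (by rw [hv]; exact hbFC)
  have hvp : v ^ p = ((((f * t ^ p) * (f' * t' ^ p) ^ (p - 1) : FF N)) : LaurentSeries Kbar) := by
    apply K4Uniq_coeffMap_injective Deg457.iotaC
    rw [map_pow, hv, hbw']
  have hvFp : (⟨v, hvFF⟩ : FF N) ^ p = (f * t ^ p) * (f' * t' ^ p) ^ (p - 1) := by
    apply Subtype.ext
    rw [← hvp]
    rfl
  -- the `p`-th root of `f * f' ^ (p-1)`
  have htt : t * t' ^ (p - 1) ≠ 0 := mul_ne_zero ht (pow_ne_zero _ ht')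
  have hg : f * f' ^ (p - 1) = ((⟨v, hvFF⟩ : FF N) / (t * t' ^ (p - 1))) ^ p := by
    rw [div_pow, hvFp, eq_div_iff (pow_ne_zero _ htt)]
    ring
  have hf := hx.ne_zero
  have hf' := hx'.ne_zero
  have hg0 : (⟨v, hvFF⟩ : FF N) / (t * t' ^ (p - 1)) ≠ 0 := by
    intro h0
    rw [h0, zero_pow (NeZero.ne p)] at hg
    exact mul_ne_zero hf (pow_ne_zero _ hf') hg
  have hk : H455.IsKummerClass (p : ℤ) (f * f' ^ (p - 1)) (x + (p - 1) • x') :=
    hx.add (K4Uniq_kummer_pow hx' (p - 1))
  have hpz : ((p : ℕ) : ℤ) ≠ 0 := Int.natCast_ne_zero.2 (NeZero.ne p)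
  have hzero : x + (p - 1) • x' = 0 :=
    (hk.eq_zero_iff hpz).2 ⟨_, hg0, fun w => by
      rw [hg, ← zpow_natCast, Place.ord_zpow]⟩
  have hpx' : (p : ℤ) • x' = 0 := hx'.zsmul_eq_zero
  have hpx'' : p • x' = 0 := by
    rw [← natCast_zsmul]; exact hpx'
  have e : p • x' = (p - 1) • x' + x' := by
    conv_lhs => rw [← Nat.sub_add_cancel hp1]
    rw [succ_nsmul]
  rw [e] at hpx''
  -- `x + a = 0` and `a + x' = 0`
  calc x = x + ((p - 1) • x' + x') := by rw [hpx'', add_zero]
    _ = (x + (p - 1) • x') + x' := by rw [add_assoc]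
    _ = x' := by rw [hzero, zero_add]

/-- PIECE `K4-UNIQ` in the shape of `M4b/Top.lean`. -/
theorem pieceUniq : PieceUniq N p := fun h h' => isKum_unique N p h h'

end K4Uniq

end Fermat.Agent.S29.M4b.H89

end
end
-- ===== PACK-END S29/M4b/H89/K4Uniq.lean

-- ===== PACK-BEGIN A3/H319/Fin.lean
section





/-!
# A3 / FIN (helper319): the torsion of `J₀(N)(ℚ̄)` is finite — `S19.FinStatement`

Glue of three results on main:

* ONTO   `S30.H810.exists_isKum_of_torsion` (helper810): every `m`-torsion class is the Kummer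
  class of some character `c : Γ₀(N) → ℤ/m`;
* UNIQ   `S29.M4b.H89.isKum_unique` (helper89): the Kummer class of a character is unique;
* COUNT  `S30.Fin.finite_torsion_of` (helper49): ONTO + UNIQ + `Γ₀(N)` finitely generated ⟹ finite.

Output: `finite_torsionBy` (any `m ≠ 0`), `finite_tors`, and `finStatement : S19.FinStatement`
(the FIN block of the frozen A3 interface `Fermat/Agent/S19/Defs.lean`).
-/

set_option autoImplicit false

noncomputable section

namespace Fermat.Agent.A3.H319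

open ModularCurve

/-- The `m`-torsion of `J₀(N)(ℚ̄)` is a finite set, `m ≠ 0`. -/
theorem finite_setOf_zsmul_eq_zero (N : ℕ) [NeZero N] (m : ℕ) [NeZero m] :
    {x : JZero N | (m : ℤ) • x = 0}.Finite :=
  Fermat.Agent.S30.Fin.finite_torsion_of N m
    (fun _ hx => Fermat.Agent.S30.H810.exists_isKum_of_torsion N m hx)
    (fun _ _ _ h h' => Fermat.Agent.S29.M4b.H89.isKum_unique N m h h')

/-- `J₀(N)(ℚ̄)[m]` is finite for every integer `m ≠ 0`. -/
theorem finite_torsionBy (N : ℕ) [NeZero N] (m : ℤ) (hm : m ≠ 0) :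
    Finite (Submodule.torsionBy ℤ (JZero N) m) := by
  have : NeZero m.natAbs := ⟨Int.natAbs_ne_zero.mpr hm⟩
  have h := finite_setOf_zsmul_eq_zero N m.natAbs
  have hsub : ((Submodule.torsionBy ℤ (JZero N) m : Submodule ℤ (JZero N)) : Set (JZero N)) ⊆
      {x : JZero N | ((m.natAbs : ℕ) : ℤ) • x = 0} := by
    intro x hx
    have hx' : m • x = 0 := (Submodule.mem_torsionBy_iff _ _).mp hx
    show ((m.natAbs : ℕ) : ℤ) • x = 0
    rcases Int.natAbs_eq m with h1 | h1
    · rw [← h1]; exact hx'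
    · have h2 : ((m.natAbs : ℕ) : ℤ) = -m := by omega
      rw [h2, neg_smul, hx', neg_zero]
  exact (h.subset hsub).to_subtype

/-- `J₀(N)(ℚ̄)[ℓ^k]` is finite (no hypothesis on `ℓ` beyond `ℓ ≠ 0`). -/
theorem finite_tors (N : ℕ) [NeZero N] (ℓ : ℕ) (hℓ : ℓ ≠ 0) (k : ℕ) :
    Finite (Fermat.Agent.S19.Tors N ℓ k) :=
  finite_torsionBy N ((ℓ : ℤ) ^ k) (pow_ne_zero k (Int.natCast_ne_zero.mpr hℓ))

/-- **FIN block of A3** (frozen interface `Fermat.Agent.S19.FinStatement`). -/
theorem finStatement : Fermat.Agent.S19.FinStatement := by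
  intro N _ ℓ hℓ k
  exact finite_tors N ℓ hℓ.out.ne_zero k

end Fermat.Agent.A3.H319

end
end
-- ===== PACK-END A3/H319/Fin.lean

-- ===== PACK-BEGIN S37/H697/Kronecker.lean
section




/-!
# S37 (helper697): the Kronecker congruence for norms, `KroneckerNorm`

Assembly of
* NORM (helper819, `H819.norm_heckeBeta`): `Nm_α (β y)(u^ℓ) = y(u^{ℓ²}) ∏_{b<ℓ} y(ζ^b u)`,
* the formal product formula and Kronecker congruence (helper340, `H340.kron_*`),

into the hypothesis `KroneckerNorm A π N ℓ φ` of `Relation.lean`: for `ℓ` prime, `ℓ ∤ N`, `A` a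
valuation subring of `ℚ̄`, `π : A → k` a homomorphism to a field of characteristic `ℓ` and `φ` an
automorphism of `k` with `φ x = x ^ ℓ`, the norm of `β y` (`y ∈ A((q)) ∩ F̄_N`) is the series
`knorm ℓ y ∈ A((q))`, with reduction `(Φ⁻¹ ȳ) ^ ℓ · Φ ȳ`.
-/

set_option autoImplicit false
set_option linter.style.haveILetI false

noncomputable section

namespace Fermat.Agent.S37.H697

open ModularCurve HahnSeries AlgebraicCurve Fermat.Agent.S24

section TwistCompare

variable {R : Type*} [CommRing R] (ℓ : ℕ) [NeZero ℓ]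

theorem zpw_eq_zpow (u : Rˣ) (hu : (u : R) ^ ℓ = 1) (n : ℤ) :
    H340.zpw ℓ (u : R) n = ((u ^ n : Rˣ) : R) := by
  have hℓ : (ℓ : ℤ) ≠ 0 := by exact_mod_cast NeZero.ne ℓ
  have hu' : u ^ ℓ = 1 := Units.ext (by rw [Units.val_pow_eq_pow_val, hu, Units.val_one])
  have h1 : 0 ≤ n % (ℓ : ℤ) := Int.emod_nonneg n hℓ
  have h2 : n = (ℓ : ℤ) * (n / (ℓ : ℤ)) + ((n % (ℓ : ℤ)).toNat : ℤ) := by
    rw [Int.toNat_of_nonneg h1]
    exact (Int.mul_ediv_add_emod n ℓ).symm
  unfold H340.zpw
  conv_rhs => rw [h2, zpow_add, zpow_mul, zpow_natCast, hu', one_zpow, one_mul, zpow_natCast]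
  rw [Units.val_pow_eq_pow_val]

theorem tw_eq_infTwist (u : Rˣ) (hu : (u : R) ^ ℓ = 1) (f : LaurentSeries R) :
    H340.tw ℓ (u : R) f = infTwist u f := by
  ext n
  rw [H340.tw_coeff, infTwist_coeff, zpw_eq_zpow ℓ u hu, mul_comm]

end TwistCompare

section NormId

variable (N ℓ : ℕ) [NeZero N] [NeZero ℓ]

/-- **NORM-ID**: the `q`-expansion of `Nm_α (β Y)` is the formal Kronecker norm of `Y`. -/
theorem coe_normAlong_heckeBeta (hℓ : ℓ.Prime) (hℓN : ¬ ℓ ∣ N) (Y : FF N) :
    ((normAlong (heckeAlphaBar Kbar N ℓ) (heckeBetaBar Kbar N ℓ Y) : FF N) : LaurentSeries Kbar)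
      = knorm ℓ (Y : LaurentSeries Kbar) := by
  haveI : NeZero ((ℓ : ℕ) : ℚ) := ⟨by exact_mod_cast hℓ.ne_zero⟩
  obtain ⟨ζ0, hζ0⟩ := HasEnoughRootsOfUnity.exists_primitiveRoot Kbar ℓ
  obtain ⟨ζ, rfl⟩ := hζ0.isUnit hℓ.ne_zero
  apply qExpand_injective (R := Kbar) ℓ
  have h := H819.norm_heckeBeta N ℓ hℓ hℓN ζ hζ0 Y
  have e : (qExpand Kbar ℓ) ((normAlong (heckeAlphaBar Kbar N ℓ) (heckeBetaBar Kbar N ℓ Y) : FF N)
      : LaurentSeries Kbar)
      = qExpand Kbar (ℓ * ℓ) (Y : LaurentSeries Kbar)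
        * ∏ b ∈ Finset.range ℓ, infTwist (ζ ^ b) (Y : LaurentSeries Kbar) := h
  rw [e, knorm, map_mul, qExpand_qExpand, qExpand_kdet_eq_prod ℓ hζ0,
    Fin.prod_univ_eq_prod_range (fun b : ℕ => H340.tw ℓ ((ζ : Kbar) ^ b) (Y : LaurentSeries Kbar)) ℓ]
  congr 1
  refine Finset.prod_congr rfl fun b _ => ?_
  have hb : (((ζ ^ b : Kbarˣ) : Kbar)) ^ ℓ = 1 := by
    rw [Units.val_pow_eq_pow_val, ← pow_mul, mul_comm, pow_mul, hζ0.pow_eq_one, one_pow]
  rw [← tw_eq_infTwist ℓ (ζ ^ b) hb, Units.val_pow_eq_pow_val]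

end NormId

section Main

variable (N ℓ : ℕ) [NeZero N] [NeZero ℓ]

/-- **The Kronecker congruence for norms.** -/
theorem kroneckerNorm (hℓ : ℓ.Prime) (hℓN : ¬ ℓ ∣ N) (A : ValuationSubring Kbar)
    {k : Type*} [Field k] [CharP k ℓ] (π : A →+* k) (φ : k ≃+* k) (hφ : ∀ x, φ x = x ^ ℓ) :
    KroneckerNorm A π N ℓ φ := by
  intro y hy _ _
  haveI : Fact ℓ.Prime := ⟨hℓ⟩
  have hnorm := coe_normAlong_heckeBeta N ℓ hℓ hℓN ⟨coeffMap A.subtype y, hy⟩
  have hz : coeffMap A.subtype (knorm ℓ y) = knorm ℓ (coeffMap A.subtype y) :=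
    (knorm_coeffMap ℓ A.subtype y).symm
  have e : ((normAlong (heckeAlphaBar Kbar N ℓ)
      (heckeBetaBar Kbar N ℓ ⟨coeffMap A.subtype y, hy⟩) : FF N) : LaurentSeries Kbar)
      = coeffMap A.subtype (knorm ℓ y) := hnorm.trans hz.symm
  have hmem : coeffMap A.subtype (knorm ℓ y)
      ∈ laurentBaseChange Kbar (modularFunctionFieldFull N) :=
    e ▸ (normAlong (heckeAlphaBar Kbar N ℓ)
      (heckeBetaBar Kbar N ℓ ⟨coeffMap A.subtype y, hy⟩)).2
  refine ⟨knorm ℓ y, hmem, Subtype.ext e, ?_⟩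
  rw [← knorm_coeffMap, knorm_char_equiv ℓ φ hφ]

end Main

end Fermat.Agent.S37.H697

end
end
-- ===== PACK-END S37/H697/Kronecker.lean

-- ===== PACK-BEGIN S37/H697/Final2.lean
section



/-!
# S37 (helper697): the frozen statement S37 from TWO inputs (route B, final form)

`KroneckerNorm` is now proved (`Kronecker.lean`: NORM of helper819 + formal Kronecker congruence
of helper340), so the bounded-homomorphism route reduces S37 to

* `hRed : ReductionInputsModL A N`   — existence of a place reduction `r` with Prelude (i), (ii)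
  (`IsPlaceReductionAlong`) and `PrincipalGeneratedByIntegral` (the latter is on `main`:
  `S37.H448.principalGeneratedByIntegral`);
* `hS18 : Core.InjTorsionModL N ℓ A` — the conclusion of the frozen statement S18.

`weakRedData_of_red` produces the row's final interface `Core.WeakRedData N A ℓ σ₀`
(so that `Core.result_of_weakRedData` / `H99.rawES_of_weakRedData` apply with `M = N`).
-/

set_option autoImplicit false
set_option synthInstance.maxHeartbeats 400000
set_option maxHeartbeats 1600000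

noncomputable section

open HahnSeries IntermediateField AlgebraicCurve ModularCurve ValuationSubring

namespace Fermat.Agent.S37.H697

/-- The residue field of a valuation subring of `ℚ̄` over `ℓ` has characteristic `ℓ`. -/
theorem charP_residueField {ℓ : ℕ} (hℓ : ℓ.Prime)
    (A : ValuationSubring (AlgebraicClosure ℚ)) (hA : A.LiesOverPrime ℓ) :
    CharP (IsLocalRing.ResidueField A) ℓ := by
  refine (CharP.charP_iff_prime_eq_zero hℓ).mpr ?_
  have h1 : ((ℓ : A) : AlgebraicClosure ℚ) ∈ A.nonunits := by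
    have : ((ℓ : A) : AlgebraicClosure ℚ) = (ℓ : AlgebraicClosure ℚ) := by push_cast; rfl
    rw [this]; exact hA
  have h2 : (ℓ : A) ∈ IsLocalRing.maximalIdeal A := ValuationSubring.coe_mem_nonunits_iff.mp h1
  have h3 := (IsLocalRing.residue_eq_zero_iff (ℓ : A)).mpr h2
  rwa [map_natCast] at h3

/-- The Kronecker congruence for norms at a valuation subring of `ℚ̄` over `ℓ ∤ N`. -/
theorem kroneckerNorm_residue (N : ℕ) [NeZero N] {ℓ : ℕ} [NeZero ℓ] (hℓ : ℓ.Prime)
    (hℓN : ¬ ℓ ∣ N) (A : ValuationSubring (AlgebraicClosure ℚ)) (hA : A.LiesOverPrime ℓ)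
    (φ : IsLocalRing.ResidueField A ≃+* IsLocalRing.ResidueField A) (hφ : ∀ x, φ x = x ^ ℓ) :
    KroneckerNorm A (IsLocalRing.residue A) N ℓ φ := by
  have := charP_residueField hℓ A hA
  exact kroneckerNorm N ℓ hℓ hℓN A (IsLocalRing.residue A) φ hφ

/-- **`Core.WeakRedData` from a place reduction and S18.** -/
def weakRedData_of_red (N : ℕ) [NeZero N] (A : ValuationSubring (AlgebraicClosure ℚ))
    (ℓ : ℕ) [NeZero ℓ] (hℓ : ℓ.Prime) (hℓN : ¬ ℓ ∣ N) (hA : A.LiesOverPrime ℓ)
    (h : ReductionInputsModL A N)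
    (hinj : Core.InjTorsionModL N ℓ A)
    (σ₀ : AlgebraicClosure ℚ ≃ₐ[ℚ] AlgebraicClosure ℚ) (hσ₀ : A.IsFrobeniusAt σ₀ ℓ) :
    Core.WeakRedData N A ℓ σ₀ :=
  weakRedData_of_kronecker N A ℓ h hinj (kroneckerNorm_residue N hℓ hℓN A hA) σ₀ hσ₀

/-- **The frozen statement S37 from place reductions and S18.** -/
theorem result_of_red (N p : ℕ) [NeZero N]
    (hRed : ∀ ℓ : ℕ, ℓ.Prime → ¬ ℓ ∣ N →
      ∀ A : ValuationSubring (AlgebraicClosure ℚ), A.LiesOverPrime ℓ → ReductionInputsModL A N)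
    (hS18 : ∀ ℓ : ℕ, ℓ.Prime → ¬ ℓ ∣ N →
      ∀ A : ValuationSubring (AlgebraicClosure ℚ), A.LiesOverPrime ℓ → Core.InjTorsionModL N ℓ A)
    (hcomm : ModularCurve.HeckeOperatorsCommuteBar N) :
    letI := ModularCurve.heckeModuleBar N
    ∀ (_ : SMulCommClass (AlgebraicClosure ℚ ≃ₐ[ℚ] AlgebraicClosure ℚ) ModularCurve.HeckeAlg
      (ModularCurve.JZero N)),
      ModularCurve.SpecializationExists (K := ℚ) (L := AlgebraicClosure ℚ) N p
        (ModularCurve.JZero N) :=
  result_of_kronecker N p hRed hS18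
    (fun ℓ hℓ hℓN A hA =>
      haveI : NeZero ℓ := ⟨hℓ.ne_zero⟩
      kroneckerNorm_residue N hℓ hℓN A hA)
    hcomm

end Fermat.Agent.S37.H697

end
end
-- ===== PACK-END S37/H697/Final2.lean

-- ===== PACK-BEGIN S37/Core/Board.lean
section





/-!
# S37 row-lead (helper37): BOARD v3 — the frozen S37 from TWO inputs, all levels handled

Landed nodes used here: `H697.weakRedData_of_red` (node_wrd; contains NORMID and the Kronecker
congruence), `H818.node_pull` (level raising `N → 2N, 3N` for `ℓ = 3, 2`), `Core.result_of_weakRedData`.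

* `GoodLevel M ℓ` : `5 ≤ ℓ`, or `ℓ = 3 ∧ 2 ∣ M`, or `ℓ = 2 ∧ 3 ∣ M` (a good coordinate exists).
* `RimStatement`  : `ReductionInputsModL A M` for all good levels (node_rim).
* `S18Statement`  : the conclusion of the frozen S18 at all levels (row S18).
* `result_of_rim_s18 : RimStatement → S18Statement → (frozen S37)`.
* `rawES_of_rim_s18` : the same for the raw Eichler-Shimura export (rows S29 / S30 / S42).
* `DatumStatement`   : existence of a linked reduction datum with good charts at good levels;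
  `rimStatement_of_datum : DatumStatement → RimStatement` (by `Core.node_rim_of_datum`).
-/

set_option autoImplicit false
set_option synthInstance.maxHeartbeats 400000

noncomputable section

namespace Fermat.Agent.S37.Core

open ModularCurve ValuationSubring AlgebraicCurve HahnSeries

/-- the levels at which the smooth model is constructed directly -/
def GoodLevel (M ℓ : ℕ) : Prop := 5 ≤ ℓ ∨ (ℓ = 3 ∧ 2 ∣ M) ∨ (ℓ = 2 ∧ 3 ∣ M)

/-- **node_rim**: the place reduction map exists at all good levels. -/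
def RimStatement : Prop :=
  ∀ (M ℓ : ℕ) [NeZero M], ℓ.Prime → ¬ ℓ ∣ M → GoodLevel M ℓ →
    ∀ A : ValuationSubring (AlgebraicClosure ℚ), A.LiesOverPrime ℓ → ReductionInputsModL A M

/-- **node_s18**: the conclusion of the frozen S18, at all levels. -/
def S18Statement : Prop :=
  ∀ (M ℓ : ℕ) [NeZero M], ℓ.Prime → ¬ ℓ ∣ M →
    ∀ A : ValuationSubring (AlgebraicClosure ℚ), A.LiesOverPrime ℓ → InjTorsionModL M ℓ A

/-- **node_datum**: a linked reduction datum with good charts exists at all good levels. -/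
def DatumStatement : Prop :=
  ∀ (M ℓ : ℕ) [NeZero M], ℓ.Prime → ¬ ℓ ∣ M → GoodLevel M ℓ →
    ∀ A : ValuationSubring (AlgebraicClosure ℚ), A.LiesOverPrime ℓ →
      ∃ G : Red.Datum A (IsLocalRing.residue A) (modularFunctionFieldBar M)
          (modularFunctionFieldFullC (IsLocalRing.ResidueField A) M),
        G.Good ∧ Red.H759.Link G

theorem rimStatement_of_datum (h : DatumStatement) : RimStatement := by
  intro M ℓ _ hℓ hℓM hg A hA
  obtain ⟨G, hgood, hlink⟩ := h M ℓ hℓ hℓM hg A hA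
  exact node_rim_of_datum M ℓ hℓ hℓM A hA G hgood hlink

theorem prime_cases {ℓ : ℕ} (hℓ : ℓ.Prime) : ℓ = 2 ∨ ℓ = 3 ∨ 5 ≤ ℓ := by
  rcases Nat.lt_or_ge ℓ 5 with h | h
  · have h2 := hℓ.two_le
    interval_cases ℓ
    · exact Or.inl rfl
    · exact Or.inr (Or.inl rfl)
    · exact absurd hℓ (by decide)
  · exact Or.inr (Or.inr h)

/-- The hypothesis `H` of `Core.result_of_weakRedData` / `Core.rawES_of_weakRedData` from
node_rim and node_s18. -/
theorem weakRedData_of_rim_s18 (hRim : RimStatement) (hS18 : S18Statement) (N : ℕ) [NeZero N]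
    (ℓ : ℕ) (hℓ : ℓ.Prime) (hℓN : ¬ ℓ ∣ N)
    (A : ValuationSubring (AlgebraicClosure ℚ)) (hA : A.LiesOverPrime ℓ)
    (σ₀ : AlgebraicClosure ℚ ≃ₐ[ℚ] AlgebraicClosure ℚ) (hσ₀ : A.IsFrobeniusAt σ₀ ℓ) :
    haveI : NeZero ℓ := ⟨hℓ.ne_zero⟩
    ∃ (M : ℕ) (_ : NeZero M), Nonempty (WeakRedData M A ℓ σ₀) ∧ Nonempty (PullData N M ℓ) := by
  haveI : NeZero ℓ := ⟨hℓ.ne_zero⟩
  have key : ∀ (M : ℕ) [NeZero M], ¬ ℓ ∣ M → GoodLevel M ℓ → Nonempty (PullData N M ℓ) →
      ∃ (M : ℕ) (_ : NeZero M), Nonempty (WeakRedData M A ℓ σ₀) ∧ Nonempty (PullData N M ℓ) :=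
    fun M _ hℓM hg hP =>
      ⟨M, inferInstance,
        ⟨H697.weakRedData_of_red M A ℓ hℓ hℓM hA (hRim M ℓ hℓ hℓM hg A hA)
          (hS18 M ℓ hℓ hℓM A hA) σ₀ hσ₀⟩, hP⟩
  rcases prime_cases hℓ with h2 | h3 | h5
  · subst h2
    by_cases h3N : 3 ∣ N
    · exact key N hℓN (Or.inr (Or.inr ⟨rfl, h3N⟩)) ⟨PullData.refl N 2⟩
    · haveI : NeZero (N * 3) := ⟨Nat.mul_ne_zero (NeZero.ne N) (by norm_num)⟩
      have hℓM : ¬ 2 ∣ N * 3 := fun h =>
        hℓN ((Nat.Coprime.dvd_mul_right (by norm_num : Nat.Coprime 2 3)).mp h)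
      exact key (N * 3) hℓM (Or.inr (Or.inr ⟨rfl, Dvd.intro_left N rfl⟩))
        (H818.node_pull N 3 2 hℓ (Or.inr ⟨rfl, rfl⟩) h3N hℓN)
  · subst h3
    by_cases h2N : 2 ∣ N
    · exact key N hℓN (Or.inr (Or.inl ⟨rfl, h2N⟩)) ⟨PullData.refl N 3⟩
    · haveI : NeZero (N * 2) := ⟨Nat.mul_ne_zero (NeZero.ne N) (by norm_num)⟩
      have hℓM : ¬ 3 ∣ N * 2 := fun h =>
        hℓN ((Nat.Coprime.dvd_mul_right (by norm_num : Nat.Coprime 3 2)).mp h)
      exact key (N * 2) hℓM (Or.inr (Or.inl ⟨rfl, Dvd.intro_left N rfl⟩))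
        (H818.node_pull N 2 3 hℓ (Or.inl ⟨rfl, rfl⟩) h2N hℓN)
  · exact key N hℓN (Or.inl h5) ⟨PullData.refl N ℓ⟩

/-- **The frozen statement S37 from node_rim and node_s18.** -/
theorem result_of_rim_s18 (hRim : RimStatement) (hS18 : S18Statement) (N p : ℕ) [NeZero N]
    (hcomm : ModularCurve.HeckeOperatorsCommuteBar N) :
    letI := ModularCurve.heckeModuleBar N
    ∀ (_ : SMulCommClass (AlgebraicClosure ℚ ≃ₐ[ℚ] AlgebraicClosure ℚ) ModularCurve.HeckeAlg
      (ModularCurve.JZero N)),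
      ModularCurve.SpecializationExists (K := ℚ) (L := AlgebraicClosure ℚ) N p
        (ModularCurve.JZero N) :=
  result_of_weakRedData N p (fun ℓ hℓ hℓN A hA σ₀ hσ₀ =>
    weakRedData_of_rim_s18 hRim hS18 N ℓ hℓ hℓN A hA σ₀ hσ₀) hcomm

/-- **Raw Eichler-Shimura on `p`-torsion of `J₀(N)` from node_rim and node_s18**
(body of `Fermat.Agent.S29.RawESStatement`). -/
theorem rawES_of_rim_s18 (hRim : RimStatement) (hS18 : S18Statement) (N : ℕ) [NeZero N]
    (p : ℕ) (ℓ : ℕ) (hℓ : ℓ.Prime) (hdvd : ¬ ℓ ∣ N * p)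
    (A : ValuationSubring (AlgebraicClosure ℚ)) (hA : A.LiesOverPrime ℓ) :
    (∀ σ ∈ A.inertiaSubgroupIn ℚ, ∀ x : JZero N, (p : ℤ) • x = 0 → σ • x = x) ∧
      (∀ σ : AlgebraicClosure ℚ ≃ₐ[ℚ] AlgebraicClosure ℚ, A.IsFrobeniusAt σ ℓ →
        ∀ x : JZero N, (p : ℤ) • x = 0 →
          σ • σ • x - heckeOperatorBar N ⟨ℓ, hℓ⟩ (σ • x) + (ℓ : ℤ) • x = 0) :=
  rawES_of_weakRedData N (fun ℓ hℓ hℓN A hA σ₀ hσ₀ =>
    weakRedData_of_rim_s18 hRim hS18 N ℓ hℓ hℓN A hA σ₀ hσ₀) p ℓ hℓ hdvd A hA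

end Fermat.Agent.S37.Core

end
end
-- ===== PACK-END S37/Core/Board.lean

-- ===== PACK-BEGIN S37/Core/Leaves.lean
section





/-!
# S37 row-lead (helper37): BOARD v3 — the OPEN LEAVES of `node_rim`, frozen statements

`Core.result_of_rim_s18 : RimStatement → S18Statement → frozen S37` and
`Core.rimStatement_of_datum : DatumStatement → RimStatement` are on main (`Core/Board.lean`).
This file freezes the leaves of `DatumStatement` as `def … : Prop` and PROVES

  `datumStatement_of_leaves :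
     DatumLeaf → NormalAbsStatement → LiftLeaf → H1Leaf → ModStatement → DatumStatement`
  `result_of_leaves : … → S18Statement → frozen S37`.

HAND-IN of a leaf = a theorem of type `Fermat.Agent.S37.Core.<Leaf>` (sorry-free, on main).

* `DatumLeaf` (D1): the Gauss datum `(O, ρ)` on `(F_M, F_{M,k})` whose coordinate is a given
  `x ∈ F_M` with integral model `X ∈ ℤ((q))`, linked to the Prelude (`Red.H759.Link`).
* `NormalAbsStatement` (D2; Mathlib + `S18/Alg/Spec.lean` only): for an `Alg.GoodModel`, an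
  element of `V` which is a root mod `w` of a monic polynomial over `R[x]` is congruent mod `w`
  to an element of the chart (normality of the special fibre; from `b2Normal` of row S18).
* `LiftLeaf` (D3): `Red.H759.LiftAtLevel` on both charts at every number field, from the good
  models of row S18 (`Mod.GoodModelStatement`) and (D2).
* `H1Leaf` (D4): degrees and separability, fields (H1) of `Red.Datum.Good`, for an admissible
  coordinate (`x = j`: `S37.H208.good_H1`, `S37.H628.good_H1`; `t₂`, `t₃`: tower law).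
* `ModStatement`: node_mod of row S18 for all `(M, ℓ, A)`.
-/

set_option autoImplicit false
set_option synthInstance.maxHeartbeats 400000

noncomputable section

namespace Fermat.Agent.S37.Core

open ModularCurve ValuationSubring AlgebraicCurve HahnSeries IsLocalRing Polynomial
open Fermat.Agent.S37.Red Fermat.Agent.S18

/-- `X ∈ ℤ((q))`, `X = q⁻¹ + …`, is an integral model of the coordinate `x ∈ F_M`. -/
structure IsModelOf (M : ℕ) (x : Mod.Om M) (X : LaurentSeries ℤ) : Prop where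
  coeff_neg_one : X.coeff (-1) = 1
  coeff_lt : ∀ k : ℤ, k < -1 → X.coeff k = 0
  coe_eq : (x : LaurentSeries (AlgebraicClosure ℚ)) =
    coeffMap (Int.castRingHom (AlgebraicClosure ℚ)) X
  mem_full : coeffMap (Int.castRingHom ℚ) X ∈ modularFunctionFieldFull M

/-- the reduction `x̄ ∈ k((q))` of the coordinate with integral model `X` -/
abbrev redX (A : ValuationSubring (AlgebraicClosure ℚ)) (X : LaurentSeries ℤ) :
    LaurentSeries (ResidueField A) :=
  coeffMap (Int.castRingHom (ResidueField A)) X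

/-- (D0) an admissible coordinate has an integral model. -/
theorem exists_isModelOf (M ℓ : ℕ) [NeZero M] (x : Mod.Om M) (S : Finset (Mod.Om M))
    (hx : Mod.IsCoordinate M ℓ x S) : ∃ X : LaurentSeries ℤ, IsModelOf M x X := by
  obtain ⟨X, h1, h2, h3, h4⟩ := H456.hasIntExp_of_isCoordinate M hx
  exact ⟨X, h1, h2, h3, h4⟩

/-- **LEAF D1**: the Gauss datum with coordinate `x`, linked to the Prelude. -/
def DatumLeaf : Prop :=
  ∀ (M ℓ : ℕ) [NeZero M], ℓ.Prime → ¬ ℓ ∣ M →
    ∀ A : ValuationSubring (AlgebraicClosure ℚ), A.LiesOverPrime ℓ →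
    ∀ (x : Mod.Om M) (X : LaurentSeries ℤ), IsModelOf M x X →
      ∃ G : Datum A (residue A) (modularFunctionFieldBar M)
          (modularFunctionFieldFullC (ResidueField A) M),
        G.x = x ∧ ((G.xk : modularFunctionFieldFullC (ResidueField A) M) :
          LaurentSeries (ResidueField A)) = redX A X ∧ H759.Link G

/-- **LEAF D2** (Mathlib + `S18/Alg/Spec.lean` only).  For a good model: if `f ∈ V` is a root
mod `w` of a monic polynomial over `R[x]`, then `f` is congruent mod `w` to an element of the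
chart `B = {b ∈ Fc integral over R[x]}`.
(Proof: `f = b/g`, `b ∈ B`, `g ∈ R[x]` primitive [`finite`, `gauss`, `qep_fin`]; the equation
gives `b^d + Σ aᵢ bⁱ g^(d-i) ∈ wV ∩ B = wB`; `b2Normal` [`S18.B12.H204/H273/H858/H633`] with the
adapters of row S18 [hNC: `S18.H213.HNC`; hsep: `S18.H425.Hsep`] gives `b₀ ∈ B` with
`b - g b₀ ∈ wB`.) -/
def NormalAbsStatement : Prop :=
  ∀ (Ω : Type) [Field Ω] (Lc Ec Fc : Subfield Ω) (R V : Subring Ω) (w x : Ω) (S : Finset Ω),
    Alg.GoodModel Lc Ec Fc R V w x S →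
    ∀ f ∈ V, ∀ P : Polynomial Ω, P.Monic → (∀ i, P.coeff i ∈ Alg.polyRing R x) →
      P.eval f * w⁻¹ ∈ V →
      ∃ b ∈ Alg.chart Fc R x, (f - b) * w⁻¹ ∈ V

/-- **LEAF D3**: (H3) at every number-field level, on both charts, from the good models of row
S18 and (D2).  (Chart at infinity: `S18.H425.goodModel_inv`.) -/
def LiftLeaf : Prop :=
  ∀ (M ℓ : ℕ) [NeZero M], ℓ.Prime → ¬ ℓ ∣ M →
    ∀ A : ValuationSubring (AlgebraicClosure ℚ), A.LiesOverPrime ℓ →
    ∀ (x : Mod.Om M) (S : Finset (Mod.Om M)), Mod.IsCoordinate M ℓ x S →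
    ∀ X : LaurentSeries ℤ, IsModelOf M x X →
    Mod.GoodModelStatement M ℓ A → NormalAbsStatement →
    ∀ E : H759.NumberFieldIn,
      H759.LiftAtLevel A M E.1 (x : LaurentSeries (AlgebraicClosure ℚ)) (redX A X) ∧
        H759.LiftAtLevel A M E.1 ((x : LaurentSeries (AlgebraicClosure ℚ)))⁻¹ (redX A X)⁻¹

/-- **LEAF D4**: (H1) for an admissible coordinate. -/
def H1Leaf : Prop :=
  ∀ (M ℓ : ℕ) [NeZero M], ℓ.Prime → ¬ ℓ ∣ M →
    ∀ A : ValuationSubring (AlgebraicClosure ℚ), A.LiesOverPrime ℓ →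
    ∀ (x : Mod.Om M) (S : Finset (Mod.Om M)), Mod.IsCoordinate M ℓ x S →
    ∀ X : LaurentSeries ℤ, IsModelOf M x X →
    ∀ G : Datum A (residue A) (modularFunctionFieldBar M)
      (modularFunctionFieldFullC (ResidueField A) M),
    G.x = x →
    ((G.xk : modularFunctionFieldFullC (ResidueField A) M) :
      LaurentSeries (ResidueField A)) = redX A X →
    FiniteDimensional (IntermediateField.adjoin (AlgebraicClosure ℚ) {G.x})
        (modularFunctionFieldBar M) ∧
      FiniteDimensional (IntermediateField.adjoin (ResidueField A) {G.xk})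
        (modularFunctionFieldFullC (ResidueField A) M) ∧
      Algebra.IsSeparable (IntermediateField.adjoin (ResidueField A) {G.xk})
        (modularFunctionFieldFullC (ResidueField A) M) ∧
      Module.finrank (IntermediateField.adjoin (AlgebraicClosure ℚ) {G.x})
          (modularFunctionFieldBar M) =
        Module.finrank (IntermediateField.adjoin (ResidueField A) {G.xk})
          (modularFunctionFieldFullC (ResidueField A) M)

/-- **node_mod of row S18**, for all `(M, ℓ, A)`. -/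
def ModStatement : Prop :=
  ∀ (M ℓ : ℕ) [NeZero M], ℓ.Prime → ¬ ℓ ∣ M →
    ∀ A : ValuationSubring (AlgebraicClosure ℚ), A.LiesOverPrime ℓ →
      Mod.GoodModelStatement M ℓ A

/-- **node_datum from the leaves.** -/
theorem datumStatement_of_leaves (hD1 : DatumLeaf) (hD2 : NormalAbsStatement) (hD3 : LiftLeaf)
    (hD4 : H1Leaf) (hMod : ModStatement) : DatumStatement := by
  intro M ℓ _ hℓ hℓM hg A hA
  haveI : Fact ℓ.Prime := ⟨hℓ⟩
  have h3 : ℓ = 3 → 2 ∣ M := fun h => by
    rcases hg with h5 | ⟨-, h⟩ | ⟨h2, -⟩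
    · omega
    · exact h
    · omega
  have h2 : ℓ = 2 → 3 ∣ M := fun h => by
    rcases hg with h5 | ⟨h3, -⟩ | ⟨-, h⟩
    · omega
    · omega
    · exact h
  obtain ⟨x, S, hx⟩ := H333.node_coord M hℓM h3 h2
  obtain ⟨X, hX⟩ := exists_isModelOf M ℓ x S hx
  obtain ⟨G, hGx, hGxk, hlink⟩ := hD1 M ℓ hℓ hℓM A hA x X hX
  obtain ⟨hf, hfk, hsep, hrk⟩ := hD4 M ℓ hℓ hℓM A hA x S hx X hX G hGx hGxk
  have hlev := fun E : H759.NumberFieldIn =>
    hD3 M ℓ hℓ hℓM A hA x S hx X hX (hMod M ℓ hℓ hℓM A hA) hD2 E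
  obtain ⟨E₀⟩ : Nonempty H759.NumberFieldIn := inferInstance
  refine ⟨G, H217.good_of G hf hfk hsep hrk ?_ ?_, hlink⟩
  · refine H759.lift_fin_of_levels G hlink E₀ (fun E _ => ?_)
    rw [hGx, hGxk]
    exact (hlev E).1
  · refine H759.lift_inf_of_levels G hlink E₀ (fun E _ => ?_)
    rw [hGx, hGxk]
    exact (hlev E).2

/-- **The frozen statement S37 from the leaves and S18.** -/
theorem result_of_leaves (hD1 : DatumLeaf) (hD2 : NormalAbsStatement) (hD3 : LiftLeaf)
    (hD4 : H1Leaf) (hMod : ModStatement) (hS18 : S18Statement) (N p : ℕ) [NeZero N]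
    (hcomm : ModularCurve.HeckeOperatorsCommuteBar N) :
    letI := ModularCurve.heckeModuleBar N
    ∀ (_ : SMulCommClass (AlgebraicClosure ℚ ≃ₐ[ℚ] AlgebraicClosure ℚ) ModularCurve.HeckeAlg
      (ModularCurve.JZero N)),
      ModularCurve.SpecializationExists (K := ℚ) (L := AlgebraicClosure ℚ) N p
        (ModularCurve.JZero N) :=
  result_of_rim_s18 (rimStatement_of_datum (datumStatement_of_leaves hD1 hD2 hD3 hD4 hMod))
    hS18 N p hcomm

end Fermat.Agent.S37.Core

end
end
-- ===== PACK-END S37/Core/Leaves.lean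

-- ===== PACK-BEGIN S37/Core/DatumLeaf.lean
section





/-!
# S37 row-lead (helper37): LEAF D1 `DatumLeaf` — the Gauss datum with an arbitrary coordinate

`datumLeaf : Core.DatumLeaf`: for `ℓ ∤ M`, `A` over `ℓ` and a coordinate `x ∈ F_M` with integral
model `X ∈ ℤ((q))`, `X = q⁻¹ + …`, helper40's modular datum `Red.modG` (valuation ring of
fractions of integral `q`-series, coefficientwise reduction) with coordinate `x` is linked to the
Prelude, and its reduced coordinate is the reduction of `X`.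
Inputs from main: `Red.modG`, `Red.modG_link` (helper40), `H568.valueGroupHyp_modular`
(helper568), `H98.coreData_residueField`, `H98.reduction_mem` (helper98/700).
-/

set_option autoImplicit false
set_option synthInstance.maxHeartbeats 400000

noncomputable section

namespace Fermat.Agent.S37.Core

open ModularCurve ValuationSubring AlgebraicCurve HahnSeries IsLocalRing
open Fermat.Agent.S37.Red Fermat.Agent.S18

/-- the integral model over `A` -/
abbrev modelA (A : ValuationSubring (AlgebraicClosure ℚ)) (X : LaurentSeries ℤ) :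
    LaurentSeries A :=
  coeffMap (Int.castRingHom A) X

theorem coeffMap_subtype_modelA (A : ValuationSubring (AlgebraicClosure ℚ))
    (X : LaurentSeries ℤ) :
    coeffMap A.subtype (modelA A X) = coeffMap (Int.castRingHom (AlgebraicClosure ℚ)) X := by
  rw [modelA, coeffMap_coeffMap]
  exact coeffMap_congr (RingHom.ext_int _ _) X

theorem coeffMap_residue_modelA (A : ValuationSubring (AlgebraicClosure ℚ))
    (X : LaurentSeries ℤ) :
    coeffMap (residue A) (modelA A X) = redX A X := by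
  rw [modelA, redX, coeffMap_coeffMap]
  exact coeffMap_congr (RingHom.ext_int _ _) X

/-- a series `q⁻¹ + …` in a function field over an algebraically closed field is
transcendental -/
theorem transcendental_of_coeff_neg_one {k : Type*} [Field k] [IsAlgClosed k]
    (F : IntermediateField k (LaurentSeries k)) (f : F)
    (h : ((f : LaurentSeries k)).coeff (-1) = 1) : Transcendental k f := by
  intro halg
  obtain ⟨c, hc⟩ := Fermat.Agent.S24.FF.mem_range_of_isAlgebraic halg
  have h2 : ((f : F) : LaurentSeries k) = algebraMap k (LaurentSeries k) c := by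
    rw [← hc]; rfl
  rw [h2, ModularCurve.algebraMap_laurentSeries_eq_single,
    HahnSeries.coeff_single_of_ne (by decide)] at h
  exact zero_ne_one h

/-- **LEAF D1.** -/
theorem datumLeaf : DatumLeaf := by
  intro M ℓ _ hℓ hℓM A hA x X hX
  haveI : IsAlgClosed (ResidueField A) := Fermat.Agent.S18.H9.resAlgClosed _ A
  have hcore := H98.coreData_residueField M ℓ hℓ hℓM A hA
  have hVG : ModVG M A := H568.valueGroupHyp_modular hcore
  have hx : coeffMap A.subtype (modelA A X) ∈ modularFunctionFieldBar M := by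
    rw [coeffMap_subtype_modelA, ← hX.coe_eq]
    exact x.2
  have hxk : coeffMap (residue A) (modelA A X) ∈
      modularFunctionFieldFullC (ResidueField A) M :=
    H98.reduction_mem M ℓ hℓ hℓM A hA (modelA A X) hx
  have htr : Transcendental (ResidueField A)
      (⟨coeffMap (residue A) (modelA A X), hxk⟩ :
        modularFunctionFieldFullC (ResidueField A) M) := by
    refine transcendental_of_coeff_neg_one _ _ ?_
    show (coeffMap (residue A) (modelA A X)).coeff (-1) = 1
    rw [coeffMap_residue_modelA, redX, coeffMap_coeff, hX.coeff_neg_one, map_one]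
  refine ⟨modG hVG (modelA A X) hx hxk htr, ?_, ?_, ?_⟩
  · apply Subtype.ext
    show coeffMap A.subtype (modelA A X) = _
    rw [coeffMap_subtype_modelA, hX.coe_eq]
  · have h := modρ_ofSeries hVG (modelA A X) hx hxk
    have h' : (modG hVG (modelA A X) hx hxk htr).xk =
        ⟨coeffMap (residue A) (modelA A X), hxk⟩ := h
    rw [h']
    exact coeffMap_residue_modelA A X
  · intro y hy hyk _
    exact modG_link hVG y hy hyk

end Fermat.Agent.S37.Core

end
end
-- ===== PACK-END S37/Core/DatumLeaf.lean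

-- ===== PACK-BEGIN S37/H697/LiftLeaf.lean
section



/-!
# S37 / board v3, LEAF D3 (helper697): `Fermat.Agent.S37.Core.LiftLeaf`

`liftLeaf : Core.LiftLeaf` — (H3) at every number-field level, on both charts, from the good
models of row S18 (`Mod.GoodModelStatement`) and the abstract normality statement (D2).

Proof: enlarge `E` to a member `E'` of the family (`LiftAtLevel` is antitone in `E`), apply
`Lift.lift_core` to the good model with coordinate `x` (integral series `X`) and to the good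
model with coordinate `x⁻¹` (`S18.H425.goodModel_inv`, integral series `X⁻¹ ∈ ℤ((q))`).
-/

set_option autoImplicit false
set_option synthInstance.maxHeartbeats 400000
set_option maxHeartbeats 1600000
set_option linter.unusedSectionVars false
set_option linter.unusedVariables false
set_option linter.style.haveILetI false

noncomputable section

namespace Fermat.Agent.S37.H697

open ModularCurve AlgebraicCurve HahnSeries IsLocalRing Polynomial
open Fermat.Agent.S18 Fermat.Agent.S18.Mod Fermat.Agent.S18.Mod.H216 Fermat.Agent.S37.Red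
open Fermat.Agent.S37.H697.Lift

/-- a number field is generated (as a `ℚ`-vector space) by finitely many elements -/
theorem exists_finset_le (E : IntermediateField ℚ _root_.Fermat.Agent.S18.Qb) [FiniteDimensional ℚ E] :
    ∃ T : Finset _root_.Fermat.Agent.S18.Qb, ∀ E' : IntermediateField ℚ _root_.Fermat.Agent.S18.Qb, (∀ a ∈ T, a ∈ E') → E ≤ E' := by
  classical
  obtain ⟨S, hS⟩ := (Module.finite_def.mp (inferInstance : Module.Finite ℚ E))
  refine ⟨S.image (fun e : E => (e : _root_.Fermat.Agent.S18.Qb)), fun E' hT e he => ?_⟩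
  have key : ∀ z : E, z ∈ Submodule.span ℚ (S : Set E) → (z : _root_.Fermat.Agent.S18.Qb) ∈ E' := by
    intro z hz
    induction hz using Submodule.span_induction with
    | mem z hz => exact hT _ (Finset.mem_image.mpr ⟨z, hz, rfl⟩)
    | zero => exact zero_mem E'
    | add a b _ _ ha hb => exact add_mem ha hb
    | smul r a _ ha =>
      have h1 : ((r • a : E) : _root_.Fermat.Agent.S18.Qb) = algebraMap ℚ _root_.Fermat.Agent.S18.Qb r * (a : _root_.Fermat.Agent.S18.Qb) := by
        rw [Algebra.smul_def]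
        rfl
      rw [h1]
      exact mul_mem (E'.algebraMap_mem r) ha
  exact key ⟨e, he⟩ (hS ▸ Submodule.mem_top)

/-- a Laurent series `q⁻¹ + …` over `ℤ` is invertible -/
theorem exists_inv_series (X : LaurentSeries ℤ) (h1 : X.coeff (-1) = 1)
    (h2 : ∀ k : ℤ, k < -1 → X.coeff k = 0) : ∃ Xi : LaurentSeries ℤ, X * Xi = 1 := by
  have hX0 : X ≠ 0 := by
    rintro rfl
    simp at h1
  have hord : X.order = -1 := by
    apply le_antisymm
    · exact HahnSeries.order_le_of_coeff_ne_zero (by rw [h1]; exact one_ne_zero)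
    · by_contra hlt
      exact (HahnSeries.coeff_order_eq_zero.not.mpr hX0) (h2 _ (not_le.mp hlt))
  have hu : IsUnit X := by
    rw [HahnSeries.isUnit_iff, HahnSeries.leadingCoeff_eq, hord, h1]
    exact isUnit_one
  obtain ⟨u, rfl⟩ := hu
  exact ⟨↑u⁻¹, Units.mul_inv u⟩

theorem coeffMap_intCast_comp {R S : Type*} [CommRing R] [CommRing S] (f : R →+* S)
    (X : LaurentSeries ℤ) :
    coeffMap f (coeffMap (Int.castRingHom R) X) = coeffMap (Int.castRingHom S) X := by
  rw [coeffMap_coeffMap]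
  exact coeffMap_congr (RingHom.ext_int _ _) X

/-- an integral series over `ℤ` representing an element of `Fc M E` lies in `intE` -/
theorem intCast_mem_intE (M : ℕ) (A : ValuationSubring _root_.Fermat.Agent.S18.Qb) (E : IntermediateField ℚ _root_.Fermat.Agent.S18.Qb)
    (X : LaurentSeries ℤ) (f : Om M) (hf : f ∈ Fc M E)
    (hfX : (f : LaurentSeries _root_.Fermat.Agent.S18.Qb) = coeffMap (Int.castRingHom _root_.Fermat.Agent.S18.Qb) X) :
    coeffMap (Int.castRingHom ↥A) X ∈ intE M A E := by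
  rw [mem_intE]
  refine ⟨fun k => ?_, f, hf, ?_⟩
  · rw [coeffMap_coeff]
    simp only [eq_intCast, SubringClass.coe_intCast]
    exact intCast_mem E _
  · rw [hfX, coeffMap_intCast_comp]

/-- **LEAF D3.** -/
theorem liftLeaf : Fermat.Agent.S37.Core.LiftLeaf := by
  intro M ℓ _ hℓ hℓM A hA x S hx X hX hmod hnorm E
  classical
  obtain ⟨𝓕, -, h𝓕, hT⟩ := hmod x S hx
  haveI : FiniteDimensional ℚ E.1 := E.2
  obtain ⟨T, hTE⟩ := exists_finset_le E.1
  obtain ⟨E', V, w, -, hTE', hV, hmem⟩ := hT T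
  have hEE' : E.1 ≤ E' := hTE E' hTE'
  have G : Alg.GoodModel (Lc M) (Ec M E') (Fc M E') (Rc M A E') V w x S := h𝓕.good _ hmem
  -- the coordinate as an integral series
  have hXint : coeffMap (Int.castRingHom ↥A) X ∈ intE M A E' :=
    intCast_mem_intE M A E' X x G.x_mem hX.coe_eq
  have hY : H216.toOm M A E' ⟨coeffMap (Int.castRingHom ↥A) X, hXint⟩ = x := by
    apply Subtype.ext
    rw [coe_toOm, hX.coe_eq]
    exact coeffMap_intCast_comp A.subtype X
  have hredY : redE M A E' ⟨coeffMap (Int.castRingHom ↥A) X, hXint⟩ = Core.redX A X :=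
    coeffMap_intCast_comp (residue ↥A) X
  -- the inverse coordinate as an integral series
  obtain ⟨Xi, hXi⟩ := exists_inv_series X hX.coeff_neg_one hX.coeff_lt
  have hxi : ((x⁻¹ : Om M) : LaurentSeries _root_.Fermat.Agent.S18.Qb) = coeffMap (Int.castRingHom _root_.Fermat.Agent.S18.Qb) Xi := by
    have h1 : (x : LaurentSeries _root_.Fermat.Agent.S18.Qb) * coeffMap (Int.castRingHom _root_.Fermat.Agent.S18.Qb) Xi = 1 := by
      rw [hX.coe_eq, ← map_mul, hXi, map_one]
    have h2 : ((x⁻¹ : Om M) : LaurentSeries _root_.Fermat.Agent.S18.Qb) = ((x : Om M) : LaurentSeries _root_.Fermat.Agent.S18.Qb)⁻¹ := rfl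
    rw [h2]
    exact (eq_inv_of_mul_eq_one_right h1).symm
  have hXiint : coeffMap (Int.castRingHom ↥A) Xi ∈ intE M A E' :=
    intCast_mem_intE M A E' Xi x⁻¹ (inv_mem G.x_mem) hxi
  have hYi : H216.toOm M A E' ⟨coeffMap (Int.castRingHom ↥A) Xi, hXiint⟩ = x⁻¹ := by
    apply Subtype.ext
    rw [coe_toOm, hxi]
    exact coeffMap_intCast_comp A.subtype Xi
  have hredYi : redE M A E' ⟨coeffMap (Int.castRingHom ↥A) Xi, hXiint⟩ = (Core.redX A X)⁻¹ := by
    have h1 : Core.redX A X * coeffMap (Int.castRingHom (ResidueField ↥A)) Xi = 1 := by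
      show coeffMap (Int.castRingHom (ResidueField ↥A)) X * _ = 1
      rw [← map_mul, hXi, map_one]
    have h2 : redE M A E' ⟨coeffMap (Int.castRingHom ↥A) Xi, hXiint⟩ =
        coeffMap (Int.castRingHom (ResidueField ↥A)) Xi :=
      coeffMap_intCast_comp (residue ↥A) Xi
    rw [h2]
    exact eq_inv_of_mul_eq_one_right h1
  constructor
  · apply liftAtLevel_anti hEE'
    have h := lift_core hℓ.ne_zero hA G hV hnorm ⟨coeffMap (Int.castRingHom ↥A) X, hXint⟩ hY
    rw [hredY] at h
    exact h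
  · apply liftAtLevel_anti hEE'
    have Gi := Fermat.Agent.S18.H425.goodModel_inv G
    have h := lift_core hℓ.ne_zero hA Gi hV hnorm ⟨coeffMap (Int.castRingHom ↥A) Xi, hXiint⟩ hYi
    rw [hredYi] at h
    exact h

end Fermat.Agent.S37.H697

end
end
-- ===== PACK-END S37/H697/LiftLeaf.lean

-- ===== PACK-BEGIN S18.lean
section





/-!
# S18 — injectivity of reduction mod `ℓ` on prime-to-`ℓ` torsion of `J₀(N)` (row-lead helper18)

`result` = `Integ.s18_of_mod_alg` (final chain, `S18/Integ/Final.lean`) applied to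

* `Mod.H216.node_mod` : `Mod.GoodModelStatement M ℓ A` (good model of `X₀(M)` over `A ∩ E`; MOD squads,
  assembled by helper216), and
* `H438.node_alg` : `Mod.AlgStatement M` (abstract Kummer endgame; ALG squads, assembled by helper438),

at the level `M = levelM N ℓ` (`N` for `ℓ ≥ 5`, `lcm N 2` for `ℓ = 3`, `lcm N 3` for `ℓ = 2`).
-/

set_option autoImplicit false
open ModularCurve

namespace Fermat.Agent.S18

theorem result (N : ℕ) [NeZero N] {ℓ : ℕ}
    [Fact ℓ.Prime] (hℓN : ¬ ℓ ∣ N) (A : ValuationSubring (AlgebraicClosure ℚ)) (hA : A.LiesOverPrime ℓ)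
    (h : ModularCurve.ReductionInputsModL A N) (m : ℕ) (hm : ¬ ℓ ∣ m) (z : ModularCurve.JZero N)
    (hmz : m • z = 0) (hz : ModularCurve.reductionModL A N z = 0) :
    z = 0 :=
  haveI : NeZero (Integ.levelM N ℓ) := ⟨Integ.levelM_ne_zero N ℓ⟩
  Integ.s18_of_mod_alg N hℓN A hA
    (Mod.H216.node_mod (Integ.levelM N ℓ) (Integ.not_dvd_levelM N hℓN) A hA)
    (H438.node_alg (Integ.levelM N ℓ)) h m hm z hmz hz

end Fermat.Agent.S18

end
-- ===== PACK-END S18.lean

-- ===== PACK-BEGIN S37/Core/Inst.lean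
section








/-!
# S37 row-lead (helper37): BOARD v3 — all leaves instantiated

* `h1Leaf : Core.H1Leaf`             (D4, helper339 `H339.leaf_H1`)
* `modStatement : Core.ModStatement` (node_mod of row S18, helper216 `S18.Mod.H216.node_mod`)
* `s18Statement : Core.S18Statement` (the frozen S18, `Fermat.Agent.S18.result`)
* `datumStatement`, `rimStatement`   (node_datum, node_rim) from
  `Core.datumLeaf` (D1), `H278.leaf_normalAbs` (D2, helper278), `H697.liftLeaf` (D3, helper697).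
* `specializationExists` : the frozen statement S37;  `rawES` : raw Eichler–Shimura (export for
  rows S29 / S30 / S42), both WITHOUT hypotheses.
-/

set_option autoImplicit false
set_option synthInstance.maxHeartbeats 400000

noncomputable section

namespace Fermat.Agent.S37.Core

open ModularCurve ValuationSubring AlgebraicCurve HahnSeries IsLocalRing

/-- **D4.** -/
theorem h1Leaf : H1Leaf := by
  intro M ℓ _ hℓ hℓM A hA x S hx X hX G hGx hGxk
  exact H339.leaf_H1 M ℓ hℓ hℓM A hA x S hx X hX.coeff_neg_one hX.coe_eq G hGx hGxk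

/-- **node_mod of row S18.** -/
theorem modStatement : ModStatement := by
  intro M ℓ _ hℓ hℓM A hA
  haveI : Fact ℓ.Prime := ⟨hℓ⟩
  exact Fermat.Agent.S18.Mod.H216.node_mod M hℓM A hA

/-- **The frozen S18.** -/
theorem s18Statement : S18Statement := by
  intro M ℓ _ hℓ hℓM A hA h m hm z hmz hz
  haveI : Fact ℓ.Prime := ⟨hℓ⟩
  exact Fermat.Agent.S18.result M hℓM A hA h m hm z hmz hz

/-- **node_datum**: a linked reduction datum with good charts at all good levels. -/
theorem datumStatement : DatumStatement :=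
  datumStatement_of_leaves datumLeaf H278.leaf_normalAbs H697.liftLeaf h1Leaf modStatement

/-- **node_rim**: the place reduction map exists at all good levels. -/
theorem rimStatement : RimStatement :=
  rimStatement_of_datum datumStatement

/-- **The frozen statement S37** (Eichler–Shimura congruence relation, `SpecializationExists`). -/
theorem specializationExists (N p : ℕ) [NeZero N]
    (hcomm : ModularCurve.HeckeOperatorsCommuteBar N) :
    letI := ModularCurve.heckeModuleBar N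
    ∀ (_ : SMulCommClass (AlgebraicClosure ℚ ≃ₐ[ℚ] AlgebraicClosure ℚ) ModularCurve.HeckeAlg
      (ModularCurve.JZero N)),
      ModularCurve.SpecializationExists (K := ℚ) (L := AlgebraicClosure ℚ) N p
        (ModularCurve.JZero N) :=
  result_of_rim_s18 rimStatement s18Statement N p hcomm

/-- **Raw Eichler–Shimura on the `p`-torsion of `J₀(N)`**, without hypotheses: for every prime
`ℓ ∤ N p` and every place `A` of `ℚ̄` over `ℓ`, inertia at `A` acts trivially on `J₀(N)[p]` and
every Frobenius `σ` at `A` satisfies `σ² - T_ℓ σ + ℓ = 0` on `J₀(N)[p]`. -/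
theorem rawES (N : ℕ) [NeZero N] (p : ℕ) (ℓ : ℕ) (hℓ : ℓ.Prime) (hdvd : ¬ ℓ ∣ N * p)
    (A : ValuationSubring (AlgebraicClosure ℚ)) (hA : A.LiesOverPrime ℓ) :
    (∀ σ ∈ A.inertiaSubgroupIn ℚ, ∀ x : JZero N, (p : ℤ) • x = 0 → σ • x = x) ∧
      (∀ σ : AlgebraicClosure ℚ ≃ₐ[ℚ] AlgebraicClosure ℚ, A.IsFrobeniusAt σ ℓ →
        ∀ x : JZero N, (p : ℤ) • x = 0 →
          σ • σ • x - heckeOperatorBar N ⟨ℓ, hℓ⟩ (σ • x) + (ℓ : ℤ) • x = 0) :=
  rawES_of_rim_s18 rimStatement s18Statement N p ℓ hℓ hdvd A hA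

end Fermat.Agent.S37.Core

end
end
-- ===== PACK-END S37/Core/Inst.lean

-- ===== PACK-BEGIN S37.lean
section



/-!
# S37 — Eichler–Shimura congruence relation for `J₀(N)` (row-lead helper37)

`result` = `Core.specializationExists` (`Fermat/Agent/S37/Core/Inst.lean`):

* `Core.result_of_rim_s18` (`Core/Board.lean`): S37 from the place reduction map at good levels
  (`RimStatement`) and the frozen S18 (`Fermat.Agent.S18.result`), via
  `H697.weakRedData_of_red` (bounded-homomorphism route: Kronecker congruence for norms,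
  helper697/819/340/400), `H818.node_pull` (levels `2N`, `3N` for `ℓ = 3, 2`, helper818),
  `Core.result_of_weakRedData` and helper99's formal core;
* `RimStatement` from a linked reduction datum with good charts (`Core/RimGlue.lean`,
  abstract theorem `Red.H940.main_of_fibreSum` of helper940/160/399, architect helper40),
  whose leaves are `Core.datumLeaf` (D1), `H278.leaf_normalAbs` (D2, normality of the special
  fibre from `b2Normal` of row S18), `H697.liftLeaf` (D3), `H339.leaf_H1` (D4),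
  `S18.Mod.H216.node_mod` (good models of row S18).
-/

set_option autoImplicit false
open ModularCurve

namespace Fermat.Agent.S37

theorem result (N p : ℕ) [NeZero N] (hcomm : ModularCurve.HeckeOperatorsCommuteBar N) : letI := ModularCurve.heckeModuleBar N; ∀ (_ : SMulCommClass (AlgebraicClosure ℚ ≃ₐ[ℚ] AlgebraicClosure ℚ) ModularCurve.HeckeAlg (ModularCurve.JZero N)), ModularCurve.SpecializationExists (K := ℚ) (L := AlgebraicClosure ℚ) N p (ModularCurve.JZero N) :=
  Core.specializationExists N p hcomm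

end Fermat.Agent.S37

end
-- ===== PACK-END S37.lean

-- ===== PACK-BEGIN S15/H628/G3.lean
section





/-!
# Row S15, DESC leaf G3 (helper628): Kummer cocycles of `J₀(p)` are unramified outside `p r`

Blueprint `coord/S15-DESC-blueprint.md` v3, sec. 3.  Everything is formal from Tower A on main
(frozen `Fermat.Agent.S37.result` = Eichler–Shimura specialisation, with its two hypotheses
discharged by `S29.heckeOperatorsCommuteBar` and `S29.H571.smulCommClass_heckeModuleBar`).

* `specExists N r` : `SpecializationExists N r (JZero N)`, unconditionally.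
* `g3` : for a prime `ℓ ∤ N r`, a place `A` of `ℚ̄` over `ℓ`, `σ` in the inertia group of `A` and
  `y ∈ J₀(N)(ℚ̄)` with `σ (rⁿ y) = rⁿ y`:  `σ y = y`.
  (For `y ∈ Y`, `r y = x ∈ J₀(p)(ℚ)`, this says: the cocycle `c_y(s) = s y - y` vanishes on the
  inertia groups at all `ℓ ∤ p r`.)
* `g3_cocycle` : the same in cocycle form.
* `es_torsion` : the Eichler–Shimura relation `τ² - T_ℓ τ + ℓ = 0` on `J₀(N)[r^∞]` for a Frobenius
  element `τ` at `ℓ ∤ N r`, with the Prelude operator `heckeOperatorBar N ℓ`.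
* `unram_torsion` : inertia at `ℓ ∤ N r` acts trivially on `J₀(N)[r^∞]`.
-/

set_option autoImplicit false
set_option linter.style.haveILetI false

noncomputable section

namespace Fermat.Agent.S15.H628

open ModularCurve

/-- The conclusion of the frozen statement S37 for `J₀(N)`, with both hypotheses discharged. -/
theorem specExists (N r : ℕ) [NeZero N] :
    letI := heckeModuleBar N
    haveI := Fermat.Agent.S29.H571.smulCommClass_heckeModuleBar N
    SpecializationExists (K := ℚ) (L := AlgebraicClosure ℚ) N r (JZero N) := by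
  letI := heckeModuleBar N
  haveI := Fermat.Agent.S29.H571.smulCommClass_heckeModuleBar N
  exact Fermat.Agent.S37.result N r (Fermat.Agent.S29.heckeOperatorsCommuteBar N) inferInstance

/-- The Galois action commutes with multiplication by a natural number. -/
theorem gal_nsmul {N : ℕ} [NeZero N] (σ : AlgebraicClosure ℚ ≃ₐ[ℚ] AlgebraicClosure ℚ) (n : ℕ)
    (x : JZero N) : σ • (n • x) = n • (σ • x) :=
  map_nsmul (DistribSMul.toAddMonoidHom (JZero N) σ) n x

/-- **G3.**  Inertia at `ℓ ∤ N r` fixes every `r`-power division point of a point it fixes. -/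
theorem g3 (N r : ℕ) [NeZero N] {ℓ : ℕ} (hℓ : ℓ.Prime) (hℓNr : ¬ ℓ ∣ N * r)
    (A : ValuationSubring (AlgebraicClosure ℚ)) (hA : A.LiesOverPrime ℓ)
    {σ : AlgebraicClosure ℚ ≃ₐ[ℚ] AlgebraicClosure ℚ} (hσ : σ ∈ A.inertiaSubgroupIn ℚ)
    (y : JZero N) (n : ℕ) (hy : σ • (r ^ n • y) = r ^ n • y) : σ • y = y := by
  letI := heckeModuleBar N
  haveI := Fermat.Agent.S29.H571.smulCommClass_heckeModuleBar N
  obtain ⟨J', _, _, sp, F, hsp, -⟩ := specExists N r ℓ hℓ hℓNr A hA
  have h1 : sp (σ • y - y) = 0 := by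
    rw [map_sub, hsp.inertia_comm σ hσ y, sub_self]
  have h2 : r ^ n • (σ • y - y) = 0 := by
    have e : r ^ n • (σ • y - y) = r ^ n • (σ • y) - r ^ n • y := nsmul_sub _ _ _
    rw [e, ← gal_nsmul, hy, sub_self]
  exact sub_eq_zero.mp (hsp.injective_torsion _ ⟨n, h2⟩ h1)

/-- **G3, cocycle form.**  If `r y` is Galois-fixed, the Kummer cocycle `s ↦ s y - y` vanishes on
the inertia group of every place over a prime `ℓ ∤ N r`. -/
theorem g3_cocycle (N r : ℕ) [NeZero N] {ℓ : ℕ} (hℓ : ℓ.Prime) (hℓNr : ¬ ℓ ∣ N * r)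
    (A : ValuationSubring (AlgebraicClosure ℚ)) (hA : A.LiesOverPrime ℓ)
    (y : JZero N)
    (hy : ∀ σ : AlgebraicClosure ℚ ≃ₐ[ℚ] AlgebraicClosure ℚ, σ • (r • y) = r • y)
    (σ : AlgebraicClosure ℚ ≃ₐ[ℚ] AlgebraicClosure ℚ) (hσ : σ ∈ A.inertiaSubgroupIn ℚ) :
    σ • y - y = 0 := by
  rw [sub_eq_zero]
  exact g3 N r hℓ hℓNr A hA hσ y 1 (by simpa using hy σ)

/-- Inertia at `ℓ ∤ N r` acts trivially on `J₀(N)[r^∞]`. -/
theorem unram_torsion (N r : ℕ) [NeZero N] {ℓ : ℕ} (hℓ : ℓ.Prime) (hℓNr : ¬ ℓ ∣ N * r)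
    (A : ValuationSubring (AlgebraicClosure ℚ)) (hA : A.LiesOverPrime ℓ)
    {σ : AlgebraicClosure ℚ ≃ₐ[ℚ] AlgebraicClosure ℚ} (hσ : σ ∈ A.inertiaSubgroupIn ℚ)
    (x : JZero N) (n : ℕ) (hx : r ^ n • x = 0) : σ • x = x :=
  g3 N r hℓ hℓNr A hA hσ x n (by
    rw [hx]
    exact map_zero (DistribSMul.toAddMonoidHom (JZero N) σ))

/-- **Eichler–Shimura on torsion.**  For a Frobenius element `τ` at a place over `ℓ ∤ N r` and
`x ∈ J₀(N)[r^∞]`:  `τ² x - T_ℓ (τ x) + ℓ x = 0`. -/
theorem es_torsion (N r : ℕ) [NeZero N] {ℓ : ℕ} (hℓ : ℓ.Prime) (hℓNr : ¬ ℓ ∣ N * r)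
    (A : ValuationSubring (AlgebraicClosure ℚ)) (hA : A.LiesOverPrime ℓ)
    (τ : AlgebraicClosure ℚ ≃ₐ[ℚ] AlgebraicClosure ℚ) (hτ : A.IsFrobeniusAt τ ℓ)
    (x : JZero N) (n : ℕ) (hx : r ^ n • x = 0) :
    τ • τ • x - heckeOperatorBar N ⟨ℓ, hℓ⟩ (τ • x) + ℓ • x = 0 := by
  letI := heckeModuleBar N
  haveI := Fermat.Agent.S29.H571.smulCommClass_heckeModuleBar N
  have h := Fermat.Agent.S29.H451.frobeniusQuadratic_of_specializationExists N r (JZero N)
    (specExists N r) ℓ hℓ hℓNr A hA τ hτ x ⟨n, hx⟩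
  have e := heckeModuleBar_heckeGen_smul (Fermat.Agent.S29.heckeOperatorsCommuteBar N)
    ⟨ℓ, hℓ⟩ (τ • x)
  rw [← e]
  exact h

end Fermat.Agent.S15.H628

end

end
-- ===== PACK-END S15/H628/G3.lean

-- ===== PACK-BEGIN S15/H628/Flag.lean
section








/-!
# Row S15, DESC leaf FLAG-glue (helper628)

Blueprint `coord/S15-DESC-blueprint.md` v3, sec. 1 (FLAG).
-/

set_option autoImplicit false
set_option linter.style.haveILetI false
set_option linter.unusedSectionVars false

noncomputable section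

namespace Fermat.Agent.S15.H628

open ModularCurve
open Fermat.Agent.Lib.Cheb.Spec (GQ Qb)

section Level

variable {N : ℕ} [NeZero N]

/-- A finite set of torsion points of `J₀(N)` is defined over a finite extension of `ℚ`, which
can be taken to contain any given finite-dimensional field. -/
theorem exists_level_of_finite (X : AddSubgroup (JZero N)) [Finite X] {m : ℕ} (hm : m ≠ 0)
    (hXm : ∀ x ∈ X, m • x = 0) (R : IntermediateField ℚ Qb) [FiniteDimensional ℚ R] :
    ∃ E : IntermediateField ℚ Qb, FiniteDimensional ℚ E ∧ R ≤ E ∧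
      ∀ σ τ : GQ, (∀ a ∈ E, σ a = τ a) → ∀ x ∈ X, σ • x = τ • x := by
  classical
  have h1 : ∀ x : X, ∃ L : IntermediateField ℚ Qb, FiniteDimensional ℚ L ∧
      ∀ σ : GQ, (∀ a ∈ L, σ a = a) → σ • (x : JZero N) = x := by
    intro x
    have hx : ((m : ℤ)) • (x : JZero N) = 0 := by
      rw [natCast_zsmul]
      exact hXm x x.2
    exact Fermat.Agent.S29.H571.exists_finiteLevel_of_zsmul_eq_zero
      (modularFunctionFieldFull N) (x : JZero N) (by exact_mod_cast hm) hx
  choose L hLfin hL using h1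
  haveI : ∀ x, FiniteDimensional ℚ (L x) := hLfin
  refine ⟨(⨆ x, L x) ⊔ R, ?_, le_sup_right, ?_⟩
  · haveI : FiniteDimensional ℚ (⨆ x, L x : IntermediateField ℚ Qb) :=
      IntermediateField.finiteDimensional_iSup_of_finite
    exact IntermediateField.finiteDimensional_sup _ _
  · intro σ τ h x hx
    have h2 : ∀ a ∈ L ⟨x, hx⟩, (τ⁻¹ * σ) a = a := by
      intro a ha
      have ha' : a ∈ (⨆ x, L x) ⊔ R :=
        (le_sup_left : (⨆ x, L x) ≤ (⨆ x, L x) ⊔ R) (le_iSup L ⟨x, hx⟩ ha)
      show τ⁻¹ (σ a) = a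
      rw [h a ha']
      exact τ.symm_apply_apply a
    have h3 := hL ⟨x, hx⟩ (τ⁻¹ * σ) h2
    have h4 : σ • x = τ • ((τ⁻¹ * σ) • x) := by
      rw [← mul_smul, mul_inv_cancel_left]
    rw [h4]
    exact congrArg (τ • ·) h3

end Level

section Abstract

variable {N : ℕ} [NeZero N] {r : ℕ} [Fact r.Prime]
variable (X : AddSubgroup (JZero N)) [hXr : Fact (∀ x ∈ X, r • x = 0)]
  (hXG : ∀ σ : GQ, ∀ x ∈ X, σ • x ∈ X)

/-- `X ⊆ J[r]` as an `𝔽_r`-vector space. -/
instance modX : Module (ZMod r) X :=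
  AddCommGroup.zmodModule (n := r) fun x => Subtype.ext (by simpa using hXr.out x x.2)

/-- The action of `σ` on `X`. -/
def galHomX (σ : GQ) : X →+ X where
  toFun x := ⟨σ • (x : JZero N), hXG σ x x.2⟩
  map_zero' := Subtype.ext (smul_zero σ)
  map_add' a b := Subtype.ext (smul_add σ (a : JZero N) (b : JZero N))

omit hXr in
@[simp] theorem coe_galHomX (σ : GQ) (x : X) :
    ((galHomX X hXG σ x : X) : JZero N) = σ • (x : JZero N) := rfl

/-- The Galois representation on `X`. -/
def repX : Representation (ZMod r) GQ X where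
  toFun := fun σ => (galHomX X hXG σ).toZModLinearMap r
  map_one' := by
    refine LinearMap.ext fun x => Subtype.ext ?_
    simp
  map_mul' := fun σ τ => by
    refine LinearMap.ext fun x => Subtype.ext ?_
    simp [mul_smul]

theorem coe_repX (σ : GQ) (x : X) :
    ((repX (r := r) X hXG σ x : X) : JZero N) = σ • (x : JZero N) := rfl

/-- Restriction to `X` of an additive endomorphism of `J₀(N)` preserving `X`. -/
def resX (D : Module.End ℤ (JZero N)) (hD : ∀ x ∈ X, D x ∈ X) : X →+ X where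
  toFun x := ⟨D (x : JZero N), hD x x.2⟩
  map_zero' := Subtype.ext (map_zero D)
  map_add' a b := Subtype.ext (map_add D (a : JZero N) (b : JZero N))

/-- Restriction to `X`, as an `𝔽_r`-linear endomorphism. -/
def endX (D : Module.End ℤ (JZero N)) (hD : ∀ x ∈ X, D x ∈ X) : Module.End (ZMod r) X :=
  (resX X D hD).toZModLinearMap r

theorem coe_endX (D : Module.End ℤ (JZero N)) (hD : ∀ x ∈ X, D x ∈ X) (x : X) :
    ((endX (r := r) X D hD x : X) : JZero N) = D (x : JZero N) := rfl

/-- Scalars of `𝔽_r` given by natural numbers act on `X` as in `J₀(N)`. -/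
theorem coe_natCast_smul (k : ℕ) (x : X) :
    (((k : ZMod r) • x : X) : JZero N) = k • (x : JZero N) := by
  rw [Nat.cast_smul_eq_nsmul (ZMod r) k x]
  rfl

/-- Coordinates of `D - (1 + k)` on `X`. -/
theorem coe_sub_one_add_apply (D : Module.End (ZMod r) X) (k : ℕ) (x : X) :
    (((D - (1 + algebraMap (ZMod r) (Module.End (ZMod r) X) (k : ZMod r))) x : X) : JZero N)
      = ((D x : X) : JZero N) - ((x : JZero N) + k • (x : JZero N)) := by
  show ((D x - (x + (k : ZMod r) • x) : X) : JZero N) = _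
  rw [AddSubgroup.coe_sub, AddSubgroup.coe_add, coe_natCast_smul]

/-- Coordinates of `ρ ρ - T ρ + k` on `X`. -/
theorem coe_quadratic_apply (R T : Module.End (ZMod r) X) (k : ℕ) (x : X) :
    (((R * R - T * R + algebraMap (ZMod r) (Module.End (ZMod r) X) (k : ZMod r)) x : X) : JZero N)
      = ((R (R x) : X) : JZero N) - ((T (R x) : X) : JZero N) + k • (x : JZero N) := by
  show ((R (R x) - T (R x) + (k : ZMod r) • x : X) : JZero N) = _
  rw [AddSubgroup.coe_add, AddSubgroup.coe_sub, coe_natCast_smul]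

/-- Pointwise nilpotency on a finite group is nilpotency. -/
theorem isNilpotent_of_pointwise [Finite X]
    (D : Module.End (ZMod r) X)
    (D' : Module.End ℤ (JZero N)) (hDD' : ∀ x : X, ((D x : X) : JZero N) = D' (x : JZero N))
    (hnil : ∀ x ∈ X, ∃ n : ℕ, (D' ^ n) x = 0) :
    IsNilpotent D := by
  have hpow : ∀ (n : ℕ) (x : X), (((D ^ n) x : X) : JZero N) = (D' ^ n) (x : JZero N) := by
    intro n
    induction n with
    | zero => intro x; simp
    | succ n ih =>
      intro x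
      rw [pow_succ, Module.End.mul_apply, ih, hDD', pow_succ, Module.End.mul_apply]
  choose n hn using fun x : X => hnil x x.2
  obtain ⟨M, hM⟩ := (Set.finite_range n).bddAbove
  refine ⟨M, LinearMap.ext fun x => Subtype.ext ?_⟩
  have hle : n x ≤ M := hM ⟨x, rfl⟩
  rw [hpow, LinearMap.zero_apply, AddSubgroup.coe_zero]
  obtain ⟨k, rfl⟩ := Nat.exists_eq_add_of_le hle
  rw [add_comm, pow_add, Module.End.mul_apply, hn x, map_zero]

open Classical in
/-- The Hecke operators on `X` (zero at the bad indices). -/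
def heckeX (S : Finset ℕ)
    (hXT : ∀ ℓ : Nat.Primes, (ℓ : ℕ) ∉ S → ∀ x ∈ X, heckeOperatorBar N ℓ x ∈ X) (ℓ : ℕ) :
    Module.End (ZMod r) X :=
  if h : ℓ.Prime ∧ ℓ ∉ S then
    endX X (heckeOperatorBar N ⟨ℓ, h.1⟩) (hXT ⟨ℓ, h.1⟩ h.2)
  else 0

theorem coe_heckeX (S : Finset ℕ)
    (hXT : ∀ ℓ : Nat.Primes, (ℓ : ℕ) ∉ S → ∀ x ∈ X, heckeOperatorBar N ℓ x ∈ X) {ℓ : ℕ}
    (hℓ : ℓ.Prime) (hℓS : ℓ ∉ S) (x : X) :
    ((heckeX (r := r) X S hXT ℓ x : X) : JZero N) = heckeOperatorBar N ⟨ℓ, hℓ⟩ (x : JZero N) := by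
  unfold heckeX
  rw [dif_pos (And.intro hℓ hℓS)]
  rfl

attribute [irreducible] heckeX

end Abstract

section Flag

variable {N : ℕ} [NeZero N] {r : ℕ} [Fact r.Prime]

/-- The finite extension `ℚ(μ_r)` of `ℚ` inside `ℚ̄`. -/
def muField (r : ℕ) : IntermediateField ℚ Qb :=
  IntermediateField.adjoin ℚ {t : Qb | t ^ r = 1}

theorem finiteDimensional_muField : FiniteDimensional ℚ (muField r) := by
  have hr : 0 < r := (Fact.out : r.Prime).pos
  have hfin : {t : Qb | t ^ r = 1}.Finite := by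
    have h := (Polynomial.X ^ r - 1 : Polynomial Qb).rootSet_finite Qb
    refine h.subset fun t ht => ?_
    rw [Polynomial.mem_rootSet]
    refine ⟨Polynomial.X_pow_sub_C_ne_zero hr 1, ?_⟩
    have ht' : t ^ r = 1 := ht
    simp [ht']
  haveI : Finite {t : Qb | t ^ r = 1} := hfin.to_subtype
  refine IntermediateField.finiteDimensional_adjoin fun t ht => ?_
  exact (AlgebraicClosure.isAlgebraic ℚ).isAlgebraic t |>.isIntegral

/-- The mod `r` cyclotomic character factors through `ℚ(μ_r)`. -/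
theorem cycloChar_eq_of_muField (σ τ : GQ) (h : ∀ a ∈ muField r, σ a = τ a) :
    ExtCitation.cycloChar r σ = ExtCitation.cycloChar r τ := by
  have h1 : ExtCitation.cycloChar r (τ⁻¹ * σ) = 1 := by
    apply Fermat.Agent.S29.H872.cycloChar_eq_one_of_fixes_roots
    intro t ht
    have ht' : t ∈ muField r := IntermediateField.subset_adjoin ℚ _ ht
    show τ⁻¹ (σ t) = t
    rw [h t ht']
    exact τ.symm_apply_apply t
  rw [map_mul, map_inv, inv_mul_eq_one] at h1
  exact h1.symm

open Fermat.Agent.Lib.Cheb.Spec (FrobeniusDivisionStatement) in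
/-- **FLAG, abstract form.**  A finite subgroup `X ⊆ J₀(N)[r]`, stable under Galois and under the
Hecke operators `T_ℓ` (`ℓ ∉ S`), on which all `T_ℓ - (1 + ℓ)` (`ℓ ∉ S`) are pointwise nilpotent
and the Eichler–Shimura relations hold, has a Galois-stable full flag with graded pieces of type
`𝟙` or `χ` (mod `r` cyclotomic character). -/
theorem hasFlagFrom_of_eisenstein
    (X : AddSubgroup (JZero N)) [Finite X] [hXr : Fact (∀ x ∈ X, r • x = 0)]
    (hXG : ∀ σ : GQ, ∀ x ∈ X, σ • x ∈ X)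
    (S : Finset ℕ) (hrS : r ∈ S)
    (hXT : ∀ ℓ : Nat.Primes, (ℓ : ℕ) ∉ S → ∀ x ∈ X, heckeOperatorBar N ℓ x ∈ X)
    (hnil : ∀ ℓ : Nat.Primes, (ℓ : ℕ) ∉ S → ∀ x ∈ X, ∃ n : ℕ,
      ((heckeOperatorBar N ℓ - ((1 + (ℓ : ℕ) : ℕ) : Module.End ℤ (JZero N))) ^ n) x = 0)
    (hES : ∀ ℓ : Nat.Primes, (ℓ : ℕ) ∉ S → ∀ A : ValuationSubring Qb, A.LiesOverPrime ℓ →
      ∀ τ : GQ, A.IsFrobeniusAt τ ℓ → ∀ x ∈ X,
        τ • τ • x - heckeOperatorBar N ℓ (τ • x) + (ℓ : ℕ) • x = 0)
    (hcheb : FrobeniusDivisionStatement) :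
    H62.HasFlagFrom (repX (r := r) X hXG) (ExtCitation.cycloChar r) ⊥ := by
  have hr : r.Prime := Fact.out
  haveI : FiniteDimensional ℚ (muField r) := finiteDimensional_muField
  obtain ⟨E, hEfin, hRE, hE⟩ := exists_level_of_finite X hr.ne_zero hXr.out (muField r)
  have hT : ∀ (ℓ : ℕ) (hℓ : ℓ.Prime) (hℓS : ℓ ∉ S) (x : X),
      ((heckeX (r := r) X S hXT ℓ x : X) : JZero N)
        = heckeOperatorBar N ⟨ℓ, hℓ⟩ (x : JZero N) :=
    fun ℓ hℓ hℓS x => coe_heckeX X S hXT hℓ hℓS x
  refine H62.exists_flag_of_frobenius (repX X hXG) (ExtCitation.cycloChar r) E hEfin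
    ?_ ?_ S (heckeX X S hXT) ?_ ?_ ?_ ?_ hcheb
  · -- `ρ` factors through `E`
    intro σ τ h
    refine LinearMap.ext fun x => Subtype.ext ?_
    exact hE σ τ h x x.2
  · -- `χ` factors through `E`
    intro σ τ h
    exact cycloChar_eq_of_muField σ τ fun a ha => h a (hRE ha)
  · -- `T_ℓ` commutes with Galois
    intro ℓ hℓ hℓS σ
    refine LinearMap.ext fun x => Subtype.ext ?_
    have e1 : ((heckeX (r := r) X S hXT ℓ (repX (r := r) X hXG σ x) : X) : JZero N)
        = heckeOperatorBar N ⟨ℓ, hℓ⟩ (σ • (x : JZero N)) := hT ℓ hℓ hℓS _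
    have e2 : ((repX (r := r) X hXG σ (heckeX (r := r) X S hXT ℓ x) : X) : JZero N)
        = σ • heckeOperatorBar N ⟨ℓ, hℓ⟩ (x : JZero N) :=
      congrArg (σ • ·) (hT ℓ hℓ hℓS x)
    exact e1.trans
      ((Fermat.Agent.S29.H571.heckeOperatorBar_smul N ⟨ℓ, hℓ⟩ σ x).trans e2.symm)
  · -- nilpotency
    intro ℓ hℓ hℓS
    refine isNilpotent_of_pointwise X _
      (heckeOperatorBar N ⟨ℓ, hℓ⟩ - ((1 + ℓ : ℕ) : Module.End ℤ (JZero N))) ?_
      (hnil ⟨ℓ, hℓ⟩ hℓS)
    intro x
    rw [coe_sub_one_add_apply, LinearMap.sub_apply, Module.End.natCast_apply,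
      add_smul, one_smul]
    exact congrArg (· - ((x : JZero N) + ℓ • (x : JZero N))) (hT ℓ hℓ hℓS x)
  · -- Eichler–Shimura
    intro ℓ hℓ hℓS A hA τ hτ
    refine LinearMap.ext fun x => Subtype.ext ?_
    have key := hES ⟨ℓ, hℓ⟩ hℓS A hA τ hτ x x.2
    have e1 : ((heckeX (r := r) X S hXT ℓ (repX (r := r) X hXG τ x) : X) : JZero N)
        = heckeOperatorBar N ⟨ℓ, hℓ⟩ (τ • (x : JZero N)) := hT ℓ hℓ hℓS _
    rw [coe_quadratic_apply]
    exact (congrArg (fun z => τ • τ • (x : JZero N) - z + ℓ • (x : JZero N)) e1).trans key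
  · -- `χ(Frob_ℓ) = ℓ`
    intro ℓ hℓ hℓS A hA τ hτ
    have hℓr : ℓ ≠ r := fun h => hℓS (h ▸ hrS)
    exact Fermat.Agent.S29.H872.cycloChar_frobenius r hℓ hℓr A hA τ hτ

/-- Over `𝔽_r`, the span of a vector is the subgroup it generates. -/
theorem span_singleton_toAddSubgroup (X : AddSubgroup (JZero N))
    [hXr : Fact (∀ x ∈ X, r • x = 0)] (u : X) :
    (Submodule.span (ZMod r) {u}).toAddSubgroup = AddSubgroup.zmultiples u := by
  ext y
  rw [Submodule.mem_toAddSubgroup, Submodule.mem_span_singleton, AddSubgroup.mem_zmultiples_iff]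
  constructor
  · rintro ⟨a, rfl⟩
    refine ⟨(a.val : ℤ), ?_⟩
    rw [natCast_zsmul, ← Nat.cast_smul_eq_nsmul (ZMod r), ZMod.natCast_zmod_val]
  · rintro ⟨k, rfl⟩
    exact ⟨(k : ZMod r), Int.cast_smul_eq_zsmul (ZMod r) k u⟩

open Fermat.Agent.Lib.Cheb.Spec (FrobeniusDivisionStatement) in
/-- **FLAG, concrete form.**  Same hypotheses; the flag is given by subgroups `F i` of `J₀(N)`,
`F (i+1) = F i + ℤ u_i`, and `σ u_i ≡ ψ_i(σ) u_i` modulo `F i` with `ψ_i = 1` (`ε i = false`) or
`ψ_i =` the mod `r` cyclotomic character (`ε i = true`; `cycloExp r σ` is its representative in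
`ℕ`). -/
theorem exists_flag_addSubgroup
    (X : AddSubgroup (JZero N)) [Finite X] (hXr : ∀ x ∈ X, r • x = 0)
    (hXG : ∀ σ : GQ, ∀ x ∈ X, σ • x ∈ X)
    (S : Finset ℕ) (hrS : r ∈ S)
    (hXT : ∀ ℓ : Nat.Primes, (ℓ : ℕ) ∉ S → ∀ x ∈ X, heckeOperatorBar N ℓ x ∈ X)
    (hnil : ∀ ℓ : Nat.Primes, (ℓ : ℕ) ∉ S → ∀ x ∈ X, ∃ n : ℕ,
      ((heckeOperatorBar N ℓ - ((1 + (ℓ : ℕ) : ℕ) : Module.End ℤ (JZero N))) ^ n) x = 0)
    (hES : ∀ ℓ : Nat.Primes, (ℓ : ℕ) ∉ S → ∀ A : ValuationSubring Qb, A.LiesOverPrime ℓ →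
      ∀ τ : GQ, A.IsFrobeniusAt τ ℓ → ∀ x ∈ X,
        τ • τ • x - heckeOperatorBar N ℓ (τ • x) + (ℓ : ℕ) • x = 0)
    (hcheb : FrobeniusDivisionStatement) :
    ∃ (n : ℕ) (F : ℕ → AddSubgroup (JZero N)) (u : ℕ → JZero N) (ε : ℕ → Bool),
      F 0 = ⊥ ∧ F n = X ∧
      (∀ i < n, F (i + 1) = F i ⊔ AddSubgroup.zmultiples (u i)) ∧
      (∀ i < n, u i ∉ F i) ∧ (∀ i < n, u i ∈ X) ∧
      (∀ i < n, ∀ σ : GQ,
        σ • u i - (if ε i then ExtCitation.cycloExp r σ else 1) • u i ∈ F i) := by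
  haveI : Fact (∀ x ∈ X, r • x = 0) := ⟨hXr⟩
  obtain ⟨n, F, u, ε, h0, hn, hstep, hu, hact⟩ :=
    hasFlagFrom_of_eisenstein (r := r) X hXG S hrS hXT hnil hES hcheb
  refine ⟨n, fun i => (F i).toAddSubgroup.map X.subtype, fun i => (u i : JZero N), ε,
    ?_, ?_, ?_, ?_, ?_, ?_⟩
  · show (F 0).toAddSubgroup.map X.subtype = ⊥
    rw [h0, Submodule.bot_toAddSubgroup, AddSubgroup.map_bot]
  · show (F n).toAddSubgroup.map X.subtype = X
    rw [hn, Submodule.top_toAddSubgroup, ← AddMonoidHom.range_eq_map, AddSubgroup.range_subtype]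
  · intro i hi
    show (F (i + 1)).toAddSubgroup.map X.subtype
      = (F i).toAddSubgroup.map X.subtype ⊔ AddSubgroup.zmultiples (u i : JZero N)
    rw [hstep i hi, Submodule.sup_toAddSubgroup, AddSubgroup.map_sup,
      span_singleton_toAddSubgroup, AddMonoidHom.map_zmultiples]
    rfl
  · intro i hi hmem
    obtain ⟨y, hy, hyu⟩ := AddSubgroup.mem_map.mp hmem
    have : y = u i := Subtype.ext hyu
    exact hu i hi (this ▸ hy)
  · intro i _
    exact (u i).2
  · intro i hi σ
    refine AddSubgroup.mem_map.mpr ⟨_, hact i hi σ, ?_⟩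
    show ((repX (r := r) X hXG σ (u i) : X) : JZero N)
      - (((if ε i then ((ExtCitation.cycloChar r σ : (ZMod r)ˣ) : ZMod r) else 1) • u i : X) :
          JZero N) = _
    rw [coe_repX]
    congr 1
    cases ε i with
    | false =>
      simp
    | true =>
      simp only [if_true]
      rw [ExtCitation.coe_cycloChar, coe_natCast_smul]

end Flag

/-! ## The Eisenstein part of `J₀(N)[r]` and its flag -/

section Eis

variable (N : ℕ) [NeZero N]

/-- The operator `T_ℓ - (1 + ℓ)` on `J₀(N)(ℚ̄)`. -/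
def eisD (ℓ : Nat.Primes) : Module.End ℤ (JZero N) :=
  heckeOperatorBar N ℓ - ((1 + (ℓ : ℕ) : ℕ) : Module.End ℤ (JZero N))

theorem eisD_smul (ℓ : Nat.Primes) (σ : GQ) (x : JZero N) :
    eisD N ℓ (σ • x) = σ • eisD N ℓ x := by
  unfold eisD
  rw [LinearMap.sub_apply, LinearMap.sub_apply, Module.End.natCast_apply,
    Module.End.natCast_apply, Fermat.Agent.S29.H571.heckeOperatorBar_smul, ← gal_nsmul]
  exact (map_sub (DistribSMul.toAddMonoidHom (JZero N) σ) _ _).symm

theorem eisD_pow_smul (ℓ : Nat.Primes) (σ : GQ) (n : ℕ) (x : JZero N) :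
    (eisD N ℓ ^ n) (σ • x) = σ • (eisD N ℓ ^ n) x := by
  induction n generalizing x with
  | zero => simp
  | succ n ih =>
    rw [pow_succ, Module.End.mul_apply, Module.End.mul_apply, eisD_smul, ih]

theorem commute_eisD_hecke (ℓ q : Nat.Primes) :
    Commute (eisD N ℓ) (heckeOperatorBar N q) := by
  unfold eisD
  have h : Commute (heckeOperatorBar N ℓ) (heckeOperatorBar N q) :=
    Fermat.Agent.S29.heckeOperatorsCommuteBar N ℓ q
  exact h.sub_left (Nat.cast_commute _ _)

/-- **The Eisenstein part** of `J₀(N)[r]` away from `S`: the `r`-torsion points killed by a power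
of `T_ℓ - (1 + ℓ)` for every prime `ℓ ∉ S`. -/
def eisPart (S : Set ℕ) (r : ℕ) : AddSubgroup (JZero N) where
  carrier := {x | r • x = 0 ∧ ∀ ℓ : Nat.Primes, (ℓ : ℕ) ∉ S → ∃ n : ℕ, (eisD N ℓ ^ n) x = 0}
  zero_mem' := ⟨smul_zero r, fun ℓ _ => ⟨0, by simp⟩⟩
  add_mem' := by
    rintro a b ⟨ha, ha'⟩ ⟨hb, hb'⟩
    refine ⟨by rw [nsmul_add, ha, hb, add_zero], fun ℓ hℓ => ?_⟩
    obtain ⟨n, hn⟩ := ha' ℓ hℓ
    obtain ⟨m, hm⟩ := hb' ℓ hℓ
    refine ⟨n + m, ?_⟩
    rw [map_add]
    have h1 : (eisD N ℓ ^ (n + m)) a = 0 := by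
      rw [add_comm, pow_add, Module.End.mul_apply, hn, map_zero]
    have h2 : (eisD N ℓ ^ (n + m)) b = 0 := by
      rw [pow_add, Module.End.mul_apply, hm, map_zero]
    rw [h1, h2, add_zero]
  neg_mem' := by
    rintro a ⟨ha, ha'⟩
    refine ⟨by rw [neg_nsmul, ha, neg_zero], fun ℓ hℓ => ?_⟩
    obtain ⟨n, hn⟩ := ha' ℓ hℓ
    exact ⟨n, by rw [map_neg, hn, neg_zero]⟩

variable {N}

theorem mem_eisPart {S : Set ℕ} {r : ℕ} {x : JZero N} :
    x ∈ eisPart N S r ↔
      r • x = 0 ∧ ∀ ℓ : Nat.Primes, (ℓ : ℕ) ∉ S → ∃ n : ℕ, (eisD N ℓ ^ n) x = 0 := Iff.rfl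

theorem nsmul_eq_zero_of_mem_eisPart {S : Set ℕ} {r : ℕ} {x : JZero N}
    (hx : x ∈ eisPart N S r) : r • x = 0 := hx.1

/-- The Eisenstein part is Galois-stable. -/
theorem gal_mem_eisPart {S : Set ℕ} {r : ℕ} (σ : GQ) {x : JZero N}
    (hx : x ∈ eisPart N S r) : σ • x ∈ eisPart N S r := by
  refine ⟨?_, fun ℓ hℓ => ?_⟩
  · rw [← gal_nsmul, hx.1]
    exact map_zero (DistribSMul.toAddMonoidHom (JZero N) σ)
  · obtain ⟨n, hn⟩ := hx.2 ℓ hℓ
    refine ⟨n, ?_⟩
    rw [eisD_pow_smul, hn]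
    exact map_zero (DistribSMul.toAddMonoidHom (JZero N) σ)

/-- The Eisenstein part is stable under all Hecke operators. -/
theorem hecke_mem_eisPart {S : Set ℕ} {r : ℕ} (q : Nat.Primes) {x : JZero N}
    (hx : x ∈ eisPart N S r) : heckeOperatorBar N q x ∈ eisPart N S r := by
  refine ⟨?_, fun ℓ hℓ => ?_⟩
  · rw [← map_nsmul, hx.1, map_zero]
  · obtain ⟨n, hn⟩ := hx.2 ℓ hℓ
    refine ⟨n, ?_⟩
    have hc : Commute (eisD N ℓ ^ n) (heckeOperatorBar N q) :=
      (commute_eisD_hecke N ℓ q).pow_left n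
    have := congrArg (fun f : Module.End ℤ (JZero N) => f x) hc.eq
    simp only [Module.End.mul_apply] at this
    rw [this, hn, map_zero]

/-- The Eisenstein part is finite. -/
theorem finite_eisPart (S : Set ℕ) (r : ℕ) [Fact r.Prime] : Finite (eisPart N S r) := by
  haveI : Finite (Fermat.Agent.S19.Tors N r 1) := Fermat.Agent.A3.H319.finStatement N r 1
  let f : eisPart N S r → Fermat.Agent.S19.Tors N r 1 := fun x =>
    ⟨(x : JZero N), by
      rw [Submodule.mem_torsionBy_iff, pow_one, natCast_zsmul]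
      exact x.2.1⟩
  refine Finite.of_injective f fun a b h => Subtype.ext ?_
  have h' : ((f a : Fermat.Agent.S19.Tors N r 1) : JZero N) = (f b : Fermat.Agent.S19.Tors N r 1) :=
    congrArg Subtype.val h
  exact h'

/-- **FLAG for the Eisenstein part.**  For a finite set `S` of primes, the Eisenstein part
`X = eisPart N S r` of `J₀(N)[r]` has a full flag `0 = F 0 < F 1 < ⋯ < F n = X` of subgroups with
`F (i+1) = F i + ℤ u_i` such that every `σ ∈ Gal(ℚ̄/ℚ)` satisfies `σ u_i ≡ ψ_i(σ) u_i` modulo `F i`,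
where `ψ_i = 1` or `ψ_i` is the mod `r` cyclotomic character.  Unconditional. -/
theorem flag_eisPart (S : Finset ℕ) (r : ℕ) [Fact r.Prime] :
    ∃ (n : ℕ) (F : ℕ → AddSubgroup (JZero N)) (u : ℕ → JZero N) (ε : ℕ → Bool),
      F 0 = ⊥ ∧ F n = eisPart N (S : Set ℕ) r ∧
      (∀ i < n, F (i + 1) = F i ⊔ AddSubgroup.zmultiples (u i)) ∧
      (∀ i < n, u i ∉ F i) ∧ (∀ i < n, u i ∈ eisPart N (S : Set ℕ) r) ∧
      (∀ i < n, ∀ σ : GQ,
        σ • u i - (if ε i then ExtCitation.cycloExp r σ else 1) • u i ∈ F i) := by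
  classical
  haveI := finite_eisPart (N := N) (S : Set ℕ) r
  have hN : N ≠ 0 := NeZero.ne N
  have hr : r.Prime := Fact.out
  -- the exceptional set: `S`, the primes dividing `N`, and `r`
  set S' : Finset ℕ := S ∪ N.primeFactors ∪ {r} with hS'
  have hsub : ∀ ℓ : ℕ, ℓ ∉ S' → ℓ ∉ S ∧ ℓ ∉ N.primeFactors ∧ ℓ ≠ r := by
    intro ℓ hℓ
    simp only [hS', Finset.mem_union, Finset.mem_singleton, not_or] at hℓ
    exact ⟨hℓ.1.1, hℓ.1.2, hℓ.2⟩
  refine exists_flag_addSubgroup (r := r) (eisPart N (S : Set ℕ) r)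
    (fun x hx => hx.1) (fun σ x hx => gal_mem_eisPart σ hx) S'
    (by simp [hS']) (fun ℓ _ x hx => hecke_mem_eisPart ℓ hx)
    (fun ℓ hℓ x hx => hx.2 ℓ (by exact_mod_cast (hsub ℓ hℓ).1)) ?_
    Fermat.Agent.Lib.Cheb.frobeniusDivision
  intro ℓ hℓ A hA τ hτ x hx
  obtain ⟨-, h2, h3⟩ := hsub ℓ hℓ
  have hℓN : ¬ (ℓ : ℕ) ∣ N := fun hd => h2 (Nat.mem_primeFactors.mpr ⟨ℓ.2, hd, hN⟩)
  have hℓNr : ¬ (ℓ : ℕ) ∣ N * r := by
    intro hd
    rcases (Nat.Prime.dvd_mul ℓ.2).1 hd with h | h
    · exact hℓN h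
    · exact h3 ((Nat.prime_dvd_prime_iff_eq ℓ.2 hr).1 h)
  exact es_torsion N r ℓ.2 hℓNr A hA τ hτ x 1 (by rw [pow_one]; exact hx.1)

/-- In a flag as in `flag_eisPart`, every term is Galois-stable. -/
theorem flag_stable {n : ℕ} {F : ℕ → AddSubgroup (JZero N)} {u : ℕ → JZero N} {c : ℕ → GQ → ℕ}
    (h0 : F 0 = ⊥) (hstep : ∀ i < n, F (i + 1) = F i ⊔ AddSubgroup.zmultiples (u i))
    (hact : ∀ i < n, ∀ σ : GQ, σ • u i - c i σ • u i ∈ F i) :
    ∀ i ≤ n, ∀ σ : GQ, ∀ x ∈ F i, σ • x ∈ F i := by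
  intro i
  induction i with
  | zero =>
    intro _ σ x hx
    rw [h0, AddSubgroup.mem_bot] at hx
    rw [hx, h0, AddSubgroup.mem_bot]
    exact map_zero (DistribSMul.toAddMonoidHom (JZero N) σ)
  | succ i ih =>
    intro hi σ x hx
    have hi' : i < n := hi
    rw [hstep i hi'] at hx ⊢
    obtain ⟨f, hf, z, hz, rfl⟩ := AddSubgroup.mem_sup.mp hx
    obtain ⟨k, rfl⟩ := AddSubgroup.mem_zmultiples_iff.mp hz
    have e1 : σ • (f + k • u i) = σ • f + k • (σ • u i) := by
      have h1 := map_add (DistribSMul.toAddMonoidHom (JZero N) σ) f (k • u i)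
      have h2 := map_zsmul (DistribSMul.toAddMonoidHom (JZero N) σ) k (u i)
      exact h1.trans (congrArg (σ • f + ·) h2)
    have e2 : σ • u i = (σ • u i - c i σ • u i) + c i σ • u i := by abel
    rw [e1, e2, zsmul_add]
    refine add_mem (AddSubgroup.mem_sup_left (ih hi'.le σ f hf)) (add_mem ?_ ?_)
    · exact AddSubgroup.mem_sup_left (zsmul_mem (hact i hi' σ) k)
    · exact AddSubgroup.mem_sup_right
        (zsmul_mem (nsmul_mem (AddSubgroup.mem_zmultiples (u i)) _) k)

/-- In a flag as in `flag_eisPart`, the terms increase. -/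
theorem flag_mono {n : ℕ} {F : ℕ → AddSubgroup (JZero N)} {u : ℕ → JZero N}
    (hstep : ∀ i < n, F (i + 1) = F i ⊔ AddSubgroup.zmultiples (u i)) :
    ∀ i j, i ≤ j → j ≤ n → F i ≤ F j := by
  intro i j hij
  induction j, hij using Nat.le_induction with
  | base => intro _; exact le_rfl
  | succ j hj ih =>
    intro hjn
    have hj' : j < n := hjn
    exact (ih hj'.le).trans (by rw [hstep j hj']; exact le_sup_left)

/-- **FLAG for the Eisenstein part, full form**: `flag_eisPart` together with the formal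
consequences (terms increasing, Galois-stable, steps of order `r`). -/
theorem flag_eisPart_full (S : Finset ℕ) (r : ℕ) [Fact r.Prime] :
    ∃ (n : ℕ) (F : ℕ → AddSubgroup (JZero N)) (u : ℕ → JZero N) (ε : ℕ → Bool),
      F 0 = ⊥ ∧ F n = eisPart N (S : Set ℕ) r ∧
      (∀ i < n, F (i + 1) = F i ⊔ AddSubgroup.zmultiples (u i)) ∧
      (∀ i < n, u i ∉ F i) ∧ (∀ i < n, u i ∈ eisPart N (S : Set ℕ) r) ∧
      (∀ i < n, ∀ σ : GQ,
        σ • u i - (if ε i then ExtCitation.cycloExp r σ else 1) • u i ∈ F i) ∧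
      (∀ i j, i ≤ j → j ≤ n → F i ≤ F j) ∧
      (∀ i ≤ n, F i ≤ eisPart N (S : Set ℕ) r) ∧
      (∀ i ≤ n, ∀ σ : GQ, ∀ x ∈ F i, σ • x ∈ F i) ∧
      (∀ i < n, r • u i = 0) := by
  obtain ⟨n, F, u, ε, h0, hn, hstep, hu, huX, hact⟩ := flag_eisPart (N := N) S r
  refine ⟨n, F, u, ε, h0, hn, hstep, hu, huX, hact, flag_mono hstep, ?_, ?_, ?_⟩
  · intro i hi
    rw [← hn]
    exact flag_mono hstep i n hi le_rfl
  · exact flag_stable (c := fun i σ => if ε i then ExtCitation.cycloExp r σ else 1) h0 hstep hact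
  · intro i hi
    exact (huX i hi).1

end Eis

end Fermat.Agent.S15.H628

end

end
-- ===== PACK-END S15/H628/Flag.lean

-- ===== PACK-BEGIN S15/H628/FlagStmt.lean
section



/-!
# Row S15, DESC leaf FLAG (helper628): `flagStatement : H975.FlagStatement` (VERBATIM)

Adapter from `H628.flag_eisPart_full` (unconditional flag of the Eisenstein part of `J₀(N)[r]`,
`Fermat/Agent/S15/H628/Flag.lean`) to the frozen skeleton shape of `H975/DescSpec.lean`.
-/

set_option autoImplicit false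

noncomputable section

namespace Fermat.Agent.S15.H628

open ModularCurve
open Fermat.Agent.Lib.Cheb.Spec (GQ Qb)

section Group

variable {G : Type*} [AddCommGroup G]

/-- A step `F < F + ℤ u` with `u ∉ F`, `r u ∈ F`, `r` prime, has index `r`. -/
theorem relIndex_sup_zmultiples (F : AddSubgroup G) (u : G) (r : ℕ) [Fact r.Prime]
    (hu : u ∉ F) (hru : r • u ∈ F) :
    F.relIndex (F ⊔ AddSubgroup.zmultiples u) = r := by
  set K : AddSubgroup G := F ⊔ AddSubgroup.zmultiples u with hK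
  have huK : u ∈ K := AddSubgroup.mem_sup_right (AddSubgroup.mem_zmultiples u)
  set H : AddSubgroup K := F.addSubgroupOf K with hH
  let ū : K ⧸ H := QuotientAddGroup.mk ⟨u, huK⟩
  have h1 : r • ū = 0 := by
    show r • (QuotientAddGroup.mk (⟨u, huK⟩ : K) : K ⧸ H) = 0
    rw [← QuotientAddGroup.mk_nsmul, QuotientAddGroup.eq_zero_iff]
    exact AddSubgroup.mem_addSubgroupOf.mpr hru
  have h2 : ū ≠ 0 := by
    intro h
    have := (QuotientAddGroup.eq_zero_iff (⟨u, huK⟩ : K)).mp h
    exact hu (AddSubgroup.mem_addSubgroupOf.mp this)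
  have h3 : ∀ q : K ⧸ H, q ∈ AddSubgroup.zmultiples ū := by
    intro q
    obtain ⟨⟨x, hx⟩, rfl⟩ := QuotientAddGroup.mk_surjective q
    obtain ⟨f, hf, z, hz, rfl⟩ := AddSubgroup.mem_sup.mp hx
    obtain ⟨k, rfl⟩ := AddSubgroup.mem_zmultiples_iff.mp hz
    refine AddSubgroup.mem_zmultiples_iff.mpr ⟨k, ?_⟩
    show k • (QuotientAddGroup.mk (⟨u, huK⟩ : K) : K ⧸ H) = _
    rw [← QuotientAddGroup.mk_zsmul, QuotientAddGroup.eq]
    refine AddSubgroup.mem_addSubgroupOf.mpr ?_
    have e : ((-(k • (⟨u, huK⟩ : K)) + ⟨f + k • u, hx⟩ : K) : G) = f := by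
      simp
    rw [e]
    exact hf
  have h4 : addOrderOf ū = r := addOrderOf_eq_prime h1 h2
  have h5 : addOrderOf ū = Nat.card (K ⧸ H) := addOrderOf_eq_card_of_forall_mem_zmultiples h3
  show H.index = r
  rw [AddSubgroup.index_eq_card, ← h5, h4]

end Group

section Adapter

variable (p : ℕ) [NeZero p]

theorem eta_eq_eisD (ℓ : Nat.Primes) : Fermat.Agent.S15.H975.eta p ℓ = eisD p ℓ := by
  unfold Fermat.Agent.S15.H975.eta eisD
  congr 1

theorem eis_eq_eisPart (S : Finset ℕ) (r : ℕ) :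
    Fermat.Agent.S15.H975.eis p (S : Set ℕ) r
      = eisPart p ((insert p S : Finset ℕ) : Set ℕ) r := by
  ext w
  constructor
  · rintro ⟨h1, h2⟩
    refine ⟨h1, fun ℓ hℓ => ?_⟩
    have hℓ' : (ℓ : ℕ) ≠ p ∧ (ℓ : ℕ) ∉ S := by
      simpa [Finset.mem_insert, not_or] using hℓ
    obtain ⟨k, hk⟩ := h2 ℓ hℓ'.1 (by exact_mod_cast hℓ'.2)
    exact ⟨k, by rw [← eta_eq_eisD]; exact hk⟩
  · rintro ⟨h1, h2⟩
    refine ⟨h1, fun ℓ hℓp hℓS => ?_⟩
    have hℓ' : (ℓ : ℕ) ∉ ((insert p S : Finset ℕ) : Set ℕ) := by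
      have hℓS' : (ℓ : ℕ) ∉ S := by exact_mod_cast hℓS
      simp [hℓp, hℓS']
    obtain ⟨k, hk⟩ := h2 ℓ hℓ'
    exact ⟨k, by rw [eta_eq_eisD]; exact hk⟩

end Adapter

/-- One step of the flag acts through `c` on the whole step. -/
theorem step_act {N : ℕ} [NeZero N] {F' : AddSubgroup (JZero N)} {u : JZero N} (σ : GQ) (c : ℕ)
    (hstab : ∀ x ∈ F', σ • x ∈ F') (hu : σ • u - c • u ∈ F') :
    ∀ f ∈ F' ⊔ AddSubgroup.zmultiples u, σ • f - c • f ∈ F' := by
  intro f hf
  obtain ⟨f', hf', z, hz, rfl⟩ := AddSubgroup.mem_sup.mp hf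
  obtain ⟨k, rfl⟩ := AddSubgroup.mem_zmultiples_iff.mp hz
  have e1 : σ • (f' + k • u) = σ • f' + k • (σ • u) := by
    have h1 := map_add (DistribSMul.toAddMonoidHom (JZero N) σ) f' (k • u)
    have h2 := map_zsmul (DistribSMul.toAddMonoidHom (JZero N) σ) k u
    exact h1.trans (congrArg (σ • f' + ·) h2)
  have e2 : σ • (f' + k • u) - c • (f' + k • u)
      = (σ • f' - c • f') + k • (σ • u - c • u) := by
    rw [e1, nsmul_add, zsmul_sub, ← natCast_zsmul (k • u) c, ← natCast_zsmul u c,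
      smul_comm (c : ℤ) k u]
    abel
  rw [e2]
  exact add_mem (sub_mem (hstab f' hf') (nsmul_mem hf' c)) (zsmul_mem hu k)

/-- **FLAG** (frozen skeleton leaf, verbatim): the Eisenstein part `W_E` of `J₀(p)[r]` has a full
Galois flag with pieces of type `1` or `ω`.  Unconditional. -/
theorem flagStatement : Fermat.Agent.S15.H975.FlagStatement := by
  intro p _ _ S r hr _
  have : Fact r.Prime := ⟨hr⟩
  obtain ⟨n, F, u, ε, h0, hn, hstep, hu, huX, hact, hmono, -, hstab, hru⟩ :=
    flag_eisPart_full (N := p) (insert p S) r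
  refine ⟨n, F, h0, by rw [hn, eis_eq_eisPart], fun i hi => ?_⟩
  have hFi : ∀ σ : GQ, ∀ x ∈ F i, σ • x ∈ F i := hstab i hi.le
  refine ⟨hmono i (i + 1) (Nat.le_succ i) hi, hFi, hstab (i + 1) hi, ?_, ?_⟩
  · rw [hstep i hi]
    exact relIndex_sup_zmultiples (F i) (u i) r (hu i hi)
      (by rw [hru i hi]; exact (F i).zero_mem)
  · rw [hstep i hi]
    cases hε : ε i with
    | false =>
      left
      intro σ f hf
      have h1 : σ • u i - 1 • u i ∈ F i := by
        have := hact i hi σ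
        rwa [hε] at this
      have h2 := step_act σ 1 (hFi σ) h1 f hf
      rwa [one_nsmul] at h2
    | true =>
      right
      obtain ⟨ζ, hζ⟩ := HasEnoughRootsOfUnity.exists_primitiveRoot Qb r
      refine ⟨ζ, hζ, fun σ k hk f hf => ?_⟩
      -- `σ ζ = ζ ^ cycloExp`, hence `k ≡ cycloExp (mod r)`
      have hζu : IsUnit ζ := hζ.isUnit hr.ne_zero
      obtain ⟨t, rfl⟩ := hζu
      have ht : t ∈ rootsOfUnity r Qb := by
        rw [mem_rootsOfUnity]
        exact Units.ext (by simpa using hζ.pow_eq_one)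
      have hspec := Fermat.Agent.S55.Bridge.cycloChar_spec r σ ht
      have hc : ((ExtCitation.cycloChar r σ : (ZMod r)ˣ) : ZMod r).val
          = ExtCitation.cycloExp r σ := ExtCitation.val_cycloChar r σ
      rw [hc, hk] at hspec
      have hmod : k ≡ ExtCitation.cycloExp r σ [MOD r] := by
        have hspec' : t ^ k = t ^ ExtCitation.cycloExp r σ :=
          Units.ext (by rw [Units.val_pow_eq_pow_val, Units.val_pow_eq_pow_val]; exact hspec)
        have h := pow_eq_pow_iff_modEq.mp hspec'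
        have ho : orderOf t = r := by rw [← orderOf_units, ← hζ.eq_orderOf]
        rwa [ho] at h
      have h1 : σ • u i - ExtCitation.cycloExp r σ • u i ∈ F i := by
        have := hact i hi σ
        rwa [hε] at this
      have h2 : k • u i = ExtCitation.cycloExp r σ • u i := by
        have hr0 : r • u i = 0 := hru i hi
        have e : ∀ m : ℕ, m • u i = (m % r) • u i := by
          intro m
          conv_lhs => rw [← Nat.div_add_mod m r, add_nsmul, mul_nsmul, hr0, nsmul_zero, zero_add]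
        rw [e k, e (ExtCitation.cycloExp r σ), hmod]
      have h3 : σ • u i - k • u i ∈ F i := by rw [h2]; exact h1
      exact step_act σ k (hFi σ) h3 f hf

end Fermat.Agent.S15.H628

end

end
-- ===== PACK-END S15/H628/FlagStmt.lean

-- ===== PACK-BEGIN S15/H111/LocR2Real.lean
section
/-
Row S15, node DESC, leaf LOCR2 through the REAL place (helper111).
Design: `coord/S15-COUNT2-helper111.md`; abstract algebra: `H111/Count2Alg.lean`, `H111/Count2Top.lean`.

For `r = 2` the subgroup `K` of the skeleton node `H975.LocalStatement` can be taken at the real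
place: `K = U∞ = (cc - 1) E[4] ∩ J[2]`, `cc` = complex conjugation, `E` = Eisenstein part of
`J₀(p)[2^∞]`.  This file instantiates the abstract count on `J = JZero p`,
`T = H302.GoodAlg p S` (polynomial ring on the good Hecke operators), in the language of the frozen
skeleton `H975/DescSpec.lean`:

* `LocR2RealStatement` : for `2 ∈ S` there is `K ≤ eis p S 2` with `|K|² ≤ |eis p S 2|` and
  `cc • y - y ∈ K` for every `y ∈ sel p 2 (eis p S 2)`.
* `Pair2Statement`     : (PAIR) on every `J₀(p)[2^k]` a bi-additive pairing with values in `ℤ/2^k`,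
  with trivial right kernel, self-adjoint for the `T_ℓ` (`ℓ ≠ p, 2`), anti-invariant under `cc`.
* `locR2Real_of_pair`  : `DIV + FIN + PAIR ⟹ LocR2RealStatement`.
* `mem_eis_iff_mem_primaryPart` : the skeleton's `eis p S 2` is the `2`-torsion of the primary part
  of `J` at the Eisenstein ideal `eisIdeal p S = (2, T_ℓ - 1 - ℓ)`.
-/





set_option autoImplicit false

noncomputable section

namespace Fermat.Agent.S15.H111

open ModularCurve Fermat.Agent.S15.H975 Fermat.Agent.S15.H2 Fermat.Agent.S15.H302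

/-- **LOC-R2 at the real place** (COUNT-2 + LOC-∞): for `2 ∈ S` there is a subgroup `K` of the
Eisenstein part `W_E` of `J₀(p)[2]` with `|K|² ≤ |W_E|` containing all the values at the complex
conjugation of the cocycles of `Y(W_E)`. -/
def LocR2RealStatement : Prop :=
  ∀ (p : ℕ) [NeZero p], p.Prime → p ≠ 2 → ∀ (S : Finset ℕ), 2 ∈ S →
    ∃ K : AddSubgroup (JZero p), K ≤ H975.eis p (S : Set ℕ) 2 ∧
      Nat.card ↥K ^ 2 ≤ Nat.card ↥(H975.eis p (S : Set ℕ) 2) ∧
      ∀ y ∈ sel p 2 (H975.eis p (S : Set ℕ) 2), complexConjugation • y - y ∈ K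

/-- **PAIR** (all moduli `2^k`): a pairing on `J₀(p)[2^k]` with values in `ℤ/2^k`, bi-additive,
with trivial right kernel, self-adjoint for the Hecke operators `T_ℓ`, `ℓ ≠ p, 2`, and
anti-invariant under the complex conjugation.  (Values outside `J₀(p)[2^k]` are junk.) -/
def Pair2Statement : Prop :=
  ∀ (p : ℕ) [NeZero p], p.Prime → p ≠ 2 → ∀ k : ℕ,
    ∃ B : JZero p → JZero p → ZMod (2 ^ k),
      (∀ x x' y : JZero p, 2 ^ k • x = 0 → 2 ^ k • x' = 0 → 2 ^ k • y = 0 →
        B (x + x') y = B x y + B x' y) ∧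
      (∀ x y y' : JZero p, 2 ^ k • x = 0 → 2 ^ k • y = 0 → 2 ^ k • y' = 0 →
        B x (y + y') = B x y + B x y') ∧
      (∀ y : JZero p, 2 ^ k • y = 0 → (∀ x : JZero p, 2 ^ k • x = 0 → B x y = 0) → y = 0) ∧
      (∀ ℓ : Nat.Primes, (ℓ : ℕ) ≠ p → (ℓ : ℕ) ≠ 2 → ∀ x y : JZero p, 2 ^ k • x = 0 →
        2 ^ k • y = 0 → B (heckeOperatorBar p ℓ x) y = B x (heckeOperatorBar p ℓ y)) ∧
      (∀ x y : JZero p, 2 ^ k • x = 0 → 2 ^ k • y = 0 →
        B (complexConjugation • x) (complexConjugation • y) = - B x y)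

section Good

variable (p : ℕ) [NeZero p] (S : Set ℕ)

/-- `J₀(p)(ℚ̄)` as a module over the polynomial ring on the good Hecke operators. -/
@[reducible] def goodModule : Module (GoodAlg p S) (JZero p) :=
  Module.compHom (JZero p) (goodEval p S)

attribute [local instance] goodModule

theorem good_smul_def (t : GoodAlg p S) (x : JZero p) : t • x = goodEval p S t x := rfl

/-- The Eisenstein ideal `(2, T_ℓ - 1 - ℓ : ℓ good)` of the good polynomial ring. -/
def eisIdeal : Ideal (GoodAlg p S) :=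
  Ideal.span (insert (MvPolynomial.C (2 : ℤ))
    (Set.range fun ℓ : GoodPrime p S =>
      MvPolynomial.X ℓ - MvPolynomial.C (((1 + (ℓ.1 : ℕ) : ℕ) : ℤ))))

/-- The generator `X_ℓ - (1 + ℓ)` of the Eisenstein ideal. -/
def etaGen (ℓ : GoodPrime p S) : GoodAlg p S :=
  MvPolynomial.X ℓ - MvPolynomial.C (((1 + (ℓ.1 : ℕ) : ℕ) : ℤ))

theorem etaGen_mem (ℓ : GoodPrime p S) : etaGen p S ℓ ∈ eisIdeal p S :=
  Ideal.subset_span (Set.mem_insert_of_mem _ ⟨ℓ, rfl⟩)

theorem two_mem_eisIdeal : (MvPolynomial.C (2 : ℤ) : GoodAlg p S) ∈ eisIdeal p S :=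
  Ideal.subset_span (Set.mem_insert _ _)

theorem goodEval_etaGen (ℓ : GoodPrime p S) : goodEval p S (etaGen p S ℓ) = eta p ℓ.1 := by
  rw [etaGen, map_sub, goodEval_X, goodEval_C, eta, zsmul_one]

theorem etaGen_pow_smul (ℓ : GoodPrime p S) (k : ℕ) (w : JZero p) :
    etaGen p S ℓ ^ k • w = (eta p ℓ.1 ^ k) w := by
  rw [good_smul_def, map_pow, goodEval_etaGen]

theorem C_two_smul (w : JZero p) : (MvPolynomial.C (2 : ℤ) : GoodAlg p S) • w = 2 • w := by
  rw [good_smul_def, goodEval_C, Module.End.intCast_apply]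
  exact natCast_zsmul w 2

/-- `J₀(p)[2^k]` of `Count2Alg` is the skeleton's `tors p (2^k)`. -/
theorem mem_tk_iff_mem_tors {k : ℕ} {x : JZero p} : x ∈ tk (JZero p) k ↔ x ∈ tors p (2 ^ k) :=
  mem_tk

theorem finite_tk_of_finite_tors (k : ℕ) [h : Finite ↥(tors p (2 ^ k))] :
    Finite ↥(tk (JZero p) k) :=
  Finite.of_injective
    (fun x : ↥(tk (JZero p) k) => (⟨x, (mem_tk_iff_mem_tors p).mp x.2⟩ : ↥(tors p (2 ^ k))))
    (fun a b hab => Subtype.ext (congrArg (fun e : ↥(tors p (2 ^ k)) => (e : JZero p)) hab))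

/-- The primary part at the Eisenstein ideal consists of Eisenstein classes. -/
theorem isEis_of_mem_primaryPart {w : JZero p} (hw : w ∈ primaryPart (eisIdeal p S) (JZero p)) :
    IsEis p S w := by
  intro ℓ h1 h2
  obtain ⟨k, hk⟩ := hw
  refine ⟨k, ?_⟩
  have := hk (etaGen p S ⟨ℓ, h1, h2⟩ ^ k) (Ideal.pow_mem_pow (etaGen_mem p S ⟨ℓ, h1, h2⟩) k)
  rwa [etaGen_pow_smul] at this

/-- A `2`-torsion Eisenstein class lies in the primary part at the Eisenstein ideal. -/
theorem mem_primaryPart_of_isEis [Finite ↥(tors p (2 ^ 1))] {w : JZero p} (h2 : 2 • w = 0)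
    (hw : IsEis p S w) : w ∈ primaryPart (eisIdeal p S) (JZero p) := by
  have hfin1 : Finite ↥(tk (JZero p) 1) := finite_tk_of_finite_tors p 1
  have hfin : Finite ↥(tkSub (T := GoodAlg p S) (JZero p) 1) :=
    Finite.of_injective
      (fun x : tkSub (T := GoodAlg p S) (JZero p) 1 => (⟨x, mem_tkSub_iff.mp x.2⟩ :
        ↥(tk (JZero p) 1)))
      (fun a b h => Subtype.ext (congrArg (fun e : ↥(tk (JZero p) 1) => (e : JZero p)) h))
  obtain ⟨K, f, hs⟩ := exists_isSplit (eisIdeal p S) (tkSub (T := GoodAlg p S) (JZero p) 1)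
  have hwt : w ∈ tkSub (T := GoodAlg p S) (JZero p) 1 := by
    rw [mem_tkSub, pow_one]; exact h2
  -- the Eisenstein ideal lies in the radical of the annihilator of `w`
  have hrad : eisIdeal p S ≤ (Ideal.torsionOf (GoodAlg p S) (JZero p) w).radical := by
    refine Ideal.span_le.mpr ?_
    rintro g (rfl | ⟨ℓ, rfl⟩)
    · refine Ideal.le_radical ?_
      rw [Ideal.mem_torsionOf_iff, C_two_smul, h2]
    · obtain ⟨k, hk⟩ := hw ℓ.1 ℓ.2.1 ℓ.2.2
      refine ⟨k, ?_⟩
      rw [Ideal.mem_torsionOf_iff]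
      exact (etaGen_pow_smul p S ℓ k w).trans hk
  have hf : f ∈ eisIdeal p S := by
    have := hs.pow_mem 1
    simpa using this
  obtain ⟨n, hn⟩ := hrad hf
  rw [Ideal.mem_torsionOf_iff] at hn
  have hfw : f • (⟨w, hwt⟩ : tkSub (T := GoodAlg p S) (JZero p) 1) = 0 := by
    rcases Nat.eq_zero_or_pos n with rfl | hnpos
    · rw [pow_zero, one_smul] at hn
      subst hn
      exact Subtype.ext (smul_zero f)
    · rw [← hs.pow_smul _ n hnpos]
      exact Subtype.ext hn
  have := (hs.mem_primaryPart_iff _).mpr hfw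
  rwa [coe_mem_primaryPart_iff] at this

/-- **The bridge**: the skeleton's `W_E = eis p S 2` is the `2`-torsion of the primary part of
`J₀(p)(ℚ̄)` at the Eisenstein ideal. -/
theorem mem_eis_iff_mem_primaryPart [Finite ↥(tors p (2 ^ 1))] {w : JZero p} :
    w ∈ H975.eis p S 2 ↔ w ∈ H111.eis (eisIdeal p S) (JZero p) ⊓ tk (JZero p) 1 := by
  rw [AddSubgroup.mem_inf, mem_tk, pow_one]
  constructor
  · rintro ⟨h2, hE⟩
    exact ⟨mem_primaryPart_of_isEis p S h2 hE, h2⟩
  · rintro ⟨hE, h2⟩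
    exact ⟨h2, isEis_of_mem_primaryPart p S hE⟩

/-- The complex conjugation as a Hecke-linear endomorphism of `J₀(p)(ℚ̄)`. -/
def ccLin : JZero p →ₗ[GoodAlg p S] JZero p where
  toFun x := complexConjugation • x
  map_add' x y := smul_add _ x y
  map_smul' t x := by
    show complexConjugation • (goodEval p S t x) = goodEval p S t (complexConjugation • x)
    exact (goodEval_galois p S t complexConjugation x).symm

theorem ccLin_apply (x : JZero p) : ccLin p S x = complexConjugation • x := rfl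

theorem ccLin_ccLin (x : JZero p) : ccLin p S (ccLin p S x) = x := by
  rw [ccLin_apply, ccLin_apply, smul_smul, complexConjugation_mul_self, one_smul]

theorem smul_mem_tk (t : GoodAlg p S) {k : ℕ} {x : JZero p} (hx : x ∈ tk (JZero p) k) :
    t • x ∈ tk (JZero p) k := by
  rw [mem_tk] at hx ⊢
  rw [smul_comm, hx, smul_zero]

/-- Self-adjointness for the generators gives self-adjointness for the whole polynomial ring. -/
theorem hecke_of_gens {k : ℕ} (B : JZero p → JZero p → ZMod (2 ^ k))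
    (hl : ∀ x ∈ tk (JZero p) k, ∀ x' ∈ tk (JZero p) k, ∀ y ∈ tk (JZero p) k,
      B (x + x') y = B x y + B x' y)
    (hr : ∀ x ∈ tk (JZero p) k, ∀ y ∈ tk (JZero p) k, ∀ y' ∈ tk (JZero p) k,
      B x (y + y') = B x y + B x y')
    (hgen : ∀ ℓ : GoodPrime p S, ∀ x ∈ tk (JZero p) k, ∀ y ∈ tk (JZero p) k,
      B (heckeOperatorBar p ℓ.1 x) y = B x (heckeOperatorBar p ℓ.1 y))
    (t : GoodAlg p S) : ∀ x ∈ tk (JZero p) k, ∀ y ∈ tk (JZero p) k, B (t • x) y = B x (t • y) := by
  -- additive maps in each variable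
  have hL : ∀ y ∈ tk (JZero p) k, ∃ φ : ↥(tk (JZero p) k) →+ ZMod (2 ^ k), ∀ x, φ x = B x y :=
    fun y hy => ⟨AddMonoidHom.mk' (fun x => B x y) (fun a b => hl a a.2 b b.2 y hy), fun _ => rfl⟩
  have hR : ∀ x ∈ tk (JZero p) k, ∃ φ : ↥(tk (JZero p) k) →+ ZMod (2 ^ k), ∀ y, φ y = B x y :=
    fun x hx => ⟨AddMonoidHom.mk' (fun y => B x y) (fun a b => hr x hx a a.2 b b.2), fun _ => rfl⟩
  induction t using MvPolynomial.induction_on with
  | C a =>
    intro x hx y hy
    have e1 : (MvPolynomial.C a : GoodAlg p S) • x = a • x := by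
      rw [good_smul_def, goodEval_C, Module.End.intCast_apply]
    have e2 : (MvPolynomial.C a : GoodAlg p S) • y = a • y := by
      rw [good_smul_def, goodEval_C, Module.End.intCast_apply]
    rw [e1, e2]
    obtain ⟨φ, hφ⟩ := hL y hy
    obtain ⟨ψ, hψ⟩ := hR x hx
    have h1 := hφ (a • ⟨x, hx⟩)
    have h2 := hψ (a • ⟨y, hy⟩)
    rw [map_zsmul, hφ] at h1
    rw [map_zsmul, hψ] at h2
    have c1 : ((a • (⟨x, hx⟩ : ↥(tk (JZero p) k)) : ↥(tk (JZero p) k)) : JZero p) = a • x := rfl
    have c2 : ((a • (⟨y, hy⟩ : ↥(tk (JZero p) k)) : ↥(tk (JZero p) k)) : JZero p) = a • y := rfl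
    rw [c1] at h1
    rw [c2] at h2
    rw [← h1, ← h2]
  | add u v hu hv =>
    intro x hx y hy
    rw [add_smul, add_smul, hl _ (smul_mem_tk p S u hx) _ (smul_mem_tk p S v hx) y hy,
      hr x hx _ (smul_mem_tk p S u hy) _ (smul_mem_tk p S v hy), hu x hx y hy, hv x hx y hy]
  | mul_X u ℓ hu =>
    intro x hx y hy
    have eX : ∀ z : JZero p, (MvPolynomial.X ℓ : GoodAlg p S) • z = heckeOperatorBar p ℓ.1 z :=
      fun z => by rw [good_smul_def, goodEval_X]
    have hXx : heckeOperatorBar p ℓ.1 x ∈ tk (JZero p) k := by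
      rw [← eX]; exact smul_mem_tk p S _ hx
    rw [mul_smul, eX, hu _ hXx y hy, hgen ℓ x hx _ (smul_mem_tk p S u hy), ← eX, ← mul_smul,
      mul_comm]

end Good

/-- **LOC-R2 at the real place from DIV, FIN and PAIR.** -/
theorem locR2Real_of_pair (hDiv : DivStatement) (hFin : FinStatement) (hPair : Pair2Statement) :
    LocR2RealStatement := by
  intro p _ hp hp2 S h2S
  letI : Module (GoodAlg p (S : Set ℕ)) (JZero p) := goodModule p (S : Set ℕ)
  have hfinT : ∀ k, Finite ↥(tors p (2 ^ k)) := fun k => hFin p (2 ^ k) (by positivity)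
  have hfin : ∀ k, Finite ↥(tk (JZero p) k) := fun k =>
    haveI := hfinT k
    finite_tk_of_finite_tors p k
  haveI := hfinT 1
  haveI := hfin 2
  have hdiv : ∀ x : JZero p, ∃ y : JZero p, 2 • y = x := hDiv p hp 2 Nat.prime_two
  have hc := ccLin_ccLin p (S : Set ℕ)
  have hpair : ∀ k, ∃ B : JZero p → JZero p → ZMod (2 ^ k),
      IsGoodPairing (GoodAlg p (S : Set ℕ)) (ccLin p (S : Set ℕ)) k B := by
    intro k
    obtain ⟨B, h1, h2, h3, h4, h5⟩ := hPair p hp hp2 k
    have hl : ∀ x ∈ tk (JZero p) k, ∀ x' ∈ tk (JZero p) k, ∀ y ∈ tk (JZero p) k,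
        B (x + x') y = B x y + B x' y :=
      fun x hx x' hx' y hy => h1 x x' y (mem_tk.mp hx) (mem_tk.mp hx') (mem_tk.mp hy)
    have hr : ∀ x ∈ tk (JZero p) k, ∀ y ∈ tk (JZero p) k, ∀ y' ∈ tk (JZero p) k,
        B x (y + y') = B x y + B x y' :=
      fun x hx y hy y' hy' => h2 x y y' (mem_tk.mp hx) (mem_tk.mp hy) (mem_tk.mp hy')
    refine ⟨B, hl, hr, fun y hy h => h3 y (mem_tk.mp hy) fun x hx => h x (mem_tk.mpr hx), ?_,
      fun x hx y hy => h5 x y (mem_tk.mp hx) (mem_tk.mp hy)⟩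
    intro t
    refine hecke_of_gens p (S : Set ℕ) B hl hr (fun ℓ x hx y hy => ?_) t
    refine h4 ℓ.1 ℓ.2.1 (fun h => ℓ.2.2 ?_) x y (mem_tk.mp hx) (mem_tk.mp hy)
    rw [h]
    exact Finset.mem_coe.mpr h2S
  refine ⟨uoo (eisIdeal p (S : Set ℕ)) (ccLin p (S : Set ℕ)), ?_, ?_, ?_⟩
  · -- `U∞ ≤ W_E`
    intro v hv
    rw [mem_uoo] at hv
    obtain ⟨⟨z, hzE, -, rfl⟩, h2⟩ := hv
    refine (mem_eis_iff_mem_primaryPart p (S : Set ℕ)).mpr (AddSubgroup.mem_inf.mpr ⟨?_, ?_⟩)
    · exact (H111.eis (eisIdeal p (S : Set ℕ)) (JZero p)).sub_mem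
        (map_mem_eis (ccLin p (S : Set ℕ)) hzE) hzE
    · rw [mem_tk, pow_one]; exact h2
  · -- the count
    have hcard := card_uoo_sq_le (𝔪 := eisIdeal p (S : Set ℕ)) (ccLin p (S : Set ℕ)) hc hdiv hfin
      hpair
    have heq : H975.eis p (S : Set ℕ) 2 =
        H111.eis (eisIdeal p (S : Set ℕ)) (JZero p) ⊓ tk (JZero p) 1 :=
      AddSubgroup.ext fun w => mem_eis_iff_mem_primaryPart p (S : Set ℕ)
    rw [heq]
    exact hcard
  · -- LOC-∞
    rintro y ⟨hy1, hy2⟩
    have hyE : ccLin p (S : Set ℕ) y - y ∈ primaryPart (eisIdeal p (S : Set ℕ)) (JZero p) :=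
      ((mem_eis_iff_mem_primaryPart p (S : Set ℕ)).mp (hy2 complexConjugation)).1
    exact sub_mem_uoo (𝔪 := eisIdeal p (S : Set ℕ)) (ccLin p (S : Set ℕ)) hc hdiv y
      (hy1 complexConjugation) hyE

end Fermat.Agent.S15.H111

end

end
-- ===== PACK-END S15/H111/LocR2Real.lean

-- ===== PACK-BEGIN S30/H450/KumTower.lean
section
/-
S30 (p-adic version), helper450: the KUMMER TOWER from the pieces of S29 sub-layer M4b.

* `KumPackage N m` : the pieces of helper822's `M4b/Skeleton.lean` at the modulus `m`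
  (existence, uniqueness, injectivity, additivity, Hecke-equivariance of `M4b.IsKum N m`).
* `KumPackage.of_skeleton` : the package from statements in the EXACT shapes of the M4b skeleton
  (the Hecke piece is converted with the landed `HCoh` facts of helper149).
* `exists_kummerTower_of` : the conclusion of helper49's `SkeletonLat.exists_kummerTower`
  (maps `κ n` on characters mod `p ^ n`, additive, injective, `p • κ (n+1) c = κ n (c mod p ^ n)`,
  Hecke-equivariant), from `KumPackage N (p ^ n)` for all `n`; the tower compatibility is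
  `isKum_red` of `KumCompat.lean`.
-/



set_option autoImplicit false

noncomputable section

open ModularCurve AlgebraicCurve CongruenceSubgroup UpperHalfPlane
open scoped MatrixGroups Manifold

namespace Fermat.Agent.S30.H450

open Fermat.Agent.S24 Fermat.Agent.S29 Fermat.Agent.S29.M4b

/-- The pieces of S29 sub-layer M4b at the modulus `m`. -/
structure KumPackage (N m : ℕ) [NeZero N] : Prop where
  ex : ∀ c : G0 N → ZMod m, IsParHom c → ∃ x : JZero N, IsKum N m c x
  uniq : ∀ (c : G0 N → ZMod m) (x x' : JZero N), IsKum N m c x → IsKum N m c x' → x = x'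
  inj : ∀ c : G0 N → ZMod m, IsKum N m c (0 : JZero N) → c = 0
  add : ∀ (c c' : G0 N → ZMod m) (x x' : JZero N),
    IsKum N m c x → IsKum N m c' x' → IsKum N m (c + c') (x + x')
  hecke : ∀ ℓ : Nat.Primes, ¬ (ℓ : ℕ) ∣ N * m → ∀ (c : G0 N → ZMod m) (x : JZero N),
    IsParHom c → IsKum N m c x → IsKum N m (heckeCoh N ℓ c) (heckeOperatorBar N ℓ x)

section Skeleton

variable {N : ℕ} [NeZero N]

omit [NeZero N] in
/-- The transfer of `c` is `heckeCoh N ℓ c` (for `ℓ ∤ N` prime; landed `HCoh`). -/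
theorem isTransfer_heckeCoh_h450 {ℓ : ℕ} (hℓ : ℓ.Prime) (hℓN : ¬ ℓ ∣ N) {A : Type*}
    [AddCommMonoid A] (c : G0 N → A) : IsTransfer N ℓ c (heckeCoh N ℓ c) := by
  intro γ π δ hfac
  unfold heckeCoh
  refine Finset.sum_congr rfl fun i _ => ?_
  rw [H149.HCoh_heckeFac_unique hℓ hℓN (hfac i)]

omit [NeZero N] in
/-- Existence of the Hecke factorisation with a permutation of the indices (landed `HCoh`). -/
theorem exists_perm_factor_h450 {ℓ : ℕ} (hℓ : ℓ.Prime) (hℓN : ¬ ℓ ∣ N) (γ : G0 N) :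
    ∃ (π : Equiv.Perm (Option (Fin ℓ))) (δ : Option (Fin ℓ) → G0 N),
      ∀ i, IsHeckeFactor ℓ γ i (π i, δ i) :=
  ⟨H149.HCoh_perm (H149.HCoh_isFactorSystem hℓ hℓN) γ, fun i => (heckeFac N ℓ γ i).2,
    fun i => H149.HCoh_heckeFac_spec hℓ hℓN γ i⟩

/-- The package at the modulus `m` from statements in the EXACT shapes of
`Fermat/Agent/S29/M4b/Skeleton.lean` (`isKum_exists`, `isKum_unique`, `isKum_zero_right`,
`isKum_add`, `isKum_hecke`). -/
theorem KumPackage.of_skeleton {m : ℕ}
    (hex : ∀ {c : G0 N → ZMod m}, IsParHom c → ∃ x : JZero N, IsKum N m c x)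
    (huniq : ∀ {c : G0 N → ZMod m} {x x' : JZero N}, IsKum N m c x → IsKum N m c x' → x = x')
    (hinj : ∀ {c : G0 N → ZMod m}, IsKum N m c (0 : JZero N) → c = 0)
    (hadd : ∀ {c c' : G0 N → ZMod m} {x x' : JZero N},
      IsKum N m c x → IsKum N m c' x' → IsKum N m (c + c') (x + x'))
    (hhecke : ∀ (ℓ : Nat.Primes), ¬ (ℓ : ℕ) ∣ N * m →
      (∀ γ : G0 N, ∃ (π : Equiv.Perm (Option (Fin (ℓ : ℕ)))) (δ : Option (Fin (ℓ : ℕ)) → G0 N),
        ∀ i, IsHeckeFactor (ℓ : ℕ) γ i (π i, δ i)) →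
      ∀ {c c' : G0 N → ZMod m}, IsParHom c → IsTransfer N (ℓ : ℕ) c c' →
      ∀ {x : JZero N}, IsKum N m c x → IsKum N m c' (heckeOperatorBar N ℓ x)) :
    KumPackage N m where
  ex _ hc := hex hc
  uniq _ _ _ h h' := huniq h h'
  inj _ h := hinj h
  add _ _ _ _ h h' := hadd h h'
  hecke ℓ hℓ c x hc h := by
    have hℓN : ¬ (ℓ : ℕ) ∣ N := fun hd => hℓ (Dvd.dvd.mul_right hd m)
    exact hhecke ℓ hℓ (exists_perm_factor_h450 ℓ.2 hℓN) hc
      (isTransfer_heckeCoh_h450 ℓ.2 hℓN c) h

end Skeleton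

section Tower

variable (N : ℕ) [NeZero N] (p : ℕ)

open Classical in
/-- The Kummer tower: `kumTower N p n c` is THE Kummer class of the character `c` mod `p ^ n`
(and `0` if there is none). -/
def kumTower (n : ℕ) (c : G0 N → ZMod (p ^ n)) : JZero N :=
  if h : ∃ x : JZero N, IsKum N (p ^ n) c x then h.choose else 0

variable {N p}

theorem isKum_kumTower (H : ∀ n, KumPackage N (p ^ n)) {n : ℕ} {c : G0 N → ZMod (p ^ n)}
    (hc : IsParHom c) : IsKum N (p ^ n) c (kumTower N p n c) := by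
  have h := (H n).ex c hc
  rw [kumTower, dif_pos h]
  exact h.choose_spec

theorem kumTower_eq (H : ∀ n, KumPackage N (p ^ n)) {n : ℕ} {c : G0 N → ZMod (p ^ n)}
    {x : JZero N} (h : IsKum N (p ^ n) c x) : kumTower N p n c = x := by
  have h' : ∃ x : JZero N, IsKum N (p ^ n) c x := ⟨x, h⟩
  rw [kumTower, dif_pos h']
  exact (H n).uniq c _ _ h'.choose_spec h

theorem not_dvd_mul_pow {ℓ : ℕ} (hℓ : ℓ.Prime) {N p : ℕ} (h : ¬ ℓ ∣ N * p) (n : ℕ) :
    ¬ ℓ ∣ N * p ^ n := by
  intro hd
  rcases (Nat.Prime.dvd_mul hℓ).1 hd with h1 | h1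
  · exact h (Dvd.dvd.mul_right h1 p)
  · exact h (Dvd.dvd.mul_left (hℓ.dvd_of_dvd_pow h1) N)

/-- **The Kummer tower** (conclusion of helper49's `SkeletonLat.exists_kummerTower`, with the
extra information that `κ n c` IS the Kummer class of `c`), from the M4b pieces at all moduli
`p ^ n`. -/
theorem exists_kummerTower_isKum_of [NeZero p] (H : ∀ n, KumPackage N (p ^ n)) :
    ∃ κ : (n : ℕ) → (G0 N → ZMod (p ^ n)) → JZero N,
      (∀ n c, IsParHom c → IsKum N (p ^ n) c (κ n c)) ∧
      (∀ n c c', IsParHom c → IsParHom c' → κ n (c + c') = κ n c + κ n c') ∧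
      (∀ n c, IsParHom c → κ n c = 0 → c = 0) ∧
      (∀ (n : ℕ) (c : G0 N → ZMod (p ^ (n + 1))), IsParHom c →
        (p : ℤ) • κ (n + 1) c =
          κ n (fun γ => ZMod.castHom (pow_dvd_pow p (Nat.le_succ n)) (ZMod (p ^ n)) (c γ))) ∧
      (∀ ℓ : Nat.Primes, ¬ (ℓ : ℕ) ∣ N * p → ∀ n c, IsParHom c →
        κ n (heckeCoh N ℓ c) = heckeOperatorBar N ℓ (κ n c)) := by
  refine ⟨kumTower N p, fun n c hc => isKum_kumTower H hc, fun n c c' hc hc' => ?_,
    fun n c hc h0 => ?_, fun n c hc => ?_, fun ℓ hℓ n c hc => ?_⟩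
  · exact kumTower_eq H ((H n).add c c' _ _ (isKum_kumTower H hc) (isKum_kumTower H hc'))
  · have h := isKum_kumTower H hc
    rw [h0] at h
    exact (H n).inj c h
  · have h := isKum_kumTower H hc
    have h1 := isKum_red' (m := p ^ n) (d := p) (pow_succ p n)
      (pow_dvd_pow p (Nat.le_succ n)) h
    rw [natCast_zsmul]
    exact (kumTower_eq H h1).symm
  · exact kumTower_eq H ((H n).hecke ℓ (not_dvd_mul_pow ℓ.2 hℓ n) c _ hc (isKum_kumTower H hc))

/-- **The Kummer tower**, EXACT conclusion of helper49's `SkeletonLat.exists_kummerTower`. -/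
theorem exists_kummerTower_of [NeZero p] (H : ∀ n, KumPackage N (p ^ n)) :
    ∃ κ : (n : ℕ) → (G0 N → ZMod (p ^ n)) → JZero N,
      (∀ n c c', IsParHom c → IsParHom c' → κ n (c + c') = κ n c + κ n c') ∧
      (∀ n c, IsParHom c → κ n c = 0 → c = 0) ∧
      (∀ (n : ℕ) (c : G0 N → ZMod (p ^ (n + 1))), IsParHom c →
        (p : ℤ) • κ (n + 1) c =
          κ n (fun γ => ZMod.castHom (pow_dvd_pow p (Nat.le_succ n)) (ZMod (p ^ n)) (c γ))) ∧
      (∀ ℓ : Nat.Primes, ¬ (ℓ : ℕ) ∣ N * p → ∀ n c, IsParHom c →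
        κ n (heckeCoh N ℓ c) = heckeOperatorBar N ℓ (κ n c)) := by
  obtain ⟨κ, -, h1, h2, h3, h4⟩ := exists_kummerTower_isKum_of H
  exact ⟨κ, h1, h2, h3, h4⟩

end Tower

end Fermat.Agent.S30.H450

end
end
-- ===== PACK-END S30/H450/KumTower.lean

-- ===== PACK-BEGIN S29/M4b/K3/Basic.lean
section
/-
S29 row, M4b, piece K3 — basic lemmas for the top assembly (helper42).

* `isMerInf_of_isTwisted` : a twisted function of a parabolic character has a `q`-expansion at `i∞`.
* `exists_div_AK`, `exists_div_goodQ` : elements of the function fields over `ℚ̄` / `ℂ` are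
  quotients of polynomials in the `j(q^d)` / of `q`-expansions of good functions.
* `hasChar_of_mul_eq` : transport of the character along `U' * B = ζ * U * A`.
-/



set_option autoImplicit false

noncomputable section

open ModularCurve AlgebraicCurve CongruenceSubgroup UpperHalfPlane
open scoped MatrixGroups Manifold

namespace Fermat.Agent.S29.M4b.K3

open Fermat.Agent.S24 Fermat.Agent.S24.H648 Fermat.Agent.S24.H708 Fermat.Agent.S24.Deg457
open Fermat.Agent.S24.H624
open Fermat.Agent.S29 Fermat.Agent.S29.M4b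

variable {N : ℕ} [NeZero N] {p : ℕ} [NeZero p]

/-- The translation `T` as an element of `Γ₀(N)`. -/
def TG (N : ℕ) : G0 N := ⟨ModularGroup.T, H882.T_mem_Gamma0 N⟩

omit [NeZero N] in
theorem trace_TG : (TG N).mat.trace = 2 := by
  simp [TG, G0.mat, ModularGroup.T, Matrix.trace_fin_two]

omit [NeZero N] [NeZero p] in
/-- A twisted function of a parabolic character is `1`-periodic. -/
theorem periodic_of_isTwisted {c : G0 N → ZMod p} (hc : IsParHom c) {U : ℍ → ℂ}
    (hU : HasChar N p c U) : Function.Periodic (U ∘ ofComplex) (1 : ℝ) := by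
  have hT : ∀ τ : ℍ, U (ModularGroup.T • τ) = U τ := by
    intro τ
    have h := hU (TG N) τ
    rw [hc.parabolic (TG N) (Or.inl trace_TG)] at h
    simpa [TG] using h
  intro w
  by_cases hw : 0 < Complex.im w
  · have hw' : 0 < Complex.im (w + ((1 : ℝ) : ℂ)) := by simpa using hw
    simp only [Function.comp_apply, ofComplex_apply_of_im_pos hw', ofComplex_apply_of_im_pos hw]
    rw [← hT ⟨w, hw⟩]
    congr 1
    apply UpperHalfPlane.ext
    rw [UpperHalfPlane.modular_T_smul, UpperHalfPlane.coe_vadd]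
    simp [add_comm]
  · have hw0 : Complex.im w ≤ 0 := not_lt.mp hw
    have hw' : Complex.im (w + ((1 : ℝ) : ℂ)) ≤ 0 := by simpa using hw0
    simp only [Function.comp_apply]
    rw [ofComplex_apply_of_im_nonpos hw', ofComplex_apply_of_im_nonpos hw0]

omit [NeZero N] in
/-- If `U ^ p` has at most exponential growth, so has `U`. -/
theorem expGrowth_of_pow {U : ℍ → ℂ} (h : ExpGrowth (fun τ => U τ ^ p)) : ExpGrowth U := by
  obtain ⟨C, m, hC⟩ := h
  refine ⟨1 + |C|, m, fun τ hτ => ?_⟩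
  have h1 := hC τ hτ
  rw [norm_pow] at h1
  have hp : p ≠ 0 := NeZero.ne p
  have hexp : (1 : ℝ) ≤ Real.exp (2 * Real.pi * m * τ.im) := by
    apply Real.one_le_exp
    have := Real.pi_pos
    have := τ.im_pos
    positivity
  by_cases hle : ‖U τ‖ ≤ 1
  · calc ‖U τ‖ ≤ 1 := hle
      _ ≤ (1 + |C|) * 1 := by have := abs_nonneg C; linarith
      _ ≤ (1 + |C|) * Real.exp (2 * Real.pi * m * τ.im) := by
          apply mul_le_mul_of_nonneg_left hexp
          have := abs_nonneg C; linarith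
  · have hgt : 1 ≤ ‖U τ‖ := (not_le.mp hle).le
    have h2 : ‖U τ‖ ≤ ‖U τ‖ ^ p := le_self_pow₀ hgt hp
    calc ‖U τ‖ ≤ ‖U τ‖ ^ p := h2
      _ ≤ C * Real.exp (2 * Real.pi * m * τ.im) := h1
      _ ≤ (1 + |C|) * Real.exp (2 * Real.pi * m * τ.im) := by
          apply mul_le_mul_of_nonneg_right _ (Real.exp_pos _).le
          have := le_abs_self C; linarith

omit [NeZero N] in
/-- **K3a**: a twisted function of a parabolic character is meromorphic at `i∞` in `q`. -/
theorem isMerInf_of_isTwisted {c : G0 N → ZMod p} (hc : IsParHom c) {U : ℍ → ℂ}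
    (hU : IsTwisted N p c U) : IsMerInf 1 U := by
  refine ⟨hU.mdiff, ?_, ?_⟩
  · have := periodic_of_isTwisted hc hU.hasChar
    simpa using this
  · obtain ⟨-, -, h3⟩ := hU.pow_mem
    have h := h3 1
    simp only [one_smul] at h
    exact H882.isBounded_mul_qh_pow_of_expGrowth (expGrowth_of_pow h)

/-! ### Quotient presentations -/

section Quot

variable (K : Type*) [Field K] [Algebra ℚ K]

omit [NeZero N] in
/-- The polynomials in the `j(q^d)` lie in the function field. -/
theorem AK_le_laurentBaseChange (N : ℕ) :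
    AK K N ≤ (laurentBaseChange K (modularFunctionFieldFull N)).toSubalgebra := by
  refine Algebra.adjoin_le ?_
  rintro _ ⟨y, hy, rfl⟩
  exact coeffEmb_mem_laurentBaseChange K (IntermediateField.subset_adjoin ℚ _ hy)

omit [NeZero N] in
/-- Every element of the function field is a quotient of two polynomials in the `j(q^d)`. -/
theorem exists_div_AK (N : ℕ) {x : LaurentSeries K}
    (hx : x ∈ laurentBaseChange K (modularFunctionFieldFull N)) :
    ∃ r ∈ AK K N, ∃ s ∈ AK K N, s ≠ 0 ∧ x = r / s := by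
  have h := laurentBaseChange_full_le (K := K) N hx
  rw [IntermediateField.mem_adjoin_iff_div] at h
  obtain ⟨r, hr, s, hs, rfl⟩ := h
  by_cases hs0 : s = 0
  · refine ⟨0, zero_mem _, 1, one_mem _, one_ne_zero, ?_⟩
    rw [hs0, div_zero, zero_div]
  · exact ⟨r, hr, s, hs, hs0, rfl⟩

end Quot

/-- Every element of `F_ℂ` is a quotient of `q`-expansions of good functions. -/
theorem exists_div_goodQ {x : LaurentSeries ℂ} (hx : x ∈ FC N) :
    ∃ a ∈ H882.goodQ N, ∃ b ∈ H882.goodQ N, b ≠ 0 ∧ x = a / b := by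
  obtain ⟨r, hr, s, hs, hs0, h⟩ := exists_div_AK ℂ N hx
  exact ⟨r, H882.AK_le_goodQ N hr, s, H882.AK_le_goodQ N hs, hs0, h⟩

/-! ### Transport of the character -/

omit [NeZero N] [NeZero p] in
/-- If `U' * B = ζ * (U * A)` with `A`, `B` invariant under `Γ₀(N)`, `B ≠ 0`, all functions
holomorphic, and `U` has character `c`, then `U'` has character `c`. -/
theorem hasChar_of_mul_eq {c : G0 N → ZMod p} {U U' A B : ℍ → ℂ} (ζ : ℂ)
    (hU' : MDifferentiable 𝓘(ℂ) 𝓘(ℂ) U') (hB : MDifferentiable 𝓘(ℂ) 𝓘(ℂ) B) (hB0 : B ≠ 0)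
    (hAinv : ∀ γ ∈ Gamma0 N, ∀ τ : ℍ, A (γ • τ) = A τ)
    (hBinv : ∀ γ ∈ Gamma0 N, ∀ τ : ℍ, B (γ • τ) = B τ)
    (hU : HasChar N p c U) (h : ∀ τ, U' τ * B τ = ζ * (U τ * A τ)) : HasChar N p c U' := by
  intro γ τ₀
  -- the holomorphic function `D τ = U' (γ τ) - χ U' τ`
  set χ : ℂ := zetaP p ^ (c γ).val with hχ
  set D : ℍ → ℂ := fun τ => U' ((γ : SL(2, ℤ)) • τ) - χ * U' τ with hD
  have hDm : MDifferentiable 𝓘(ℂ) 𝓘(ℂ) D := by
    have h1 : MDifferentiable 𝓘(ℂ) 𝓘(ℂ) (fun τ : ℍ => U' ((γ : SL(2, ℤ)) • τ)) :=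
      (precompSL (γ : SL(2, ℤ)) ⟨U', hU'⟩).2
    have h2 : MDifferentiable 𝓘(ℂ) 𝓘(ℂ) (fun τ : ℍ => χ * U' τ) :=
      (mdifferentiable_const (c := χ)).mul hU'
    exact h1.sub h2
  have hDB : D * B = 0 := by
    funext τ
    simp only [Pi.mul_apply, Pi.zero_apply, hD]
    have e1 := h ((γ : SL(2, ℤ)) • τ)
    rw [hBinv _ γ.2 τ, hAinv _ γ.2 τ, hU γ τ] at e1
    have e2 := h τ
    calc (U' ((γ : SL(2, ℤ)) • τ) - χ * U' τ) * B τ
        = U' ((γ : SL(2, ℤ)) • τ) * B τ - χ * (U' τ * B τ) := by ring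
      _ = ζ * (zetaP p ^ (c γ).val * U τ * A τ) - χ * (ζ * (U τ * A τ)) := by rw [e1, e2]
      _ = 0 := by rw [hχ]; ring
  rcases mul_eq_zero_of_mdiff hDm hB hDB with h0 | h0
  · have := congrFun h0 τ₀
    simp only [hD, Pi.zero_apply] at this
    exact sub_eq_zero.mp this
  · exact absurd h0 hB0

end Fermat.Agent.S29.M4b.K3

end
end
-- ===== PACK-END S29/M4b/K3/Basic.lean

-- ===== PACK-BEGIN S29/M4b/K3/Top.lean
section
/-
S29 row, LAYER M, SUB-LAYER M4b, PIECE K3 (descent `ℂ → ℚ̄`) — TOP ASSEMBLY (helper42).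

`exists_realised_isTwisted_of` = the EXACT statement of piece `K3` of helper822's
`M4b/Skeleton.lean` (`exists_realised_isTwisted`), PROVED from
* `DegStatement N`   (sub-piece K3-DEG),
* `FinStatement N p` (sub-piece K3-FIN),
* `H152.desc_main` (helper152, places-free descent), ROOT `H751`, MERO `H882`.

Proof.  `f = qexp (U^p) ∈ F_ℂ` (MERO), `h = qexp U`, `h^p = f`.  By `desc_main` there are
`g ∈ F_ℂˣ`, `f' ∈ FF N` with `f g^p = ι f'`.  Write `f' = r / s` with `r, s` polynomials in the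
`j(q^d)` over `ℚ̄`; `u := r s^(p-1) = f' s^p` is realised by a good function `G'`
(`AK ⊆ goodQ`).  Write `g ι(s) = a / b` with `a = qexp A`, `b = qexp B`, `A B` good.  Then
`G' B^p = (U A)^p`, so all orders of `G'` are divisible by `p`, `G' = U'^p` (ROOT), and
`U' B = ζ U A`, whence `U'` has the character of `U`.
-/




set_option autoImplicit false
set_option linter.style.haveILetI false

noncomputable section

open ModularCurve AlgebraicCurve CongruenceSubgroup UpperHalfPlane
open scoped MatrixGroups Manifold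

namespace Fermat.Agent.S29.M4b.K3

open Fermat.Agent.S24 Fermat.Agent.S24.H648 Fermat.Agent.S24.H708 Fermat.Agent.S24.Deg457
open Fermat.Agent.S24.H624
open Fermat.Agent.S29 Fermat.Agent.S29.M4b

theorem order_jq : jq.order = -1 := by
  have hne : jq ≠ 0 := by
    intro h
    have h1 := coeff_jq_neg_one
    rw [h, HahnSeries.coeff_zero] at h1
    exact zero_ne_one h1
  refine le_antisymm (HahnSeries.order_le_of_coeff_ne_zero ?_) ?_
  · rw [coeff_jq_neg_one]
    exact one_ne_zero
  · by_contra hlt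
    rw [not_le] at hlt
    refine HahnSeries.coeff_order_eq_zero.not.mpr hne ?_
    exact coeff_jq_of_lt hlt

/-- ROOT with divisibility read off from an identity `G * B ^ p = V ^ p`. -/
theorem exists_root_of_mul_pow_eq {p : ℕ} (hp : p ≠ 0) {G B V : ℍ → ℂ}
    (hG : MDifferentiable 𝓘(ℂ) 𝓘(ℂ) G) (hB : MDifferentiable 𝓘(ℂ) 𝓘(ℂ) B)
    (hV : MDifferentiable 𝓘(ℂ) 𝓘(ℂ) V) (hB0 : B ≠ 0) (hV0 : V ≠ 0)
    (h : ∀ τ, G τ * B τ ^ p = V τ ^ p) :
    ∃ U' : ℍ → ℂ, MDifferentiable 𝓘(ℂ) 𝓘(ℂ) U' ∧ ∀ τ : ℍ, U' τ ^ p = G τ := by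
  refine H751.exists_pow_eq_UHP hG p hp fun τ => ?_
  have hfun : G * B ^ p = V ^ p := funext h
  have h1 : ordAt τ (G * B ^ p) = ordAt τ G + p • ordAt τ B := by
    rw [ordAt_mul hG (hB.pow p)]
    congr 1
    rw [ordAt_def, ordAt_def]
    have : (B ^ p) ∘ ofComplex = (B ∘ ofComplex) ^ p := rfl
    rw [this, analyticOrderAt_pow (analyticAt_of_mdiff hB τ)]
  have h2 : ordAt τ (V ^ p) = p • ordAt τ V := by
    rw [ordAt_def, ordAt_def]
    have : (V ^ p) ∘ ofComplex = (V ∘ ofComplex) ^ p := rfl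
    rw [this, analyticOrderAt_pow (analyticAt_of_mdiff hV τ)]
  rw [hfun, h2] at h1
  obtain ⟨b, hb⟩ := ENat.ne_top_iff_exists.mp (ordAt_ne_top hB hB0 τ)
  obtain ⟨v, hv⟩ := ENat.ne_top_iff_exists.mp (ordAt_ne_top hV hV0 τ)
  have hGne : ordAt τ G ≠ ⊤ := by
    intro htop
    rw [htop, top_add, ← hv] at h1
    have h4 : ((p * v : ℕ) : ℕ∞) = ⊤ := by
      rw [← h1]; push_cast; simp [nsmul_eq_mul]
    exact ENat.natCast_ne_top _ h4
  obtain ⟨g, hg⟩ := ENat.ne_top_iff_exists.mp hGne
  rw [← hb, ← hv, ← hg] at h1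
  have h3 : p * v = g + p * b := by
    have : ((p * v : ℕ) : ℕ∞) = ((g + p * b : ℕ) : ℕ∞) := by
      push_cast
      simpa [nsmul_eq_mul] using h1
    exact_mod_cast this
  refine ⟨v - b, ?_⟩
  rw [← ordAt_def, ← hg]
  have hbv : b ≤ v := by
    by_contra hlt
    rw [not_le] at hlt
    have : p * v < p * b := Nat.mul_lt_mul_of_pos_left hlt (Nat.pos_of_ne_zero hp)
    omega
  have : g = p * (v - b) := by
    rw [Nat.mul_sub]
    omega
  rw [this]

/-- **PIECE K3** (exact statement of `exists_realised_isTwisted` in `M4b/Skeleton.lean`), from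
the sub-pieces `K3-DEG` and `K3-FIN`. -/
theorem exists_realised_isTwisted_of (N : ℕ) [NeZero N] (p : ℕ) [NeZero p]
    (hdeg : DegStatement N) (hfin : FinStatement N p)
    {c : G0 N → ZMod p} (hc : IsParHom c) {U : ℍ → ℂ} (hU : IsTwisted N p c U) :
    ∃ (U' : ℍ → ℂ) (u : FF N), IsTwisted N p c U' ∧ Realises N u (fun τ => U' τ ^ p) := by
  classical
  letI : Algebra Kbar ℂ := algKC
  have hp : p ≠ 0 := NeZero.ne p
  -- `q`-expansions of `U` and `U ^ p`
  have hqU : HasQExp 1 U (qexpFun 1 U) := HasQExp.of_isMerInf (isMerInf_of_isTwisted hc hU)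
  have hqG : HasQExp 1 (fun τ => U τ ^ p) (qexpFun 1 U ^ p) := hqU.pow p
  have hfFC : qexpFun 1 (fun τ => U τ ^ p) ∈ FC N := H882.qexpFun_mem_FC hU.pow_mem
  have hUne : U ≠ 0 := by
    obtain ⟨τ, hτ⟩ := hU.ne_zero
    intro h0
    exact hτ (by rw [h0]; rfl)
  have hGne : (fun τ => U τ ^ p) ≠ 0 := by
    obtain ⟨τ, hτ⟩ := hU.ne_zero
    intro h0
    exact pow_ne_zero p hτ (congrFun h0 τ)
  have hf0 : qexpFun 1 (fun τ => U τ ^ p) ≠ 0 := by
    rw [hqG.qexpFun_eq]
    exact fun h0 => hGne (hqG.eq_zero_iff.mp h0)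
  -- descent
  obtain ⟨n, hn⟩ := hdeg
  obtain ⟨T, hT, horb⟩ := hfin c hc U hU
  obtain ⟨g, hgF, hg0, -, -, -, f', hf', hfg⟩ := H152.desc_main (K := Kbar) (Ω := ℂ)
    (modularFunctionFieldFull N) jq (modularFunctionField_le_full N (jq_mem N)) order_jq n hn
    p (Nat.pos_of_ne_zero hp) (qexpFun 1 (fun τ => U τ ^ p)) (qexpFun 1 U) hfFC hf0
    hqG.qexpFun_eq.symm T hT horb
  -- clear the denominator of `f'` by a `p`-th power
  obtain ⟨r, hr, s, hs, hs0, hrs⟩ := exists_div_AK Kbar N hf'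
  have hιinj : Function.Injective (coeffMap iotaC) := by
    intro x y hxy
    ext k
    have := congrArg (fun z : LaurentSeries ℂ => z.coeff k) hxy
    simp only [coeffMap_coeff] at this
    exact iotaC.injective this
  have hιs0 : coeffMap iotaC s ≠ 0 := fun h0 => hs0 (hιinj (by rw [h0, map_zero]))
  set u₀ : LaurentSeries Kbar := r * s ^ (p - 1) with hu₀
  have hu₀AK : u₀ ∈ AK Kbar N := mul_mem hr (pow_mem hs _)
  have hu₀F : u₀ ∈ modularFunctionFieldBar N := AK_le_laurentBaseChange Kbar N hu₀AK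
  have hu₀eq : u₀ = f' * s ^ p := by
    rw [hu₀, hrs]
    have : s ^ p = s ^ (p - 1) * s := by
      rw [← pow_succ, Nat.sub_add_cancel (Nat.pos_of_ne_zero hp)]
    rw [this]
    field_simp
  -- `ι u₀ = f * φ ^ p` with `φ = g * ι s ∈ F_ℂ`
  set φ : LaurentSeries ℂ := g * coeffMap iotaC s with hφ
  have hφF : φ ∈ FC N :=
    mul_mem hgF (AK_le_laurentBaseChange ℂ N (coeffMap_mem_AK iotaC hs))
  have hφ0 : φ ≠ 0 := mul_ne_zero hg0 hιs0
  have hιu : coeffMap iotaC u₀ = qexpFun 1 (fun τ => U τ ^ p) * φ ^ p := by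
    rw [hu₀eq, map_mul, map_pow, hφ, mul_pow, ← mul_assoc, hfg]
    rfl
  -- the good function realising `u₀`
  obtain ⟨G', hG'good, hG'q⟩ := H882.AK_le_goodQ N (coeffMap_mem_AK iotaC hu₀AK)
  -- `φ = a / b`, quotient of `q`-expansions of good functions
  obtain ⟨a, ⟨A, hAgood, hAq⟩, b, ⟨B, hBgood, hBq⟩, hb0, hab⟩ := exists_div_goodQ hφF
  have ha0 : a ≠ 0 := by
    rintro rfl
    rw [zero_div] at hab
    exact hφ0 hab
  have hA0 : A ≠ 0 := fun h0 => ha0 (hAq.eq_zero_iff.mpr h0)
  have hB0 : B ≠ 0 := fun h0 => hb0 (hBq.eq_zero_iff.mpr h0)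
  -- `G' * B ^ p = (U * A) ^ p`
  have hser : coeffMap iotaC u₀ * b ^ p = (qexpFun 1 U * a) ^ p := by
    rw [hιu, hab, mul_pow, hqG.qexpFun_eq, mul_assoc, div_pow,
      div_mul_cancel₀ _ (pow_ne_zero p hb0)]
  have hfunc : G' * B ^ p = (U * A) ^ p :=
    HasQExp.eq_of_eq (hser ▸ hG'q.mul (hBq.pow p)) ((hqU.mul hAq).pow p)
  have hpt : ∀ τ, G' τ * B τ ^ p = (U * A) τ ^ p := fun τ => congrFun hfunc τ
  have hG'm : MDifferentiable 𝓘(ℂ) 𝓘(ℂ) G' := hG'good.1
  have hAm : MDifferentiable 𝓘(ℂ) 𝓘(ℂ) A := hAgood.1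
  have hBm : MDifferentiable 𝓘(ℂ) 𝓘(ℂ) B := hBgood.1
  have hUAm : MDifferentiable 𝓘(ℂ) 𝓘(ℂ) (U * A) := hU.mdiff.mul hAm
  have hUA0 : U * A ≠ 0 := by
    intro h0
    rcases mul_eq_zero_of_mdiff hU.mdiff hAm h0 with h1 | h1
    · exact hUne h1
    · exact hA0 h1
  -- the root
  obtain ⟨U', hU'm, hU'p⟩ := exists_root_of_mul_pow_eq hp hG'm hBm hUAm hB0 hUA0 hpt
  -- `U' * B = ζ * (U * A)`
  obtain ⟨τ₀, hτ₀⟩ : ∃ τ₀, (U * A) τ₀ ≠ 0 := by
    by_contra hcon
    push Not at hcon
    exact hUA0 (funext hcon)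
  have hpow : ∀ τ, (U' τ * B τ) ^ p = (U * A) τ ^ p := fun τ => by
    rw [mul_pow, hU'p, hpt]
  set ζ : ℂ := U' τ₀ * B τ₀ / (U * A) τ₀ with hζ
  have hζp : ζ ^ p = 1 := by
    rw [hζ, div_pow, hpow, div_self (pow_ne_zero p hτ₀)]
  have hζ0 : ζ ≠ 0 := fun h0 => by
    rw [h0, zero_pow hp] at hζp
    exact zero_ne_one hζp
  have hmul : (fun τ => U' τ * B τ) = fun τ => ζ * (U * A) τ := by
    refine H751.eq_of_pow_eq_UHP (hU'm.mul hBm) ((mdifferentiable_const (c := ζ)).mul hUAm) hp
      (fun τ => ?_) (τ₀ := τ₀) ?_ ?_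
    · rw [hpow, mul_pow, hζp, one_mul]
    · rw [hζ]
      field_simp
    · intro h0
      have h1 := hpow τ₀
      rw [h0, zero_pow hp] at h1
      exact pow_ne_zero p hτ₀ h1.symm
  have hchar : HasChar N p c U' :=
    hasChar_of_mul_eq ζ hU'm hBm hB0 hAgood.2.1 hBgood.2.1 hU.hasChar
      (fun τ => congrFun hmul τ)
  have hG'eq : (fun τ => U' τ ^ p) = G' := funext hU'p
  have hG'0 : G' ≠ 0 := by
    intro h0
    have := hpt τ₀
    rw [h0] at this
    simp only [Pi.zero_apply, zero_mul] at this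
    exact pow_ne_zero p hτ₀ this.symm
  refine ⟨U', ⟨u₀, hu₀F⟩, ⟨hU'm, ?_, hchar, ?_⟩, ?_, ?_⟩
  · by_contra hcon
    push Not at hcon
    apply hG'0
    funext τ
    rw [← hU'p, hcon, zero_pow hp]
    rfl
  · rw [hG'eq]; exact hG'good
  · rw [hG'eq]; exact hG'good
  · rw [hG'eq]; exact hG'q.qexpFun_eq

end Fermat.Agent.S29.M4b.K3

end
end
-- ===== PACK-END S29/M4b/K3/Top.lean

-- ===== PACK-BEGIN S29/M4b/K3/Deg.lean
section
/-
S29 row, M4b, piece K3 — sub-piece `K3-DEG` (helper42): bounded degree of `F_ℂ` over `ℂ(j)`.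

`degStatement N : DegStatement N` (= hypothesis `hdeg` of `H152.desc_main` for `Ω = ℂ`), with
`n = [SL₂(ℤ) : Γ₀(N)]`.  From the landed S24 degree theory (`Deg457.algDeg_of_mem_field`) and
`H882.exists_monic_of_mem_goodQ`.
-/



set_option autoImplicit false

noncomputable section

open ModularCurve AlgebraicCurve CongruenceSubgroup UpperHalfPlane Polynomial
open scoped MatrixGroups Manifold

namespace Fermat.Agent.S29.M4b.K3

open Fermat.Agent.S24 Fermat.Agent.S24.H648 Fermat.Agent.S24.H708 Fermat.Agent.S24.Deg457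
open Fermat.Agent.S29 Fermat.Agent.S29.M4b

/-- The interface hypothesis of the S24 degree theory over `ℂ`. -/
theorem hyp_complex (N : ℕ) [NeZero N] : Hyp ℂ N (Nat.card (XX N)) := by
  intro b hb
  obtain ⟨P, hPm, hPn, hP⟩ := H882.exists_monic_of_mem_goodQ (H882.AK_le_goodQ N hb)
  exact ⟨P, hPm, hPn, hP⟩

/-- **K3-DEG**. -/
theorem degStatement (N : ℕ) [NeZero N] : DegStatement N := by
  refine ⟨Nat.card (XX N), fun u hu => ?_⟩
  obtain ⟨Q, hQ0, hQn, hQ⟩ := algDeg_of_mem_field (RingHom.id ℂ) (_root_.Fermat.Agent.S29.M4b.K3.hyp_complex N) hu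
  have hj : ∀ t : ℂ[X], t ≠ 0 →
      aeval (IntermediateField.AdjoinSimple.gen ℂ (coeffEmb ℂ jq)) t ≠ 0 := by
    intro t ht h0
    apply aeval_JK_ne_zero ℂ ht
    have h1 := congrArg (algebraMap ↥(IntermediateField.adjoin ℂ {coeffEmb ℂ jq})
      (LaurentSeries ℂ)) h0
    rw [← aeval_algebraMap_apply, map_zero, IntermediateField.AdjoinSimple.algebraMap_gen] at h1
    exact h1
  refine isIntegral_and_natDegree_le_of_relation (K := ℂ)
    (IntermediateField.AdjoinSimple.gen ℂ (coeffEmb ℂ jq)) hj u Q hQ0 _ hQn ?_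
  rw [IntermediateField.AdjoinSimple.algebraMap_gen]
  exact hQ

end Fermat.Agent.S29.M4b.K3

end
end
-- ===== PACK-END S29/M4b/K3/Deg.lean

-- ===== PACK-BEGIN S29/M4b/K3/Main.lean
section
/-
S29 row, M4b, piece K3 — `PieceK3 N p` from the single remaining sub-piece `K3-FIN` (helper42).
-/




set_option autoImplicit false

noncomputable section

open ModularCurve AlgebraicCurve CongruenceSubgroup UpperHalfPlane
open scoped MatrixGroups Manifold

namespace Fermat.Agent.S29.M4b.K3

open Fermat.Agent.S24 Fermat.Agent.S29 Fermat.Agent.S29.M4b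

/-- **PIECE K3** in the `Prop` form of `M4b/Top.lean`, from `K3-FIN`. -/
theorem pieceK3_of_fin (N : ℕ) [NeZero N] (p : ℕ) [NeZero p] (hfin : FinStatement N p) :
    PieceK3 N p :=
  fun hc _ hU => exists_realised_isTwisted_of N p (degStatement N) hfin hc hU

end Fermat.Agent.S29.M4b.K3

end
end
-- ===== PACK-END S29/M4b/K3/Main.lean

-- ===== PACK-BEGIN S29/H282/K2Ana.lean
section




/-!
# S29 / M4b-K2 (helper282) — analytic adapter: twisted functions lie in `holN N`

* `expGrowth_of_pow` : `f ^ p` of exponential growth (`p ≥ 1`) ⟹ `f` of exponential growth;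
* `mem_holN_of_isTwisted` : a twisted function (M4b `IsTwisted`) of a parabolic character lies in
  the S24 ring `holN N`;
* `infExp_level_of_hasQExp` : a `q`-expansion (`H708.HasQExp 1`) gives the `q^{1/N}`-expansion.
-/

set_option autoImplicit false

noncomputable section

open ModularCurve AlgebraicCurve CongruenceSubgroup UpperHalfPlane
open scoped MatrixGroups Manifold Real

namespace Fermat.Agent.S29.H282

open Fermat.Agent.S24 Fermat.Agent.S24.H997 Fermat.Agent.S24.H648 Fermat.Agent.S24.H708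
open Fermat.Agent.S24.H624
open Fermat.Agent.S29 Fermat.Agent.S29.M4b Fermat.Agent.S29.H332

/-- root extraction for growth bounds -/
theorem expGrowth_of_pow {f : ℍ → ℂ} {p : ℕ} (hp : p ≠ 0)
    (h : ExpGrowth (fun τ => f τ ^ p)) : ExpGrowth f := by
  obtain ⟨C, m, hb⟩ := h
  refine ⟨1 + |C|, m, fun τ hτ => ?_⟩
  have h1 := hb τ hτ
  rw [norm_pow] at h1
  have hexp : (1 : ℝ) ≤ Real.exp (2 * π * m * τ.im) := by
    apply Real.one_le_exp
    have := Real.pi_pos
    have := τ.im_pos
    positivity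
  have hC : C * Real.exp (2 * π * m * τ.im) ≤ |C| * Real.exp (2 * π * m * τ.im) :=
    mul_le_mul_of_nonneg_right (le_abs_self C) (Real.exp_pos _).le
  rcases le_or_gt ‖f τ‖ 1 with h0 | h0
  · calc ‖f τ‖ ≤ 1 := h0
      _ ≤ Real.exp (2 * π * m * τ.im) := hexp
      _ ≤ (1 + |C|) * Real.exp (2 * π * m * τ.im) := by
        have : 0 ≤ |C| * Real.exp (2 * π * m * τ.im) :=
          mul_nonneg (abs_nonneg C) (Real.exp_pos _).le
        linarith
  · have h2 : ‖f τ‖ ≤ ‖f τ‖ ^ p := le_self_pow₀ h0.le hp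
    calc ‖f τ‖ ≤ ‖f τ‖ ^ p := h2
      _ ≤ C * Real.exp (2 * π * m * τ.im) := h1
      _ ≤ |C| * Real.exp (2 * π * m * τ.im) := hC
      _ ≤ (1 + |C|) * Real.exp (2 * π * m * τ.im) := by
        have : 0 ≤ Real.exp (2 * π * m * τ.im) := (Real.exp_pos _).le
        linarith

theorem qh_one_eq_qh_pow (N : ℕ) [NeZero N] (τ : ℍ) : qh 1 τ = qh N τ ^ N := by
  have hN : (N : ℂ) ≠ 0 := by exact_mod_cast NeZero.ne N
  rw [qh_apply, qh_apply, Function.Periodic.qParam, Function.Periodic.qParam,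
    ← Complex.exp_nat_mul]
  congr 1
  push_cast
  field_simp

/-- exponential growth gives a pole of finite order in the variable `q^{1/N}` -/
theorem isBounded_mul_qh_pow_level (N : ℕ) [NeZero N] {f : ℍ → ℂ} (hf : ExpGrowth f) :
    ∃ M : ℕ, IsBoundedAtImInfty (f * qh N ^ M) := by
  obtain ⟨M, hM⟩ := Fermat.Agent.S29.H882.isBounded_mul_qh_pow_of_expGrowth hf
  refine ⟨N * M, ?_⟩
  have : f * qh N ^ (N * M) = f * qh 1 ^ M := by
    funext τ
    simp only [Pi.mul_apply, Pi.pow_apply]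
    rw [qh_one_eq_qh_pow N τ, ← pow_mul]
  rw [this]
  exact hM

variable {N : ℕ} [NeZero N] {p : ℕ} [NeZero p]

/-- the multiplicative character of a twisted function -/
theorem hasCharacter_of_hasChar {c : G0 N → ZMod p} (hc : IsParHom c) {U : ℍ → ℂ}
    (hU : HasChar N p c U) : HasCharacter (isParAdd_of_isParHom hc).char U := by
  intro γ τ
  rw [hU γ τ, IsParAdd.char_apply, zetaP_pow_val]

/-- **A twisted function of a parabolic character lies in `holN N`.** -/
theorem mem_holN_of_isTwisted {c : G0 N → ZMod p} (hc : IsParHom c) {U : ℍ → ℂ}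
    (hU : IsTwisted N p c U) : U ∈ holN N := by
  have hc' : IsParAdd c := isParAdd_of_isParHom hc
  have hh : HasCharacter hc'.char U := hasCharacter_of_hasChar hc hU.hasChar
  have hχ : ParTrivial hc'.char := hc'.parTrivial
  refine ⟨hU.mdiff, fun g => ?_⟩
  have hhol : MDiff (compSL g U) := (precompSL g ⟨U, hU.mdiff⟩).2
  have hper : Function.Periodic (compSL g U ∘ ofComplex) (N : ℝ) :=
    hh.periodic hχ g N (by simpa using conj_T_zpow_mem_Gamma0 N g 1)
  have hgr : ExpGrowth (compSL g U) :=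
    expGrowth_of_pow (NeZero.ne p) (hU.pow_mem.2.2 g)
  have hmer : IsMerInf N (compSL g U) := ⟨hhol, hper, isBounded_mul_qh_pow_level N hgr⟩
  have hq := HasQExp.of_isMerInf hmer
  have hinf : InfExp N (compSL g U) (qexpFun N (compSL g U)) := fun τ => hq.hasSum τ
  exact hinf.mem_expRing

/-- from the `q`-expansion to the `q^{1/N}`-expansion -/
theorem infExp_level_of_hasQExp {G : ℍ → ℂ} {φ : LaurentSeries ℂ} (h : HasQExp 1 G φ) :
    InfExp N G (qExpand ℂ N φ) := by
  have hN : (N : ℂ) ≠ 0 := by exact_mod_cast NeZero.ne N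
  have h1 : InfExp 1 G φ := fun τ => h.hasSum τ
  have h2 := h1.subst (N := N) (fun τ => τ) 1 N (fun τ => by
    rw [infZ_def, infZ_def, Units.val_one, one_mul, ← Complex.exp_nat_mul]
    congr 1
    push_cast
    field_simp)
  rwa [infTwist_one] at h2

end Fermat.Agent.S29.H282

end
end
-- ===== PACK-END S29/H282/K2Ana.lean

-- ===== PACK-BEGIN S29/H282/DegK.lean
section


/-!
# S29 / M4b-K2 (helper282) — the degree of the function field over `K`

For every field `K` with an embedding `ι : K →+* ℂ`: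
`[FFK K N : K(j)] = [SL₂(ℤ) : Γ₀(N)]`.
Port of `Fermat/Agent/S24/Deg/H457_Main.lean` (upper bound) and `H997Core` (lower bound).
-/

set_option autoImplicit false

noncomputable section

open Polynomial ModularCurve IntermediateField

namespace Fermat.Agent.S29.H282

open Fermat.Agent.S24 Fermat.Agent.S24.H997 Fermat.Agent.S24.Deg457

variable {K : Type*} [Field K] [Algebra ℚ K] (ι : K →+* ℂ)
variable (N : ℕ) [NeZero N]

theorem coe_jFK : ((jFK K N : FFK K N) : LaurentSeries K) = JK K := rfl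

include ι in
/-- **Degree bound**: `[FFK K N : K(j)] ≤ [SL₂(ℤ) : Γ₀(N)]`. -/
theorem finiteDimensional_and_finrank_leK :
    FiniteDimensional ↥(IntermediateField.adjoin K {jFK K N}) (FFK K N) ∧
      Module.finrank ↥(IntermediateField.adjoin K {jFK K N}) (FFK K N) ≤ Nat.card (XX N) := by
  haveI : CharZero K := algebraRat.charZero K
  refine finiteDimensional_and_finrank_le_of_forall_natDegree_minpoly_le _ fun x => ?_
  obtain ⟨Q, hQ0, hQn, hQ⟩ := algDeg_of_mem_field ι (hyp_complex_card N) x.2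
  have hinc : Function.Injective (algebraMap (FFK K N) (LaurentSeries K)) :=
    (algebraMap (FFK K N) (LaurentSeries K)).injective
  refine isIntegral_and_natDegree_le_of_relation (K := K)
    (AdjoinSimple.gen K (jFK K N)) ?_ x Q hQ0 _ hQn ?_
  · intro t ht h0
    apply aeval_JK_ne_zero K ht
    have h1 := congrArg (algebraMap ↥(IntermediateField.adjoin K {jFK K N}) (FFK K N)) h0
    rw [← aeval_algebraMap_apply, map_zero, AdjoinSimple.algebraMap_gen] at h1
    have h2 := congrArg (algebraMap (FFK K N) (LaurentSeries K)) h1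
    rw [← aeval_algebraMap_apply, map_zero] at h2
    exact h2
  · apply hinc
    rw [map_zero, Polynomial.hom_eval₂, AdjoinSimple.algebraMap_gen]
    have hcomp : (algebraMap (FFK K N) (LaurentSeries K)).comp
        ((aeval (jFK K N) : K[X] →ₐ[K] FFK K N).toRingHom) = evJ (JK K) := by
      refine Polynomial.ringHom_ext ?_ ?_
      · intro c
        simp [evJ, ← IsScalarTower.algebraMap_apply]
      · simp [evJ]
        rfl
    rw [hcomp]
    exact hQ

include ι in
theorem finiteDimensional_adjoin_jFK :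
    FiniteDimensional ↥(IntermediateField.adjoin K {jFK K N}) (FFK K N) :=
  (finiteDimensional_and_finrank_leK ι N).1

include ι in
/-- **The degree**: `[FFK K N : K(j)] = [SL₂(ℤ) : Γ₀(N)]`. -/
theorem finrank_adjoin_jFK :
    Module.finrank ↥(IntermediateField.adjoin K {jFK K N}) (FFK K N) = Nat.card (XX N) := by
  haveI := finiteDimensional_adjoin_jFK ι N
  exact le_antisymm (finiteDimensional_and_finrank_leK ι N).2
    (card_le_finrankK ι (analyticCore N))

end Fermat.Agent.S29.H282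

end
end
-- ===== PACK-END S29/H282/DegK.lean

-- ===== PACK-BEGIN S29/H282/Rot.lean
section


/-!
# S29 / M4b-K2 (helper282) — iterating the rotation relation

For an expansion `X` with rotation data `R` for `ε` (a primitive `m`-th root of unity `ζ`):
if `H ∘ ε ^ e = H` then `m ∣ e * ord (E H)`.
-/

set_option autoImplicit false

noncomputable section

open ModularCurve HahnSeries UpperHalfPlane
open scoped MatrixGroups

namespace Fermat.Agent.S29.H282

open Fermat.Agent.S24 Fermat.Agent.S24.H997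

variable {N : ℕ} [NeZero N] (B : HolBase N) (X : Expansion B)

theorem compH_pow_succ (ε : SL(2, ℤ)) (i : ℕ) (H : B.Hol) :
    B.compH (ε ^ (i + 1)) H = B.compH ε (B.compH (ε ^ i) H) := by
  rw [pow_succ, HolBase.compH_mul]

/-- iterating the rotation relation -/
theorem rot_iterate (ε : SL(2, ℤ)) (R : RotData B X ε) (H : B.Hol) (i : ℕ) :
    (X.E (B.compH (ε ^ i) H)).order = (X.E H).order ∧
      (X.E (B.compH (ε ^ i) H)).leadingCoeff
        = (R.ζ ^ (X.E H).order) ^ i * (X.E H).leadingCoeff := by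
  induction i with
  | zero => simp [HolBase.compH_one]
  | succ n ih =>
    have h := R.rot (B.compH (ε ^ n) H)
    rw [compH_pow_succ]
    refine ⟨by rw [h.1, ih.1], ?_⟩
    rw [h.2, ih.1, ih.2, pow_succ]
    ring

/-- **Key divisibility.**  If `H` is invariant under `ε ^ e`, then the order `m` of the rotation
divides `e * ord (E H)`. -/
theorem rot_dvd_of_compH_pow_eq (ε : SL(2, ℤ)) (R : RotData B X ε) (H : B.Hol) (e : ℕ)
    (hH : B.compH (ε ^ e) H = H) : (R.m : ℤ) ∣ (e : ℤ) * (X.E H).order := by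
  by_cases h0 : X.E H = 0
  · rw [h0, order_zero, mul_zero]
    exact dvd_zero _
  · have hlc : (X.E H).leadingCoeff ≠ 0 := leadingCoeff_ne_zero.mpr h0
    have h := (rot_iterate B X ε R H e).2
    rw [hH] at h
    have h1 : (R.ζ ^ (X.E H).order) ^ e = 1 := by
      have : (R.ζ ^ (X.E H).order) ^ e * (X.E H).leadingCoeff = 1 * (X.E H).leadingCoeff := by
        rw [one_mul]; exact h.symm
      exact mul_right_cancel₀ hlc this
    have h2 : R.ζ ^ ((X.E H).order * (e : ℤ)) = 1 := by
      rw [zpow_mul, zpow_natCast]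
      exact h1
    have h3 := (R.hζ.zpow_eq_one_iff_dvd _).mp h2
    rwa [mul_comm] at h3

end Fermat.Agent.S29.H282

end
end
-- ===== PACK-END S29/H282/Rot.lean

-- ===== PACK-BEGIN S29/H282/Dict.lean
section





/-!
# S29 / M4b-K2 (helper282) — the places dictionary (DICT-hard)

`K` algebraically closed with an embedding `ι : K →+* ℂ` (main cases: `K = ℂ`, `K = ℚ̄`).

* `exists_placeOf_eqK` : every place of `FFK K N / K` is induced by one of the embeddings
  `σ_x` of the local data `dataInfK` (cusps) or `dataFinK a` (points over `j = a`);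
* `IsAvatar`           : `h : Hol` is an analytic avatar of `f : FFK K N`
  (`qexp h = ΦK ι N f`, i.e. the expansion of `h` at `i∞` is the Laurent series `f`);
* `IsAvatar.sigmaGK_eq`: then `σ_g f = E (h ∘ g⁻¹)` for every expansion;
* `dvd_ord_of_isAvatar_pow` (**DICT-hard**): if `f` has the avatar `h ^ M` and `h` is invariant
  under the special elements (finite order or trace `2`) of `Γ₀(N)`, then `M ∣ w.ord f` for every
  place `w` of `FFK K N / K`.
-/

set_option autoImplicit false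

noncomputable section

open ModularCurve HahnSeries UpperHalfPlane AlgebraicCurve IntermediateField
open scoped MatrixGroups

namespace Fermat.Agent.S29.H282

open Fermat.Agent.S24 Fermat.Agent.S24.H997 Fermat.Agent.S24.Deg457

/-! ### Generic: the orbit of `x` under `perm` has `ord_v t` elements -/

section Generic

variable {K F : Type*} [Field K] [Field F] [Algebra K F] [IsAlgClosed K] [CharZero K]
variable {C : Type*} [Field C] [CharZero C] {X : Type*} [Finite X]
variable {t : F} (L : LocalData K F C X t)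
variable (E : IntermediateField K F) (hE : E ≤ K⟮t⟯) [FiniteDimensional E F]
  (hrank : Module.finrank E F = Nat.card X)

include hE hrank in
/-- the cardinality of the `perm`-orbit of `x` is the ramification index `ord_v t` -/
theorem card_orbit_eq_ord_t (x : X) :
    (Nat.card (MulAction.orbit (Subgroup.zpowers L.perm) x) : ℤ) = (H117.placeOf L x).ord t := by
  classical
  haveI := H504.isAlgebraic_adjoin_of_le (t := t) E hE
  have hfin : {v : Place K F | 0 < v.ord t}.Finite := H117.finite_places_over L E hE hrank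
  have hs : ∀ v : Place K F, v ∈ hfin.toFinset ↔ 0 < v.ord t := fun v => by simp
  exact (H117.localThm L E hE hrank hfin.toFinset hs
    (H504.LocalData.card_le_sum_ord L hfin.toFinset hs)).2.1 x

include hE hrank in
/-- `perm ^ e` fixes `x`, where `e = ord_v t` is the ramification index of the place of `x` -/
theorem perm_pow_ord_t_apply (x : X) :
    (L.perm ^ ((H117.placeOf L x).ord t).toNat) x = x := by
  classical
  have h := card_orbit_eq_ord_t L E hE hrank x
  haveI : Fintype (MulAction.orbit (Subgroup.zpowers L.perm) x) := Fintype.ofFinite _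
  have h1 : Function.minimalPeriod (L.perm • ·) x
      = Nat.card (MulAction.orbit (Subgroup.zpowers L.perm) x) := by
    rw [MulAction.minimalPeriod_eq_card, Nat.card_eq_fintype_card]
  have h2 : ((H117.placeOf L x).ord t).toNat
      = Nat.card (MulAction.orbit (Subgroup.zpowers L.perm) x) := by
    rw [← h]; simp
  have h3 : (L.perm ^ ((H117.placeOf L x).ord t).toNat) • x = x := by
    rw [MulAction.pow_smul_eq_iff_minimalPeriod_dvd, h1, h2]
  exact h3

end Generic

/-! ### Avatars -/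

section Avatar

variable {K : Type*} [Field K] [Algebra ℚ K] (ι : K →+* ℂ)
variable {N : ℕ} [NeZero N] (B : HolBase N)

/-- `h : Hol` is an analytic avatar of `f : FFK K N`: the expansion of `h` at `i∞` (in the
variable `q^{1/N}`) is the Laurent series `f` (coefficients mapped by `ι`). -/
def IsAvatar (f : FFK K N) (h : B.Hol) : Prop := B.qexp h = ΦK ι N (f : LaurentSeries K)

variable {ι B}

theorem isAvatar_inclRNK (r : RNK K N) : IsAvatar ι B (inclRNK K N r) (bridgeK ι B r) :=
  qexp_bridgeK ι B r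

theorem IsAvatar.unique {f : FFK K N} {h h' : B.Hol} (hav : IsAvatar ι B f h)
    (hav' : IsAvatar ι B f h') : h = h' :=
  B.qexp_injective (hav.trans hav'.symm)

theorem IsAvatar.injective {f f' : FFK K N} {h : B.Hol} (hav : IsAvatar ι B f h)
    (hav' : IsAvatar ι B f' h) : f = f' :=
  Subtype.ext (ΦK_injective ι (hav.symm.trans hav'))

theorem isAvatar_zero : IsAvatar ι B (0 : FFK K N) 0 := by
  show B.qexp 0 = ΦK ι N ((0 : FFK K N) : LaurentSeries K)
  simp

theorem isAvatar_one : IsAvatar ι B (1 : FFK K N) 1 := by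
  show B.qexp 1 = ΦK ι N ((1 : FFK K N) : LaurentSeries K)
  simp

theorem IsAvatar.mul {f f' : FFK K N} {h h' : B.Hol} (hav : IsAvatar ι B f h)
    (hav' : IsAvatar ι B f' h') : IsAvatar ι B (f * f') (h * h') := by
  show B.qexp (h * h') = ΦK ι N ((f * f' : FFK K N) : LaurentSeries K)
  rw [map_mul, hav, hav', ← map_mul]
  rfl

theorem IsAvatar.add {f f' : FFK K N} {h h' : B.Hol} (hav : IsAvatar ι B f h)
    (hav' : IsAvatar ι B f' h') : IsAvatar ι B (f + f') (h + h') := by
  show B.qexp (h + h') = ΦK ι N ((f + f' : FFK K N) : LaurentSeries K)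
  rw [map_add, hav, hav', ← map_add]
  rfl

theorem IsAvatar.pow {f : FFK K N} {h : B.Hol} (hav : IsAvatar ι B f h) (n : ℕ) :
    IsAvatar ι B (f ^ n) (h ^ n) := by
  induction n with
  | zero => simpa using isAvatar_one
  | succ n ih => rw [pow_succ, pow_succ]; exact ih.mul hav

theorem IsAvatar.eq_zero_iff {f : FFK K N} {h : B.Hol} (hav : IsAvatar ι B f h) :
    h = 0 ↔ f = 0 :=
  ⟨fun h0 => hav.injective (h0 ▸ isAvatar_zero), fun f0 => hav.unique (f0 ▸ isAvatar_zero)⟩

/-- clearing denominators: `h * e(t) = e(r)` when `f = r / t` -/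
theorem IsAvatar.mul_bridgeK {f : FFK K N} {h : B.Hol} (hav : IsAvatar ι B f h)
    {r t : RNK K N} (ht : t ≠ 0) (hf : f = inclRNK K N r / inclRNK K N t) :
    h * bridgeK ι B t = bridgeK ι B r := by
  have ht' : inclRNK K N t ≠ 0 := fun h0 =>
    ht (inclRNK_injective K N (h0.trans (map_zero _).symm))
  have h1 : f * inclRNK K N t = inclRNK K N r := by
    rw [hf, div_mul_cancel₀ _ ht']
  exact (hav.mul (isAvatar_inclRNK t)).unique (h1 ▸ isAvatar_inclRNK r)

/-- **The embeddings in terms of the avatar**: `σ_g f = E (h ∘ g⁻¹)`. -/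
theorem IsAvatar.sigmaGK_eq {f : FFK K N} {h : B.Hol} (hav : IsAvatar ι B f h)
    (X : Expansion B) (g : SL(2, ℤ)) : sigmaGK ι B X g f = X.E (B.compH g⁻¹ h) := by
  obtain ⟨r, t, ht, hf⟩ := exists_div_inclRNK K N f
  have hmul := hav.mul_bridgeK ht hf
  have ht' : X.E (B.compH g⁻¹ (bridgeK ι B t)) ≠ 0 := by
    intro h0
    apply ht
    apply sGK_injective ι B X g
    rw [sGK_apply, h0, map_zero]
  rw [hf, map_div₀, sigmaGK_inclRNK, sigmaGK_inclRNK, ← hmul, map_mul, map_mul,
    mul_div_assoc, div_self ht', mul_one]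

theorem IsAvatar.sigmaXK_mk_eq {f : FFK K N} {h : B.Hol} (hav : IsAvatar ι B f h)
    (X : Expansion B) (g : SL(2, ℤ)) :
    sigmaXK ι B X (g : XX N) f = X.E (B.compH g⁻¹ h) := by
  rw [sigmaXK_mk]
  exact hav.sigmaGK_eq X g

end Avatar

/-! ### The dictionary -/

section Dict

variable {K : Type*} [Field K] [Algebra ℚ K] (ι : K →+* ℂ)
variable {N : ℕ} [NeZero N]

omit [NeZero N] in
theorem permOf_pow_apply (γ : SL(2, ℤ)) (e : ℕ) (g : SL(2, ℤ)) :
    (permOf N γ ^ e) (g : XX N) = ((γ ^ e * g : SL(2, ℤ)) : XX N) := by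
  induction e with
  | zero => simp
  | succ n ih =>
    rw [pow_succ', Equiv.Perm.mul_apply, ih, pow_succ', mul_assoc]
    rfl

omit [NeZero N] in
/-- if `perm_{ε⁻¹} ^ e` fixes the coset of `g` then `g⁻¹ ε ^ e g ∈ Γ₀(N)` -/
theorem conj_mem_of_permOf_pow_apply_eq {ε g : SL(2, ℤ)} {e : ℕ}
    (h : (permOf N ε⁻¹ ^ e) (g : XX N) = (g : XX N)) :
    g⁻¹ * ε ^ e * g ∈ CongruenceSubgroup.Gamma0 N := by
  rw [permOf_pow_apply] at h
  have h1 := QuotientGroup.eq.mp h
  have h2 : ((ε⁻¹) ^ e * g)⁻¹ * g = g⁻¹ * ε ^ e * g := by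
    rw [mul_inv_rev, inv_pow, inv_inv]
  rwa [h2] at h1

variable (B : HolBase N)

/-- `h` is invariant under the special elements of `Γ₀(N)` -/
def IsUnramified (h : B.Hol) : Prop :=
  ∀ γ : SL(2, ℤ), γ ∈ CongruenceSubgroup.Gamma0 N → IsSpecialElt γ → B.compH γ h = h

variable {B}

theorem IsUnramified.compH_pow_eq {h : B.Hol} (hinv : IsUnramified B h) {ε g : SL(2, ℤ)} {e : ℕ}
    (hε : IsSpecialElt (ε ^ e)) (hmem : g⁻¹ * ε ^ e * g ∈ CongruenceSubgroup.Gamma0 N) :
    B.compH (ε ^ e) (B.compH g⁻¹ h) = B.compH g⁻¹ h := by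
  have h1 := hinv _ hmem (hε.conj g)
  rw [← HolBase.compH_mul]
  have h2 : g⁻¹ * ε ^ e = (g⁻¹ * ε ^ e * g) * g⁻¹ := by group
  rw [h2, HolBase.compH_mul, h1]

variable [IsAlgClosed K]

/-- **DICT-hard, local form**: for local data constructed from an expansion with rotation data for
`ε` (all of whose powers are special), the order at every place `placeOf x` of a function with
avatar `h ^ M`, `h` unramified, is divisible by `M`. -/
theorem dvd_ord_placeOf_mkLocalDataK (X : Expansion B) (ε : SL(2, ℤ)) (R : RotData B X ε)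
    (t : FFK K N) (u : LaurentSeries ℂ) (ht : ∀ g : SL(2, ℤ), sigmaGK ι B X g t = u)
    (hu : u.order = (R.m : ℤ))
    (E : IntermediateField K (FFK K N)) (hE : E ≤ K⟮t⟯) [FiniteDimensional E (FFK K N)]
    (hrank : Module.finrank E (FFK K N) = Nat.card (XX N))
    (hε : ∀ e : ℕ, IsSpecialElt (ε ^ e))
    {h : B.Hol} (hinv : IsUnramified B h) {f : FFK K N} {M : ℕ}
    (hav : IsAvatar ι B f (h ^ M)) (x : XX N) :
    (M : ℤ) ∣ (H117.placeOf (mkLocalDataK ι B X ε R t u ht hu) x).ord f := by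
  haveI : CharZero K := algebraRat.charZero K
  set L := mkLocalDataK ι B X ε R t u ht hu with hL
  obtain ⟨g, rfl⟩ := QuotientGroup.mk_surjective x
  set w := H117.placeOf L (g : XX N) with hw
  set e : ℕ := (w.ord t).toNat with he
  have hpos : 0 < w.ord t := H117.ord_t_pos L _
  have hecast : (e : ℤ) = w.ord t := Int.toNat_of_nonneg hpos.le
  have he0 : (e : ℤ) ≠ 0 := by rw [hecast]; exact hpos.ne'
  -- the orbit
  have hfix : (permOf N ε⁻¹ ^ e) (g : XX N) = (g : XX N) :=
    perm_pow_ord_t_apply L E hE hrank (g : XX N)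
  have hmem := conj_mem_of_permOf_pow_apply_eq hfix
  -- the rotation
  set H : B.Hol := B.compH g⁻¹ h with hH
  have hHinv : B.compH (ε ^ e) H = H := hinv.compH_pow_eq (hε e) hmem
  have hdvd : (R.m : ℤ) ∣ (e : ℤ) * (X.E H).order := rot_dvd_of_compH_pow_eq B X ε R H e hHinv
  -- the multiplicity
  have hmult : (H117.mult L (g : XX N) : ℤ) * w.ord t = (R.m : ℤ) := H117.mult_mul_ord_t L _
  have hk0 : (H117.mult L (g : XX N) : ℤ) ≠ 0 := by
    exact_mod_cast (H117.mult_pos L (g : XX N)).ne'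
  have hdvd2 : (H117.mult L (g : XX N) : ℤ) ∣ (X.E H).order := by
    rw [← hmult, ← hecast, mul_comm] at hdvd
    exact (mul_dvd_mul_iff_left he0).mp hdvd
  obtain ⟨k, hk⟩ := hdvd2
  -- the order of `f`
  have hσ : L.σ (g : XX N) f = X.E H ^ M := by
    show sigmaXK ι B X (g : XX N) f = _
    rw [hav.sigmaXK_mk_eq X g, map_pow, map_pow]
  have hord : (L.σ (g : XX N) f).order = (M : ℤ) * (X.E H).order := by
    rw [hσ, HahnSeries.order_pow, nsmul_eq_mul]
  have h1 := H117.order_eq L (g : XX N) f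
  rw [hord, hk] at h1
  refine ⟨k, ?_⟩
  have h2 : (H117.mult L (g : XX N) : ℤ) * w.ord f = (H117.mult L (g : XX N) : ℤ) * (M * k) := by
    rw [← h1]; ring
  exact mul_left_cancel₀ hk0 h2

omit [IsAlgClosed K] in
theorem adjoin_jFK_le_sub (a : K) :
    K⟮jFK K N⟯ ≤ K⟮jFK K N - algebraMap K (FFK K N) a⟯ := by
  rw [IntermediateField.adjoin_le_iff, Set.singleton_subset_iff]
  have h := add_mem
    (IntermediateField.mem_adjoin_simple_self K (jFK K N - algebraMap K (FFK K N) a))
    (IntermediateField.algebraMap_mem K⟮jFK K N - algebraMap K (FFK K N) a⟯ a)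
  rwa [sub_add_cancel] at h

omit [IsAlgClosed K] in
theorem adjoin_jFK_le_inv : K⟮jFK K N⟯ ≤ K⟮(jFK K N)⁻¹⟯ := by
  rw [IntermediateField.adjoin_le_iff, Set.singleton_subset_iff]
  have h := inv_mem (IntermediateField.mem_adjoin_simple_self K (jFK K N)⁻¹)
  rwa [inv_inv] at h

variable (A : AnalyticCore N)

/-- **Every place of `FFK K N / K` is analytic**: it is induced by an embedding `σ_x` of the local
data at `∞` or over a finite point `a`. -/
theorem exists_placeOf_eqK (w : Place K (FFK K N)) :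
    (∃ x : XX N, H117.placeOf (dataInfK ι A) x = w) ∨
      ∃ (a : K) (x : XX N), H117.placeOf (dataFinK ι A a) x = w := by
  haveI : CharZero K := algebraRat.charZero K
  haveI := finiteDimensional_adjoin_jFK ι N
  have hrank := finrank_adjoin_jFK ι N
  rcases sub_exists_point (jFK K N) w with h | ⟨a, ha⟩
  · left
    have h' : 0 < w.ord (jFK K N)⁻¹ := by
      rw [Place.ord_inv]; omega
    exact H117.exists_placeOf_eq (dataInfK ι A) K⟮jFK K N⟯ adjoin_jFK_le_inv hrank w h'
  · right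
    exact ⟨a, H117.exists_placeOf_eq (dataFinK ι A a) K⟮jFK K N⟯ (adjoin_jFK_le_sub a) hrank w ha⟩

omit [Algebra ℚ K] [IsAlgClosed K] in
theorem isSpecialElt_epsAt_pow (a : K) (e : ℕ) : IsSpecialElt (epsAt ι a ^ e) := by
  classical
  unfold epsAt
  split_ifs
  · exact isSpecialElt_ST_pow e
  · exact isSpecialElt_S_pow e
  · exact isSpecialElt_one_pow e

variable {ι A}

/-- **DICT-hard.**  Let `f` be an element of the function field of `X₀(N)` over `K` whose analytic
avatar is `h ^ M`, where `h : Hol` is invariant under all special elements (finite order or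
trace `2`) of `Γ₀(N)`.  Then `M ∣ ord_w f` for every place `w` of the function field. -/
theorem dvd_ord_of_isAvatar_pow {h : A.Hol} (hinv : IsUnramified A.toHolBase h)
    {f : FFK K N} {M : ℕ} (hav : IsAvatar ι A.toHolBase f (h ^ M))
    (w : Place K (FFK K N)) : (M : ℤ) ∣ w.ord f := by
  haveI := finiteDimensional_adjoin_jFK ι N
  have hrank := finrank_adjoin_jFK ι N
  rcases exists_placeOf_eqK ι A w with ⟨x, rfl⟩ | ⟨a, x, rfl⟩
  · exact dvd_ord_placeOf_mkLocalDataK ι A.toHolBase.qexpExpansion ModularGroup.T A.infRot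
      (jFK K N)⁻¹ (A.qexp (A.toHolBase.JH 1 (one_dvd N)))⁻¹
      (fun g => by rw [map_inv₀, sigmaGK_jFK]; rfl)
      (by
        rw [RotRel.order_inv' A.toHolBase.qexp_J_one_ne_zero, A.toHolBase.order_qexp_J_one,
          neg_neg]
        rfl)
      K⟮jFK K N⟯ adjoin_jFK_le_inv hrank isSpecialElt_T_pow hinv hav x
  · exact dvd_ord_placeOf_mkLocalDataK ι (pointAt ι A a).X (epsAt ι a) (pointAt ι A a).R
      (jFK K N - algebraMap K (FFK K N) a) _
      (fun g => sigmaGK_sub ι A (pointAt ι A a) g) (pointAt ι A a).order_J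
      K⟮jFK K N⟯ (adjoin_jFK_le_sub a) hrank (isSpecialElt_epsAt_pow ι a) hinv hav x

end Dict

end Fermat.Agent.S29.H282

end
end
-- ===== PACK-END S29/H282/Dict.lean

-- ===== PACK-BEGIN S29/H282/K2.lean
section




/-!
# S29 / M4b — PIECE `K2` (DICT), exact skeleton type (helper282)

`exists_isKummerClass_of_realised` : if `u ∈ FF N` is realised by `U ^ p`, `U` twisted of a
character `c` killing parabolic and elliptic elements, then `u` has a `p`-Kummer class in
`J₀(N)(ℚ̄)`: `p ∣ ord_v u` at every place (`dvd_ord_of_isAvatar_pow`) and `(1/p) div u` has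
degree `0`.

Also `dvd_ord_of_realised` (the divisibility alone) and the same over `ℂ`.
-/

set_option autoImplicit false

noncomputable section

open ModularCurve AlgebraicCurve CongruenceSubgroup UpperHalfPlane
open scoped MatrixGroups Manifold Real

namespace Fermat.Agent.S29.H282

open Fermat.Agent.S24 Fermat.Agent.S24.H997 Fermat.Agent.S24.H648 Fermat.Agent.S24.H708
open Fermat.Agent.S24.H624
open Fermat.Agent.S29 Fermat.Agent.S29.M4b Fermat.Agent.S29.H332

variable {N : ℕ} [NeZero N] {p : ℕ} [NeZero p]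

/-- a twisted function as an element of `Hol` of the concrete analytic core -/
def twistedHol {c : G0 N → ZMod p} (hc : IsParHom c) {U : ℍ → ℂ} (hU : IsTwisted N p c U) :
    (analyticCore N).Hol := ⟨U, mem_holN_of_isTwisted hc hU⟩

theorem coe_twistedHol {c : G0 N → ZMod p} (hc : IsParHom c) {U : ℍ → ℂ}
    (hU : IsTwisted N p c U) : ((twistedHol hc hU : (analyticCore N).Hol) : ℍ → ℂ) = U := rfl

/-- a character killing parabolic and elliptic elements is trivial on special elements -/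
theorem isParHom_apply_of_isSpecialElt {c : G0 N → ZMod p} (hc : IsParHom c) (γ : G0 N)
    (hγ : IsSpecialElt (γ : SL(2, ℤ))) : c γ = 0 := by
  rcases hγ with ⟨n, hn, h⟩ | h
  · exact hc.elliptic γ n hn (Subtype.ext (by simpa using h))
  · exact hc.parabolic γ (Or.inl h)

theorem isUnramified_twistedHol {c : G0 N → ZMod p} (hc : IsParHom c) {U : ℍ → ℂ}
    (hU : IsTwisted N p c U) :
    IsUnramified (analyticCore N).toHolBase (twistedHol hc hU) := by
  intro γ hγ hsp
  apply Subtype.ext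
  funext τ
  show U (γ • τ) = U τ
  have h := hU.hasChar ⟨γ, hγ⟩ τ
  rw [isParHom_apply_of_isSpecialElt hc ⟨γ, hγ⟩ hsp] at h
  simpa using h

/-- the avatar relation over `ℚ̄` -/
theorem isAvatar_of_realises {c : G0 N → ZMod p} (hc : IsParHom c) {U : ℍ → ℂ}
    {u : FF N} (hU : IsTwisted N p c U) (hu : Realises N u (fun τ => U τ ^ p)) :
    IsAvatar (K := Kbar) Deg457.iotaC (analyticCore N).toHolBase u (twistedHol hc hU ^ p) := by
  have hq : HasQExp 1 (fun τ => U τ ^ p) (qexpFun 1 (fun τ => U τ ^ p)) :=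
    Fermat.Agent.S29.H882.hasQExp_of_mem_goodRing hu.1
  have hinf : InfExp N (fun τ => U τ ^ p)
      (qExpand ℂ N (coeffMap Deg457.iotaC ((u : FF N) : LaurentSeries Kbar))) := by
    rw [← hu.2]
    exact infExp_level_of_hasQExp hq
  exact (expInf_spec (holToExp N (twistedHol hc hU ^ p))).unique hinf

/-- **DICT-hard over `ℚ̄`, M4b language**: `p ∣ ord_v u` at every place of `FF N`. -/
theorem dvd_ord_of_realised {c : G0 N → ZMod p} (hc : IsParHom c) {U : ℍ → ℂ}
    {u : FF N} (hU : IsTwisted N p c U) (hu : Realises N u (fun τ => U τ ^ p))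
    (v : Place Kbar (FF N)) : (p : ℤ) ∣ v.ord u :=
  dvd_ord_of_isAvatar_pow (K := Kbar) (ι := Deg457.iotaC) (A := analyticCore N)
    (isUnramified_twistedHol hc hU) (isAvatar_of_realises hc hU hu) v

theorem ne_zero_of_realised {c : G0 N → ZMod p} (hc : IsParHom c) {U : ℍ → ℂ}
    {u : FF N} (hU : IsTwisted N p c U) (hu : Realises N u (fun τ => U τ ^ p)) : u ≠ 0 := by
  intro h0
  have hav := isAvatar_of_realises hc hU hu
  have h1 : twistedHol hc hU ^ p = 0 := hav.eq_zero_iff.mpr h0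
  have h2 : twistedHol hc hU = 0 := by
    apply (analyticCore N).toHolBase.qexp_injective
    have h3 := congrArg (analyticCore N).toHolBase.qexp h1
    rw [map_pow, map_zero] at h3
    rw [map_zero]
    exact pow_eq_zero_iff (NeZero.ne p) |>.mp h3
  obtain ⟨τ, hτ⟩ := hU.ne_zero
  apply hτ
  have := congrArg (fun f : (analyticCore N).Hol => (f : ℍ → ℂ) τ) h2
  simpa [coe_twistedHol] using this

variable (N p)

/-- **PIECE `K2`** of the M4b skeleton (exact type). -/
theorem exists_isKummerClass_of_realised {c : G0 N → ZMod p} (hc : IsParHom c) {U : ℍ → ℂ}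
    {u : FF N} (hU : IsTwisted N p c U) (hu : Realises N u (fun τ => U τ ^ p)) :
    ∃ x : JZero N, H455.IsKummerClass (p : ℤ) u x := by
  have hf : u ≠ 0 := ne_zero_of_realised hc hU hu
  haveI := Fermat.Agent.Lib.RR.H864.hasPrincipalDivisors_modularFunctionFieldBar N
  obtain ⟨D₀, hD₀, hdeg₀⟩ :=
    HasPrincipalDivisors.exists_divisor (K := AlgebraicClosure ℚ) u hf
  obtain ⟨D, hdeg, hD⟩ := Fermat.Agent.S29.H389.exists_divisor_div p (NeZero.ne p) D₀
    (fun v => by
      rw [hD₀ v]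
      exact dvd_ord_of_realised hc hU hu v)
    hdeg₀
  refine ⟨Pic0.mk ⟨D, hdeg⟩, hf, ⟨D, hdeg⟩, rfl, fun v => ?_⟩
  rw [hD v, hD₀ v]

end Fermat.Agent.S29.H282

end
end
-- ===== PACK-END S29/H282/K2.lean

-- ===== PACK-BEGIN S29/M4b/K3/DTo.lean
section
/-
S29 row, LAYER M, SUB-LAYER M4b, PIECE K3, sub-piece `K3-DTO` (helper42).
Namespace `Fermat.Agent.S29.M4b.K3`.

`dto` : for a twisted function `U` of a parabolic character, the `q`-expansion `f = qexp (U ^ p)`
(an element of `F_ℂ = laurentBaseChange ℂ (modularFunctionFieldFull N)`) satisfies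
`p ∣ ord_w f` at EVERY place `w` of `F_ℂ / ℂ`.

This is the landed generic-`K` dictionary `H282.dvd_ord_of_isAvatar_pow` at `K = ℂ`, `ι = id`.
-/



set_option autoImplicit false

noncomputable section

open ModularCurve AlgebraicCurve CongruenceSubgroup UpperHalfPlane
open scoped MatrixGroups Manifold

namespace Fermat.Agent.S29.M4b.K3

open Fermat.Agent.S24 Fermat.Agent.S24.H997 Fermat.Agent.S24.H648 Fermat.Agent.S24.H708
open Fermat.Agent.S24.H624
open Fermat.Agent.S29 Fermat.Agent.S29.M4b Fermat.Agent.S29.H282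

variable {N : ℕ} [NeZero N] {p : ℕ} [NeZero p]

/-- the avatar relation over `ℂ` -/
theorem isAvatar_of_qexp {c : G0 N → ZMod p} (hc : IsParHom c) {U : ℍ → ℂ}
    (hU : IsTwisted N p c U) {f : FFK ℂ N}
    (hf : (f : LaurentSeries ℂ) = qexpFun 1 (fun τ => U τ ^ p)) :
    IsAvatar (K := ℂ) (RingHom.id ℂ) (analyticCore N).toHolBase f (twistedHol hc hU ^ p) := by
  have hq : HasQExp 1 (fun τ => U τ ^ p) (qexpFun 1 (fun τ => U τ ^ p)) :=
    Fermat.Agent.S29.H882.hasQExp_of_mem_goodRing hU.pow_mem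
  have hinf : InfExp N (fun τ => U τ ^ p)
      (qExpand ℂ N (coeffMap (RingHom.id ℂ) ((f : FFK ℂ N) : LaurentSeries ℂ))) := by
    rw [coeffMap_id, hf]
    exact infExp_level_of_hasQExp hq
  exact (expInf_spec (holToExp N (twistedHol hc hU ^ p))).unique hinf

/-- **K3-DTO.**  `p ∣ ord_w (qexp (U ^ p))` at every place `w` of `F_ℂ`. -/
theorem dto {c : G0 N → ZMod p} (hc : IsParHom c) {U : ℍ → ℂ}
    (hU : IsTwisted N p c U) {f : FC N}
    (hf : (f : LaurentSeries ℂ) = qexpFun 1 (fun τ => U τ ^ p))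
    (w : Place ℂ (FC N)) : (p : ℤ) ∣ w.ord f :=
  dvd_ord_of_isAvatar_pow (K := ℂ) (ι := RingHom.id ℂ) (A := analyticCore N)
    (isUnramified_twistedHol hc hU) (isAvatar_of_qexp hc hU hf) w

end Fermat.Agent.S29.M4b.K3

end
end
-- ===== PACK-END S29/M4b/K3/DTo.lean

-- ===== PACK-BEGIN S29/M4b/K3/Fin.lean
section
/-
S29 row, LAYER M, SUB-LAYER M4b, PIECE K3, sub-piece `K3-FIN` (helper42).
Namespace `Fermat.Agent.S29.M4b.K3`.

`finStatement_of_dfrom : DFromStatement N p → FinStatement N p`.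

`FinStatement` (= hypothesis `horb` of `H152.desc_main` for `f = qexp (U ^ p)`) is proved from
the single remaining analytic input `DFromStatement N p` ("DICT-easy + ROOT over `ℂ`"):
every `x ∈ F_ℂˣ` whose divisor is divisible by `p` is, up to a `p`-th power of `F_ℂˣ`, the
`q`-expansion of the `p`-th power of a holomorphic function `V` on `ℍ` with `V ^ p` good.

Steps (`f = qexp (U ^ p)`):
* `dto` (file `DTo.lean`): `p ∣ ord_w f` at every place `w` of `F_ℂ`;
* transport: `σ ∈ Aut(ℂ/ℚ̄)` acts semilinearly on `F_ℂ` (Prelude `arithmeticGalois`) and permutes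
  the places (`SemilinearAut.ord_smul`), so `p ∣ ord_w (σ f)` for all `w`;
* `DFromStatement` gives `V_σ` with `qexp (V_σ ^ p) = σ f * s_σ ^ p`;
* `V_σ` has a character `κ_σ : Γ₀(N) →* ℂˣ`, `κ_σ ^ p = 1` (`H942.exists_kummerChar`);
* there are finitely many such characters (`Γ₀(N)` is finitely generated): `finite_pChar`;
* equal characters give equal classes modulo `p`-th powers: `exists_pow_mul_eq_of_sameChar`.
-/




set_option autoImplicit false
set_option linter.style.haveILetI false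

noncomputable section

open ModularCurve AlgebraicCurve CongruenceSubgroup UpperHalfPlane
open scoped MatrixGroups Manifold

namespace Fermat.Agent.S29.M4b.K3

open Fermat.Agent.S24 Fermat.Agent.S24.H648 Fermat.Agent.S24.H708 Fermat.Agent.S24.Deg457
open Fermat.Agent.S29 Fermat.Agent.S29.M4b

/-- SUB-PIECE `K3-DFROM` ("DICT-easy + ROOT over `ℂ`"): an element `f ≠ 0` of `F_ℂ` all of whose
orders are divisible by `p` is, up to the `p`-th power of a nonzero element `s` of `F_ℂ`, the
`q`-expansion of `V ^ p` for a holomorphic `V : ℍ → ℂ` with `V ^ p` good. -/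
def DFromStatement (N p : ℕ) : Prop :=
  ∀ f : FC N, f ≠ 0 → (∀ w : Place ℂ (FC N), (p : ℤ) ∣ w.ord f) →
    ∃ s : LaurentSeries ℂ, s ∈ FC N ∧ s ≠ 0 ∧ ∃ V : ℍ → ℂ, MDifferentiable 𝓘(ℂ) 𝓘(ℂ) V ∧
      (fun τ => V τ ^ p) ∈ goodRing N ∧
      qexpFun 1 (fun τ => V τ ^ p) = (f : LaurentSeries ℂ) * s ^ p

variable {N : ℕ} [NeZero N] {p : ℕ} [NeZero p]

/-- There are finitely many characters `Γ₀(N) →* ℂˣ` of exponent `p`. -/
theorem finite_pChar (N : ℕ) [NeZero N] (p : ℕ) [NeZero p] :
    Finite {κ : Gamma0 N →* ℂˣ // ∀ γ, κ γ ^ p = 1} := by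
  classical
  haveI : Group.FG SL(2, ℤ) := Group.fg_iff.mpr ⟨{ModularGroup.S, ModularGroup.T},
    SpecialLinearGroup.SL2Z_generators, by simp⟩
  haveI : Group.FG (Gamma0 N) := inferInstance
  obtain ⟨S, hS, hSfin⟩ := Group.fg_iff.mp (inferInstance : Group.FG (Gamma0 N))
  haveI : Finite S := hSfin
  let Φ : {κ : Gamma0 N →* ℂˣ // ∀ γ, κ γ ^ p = 1} → (S → rootsOfUnity p ℂ) :=
    fun κ s => ⟨κ.1 s, (mem_rootsOfUnity p _).mpr (κ.2 s)⟩
  refine Finite.of_injective Φ ?_
  intro κ₁ κ₂ h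
  apply Subtype.ext
  apply MonoidHom.eq_of_eqOn_dense hS
  intro x hx
  have := congrFun h ⟨x, hx⟩
  exact congrArg Subtype.val this

/-- Two holomorphic functions with good `p`-th powers and the SAME character have `p`-th powers
whose `q`-expansions differ by a `p`-th power of `F_ℂ`. -/
theorem exists_pow_mul_eq_of_sameChar {V₁ V₂ : ℍ → ℂ} (κ : Gamma0 N →* ℂˣ)
    (hκ : ∀ γ, κ γ ^ p = 1)
    (h1m : MDifferentiable 𝓘(ℂ) 𝓘(ℂ) V₁) (h2m : MDifferentiable 𝓘(ℂ) 𝓘(ℂ) V₂)
    (h1 : ∀ (γ : Gamma0 N) (τ : ℍ), V₁ ((γ : SL(2, ℤ)) • τ) = ((κ γ : ℂˣ) : ℂ) * V₁ τ)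
    (h2 : ∀ (γ : Gamma0 N) (τ : ℍ), V₂ ((γ : SL(2, ℤ)) • τ) = ((κ γ : ℂˣ) : ℂ) * V₂ τ)
    (h1g : (fun τ => V₁ τ ^ p) ∈ goodRing N) (h2g : (fun τ => V₂ τ ^ p) ∈ goodRing N)
    (h1ne : qexpFun 1 (fun τ => V₁ τ ^ p) ≠ 0) (h2ne : qexpFun 1 (fun τ => V₂ τ ^ p) ≠ 0) :
    ∃ g : LaurentSeries ℂ, g ∈ FC N ∧ g ≠ 0 ∧
      qexpFun 1 (fun τ => V₁ τ ^ p) = g ^ p * qexpFun 1 (fun τ => V₂ τ ^ p) := by
  have hp : p ≠ 0 := NeZero.ne p
  have hp1 : p - 1 + 1 = p := Nat.sub_add_cancel (Nat.one_le_iff_ne_zero.mpr hp)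
  set W : ℍ → ℂ := fun τ => V₁ τ * V₂ τ ^ (p - 1) with hWdef
  have hfun : (fun τ => W τ ^ p) = (fun τ => V₁ τ ^ p) * (fun τ => V₂ τ ^ p) ^ (p - 1) := by
    funext τ
    simp only [hWdef, Pi.mul_apply, Pi.pow_apply]
    rw [mul_pow, ← pow_mul, ← pow_mul, mul_comm (p - 1) p]
  have hWinv : ∀ γ ∈ Gamma0 N, ∀ τ : ℍ, W (γ • τ) = W τ := by
    intro γ hγ τ
    have e1 := h1 ⟨γ, hγ⟩ τ
    have e2 := h2 ⟨γ, hγ⟩ τ
    simp only at e1 e2
    simp only [hWdef]
    rw [e1, e2, mul_pow]
    have hk : ((κ ⟨γ, hγ⟩ : ℂˣ) : ℂ) * ((κ ⟨γ, hγ⟩ : ℂˣ) : ℂ) ^ (p - 1) = 1 := by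
      rw [← pow_succ', hp1]
      have h3 := congrArg (fun u : ℂˣ => (u : ℂ)) (hκ ⟨γ, hγ⟩)
      simpa using h3
    calc ((κ ⟨γ, hγ⟩ : ℂˣ) : ℂ) * V₁ τ * (((κ ⟨γ, hγ⟩ : ℂˣ) : ℂ) ^ (p - 1) * V₂ τ ^ (p - 1))
        = (((κ ⟨γ, hγ⟩ : ℂˣ) : ℂ) * ((κ ⟨γ, hγ⟩ : ℂˣ) : ℂ) ^ (p - 1)) *
            (V₁ τ * V₂ τ ^ (p - 1)) := by ring
      _ = V₁ τ * V₂ τ ^ (p - 1) := by rw [hk, one_mul]
  have hW : W ∈ goodRing N := by
    refine H942.mem_goodRing_of_pow_mem N hp (h1m.mul (h2m.pow (p - 1))) hWinv ?_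
    rw [hfun]
    exact (goodRing N).mul_mem h1g ((goodRing N).pow_mem h2g _)
  have hWm := H882.isMerInf_of_mem_goodRing hW
  have h1M := H882.isMerInf_of_mem_goodRing h1g
  have h2M := H882.isMerInf_of_mem_goodRing h2g
  set w := qexpFun 1 W with hw
  set a := qexpFun 1 (fun τ => V₁ τ ^ p) with ha
  set b := qexpFun 1 (fun τ => V₂ τ ^ p) with hb
  have hwFC : w ∈ FC N := H882.qexpFun_mem_FC hW
  have hbFC : b ∈ FC N := H882.qexpFun_mem_FC h2g
  have hwp : w ^ p = a * b ^ (p - 1) := by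
    have hfun' : W ^ p = (fun τ => V₁ τ ^ p) * (fun τ => V₂ τ ^ p) ^ (p - 1) := hfun
    rw [hw, ← H942.qexpFun_pow' hWm p, hfun', qexpFun_mul h1M (h2M.pow (p - 1)),
      H942.qexpFun_pow' h2M (p - 1)]
  refine ⟨w * b⁻¹, mul_mem hwFC (inv_mem hbFC), ?_, ?_⟩
  · refine mul_ne_zero ?_ (inv_ne_zero h2ne)
    intro h0
    rw [h0, zero_pow hp] at hwp
    exact mul_ne_zero h1ne (pow_ne_zero _ h2ne) hwp.symm
  · rw [mul_pow, hwp, inv_pow]
    have hbp : b ^ p = b ^ (p - 1) * b := by rw [← pow_succ, hp1]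
    rw [hbp, mul_inv]
    field_simp

/-- Representatives of the fibres of a map to a finite type. -/
theorem exists_finset_fibre_rep {G X : Type*} [Finite X] (χ : G → X) :
    ∃ s : Finset G, ∀ g : G, ∃ h ∈ s, χ g = χ h := by
  classical
  haveI : Fintype (Set.range χ) := Fintype.ofFinite _
  let r : Set.range χ → G := fun x => x.2.choose
  have hr : ∀ x : Set.range χ, χ (r x) = x := fun x => x.2.choose_spec
  refine ⟨Finset.univ.image r, fun g => ⟨r ⟨χ g, g, rfl⟩, ?_, ?_⟩⟩
  · exact Finset.mem_image_of_mem _ (Finset.mem_univ _)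
  · exact (hr ⟨χ g, g, rfl⟩).symm

/-- **K3-FIN from K3-DFROM.** -/
theorem finStatement_of_dfrom (N : ℕ) [NeZero N] (p : ℕ) [NeZero p]
    (hd : DFromStatement N p) : FinStatement N p := by
  letI := algKC
  intro c hc U hU
  classical
  have hp : p ≠ 0 := NeZero.ne p
  set a : LaurentSeries ℂ := qexpFun 1 (fun τ => U τ ^ p) with ha
  have haFC : a ∈ FC N := H882.qexpFun_mem_FC hU.pow_mem
  have ha0 : a ≠ 0 := H942.qexpFun_pow_ne_zero_of_isTwisted N p hU
  set f₀ : FC N := ⟨a, haFC⟩ with hf₀def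
  have hf₀ : f₀ ≠ 0 := fun h => ha0 (congrArg Subtype.val h)
  have hdvd : ∀ w : Place ℂ (FC N), (p : ℤ) ∣ w.ord f₀ := fun w => dto hc hU rfl w
  -- the data attached to each `σ`
  have key : ∀ σ : ℂ ≃ₐ[Kbar] ℂ, ∃ (s : LaurentSeries ℂ) (V : ℍ → ℂ)
      (κ : {κ : Gamma0 N →* ℂˣ // ∀ γ, κ γ ^ p = 1}), s ∈ FC N ∧ s ≠ 0 ∧
      MDifferentiable 𝓘(ℂ) 𝓘(ℂ) V ∧ (fun τ => V τ ^ p) ∈ goodRing N ∧
      (∀ (γ : Gamma0 N) (τ : ℍ), V ((γ : SL(2, ℤ)) • τ) = ((κ.1 γ : ℂˣ) : ℂ) * V τ) ∧
      qexpFun 1 (fun τ => V τ ^ p) ≠ 0 ∧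
      qexpFun 1 (fun τ => V τ ^ p) = coeffMap (σ : ℂ →+* ℂ) a * s ^ p := by
    intro σ
    set g : SemilinearAut ℂ (FC N) :=
      arithmeticGalois (modularFunctionFieldFull N) (σ.toRingEquiv.toRatAlgEquiv) with hg
    have hcoe : ((g • f₀ : FC N) : LaurentSeries ℂ) = coeffMap (σ : ℂ →+* ℂ) a := rfl
    have hne : g • f₀ ≠ 0 := (smul_ne_zero_iff_ne g).mpr hf₀
    have hdvd' : ∀ w : Place ℂ (FC N), (p : ℤ) ∣ w.ord (g • f₀) := by
      intro w
      have h := SemilinearAut.ord_smul g (g⁻¹ • w) f₀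
      rw [smul_inv_smul] at h
      rw [h]
      exact hdvd _
    obtain ⟨s, hs, hs0, V, hVm, hVg, hq⟩ := hd (g • f₀) hne hdvd'
    rw [hcoe] at hq
    have hqne : qexpFun 1 (fun τ => V τ ^ p) ≠ 0 := by
      rw [hq]
      refine mul_ne_zero ?_ (pow_ne_zero _ hs0)
      rw [← hcoe]
      exact fun h => hne (Subtype.ext h)
    have hV0 : V ≠ 0 := by
      intro h0
      apply hqne
      have : (fun τ => V τ ^ p) = 0 := by
        funext τ
        rw [h0]
        simp [hp]
      rw [this]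
      exact (qexpFun_eq_zero_iff (H882.isMerInf_of_mem_goodRing
        (by rw [← this]; exact hVg))).mpr rfl
    obtain ⟨κ, hκ, hVκ⟩ := H942.exists_kummerChar (Gamma0 N) hVm hV0 hp
      (fun γ hγ z => hVg.2.1 γ hγ z)
    exact ⟨s, V, ⟨κ, hκ⟩, hs, hs0, hVm, hVg, hVκ, hqne, hq⟩
  choose s V κ hs hs0 hVm hVg hVκ hqne hq using key
  haveI := finite_pChar N p
  obtain ⟨R, hR⟩ := exists_finset_fibre_rep κ
  refine ⟨(fun σ : ℂ ≃ₐ[Kbar] ℂ => coeffMap (σ : ℂ →+* ℂ) a) '' (R : Set (ℂ ≃ₐ[Kbar] ℂ)),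
    R.finite_toSet.image _, fun σ => ?_⟩
  obtain ⟨h, hhR, hκeq⟩ := hR σ
  refine ⟨coeffMap (h : ℂ →+* ℂ) a, ⟨h, hhR, rfl⟩, ?_⟩
  have h2 := hVκ h
  rw [← hκeq] at h2
  obtain ⟨g, hg, hg0, hgeq⟩ := exists_pow_mul_eq_of_sameChar (κ σ).1 (κ σ).2 (hVm σ) (hVm h)
    (hVκ σ) h2 (hVg σ) (hVg h) (hqne σ) (hqne h)
  rw [hq σ, hq h] at hgeq
  refine ⟨g * s h * (s σ)⁻¹, mul_mem (mul_mem hg (hs h)) (inv_mem (hs σ)),
    mul_ne_zero (mul_ne_zero hg0 (hs0 h)) (inv_ne_zero (hs0 σ)), ?_⟩
  have hsp : s σ ^ p ≠ 0 := pow_ne_zero _ (hs0 σ)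
  rw [mul_pow, mul_pow, inv_pow]
  field_simp
  rw [hgeq]
  ring

end Fermat.Agent.S29.M4b.K3

end
end
-- ===== PACK-END S29/M4b/K3/Fin.lean

-- ===== PACK-BEGIN S29/M4b/K3/Final.lean
section
/-
S29 row, M4b, piece K3 — `PieceK3 N p` from the single remaining sub-piece `K3-DFROM` (helper42).
-/



set_option autoImplicit false

noncomputable section

open ModularCurve AlgebraicCurve CongruenceSubgroup UpperHalfPlane
open scoped MatrixGroups Manifold

namespace Fermat.Agent.S29.M4b.K3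

open Fermat.Agent.S24 Fermat.Agent.S29 Fermat.Agent.S29.M4b

/-- **PIECE K3** in the `Prop` form of `M4b/Top.lean`, from `K3-DFROM`. -/
theorem pieceK3_of_dfrom (N : ℕ) [NeZero N] (p : ℕ) [NeZero p] (hd : DFromStatement N p) :
    PieceK3 N p :=
  pieceK3_of_fin N p (finStatement_of_dfrom N p hd)

end Fermat.Agent.S29.M4b.K3

end
end
-- ===== PACK-END S29/M4b/K3/Final.lean

-- ===== PACK-BEGIN S29/H282/DictEasy.lean
section


/-!
# S29 / M4b-K2 (helper282) — the places dictionary, easy direction (DICT-easy)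

For every `τ ∈ ℍ` with `j(τ) ∈ ι(K)` the Taylor expansion at `τ` of the avatar defines a place
`placeAtTau` of `FFK K N / K`, and `ord_τ (avatar of f) = k · ord_w f` with `k > 0`.
Hence: if `m ∣ ord_w f` for every place `w`, then `m ∣ ord_τ h` for the avatar `h` of `f`, at
every such `τ` (for `K = ℂ`: at every `τ ∈ ℍ`).
-/

set_option autoImplicit false

noncomputable section

open ModularCurve HahnSeries UpperHalfPlane AlgebraicCurve IntermediateField
open scoped MatrixGroups Manifold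

namespace Fermat.Agent.S29.H282

open Fermat.Agent.S24 Fermat.Agent.S24.H997 Fermat.Agent.S24.Deg457 Fermat.Agent.S24.H624

variable {K : Type*} [Field K] [Algebra ℚ K] (ι : K →+* ℂ)
variable {N : ℕ} [NeZero N] (B : HolBase N) (hB : B.IsHolo)

/-- the embedding "Taylor expansion at `τ` of the avatar" -/
def sigmaTau (τ : ℍ) : FFK K N →+* LaurentSeries ℂ :=
  sigmaGK ι B (B.taylorExpansion hB τ) 1

variable {ι B}

theorem IsAvatar.sigmaTau_eq {f : FFK K N} {h : B.Hol} (hav : IsAvatar ι B f h) (τ : ℍ) :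
    sigmaTau ι B hB τ f = (B.taylorExpansion hB τ).E h := by
  rw [sigmaTau, hav.sigmaGK_eq, inv_one, B.compH_one]

theorem order_taylorExpansion {h : B.Hol} (hh : h ≠ 0) (τ : ℍ) :
    ((B.taylorExpansion hB τ).E h).order = ((ordAt τ (h : ℍ → ℂ)).toNat : ℤ) := by
  have h0 : B.toHolo hB h ≠ 0 := fun h1 =>
    hh (B.toHolo_injective hB (h1.trans (map_zero _).symm))
  rw [HolBase.taylorExpansion_E, order_laurentAt_algebraMap τ h0]
  rfl

theorem IsAvatar.order_sigmaTau {f : FFK K N} {h : B.Hol} (hav : IsAvatar ι B f h)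
    (hh : h ≠ 0) (τ : ℍ) :
    (sigmaTau ι B hB τ f).order = ((ordAt τ (h : ℍ → ℂ)).toNat : ℤ) := by
  rw [hav.sigmaTau_eq hB τ, order_taylorExpansion hB hh τ]

variable (ι B)

theorem eord_sigmaTau_const (τ : ℍ) (c : K) :
    0 ≤ H117.eord (sigmaTau ι B hB τ) (algebraMap K (FFK K N) c) := by
  show 0 ≤ (sigmaGK ι B (B.taylorExpansion hB τ) 1 (algebraMap K (FFK K N) c)).order
  rw [sigmaGK_algebraMap, HahnSeries.order_C]

theorem JH_one_sub_constH_ne_zero (c : ℂ) : B.JH 1 (one_dvd N) - B.constH c ≠ 0 := by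
  intro h0
  have h1 : B.JH 1 (one_dvd N) = B.constH c := sub_eq_zero.mp h0
  have h2 := B.order_qexp_J_one
  rw [h1] at h2
  have h3 : (B.qexp (B.constH c)).order = 0 := by
    show (B.qexp ⟨_, B.const_mem c⟩).order = 0
    rw [B.qexp_const, HahnSeries.order_C]
  rw [h3] at h2
  have hN : (0 : ℤ) < N := by exact_mod_cast Nat.pos_of_ne_zero (NeZero.ne N)
  omega

theorem sigmaTau_jFK_sub (τ : ℍ) (a : K) :
    sigmaTau ι B hB τ (jFK K N - algebraMap K (FFK K N) a)
      = (B.taylorExpansion hB τ).E (B.JH 1 (one_dvd N) - B.constH (ι a)) := by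
  rw [sigmaTau, map_sub, sigmaGK_jFK, sigmaGK_algebraMap, map_sub, (B.taylorExpansion hB τ).const]

theorem exists_eord_sigmaTau_ne_zero (τ : ℍ) (a : K) (ha : ι a = B.J 1 τ) :
    ∃ t : FFK K N, H117.eord (sigmaTau ι B hB τ) t ≠ 0 := by
  refine ⟨jFK K N - algebraMap K (FFK K N) a, ?_⟩
  show (sigmaTau ι B hB τ (jFK K N - algebraMap K (FFK K N) a)).order ≠ 0
  rw [sigmaTau_jFK_sub, order_taylorExpansion hB (JH_one_sub_constH_ne_zero B (ι a)) τ]
  have hne := JH_one_sub_constH_ne_zero B (ι a)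
  set g : B.Hol := B.JH 1 (one_dvd N) - B.constH (ι a) with hg
  have hmd : MDiff (g : ℍ → ℂ) := hB.mdiff _ g.2
  have hg0 : (g : ℍ → ℂ) ≠ 0 := fun h => hne (Subtype.ext h)
  have htop : ordAt τ (g : ℍ → ℂ) ≠ ⊤ := ordAt_ne_top hmd hg0 τ
  have hval : (g : ℍ → ℂ) τ = 0 := by
    show B.J 1 τ - ι a = 0
    rw [ha, sub_self]
  have hz : ordAt τ (g : ℍ → ℂ) ≠ 0 := fun h => (ordAt_eq_zero_iff hmd τ).mp h hval
  intro h0
  have h1 : (ordAt τ (g : ℍ → ℂ)).toNat = 0 := by exact_mod_cast h0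
  rcases (ENat.toNat_eq_zero).mp h1 with h | h
  · exact hz h
  · exact htop h

/-- **The place of `FFK K N / K` at a point `τ ∈ ℍ`** with `j(τ) = ι a`. -/
def placeAtTau (τ : ℍ) (a : K) (ha : ι a = B.J 1 τ) : Place K (FFK K N) :=
  H117.placeOfEmb (sigmaTau ι B hB τ) (eord_sigmaTau_const ι B hB τ)
    (exists_eord_sigmaTau_ne_zero ι B hB τ a ha)

theorem exists_mult_placeAtTau (τ : ℍ) (a : K) (ha : ι a = B.J 1 τ) :
    ∃ k : ℕ, 0 < k ∧ ∀ f : FFK K N,
      (sigmaTau ι B hB τ f).order = k * (placeAtTau ι B hB τ a ha).ord f :=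
  H117.exists_mult (sigmaTau ι B hB τ) _ _

variable {ι B}

/-- `ord_τ h = k · ord_w f` for the avatar `h` of `f`. -/
theorem IsAvatar.exists_ordAt_eq {f : FFK K N} {h : B.Hol} (hav : IsAvatar ι B f h)
    (hh : h ≠ 0) (τ : ℍ) (a : K) (ha : ι a = B.J 1 τ) :
    ∃ k : ℕ, 0 < k ∧
      ((ordAt τ (h : ℍ → ℂ)).toNat : ℤ) = k * (placeAtTau ι B hB τ a ha).ord f := by
  obtain ⟨k, hk, hkf⟩ := exists_mult_placeAtTau ι B hB τ a ha
  exact ⟨k, hk, by rw [← hkf f, hav.order_sigmaTau hB hh τ]⟩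

include hB in
/-- **DICT-easy.**  If `m ∣ ord_w f` at every place `w` of `FFK K N / K`, then `m` divides the
order of vanishing of the avatar `h` of `f` at every `τ ∈ ℍ` with `j(τ) ∈ ι(K)`. -/
theorem IsAvatar.exists_ordAt_eq_mul {f : FFK K N} {h : B.Hol} (hav : IsAvatar ι B f h)
    (hh : h ≠ 0) {m : ℕ} (hdvd : ∀ w : Place K (FFK K N), (m : ℤ) ∣ w.ord f)
    (τ : ℍ) (a : K) (ha : ι a = B.J 1 τ) :
    ∃ k : ℕ, ordAt τ (h : ℍ → ℂ) = ((m * k : ℕ) : ℕ∞) := by
  obtain ⟨k, -, hk⟩ := hav.exists_ordAt_eq hB hh τ a ha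
  have hmd : MDiff (h : ℍ → ℂ) := hB.mdiff _ h.2
  have hh0 : (h : ℍ → ℂ) ≠ 0 := fun h0 => hh (Subtype.ext h0)
  have htop : ordAt τ (h : ℍ → ℂ) ≠ ⊤ := ordAt_ne_top hmd hh0 τ
  have h1 : (m : ℤ) ∣ ((ordAt τ (h : ℍ → ℂ)).toNat : ℤ) := by
    rw [hk]
    exact Dvd.dvd.mul_left (hdvd _) _
  obtain ⟨l, hl⟩ := Int.natCast_dvd_natCast.mp h1
  refine ⟨l, ?_⟩
  rw [← hl, ENat.natCast_toNat htop]

end Fermat.Agent.S29.H282

end
end
-- ===== PACK-END S29/H282/DictEasy.lean

-- ===== PACK-BEGIN S29/H282/DictC.lean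
section




/-!
# S29 / M4b / K3 (helper282) — the dictionary over `ℂ` (and any alg. closed `K ⊆ ℂ`), K3 language

Sub-pieces (F1) and (F4) of helper42's K3 sub-skeleton (`coord/S29-K3.md`):

* `mem_holN_of_mem_goodRing`       : a good function lies in the S24 ring `holN N`;
* `isAvatar_of_hasQExp`            : `G ∈ holN N` with `q`-expansion `coeffMap ι f` is an avatar of `f`;
* `dvd_ord_of_isTwisted` (**F1**, generic `K`) and `dvd_ord_of_isTwisted_complex` (**F1**, `K = ℂ`):
  `U` twisted of a parabolic+elliptic-trivial character, `f = qexp (U ^ p) ∈ F_K`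
  ⟹ `p ∣ ord_w f` at EVERY place `w` of `F_K / K`;
* `exists_ordAt_eq_mul_of_forall_dvd_ord` (**DICT-easy**, `K = ℂ`) and
  `exists_pow_eq_of_forall_dvd_ord` (**F4** = DICT-easy + ROOT): `G` good, `G ≢ 0`,
  `m ∣ ord_w (qexp G)` at every place `w` of `F_ℂ / ℂ` ⟹ `G = V ^ m`, `V` holomorphic on `ℍ`.
-/

set_option autoImplicit false

noncomputable section

open ModularCurve AlgebraicCurve CongruenceSubgroup UpperHalfPlane
open scoped MatrixGroups Manifold Real

namespace Fermat.Agent.S29.H282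

open Fermat.Agent.S24 Fermat.Agent.S24.H997 Fermat.Agent.S24.H648 Fermat.Agent.S24.H708
open Fermat.Agent.S24.H624
open Fermat.Agent.S29 Fermat.Agent.S29.M4b Fermat.Agent.S29.H332

variable {N : ℕ} [NeZero N]

/-- the translates of a `Γ₀(N)`-invariant function are `N`-periodic -/
theorem periodic_compSL_of_invariant {G : ℍ → ℂ}
    (hinv : ∀ γ ∈ Gamma0 N, ∀ τ : ℍ, G (γ • τ) = G τ) (g : SL(2, ℤ)) :
    Function.Periodic (compSL g G ∘ ofComplex) (N : ℝ) := by
  have hh : HasCharacter (1 : CongruenceSubgroup.Gamma0 N →* ℂˣ) G := by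
    intro γ τ
    rw [hinv γ γ.2 τ]
    simp
  have hχ : ParTrivial (1 : CongruenceSubgroup.Gamma0 N →* ℂˣ) := fun _ _ => rfl
  exact hh.periodic hχ g N (by simpa using conj_T_zpow_mem_Gamma0 N g 1)

/-- **A good function lies in `holN N`.** -/
theorem mem_holN_of_mem_goodRing {G : ℍ → ℂ} (hG : G ∈ goodRing N) : G ∈ holN N := by
  obtain ⟨hmd, hinv, hgr⟩ := hG
  refine ⟨hmd, fun g => ?_⟩
  have hhol : MDiff (compSL g G) := (precompSL g ⟨G, hmd⟩).2
  have hmer : IsMerInf N (compSL g G) :=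
    ⟨hhol, periodic_compSL_of_invariant hinv g, isBounded_mul_qh_pow_level N (hgr g)⟩
  have hq := HasQExp.of_isMerInf hmer
  have hinf : InfExp N (compSL g G) (qexpFun N (compSL g G)) := fun τ => hq.hasSum τ
  exact hinf.mem_expRing

section Generic

variable {K : Type*} [Field K] [Algebra ℚ K] (ι : K →+* ℂ)

/-- a function of `holN N` whose `q`-expansion is `coeffMap ι f` is an avatar of `f` -/
theorem isAvatar_of_hasQExp {G : ℍ → ℂ} (hG : G ∈ holN N) {f : FFK K N}
    (hq : HasQExp 1 G (coeffMap ι (f : LaurentSeries K))) :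
    IsAvatar ι (analyticCore N).toHolBase f (⟨G, hG⟩ : (analyticCore N).Hol) := by
  have hinf : InfExp N G (qExpand ℂ N (coeffMap ι (f : LaurentSeries K))) :=
    infExp_level_of_hasQExp hq
  exact (expInf_spec (holToExp N (⟨G, hG⟩ : holN N))).unique hinf

theorem isAvatar_of_mem_goodRing {G : ℍ → ℂ} (hG : G ∈ goodRing N) {f : FFK K N}
    (hq : qexpFun 1 G = coeffMap ι (f : LaurentSeries K)) :
    IsAvatar ι (analyticCore N).toHolBase f
      (⟨G, mem_holN_of_mem_goodRing hG⟩ : (analyticCore N).Hol) :=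
  isAvatar_of_hasQExp ι _ (hq ▸ Fermat.Agent.S29.H882.hasQExp_of_mem_goodRing hG)

variable {p : ℕ} [NeZero p]

/-- **(F1), generic `K`**: DICT-hard for twisted functions. -/
theorem dvd_ord_of_isTwisted [IsAlgClosed K] {c : G0 N → ZMod p} (hc : IsParHom c)
    {U : ℍ → ℂ} (hU : IsTwisted N p c U) {f : FFK K N}
    (hq : qexpFun 1 (fun τ => U τ ^ p) = coeffMap ι (f : LaurentSeries K))
    (w : Place K (FFK K N)) : (p : ℤ) ∣ w.ord f := by
  have hav : IsAvatar ι (analyticCore N).toHolBase f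
      ((⟨U, mem_holN_of_isTwisted hc hU⟩ : (analyticCore N).Hol) ^ p) :=
    isAvatar_of_hasQExp ι (G := fun τ => U τ ^ p)
      (pow_mem (mem_holN_of_isTwisted hc hU) p)
      (hq ▸ Fermat.Agent.S29.H882.hasQExp_of_mem_goodRing hU.pow_mem)
  have hinv : IsUnramified (analyticCore N).toHolBase
      (⟨U, mem_holN_of_isTwisted hc hU⟩ : (analyticCore N).Hol) := by
    intro γ hγ hsp
    apply Subtype.ext
    funext τ
    show U (γ • τ) = U τ
    have h := hU.hasChar ⟨γ, hγ⟩ τ
    have h0 : c ⟨γ, hγ⟩ = 0 := by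
      rcases hsp with ⟨n, hn, h⟩ | h
      · exact hc.elliptic ⟨γ, hγ⟩ n hn (Subtype.ext (by simpa using h))
      · exact hc.parabolic ⟨γ, hγ⟩ (Or.inl h)
    rw [h0] at h
    simpa using h
  exact dvd_ord_of_isAvatar_pow hinv hav w

/-- **DICT-easy, generic `K`**, for good functions: at every `τ` with `j(τ) ∈ ι(K)`. -/
theorem exists_ordAt_eq_mul_of_forall_dvd_ord_at {G : ℍ → ℂ} (hG : G ∈ goodRing N)
    (hG0 : G ≠ 0) {f : FFK K N} (hq : qexpFun 1 G = coeffMap ι (f : LaurentSeries K))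
    {m : ℕ} (hdvd : ∀ w : Place K (FFK K N), (m : ℤ) ∣ w.ord f)
    (τ : ℍ) (a : K) (ha : ι a = JFun.jFun τ) :
    ∃ k : ℕ, analyticOrderAt (G ∘ ofComplex) (τ : ℂ) = ((m * k : ℕ) : ℕ∞) := by
  have hav := isAvatar_of_mem_goodRing ι hG hq
  have hh : (⟨G, mem_holN_of_mem_goodRing hG⟩ : (analyticCore N).Hol) ≠ 0 := fun h0 =>
    hG0 (congrArg Subtype.val h0)
  have ha' : ι a = (analyticCore N).toHolBase.J 1 τ := by
    rw [ha]
    show JFun.jFun τ = Jd 1 τ
    rw [Jd_one]
    rfl
  exact hav.exists_ordAt_eq_mul (holBase_isHolo N) hh hdvd τ a ha'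

end Generic

/-! ### `K = ℂ` -/

section Complex

variable {p : ℕ} [NeZero p]

/-- **(F1)**: DICT-hard over `ℂ`.  `f = qexp (U ^ p)` as an element of `F_ℂ`. -/
theorem dvd_ord_of_isTwisted_complex {c : G0 N → ZMod p} (hc : IsParHom c)
    {U : ℍ → ℂ} (hU : IsTwisted N p c U)
    (hf : qexpFun 1 (fun τ => U τ ^ p) ∈ laurentBaseChange ℂ (modularFunctionFieldFull N))
    (w : Place ℂ ↥(laurentBaseChange ℂ (modularFunctionFieldFull N))) :
    (p : ℤ) ∣ w.ord ⟨qexpFun 1 (fun τ => U τ ^ p), hf⟩ :=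
  dvd_ord_of_isTwisted (K := ℂ) (RingHom.id ℂ) hc hU
    (f := ⟨qexpFun 1 (fun τ => U τ ^ p), hf⟩) (coeffMap_id _).symm w

/-- **DICT-easy over `ℂ`**: `G` good, `m ∣ ord_w (qexp G)` at every place of `F_ℂ/ℂ` ⟹
`m ∣ ord_τ G` at every `τ ∈ ℍ` (the exact hypothesis of `H751.exists_pow_eq_UHP`). -/
theorem exists_ordAt_eq_mul_of_forall_dvd_ord {G : ℍ → ℂ} (hG : G ∈ goodRing N) (hG0 : G ≠ 0)
    (hf : qexpFun 1 G ∈ laurentBaseChange ℂ (modularFunctionFieldFull N)) {m : ℕ}
    (hdvd : ∀ w : Place ℂ ↥(laurentBaseChange ℂ (modularFunctionFieldFull N)),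
      (m : ℤ) ∣ w.ord ⟨qexpFun 1 G, hf⟩) (τ : ℍ) :
    ∃ k : ℕ, analyticOrderAt (G ∘ ofComplex) (τ : ℂ) = ((m * k : ℕ) : ℕ∞) :=
  exists_ordAt_eq_mul_of_forall_dvd_ord_at (K := ℂ) (RingHom.id ℂ) hG hG0
    (f := ⟨qexpFun 1 G, hf⟩) (coeffMap_id _).symm hdvd τ (JFun.jFun τ) rfl

/-- **(F4)** = DICT-easy + ROOT: a good function all of whose orders at the places of `F_ℂ/ℂ`
are divisible by `m` is the `m`-th power of a holomorphic function on `ℍ`. -/
theorem exists_pow_eq_of_forall_dvd_ord {G : ℍ → ℂ} (hG : G ∈ goodRing N) (hG0 : G ≠ 0)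
    (hf : qexpFun 1 G ∈ laurentBaseChange ℂ (modularFunctionFieldFull N)) {m : ℕ} (hm : m ≠ 0)
    (hdvd : ∀ w : Place ℂ ↥(laurentBaseChange ℂ (modularFunctionFieldFull N)),
      (m : ℤ) ∣ w.ord ⟨qexpFun 1 G, hf⟩) :
    ∃ V : ℍ → ℂ, MDifferentiable 𝓘(ℂ) 𝓘(ℂ) V ∧ ∀ τ : ℍ, V τ ^ m = G τ :=
  Fermat.Agent.S29.H751.exists_pow_eq_UHP hG.1 m hm
    (fun τ => exists_ordAt_eq_mul_of_forall_dvd_ord hG hG0 hf hdvd τ)

end Complex

end Fermat.Agent.S29.H282

end
end
-- ===== PACK-END S29/H282/DictC.lean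

-- ===== PACK-BEGIN S29/H282/DFrom.lean
section



/-!
# S29 / M4b / K3-DFROM (helper282)

`exists_root_of_forall_dvd_ord` : let `f ≠ 0` be an element of the function field `F_ℂ` of `X₀(N)`
over `ℂ` such that `p ∣ ord_w f` at EVERY place `w` of `F_ℂ/ℂ`.  Then there are `s ∈ F_ℂ`, `s ≠ 0`,
and a holomorphic `V : ℍ → ℂ`, `V ≢ 0`, with `V ^ p` good and `qexp (V ^ p) = f * s ^ p`; moreover
`V` transforms under `Γ₀(N)` by a character `χ` with `χ ^ p = 1`, i.e. `V` is twisted
(`M4b.IsTwisted`) of an additive character `c : Γ₀(N) → ℤ/p`.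
-/

set_option autoImplicit false

noncomputable section

open ModularCurve AlgebraicCurve CongruenceSubgroup UpperHalfPlane
open scoped MatrixGroups Manifold Real

namespace Fermat.Agent.S29.H282

open Fermat.Agent.S24 Fermat.Agent.S24.H997 Fermat.Agent.S24.H648 Fermat.Agent.S24.H708
open Fermat.Agent.S24.H624 Fermat.Agent.S24.Deg457
open Fermat.Agent.S29 Fermat.Agent.S29.M4b Fermat.Agent.S29.H332

variable {N : ℕ} [NeZero N]

/-! ### The character of a `p`-th root of an invariant function -/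

/-- If `V` is holomorphic, `V ≢ 0` and `V ^ p` is `Γ₀(N)`-invariant, then for every `γ ∈ Γ₀(N)`
there is a `p`-th root of unity `z` with `V (γ τ) = z V(τ)`. -/
theorem exists_root_of_unity_of_pow_invariant {p : ℕ} (hp : p ≠ 0) {V : ℍ → ℂ}
    (hV : MDifferentiable 𝓘(ℂ) 𝓘(ℂ) V) {τ₁ : ℍ} (hτ₁ : V τ₁ ≠ 0)
    (hinv : ∀ γ ∈ Gamma0 N, ∀ τ : ℍ, V (γ • τ) ^ p = V τ ^ p) (γ : SL(2, ℤ))
    (hγ : γ ∈ Gamma0 N) :
    ∃ z : ℂ, z ^ p = 1 ∧ ∀ τ : ℍ, V (γ • τ) = z * V τ := by
  have hA1 : V (γ • τ₁) ≠ 0 := by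
    intro h0
    have := hinv γ hγ τ₁
    rw [h0, zero_pow hp] at this
    exact pow_ne_zero p hτ₁ this.symm
  set z : ℂ := V (γ • τ₁) / V τ₁ with hz
  have hzp : z ^ p = 1 := by
    rw [hz, div_pow, hinv γ hγ τ₁, div_self (pow_ne_zero p hτ₁)]
  refine ⟨z, hzp, fun τ => ?_⟩
  have hAd : MDifferentiable 𝓘(ℂ) 𝓘(ℂ) (fun τ : ℍ => V (γ • τ)) :=
    H648.mdifferentiable_comp_smul hV γ
  have hBd : MDifferentiable 𝓘(ℂ) 𝓘(ℂ) (fun τ : ℍ => z * V τ) :=
    (mdifferentiable_const (c := z)).mul hV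
  have := Fermat.Agent.S29.H751.eq_of_pow_eq_UHP hAd hBd hp (fun τ => by
    show V (γ • τ) ^ p = (z * V τ) ^ p
    rw [hinv γ hγ τ, mul_pow, hzp, one_mul]) (τ₀ := τ₁)
    (by
      show V (γ • τ₁) = z * V τ₁
      rw [hz, div_mul_cancel₀ _ hτ₁]) hA1
  exact congrFun this τ

theorem isPrimitiveRoot_zetaP (p : ℕ) [NeZero p] : IsPrimitiveRoot (zetaP p) p := by
  unfold zetaP
  exact Complex.isPrimitiveRoot_exp p (NeZero.ne p)

/-- the additive character of a `p`-th root of an invariant function -/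
theorem exists_hasChar_of_pow_invariant {p : ℕ} [NeZero p] {V : ℍ → ℂ}
    (hV : MDifferentiable 𝓘(ℂ) 𝓘(ℂ) V) (hV0 : ∃ τ, V τ ≠ 0)
    (hinv : ∀ γ ∈ Gamma0 N, ∀ τ : ℍ, V (γ • τ) ^ p = V τ ^ p) :
    ∃ c : G0 N → ZMod p, (∀ γ γ' : G0 N, c (γ * γ') = c γ + c γ') ∧ HasChar N p c V := by
  classical
  obtain ⟨τ₁, hτ₁⟩ := hV0
  have hprim := isPrimitiveRoot_zetaP p
  have key : ∀ γ : G0 N, ∃ k : ZMod p, ∀ τ : ℍ,
      V ((γ : SL(2, ℤ)) • τ) = zetaP p ^ k.val * V τ := by
    intro γ
    obtain ⟨z, hzp, hz⟩ := exists_root_of_unity_of_pow_invariant (NeZero.ne p) hV hτ₁ hinv γ γ.2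
    obtain ⟨i, hi, rfl⟩ := hprim.eq_pow_of_pow_eq_one hzp
    refine ⟨(i : ZMod p), fun τ => ?_⟩
    rw [hz τ, ZMod.val_natCast, Nat.mod_eq_of_lt hi]
  choose c hc using key
  refine ⟨c, fun γ γ' => ?_, hc⟩
  -- additivity
  have h1 := hc (γ * γ') τ₁
  have h2 := hc γ ((γ' : SL(2, ℤ)) • τ₁)
  have h3 := hc γ' τ₁
  have hsm : ((γ * γ' : G0 N) : SL(2, ℤ)) • τ₁
      = (γ : SL(2, ℤ)) • ((γ' : SL(2, ℤ)) • τ₁) := by
    rw [Subgroup.coe_mul, mul_smul]
  rw [hsm, h2, h3, ← mul_assoc, ← pow_add] at h1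
  have h4 : zetaP p ^ ((c γ).val + (c γ').val) = zetaP p ^ (c (γ * γ')).val :=
    mul_right_cancel₀ hτ₁ h1
  have hfin : IsOfFinOrder (zetaP p) :=
    isOfFinOrder_iff_pow_eq_one.mpr ⟨p, Nat.pos_of_ne_zero (NeZero.ne p), hprim.pow_eq_one⟩
  have h5 : ((c γ).val + (c γ').val) ≡ (c (γ * γ')).val [MOD p] := by
    have := hfin.pow_eq_pow_iff_modEq.mp h4
    rwa [← hprim.eq_orderOf] at this
  have h6 : (((c γ).val + (c γ').val : ℕ) : ZMod p) = ((c (γ * γ')).val : ZMod p) :=
    (ZMod.natCast_eq_natCast_iff _ _ _).mpr h5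
  rw [Nat.cast_add, ZMod.natCast_zmod_val, ZMod.natCast_zmod_val, ZMod.natCast_zmod_val] at h6
  exact h6.symm

/-! ### DFROM -/

/-- **K3-DFROM.** -/
theorem exists_root_of_forall_dvd_ord (N : ℕ) [NeZero N] (p : ℕ) [NeZero p]
    {f : LaurentSeries ℂ} (hf : f ∈ laurentBaseChange ℂ (modularFunctionFieldFull N))
    (hf0 : f ≠ 0)
    (hdvd : ∀ w : Place ℂ ↥(laurentBaseChange ℂ (modularFunctionFieldFull N)),
      (p : ℤ) ∣ w.ord ⟨f, hf⟩) :
    ∃ s : LaurentSeries ℂ, s ∈ laurentBaseChange ℂ (modularFunctionFieldFull N) ∧ s ≠ 0 ∧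
      ∃ V : ℍ → ℂ, MDifferentiable 𝓘(ℂ) 𝓘(ℂ) V ∧ (∃ τ, V τ ≠ 0) ∧
        (fun τ => V τ ^ p) ∈ goodRing N ∧ qexpFun 1 (fun τ => V τ ^ p) = f * s ^ p ∧
        ∃ c : G0 N → ZMod p, (∀ γ γ' : G0 N, c (γ * γ') = c γ + c γ') ∧
          IsTwisted N p c V := by
  have hp : p ≠ 0 := NeZero.ne p
  -- write `f = r / t` with `r, t` polynomials in the `j(q^d)`
  obtain ⟨r, t, ht, hfrt⟩ := exists_div_inclRNK ℂ N ⟨f, hf⟩
  have ht' : inclRNK ℂ N t ≠ 0 := fun h0 =>
    ht (inclRNK_injective ℂ N (h0.trans (map_zero _).symm))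
  have hts : ((t : RNK ℂ N) : LaurentSeries ℂ) ≠ 0 := fun h0 => ht (Subtype.ext h0)
  have hfF : (⟨f, hf⟩ : FFK ℂ N) ≠ 0 := fun h0 => hf0 (congrArg Subtype.val h0)
  -- the good function with `q`-expansion `r * t ^ (p - 1) = f * t ^ p`
  have hmem : ((r * t ^ (p - 1) : RNK ℂ N) : LaurentSeries ℂ) ∈ AK ℂ N := (r * t ^ (p - 1)).2
  obtain ⟨G, hG, hGq⟩ := Fermat.Agent.S29.H882.AK_le_goodQ N hmem
  have hgF : (⟨f, hf⟩ : FFK ℂ N) * inclRNK ℂ N t ^ p = inclRNK ℂ N (r * t ^ (p - 1)) := by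
    rw [hfrt, map_mul, map_pow]
    have : p = (p - 1) + 1 := (Nat.succ_pred_eq_of_ne_zero hp).symm
    conv_lhs => rw [this, pow_succ]
    field_simp
  have hgL : f * ((t : RNK ℂ N) : LaurentSeries ℂ) ^ p
      = ((r * t ^ (p - 1) : RNK ℂ N) : LaurentSeries ℂ) := by
    have := congrArg (fun x : FFK ℂ N => (x : LaurentSeries ℂ)) hgF
    simpa using this
  have hqG : qexpFun 1 G = f * ((t : RNK ℂ N) : LaurentSeries ℂ) ^ p := by
    rw [hGq.qexpFun_eq, hgL]
  have hfs : qexpFun 1 G ∈ laurentBaseChange ℂ (modularFunctionFieldFull N) :=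
    Fermat.Agent.S29.H882.qexpFun_mem_FC hG
  have hGF : (⟨qexpFun 1 G, hfs⟩ : FFK ℂ N) = ⟨f, hf⟩ * inclRNK ℂ N t ^ p := by
    apply Subtype.ext
    show qexpFun 1 G = ((⟨f, hf⟩ * inclRNK ℂ N t ^ p : FFK ℂ N) : LaurentSeries ℂ)
    rw [hqG]
    simp
  have hG0 : G ≠ 0 := by
    intro h0
    have h1 : qexpFun 1 G = 0 := (qexpFun_eq_zero_iff hGq.isMerInf).mpr h0
    rw [hqG] at h1
    rcases mul_eq_zero.mp h1 with h | h
    · exact hf0 h
    · exact hts (pow_eq_zero_iff hp |>.mp h)
  -- divisibility of the orders of `f * t ^ p`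
  have hdvd' : ∀ w : Place ℂ ↥(laurentBaseChange ℂ (modularFunctionFieldFull N)),
      (p : ℤ) ∣ w.ord ⟨qexpFun 1 G, hfs⟩ := by
    intro w
    rw [hGF, w.ord_mul hfF (pow_ne_zero p ht'), H117.ord_pow]
    exact dvd_add (hdvd w) (dvd_mul_right _ _)
  -- the root
  obtain ⟨V, hVmd, hVp⟩ := exists_pow_eq_of_forall_dvd_ord hG hG0 hfs hp hdvd'
  have hVG : (fun τ => V τ ^ p) = G := funext hVp
  have hV0 : ∃ τ, V τ ≠ 0 := by
    by_contra hcon
    push Not at hcon
    apply hG0
    funext τ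
    rw [← hVp τ, hcon τ, zero_pow hp]
    rfl
  have hVinv : ∀ γ ∈ Gamma0 N, ∀ τ : ℍ, V (γ • τ) ^ p = V τ ^ p := by
    intro γ hγ τ
    rw [hVp, hVp]
    exact hG.2.1 γ hγ τ
  obtain ⟨c, hcadd, hchar⟩ := exists_hasChar_of_pow_invariant hVmd hV0 hVinv
  refine ⟨((t : RNK ℂ N) : LaurentSeries ℂ), (inclRNK ℂ N t).2, hts, V, hVmd, hV0,
    hVG ▸ hG, ?_, c, hcadd, ⟨hVmd, hV0, hchar, hVG ▸ hG⟩⟩
  rw [hVG, hqG]

end Fermat.Agent.S29.H282

end
end
-- ===== PACK-END S29/H282/DFrom.lean

-- ===== PACK-BEGIN S29/M4b/H822/K4Basic.lean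
section
/-
S29 / M4b (helper822): PIECES `K4-ADD` (`isKum_add`) and `K4-INJ` (`isKum_zero_right`) of
`M4b/Skeleton.lean`, exact statements.  Sorry-free.
-/




set_option autoImplicit false

noncomputable section

open ModularCurve AlgebraicCurve CongruenceSubgroup UpperHalfPlane
open scoped MatrixGroups Manifold

namespace Fermat.Agent.S29.M4b.H822

open Fermat.Agent.S24 Fermat.Agent.S29 Fermat.Agent.S29.M4b

variable (N : ℕ) [NeZero N] (p : ℕ) [NeZero p]

/-- A function which is not the zero function has a point of non-vanishing. -/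
theorem exists_ne_zero_of_ne_zero {G : ℍ → ℂ} (h : G ≠ 0) : ∃ τ : ℍ, G τ ≠ 0 := by
  by_contra hh
  exact h (funext fun τ => not_not.mp fun hτ => hh ⟨τ, hτ⟩)

/-- PIECE `K4-ADD`: additivity of the Kummer relation. -/
theorem isKum_add {c c' : G0 N → ZMod p} {x x' : JZero N}
    (h : IsKum N p c x) (h' : IsKum N p c' x') : IsKum N p (c + c') (x + x') := by
  obtain ⟨f, t, U, ht, hx, hU, hr⟩ := h
  obtain ⟨f', t', U', ht', hx', hU', hr'⟩ := h'
  have hfun : (fun τ => (U τ * U' τ) ^ p) = (fun τ => U τ ^ p) * (fun τ => U' τ ^ p) := by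
    funext τ
    simp [mul_pow]
  have hreal : Realises N (f * f' * (t * t') ^ p) (fun τ => (U τ * U' τ) ^ p) := by
    have h1 := realises_mul hr hr'
    rw [hfun]
    have h2 : f * f' * (t * t') ^ p = f * t ^ p * (f' * t' ^ p) := by ring
    rw [h2]
    exact h1
  refine ⟨f * f', t * t', fun τ => U τ * U' τ, mul_ne_zero ht ht', hx.add hx', ?_, hreal⟩
  refine ⟨hU.mdiff.mul hU'.mdiff, ?_, hasChar_mul hU.hasChar hU'.hasChar, hreal.1⟩
  have hne : f * f' * (t * t') ^ p ≠ 0 :=
    mul_ne_zero (mul_ne_zero hx.ne_zero hx'.ne_zero) (pow_ne_zero _ (mul_ne_zero ht ht'))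
  obtain ⟨τ, hτ⟩ := exists_ne_zero_of_ne_zero (realises_ne_zero hreal hne)
  refine ⟨τ, fun h0 => hτ ?_⟩
  show (U τ * U' τ) ^ p = 0
  rw [h0, zero_pow (NeZero.ne p)]

/-- PIECE `K4-INJ`: only the trivial character has Kummer class `0`. -/
theorem isKum_zero_right {c : G0 N → ZMod p} (h : IsKum N p c (0 : JZero N)) : c = 0 := by
  obtain ⟨f, t, U, ht, hx, hU, hr⟩ := h
  have hp0 : (p : ℤ) ≠ 0 := by exact_mod_cast NeZero.ne p
  have hpn : p ≠ 0 := NeZero.ne p
  obtain ⟨g, hg, hfg⟩ := (hx.eq_zero_iff hp0).mp rfl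
  have hf0 := hx.ne_zero
  -- `f / g ^ p` is a constant
  have hu : ∀ v : Place Kbar (FF N), v.ord (f / g ^ p) = 0 := by
    intro v
    have hpow : v.ord (g ^ p) = (p : ℤ) * v.ord g := by
      rw [← zpow_natCast, Place.ord_zpow]
    rw [div_eq_mul_inv, Place.ord_mul v hf0 (inv_ne_zero (pow_ne_zero _ hg)), Place.ord_inv,
      hpow, hfg v]
    ring
  obtain ⟨a0, ha0⟩ := Fermat.Agent.S18.H564.constOfOrdZero_modularFunctionFieldBar N (f / g ^ p)
    (div_ne_zero hf0 (pow_ne_zero _ hg)) hu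
  obtain ⟨b0, hb0⟩ := IsAlgClosed.exists_pow_nat_eq a0 (Nat.pos_of_ne_zero hpn)
  -- `f * t ^ p = v ^ p`
  set v : FF N := algebraMap Kbar (FF N) b0 * g * t with hv
  have hvp : v ^ p = f * t ^ p := by
    have h1 : f = algebraMap Kbar (FF N) a0 * g ^ p := by
      rw [← ha0, div_mul_cancel₀ _ (pow_ne_zero _ hg)]
    rw [hv, mul_pow, mul_pow, ← map_pow, hb0, ← h1]
  have hv0 : v ≠ 0 := by
    intro h0
    have : f * t ^ p = 0 := by rw [← hvp, h0, zero_pow hpn]
    exact (mul_ne_zero hf0 (pow_ne_zero _ ht)) this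
  -- `v = A / B` with `A, B` polynomials in the `j(q^d)`
  obtain ⟨A, B, hB0, hvAB⟩ := H997.exists_div_inclRN N v
  have hB0' : H997.inclRN N B ≠ 0 := fun h0 =>
    hB0 (H997.inclRN_injective N (by rw [h0, map_zero]))
  have hA0' : H997.inclRN N A ≠ 0 := by
    intro h0
    rw [h0, zero_div] at hvAB
    exact hv0 hvAB
  obtain ⟨GA, hGA⟩ := exists_realises_of_mem_AK (a := H997.inclRN N A) A.2
  obtain ⟨GB, hGB⟩ := exists_realises_of_mem_AK (a := H997.inclRN N B) B.2
  have h3 : f * t ^ p * (H997.inclRN N B) ^ p = (H997.inclRN N A) ^ p := by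
    rw [← hvp, ← mul_pow, hvAB, div_mul_cancel₀ _ hB0']
  have h1 : Realises N ((H997.inclRN N A) ^ p) ((fun τ => U τ ^ p) * GB ^ p) := by
    have := realises_mul hr (realises_pow hGB p)
    rwa [h3] at this
  have h4 : (fun τ => U τ ^ p) * GB ^ p = GA ^ p := realises_unique_right h1 (realises_pow hGA p)
  have h5 : ∀ τ : ℍ, (U τ * GB τ) ^ p = GA τ ^ p := by
    intro τ
    have := congrFun h4 τ
    simp only [Pi.mul_apply, Pi.pow_apply] at this
    rw [mul_pow]
    exact this
  obtain ⟨τ₀, hτ₀⟩ := exists_ne_zero_of_ne_zero (realises_ne_zero hGA hA0')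
  have hUB0 : U τ₀ * GB τ₀ ≠ 0 := by
    intro h0
    have := h5 τ₀
    rw [h0, zero_pow hpn] at this
    exact hτ₀ (pow_eq_zero_iff hpn |>.mp this.symm)
  set z : ℂ := U τ₀ * GB τ₀ / GA τ₀ with hz
  have hzp : z ^ p = 1 := by
    rw [hz, div_pow, h5 τ₀, div_self (pow_ne_zero _ hτ₀)]
  have hGAmd : MDifferentiable 𝓘(ℂ) 𝓘(ℂ) GA := hGA.1.1
  have hGBmd : MDifferentiable 𝓘(ℂ) 𝓘(ℂ) GB := hGB.1.1
  have hEq : (fun τ => U τ * GB τ) = fun τ => z * GA τ := by
    refine H751.eq_of_pow_eq_UHP (hU.mdiff.mul hGBmd) (mdifferentiable_const.mul hGAmd) hpn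
      (fun τ => ?_) (τ₀ := τ₀) ?_ hUB0
    · show (U τ * GB τ) ^ p = (z * GA τ) ^ p
      rw [mul_pow z, hzp, one_mul, h5 τ]
    · show U τ₀ * GB τ₀ = z * GA τ₀
      rw [hz, div_mul_cancel₀ _ hτ₀]
  funext γ
  have hinvA : GA ((γ : SL(2, ℤ)) • τ₀) = GA τ₀ := hGA.1.2.1 _ γ.2 τ₀
  have hinvB : GB ((γ : SL(2, ℤ)) • τ₀) = GB τ₀ := hGB.1.2.1 _ γ.2 τ₀
  have e1 := congrFun hEq ((γ : SL(2, ℤ)) • τ₀)
  have e2 := congrFun hEq τ₀
  rw [hinvA, hinvB, ← e2, hU.hasChar γ τ₀] at e1
  have e3 : (zetaP p ^ (c γ).val - 1) * (U τ₀ * GB τ₀) = 0 := by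
    linear_combination e1
  rcases mul_eq_zero.mp e3 with h | h
  · exact (zetaP_pow_val_eq_one_iff p (c γ)).mp (sub_eq_zero.mp h)
  · exact absurd h hUB0

end Fermat.Agent.S29.M4b.H822

end
end
-- ===== PACK-END S29/M4b/H822/K4Basic.lean

-- ===== PACK-BEGIN S29/M4b/H822/K4Uniq.lean
section
/-
S29 / M4b (helper822): PIECE `K4-UNIQ` (`isKum_unique`) of `M4b/Skeleton.lean`, exact statement.
Sorry-free.  Inputs (all on main): MERO `H882.qexpFun_mem_FC`, `H32.mem_range_of_finite_orbit`,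
`H32.exists_of_coeff_mem_range`, `H455.IsKummerClass` API.
-/




set_option autoImplicit false

noncomputable section

open ModularCurve AlgebraicCurve CongruenceSubgroup UpperHalfPlane
open scoped MatrixGroups Manifold

namespace Fermat.Agent.S29.M4b.H822

open Fermat.Agent.S24 Fermat.Agent.S29 Fermat.Agent.S29.M4b

/-! ### Growth of roots -/

theorem expGrowth_of_pow {F : ℍ → ℂ} {p : ℕ} (hp : p ≠ 0)
    (h : H648.ExpGrowth (fun τ => F τ ^ p)) : H648.ExpGrowth F := by
  obtain ⟨C, m, hC⟩ := h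
  refine ⟨1 + |C|, m, fun τ hτ => ?_⟩
  have h1 := hC τ hτ
  rw [norm_pow] at h1
  have hE : (1 : ℝ) ≤ Real.exp (2 * Real.pi * m * τ.im) := by
    apply Real.one_le_exp
    have : (0 : ℝ) ≤ τ.im := τ.im_pos.le
    positivity
  have h2 : ‖F τ‖ ≤ 1 + ‖F τ‖ ^ p := by
    rcases le_or_gt ‖F τ‖ 1 with h | h
    · have : (0 : ℝ) ≤ ‖F τ‖ ^ p := by positivity
      linarith
    · have : ‖F τ‖ ≤ ‖F τ‖ ^ p := le_self_pow₀ h.le hp
      linarith
  have h3 : C * Real.exp (2 * Real.pi * m * τ.im) ≤ |C| * Real.exp (2 * Real.pi * m * τ.im) :=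
    mul_le_mul_of_nonneg_right (le_abs_self C) (Real.exp_pos _).le
  calc ‖F τ‖ ≤ 1 + ‖F τ‖ ^ p := h2
    _ ≤ 1 + |C| * Real.exp (2 * Real.pi * m * τ.im) := by linarith
    _ ≤ Real.exp (2 * Real.pi * m * τ.im) + |C| * Real.exp (2 * Real.pi * m * τ.im) := by
        linarith
    _ = (1 + |C|) * Real.exp (2 * Real.pi * m * τ.im) := by ring

/-- A holomorphic `Γ₀(N)`-invariant function whose `p`-th power is good is good. -/
theorem mem_goodRing_of_pow_mem {N : ℕ} {V : ℍ → ℂ} {p : ℕ} (hp : p ≠ 0)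
    (hV : MDifferentiable 𝓘(ℂ) 𝓘(ℂ) V)
    (hinv : ∀ γ ∈ Gamma0 N, ∀ τ : ℍ, V (γ • τ) = V τ)
    (hpow : (fun τ => V τ ^ p) ∈ H648.goodRing N) : V ∈ H648.goodRing N :=
  ⟨hV, hinv, fun g => expGrowth_of_pow hp (hpow.2.2 g)⟩

/-! ### Algebraicity of the coefficients of a `p`-th root -/

/-- The algebra structure `ℚ̄ → ℂ` given by the fixed embedding `iotaC`. -/
abbrev algKbarC : Algebra Kbar ℂ := Deg457.iotaC.toAlgebra

theorem isScalarTower_algKbarC :
    letI := algKbarC
    IsScalarTower ℚ Kbar ℂ := by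
  letI := algKbarC
  refine IsScalarTower.of_algebraMap_eq fun q => ?_
  show (algebraMap ℚ ℂ) q = Deg457.iotaC (algebraMap ℚ Kbar q)
  unfold Deg457.iotaC
  simp

/-- If `s ^ p` has coefficients in `ℚ̄`, so has `s` (`p ≥ 1`). -/
theorem coeff_mem_range_of_pow_eq {p : ℕ} [NeZero p] {s : LaurentSeries ℂ}
    {w : LaurentSeries Kbar} (hs : s ^ p = coeffMap Deg457.iotaC w) (n : ℤ) :
    s.coeff n ∈ Set.range Deg457.iotaC := by
  letI := algKbarC
  have hpn : p ≠ 0 := NeZero.ne p
  show s.coeff n ∈ Set.range (algebraMap Kbar ℂ)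
  apply H32.mem_range_of_finite_orbit
  rcases eq_or_ne s 0 with rfl | hs0
  · refine (Set.finite_singleton (0 : ℂ)).subset ?_
    rintro _ ⟨σ, rfl⟩
    simp
  -- the conjugates are among the `ζ ^ i * s_n`
  refine (Set.finite_range fun i : Fin p => zetaP p ^ (i : ℕ) * s.coeff n).subset ?_
  rintro _ ⟨σ, rfl⟩
  set s' : LaurentSeries ℂ := coeffMap (σ : ℂ →+* ℂ) s with hs'
  have h1 : s' ^ p = s ^ p := by
    rw [hs', ← map_pow, hs, coeffMap_coeffMap]
    apply coeffMap_congr
    ext c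
    exact σ.commutes c
  have h2 : (s' / s) ^ p = 1 := by
    rw [div_pow, h1, div_self (pow_ne_zero _ hs0)]
  have hprim : IsPrimitiveRoot (algebraMap ℂ (LaurentSeries ℂ) (zetaP p)) p :=
    (isPrimitiveRoot_zetaP p).map_of_injective (algebraMap ℂ (LaurentSeries ℂ)).injective
  obtain ⟨i, hi, hi2⟩ := hprim.eq_pow_of_pow_eq_one h2
  have h3 : s' = algebraMap ℂ (LaurentSeries ℂ) (zetaP p ^ i) * s := by
    rw [map_pow, hi2, div_mul_cancel₀ _ hs0]
  refine ⟨⟨i, hi⟩, ?_⟩
  show zetaP p ^ i * s.coeff n = σ (s.coeff n)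
  have h4 : s'.coeff n = σ (s.coeff n) := rfl
  rw [← h4, h3, H32.coeff_algebraMap_mul]

/-! ### Powers of Kummer classes -/

theorem isKummerClass_pow {K F : Type*} [Field K] [Field F] [Algebra K F] {n : ℤ} {f : F}
    {x : Pic0 K F} (h : H455.IsKummerClass n f x) (k : ℕ) :
    H455.IsKummerClass n (f ^ k) (k • x) := by
  induction k with
  | zero => simpa using (H455.IsKummerClass.zero (n := n) (K := K) (F := F))
  | succ k ih =>
    rw [pow_succ, succ_nsmul]
    exact ih.add h

/-! ### The piece -/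

variable (N : ℕ) [NeZero N] (p : ℕ) [NeZero p]

/-- PIECE `K4-UNIQ`: the Kummer class of a character is unique. -/
theorem isKum_unique {c : G0 N → ZMod p} {x x' : JZero N}
    (h : IsKum N p c x) (h' : IsKum N p c x') : x = x' := by
  obtain ⟨f, t, U, ht, hx, hU, hr⟩ := h
  obtain ⟨f', t', U', ht', hx', hU', hr'⟩ := h'
  have hpn : p ≠ 0 := NeZero.ne p
  have hp0 : (p : ℤ) ≠ 0 := by exact_mod_cast hpn
  have hp1 : p - 1 + 1 = p := Nat.sub_add_cancel (Nat.pos_of_ne_zero hpn)
  -- the invariant function `V = U * U' ^ (p - 1)`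
  set V : ℍ → ℂ := fun τ => U τ * U' τ ^ (p - 1) with hVdef
  set w : FF N := f * t ^ p * (f' * t' ^ p) ^ (p - 1) with hw
  have hVpow : (fun τ => V τ ^ p) = (fun τ => U τ ^ p) * (fun τ => U' τ ^ p) ^ (p - 1) := by
    funext τ
    simp only [hVdef, Pi.mul_apply, Pi.pow_apply, mul_pow]
    rw [← pow_mul, ← pow_mul, mul_comm (p - 1) p]
  have hWreal : Realises N w (fun τ => V τ ^ p) := by
    rw [hVpow]
    exact realises_mul hr (realises_pow hr' (p - 1))
  have hVmd : MDifferentiable 𝓘(ℂ) 𝓘(ℂ) V := hU.mdiff.mul (hU'.mdiff.pow (p - 1))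
  have hVinv : ∀ γ ∈ Gamma0 N, ∀ τ : ℍ, V (γ • τ) = V τ := by
    intro γ hγ τ
    have e1 := hU.hasChar ⟨γ, hγ⟩ τ
    have e2 := hU'.hasChar ⟨γ, hγ⟩ τ
    simp only at e1 e2
    show U (γ • τ) * U' (γ • τ) ^ (p - 1) = U τ * U' τ ^ (p - 1)
    rw [e1, e2, mul_pow]
    have e3 : zetaP p ^ (c ⟨γ, hγ⟩).val * (zetaP p ^ (c ⟨γ, hγ⟩).val) ^ (p - 1) = 1 := by
      rw [← pow_succ', hp1, ← pow_mul, mul_comm, pow_mul, zetaP_pow_self, one_pow]
    linear_combination (U τ * U' τ ^ (p - 1)) * e3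
  have hVgood : V ∈ H648.goodRing N := mem_goodRing_of_pow_mem hpn hVmd hVinv hWreal.1
  -- its `q`-expansion `s`
  set s : LaurentSeries ℂ := H708.qexpFun 1 V with hsdef
  have hsQ : H708.HasQExp 1 V s := H882.hasQExp_of_mem_goodRing hVgood
  have hsFC : s ∈ laurentBaseChange ℂ (modularFunctionFieldFull N) := H882.qexpFun_mem_FC (N := N) hVgood
  have hsp : s ^ p = coeffMap Deg457.iotaC ((w : FF N) : LaurentSeries Kbar) := by
    have h1 := hsQ.pow p
    have h2 : V ^ p = fun τ => V τ ^ p := rfl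
    rw [h2] at h1
    exact h1.unique (realises_hasQExp hWreal)
  -- descent of `s` to `ℚ̄`
  let _ : Algebra Kbar ℂ := algKbarC
  have _ : IsScalarTower ℚ Kbar ℂ := isScalarTower_algKbarC
  obtain ⟨y, hy, hys⟩ := H32.exists_of_coeff_mem_range (k := Kbar) (Ω := ℂ)
    (modularFunctionFieldFull N) hsFC (fun n => coeff_mem_range_of_pow_eq hsp n)
  set vv : FF N := ⟨y, hy⟩ with hvv
  have hvvp : vv ^ p = w := by
    apply Subtype.ext
    apply coeffMap_iotaC_injective
    show coeffMap Deg457.iotaC (((vv ^ p : FF N) : FF N) : LaurentSeries Kbar) = _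
    rw [← hsp, ← hys]
    simp only [SubmonoidClass.coe_pow, map_pow]
    rfl
  -- `f * f' ^ (p - 1)` is a `p`-th power
  have hf0 := hx.ne_zero
  have hf0' := hx'.ne_zero
  have hd0 : t * t' ^ (p - 1) ≠ 0 := mul_ne_zero ht (pow_ne_zero _ ht')
  set g : FF N := vv / (t * t' ^ (p - 1)) with hg
  have hgp : g ^ p = f * f' ^ (p - 1) := by
    rw [hg, div_pow, hvvp, hw]
    rw [div_eq_iff (pow_ne_zero _ hd0)]
    have e1 : (t' ^ p) ^ (p - 1) = (t' ^ (p - 1)) ^ p := by
      rw [← pow_mul, ← pow_mul, mul_comm]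
    rw [mul_pow, mul_pow, e1]
    ring
  have hg0 : g ≠ 0 := by
    intro h0
    rw [h0, zero_pow hpn] at hgp
    exact (mul_ne_zero hf0 (pow_ne_zero _ hf0')) hgp.symm
  have hsum : H455.IsKummerClass (p : ℤ) (f * f' ^ (p - 1)) (x + (p - 1) • x') :=
    hx.add (isKummerClass_pow hx' (p - 1))
  have hzero : x + (p - 1) • x' = 0 := by
    refine (hsum.eq_zero_iff hp0).mpr ⟨g, hg0, fun v => ?_⟩
    rw [← hgp, ← zpow_natCast, Place.ord_zpow]
  have hpx' : (p : ℤ) • x' = 0 := hx'.zsmul_eq_zero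
  have h5 : (p - 1) • x' + x' = 0 := by
    rw [← succ_nsmul, hp1, ← natCast_zsmul]
    exact hpx'
  have h6 : x - x' = 0 := by
    have : x - x' = (x + (p - 1) • x') - ((p - 1) • x' + x') := by abel
    rw [this, hzero, h5, sub_zero]
  exact sub_eq_zero.mp h6

end Fermat.Agent.S29.M4b.H822

end
end
-- ===== PACK-END S29/M4b/H822/K4Uniq.lean

-- ===== PACK-BEGIN S29/M4b/H822/K4.lean
section
/-
S29 / M4b (helper822): the pieces `K4-UNIQ`, `K4-INJ`, `K4-ADD` of the Kummer map, in the EXACT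
shape of the `Prop`s `PieceUniq`, `PieceInj`, `PieceAdd` of `M4b/Top.lean` (for every modulus
`p ≠ 0`, in particular for `p` prime).  Sorry-free.
-/




set_option autoImplicit false

namespace Fermat.Agent.S29.M4b.H822

open Fermat.Agent.S24 Fermat.Agent.S29 Fermat.Agent.S29.M4b

/-- PIECE `K4-UNIQ`, exact `Prop` of `M4b/Top.lean`. -/
theorem pieceUniq (N : ℕ) [NeZero N] (p : ℕ) (hp : p ≠ 0) : PieceUniq N p := by
  haveI : NeZero p := ⟨hp⟩
  intro c x x' h h'
  exact isKum_unique N p h h'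

/-- PIECE `K4-INJ`, exact `Prop` of `M4b/Top.lean`. -/
theorem pieceInj (N : ℕ) [NeZero N] (p : ℕ) (hp : p ≠ 0) : PieceInj N p := by
  haveI : NeZero p := ⟨hp⟩
  intro c h
  exact isKum_zero_right N p h

/-- PIECE `K4-ADD`, exact `Prop` of `M4b/Top.lean`. -/
theorem pieceAdd (N : ℕ) [NeZero N] (p : ℕ) (hp : p ≠ 0) : PieceAdd N p := by
  haveI : NeZero p := ⟨hp⟩
  intro c c' x x' h h'
  exact isKum_add N p h h'

/-- The Kummer bridge `M4bStatement` from the FOUR remaining pieces (`K1`, `K3`, `K2`,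
`K4-HECKE`), for all levels and prime moduli. -/
theorem m4bStatement_of_four
    (h1 : ∀ (N : ℕ) [NeZero N] (p : ℕ), p.Prime → PieceK1 N p)
    (h3 : ∀ (N : ℕ) [NeZero N] (p : ℕ), p.Prime → PieceK3 N p)
    (h2 : ∀ (N : ℕ) [NeZero N] (p : ℕ), p.Prime → PieceK2 N p)
    (hh : ∀ (N : ℕ) [NeZero N] (p : ℕ), p.Prime → PieceHecke N p) :
    M4bStatement :=
  M4bStatement_of_pieces h1 h3 h2 (fun N _ p hp => pieceUniq N p hp.ne_zero)
    (fun N _ p hp => pieceInj N p hp.ne_zero) (fun N _ p hp => pieceAdd N p hp.ne_zero) hh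

end Fermat.Agent.S29.M4b.H822

end
-- ===== PACK-END S29/M4b/H822/K4.lean

-- ===== PACK-BEGIN S29/H395/K4Hecke.lean
section
/-
S29 / layer M / sub-layer M4b, PIECE `K4-HECKE` — helper395.

`isKum_hecke_of_normId` : the exact conclusion of `M4b.isKum_hecke` (helper822's skeleton),
from ONE external input, the `q`-expansion form of the norm identity
`H222.NormId N ℓ : (Nm_α (β y) : ℚ̄((q))) = kronNorm ℓ y` (row S37, NORM-ID / NKI).

Everything else is proved: Hecke inputs (landed `HI`), the correspondence on Kummer classes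
(landed `H455`), the transfer formula for products (`ProdChar`), the analytic Kronecker norm
(`AnalyticKron`), stability of good functions under `heckeProd` (`GoodProd`), and the comparison
of the two index conventions (landed `M4a/Fac`).
-/






set_option autoImplicit false
set_option linter.style.haveILetI false

noncomputable section

open ModularCurve AlgebraicCurve CongruenceSubgroup UpperHalfPlane
open scoped MatrixGroups Manifold Real

namespace Fermat.Agent.S29.H395

open Fermat.Agent.S24 Fermat.Agent.S29 Fermat.Agent.S29.M4b Fermat.Agent.S37.H400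

/-! ### Roots of unity bookkeeping -/

theorem zetaP_pow_self (p : ℕ) [NeZero p] : zetaP p ^ p = 1 :=
  (Complex.isPrimitiveRoot_exp p (NeZero.ne p)).pow_eq_one

theorem zetaP_pow_eq_of_natCast_eq (p : ℕ) [NeZero p] {a b : ℕ}
    (h : (a : ZMod p) = (b : ZMod p)) : zetaP p ^ a = zetaP p ^ b := by
  have hab : a ≡ b [MOD p] := (ZMod.natCast_eq_natCast_iff a b p).mp h
  rw [← Nat.div_add_mod a p, ← Nat.div_add_mod b p, pow_add, pow_add, pow_mul, pow_mul,
    zetaP_pow_self, one_pow, one_pow, one_mul, one_mul, hab]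

/-! ### The character of `heckeProd ℓ U` -/

theorem hasChar_heckeProd (N p : ℕ) [NeZero N] [NeZero p] {ℓ : ℕ} [Fact ℓ.Prime] (hℓN : ¬ ℓ ∣ N)
    {c c' : G0 N → ZMod p} (hcc' : IsTransfer N ℓ c c') {U : ℍ → ℂ} (hU : HasChar N p c U) :
    HasChar N p c' (heckeProd ℓ U) := by
  intro γ τ
  rw [heckeProd_smul hℓN (h := U) (c := fun γ => zetaP p ^ (c γ).val) hU γ τ]
  congr 1
  rw [Finset.prod_pow_eq_pow_sum]
  apply zetaP_pow_eq_of_natCast_eq
  have h1 := hcc' γ (M4aTop_perm γ) (fun i => H201.trf hℓN γ (M4aTop_idx ℓ i))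
    (fun i => M4aTop_isHeckeFactor_trf hℓN γ i)
  rw [ZMod.natCast_zmod_val, h1, Nat.cast_sum]
  simp only [ZMod.natCast_zmod_val]
  exact (Equiv.sum_comp (M4aTop_idx ℓ) (fun x => c (H201.trf hℓN γ x))).symm

/-! ### `q`-expansions: `InfExp` versus `HasQExp` -/

theorem infExp_of_hasQExp {f : ℍ → ℂ} {φ : LaurentSeries ℂ} (h : H708.HasQExp 1 f φ) :
    InfExp 1 f φ := fun τ => h.hasSum τ

theorem hasQExp_of_infExp {f : ℍ → ℂ} {φ : LaurentSeries ℂ}
    (hol : MDifferentiable 𝓘(ℂ) 𝓘(ℂ) f) (h : InfExp 1 f φ) : H708.HasQExp 1 f φ :=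
  H708.HasQExp.of_hasSum hol fun τ => h τ

/-- The `q`-expansion of `heckeProd ℓ G` for a good function `G`. -/
theorem qexpFun_heckeProd {N : ℕ} [NeZero N] {ℓ : ℕ} [Fact ℓ.Prime] (hℓN : ¬ ℓ ∣ N) {G : ℍ → ℂ}
    (hG : G ∈ H648.goodRing N) :
    H708.qexpFun 1 (heckeProd ℓ G) = kronNorm ℓ (H708.qexpFun 1 G) := by
  have h1 := infExp_of_hasQExp (H882.hasQExp_of_mem_goodRing hG)
  have h2 := infExp_heckeProd (ℓ := ℓ) h1
  exact (hasQExp_of_infExp (heckeProd_mem_goodRing hℓN hG).1 h2).qexpFun_eq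

/-! ### The main theorem -/

section Main

variable (N : ℕ) [NeZero N] (p : ℕ) [NeZero p]

omit [NeZero p] in
theorem heckeProd_pow_fun (ℓ : ℕ) [Fact ℓ.Prime] (U : ℍ → ℂ) :
    heckeProd ℓ (fun τ => U τ ^ p) = fun τ => heckeProd ℓ U τ ^ p := by
  have := heckeProd_pow (p := ℓ) U p
  exact this

/-- **PIECE `K4-HECKE`**, from the norm identity `NormId N ℓ`. -/
theorem isKum_hecke_of_normId (ℓ : Nat.Primes) (hℓ : ¬ (ℓ : ℕ) ∣ N * p)
    (hnorm : haveI : NeZero (ℓ : ℕ) := ⟨ℓ.2.ne_zero⟩; H222.NormId N (ℓ : ℕ))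
    {c c' : G0 N → ZMod p} (hcc' : IsTransfer N (ℓ : ℕ) c c')
    {x : JZero N} (h : IsKum N p c x) : IsKum N p c' (heckeOperatorBar N ℓ x) := by
  haveI : NeZero (ℓ : ℕ) := ⟨ℓ.2.ne_zero⟩
  haveI : Fact (ℓ : ℕ).Prime := ⟨ℓ.2⟩
  have hℓN : ¬ (ℓ : ℕ) ∣ N := fun h' => hℓ (Dvd.dvd.mul_right h' p)
  obtain ⟨f, t, U, ht, hx, hU, hR⟩ := h
  obtain ⟨hα, hβ, hP, hfin, hFI, hN⟩ := heckeInputsAlong_bar N (ℓ : ℕ) ℓ.2
  haveI := hP
  -- the new data
  set α := heckeAlphaBar (AlgebraicClosure ℚ) N (ℓ : ℕ) with hαdef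
  set β := heckeBetaBar (AlgebraicClosure ℚ) N (ℓ : ℕ) with hβdef
  have hT : heckeOperatorBar N ℓ x = Pic0.correspondence β α hβ hα hFI hfin hN x := by
    rw [heckeOperatorBar_apply, heckeOperatorAlong_eq hα hβ hFI hfin hN]
    rfl
  have hx' := hx.correspondence β α hβ hα hFI hfin hN
  rw [← hT] at hx'
  have ht' : H455.normAlong α (β t) ≠ 0 :=
    H455.normAlong_ne_zero α hfin ((map_ne_zero β).mpr ht)
  have hmul : H455.normAlong α (β f) * H455.normAlong α (β t) ^ p
      = H222.heckeNorm N (ℓ : ℕ) (f * t ^ p) := by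
    rw [← H455.normAlong_pow, ← H455.normAlong_mul, ← map_pow, ← map_mul]
    rfl
  -- the analytic side
  have hgood : (fun τ => heckeProd (ℓ : ℕ) U τ ^ p) ∈ H648.goodRing N := by
    rw [← heckeProd_pow_fun]
    exact heckeProd_mem_goodRing hℓN hR.1
  have hq : H708.qexpFun 1 (fun τ => heckeProd (ℓ : ℕ) U τ ^ p)
      = coeffMap Deg457.iotaC
          ((((H455.normAlong α (β f) * H455.normAlong α (β t) ^ p : FF N)) : FF N) :
            LaurentSeries Kbar) := by
    rw [← heckeProd_pow_fun, qexpFun_heckeProd hℓN hR.1, hR.2, ← coeffMap_kronNorm, hmul]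
    exact congrArg _ (hnorm (f * t ^ p)).symm
  have hne : (H455.normAlong α (β f) * H455.normAlong α (β t) ^ p : FF N) ≠ 0 :=
    mul_ne_zero hx'.ne_zero (pow_ne_zero _ ht')
  refine ⟨H455.normAlong α (β f), H455.normAlong α (β t), heckeProd (ℓ : ℕ) U, ht', hx',
    ⟨mdiff_heckeProd hU.mdiff, ?_, hasChar_heckeProd N p hℓN hcc' hU.hasChar, hgood⟩,
    ⟨hgood, hq⟩⟩
  -- non-vanishing
  by_contra hzero
  push Not at hzero
  have hp0 : p ≠ 0 := NeZero.ne p
  have h0 : (fun τ => heckeProd (ℓ : ℕ) U τ ^ p) = 0 := by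
    funext τ
    rw [hzero τ]
    simp [hp0]
  have h1 := (H882.hasQExp_of_mem_goodRing hgood)
  have h2 : H708.qexpFun 1 (fun τ => heckeProd (ℓ : ℕ) U τ ^ p) = 0 :=
    h1.eq_zero_iff.mpr h0
  rw [hq] at h2
  have hinj : Function.Injective (coeffMap Deg457.iotaC) :=
    inf_coeffMap_injective Deg457.iotaC.injective
  have h3 : (((H455.normAlong α (β f) * H455.normAlong α (β t) ^ p : FF N)) :
      LaurentSeries Kbar) = 0 := hinj (by rw [h2, map_zero])
  exact hne (by exact_mod_cast h3)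

end Main

end Fermat.Agent.S29.H395

end

end
-- ===== PACK-END S29/H395/K4Hecke.lean

-- ===== PACK-BEGIN S37/H819/NormId.lean
section




/-!
# S37 / node NORMID (helper819)

`normId` : for a prime `ℓ ∤ M` and `f ∈ ℚ̄(X₀(M)) = modularFunctionFieldBar M`, the `q`-expansion of
the norm of `β f` over `α(F_M)` (Prelude algebra structure `algebraAlong (heckeAlphaBar ℚ̄ M ℓ)`)
is the formal Kronecker norm `H400.kronNorm ℓ f = V_ℓ f · det (secMat ℓ f)`.
This is exactly `Board.NormIdStatement M ℓ` of `origin/helper37:Fermat/Agent/S37/Core/Skeleton3.lean`.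
-/

set_option autoImplicit false

noncomputable section

open ModularCurve HahnSeries AlgebraicCurve

namespace Fermat.Agent.S37.H819

open Fermat.Agent.S24

/-- H400's section matrix is H340's Kronecker matrix. -/
theorem secMat_eq_kronMat {R : Type*} [CommRing R] (p : ℕ) [NeZero p] (f : LaurentSeries R) :
    Fermat.Agent.S37.H400.secMat p f = Fermat.Agent.S37.H340.kronMat p f := by
  ext i j n
  rw [Fermat.Agent.S37.H400.secMat_apply', Fermat.Agent.S37.H340.kronMat_apply,
    Fermat.Agent.S37.H400.secL_coeff, Fermat.Agent.S37.H340.sect_coeff]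

/-- H340's twist by an `ℓ`-th root of unity is the S24 twist. -/
theorem tw_eq_infTwist {R : Type*} [CommRing R] (ℓ : ℕ) [NeZero ℓ] (u : Rˣ)
    (hu : (u : R) ^ ℓ = 1) (f : LaurentSeries R) :
    Fermat.Agent.S37.H340.tw ℓ (u : R) f = infTwist u f := by
  ext n
  rw [Fermat.Agent.S37.H340.tw_coeff, infTwist_coeff, mul_comm]
  congr 1
  have hℓ : (ℓ : ℤ) ≠ 0 := by exact_mod_cast NeZero.ne ℓ
  have hu' : u ^ ℓ = 1 := Units.ext (by rw [Units.val_pow_eq_pow_val, hu, Units.val_one])
  unfold Fermat.Agent.S37.H340.zpw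
  have h1 : n = n % (ℓ : ℤ) + (ℓ : ℤ) * (n / (ℓ : ℤ)) := (Int.emod_add_mul_ediv n ℓ).symm
  have h0 : 0 ≤ n % (ℓ : ℤ) := Int.emod_nonneg n hℓ
  have h2 : ((n % (ℓ : ℤ)).toNat : ℤ) = n % (ℓ : ℤ) := Int.toNat_of_nonneg h0
  have h3 : u ^ n = u ^ (n % (ℓ : ℤ)).toNat := by
    conv_lhs => rw [h1, zpow_add, zpow_mul, zpow_natCast, hu', one_zpow, mul_one, ← h2,
      zpow_natCast]
  rw [← Units.val_pow_eq_pow_val, ← h3]

/-- `V_ℓ (det (secMat ℓ f)) = ∏_{b<ℓ} f(ζ^b q)` -/
theorem qExpand_det_secMat {R : Type*} [CommRing R] [IsDomain R] (ℓ : ℕ) [NeZero ℓ] (ζ : Rˣ)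
    (hζ : IsPrimitiveRoot (ζ : R) ℓ) (f : LaurentSeries R) :
    qExpand R ℓ (Fermat.Agent.S37.H400.secMat ℓ f).det
      = ∏ b ∈ Finset.range ℓ, infTwist (ζ ^ b) f := by
  have h := Fermat.Agent.S37.H340.kron_map_qExpand_eq_prod hζ f
  rw [Fermat.Agent.S37.H340.kron, ← secMat_eq_kronMat, ← Matrix.charpoly_map] at h
  have hdet : qExpand R ℓ (Fermat.Agent.S37.H400.secMat ℓ f).det
      = ((Fermat.Agent.S37.H400.secMat ℓ f).map (qExpand R ℓ)).det := by
    rw [RingHom.map_det, RingHom.mapMatrix_apply]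
  rw [hdet, Matrix.det_eq_sign_charpoly_coeff, h, Fintype.card_fin,
    Polynomial.coeff_zero_eq_eval_zero, Polynomial.eval_prod]
  simp only [Polynomial.eval_sub, Polynomial.eval_X, Polynomial.eval_C, zero_sub]
  rw [Finset.prod_neg, Finset.card_univ, Fintype.card_fin, ← mul_assoc, ← mul_pow]
  simp only [mul_neg, mul_one, neg_neg, one_pow, one_mul]
  rw [← Fin.prod_univ_eq_prod_range (fun b : ℕ => infTwist (ζ ^ b) f) ℓ]
  refine Finset.prod_congr rfl fun b _ => ?_
  rw [← Units.val_pow_eq_pow_val, tw_eq_infTwist]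
  rw [Units.val_pow_eq_pow_val, ← pow_mul, mul_comm, pow_mul, hζ.pow_eq_one, one_pow]

/-- **Node NORMID** (`Board.NormIdStatement M ℓ`, unfolded): for a prime `ℓ ∤ M` the
`q`-expansion of `Nm_{F_{Mℓ}/α F_M}(β f)` is the formal Kronecker norm `kronNorm ℓ f`. -/
theorem normId (M ℓ : ℕ) [NeZero M] [NeZero ℓ] (hℓ : ℓ.Prime) (hℓM : ¬ ℓ ∣ M) :
    ∀ f : modularFunctionFieldBar M,
      (((letI := algebraAlong (heckeAlphaBar (AlgebraicClosure ℚ) M ℓ)
         Algebra.norm (modularFunctionFieldBar M) (heckeBetaBar (AlgebraicClosure ℚ) M ℓ f)) :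
          modularFunctionFieldBar M) : LaurentSeries (AlgebraicClosure ℚ)) =
        Fermat.Agent.S37.H400.kronNorm ℓ (f : LaurentSeries (AlgebraicClosure ℚ)) := by
  intro f
  have : NeZero ((ℓ : ℕ) : AlgebraicClosure ℚ) := ⟨by exact_mod_cast NeZero.ne ℓ⟩
  obtain ⟨ζ₀, hζ₀⟩ := HasEnoughRootsOfUnity.exists_primitiveRoot (AlgebraicClosure ℚ) ℓ
  obtain ⟨ζ, rfl⟩ := hζ₀.isUnit (NeZero.ne ℓ)
  apply qExpand_injective (R := AlgebraicClosure ℚ) (N := ℓ)
  have h := norm_heckeBeta M ℓ hℓ hℓM ζ hζ₀ f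
  rw [Fermat.Agent.S37.H400.kronNorm, map_mul, qExpand_qExpand, qExpand_det_secMat ℓ ζ hζ₀]
  exact h

end Fermat.Agent.S37.H819

end
end
-- ===== PACK-END S37/H819/NormId.lean

-- ===== PACK-BEGIN S29/M4b/H395/Hecke.lean
section
/-
S29 row, LAYER M, SUB-LAYER M4b — PIECE `K4-HECKE` (helper395): DONE, unconditional.

`pieceHecke N p hp : M4b.PieceHecke N p` for every level `N` and every prime `p`
(the exact `Prop` of `Fermat/Agent/S29/M4b/Top.lean`), and `isKum_hecke` (the exact statement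
of helper822's sub-skeleton, with its hypotheses `hfac`, `hc`, which are not needed).

Proof: `Fermat.Agent.S29.H395.isKum_hecke_of_normId` (the Hecke product
`V(τ) = ∏ᵢ U(αᵢ τ)` over the `ℓ + 1` Hecke representatives is twisted of character the
transfer of `c`; its `p`-th power realises `heckeNorm (f · t ^ p)`; `T_ℓ` of a Kummer class is
the Kummer class of the norm), fed with the landed NORM-ID `Fermat.Agent.S37.H819.normId`.
-/




set_option autoImplicit false

noncomputable section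

open ModularCurve AlgebraicCurve CongruenceSubgroup UpperHalfPlane
open scoped MatrixGroups Manifold

namespace Fermat.Agent.S29.M4b.H395

open Fermat.Agent.S24 Fermat.Agent.S29 Fermat.Agent.S29.M4b

/-- The landed NORM-ID (`S37.H819.normId`) in the packaging of `H222.NormId`. -/
theorem normId_H222 (N ℓ : ℕ) [NeZero N] [NeZero ℓ] (hℓ : ℓ.Prime) (hℓN : ¬ ℓ ∣ N) :
    Fermat.Agent.S29.H222.NormId N ℓ :=
  fun y => Fermat.Agent.S37.H819.normId N ℓ hℓ hℓN y

/-- **PIECE `K4-HECKE`**, exact statement of the sub-skeleton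
(`origin/helper822:Fermat/Agent/S29/M4b/Skeleton.lean`, `isKum_hecke`). -/
theorem isKum_hecke (N : ℕ) [NeZero N] (p : ℕ) [NeZero p]
    (ℓ : Nat.Primes) (hℓ : ¬ (ℓ : ℕ) ∣ N * p)
    (_hfac : ∀ γ : G0 N, ∃ (π : Equiv.Perm (Option (Fin (ℓ : ℕ))))
      (δ : Option (Fin (ℓ : ℕ)) → G0 N), ∀ i, IsHeckeFactor (ℓ : ℕ) γ i (π i, δ i))
    {c c' : G0 N → ZMod p} (_hc : IsParHom c) (hcc' : IsTransfer N (ℓ : ℕ) c c')
    {x : JZero N} (h : IsKum N p c x) : IsKum N p c' (heckeOperatorBar N ℓ x) := by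
  have : NeZero (ℓ : ℕ) := ⟨ℓ.2.ne_zero⟩
  have hℓN : ¬ (ℓ : ℕ) ∣ N := fun hd => hℓ (Dvd.dvd.mul_right hd p)
  exact Fermat.Agent.S29.H395.isKum_hecke_of_normId N p ℓ hℓ
    (normId_H222 N (ℓ : ℕ) ℓ.2 hℓN) hcc' h

/-- **PIECE `K4-HECKE`** in the form of `M4b/Top.lean`. -/
theorem pieceHecke (N : ℕ) [NeZero N] (p : ℕ) (hp : p.Prime) : PieceHecke N p := by
  have : NeZero p := ⟨hp.ne_zero⟩
  intro ℓ hℓ hfac c c' hc hcc' x h
  exact isKum_hecke N p ℓ hℓ hfac hc hcc' h

end Fermat.Agent.S29.M4b.H395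

end
end
-- ===== PACK-END S29/M4b/H395/Hecke.lean

-- ===== PACK-BEGIN S30/Chain/Package.lean
section
/-
S30 — squad-lead chain (helper49): the Kummer packages `H450.KumPackage N m` at EVERY modulus
`m ≠ 0`, UNCONDITIONALLY, from the landed pieces of S29 sub-layer M4b:

* `ex`    : K1 (`H509.exists_isTwisted`) + K3 (`M4b.K3.pieceK3_of_dfrom` on `H282` DFROM)
            + K2 (`H389.exists_isKummerClass_of_realised`);
* `uniq`, `inj`, `add` : `M4b.H822.pieceUniq / pieceInj / pieceAdd`;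
* `hecke` : `M4b.H395.isKum_hecke`.

Together with ONTO (`H810.exists_isKum_of_torsion`) this discharges inputs (K') and (F) of the adic
module layer, so that the frozen S30 follows from input (T) alone (`Chain/FromT.lean`).
-/








set_option autoImplicit false

noncomputable section

open ModularCurve AlgebraicCurve CongruenceSubgroup UpperHalfPlane
open scoped MatrixGroups Manifold

namespace Fermat.Agent.S30.Chain

open Fermat.Agent.S24 Fermat.Agent.S29 Fermat.Agent.S29.M4b

/-- K3-DFROM in the `Prop` form of `M4b/K3/Fin.lean` (from helper282's `DFrom`). -/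
theorem dfromStatement (N : ℕ) [NeZero N] (p : ℕ) [NeZero p] : K3.DFromStatement N p := by
  intro f hf0 hdvd
  have hf0' : (f : LaurentSeries ℂ) ≠ 0 := fun h => hf0 (Subtype.ext h)
  obtain ⟨s, hs, hs0, V, hV, -, hVg, hq, -⟩ :=
    Fermat.Agent.S29.H282.exists_root_of_forall_dvd_ord N p f.2 hf0' hdvd
  exact ⟨s, hs, hs0, V, hV, hVg, hq⟩

/-- PIECE K3 at every modulus `p ≠ 0`, unconditionally. -/
theorem pieceK3 (N : ℕ) [NeZero N] (p : ℕ) [NeZero p] : PieceK3 N p :=
  K3.pieceK3_of_dfrom N p (dfromStatement N p)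

/-- Existence of the Kummer class of a parabolic character, at every modulus `p ≠ 0`. -/
theorem isKum_exists (N : ℕ) [NeZero N] (p : ℕ) [NeZero p] {c : G0 N → ZMod p}
    (hc : IsParHom c) : ∃ x : JZero N, IsKum N p c x := by
  obtain ⟨U, hU⟩ := Fermat.Agent.S29.H509.exists_isTwisted N p hc
  obtain ⟨U', u, hU', hu⟩ := pieceK3 N p hc hU
  obtain ⟨x, hx⟩ := Fermat.Agent.S29.H389.exists_isKummerClass_of_realised N p hc hU' hu
  refine ⟨x, u, 1, U', one_ne_zero, hx, hU', ?_⟩
  simpa using hu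

/-- **The Kummer package at every modulus `m ≠ 0`**, unconditionally. -/
theorem kumPackage (N : ℕ) [NeZero N] (m : ℕ) [NeZero m] : Fermat.Agent.S30.H450.KumPackage N m :=
  Fermat.Agent.S30.H450.KumPackage.of_skeleton
    (fun hc => isKum_exists N m hc)
    (fun h h' => Fermat.Agent.S29.M4b.H822.pieceUniq N m (NeZero.ne m) h h')
    (fun h => Fermat.Agent.S29.M4b.H822.pieceInj N m (NeZero.ne m) h)
    (fun h h' => Fermat.Agent.S29.M4b.H822.pieceAdd N m (NeZero.ne m) h h')
    (fun ℓ hℓ hfac _ _ hc htr _ hx =>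
      Fermat.Agent.S29.M4b.H395.isKum_hecke N m ℓ hℓ hfac hc htr hx)

end Fermat.Agent.S30.Chain

end
end
-- ===== PACK-END S30/Chain/Package.lean

-- ===== PACK-BEGIN S30/H810/ParEll.lean
section
/-
S30 / piece ONTO (helper810), part 4: the character of a Kummer pair is ADDITIVE and vanishes on
elements acting trivially on `ℍ` and on elements with a FIXED POINT in `ℍ` (elliptic elements).

Setting: `U` twisted of character `c` (M4b `IsTwisted`), `U ^ m` realises `u ∈ FF N`, `u ≠ 0`, and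
`m ∣ ord_v u` at every place `v` of `FF N / ℚ̄` (this is what `IsKum N m c x` provides).
-/



set_option autoImplicit false
set_option linter.unusedSectionVars false

noncomputable section

open ModularCurve AlgebraicCurve CongruenceSubgroup UpperHalfPlane HahnSeries
open scoped MatrixGroups Manifold

namespace Fermat.Agent.S30.H810

open Fermat.Agent.S24 Fermat.Agent.S24.H648 Fermat.Agent.S24.H708 Fermat.Agent.S24.Deg457
open Fermat.Agent.S24.H624 Fermat.Agent.S24.H997 Fermat.Agent.S29 Fermat.Agent.S29.M4b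
open Fermat.Agent.S29.H882

variable {N : ℕ} [NeZero N] {m : ℕ} [NeZero m]

/-- The character of a twisted function is additive. -/
theorem IsTwisted.map_mul {c : G0 N → ZMod m} {U : ℍ → ℂ} (hU : IsTwisted N m c U)
    (γ γ' : G0 N) : c (γ * γ') = c γ + c γ' := by
  obtain ⟨τ, hτ⟩ := hU.ne_zero
  apply H109.zetaP_pow_val_injective m
  rw [H109.zetaP_pow_val_add]
  have h1 := hU.hasChar (γ * γ') τ
  have h2 := hU.hasChar γ (((γ' : G0 N) : SL(2, ℤ)) • τ)
  have h3 := hU.hasChar γ' τ
  have hmul : (((γ * γ' : G0 N) : SL(2, ℤ))) • τ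
      = ((γ : G0 N) : SL(2, ℤ)) • (((γ' : G0 N) : SL(2, ℤ)) • τ) := by
    rw [Subgroup.coe_mul, mul_smul]
  rw [hmul, h2, h3, ← mul_assoc] at h1
  exact (mul_right_cancel₀ hτ h1).symm

/-- The character of a twisted function vanishes on elements acting trivially on `ℍ`. -/
theorem IsTwisted.eq_zero_of_trivial {c : G0 N → ZMod m} {U : ℍ → ℂ} (hU : IsTwisted N m c U)
    (γ : G0 N) (hγ : ∀ τ : ℍ, ((γ : G0 N) : SL(2, ℤ)) • τ = τ) : c γ = 0 := by
  obtain ⟨τ, hτ⟩ := hU.ne_zero
  apply H109.zetaP_pow_val_injective m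
  have h1 := hU.hasChar γ τ
  rw [hγ τ] at h1
  have h2 : zetaP m ^ (c γ).val = 1 := by
    have : (1 : ℂ) * U τ = zetaP m ^ (c γ).val * U τ := by rw [one_mul]; exact h1
    exact (mul_right_cancel₀ hτ this).symm
  rw [h2, ZMod.val_zero, pow_zero]

theorem zetaP_pow_val_eq_one_iff (a : ZMod m) : zetaP m ^ a.val = 1 ↔ a = 0 := by
  constructor
  · intro h
    apply H109.zetaP_pow_val_injective m
    rw [h, ZMod.val_zero, pow_zero]
  · rintro rfl
    rw [ZMod.val_zero, pow_zero]

/-- a good function is fixed by `γ ∈ Γ₀(N)` in `holoRing` -/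
theorem smul_good_eq {A : holoRing} (hA : (A : ℍ → ℂ) ∈ goodRing N) {γ : SL(2, ℤ)}
    (hγ : γ ∈ Gamma0 N) : γ • A = A := by
  apply Subtype.ext
  funext τ
  rw [smul_holoRing_apply]
  exact hA.2.1 γ⁻¹ (inv_mem hγ) τ

/-- rotation relation for holomorphic functions at a fixed point -/
theorem leadingCoeff_taylorLaurent_smul {γ : SL(2, ℤ)} {τ : ℍ} (hτ : γ • τ = τ) (F : holoRing) :
    (taylorLaurent τ (γ • F)).leadingCoeff
      = rotFactor γ τ ^ (taylorLaurent τ F).order * (taylorLaurent τ F).leadingCoeff := by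
  have h := (laurentAt_smul_fixed_rotFactor hτ (algebraMap holoRing MerH F)).2
  rw [smul_algebraMap_MerH, laurentAt_algebraMap, laurentAt_algebraMap] at h
  exact h

/-- an invariant nonzero holomorphic function has order killed by the rotation factor -/
theorem rotFactor_zpow_order_eq_one {γ : SL(2, ℤ)} {τ : ℍ} (hτ : γ • τ = τ) {F : holoRing}
    (hF : F ≠ 0) (hinv : γ • F = F) : rotFactor γ τ ^ (taylorLaurent τ F).order = 1 := by
  have h := leadingCoeff_taylorLaurent_smul hτ F
  rw [hinv] at h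
  have hlc : (taylorLaurent τ F).leadingCoeff ≠ 0 :=
    HahnSeries.leadingCoeff_ne_zero.mpr (fun h0 => hF (taylorLaurent_injective τ (by
      rw [h0, map_zero])))
  have h2 : (1 : ℂ) * (taylorLaurent τ F).leadingCoeff
      = rotFactor γ τ ^ (taylorLaurent τ F).order * (taylorLaurent τ F).leadingCoeff := by
    rw [one_mul]; exact h
  exact (mul_right_cancel₀ hlc h2).symm

/-- the rotation factor kills the orders of the Taylor embedding `σ_τ` at a fixed point of
`γ ∈ Γ₀(N)` -/
theorem rotFactor_zpow_eord_eq_one {γ : SL(2, ℤ)} (hγ : γ ∈ Gamma0 N) {τ : ℍ} (hτ : γ • τ = τ)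
    {f : FF N} (hf : f ≠ 0) : rotFactor γ τ ^ H117.eord (sigmaTau N τ) f = 1 := by
  have key : ∀ r : RN N, r ≠ 0 → rotFactor γ τ ^ H117.eord (sigmaTau N τ) (inclRN N r) = 1 := by
    intro r hr
    rw [H117.eord, sigmaTau_inclRN]
    refine rotFactor_zpow_order_eq_one hτ ?_ (smul_good_eq (realRN N r).2 hγ)
    intro h0
    have h1 : realRN N r = 0 := goodToHolo_injective N (by rw [h0, map_zero])
    exact hr (realRN_injective N (by rw [h1, map_zero]))
  obtain ⟨r, t, ht, hft⟩ := exists_div_inclRN N f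
  have ht' : inclRN N t ≠ 0 := fun h => ht (inclRN_injective N (by rw [h, map_zero]))
  have hr : r ≠ 0 := by
    rintro rfl
    apply hf
    rw [hft, map_zero, zero_div]
  have hr' : inclRN N r ≠ 0 := fun h => hr (inclRN_injective N (by rw [h, map_zero]))
  rw [hft, div_eq_mul_inv, H117.eord_mul _ hr' (inv_ne_zero ht'), H117.eord_inv,
    zpow_add₀ (rotFactor_ne_zero γ τ), zpow_neg, key r hr, key t ht, inv_one, mul_one]

theorem leadingCoeff_C_mul (a : ℂ) (x : LaurentSeries ℂ) :
    (HahnSeries.C a * x).leadingCoeff = a * x.leadingCoeff := by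
  rw [HahnSeries.leadingCoeff_mul]
  congr 1
  rcases eq_or_ne a 0 with rfl | ha
  · simp
  · rw [HahnSeries.C_apply, HahnSeries.leadingCoeff_of_single]

/-- **ELLIPTIC CASE.** The character of a Kummer pair vanishes on every element of `Γ₀(N)` with a
fixed point in `ℍ`. -/
theorem IsTwisted.eq_zero_of_fixed {c : G0 N → ZMod m} {U : ℍ → ℂ} (hU : IsTwisted N m c U)
    {u : FF N} (hG : Realises N u (fun τ => U τ ^ m))
    (hdiv : ∀ v : Place Kbar (FF N), (m : ℤ) ∣ v.ord u)
    (γ : G0 N) {τ₀ : ℍ} (hτ₀ : ((γ : G0 N) : SL(2, ℤ)) • τ₀ = τ₀) : c γ = 0 := by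
  have hm : m ≠ 0 := NeZero.ne m
  have hgmem : ((γ : G0 N) : SL(2, ℤ))⁻¹ ∈ Gamma0 N := inv_mem γ.2
  have hgτ : ((γ : G0 N) : SL(2, ℤ))⁻¹ • τ₀ = τ₀ := inv_smul_of_fixed hτ₀
  set g : SL(2, ℤ) := ((γ : G0 N) : SL(2, ℤ))⁻¹ with hg
  set Uh : holoRing := ⟨U, hU.mdiff⟩ with hUh
  have hUh0 : Uh ≠ 0 := by
    intro h0
    obtain ⟨τ, hτ⟩ := hU.ne_zero
    exact hτ (congrFun (congrArg Subtype.val h0) τ)
  have hTL0 : taylorLaurent τ₀ Uh ≠ 0 := fun h0 =>
    hUh0 (taylorLaurent_injective τ₀ (by rw [h0, map_zero]))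
  -- (1) the twisted transformation rule in `holoRing`
  have h1 : g • Uh = algebraMap ℂ holoRing (zetaP m ^ (c γ).val) * Uh := by
    apply Subtype.ext
    funext τ
    rw [smul_holoRing_apply, hg, inv_inv]
    exact hU.hasChar γ τ
  have h2 := leadingCoeff_taylorLaurent_smul hgτ Uh
  have hTLc : taylorLaurent τ₀ (algebraMap ℂ holoRing (zetaP m ^ (c γ).val))
      = HahnSeries.C (zetaP m ^ (c γ).val) := taylorLaurent_const τ₀ _ _ rfl
  rw [h1, _root_.map_mul, hTLc, leadingCoeff_C_mul] at h2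
  have hlc : (taylorLaurent τ₀ Uh).leadingCoeff ≠ 0 := HahnSeries.leadingCoeff_ne_zero.mpr hTL0
  have h3 : zetaP m ^ (c γ).val = rotFactor g τ₀ ^ (taylorLaurent τ₀ Uh).order :=
    mul_right_cancel₀ hlc h2
  -- (2) the order of `u` under the Taylor embedding
  have hmd : (fun τ => U τ ^ m) ∈ holoRing := hG.1.1
  have h4 : sigmaTau N τ₀ u = taylorLaurent τ₀ Uh ^ m := by
    rw [sigmaTau_of_realises hG hmd τ₀, ← map_pow]
    rfl
  have h5 : H117.eord (sigmaTau N τ₀) u = m * (taylorLaurent τ₀ Uh).order := by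
    rw [H117.eord, h4, HahnSeries.order_pow, nsmul_eq_mul]
  have hm' : (m : ℤ) ≠ 0 := by exact_mod_cast hm
  -- (3) the rotation factor kills the order of `U`
  have h6 : rotFactor g τ₀ ^ (taylorLaurent τ₀ Uh).order = 1 := by
    by_cases hnt : ∃ t : FF N, H117.eord (sigmaTau N τ₀) t ≠ 0
    · obtain ⟨k, hk, h⟩ := H117.exists_mult (K := Kbar) (sigmaTau N τ₀)
        (fun c => (eord_sigmaTau_algebraMap τ₀ c).ge) hnt
      obtain ⟨π, hπ0, hπ⟩ := H117.exists_ord_eq_one (H117.placeOfEmb (sigmaTau N τ₀)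
        (fun c => (eord_sigmaTau_algebraMap τ₀ c).ge) hnt)
      have hk1 : rotFactor g τ₀ ^ (k : ℤ) = 1 := by
        have := rotFactor_zpow_eord_eq_one hgmem hgτ hπ0
        rwa [h π, hπ, mul_one] at this
      obtain ⟨j, hj⟩ := hdiv (H117.placeOfEmb (sigmaTau N τ₀)
        (fun c => (eord_sigmaTau_algebraMap τ₀ c).ge) hnt)
      have h7 := h u
      rw [h5, hj] at h7
      have h8 : (taylorLaurent τ₀ Uh).order = k * j := by
        have : (m : ℤ) * (taylorLaurent τ₀ Uh).order = m * (k * j) := by rw [h7]; ring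
        exact mul_left_cancel₀ hm' this
      rw [h8, zpow_mul, hk1, one_zpow]
    · push Not at hnt
      have h7 := hnt u
      rw [h5] at h7
      have h8 : (taylorLaurent τ₀ Uh).order = 0 := by
        rcases mul_eq_zero.mp h7 with h | h
        · exact absurd h hm'
        · exact h
      rw [h8, zpow_zero]
  rw [h6] at h3
  exact (zetaP_pow_val_eq_one_iff _).mp h3

end Fermat.Agent.S30.H810

end
end
-- ===== PACK-END S30/H810/ParEll.lean

-- ===== PACK-BEGIN S30/H810/SigmaGen.lean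
section
/-
S30 / piece ONTO (helper810), part 6: the embedding `σ_E : FF N → ℂ((z))` attached to an arbitrary
injective expansion `E : goodRing N →+* ℂ((z))`, and the dictionary for it.
-/


set_option autoImplicit false
set_option linter.unusedSectionVars false

noncomputable section

open ModularCurve AlgebraicCurve CongruenceSubgroup UpperHalfPlane HahnSeries
open scoped MatrixGroups Manifold

namespace Fermat.Agent.S30.H810

open Fermat.Agent.S24 Fermat.Agent.S24.H648 Fermat.Agent.S24.H708 Fermat.Agent.S24.Deg457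
open Fermat.Agent.S24.H624 Fermat.Agent.S24.H997 Fermat.Agent.S29 Fermat.Agent.S29.M4b
open Fermat.Agent.S29.H882

variable (N : ℕ) [NeZero N]

section

variable (E : goodRing N →+* LaurentSeries ℂ) (hE : Function.Injective E)

/-- the embedding of `FF N` attached to an injective expansion of good functions -/
def sigmaOf : FF N →+* LaurentSeries ℂ :=
  liftF (E.comp (realRN N)) (hE.comp (realRN_injective N))

theorem sigmaOf_inclRN (r : RN N) : sigmaOf N E hE (inclRN N r) = E (realRN N r) :=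
  liftF_inclRN _ _ r

theorem sigmaOf_algebraMap (hEc : ∀ c : ℂ, E (algebraMap ℂ (goodRing N) c) = HahnSeries.C c)
    (c : Kbar) : sigmaOf N E hE (algebraMap Kbar (FF N) c) = HahnSeries.C (iotaC c) := by
  rw [sigmaOf, liftF_algebraMap, RingHom.comp_apply]
  have : realRN N (algebraMap Kbar (RN N) c) = algebraMap ℂ (goodRing N) (iotaC c) :=
    Subtype.ext (realFun_algebraMap N c)
  rw [this, hEc]

theorem eord_sigmaOf_algebraMap
    (hEc : ∀ c : ℂ, E (algebraMap ℂ (goodRing N) c) = HahnSeries.C c) (c : Kbar) :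
    H117.eord (sigmaOf N E hE) (algebraMap Kbar (FF N) c) = 0 := by
  rw [H117.eord, sigmaOf_algebraMap N E hE hEc, HahnSeries.order_C]

variable {N}

theorem sigmaOf_of_realises {u : FF N} {G : ℍ → ℂ} (hG : Realises N u G)
    (hGm : G ∈ goodRing N) : sigmaOf N E hE u = E ⟨G, hGm⟩ := by
  obtain ⟨r, t, ht, hu⟩ := exists_div_inclRN N u
  have ht' : inclRN N t ≠ 0 := fun h => ht (inclRN_injective N (by rw [h, map_zero]))
  have hmul : u * inclRN N t = inclRN N r := by
    rw [hu, div_mul_cancel₀ _ ht']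
  have hcoe : ((u : FF N) : LaurentSeries Kbar) * (t : LaurentSeries Kbar)
      = (r : LaurentSeries Kbar) := by
    have := congrArg (fun x : FF N => (x : LaurentSeries Kbar)) hmul
    simpa using this
  have hq : HasQExp 1 (G * realFun N t) (coeffMap iotaC (r : LaurentSeries Kbar)) := by
    have := (Realises.hasQExp hG).mul (realFun_hasQExp N t)
    rwa [← _root_.map_mul, hcoe] at this
  have hfun : G * realFun N t = realFun N r := hq.eq_of_eq (realFun_hasQExp N r)
  have hgood : (⟨G, hGm⟩ : goodRing N) * realRN N t = realRN N r := Subtype.ext hfun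
  have hT0 : E (realRN N t) ≠ 0 := by
    intro h
    exact ht (realRN_injective N (hE (by rw [h, map_zero, map_zero])))
  rw [hu, map_div₀, sigmaOf_inclRN, sigmaOf_inclRN, ← hgood, _root_.map_mul, mul_div_assoc,
    div_self hT0, mul_one]

/-- **Dictionary for `σ_E`**: if `d` divides the order of the expansion of every (nonzero) good
function realising an element of `R_N`, and `m ∣ ord_v u` at all places, then `d * m ∣ ord σ_E u`. -/
theorem mul_dvd_eord_sigmaOf
    (hEc : ∀ c : ℂ, E (algebraMap ℂ (goodRing N) c) = HahnSeries.C c)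
    (d : ℤ) (hd : ∀ r : RN N, d ∣ (E (realRN N r)).order)
    {u : FF N} (m : ℤ) (hdiv : ∀ v : Place Kbar (FF N), m ∣ v.ord u) :
    d * m ∣ H117.eord (sigmaOf N E hE) u := by
  have hdF : ∀ f : FF N, d ∣ H117.eord (sigmaOf N E hE) f := by
    intro f
    obtain ⟨r, t, ht, hft⟩ := exists_div_inclRN N f
    rcases eq_or_ne f 0 with rfl | hf
    · simp
    have ht' : inclRN N t ≠ 0 := fun h => ht (inclRN_injective N (by rw [h, map_zero]))
    have hr' : inclRN N r ≠ 0 := by
      intro h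
      apply hf
      rw [hft, h, zero_div]
    rw [hft, div_eq_mul_inv, H117.eord_mul _ hr' (inv_ne_zero ht'), H117.eord_inv]
    refine dvd_add ?_ (Dvd.dvd.neg_right ?_)
    · rw [H117.eord, sigmaOf_inclRN]; exact hd r
    · rw [H117.eord, sigmaOf_inclRN]; exact hd t
  by_cases hnt : ∃ t : FF N, H117.eord (sigmaOf N E hE) t ≠ 0
  · obtain ⟨k, hk, h⟩ := H117.exists_mult (K := Kbar) (sigmaOf N E hE)
      (fun c => (eord_sigmaOf_algebraMap N E hE hEc c).ge) hnt
    obtain ⟨π, hπ0, hπ⟩ := H117.exists_ord_eq_one (H117.placeOfEmb (sigmaOf N E hE)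
      (fun c => (eord_sigmaOf_algebraMap N E hE hEc c).ge) hnt)
    have hdk : d ∣ (k : ℤ) := by
      have := hdF π
      rwa [h π, hπ, mul_one] at this
    obtain ⟨j, hj⟩ := hdiv (H117.placeOfEmb (sigmaOf N E hE)
      (fun c => (eord_sigmaOf_algebraMap N E hE hEc c).ge) hnt)
    rw [h u, hj, ← mul_assoc]
    exact Dvd.dvd.mul_right (mul_dvd_mul_right hdk m) j
  · push Not at hnt
    rw [hnt u]
    exact dvd_zero _

end

end Fermat.Agent.S30.H810

end
end
-- ===== PACK-END S30/H810/SigmaGen.lean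

-- ===== PACK-BEGIN S30/H810/ParCusp.lean
section
/-
S30 / piece ONTO (helper810), part 8: the PARABOLIC case.

If `γ ∈ Γ₀(N)` satisfies `γ ∘ h = h ∘ (τ ↦ τ + n)` on `ℍ` (`h ∈ SL(2, ℤ)`, `n ≥ 1`), then the
character of a Kummer pair vanishes on `γ`.  Proof with `q_L`-expansions at the cusp `h ∞`,
`L = n m`: the shift by `n` twists the `j`-th coefficient by `ζ_m^j`.
-/



set_option autoImplicit false
set_option linter.unusedSectionVars false

noncomputable section

open ModularCurve AlgebraicCurve CongruenceSubgroup UpperHalfPlane HahnSeries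
open scoped MatrixGroups Manifold Real

namespace Fermat.Agent.S30.H810

open Fermat.Agent.S24 Fermat.Agent.S24.H648 Fermat.Agent.S24.H708 Fermat.Agent.S24.Deg457
open Fermat.Agent.S24.H624 Fermat.Agent.S24.H997 Fermat.Agent.S29 Fermat.Agent.S29.M4b
open Fermat.Agent.S29.H882

/-- iterating a quasi-periodicity -/
theorem vadd_iterate {f : ℍ → ℂ} {a : ℝ} {z : ℂ} (hf : ∀ τ : ℍ, f (a +ᵥ τ) = z * f τ) (j : ℕ)
    (τ : ℍ) : f (((j : ℝ) * a) +ᵥ τ) = z ^ j * f τ := by
  induction j generalizing τ with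
  | zero => simp
  | succ j ih =>
    have h1 : (((j + 1 : ℕ) : ℝ) * a) +ᵥ τ = a +ᵥ (((j : ℝ) * a) +ᵥ τ) := by
      rw [vadd_vadd]
      congr 1
      push_cast
      ring
    rw [h1, hf, ih, pow_succ]
    ring

theorem shiftUnit_eq_zetaP (n m : ℕ) [NeZero n] [NeZero m] :
    ((shiftUnit (n * m) (n : ℝ) : ℂˣ) : ℂ) = zetaP m := by
  rw [shiftUnit, Units.val_mk0, zetaP]
  congr 1
  have hn : (n : ℂ) ≠ 0 := Nat.cast_ne_zero.mpr (NeZero.ne n)
  have hm : (m : ℂ) ≠ 0 := Nat.cast_ne_zero.mpr (NeZero.ne m)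
  push_cast
  field_simp

theorem zetaP_zpow_eq_one_iff (m : ℕ) [NeZero m] (k : ℤ) : zetaP m ^ k = 1 ↔ (m : ℤ) ∣ k :=
  (H109.zetaP_isPrimitiveRoot m).zpow_eq_one_iff_dvd k

theorem mdiff_compSL {U : ℍ → ℂ} (hU : MDiff U) (γ : SL(2, ℤ)) :
    MDiff (fun τ => U (γ • τ)) :=
  (precompSL γ ⟨U, hU⟩).2

variable {N : ℕ} [NeZero N]

section Cusp

variable (h : SL(2, ℤ)) (L : ℕ) [NeZero L]
  (hper : ∀ A : ℍ → ℂ, A ∈ goodRing N → ∀ τ : ℍ, A (h • ((L : ℝ) +ᵥ τ)) = A (h • τ))

/-- composition with `h` maps good functions to `q_L`-meromorphic functions -/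
theorem isMerInf_comp {A : ℍ → ℂ} (hA : A ∈ goodRing N)
    (hperA : ∀ τ : ℍ, A (h • ((L : ℝ) +ᵥ τ)) = A (h • τ)) :
    IsMerInf L (fun τ => A (h • τ)) :=
  isMerInf_of_periodic (mdiff_compSL hA.1 h) hperA (hA.2.2 h)

/-- the ring hom `A ↦ A ∘ h` into `merInf L` -/
def compMer : goodRing N →+* merInf L where
  toFun A := ⟨fun τ => (A : ℍ → ℂ) (h • τ), isMerInf_comp h L A.2 (hper A A.2)⟩
  map_one' := rfl
  map_mul' _ _ := rfl
  map_zero' := rfl
  map_add' _ _ := rfl

theorem compMer_injective : Function.Injective (compMer h L hper) := by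
  intro A B hAB
  apply Subtype.ext
  funext τ
  have := congrFun (congrArg Subtype.val hAB) (h⁻¹ • τ)
  simpa [compMer] using this

/-- the expansion at the cusp `h ∞` -/
def cuspE : goodRing N →+* LaurentSeries ℂ :=
  ((qexpInf L : merInf L →ₐ[ℂ] LaurentSeries ℂ) : merInf L →+* LaurentSeries ℂ).comp
    (compMer h L hper)

theorem cuspE_apply (A : goodRing N) :
    cuspE h L hper A = qexpFun L (fun τ => (A : ℍ → ℂ) (h • τ)) := rfl

theorem cuspE_injective : Function.Injective (cuspE h L hper) :=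
  (qexpInf_injective L).comp (compMer_injective h L hper)

theorem cuspE_const (c : ℂ) : cuspE h L hper (algebraMap ℂ (goodRing N) c) = HahnSeries.C c := by
  rw [cuspE_apply]
  exact qexpFun_const L c

end Cusp

section CuspMain

variable {m : ℕ} [NeZero m]

/-- **Parabolic case.**  If `γ h = h (τ ↦ τ + n)` on `ℍ` with `n ≥ 1`, then `c γ = 0`. -/
theorem IsTwisted.eq_zero_of_cusp {c : G0 N → ZMod m} {U : ℍ → ℂ} (hU : IsTwisted N m c U)
    {u : FF N} (hG : Realises N u (fun τ => U τ ^ m))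
    (hdiv : ∀ v : Place Kbar (FF N), (m : ℤ) ∣ v.ord u)
    (γ : G0 N) (h : SL(2, ℤ)) (n : ℕ) [NeZero n]
    (hconj : ∀ τ : ℍ, ((γ : G0 N) : SL(2, ℤ)) • (h • τ) = h • ((n : ℝ) +ᵥ τ)) : c γ = 0 := by
  have hm0 : m ≠ 0 := NeZero.ne m
  haveI hL : NeZero (n * m) := ⟨Nat.mul_ne_zero (NeZero.ne n) (NeZero.ne m)⟩
  have hcast : ((m : ℝ) * (n : ℝ)) = (((n * m : ℕ) : ℝ)) := by push_cast; ring
  -- step 1: periodicity of good functions
  have hper1 : ∀ A : ℍ → ℂ, A ∈ goodRing N → ∀ τ : ℍ, A (h • ((n : ℝ) +ᵥ τ)) = A (h • τ) := by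
    intro A hA τ
    rw [← hconj τ]
    exact hA.2.1 γ γ.2 (h • τ)
  have hper : ∀ A : ℍ → ℂ, A ∈ goodRing N →
      ∀ τ : ℍ, A (h • (((n * m : ℕ) : ℝ) +ᵥ τ)) = A (h • τ) := by
    intro A hA τ
    have key := vadd_iterate (f := fun τ => A (h • τ)) (a := (n : ℝ)) (z := 1)
      (by intro τ; rw [one_mul]; exact hper1 A hA τ) m τ
    simp only [one_pow, one_mul] at key
    rw [← key, hcast]
  -- step 2: orders of expansions of good functions are divisible by `m`
  have hd : ∀ r : RN N, (m : ℤ) ∣ (cuspE h (n * m) hper (realRN N r)).order := by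
    intro r
    rw [cuspE_apply]
    set A : ℍ → ℂ := ((realRN N r : goodRing N) : ℍ → ℂ) with hA
    have hAm : A ∈ goodRing N := (realRN N r).2
    have hmer : IsMerInf (n * m) (fun τ => A (h • τ)) := isMerInf_comp h (n * m) hAm (hper A hAm)
    by_cases h0 : (fun τ => A (h • τ)) = 0
    · rw [h0]
      have : qexpFun (n * m) (0 : ℍ → ℂ) = 0 := (qexpFun_eq_zero_iff (IsMerInf.zero _)).mpr rfl
      rw [this, HahnSeries.order_zero]
      exact dvd_zero _
    · have h1 := shiftUnit_zpow_order_eq (HasQExp.of_isMerInf hmer) h0 (n : ℝ) 1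
        (by intro τ; rw [one_mul]; exact hper1 A hAm τ)
      rw [shiftUnit_eq_zetaP] at h1
      exact (zetaP_zpow_eq_one_iff m _).mp h1
  -- step 3: the twisted function at the cusp
  set V : ℍ → ℂ := fun τ => U (h • τ) with hV
  have hVmd : MDiff V := mdiff_compSL hU.mdiff h
  have hVq : ∀ τ : ℍ, V ((n : ℝ) +ᵥ τ) = zetaP m ^ (c γ).val * V τ := by
    intro τ
    show U (h • ((n : ℝ) +ᵥ τ)) = _
    rw [← hconj τ]
    exact hU.hasChar γ (h • τ)
  have hVper : ∀ τ : ℍ, V (((n * m : ℕ) : ℝ) +ᵥ τ) = V τ := by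
    intro τ
    have key := vadd_iterate hVq m τ
    have hz : (zetaP m ^ (c γ).val) ^ m = 1 := by
      rw [← pow_mul, mul_comm, pow_mul, H102.KBasic_zetaP_pow, one_pow]
    rw [hz, one_mul, hcast] at key
    exact key
  have hVg : ExpGrowth V := H102.KBasic_expGrowth_of_pow hm0 (hG.1.2.2 h)
  have hVmer : IsMerInf (n * m) V := isMerInf_of_periodic hVmd hVper hVg
  have hV0 : V ≠ 0 := by
    obtain ⟨τ, hτ⟩ := hU.ne_zero
    intro h0
    apply hτ
    have := congrFun h0 (h⁻¹ • τ)
    simpa [hV] using this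
  have hVQ : HasQExp (n * m) V (qexpFun (n * m) V) := HasQExp.of_isMerInf hVmer
  have h3 := shiftUnit_zpow_order_eq hVQ hV0 (n : ℝ) (zetaP m ^ (c γ).val) hVq
  rw [shiftUnit_eq_zetaP] at h3
  -- step 4: the embedding at the cusp
  have hσ : sigmaOf N (cuspE h (n * m) hper) (cuspE_injective h (n * m) hper) u
      = qexpFun (n * m) V ^ m := by
    rw [sigmaOf_of_realises _ _ hG hG.1, cuspE_apply]
    have hpow := hVQ.pow m
    have : (fun τ => ((⟨fun τ => U τ ^ m, hG.1⟩ : goodRing N) : ℍ → ℂ) (h • τ)) = V ^ m := by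
      funext τ
      rfl
    rw [this]
    exact hpow.2
  have hφ0 : qexpFun (n * m) V ≠ 0 := fun h0 => hV0 ((qexpFun_eq_zero_iff hVmer).mp h0)
  have he : H117.eord (sigmaOf N (cuspE h (n * m) hper) (cuspE_injective h (n * m) hper)) u
      = (m : ℤ) * (qexpFun (n * m) V).order := by
    rw [H117.eord, hσ, HahnSeries.order_pow, nsmul_eq_mul]
  have hdvd := mul_dvd_eord_sigmaOf (cuspE h (n * m) hper) (cuspE_injective h (n * m) hper)
    (cuspE_const h (n * m) hper) (m : ℤ) hd (m : ℤ) hdiv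
  rw [he] at hdvd
  have hmz : (m : ℤ) ≠ 0 := Int.natCast_ne_zero.mpr hm0
  have hdvd' : (m : ℤ) ∣ (qexpFun (n * m) V).order := (mul_dvd_mul_iff_left hmz).mp hdvd
  have h4 := (zetaP_zpow_eq_one_iff m _).mpr hdvd'
  rw [h3] at h4
  exact (zetaP_pow_val_eq_one_iff _).mp h4

end CuspMain

end Fermat.Agent.S30.H810

end
end
-- ===== PACK-END S30/H810/ParCusp.lean

-- ===== PACK-BEGIN S30/H810/ParHom.lean
section
/-
S30 / piece ONTO (helper810), part 9 (final): the character of a Kummer pair is PARABOLIC.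

* `isParHom_of_isKum : IsKum N m c x → IsParHom c` — the character of any Kummer pair is additive
  and vanishes on elliptic (finite order) and on parabolic (trace `±2`) elements of `Γ₀(N)`;
* `exists_isParHom_isKum_of_torsion : (m : ℤ) • x = 0 → ∃ c, IsParHom c ∧ IsKum N m c x` —
  **ONTO** in the final shape, for every modulus `m ≥ 1`, unconditionally.
-/



set_option autoImplicit false
set_option linter.unusedSectionVars false

noncomputable section

open ModularCurve AlgebraicCurve CongruenceSubgroup UpperHalfPlane HahnSeries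
open scoped MatrixGroups Manifold Real

namespace Fermat.Agent.S30.H810

open Fermat.Agent.S24 Fermat.Agent.S24.H648 Fermat.Agent.S24.H708 Fermat.Agent.S24.Deg457
open Fermat.Agent.S24.H624 Fermat.Agent.S24.H997 Fermat.Agent.S29 Fermat.Agent.S29.M4b
open Fermat.Agent.S29.H882

variable {N : ℕ} [NeZero N] {m : ℕ} [NeZero m]

theorem IsTwisted.map_one_eq_zero {c : G0 N → ZMod m} {U : ℍ → ℂ} (hU : IsTwisted N m c U) :
    c 1 = 0 := by
  have h := IsTwisted.map_mul hU 1 1
  rw [mul_one] at h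
  exact left_eq_add.mp h

theorem IsTwisted.map_inv_add {c : G0 N → ZMod m} {U : ℍ → ℂ} (hU : IsTwisted N m c U)
    (γ : G0 N) : c γ⁻¹ + c γ = 0 := by
  rw [← IsTwisted.map_mul hU, inv_mul_cancel, IsTwisted.map_one_eq_zero hU]

/-- parabolic case with a positive translation length -/
theorem IsTwisted.eq_zero_of_conj_pos {c : G0 N → ZMod m} {U : ℍ → ℂ} (hU : IsTwisted N m c U)
    {u : FF N} (hG : Realises N u (fun τ => U τ ^ m))
    (hdiv : ∀ v : Place Kbar (FF N), (m : ℤ) ∣ v.ord u)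
    (γ : G0 N) (h : SL(2, ℤ)) (n : ℤ) (hn : 0 < n)
    (hconj : ∀ τ : ℍ, ((γ : G0 N) : SL(2, ℤ)) • (h • τ) = h • (ModularGroup.T ^ n • τ)) :
    c γ = 0 := by
  haveI : NeZero n.toNat := ⟨by omega⟩
  refine IsTwisted.eq_zero_of_cusp hU hG hdiv γ h n.toNat fun τ => ?_
  rw [hconj τ, UpperHalfPlane.modular_T_zpow_smul]
  congr 2
  have : ((n.toNat : ℕ) : ℤ) = n := Int.toNat_of_nonneg hn.le
  exact_mod_cast this.symm

/-- **The character of a twisted function with `m`-divisible realised divisor is parabolic.** -/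
theorem isParHom_of_isTwisted {c : G0 N → ZMod m} {U : ℍ → ℂ} (hU : IsTwisted N m c U)
    {u : FF N} (hG : Realises N u (fun τ => U τ ^ m))
    (hdiv : ∀ v : Place Kbar (FF N), (m : ℤ) ∣ v.ord u) : IsParHom c := by
  refine ⟨IsTwisted.map_mul hU, ?_, ?_⟩
  · intro γ htr
    have ht : ((γ : G0 N) : SL(2, ℤ)) 0 0 + ((γ : G0 N) : SL(2, ℤ)) 1 1 = 2 ∨
        ((γ : G0 N) : SL(2, ℤ)) 0 0 + ((γ : G0 N) : SL(2, ℤ)) 1 1 = -2 := by
      simpa [G0.mat, Matrix.trace_fin_two] using htr
    obtain ⟨h, n, hconj⟩ := parabolic_conj ((γ : G0 N) : SL(2, ℤ)) ht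
    rcases lt_trichotomy n 0 with hn | rfl | hn
    · -- negative translation: pass to the inverse
      have hinv : c γ⁻¹ = 0 := by
        refine IsTwisted.eq_zero_of_conj_pos hU hG hdiv γ⁻¹ h (-n) (by omega) fun τ => ?_
        have h1 := hconj (ModularGroup.T ^ (-n) • τ)
        rw [← mul_smul (ModularGroup.T ^ n), ← zpow_add, add_neg_cancel, zpow_zero, one_smul] at h1
        rw [← h1]
        show ((γ⁻¹ : G0 N) : SL(2, ℤ)) • ((γ : G0 N) : SL(2, ℤ)) • _ = _
        rw [← mul_smul]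
        have : ((γ⁻¹ : G0 N) : SL(2, ℤ)) * ((γ : G0 N) : SL(2, ℤ)) = 1 := by
          rw [← Subgroup.coe_mul, inv_mul_cancel, Subgroup.coe_one]
        rw [this, one_smul]
      have := IsTwisted.map_inv_add hU γ
      rwa [hinv, zero_add] at this
    · -- trivial action
      refine IsTwisted.eq_zero_of_trivial hU γ fun τ => ?_
      have h1 := hconj (h⁻¹ • τ)
      rwa [zpow_zero, one_smul, ← mul_smul h, mul_inv_cancel, one_smul] at h1
    · exact IsTwisted.eq_zero_of_conj_pos hU hG hdiv γ h n hn hconj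
  · intro γ n hn hγ
    have hγ' : ((γ : G0 N) : SL(2, ℤ)) ^ n = 1 := by
      rw [← Subgroup.coe_pow, hγ, Subgroup.coe_one]
    rcases fixed_or_trivial_of_pow_eq_one _ n hn hγ' with h | ⟨τ₀, hτ₀⟩
    · exact IsTwisted.eq_zero_of_trivial hU γ h
    · exact IsTwisted.eq_zero_of_fixed hU hG hdiv γ hτ₀

/-- **The character of a Kummer pair is parabolic.** -/
theorem isParHom_of_isKum {c : G0 N → ZMod m} {x : JZero N} (hk : IsKum N m c x) :
    IsParHom c := by
  obtain ⟨f, t, U, ht, hx, hU, hR⟩ := hk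
  refine isParHom_of_isTwisted hU hR fun v => ?_
  have hf : f ≠ 0 := hx.ne_zero
  have hdvd : (m : ℤ) ∣ v.ord f := by
    obtain ⟨-, D, -, hD⟩ := hx
    exact ⟨_, (hD v).symm⟩
  rw [Place.ord_mul v hf (pow_ne_zero _ ht), H117.ord_pow]
  exact dvd_add hdvd (dvd_mul_right _ _)

variable (N m)

/-- **ONTO** (final shape): every `m`-torsion class of `J₀(N)(ℚ̄)` is the Kummer class of a
parabolic character `Γ₀(N) → ℤ/m`. -/
theorem exists_isParHom_isKum_of_torsion {x : JZero N} (hx : (m : ℤ) • x = 0) :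
    ∃ c : G0 N → ZMod m, IsParHom c ∧ IsKum N m c x := by
  obtain ⟨c, -, hc⟩ := exists_hom_isKum_of_torsion N m hx
  exact ⟨c, isParHom_of_isKum hc, hc⟩

end Fermat.Agent.S30.H810

end
end
-- ===== PACK-END S30/H810/ParHom.lean

-- ===== PACK-BEGIN S15/H111/PairDict.lean
section
/-
Row S15, node DESC, tower COUNT (helper111): the pairing (PAIR) on `J₀(N)[m]` from the Kummer
dictionary.  Design: `coord/S15-COUNT2-helper111.md`.

Inputs, all on main:
* the Kummer dictionary of rows S29/S30: `S30.Chain.kumPackage` (every cuspidal character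
  `Γ₀(N) → ℤ/m` has a point; uniqueness, injectivity, additivity), `S30.H810` (every `m`-torsion
  point has a character), the Hecke compatibility `S29.H395` (replayed here for ALL `ℓ ∤ N`,
  including `ℓ ∣ m`);
* the Manin pairing modulo `m`: `S59.H585` (bi-additive, perfect, Hecke self-adjoint);
* EPS: `S15.H221.maninPairing_gamma0Eps` (anti-invariance under `Ad ε`, `ε = diag(-1, 1)`).

The only open input is CONJ (`ConjStatement`, owners helper337/helper346): the Kummer character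
of `cc • x` is `γ ↦ - c (ε γ ε⁻¹)`.  Only the weak form `ConjWeakStatement` (`± c ∘ Ad ε`) is used.

Main results:
* `chi N m x`          : the cuspidal class of the `m`-torsion point `x`;
* `isKum_hecke_all`    : Hecke compatibility of the dictionary for every prime `ℓ ∤ N`;
* `pairJ N m`          : the pairing `B(x, y) = maninPairing (chi x) (chi y)`;
* `pairStatement_of_conj : ConjWeakStatement → PairStatement`.
-/








set_option autoImplicit false
set_option linter.style.haveILetI false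

noncomputable section

open ModularCurve AlgebraicCurve CongruenceSubgroup UpperHalfPlane
open scoped MatrixGroups Manifold Real

namespace Fermat.Agent.S15.H111

open Fermat.Agent.S24 Fermat.Agent.S29 Fermat.Agent.S29.M4b Fermat.Agent.S37.H400
open Fermat.Agent.S41.Spec Fermat.Agent.Ribet.H883 Fermat.Agent.S29.H395

/-! ## Statements -/

/-- **CONJ**: the Kummer character of the complex conjugate of `x` is `γ ↦ - c (ε γ ε⁻¹)`. -/
def ConjStatement : Prop :=
  ∀ (N m : ℕ) [NeZero N] [NeZero m] (c : G0 N → ZMod m) (x : JZero N),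
    IsKum N m c x →
      IsKum N m (fun g => - c (Fermat.Agent.S15.H221.gamma0Eps N g)) (complexConjugation • x)

/-- **CONJ, weak form**: the Kummer character of the complex conjugate of `x` is
`γ ↦ u * c (ε γ ε⁻¹)` for a fixed sign `u` (`u * u = 1`). -/
def ConjWeakStatement : Prop :=
  ∀ (N m : ℕ) [NeZero N] [NeZero m], ∃ u : ZMod m, u * u = 1 ∧
    ∀ (c : G0 N → ZMod m) (x : JZero N), IsKum N m c x →
      IsKum N m (fun g => u * c (Fermat.Agent.S15.H221.gamma0Eps N g)) (complexConjugation • x)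

theorem conjWeak_of_conj (h : ConjStatement) : ConjWeakStatement := by
  intro N m _ _
  refine ⟨-1, by ring, fun c x hx => ?_⟩
  have := h N m c x hx
  simpa using this

/-- **PAIR**: on every `J₀(N)[m]` a pairing with values in `ℤ/m`, bi-additive, with trivial
right kernel, self-adjoint for the Hecke operators `T_ℓ`, `ℓ ∤ N`, and anti-invariant under the
complex conjugation.  (Values outside `J₀(N)[m]` are junk.) -/
def PairStatement : Prop :=
  ∀ (N : ℕ) [NeZero N] (m : ℕ), 0 < m →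
    ∃ B : JZero N → JZero N → ZMod m,
      (∀ x x' y : JZero N, m • x = 0 → m • x' = 0 → m • y = 0 →
        B (x + x') y = B x y + B x' y) ∧
      (∀ x y y' : JZero N, m • x = 0 → m • y = 0 → m • y' = 0 →
        B x (y + y') = B x y + B x y') ∧
      (∀ y : JZero N, m • y = 0 → (∀ x : JZero N, m • x = 0 → B x y = 0) → y = 0) ∧
      (∀ ℓ : Nat.Primes, ¬ (ℓ : ℕ) ∣ N → ∀ x y : JZero N, m • x = 0 → m • y = 0 →
        B (heckeOperatorBar N ℓ x) y = B x (heckeOperatorBar N ℓ y)) ∧
      (∀ x y : JZero N, m • x = 0 → m • y = 0 →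
        B (complexConjugation • x) (complexConjugation • y) = - B x y)

/-! ## The two languages for characters -/

section Lang

variable {N : ℕ} {A : Type*} [AddCommGroup A]

theorem isCuspidal_of_isParHom {φ : Additive (Gamma0 N) →+ A} (h : IsParHom (funOf φ)) :
    IsCuspidal φ := by
  refine ⟨fun γ hγ => ?_, fun γ hγ => ?_⟩
  · refine h.parabolic γ ?_
    have hγ' : (G0.mat γ).trace ^ 2 = 4 := hγ
    have h0 : ((G0.mat γ).trace - 2) * ((G0.mat γ).trace + 2) = 0 := by
      linear_combination hγ'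
    rcases mul_eq_zero.mp h0 with h1 | h1
    · left; linarith
    · right; linarith
  · obtain ⟨n, hn, hγn⟩ := isOfFinOrder_iff_pow_eq_one.mp hγ
    exact h.elliptic γ n hn hγn

theorem isParHom_of_isCuspidal {φ : Additive (Gamma0 N) →+ A} (h : IsCuspidal φ) :
    IsParHom (funOf φ) := by
  refine ⟨funOf_map_mul φ, fun γ hγ => h.1 γ ?_, fun γ n hn hγn =>
    h.2 γ (isOfFinOrder_iff_pow_eq_one.mpr ⟨n, hn, hγn⟩)⟩
  have e : ((γ : SL(2, ℤ)) : Matrix (Fin 2) (Fin 2) ℤ).trace = (G0.mat γ).trace := rfl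
  rw [e]
  rcases hγ with h1 | h1 <;> rw [h1] <;> norm_num

theorem funOf_add (φ ψ : Additive (Gamma0 N) →+ A) : funOf (φ + ψ) = funOf φ + funOf ψ := rfl

theorem funOf_zero : funOf (0 : Additive (Gamma0 N) →+ A) = 0 := rfl

theorem funOf_homOf (c : G0 N → A) (hc : ∀ γ γ' : G0 N, c (γ * γ') = c γ + c γ') :
    funOf (homOf c hc) = c := rfl

end Lang

/-! ## Hecke compatibility of the dictionary for every `ℓ ∤ N` -/

section Hecke

variable (N : ℕ) [NeZero N] (p : ℕ) [NeZero p]

/-- **K4-HECKE for all `ℓ ∤ N`** (replay of `S29.H395.isKum_hecke_of_normId`, whose hypothesis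
`ℓ ∤ N * p` is only used through `ℓ ∤ N`). -/
theorem isKum_hecke_all (ℓ : Nat.Primes) (hℓN : ¬ (ℓ : ℕ) ∣ N)
    {c c' : G0 N → ZMod p} (hcc' : IsTransfer N (ℓ : ℕ) c c')
    {x : JZero N} (h : IsKum N p c x) : IsKum N p c' (heckeOperatorBar N ℓ x) := by
  haveI : NeZero (ℓ : ℕ) := ⟨ℓ.2.ne_zero⟩
  haveI : Fact (ℓ : ℕ).Prime := ⟨ℓ.2⟩
  have hnorm : H222.NormId N (ℓ : ℕ) := Fermat.Agent.S29.M4b.H395.normId_H222 N (ℓ : ℕ) ℓ.2 hℓN
  obtain ⟨f, t, U, ht, hx, hU, hR⟩ := h
  obtain ⟨hα, hβ, hP, hfin, hFI, hN⟩ := heckeInputsAlong_bar N (ℓ : ℕ) ℓ.2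
  haveI := hP
  set α := heckeAlphaBar (AlgebraicClosure ℚ) N (ℓ : ℕ) with hαdef
  set β := heckeBetaBar (AlgebraicClosure ℚ) N (ℓ : ℕ) with hβdef
  have hT : heckeOperatorBar N ℓ x = Pic0.correspondence β α hβ hα hFI hfin hN x := by
    rw [heckeOperatorBar_apply, heckeOperatorAlong_eq hα hβ hFI hfin hN]
    rfl
  have hx' := hx.correspondence β α hβ hα hFI hfin hN
  rw [← hT] at hx'
  have ht' : H455.normAlong α (β t) ≠ 0 :=
    H455.normAlong_ne_zero α hfin ((map_ne_zero β).mpr ht)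
  have hmul : H455.normAlong α (β f) * H455.normAlong α (β t) ^ p
      = H222.heckeNorm N (ℓ : ℕ) (f * t ^ p) := by
    rw [← H455.normAlong_pow, ← H455.normAlong_mul, ← map_pow, ← map_mul]
    rfl
  have hgood : (fun τ => heckeProd (ℓ : ℕ) U τ ^ p) ∈ H648.goodRing N := by
    rw [← heckeProd_pow_fun]
    exact heckeProd_mem_goodRing hℓN hR.1
  have hq : H708.qexpFun 1 (fun τ => heckeProd (ℓ : ℕ) U τ ^ p)
      = coeffMap Deg457.iotaC
          ((((H455.normAlong α (β f) * H455.normAlong α (β t) ^ p : FF N)) : FF N) :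
            LaurentSeries Kbar) := by
    rw [← heckeProd_pow_fun, qexpFun_heckeProd hℓN hR.1, hR.2, ← coeffMap_kronNorm, hmul]
    exact congrArg _ (hnorm (f * t ^ p)).symm
  have hne : (H455.normAlong α (β f) * H455.normAlong α (β t) ^ p : FF N) ≠ 0 :=
    mul_ne_zero hx'.ne_zero (pow_ne_zero _ ht')
  refine ⟨H455.normAlong α (β f), H455.normAlong α (β t), heckeProd (ℓ : ℕ) U, ht', hx',
    ⟨mdiff_heckeProd hU.mdiff, ?_, hasChar_heckeProd N p hℓN hcc' hU.hasChar, hgood⟩,
    ⟨hgood, hq⟩⟩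
  by_contra hzero
  push Not at hzero
  have hp0 : p ≠ 0 := NeZero.ne p
  have h0 : (fun τ => heckeProd (ℓ : ℕ) U τ ^ p) = 0 := by
    funext τ
    rw [hzero τ]
    simp [hp0]
  have h1 := (H882.hasQExp_of_mem_goodRing hgood)
  have h2 : H708.qexpFun 1 (fun τ => heckeProd (ℓ : ℕ) U τ ^ p) = 0 :=
    h1.eq_zero_iff.mpr h0
  rw [hq] at h2
  have hinj : Function.Injective (coeffMap Deg457.iotaC) :=
    inf_coeffMap_injective Deg457.iotaC.injective
  have h3 : (((H455.normAlong α (β f) * H455.normAlong α (β t) ^ p : FF N)) :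
      LaurentSeries Kbar) = 0 := hinj (by rw [h2, map_zero])
  exact hne (by exact_mod_cast h3)

end Hecke

/-! ## The character of a torsion point -/

section Chi

variable (N : ℕ) [NeZero N] (m : ℕ) [NeZero m]

theorem isKum_zero_zero : IsKum N m (0 : G0 N → ZMod m) (0 : JZero N) := by
  have H := Fermat.Agent.S30.Chain.kumPackage N m
  have hpar : IsParHom (0 : G0 N → ZMod m) :=
    ⟨fun _ _ => by simp, fun _ _ => rfl, fun _ _ _ _ => rfl⟩
  obtain ⟨x₀, hx₀⟩ := H.ex 0 hpar
  have h2 := H.add 0 0 x₀ x₀ hx₀ hx₀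
  rw [add_zero] at h2
  have hx : x₀ = x₀ + x₀ := H.uniq 0 x₀ (x₀ + x₀) hx₀ h2
  have : x₀ = 0 := by
    have := congrArg (fun z => z - x₀) hx
    simpa using this.symm
  rwa [this] at hx₀

variable {N m}

theorem isKum_nsmul {c : G0 N → ZMod m} {x : JZero N} (h : IsKum N m c x) (n : ℕ) :
    IsKum N m (n • c) (n • x) := by
  have H := Fermat.Agent.S30.Chain.kumPackage N m
  induction n with
  | zero =>
    rw [zero_nsmul, zero_nsmul]
    exact isKum_zero_zero N m
  | succ n ih =>
    rw [succ_nsmul, succ_nsmul]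
    exact H.add _ _ _ _ ih h

theorem nsmul_eq_zero_of_isKum {c : G0 N → ZMod m} {x : JZero N} (h : IsKum N m c x) :
    m • x = 0 := by
  obtain ⟨f, t, U, -, hx, -, -⟩ := h
  have := hx.zsmul_eq_zero
  rwa [natCast_zsmul] at this

theorem isKum_neg {c : G0 N → ZMod m} {x : JZero N} (h : IsKum N m c x) :
    IsKum N m (-c) (-x) := by
  have h1 := isKum_nsmul h (m - 1)
  have hm : 1 ≤ m := Nat.one_le_iff_ne_zero.mpr (NeZero.ne m)
  have e1 : (m - 1) • x = -x := by
    have h0 := nsmul_eq_zero_of_isKum h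
    have : (m - 1) • x + x = 0 := by
      rw [← succ_nsmul, Nat.sub_add_cancel hm, h0]
    exact eq_neg_of_add_eq_zero_left this
  have e2 : (m - 1) • c = -c := by
    have : (m - 1) • c + c = 0 := by
      rw [← succ_nsmul, Nat.sub_add_cancel hm]
      funext γ
      simp
    exact eq_neg_of_add_eq_zero_left this
  rwa [e1, e2] at h1

/-- The character of a point is unique. -/
theorem isKum_char_unique {c c' : G0 N → ZMod m} {x : JZero N} (h : IsKum N m c x)
    (h' : IsKum N m c' x) : c = c' := by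
  have H := Fermat.Agent.S30.Chain.kumPackage N m
  have h1 := H.add _ _ _ _ h (isKum_neg h')
  rw [add_neg_cancel] at h1
  have := H.inj _ h1
  exact sub_eq_zero.mp (by rw [sub_eq_add_neg]; exact this)

variable (N m)

open Classical in
/-- The cuspidal class `Γ₀(N) → ℤ/m` of the `m`-torsion point `x` (`0` if `x` is not
`m`-torsion). -/
def chi (x : JZero N) : Additive (Gamma0 N) →+ ZMod m :=
  if h : ∃ φ : Additive (Gamma0 N) →+ ZMod m, IsKum N m (funOf φ) x then h.choose else 0

variable {N m}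

theorem exists_hom_isKum {x : JZero N} (hx : m • x = 0) :
    ∃ φ : Additive (Gamma0 N) →+ ZMod m, IsKum N m (funOf φ) x := by
  have hx' : (m : ℤ) • x = 0 := by rw [natCast_zsmul]; exact hx
  obtain ⟨c, hc, hk⟩ := Fermat.Agent.S30.H810.exists_isParHom_isKum_of_torsion N m hx'
  exact ⟨homOf c hc.map_mul, hk⟩

theorem isKum_chi {x : JZero N} (hx : m • x = 0) : IsKum N m (funOf (chi N m x)) x := by
  have h := exists_hom_isKum (N := N) (m := m) hx
  rw [chi, dif_pos h]
  exact h.choose_spec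

theorem chi_eq_of_isKum {x : JZero N} {φ : Additive (Gamma0 N) →+ ZMod m}
    (h : IsKum N m (funOf φ) x) : chi N m x = φ :=
  funOf_injective (isKum_char_unique (isKum_chi (nsmul_eq_zero_of_isKum h)) h)

theorem isCuspidal_chi {x : JZero N} (hx : m • x = 0) : IsCuspidal (chi N m x) :=
  isCuspidal_of_isParHom (Fermat.Agent.S30.H810.isParHom_of_isKum (isKum_chi hx))

theorem chi_add {x x' : JZero N} (hx : m • x = 0) (hx' : m • x' = 0) :
    chi N m (x + x') = chi N m x + chi N m x' := by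
  have H := Fermat.Agent.S30.Chain.kumPackage N m
  refine chi_eq_of_isKum ?_
  rw [funOf_add]
  exact H.add _ _ _ _ (isKum_chi hx) (isKum_chi hx')

theorem eq_zero_of_chi_eq_zero {y : JZero N} (hy : m • y = 0) (h : chi N m y = 0) : y = 0 := by
  have H := Fermat.Agent.S30.Chain.kumPackage N m
  have h1 := isKum_chi (N := N) (m := m) hy
  rw [h, funOf_zero] at h1
  exact H.uniq 0 y 0 h1 (isKum_zero_zero N m)

theorem exists_chi_eq {φ : Additive (Gamma0 N) →+ ZMod m} (hφ : IsCuspidal φ) :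
    ∃ x : JZero N, m • x = 0 ∧ chi N m x = φ := by
  have H := Fermat.Agent.S30.Chain.kumPackage N m
  obtain ⟨x, hx⟩ := H.ex (funOf φ) (isParHom_of_isCuspidal hφ)
  exact ⟨x, nsmul_eq_zero_of_isKum hx, chi_eq_of_isKum hx⟩

theorem chi_hecke (ℓ : ℕ) [Fact ℓ.Prime] (hℓN : ¬ ℓ ∣ N) {x : JZero N} (hx : m • x = 0) :
    chi N m (heckeOperatorBar N ⟨ℓ, Fact.out⟩ x) = H642.heckeTransfer hℓN (chi N m x) := by
  refine chi_eq_of_isKum ?_
  rw [funOf_heckeTransfer]
  exact isKum_hecke_all N m ⟨ℓ, Fact.out⟩ hℓN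
    (Fermat.Agent.S30.H450.isTransfer_heckeCoh_h450 Fact.out hℓN _) (isKum_chi hx)

/-- `φ ↦ u • (φ ∘ Ad ε)`. -/
def twistEps (N : ℕ) (u : ZMod m) (φ : Additive (Gamma0 N) →+ ZMod m) :
    Additive (Gamma0 N) →+ ZMod m :=
  u • φ.comp (MonoidHom.toAdditive (Fermat.Agent.S15.H221.gamma0Eps N).toMonoidHom)

theorem funOf_twistEps (u : ZMod m) (φ : Additive (Gamma0 N) →+ ZMod m) :
    funOf (twistEps N u φ) = fun g => u * funOf φ (Fermat.Agent.S15.H221.gamma0Eps N g) := rfl

theorem chi_conj {u : ZMod m}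
    (hu : ∀ (c : G0 N → ZMod m) (x : JZero N), IsKum N m c x →
      IsKum N m (fun g => u * c (Fermat.Agent.S15.H221.gamma0Eps N g)) (complexConjugation • x))
    {x : JZero N} (hx : m • x = 0) :
    chi N m (complexConjugation • x) = twistEps N u (chi N m x) := by
  refine chi_eq_of_isKum ?_
  rw [funOf_twistEps]
  exact hu _ _ (isKum_chi hx)

end Chi

/-! ## The pairing -/

section Pair

variable (N : ℕ) [NeZero N] (m : ℕ) [NeZero m]

/-- The pairing on `J₀(N)[m]`: the Manin pairing of the characters. -/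
def pairJ (x y : JZero N) : ZMod m :=
  maninPairing (Gamma0 N) (chi N m x) (chi N m y)

variable {N m}

theorem hneg_gamma0 : (-1 : SL(2, ℤ)) ∈ Gamma0 N := Fermat.Agent.S59.H585.neg_one_mem_Gamma0' N

theorem pairJ_add_left {x x' y : JZero N} (hx : m • x = 0) (hx' : m • x' = 0) (hy : m • y = 0) :
    pairJ N m (x + x') y = pairJ N m x y + pairJ N m x' y := by
  have := Fermat.Agent.S59.H585.finiteIndex_Gamma0' (NeZero.ne N)
  rw [pairJ, chi_add hx hx']
  exact Fermat.Agent.S59.H585.maninPairing_add_left hneg_gamma0 (isCuspidal_chi hx)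
    (isCuspidal_chi hx') (isCuspidal_chi hy)

theorem pairJ_add_right {x y y' : JZero N} (hx : m • x = 0) (hy : m • y = 0) (hy' : m • y' = 0) :
    pairJ N m x (y + y') = pairJ N m x y + pairJ N m x y' := by
  have := Fermat.Agent.S59.H585.finiteIndex_Gamma0' (NeZero.ne N)
  rw [pairJ, chi_add hy hy']
  exact Fermat.Agent.S59.H585.maninPairing_add_right hneg_gamma0 (isCuspidal_chi hx)
    (isCuspidal_chi hy) (isCuspidal_chi hy')

theorem pairJ_nondeg {y : JZero N} (hy : m • y = 0)
    (h : ∀ x : JZero N, m • x = 0 → pairJ N m x y = 0) : y = 0 := by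
  have := Fermat.Agent.S59.H585.finiteIndex_Gamma0' (NeZero.ne N)
  refine eq_zero_of_chi_eq_zero hy ?_
  refine Fermat.Agent.S59.H585.pairing_mod_right_kernel hneg_gamma0 m (isCuspidal_chi hy) ?_
  intro φ hφ
  obtain ⟨x, hx, rfl⟩ := exists_chi_eq (N := N) (m := m) hφ
  exact h x hx

theorem nsmul_heckeOperatorBar (ℓ : Nat.Primes) {x : JZero N} (hx : m • x = 0) :
    m • heckeOperatorBar N ℓ x = 0 := by
  rw [← map_nsmul, hx, map_zero]

theorem pairJ_hecke (ℓ : Nat.Primes) (hℓN : ¬ (ℓ : ℕ) ∣ N) {x y : JZero N} (hx : m • x = 0)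
    (hy : m • y = 0) :
    pairJ N m (heckeOperatorBar N ℓ x) y = pairJ N m x (heckeOperatorBar N ℓ y) := by
  haveI : Fact (ℓ : ℕ).Prime := ⟨ℓ.2⟩
  have e : (⟨(ℓ : ℕ), Fact.out⟩ : Nat.Primes) = ℓ := Subtype.ext rfl
  have h1 := chi_hecke (N := N) (m := m) (ℓ : ℕ) hℓN hx
  have h2 := chi_hecke (N := N) (m := m) (ℓ : ℕ) hℓN hy
  rw [e] at h1 h2
  rw [pairJ, pairJ, h1, h2]
  exact Fermat.Agent.S59.H585.pairing_hecke_mod m hℓN (NeZero.ne N) _ _ (isCuspidal_chi hx)
    (isCuspidal_chi hy)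

theorem nsmul_conj {x : JZero N} (hx : m • x = 0) : m • (complexConjugation • x) = 0 := by
  rw [smul_comm, hx]
  exact smul_zero (A := JZero N) complexConjugation

theorem pairJ_conj {u : ZMod m} (huu : u * u = 1)
    (hu : ∀ (c : G0 N → ZMod m) (x : JZero N), IsKum N m c x →
      IsKum N m (fun g => u * c (Fermat.Agent.S15.H221.gamma0Eps N g)) (complexConjugation • x))
    {x y : JZero N} (hx : m • x = 0) (hy : m • y = 0) :
    pairJ N m (complexConjugation • x) (complexConjugation • y) = - pairJ N m x y := by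
  have := Fermat.Agent.S59.H585.finiteIndex_Gamma0' (NeZero.ne N)
  rw [pairJ, pairJ, chi_conj hu hx, chi_conj hu hy, twistEps, twistEps]
  have cx := Fermat.Agent.S15.H221.isCuspidal_comp_gamma0Eps (isCuspidal_chi (N := N) hx)
  have cy := Fermat.Agent.S15.H221.isCuspidal_comp_gamma0Eps (isCuspidal_chi (N := N) hy)
  have cy' : IsCuspidalOn (Gamma0 N) (u • (chi N m y).comp
      (MonoidHom.toAdditive (Fermat.Agent.S15.H221.gamma0Eps N).toMonoidHom)) :=
    (Fermat.Agent.S59.H585.cuspSub (ZMod m) (Gamma0 N) (ZMod m)).smul_mem u cy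
  rw [Fermat.Agent.S59.H585.maninPairing_smul_left hneg_gamma0 u cx cy',
    Fermat.Agent.S59.H585.maninPairing_smul_right hneg_gamma0 u cx cy,
    Fermat.Agent.S15.H221.maninPairing_gamma0Eps (NeZero.ne N) (isCuspidal_chi hx)
      (isCuspidal_chi hy), ← mul_assoc, huu, one_mul]

end Pair

/-- **PAIR from CONJ** (everything else is on main). -/
theorem pairStatement_of_conjWeak (hC : ConjWeakStatement) : PairStatement := by
  intro N _ m hm
  haveI : NeZero m := ⟨hm.ne'⟩
  obtain ⟨u, huu, hu⟩ := hC N m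
  exact ⟨pairJ N m, fun x x' y hx hx' hy => pairJ_add_left hx hx' hy,
    fun x y y' hx hy hy' => pairJ_add_right hx hy hy',
    fun y hy h => pairJ_nondeg hy h,
    fun ℓ hℓ x y hx hy => pairJ_hecke ℓ hℓ hx hy,
    fun x y hx hy => pairJ_conj huu hu hx hy⟩

theorem pairStatement_of_conj (hC : ConjStatement) : PairStatement :=
  pairStatement_of_conjWeak (conjWeak_of_conj hC)

end Fermat.Agent.S15.H111

end

end
-- ===== PACK-END S15/H111/PairDict.lean

-- ===== PACK-BEGIN S15/H111/CountAll.lean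
section
/-
Row S15, node DESC, tower COUNT (helper111): the official node `H975.CountStatement`
(real place, ALL primes `r`, ALL finite sets `S`) from DIV, FIN and PAIR.

* `r = 2`  : `(cc - 1) Y(W_E) ≤ U∞ = (cc - 1) E[4] ∩ J[2]` (LOC-∞) and `|U∞|² ≤ |W_E|` (COUNT-2,
             `Count2Top.card_uoo_sq_le`: pairings modulo `2^k` for all `k` + `J = 2 J`);
* `r` odd  : `(cc - 1) Y(W_E) ≤ W_E^{cc = -1}`, which is isotropic for the pairing modulo `r`.

`PairStatement` is `H111/PairDict.lean` (`pairStatement_of_conjWeak`: PAIR from CONJ alone), so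

    countStatement_of_conjWeak : DivStatement → FinStatement → ConjWeakStatement → CountStatement.

No restriction on `S` (the dictionary is Hecke-compatible at every `ℓ ∤ N`, `isKum_hecke_all`).
-/




set_option autoImplicit false

noncomputable section

namespace Fermat.Agent.S15.H111

open ModularCurve Fermat.Agent.S15.H975 Fermat.Agent.S15.H2 Fermat.Agent.S15.H302

/-! ## Abstract algebra at a general modulus -/

section Abstract

variable {T : Type*} [CommRing T] (𝔪 : Ideal T) {J : Type*} [AddCommGroup J] [Module T J]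

/-- `J[n]` as a `T`-submodule. -/
def nSub (T : Type*) [CommRing T] (J : Type*) [AddCommGroup J] [Module T J] (n : ℕ) :
    Submodule T J where
  carrier := {x | n • x = 0}
  zero_mem' := smul_zero _
  add_mem' := fun {a b} ha hb => by
    show n • (a + b) = 0
    rw [smul_add, ha, hb, add_zero]
  smul_mem' := fun t x hx => by
    show n • (t • x) = 0
    rw [smul_comm, hx, smul_zero]

theorem mem_nSub {n : ℕ} {x : J} : x ∈ nSub T J n ↔ n • x = 0 := Iff.rfl

theorem coe_mem_primaryPart_nSub_iff {n : ℕ} (x : nSub T J n) :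
    x ∈ primaryPart 𝔪 (nSub T J n) ↔ (x : J) ∈ primaryPart 𝔪 J := by
  constructor
  · rintro ⟨k, hk⟩
    exact ⟨k, fun t ht => by
      have := congrArg (fun e : nSub T J n => (e : J)) (hk t ht)
      simpa using this⟩
  · rintro ⟨k, hk⟩
    exact ⟨k, fun t ht => Subtype.ext (by simpa using hk t ht)⟩

variable {𝔪}

/-- Projection to the `𝔪`-primary part inside `J[n]`. -/
theorem exists_projector_n (n : ℕ) [Finite ↥(nSub T J n)] :
    ∃ f : T, (∀ x : J, n • x = 0 → x - f • x ∈ primaryPart 𝔪 J) ∧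
      ∀ y ∈ primaryPart 𝔪 J, n • y = 0 → f • y = 0 := by
  obtain ⟨K, f, hs⟩ := exists_isSplit 𝔪 (nSub T J n)
  refine ⟨f, fun x hx => ?_, fun y hyE hy => ?_⟩
  · have := hs.sub_smul_mem_primaryPart ⟨x, hx⟩
    rw [coe_mem_primaryPart_nSub_iff] at this
    simpa using this
  · have h1 : (⟨y, hy⟩ : nSub T J n) ∈ primaryPart 𝔪 (nSub T J n) := by
      rw [coe_mem_primaryPart_nSub_iff]; exact hyE
    have h2 := (hs.mem_primaryPart_iff _).mp h1
    have := congrArg (fun e : nSub T J n => (e : J)) h2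
    simpa using this

/-- **The odd count (abstract).**  If `n` is odd and `J[n]` carries a good pairing, every subgroup
of the primary part of `J[n]` on which `c = -1` has at most `√|E[n]|` elements. -/
theorem card_minus_sq_le {n : ℕ} [NeZero n] (hodd : Odd n) (c : J →ₗ[T] J)
    [Finite ↥(nSub T J n)] (B : J → J → ZMod n)
    (hl : ∀ x x' y : J, n • x = 0 → n • x' = 0 → n • y = 0 → B (x + x') y = B x y + B x' y)
    (hr : ∀ x y y' : J, n • x = 0 → n • y = 0 → n • y' = 0 → B x (y + y') = B x y + B x y')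
    (hnd : ∀ y : J, n • y = 0 → (∀ x : J, n • x = 0 → B x y = 0) → y = 0)
    (hhecke : ∀ (t : T) (x y : J), n • x = 0 → n • y = 0 → B (t • x) y = B x (t • y))
    (hconj : ∀ x y : J, n • x = 0 → n • y = 0 → B (c x) (c y) = - B x y)
    (E Y : AddSubgroup J) (hE : ∀ w, w ∈ E ↔ w ∈ primaryPart 𝔪 J ∧ n • w = 0)
    (hYE : Y ≤ E) (hY : ∀ w ∈ Y, c w = -w) :
    Nat.card ↥Y ^ 2 ≤ Nat.card ↥E := by
  have hfinE : Finite ↥E :=
    Finite.of_injective (fun x : ↥E => (⟨x, ((hE x).mp x.2).2⟩ : ↥(nSub T J n)))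
      (fun a b h => Subtype.ext (congrArg (fun e : ↥(nSub T J n) => (e : J)) h))
  have hEn : ∀ x ∈ E, n • x = 0 := fun x hx => ((hE x).mp hx).2
  have hYn : ∀ y ∈ Y, n • y = 0 := fun y hy => hEn y (hYE hy)
  have hr0 : ∀ x : J, n • x = 0 → B x 0 = 0 := fun x hx => by
    have := hr x 0 0 hx (smul_zero n) (smul_zero n)
    rw [add_zero] at this
    exact left_eq_add.mp this
  have hl0 : ∀ y : J, n • y = 0 → B 0 y = 0 := fun y hy => by
    have := hl 0 0 y (smul_zero n) (smul_zero n) hy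
    rw [add_zero] at this
    exact left_eq_add.mp this
  have hnegl : ∀ x y : J, n • x = 0 → n • y = 0 → B (-x) y = - B x y := fun x y hx hy => by
    have h := hl x (-x) y hx (by rw [smul_neg, hx, neg_zero]) hy
    rw [add_neg_cancel, hl0 y hy] at h
    exact eq_neg_of_add_eq_zero_right h.symm
  have hnegr : ∀ x y : J, n • x = 0 → n • y = 0 → B x (-y) = - B x y := fun x y hx hy => by
    have h := hr x y (-y) hx hy (by rw [smul_neg, hy, neg_zero])
    rw [add_neg_cancel, hr0 x hx] at h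
    exact eq_neg_of_add_eq_zero_right h.symm
  obtain ⟨f, hf1, hf2⟩ := exists_projector_n (T := T) (𝔪 := 𝔪) (J := J) n
  refine card_sq_le_of_isotropic B E Y hYE
    (fun x hx x' hx' y hy => hl x x' y (hEn x hx) (hEn x' hx') (hYn y hy))
    (fun x hx y hy y' hy' => hr x y y' (hEn x hx) (hYn y hy) (hYn y' hy')) ?_ ?_
  · -- isotropy
    intro y hy y' hy'
    have h1 := hconj y y' (hYn y hy) (hYn y' hy')
    rw [hY y hy, hY y' hy', hnegl _ _ (hYn y hy) (by rw [smul_neg, hYn y' hy', neg_zero]),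
      hnegr _ _ (hYn y hy) (hYn y' hy'), neg_neg] at h1
    -- `B y y' = - B y y'` and `n` odd
    have h2 : (2 : ZMod n) * B y y' = 0 := by
      rw [two_mul]
      nth_rewrite 1 [h1]
      exact neg_add_cancel _
    have hu : IsUnit (2 : ZMod n) := by
      have := (ZMod.isUnit_iff_coprime 2 n).mpr (Nat.coprime_two_left.mpr hodd)
      simpa using this
    exact (hu.mul_right_eq_zero).mp h2
  · -- nondegeneracy on the primary part
    intro y hy hzero
    have hyE := (hE y).mp (hYE hy)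
    refine hnd y hyE.2 fun x hx => ?_
    have hfx : n • (f • x) = 0 := by rw [smul_comm, hx, smul_zero]
    have hx'' : x - f • x ∈ E :=
      (hE _).mpr ⟨hf1 x hx, by rw [smul_sub, hx, hfx, sub_zero]⟩
    have h1 := hzero _ hx''
    have h2 := hl (x - f • x) (f • x) y (hEn _ hx'') hfx hyE.2
    rw [sub_add_cancel, h1, zero_add, hhecke f x y hx hyE.2, hf2 y hyE.1 hyE.2, hr0 x hx] at h2
    exact h2

end Abstract

/-! ## The Eisenstein ideal at a general prime `r` -/

section Good

variable (p : ℕ) [NeZero p] (S : Set ℕ)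

attribute [local instance] goodModule

/-- The Eisenstein ideal `(r, T_ℓ - 1 - ℓ : ℓ good)` of the good polynomial ring. -/
def eisIdealR (r : ℕ) : Ideal (GoodAlg p S) :=
  Ideal.span (insert (MvPolynomial.C (r : ℤ)) (Set.range (etaGen p S)))

theorem etaGen_mem_eisIdealR (r : ℕ) (ℓ : GoodPrime p S) : etaGen p S ℓ ∈ eisIdealR p S r :=
  Ideal.subset_span (Set.mem_insert_of_mem _ ⟨ℓ, rfl⟩)

theorem C_natCast_smul (r : ℕ) (w : JZero p) :
    (MvPolynomial.C (r : ℤ) : GoodAlg p S) • w = r • w := by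
  rw [good_smul_def, goodEval_C, Module.End.intCast_apply]
  exact natCast_zsmul w r

theorem finite_nSub_of_finite_tors (n : ℕ) [h : Finite ↥(tors p n)] :
    Finite ↥(nSub (GoodAlg p S) (JZero p) n) :=
  Finite.of_injective
    (fun x : ↥(nSub (GoodAlg p S) (JZero p) n) => (⟨x, x.2⟩ : ↥(tors p n)))
    (fun a b hab => Subtype.ext (congrArg (fun e : ↥(tors p n) => (e : JZero p)) hab))

theorem isEis_of_mem_primaryPartR {r : ℕ} {w : JZero p}
    (hw : w ∈ primaryPart (eisIdealR p S r) (JZero p)) : IsEis p S w := by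
  intro ℓ h1 h2
  obtain ⟨k, hk⟩ := hw
  refine ⟨k, ?_⟩
  have := hk (etaGen p S ⟨ℓ, h1, h2⟩ ^ k)
    (Ideal.pow_mem_pow (etaGen_mem_eisIdealR p S r ⟨ℓ, h1, h2⟩) k)
  rwa [etaGen_pow_smul] at this

theorem mem_primaryPartR_of_isEis {r : ℕ} [Finite ↥(tors p r)] {w : JZero p} (hr : r • w = 0)
    (hw : IsEis p S w) : w ∈ primaryPart (eisIdealR p S r) (JZero p) := by
  have hfin : Finite ↥(nSub (GoodAlg p S) (JZero p) r) := finite_nSub_of_finite_tors p S r
  obtain ⟨K, f, hs⟩ := exists_isSplit (eisIdealR p S r) (nSub (GoodAlg p S) (JZero p) r)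
  have hrad : eisIdealR p S r ≤ (Ideal.torsionOf (GoodAlg p S) (JZero p) w).radical := by
    refine Ideal.span_le.mpr ?_
    rintro g (rfl | ⟨ℓ, rfl⟩)
    · refine Ideal.le_radical ?_
      rw [Ideal.mem_torsionOf_iff, C_natCast_smul, hr]
    · obtain ⟨k, hk⟩ := hw ℓ.1 ℓ.2.1 ℓ.2.2
      refine ⟨k, ?_⟩
      rw [Ideal.mem_torsionOf_iff]
      exact (etaGen_pow_smul p S ℓ k w).trans hk
  have hf : f ∈ eisIdealR p S r := by
    have := hs.pow_mem 1
    simpa using this
  obtain ⟨n, hn⟩ := hrad hf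
  rw [Ideal.mem_torsionOf_iff] at hn
  have hfw : f • (⟨w, hr⟩ : nSub (GoodAlg p S) (JZero p) r) = 0 := by
    rcases Nat.eq_zero_or_pos n with rfl | hnpos
    · rw [pow_zero, one_smul] at hn
      subst hn
      exact Subtype.ext (smul_zero f)
    · rw [← hs.pow_smul _ n hnpos]
      exact Subtype.ext hn
  have := (hs.mem_primaryPart_iff _).mpr hfw
  rwa [coe_mem_primaryPart_nSub_iff] at this

/-- **The bridge at `r`**: `W_E = eis p S r` is the `r`-torsion of the primary part at the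
Eisenstein ideal. -/
theorem mem_eis_iff_mem_primaryPartR {r : ℕ} [Finite ↥(tors p r)] {w : JZero p} :
    w ∈ H975.eis p S r ↔ w ∈ primaryPart (eisIdealR p S r) (JZero p) ∧ r • w = 0 :=
  ⟨fun h => ⟨mem_primaryPartR_of_isEis p S h.1 h.2, h.1⟩,
    fun h => ⟨h.2, isEis_of_mem_primaryPartR p S h.1⟩⟩

/-- Self-adjointness for the generators gives self-adjointness for the whole polynomial ring
(general modulus). -/
theorem hecke_of_gens_n {n : ℕ} (B : JZero p → JZero p → ZMod n)
    (hl : ∀ x x' y : JZero p, n • x = 0 → n • x' = 0 → n • y = 0 →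
      B (x + x') y = B x y + B x' y)
    (hr : ∀ x y y' : JZero p, n • x = 0 → n • y = 0 → n • y' = 0 →
      B x (y + y') = B x y + B x y')
    (hgen : ∀ ℓ : GoodPrime p S, ∀ x y : JZero p, n • x = 0 → n • y = 0 →
      B (heckeOperatorBar p ℓ.1 x) y = B x (heckeOperatorBar p ℓ.1 y))
    (t : GoodAlg p S) : ∀ x y : JZero p, n • x = 0 → n • y = 0 → B (t • x) y = B x (t • y) := by
  have hsm : ∀ (u : GoodAlg p S) (x : JZero p), n • x = 0 → n • (u • x) = 0 :=
    fun u x hx => by rw [smul_comm, hx, smul_zero]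
  have hL : ∀ y : JZero p, n • y = 0 →
      ∃ φ : ↥(tors p n) →+ ZMod n, ∀ x, φ x = B x y :=
    fun y hy => ⟨AddMonoidHom.mk' (fun x => B x y) (fun a b => hl a b y a.2 b.2 hy), fun _ => rfl⟩
  have hR : ∀ x : JZero p, n • x = 0 →
      ∃ φ : ↥(tors p n) →+ ZMod n, ∀ y, φ y = B x y :=
    fun x hx => ⟨AddMonoidHom.mk' (fun y => B x y) (fun a b => hr x a b hx a.2 b.2), fun _ => rfl⟩
  induction t using MvPolynomial.induction_on with
  | C a =>
    intro x y hx hy
    have e1 : (MvPolynomial.C a : GoodAlg p S) • x = a • x := by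
      rw [good_smul_def, goodEval_C, Module.End.intCast_apply]
    have e2 : (MvPolynomial.C a : GoodAlg p S) • y = a • y := by
      rw [good_smul_def, goodEval_C, Module.End.intCast_apply]
    rw [e1, e2]
    obtain ⟨φ, hφ⟩ := hL y hy
    obtain ⟨ψ, hψ⟩ := hR x hx
    have h1 := hφ (a • ⟨x, hx⟩)
    have h2 := hψ (a • ⟨y, hy⟩)
    rw [map_zsmul, hφ] at h1
    rw [map_zsmul, hψ] at h2
    have c1 : ((a • (⟨x, hx⟩ : ↥(tors p n)) : ↥(tors p n)) : JZero p) = a • x := rfl
    have c2 : ((a • (⟨y, hy⟩ : ↥(tors p n)) : ↥(tors p n)) : JZero p) = a • y := rfl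
    rw [c1] at h1
    rw [c2] at h2
    rw [← h1, ← h2]
  | add u v hu hv =>
    intro x y hx hy
    rw [add_smul, add_smul, hl _ _ y (hsm u x hx) (hsm v x hx) hy,
      hr x _ _ hx (hsm u y hy) (hsm v y hy), hu x y hx hy, hv x y hx hy]
  | mul_X u ℓ hu =>
    intro x y hx hy
    have eX : ∀ z : JZero p, (MvPolynomial.X ℓ : GoodAlg p S) • z = heckeOperatorBar p ℓ.1 z :=
      fun z => by rw [good_smul_def, goodEval_X]
    have hXx : n • heckeOperatorBar p ℓ.1 x = 0 := by
      rw [← eX]; exact hsm _ x hx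
    rw [mul_smul, eX, hu _ y hXx hy, hgen ℓ x _ hx (hsm u y hy), ← eX, ← mul_smul, mul_comm]

end Good

/-! ## COUNT -/

/-- The pairing on `J₀(p)[n]` in the form used below. -/
theorem exists_pairing (hPair : PairStatement) (p : ℕ) [NeZero p] (hp : p.Prime) (S : Set ℕ)
    (n : ℕ) (hn : 0 < n) :
    letI := goodModule p S
    ∃ B : JZero p → JZero p → ZMod n,
      (∀ x x' y : JZero p, n • x = 0 → n • x' = 0 → n • y = 0 →
        B (x + x') y = B x y + B x' y) ∧
      (∀ x y y' : JZero p, n • x = 0 → n • y = 0 → n • y' = 0 →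
        B x (y + y') = B x y + B x y') ∧
      (∀ y : JZero p, n • y = 0 → (∀ x : JZero p, n • x = 0 → B x y = 0) → y = 0) ∧
      (∀ (t : GoodAlg p S) (x y : JZero p), n • x = 0 → n • y = 0 →
        B (t • x) y = B x (t • y)) ∧
      (∀ x y : JZero p, n • x = 0 → n • y = 0 →
        B (complexConjugation • x) (complexConjugation • y) = - B x y) := by
  letI := goodModule p S
  obtain ⟨B, h1, h2, h3, h4, h5⟩ := hPair p n hn
  refine ⟨B, h1, h2, h3, fun t => hecke_of_gens_n p S B h1 h2 (fun ℓ x y hx hy => ?_) t, h5⟩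
  refine h4 ℓ.1 (fun hdvd => ℓ.2.1 ?_) x y hx hy
  exact (Nat.prime_dvd_prime_iff_eq ℓ.1.2 hp).mp hdvd

/-- **COUNT at `r = 2`.** -/
theorem count_two (hDiv : DivStatement) (hFin : FinStatement) (hPair : PairStatement)
    (p : ℕ) [NeZero p] (hp : p.Prime) (S : Finset ℕ) :
    Nat.card ↥(cocImage p (S : Set ℕ) 2 complexConjugation) ^ 2 ≤
      Nat.card ↥(H975.eis p (S : Set ℕ) 2) := by
  letI : Module (GoodAlg p (S : Set ℕ)) (JZero p) := goodModule p (S : Set ℕ)
  have hfinT : ∀ k, Finite ↥(tors p (2 ^ k)) := fun k => hFin p (2 ^ k) (by positivity)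
  have hfin : ∀ k, Finite ↥(tk (JZero p) k) := fun k =>
    haveI := hfinT k
    finite_tk_of_finite_tors p k
  haveI := hfinT 1
  haveI := hfin 2
  haveI := hfin 1
  have hdiv : ∀ x : JZero p, ∃ y : JZero p, 2 • y = x := hDiv p hp 2 Nat.prime_two
  have hc := ccLin_ccLin p (S : Set ℕ)
  have hpair : ∀ k, ∃ B : JZero p → JZero p → ZMod (2 ^ k),
      IsGoodPairing (GoodAlg p (S : Set ℕ)) (ccLin p (S : Set ℕ)) k B := by
    intro k
    obtain ⟨B, h1, h2, h3, h4, h5⟩ := exists_pairing hPair p hp (S : Set ℕ) (2 ^ k) (by positivity)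
    exact ⟨B, fun x hx x' hx' y hy => h1 x x' y (mem_tk.mp hx) (mem_tk.mp hx') (mem_tk.mp hy),
      fun x hx y hy y' hy' => h2 x y y' (mem_tk.mp hx) (mem_tk.mp hy) (mem_tk.mp hy'),
      fun y hy h => h3 y (mem_tk.mp hy) fun x hx => h x (mem_tk.mpr hx),
      fun t x hx y hy => h4 t x y (mem_tk.mp hx) (mem_tk.mp hy),
      fun x hx y hy => h5 x y (mem_tk.mp hx) (mem_tk.mp hy)⟩
  have hcard := card_uoo_sq_le (𝔪 := eisIdeal p (S : Set ℕ)) (ccLin p (S : Set ℕ)) hc hdiv hfin
    hpair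
  have heq : H975.eis p (S : Set ℕ) 2 =
      H111.eis (eisIdeal p (S : Set ℕ)) (JZero p) ⊓ tk (JZero p) 1 :=
    AddSubgroup.ext fun w => mem_eis_iff_mem_primaryPart p (S : Set ℕ)
  have hle : cocImage p (S : Set ℕ) 2 complexConjugation ≤
      uoo (eisIdeal p (S : Set ℕ)) (ccLin p (S : Set ℕ)) := by
    rintro w ⟨y, ⟨hy1, hy2⟩, rfl⟩
    have hyE : ccLin p (S : Set ℕ) y - y ∈ primaryPart (eisIdeal p (S : Set ℕ)) (JZero p) :=
      ((mem_eis_iff_mem_primaryPart p (S : Set ℕ)).mp (hy2 complexConjugation)).1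
    exact sub_mem_uoo (𝔪 := eisIdeal p (S : Set ℕ)) (ccLin p (S : Set ℕ)) hc hdiv y
      (hy1 complexConjugation) hyE
  have hfinU : Finite ↥(uoo (eisIdeal p (S : Set ℕ)) (ccLin p (S : Set ℕ))) :=
    Finite.of_injective
      (fun x : ↥(uoo (eisIdeal p (S : Set ℕ)) (ccLin p (S : Set ℕ))) =>
        (⟨x, (AddSubgroup.mem_inf.mp x.2).2⟩ : ↥(tk (JZero p) 1)))
      (fun a b h => Subtype.ext (congrArg (fun e : ↥(tk (JZero p) 1) => (e : JZero p)) h))
  have hcardle : Nat.card ↥(cocImage p (S : Set ℕ) 2 complexConjugation) ≤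
      Nat.card ↥(uoo (eisIdeal p (S : Set ℕ)) (ccLin p (S : Set ℕ))) :=
    Nat.card_le_card_of_injective (fun x => (⟨x, hle x.2⟩ :
        ↥(uoo (eisIdeal p (S : Set ℕ)) (ccLin p (S : Set ℕ)))))
      (fun a b h => Subtype.ext (congrArg
        (fun e : ↥(uoo (eisIdeal p (S : Set ℕ)) (ccLin p (S : Set ℕ))) => (e : JZero p)) h))
  rw [heq]
  exact (Nat.pow_le_pow_left hcardle 2).trans hcard

/-- **COUNT at an odd prime `r`.** -/
theorem count_odd (hFin : FinStatement) (hPair : PairStatement)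
    (p : ℕ) [NeZero p] (hp : p.Prime) (S : Finset ℕ) (r : ℕ) (hr : r.Prime) (hr2 : r ≠ 2) :
    Nat.card ↥(cocImage p (S : Set ℕ) r complexConjugation) ^ 2 ≤
      Nat.card ↥(H975.eis p (S : Set ℕ) r) := by
  letI : Module (GoodAlg p (S : Set ℕ)) (JZero p) := goodModule p (S : Set ℕ)
  haveI : NeZero r := ⟨hr.ne_zero⟩
  haveI hfinT : Finite ↥(tors p r) := hFin p r hr.pos
  haveI : Finite ↥(nSub (GoodAlg p (S : Set ℕ)) (JZero p) r) :=
    finite_nSub_of_finite_tors p (S : Set ℕ) r
  obtain ⟨B, h1, h2, h3, h4, h5⟩ := exists_pairing hPair p hp (S : Set ℕ) r hr.pos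
  refine card_minus_sq_le (𝔪 := eisIdealR p (S : Set ℕ) r) (hr.odd_of_ne_two hr2)
    (ccLin p (S : Set ℕ)) B h1 h2 h3 h4 h5 (H975.eis p (S : Set ℕ) r)
    (cocImage p (S : Set ℕ) r complexConjugation)
    (fun w => mem_eis_iff_mem_primaryPartR p (S : Set ℕ))
    (cocImage_le p (S : Set ℕ) r complexConjugation) ?_
  rintro w ⟨y, -, rfl⟩
  show complexConjugation • (complexConjugation • y - y) = -(complexConjugation • y - y)
  rw [smul_sub, smul_smul, complexConjugation_mul_self, one_smul]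
  abel

/-- **COUNT** (the official node) from DIV, FIN and PAIR. -/
theorem countStatement_of_pair (hDiv : DivStatement) (hFin : FinStatement)
    (hPair : PairStatement) : CountStatement := by
  intro p _ hp S r hr _
  rcases eq_or_ne r 2 with rfl | hr2
  · exact count_two hDiv hFin hPair p hp S
  · exact count_odd hFin hPair p hp S r hr hr2

/-- **COUNT from CONJ** (weak form), DIV and FIN. -/
theorem countStatement_of_conjWeak (hDiv : DivStatement) (hFin : FinStatement)
    (hC : ConjWeakStatement) : CountStatement :=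
  countStatement_of_pair hDiv hFin (pairStatement_of_conjWeak hC)

/-- **COUNT from CONJ**, DIV and FIN. -/
theorem countStatement_of_conj (hDiv : DivStatement) (hFin : FinStatement)
    (hC : ConjStatement) : CountStatement :=
  countStatement_of_pair hDiv hFin (pairStatement_of_conj hC)

end Fermat.Agent.S15.H111

end

end
-- ===== PACK-END S15/H111/CountAll.lean

-- ===== PACK-BEGIN S15/H337/KumConj.lean
section




/-!
# Row S15, DESC tower COUNT (`r` odd), piece CONJ (helper337)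

`kumConj : KumConjStatement` — the Kummer dictionary turns the complex conjugation into
`c ↦ - c ∘ ε`: if `x` is the Kummer class of the character `c` (witnesses `f, t, U`) then
`complexConjugation • x` is the Kummer class of `γ ↦ - c (ε γ)` (witnesses `cc • f, cc • t, cj U`).
-/

set_option autoImplicit false

noncomputable section

namespace Fermat.Agent.S15.H337

open UpperHalfPlane CongruenceSubgroup ModularCurve ModularCurve.Period AlgebraicCurve
open Fermat.Agent.S24 Fermat.Agent.S24.H648 Fermat.Agent.S24.H708 Fermat.Agent.S29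
open Fermat.Agent.S29.M4b Fermat.Agent.S21.ConjPartner
open scoped MatrixGroups ComplexConjugate Manifold

/-! ## The embedding `ℚ̄ → ℂ` and the complex conjugation -/

theorem iotaC_eq_complexEmbedding : Deg457.iotaC = (complexEmbedding : Kbar →+* ℂ) := rfl

theorem iotaC_complexConjugation (x : Kbar) :
    Deg457.iotaC (complexConjugation x) = conj (Deg457.iotaC x) := by
  rw [iotaC_eq_complexEmbedding]
  exact complexEmbedding_complexConjugation x

theorem coeffMap_iotaC_conj (u : LaurentSeries Kbar) :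
    coeffMap Deg457.iotaC (coeffMap ((complexConjugation : Kbar ≃ₐ[ℚ] Kbar) : Kbar →+* Kbar) u) =
      coeffMap (starRingEnd ℂ) (coeffMap Deg457.iotaC u) := by
  rw [coeffMap_coeffMap, coeffMap_coeffMap]
  refine coeffMap_congr (RingHom.ext fun x => ?_) u
  exact iotaC_complexConjugation x

/-! ## The root of unity -/

theorem zetaP_pow_self_h337 (p : ℕ) [NeZero p] : zetaP p ^ p = 1 := by
  unfold zetaP
  rw [← Complex.exp_nat_mul]
  have hp : (p : ℂ) ≠ 0 := Nat.cast_ne_zero.mpr (NeZero.ne p)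
  rw [show (p : ℂ) * (2 * Real.pi * Complex.I / p) = 2 * Real.pi * Complex.I by field_simp]
  exact Complex.exp_two_pi_mul_I

theorem conj_zetaP (p : ℕ) : conj (zetaP p) = (zetaP p)⁻¹ := by
  unfold zetaP
  rw [← Complex.exp_conj, ← Complex.exp_neg]
  congr 1
  simp only [map_div₀, map_mul, Complex.conj_ofReal, Complex.conj_I, map_ofNat, map_natCast]
  ring

theorem conj_zetaP_pow_val (p : ℕ) [NeZero p] (a : ZMod p) :
    conj (zetaP p) ^ a.val = zetaP p ^ (-a).val := by
  have hz : zetaP p ≠ 0 := Complex.exp_ne_zero _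
  have h1 : zetaP p ^ (-a).val * zetaP p ^ a.val = 1 := by
    rw [← pow_add]
    have h : (((-a).val + a.val : ℕ) : ZMod p) = 0 := by
      rw [Nat.cast_add, ZMod.natCast_zmod_val, ZMod.natCast_zmod_val, neg_add_cancel]
    obtain ⟨k, hk⟩ := (ZMod.natCast_eq_zero_iff _ _).1 h
    rw [hk, pow_mul, zetaP_pow_self_h337, one_pow]
  rw [conj_zetaP, inv_pow]
  exact (eq_inv_of_mul_eq_one_left h1).symm

/-! ## Twisted functions -/

theorem hasChar_cj {N p : ℕ} [NeZero p] {c : G0 N → ZMod p} {U : ℍ → ℂ}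
    (hU : HasChar N p c U) : HasChar N p (fun γ => - c (jConjGamma0 N γ)) (cj U) := by
  intro γ τ
  rw [cj_smul, cj_apply]
  have h := hU (jConjGamma0 N γ) (J • τ)
  rw [jConjGamma0_coe] at h
  rw [h, map_mul, map_pow, conj_zetaP_pow_val]

theorem isTwisted_cj {N p : ℕ} [NeZero p] {c : G0 N → ZMod p} {U : ℍ → ℂ}
    (hU : IsTwisted N p c U) : IsTwisted N p (fun γ => - c (jConjGamma0 N γ)) (cj U) := by
  refine ⟨cj_mdiff hU.mdiff, ?_, hasChar_cj hU.hasChar, ?_⟩
  · obtain ⟨τ, hτ⟩ := hU.ne_zero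
    refine ⟨J • τ, ?_⟩
    rw [cj_apply, J_smul_J_smul]
    exact (map_ne_zero _).mpr hτ
  · rw [← cj_pow']
    exact cj_mem_goodRing hU.pow_mem

/-! ## Realisations -/

theorem coe_galois_smul {N : ℕ} (σ : GQ) (u : FF N) :
    (((arithmeticGalois (modularFunctionFieldFull N) σ • u : FF N) : FF N) : LaurentSeries Kbar) =
      coeffMap ((σ : Kbar ≃ₐ[ℚ] Kbar) : Kbar →+* Kbar) (u : LaurentSeries Kbar) := rfl

theorem realises_cj {N : ℕ} [NeZero N] {u : FF N} {G : ℍ → ℂ} (h : Realises N u G) :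
    Realises N (arithmeticGalois (modularFunctionFieldFull N) complexConjugation • u) (cj G) := by
  refine ⟨cj_mem_goodRing h.1, ?_⟩
  rw [qexpFun_cj (H882.isMerInf_of_mem_goodRing h.1), h.2, coe_galois_smul, coeffMap_iotaC_conj]

/-! ## The statement -/

/-- **(CONJ)** the Kummer dictionary turns the complex conjugation into `c ↦ - c ∘ ε`. -/
theorem kumConj : KumConjStatement := by
  intro N m _ _ c x hk
  obtain ⟨f, t, U, ht, hx, hU, hR⟩ := hk
  set σ := arithmeticGalois (modularFunctionFieldFull N) complexConjugation with hσ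
  refine ⟨σ • f, σ • t, cj U, ?_, ?_, isTwisted_cj hU, ?_⟩
  · rw [SemilinearAut.smul_def]
    exact (map_ne_zero _).mpr ht
  · exact H455.IsKummerClass.smul σ hx
  · have h := realises_cj hR
    rw [cj_pow'] at h
    rw [← hσ, smul_mul', smul_pow'] at h
    exact h

end Fermat.Agent.S15.H337

end
end
-- ===== PACK-END S15/H337/KumConj.lean

-- ===== PACK-BEGIN S15/H111/CountFinal.lean
section
/-
Row S15, node DESC, tower COUNT (helper111): the official node `H975.CountStatement`,
UNCONDITIONAL.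

    count : H975.CountStatement        (real place, all primes `r` including `r = 2`, all `S`)

Assembly of `H111/CountAll.lean` (`countStatement_of_conj`) with
* CONJ  : `S15.H337.kumConj` (helper337), transported from the Prelude's `jConjGamma0` to
          `H221.gamma0Eps` (the same map);
* DIV   : `S17.GDiv.divisible` (row S17);
* FIN   : `H975.finStatement`.
-/





set_option autoImplicit false

noncomputable section

namespace Fermat.Agent.S15.H111

open ModularCurve CongruenceSubgroup Fermat.Agent.S15.H975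
open scoped MatrixGroups

/-- The Prelude's `jConjGamma0` is `Ad ε` of `H221`. -/
theorem jConjGamma0_eq_gamma0Eps (N : ℕ) (γ : Gamma0 N) :
    ModularCurve.Period.jConjGamma0 N γ = Fermat.Agent.S15.H221.gamma0Eps N γ :=
  Subtype.ext (Subtype.ext rfl)

/-- **CONJ** in the shape of `H111/PairDict.lean`. -/
theorem conjStatement : ConjStatement := by
  intro N m _ _ c x hk
  have h := Fermat.Agent.S15.H337.kumConj N m c x hk
  have e : (fun γ : Fermat.Agent.S29.G0 N => - c (ModularCurve.Period.jConjGamma0 N γ)) =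
      fun g => - c (Fermat.Agent.S15.H221.gamma0Eps N g) := by
    funext γ
    rw [jConjGamma0_eq_gamma0Eps]
  rwa [e] at h

/-- **PAIR**, unconditional. -/
theorem pairStatement : PairStatement := pairStatement_of_conj conjStatement

/-- **DIV** from row S17. -/
theorem divStatement : DivStatement := fun p _ _ r hr x =>
  Fermat.Agent.S17.GDiv.divisible p r hr.ne_zero x

/-- **COUNT**: the official node, unconditional. -/
theorem count : CountStatement :=
  countStatement_of_conj _root_.Fermat.Agent.S15.H111.divStatement finStatement conjStatement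

end Fermat.Agent.S15.H111

end

end
-- ===== PACK-END S15/H111/CountFinal.lean

-- ===== PACK-BEGIN S15/H602/IdentLevP.lean
section





/-!
# S15 / GEO-PARTS (b) IDENT (helper602): the functions `j`, `j_p`, `j_p / j ^ p` at level `p`

Facts on the places of `F_p = ℚ̄(X₀(p))`, `p` prime, used by IDENT at level `p` and (through
restriction of places) at level `p k`:

* `ord_jBar_pos_of_ord_ratio_neg602` : the poles of `u = j_p / j ^ p` are zeros of `j`;
* `hasVal_ratio_cuspInfty602`, `hasVal_ratio_cuspZero602` : `u (∞) = 1`, `u (0) = 0`;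
* `one_lt_val_jBar_of_jLevelBar602` : `j_p (P) = b`, `v b > 1` ⟹ `v (j (P)) > 1`
  (Newton polygon of the modular equation, `H962.val_root_of_isModularShape`).
-/

set_option autoImplicit false
set_option synthInstance.maxHeartbeats 400000

noncomputable section

open AlgebraicCurve ModularCurve HahnSeries

namespace Fermat.Agent.S15.H602

open Fermat.Agent.S15.H722 Fermat.Agent.Lib.RR Fermat.Agent.S18.H725 Fermat.Agent.S15.H362

section LevelP

variable (p : ℕ) [NeZero p]

theorem jBar_sub_const_ne_zero602 (c : Qb) : jBar p - algebraMap Qb (FB p) c ≠ 0 := by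
  intro h
  have h1 : jBar p = algebraMap Qb (FB p) c := sub_eq_zero.mp h
  have h2 := ord_cuspInfty_jBar p
  rw [h1, ord_algebraMap] at h2
  omega

theorem jLevelBar_sub_const_ne_zero602 (c : Qb) :
    jLevelBar p - algebraMap Qb (FB p) c ≠ 0 := by
  intro h
  have h1 : jLevelBar p = algebraMap Qb (FB p) c := sub_eq_zero.mp h
  have h2 := ord_cuspInfty_jLevelBar p
  rw [h1, ord_algebraMap] at h2
  have : (p : ℤ) ≠ 0 := by exact_mod_cast NeZero.ne p
  omega

theorem jBar_ne_zero602 : jBar p ≠ 0 := by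
  have := jBar_sub_const_ne_zero602 p 0
  rwa [map_zero, sub_zero] at this

theorem jLevelBar_ne_zero602 : jLevelBar p ≠ 0 := by
  have := jLevelBar_sub_const_ne_zero602 p 0
  rwa [map_zero, sub_zero] at this

theorem hasValueAt_jBar_iff602 {P : Place Qb (FB p)} {a : Qb} :
    Fermat.Agent.S15.H542.HasValueAt P (Fermat.Agent.S15.H542.jBar p) a ↔
      HasVal P (jBar p) a := by
  constructor
  · intro h
    exact Or.inr h
  · intro h
    exact h.resolve_left (jBar_sub_const_ne_zero602 p a)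

theorem hasValueAt_jNBar_iff602 {P : Place Qb (FB p)} {a : Qb} :
    Fermat.Agent.S15.H542.HasValueAt P (Fermat.Agent.S15.H542.jNBar p) a ↔
      HasVal P (jLevelBar p) a := by
  constructor
  · intro h
    exact Or.inr h
  · intro h
    exact h.resolve_left (jLevelBar_sub_const_ne_zero602 p a)

/-- the poles of `j_p` are poles of `j` -/
theorem ord_jBar_neg_of_jLevelBar602 (hp : p.Prime) (P : Place Qb (FB p))
    (h : P.ord (jLevelBar p) < 0) : P.ord (jBar p) < 0 := by
  have hp0 : (0 : ℤ) < p := by exact_mod_cast hp.pos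
  rcases eq_cusp_of_ord_jLevelBar_neg p hp P h with rfl | rfl
  · rw [ord_cuspInfty_jBar]; omega
  · rw [ord_cuspZero_jBar]; omega

/-- the poles of `j` are poles of `j_p` -/
theorem ord_jLevelBar_neg_of_jBar602 (hp : p.Prime) (P : Place Qb (FB p))
    (h : P.ord (jBar p) < 0) : P.ord (jLevelBar p) < 0 := by
  have hp0 : (0 : ℤ) < p := by exact_mod_cast hp.pos
  rcases eq_cusp_of_ord_jBar_neg p hp P h with rfl | rfl
  · rw [ord_cuspInfty_jLevelBar]; omega
  · rw [ord_cuspZero_jLevelBar]; omega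

/-- `u = j_p / j ^ p` -/
def ratio602 : FB p := jLevelBar p / jBar p ^ p

theorem ord_ratio602 (P : Place Qb (FB p)) :
    P.ord (ratio602 p) = P.ord (jLevelBar p) - p * P.ord (jBar p) := by
  unfold ratio602
  rw [div_eq_mul_inv, P.ord_mul (jLevelBar_ne_zero602 p)
    (inv_ne_zero (pow_ne_zero _ (jBar_ne_zero602 p))), P.ord_inv, ord_pow]
  ring

/-- the poles of `u` are zeros of `j` -/
theorem ord_jBar_pos_of_ord_ratio_neg602 (hp : p.Prime) (P : Place Qb (FB p))
    (h : P.ord (ratio602 p) < 0) : 0 < P.ord (jBar p) := by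
  have hp2 : (2 : ℤ) ≤ p := by exact_mod_cast hp.two_le
  rw [ord_ratio602] at h
  by_contra hcon
  push Not at hcon
  rcases lt_or_eq_of_le hcon with hlt | heq
  · rcases eq_cusp_of_ord_jBar_neg p hp P hlt with rfl | rfl
    · rw [ord_cuspInfty_jLevelBar, ord_cuspInfty_jBar] at h
      linarith
    · rw [ord_cuspZero_jLevelBar, ord_cuspZero_jBar] at h
      nlinarith
  · rw [heq, mul_zero, sub_zero] at h
    have := ord_jBar_neg_of_jLevelBar602 p hp P h
    omega

theorem hasVal_ratio_cuspZero602 (hp : p.Prime) : HasVal (cuspZero p) (ratio602 p) 0 := by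
  have hp2 : (2 : ℤ) ≤ p := by exact_mod_cast hp.two_le
  apply hasVal_zero_of_ord_pos
  rw [ord_ratio602, ord_cuspZero_jLevelBar, ord_cuspZero_jBar]
  nlinarith

theorem coe_jBar_eq602 : ((jBar p : FB p) : LaurentSeries Qb) = jqModC Qb :=
  Fermat.Agent.S15.H542.coe_jBar_eq p

theorem coe_jLevelBar_eq602 :
    ((jLevelBar p : FB p) : LaurentSeries Qb) = qExpand Qb p (jqModC Qb) :=
  Fermat.Agent.S15.H542.coe_jNBar_eq p

theorem hasVal_ratio_cuspInfty602 : HasVal (cuspInfty p) (ratio602 p) 1 := by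
  have hp0 : (p : ℤ) ≠ 0 := by exact_mod_cast NeZero.ne p
  by_cases hx : jLevelBar p - jBar p ^ p = 0
  · left
    have h1 : jLevelBar p = jBar p ^ p := sub_eq_zero.mp hx
    unfold ratio602
    rw [h1, div_self (pow_ne_zero _ (jBar_ne_zero602 p)), map_one, sub_self]
  · right
    have hpow : jBar p ^ p ≠ 0 := pow_ne_zero _ (jBar_ne_zero602 p)
    have hfac : ratio602 p - algebraMap Qb (FB p) 1 =
        (jLevelBar p - jBar p ^ p) * (jBar p ^ p)⁻¹ := by
      unfold ratio602
      rw [map_one]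
      field_simp
    rw [hfac, (cuspInfty p).ord_mul hx (inv_ne_zero hpow), (cuspInfty p).ord_inv, ord_pow,
      ord_cuspInfty_jBar, ord_cuspInfty]
    -- the `q`-order of `j_p - j ^ p` is `> -p`
    have hL1 : Fermat.Agent.S15.H386.IsLead (jqModC Qb) (-1) 1 :=
      Fermat.Agent.S15.H386.isLead_jqModC
    have hL2 : Fermat.Agent.S15.H386.IsLead (qExpand Qb p (jqModC Qb)) (-(p : ℤ)) 1 := by
      have := Fermat.Agent.S15.H386.isLead_qExpand p hL1
      simpa using this
    have hL3 : Fermat.Agent.S15.H386.IsLead (jqModC Qb ^ p) (-(p : ℤ)) 1 := by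
      have := hL1.pow p
      simpa using this
    have hL4 := hL2.sub hL3
    rw [sub_self] at hL4
    have hcoe : ((jLevelBar p - jBar p ^ p : FB p) : LaurentSeries Qb) =
        qExpand Qb p (jqModC Qb) - jqModC Qb ^ p := by
      rw [← coe_jLevelBar_eq602 p, ← coe_jBar_eq602 p]
      rfl
    have hne : ((jLevelBar p - jBar p ^ p : FB p) : LaurentSeries Qb) ≠ 0 := by
      intro h0
      exact hx (Subtype.ext h0)
    rw [Fermat.Agent.S15.H386.isLead_iff_lt_orderTop, HahnSeries.single_eq_zero, sub_zero,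
      ← hcoe, ← HahnSeries.order_eq_orderTop_of_ne_zero hne] at hL4
    have hL5 : -(p : ℤ) < ((jLevelBar p - jBar p ^ p : FB p) : LaurentSeries Qb).order := by
      exact_mod_cast hL4
    linarith

theorem hasVal_ratio602 {P : Place Qb (FB p)} {a b : Qb} (ha : HasVal P (jBar p) a)
    (hb : HasVal P (jLevelBar p) b) (ha0 : a ≠ 0) : HasVal P (ratio602 p) (b / a ^ p) :=
  hb.div (ha.pow p) (pow_ne_zero _ ha0)

/-- a place where `j_p` is regular has a `j`-value -/
theorem exists_hasVal_jBar602 (hp : p.Prime) {P : Place Qb (FB p)}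
    (h : 0 ≤ P.ord (jLevelBar p)) : ∃ a : Qb, HasVal P (jBar p) a := by
  refine exists_hasVal P (Fermat.Agent.Lib.FF398.deg_eq_one_FF p P) ?_
  by_contra hcon
  push Not at hcon
  have := ord_jLevelBar_neg_of_jBar602 p hp P hcon
  omega

/-- a place where `j` is regular has a `j_p`-value -/
theorem exists_hasVal_jLevelBar602 (hp : p.Prime) {P : Place Qb (FB p)}
    (h : 0 ≤ P.ord (jBar p)) : ∃ b : Qb, HasVal P (jLevelBar p) b := by
  refine exists_hasVal P (Fermat.Agent.Lib.FF398.deg_eq_one_FF p P) ?_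
  by_contra hcon
  push Not at hcon
  have := ord_jBar_neg_of_jLevelBar602 p hp P hcon
  omega

/-- **Newton polygon**: a non-integral value of `j_p` forces a non-integral value of `j`. -/
theorem one_lt_val_jBar_of_jLevelBar602 (hp : p.Prime) {Γ₀ : Type*}
    [LinearOrderedCommGroupWithZero Γ₀] (v : Valuation Qb Γ₀)
    {P : Place Qb (FB p)} {a b : Qb} (ha : HasVal P (jBar p) a)
    (hb : HasVal P (jLevelBar p) b) (hvb : 1 < v b) : 1 < v a := by
  obtain ⟨Φ, hshape, -, hyx⟩ := Fermat.Agent.S15.H542.eval2_jBar_jNBar p hp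
  have hP1 := (hasValueAt_jBar_iff602 p).mpr ha
  have hP2 := (hasValueAt_jNBar_iff602 p).mpr hb
  have hc := Fermat.Agent.S15.H542.isCentredAt_of_hasValueAt p hP1 hP2
  have hcs : IsCentredAt P (Fermat.Agent.S15.H542.jNBar p) (Fermat.Agent.S15.H542.jBar p) b a :=
    ⟨hc.hy, hc.hx⟩
  have hrelyx : ev (K := Qb) (Fermat.Agent.S15.H542.jNBar p) (Fermat.Agent.S15.H542.jBar p)
      (Fermat.Agent.S15.H542.phiK Qb Φ) = 0 := by
    rw [Fermat.Agent.S15.H542.ev_phiK]; exact hyx
  have h0yx : Fermat.Agent.S15.H962.eval2 Φ b a = 0 := by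
    rw [← Fermat.Agent.S15.H542.ev0_phiK]
    exact Fermat.Agent.S15.H542.ev0_eq_zero_of_isCentredAt hcs hrelyx
  rcases Fermat.Agent.S15.H962.val_root_of_isModularShape v hp.pos hshape hvb h0yx with hv | hv
  · rw [hv]
    exact one_lt_pow₀ hvb hp.pos.ne'
  · exact Fermat.Agent.S15.H962.one_lt_of_pow_eq hvb hv

end LevelP

end Fermat.Agent.S15.H602

end

end
-- ===== PACK-END S15/H602/IdentLevP.lean

-- ===== PACK-BEGIN S15/H602/IdentPull.lean
section




/-!
# S15 / GEO-PARTS (b) IDENT (helper602): the identification at level `p k`, generic form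

`ident_pull602` : let `r` be a place reduction of `F_{p k}` along `A` (`p k` invertible in the
residue field), `f₀ ∈ {j, j_p} ⊂ F_p` with integral model `f`, `t ∈ ℚ̄` with `t⁻¹ = c ∈ 𝔪_A`,
`g = f₀ - t`, and `T` a type of residues.  If the pole `P_c` of `g` has order `1` and type `T`
(for `u = j_p / j ^ p`), the other poles of `g` are not of type `T`, the zeros and poles of `g` are
near the cusps and `P` is a zero of `g` of type `T`, then `r_* π^* (P) = r_* π^* (P_c)`.
-/

set_option autoImplicit false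
set_option synthInstance.maxHeartbeats 400000
set_option maxHeartbeats 1000000

noncomputable section

open AlgebraicCurve ModularCurve HahnSeries

namespace Fermat.Agent.S15.H602

open Fermat.Agent.S15.H722 Fermat.Agent.Lib.RR Fermat.Agent.S18.H725 Fermat.Agent.S15.H362

section Val

variable (A : ValuationSubring Qb)

theorem residue_eq_zero602 (a : A) (ha : ¬ IsUnit a) : IsLocalRing.residue A a = 0 :=
  (IsLocalRing.residue_eq_zero_iff a).mpr ((IsLocalRing.mem_maximalIdeal a).mpr ha)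

theorem mem_of_val_le_one602 {β : Qb} (h : A.valuation β ≤ 1) : β ∈ A :=
  (A.valuation_le_one_iff β).mp h

theorem not_isUnit_of_val_lt_one602 {β : Qb} (hβ : β ∈ A) (h : A.valuation β < 1) :
    ¬ IsUnit (⟨β, hβ⟩ : A) := by
  intro hu
  have h1 : A.valuation β = 1 := (A.valuation_eq_one_iff ⟨β, hβ⟩).mp hu
  rw [h1] at h
  exact lt_irrefl _ h

theorem isUnit_of_val_eq_one602 {β : Qb} (hβ : β ∈ A) (h : A.valuation β = 1) :
    IsUnit (⟨β, hβ⟩ : A) :=
  (A.valuation_eq_one_iff ⟨β, hβ⟩).mpr h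

theorem val_inv_lt_one602 {a : Qb} (ha : 1 < A.valuation a) : A.valuation a⁻¹ < 1 := by
  rw [map_inv₀]
  exact inv_lt_one_of_one_lt₀ ha

theorem ne_zero_of_one_lt_val602 {a : Qb} (ha : 1 < A.valuation a) : a ≠ 0 := by
  rintro rfl
  rw [map_zero] at ha
  exact absurd ha (not_lt.mpr zero_le_one)

theorem val_ratio_lt_one602 {a b : Qb} {p : ℕ} (hp : 1 < p) (ha : 1 < A.valuation a)
    (hab : A.valuation b ^ p = A.valuation a) : A.valuation (b / a ^ p) < 1 := by
  have hb : 1 < A.valuation b := Fermat.Agent.S15.H962.one_lt_of_pow_eq ha hab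
  rw [map_div₀, map_pow, ← hab, ← pow_mul]
  have h1 : A.valuation b < A.valuation b ^ (p * p) := by
    calc A.valuation b = A.valuation b ^ 1 := (pow_one _).symm
      _ < A.valuation b ^ (p * p) := pow_lt_pow_right₀ hb (by nlinarith)
  have h0 : 0 < A.valuation b ^ (p * p) := lt_trans (lt_trans zero_lt_one hb) h1
  exact (div_lt_one₀ h0).mpr h1

theorem val_ratio_eq_one602 {a b : Qb} {p : ℕ} (ha : 1 < A.valuation a)
    (hab : A.valuation b = A.valuation a ^ p) : A.valuation (b / a ^ p) = 1 := by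
  rw [map_div₀, map_pow, hab]
  exact div_self (pow_ne_zero _ (ne_of_gt (lt_trans zero_lt_one ha)))

end Val

section Transfer

variable {K F F' : Type*} [Field K] [Field F] [Field F'] [Algebra K F] [Algebra K F']

theorem ord_map_neg_iff602 (φ : F →ₐ[K] F') (hφ : φ.toRingHom.IsIntegral) (w : Place K F')
    (f : F) : w.ord (φ f) < 0 ↔ (w.restrictAlong φ hφ).ord f < 0 := by
  have he : (0 : ℤ) < (w.ramificationIndexAlong φ : ℤ) := by
    exact_mod_cast ramificationIndexAlong_pos602 φ hφ w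
  rw [Place.ord_restrictAlong φ hφ w f]
  constructor
  · intro h
    by_contra hc
    push Not at hc
    have := mul_nonneg he.le hc
    omega
  · intro h
    exact mul_neg_of_pos_of_neg he h

theorem ord_map_pos_iff602 (φ : F →ₐ[K] F') (hφ : φ.toRingHom.IsIntegral) (w : Place K F')
    (f : F) : 0 < w.ord (φ f) ↔ 0 < (w.restrictAlong φ hφ).ord f := by
  have he : (0 : ℤ) < (w.ramificationIndexAlong φ : ℤ) := by
    exact_mod_cast ramificationIndexAlong_pos602 φ hφ w
  rw [Place.ord_restrictAlong φ hφ w f]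
  exact mul_pos_iff_of_pos_left he

theorem ord_sub_const_of_neg602 (v : Place K F) {f : F} (c : K) (h : v.ord f < 0) :
    v.ord (f - algebraMap K F c) = v.ord f := by
  rcases eq_or_ne c 0 with rfl | hc
  · rw [map_zero, sub_zero]
  have hf : f ≠ 0 := ne_zero_of_ord_ne_zero v h.ne
  have hcne : -(algebraMap K F c) ≠ 0 := neg_ne_zero.mpr ((map_ne_zero _).mpr hc)
  rw [sub_eq_add_neg]
  exact ord_add_eq_of_lt v hf hcne (by rw [ord_neg, ord_algebraMap]; exact h)

theorem ord_neg_of_ord_sub_const_neg602 (v : Place K F) {f : F} (c : K)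
    (h : v.ord (f - algebraMap K F c) < 0) : v.ord f < 0 := by
  by_contra hcon
  push Not at hcon
  have := ord_sub_nonneg v hcon (by rw [ord_algebraMap] : 0 ≤ v.ord (algebraMap K F c))
  omega

end Transfer

section AbstractPull

variable {K F₀ F k Fk : Type*} [Field K] [Field F₀] [Field F] [Algebra K F₀] [Algebra K F]
  [Field k] [Field Fk] [Algebra k Fk]
variable {Φ : RedCore K F k Fk} (X : InfCoord Φ) [HasPrincipalDivisors K F]

/-- **IDENT along an embedding, with the data pulled back from the lower level.**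
`u = ι u₀` the type function, `x = ι x₀` the coordinate at infinity, `f = ι f₀` integral,
`c ∈ 𝔪_A`, `c t = 1`, `g = f₀ - t`. -/
theorem mapDomain_pullback_eq_of_level602
    (hdeg1 : ∀ v : Place K F, v.deg = 1) (hdeg0 : ∀ v : Place K F₀, v.deg = 1)
    (hr : ∀ P, (Φ.r P).deg = P.deg)
    (ι : F₀ →ₐ[K] F) (hι : ι.toRingHom.IsIntegral) (hFI : FundamentalIdentityAlong K ι hι)
    (u : Φ.O) (u₀ : F₀) (hucoe : (u : F) = ι u₀) (x₀ : F₀) (hxcoe : (X.x : F) = ι x₀)
    (hupoles₀ : ∀ P' : Place K F₀, P'.ord u₀ < 0 → P'.ord x₀ < 0)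
    (f : Φ.O) (f₀ : F₀) (hf : (f : F) = ι f₀)
    (c : Φ.A) (hc : ¬ IsUnit c) (t : K) (hct : (c : K) * t = 1)
    (T : k → Prop) (P Pc : Place K F₀)
    (hPc : Pc.ord (f₀ - algebraMap K F₀ t) = -1)
    (hTc : ∃ (β : K) (hβ : β ∈ Φ.A), HasVal Pc u₀ β ∧ T (Φ.res ⟨β, hβ⟩))
    (hP : 0 < P.ord (f₀ - algebraMap K F₀ t))
    (hTP : ∃ (β : K) (hβ : β ∈ Φ.A), HasVal P u₀ β ∧ T (Φ.res ⟨β, hβ⟩))
    (hpoles : ∀ P' : Place K F₀, P'.ord (f₀ - algebraMap K F₀ t) < 0 → P' ≠ Pc →
      ∃ (β : K) (hβ : β ∈ Φ.A), HasVal P' u₀ β ∧ ¬ T (Φ.res ⟨β, hβ⟩))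
    (hnear : ∀ P' : Place K F₀, P'.ord (f₀ - algebraMap K F₀ t) ≠ 0 →
      ∃ c' : Φ.A, ¬ IsUnit c' ∧ HasVal P' x₀ (c' : K)) :
    Finsupp.mapDomain Φ.r (Divisor.pullbackAlong ι hι (Finsupp.single P 1)) =
      Finsupp.mapDomain Φ.r (Divisor.pullbackAlong ι hι (Finsupp.single Pc 1)) := by
  classical
  have hupoles : ∀ W : Place K F, W.ord (u : F) < 0 → W.ord (X.x : F) < 0 := by
    intro W hW
    rw [hucoe, ord_map_neg_iff602 _ hι] at hW
    rw [hxcoe, ord_map_neg_iff602 _ hι]
    exact hupoles₀ _ hW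
  -- the function `z = 1 - c f = - c (f - t)`
  set g : F₀ := f₀ - algebraMap K F₀ t with hg
  have hc0 : (c : K) ≠ 0 := left_ne_zero_of_mul_eq_one hct
  set z : Φ.O := 1 - Φ.const c * f with hz
  have hρz : Φ.ρ z = 1 := by
    rw [hz, map_sub, map_one, map_mul, Φ.ρ_const', Φ.res_eq_zero c hc, map_zero, zero_mul,
      sub_zero]
  have hzcoe : (z : F) = -(algebraMap K F (c : K) * ι g) := by
    have h1 : (z : F) = 1 - algebraMap K F (c : K) * ι f₀ := by
      rw [← hf]; rfl
    rw [h1, hg, map_sub, AlgHom.commutes, mul_sub, ← map_mul, hct, map_one]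
    ring
  have hzord : ∀ W : Place K F, W.ord (z : F) =
      (W.ramificationIndexAlong ι : ℤ) * (W.restrictAlong ι hι).ord g := by
    intro W
    rw [hzcoe, ord_neg, ord_const_mul W hc0, Place.ord_restrictAlong _ hι]
  have he : ∀ W : Place K F, (0 : ℤ) < (W.ramificationIndexAlong ι : ℤ) := fun W => by
    exact_mod_cast ramificationIndexAlong_pos602 ι hι W
  -- types transfer from the lower level
  have htype : ∀ (S : k → Prop) (W : Place K F),
      (∃ (β : K) (hβ : β ∈ Φ.A), HasVal (W.restrictAlong ι hι) u₀ β ∧ S (Φ.res ⟨β, hβ⟩)) →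
      HasType602 u S W := by
    rintro S W ⟨β, hβ, hv, hS⟩
    refine ⟨β, hβ, ?_, hS⟩
    rw [hucoe]
    exact (hasVal_map_iff602 _ hι W _ β).mpr hv
  refine mapDomain_pullback_eq602 X hdeg1 hr ι hι hFI hupoles z hρz T P Pc ?_ ?_ ?_ ?_ ?_
  · rw [hdeg0 P, hdeg0 Pc]
  · -- `h1`
    intro W hW
    rw [hzord W] at hW
    have hg0 : (W.restrictAlong ι hι).ord g ≠ 0 := by
      intro h0
      rw [h0, mul_zero] at hW
      exact hW rfl
    obtain ⟨c', hc', hv⟩ := hnear _ hg0
    refine ⟨c', hc', ?_⟩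
    rw [hxcoe]
    exact (hasVal_map_iff602 _ hι W _ _).mpr hv
  · -- `h2`
    intro W hW
    refine ⟨?_, htype T W (by rw [hW]; exact hTc)⟩
    rw [hzord W, hW, hPc]
    ring
  · -- `h3`
    intro W hWneg hWne
    refine htype _ W (hpoles _ ?_ hWne)
    rw [hzord W] at hWneg
    by_contra hcon
    push Not at hcon
    have := mul_nonneg (he W).le hcon
    omega
  · -- `h4`
    intro W hW
    refine ⟨?_, htype T W (by rw [hW]; exact hTP)⟩
    rw [hzord W, hW]
    have h1 : (1 : ℤ) ≤ P.ord g := hP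
    have := he W
    nlinarith

end AbstractPull

section Pull

variable (p k : ℕ) [NeZero p] [NeZero k]

theorem alpha_jBar602 : heckeAlphaBar Qb p k (jBar p) = jF Qb (p * k) :=
  Subtype.ext (by rw [coe_heckeAlphaBar, coe_jBar_eq602]; rfl)

theorem alpha_jLevelBar602 :
    heckeAlphaBar Qb p k (jLevelBar p) = jdF Qb (p * k) (dvd_mul_right p k) :=
  Subtype.ext (by rw [coe_heckeAlphaBar, coe_jLevelBar_eq602]; rfl)

theorem alpha_ratio602 :
    heckeAlphaBar Qb p k (ratio602 p) =
      jdF Qb (p * k) (dvd_mul_right p k) / jF Qb (p * k) ^ p := by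
  unfold ratio602
  rw [map_div₀, map_pow, alpha_jBar602, alpha_jLevelBar602]

variable (A : ValuationSubring Qb)

/-- **IDENT at level `p k`, generic form.** -/
theorem ident_pull602 (hp : p.Prime)
    (hN : ((p * k : ℕ) : IsLocalRing.ResidueField A) ≠ 0)
    (r : Place Qb (laurentBaseChange Qb (modularFunctionFieldFull (p * k))) →
      Place (IsLocalRing.ResidueField A)
        (modularFunctionFieldFullC (IsLocalRing.ResidueField A) (p * k)))
    (hr : IsPlaceReductionAlong A (IsLocalRing.residue A) (p * k) r)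
    (hι : (heckeAlphaBar Qb p k).toRingHom.IsIntegral)
    (f : intO A (IsLocalRing.residue A) (laurentBaseChange Qb (modularFunctionFieldFull (p * k)))
      (modularFunctionFieldFullC (IsLocalRing.ResidueField A) (p * k)))
    (f₀ : FB p)
    (hf : ((f : intO A (IsLocalRing.residue A)
        (laurentBaseChange Qb (modularFunctionFieldFull (p * k)))
        (modularFunctionFieldFullC (IsLocalRing.ResidueField A) (p * k))) :
          laurentBaseChange Qb (modularFunctionFieldFull (p * k))) = heckeAlphaBar Qb p k f₀)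
    (c : A) (hc : ¬ IsUnit c) (t : Qb) (hct : (c : Qb) * t = 1)
    (T : IsLocalRing.ResidueField A → Prop) (P Pc : Place Qb (FB p))
    (hPc : Pc.ord (f₀ - algebraMap Qb (FB p) t) = -1)
    (hTc : ∃ (β : Qb) (hβ : β ∈ A), HasVal Pc (ratio602 p) β ∧
      T (IsLocalRing.residue A ⟨β, hβ⟩))
    (hP : 0 < P.ord (f₀ - algebraMap Qb (FB p) t))
    (hTP : ∃ (β : Qb) (hβ : β ∈ A), HasVal P (ratio602 p) β ∧
      T (IsLocalRing.residue A ⟨β, hβ⟩))
    (hpoles : ∀ P' : Place Qb (FB p), P'.ord (f₀ - algebraMap Qb (FB p) t) < 0 → P' ≠ Pc →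
      ∃ (β : Qb) (hβ : β ∈ A), HasVal P' (ratio602 p) β ∧
        ¬ T (IsLocalRing.residue A ⟨β, hβ⟩))
    (hnear : ∀ P' : Place Qb (FB p), P'.ord (f₀ - algebraMap Qb (FB p) t) ≠ 0 →
      ∃ c' : A, ¬ IsUnit c' ∧ HasVal P' ((jBar p)⁻¹) (c' : Qb)) :
    Finsupp.mapDomain r
        (Divisor.pullbackAlong (heckeAlphaBar Qb p k) hι (Finsupp.single P 1)) =
      Finsupp.mapDomain r
        (Divisor.pullbackAlong (heckeAlphaBar Qb p k) hι (Finsupp.single Pc 1)) := by
  classical
  have hπ : ∀ a : A, ¬ IsUnit a → IsLocalRing.residue A a = 0 := residue_eq_zero602 A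
  have hsign := sign_red_jF602 (p * k) A hN r hr
  have hdeg1 : ∀ v : Place Qb (laurentBaseChange Qb (modularFunctionFieldFull (p * k))),
      v.deg = 1 := Fermat.Agent.Lib.FF398.deg_eq_one_FF (p * k)
  have hFI : FundamentalIdentityAlong Qb (heckeAlphaBar Qb p k) hι :=
    Fermat.Agent.Lib.FF398.fundamentalIdentityAlong_alpha p k
  have hucoe : ((jdO A (IsLocalRing.residue A) (p * k) (dvd_mul_right p k) *
      xO A (IsLocalRing.residue A) (p * k) ^ p : intO A (IsLocalRing.residue A)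
      (laurentBaseChange Qb (modularFunctionFieldFull (p * k)))
      (modularFunctionFieldFullC (IsLocalRing.ResidueField A) (p * k))) :
        laurentBaseChange Qb (modularFunctionFieldFull (p * k))) =
      heckeAlphaBar Qb p k (ratio602 p) := by
    rw [alpha_ratio602]
    push_cast
    rw [coe_jdO, coe_xO, inv_pow, div_eq_mul_inv]
  have hxcoe : ((xO A (IsLocalRing.residue A) (p * k) : intO A (IsLocalRing.residue A)
      (laurentBaseChange Qb (modularFunctionFieldFull (p * k)))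
      (modularFunctionFieldFullC (IsLocalRing.ResidueField A) (p * k))) :
        laurentBaseChange Qb (modularFunctionFieldFull (p * k))) =
      heckeAlphaBar Qb p k ((jBar p)⁻¹) := by
    rw [map_inv₀, alpha_jBar602]
    exact coe_xO A (IsLocalRing.residue A) (p * k)
  have hupoles₀ : ∀ P' : Place Qb (FB p), P'.ord (ratio602 p) < 0 →
      P'.ord ((jBar p)⁻¹) < 0 := by
    intro P' hP'
    rw [Place.ord_inv]
    have := ord_jBar_pos_of_ord_ratio_neg602 p hp P' hP'
    omega
  exact mapDomain_pullback_eq_of_level602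
    (Φ := modRedCore A (IsLocalRing.residue A) (p * k) hπ r hr)
    (modInfCoord A (IsLocalRing.residue A) (p * k) hπ r hr (fun W => (hsign W).2)
      (fun W => (hsign W).1))
    hdeg1 (Fermat.Agent.Lib.FF398.deg_eq_one_FF p) hr.1 (heckeAlphaBar Qb p k) hι hFI
    (jdO A (IsLocalRing.residue A) (p * k) (dvd_mul_right p k) *
      xO A (IsLocalRing.residue A) (p * k) ^ p) (ratio602 p) hucoe ((jBar p)⁻¹) hxcoe hupoles₀
    f f₀ hf c hc t hct T P Pc hPc hTc hP hTP hpoles hnear

end Pull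

end Fermat.Agent.S15.H602

end

end
-- ===== PACK-END S15/H602/IdentPull.lean

-- ===== PACK-BEGIN S15/H602/IdentSpec.lean
section






/-!
# S15 / GEO-PARTS (b) (helper602): FROZEN interface between IDENT and RED

`(b)` of GEO-PARTS is the hypothesis `hsp` of `H542.geoParts_of_pieces`, here `SpStatement p`.
It splits into

* `IdentBaseStatement p` (level `p`, used at the primes `q ≥ 5`): every place reduction `r` at
  level `p` along `A` (`p` invertible in the residue field) maps the residue disc of the cusp `0`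
  to `r (0)` and the residue disc of the cusp `∞` to `r (∞)`;
* `IdentLevelStatement p` (level `p * k`, used for `(q, k) = (2, 3), (3, 2)`): for every place
  reduction `r` at level `p * k` along `A` (`p * k` invertible in the residue field) and `P` in
  the residue disc of a cusp `c`,  `r_* π^* (P) = r_* π^* (c)`, `π^*` the pull-back of divisors
  along `F_p ⊂ F_{p k}`;
* RED: `IdentBaseStatement p → IdentLevelStatement p → SpStatement p` (reduction inputs
  `S37.Core.rimStatement`, injectivity `S18.result`, level transfer `S37.H818.transferInputs`).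
-/

set_option autoImplicit false
set_option synthInstance.maxHeartbeats 400000

noncomputable section

open AlgebraicCurve ModularCurve

namespace Fermat.Agent.S15.H602

open Fermat.Agent.S15.Core Fermat.Agent.S15.H962

/-- **(b) of GEO-PARTS**: exactly the hypothesis `hsp` of `H542.geoParts_of_pieces`. -/
def SpStatement (p : ℕ) [NeZero p] : Prop :=
  ∀ q : ℕ, q.Prime → q ≠ p →
    ∀ A : ValuationSubring (AlgebraicClosure ℚ), A.LiesOverPrime q →
    ∀ P₀ : Place (AlgebraicClosure ℚ) (modularFunctionFieldBar p), IsCuspZero p P₀ →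
    ∃ (X : Type) (_ : AddCommGroup X) (sp₀ : JZero p →+ X),
      (∀ (m : ℕ) (z : JZero p), ¬ q ∣ m → m • z = 0 → sp₀ z = 0 → z = 0) ∧
      KilledBy p A P₀ sp₀

/-- **IDENT at level `p`**: a place reduction maps the residue discs of the cusps to the
reductions of the cusps. -/
def IdentBaseStatement (p : ℕ) [NeZero p] : Prop :=
  p.Prime → 5 < p → ∀ A : ValuationSubring (AlgebraicClosure ℚ),
    ((p : ℕ) : IsLocalRing.ResidueField A) ≠ 0 →
    ∀ r : Place (AlgebraicClosure ℚ) (modularFunctionFieldBar p) →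
        Place (IsLocalRing.ResidueField A)
          (modularFunctionFieldFullC (IsLocalRing.ResidueField A) p),
      IsPlaceReductionModL A p r →
      ∀ P : Place (AlgebraicClosure ℚ) (modularFunctionFieldBar p),
        (InDiscZero p A P → r P = r (Fermat.Agent.S15.H362.cuspZero p)) ∧
        (InDiscInfty p A P → r P = r (cuspInfty p))

/-- **IDENT at level `p * k`**: `r_* π^* (P) = r_* π^* (cusp)` for `P` in the residue disc of the
cusp. -/
def IdentLevelStatement (p : ℕ) [NeZero p] : Prop :=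
  p.Prime → 5 < p → ∀ (k : ℕ) [NeZero k], k.Prime → k ≠ p →
    ∀ A : ValuationSubring (AlgebraicClosure ℚ),
    ((p * k : ℕ) : IsLocalRing.ResidueField A) ≠ 0 →
    ∀ r : Place (AlgebraicClosure ℚ) (modularFunctionFieldBar (p * k)) →
        Place (IsLocalRing.ResidueField A)
          (modularFunctionFieldFullC (IsLocalRing.ResidueField A) (p * k)),
      IsPlaceReductionModL A (p * k) r →
      ∀ (hι : (heckeAlphaBar (AlgebraicClosure ℚ) p k).toRingHom.IsIntegral)
        (P : Place (AlgebraicClosure ℚ) (modularFunctionFieldBar p)),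
        (InDiscZero p A P →
          Finsupp.mapDomain r
              (Divisor.pullbackAlong (heckeAlphaBar (AlgebraicClosure ℚ) p k) hι
                (Finsupp.single P 1)) =
            Finsupp.mapDomain r
              (Divisor.pullbackAlong (heckeAlphaBar (AlgebraicClosure ℚ) p k) hι
                (Finsupp.single (Fermat.Agent.S15.H362.cuspZero p) 1))) ∧
        (InDiscInfty p A P →
          Finsupp.mapDomain r
              (Divisor.pullbackAlong (heckeAlphaBar (AlgebraicClosure ℚ) p k) hι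
                (Finsupp.single P 1)) =
            Finsupp.mapDomain r
              (Divisor.pullbackAlong (heckeAlphaBar (AlgebraicClosure ℚ) p k) hι
                (Finsupp.single (cuspInfty p) 1)))

end Fermat.Agent.S15.H602

end

end
-- ===== PACK-END S15/H602/IdentSpec.lean

-- ===== PACK-BEGIN S15/H602/IdentLevel.lean
section



/-!
# S15 / GEO-PARTS (b) IDENT (helper602): the identification at level `p k`

`identLevel602 : IdentLevelStatement p` : for every place reduction `r` of `F_{p k}` along `A`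
(`p k` invertible in the residue field) and every place `P` of `F_p` in the residue disc of a
cusp `c`,  `r_* π^* (P) = r_* π^* (c)`.

* disc of `0` (`j (P) = a`, `j_p (P) = b`, `v b ^ p = v a > 1`): `z = 1 - b⁻¹ j_p`, type `ū = 0`;
  the zeros of `z` lie near the cusps by the Newton polygon of the modular equation;
* disc of `∞` (`v b = v a ^ p`): `z = 1 - a⁻¹ j`, type `ū ≠ 0`.
-/

set_option autoImplicit false
set_option synthInstance.maxHeartbeats 400000
set_option maxHeartbeats 1000000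

noncomputable section

open AlgebraicCurve ModularCurve HahnSeries

namespace Fermat.Agent.S15.H602

open Fermat.Agent.S15.H722 Fermat.Agent.Lib.RR Fermat.Agent.S18.H725 Fermat.Agent.S15.H362

section Level

variable (p : ℕ) [NeZero p]

/-- a pole of `j` is near the cusps -/
theorem near_of_ord_jBar_neg602 (A : ValuationSubring Qb) {P' : Place Qb (FB p)}
    (h : P'.ord (jBar p) < 0) : ∃ c' : A, ¬ IsUnit c' ∧ HasVal P' ((jBar p)⁻¹) (c' : Qb) := by
  refine ⟨0, not_isUnit_zero, ?_⟩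
  have : HasVal P' ((jBar p)⁻¹) 0 := by
    apply hasVal_zero_of_ord_pos
    rw [Place.ord_inv]
    omega
  exact this

/-- a place with a non-integral `j`-value is near the cusps -/
theorem near_of_hasVal_jBar602 (A : ValuationSubring Qb) {P' : Place Qb (FB p)} {a' : Qb}
    (ha' : HasVal P' (jBar p) a') (hva' : 1 < A.valuation a') :
    ∃ c' : A, ¬ IsUnit c' ∧ HasVal P' ((jBar p)⁻¹) (c' : Qb) := by
  have ha'0 := ne_zero_of_one_lt_val602 A hva'
  have hcv' := val_inv_lt_one602 A hva'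
  have hcA' := mem_of_val_le_one602 A hcv'.le
  exact ⟨⟨a'⁻¹, hcA'⟩, not_isUnit_of_val_lt_one602 A hcA' hcv', ha'.inv ha'0⟩

theorem residue_one_ne_zero602 (A : ValuationSubring Qb) (h : (1 : Qb) ∈ A) :
    IsLocalRing.residue A ⟨1, h⟩ ≠ 0 := by
  have : (⟨1, h⟩ : A) = 1 := rfl
  rw [this, map_one]
  exact one_ne_zero

theorem residue_zero_eq_zero602 (A : ValuationSubring Qb) (h : (0 : Qb) ∈ A) :
    IsLocalRing.residue A ⟨0, h⟩ = 0 := by
  have : (⟨0, h⟩ : A) = 0 := rfl
  rw [this, map_zero]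

/-- **IDENT at level `p k`.** -/
theorem identLevel602 : IdentLevelStatement p := by
  intro hp _ k _ _ _ A hN r hr hι P
  have hp0 : (0 : ℤ) < p := by exact_mod_cast hp.pos
  constructor
  · -- the disc of the cusp `0`
    rintro ⟨a, b, hPa, hPb, hva, hvab⟩
    have ha : HasVal P (jBar p) a := (hasValueAt_jBar_iff602 p).mp hPa
    have hb : HasVal P (jLevelBar p) b := (hasValueAt_jNBar_iff602 p).mp hPb
    have hvb : 1 < A.valuation b := Fermat.Agent.S15.H962.one_lt_of_pow_eq hva hvab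
    have hb0 : b ≠ 0 := ne_zero_of_one_lt_val602 A hvb
    have ha0 : a ≠ 0 := ne_zero_of_one_lt_val602 A hva
    have hcv : A.valuation b⁻¹ < 1 := val_inv_lt_one602 A hvb
    have hcA : b⁻¹ ∈ A := mem_of_val_le_one602 A hcv.le
    refine ident_pull602 p k A hp hN r hr hι
      (jdO A (IsLocalRing.residue A) (p * k) (dvd_mul_right p k)) (jLevelBar p)
      (by rw [coe_jdO, alpha_jLevelBar602]) ⟨b⁻¹, hcA⟩
      (not_isUnit_of_val_lt_one602 A hcA hcv) b (inv_mul_cancel₀ hb0)
      (fun c => c = 0) P (cuspZero p) ?_ ?_ ?_ ?_ ?_ ?_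
    · rw [ord_sub_const_of_neg602 _ b (by rw [ord_cuspZero_jLevelBar]; omega),
        ord_cuspZero_jLevelBar]
    · exact ⟨0, zero_mem A, hasVal_ratio_cuspZero602 p hp, residue_zero_eq_zero602 A _⟩
    · exact hPb
    · have hβv := val_ratio_lt_one602 A hp.one_lt hva hvab
      have hβA := mem_of_val_le_one602 A hβv.le
      exact ⟨b / a ^ p, hβA, hasVal_ratio602 p ha hb ha0,
        residue_eq_zero602 A _ (not_isUnit_of_val_lt_one602 A hβA hβv)⟩
    · intro P' hP' hne
      have h1 : P'.ord (jLevelBar p) < 0 := ord_neg_of_ord_sub_const_neg602 P' b hP'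
      rcases eq_cusp_of_ord_jLevelBar_neg p hp P' h1 with rfl | rfl
      · exact ⟨1, one_mem A, hasVal_ratio_cuspInfty602 p, residue_one_ne_zero602 A _⟩
      · exact absurd rfl hne
    · intro P' hP'
      rcases lt_or_gt_of_ne hP' with hlt | hgt
      · have h1 : P'.ord (jLevelBar p) < 0 := ord_neg_of_ord_sub_const_neg602 P' b hlt
        exact near_of_ord_jBar_neg602 p A (ord_jBar_neg_of_jLevelBar602 p hp P' h1)
      · have hb' : HasVal P' (jLevelBar p) b := Or.inr hgt
        obtain ⟨a', ha'⟩ := exists_hasVal_jBar602 p hp hb'.ord_nonneg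
        have hva' := one_lt_val_jBar_of_jLevelBar602 p hp A.valuation ha' hb' hvb
        exact near_of_hasVal_jBar602 p A ha' hva'
  · -- the disc of the cusp `∞`
    rintro ⟨a, b, hPa, hPb, hva, hvab⟩
    have ha : HasVal P (jBar p) a := (hasValueAt_jBar_iff602 p).mp hPa
    have hb : HasVal P (jLevelBar p) b := (hasValueAt_jNBar_iff602 p).mp hPb
    have ha0 : a ≠ 0 := ne_zero_of_one_lt_val602 A hva
    have hcv : A.valuation a⁻¹ < 1 := val_inv_lt_one602 A hva
    have hcA : a⁻¹ ∈ A := mem_of_val_le_one602 A hcv.le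
    rw [← cuspInfty_eq_core]
    refine ident_pull602 p k A hp hN r hr hι
      (jO A (IsLocalRing.residue A) (p * k)) (jBar p)
      (by rw [coe_jO, alpha_jBar602]) ⟨a⁻¹, hcA⟩
      (not_isUnit_of_val_lt_one602 A hcA hcv) a (inv_mul_cancel₀ ha0)
      (fun c => c ≠ 0) P (cuspInfty p) ?_ ?_ ?_ ?_ ?_ ?_
    · rw [ord_sub_const_of_neg602 _ a (by rw [ord_cuspInfty_jBar]; omega), ord_cuspInfty_jBar]
    · exact ⟨1, one_mem A, hasVal_ratio_cuspInfty602 p, residue_one_ne_zero602 A _⟩
    · exact hPa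
    · have hβv := val_ratio_eq_one602 A hva hvab
      have hβA := mem_of_val_le_one602 A hβv.le
      exact ⟨b / a ^ p, hβA, hasVal_ratio602 p ha hb ha0,
        ((isUnit_of_val_eq_one602 A hβA hβv).map (IsLocalRing.residue A)).ne_zero⟩
    · intro P' hP' hne
      have h1 : P'.ord (jBar p) < 0 := ord_neg_of_ord_sub_const_neg602 P' a hP'
      rcases eq_cusp_of_ord_jBar_neg p hp P' h1 with rfl | rfl
      · exact absurd rfl hne
      · exact ⟨0, zero_mem A, hasVal_ratio_cuspZero602 p hp,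
          fun h => h (residue_zero_eq_zero602 A _)⟩
    · intro P' hP'
      rcases lt_or_gt_of_ne hP' with hlt | hgt
      · exact near_of_ord_jBar_neg602 p A (ord_neg_of_ord_sub_const_neg602 P' a hlt)
      · exact near_of_hasVal_jBar602 p A (Or.inr hgt) hva

end Level

end Fermat.Agent.S15.H602

end

end
-- ===== PACK-END S15/H602/IdentLevel.lean

-- ===== PACK-BEGIN S15/H182/Red.lean
section



/-!
# Row S15, node RED / GE-2 (helper182): the specialisation maps `sp₀` with property (i)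

`GeoPartsStatement` (`S15/H962/IterRed.lean`) asks, at every multiplicative prime `q ≠ p` and every
valuation subring `A ∣ q`, for an additive map `sp₀` out of `J₀(p)` which is injective on torsion
of order prime to `q`.  The concrete maps are (any level `N`, `q ∤ N`):

* `q ≥ 5`          : `reductionModL A N`                         (`sp_inj_of_five_le`);
* `q = 3`, `2 ∤ N` : `spThree = reductionModL A (N * 2) ∘ π^*`   (`spThree_inj`);
* `q = 2`, `3 ∤ N` : `spTwo   = reductionModL A (N * 3) ∘ π^*`   (`spTwo_inj`),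

where `π^* = pullbackPic0Along (heckeAlphaBar Qb N a)` is `H818.TransferInputs.pullback`.
Everything is UNCONDITIONAL: frozen S18 (`Fermat.Agent.S18.result`, via `S37.Core.s18Statement`),
node_rim (`S37.Core.rimStatement`), node_pull (`S37.H818`).  Also exported: the reduction inputs
`ReductionInputsModL A M` at the three levels (`rim_of_five_le`, `rim_three`, `rim_two`), Galois
equivariance of `π^*`, and the formulas `spThree_apply`, `spTwo_apply`.
-/

set_option autoImplicit false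
set_option linter.style.haveILetI false

noncomputable section

namespace Fermat.Agent.S15.H182

open ModularCurve AlgebraicCurve Fermat.Agent.S37 Fermat.Agent.S37.Core

/-! ### The reduction inputs at the three levels -/

/-- node_rim at level `N`, residue characteristic `q ≥ 5`. -/
theorem rim_of_five_le (N : ℕ) [NeZero N] {q : ℕ} (hq : q.Prime) (hq5 : 5 ≤ q) (hqN : ¬ q ∣ N)
    (A : ValuationSubring (AlgebraicClosure ℚ)) (hA : A.LiesOverPrime q) :
    ReductionInputsModL A N :=
  rimStatement N q hq hqN (Or.inl hq5) A hA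

theorem three_not_dvd_mul_two {N : ℕ} (h3N : ¬ 3 ∣ N) : ¬ 3 ∣ N * 2 := by
  intro h
  rcases (Nat.Prime.dvd_mul Nat.prime_three).mp h with h | h
  · exact h3N h
  · exact absurd h (by decide)

theorem two_not_dvd_mul_three {N : ℕ} (h2N : ¬ 2 ∣ N) : ¬ 2 ∣ N * 3 := by
  intro h
  rcases (Nat.Prime.dvd_mul Nat.prime_two).mp h with h | h
  · exact h2N h
  · exact absurd h (by decide)

/-- node_rim at level `N * 2`, residue characteristic `3`. -/
theorem rim_three (N : ℕ) [NeZero N] (h3N : ¬ 3 ∣ N)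
    (A : ValuationSubring (AlgebraicClosure ℚ)) (hA : A.LiesOverPrime 3) :
    ReductionInputsModL A (N * 2) :=
  rimStatement (N * 2) 3 Nat.prime_three (three_not_dvd_mul_two h3N)
    (Or.inr (Or.inl ⟨rfl, Dvd.intro_left N rfl⟩)) A hA

/-- node_rim at level `N * 3`, residue characteristic `2`. -/
theorem rim_two (N : ℕ) [NeZero N] (h2N : ¬ 2 ∣ N)
    (A : ValuationSubring (AlgebraicClosure ℚ)) (hA : A.LiesOverPrime 2) :
    ReductionInputsModL A (N * 3) :=
  rimStatement (N * 3) 2 Nat.prime_two (two_not_dvd_mul_three h2N)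
    (Or.inr (Or.inr ⟨rfl, Dvd.intro_left N rfl⟩)) A hA

/-! ### `q ≥ 5` -/

/-- **(i) at `q ≥ 5`**: `reductionModL A N` is injective on torsion of order prime to `q`. -/
theorem sp_inj_of_five_le (N : ℕ) [NeZero N] {q : ℕ} (hq : q.Prime) (hq5 : 5 ≤ q)
    (hqN : ¬ q ∣ N) (A : ValuationSubring (AlgebraicClosure ℚ)) (hA : A.LiesOverPrime q)
    (m : ℕ) (z : JZero N) (hm : ¬ q ∣ m) (hmz : m • z = 0)
    (hz : reductionModL A N z = 0) : z = 0 :=
  s18Statement N q hq hqN A hA (rim_of_five_le N hq hq5 hqN A hA) m hm z hmz hz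

/-! ### `q = 3`: level `N * 2` -/

/-- The transfer inputs for `(ℓ, a) = (3, 2)`. -/
theorem transferThree (N : ℕ) [NeZero N] (h2N : ¬ 2 ∣ N) (h3N : ¬ 3 ∣ N) :
    H818.TransferInputs N 2 3 :=
  H818.transferInputs N 2 3 Nat.prime_three Nat.prime_two h3N (by decide)
    (H818.finrankAlong_pow N 2 3 (Or.inl ⟨rfl, rfl⟩) h2N)

/-- `π^* : J₀(N) → J₀(N * 2)`. -/
def pullThree (N : ℕ) [NeZero N] (h2N : ¬ 2 ∣ N) (h3N : ¬ 3 ∣ N) : JZero N →+ JZero (N * 2) :=
  (transferThree N h2N h3N).pullback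

/-- The specialisation map at a place over `3`: `reductionModL A (N * 2) ∘ π^*`. -/
def spThree (N : ℕ) [NeZero N] (h2N : ¬ 2 ∣ N) (h3N : ¬ 3 ∣ N)
    (A : ValuationSubring (AlgebraicClosure ℚ)) :
    JZero N →+ JZeroC (IsLocalRing.ResidueField A) (N * 2) :=
  (reductionModL A (N * 2)).comp (pullThree N h2N h3N)

theorem spThree_apply (N : ℕ) [NeZero N] (h2N : ¬ 2 ∣ N) (h3N : ¬ 3 ∣ N)
    (A : ValuationSubring (AlgebraicClosure ℚ)) (z : JZero N) :
    spThree N h2N h3N A z = reductionModL A (N * 2) (pullThree N h2N h3N z) := rfl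

theorem pullThree_galois (N : ℕ) [NeZero N] (h2N : ¬ 2 ∣ N) (h3N : ¬ 3 ∣ N)
    (σ : AlgebraicClosure ℚ ≃ₐ[ℚ] AlgebraicClosure ℚ) (z : JZero N) :
    pullThree N h2N h3N (σ • z) = σ • pullThree N h2N h3N z :=
  (transferThree N h2N h3N).pullback_galois σ z

/-- **(i) at `q = 3`**. -/
theorem spThree_inj (N : ℕ) [NeZero N] (h2N : ¬ 2 ∣ N) (h3N : ¬ 3 ∣ N)
    (A : ValuationSubring (AlgebraicClosure ℚ)) (hA : A.LiesOverPrime 3)
    (m : ℕ) (z : JZero N) (hm : ¬ 3 ∣ m) (hmz : m • z = 0)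
    (hz : spThree N h2N h3N A z = 0) : z = 0 := by
  have h1 : pullThree N h2N h3N z = 0 :=
    s18Statement (N * 2) 3 Nat.prime_three (three_not_dvd_mul_two h3N) A hA
      (rim_three N h3N A hA) m hm _ (by rw [← map_nsmul, hmz, map_zero]) hz
  exact (transferThree N h2N h3N).pullback_injective_of_coprime m
    ((Nat.Prime.coprime_iff_not_dvd Nat.prime_three).mpr hm).symm z hmz h1

/-! ### `q = 2`: level `N * 3` -/

/-- The transfer inputs for `(ℓ, a) = (2, 3)`. -/
theorem transferTwo (N : ℕ) [NeZero N] (h2N : ¬ 2 ∣ N) (h3N : ¬ 3 ∣ N) :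
    H818.TransferInputs N 3 2 :=
  H818.transferInputs N 3 2 Nat.prime_two Nat.prime_three h2N (by decide)
    (H818.finrankAlong_pow N 3 2 (Or.inr ⟨rfl, rfl⟩) h3N)

/-- `π^* : J₀(N) → J₀(N * 3)`. -/
def pullTwo (N : ℕ) [NeZero N] (h2N : ¬ 2 ∣ N) (h3N : ¬ 3 ∣ N) : JZero N →+ JZero (N * 3) :=
  (transferTwo N h2N h3N).pullback

/-- The specialisation map at a place over `2`: `reductionModL A (N * 3) ∘ π^*`. -/
def spTwo (N : ℕ) [NeZero N] (h2N : ¬ 2 ∣ N) (h3N : ¬ 3 ∣ N)
    (A : ValuationSubring (AlgebraicClosure ℚ)) :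
    JZero N →+ JZeroC (IsLocalRing.ResidueField A) (N * 3) :=
  (reductionModL A (N * 3)).comp (pullTwo N h2N h3N)

theorem spTwo_apply (N : ℕ) [NeZero N] (h2N : ¬ 2 ∣ N) (h3N : ¬ 3 ∣ N)
    (A : ValuationSubring (AlgebraicClosure ℚ)) (z : JZero N) :
    spTwo N h2N h3N A z = reductionModL A (N * 3) (pullTwo N h2N h3N z) := rfl

theorem pullTwo_galois (N : ℕ) [NeZero N] (h2N : ¬ 2 ∣ N) (h3N : ¬ 3 ∣ N)
    (σ : AlgebraicClosure ℚ ≃ₐ[ℚ] AlgebraicClosure ℚ) (z : JZero N) :
    pullTwo N h2N h3N (σ • z) = σ • pullTwo N h2N h3N z :=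
  (transferTwo N h2N h3N).pullback_galois σ z

/-- **(i) at `q = 2`**. -/
theorem spTwo_inj (N : ℕ) [NeZero N] (h2N : ¬ 2 ∣ N) (h3N : ¬ 3 ∣ N)
    (A : ValuationSubring (AlgebraicClosure ℚ)) (hA : A.LiesOverPrime 2)
    (m : ℕ) (z : JZero N) (hm : ¬ 2 ∣ m) (hmz : m • z = 0)
    (hz : spTwo N h2N h3N A z = 0) : z = 0 := by
  have h1 : pullTwo N h2N h3N z = 0 :=
    s18Statement (N * 3) 2 Nat.prime_two (two_not_dvd_mul_three h2N) A hA
      (rim_two N h2N A hA) m hm _ (by rw [← map_nsmul, hmz, map_zero]) hz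
  exact (transferTwo N h2N h3N).pullback_injective_of_coprime m
    ((Nat.Prime.coprime_iff_not_dvd Nat.prime_two).mpr hm).symm z hmz h1

end Fermat.Agent.S15.H182

end

end
-- ===== PACK-END S15/H182/Red.lean

-- ===== PACK-BEGIN S15/H962/GeoProp.lean
section






/-!
# Row S15, node GEO-PARTS (a) (helper962): PROPAGATION

`propagation : PropagationStatement p` — the subgroup `K = discK p A P₀` of `J₀(p)` generated by
the classes `cl((P) - (0))`, `P` in the residue disc of the cusp `0` at `A`, and `cl((P) - (∞))`,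
`P` in the residue disc of the cusp `∞`, is stable under every Hecke operator `T_ℓ`, `ℓ ≠ p`.

Proof.  `T_ℓ = α_* β^*` for the two degeneracy maps `α, β : ℚ̄(X₀(p)) → ℚ̄(X₀(pℓ))`
(`α` the inclusion, `β : q ↦ q^ℓ`), so `T_ℓ (P) = ∑_{W ∣_β = P} e_β(W) (W ∣_α)` and, the cusps being
fixed, `T_ℓ ((P) - (0)) = ∑ e_β(W) ((W ∣_α) - (0))`.  It remains to see that `W ∣_α` lies in the
disc of `0` if `W ∣_β` does.  At `W` the four functions `β j, β j_p, α j, α j_p` have values
`a, a', b, b'` with `Φ_ℓ(a, b) = 0`, `Φ_ℓ(a', b') = 0`, `Φ_p(b, b') = 0` (`Φ_m` the modular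
polynomials); the Newton polygons of the `Φ_m` (`val_root_of_isModularShape`) and the arithmetic
lemma `val_propagate_zero` give `v(b')^p = v(b)`, `1 < v(b)`.
-/

set_option autoImplicit false
set_option synthInstance.maxHeartbeats 400000
set_option linter.style.haveILetI false

noncomputable section

open AlgebraicCurve ModularCurve HahnSeries Polynomial

namespace Fermat.Agent.S15.H962

open Fermat.Agent.S15.Core Fermat.Agent.S15.H542
open Fermat.Agent.S15.H362 (Qb FB)

/-! ### Values along an embedding of function fields -/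

section Along

variable {N M : ℕ}

theorem ramificationIndexAlong_pos_h962 (φ : FB N →ₐ[Qb] FB M) (hφ : φ.toRingHom.IsIntegral)
    (W : Place Qb (FB M)) : (0 : ℤ) < (Place.ramificationIndexAlong φ W : ℤ) := by
  have he0 : 0 < Place.ramificationIndexAlong φ W := by
    letI := algebraAlong φ
    haveI := isScalarTower_along φ
    haveI := isIntegral_along φ hφ
    exact Place.ramificationIndex_pos (F := FB N) W
  exact_mod_cast he0

/-- `φ f` has the value `c` at `W` iff `f` has the value `c` at `W ∣_φ`. -/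
theorem hasValueAt_along (φ : FB N →ₐ[Qb] FB M) (hφ : φ.toRingHom.IsIntegral)
    (W : Place Qb (FB M)) (f : FB N) (c : Qb) :
    HasValueAt W (φ f) c ↔ HasValueAt (W.restrictAlong φ hφ) f c := by
  unfold HasValueAt
  have h1 : φ f - algebraMap Qb (FB M) c = φ (f - algebraMap Qb (FB N) c) := by
    rw [map_sub, AlgHom.commutes]
  rw [h1, Place.ord_restrictAlong φ hφ W]
  exact mul_pos_iff_of_pos_left (ramificationIndexAlong_pos_h962 φ hφ W)

/-- `φ f` is regular at `W` iff `f` is regular at `W ∣_φ`. -/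
theorem ord_nonneg_along (φ : FB N →ₐ[Qb] FB M) (hφ : φ.toRingHom.IsIntegral)
    (W : Place Qb (FB M)) (f : FB N) :
    0 ≤ W.ord (φ f) ↔ 0 ≤ (W.restrictAlong φ hφ).ord f := by
  rw [Place.ord_restrictAlong φ hφ W]
  exact mul_nonneg_iff_of_pos_left (ramificationIndexAlong_pos_h962 φ hφ W)

theorem ord_nonneg_of_hasValueAt {P : Place Qb (FB N)} {f : FB N} {c : Qb}
    (h : HasValueAt P f c) : 0 ≤ P.ord f := by
  have h1 : Fermat.Agent.S15.H722.HasVal P f c := Or.inr h
  exact h1.ord_nonneg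

/-- A function which is regular at `P` and not constant has a value at `P`. -/
theorem exists_hasValueAt [NeZero N] (P : Place Qb (FB N)) {f : FB N} (hf : 0 ≤ P.ord f)
    (hne : ∀ c : Qb, f - algebraMap Qb (FB N) c ≠ 0) : ∃ c : Qb, HasValueAt P f c := by
  obtain ⟨c, hc⟩ := Fermat.Agent.S15.H722.exists_hasVal P
    (Fermat.Agent.Lib.FF398.deg_eq_one_FF N P) hf
  rcases hc with hc | hc
  · exact absurd hc (hne c)
  · exact ⟨c, hc⟩

end Along

/-! ### The modular relations at level `pℓ` -/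

section Relations

variable (p ℓ : ℕ) [NeZero p] [NeZero ℓ]

theorem coe_alpha_jBar :
    ((heckeAlphaBar Qb p ℓ (H542.jBar p) : FB (p * ℓ)) : LaurentSeries Qb) = jqModC Qb := by
  rw [coe_heckeAlphaBar, coe_jBar_eq]

theorem coe_beta_jBar :
    ((heckeBetaBar Qb p ℓ (H542.jBar p) : FB (p * ℓ)) : LaurentSeries Qb) =
      qExpand Qb ℓ (jqModC Qb) := by
  rw [coe_heckeBetaBar, coe_jBar_eq]

theorem coe_alpha_jNBar :
    ((heckeAlphaBar Qb p ℓ (jNBar p) : FB (p * ℓ)) : LaurentSeries Qb) =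
      qExpand Qb p (jqModC Qb) := by
  rw [coe_heckeAlphaBar, coe_jNBar_eq]

theorem coe_beta_jNBar :
    ((heckeBetaBar Qb p ℓ (jNBar p) : FB (p * ℓ)) : LaurentSeries Qb) =
      qExpand Qb (p * ℓ) (jqModC Qb) := by
  rw [coe_heckeBetaBar, coe_jNBar_eq, qExpand_qExpand]
  exact qExpand_congr (Nat.mul_comm ℓ p) _

/-- The relations `Φ_ℓ(β j, α j) = 0` and `Φ_ℓ(β j_p, α j_p) = 0`. -/
theorem exists_rel_level (hℓ : ℓ.Prime) :
    ∃ Φ : ℤ[X][X], IsModularShape ℓ Φ ∧
      eval2 Φ (heckeBetaBar Qb p ℓ (H542.jBar p)) (heckeAlphaBar Qb p ℓ (H542.jBar p)) = 0 ∧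
      eval2 Φ (heckeBetaBar Qb p ℓ (jNBar p)) (heckeAlphaBar Qb p ℓ (jNBar p)) = 0 := by
  obtain ⟨Φ, hshape, hrel⟩ := Fermat.Agent.S15.H386.exists_isModularShape.{0} ℓ hℓ
  obtain ⟨-, hrel1⟩ := hrel Qb 1
  obtain ⟨-, hrel2⟩ := hrel Qb p
  rw [qExpand_one_apply, qExpand_congr (one_mul ℓ)] at hrel1
  refine ⟨Φ, hshape, ?_, ?_⟩
  · rw [← Fermat.Agent.S15.H386.eval2_eq_zero_iff_map
      (algebraMap (FB (p * ℓ)) (LaurentSeries Qb))]
    have h1 : algebraMap (FB (p * ℓ)) (LaurentSeries Qb)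
        (heckeBetaBar Qb p ℓ (H542.jBar p)) = qExpand Qb ℓ (jqModC Qb) := coe_beta_jBar p ℓ
    have h2 : algebraMap (FB (p * ℓ)) (LaurentSeries Qb)
        (heckeAlphaBar Qb p ℓ (H542.jBar p)) = jqModC Qb := coe_alpha_jBar p ℓ
    rw [h1, h2]
    exact hrel1
  · rw [← Fermat.Agent.S15.H386.eval2_eq_zero_iff_map
      (algebraMap (FB (p * ℓ)) (LaurentSeries Qb))]
    have h1 : algebraMap (FB (p * ℓ)) (LaurentSeries Qb)
        (heckeBetaBar Qb p ℓ (jNBar p)) = qExpand Qb (p * ℓ) (jqModC Qb) := coe_beta_jNBar p ℓ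
    have h2 : algebraMap (FB (p * ℓ)) (LaurentSeries Qb)
        (heckeAlphaBar Qb p ℓ (jNBar p)) = qExpand Qb p (jqModC Qb) := coe_alpha_jNBar p ℓ
    rw [h1, h2]
    exact hrel2

/-- The relation `Φ_p(α j, α j_p) = 0`. -/
theorem exists_rel_base (hp : p.Prime) :
    ∃ Φ : ℤ[X][X], IsModularShape p Φ ∧
      eval2 Φ (heckeAlphaBar Qb p ℓ (H542.jBar p)) (heckeAlphaBar Qb p ℓ (jNBar p)) = 0 := by
  obtain ⟨Φ, hshape, hrel, -⟩ := eval2_jBar_jNBar p hp
  refine ⟨Φ, hshape, ?_⟩
  exact (Fermat.Agent.S15.H386.eval2_eq_zero_iff_map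
    ((heckeAlphaBar Qb p ℓ : FB p →ₐ[Qb] FB (p * ℓ)) : FB p →+* FB (p * ℓ)) Φ _ _).mpr hrel

end Relations

/-! ### Places of `X₀(pℓ)` over a non-cuspidal place -/

section NonCusp

variable (p ℓ : ℕ) [NeZero p] [NeZero ℓ]

/-- If `β j`, `β j_p` are regular at `W` then so are `α j`, `α j_p`. -/
theorem ord_alpha_nonneg (hℓ : ℓ.Prime) (W : Place Qb (FB (p * ℓ)))
    (h1 : 0 ≤ W.ord (heckeBetaBar Qb p ℓ (H542.jBar p)))
    (h2 : 0 ≤ W.ord (heckeBetaBar Qb p ℓ (jNBar p))) :
    0 ≤ W.ord (heckeAlphaBar Qb p ℓ (H542.jBar p)) ∧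
      0 ≤ W.ord (heckeAlphaBar Qb p ℓ (jNBar p)) := by
  have e1 : H542.jBar p = Fermat.Agent.S15.H362.jBar p := rfl
  have e2 : jNBar p = Fermat.Agent.S15.H362.jLevelBar p := rfl
  rw [e1] at h1 ⊢
  rw [e2] at h2 ⊢
  constructor
  · by_contra hlt
    rw [not_le, Fermat.Agent.S15.H362.alpha_jBar] at hlt
    obtain ⟨-, h3, -⟩ := Fermat.Agent.S15.H362.cusp_relations_level p ℓ hℓ W (Or.inl hlt)
    rw [← Fermat.Agent.S15.H362.beta_jBar] at h3
    exact absurd h1 (not_le.mpr h3)
  · by_contra hlt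
    rw [not_le, Fermat.Agent.S15.H362.alpha_jLevelBar] at hlt
    obtain ⟨-, h3, -⟩ := Fermat.Agent.S15.H362.cusp_relations_level' p ℓ hℓ W (Or.inl hlt)
    rw [← Fermat.Agent.S15.H362.beta_jLevelBar] at h3
    exact absurd h2 (not_le.mpr h3)

/-- **The local computation.**  Values `a, a'` of `j, j_p` at `W ∣_β` with `1 < v a`, `1 < v a'`
give values `b, b'` at `W ∣_α` related to `a, a'` by the Newton polygons of `Φ_ℓ` and `Φ_p`. -/
theorem exists_values_alpha (hp : p.Prime) (hℓ : ℓ.Prime)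
    (hα : HeckeAlphaBarIntegral Qb p ℓ) (hβ : HeckeBetaBarIntegral Qb p ℓ)
    {Γ₀ : Type*} [LinearOrderedCommGroupWithZero Γ₀] (v : Valuation Qb Γ₀)
    (W : Place Qb (FB (p * ℓ))) {a a' : Qb}
    (ha : HasValueAt (W.restrictAlong (heckeBetaBar Qb p ℓ) hβ) (H542.jBar p) a)
    (ha' : HasValueAt (W.restrictAlong (heckeBetaBar Qb p ℓ) hβ) (jNBar p) a')
    (hva : 1 < v a) (hva' : 1 < v a') :
    ∃ b b' : Qb, HasValueAt (W.restrictAlong (heckeAlphaBar Qb p ℓ) hα) (H542.jBar p) b ∧
      HasValueAt (W.restrictAlong (heckeAlphaBar Qb p ℓ) hα) (jNBar p) b' ∧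
      1 < v b ∧ (v b = v a ^ ℓ ∨ v b ^ ℓ = v a) ∧ (v b' = v a' ^ ℓ ∨ v b' ^ ℓ = v a') ∧
      (v b' = v b ^ p ∨ v b' ^ p = v b) := by
  have hWa : HasValueAt W (heckeBetaBar Qb p ℓ (H542.jBar p)) a :=
    (hasValueAt_along _ hβ W _ a).mpr ha
  have hWa' : HasValueAt W (heckeBetaBar Qb p ℓ (jNBar p)) a' :=
    (hasValueAt_along _ hβ W _ a').mpr ha'
  obtain ⟨h1, h2⟩ := ord_alpha_nonneg p ℓ hℓ W (ord_nonneg_of_hasValueAt hWa) (ord_nonneg_of_hasValueAt hWa')
  obtain ⟨b, hb⟩ := exists_hasValueAt (W.restrictAlong (heckeAlphaBar Qb p ℓ) hα)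
    ((ord_nonneg_along _ hα W _).mp h1) (Fermat.Agent.S15.H602.jBar_sub_ne_zero p)
  obtain ⟨b', hb'⟩ := exists_hasValueAt (W.restrictAlong (heckeAlphaBar Qb p ℓ) hα)
    ((ord_nonneg_along _ hα W _).mp h2) (Fermat.Agent.S15.H602.jNBar_sub_ne_zero p)
  have hWb : HasValueAt W (heckeAlphaBar Qb p ℓ (H542.jBar p)) b :=
    (hasValueAt_along _ hα W _ b).mpr hb
  have hWb' : HasValueAt W (heckeAlphaBar Qb p ℓ (jNBar p)) b' :=
    (hasValueAt_along _ hα W _ b').mpr hb'
  obtain ⟨Φℓ, hshℓ, r1, r2⟩ := exists_rel_level p ℓ hℓ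
  obtain ⟨Φp, hshp, r3⟩ := exists_rel_base p ℓ hp
  have e1 : eval2 Φℓ a b = 0 := by
    rw [← ev0_phiK]
    exact ev0_eq_zero_of_isCentredAt (isCentredAt_of_hasValueAt (p * ℓ) hWa hWb)
      (by rw [ev_phiK]; exact r1)
  have e2 : eval2 Φℓ a' b' = 0 := by
    rw [← ev0_phiK]
    exact ev0_eq_zero_of_isCentredAt (isCentredAt_of_hasValueAt (p * ℓ) hWa' hWb')
      (by rw [ev_phiK]; exact r2)
  have e3 : eval2 Φp b b' = 0 := by
    rw [← ev0_phiK]
    exact ev0_eq_zero_of_isCentredAt (isCentredAt_of_hasValueAt (p * ℓ) hWb hWb')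
      (by rw [ev_phiK]; exact r3)
  have hB := val_root_of_isModularShape v hℓ.pos hshℓ hva e1
  have hvb : 1 < v b := by
    rcases hB with h | h
    · rw [h]; exact one_lt_pow₀ hva hℓ.pos.ne'
    · exact one_lt_of_pow_eq hva h
  exact ⟨b, b', hb, hb', hvb, hB, val_root_of_isModularShape v hℓ.pos hshℓ hva' e2,
    val_root_of_isModularShape v hp.pos hshp hvb e3⟩

/-- The residue disc of the cusp `0` propagates along the Hecke correspondence. -/
theorem inDiscZero_restrictAlpha (hp : p.Prime) (hℓ : ℓ.Prime) (hne : ℓ ≠ p)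
    (hα : HeckeAlphaBarIntegral Qb p ℓ) (hβ : HeckeBetaBarIntegral Qb p ℓ)
    (A : ValuationSubring Qb) (W : Place Qb (FB (p * ℓ)))
    (hW : InDiscZero p A (W.restrictAlong (heckeBetaBar Qb p ℓ) hβ)) :
    InDiscZero p A (W.restrictAlong (heckeAlphaBar Qb p ℓ) hα) := by
  obtain ⟨a, a', ha, ha', hva, hrel⟩ := hW
  obtain ⟨b, b', hb, hb', hvb, hB, hC₁, hC₂⟩ := exists_values_alpha p ℓ hp hℓ hα hβ A.valuation W
    ha ha' hva (one_lt_of_pow_eq hva hrel)
  exact ⟨b, b', hb, hb', hvb,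
    val_propagate_zero hp.two_le hℓ.two_le (Ne.symm hne) hva hrel hB hC₁ hC₂⟩

/-- The residue disc of the cusp `∞` propagates along the Hecke correspondence. -/
theorem inDiscInfty_restrictAlpha (hp : p.Prime) (hℓ : ℓ.Prime) (hne : ℓ ≠ p)
    (hα : HeckeAlphaBarIntegral Qb p ℓ) (hβ : HeckeBetaBarIntegral Qb p ℓ)
    (A : ValuationSubring Qb) (W : Place Qb (FB (p * ℓ)))
    (hW : InDiscInfty p A (W.restrictAlong (heckeBetaBar Qb p ℓ) hβ)) :
    InDiscInfty p A (W.restrictAlong (heckeAlphaBar Qb p ℓ) hα) := by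
  obtain ⟨a, a', ha, ha', hva, hrel⟩ := hW
  have hva' : 1 < A.valuation a' := by
    rw [hrel]; exact one_lt_pow₀ hva hp.pos.ne'
  obtain ⟨b, b', hb, hb', hvb, hB, hC₁, hC₂⟩ := exists_values_alpha p ℓ hp hℓ hα hβ A.valuation W
    ha ha' hva hva'
  exact ⟨b, b', hb, hb', hvb,
    val_propagate_infty hp.two_le hℓ.two_le (Ne.symm hne) hva hrel hB hC₁ hC₂⟩

end NonCusp

/-! ### `T_ℓ` on the class of a difference of two places -/

section Divisors

variable (p ℓ : ℕ) [NeZero p] [NeZero ℓ]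

/-- `T_ℓ ((P) - (P₁)) = ∑_{W ∣_β = P} e_β(W) ((W ∣_α) - (P₁))` if `P₁` is fixed by the
correspondence. -/
theorem heckeDivBar_ptDiff (hℓ : ℓ.Prime) (hN : ¬ ℓ ∣ p)
    (hα : HeckeAlphaBarIntegral Qb p ℓ) (hβ : HeckeBetaBarIntegral Qb p ℓ)
    (P P₁ : Place Qb (FB p))
    (hP₁ : ∀ W : Place Qb (FB (p * ℓ)), W.restrictAlong (heckeBetaBar Qb p ℓ) hβ = P₁ →
      W.restrictAlong (heckeAlphaBar Qb p ℓ) hα = P₁) :
    heckeDivBar hα hβ (Finsupp.single P (1 : ℤ) - Finsupp.single P₁ 1) =
      ∑ W ∈ Place.fiberAlong (heckeBetaBar Qb p ℓ) hβ P,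
        (W.ramificationIndexAlong (heckeBetaBar Qb p ℓ) : ℤ) •
          (Finsupp.single (W.restrictAlong (heckeAlphaBar Qb p ℓ) hα) (1 : ℤ) -
            Finsupp.single P₁ 1) := by
  classical
  rw [map_sub, Fermat.Agent.Lib.FF398.heckeDivBar_single p ℓ hα hβ P 1,
    Fermat.Agent.S15.H362.heckeDivBar_single_of_fixed p ℓ hℓ hN hα hβ P₁ hP₁ 1]
  simp only [smul_sub, Finsupp.smul_single, smul_eq_mul, mul_one, one_mul]
  rw [Finset.sum_sub_distrib, ← Finsupp.single_finsetSum,
    Fermat.Agent.Lib.FF398.sum_ramificationIndexAlong_beta p ℓ hβ P,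
    Fermat.Agent.S37.H218.finrankAlong_heckeBetaBar_of_not_dvd p ℓ hℓ hN]
  push_cast
  rfl

end Divisors

section Classes

variable (p : ℕ) [NeZero p]

/-- `T_ℓ cl((P) - (P₁)) ∈ H` as soon as `cl((W ∣_α) - (P₁)) ∈ H` for all `W` over `P` along `β`
(`P₁` fixed by the correspondence). -/
theorem heckeOperatorBar_diffClass_mem (ℓ : Nat.Primes) (hN : ¬ (ℓ : ℕ) ∣ p)
    (H : AddSubgroup (JZero p)) (P P₁ : Place Qb (FB p))
    (hP₁ : haveI : NeZero (ℓ : ℕ) := ⟨ℓ.2.ne_zero⟩
      ∀ W : Place Qb (FB (p * ℓ)),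
        W.restrictAlong (heckeBetaBar Qb p ℓ) (Fermat.Agent.Lib.FF398.heckeBetaBarIntegral p ℓ)
          = P₁ →
        W.restrictAlong (heckeAlphaBar Qb p ℓ) (Fermat.Agent.Lib.FF398.heckeAlphaBarIntegral p ℓ)
          = P₁)
    (hmem : haveI : NeZero (ℓ : ℕ) := ⟨ℓ.2.ne_zero⟩
      ∀ W : Place Qb (FB (p * ℓ)),
        W.restrictAlong (heckeBetaBar Qb p ℓ) (Fermat.Agent.Lib.FF398.heckeBetaBarIntegral p ℓ)
          = P →
        ∀ z : JZero p, IsDiffClass
          (W.restrictAlong (heckeAlphaBar Qb p ℓ)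
            (Fermat.Agent.Lib.FF398.heckeAlphaBarIntegral p ℓ)) P₁ z → z ∈ H)
    (z : JZero p) (hz : IsDiffClass P P₁ z) : heckeOperatorBar p ℓ z ∈ H := by
  classical
  haveI : NeZero (ℓ : ℕ) := ⟨ℓ.2.ne_zero⟩
  obtain ⟨h, rfl⟩ := hz
  rw [Fermat.Agent.Lib.FF398.heckeOperatorBar_mk p ℓ]
  set hα := Fermat.Agent.Lib.FF398.heckeAlphaBarIntegral p ℓ with hαdef
  set hβ := Fermat.Agent.Lib.FF398.heckeBetaBarIntegral p ℓ with hβdef
  have hdeg : ∀ W : Place Qb (FB (p * ℓ)),
      (Finsupp.single (W.restrictAlong (heckeAlphaBar Qb p ℓ) hα) (1 : ℤ) - Finsupp.single P₁ 1 :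
        Divisor Qb (FB p)) ∈ Divisor.degZero (K := Qb) (F := FB p) := fun W => by
    rw [Divisor.mem_degZero, map_sub, Divisor.degree_single, Divisor.degree_single,
      Fermat.Agent.Lib.FF398.deg_eq_one_FF p, Fermat.Agent.Lib.FF398.deg_eq_one_FF p, sub_self]
  have key : Pic0.degZeroCorrespondence (heckeBetaBar Qb p ℓ) (heckeAlphaBar Qb p ℓ) hβ hα
      (Fermat.Agent.Lib.FF398.fundamentalIdentityAlong_beta p ℓ)
      ⟨Finsupp.single P (1 : ℤ) - Finsupp.single P₁ 1, h⟩ =
      ∑ W ∈ Place.fiberAlong (heckeBetaBar Qb p ℓ) hβ P,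
        (W.ramificationIndexAlong (heckeBetaBar Qb p ℓ) : ℤ) •
          (⟨_, hdeg W⟩ : Divisor.degZero (K := Qb) (F := FB p)) := by
    apply Subtype.ext
    rw [AddSubgroup.val_finsetSum]
    exact heckeDivBar_ptDiff p ℓ ℓ.2 hN hα hβ P P₁ hP₁
  rw [key]
  have hmk : ∀ D : Divisor.degZero (K := Qb) (F := FB p),
      Pic0.mk D = QuotientAddGroup.mk' _ D := fun _ => rfl
  rw [hmk, map_sum]
  refine H.sum_mem fun W hW => ?_
  rw [map_zsmul]
  exact H.zsmul_mem (hmem W (Place.mem_fiberAlong.mp hW) _ ⟨hdeg W, rfl⟩) _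

end Classes

/-! ### The theorem -/

/-- **GEO-PARTS (a), PROPAGATION.** -/
theorem propagation (p : ℕ) [NeZero p] : PropagationStatement p := by
  intro hp A P₀ hP₀ ℓ hℓp
  haveI : NeZero (ℓ : ℕ) := ⟨ℓ.2.ne_zero⟩
  have hN : ¬ (ℓ : ℕ) ∣ p := Fermat.Agent.S15.H362.not_dvd_of_prime_ne hp ℓ.2 hℓp
  -- the cusp `0`
  have hP₀eq : P₀ = Fermat.Agent.S15.H362.cuspZero p := by
    obtain ⟨h1, h2⟩ := hP₀
    have h3 : P₀.ord (Fermat.Agent.S15.H362.jBar p) < 0 := h2
    rcases Fermat.Agent.S15.H362.eq_cusp_of_ord_jBar_neg p hp P₀ h3 with e | e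
    · rw [Fermat.Agent.S15.H362.cuspInfty_eq_core] at e
      exact absurd e h1
    · exact e
  have hle : discK p A P₀ ≤ (discK p A P₀).comap (heckeOperatorBar p ℓ).toAddMonoidHom := by
    refine discK_le ?_ ?_
    · intro P z hP hz
      refine heckeOperatorBar_diffClass_mem p ℓ hN (discK p A P₀) P P₀ ?_ ?_ z hz
      · rw [hP₀eq]
        exact Fermat.Agent.S15.H362.restrictAlpha_cuspZero p ℓ hp ℓ.2 hℓp _ _
      · intro W hW z' hz'
        refine mem_discK_of_inDiscZero ?_ hz'
        exact inDiscZero_restrictAlpha p ℓ hp ℓ.2 hℓp _ _ A W (by rw [hW]; exact hP)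
    · intro P z hP hz
      refine heckeOperatorBar_diffClass_mem p ℓ hN (discK p A P₀) P (_root_.Fermat.Agent.S15.Core.cuspInfty p) ?_ ?_ z hz
      · rw [← Fermat.Agent.S15.H362.cuspInfty_eq_core]
        exact Fermat.Agent.S15.H362.restrictAlpha_cuspInfty p ℓ hp ℓ.2 hℓp _ _
      · intro W hW z' hz'
        refine mem_discK_of_inDiscInfty ?_ hz'
        exact inDiscInfty_restrictAlpha p ℓ hp ℓ.2 hℓp _ _ A W (by rw [hW]; exact hP)
  intro z hz
  exact hle hz

/-- (a) in the form consumed by `GeoPartsStatement`: `K` is stable under `goodHecke p S`. -/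
theorem discK_goodHecke_stable (p : ℕ) [NeZero p] (hp : p.Prime)
    (A : ValuationSubring Qb) (P₀ : Place Qb (FB p)) (hP₀ : IsCuspZero p P₀) (S : Set ℕ) :
    ∀ T ∈ goodHecke p S, ∀ z ∈ discK p A P₀, T z ∈ discK p A P₀ :=
  goodHecke_stable_of_propagation p (propagation p) hp A P₀ hP₀ S

end Fermat.Agent.S15.H962

end

end
-- ===== PACK-END S15/H962/GeoProp.lean

-- ===== PACK-BEGIN S15/H962/GeoFib.lean
section


/-!
# Row S15, node GEO-PARTS (b), level-`p` fibre facts (helper962)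

Facts on the places of `X₀(p)` in the residue discs of the cusps, for the identification step
(b) (`sp₀` kills `discK`):

* `big_root_unique` : for `Φ` of modular shape and `1 < v a`, the root `b` of `Φ(a, Y)` with
  `v b = (v a)^N` is unique;
* `fibre_jNBar_of_inDiscZero` (F0) : `P` in the disc of `0` with values `(a, a')`; a place `P'` with
  `j_p(P') = a'` is `P` or lies in the disc of `∞`;
* `fibre_jBar_of_inDiscInfty` (F∞) : `P` in the disc of `∞`; a place `P'` with `j(P') = a` is `P` or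
  lies in the disc of `0`;
* `ord_jNBar_sub_const_*`, `ord_jBar_sub_const_*` : the orders of `j_p - c`, `j - c` at the cusps;
* `val_ratio_of_inDiscInfty`, `val_ratio_of_inDiscZero` : `v(a' / a^p) = 1`, resp. `< 1`.
-/

set_option autoImplicit false
set_option synthInstance.maxHeartbeats 400000
set_option linter.style.haveILetI false

noncomputable section

open AlgebraicCurve ModularCurve HahnSeries Polynomial

namespace Fermat.Agent.S15.H962

open Fermat.Agent.S15.Core Fermat.Agent.S15.H542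
open Fermat.Agent.S15.H362 (Qb FB)

/-! ### Uniqueness of the big root -/

section BigRoot

variable {K : Type*} [Field K] {Γ₀ : Type*} [LinearOrderedCommGroupWithZero Γ₀]
  (v : Valuation K Γ₀)

/-- **The big root is unique.** -/
theorem big_root_unique [IsAlgClosed K] {N : ℕ} (hN : 1 < N) {Φ : ℤ[X][X]}
    (hΦ : IsModularShape N Φ) {a b₁ b₂ : K} (ha : 1 < v a)
    (h₁ : eval2 Φ a b₁ = 0) (h₂ : eval2 Φ a b₂ = 0)
    (hb₁ : v b₁ = v a ^ N) (hb₂ : v b₂ = v a ^ N) : b₁ = b₂ := by
  classical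
  by_contra hne
  have hN0 : 0 < N := by omega
  set f := phiSpec Φ a with hf
  have hf_monic : f.Monic := phiSpec_monic hΦ.monic a
  have hf0 : f ≠ 0 := hf_monic.ne_zero
  have hr₁ : b₁ ∈ f.roots := by
    rw [Polynomial.mem_roots hf0, IsRoot, hf, eval_phiSpec]; exact h₁
  have hr₂ : b₂ ∈ f.roots := by
    rw [Polynomial.mem_roots hf0, IsRoot, hf, eval_phiSpec]; exact h₂
  have hsplit : f.Splits := IsAlgClosed.splits f
  have hprod : f.coeff 0 = (-1) ^ f.natDegree * f.roots.prod :=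
    hsplit.coeff_zero_eq_prod_roots_of_monic hf_monic
  have hc0 : v (f.coeff 0) = v a ^ (N + 1) := by
    rw [hf, phiSpec_coeff_zero]
    exact val_eval_eq v ha (Φ.coeff 0) hΦ.coeff_zero_natDegree hΦ.coeff_zero_unit
  have hroots : ∀ r ∈ f.roots, 1 ≤ v r := by
    intro r hr
    have hr0 : eval2 Φ a r = 0 := by
      rw [← eval_phiSpec]
      exact (Polynomial.mem_roots hf0).mp hr
    rcases val_root_of_isModularShape v hN0 hΦ ha hr0 with h1 | h1
    · rw [h1]; exact (one_lt_pow₀ ha hN0.ne').le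
    · exact (one_lt_of_pow_eq ha h1).le
  obtain ⟨t, ht⟩ := Multiset.exists_cons_of_mem hr₁
  have hr₂' : b₂ ∈ t := by
    rw [ht, Multiset.mem_cons] at hr₂
    rcases hr₂ with h | h
    · exact absurd h.symm hne
    · exact h
  obtain ⟨t', ht'⟩ := Multiset.exists_cons_of_mem hr₂'
  have hprod2 : f.roots.prod = b₁ * (b₂ * t'.prod) := by
    rw [ht, Multiset.prod_cons, ht', Multiset.prod_cons]
  have ht1 : 1 ≤ v t'.prod := by
    refine one_le_val_multiset_prod v t' fun r hr => hroots r ?_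
    rw [ht, ht']
    exact Multiset.mem_cons_of_mem (Multiset.mem_cons_of_mem hr)
  have hval : v (f.coeff 0) = v a ^ (2 * N) * v t'.prod := by
    rw [hprod, hprod2, map_mul, map_pow, Valuation.map_neg, map_one, one_pow, one_mul, map_mul,
      map_mul, hb₁, hb₂, ← mul_assoc, ← _root_.pow_add, two_mul]
  rw [hc0] at hval
  have hlt : v a ^ (N + 1) < v a ^ (2 * N) := pow_lt_pow_right₀ ha (by omega)
  have hle : v a ^ (2 * N) ≤ v a ^ (2 * N) * v t'.prod := by
    calc v a ^ (2 * N) = v a ^ (2 * N) * 1 := (mul_one _).symm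
      _ ≤ v a ^ (2 * N) * v t'.prod := mul_le_mul' le_rfl ht1
  rw [← hval] at hle
  exact absurd hlt (not_lt.mpr hle)

end BigRoot

/-! ### Values at non-cuspidal places of `X₀(p)` -/

section Values

variable (p : ℕ) [NeZero p]

/-- A place at which `j_p` is regular is not a pole of `j`. -/
theorem ord_jBar_nonneg_of_ord_jNBar_nonneg (hp : p.Prime) (P : Place Qb (FB p))
    (h : 0 ≤ P.ord (jNBar p)) : 0 ≤ P.ord (H542.jBar p) := by
  by_contra hlt
  rw [not_le] at hlt
  have e1 : H542.jBar p = Fermat.Agent.S15.H362.jBar p := rfl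
  have e2 : jNBar p = Fermat.Agent.S15.H362.jLevelBar p := rfl
  rw [e1] at hlt
  rw [e2] at h
  have hp0 : (0 : ℤ) < p := by exact_mod_cast hp.pos
  rcases Fermat.Agent.S15.H362.eq_cusp_of_ord_jBar_neg p hp P hlt with e | e
  · rw [e, Fermat.Agent.S15.H362.ord_cuspInfty_jLevelBar] at h
    omega
  · rw [e, Fermat.Agent.S15.H362.ord_cuspZero_jLevelBar] at h
    omega

/-- A place at which `j` is regular is not a pole of `j_p`. -/
theorem ord_jNBar_nonneg_of_ord_jBar_nonneg (hp : p.Prime) (P : Place Qb (FB p))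
    (h : 0 ≤ P.ord (H542.jBar p)) : 0 ≤ P.ord (jNBar p) := by
  by_contra hlt
  rw [not_le] at hlt
  have e1 : H542.jBar p = Fermat.Agent.S15.H362.jBar p := rfl
  have e2 : jNBar p = Fermat.Agent.S15.H362.jLevelBar p := rfl
  rw [e1] at h
  rw [e2] at hlt
  have hp0 : (0 : ℤ) < p := by exact_mod_cast hp.pos
  rcases Fermat.Agent.S15.H362.eq_cusp_of_ord_jLevelBar_neg p hp P hlt with e | e
  · rw [e, Fermat.Agent.S15.H362.ord_cuspInfty_jBar] at h
    omega
  · rw [e, Fermat.Agent.S15.H362.ord_cuspZero_jBar] at h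
    omega

/-- The modular relation at the centre of a place. -/
theorem exists_rel_values (hp : p.Prime) :
    ∃ Φ : ℤ[X][X], IsModularShape p Φ ∧
      ∀ (P : Place Qb (FB p)) (a a' : Qb), HasValueAt P (H542.jBar p) a →
        HasValueAt P (jNBar p) a' → eval2 Φ a a' = 0 ∧ eval2 Φ a' a = 0 := by
  obtain ⟨Φ, hshape, hxy, hyx⟩ := eval2_jBar_jNBar p hp
  refine ⟨Φ, hshape, fun P a a' h1 h2 => ⟨?_, ?_⟩⟩
  · rw [← ev0_phiK]
    exact ev0_eq_zero_of_isCentredAt (isCentredAt_of_hasValueAt p h1 h2)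
      (by rw [ev_phiK]; exact hxy)
  · rw [← ev0_phiK]
    exact ev0_eq_zero_of_isCentredAt (isCentredAt_of_hasValueAt p h2 h1)
      (by rw [ev_phiK]; exact hyx)

/-- **(F0)** The fibre of `j_p` through a place of the disc of `0`. -/
theorem fibre_jNBar_of_inDiscZero (hp : p.Prime) (A : ValuationSubring Qb)
    {P P' : Place Qb (FB p)} {a a' : Qb}
    (ha : HasValueAt P (H542.jBar p) a) (ha' : HasValueAt P (jNBar p) a')
    (hva : 1 < A.valuation a) (hrel : A.valuation a' ^ p = A.valuation a)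
    (hP' : HasValueAt P' (jNBar p) a') : P' = P ∨ InDiscInfty p A P' := by
  obtain ⟨Φ, hshape, hval⟩ := exists_rel_values p hp
  have hva' : 1 < A.valuation a' := one_lt_of_pow_eq hva hrel
  obtain ⟨b, hb⟩ := exists_hasValueAt P'
    (ord_jBar_nonneg_of_ord_jNBar_nonneg p hp P' (ord_nonneg_of_hasValueAt hP'))
    (Fermat.Agent.S15.H602.jBar_sub_ne_zero p)
  obtain ⟨-, e1⟩ := hval P a a' ha ha'
  obtain ⟨-, e2⟩ := hval P' b a' hb hP'
  rcases val_root_of_isModularShape A.valuation hp.pos hshape hva' e2 with h | h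
  · left
    have hab : a = b := big_root_unique A.valuation hp.one_lt hshape hva' e1 e2 hrel.symm h
    rw [← hab] at hb
    exact (place_unique_of_one_lt_val p hp A.valuation hva ha ha' hb hP').symm
  · right
    exact ⟨b, a', hb, hP', one_lt_of_pow_eq hva' h, h.symm⟩

/-- **(F∞)** The fibre of `j` through a place of the disc of `∞`. -/
theorem fibre_jBar_of_inDiscInfty (hp : p.Prime) (A : ValuationSubring Qb)
    {P P' : Place Qb (FB p)} {a a' : Qb}
    (ha : HasValueAt P (H542.jBar p) a) (ha' : HasValueAt P (jNBar p) a')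
    (hva : 1 < A.valuation a) (hrel : A.valuation a' = A.valuation a ^ p)
    (hP' : HasValueAt P' (H542.jBar p) a) : P' = P ∨ InDiscZero p A P' := by
  obtain ⟨Φ, hshape, hval⟩ := exists_rel_values p hp
  obtain ⟨b', hb'⟩ := exists_hasValueAt P'
    (ord_jNBar_nonneg_of_ord_jBar_nonneg p hp P' (ord_nonneg_of_hasValueAt hP'))
    (Fermat.Agent.S15.H602.jNBar_sub_ne_zero p)
  obtain ⟨e1, -⟩ := hval P a a' ha ha'
  obtain ⟨e2, -⟩ := hval P' a b' hP' hb'
  rcases val_root_of_isModularShape A.valuation hp.pos hshape hva e2 with h | h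
  · left
    have hab : a' = b' := big_root_unique A.valuation hp.one_lt hshape hva e1 e2 hrel h
    rw [← hab] at hb'
    exact (place_unique_of_one_lt_val p hp A.valuation hva ha ha' hP' hb').symm
  · right
    exact ⟨a, b', hP', hb', hva, h⟩

/-- A place of the disc of `0` is not in the disc of `∞`. -/
theorem not_inDiscInfty_of_inDiscZero (hp : p.Prime) (A : ValuationSubring Qb)
    {P : Place Qb (FB p)} (h0 : InDiscZero p A P) : ¬ InDiscInfty p A P := by
  rintro ⟨b, b', hb, hb', hvb, hrel'⟩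
  obtain ⟨a, a', ha, ha', hva, hrel⟩ := h0
  have e1 : a = b := Fermat.Agent.S15.H722.HasVal.unique (Or.inr ha) (Or.inr hb)
  have e2 : a' = b' := Fermat.Agent.S15.H722.HasVal.unique (Or.inr ha') (Or.inr hb')
  rw [← e1, ← e2] at hrel'
  rw [hrel', ← pow_mul] at hrel
  have h1 : A.valuation a ^ (p * p) = A.valuation a ^ 1 := by rw [hrel, pow_one]
  have h2 := (pow_eq_pow_iff_of_one_lt hva).mp h1
  have := hp.two_le
  nlinarith

end Values

/-! ### Valuations of the ratio `a' / a ^ p` -/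

section Ratio

variable {p : ℕ} {Γ₀ : Type*} [LinearOrderedCommGroupWithZero Γ₀] (v : Valuation Qb Γ₀)

theorem val_ratio_of_inDiscInfty {a a' : Qb} (hva : 1 < v a) (hrel : v a' = v a ^ p) :
    v (a' / a ^ p) = 1 := by
  have h0 : v a ^ p ≠ 0 := pow_ne_zero _ (ne_of_gt (lt_trans zero_lt_one hva))
  rw [map_div₀, map_pow, hrel, div_self h0]

theorem val_ratio_of_inDiscZero (hp : 2 ≤ p) {a a' : Qb} (hva : 1 < v a)
    (hrel : v a' ^ p = v a) : v (a' / a ^ p) < 1 := by
  have hva' : 1 < v a' := one_lt_of_pow_eq hva hrel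
  have h0 : 0 < v a ^ p := pow_pos (lt_trans zero_lt_one hva) p
  rw [map_div₀, map_pow, div_lt_one₀ h0, ← hrel, ← pow_mul]
  calc v a' = v a' ^ 1 := (pow_one _).symm
    _ < v a' ^ (p * p) := pow_lt_pow_right₀ hva' (by nlinarith)

theorem not_mem_of_one_lt_val (A : ValuationSubring Qb) {a : Qb} (hva : 1 < A.valuation a) :
    a ∉ A := by
  intro h
  exact absurd ((ValuationSubring.valuation_le_one_iff A a).mpr h) (not_le.mpr hva)

end Ratio

end Fermat.Agent.S15.H962

end

end
-- ===== PACK-END S15/H962/GeoFib.lean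

-- ===== PACK-BEGIN S15/H962/GeoIdent.lean
section





/-!
# Row S15, node GEO-PARTS (b), IDENTIFICATION at level `p` (helper962)

`sp₀ = reductionModL A p` kills the subgroup `K = discK p A P₀`, for every valuation ring `A` of
`ℚ̄` over a prime `q ≠ p` at which the Prelude's reduction inputs exist:

* `zero_pole_of_conservation` : abstract conservation of zeros and poles (`r_* D = E` and equal
  degrees of the zero parts);
* `zero_pole_j_of_isPlaceReduction` (DEG-J) : ANY place reduction of `X₀(N)` at `q ∤ N` maps zeros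
  of `j` to zeros of `j̄` and poles to poles (degrees `ψ(N)` on both fibres, helper868);
* `hasVal_ratio_cuspInfty`, `hasVal_ratio_cuspZero` : `j_p / j^p` is `1` at `∞` and `0` at `0`;
* `placeRed_eq_of_inDisc` : `r P = r 0` on the disc of `0`, `r P = r ∞` on the disc of `∞`
  (helper722's cusp criterion `H722.r_eq_cusp`);
* `killedBy_reductionModL_of_inputs` : **(b) at level `p`**, generic in
  `h : ReductionInputsModL A p`.
-/

set_option autoImplicit false
set_option synthInstance.maxHeartbeats 400000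
set_option linter.style.haveILetI false

noncomputable section

open AlgebraicCurve ModularCurve HahnSeries Polynomial

namespace Fermat.Agent.S15.H962

open Fermat.Agent.S15.Core Fermat.Agent.S15.H542
open Fermat.Agent.S15.H362 (Qb FB)
open Fermat.Agent.S15.H722 (HasVal jF jdF jFk jInvSer coeffMap_jInvSer)
open Fermat.Agent.S18.H725 (mapDomain_nonneg mapDomain_pos)
open Fermat.Agent.Lib.RR

/-! ### Conservation of zeros and poles: the abstract lemma -/

section Abstract

variable {K F k Fk : Type*} [Field K] [Field F] [Algebra K F] [Field k] [Field Fk] [Algebra k Fk]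

/-- The positive part of a divisor. -/
def posPartDiv (D : Divisor K F) : Divisor K F :=
  Finsupp.mapRange (fun n : ℤ => max n 0) (by simp) D

theorem posPartDiv_apply (D : Divisor K F) (P : Place K F) : posPartDiv D P = max (D P) 0 :=
  Finsupp.mapRange_apply (hf := by simp)

theorem posPartDiv_nonneg (D : Divisor K F) (P : Place K F) : 0 ≤ posPartDiv D P := by
  rw [posPartDiv_apply]; exact le_max_right _ _

theorem posPartDiv_sub_neg (D : Divisor K F) : posPartDiv D - posPartDiv (-D) = D := by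
  ext P
  rw [Finsupp.sub_apply, posPartDiv_apply, posPartDiv_apply, Finsupp.neg_apply]
  rcases le_total 0 (D P) with h | h
  · rw [max_eq_left h, max_eq_right (by omega)]; omega
  · rw [max_eq_right h, max_eq_left (by omega)]; omega

theorem degree_posPartDiv (hdeg : ∀ P : Place K F, P.deg = 1) (D : Divisor K F) :
    Divisor.degree (posPartDiv D) = ∑ P ∈ D.support, max (D P) 0 := by
  classical
  rw [Fermat.Agent.S37.H518.degree_eq_sum_of_deg_one _ hdeg]
  have h1 : ∀ P, posPartDiv D P = max (D P) 0 := posPartDiv_apply D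
  rw [Finset.sum_congr rfl fun P _ => h1 P]
  refine Finset.sum_subset ?_ ?_
  · intro P hP
    rw [Finsupp.mem_support_iff, h1] at hP
    rw [Finsupp.mem_support_iff]
    intro h0
    rw [h0] at hP
    simp at hP
  · intro P _ hP
    rw [Finsupp.notMem_support_iff, h1] at hP
    exact hP

/-- Pushforward of divisors along a degree-preserving map of places preserves the degree. -/
theorem degree_mapDomain_h962 {r : Place K F → Place k Fk} (hrdeg : ∀ P, (r P).deg = P.deg)
    (D : Divisor K F) : Divisor.degree (Finsupp.mapDomain r D) = Divisor.degree D := by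
  induction D using Finsupp.induction with
  | zero => simp
  | single_add P n D _ _ ih =>
    rw [Finsupp.mapDomain_add, map_add, map_add, ih, Finsupp.mapDomain_single,
      Divisor.degree_single, Divisor.degree_single, hrdeg]

/-- An effective divisor of degree zero is zero (all places of degree one). -/
theorem eq_zero_of_nonneg_of_degree_zero (hdeg : ∀ P : Place K F, P.deg = 1) {G : Divisor K F}
    (hG : ∀ P, 0 ≤ G P) (h0 : Divisor.degree G = 0) : G = 0 := by
  classical
  rw [Fermat.Agent.S37.H518.degree_eq_sum_of_deg_one _ hdeg] at h0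
  have h1 := (Finset.sum_eq_zero_iff_of_nonneg (fun P _ => hG P)).mp h0
  ext P
  by_cases hP : P ∈ G.support
  · rw [h1 P hP]; rfl
  · rw [Finsupp.notMem_support_iff.mp hP]; rfl

/-- **Conservation of zeros and poles.**  If `r_* D = E` and the zero parts of `D` and `E` have the
same degree, then `r` maps zeros to zeros and poles to poles. -/
theorem zero_pole_of_conservation (r : Place K F → Place k Fk)
    (hdegK : ∀ P : Place K F, P.deg = 1) (hdegk : ∀ Q : Place k Fk, Q.deg = 1)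
    (D : Divisor K F) (E : Divisor k Fk) (hred : ∀ Q, Finsupp.mapDomain r D Q = E Q)
    (hsum : ∑ P ∈ D.support, max (D P) 0 = ∑ Q ∈ E.support, max (E Q) 0) :
    (∀ P, 0 < D P → 0 < E (r P)) ∧ (∀ P, D P < 0 → E (r P) < 0) := by
  classical
  have hrdeg : ∀ P : Place K F, (r P).deg = P.deg := fun P => by rw [hdegK, hdegk]
  have hRD : Finsupp.mapDomain r D = E := Finsupp.ext hred
  have hsplit : Finsupp.mapDomain r (posPartDiv D) - Finsupp.mapDomain r (posPartDiv (-D)) = E := by
    rw [← Finsupp.mapDomain_sub, posPartDiv_sub_neg, hRD]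
  have hnn₁ : ∀ Q, 0 ≤ Finsupp.mapDomain r (posPartDiv D) Q := fun Q =>
    mapDomain_nonneg r _ fun P _ => posPartDiv_nonneg D P
  have hnn₂ : ∀ Q, 0 ≤ Finsupp.mapDomain r (posPartDiv (-D)) Q := fun Q =>
    mapDomain_nonneg r _ fun P _ => posPartDiv_nonneg (-D) P
  have hEQ : ∀ Q, E Q = Finsupp.mapDomain r (posPartDiv D) Q -
      Finsupp.mapDomain r (posPartDiv (-D)) Q := fun Q => by
    rw [← Finsupp.sub_apply, hsplit]
  -- the zero parts agree
  have hG : ∀ Q, 0 ≤ (Finsupp.mapDomain r (posPartDiv D) - posPartDiv E) Q := by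
    intro Q
    rw [Finsupp.sub_apply, posPartDiv_apply, hEQ Q]
    have h1 := hnn₁ Q
    have h2 := hnn₂ Q
    rcases le_total 0 (Finsupp.mapDomain r (posPartDiv D) Q -
      Finsupp.mapDomain r (posPartDiv (-D)) Q) with h | h
    · rw [max_eq_left h]; omega
    · rw [max_eq_right h]; omega
  have hGdeg : Divisor.degree (Finsupp.mapDomain r (posPartDiv D) - posPartDiv E) = 0 := by
    rw [map_sub, degree_mapDomain_h962 hrdeg, degree_posPartDiv hdegK,
      degree_posPartDiv hdegk, hsum, sub_self]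
  have hpos : Finsupp.mapDomain r (posPartDiv D) = posPartDiv E :=
    sub_eq_zero.mp (eq_zero_of_nonneg_of_degree_zero hdegk hG hGdeg)
  have hneg : Finsupp.mapDomain r (posPartDiv (-D)) = posPartDiv (-E) := by
    have h1 : Finsupp.mapDomain r (posPartDiv (-D)) = posPartDiv E - E := by
      rw [← hpos, ← hsplit]; abel
    rw [h1]
    have h2 := posPartDiv_sub_neg E
    generalize posPartDiv E = a at h2 ⊢
    generalize posPartDiv (-E) = b at h2 ⊢
    rw [← h2, sub_sub_cancel]
  constructor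
  · intro P hP
    have h1 : 0 < Finsupp.mapDomain r (posPartDiv D) (r P) :=
      mapDomain_pos r _ (fun P' _ => posPartDiv_nonneg D P') rfl
        (by rw [posPartDiv_apply, max_eq_left hP.le]; exact hP)
    rw [hpos, posPartDiv_apply] at h1
    by_contra hcon
    rw [max_eq_right (by omega)] at h1
    exact lt_irrefl _ h1
  · intro P hP
    have h1 : 0 < Finsupp.mapDomain r (posPartDiv (-D)) (r P) :=
      mapDomain_pos r _ (fun P' _ => posPartDiv_nonneg (-D) P') rfl
        (by rw [posPartDiv_apply, Finsupp.neg_apply, max_eq_left (by omega)]; omega)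
    rw [hneg, posPartDiv_apply, Finsupp.neg_apply] at h1
    by_contra hcon
    rw [max_eq_right (by omega)] at h1
    exact lt_irrefl _ h1

end Abstract

/-! ### Degree preservation for `j` under a place reduction of `X₀(N)` -/

section Modular

variable (N : ℕ) [NeZero N]

/-- **DEG-J.**  A place reduction of `X₀(N)` at a prime `q ∤ N` maps the zeros of `j` to zeros of
`j̄` and the poles of `j` to poles of `j̄`. -/
theorem zero_pole_j_of_isPlaceReduction {q : ℕ} (hq : q.Prime) (hqN : ¬ q ∣ N)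
    (A : ValuationSubring Qb) (hA : A.LiesOverPrime q)
    (r : Place Qb (FB N) → Place (IsLocalRing.ResidueField A)
      (modularFunctionFieldFullC (IsLocalRing.ResidueField A) N))
    (hr : IsPlaceReductionModL A N r) :
    (∀ P : Place Qb (FB N), 0 < P.ord (jF Qb N) →
        0 < (r P).ord (jFk (IsLocalRing.ResidueField A) N)) ∧
      (∀ P : Place Qb (FB N), P.ord (jF Qb N) < 0 →
        (r P).ord (jFk (IsLocalRing.ResidueField A) N) < 0) := by
  classical
  haveI : IsAlgClosed (IsLocalRing.ResidueField A) := Fermat.Agent.S18.H9.resAlgClosed Qb A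
  have hchar : ∀ p : ℕ, p.Prime → p ∣ N → ((p : ℕ) : IsLocalRing.ResidueField A) ≠ 0 :=
    fun p hp hpN => Fermat.Agent.S18.H9.resChar Qb A q p hq hp hA (fun h => hqN (h ▸ hpN))
  -- the integral series `1 / j`
  have hy : coeffMap A.subtype (jInvSer A) ∈
      laurentBaseChange Qb (modularFunctionFieldFull N) := by
    rw [coeffMap_jInvSer]; exact inv_mem (Fermat.Agent.S15.H722.j_mem_F Qb N)
  have hyk : coeffMap (IsLocalRing.residue A) (jInvSer A) ∈
      modularFunctionFieldFullC (IsLocalRing.ResidueField A) N := by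
    rw [coeffMap_jInvSer]; exact inv_mem (jqModC_mem_full _ N)
  have hne : coeffMap (IsLocalRing.residue A) (jInvSer A) ≠ 0 := by
    rw [coeffMap_jInvSer]
    exact inv_ne_zero (Fermat.Agent.S15.H722.jqModC_ne_zero' _)
  set u : FB N := ⟨coeffMap A.subtype (jInvSer A), hy⟩ with hu
  set uk : modularFunctionFieldFullC (IsLocalRing.ResidueField A) N :=
    ⟨coeffMap (IsLocalRing.residue A) (jInvSer A), hyk⟩ with huk
  have hu_inv : u = (jF Qb N)⁻¹ := Subtype.ext (by
    show coeffMap A.subtype (jInvSer A) = ((jF Qb N)⁻¹ : FB N)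
    rw [coeffMap_jInvSer]; rfl)
  have huk_inv : uk = (jFk (IsLocalRing.ResidueField A) N)⁻¹ := Subtype.ext (by
    show coeffMap (IsLocalRing.residue A) (jInvSer A) =
      ((jFk (IsLocalRing.ResidueField A) N)⁻¹ : modularFunctionFieldFullC _ N)
    rw [coeffMap_jInvSer]; rfl)
  have hu0 : u ≠ 0 := by
    rw [hu_inv]; exact inv_ne_zero (Fermat.Agent.S15.H722.jF_ne_zero Qb N)
  have huk0 : uk ≠ 0 := by
    rw [huk_inv]; exact inv_ne_zero (Fermat.Agent.S15.H722.jFk_ne_zero _ N)
  obtain ⟨D₁, hD₁, -⟩ := HasPrincipalDivisors.exists_divisor (K := Qb) u hu0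
  haveI := Fermat.Agent.S37.H868.hpd_fullC (IsLocalRing.ResidueField A) N hchar
  obtain ⟨E₁, hE₁, -⟩ := HasPrincipalDivisors.exists_divisor (K := IsLocalRing.ResidueField A) uk huk0
  have hred : ∀ Q, Finsupp.mapDomain r D₁ Q = E₁ Q := fun Q => by
    rw [hE₁]
    exact hr.2 (jInvSer A) hy hyk hne D₁ hD₁ Q
  have hsum : ∑ P ∈ D₁.support, max (D₁ P) 0 = ∑ Q ∈ E₁.support, max (E₁ Q) 0 := by
    rw [Fermat.Agent.S37.H868.sum_zero_inv_j_bar Qb N u (coeffMap_jInvSer A.subtype) D₁ hD₁,
      Fermat.Agent.S37.H868.sum_zero_inv_j_fullC _ N hchar uk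
        (coeffMap_jInvSer (IsLocalRing.residue A)) E₁ hE₁]
  obtain ⟨h1, h2⟩ := zero_pole_of_conservation r (Fermat.Agent.Lib.FF398.deg_eq_one_FF N)
    (Fermat.Agent.S37.H868.deg_fullC _ N hchar) D₁ E₁ hred hsum
  have hDP : ∀ P : Place Qb (FB N), D₁ P = -P.ord (jF Qb N) := fun P => by
    rw [hD₁, hu_inv, Place.ord_inv]
  have hEQ : ∀ Q : Place (IsLocalRing.ResidueField A) (modularFunctionFieldFullC _ N),
      E₁ Q = -Q.ord (jFk (IsLocalRing.ResidueField A) N) := fun Q => by
    rw [hE₁, huk_inv, Place.ord_inv]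
  constructor
  · intro P hP
    have := h2 P (by rw [hDP]; omega)
    rw [hEQ] at this
    omega
  · intro P hP
    have := h1 P (by rw [hDP]; omega)
    rw [hEQ] at this
    omega

end Modular

/-! ### Series of order `0` with leading coefficient `1` -/

section Monic

theorem isMonicOfOrder_pow {f : LaurentSeries ℚ} {m : ℤ} (hf : IsMonicOfOrder f m) (n : ℕ) :
    IsMonicOfOrder (f ^ n) ((n : ℤ) * m) := by
  induction n with
  | zero =>
    have h := IsMonicOfOrder.single (0 : ℤ)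
    simpa using h
  | succ n ih =>
    have h := ih.mul hf
    rw [pow_succ]
    have e : ((n + 1 : ℕ) : ℤ) * m = (n : ℤ) * m + m := by push_cast; ring
    rw [e]
    exact h

theorem order_sub_one_pos_of_isMonicOfOrder {f : LaurentSeries ℚ} (hf : IsMonicOfOrder f 0)
    (hne : f - 1 ≠ 0) : 0 < (f - 1).order := by
  by_contra hle
  rw [not_lt] at hle
  have hc : (f - 1).coeff (f - 1).order ≠ 0 := fun h => hne (HahnSeries.coeff_order_eq_zero.mp h)
  apply hc
  rw [HahnSeries.coeff_sub]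
  rcases lt_or_eq_of_le hle with h | h
  · rw [hf.coeff_of_lt h, HahnSeries.coeff_one, if_neg (ne_of_lt h), sub_zero]
  · rw [h, hf.coeff_self, HahnSeries.coeff_one, if_pos rfl, sub_self]

end Monic

/-! ### The cusp data of `X₀(p)` in the notation of `H722.r_eq_cusp` -/

section CuspData

variable (p : ℕ) [NeZero p]

theorem jF_eq_jBar : jF Qb p = H542.jBar p := Subtype.ext (coe_jBar_eq p).symm

theorem jdF_eq_jNBar : jdF Qb p (dvd_refl p) = jNBar p := Subtype.ext (coe_jNBar_eq p).symm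

/-- `hcusps`: the poles of `j` are the two cusps. -/
theorem cusps_of_ord_jF_neg (hp : p.Prime) (P : Place Qb (FB p)) (h : P.ord (jF Qb p) < 0) :
    P = Fermat.Agent.S15.H362.cuspInfty p ∨ P = Fermat.Agent.S15.H362.cuspZero p := by
  rw [jF_eq_jBar] at h
  exact Fermat.Agent.S15.H362.eq_cusp_of_ord_jBar_neg p hp P h

/-- `hjd`: the poles of `j_p` are poles of `j`. -/
theorem ord_jF_neg_of_ord_jdF_neg (hp : p.Prime) (P : Place Qb (FB p))
    (h : P.ord (jdF Qb p (dvd_refl p)) < 0) : P.ord (jF Qb p) < 0 := by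
  rw [jdF_eq_jNBar] at h
  rw [jF_eq_jBar]
  by_contra hcon
  rw [not_lt] at hcon
  exact absurd (ord_jNBar_nonneg_of_ord_jBar_nonneg p hp P hcon) (not_le.mpr h)

theorem jBar_ne_zero_h962 : H542.jBar p ≠ 0 := by
  have := Fermat.Agent.S15.H602.jBar_sub_ne_zero p 0
  rwa [map_zero, sub_zero] at this

theorem jNBar_ne_zero_h962 : jNBar p ≠ 0 := by
  have := Fermat.Agent.S15.H602.jNBar_sub_ne_zero p 0
  rwa [map_zero, sub_zero] at this

/-- `h0`: `j_p / j ^ p` vanishes at the cusp `0`. -/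
theorem hasVal_ratio_cuspZero (hp : p.Prime) :
    HasVal (Fermat.Agent.S15.H362.cuspZero p) (jdF Qb p (dvd_refl p) / jF Qb p ^ p) 0 := by
  refine Fermat.Agent.S15.H722.hasVal_zero_of_ord_pos ?_
  rw [jF_eq_jBar, jdF_eq_jNBar, div_eq_mul_inv,
    Place.ord_mul _ (jNBar_ne_zero_h962 p) (inv_ne_zero (pow_ne_zero _ (jBar_ne_zero_h962 p))),
    Place.ord_inv, ord_pow]
  have e1 : H542.jBar p = Fermat.Agent.S15.H362.jBar p := rfl
  have e2 : jNBar p = Fermat.Agent.S15.H362.jLevelBar p := rfl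
  rw [e1, e2, Fermat.Agent.S15.H362.ord_cuspZero_jBar, Fermat.Agent.S15.H362.ord_cuspZero_jLevelBar]
  have hp2 : (2 : ℤ) ≤ p := by exact_mod_cast hp.two_le
  nlinarith

/-- `hinf`: `j_p / j ^ p` takes the value `1` at the cusp `∞`. -/
theorem hasVal_ratio_cuspInfty :
    HasVal (Fermat.Agent.S15.H362.cuspInfty p) (jdF Qb p (dvd_refl p) / jF Qb p ^ p) 1 := by
  by_cases hne : jdF Qb p (dvd_refl p) / jF Qb p ^ p - algebraMap Qb (FB p) 1 = 0
  · exact Or.inl hne
  refine Or.inr ?_
  rw [Fermat.Agent.S15.H362.ord_cuspInfty]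
  -- the `q`-expansion comes from `ℚ`
  set u₀ : LaurentSeries ℚ := qExpand ℚ p jq / jq ^ p with hu₀
  have hjq : IsMonicOfOrder jq (-1) := Fermat.Agent.S15.H362.isMonicOfOrder_jq
  have hjqp : IsMonicOfOrder (jq ^ p) ((p : ℤ) * (-1)) := isMonicOfOrder_pow hjq p
  have hqe : IsMonicOfOrder (qExpand ℚ p jq) ((p : ℤ) * (-1)) := hjq.qExpand p
  have hmul : u₀ * jq ^ p = qExpand ℚ p jq := by
    rw [hu₀, div_mul_cancel₀ _ hjqp.ne_zero]
  have hu : IsMonicOfOrder u₀ 0 := by
    have h := IsMonicOfOrder.of_mul_right (by rw [hmul]; exact hqe) hjqp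
    rwa [sub_self] at h
  have hcoe : ((jdF Qb p (dvd_refl p) / jF Qb p ^ p - algebraMap Qb (FB p) 1 : FB p) :
      LaurentSeries Qb) = coeffEmb Qb (u₀ - 1) := by
    have h1 : coeffEmb Qb jq = jqModC Qb := by
      rw [coeffEmb, ← jqModC_rat, coeffMap_jqModC]
    have h2 : coeffEmb Qb (qExpand ℚ p jq) = qExpand Qb p (jqModC Qb) := by
      rw [coeffEmb, coeffMap_qExpand, ← jqModC_rat, coeffMap_jqModC]
    rw [hu₀, map_sub, map_div₀, map_pow, map_one, h1, h2, map_one]
    rfl
  rw [hcoe, Fermat.Agent.S15.H362.order_coeffEmb]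
  refine order_sub_one_pos_of_isMonicOfOrder hu ?_
  intro h0
  apply hne
  apply Subtype.ext
  rw [hcoe, h0, map_zero]
  rfl

end CuspData

/-! ### The identification at level `p` -/

section Ident

variable (p : ℕ) [NeZero p]

theorem residue_eq_zero_of_not_isUnit (A : ValuationSubring Qb) (a : A) (ha : ¬ IsUnit a) :
    IsLocalRing.residue A a = 0 := by
  rw [IsLocalRing.residue_eq_zero_iff]
  exact (IsLocalRing.mem_maximalIdeal a).mpr ha

/-- **The cusp criterion on the residue discs**: a place reduction with degree preservation for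
`j` maps the disc of `0` to `r 0` and the disc of `∞` to `r ∞`. -/
theorem placeRed_eq_of_inDisc (hp : p.Prime) (A : ValuationSubring Qb)
    (r : Place Qb (FB p) → Place (IsLocalRing.ResidueField A)
      (modularFunctionFieldFullC (IsLocalRing.ResidueField A) p))
    (hr : IsPlaceReductionModL A p r)
    (hzero : ∀ P : Place Qb (FB p), 0 < P.ord (jF Qb p) →
      0 < (r P).ord (jFk (IsLocalRing.ResidueField A) p))
    (hpole : ∀ P : Place Qb (FB p), P.ord (jF Qb p) < 0 →
      (r P).ord (jFk (IsLocalRing.ResidueField A) p) < 0) :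
    (∀ P, InDiscZero p A P → r P = r (Fermat.Agent.S15.H362.cuspZero p)) ∧
      (∀ P, InDiscInfty p A P → r P = r (Fermat.Agent.S15.H362.cuspInfty p)) := by
  have key : ∀ (P : Place Qb (FB p)) (a a' : Qb), HasValueAt P (H542.jBar p) a →
      HasValueAt P (jNBar p) a' → 1 < A.valuation a →
      ∃ h : a' / a ^ p ∈ A,
        (IsUnit (⟨a' / a ^ p, h⟩ : A) → r P = r (Fermat.Agent.S15.H362.cuspInfty p)) ∧
        (¬ IsUnit (⟨a' / a ^ p, h⟩ : A) → r P = r (Fermat.Agent.S15.H362.cuspZero p)) := by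
    intro P a a' ha ha' hva
    have h1 : HasVal P (jF Qb p) a := by rw [jF_eq_jBar]; exact Or.inr ha
    have h2 : HasVal P (jdF Qb p (dvd_refl p)) a' := by rw [jdF_eq_jNBar]; exact Or.inr ha'
    exact Fermat.Agent.S15.H722.r_eq_cusp A (IsLocalRing.residue A) p
      (residue_eq_zero_of_not_isUnit A) r hr hzero hpole (dvd_refl p)
      (cusps_of_ord_jF_neg p hp) (ord_jF_neg_of_ord_jdF_neg p hp)
      (hasVal_ratio_cuspInfty p) (hasVal_ratio_cuspZero p hp) h1 h2
      (not_mem_of_one_lt_val A hva)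
  constructor
  · rintro P ⟨a, a', ha, ha', hva, hrel⟩
    obtain ⟨h, -, h0⟩ := key P a a' ha ha' hva
    refine h0 ?_
    rw [ValuationSubring.valuation_eq_one_iff]
    exact ne_of_lt (val_ratio_of_inDiscZero A.valuation hp.two_le hva hrel)
  · rintro P ⟨a, a', ha, ha', hva, hrel⟩
    obtain ⟨h, h1, -⟩ := key P a a' ha ha' hva
    refine h1 ?_
    rw [ValuationSubring.valuation_eq_one_iff]
    exact val_ratio_of_inDiscInfty A.valuation hva hrel

/-- **GEO-PARTS (b) at level `p`**, generic in the reduction inputs: `reductionModL A p` kills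
`discK p A P₀` as soon as the place reduction preserves the zeros and the poles of `j`. -/
theorem killedBy_reductionModL (hp : p.Prime) (A : ValuationSubring Qb)
    (P₀ : Place Qb (FB p)) (hP₀ : IsCuspZero p P₀) (h : ReductionInputsModL A p)
    (hzero : ∀ P : Place Qb (FB p), 0 < P.ord (jF Qb p) →
      0 < (placeReductionModL h P).ord (jFk (IsLocalRing.ResidueField A) p))
    (hpole : ∀ P : Place Qb (FB p), P.ord (jF Qb p) < 0 →
      (placeReductionModL h P).ord (jFk (IsLocalRing.ResidueField A) p) < 0) :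
    KilledBy p A P₀ (reductionModL A p) := by
  obtain ⟨h0, hInf⟩ := placeRed_eq_of_inDisc p hp A (placeReductionModL h)
    (isPlaceReductionModL_placeReductionModL h) hzero hpole
  have hP₀eq : P₀ = Fermat.Agent.S15.H362.cuspZero p := by
    obtain ⟨h1, h2⟩ := hP₀
    have h3 : P₀.ord (Fermat.Agent.S15.H362.jBar p) < 0 := h2
    rcases Fermat.Agent.S15.H362.eq_cusp_of_ord_jBar_neg p hp P₀ h3 with e | e
    · rw [Fermat.Agent.S15.H362.cuspInfty_eq_core] at e
      exact absurd e h1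
    · exact e
  have key : ∀ (P P₁ : Place Qb (FB p)) (z : JZero p),
      placeReductionModL h P = placeReductionModL h P₁ → IsDiffClass P P₁ z →
      reductionModL A p z = 0 := by
    rintro P P₁ z hPP ⟨hd, rfl⟩
    rw [reductionModL_mk h]
    have hz : reductionDegZeroAlong (placeReductionModL h)
        (isPlaceReductionModL_placeReductionModL h).1
        ⟨Finsupp.single P (1 : ℤ) - Finsupp.single P₁ 1, hd⟩ = 0 := by
      apply Subtype.ext
      rw [coe_reductionDegZeroAlong]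
      show Finsupp.mapDomain (placeReductionModL h)
        (Finsupp.single P (1 : ℤ) - Finsupp.single P₁ 1) = 0
      rw [Finsupp.mapDomain_sub, Finsupp.mapDomain_single, Finsupp.mapDomain_single, hPP,
        sub_self]
    rw [hz]
    rfl
  refine killedBy_of_gens ?_ ?_
  · intro P z hP hz
    refine key P P₀ z ?_ hz
    rw [hP₀eq]
    exact h0 P hP
  · intro P z hP hz
    refine key P (_root_.Fermat.Agent.S15.Core.cuspInfty p) z ?_ hz
    rw [← Fermat.Agent.S15.H362.cuspInfty_eq_core]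
    exact hInf P hP

end Ident


/-! ### (b) at level `p`, generic in the reduction inputs -/

section Final

variable (p : ℕ) [NeZero p]

/-- **GEO-PARTS (b) at level `p`**: for `A` over a prime `q ≠ p` and ANY reduction inputs at
level `p`, the reduction map `reductionModL A p` kills `discK p A P₀`. -/
theorem killedBy_reductionModL_of_inputs (hp : p.Prime) {q : ℕ} (hq : q.Prime) (hqp : q ≠ p)
    (A : ValuationSubring Qb) (hA : A.LiesOverPrime q)
    (P₀ : Place Qb (FB p)) (hP₀ : IsCuspZero p P₀) (h : ReductionInputsModL A p) :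
    KilledBy p A P₀ (reductionModL A p) := by
  have hqN : ¬ q ∣ p := fun hd => by
    rcases (Nat.dvd_prime hp).mp hd with h1 | h1
    · exact hq.one_lt.ne' h1
    · exact hqp h1
  obtain ⟨hzero, hpole⟩ := zero_pole_j_of_isPlaceReduction p hq hqN A hA (placeReductionModL h)
    (isPlaceReductionModL_placeReductionModL h)
  exact killedBy_reductionModL p hp A P₀ hP₀ h hzero hpole

end Final

end Fermat.Agent.S15.H962

end

end
-- ===== PACK-END S15/H962/GeoIdent.lean

-- ===== PACK-BEGIN S15/H602/IdentFinal.lean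
section




/-!
# S15 / GEO-PARTS (b) (helper602): the specialisation maps kill the residue discs

* `killedBy_comp_pullback602` : for `k` prime, `k ≠ p`, and `A` with `p k` invertible in the
  residue field, `reductionModL A (p k) ∘ π^*` kills `discK p A P₀`
  (`identLevel602` + `reductionModL_mk` + `pullbackPic0Along_mk`);
* `killedBy_spThree602`, `killedBy_spTwo602` : the maps `H182.spThree`, `H182.spTwo` of helper182
  kill `discK p A P₀` at the places over `3`, resp. `2`;
* `spStatement602` : **(b) of GEO-PARTS**, `SpStatement p` for `p > 5` prime, i.e. exactly the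
  hypothesis `hsp` of `H542.geoParts_of_pieces` / `geoStatement_of_pieces`
  (`q ≥ 5` : helper962's `killedBy_reductionModL_of_inputs`, helper182's `sp_inj_of_five_le`).
-/

set_option autoImplicit false
set_option synthInstance.maxHeartbeats 400000
set_option maxHeartbeats 1000000

noncomputable section

open AlgebraicCurve ModularCurve

namespace Fermat.Agent.S15.H602

open Fermat.Agent.S15.Core Fermat.Agent.S15.H962
open Fermat.Agent.S15.H362 (Qb FB)

section Final

variable (p : ℕ) [NeZero p]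

theorem eq_cuspZero_of_isCuspZero602 (hp : p.Prime) {P₀ : Place Qb (FB p)}
    (hP₀ : IsCuspZero p P₀) : P₀ = Fermat.Agent.S15.H362.cuspZero p := by
  obtain ⟨h1, h2⟩ := hP₀
  have h3 : P₀.ord (Fermat.Agent.S15.H362.jBar p) < 0 := h2
  rcases Fermat.Agent.S15.H362.eq_cusp_of_ord_jBar_neg p hp P₀ h3 with e | e
  · rw [Fermat.Agent.S15.H362.cuspInfty_eq_core] at e
    exact absurd e h1
  · exact e

/-- **Killing at level `p k`.** -/
theorem killedBy_comp_pullback602 (k : ℕ) [NeZero k] (hp : p.Prime) (hp5 : 5 < p)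
    (hk : k.Prime) (hkp : k ≠ p) (A : ValuationSubring Qb)
    (hN : ((p * k : ℕ) : IsLocalRing.ResidueField A) ≠ 0)
    (h : ReductionInputsModL A (p * k))
    (hι : (heckeAlphaBar Qb p k).toRingHom.IsIntegral)
    (hFI : FundamentalIdentityAlong Qb (heckeAlphaBar Qb p k) hι)
    (P₀ : Place Qb (FB p)) (hP₀ : IsCuspZero p P₀) :
    KilledBy p A P₀ ((reductionModL A (p * k)).comp
      (Fermat.Agent.S37.H818.pullbackPic0Along (heckeAlphaBar Qb p k) hι hFI)) := by
  have hP₀eq := eq_cuspZero_of_isCuspZero602 p hp hP₀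
  have key := identLevel602 p hp hp5 k hk hkp A hN (placeReductionModL h)
    (isPlaceReductionModL_placeReductionModL h) hι
  have kill : ∀ (P P₁ : Place Qb (FB p)) (z : JZero p),
      Finsupp.mapDomain (placeReductionModL h)
          (Divisor.pullbackAlong (heckeAlphaBar Qb p k) hι (Finsupp.single P 1)) =
        Finsupp.mapDomain (placeReductionModL h)
          (Divisor.pullbackAlong (heckeAlphaBar Qb p k) hι (Finsupp.single P₁ 1)) →
      IsDiffClass P P₁ z →
      ((reductionModL A (p * k)).comp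
        (Fermat.Agent.S37.H818.pullbackPic0Along (heckeAlphaBar Qb p k) hι hFI)) z = 0 := by
    rintro P P₁ z hPP ⟨hd, rfl⟩
    rw [AddMonoidHom.comp_apply, Fermat.Agent.S37.H818.pullbackPic0Along_mk, reductionModL_mk h]
    have hz : reductionDegZeroAlong (placeReductionModL h)
        (isPlaceReductionModL_placeReductionModL h).1
        (Fermat.Agent.S37.H818.pullbackDegZeroAlong (heckeAlphaBar Qb p k) hι hFI
          ⟨Finsupp.single P (1 : ℤ) - Finsupp.single P₁ 1, hd⟩) = 0 := by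
      apply Subtype.ext
      rw [coe_reductionDegZeroAlong, Fermat.Agent.S37.H818.coe_pullbackDegZeroAlong]
      show Finsupp.mapDomain (placeReductionModL h)
        (Divisor.pullbackAlong (heckeAlphaBar Qb p k) hι
          (Finsupp.single P (1 : ℤ) - Finsupp.single P₁ 1)) = 0
      rw [map_sub, Finsupp.mapDomain_sub, hPP, sub_self]
    rw [hz]
    rfl
  refine killedBy_of_gens ?_ ?_
  · intro P z hP hz
    refine kill P P₀ z ?_ hz
    rw [hP₀eq]
    exact (key P).1 hP
  · intro P z hP hz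
    exact kill P (_root_.Fermat.Agent.S15.Core.cuspInfty p) z ((key P).2 hP) hz

theorem two_three_not_dvd602 (hp : p.Prime) (hp5 : 5 < p) : ¬ 2 ∣ p ∧ ¬ 3 ∣ p := by
  constructor
  · intro h
    have := (Nat.prime_dvd_prime_iff_eq Nat.prime_two hp).mp h
    omega
  · intro h
    have := (Nat.prime_dvd_prime_iff_eq Nat.prime_three hp).mp h
    omega

/-- **(b) at the places over `3`** (level `2 p`). -/
theorem killedBy_spThree602 (hp : p.Prime) (hp5 : 5 < p) (h2 : ¬ 2 ∣ p) (h3 : ¬ 3 ∣ p)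
    (A : ValuationSubring Qb) (hA : A.LiesOverPrime 3)
    (P₀ : Place Qb (FB p)) (hP₀ : IsCuspZero p P₀) :
    KilledBy p A P₀ (Fermat.Agent.S15.H182.spThree p h2 h3 A) := by
  have hN : ((p * 2 : ℕ) : IsLocalRing.ResidueField A) ≠ 0 :=
    Fermat.Agent.S18.H905.natCast_residue_ne_zero A Nat.prime_three hA
      (Fermat.Agent.S15.H182.three_not_dvd_mul_two h3)
  exact killedBy_comp_pullback602 p 2 hp hp5 Nat.prime_two (by omega) A hN
    (Fermat.Agent.S15.H182.rim_three p h3 A hA)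
    (Fermat.Agent.S15.H182.transferThree p h2 h3).isIntegral
    (Fermat.Agent.S15.H182.transferThree p h2 h3).fundamentalIdentity P₀ hP₀

/-- **(b) at the places over `2`** (level `3 p`). -/
theorem killedBy_spTwo602 (hp : p.Prime) (hp5 : 5 < p) (h2 : ¬ 2 ∣ p) (h3 : ¬ 3 ∣ p)
    (A : ValuationSubring Qb) (hA : A.LiesOverPrime 2)
    (P₀ : Place Qb (FB p)) (hP₀ : IsCuspZero p P₀) :
    KilledBy p A P₀ (Fermat.Agent.S15.H182.spTwo p h2 h3 A) := by
  have hN : ((p * 3 : ℕ) : IsLocalRing.ResidueField A) ≠ 0 :=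
    Fermat.Agent.S18.H905.natCast_residue_ne_zero A Nat.prime_two hA
      (Fermat.Agent.S15.H182.two_not_dvd_mul_three h2)
  exact killedBy_comp_pullback602 p 3 hp hp5 Nat.prime_three (by omega) A hN
    (Fermat.Agent.S15.H182.rim_two p h2 A hA)
    (Fermat.Agent.S15.H182.transferTwo p h2 h3).isIntegral
    (Fermat.Agent.S15.H182.transferTwo p h2 h3).fundamentalIdentity P₀ hP₀

/-- **GEO-PARTS (b)**: at every place `A` over a prime `q ≠ p` there is a specialisation map,
injective on the torsion of order prime to `q`, which kills `discK p A P₀`. -/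
theorem spStatement602 (hp : p.Prime) (hp5 : 5 < p) : SpStatement p := by
  intro q hq hqp A hA P₀ hP₀
  obtain ⟨h2, h3⟩ := two_three_not_dvd602 p hp hp5
  by_cases hq5 : 5 ≤ q
  · have hqN : ¬ q ∣ p := fun hd => hqp ((Nat.prime_dvd_prime_iff_eq hq hp).mp hd)
    exact ⟨JZeroC (IsLocalRing.ResidueField A) p, inferInstance, reductionModL A p,
      fun m z hm hmz hz =>
        Fermat.Agent.S15.H182.sp_inj_of_five_le p hq hq5 hqN A hA m z hm hmz hz,
      killedBy_reductionModL_of_inputs p hp hq hqp A hA P₀ hP₀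
        (Fermat.Agent.S15.H182.rim_of_five_le p hq hq5 hqN A hA)⟩
  · have hq23 : q = 2 ∨ q = 3 := by
      have hlt : q < 5 := by omega
      have h2le := hq.two_le
      interval_cases q
      · exact Or.inl rfl
      · exact Or.inr rfl
      · exact absurd hq (by decide)
    rcases hq23 with rfl | rfl
    · exact ⟨JZeroC (IsLocalRing.ResidueField A) (p * 3), inferInstance,
        Fermat.Agent.S15.H182.spTwo p h2 h3 A,
        fun m z hm hmz hz => Fermat.Agent.S15.H182.spTwo_inj p h2 h3 A hA m z hm hmz hz,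
        killedBy_spTwo602 p hp hp5 h2 h3 A hA P₀ hP₀⟩
    · exact ⟨JZeroC (IsLocalRing.ResidueField A) (p * 2), inferInstance,
        Fermat.Agent.S15.H182.spThree p h2 h3 A,
        fun m z hm hmz hz => Fermat.Agent.S15.H182.spThree_inj p h2 h3 A hA m z hm hmz hz,
        killedBy_spThree602 p hp hp5 h2 h3 A hA P₀ hP₀⟩

end Final

end Fermat.Agent.S15.H602

end

end
-- ===== PACK-END S15/H602/IdentFinal.lean

-- ===== PACK-BEGIN S15/H542/GeoD.lean
section






/-!
# S15, node GEO (helper542): the rational class `D = [(P_x) - (0)]` and its residue discs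

* `moduliPlace_of_mult` : the MOD node for a curve with SOME multiplicative prime (not
  necessarily `2`): the place `P_x` with `j(P_x) = j(E)`, `j_p(P_x) = j(E/⟨Q⟩)` exists, is unique
  and Galois-fixed;
* `exists_geoClass` : **the datum `D` of the node GEO**.  For every `W` (`Δ ≠ 0`), every
  Galois-fixed `Q` of prime order `p > 5` and every cusp `0` `P₀` there is a Galois-fixed class
  `D ∈ J₀(p)` such that at EVERY multiplicative place `A ∣ q ≠ p` there is a place `P` with
  `D = [(P) - (P₀)]`, `D + c = [(P) - (∞)]`, `j(P) = a`, `j_p(P) = a'`, `1 < v_A(a)` and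
  - `Q ∉ E⁰(A)` ⟹ `v_A(a') ^ p = v_A(a)`   (`P` is in the residue disc of the cusp `0`),
  - `Q ∈ E⁰(A)` ⟹ `v_A(a') = v_A(a) ^ p`   (`P` is in the residue disc of the cusp `∞`).
-/

set_option autoImplicit false

noncomputable section

open WeierstrassCurve AlgebraicCurve ModularCurve
open scoped WeierstrassCurve.Affine

namespace Fermat.Agent.S15.H542

open Fermat.Agent.S15.H782 Fermat.Agent.S15.H602

/-- **MOD at an arbitrary multiplicative prime**: existence, uniqueness and rationality of the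
moduli place. -/
theorem moduliPlace_of_mult (p : ℕ) [NeZero p] (hp : p.Prime) (hp2 : p ≠ 2)
    (W : WeierstrassCurve ℤ) (hΔ : W.Δ ≠ 0) (Q : (curveBar W).toAffine.Point)
    (hQfix : ∀ σ : AlgebraicClosure ℚ ≃ₐ[ℚ] AlgebraicClosure ℚ, σ • Q = Q)
    (hQord : addOrderOf Q = p)
    {ℓ : ℕ} (hℓ : ℓ.Prime) (hℓΔ : (ℓ : ℤ) ∣ W.Δ) (hℓc₄ : ¬ (ℓ : ℤ) ∣ W.c₄) :
    ∃ P : Place (AlgebraicClosure ℚ) (modularFunctionFieldBar p),
      IsGaloisFixedPlace P ∧
      HasValueAt P (jBar p) (jInv (curveBar W)) ∧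
      HasValueAt P (jNBar p) (jInv (veluCurve (curveBar W) Q p)) ∧
      ∀ P' : Place (AlgebraicClosure ℚ) (modularFunctionFieldBar p),
        HasValueAt P' (jBar p) (jInv (curveBar W)) →
        HasValueAt P' (jNBar p) (jInv (veluCurve (curveBar W) Q p)) → P' = P := by
  obtain ⟨A, hA⟩ := Fermat.Agent.S54.exists_valuationSubring_liesOver ℓ hℓ
  have hv : 1 < A.valuation (jInv (curveBar W)) := one_lt_val_jInv_curveBar hΔ hℓ hℓΔ hℓc₄ hA
  obtain ⟨-, hpair⟩ := Fermat.Agent.S15.H215.veluModularPair p hp hp2 (curveBar W)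
    (Δ_curveBar_ne_zero W hΔ) Q hQord
  obtain ⟨r', hr'⟩ := veluRational p W Q hQfix
  obtain ⟨P, hP1, hP2⟩ := Fermat.Agent.S15.H602.placeOfModularPairStatement p hp _ _ hpair
  have huniq : ∀ P' : Place (AlgebraicClosure ℚ) (modularFunctionFieldBar p),
      HasValueAt P' (jBar p) (jInv (curveBar W)) →
      HasValueAt P' (jNBar p) (jInv (veluCurve (curveBar W) Q p)) → P' = P :=
    fun P' h1 h2 => place_unique_of_one_lt_val p hp A.valuation hv h1 h2 hP1 hP2
  refine ⟨P, ?_, hP1, hP2, huniq⟩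
  intro σ
  apply huniq
  · have hj := jInv_curveBar W
    rw [hj] at hP1 ⊢
    exact hasValueAt_smul_of_rational σ P (jBar p) jq rfl _ hP1
  · rw [← hr'] at hP2 ⊢
    exact hasValueAt_smul_of_rational σ P (jNBar p) (qExpand ℚ p jq) rfl _ hP2

/-- `[(P) - (P₀)] + [(P₀) - (∞)] = [(P) - (∞)]`. -/
theorem isDiffClass_add {N : ℕ} [NeZero N]
    {P P₀ Pi : Place (AlgebraicClosure ℚ) (modularFunctionFieldBar N)} {D c : JZero N}
    (hD : Fermat.Agent.S15.Core.IsDiffClass P P₀ D)
    (hc : Fermat.Agent.S15.Core.IsDiffClass P₀ Pi c) :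
    Fermat.Agent.S15.Core.IsDiffClass P Pi (D + c) := by
  obtain ⟨h1, rfl⟩ := hD
  obtain ⟨h2, rfl⟩ := hc
  have h3 : (Finsupp.single P (1 : ℤ) - Finsupp.single Pi (1 : ℤ) :
      Divisor (AlgebraicClosure ℚ) (modularFunctionFieldBar N)) ∈
        Divisor.degZero (K := AlgebraicClosure ℚ) (F := modularFunctionFieldBar N) := by
    have := (Divisor.degZero (K := AlgebraicClosure ℚ) (F := modularFunctionFieldBar N)).add_mem
      h1 h2
    simpa using this
  refine ⟨h3, ?_⟩
  rw [← Pic0.mk_add]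
  congr 1
  apply Subtype.ext
  simp

/-- **The datum `D` of the node GEO**, with its residue discs. -/
theorem exists_geoClass (p : ℕ) [NeZero p] (hp : p.Prime) (hp5 : 5 < p)
    (W : WeierstrassCurve ℤ) (hΔ : W.Δ ≠ 0) (Q : (curveBar W).toAffine.Point)
    (hQfix : ∀ σ : AlgebraicClosure ℚ ≃ₐ[ℚ] AlgebraicClosure ℚ, σ • Q = Q)
    (hQord : addOrderOf Q = p)
    (P₀ : Place (AlgebraicClosure ℚ) (modularFunctionFieldBar p))
    (hP₀ : Fermat.Agent.S15.Core.IsCuspZero p P₀) :
    ∃ D : JZero p, (∀ σ : AlgebraicClosure ℚ ≃ₐ[ℚ] AlgebraicClosure ℚ, σ • D = D) ∧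
      ∀ q : ℕ, q.Prime → q ≠ p → (q : ℤ) ∣ W.Δ → ¬ (q : ℤ) ∣ W.c₄ →
      ∀ A : ValuationSubring (AlgebraicClosure ℚ), A.LiesOverPrime q →
      ∃ P : Place (AlgebraicClosure ℚ) (modularFunctionFieldBar p),
        Fermat.Agent.S15.Core.IsDiffClass P P₀ D ∧
        HasValueAt P (jBar p) (jInv (curveBar W)) ∧
        HasValueAt P (jNBar p) (jInv (veluCurve (curveBar W) Q p)) ∧
        1 < A.valuation (jInv (curveBar W)) ∧
        (¬ W.InZeroComponentAt A Q →
          A.valuation (jInv (veluCurve (curveBar W) Q p)) ^ p =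
            A.valuation (jInv (curveBar W))) ∧
        (W.InZeroComponentAt A Q →
          A.valuation (jInv (veluCurve (curveBar W) Q p)) =
            A.valuation (jInv (curveBar W)) ^ p) := by
  have hp2 : p ≠ 2 := by omega
  by_cases hex : ∃ ℓ : ℕ, ℓ.Prime ∧ (ℓ : ℤ) ∣ W.Δ ∧ ¬ (ℓ : ℤ) ∣ W.c₄
  · obtain ⟨ℓ, hℓ, hℓΔ, hℓc₄⟩ := hex
    obtain ⟨P, hPfix, hP1, hP2, -⟩ :=
      moduliPlace_of_mult p hp hp2 W hΔ Q hQfix hQord hℓ hℓΔ hℓc₄
    have hP₀eq : P₀ = Fermat.Agent.S15.H362.cuspZero p :=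
      Fermat.Agent.S15.H482.IsCuspZero.eq_cuspZero p hp hP₀
    have hdeg : P.deg = P₀.deg := by
      rw [Fermat.Agent.Lib.FF398.deg_eq_one_FF p P, Fermat.Agent.Lib.FF398.deg_eq_one_FF p P₀]
    refine ⟨ptClass P P₀ hdeg, ?_, ?_⟩
    · intro σ
      refine galois_smul_ptClass_eq_self (modularFunctionFieldFull p) σ hdeg (hPfix σ) ?_
      rw [hP₀eq]
      exact Fermat.Agent.S15.H362.galois_smul_cuspZero p σ
    · intro q hq hqp hqΔ hqc₄ A hA
      exact ⟨P, ⟨single_sub_single_mem_degZero hdeg, rfl⟩, hP1, hP2,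
        one_lt_val_jInv_curveBar hΔ hq hqΔ hqc₄ hA,
        fun hQ0 => val_jInv_velu_of_not_inZeroComponentAt hp hp5 hΔ hQord hq hqp hqΔ hqc₄ hA hQ0,
        fun hQ0 => val_jInv_velu_of_inZeroComponentAt hp hp5 hΔ hQord hq hqp hqΔ hqc₄ hA hQ0⟩
  · refine ⟨0, fun σ => smul_zero (A := JZero p) σ, ?_⟩
    intro q hq _ hqΔ hqc₄
    exact absurd ⟨q, hq, hqΔ, hqc₄⟩ hex

end Fermat.Agent.S15.H542

end
end
-- ===== PACK-END S15/H542/GeoD.lean

-- ===== PACK-BEGIN S15/H542/GeoDisc.lean
section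




/-!
# S15, node GEO-PARTS, leaf (c) = DISC (helper542), on helper962's frozen `discK`

* `geoDisc` : for every `W` (`Δ ≠ 0`), Galois-fixed `Q` of prime order `p > 5`, cusp `0` `P₀` and
  `c = [(P₀) - (∞)]` there is a Galois-fixed `D ∈ J₀(p)` with, at every multiplicative place
  `A ∣ q ≠ p`:  `Q ∉ E⁰(A) → D ∈ discK p A P₀`  and  `Q ∈ E⁰(A) → D + c ∈ discK p A P₀`.
* `geoParts_of_pieces` : `GeoPartsStatement p` from (a) `PropagationStatement p` and, at each
  multiplicative place, a specialisation map injective on prime-to-`q` torsion which kills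
  `discK` ((b) + GE-2 (i)).
* `geoStatement_of_pieces` : the node `Core.GeoStatement p` from the same.
-/

set_option autoImplicit false

noncomputable section

open WeierstrassCurve AlgebraicCurve ModularCurve
open scoped WeierstrassCurve.Affine

namespace Fermat.Agent.S15.H542

open Fermat.Agent.S15.Core Fermat.Agent.S15.H962

/-- **GEO-PARTS (c), DISC.** -/
theorem geoDisc (p : ℕ) [NeZero p] (hp : p.Prime) (hp5 : 5 < p)
    (W : WeierstrassCurve ℤ) (hΔ : W.Δ ≠ 0)
    (Q : ((W.map (Int.castRingHom ℚ))⁄(AlgebraicClosure ℚ)).Point)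
    (hQfix : ∀ σ : AlgebraicClosure ℚ ≃ₐ[ℚ] AlgebraicClosure ℚ, σ • Q = Q)
    (hQord : addOrderOf Q = p)
    (P₀ : Place (AlgebraicClosure ℚ) (modularFunctionFieldBar p)) (c : JZero p)
    (hP₀ : IsCuspZero p P₀) (hc : IsDiffClass P₀ (cuspInfty p) c) :
    ∃ D : JZero p, (∀ σ : AlgebraicClosure ℚ ≃ₐ[ℚ] AlgebraicClosure ℚ, σ • D = D) ∧
      ∀ q : ℕ, q.Prime → q ≠ p → (q : ℤ) ∣ W.Δ → ¬ (q : ℤ) ∣ W.c₄ →
      ∀ A : ValuationSubring (AlgebraicClosure ℚ), A.LiesOverPrime q →
        (¬ W.InZeroComponentAt A Q → D ∈ discK p A P₀) ∧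
        (W.InZeroComponentAt A Q → D + c ∈ discK p A P₀) := by
  obtain ⟨D, hDfix, hD⟩ := exists_geoClass p hp hp5 W hΔ Q hQfix hQord P₀ hP₀
  refine ⟨D, hDfix, fun q hq hqp hqΔ hqc₄ A hA => ?_⟩
  obtain ⟨P, hPD, hP1, hP2, hv, h0, hInf⟩ := hD q hq hqp hqΔ hqc₄ A hA
  constructor
  · intro hQ0
    exact mem_discK_of_inDiscZero ⟨_, _, hP1, hP2, hv, h0 hQ0⟩ hPD
  · intro hQ0
    exact mem_discK_of_inDiscInfty ⟨_, _, hP1, hP2, hv, hInf hQ0⟩ (isDiffClass_add hPD hc)

/-- **GEO-PARTS from (a) PROPAGATION and (b) IDENT + GE-2 (i)** ((c) DISC is `geoDisc`). -/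
theorem geoParts_of_pieces (p : ℕ) [NeZero p] (hp : p.Prime) (hp5 : 5 < p)
    (hprop : PropagationStatement p)
    (hsp : ∀ q : ℕ, q.Prime → q ≠ p →
      ∀ A : ValuationSubring (AlgebraicClosure ℚ), A.LiesOverPrime q →
      ∀ P₀ : Place (AlgebraicClosure ℚ) (modularFunctionFieldBar p), IsCuspZero p P₀ →
      ∃ (X : Type) (_ : AddCommGroup X) (sp₀ : JZero p →+ X),
        (∀ (m : ℕ) (z : JZero p), ¬ q ∣ m → m • z = 0 → sp₀ z = 0 → z = 0) ∧
        KilledBy p A P₀ sp₀) :
    GeoPartsStatement p := by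
  intro W hΔ Q hQfix hQord P₀ c hP₀ hc
  obtain ⟨D, hDfix, hD⟩ := geoDisc p hp hp5 W hΔ Q hQfix hQord P₀ c hP₀ hc
  refine ⟨D, hDfix, fun q hq hqp hqΔ hqc₄ A hA => ?_⟩
  obtain ⟨X, instX, sp₀, hinj, hkill⟩ := hsp q hq hqp A hA P₀ hP₀
  obtain ⟨h0, hInf⟩ := hD q hq hqp hqΔ hqc₄ A hA
  exact ⟨X, instX, sp₀, discK p A P₀, hinj,
    goodHecke_stable_of_propagation p hprop hp A P₀ hP₀ {q}, hkill, h0, hInf⟩

/-- **The node GEO from (a) and (b) + GE-2 (i).** -/
theorem geoStatement_of_pieces (p : ℕ) [NeZero p] (hp : p.Prime) (hp5 : 5 < p)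
    (hprop : PropagationStatement p)
    (hsp : ∀ q : ℕ, q.Prime → q ≠ p →
      ∀ A : ValuationSubring (AlgebraicClosure ℚ), A.LiesOverPrime q →
      ∀ P₀ : Place (AlgebraicClosure ℚ) (modularFunctionFieldBar p), IsCuspZero p P₀ →
      ∃ (X : Type) (_ : AddCommGroup X) (sp₀ : JZero p →+ X),
        (∀ (m : ℕ) (z : JZero p), ¬ q ∣ m → m • z = 0 → sp₀ z = 0 → z = 0) ∧
        KilledBy p A P₀ sp₀) :
    _root_.Fermat.Agent.S15.Core.GeoStatement p :=
  geoStatement_of_geoParts p (geoParts_of_pieces p hp hp5 hprop hsp)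

end Fermat.Agent.S15.H542

end
end
-- ===== PACK-END S15/H542/GeoDisc.lean

-- ===== PACK-BEGIN S15/H602/GeoFinal.lean
section




/-!
# S15, node GEO: CLOSED (helper602, assembly of helper542's DISC, helper962's PROPAGATION and
IDENT at level `p`, helper182's RED and helper602's IDENT at the levels `2 p`, `3 p`)

* `geoStatement602 p hp hp5 : Core.GeoStatement p` for every prime `p > 5`;
* `geoStatement_all602` : the hypothesis `hGeo` of `H975.S15_of_geo_sel`, verbatim.
-/

set_option autoImplicit false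

noncomputable section

namespace Fermat.Agent.S15.H602

/-- **The node GEO** for every prime `p > 5`. -/
theorem geoStatement602 (p : ℕ) [NeZero p] (hp : p.Prime) (hp5 : 5 < p) :
    Fermat.Agent.S15.Core.GeoStatement p :=
  Fermat.Agent.S15.H542.geoStatement_of_pieces p hp hp5 (Fermat.Agent.S15.H962.propagation p)
    (spStatement602 p hp hp5)

/-- **The node GEO**, in the form consumed by `H975.S15_of_geo_sel`. -/
theorem geoStatement_all602 :
    ∀ (p : ℕ) [NeZero p], p.Prime → p ∉ ({2, 3, 5, 7, 13} : Finset ℕ) →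
      Fermat.Agent.S15.Core.GeoStatement p := by
  intro p _ hp hp'
  refine geoStatement602 p hp ?_
  have h2 : p ≠ 2 := fun h => hp' (by simp [h])
  have h3 : p ≠ 3 := fun h => hp' (by simp [h])
  have h5 : p ≠ 5 := fun h => hp' (by simp [h])
  have h4 : p ≠ 4 := fun h => by rw [h] at hp; exact absurd hp (by decide)
  have := hp.two_le
  omega

end Fermat.Agent.S15.H602

end

end
-- ===== PACK-END S15/H602/GeoFinal.lean

-- ===== PACK-BEGIN S15/H322/Step.lean
section




/-!
# Row S15 — DESC leaf STEP (helper322): the step bounds for all Eisenstein pieces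

Frozen target: `Fermat.Agent.S15.H975.StepStatement` (`S15/H975/DescSpec2.lean`).

    step_of_leaves : G3Statement → Peu1JStatement → PeuOmegaJStatement → StepStatement

`K = (c - 1) Y(W_E)` (`c` complex conjugation), `U₀ = (τ₀ - 1) Y(W_E)`, `τ₀` a good inertia
element at `p` (`StepTau.lean`).  For a piece `F' ≤ F ≤ W_E` with generator `e`, `y ∈ Y(F)` has a
coordinate `f_y : G_ℚ → ℤ/r`, `σ y - y ≡ f_y(σ) e mod F'` (`StepCoord.lean`), and

* `f_y = 0` on inertia at `ℓ ∤ p r`                         (G3);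
* piece `1`, `r` odd: `f_y` is a character, `f_y = 0` on inertia at `r`        (PEU-1);
* piece `ω` (all pieces if `r = 2`): `f_y` is a Kummer cocycle, `r ∣ v_r(a_y)`  (PEU-ω);
* `F ∩ U₀ ≤ F'` ⟹ `f_y(τ₀) = 0`;   `F ∩ K ≤ F'` ⟹ `f_y(c) = 0` (`a_y > 0` for `r = 2`).

The counts are those of `BasePiece.lean` (`r` odd) and `BasePieceTwo.lean` (`r = 2`).
-/

set_option autoImplicit false
set_option linter.unusedSectionVars false
set_option linter.style.haveILetI false

namespace Fermat.Agent.S15.H322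

open Fermat.Agent.S56 Fermat.Agent.S56.H786 ModularCurve
open Fermat.Agent.S15.H975 hiding Qb

section Local

variable {p : ℕ} [NeZero p] {S : Set ℕ} {r : ℕ} {F' F : AddSubgroup (JZero p)} {e : JZero p}

/-- Complex conjugation inverts the roots of unity. -/
theorem complexConjugation_root_h322 {m : ℕ} (hm : m ≠ 0) {t : _root_.Fermat.Agent.S56.Qb} (ht : t ^ m = 1) :
    complexConjugation t = t⁻¹ := by
  apply complexEmbedding.toRingHom.injective
  show complexEmbedding (complexConjugation t) = complexEmbedding t⁻¹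
  rw [complexEmbedding_complexConjugation, map_inv₀]
  have h1 : (complexEmbedding t) ^ m = 1 := by rw [← map_pow, ht, map_one]
  exact (Complex.inv_eq_conj (Complex.norm_eq_one_of_pow_eq_one h1 hm)).symm

/-- G3: the coordinate vanishes on inertia at `ℓ ∤ p r`. -/
theorem coord_unram_of_g3 (hG3 : G3Statement) (hp : p.Prime) (hr : r.Prime)
    (he : e ∉ F') (hre : r • e ∈ F') {y : JZero p} (hy : y ∈ sel p r F)
    {f : GQ → ZMod r} (hf : HasCoord r F' e y f) {ℓ : ℕ} (hℓ : ℓ.Prime) (hℓp : ℓ ≠ p)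
    (hℓr : ℓ ≠ r) (B : ValuationSubring _root_.Fermat.Agent.S56.Qb) (hB : B.LiesOverPrime ℓ) (τ : GQ)
    (hτ : τ ∈ B.inertiaSubgroupIn ℚ) : f τ = 0 := by
  have h1 : τ • y = y := hG3 p hp r hr ℓ hℓ hℓp hℓr B hB τ hτ y (hy.1 τ)
  refine hf.eq_zero_of_sub_mem hr he hre ?_
  rw [h1, sub_self]
  exact F'.zero_mem

/-- G3: the local condition at `ℓ ∤ p r`, Kummer form. -/
theorem coord_kumDivAt_of_g3 (hG3 : G3Statement) (hp : p.Prime) (hr : r.Prime)
    (he : e ∉ F') (hre : r • e ∈ F') {y : JZero p} (hy : y ∈ sel p r F)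
    {f : GQ → ZMod r} (hf : HasCoord r F' e y f) {ζ : _root_.Fermat.Agent.S56.Qb} (hζ : IsPrimitiveRoot ζ r)
    {ℓ : ℕ} (hℓ : ℓ.Prime) (hℓp : ℓ ≠ p) (hℓr : ℓ ≠ r) : KumDivAt r ζ f ℓ := by
  haveI : NeZero r := ⟨hr.ne_zero⟩
  obtain ⟨B, hB⟩ := Fermat.Agent.S54.exists_valuationSubring_liesOver ℓ hℓ
  exact kumDivAt_of_unram hζ hℓ B hB
    (fun τ hτ => coord_unram_of_g3 hG3 hp hr he hre hy hf hℓ hℓp hℓr B hB τ hτ)

/-- PEU-ω: the local condition at `ℓ = r`. -/
theorem coord_kumDivAt_of_peu (hPw : PeuOmegaJStatement) (hp : p.Prime) (hr : r.Prime)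
    (hrp : r ≠ p) (hle : F' ≤ F) (hFt : F ≤ tors p r) (hst' : IsStable p F')
    (hst : IsStable p F) (hidx : F'.relIndex F = r) {ζ : _root_.Fermat.Agent.S56.Qb} (hζ : IsPrimitiveRoot ζ r)
    (hω : ∀ (σ : _root_.Fermat.Agent.S15.H975.Gal) (k : ℕ), σ ζ = ζ ^ k → ∀ f ∈ F, σ • f - k • f ∈ F')
    (heF : e ∈ F) (he : e ∉ F') (hre : r • e ∈ F') {y : JZero p} (hy : y ∈ sel p r F)
    {f : GQ → ZMod r} (hf : HasCoord r F' e y f) : KumDivAt r ζ f r := by
  haveI : NeZero r := ⟨hr.ne_zero⟩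
  intro β a hβ hβa
  have ha : a ≠ 0 := by
    rintro rfl
    rw [Rat.cast_zero] at hβa
    exact hβ.1 (pow_eq_zero_iff hr.ne_zero |>.mp hβa)
  refine hPw p hp r hr hrp F' F hle hFt hst' hst hidx ζ hζ hω e heF he y hy a β ha
    (by rw [hβa, eq_ratCast]) (fun σ m hσm => ?_)
  -- `ζ ^ m = ζ ^ f(σ)`
  have h1 : zp ζ ((m : ℕ) : ZMod r) * β = zp ζ (f σ) * β := by
    rw [zp_natCast hζ.pow_eq_one, ← hσm, hβ.2 σ]
  have h2 : ((m : ℕ) : ZMod r) = f σ := zp_injective hζ (mul_right_cancel₀ hβ.1 h1)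
  have h3 := val_smul_sub_zsmul_mem hr he hre (f σ) (m : ℤ) (by push_cast; exact h2)
  have h4 : σ • y - y - m • e = (σ • y - y - (f σ).val • e) + ((f σ).val • e - (m : ℤ) • e) := by
    rw [natCast_zsmul]; abel
  rw [h4]
  exact F'.add_mem (hf σ) h3

/-- The coordinate vanishes at `g` when the piece does not meet `(g - 1) Y(W_E)`. -/
theorem coord_eq_zero_of_inf_le (hr : r.Prime) (hF : F ≤ eis p S r)
    (he : e ∉ F') (hre : r • e ∈ F') {g : _root_.Fermat.Agent.S15.H975.Gal} (hg : F ⊓ cocImage p S r g ≤ F')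
    {y : JZero p} (hy : y ∈ sel p r F) {f : GQ → ZMod r} (hf : HasCoord r F' e y f) :
    f g = 0 := by
  refine hf.eq_zero_of_sub_mem hr he hre (hg ⟨hy.2 g, ?_⟩)
  exact mem_cocImage.mpr ⟨y, sel_mono r hF hy, rfl⟩

end Local

section Cases

variable {p : ℕ} [NeZero p] {S : Set ℕ} {r : ℕ} {F' F : AddSubgroup (JZero p)}

/-- **Pieces with trivial action, `r` odd.** -/
theorem stepBound_triv_odd (hG3 : G3Statement) (hP1 : Peu1JStatement)
    (hp : p.Prime) (hr : r.Prime) (hr2 : r ≠ 2) (hrp : r ≠ p)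
    {τ₀ : _root_.Fermat.Agent.S15.H975.Gal} (hgood : IsGoodTau p r τ₀) (K : AddSubgroup (JZero p))
    (hF : F ≤ eis p S r) (hle : F' ≤ F) (hst' : IsStable p F') (hst : IsStable p F)
    (hidx : F'.relIndex F = r) (htriv : ∀ σ : _root_.Fermat.Agent.S15.H975.Gal, ∀ f ∈ F, σ • f - f ∈ F') :
    StepBound p r K (cocImage p S r τ₀) F' F := by
  haveI : NeZero r := ⟨hr.ne_zero⟩
  have hFt : F ≤ tors p r := hF.trans (eis_le_tors_h322 S r)
  obtain ⟨e, heF, he⟩ := exists_gen_of_relIndex hr hidx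
  have hre : r • e ∈ F' := by
    rw [mem_tors_iff.mp (hFt heF)]; exact F'.zero_mem
  have hact : ∀ σ : GQ, σ • e - e ∈ F' := fun σ => htriv σ e heF
  have hstab : ∀ σ : GQ, ∀ x ∈ F', σ • x ∈ F' := hst'
  -- the local conditions away from `p`
  have hY : ∀ y ∈ sel p r F, ∃ f : GQ → ZMod r, HasCoord r F' e y f ∧ HasLevel y ∧
      ∀ ℓ : ℕ, ℓ.Prime → ℓ ≠ p → ∃ B : ValuationSubring _root_.Fermat.Agent.S56.Qb,
        B.LiesOverPrime ℓ ∧ ∀ σ ∈ B.inertiaSubgroupIn ℚ, f σ = 0 := by
    intro y hy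
    obtain ⟨f, hf⟩ := exists_hasCoord hr hidx heF he hre hy
    refine ⟨f, hf, hasLevel_jzero y, fun ℓ hℓ hℓp => ?_⟩
    obtain ⟨B, hB⟩ := Fermat.Agent.S54.exists_valuationSubring_liesOver ℓ hℓ
    refine ⟨B, hB, fun τ hτ => ?_⟩
    by_cases hℓr : ℓ = r
    · subst hℓr
      exact hf.eq_zero_of_sub_mem hr he hre
        (hP1 p hp ℓ hr hrp hr2 B hB τ hτ F' F hle hFt hst' hst hidx htriv y hy)
    · exact coord_unram_of_g3 hG3 hp hr he hre hy hf hℓ hℓp hℓr B hB τ hτ
  have hH : ∀ w ∈ sel p r F, KumIn F' w → w ∈ sel p r F' ⊔ F :=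
    fun w hw hk => mem_sup_of_kumIn hw hk
  have hs : selIndex p r F' F ≠ 0 ∧ selIndex p r F' F ≤ r :=
    piece_relIndex_le_triv hp hr hrp hstab he hre hact (sel p r F) (sel p r F' ⊔ F) hY hH
  have hs1 : F ⊓ cocImage p S r τ₀ ≤ F' → selIndex p r F' F = 1 := by
    intro hU
    refine selIndex_eq_one_of_le (fun y hy => ?_)
    obtain ⟨f, hf, hl, hunr⟩ := hY y hy
    have hchar := hf.isCharUnrOutside hr hstab he hre hact hl hunr
    have h0 : ∀ σ, f σ = 0 :=
      hgood.char f hchar (coord_eq_zero_of_inf_le hr hF he hre hU hy hf)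
    exact hH y hy (hf.kumIn_of_eq_zero h0)
  have hg : fixIndex p r F' F = r := fixIndex_eq_of_triv hFt hidx htriv
  refine ⟨hs.1, fun _ hU => ?_, fun _ _ => ?_, fun _ hU => ?_, fun _ _ => ?_⟩
  · rw [hs1 hU, hg, one_mul]
  · rw [hg]; exact hs.2
  · rw [hs1 hU, hg]; exact hr.one_le
  · rw [hg]
    exact hs.2.trans (Nat.le_mul_of_pos_left r hr.pos)

/-- **Pieces of type `ω`, `r` odd.** -/
theorem stepBound_tw_odd (hG3 : G3Statement) (hPw : PeuOmegaJStatement)
    (hp : p.Prime) (hr : r.Prime) (hr2 : r ≠ 2) (hrp : r ≠ p)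
    {τ₀ : _root_.Fermat.Agent.S15.H975.Gal} (hgood : IsGoodTau p r τ₀)
    (hF : F ≤ eis p S r) (hle : F' ≤ F) (hst' : IsStable p F') (hst : IsStable p F)
    (hidx : F'.relIndex F = r) {ζ : _root_.Fermat.Agent.S56.Qb} (hζ : IsPrimitiveRoot ζ r)
    (hω : ∀ (σ : _root_.Fermat.Agent.S15.H975.Gal) (k : ℕ), σ ζ = ζ ^ k → ∀ f ∈ F, σ • f - k • f ∈ F') :
    StepBound p r (cocImage p S r complexConjugation) (cocImage p S r τ₀) F' F := by
  haveI : NeZero r := ⟨hr.ne_zero⟩
  have hFt : F ≤ tors p r := hF.trans (eis_le_tors_h322 S r)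
  obtain ⟨e, heF, he⟩ := exists_gen_of_relIndex hr hidx
  have hre : r • e ∈ F' := by
    rw [mem_tors_iff.mp (hFt heF)]; exact F'.zero_mem
  have hact : ∀ σ : GQ, ∀ a : ℕ, IsCycExp r σ a → σ • e - a • e ∈ F' :=
    fun σ a ha => hω σ a (ha ζ hζ.pow_eq_one) e heF
  have hstab : ∀ σ : GQ, ∀ x ∈ F', σ • x ∈ F' := hst'
  have heY : e ∈ sel p r F := le_sel_of_stable hst hFt heF
  have heH : e ∈ sel p r F' ⊔ F := AddSubgroup.mem_sup_right heF
  -- the piece meets `K`
  have hnotK : ¬ F ⊓ cocImage p S r complexConjugation ≤ F' := by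
    intro hK
    have h1 : complexConjugation • e - e ∈ F' :=
      hK ⟨F.sub_mem (hst _ e heF) heF, mem_cocImage.mpr ⟨e, sel_mono r hF heY, rfl⟩⟩
    have hcζ : complexConjugation ζ = ζ ^ (r - 1) := by
      rw [complexConjugation_root_h322 hr.ne_zero hζ.pow_eq_one]
      have hζ0 : ζ ≠ 0 := hζ.ne_zero hr.ne_zero
      apply mul_left_cancel₀ hζ0
      rw [mul_inv_cancel₀ hζ0, ← pow_succ', Nat.sub_add_cancel hr.pos, hζ.pow_eq_one]
    have h2 := hω complexConjugation (r - 1) hcζ e heF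
    have h3 : ((r : ℤ) - 2) • e ∈ F' := by
      have e1 : ((r : ℤ) - 2) • e =
          (complexConjugation • e - e) - (complexConjugation • e - (r - 1) • e) := by
        have e2 : ((r - 1 : ℕ) : ℤ) = (r : ℤ) - 1 := by
          rw [Nat.cast_sub hr.one_le]; simp
        rw [← natCast_zsmul e (r - 1), e2]
        generalize complexConjugation • e = E1
        module
      rw [e1]
      exact F'.sub_mem h1 h2
    rw [zsmul_mem_iff hr he hre] at h3
    push_cast at h3
    rw [ZMod.natCast_self, zero_sub, neg_eq_zero] at h3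
    have h4 : ((2 : ℕ) : ZMod r) = 0 := by exact_mod_cast h3
    rw [ZMod.natCast_eq_zero_iff] at h4
    exact hr2 ((Nat.prime_dvd_prime_iff_eq hr Nat.prime_two).mp h4)
  -- the local conditions away from `p`
  have hY : ∀ y ∈ sel p r F, ∃ f : GQ → ZMod r, HasCoord r F' e y f ∧ HasLevel y ∧
      ∀ ℓ : ℕ, ℓ.Prime → ℓ ≠ p → KumDivAt r ζ f ℓ := by
    intro y hy
    obtain ⟨f, hf⟩ := exists_hasCoord hr hidx heF he hre hy
    refine ⟨f, hf, hasLevel_jzero y, fun ℓ hℓ hℓp => ?_⟩
    by_cases hℓr : ℓ = r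
    · subst hℓr
      exact coord_kumDivAt_of_peu hPw hp hr hrp hle hFt hst' hst hidx hζ hω heF he hre hy hf
    · exact coord_kumDivAt_of_g3 hG3 hp hr he hre hy hf hζ hℓ hℓp hℓr
  have hH : ∀ w ∈ sel p r F, KumIn F' w → w ∈ sel p r F' ⊔ F :=
    fun w hw hk => mem_sup_of_kumIn hw hk
  have hs : selIndex p r F' F ≠ 0 ∧ selIndex p r F' F ≤ r :=
    piece_relIndex_le_tw hp hr hr2 hζ hstab he hre hact (sel p r F) (sel p r F' ⊔ F)
      heY heH hY hH
  have hs1 : F ⊓ cocImage p S r τ₀ ≤ F' → selIndex p r F' F = 1 := by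
    intro hU
    refine selIndex_eq_one_of_le ?_
    refine piece_le_tw hr hr2 hζ hstab he hre hact (sel p r F) (sel p r F' ⊔ F) heY heH
      (fun y hy => ?_) hH
    obtain ⟨f, hf, hl, hd⟩ := hY y hy
    refine ⟨f, hf, hl, fun ℓ hℓ => ?_⟩
    by_cases hℓp : ℓ = p
    · subst hℓp
      exact hgood.kum ζ hζ f (coord_eq_zero_of_inf_le hr hF he hre hU hy hf)
    · exact hd ℓ hℓ hℓp
  have hg : 1 ≤ fixIndex p r F' F := fixIndex_pos hr hle hst' hFt hidx
  refine ⟨hs.1, fun hK _ => absurd hK hnotK, fun hK _ => absurd hK hnotK,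
    fun _ hU => ?_, fun _ _ => ?_⟩
  · rw [hs1 hU]; exact hg
  · exact hs.2.trans (Nat.le_mul_of_pos_right r hg)

/-- **All pieces, `r = 2`.** -/
theorem stepBound_two (hG3 : G3Statement) (hPw : PeuOmegaJStatement)
    (hp : p.Prime) (hp2 : 2 ≠ p)
    {τ₀ : _root_.Fermat.Agent.S15.H975.Gal} (hgood : IsGoodTau p 2 τ₀)
    (hF : F ≤ eis p S 2) (hle : F' ≤ F) (hst' : IsStable p F') (hst : IsStable p F)
    (hidx : F'.relIndex F = 2) (htriv : ∀ σ : _root_.Fermat.Agent.S15.H975.Gal, ∀ f ∈ F, σ • f - f ∈ F') :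
    StepBound p 2 (cocImage p S 2 complexConjugation) (cocImage p S 2 τ₀) F' F := by
  have hr : (2 : ℕ).Prime := Nat.prime_two
  have hFt : F ≤ tors p 2 := hF.trans (eis_le_tors_h322 S 2)
  obtain ⟨e, heF, he⟩ := exists_gen_of_relIndex hr hidx
  have hre : 2 • e ∈ F' := by
    rw [mem_tors_iff.mp (hFt heF)]; exact F'.zero_mem
  have hact : ∀ σ : GQ, σ • e - e ∈ F' := fun σ => htriv σ e heF
  have hstab : ∀ σ : GQ, ∀ x ∈ F', σ • x ∈ F' := hst'
  -- the primitive square root of unity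
  have hζ : IsPrimitiveRoot (-1 : _root_.Fermat.Agent.S56.Qb) 2 := IsPrimitiveRoot.neg_one 0 (by norm_num)
  have hω : ∀ (σ : _root_.Fermat.Agent.S15.H975.Gal) (k : ℕ), σ (-1 : _root_.Fermat.Agent.S56.Qb) = (-1 : _root_.Fermat.Agent.S56.Qb) ^ k → ∀ f ∈ F, σ • f - k • f ∈ F' := by
    intro σ k hk f hf
    have hodd : Odd k := by
      rw [map_neg, map_one] at hk
      by_contra hnot
      rw [Nat.not_odd_iff_even] at hnot
      rw [hnot.neg_one_pow] at hk
      norm_num at hk
    obtain ⟨j, rfl⟩ := hodd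
    have h2f : 2 • f = 0 := mem_tors_iff.mp (hFt hf)
    have e1 : σ • f - (2 * j + 1) • f = σ • f - f := by
      rw [add_smul, one_smul, mul_comm, mul_smul, h2f, smul_zero, zero_add]
    rw [e1]
    exact htriv σ f hf
  -- the local conditions away from `p`
  have hY : ∀ y ∈ sel p 2 F, ∃ f : GQ → ZMod 2, HasCoord 2 F' e y f ∧ HasLevel y ∧
      ∀ ℓ : ℕ, ℓ.Prime → ℓ ≠ p → KumDivAt 2 (-1 : _root_.Fermat.Agent.S56.Qb) f ℓ := by
    intro y hy
    obtain ⟨f, hf⟩ := exists_hasCoord hr hidx heF he hre hy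
    refine ⟨f, hf, hasLevel_jzero y, fun ℓ hℓ hℓp => ?_⟩
    by_cases hℓr : ℓ = 2
    · subst hℓr
      exact coord_kumDivAt_of_peu hPw hp hr hp2 hle hFt hst' hst hidx hζ hω heF he hre hy hf
    · exact coord_kumDivAt_of_g3 hG3 hp hr he hre hy hf hζ hℓ hℓp hℓr
  have hH : ∀ w ∈ sel p 2 F, KumIn F' w → w ∈ sel p 2 F' ⊔ F :=
    fun w hw hk => mem_sup_of_kumIn hw hk
  -- the local condition at `p`
  have hYp : F ⊓ cocImage p S 2 τ₀ ≤ F' → ∀ y ∈ sel p 2 F, ∀ f : GQ → ZMod 2,
      HasCoord 2 F' e y f → KumDivAt 2 (-1 : _root_.Fermat.Agent.S56.Qb) f p :=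
    fun hU y hy f hf => hgood.kum _ hζ f (coord_eq_zero_of_inf_le hr hF he hre hU hy hf)
  -- the condition at the real place
  have hYc : F ⊓ cocImage p S 2 complexConjugation ≤ F' → ∀ y ∈ sel p 2 F,
      ∀ f : GQ → ZMod 2, HasCoord 2 F' e y f → f complexConjugation = 0 :=
    fun hK y hy f hf => coord_eq_zero_of_inf_le hr hF he hre hK hy hf
  have hg : fixIndex p 2 F' F = 2 := fixIndex_eq_of_triv hFt hidx htriv
  have h4 : selIndex p 2 F' F ≠ 0 ∧ selIndex p 2 F' F ≤ 4 :=
    piece_relIndex_le_four hp hζ hstab he hre hact (sel p 2 F) (sel p 2 F' ⊔ F) hY hH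
  refine ⟨h4.1, fun hK hU => ?_, fun hK _ => ?_, fun _ hU => ?_, fun _ _ => ?_⟩
  · -- positive, unramified everywhere
    have h1 : selIndex p 2 F' F = 1 := by
      refine selIndex_eq_one_of_le ?_
      refine piece_le_two hζ hstab he hre hact (sel p 2 F) (sel p 2 F' ⊔ F)
        (fun y hy => ?_) hH
      obtain ⟨f, hf, hl, hd⟩ := hY y hy
      refine ⟨f, hf, hl, hYc hK y hy f hf, fun ℓ hℓ => ?_⟩
      by_cases hℓp : ℓ = p
      · subst hℓp
        exact hYp hU y hy f hf
      · exact hd ℓ hℓ hℓp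
    rw [h1, hg]
  · -- positive
    rw [hg]
    refine (piece_relIndex_le_two_pos hp hζ hstab he hre hact (sel p 2 F) (sel p 2 F' ⊔ F)
      (fun y hy => ?_) hH).2
    obtain ⟨f, hf, hl, hd⟩ := hY y hy
    exact ⟨f, hf, hl, hYc hK y hy f hf, hd⟩
  · -- unramified everywhere
    rw [hg]
    refine (piece_relIndex_le_two_unr hζ hstab he hre hact (sel p 2 F) (sel p 2 F' ⊔ F)
      (fun y hy => ?_) hH).2
    obtain ⟨f, hf, hl, hd⟩ := hY y hy
    refine ⟨f, hf, hl, fun ℓ hℓ => ?_⟩
    by_cases hℓp : ℓ = p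
    · subst hℓp
      exact hYp hU y hy f hf
    · exact hd ℓ hℓ hℓp
  · rw [hg]
    exact h4.2

end Cases

/-- **STEP**: the step bounds for all Eisenstein pieces, from G3 and PEU. -/
theorem step_of_leaves (hG3 : G3Statement) (hP1 : Peu1JStatement)
    (hPw : PeuOmegaJStatement) : StepStatement := by
  intro p _ hp S r hr hrdvd
  have hp1 : 0 < p - 1 := Nat.sub_pos_of_lt hp.one_lt
  have hrp : r ≠ p := by
    intro h
    have := Nat.le_of_dvd hp1 hrdvd
    omega
  obtain ⟨A, hA⟩ := Fermat.Agent.S54.exists_valuationSubring_liesOver p hp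
  obtain ⟨τ₀, hτ₀, hgood⟩ := exists_isGoodTau hp hr hrp A hA
  refine ⟨A, hA, τ₀, hτ₀, fun F' F hF hpiece => ?_⟩
  obtain ⟨hle, hst', hst, hidx, htype⟩ := hpiece
  by_cases hr2 : r = 2
  · subst hr2
    have htriv : ∀ σ : _root_.Fermat.Agent.S15.H975.Gal, ∀ f ∈ F, σ • f - f ∈ F' := by
      rcases htype with h | ⟨ζ, hζ, hω⟩
      · exact h
      · intro σ f hf
        have h1 : σ ζ = ζ ^ 1 := by
          rw [pow_one]
          have hζ2 : ζ = -1 := by
            have := hζ.eq_neg_one_of_two_right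
            exact this
          rw [hζ2, map_neg, map_one]
        have := hω σ 1 h1 f hf
        rwa [one_smul] at this
    exact stepBound_two hG3 hPw hp hrp hgood hF hle hst' hst hidx htriv
  · rcases htype with htriv | ⟨ζ, hζ, hω⟩
    · exact stepBound_triv_odd hG3 hP1 hp hr hr2 hrp hgood _ hF hle hst' hst hidx htriv
    · exact stepBound_tw_odd hG3 hPw hp hr hr2 hrp hgood hF hle hst' hst hidx hζ hω

end Fermat.Agent.S15.H322

end
-- ===== PACK-END S15/H322/Step.lean

-- ===== PACK-BEGIN S15/H106/G3.lean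
section





/-!
# Row S15 / DESC, leaf G3 (helper106): Kummer cocycles are unramified at good primes

Blueprint `coord/S15-DESC-blueprint.md` sec. 3; frozen shape `H975.G3Statement`.

* `g3 : H975.G3Statement` (exact frozen type);
* `inertia_smul_eq` : level `N`, any `r`, `k`: for a prime `ℓ ∤ N * r`, a place `A` of `ℚ̄` over
  `ℓ` and `σ` in the inertia group of `A`: if `σ` fixes `r ^ k • y` then `σ` fixes `y`;
* `kummer_cocycle_unramified`, `inertia_smul_eq_of_torsion` : cocycle and torsion forms;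
* `inertia_smul_eq_of_specializationExists` : the abstract core (any `J` with the Prelude
  property `SpecializationExists N r J`).

Inputs: landed S37 (`Fermat.Agent.S37.result`: `inertia_comm` + `injective_torsion`),
`S29.heckeOperatorsCommuteBar`, `S29.H571.smulCommClass_heckeModuleBar`.
-/

set_option autoImplicit false
set_option linter.style.haveILetI false

namespace Fermat.Agent.S15.H106

open ModularCurve

/-- the absolute Galois group of `ℚ` -/
abbrev GalQ : Type := AlgebraicClosure ℚ ≃ₐ[ℚ] AlgebraicClosure ℚ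

section Abstract

variable {J : Type*} [AddCommGroup J] [Module HeckeAlg J] [DistribMulAction GalQ J]

/-- **G3, abstract form.**  If `J` has specializations at the primes not dividing `N * r`
(frozen S37), `σ` is in the inertia group of a place `A` over such a prime `ℓ`, and `σ` fixes
`r ^ k • y`, then `σ` fixes `y`. -/
theorem inertia_smul_eq_of_specializationExists {N r : ℕ}
    (hS : SpecializationExists (K := ℚ) (L := AlgebraicClosure ℚ) N r J)
    {ℓ : ℕ} (hℓ : ℓ.Prime) (hℓN : ¬ ℓ ∣ N * r)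
    (A : ValuationSubring (AlgebraicClosure ℚ)) (hA : A.LiesOverPrime ℓ)
    (σ : GalQ) (hσ : σ ∈ A.inertiaSubgroupIn ℚ) (y : J) (k : ℕ)
    (hy : σ • (r ^ k • y) = r ^ k • y) : σ • y = y := by
  obtain ⟨J', _, _, sp, F, hsp, -⟩ := hS ℓ hℓ hℓN A hA
  have h1 : r ^ k • (σ • y - y) = 0 := by
    rw [smul_sub, smul_comm (r ^ k) σ y, hy, sub_self]
  have h2 : sp (σ • y - y) = 0 := by
    rw [map_sub, hsp.inertia_comm σ hσ y, sub_self]
  exact sub_eq_zero.1 (hsp.injective_torsion _ ⟨k, h1⟩ h2)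

end Abstract

/-- the frozen S37 at level `N`, auxiliary prime `r`, with the two Hecke hypotheses discharged -/
theorem specializationExists_JZero (N r : ℕ) [NeZero N] :
    letI := ModularCurve.heckeModuleBar N
    SpecializationExists (K := ℚ) (L := AlgebraicClosure ℚ) N r (JZero N) := by
  letI := ModularCurve.heckeModuleBar N
  exact Fermat.Agent.S37.result N r (Fermat.Agent.S29.heckeOperatorsCommuteBar N)
    (Fermat.Agent.S29.H571.smulCommClass_heckeModuleBar N)

/-- **G3.**  Inertia at a prime `ℓ ∤ N * r` fixes every `y : JZero N` such that it fixes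
`r ^ k • y`. -/
theorem inertia_smul_eq (N r : ℕ) [NeZero N] {ℓ : ℕ} (hℓ : ℓ.Prime) (hℓN : ¬ ℓ ∣ N * r)
    (A : ValuationSubring (AlgebraicClosure ℚ)) (hA : A.LiesOverPrime ℓ)
    (σ : GalQ) (hσ : σ ∈ A.inertiaSubgroupIn ℚ) (y : JZero N) (k : ℕ)
    (hy : σ • (r ^ k • y) = r ^ k • y) : σ • y = y := by
  letI := ModularCurve.heckeModuleBar N
  exact inertia_smul_eq_of_specializationExists (specializationExists_JZero N r) hℓ hℓN A hA σ hσ
    y k hy

/-- **G3, cocycle form.**  If `r ^ k • y` is rational, the Kummer cocycle `σ ↦ σ y - y` is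
trivial on the inertia groups at all primes `ℓ ∤ N * r`. -/
theorem kummer_cocycle_unramified (N r : ℕ) [NeZero N] {ℓ : ℕ} (hℓ : ℓ.Prime)
    (hℓN : ¬ ℓ ∣ N * r) (A : ValuationSubring (AlgebraicClosure ℚ)) (hA : A.LiesOverPrime ℓ)
    (σ : GalQ) (hσ : σ ∈ A.inertiaSubgroupIn ℚ) (y : JZero N) (k : ℕ)
    (hy : ∀ τ : GalQ, τ • (r ^ k • y) = r ^ k • y) : σ • y - y = 0 :=
  sub_eq_zero.2 (inertia_smul_eq N r hℓ hℓN A hA σ hσ y k (hy σ))

/-- **G3 on torsion**: inertia at `ℓ ∤ N * r` acts trivially on `J[r ^ k]`. -/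
theorem inertia_smul_eq_of_torsion (N r : ℕ) [NeZero N] {ℓ : ℕ} (hℓ : ℓ.Prime)
    (hℓN : ¬ ℓ ∣ N * r) (A : ValuationSubring (AlgebraicClosure ℚ)) (hA : A.LiesOverPrime ℓ)
    (σ : GalQ) (hσ : σ ∈ A.inertiaSubgroupIn ℚ) (y : JZero N) (k : ℕ)
    (hy : r ^ k • y = 0) : σ • y = y :=
  inertia_smul_eq N r hℓ hℓN A hA σ hσ y k (by rw [hy]; exact smul_zero (A := JZero N) σ)

/-- **Leaf G3** (exact frozen type of `H975/DescSpec.lean`). -/
theorem g3 : Fermat.Agent.S15.H975.G3Statement := by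
  intro p _ hp r hr ℓ hℓ hℓp hℓr A hA τ hτ y hy
  have hℓN : ¬ ℓ ∣ p * r := by
    intro h
    rcases (Nat.Prime.dvd_mul hℓ).1 h with h1 | h1
    · exact hℓp ((Nat.prime_dvd_prime_iff_eq hℓ hp).1 h1)
    · exact hℓr ((Nat.prime_dvd_prime_iff_eq hℓ hr).1 h1)
  exact inertia_smul_eq p r hℓ hℓN A hA τ hτ y 1 (by rw [pow_one]; exact hy)

end Fermat.Agent.S15.H106

end
-- ===== PACK-END S15/H106/G3.lean

-- ===== PACK-BEGIN A3/H799/LocalDone.lean
section



/-!
# A3 / LOCAL — the abstract LOCAL theorem, unconditional  (helper799)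

`localStatement : LocalStatement K F k Fk` for every abstract good reduction datum: all leaves
(DISC, DISC-I, NSP, COORD, GEO, DET, KER-I, LIFTI) are on main.
-/

set_option autoImplicit false

open AlgebraicCurve

namespace Fermat.Agent.A3.H799

universe u₁ u₂ u₃ u₄

variable (K : Type u₁) (F : Type u₂) (k : Type u₃) (Fk : Type u₄)
  [Field K] [Field F] [Algebra K F] [Field k] [Field Fk] [Algebra k Fk]

/-- **Block LOCAL, abstract form**: for every abstract good reduction datum `GoodRed K F k Fk`,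
every finite inertia-stable subgroup of `Pic0` has integral, inertia-equivariant, injective
coordinates with algebraic addition. -/
theorem localStatement [IsAlgClosed K] [IsAlgClosed k] [CharZero K] :
    LocalStatement K F k Fk :=
  localStatement_of_det H255.Det.detStatement

end Fermat.Agent.A3.H799

end
-- ===== PACK-END A3/H799/LocalDone.lean

-- ===== PACK-BEGIN S15/H946/TorsorLocal.lean
section


/-!
# S15 / DESC / T1 HOPF-E — the abstract LOCAL theorem for TORSOR SETS  (helper946)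

`A3.H799.localStatement` gives integral, inertia-equivariant coordinates with algebraic addition on
every finite inertia-stable SUBGROUP of `Pic0`.  Row S15 (Eisenstein descent, blueprint v3, tower T1)
needs the same for the finite group

    E_x = (J[r] + ℤ y) / ℤ x,      x = r y a rational point,

which is not a subgroup of `Pic0`: it is a finite abelian group `M` with a map of REPRESENTATIVES
`ρ : M → Pic0` which is additive only up to constants, `ρ (m + m') = ρ m + ρ m' + c (κ m) (κ m')`,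
where `κ : M → Q` is a finite "grading" (for `E_x`: `κ (t + j y) = j`, `c j j' = - [j + j' ≥ r] x`).

`TorsorData` packages `(κ, ρ, c)`; `torsorLocal` is the generalisation of
`A3.H799.local_of_chart` (same proof: class indicators + chart coordinates on each class; the
constants are absorbed as constants of the chart).  For `Q = Unit`, `c = 0`, `ρ` the inclusion of a
subgroup this is `A3.H799.LocalStatement`.

Everything here is sorry-free; inputs: CHART, KER-I, LIFTI of `A3/H799` (all proved on main).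
-/

set_option autoImplicit false

noncomputable section

open AlgebraicCurve

namespace Fermat.Agent.S15.H946

open Fermat.Agent.A3.H799

universe u₁ u₂ u₃ u₄

variable {K : Type u₁} {F : Type u₂} {k : Type u₃} {Fk : Type u₄}
  [Field K] [Field F] [Algebra K F] [Field k] [Field Fk] [Algebra k Fk]

/-- **Torsor-set datum**: a finite abelian group `M` with representatives `ρ : M → Pic0` additive
up to constants depending only on a grading `κ`. -/
structure TorsorData (M : Type) [AddCommGroup M] (K : Type u₁) (F : Type u₂)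
    [Field K] [Field F] [Algebra K F] where
  /-- the grading set -/
  Q : Type
  /-- the grading -/
  κ : M → Q
  /-- the representatives -/
  ρ : M → Pic0 K F
  /-- grading and representative determine the element -/
  inj : ∀ m m' : M, κ m = κ m' → ρ m = ρ m' → m = m'
  /-- the grading of a sum -/
  μ : Q → Q → Q
  κ_add : ∀ m m' : M, κ (m + m') = μ (κ m) (κ m')
  /-- the constants -/
  c : Q → Q → Pic0 K F
  ρ_add : ∀ m m' : M, ρ (m + m') = ρ m + ρ m' + c (κ m) (κ m')

/-- **Output of T1-ABS** (frozen): integral, inertia-equivariant, injective coordinates on `M` with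
algebraic addition.  Same shape as `A3.H799.LocalStatement`, with `T` replaced by `(M, D)`. -/
def TorsorLocalStatement (K : Type u₁) (F : Type u₂) (k : Type u₃) (Fk : Type u₄)
    [Field K] [Field F] [Algebra K F] [Field k] [Field Fk] [Algebra k Fk]
    [IsAlgClosed K] [IsAlgClosed k] [CharZero K] : Prop :=
  ∀ (𝓡 : GoodRed K F k Fk),
    (∀ a b : K, a ∈ 𝓡.V.nonunits → b ≠ 0 → ∃ n : ℕ, a ^ n / b ∈ 𝓡.V) →
    ∀ (M : Type) [AddCommGroup M] [Finite M] (D : TorsorData M K F),
      ∃ (ι : Type) (_ : Finite ι) (Ψ : M → ι → K),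
        Function.Injective Ψ ∧ (∀ x i, Ψ x i ∈ 𝓡.V) ∧
        (∀ (g : SemilinearAut K F) (_ : g ∈ 𝓡.I) (m m' : M), D.κ m' = D.κ m →
          D.ρ m' = g • D.ρ m → ∀ i : ι, Ψ m' i = SemilinearAut.baseAut g (Ψ m i)) ∧
        ∀ i, (fun p : M × M => Ψ (p.1 + p.2) i) ∈
          Algebra.adjoin 𝓡.V ({f | ∃ j, f = fun p : M × M => Ψ p.1 j} ∪
            {f | ∃ j, f = fun p : M × M => Ψ p.2 j})

section Classes

variable (𝓡 : GoodRed K F k Fk) {M : Type} [AddCommGroup M] (D : TorsorData M K F)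

/-- Two elements are in the same class if they have the same grading and their representatives
are congruent modulo the kernel of reduction. -/
def clSetoid : Setoid M where
  r m m' := D.κ m = D.κ m' ∧ D.ρ m - D.ρ m' ∈ 𝓡.kerRed
  iseqv :=
    { refl := fun m => ⟨rfl, by rw [sub_self]; exact zero_mem _⟩
      symm := fun {m m'} h => ⟨h.1.symm, by
        have := neg_mem h.2
        rwa [neg_sub] at this⟩
      trans := fun {m m' m''} h h' => ⟨h.1.trans h'.1, by
        have := add_mem h.2 h'.2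
        rwa [sub_add_sub_cancel] at this⟩ }

/-- The type of classes. -/
abbrev Cl : Type := Quotient (clSetoid 𝓡 D)

/-- The class of an element. -/
def cl (m : M) : Cl 𝓡 D := Quotient.mk (clSetoid 𝓡 D) m

variable {𝓡 D}

theorem cl_eq_iff (m m' : M) :
    cl 𝓡 D m = cl 𝓡 D m' ↔ D.κ m = D.κ m' ∧ D.ρ m - D.ρ m' ∈ 𝓡.kerRed :=
  Quotient.eq (r := clSetoid 𝓡 D)

theorem cl_out (c : Cl 𝓡 D) : cl 𝓡 D (Quotient.out c) = c := Quotient.out_eq c

theorem cl_add {m₁ m₁' m₂ m₂' : M} (h1 : cl 𝓡 D m₁ = cl 𝓡 D m₁')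
    (h2 : cl 𝓡 D m₂ = cl 𝓡 D m₂') : cl 𝓡 D (m₁ + m₂) = cl 𝓡 D (m₁' + m₂') := by
  rw [cl_eq_iff] at h1 h2 ⊢
  refine ⟨by rw [D.κ_add, D.κ_add, h1.1, h2.1], ?_⟩
  rw [D.ρ_add, D.ρ_add, h1.1, h2.1]
  have h : D.ρ m₁ + D.ρ m₂ + D.c (D.κ m₁') (D.κ m₂') -
      (D.ρ m₁' + D.ρ m₂' + D.c (D.κ m₁') (D.κ m₂')) =
      (D.ρ m₁ - D.ρ m₁') + (D.ρ m₂ - D.ρ m₂') := by abel
  rw [h]
  exact add_mem h1.2 h2.2

instance [Finite M] : Finite (Cl 𝓡 D) := Quotient.finite _

end Classes

section Coordinates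

variable {𝓡 : GoodRed K F k Fk} {M : Type} [AddCommGroup M] {D : TorsorData M K F} {n : ℕ}
  (z : 𝓡.kerRed → Fin n → IsLocalRing.maximalIdeal 𝓡.V) (yt : Cl 𝓡 D → Pic0 K F)
  (hmem : ∀ (m : M) (c : Cl 𝓡 D), cl 𝓡 D m = c → D.ρ m - yt c ∈ 𝓡.kerRed)

open Classical in
/-- The coordinates: class indicators and chart coordinates on each class. -/
def psiT (m : M) : (Cl 𝓡 D) ⊕ (Cl 𝓡 D) × Fin n → K
  | Sum.inl c => if cl 𝓡 D m = c then 1 else 0
  | Sum.inr (c, i) =>
      if h : cl 𝓡 D m = c then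
        (((z ⟨D.ρ m - yt c, hmem m c h⟩ i : IsLocalRing.maximalIdeal 𝓡.V) : 𝓡.V) : K)
      else 0

open Classical in
theorem psiT_inl (m : M) (c : Cl 𝓡 D) :
    psiT z yt hmem m (Sum.inl c) = if cl 𝓡 D m = c then 1 else 0 := by
  simp only [psiT]

open Classical in
theorem psiT_inr (m : M) (c : Cl 𝓡 D) (i : Fin n) :
    psiT z yt hmem m (Sum.inr (c, i)) =
      if h : cl 𝓡 D m = c then
        (((z ⟨D.ρ m - yt c, hmem m c h⟩ i : IsLocalRing.maximalIdeal 𝓡.V) : 𝓡.V) : K)
      else 0 := by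
  simp only [psiT]

theorem psiT_inr_pos (m : M) (c : Cl 𝓡 D) (i : Fin n) (h : cl 𝓡 D m = c) :
    psiT z yt hmem m (Sum.inr (c, i)) =
      (((z ⟨D.ρ m - yt c, hmem m c h⟩ i : IsLocalRing.maximalIdeal 𝓡.V) : 𝓡.V) : K) := by
  rw [psiT_inr, dif_pos h]

theorem psiT_inr_neg (m : M) (c : Cl 𝓡 D) (i : Fin n) (h : ¬ cl 𝓡 D m = c) :
    psiT z yt hmem m (Sum.inr (c, i)) = 0 := by
  rw [psiT_inr, dif_neg h]

theorem psiT_mem (m : M) (j : (Cl 𝓡 D) ⊕ (Cl 𝓡 D) × Fin n) :
    psiT z yt hmem m j ∈ 𝓡.V := by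
  classical
  rcases j with c | ⟨c, i⟩
  · rw [psiT_inl]
    split_ifs
    · exact 𝓡.V.one_mem
    · exact 𝓡.V.zero_mem
  · rw [psiT_inr]
    split_ifs
    · exact Subtype.coe_prop _
    · exact 𝓡.V.zero_mem

theorem psiT_injective (hz : Function.Injective z) : Function.Injective (psiT z yt hmem) := by
  classical
  intro x x' h
  have h1 := congrFun h (Sum.inl (cl 𝓡 D x))
  rw [psiT_inl, psiT_inl, if_pos rfl] at h1
  have hc : cl 𝓡 D x' = cl 𝓡 D x := by
    by_contra hne
    rw [if_neg hne] at h1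
    exact one_ne_zero h1
  have h2 : z ⟨D.ρ x - yt (cl 𝓡 D x), hmem x _ rfl⟩ =
      z ⟨D.ρ x' - yt (cl 𝓡 D x), hmem x' _ hc⟩ := by
    funext i
    have h3 := congrFun h (Sum.inr (cl 𝓡 D x, i))
    rw [psiT_inr_pos z yt hmem x _ i rfl, psiT_inr_pos z yt hmem x' _ i hc] at h3
    exact Subtype.ext (Subtype.ext h3)
  have h4 := congrArg Subtype.val (hz h2)
  simp only [sub_left_inj] at h4
  exact D.inj x x' ((cl_eq_iff x' x).1 hc).1.symm h4

theorem psiT_smul (hker : ∀ g ∈ 𝓡.I, ∀ x : Pic0 K F, g • x - x ∈ 𝓡.kerRed)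
    (hyI : ∀ c, ∀ g ∈ 𝓡.I, g • yt c = yt c)
    (hzeq : ∀ g ∈ 𝓡.I, ∀ (u : 𝓡.kerRed) (hgu : g • (u : Pic0 K F) ∈ 𝓡.kerRed) (i : Fin n),
      (((z ⟨g • (u : Pic0 K F), hgu⟩ i : IsLocalRing.maximalIdeal 𝓡.V) : 𝓡.V) : K) =
        SemilinearAut.baseAut g (((z u i : IsLocalRing.maximalIdeal 𝓡.V) : 𝓡.V) : K))
    (g : SemilinearAut K F) (hg : g ∈ 𝓡.I) (m m' : M) (hκ : D.κ m' = D.κ m)
    (hρ : D.ρ m' = g • D.ρ m)
    (j : (Cl 𝓡 D) ⊕ (Cl 𝓡 D) × Fin n) :
    psiT z yt hmem m' j = SemilinearAut.baseAut g (psiT z yt hmem m j) := by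
  classical
  have hmk : cl 𝓡 D m' = cl 𝓡 D m := by
    rw [cl_eq_iff]
    refine ⟨hκ, ?_⟩
    rw [hρ]
    exact hker g hg _
  rcases j with c | ⟨c, i⟩
  · rw [psiT_inl, psiT_inl, hmk]
    split_ifs
    · rw [map_one]
    · rw [map_zero]
  · by_cases h : cl 𝓡 D m = c
    · have h' : cl 𝓡 D m' = c := by rw [hmk, h]
      rw [psiT_inr_pos z yt hmem _ c i h', psiT_inr_pos z yt hmem m c i h]
      have heq : g • (D.ρ m - yt c) = D.ρ m' - yt c := by
        rw [smul_sub, hyI c g hg, hρ]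
      have hgu : g • (D.ρ m - yt c) ∈ 𝓡.kerRed := by
        rw [heq]
        exact hmem _ c h'
      rw [← hzeq g hg ⟨D.ρ m - yt c, hmem m c h⟩ hgu i]
      congr 4
      exact heq.symm
    · have h' : ¬ cl 𝓡 D m' = c := by
        rw [hmk]; exact h
      rw [psiT_inr_neg z yt hmem _ c i h', psiT_inr_neg z yt hmem m c i h, map_zero]

open Classical in
/-- Partition of unity by the boxes. -/
theorem mem_of_forall_boxT [Finite M] (𝒜 : Subalgebra 𝓡.V (M × M → K)) (G : M × M → K)
    (h : ∀ c₁ c₂ : Cl 𝓡 D, (fun p : M × M =>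
      ((if cl 𝓡 D p.1 = c₁ then (1 : K) else 0) *
        (if cl 𝓡 D p.2 = c₂ then (1 : K) else 0)) * G p) ∈ 𝒜) :
    G ∈ 𝒜 := by
  have : Fintype (Cl 𝓡 D) := Fintype.ofFinite _
  have hG : G = ∑ c₁ : Cl 𝓡 D, ∑ c₂ : Cl 𝓡 D, (fun p : M × M =>
      ((if cl 𝓡 D p.1 = c₁ then (1 : K) else 0) *
        (if cl 𝓡 D p.2 = c₂ then (1 : K) else 0)) * G p) := by
    funext p
    simp only [Finset.sum_apply]
    simp only [← Finset.sum_mul, ← Finset.mul_sum]
    simp
  rw [hG]
  exact Subalgebra.sum_mem _ fun c₁ _ => Subalgebra.sum_mem _ fun c₂ _ => h c₁ c₂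

open Classical in
theorem psiT_add_mem [Finite M]
    (hzadd : ∀ (Λ : Subalgebra 𝓡.V (M × M → 𝓡.V)) (a b : M × M → 𝓡.kerRed),
      (∀ j, (fun τ => ((z (a τ) j : IsLocalRing.maximalIdeal 𝓡.V) : 𝓡.V)) ∈ Λ) →
      (∀ j, (fun τ => ((z (b τ) j : IsLocalRing.maximalIdeal 𝓡.V) : 𝓡.V)) ∈ Λ) →
      ∀ i, (fun τ => ((z (a τ + b τ) i : IsLocalRing.maximalIdeal 𝓡.V) : 𝓡.V)) ∈ Λ)
    (j : (Cl 𝓡 D) ⊕ (Cl 𝓡 D) × Fin n) :
    (fun p : M × M => psiT z yt hmem (p.1 + p.2) j) ∈
      Algebra.adjoin 𝓡.V ({f | ∃ j, f = fun p : M × M => psiT z yt hmem p.1 j} ∪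
        {f | ∃ j, f = fun p : M × M => psiT z yt hmem p.2 j}) := by
  set 𝒜 := Algebra.adjoin 𝓡.V ({f | ∃ j, f = fun p : M × M => psiT z yt hmem p.1 j} ∪
        {f | ∃ j, f = fun p : M × M => psiT z yt hmem p.2 j}) with h𝒜
  have g1 : ∀ j, (fun p : M × M => psiT z yt hmem p.1 j) ∈ 𝒜 :=
    fun j => Algebra.subset_adjoin (Or.inl ⟨j, rfl⟩)
  have g2 : ∀ j, (fun p : M × M => psiT z yt hmem p.2 j) ∈ 𝒜 :=
    fun j => Algebra.subset_adjoin (Or.inr ⟨j, rfl⟩)
  -- the class of a sum on a box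
  let s : Cl 𝓡 D → Cl 𝓡 D → Cl 𝓡 D := fun c₁ c₂ =>
    cl 𝓡 D (Quotient.out c₁ + Quotient.out c₂)
  have hs : ∀ (c₁ c₂ : Cl 𝓡 D) (p : M × M), cl 𝓡 D p.1 = c₁ → cl 𝓡 D p.2 = c₂ →
      cl 𝓡 D (p.1 + p.2) = s c₁ c₂ := by
    intro c₁ c₂ p h1 h2
    exact cl_add (h1.trans (cl_out c₁).symm) (h2.trans (cl_out c₂).symm)
  -- the box idempotents
  have hbox : ∀ c₁ c₂ : Cl 𝓡 D, (fun p : M × M =>
      (if cl 𝓡 D p.1 = c₁ then (1 : K) else 0) *
        (if cl 𝓡 D p.2 = c₂ then (1 : K) else 0)) ∈ 𝒜 := by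
    intro c₁ c₂
    have := 𝒜.mul_mem (g1 (Sum.inl c₁)) (g2 (Sum.inl c₂))
    simp only [psiT_inl] at this
    exact this
  have hidem : ∀ c₁ c₂ : Cl 𝓡 D, (fun p : M × M =>
      (if cl 𝓡 D p.1 = c₁ then (1 : K) else 0) *
        (if cl 𝓡 D p.2 = c₂ then (1 : K) else 0)) *
      (fun p : M × M =>
      (if cl 𝓡 D p.1 = c₁ then (1 : K) else 0) *
        (if cl 𝓡 D p.2 = c₂ then (1 : K) else 0)) =
      (fun p : M × M =>
      (if cl 𝓡 D p.1 = c₁ then (1 : K) else 0) *
        (if cl 𝓡 D p.2 = c₂ then (1 : K) else 0)) := by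
    intro c₁ c₂
    funext p
    simp only [Pi.mul_apply]
    split_ifs <;> simp
  -- the key lemma on a box
  have hkey : ∀ (c₁ c₂ : Cl 𝓡 D) (i : Fin n), (fun p : M × M =>
      ((if cl 𝓡 D p.1 = c₁ then (1 : K) else 0) *
        (if cl 𝓡 D p.2 = c₂ then (1 : K) else 0)) *
        psiT z yt hmem (p.1 + p.2) (Sum.inr (s c₁ c₂, i))) ∈ 𝒜 := by
    intro c₁ c₂ i
    set Λ := boxAlg 𝒜 _ (hidem c₁ c₂) (hbox c₁ c₂) with hΛ
    -- the families
    let a : M × M → 𝓡.kerRed := fun p =>
      if h : cl 𝓡 D p.1 = c₁ then ⟨D.ρ p.1 - yt c₁, hmem p.1 c₁ h⟩ else 0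
    let b : M × M → 𝓡.kerRed := fun p =>
      if h : cl 𝓡 D p.2 = c₂ then ⟨D.ρ p.2 - yt c₂, hmem p.2 c₂ h⟩ else 0
    have hc₀ : D.c (D.κ (Quotient.out c₁)) (D.κ (Quotient.out c₂)) + yt c₁ + yt c₂ -
        yt (s c₁ c₂) ∈ 𝓡.kerRed := by
      have h1 := hmem (Quotient.out c₁) c₁ (cl_out c₁)
      have h2 := hmem (Quotient.out c₂) c₂ (cl_out c₂)
      have h3 := hmem (Quotient.out c₁ + Quotient.out c₂) (s c₁ c₂) rfl
      have h4 : D.c (D.κ (Quotient.out c₁)) (D.κ (Quotient.out c₂)) + yt c₁ + yt c₂ -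
          yt (s c₁ c₂) =
          (D.ρ (Quotient.out c₁ + Quotient.out c₂) - yt (s c₁ c₂)) -
            (D.ρ (Quotient.out c₁) - yt c₁) - (D.ρ (Quotient.out c₂) - yt c₂) := by
        rw [D.ρ_add]
        abel
      rw [h4]
      exact sub_mem (sub_mem h3 h1) h2
    let c₀ : M × M → 𝓡.kerRed := fun _ =>
      ⟨D.c (D.κ (Quotient.out c₁)) (D.κ (Quotient.out c₂)) + yt c₁ + yt c₂ - yt (s c₁ c₂), hc₀⟩
    have ha : ∀ j, (fun τ => ((z (a τ) j : IsLocalRing.maximalIdeal 𝓡.V) : 𝓡.V)) ∈ Λ := by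
      intro j
      rw [hΛ, mem_boxAlg]
      have := 𝒜.mul_mem (g2 (Sum.inl c₂)) (g1 (Sum.inr (c₁, j)))
      convert this using 1
      funext p
      simp only [Pi.mul_apply, psiT_inl]
      by_cases h : cl 𝓡 D p.1 = c₁
      · rw [psiT_inr_pos z yt hmem p.1 c₁ j h, if_pos h, one_mul]
        simp only [a, dif_pos h]
        rfl
      · rw [psiT_inr_neg z yt hmem p.1 c₁ j h, if_neg h]
        simp
    have hb : ∀ j, (fun τ => ((z (b τ) j : IsLocalRing.maximalIdeal 𝓡.V) : 𝓡.V)) ∈ Λ := by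
      intro j
      rw [hΛ, mem_boxAlg]
      have := 𝒜.mul_mem (g1 (Sum.inl c₁)) (g2 (Sum.inr (c₂, j)))
      convert this using 1
      funext p
      simp only [Pi.mul_apply, psiT_inl]
      by_cases h : cl 𝓡 D p.2 = c₂
      · rw [psiT_inr_pos z yt hmem p.2 c₂ j h, if_pos h, mul_one]
        simp only [b, dif_pos h]
        rfl
      · rw [psiT_inr_neg z yt hmem p.2 c₂ j h, if_neg h]
        simp
    have hc : ∀ j, (fun τ => ((z (c₀ τ) j : IsLocalRing.maximalIdeal 𝓡.V) : 𝓡.V)) ∈ Λ := by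
      intro j
      exact Λ.algebraMap_mem ((z ⟨_, hc₀⟩ j : IsLocalRing.maximalIdeal 𝓡.V) : 𝓡.V)
    have hab := hzadd Λ a b ha hb
    have habc := hzadd Λ (fun τ => a τ + b τ) c₀ hab hc i
    rw [hΛ, mem_boxAlg] at habc
    convert habc using 1
    funext p
    by_cases h1 : cl 𝓡 D p.1 = c₁
    · by_cases h2 : cl 𝓡 D p.2 = c₂
      · have h12 : cl 𝓡 D (p.1 + p.2) = s c₁ c₂ := hs c₁ c₂ p h1 h2
        have hκ1 : D.κ p.1 = D.κ (Quotient.out c₁) :=
          ((cl_eq_iff _ _).1 (h1.trans (cl_out c₁).symm)).1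
        have hκ2 : D.κ p.2 = D.κ (Quotient.out c₂) :=
          ((cl_eq_iff _ _).1 (h2.trans (cl_out c₂).symm)).1
        rw [psiT_inr_pos z yt hmem _ _ i h12]
        congr 5
        simp only [a, b, c₀, dif_pos h1, dif_pos h2, AddSubgroup.coe_add]
        rw [D.ρ_add, hκ1, hκ2]
        abel
      · simp [h2]
    · simp [h1]
  -- conclusion
  apply mem_of_forall_boxT
  intro c₁ c₂
  rcases j with c | ⟨c, i⟩
  · have hfun : (fun p : M × M =>
        ((if cl 𝓡 D p.1 = c₁ then (1 : K) else 0) *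
          (if cl 𝓡 D p.2 = c₂ then (1 : K) else 0)) *
          psiT z yt hmem (p.1 + p.2) (Sum.inl c)) =
        if s c₁ c₂ = c then (fun p : M × M =>
          (if cl 𝓡 D p.1 = c₁ then (1 : K) else 0) *
            (if cl 𝓡 D p.2 = c₂ then (1 : K) else 0)) else 0 := by
      funext p
      rw [psiT_inl]
      by_cases hcc : s c₁ c₂ = c
      · rw [if_pos hcc]
        by_cases h1 : cl 𝓡 D p.1 = c₁
        · by_cases h2 : cl 𝓡 D p.2 = c₂
          · rw [hs c₁ c₂ p h1 h2, if_pos hcc]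
            simp
          · simp [h2]
        · simp [h1]
      · rw [if_neg hcc]
        by_cases h1 : cl 𝓡 D p.1 = c₁
        · by_cases h2 : cl 𝓡 D p.2 = c₂
          · rw [hs c₁ c₂ p h1 h2, if_neg hcc]
            simp
          · simp [h2]
        · simp [h1]
    rw [hfun]
    split_ifs
    · exact hbox c₁ c₂
    · exact 𝒜.zero_mem
  · by_cases hcc : s c₁ c₂ = c
    · subst hcc
      exact hkey c₁ c₂ i
    · have hfun : (fun p : M × M =>
        ((if cl 𝓡 D p.1 = c₁ then (1 : K) else 0) *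
          (if cl 𝓡 D p.2 = c₂ then (1 : K) else 0)) *
          psiT z yt hmem (p.1 + p.2) (Sum.inr (c, i))) = 0 := by
        funext p
        by_cases h1 : cl 𝓡 D p.1 = c₁
        · by_cases h2 : cl 𝓡 D p.2 = c₂
          · have h12 : ¬ cl 𝓡 D (p.1 + p.2) = c := by
              rw [hs c₁ c₂ p h1 h2]; exact hcc
            rw [psiT_inr_neg z yt hmem _ _ i h12]
            simp
          · simp [h2]
        · simp [h1]
      rw [hfun]
      exact 𝒜.zero_mem

end Coordinates

section Main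

variable [IsAlgClosed K] [IsAlgClosed k] [CharZero K]

/-- **Assembly for torsor sets.**  CHART + KER-I + LIFTI ⟹ `TorsorLocalStatement`. -/
theorem torsorLocal_of_chart (hchart : ChartStatement.{u₁, u₂, u₃, u₄, 0} K F k Fk)
    (hker : KerInertiaStatement K F k Fk) (hlift : LiftiStatement K F k Fk) :
    TorsorLocalStatement K F k Fk := by
  classical
  intro 𝓡 _ M _ _ D
  obtain ⟨n, z, hzinj, hzeq, hzadd⟩ := hchart 𝓡
  have hl : ∀ c : Cl 𝓡 D, ∃ y : Pic0 K F, (∀ g ∈ 𝓡.I, g • y = y) ∧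
      D.ρ (Quotient.out c) - y ∈ 𝓡.kerRed := fun c => hlift 𝓡 _
  choose yt hyI hyJ using hl
  have hmem : ∀ (m : M) (c : Cl 𝓡 D), cl 𝓡 D m = c → D.ρ m - yt c ∈ 𝓡.kerRed := by
    intro m c h
    have h1 : D.ρ m - D.ρ (Quotient.out c) ∈ 𝓡.kerRed :=
      ((cl_eq_iff _ _).1 (h.trans (cl_out c).symm)).2
    have h2 : D.ρ m - yt c = (D.ρ m - D.ρ (Quotient.out c)) +
        (D.ρ (Quotient.out c) - yt c) := by abel
    rw [h2]
    exact add_mem h1 (hyJ c)
  -- the index type
  have : Finite ((Cl 𝓡 D) ⊕ (Cl 𝓡 D) × Fin n) := inferInstance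
  obtain ⟨m, ⟨e⟩⟩ := Finite.exists_equiv_fin ((Cl 𝓡 D) ⊕ (Cl 𝓡 D) × Fin n)
  refine ⟨Fin m, inferInstance, fun x i => psiT z yt hmem x (e.symm i), ?_, ?_, ?_, ?_⟩
  · intro x x' h
    apply psiT_injective z yt hmem hzinj
    funext j
    have := congrFun h (e j)
    simpa using this
  · intro x i
    exact psiT_mem z yt hmem x _
  · intro g hg x x' hκ hρ i
    exact psiT_smul z yt hmem (hker 𝓡) hyI hzeq g hg x x' hκ hρ _
  · intro i
    have := psiT_add_mem z yt hmem (fun Λ a b => hzadd (M × M) Λ a b) (e.symm i)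
    refine Algebra.adjoin_mono ?_ this
    rintro f (⟨j, rfl⟩ | ⟨j, rfl⟩)
    · left
      exact ⟨e j, by simp⟩
    · right
      exact ⟨e j, by simp⟩

/-- **T1-ABS, unconditional.**  Every torsor-set datum over an abstract good reduction datum has
integral, inertia-equivariant, injective coordinates with algebraic addition. -/
theorem torsorLocal : TorsorLocalStatement K F k Fk :=
  torsorLocal_of_chart (chartStatement_of_det Fermat.Agent.A3.H255.Det.detStatement)
    Fermat.Agent.A3.H555.kerInertiaStatement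
    (Fermat.Agent.A3.H555.liftiStatement_of_disc (Fermat.Agent.A3.H75.discStatement K F k Fk)
      Fermat.Agent.A3.H555.discEquivStatement)

end Main

end Fermat.Agent.S15.H946

end
end
-- ===== PACK-END S15/H946/TorsorLocal.lean

-- ===== PACK-BEGIN A3/H615/GrRedLeaf.lean
section




/-!
# Cell A3 / GR-INST, leaf GR-RED of helper739's assembly (helper615)

`redLeaf_of_datum` : a linked reduction datum with good charts gives `A3.H739.RedLeaf N V`.
`redLeaf_of_datumStatement` : the S37 node `Core.DatumStatement` gives the hypothesis `hred` of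
`A3.H739.grStatement_of_leaves_forall`, verbatim.
-/

set_option autoImplicit false
set_option synthInstance.maxHeartbeats 400000

noncomputable section

namespace Fermat.Agent.A3.H615

open ModularCurve AlgebraicCurve HahnSeries IsLocalRing Fermat.Agent.S37.Red

namespace GrRed

/-- **Leaf GR-RED** from a linked reduction datum with good charts. -/
theorem redLeaf_of_datum (N : ℕ) [NeZero N] {ℓ : ℕ} (hℓ : ℓ.Prime) (hℓN : ¬ ℓ ∣ N)
    (V : ValuationSubring _root_.Fermat.Agent.A3.H615.GrRed.Qb) (hV : V.LiesOverPrime ℓ)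
    (G : Datum V (residue V) (modularFunctionFieldBar N)
      (modularFunctionFieldFullC (ResidueField V) N))
    (hgood : G.Good) (hlink : H759.Link G) :
    Fermat.Agent.A3.H739.RedLeaf N V := by
  obtain ⟨r, -, hI, hmod, -⟩ := exists_red hℓ hℓN hV G hgood hlink
  exact ⟨r, hmod, fun σ hσ P => hI σ hσ P⟩

/-- **Leaf GR-RED at all good levels** from the S37 node `DatumStatement`
(the hypothesis `hred` of `A3.H739.grStatement_of_leaves_forall`). -/
theorem redLeaf_of_datumStatement (h : Fermat.Agent.S37.Core.DatumStatement) :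
    ∀ (N : ℕ) [NeZero N] (ℓ : ℕ) [Fact ℓ.Prime], ¬ ℓ ∣ N → Fermat.Agent.S19.GoodLevel N ℓ →
      ∀ V : ValuationSubring _root_.Fermat.Agent.A3.H615.GrRed.Qb, V.LiesOverPrime ℓ → Fermat.Agent.A3.H739.RedLeaf N V := by
  intro N _ ℓ _ hℓN hg V hV
  obtain ⟨G, hgood, hlink⟩ := h N ℓ Fact.out hℓN hg V hV
  exact redLeaf_of_datum N Fact.out hℓN V hV G hgood hlink

end GrRed

end Fermat.Agent.A3.H615

end
end
-- ===== PACK-END A3/H615/GrRedLeaf.lean

-- ===== PACK-BEGIN A3/H615/GrRim.lean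
section



/-!
# Cell A3 / GR-INST, leaf RIM of helper19's assembly (helper615)

`rimStatement_of_datum` : a linked reduction datum with good charts gives `A3.GR.RimStatement A M`
(degrees, `r_* div u = div (ρ u)` for all fractions `u` of integral `q`-series, pointwise
invariance under the inertia group of `A`).
`rimStatement_of_datumStatement` : the same from the S37 node `Core.DatumStatement`.
-/

set_option autoImplicit false
set_option synthInstance.maxHeartbeats 400000

noncomputable section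

namespace Fermat.Agent.A3.H615

open ModularCurve AlgebraicCurve HahnSeries IsLocalRing Fermat.Agent.S37.Red

namespace GrRed

/-- Elements of the inertia group of `A` move every element of `A` by a nonunit. -/
theorem sub_mem_nonunits_of_mem_inertiaSubgroupIn {A : ValuationSubring _root_.Fermat.Agent.A3.H615.GrRed.Qb}
    {σ : _root_.Fermat.Agent.A3.H615.GrRed.Qb ≃ₐ[ℚ] _root_.Fermat.Agent.A3.H615.GrRed.Qb} (hσ : σ ∈ A.inertiaSubgroupIn ℚ) (a : _root_.Fermat.Agent.A3.H615.GrRed.Qb) (ha : a ∈ A) :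
    σ a - a ∈ A.nonunits := by
  obtain ⟨d, hd, rfl⟩ := hσ
  have h : MulSemiringAction.toRingAut (A.decompositionSubgroup ℚ) (ResidueField A) d = 1 :=
    MonoidHom.mem_ker.mp hd
  have h1 : d • residue A (⟨a, ha⟩ : A) = residue A (⟨a, ha⟩ : A) := by
    have h2 := congrArg (fun f : RingAut (ResidueField A) => f (residue A (⟨a, ha⟩ : A))) h
    exact h2
  have h3 : residue A (d • (⟨a, ha⟩ : A)) = d • residue A (⟨a, ha⟩ : A) :=
    IsLocalRing.ResidueField.residue_smul (A.decompositionSubgroup ℚ) d (⟨a, ha⟩ : A)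
  have h4 : residue A (d • (⟨a, ha⟩ : A) - (⟨a, ha⟩ : A)) = 0 := by
    rw [map_sub, h3, h1, sub_self]
  rw [residue_eq_zero_iff] at h4
  exact ValuationSubring.coe_mem_nonunits_iff.mpr h4

/-- **Leaf RIM** of `A3/GR/Leaves.lean` from a linked reduction datum with good charts. -/
theorem rimStatement_of_datum (M : ℕ) [NeZero M] {ℓ : ℕ} [Fact ℓ.Prime] (hℓM : ¬ ℓ ∣ M)
    (A : ValuationSubring _root_.Fermat.Agent.A3.H615.GrRed.Qb) (hA : A.LiesOverPrime ℓ)
    (G : Datum A (residue A) (modularFunctionFieldBar M)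
      (modularFunctionFieldFullC (ResidueField A) M))
    (hgood : G.Good) (hlink : H759.Link G) :
    Fermat.Agent.A3.GR.RimStatement A M := by
  obtain ⟨r, -, hI, hmod, -⟩ := exists_red Fact.out hℓM hA G hgood hlink
  refine ⟨r, hmod.1, ?_, ?_⟩
  · intro u hu D hD Q
    exact Fermat.Agent.A3.H739.gr_div_red (Fermat.Agent.A3.H739.gr_vg M hℓM A hA) r hmod
      ⟨(u : modularFunctionFieldBar M), u.2⟩ hu D hD Q
  · intro σ hσ P
    exact hI σ (sub_mem_nonunits_of_mem_inertiaSubgroupIn hσ) P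

/-- **Leaf RIM at all good levels** from the S37 node `DatumStatement`. -/
theorem rimStatement_of_datumStatement (h : Fermat.Agent.S37.Core.DatumStatement)
    (M : ℕ) [NeZero M] (ℓ : ℕ) [Fact ℓ.Prime] (hℓM : ¬ ℓ ∣ M)
    (hg : Fermat.Agent.S37.Core.GoodLevel M ℓ)
    (A : ValuationSubring _root_.Fermat.Agent.A3.H615.GrRed.Qb) (hA : A.LiesOverPrime ℓ) :
    Fermat.Agent.A3.GR.RimStatement A M := by
  obtain ⟨G, hgood, hlink⟩ := h M ℓ Fact.out hℓM hg A hA
  exact rimStatement_of_datum M hℓM A hA G hgood hlink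

end GrRed

end Fermat.Agent.A3.H615

end
end
-- ===== PACK-END A3/H615/GrRim.lean

-- ===== PACK-BEGIN S37/H28/DatumM.lean
section




/-!
# S37 / node_rim (helper28): `DatumStatement` and `RimStatement`, UNCONDITIONAL, via Theorem M

`good_of_isCoordinate` : every reduction datum on `(F_M, F_{M,k})` whose coordinate is an
admissible coordinate (`Mod.IsCoordinate M ℓ x S`: `j` for `ℓ ≥ 5`, `t₂` for `ℓ = 3`, `t₃` for
`ℓ = 2`) with integral model `X` has good charts (`Red.Datum.Good`).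

* (H1) = `H339.leaf_H1` (leaf D4, helper339);
* (H3) = Theorem M (`Red.H159.good_of_NC`, helper159: normality of the special fibre directly
  over the valuation ring `A`, no model over a DVR, no `S18` node_mod) with
  (NC) = `noRamOutside_of_unramified` + `unramified_of_isCoordinate` (this directory; branch data
  of `X₀(M) → X(1)`: `S18.H107`, `S18.H24`) and `hS` = `injOn_branchA`.

Consequences: `datumStatement : Core.DatumStatement` (with leaf D1 `Core.datumLeaf`),
`rimStatement : Core.RimStatement` (= node_rim of the S37 board at all good levels), and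
`result_of_s18 : Core.S18Statement → frozen S37`.
-/

set_option autoImplicit false
set_option synthInstance.maxHeartbeats 400000
set_option linter.style.haveILetI false

noncomputable section

namespace Fermat.Agent.S37.H28

open ModularCurve ValuationSubring AlgebraicCurve HahnSeries IsLocalRing Polynomial
open Fermat.Agent.S37.Red Fermat.Agent.S37.Core Fermat.Agent.S18

/-- **Good charts** for a reduction datum with an admissible coordinate. -/
theorem good_of_isCoordinate (M ℓ : ℕ) [NeZero M] (hℓ : ℓ.Prime) (hℓM : ¬ ℓ ∣ M)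
    (A : ValuationSubring (AlgebraicClosure ℚ)) (hA : A.LiesOverPrime ℓ)
    (x : Mod.Om M) (S : Finset (Mod.Om M)) (hx : Mod.IsCoordinate M ℓ x S)
    (X : LaurentSeries ℤ) (hX : IsModelOf M x X)
    (G : Datum A (residue A) (modularFunctionFieldBar M)
      (modularFunctionFieldFullC (ResidueField A) M))
    (hGx : G.x = x)
    (hGxk : ((G.xk : modularFunctionFieldFullC (ResidueField A) M) :
      LaurentSeries (ResidueField A)) = redX A X) : G.Good := by
  classical
  haveI : IsAlgClosed (ResidueField A) := Fermat.Agent.S18.H9.resAlgClosed _ A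
  obtain ⟨hf, hfk, hsep, hrk⟩ :=
    H339.leaf_H1 M ℓ hℓ hℓM A hA x S hx X hX.coeff_neg_one hX.coe_eq G hGx hGxk
  refine H159.good_of_NC G hf hfk hsep hrk (branchA (F := Mod.Om M) A S)
    (branchA (F := Mod.Om M) A (H278.invBranch S))
    (injOn_branchA A (residue A) hℓ hx hA) (injOn_branchA_inv A (residue A) hℓ hx hA) ?_ ?_
  · rw [hGx]
    exact noRamOutside_of_unramified G x S (unramified_of_isCoordinate hx)
  · rw [hGx]
    exact noRamOutside_of_unramified G x⁻¹ _ (unramified_of_isCoordinate hx).inv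

/-- **node_datum** (BOARD v3), unconditional. -/
theorem datumStatement : DatumStatement := by
  intro M ℓ _ hℓ hℓM hg A hA
  haveI : Fact ℓ.Prime := ⟨hℓ⟩
  have h3 : ℓ = 3 → 2 ∣ M := fun h => by
    rcases hg with h5 | ⟨-, h⟩ | ⟨h2, -⟩
    · omega
    · exact h
    · omega
  have h2 : ℓ = 2 → 3 ∣ M := fun h => by
    rcases hg with h5 | ⟨h3, -⟩ | ⟨-, h⟩
    · omega
    · omega
    · exact h
  obtain ⟨x, S, hx⟩ := H333.node_coord M hℓM h3 h2
  obtain ⟨X, hX⟩ := exists_isModelOf M ℓ x S hx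
  obtain ⟨G, hGx, hGxk, hlink⟩ := datumLeaf M ℓ hℓ hℓM A hA x X hX
  exact ⟨G, good_of_isCoordinate M ℓ hℓ hℓM A hA x S hx X hX G hGx hGxk, hlink⟩

/-- **node_rim** (BOARD v3) at all good levels, unconditional. -/
theorem rimStatement : RimStatement :=
  rimStatement_of_datum _root_.Fermat.Agent.S37.H28.datumStatement

/-- **The frozen statement S37 from S18 alone.** -/
theorem result_of_s18 (hS18 : S18Statement) (N p : ℕ) [NeZero N]
    (hcomm : ModularCurve.HeckeOperatorsCommuteBar N) :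
    letI := ModularCurve.heckeModuleBar N
    ∀ (_ : SMulCommClass (AlgebraicClosure ℚ ≃ₐ[ℚ] AlgebraicClosure ℚ) ModularCurve.HeckeAlg
      (ModularCurve.JZero N)),
      ModularCurve.SpecializationExists (K := ℚ) (L := AlgebraicClosure ℚ) N p
        (ModularCurve.JZero N) :=
  result_of_rim_s18 _root_.Fermat.Agent.S37.H28.rimStatement hS18 N p hcomm

end Fermat.Agent.S37.H28

end
end
-- ===== PACK-END S37/H28/DatumM.lean

-- ===== PACK-BEGIN A3/H615/GrRedInst.lean
section



/-!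
# Cell A3 / GR-INST: leaves RED (helper739's form) and RIM (helper19's form), UNCONDITIONAL

From `S37.H28.datumStatement` (a linked reduction datum with good charts at all good levels):

* `GrRed.redLeaf` : `A3.H739.RedLeaf N V` for every valuation ring `V` of `Q̄` above `ℓ ∤ N`,
  `(N, ℓ)` a good level — verbatim the hypothesis `hred` of
  `A3.H739.grStatement_of_leaves_forall`;
* `GrRed.rimStatement` : `A3.GR.RimStatement A M`, same hypotheses.
-/

set_option autoImplicit false
set_option synthInstance.maxHeartbeats 400000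

noncomputable section

namespace Fermat.Agent.A3.H615

open ModularCurve AlgebraicCurve

namespace GrRed

/-- **Leaf GR-RED, unconditional** (hypothesis `hred` of
`A3.H739.grStatement_of_leaves_forall`). -/
theorem redLeaf :
    ∀ (N : ℕ) [NeZero N] (ℓ : ℕ) [Fact ℓ.Prime], ¬ ℓ ∣ N → Fermat.Agent.S19.GoodLevel N ℓ →
      ∀ V : ValuationSubring Qb, V.LiesOverPrime ℓ → Fermat.Agent.A3.H739.RedLeaf N V :=
  redLeaf_of_datumStatement Fermat.Agent.S37.H28.datumStatement

/-- **Leaf RIM of `A3/GR/Leaves.lean`, unconditional.** -/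
theorem rimStatement (M : ℕ) [NeZero M] (ℓ : ℕ) [Fact ℓ.Prime] (hℓM : ¬ ℓ ∣ M)
    (hg : Fermat.Agent.S19.GoodLevel M ℓ)
    (A : ValuationSubring Qb) (hA : A.LiesOverPrime ℓ) :
    Fermat.Agent.A3.GR.RimStatement A M :=
  rimStatement_of_datumStatement Fermat.Agent.S37.H28.datumStatement M ℓ hℓM hg A hA

end GrRed

end Fermat.Agent.A3.H615

end
end
-- ===== PACK-END A3/H615/GrRedInst.lean

-- ===== PACK-BEGIN A3/H615/GrGenus.lean
section




/-!
# Cell A3 / GR-INST, leaf GENUS from leaf ORTH (helper615)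

* `GrGenus.genus_le`  : `g(F_N) ≤ g(F_{N,k})` at good levels, UNCONDITIONAL
  (`S19.H195.GenusGood.genusFF_le_of_good` for the datum of `S37.H28.datumStatement`);
* `GrGenus.genus_ge_of_orth` : `g(F_{N,k}) ≤ g(F_N)` from `A3.H739.OrthLeaf`
  (`S19.H195.RedDatum.genusFF_le` for the reduction datum `(modO, modρ, r)`);
* `GrGenus.genusLeaf_of_orthLeaf` : `OrthLeaf N V _ → GenusLeaf N V`;
* `GrGenus.grStatement_of_orth`  : `S19.H979.GrStatement` from the leaf ORTH alone.
-/

set_option autoImplicit false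
set_option synthInstance.maxHeartbeats 400000

noncomputable section

namespace Fermat.Agent.A3.H615

open ModularCurve AlgebraicCurve HahnSeries IsLocalRing
open Fermat.Agent.S19 (GalQ IsInertiaAt GoodLevel)
open Fermat.Agent.S37.Red (Qb FN kA FNk ModVG modO modρ modFrac)
open Fermat.Agent.A3.H739

namespace GrGenus

variable {N : ℕ} [NeZero N] {V : ValuationSubring _root_.Fermat.Agent.S37.Red.Qb}

theorem inv_mem_of_notMem_nonunits {a : _root_.Fermat.Agent.S37.Red.Qb} (ha : a ∈ V) (hn : a ∉ V.nonunits) : a⁻¹ ∈ V := by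
  rw [ValuationSubring.mem_nonunits_iff, not_lt] at hn
  have h1 : V.valuation a ≤ 1 := (V.valuation_le_one_iff a).mpr ha
  have h2 : V.valuation a = 1 := le_antisymm h1 hn
  rw [← V.valuation_le_one_iff, map_inv₀, h2, inv_one]

/-- helper195's reduction datum on `(modO, modρ, r)`. -/
def redDatumMod (hVG : ModVG N V) (r : Place _root_.Fermat.Agent.S37.Red.Qb (FN N) → Place (kA V) (FNk V N))
    (hr : IsPlaceReductionModL V N r) :
    Fermat.Agent.S19.H195.RedDatum _root_.Fermat.Agent.S37.Red.Qb (FN N) (kA V) (FNk V N) where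
  V := (modO hVG).toSubring
  red := modρ hVG
  r := r
  const_total := fun a => by
    rcases V.mem_or_inv_mem a with h | h
    · exact Or.inl ((gr_algebraMap_mem hVG a).mpr h)
    · exact Or.inr ((gr_algebraMap_mem hVG _).mpr h)
  red_const := fun a h => ⟨residue V ⟨a, (gr_algebraMap_mem hVG a).mp h⟩,
    gr_red_algebraMap hVG ⟨a, (gr_algebraMap_mem hVG a).mp h⟩ h⟩
  red_const_surj := fun b => by
    obtain ⟨a, ha⟩ := residue_surjective (R := V) b
    refine ⟨(a : _root_.Fermat.Agent.S37.Red.Qb), (gr_algebraMap_mem hVG _).mpr a.2, ?_⟩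
    rw [← ha]
    exact gr_red_algebraMap hVG a _
  red_const_unit := fun a h hne => by
    have ha : a ∈ V := (gr_algebraMap_mem hVG a).mp h
    refine (gr_algebraMap_mem hVG _).mpr (inv_mem_of_notMem_nonunits ha fun hnu => hne ?_)
    have h1 := gr_red_algebraMap hVG ⟨a, ha⟩ h
    have h2 : residue V ⟨a, ha⟩ = 0 := (gr_res_eq_zero ⟨a, ha⟩).mpr hnu
    rw [h2, map_zero] at h1
    exact h1
  ord_red := fun u hu hne D hD Q => gr_div_red hVG r hr ⟨u, hu⟩ hne D hD Q

/-- **GENUS, direction `g_k ≤ g_K`**, from the leaves RED and ORTH. -/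
theorem genus_ge_of_orth {ℓ : ℕ} [Fact ℓ.Prime] (hℓN : ¬ ℓ ∣ N) (hV : V.LiesOverPrime ℓ)
    (hVG : ModVG N V) (hred : RedLeaf N V) (horth : OrthLeaf N V hVG) :
    genusFF (kA V) (FNk V N) ≤ genusFF _root_.Fermat.Agent.S37.Red.Qb (FN N) := by
  obtain ⟨r, hr, -⟩ := hred
  haveI := Fermat.Agent.Lib.RR.H864.ff1_modularFunctionFieldBar N
  haveI := Fermat.Agent.S18.H383.ff1_residue N ℓ Fact.out hℓN V hV
  refine (redDatumMod hVG r hr).genusFF_le fun D => ?_
  obtain ⟨n, b, hli, hmem, hspan, -⟩ := horth D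
  exact ⟨n, fun i => ((b i : modO hVG) : FN N), fun i => (b i).2, hmem, hspan.ge, hli⟩

/-- **GENUS, direction `g_K ≤ g_k`**, unconditional at good levels. -/
theorem genus_le (N : ℕ) [NeZero N] (ℓ : ℕ) [Fact ℓ.Prime] (hℓN : ¬ ℓ ∣ N)
    (hg : GoodLevel N ℓ) (V : ValuationSubring _root_.Fermat.Agent.S37.Red.Qb) (hV : V.LiesOverPrime ℓ) :
    genusFF _root_.Fermat.Agent.S37.Red.Qb (FN N) ≤ genusFF (kA V) (FNk V N) := by
  obtain ⟨G, hgood, -⟩ := Fermat.Agent.S37.H28.datumStatement N ℓ Fact.out hℓN hg V hV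
  haveI := Fermat.Agent.Lib.RR.H864.ff1_modularFunctionFieldBar N
  haveI := Fermat.Agent.S18.H383.ff1_residue N ℓ Fact.out hℓN V hV
  haveI : IsAlgClosed (kA V) := Fermat.Agent.S18.H9.resAlgClosed _root_.Fermat.Agent.S37.Red.Qb V
  exact Fermat.Agent.S19.H195.GenusGood.genusFF_le_of_good G hgood

/-- **Leaf GR-GENUS from leaf GR-ORTH.** -/
theorem genusLeaf_of_orthLeaf (N : ℕ) [NeZero N] (ℓ : ℕ) [Fact ℓ.Prime] (hℓN : ¬ ℓ ∣ N)
    (hg : GoodLevel N ℓ) (V : ValuationSubring _root_.Fermat.Agent.S37.Red.Qb) (hV : V.LiesOverPrime ℓ)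
    (horth : OrthLeaf N V (gr_vg N hℓN V hV)) : GenusLeaf N V :=
  le_antisymm (genus_le N ℓ hℓN hg V hV)
    (genus_ge_of_orth hℓN hV (gr_vg N hℓN V hV) (GrRed.redLeaf N ℓ hℓN hg V hV) horth)

/-- **GR from the leaf ORTH alone.** -/
theorem grStatement_of_orth
    (horth : ∀ (N : ℕ) [NeZero N] (ℓ : ℕ) [Fact ℓ.Prime] (hℓN : ¬ ℓ ∣ N), GoodLevel N ℓ →
      ∀ (V : ValuationSubring _root_.Fermat.Agent.S37.Red.Qb) (hV : V.LiesOverPrime ℓ), OrthLeaf N V (gr_vg N hℓN V hV)) :
    Fermat.Agent.S19.H979.GrStatement :=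
  grStatement_of_leaves_forall GrRed.redLeaf
    (fun N _ ℓ _ hℓN hg V hV => genusLeaf_of_orthLeaf N ℓ hℓN hg V hV (horth N ℓ hℓN hg V hV))
    horth

end GrGenus

end Fermat.Agent.A3.H615

end
end
-- ===== PACK-END A3/H615/GrGenus.lean

-- ===== PACK-BEGIN A3/H499/OrthInst.lean
section




/-!
# A3 / GR-ORTH (helper499): the leaf `A3.H739.OrthLeaf`, UNCONDITIONALLY

`orthLeaf : OrthLeaf N V hVG` for every level `N`, every prime `ℓ ∤ N` and every valuation ring
`V ⊆ Q̄` above `ℓ` — the field `orthonormal` of the `GoodRed` instance of `X₀(N)`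
(`O = modO`, `red = modρ`, `I = inertiaImage V N`).

Route D (`OrthDatum.lean`): only the degree equality `[F_N : Q̄(j)] = ψ(N) = [F_{N,k} : k(j̄)]`
(`S37.H628.good_H1`, unconditional) and inertia-fixed lifts (`exists_fixed_lift`: the generators
`j(q^d)` have rational `q`-expansions, constants have Teichmüller lifts) are used.
No place map, no `div_red`, no normality (H3).
-/

set_option autoImplicit false
set_option synthInstance.maxHeartbeats 400000
set_option linter.unusedSectionVars false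
set_option linter.style.longLine false

noncomputable section

namespace Fermat.Agent.A3.H499

open AlgebraicCurve ModularCurve HahnSeries IsLocalRing
open Fermat.Agent.S19 (GalQ IsInertiaAt)
open Fermat.Agent.S37.Red (Qb FN kA FNk ModVG modO modρ modFrac modGj jk ofSeries
  modρ_ofSeries coe_ofSeries inv_mem_modO jqNModC_mem_bar)
open Fermat.Agent.A3.H739

variable {N : ℕ} {V : ValuationSubring _root_.Fermat.Agent.S37.Red.Qb}

/-- the reductions which have an inertia-fixed lift, as a set of series -/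
def fixImage (hVG : ModVG N V) : Set (LaurentSeries (kA V)) :=
  {g | ∃ u : modO hVG, (∀ γ ∈ inertiaImage V N, γ • ((u : modO hVG) : FN N) = u) ∧
    ((modρ hVG u : FNk V N) : LaurentSeries (kA V)) = g}

theorem fixImage_mul (hVG : ModVG N V) {a b : LaurentSeries (kA V)}
    (ha : a ∈ fixImage hVG) (hb : b ∈ fixImage hVG) : a * b ∈ fixImage hVG := by
  obtain ⟨u, hu, rfl⟩ := ha
  obtain ⟨v, hv, rfl⟩ := hb
  refine ⟨u * v, fun γ hγ => ?_, ?_⟩
  · show γ • (((u : modO hVG) : FN N) * ((v : modO hVG) : FN N)) = _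
    rw [smul_mul', hu γ hγ, hv γ hγ]
    rfl
  · rw [(modρ hVG).map_mul u v]
    rfl

theorem fixImage_add (hVG : ModVG N V) {a b : LaurentSeries (kA V)}
    (ha : a ∈ fixImage hVG) (hb : b ∈ fixImage hVG) : a + b ∈ fixImage hVG := by
  obtain ⟨u, hu, rfl⟩ := ha
  obtain ⟨v, hv, rfl⟩ := hb
  refine ⟨u + v, fun γ hγ => ?_, ?_⟩
  · show γ • (((u : modO hVG) : FN N) + ((v : modO hVG) : FN N)) = _
    rw [smul_add, hu γ hγ, hv γ hγ]
    rfl
  · rw [(modρ hVG).map_add u v]
    rfl

theorem fixImage_one (hVG : ModVG N V) : (1 : LaurentSeries (kA V)) ∈ fixImage hVG :=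
  ⟨1, fun γ _ => smul_one γ, by rw [(modρ hVG).map_one]; rfl⟩

theorem fixImage_zero (hVG : ModVG N V) : (0 : LaurentSeries (kA V)) ∈ fixImage hVG :=
  ⟨0, fun γ _ => smul_zero γ, by rw [(modρ hVG).map_zero]; rfl⟩

theorem fixImage_algebraMap {ℓ : ℕ} [Fact ℓ.Prime] (hV : V.LiesOverPrime ℓ) (hVG : ModVG N V)
    (c : kA V) : algebraMap (kA V) (LaurentSeries (kA V)) c ∈ fixImage hVG := by
  obtain ⟨a, hac, hfix⟩ := gr_I_lift_const N hV c
  refine ⟨⟨algebraMap _root_.Fermat.Agent.S37.Red.Qb (FN N) (a : _root_.Fermat.Agent.S37.Red.Qb), (modFrac N V).ctx.A_mem a⟩, fun γ hγ => ?_, ?_⟩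
  · show γ • (algebraMap _root_.Fermat.Agent.S37.Red.Qb (FN N) (a : _root_.Fermat.Agent.S37.Red.Qb)) = algebraMap _root_.Fermat.Agent.S37.Red.Qb (FN N) (a : _root_.Fermat.Agent.S37.Red.Qb)
    rw [SemilinearAut.smul_algebraMap, hfix γ hγ]
  · have h := (modFrac N V).ctx.ρ_A a
    have h' : modρ hVG ⟨algebraMap _root_.Fermat.Agent.S37.Red.Qb (FN N) (a : _root_.Fermat.Agent.S37.Red.Qb), (modFrac N V).ctx.A_mem a⟩ =
        algebraMap (kA V) (FNk V N) (residue V a) := h
    rw [h', hac]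
    rfl

theorem fixImage_inv (hVG : ModVG N V) {a : LaurentSeries (kA V)}
    (ha : a ∈ fixImage hVG) : a⁻¹ ∈ fixImage hVG := by
  obtain ⟨u, hufix, rfl⟩ := ha
  by_cases hu : modρ hVG u = 0
  · refine ⟨0, fun γ _ => smul_zero γ, ?_⟩
    rw [hu, (modρ hVG).map_zero]
    show (0 : LaurentSeries (kA V)) = (0 : LaurentSeries (kA V))⁻¹
    rw [inv_zero]
  · refine ⟨⟨((u : FN N))⁻¹, inv_mem_modO hVG u hu⟩, fun γ hγ => ?_, ?_⟩
    · show γ • ((u : FN N))⁻¹ = ((u : FN N))⁻¹
      rw [smul_inv'', hufix γ hγ]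
    · have hu0 : (u : FN N) ≠ 0 := by
        intro h0
        apply hu
        have : u = 0 := Subtype.ext h0
        rw [this, (modρ hVG).map_zero]
      have hmul : (⟨((u : FN N))⁻¹, inv_mem_modO hVG u hu⟩ : modO hVG) * u = 1 :=
        Subtype.ext (inv_mul_cancel₀ hu0)
      have h1 : modρ hVG ⟨((u : FN N))⁻¹, inv_mem_modO hVG u hu⟩ * modρ hVG u = 1 := by
        rw [← (modρ hVG).map_mul, hmul, (modρ hVG).map_one]
      have h2 : modρ hVG ⟨((u : FN N))⁻¹, inv_mem_modO hVG u hu⟩ = (modρ hVG u)⁻¹ :=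
        eq_inv_of_mul_eq_one_left h1
      rw [h2]
      rfl

/-- the reductions with an inertia-fixed lift form an intermediate field -/
def fixField {ℓ : ℕ} [Fact ℓ.Prime] (hV : V.LiesOverPrime ℓ) (hVG : ModVG N V) :
    IntermediateField (kA V) (LaurentSeries (kA V)) where
  carrier := fixImage hVG
  mul_mem' := fun ha hb => fixImage_mul hVG ha hb
  one_mem' := fixImage_one hVG
  add_mem' := fun ha hb => fixImage_add hVG ha hb
  zero_mem' := fixImage_zero hVG
  algebraMap_mem' := fun c => fixImage_algebraMap hV hVG c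
  inv_mem' := fun _ ha => fixImage_inv hVG ha

/-- the generators `j(q^d)`, `d ∣ N`, of `F_{N,k}` have inertia-fixed lifts -/
theorem generators_mem_fixField {ℓ : ℕ} [Fact ℓ.Prime] (hV : V.LiesOverPrime ℓ)
    (hVG : ModVG N V) :
    divisorExpansionsC (kA V) N ⊆ (fixField hV hVG : Set (LaurentSeries (kA V))) := by
  rintro g ⟨d, hne, hd, rfl⟩
  have := hne
  have hy : coeffMap V.subtype (jqNModC V d) ∈ modularFunctionFieldBar N := by
    rw [coeffMap_jqNModC]
    exact jqNModC_mem_bar hd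
  have hyk : coeffMap (residue V) (jqNModC V d) ∈ modularFunctionFieldFullC (kA V) N := by
    rw [coeffMap_jqNModC]
    exact jqModCd_mem_full (kA V) N hd
  refine ⟨ofSeries hVG (jqNModC V d) hy hyk, fun γ hγ => ?_, ?_⟩
  · obtain ⟨σ, -, rfl⟩ := (mem_inertiaImage V).mp hγ
    apply Subtype.ext
    rw [coe_arithmeticGalois_smul, coe_ofSeries]
    show coeffMap (σ : _root_.Fermat.Agent.S37.Red.Qb →+* _root_.Fermat.Agent.S37.Red.Qb) (coeffMap V.subtype (jqNModC V d)) =
      coeffMap V.subtype (jqNModC V d)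
    rw [coeffMap_jqNModC, coeffMap_jqNModC]
  · rw [modρ_ofSeries]
    show coeffMap (residue V) (jqNModC V d) = _
    rw [coeffMap_jqNModC]
    rfl

/-- **Inertia-fixed lifts**: every element of `F_{N,k}` is the reduction of an inertia-fixed
element of `O`. -/
theorem exists_fixed_lift {ℓ : ℕ} [Fact ℓ.Prime] (hV : V.LiesOverPrime ℓ) (hVG : ModVG N V)
    (c : FNk V N) :
    ∃ f : modO hVG, modρ hVG f = c ∧
      ∀ γ ∈ inertiaImage V N, γ • ((f : modO hVG) : FN N) = f := by
  have hle : modularFunctionFieldFullC (kA V) N ≤ fixField hV hVG :=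
    IntermediateField.adjoin_le_iff.mpr (generators_mem_fixField hV hVG)
  obtain ⟨u, hufix, hu⟩ := hle c.2
  exact ⟨u, Subtype.ext hu, hufix⟩

/-- inertia fixes the coordinate `j` -/
theorem inertia_smul_x (hVG : ModVG N V) (htr : Transcendental (kA V) (jk N V))
    (γ : SemilinearAut _root_.Fermat.Agent.S37.Red.Qb (FN N)) (hγ : γ ∈ inertiaImage V N) :
    γ • (modGj hVG htr).x = (modGj hVG htr).x := by
  obtain ⟨σ, -, rfl⟩ := (mem_inertiaImage V).mp hγ
  apply Subtype.ext
  rw [coe_arithmeticGalois_smul]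
  show coeffMap (σ : _root_.Fermat.Agent.S37.Red.Qb →+* _root_.Fermat.Agent.S37.Red.Qb) (coeffMap V.subtype (jqModC V)) = coeffMap V.subtype (jqModC V)
  rw [coeffMap_jqModC, coeffMap_jqModC]

/-- **Leaf GR-ORTH** of the `GoodRed` instance of `X₀(N)`: unconditional. -/
theorem orthLeaf (N : ℕ) [NeZero N] {ℓ : ℕ} [Fact ℓ.Prime] (hℓN : ¬ ℓ ∣ N)
    (V : ValuationSubring _root_.Fermat.Agent.S37.Red.Qb) (hV : V.LiesOverPrime ℓ) (hVG : ModVG N V) :
    OrthLeaf N V hVG := by
  have htr : Transcendental (kA V) (jk N V) := Fermat.Agent.S37.H579.RimBase.transcendental_jk N V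
  obtain ⟨h1, h2, -, h4⟩ := Fermat.Agent.S37.H628.good_H1 N Fact.out hℓN V hV
    (modGj hVG htr) (Fermat.Agent.S37.H579.RimBase.coe_x_modGj _ _)
    (Fermat.Agent.S37.H579.RimBase.coe_xk_modGj _ _)
  exact orthonormal_of_good (modGj hVG htr) h1 h2 h4
    (Fermat.Agent.Lib.RR.H864.ff1_modularFunctionFieldBar N) (inertiaImage V N)
    (inertia_smul_x hVG htr) (exists_fixed_lift hV hVG)

end Fermat.Agent.A3.H499

end

end
-- ===== PACK-END A3/H499/OrthInst.lean

-- ===== PACK-BEGIN S19/Top2.lean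
section




/-!
# Cell A3 (S19) — top assembly, v2: frozen S19 from the THREE open nodes

ORD (`H15.ordStatement`; independent second/third proofs: `H19.ordStatement`, `A3.H619.ord`),
FIN (`A3.H319.finStatement`, helper319) and CONT (`contStatement`) are proved on main.  Open:

    UNR   : UnrStatement      (pure algebra; split UA/UB/UC in `S19/Unr/Spec.lean`)
    LOCAL : LocalStatement    (abstract `A3.H799.LocalStatement` + GoodRed instance for `X₀(M)`)
    LEVEL : LevelStatement    (ℓ = 2, 3: equivariant embedding into a good level)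
-/

set_option autoImplicit false

namespace Fermat.Agent.S19

/-- ORDER from the three open nodes. -/
theorem orderStatement_of_three (hunr : UnrStatement) (hlocal : LocalStatement)
    (hlevel : LevelStatement) : OrderStatement :=
  orderStatement_of_blocks Fermat.Agent.A3.H319.finStatement hunr hlocal hlevel

/-- **Top assembly v2**: frozen S19 from UNR, LOCAL, LEVEL. -/
theorem S19_of_three (hunr : UnrStatement) (hlocal : LocalStatement) (hlevel : LevelStatement)
    (p : ℕ) [NeZero p] (ℓ : ℕ) [Fact ℓ.Prime] (hℓp : ¬ ℓ ∣ p) (k : ℕ) :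
    FrozenConclusion p ℓ k :=
  S19_of_five H15.ordStatement Fermat.Agent.A3.H319.finStatement hunr hlocal hlevel p ℓ hℓp k

end Fermat.Agent.S19

end
-- ===== PACK-END S19/Top2.lean

-- ===== PACK-BEGIN S29/H718/KInj.lean
section
/-
S29 / layer M / sub-layer M4b, piece `K4-INJ` (helper718): only the trivial character has Kummer
class `0`.
-/




set_option autoImplicit false

noncomputable section

open ModularCurve AlgebraicCurve CongruenceSubgroup UpperHalfPlane
open scoped MatrixGroups Manifold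

namespace Fermat.Agent.S29.H718

open Fermat.Agent.S24 Fermat.Agent.S29 Fermat.Agent.S29.M4b

/-- `ζ_p` is a primitive `p`-th root of unity. -/
theorem zetaP_isPrimitiveRoot (p : ℕ) [NeZero p] : IsPrimitiveRoot (zetaP p) p :=
  Complex.isPrimitiveRoot_exp p (NeZero.ne p)

/-- `ζ_p ^ a.val = 1` only for `a = 0`. -/
theorem eq_zero_of_zetaP_pow_val (p : ℕ) [NeZero p] (a : ZMod p)
    (h : zetaP p ^ a.val = 1) : a = 0 := by
  have h1 : p ∣ a.val := (zetaP_isPrimitiveRoot p).dvd_of_pow_eq_one _ h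
  have h2 : a.val = 0 := Nat.eq_zero_of_dvd_of_lt h1 (ZMod.val_lt a)
  exact (ZMod.val_eq_zero a).mp h2

/-- Every element of `FF N` is a quotient of two elements of `A_{ℚ̄}` (polynomials in the
`j(q^d)`, `d ∣ N`). -/
theorem exists_div_AK (N : ℕ) [NeZero N] (v : FF N) :
    ∃ r ∈ Deg457.AK Kbar N, ∃ s ∈ Deg457.AK Kbar N,
      ((v : FF N) : LaurentSeries Kbar) = r / s := by
  have hv := Deg457.laurentBaseChange_full_le (K := Kbar) N v.2
  rw [IntermediateField.mem_adjoin_iff_div] at hv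
  exact hv

/-- Every element of `A_{ℚ̄}` is realised by a good function. -/
theorem exists_good_of_mem_AK (N : ℕ) [NeZero N] {r : LaurentSeries Kbar}
    (hr : r ∈ Deg457.AK Kbar N) :
    ∃ R : ℍ → ℂ, R ∈ H648.goodRing N ∧ H708.HasQExp 1 R (coeffMap Deg457.iotaC r) :=
  H882.AK_le_goodQ N (Deg457.coeffMap_mem_AK Deg457.iotaC hr)

/-- If `U ^ p` realises a `p`-th power `v ^ p`, `v ≠ 0`, and `U` is holomorphic, then `U` is
`Γ₀(N)`-invariant at some point where it does not vanish. -/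
theorem exists_invariant_point (N : ℕ) [NeZero N] (p : ℕ) [NeZero p] {v : FF N} (hv : v ≠ 0)
    {U : ℍ → ℂ} (hU : MDifferentiable 𝓘(ℂ) 𝓘(ℂ) U)
    (hR : Realises N (v ^ p) (fun τ => U τ ^ p)) :
    ∃ τ₀ : ℍ, U τ₀ ≠ 0 ∧ ∀ γ ∈ Gamma0 N, U (γ • τ₀) = U τ₀ := by
  obtain ⟨r, hr, s, hs, hvrs⟩ := exists_div_AK N v
  have hv0 : ((v : FF N) : LaurentSeries Kbar) ≠ 0 := fun h => hv (Subtype.ext h)
  have hs0 : s ≠ 0 := by
    rintro rfl
    rw [div_zero] at hvrs
    exact hv0 hvrs
  have hr0 : r ≠ 0 := by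
    rintro rfl
    rw [zero_div] at hvrs
    exact hv0 hvrs
  obtain ⟨R, hRg, hRq⟩ := exists_good_of_mem_AK N hr
  obtain ⟨S, hSg, hSq⟩ := exists_good_of_mem_AK N hs
  -- `(U * S) ^ p` and `R ^ p` have the same `q`-expansion
  have hUq : H708.HasQExp 1 (fun τ => U τ ^ p)
      (coeffMap Deg457.iotaC (((v ^ p : FF N) : FF N) : LaurentSeries Kbar)) :=
    ⟨H882.isMerInf_of_mem_goodRing hR.1, hR.2⟩
  have h1 : H708.HasQExp 1 ((fun τ => U τ ^ p) * S ^ p)
      (coeffMap Deg457.iotaC (((v ^ p : FF N) : FF N) : LaurentSeries Kbar)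
        * coeffMap Deg457.iotaC s ^ p) := hUq.mul (hSq.pow p)
  have h2 : H708.HasQExp 1 (R ^ p) (coeffMap Deg457.iotaC r ^ p) := hRq.pow p
  have hser : coeffMap Deg457.iotaC (((v ^ p : FF N) : FF N) : LaurentSeries Kbar)
        * coeffMap Deg457.iotaC s ^ p = coeffMap Deg457.iotaC r ^ p := by
    rw [← map_pow, ← map_pow, ← map_mul]
    congr 1
    have : (((v ^ p : FF N) : FF N) : LaurentSeries Kbar)
        = ((v : FF N) : LaurentSeries Kbar) ^ p := rfl
    rw [this, hvrs, div_pow, div_mul_cancel₀ _ (pow_ne_zero p hs0)]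
  rw [hser] at h1
  have hfun : (fun τ => U τ ^ p) * S ^ p = R ^ p := h1.eq_of_eq h2
  -- a point where `R` does not vanish
  have hR0 : R ≠ 0 := by
    intro h0
    have := (hRq.eq_zero_iff).mpr h0
    exact hr0 ((coeffMap Deg457.iotaC).injective (by rw [this, map_zero]))
  obtain ⟨τ₀, hτ₀⟩ : ∃ τ₀ : ℍ, R τ₀ ≠ 0 := by
    by_contra hcon
    push Not at hcon
    exact hR0 (funext hcon)
  have hpt : ∀ τ : ℍ, (U τ * S τ) ^ p = R τ ^ p := by
    intro τ
    have := congrFun hfun τ
    simpa [mul_pow] using this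
  have hUS0 : U τ₀ * S τ₀ ≠ 0 := by
    intro h0
    have := hpt τ₀
    rw [h0, zero_pow (NeZero.ne p)] at this
    exact pow_ne_zero p hτ₀ this.symm
  set ξ : ℂ := U τ₀ * S τ₀ / R τ₀ with hξ
  have hξp : ξ ^ p = 1 := by
    rw [hξ, div_pow, hpt τ₀, div_self (pow_ne_zero p hτ₀)]
  have hAB : (fun τ => U τ * S τ) = (fun τ => ξ * R τ) := by
    refine H751.eq_of_pow_eq_UHP (hU.mul hSg.1) ((mdifferentiable_const (c := ξ)).mul hRg.1)
      (NeZero.ne p) (fun τ => ?_) (τ₀ := τ₀) ?_ hUS0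
    · rw [hpt τ, mul_pow, hξp, one_mul]
    · show U τ₀ * S τ₀ = ξ * R τ₀
      rw [hξ, div_mul_cancel₀ _ hτ₀]
  refine ⟨τ₀, left_ne_zero_of_mul hUS0, fun γ hγ => ?_⟩
  have e1 : U (γ • τ₀) * S (γ • τ₀) = ξ * R (γ • τ₀) := congrFun hAB (γ • τ₀)
  have e2 : U τ₀ * S τ₀ = ξ * R τ₀ := congrFun hAB τ₀
  rw [hSg.2.1 γ hγ τ₀, hRg.2.1 γ hγ τ₀, ← e2] at e1
  exact mul_right_cancel₀ (right_ne_zero_of_mul hUS0) e1

/-- PIECE `K4-INJ`: only the trivial character has Kummer class `0`. -/
theorem isKum_zero_right (N : ℕ) [NeZero N] (p : ℕ) [NeZero p] {c : G0 N → ZMod p}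
    (h : IsKum N p c (0 : JZero N)) : c = 0 := by
  obtain ⟨f, t, U, ht, hx, hU, hR⟩ := h
  have hp0 : (p : ℤ) ≠ 0 := Int.natCast_ne_zero.mpr (NeZero.ne p)
  obtain ⟨g, hg, hfg⟩ := (hx.eq_zero_iff hp0).mp rfl
  have hf : f ≠ 0 := hx.ne_zero
  -- `f / g ^ p` is a constant
  have hgp : g ^ p ≠ 0 := pow_ne_zero p hg
  have hu0 : f * (g ^ p)⁻¹ ≠ 0 := mul_ne_zero hf (inv_ne_zero hgp)
  have hord : ∀ w : Place Kbar (FF N), w.ord (f * (g ^ p)⁻¹) = 0 := by
    intro w
    rw [Place.ord_mul w hf (inv_ne_zero hgp), Place.ord_inv, hfg w, ← zpow_natCast g p,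
      Place.ord_zpow]
    ring
  obtain ⟨a, ha⟩ := Fermat.Agent.S18.H504.constOfOrdZero_modularFunctionFieldBar N _ hu0 hord
  obtain ⟨b, hb⟩ := IsAlgClosed.exists_pow_nat_eq a (Nat.pos_of_ne_zero (NeZero.ne p))
  have hb0 : b ≠ 0 := by
    rintro rfl
    rw [zero_pow (NeZero.ne p)] at hb
    rw [← hb, map_zero] at ha
    exact hu0 ha
  set v : FF N := algebraMap Kbar (FF N) b * g * t with hv
  have hv0 : v ≠ 0 :=
    mul_ne_zero (mul_ne_zero ((map_ne_zero _).mpr hb0) hg) ht
  have hvp : v ^ p = f * t ^ p := by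
    have h1 : f = algebraMap Kbar (FF N) a * g ^ p := by
      rw [← ha, mul_assoc, inv_mul_cancel₀ hgp, mul_one]
    rw [hv, mul_pow, mul_pow, ← map_pow, hb, ← h1]
  rw [← hvp] at hR
  obtain ⟨τ₀, hτ₀, hinv⟩ := exists_invariant_point N p hv0 hU.mdiff hR
  funext γ
  apply eq_zero_of_zetaP_pow_val
  have h1 := hU.hasChar γ τ₀
  have h2 := hinv (γ : SL(2, ℤ)) γ.2
  rw [h2] at h1
  have h3 : (zetaP p ^ (c γ).val - 1) * U τ₀ = 0 := by
    rw [sub_mul, one_mul, ← h1, sub_self]
  rcases mul_eq_zero.mp h3 with h4 | h4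
  · exact sub_eq_zero.mp h4
  · exact absurd h4 hτ₀

end Fermat.Agent.S29.H718

end
end
-- ===== PACK-END S29/H718/KInj.lean

-- ===== PACK-BEGIN A3/H319/Level.lean
section











/-!
# A3 / LEVEL (helper319): `levelStatement : S19.LevelStatement`

The torsion `J₀(N)[ℓ^k]` embeds Galois-equivariantly into `J₀(N p)[ℓ^k]` for every prime `p ≠ ℓ`
(we need `p = 2` for `ℓ = 3` and `p = 3` for `ℓ = 2`): the map is the pull-back (conorm) along
the Prelude degeneracy map `heckeAlphaBar N p` (inclusion of function fields).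

Injectivity uses the Kummer dictionary on main instead of ramification theory:
`x` is the Kummer class of an additive character `c` of `Γ₀(N)` (ONTO, `S30.H810`), its pull-back
is the Kummer class of `c|Γ₀(N p)` (`isKum_levelPull`), which vanishes if the pull-back is `0`
(`S29.H718.isKum_zero_right`); a character of `Γ₀(N)` with values in `ℤ/ℓ^k` vanishing on
`Γ₀(N p)` is `0` (`eq_zero_of_forall_mem_Gamma0_mul`), hence `x = 0` (`S29.M4b.H89.isKum_unique`).
-/

set_option autoImplicit false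
set_option linter.style.haveILetI false

noncomputable section

namespace Fermat.Agent.A3.H319

open ModularCurve AlgebraicCurve CongruenceSubgroup UpperHalfPlane
open Fermat.Agent.S24 Fermat.Agent.S29 Fermat.Agent.S29.M4b
open scoped MatrixGroups Manifold

variable (N p : ℕ) [NeZero N] [NeZero p]

/-- The degeneracy map `α : FF N → FF (N p)` (inclusion) is integral. -/
theorem levelAlpha_integral : (heckeAlphaBar Kbar N p).toRingHom.IsIntegral :=
  H812.isIntegral_of_finiteAlong (H812.finiteAlong_heckeAlphaBar N p)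

theorem levelAlpha_fundId :
    haveI : HasPrincipalDivisors Kbar (FF (N * p)) :=
      Fermat.Agent.Lib.RR.H864.hasPrincipalDivisors_modularFunctionFieldBar (N * p)
    FundamentalIdentityAlong Kbar (heckeAlphaBar Kbar N p) (levelAlpha_integral N p) := by
  haveI : HasPrincipalDivisors Kbar (FF (N * p)) :=
    Fermat.Agent.Lib.RR.H864.hasPrincipalDivisors_modularFunctionFieldBar (N * p)
  exact H812.fundamentalIdentityAlong (H812.exists_coord_modular N) (heckeAlphaBar Kbar N p)
    (H812.finiteAlong_heckeAlphaBar N p) (levelAlpha_integral N p)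

/-- The pull-back (conorm) `J₀(N)(ℚ̄) → J₀(N p)(ℚ̄)`. -/
def levelPull : JZero N →+ JZero (N * p) :=
  haveI : HasPrincipalDivisors Kbar (FF (N * p)) :=
    Fermat.Agent.Lib.RR.H864.hasPrincipalDivisors_modularFunctionFieldBar (N * p)
  pic0Pull (heckeAlphaBar Kbar N p) (levelAlpha_integral N p) (levelAlpha_fundId N p)

/-- The pull-back is Galois-equivariant. -/
theorem levelPull_smul (σ : Kbar ≃ₐ[ℚ] Kbar) (x : JZero N) :
    levelPull N p (σ • x) = σ • levelPull N p x := by
  haveI : HasPrincipalDivisors Kbar (FF (N * p)) :=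
    Fermat.Agent.Lib.RR.H864.hasPrincipalDivisors_modularFunctionFieldBar (N * p)
  rw [galois_smul_pic0_def, galois_smul_pic0_def]
  exact pic0Pull_smul (heckeAlphaBar Kbar N p) (levelAlpha_integral N p) (levelAlpha_fundId N p)
    (H571.intertwines_heckeAlphaBar N p σ) x

/-- Restriction of a function on `Γ₀(N)` to `Γ₀(N p)`. -/
def resG0 {A : Type*} (c : G0 N → A) : G0 (N * p) → A :=
  fun γ => c ⟨(γ : SL(2, ℤ)), Gamma0_mul_le N p γ.2⟩

omit [NeZero N] [NeZero p] in
theorem goodRing_mul_le : H648.goodRing N ≤ H648.goodRing (N * p) := by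
  rintro f ⟨h1, h2, h3⟩
  exact ⟨h1, fun γ hγ τ => h2 γ (Gamma0_mul_le N p hγ) τ, h3⟩

/-- **Kummer classes pull back**: if `x` is the Kummer class of `c` at level `N`, then the
pull-back of `x` is the Kummer class of `c|Γ₀(N p)` at level `N p`. -/
theorem isKum_levelPull {n : ℕ} {c : G0 N → ZMod n} {x : JZero N} (h : IsKum N n c x) :
    IsKum (N * p) n (resG0 N p c) (levelPull N p x) := by
  haveI : HasPrincipalDivisors Kbar (FF (N * p)) :=
    Fermat.Agent.Lib.RR.H864.hasPrincipalDivisors_modularFunctionFieldBar (N * p)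
  obtain ⟨f, t, U, ht, hx, hU, hR⟩ := h
  refine ⟨heckeAlphaBar Kbar N p f, heckeAlphaBar Kbar N p t, U,
    (map_ne_zero (heckeAlphaBar Kbar N p)).mpr ht,
    isKummerClass_pic0Pull (heckeAlphaBar Kbar N p) (levelAlpha_integral N p)
      (levelAlpha_fundId N p) hx,
    ⟨hU.mdiff, hU.ne_zero, fun γ τ => hU.hasChar ⟨(γ : SL(2, ℤ)), Gamma0_mul_le N p γ.2⟩ τ,
      goodRing_mul_le N p hU.pow_mem⟩,
    goodRing_mul_le N p hR.1, ?_⟩
  rw [hR.2, ← map_pow, ← map_mul, coe_heckeAlphaBar]

/-- `ℤ/n` has no `p`-torsion when `p` is prime to `n`. -/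
theorem zmod_eq_zero_of_nsmul {n p : ℕ} (h : Nat.Coprime p n) (a : ZMod n) (ha : p • a = 0) :
    a = 0 := by
  rw [nsmul_eq_mul] at ha
  have hu : IsUnit ((p : ℕ) : ZMod n) := (ZMod.unitOfCoprime p h).isUnit
  exact (hu.mul_right_eq_zero).mp ha

/-- **Injectivity of the pull-back on torsion prime to `p`.** -/
theorem eq_zero_of_levelPull_eq_zero (hp : p.Prime) (n : ℕ) [NeZero n] (hnp : Nat.Coprime p n)
    {x : JZero N} (hx : (n : ℤ) • x = 0) (h0 : levelPull N p x = 0) : x = 0 := by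
  obtain ⟨c, hc⟩ := Fermat.Agent.S30.H810.exists_isKum_of_torsion N n hx
  have hadd := fun γ γ' => Fermat.Agent.S30.Fin.fin_isKum_map_mul hc γ γ'
  have h1 := isKum_levelPull N p hc
  rw [h0] at h1
  have hres : resG0 N p c = 0 := Fermat.Agent.S29.H718.isKum_zero_right (N * p) n h1
  have hc0 : c = 0 := by
    funext γ
    exact eq_zero_of_forall_mem_Gamma0_mul hp (zmod_eq_zero_of_nsmul hnp) c hadd
      (fun γ hγ => congrFun hres ⟨(γ : SL(2, ℤ)), hγ⟩) γ
  obtain ⟨c₀, hc₀⟩ := Fermat.Agent.S30.H810.exists_isKum_of_torsion N n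
    (x := (0 : JZero N)) (smul_zero _)
  have hc₀0 : c₀ = 0 := Fermat.Agent.S29.H718.isKum_zero_right N n hc₀
  rw [hc0] at hc
  rw [hc₀0] at hc₀
  exact Fermat.Agent.S29.M4b.H89.isKum_unique N n hc hc₀

open Fermat.Agent.S19 in
/-- The pull-back on `ℓ^k`-torsion. -/
def torsPull (ℓ k : ℕ) : Tors N ℓ k →+ Tors (N * p) ℓ k :=
  (((levelPull N p).toIntLinearMap).restrict
    (p := Submodule.torsionBy ℤ (JZero N) ((ℓ : ℤ) ^ k))
    (q := Submodule.torsionBy ℤ (JZero (N * p)) ((ℓ : ℤ) ^ k)) (fun x hx => by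
      rw [Submodule.mem_torsionBy_iff] at hx ⊢
      rw [← map_smul, hx, map_zero])).toAddMonoidHom

open Fermat.Agent.S19 in
theorem coe_torsPull (ℓ k : ℕ) (x : Tors N ℓ k) :
    ((torsPull N p ℓ k x : Tors (N * p) ℓ k) : JZero (N * p)) = levelPull N p (x : JZero N) :=
  rfl

open Fermat.Agent.S19 in
theorem torsPull_injective (hp : p.Prime) (ℓ k : ℕ) (hℓ : ℓ.Prime) (hℓp : ℓ ≠ p) :
    Function.Injective (torsPull N p ℓ k) := by
  rw [injective_iff_map_eq_zero]
  intro x hx
  have h0 : levelPull N p (x : JZero N) = 0 := by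
    rw [← coe_torsPull, hx]; rfl
  haveI : NeZero (ℓ ^ k) := ⟨pow_ne_zero k hℓ.ne_zero⟩
  have hcop : Nat.Coprime p (ℓ ^ k) :=
    Nat.Coprime.pow_right k ((Nat.coprime_primes hp hℓ).mpr (Ne.symm hℓp))
  have hx' : ((ℓ ^ k : ℕ) : ℤ) • (x : JZero N) = 0 := by
    have := (Submodule.mem_torsionBy_iff _ _).mp x.2
    push_cast
    exact this
  exact Subtype.ext (eq_zero_of_levelPull_eq_zero N p hp (ℓ ^ k) hcop hx' h0)

open Fermat.Agent.S19 in
theorem torsPull_torsAct (ℓ k : ℕ) (σ : GalQ) (x : Tors N ℓ k) :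
    torsPull N p ℓ k (torsAct N ℓ k σ x) = torsAct (N * p) ℓ k σ (torsPull N p ℓ k x) := by
  apply Subtype.ext
  rw [coe_torsPull, coe_torsAct, coe_torsAct, coe_torsPull]
  exact levelPull_smul N p σ (x : JZero N)

open Fermat.Agent.S19 in
/-- **LEVEL node of A3** (frozen interface `Fermat.Agent.S19.LevelStatement`). -/
theorem levelStatement : Fermat.Agent.S19.LevelStatement := by
  intro N _ ℓ hℓ hℓN k
  have hprime : ℓ.Prime := hℓ.out
  by_cases h5 : 5 ≤ ℓ
  · exact ⟨N, inferInstance, k, hℓN, Or.inl h5, AddMonoidHom.id _, Function.injective_id,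
      fun _ _ => rfl⟩
  · -- `ℓ = 2` or `ℓ = 3`
    have hℓ23 : ℓ = 2 ∨ ℓ = 3 := by
      have h2 := hprime.two_le
      have hlt : ℓ < 5 := not_le.mp h5
      interval_cases ℓ
      · exact Or.inl rfl
      · exact Or.inr rfl
      · exact absurd hprime (by decide)
    rcases hℓ23 with rfl | rfl
    · -- `ℓ = 2`, auxiliary prime `3`
      by_cases h3 : 3 ∣ N
      · exact ⟨N, inferInstance, k, hℓN, Or.inr (Or.inr ⟨rfl, h3⟩), AddMonoidHom.id _,
          Function.injective_id, fun _ _ => rfl⟩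
      · refine ⟨N * 3, inferInstance, k, ?_, Or.inr (Or.inr ⟨rfl, dvd_mul_left 3 N⟩),
          torsPull N 3 2 k, torsPull_injective N 3 Nat.prime_three 2 k Nat.prime_two (by decide),
          fun σ x => torsPull_torsAct N 3 2 k σ x⟩
        intro h
        rcases (Nat.Prime.dvd_mul Nat.prime_two).mp h with h | h
        · exact hℓN h
        · exact absurd h (by decide)
    · -- `ℓ = 3`, auxiliary prime `2`
      by_cases h2 : 2 ∣ N
      · exact ⟨N, inferInstance, k, hℓN, Or.inr (Or.inl ⟨rfl, h2⟩), AddMonoidHom.id _,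
          Function.injective_id, fun _ _ => rfl⟩
      · refine ⟨N * 2, inferInstance, k, ?_, Or.inr (Or.inl ⟨rfl, dvd_mul_left 2 N⟩),
          torsPull N 2 3 k, torsPull_injective N 2 Nat.prime_two 3 k Nat.prime_three (by decide),
          fun σ x => torsPull_torsAct N 2 3 k σ x⟩
        intro h
        rcases (Nat.Prime.dvd_mul Nat.prime_three).mp h with h | h
        · exact hℓN h
        · exact absurd h (by decide)

end Fermat.Agent.A3.H319

end
end
-- ===== PACK-END A3/H319/Level.lean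

-- ===== PACK-BEGIN S19/Top4.lean
section





/-!
# Cell A3 (S19) — top assembly, v4: frozen S19 from the TWO open leaves

Proved on main and discharged here: ORD, FIN, CONT (`Top2`), LEVEL (`A3.H319.levelStatement`),
UNR (`H679.unrStatementH679`, helper679; backup: UA/UB/UC of helper859), RANK ONE
(`H979.rankOneStatement`).

    S19_of_local  : LocalStatement → frozen S19
    S19_of_abs_gr : H979.AbsLocalStatement → H979.GrStatement → frozen S19

Open leaves: LOCAL-ABS (`H979.AbsLocalStatement` = the abstract local theorem of `A3/H799`) and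
GR (`H979.GrStatement` = the `GoodRed` instance for `X₀(M)` at good levels).
-/

set_option autoImplicit false

namespace Fermat.Agent.S19

/-- **Top assembly v4a**: frozen S19 from LOCAL. -/
theorem S19_of_local (hlocal : LocalStatement)
    (p : ℕ) [NeZero p] (ℓ : ℕ) [Fact ℓ.Prime] (hℓp : ¬ ℓ ∣ p) (k : ℕ) :
    FrozenConclusion p ℓ k :=
  S19_of_three H679.unrStatementH679 hlocal Fermat.Agent.A3.H319.levelStatement p ℓ hℓp k

/-- **Top assembly v4b**: frozen S19 from the two open leaves LOCAL-ABS and GR. -/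
theorem S19_of_abs_gr (habs : H979.AbsLocalStatement) (hgr : H979.GrStatement)
    (p : ℕ) [NeZero p] (ℓ : ℕ) [Fact ℓ.Prime] (hℓp : ¬ ℓ ∣ p) (k : ℕ) :
    FrozenConclusion p ℓ k :=
  S19_of_local (H979.localStatement_of_abs_gr' habs hgr) p ℓ hℓp k

end Fermat.Agent.S19

end
-- ===== PACK-END S19/Top4.lean

-- ===== PACK-BEGIN A3/H255/LocalClosed.lean
section




/-!
# A3 / LOCAL (helper255): the abstract LOCAL theorem, unconditionally

`localStatement : A3.H799.LocalStatement K F k Fk` for every `GoodRed` interface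
(`localStatement_of_det` of helper799 + the leaf DET of `A3/H255/Det.lean`), and the block
`AbsLocalStatement` of `S19/H979/LocalGlue.lean`.

So `S19.LocalStatement` is reduced to `GrStatement` (good reduction of `X₀(N)`) alone:
`localStatement_of_gr`.
-/

set_option autoImplicit false

namespace Fermat.Agent.A3.H255

universe u₁ u₂ u₃ u₄

variable {K : Type u₁} {F : Type u₂} {k : Type u₃} {Fk : Type u₄}
  [Field K] [Field F] [Algebra K F] [Field k] [Field Fk] [Algebra k Fk]

/-- **The abstract LOCAL theorem** (frozen `A3.H799.LocalStatement`), unconditionally. -/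
theorem localStatement [IsAlgClosed K] [IsAlgClosed k] [CharZero K] :
    Fermat.Agent.A3.H799.LocalStatement K F k Fk :=
  Fermat.Agent.A3.H799.localStatement_of_det Det.detStatement

/-- The block `AbsLocalStatement` of `S19/H979/LocalGlue.lean`. -/
theorem absLocalStatement : Fermat.Agent.S19.H979.AbsLocalStatement :=
  fun _ _ _ _ _ _ _ _ _ => localStatement

/-- `S19.LocalStatement` (node LOCAL of `S19/Spec.lean`) from good reduction of `X₀(N)` alone. -/
theorem localStatement_of_gr (hG : Fermat.Agent.S19.H979.GrStatement) :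
    Fermat.Agent.S19.LocalStatement :=
  Fermat.Agent.S19.H979.localStatement_of_abs_gr' absLocalStatement hG

end Fermat.Agent.A3.H255

end
-- ===== PACK-END A3/H255/LocalClosed.lean

-- ===== PACK-BEGIN S19/Top5.lean
section




/-!
# Cell A3 (S19) — top assembly, v5: frozen S19 from GR alone

Proved on main and discharged here: everything of `Top4` and LOCAL-ABS
(`A3.H255.absLocalStatement`: the abstract local theorem of helper799's team, all leaves closed).

    S19_of_gr        : H979.GrStatement → frozen S19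
    S19_of_gr_leaves : (RedLeaf, GenusLeaf, OrthLeaf of `A3/H739/GrAsm.lean`) → frozen S19

The only open block of the cell is GR (good reduction of `X₀(M)` at good levels).
-/

set_option autoImplicit false

namespace Fermat.Agent.S19

/-- **Top assembly v5a**: frozen S19 from GR. -/
theorem S19_of_gr (hgr : H979.GrStatement)
    (p : ℕ) [NeZero p] (ℓ : ℕ) [Fact ℓ.Prime] (hℓp : ¬ ℓ ∣ p) (k : ℕ) :
    FrozenConclusion p ℓ k :=
  S19_of_abs_gr Fermat.Agent.A3.H255.absLocalStatement hgr p ℓ hℓp k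

open Fermat.Agent.A3.H739 in
/-- **Top assembly v5b**: frozen S19 from the three leaves of GR. -/
theorem S19_of_gr_leaves
    (hred : ∀ (N : ℕ) [NeZero N] (ℓ : ℕ) [Fact ℓ.Prime], ¬ ℓ ∣ N → GoodLevel N ℓ →
      ∀ V : ValuationSubring Qb, V.LiesOverPrime ℓ → RedLeaf N V)
    (hgen : ∀ (N : ℕ) [NeZero N] (ℓ : ℕ) [Fact ℓ.Prime], ¬ ℓ ∣ N → GoodLevel N ℓ →
      ∀ V : ValuationSubring Qb, V.LiesOverPrime ℓ → GenusLeaf N V)
    (horth : ∀ (N : ℕ) [NeZero N] (ℓ : ℕ) [Fact ℓ.Prime] (hℓN : ¬ ℓ ∣ N), GoodLevel N ℓ →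
      ∀ (V : ValuationSubring Qb) (hV : V.LiesOverPrime ℓ), OrthLeaf N V (gr_vg N hℓN V hV))
    (p : ℕ) [NeZero p] (ℓ : ℕ) [Fact ℓ.Prime] (hℓp : ¬ ℓ ∣ p) (k : ℕ) :
    FrozenConclusion p ℓ k :=
  S19_of_gr (grStatement_of_leaves_forall hred hgen horth) p ℓ hℓp k

end Fermat.Agent.S19

end
-- ===== PACK-END S19/Top5.lean

-- ===== PACK-BEGIN A3/H615/GrFinal.lean
section




/-!
# Cell A3 / GR: the block GR closed, and the frozen S19 conclusion (helper615)

All three leaves of helper739's assembly are on main: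
RED (`GrRed.redLeaf`), GENUS from ORTH (`GrGenus.genusLeaf_of_orthLeaf`),
ORTH (`A3.H499.orthLeaf`, helper499).  Hence `S19.H979.GrStatement` and, by `S19.S19_of_gr`
(row-lead helper15), the conclusion of the frozen statement S19.
-/

set_option autoImplicit false
set_option synthInstance.maxHeartbeats 400000

namespace Fermat.Agent.A3.H615

/-- **Block GR**: good reduction of `X₀(N)` at good levels. -/
theorem grStatement : Fermat.Agent.S19.H979.GrStatement :=
  GrGenus.grStatement_of_orth fun N _ _ _ hℓN _ V hV =>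
    Fermat.Agent.A3.H499.orthLeaf N hℓN V hV (Fermat.Agent.A3.H739.gr_vg N hℓN V hV)

/-- **The conclusion of the frozen statement S19.** -/
theorem frozenS19 (p : ℕ) [NeZero p] (ℓ : ℕ) [Fact ℓ.Prime] (hℓp : ¬ ℓ ∣ p) (k : ℕ) :
    Fermat.Agent.S19.FrozenConclusion p ℓ k :=
  Fermat.Agent.S19.S19_of_gr grStatement p ℓ hℓp k

end Fermat.Agent.A3.H615

end
-- ===== PACK-END A3/H615/GrFinal.lean

-- ===== PACK-BEGIN S15/H946/HopfE.lean
section





/-!
# S15 / DESC / T1 HOPF-E — the Hopf model of `E_x`  (helper946)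

For a level `N`, a prime `ℓ ∤ N` and a RATIONAL point `x ∈ J₀(N)(ℚ)`:

    hopfModel_Ex : S19.HopfModel ℓ (Ex ℓ x) (actE ℓ x hx)

i.e. the extension `E_x` of `ℤ/ℓ` by `J₀(N)[ℓ]` whose class is the Kummer class of `x`
(`Ex.lean`) is, Galois-equivariantly, the group of `ℚ̄`-points of a finite flat commutative
cocommutative Hopf algebra over `ℤ_(ℓ)`: "Kummer classes of rational points are FLAT at `ℓ`".

Chain: `torsorLocal` (T1-ABS, `TorsorLocal.lean`) at a good level (`ℓ ≥ 5`: `N`; `ℓ = 2`: `3N`,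
`ℓ = 3`: `2N`, via the conorm `A3.H319.levelPull`) with the good-reduction datum
`A3.H615.grStatement`  ⟹  `S19.LocalCoordDatum`  ⟹ (UNR, `S19.H679`)  `CoordDatum`
⟹  `OrderDatum`  ⟹ (ORD, `S19.H15`)  `HopfModel`.

Sorry-free.
-/

set_option autoImplicit false

noncomputable section

open AlgebraicCurve ModularCurve

namespace Fermat.Agent.S15.H946

open Fermat.Agent.S19 Fermat.Agent.A3.H799

/-! ### Open stabilisers of division points of rational points -/

section FiniteLevel

variable (F₀ : IntermediateField ℚ (LaurentSeries ℚ))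

/-- A Galois element fixing the divisor `X` and the function `f` with `n D - X = div f`, `n ≠ 0`,
fixes the class of `D`. -/
theorem smul_mk_eq_of_fixes_sub (σ : AlgebraicClosure ℚ ≃ₐ[ℚ] AlgebraicClosure ℚ)
    (D : Divisor.degZero (K := AlgebraicClosure ℚ)
      (F := laurentBaseChange (AlgebraicClosure ℚ) F₀))
    {n : ℤ} (hn : n ≠ 0) (X : Divisor (AlgebraicClosure ℚ)
      (laurentBaseChange (AlgebraicClosure ℚ) F₀))
    (hX : arithmeticGalois F₀ σ • X = X)
    (f : laurentBaseChange (AlgebraicClosure ℚ) F₀)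
    (hD : ∀ v : Place (AlgebraicClosure ℚ) (laurentBaseChange (AlgebraicClosure ℚ) F₀),
      n * (D : Divisor _ _) v - X v = v.ord f)
    (hσ : coeffMap (σ : AlgebraicClosure ℚ →+* AlgebraicClosure ℚ)
      (f : LaurentSeries (AlgebraicClosure ℚ)) = f) :
    σ • (Pic0.mk D) = Pic0.mk D := by
  set g := arithmeticGalois F₀ σ with hg
  have hgf : g • f = f := Subtype.ext (by rw [coe_arithmeticGalois_smul, hσ])
  have hgf' : g⁻¹ • f = f := by
    conv_lhs => rw [← hgf]
    exact inv_smul_smul g f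
  rw [galois_smul_pic0_def, SemilinearAut.pic0_smul_mk]
  refine congrArg Pic0.mk (Subtype.ext ?_)
  rw [SemilinearAut.coe_degZeroSMulHom]
  ext w
  rw [SemilinearAut.divisor_smul_apply]
  have h1 := hD (g⁻¹ • w)
  have h2 := hD w
  have h3 : (g⁻¹ • w).ord f = w.ord f := by
    have := SemilinearAut.ord_smul g⁻¹ w f
    rwa [hgf'] at this
  have h4 : X (g⁻¹ • w) = X w := by
    have := congrArg (fun Y : Divisor _ _ => Y w) hX
    simp only [SemilinearAut.divisor_smul_apply] at this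
    exact this
  rw [h3, ← h2, h4] at h1
  have h5 : n * (D : Divisor _ _) (g⁻¹ • w) = n * (D : Divisor _ _) w := by linarith
  exact mul_left_cancel₀ hn h5

/-- **FINLEVEL for division points.**  If `n • s` (`n ≠ 0`) is the class of a Galois-invariant
divisor, then `s` is fixed by `Gal(ℚ̄/L)` for some finite extension `L/ℚ`. -/
theorem exists_finiteLevel_of_zsmul_eq_mk
    (s : Pic0 (AlgebraicClosure ℚ) (laurentBaseChange (AlgebraicClosure ℚ) F₀))
    {n : ℤ} (hn : n ≠ 0)
    (X : Divisor.degZero (K := AlgebraicClosure ℚ)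
      (F := laurentBaseChange (AlgebraicClosure ℚ) F₀))
    (hX : ∀ σ : AlgebraicClosure ℚ ≃ₐ[ℚ] AlgebraicClosure ℚ,
      arithmeticGalois F₀ σ •
        (X : Divisor (AlgebraicClosure ℚ) (laurentBaseChange (AlgebraicClosure ℚ) F₀)) = X)
    (hs : n • s = Pic0.mk X) :
    ∃ L : IntermediateField ℚ (AlgebraicClosure ℚ), FiniteDimensional ℚ L ∧
      ∀ σ : AlgebraicClosure ℚ ≃ₐ[ℚ] AlgebraicClosure ℚ, (∀ a ∈ L, σ a = a) → σ • s = s := by
  obtain ⟨D, rfl⟩ := Pic0.mk_surjective s
  have h0 : Pic0.mk (n • D - X) = 0 := by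
    have h1 : Pic0.mk (n • D - X) = Pic0.mk (n • D) - Pic0.mk X :=
      map_sub (QuotientAddGroup.mk' _) (n • D) X
    have h2 : Pic0.mk (n • D) = n • Pic0.mk D :=
      map_zsmul (QuotientAddGroup.mk' _) n D
    rw [h1, h2, hs, sub_self]
  have h1 : ((n • D - X : Divisor.degZero (K := AlgebraicClosure ℚ)
      (F := laurentBaseChange (AlgebraicClosure ℚ) F₀)) : Divisor _ _)
      ∈ Divisor.principal (K := AlgebraicClosure ℚ)
        (F := laurentBaseChange (AlgebraicClosure ℚ) F₀) := by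
    have := (QuotientAddGroup.eq_zero_iff _).mp h0
    exact AddSubgroup.mem_addSubgroupOf.mp this
  obtain ⟨f, -, hf⟩ := h1
  obtain ⟨L, hL, hLσ⟩ := Fermat.Agent.S29.H571.seriesFiniteLevel_of_mem (F₀ := F₀) f.2
  have hD : ∀ v : Place (AlgebraicClosure ℚ) (laurentBaseChange (AlgebraicClosure ℚ) F₀),
      n * (D : Divisor _ _) v - (X : Divisor _ _) v = v.ord f := by
    intro v
    rw [← hf v]
    simp
  exact ⟨L, hL, fun σ hσ =>
    smul_mk_eq_of_fixes_sub F₀ σ D hn
      (X := ((X : Divisor (AlgebraicClosure ℚ) (laurentBaseChange (AlgebraicClosure ℚ) F₀))))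
      (hX σ) f hD (hLσ σ hσ)⟩

end FiniteLevel

/-! ### The good level -/

/-- **Level selection.**  Every level `N` prime to `ℓ` maps, by an additive Galois-equivariant map
which is injective on `ℓ`-torsion, to a GOOD level (conorm to level `3N` if `ℓ = 2`, `2N` if
`ℓ = 3`). -/
theorem exists_goodLevel_pull (N : ℕ) [NeZero N] (ℓ : ℕ) [hℓ : Fact ℓ.Prime] (hℓN : ¬ ℓ ∣ N) :
    ∃ (M' : ℕ) (_ : NeZero M'), ¬ ℓ ∣ M' ∧ GoodLevel M' ℓ ∧
      ∃ lp : JZero N →+ JZero M', (∀ (σ : GalQ) (s : JZero N), lp (σ • s) = σ • lp s) ∧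
        ∀ s : JZero N, (ℓ : ℤ) • s = 0 → lp s = 0 → s = 0 := by
  have hprime : ℓ.Prime := hℓ.out
  have : NeZero ℓ := ⟨hprime.ne_zero⟩
  by_cases h5 : 5 ≤ ℓ
  · exact ⟨N, inferInstance, hℓN, Or.inl h5, AddMonoidHom.id _, fun _ _ => rfl,
      fun s _ h => h⟩
  · have hℓ23 : ℓ = 2 ∨ ℓ = 3 := by
      have h2 := hprime.two_le
      have hlt : ℓ < 5 := not_le.mp h5
      interval_cases ℓ
      · exact Or.inl rfl
      · exact Or.inr rfl
      · exact absurd hprime (by decide)
    rcases hℓ23 with rfl | rfl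
    · by_cases h3 : 3 ∣ N
      · exact ⟨N, inferInstance, hℓN, Or.inr (Or.inr ⟨rfl, h3⟩), AddMonoidHom.id _,
          fun _ _ => rfl, fun s _ h => h⟩
      · refine ⟨N * 3, inferInstance, ?_, Or.inr (Or.inr ⟨rfl, dvd_mul_left 3 N⟩),
          Fermat.Agent.A3.H319.levelPull N 3,
          fun σ s => Fermat.Agent.A3.H319.levelPull_smul N 3 σ s,
          fun s hs h0 => Fermat.Agent.A3.H319.eq_zero_of_levelPull_eq_zero N 3 Nat.prime_three 2
            (by decide) (by exact_mod_cast hs) h0⟩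
        intro h
        rcases (Nat.Prime.dvd_mul Nat.prime_two).mp h with h | h
        · exact hℓN h
        · exact absurd h (by decide)
    · by_cases h2 : 2 ∣ N
      · exact ⟨N, inferInstance, hℓN, Or.inr (Or.inl ⟨rfl, h2⟩), AddMonoidHom.id _,
          fun _ _ => rfl, fun s _ h => h⟩
      · refine ⟨N * 2, inferInstance, ?_, Or.inr (Or.inl ⟨rfl, dvd_mul_left 2 N⟩),
          Fermat.Agent.A3.H319.levelPull N 2,
          fun σ s => Fermat.Agent.A3.H319.levelPull_smul N 2 σ s,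
          fun s hs h0 => Fermat.Agent.A3.H319.eq_zero_of_levelPull_eq_zero N 2 Nat.prime_two 3
            (by decide) (by exact_mod_cast hs) h0⟩
        intro h
        rcases (Nat.Prime.dvd_mul Nat.prime_three).mp h with h | h
        · exact hℓN h
        · exact absurd h (by decide)

/-! ### The Hopf model of `E_x` -/

section Main

variable (N : ℕ) [NeZero N] (ℓ : ℕ) [hℓ : Fact ℓ.Prime] (x : JZero N)
  (hx : ∀ σ : GalQ, σ • x = x)

/-- The torsor-set datum of `E_x` at a level `M'` receiving `N`. -/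
def exTorsorData {M' : ℕ} (lp : JZero N →+ JZero M')
    (hinj : ∀ s : JZero N, (ℓ : ℤ) • s = 0 → lp s = 0 → s = 0) :
    TorsorData (Ex ℓ x) (AlgebraicClosure ℚ) (modularFunctionFieldBar M') where
  Q := ZMod ℓ
  κ := kap ℓ x
  ρ := fun m => lp (rep ℓ x m)
  inj := fun m m' hk hr => eq_of_kap_rep ℓ x hk (by
    have h1 : (ℓ : ℤ) • (rep ℓ x m - rep ℓ x m') = 0 := by
      rw [zsmul_sub, smul_rep, smul_rep, hk, sub_self]
    have h2 : lp (rep ℓ x m - rep ℓ x m') = 0 := by
      rw [map_sub, hr, sub_self]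
    exact sub_eq_zero.1 (hinj _ h1 h2))
  μ := fun j j' => j + j'
  κ_add := fun m m' => map_add _ m m'
  c := fun j j' => lp (carry ℓ x j j')
  ρ_add := fun m m' => by rw [rep_add, map_add, map_add]

/-- `E_x` is finite. -/
theorem finite_Ex_JZero : Finite (Ex ℓ x) := by
  have : Finite (Submodule.torsionBy ℤ (JZero N) (ℓ : ℤ)) := by
    have h := Fermat.Agent.A3.H319.finStatement N ℓ 1
    have e : Tors N ℓ 1 = Submodule.torsionBy ℤ (JZero N) (ℓ : ℤ) := by
      show ↥(Submodule.torsionBy ℤ (JZero N) ((ℓ : ℤ) ^ 1)) = _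
      rw [pow_one]
    rwa [e] at h
  exact finite_Ex ℓ x

/-- The Galois action on `E_x` is additive with open stabilisers. -/
theorem isContAddAction_Ex : IsContAddAction (fun σ : GalQ => ⇑(actE ℓ x hx σ)) := by
  refine ⟨fun m => actE_one ℓ x hx m, fun σ τ m => actE_mul ℓ x hx σ τ m,
    fun σ m m' => map_add _ m m', fun m => ?_⟩
  -- open stabiliser of the representative
  have hℓ0 : (ℓ : ℤ) ≠ 0 := by exact_mod_cast hℓ.out.ne_zero
  have hxmem : x ∈ FixedPoints.addSubgroup
      (AlgebraicClosure ℚ ≃ₐ[ℚ] AlgebraicClosure ℚ) (JZero N) := fun σ => hx σ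
  set X := Fermat.Agent.S17.H680.minDiv (Fermat.Agent.S17.H680.JZero.cusp N) x with hXdef
  have hXmk : Pic0.mk X = x := Fermat.Agent.S17.H680.mk_minDiv _ x
  have hXσ : ∀ σ : AlgebraicClosure ℚ ≃ₐ[ℚ] AlgebraicClosure ℚ,
      arithmeticGalois (modularFunctionFieldFull N) σ •
        (X : Divisor (AlgebraicClosure ℚ) (modularFunctionFieldBar N)) = X := fun σ =>
    Fermat.Agent.S17.H680.smul_minDiv_eq _
      (Fermat.Agent.S17.H680.JZero.galois_smul_cusp N σ) (hx σ)
  set j : ℤ := ((kap ℓ x m).val : ℤ) with hj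
  have hXjσ : ∀ σ : AlgebraicClosure ℚ ≃ₐ[ℚ] AlgebraicClosure ℚ,
      arithmeticGalois (modularFunctionFieldFull N) σ • ((j • X : Divisor.degZero
        (K := AlgebraicClosure ℚ) (F := modularFunctionFieldBar N)) :
          Divisor (AlgebraicClosure ℚ) (modularFunctionFieldBar N)) =
        ((j • X : Divisor.degZero (K := AlgebraicClosure ℚ)
          (F := modularFunctionFieldBar N)) :
            Divisor (AlgebraicClosure ℚ) (modularFunctionFieldBar N)) := by
    intro σ
    rw [AddSubgroup.coe_zsmul, smul_comm, hXσ σ]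
  have hs : (ℓ : ℤ) • rep ℓ x m = Pic0.mk (j • X) := by
    have h2 : Pic0.mk (j • X) = j • Pic0.mk X := map_zsmul (QuotientAddGroup.mk' _) j X
    rw [smul_rep, h2, hXmk]
  obtain ⟨L, hL, hLσ⟩ := exists_finiteLevel_of_zsmul_eq_mk (modularFunctionFieldFull N)
    (rep ℓ x m) hℓ0 (j • X) hXjσ hs
  exact ⟨L, hL, fun σ hσ => actE_eq_self_of_rep ℓ x hx (hLσ σ hσ)⟩

/-- **Local coordinates on `E_x`** at a place above `ℓ`. -/
theorem exists_localCoordDatum_Ex (hℓN : ¬ ℓ ∣ N) :
    Nonempty (LocalCoordDatum ℓ (Ex ℓ x) (fun σ : GalQ => ⇑(actE ℓ x hx σ))) := by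
  obtain ⟨M', _, hℓM', hgood, lp, hlpσ, hlpinj⟩ := exists_goodLevel_pull N ℓ hℓN
  obtain ⟨k, _, _, Fk, _, _, 𝓡, hℓV, hI⟩ := Fermat.Agent.A3.H615.grStatement M' ℓ hℓM' hgood
  have hrank := H979.rankOneStatement ℓ 𝓡.V hℓV
  have : Finite (Ex ℓ x) := finite_Ex_JZero N ℓ x
  obtain ⟨ι, hι, Ψ, hinj, hint, heq, hadd⟩ :=
    torsorLocal (K := AlgebraicClosure ℚ) (F := modularFunctionFieldBar M') (k := k) (Fk := Fk)
      𝓡 hrank (Ex ℓ x) (exTorsorData N ℓ x lp hlpinj)
  refine ⟨{ V := 𝓡.V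
            ell_mem := hℓV
            ι := ι
            fin := hι
            Ψ := Ψ
            inj := hinj
            integral := hint
            equivariant := ?_
            add_mem := hadd }⟩
  intro σ hσ m i
  refine heq (arithmeticGalois (modularFunctionFieldFull M') σ) (hI σ hσ) m (actE ℓ x hx σ m)
    (kap_actE ℓ x hx σ m) ?_ i
  show lp (rep ℓ x (actE ℓ x hx σ m)) = _
  rw [rep_actE, hlpσ]
  rfl

/-- **T1 HOPF-E.**  For every rational point `x` of `J₀(N)` and every prime `ℓ ∤ N`, the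
extension `E_x` of `ℤ/ℓ` by `J₀(N)[ℓ]` (class = Kummer class of `x`) has a Hopf model over
`ℤ_(ℓ)`. -/
theorem hopfModel_Ex (hℓN : ¬ ℓ ∣ N) :
    HopfModel ℓ (Ex ℓ x) (fun σ : GalQ => ⇑(actE ℓ x hx σ)) := by
  have : Finite (Ex ℓ x) := finite_Ex_JZero N ℓ x
  obtain ⟨L⟩ := exists_localCoordDatum_Ex N ℓ x hx hℓN
  obtain ⟨C⟩ := H679.unrStatementH679 ℓ (Ex ℓ x) _ (isContAddAction_Ex N ℓ x hx) L
  exact H15.ordStatement ℓ (Ex ℓ x) _
    (orderDatum_of_coordDatum (fun σ a b => map_add (actE ℓ x hx σ) a b) C)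

end Main

end Fermat.Agent.S15.H946

end
end
-- ===== PACK-END S15/H946/HopfE.lean

-- ===== PACK-BEGIN S15/H946/T1.lean
section



/-!
# S15 / DESC / leaf T1 (HOPF-E) in the EXACT skeleton shape  (helper946)

    theorem t1 : H975.T1Statement

`M := Ex r x` with `x := r y` (`Ex.lean`), `act := actE`, `ι := iot`, `y' := ptE y`; the Hopf model
is `hopfModel_Ex` (`HopfE.lean`).  Sorry-free.
-/

set_option autoImplicit false

noncomputable section

open ModularCurve

namespace Fermat.Agent.S15.H946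

open Fermat.Agent.S15.H975

/-- `J₀(p)[r]` in the skeleton's form is `torsionBy ℤ J r`. -/
def torsToTorsionBy (p : ℕ) [NeZero p] (r : ℕ) :
    ↥(tors p r) →+ Submodule.torsionBy ℤ (JZero p) (r : ℤ) where
  toFun w := ⟨(w : JZero p), by
    rw [Submodule.mem_torsionBy_iff, natCast_zsmul]
    exact w.2⟩
  map_zero' := rfl
  map_add' _ _ := rfl

theorem torsToTorsionBy_injective (p : ℕ) [NeZero p] (r : ℕ) :
    Function.Injective (torsToTorsionBy p r) := by
  intro w w' h
  exact Subtype.ext (congrArg (fun t : Submodule.torsionBy ℤ (JZero p) (r : ℤ) => (t : JZero p)) h)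

/-- `ℓ · pt y = 0` in `E_x`. -/
theorem nsmul_ptE {J : Type} [AddCommGroup J] (ℓ : ℕ) (x : J) (y : J) (hy : (ℓ : ℤ) • y = x) :
    ℓ • ptE ℓ x y hy = 0 := by
  have h1 : ℓ • ptE ℓ x y hy = QuotientAddGroup.mk (genE ℓ x) := by
    unfold ptE mkE
    rw [← QuotientAddGroup.mk_nsmul]
    refine congrArg _ (Subtype.ext ?_)
    refine Prod.ext ?_ ?_
    · show ℓ • y = x
      rw [← hy, natCast_zsmul]
    · show ℓ • (1 : ℤ) = (ℓ : ℤ)
      simp
  rw [h1]
  exact (QuotientAddGroup.eq_zero_iff _).2 (AddSubgroup.mem_zmultiples _)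

/-- **Leaf T1 (HOPF-E)**, verbatim. -/
theorem t1 : T1Statement := by
  intro p _ hp r hr hrp y hy
  have : Fact r.Prime := ⟨hr⟩
  have hrN : ¬ r ∣ p := fun h => hrp ((Nat.prime_dvd_prime_iff_eq hr hp).1 h)
  have hx : ∀ σ : Fermat.Agent.S19.GalQ, σ • ((r : ℤ) • y) = (r : ℤ) • y := by
    intro σ
    rw [natCast_zsmul]
    exact hy σ
  have hfin : Finite (Ex r ((r : ℤ) • y)) := finite_Ex_JZero p r _
  refine ⟨Ex r ((r : ℤ) • y), inferInstance, hfin, fun σ => ⇑(actE r ((r : ℤ) • y) hx σ),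
    (iot r ((r : ℤ) • y)).comp (torsToTorsionBy p r), ptE r ((r : ℤ) • y) y rfl,
    isContAddAction_Ex p r _ hx, hopfModel_Ex p r _ hx hrN,
    (iot_injective r _).comp (torsToTorsionBy_injective p r), nsmul_ptE r _ y rfl,
    ?_, ?_, ?_, ?_⟩
  · rintro j ⟨w, hw⟩
    have h := congrArg (kap r ((r : ℤ) • y)) hw
    rw [AddMonoidHom.comp_apply, kap_iot, map_nsmul, kap_ptE, nsmul_one] at h
    exact (ZMod.natCast_eq_zero_iff j r).1 h.symm
  · intro m
    obtain ⟨w, hw⟩ := exists_eq_iot_add r ((r : ℤ) • y) y rfl m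
    have hwmem : (w : JZero p) ∈ tors p r := by
      show r • (w : JZero p) = 0
      have h := (Submodule.mem_torsionBy_iff _ _).1 w.2
      rwa [natCast_zsmul] at h
    have e1 : ((iot r ((r : ℤ) • y)).comp (torsToTorsionBy p r)) ⟨(w : JZero p), hwmem⟩ =
        iot r ((r : ℤ) • y) w := rfl
    have e2 : (((kap r ((r : ℤ) • y) m).val : ℤ)) • ptE r ((r : ℤ) • y) y rfl =
        (kap r ((r : ℤ) • y) m).val • ptE r ((r : ℤ) • y) y rfl := natCast_zsmul _ _
    refine ⟨(kap r ((r : ℤ) • y) m).val, ⟨(w : JZero p), hwmem⟩, ?_⟩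
    rw [e1, ← e2, add_comm]
    exact hw
  · intro σ w w' hww'
    show actE r ((r : ℤ) • y) hx σ (iot r ((r : ℤ) • y) (torsToTorsionBy p r w)) = _
    rw [actE_iot]
    exact congrArg (iot r ((r : ℤ) • y)) (Subtype.ext hww'.symm)
  · intro σ w hw
    show actE r ((r : ℤ) • y) hx σ (ptE r ((r : ℤ) • y) y rfl) = _
    rw [actE_ptE]
    exact congrArg (fun t => ptE r ((r : ℤ) • y) y rfl + iot r ((r : ℤ) • y) t)
      (Subtype.ext hw.symm)

end Fermat.Agent.S15.H946

end
end
-- ===== PACK-END S15/H946/T1.lean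

-- ===== PACK-BEGIN S15/H106/PeuJ.lean
section





/-!
# S15 / DESC, leaves PEU1J and PEUwJ, UNCONDITIONAL (helper106)

`peu1J : H975.Peu1JStatement` and `peuOmegaJ : H975.PeuOmegaJStatement`, in the exact shapes of
`Fermat/Agent/S15/H975/DescSpec.lean`, from

* the glue `peu1J_of`, `peuOmegaJ_of` of `Fermat/Agent/S15/H106/PeuGlue.lean`,
* leaf T1 (`Fermat.Agent.S15.H946.t1`, helper946),
* leaves T2 (`Fermat.Agent.S15.H379.t2One`, `Fermat.Agent.S15.H379.t2Omega`, helper379),
* the ORD block (`Fermat.Agent.S19.H15.ordStatement`).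
-/

set_option autoImplicit false

namespace Fermat.Agent.S15.H106

/-- **PEU-1 on `J`**, exact skeleton shape, unconditional. -/
theorem peu1J : Fermat.Agent.S15.H975.Peu1JStatement :=
  peu1J_of Fermat.Agent.S19.H15.ordStatement Fermat.Agent.S15.H946.t1
    Fermat.Agent.S15.H379.t2One

/-- **PEU-ω on `J`**, exact skeleton shape, unconditional. -/
theorem peuOmegaJ : Fermat.Agent.S15.H975.PeuOmegaJStatement :=
  peuOmegaJ_of Fermat.Agent.S19.H15.ordStatement Fermat.Agent.S15.H946.t1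
    Fermat.Agent.S15.H379.t2Omega

end Fermat.Agent.S15.H106

end
-- ===== PACK-END S15/H106/PeuJ.lean

-- ===== PACK-BEGIN S15/H975/Top.lean
section










/-!
# Row S15: the PLAIN TOP — every node plugged in (row-lead helper975)

`S15_top` is the frozen statement S15 (Mazur's key step), unconditional.

* GEO   : `H602.geoStatement_all602` (helper602; pieces of helper962, helper542, helper182,
          helper722, helper362);
* FLAG  : `H628.flagStatement` (helper628);
* COUNT : `H111.count` (helper111; CONJ helper337, EPS helper221);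
* STEP  : `H322.step_of_leaves` (helper322) on `H106.g3`, `H106.peu1J`, `H106.peuOmegaJ`
          (helper106; T1 helper946, T2 helper379);
* PROJ  : `H466.projStatement_of` (helper466) + `S29.heckeOperatorsCommuteBar` (helper801);
* the rest (MW, DIV, ALG0, FIN, RTF, T6'', Hecke–Galois, CNT, ENGINE, CUSP, TOP) is plugged in
  `H975/Final.lean`.

Consumers (rows S12, S09, packers): import THIS file, never `Fermat/Agent/S15.lean`.
-/

set_option autoImplicit false

noncomputable section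

open WeierstrassCurve WeierstrassCurve.Affine

namespace Fermat.Agent.S15.H975

open ModularCurve Fermat.Agent.S15

/-- **FLAG** (helper628). -/
theorem flagStatement : FlagStatement := Fermat.Agent.S15.H628.flagStatement

/-- **PROJ** (helper466, helper801). -/
theorem projStatement : Fermat.Agent.S15.H466.ProjStatement :=
  Fermat.Agent.S15.H466.projStatement_of finStatement heckeGalStatement
    fun p _ => Fermat.Agent.S29.heckeOperatorsCommuteBar p

/-- **COUNT** (helper111; CONJ helper337, EPS helper221). -/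
theorem countStatement : CountStatement := Fermat.Agent.S15.H111.count

/-- **STEP** (helper322; G3 and PEU-J helper106, T1 helper946, T2 helper379). -/
theorem stepStatement : StepStatement :=
  Fermat.Agent.S15.H322.step_of_leaves Fermat.Agent.S15.H106.g3 Fermat.Agent.S15.H106.peu1J
    Fermat.Agent.S15.H106.peuOmegaJ

/-- **SEL**, unconditional. -/
theorem selStatement : SelStatement :=
  selStatement_of_open flagStatement countStatement stepStatement projStatement

/-- **GEO**, unconditional (helper602). -/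
theorem geoStatement (p : ℕ) [NeZero p] (hp : p.Prime)
    (hp' : p ∉ ({2, 3, 5, 7, 13} : Finset ℕ)) : Core.GeoStatement p :=
  Fermat.Agent.S15.H602.geoStatement_all602 p hp hp'

/-- **The frozen statement S15**, unconditional. -/
theorem S15_top
    {p : ℕ} (hp : p.Prime) (hp' : p ∉ ({2, 3, 5, 7, 13} : Finset ℕ))
    (W : WeierstrassCurve ℤ) (hΔ : W.Δ ≠ 0)
    (Q : ((W.map (Int.castRingHom ℚ))⁄(AlgebraicClosure ℚ)).Point)
    (hQfix : ∀ σ : AlgebraicClosure ℚ ≃ₐ[ℚ] AlgebraicClosure ℚ, σ • Q = Q)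
    (hQord : addOrderOf Q = p)
    (h2Δ : (2 : ℤ) ∣ W.Δ) (h2c₄ : ¬ (2 : ℤ) ∣ W.c₄)
    (h2 : ∀ A : ValuationSubring (AlgebraicClosure ℚ), A.LiesOverPrime 2 →
      ¬ W.InZeroComponentAt A Q)
    (h3Δ : (3 : ℤ) ∣ W.Δ) (h3c₄ : ¬ (3 : ℤ) ∣ W.c₄)
    (h3 : ∀ A : ValuationSubring (AlgebraicClosure ℚ), A.LiesOverPrime 3 →
      ¬ W.InZeroComponentAt A Q)
    {ℓ : ℕ} (hℓ : ℓ.Prime) (hℓp : ℓ ≠ p) (hℓΔ : (ℓ : ℤ) ∣ W.Δ) (hℓc₄ : ¬ (ℓ : ℤ) ∣ W.c₄)
    (A : ValuationSubring (AlgebraicClosure ℚ)) (hA' : A.LiesOverPrime ℓ) :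
    ¬ W.InZeroComponentAt A Q :=
  S15_of_open (fun p _ hp hp' => geoStatement p hp hp') flagStatement countStatement
    stepStatement projStatement
    hp hp' W hΔ Q hQfix hQord h2Δ h2c₄ h2 h3Δ h3c₄ h3 hℓ hℓp hℓΔ hℓc₄ A hA'

end Fermat.Agent.S15.H975

end

end
-- ===== PACK-END S15/H975/Top.lean

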