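import Mathlib
import Fermat.Prelude.Def_FLTPrelim_GaloisRep
import Fermat.Prelude.Def_FLTPrelim_Modularity
import Fermat.Prelude.Def_FLTPrelim_ModularRep
import Fermat.Prelude.Def_FLTPrelim_Ramification
import Fermat.Prelude.Def_EllipticCurve_FrobeniusTrace

-- ===== PACK-BEGIN S12/H291/Endgame.lean
section


/-!
# S12 one-step route: the `2`-adic endgame (helper291)

`X` odd, `32 ∣ Y ≠ 0`, `p` odd:  `16^(p-1) ((X + Y)^p - X^p) ≠ Y^p`.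
(The left side has `2`-adic valuation `4(p-1) + v₂(Y)`, the right side `p · v₂(Y)`, and
`v₂(Y) ≥ 5`.)
-/

set_option autoImplicit false

namespace Fermat.Agent.S12.H291

lemma intCast_zmod_two_of_odd {X : ℤ} (hX : Odd X) : ((X : ℤ) : ZMod 2) = 1 := by
  obtain ⟨k, rfl⟩ := hX
  push_cast
  have : (2 : ZMod 2) = 0 := rfl
  rw [this, zero_mul, zero_add]

/-- `∑_{i<p} Z^i X^(p-1-i)` is odd for `Z`, `X` odd and `p` odd. -/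
lemma odd_geom_sum₂ {X Z : ℤ} {p : ℕ} (hp : Odd p) (hX : Odd X) (hZ : Odd Z) :
    Odd (∑ i ∈ Finset.range p, Z ^ i * X ^ (p - 1 - i)) := by
  have hX1 := intCast_zmod_two_of_odd hX
  have hZ1 := intCast_zmod_two_of_odd hZ
  have hS1 : ((∑ i ∈ Finset.range p, Z ^ i * X ^ (p - 1 - i) : ℤ) : ZMod 2) = 1 := by
    push_cast
    simp only [hX1, hZ1, one_pow, mul_one, Finset.sum_const, Finset.card_range, nsmul_eq_mul]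
    obtain ⟨k, rfl⟩ := hp
    push_cast
    have : (2 : ZMod 2) = 0 := rfl
    rw [this, zero_mul, zero_add]
  rw [← Int.not_even_iff_odd]
  intro hev
  obtain ⟨t, ht⟩ := hev
  rw [ht] at hS1
  push_cast at hS1
  have h2 : (t : ZMod 2) + (t : ZMod 2) = 0 := by
    have : (t : ZMod 2) + (t : ZMod 2) = 2 * (t : ZMod 2) := by ring
    rw [this]
    have : (2 : ZMod 2) = 0 := rfl
    rw [this, zero_mul]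
  rw [h2] at hS1
  exact zero_ne_one hS1

/-- **Endgame.** -/
theorem endgame {X Y : ℤ} {p : ℕ} (hp : Odd p) (hp1 : 1 < p) (hX : Odd X) (hY : (32 : ℤ) ∣ Y)
    (hY0 : Y ≠ 0) : (16 : ℤ) ^ (p - 1) * ((X + Y) ^ p - X ^ p) ≠ Y ^ p := by
  intro h
  have hYeven : Even Y := by
    obtain ⟨t, rfl⟩ := hY
    exact ⟨16 * t, by ring⟩
  have hZ : Odd (X + Y) := hX.add_even hYeven
  have hS := odd_geom_sum₂ hp hX hZ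
  set S := ∑ i ∈ Finset.range p, (X + Y) ^ i * X ^ (p - 1 - i) with hSdef
  have hgeom : S * Y = (X + Y) ^ p - X ^ p := by
    have := (Commute.all (X + Y) X).geom_sum₂_mul p
    rw [add_sub_cancel_left] at this
    exact this
  rw [← hgeom] at h
  have hp' : p = (p - 1) + 1 := by omega
  have h1 : (16 : ℤ) ^ (p - 1) * S = Y ^ (p - 1) := by
    apply mul_right_cancel₀ hY0
    rw [← pow_succ, ← hp']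
    linear_combination h
  obtain ⟨t, rfl⟩ := hY
  have h2 : S = 2 ^ (p - 1) * t ^ (p - 1) := by
    have h16 : (16 : ℤ) ^ (p - 1) ≠ 0 := pow_ne_zero _ (by norm_num)
    apply mul_left_cancel₀ h16
    rw [h1, ← mul_assoc, ← mul_pow, ← mul_pow]
    norm_num
  have hev : Even S := by
    rw [h2]
    have hp2 : p - 1 = (p - 2) + 1 := by omega
    rw [hp2, pow_succ]
    exact ⟨2 ^ (p - 2) * t ^ (p - 2 + 1), by ring⟩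
  exact (Int.not_even_iff_odd.mpr hS) hev

end Fermat.Agent.S12.H291

end
-- ===== PACK-END S12/H291/Endgame.lean

-- ===== PACK-BEGIN S51/FiveAlg.lean
section


/-!
# S51, the `5`-side: algebraic identities

Pure polynomial identities behind the `x`-coordinate duplication map on a Weierstrass curve,
the `5`-division polynomial, and the Hauptmodul `h = Δ / (x(P) - x(2P))^6` of `X₀(5)`.
-/

open WeierstrassCurve WeierstrassCurve.Affine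

namespace Fermat.Agent.S51.Five

variable {K : Type*} [Field K]

/-- value of the `2`-torsion polynomial -/
def dD (b₂ b₄ b₆ x : K) : K := 4*x^3 + b₂*x^2 + 2*b₄*x + b₆
/-- numerator of the duplication map -/
def dN (b₄ b₆ b₈ x : K) : K := x^4 - b₄*x^2 - 2*b₆*x - b₈
/-- value of the `3`-division polynomial -/
def dPsi3 (b₂ b₄ b₆ b₈ x : K) : K := 3*x^4 + b₂*x^3 + 3*b₄*x^2 + 3*b₆*x + b₈
/-- value of `ψ₄ / ψ₂` -/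
def dPre4 (b₂ b₄ b₆ b₈ x : K) : K :=
  2*x^6 + b₂*x^5 + 5*b₄*x^4 + 10*b₆*x^3 + 10*b₈*x^2 + (b₂*b₈ - b₄*b₆)*x + (b₄*b₈ - b₆^2)
/-- value of the `5`-division polynomial -/
def dPsi5 (b₂ b₄ b₆ b₈ x : K) : K :=
  dPre4 b₂ b₄ b₆ b₈ x * (dD b₂ b₄ b₆ x)^2 - (dPsi3 b₂ b₄ b₆ b₈ x)^3
/-- `D(N/D) * D^3` -/
def dD2 (b₂ b₄ b₆ b₈ x : K) : K :=
  4*(dN b₄ b₆ b₈ x)^3 + b₂*(dN b₄ b₆ b₈ x)^2*(dD b₂ b₄ b₆ x)
    + 2*b₄*(dN b₄ b₆ b₈ x)*(dD b₂ b₄ b₆ x)^2 + b₆*(dD b₂ b₄ b₆ x)^3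
/-- `N(N/D) * D^4` -/
def dN2 (b₂ b₄ b₆ b₈ x : K) : K :=
  (dN b₄ b₆ b₈ x)^4 - b₄*(dN b₄ b₆ b₈ x)^2*(dD b₂ b₄ b₆ x)^2
    - 2*b₆*(dN b₄ b₆ b₈ x)*(dD b₂ b₄ b₆ x)^3 - b₈*(dD b₂ b₄ b₆ x)^4

lemma id1 (b₂ b₄ b₆ b₈ x : K) :
    dN b₄ b₆ b₈ x - x * dD b₂ b₄ b₆ x = - dPsi3 b₂ b₄ b₆ b₈ x := by
  simp only [dN, dD, dPsi3]; ring

lemma id2 (b₂ b₄ b₆ b₈ x : K) (hb : 4 * b₈ = b₂ * b₆ - b₄^2) (h4 : (4:K) ≠ 0) :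
    dD2 b₂ b₄ b₆ b₈ x = (dPre4 b₂ b₄ b₆ b₈ x)^2 := by
  have hb8 : b₈ = (b₂ * b₆ - b₄^2)/4 := by field_simp; linear_combination hb
  subst hb8
  simp only [dD2, dN, dD, dPre4]
  field_simp
  ring

lemma id3 (b₂ b₄ b₆ b₈ x : K) (hb : 4 * b₈ = b₂ * b₆ - b₄^2) (h4 : (4:K) ≠ 0) :
    dN2 b₂ b₄ b₆ b₈ x - x * dD b₂ b₄ b₆ x * dD2 b₂ b₄ b₆ b₈ x
      = - dPsi3 b₂ b₄ b₆ b₈ x * dPsi5 b₂ b₄ b₆ b₈ x := by
  have hb8 : b₈ = (b₂ * b₆ - b₄^2)/4 := by field_simp; linear_combination hb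
  subst hb8
  simp only [dN2, dD2, dN, dD, dPre4, dPsi5, dPsi3]
  field_simp
  ring

/-- `D(N/D) = D2 / D^3` -/
lemma dD_div (b₂ b₄ b₆ b₈ x : K) (hD : dD b₂ b₄ b₆ x ≠ 0) :
    dD b₂ b₄ b₆ (dN b₄ b₆ b₈ x / dD b₂ b₄ b₆ x) * (dD b₂ b₄ b₆ x)^3 = dD2 b₂ b₄ b₆ b₈ x := by
  rw [dD2]
  generalize dN b₄ b₆ b₈ x = n at *
  generalize dD b₂ b₄ b₆ x = d at *
  simp only [dD]
  field_simp

/-- `N(N/D) = N2 / D^4` -/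
lemma dN_div (b₂ b₄ b₆ b₈ x : K) (hD : dD b₂ b₄ b₆ x ≠ 0) :
    dN b₄ b₆ b₈ (dN b₄ b₆ b₈ x / dD b₂ b₄ b₆ x) * (dD b₂ b₄ b₆ x)^4 = dN2 b₂ b₄ b₆ b₈ x := by
  rw [dN2]
  generalize dN b₄ b₆ b₈ x = n at *
  generalize dD b₂ b₄ b₆ x = d at *
  simp only [dN]
  field_simp

variable (E : WeierstrassCurve.Affine K)

lemma dD_eq {x y : K} (h : E.Equation x y) :
    dD E.b₂ E.b₄ E.b₆ x = (y - E.negY x y)^2 := by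
  rw [Affine.equation_iff] at h
  simp only [dD, Affine.negY, WeierstrassCurve.b₂, WeierstrassCurve.b₄, WeierstrassCurve.b₆]
  linear_combination (-4) * h

lemma dN_eq {x y : K} (h : E.Equation x y) :
    dN E.b₄ E.b₆ E.b₈ x = (3 * x ^ 2 + 2 * E.a₂ * x + E.a₄ - E.a₁ * y)^2
      + E.a₁ * (3 * x ^ 2 + 2 * E.a₂ * x + E.a₄ - E.a₁ * y) * (y - E.negY x y)
      - (E.a₂ + 2 * x) * (y - E.negY x y)^2 := by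
  rw [Affine.equation_iff] at h
  simp only [dN, Affine.negY, WeierstrassCurve.b₄, WeierstrassCurve.b₆,
    WeierstrassCurve.b₈]
  linear_combination (4 * E.a₂ + 8 * x + E.a₁^2) * h

lemma dup_X [DecidableEq K] {x y : K} (h : E.Equation x y) (hy : y ≠ E.negY x y) :
    E.addX x x (E.slope x x y y) * dD E.b₂ E.b₄ E.b₆ x = dN E.b₄ E.b₆ E.b₈ x := by
  rw [Affine.slope_of_Y_ne rfl hy, dD_eq E h, dN_eq E h]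
  have h2 : y - E.negY x y ≠ 0 := sub_ne_zero.mpr hy
  simp only [Affine.addX]
  field_simp
  ring

/-- The key identity for the `X₀(5)` Hauptmodul `h = Δ / (u - v)^6`: if `u = x(P)`, `v = x(2P)`
for a point `P` of order `5`, then `c₄ d^5 = Δ^2 + 10 Δ d^3 + 5 d^6` for `d = (u - v)^2`. -/
lemma hauptmodul_identity [CharZero K] (b₂ b₄ b₆ b₈ u v : K)
    (hb : 4 * b₈ = b₂ * b₆ - b₄^2)
    (R₁ : u^4 - b₄*u^2 - 2*b₆*u - b₈ = v * (4*u^3 + b₂*u^2 + 2*b₄*u + b₆))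
    (R₂ : v^4 - b₄*v^2 - 2*b₆*v - b₈ = u * (4*v^3 + b₂*v^2 + 2*b₄*v + b₆))
    (huv : u ≠ v) :
    (b₂^2 - 24*b₄) * ((u - v)^2)^5 =
      (-b₂^2*b₈ - 8*b₄^3 - 27*b₆^2 + 9*b₂*b₄*b₆)^2
      + 10 * (-b₂^2*b₈ - 8*b₄^3 - 27*b₆^2 + 9*b₂*b₄*b₆) * ((u - v)^2)^3
      + 5 * ((u - v)^2)^6 := by
  have huv' : u - v ≠ 0 := sub_ne_zero.mpr huv
  have R₃ : b₆ = (u+v)*(u^2 - 4*u*v + v^2) - b₂*u*v - b₄*(u+v) := by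
    apply mul_left_cancel₀ huv'
    linear_combination R₂ - R₁
  subst R₃
  linear_combination
    (464*u^8 - 5104*u^7*v - 116*u^7*b₂ + 15440*u^6*v^2 - 404*u^6*v*b₂ + 28*u^6*b₂^2 - 1888*u^6*b₄ +
      944*u^5*v^3 + 7956*u^5*v^2*b₂ + 52*u^5*v*b₂^2 + 12240*u^5*v*b₄ + 4*u^5*b₂^3 + 76*u^5*b₂*b₄ -
      44224*u^4*v^4 - 14348*u^4*v^3*b₂ + 188*u^4*v^2*b₂^2 - 7776*u^4*v^2*b₄ - 88*u^4*v*b₂^3 +
      3804*u^4*v*b₂*b₄ - u^4*b₂^4 - 20*u^4*b₂^2*b₄ + 2332*u^4*b₄^2 + 944*u^3*v^5 - 14348*u^3*v^4*b₂ -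
      3128*u^3*v^3*b₂^2 - 39712*u^3*v^3*b₄ + 108*u^3*v^2*b₂^3 - 12520*u^3*v^2*b₂*b₄ - 3*u^3*v*b₂^4 +
      8*u^3*v*b₂^2*b₄ - 5008*u^3*v*b₄^2 + (1/4)*u^3*b₂^5 - 22*u^3*b₂^3*b₄ + 360*u^3*b₂*b₄^2 +
      15440*u^2*v^6 + 7956*u^2*v^5*b₂ + 188*u^2*v^4*b₂^2 - 7776*u^2*v^4*b₄ + 108*u^2*v^3*b₂^3 -
      12520*u^2*v^3*b₂*b₄ + 55*u^2*v^2*b₂^4 - 1992*u^2*v^2*b₂^2*b₄ - 13656*u^2*v^2*b₄^2 +
      (1/4)*u^2*v*b₂^5 + 86*u^2*v*b₂^3*b₄ - 3528*u^2*v*b₂*b₄^2 + u^2*b₂^4*b₄ - 14*u^2*b₂^2*b₄^2 -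
      704*u^2*b₄^3 - 5104*u*v^7 - 404*u*v^6*b₂ + 52*u*v^5*b₂^2 + 12240*u*v^5*b₄ - 88*u*v^4*b₂^3 +
      3804*u*v^4*b₂*b₄ - 3*u*v^3*b₂^4 + 8*u*v^3*b₂^2*b₄ - 5008*u*v^3*b₄^2 + (1/4)*u*v^2*b₂^5 +
      86*u*v^2*b₂^3*b₄ - 3528*u*v^2*b₂*b₄^2 - (1/4)*u*v*b₂^6 + 19*u*v*b₂^4*b₄ - 284*u*v*b₂^2*b₄^2 -
      2432*u*v*b₄^3 - (1/4)*u*b₂^5*b₄ + 18*u*b₂^3*b₄^2 - 320*u*b₂*b₄^3 + 464*v^8 - 116*v^7*b₂ +
      28*v^6*b₂^2 - 1888*v^6*b₄ + 4*v^5*b₂^3 + 76*v^5*b₂*b₄ - v^4*b₂^4 - 20*v^4*b₂^2*b₄ +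
      2332*v^4*b₄^2 + (1/4)*v^3*b₂^5 - 22*v^3*b₂^3*b₄ + 360*v^3*b₂*b₄^2 + v^2*b₂^4*b₄ -
      14*v^2*b₂^2*b₄^2 - 704*v^2*b₄^3 - (1/4)*v*b₂^5*b₄ + 18*v*b₂^3*b₄^2 - 320*v*b₂*b₄^3 -
      (1/4)*b₂^4*b₄^2 + 16*b₂^2*b₄^3 - 256*b₄^4) * R₁
    + (116*u^8 - 1276*u^7*v - 29*u^7*b₂ + 3860*u^6*v^2 - 101*u^6*v*b₂ - 4*u^6*b₂^2 - 472*u^6*b₄ +
      236*u^5*v^3 + 1989*u^5*v^2*b₂ + 79*u^5*v*b₂^2 + 3060*u^5*v*b₄ + u^5*b₂^3 + 19*u^5*b₂*b₄ -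
      11056*u^4*v^4 - 3587*u^4*v^3*b₂ + 44*u^4*v^2*b₂^2 - 1944*u^4*v^2*b₄ + 5*u^4*v*b₂^3 +
      951*u^4*v*b₂*b₄ - (1/4)*u^4*b₂^4 + 22*u^4*b₂^2*b₄ + 583*u^4*b₄^2 + 236*u^3*v^5 - 3587*u^3*v^4*b₂
      - 1102*u^3*v^3*b₂^2 - 9928*u^3*v^3*b₄ - 54*u^3*v^2*b₂^3 - 3130*u^3*v^2*b₂*b₄ - (3/4)*u^3*v*b₂^4
      - 52*u^3*v*b₂^2*b₄ - 1252*u^3*v*b₄^2 - u^3*b₂^3*b₄ + 90*u^3*b₂*b₄^2 + 3860*u^2*v^6 +
      1989*u^2*v^5*b₂ + 44*u^2*v^4*b₂^2 - 1944*u^2*v^4*b₄ - 54*u^2*v^3*b₂^3 - 3130*u^2*v^3*b₂*b₄ +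
      (1/4)*u^2*v^2*b₂^4 - 660*u^2*v^2*b₂^2*b₄ - 3414*u^2*v^2*b₄^2 + (1/4)*u^2*v*b₂^5 -
      19*u^2*v*b₂^3*b₄ - 882*u^2*v*b₂*b₄^2 + (1/4)*u^2*b₂^4*b₄ - 17*u^2*b₂^2*b₄^2 - 176*u^2*b₄^3 -
      1276*u*v^7 - 101*u*v^6*b₂ + 79*u*v^5*b₂^2 + 3060*u*v^5*b₄ + 5*u*v^4*b₂^3 + 951*u*v^4*b₂*b₄ -
      (3/4)*u*v^3*b₂^4 - 52*u*v^3*b₂^2*b₄ - 1252*u*v^3*b₄^2 + (1/4)*u*v^2*b₂^5 - 19*u*v^2*b₂^3*b₄ -
      882*u*v^2*b₂*b₄^2 + (1/4)*u*v*b₂^4*b₄ - 98*u*v*b₂^2*b₄^2 - 608*u*v*b₄^3 - 80*u*b₂*b₄^3 + 116*v^8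
      - 29*v^7*b₂ - 4*v^6*b₂^2 - 472*v^6*b₄ + v^5*b₂^3 + 19*v^5*b₂*b₄ - (1/4)*v^4*b₂^4 +
      22*v^4*b₂^2*b₄ + 583*v^4*b₄^2 - v^3*b₂^3*b₄ + 90*v^3*b₂*b₄^2 + (1/4)*v^2*b₂^4*b₄ -
      17*v^2*b₂^2*b₄^2 - 176*v^2*b₄^3 - 80*v*b₂*b₄^3 - (1/4)*b₂^4*b₈ - 64*b₄^4) * hb

end Fermat.Agent.S51.Five

end
-- ===== PACK-END S51/FiveAlg.lean

-- ===== PACK-BEGIN S13/H891/LadderDef.lean
section


/-!
# S13 / T1: the binary `x`-ladder `(N_k : D_k)` for multiplication by `k`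

Generic definitions over a commutative ring `R`: `b₂ b₄ b₆ b₈ x : R` are the `b`-invariants of a
Weierstrass curve and (the `x`-coordinate of) a point `P`; `lad k = (N_k, D_k)` is a projective
representative of `x(kP)`.  Applied with `R = K` we get values, with `R = K[X]`, `x = X` we get
polynomials.
-/

namespace Fermat.Agent.S13.H891

variable {R : Type*} [CommRing R]

/-- homogenised numerator of the duplication map -/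
def dblN (b₄ b₆ b₈ n d : R) : R := n^4 - b₄*n^2*d^2 - 2*b₆*n*d^3 - b₈*d^4

/-- homogenised denominator of the duplication map -/
def dblD (b₂ b₄ b₆ n d : R) : R := d*(4*n^3 + b₂*n^2*d + 2*b₄*n*d^2 + b₆*d^3)

/-- `x₁ - x₂`, homogenised -/
def addW (n₁ d₁ n₂ d₂ : R) : R := n₁*d₂ - n₂*d₁

/-- `(x₁ - x₂)^2 (x(Q+R) + x(Q-R))`, homogenised -/
def addS (b₂ b₄ b₆ n₁ d₁ n₂ d₂ : R) : R :=
  2*n₁*n₂*(n₁*d₂ + n₂*d₁) + b₂*n₁*n₂*d₁*d₂ + b₄*d₁*d₂*(n₁*d₂ + n₂*d₁) + b₆*d₁^2*d₂^2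

/-- numerator of the differential addition -/
def addN (b₂ b₄ b₆ x n₁ d₁ n₂ d₂ : R) : R :=
  addS b₂ b₄ b₆ n₁ d₁ n₂ d₂ - x * (addW n₁ d₁ n₂ d₂)^2

/-- denominator of the differential addition -/
def addD (n₁ d₁ n₂ d₂ : R) : R := (addW n₁ d₁ n₂ d₂)^2

/-- the ladder: `lad k = (N_k, D_k)` -/
def lad (b₂ b₄ b₆ b₈ x : R) : ℕ → R × R
  | 0 => (1, 0)
  | 1 => (x, 1)
  | (n+2) =>
    if n % 2 = 0 then
      (dblN b₄ b₆ b₈ (lad b₂ b₄ b₆ b₈ x (n/2+1)).1 (lad b₂ b₄ b₆ b₈ x (n/2+1)).2,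
       dblD b₂ b₄ b₆ (lad b₂ b₄ b₆ b₈ x (n/2+1)).1 (lad b₂ b₄ b₆ b₈ x (n/2+1)).2)
    else
      (addN b₂ b₄ b₆ x (lad b₂ b₄ b₆ b₈ x ((n+1)/2)).1 (lad b₂ b₄ b₆ b₈ x ((n+1)/2)).2
          (lad b₂ b₄ b₆ b₈ x ((n+1)/2+1)).1 (lad b₂ b₄ b₆ b₈ x ((n+1)/2+1)).2,
       addD (lad b₂ b₄ b₆ b₈ x ((n+1)/2)).1 (lad b₂ b₄ b₆ b₈ x ((n+1)/2)).2
          (lad b₂ b₄ b₆ b₈ x ((n+1)/2+1)).1 (lad b₂ b₄ b₆ b₈ x ((n+1)/2+1)).2)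
termination_by n => n
decreasing_by all_goals omega

/-- `N_k` -/
def ladN (b₂ b₄ b₆ b₈ x : R) (k : ℕ) : R := (lad b₂ b₄ b₆ b₈ x k).1
/-- `D_k` -/
def ladD (b₂ b₄ b₆ b₈ x : R) (k : ℕ) : R := (lad b₂ b₄ b₆ b₈ x k).2

variable (b₂ b₄ b₆ b₈ x : R)

@[simp] lemma ladN_zero : ladN b₂ b₄ b₆ b₈ x 0 = 1 := by simp [ladN, lad]
@[simp] lemma ladD_zero : ladD b₂ b₄ b₆ b₈ x 0 = 0 := by simp [ladD, lad]
@[simp] lemma ladN_one : ladN b₂ b₄ b₆ b₈ x 1 = x := by simp [ladN, lad]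
@[simp] lemma ladD_one : ladD b₂ b₄ b₆ b₈ x 1 = 1 := by simp [ladD, lad]

lemma lad_even (k : ℕ) (hk : 1 ≤ k) :
    lad b₂ b₄ b₆ b₈ x (2*k) =
      (dblN b₄ b₆ b₈ (ladN b₂ b₄ b₆ b₈ x k) (ladD b₂ b₄ b₆ b₈ x k),
       dblD b₂ b₄ b₆ (ladN b₂ b₄ b₆ b₈ x k) (ladD b₂ b₄ b₆ b₈ x k)) := by
  obtain ⟨j, rfl⟩ : ∃ j, k = j + 1 := ⟨k - 1, by omega⟩
  have h : 2 * (j + 1) = 2 * j + 2 := by ring
  rw [h, lad]
  have h1 : (2 * j) % 2 = 0 := by omega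
  have h2 : (2 * j) / 2 + 1 = j + 1 := by omega
  rw [if_pos h1, h2]
  rfl

lemma lad_odd (k : ℕ) (hk : 1 ≤ k) :
    lad b₂ b₄ b₆ b₈ x (2*k+1) =
      (addN b₂ b₄ b₆ x (ladN b₂ b₄ b₆ b₈ x k) (ladD b₂ b₄ b₆ b₈ x k)
          (ladN b₂ b₄ b₆ b₈ x (k+1)) (ladD b₂ b₄ b₆ b₈ x (k+1)),
       addD (ladN b₂ b₄ b₆ b₈ x k) (ladD b₂ b₄ b₆ b₈ x k)
          (ladN b₂ b₄ b₆ b₈ x (k+1)) (ladD b₂ b₄ b₆ b₈ x (k+1))) := by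
  obtain ⟨j, rfl⟩ : ∃ j, k = j + 1 := ⟨k - 1, by omega⟩
  have h : 2 * (j + 1) + 1 = (2 * j + 1) + 2 := by ring
  rw [h, lad]
  have h1 : ¬ (2 * j + 1) % 2 = 0 := by omega
  have h2 : (2 * j + 1 + 1) / 2 = j + 1 := by omega
  rw [if_neg h1, h2]
  rfl

lemma ladN_even (k : ℕ) (hk : 1 ≤ k) : ladN b₂ b₄ b₆ b₈ x (2*k) =
    dblN b₄ b₆ b₈ (ladN b₂ b₄ b₆ b₈ x k) (ladD b₂ b₄ b₆ b₈ x k) := by
  rw [ladN, lad_even _ _ _ _ _ k hk]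

lemma ladD_even (k : ℕ) (hk : 1 ≤ k) : ladD b₂ b₄ b₆ b₈ x (2*k) =
    dblD b₂ b₄ b₆ (ladN b₂ b₄ b₆ b₈ x k) (ladD b₂ b₄ b₆ b₈ x k) := by
  rw [ladD, lad_even _ _ _ _ _ k hk]

lemma ladN_odd (k : ℕ) (hk : 1 ≤ k) : ladN b₂ b₄ b₆ b₈ x (2*k+1) =
    addN b₂ b₄ b₆ x (ladN b₂ b₄ b₆ b₈ x k) (ladD b₂ b₄ b₆ b₈ x k)
      (ladN b₂ b₄ b₆ b₈ x (k+1)) (ladD b₂ b₄ b₆ b₈ x (k+1)) := by
  rw [ladN, lad_odd _ _ _ _ _ k hk]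

lemma ladD_odd (k : ℕ) (hk : 1 ≤ k) : ladD b₂ b₄ b₆ b₈ x (2*k+1) =
    addD (ladN b₂ b₄ b₆ b₈ x k) (ladD b₂ b₄ b₆ b₈ x k)
      (ladN b₂ b₄ b₆ b₈ x (k+1)) (ladD b₂ b₄ b₆ b₈ x (k+1)) := by
  rw [ladD, lad_odd _ _ _ _ _ k hk]

/-- binary induction principle adapted to the ladder -/
theorem ladder_induction {P : ℕ → Prop} (h1 : P 1)
    (heven : ∀ k, 1 ≤ k → P k → P (2*k))
    (hodd : ∀ k, 1 ≤ k → P k → P (k+1) → P (2*k+1)) : ∀ k, 1 ≤ k → P k := by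
  intro k
  induction k using Nat.strong_induction_on with
  | _ k ih =>
    intro hk
    rcases Nat.even_or_odd' k with ⟨j, rfl | rfl⟩
    · have hj : 1 ≤ j := by omega
      exact heven j hj (ih j (by omega) hj)
    · rcases Nat.eq_zero_or_pos j with rfl | hj
      · exact h1
      · exact hodd j hj (ih j (by omega) hj) (ih (j+1) (by omega) (by omega))

section map

variable {S : Type*} [CommRing S] (φ : R →+* S)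

lemma map_lad (k : ℕ) :
    lad (φ b₂) (φ b₄) (φ b₆) (φ b₈) (φ x) k =
      (φ (lad b₂ b₄ b₆ b₈ x k).1, φ (lad b₂ b₄ b₆ b₈ x k).2) := by
  induction k using Nat.strong_induction_on with
  | _ k ih =>
    match k with
    | 0 => simp [lad]
    | 1 => simp [lad]
    | (n+2) =>
      rw [lad, lad]
      split_ifs with h
      · rw [ih (n/2+1) (by omega)]
        simp only [dblN, dblD, map_sub, map_mul, map_pow, map_add, map_ofNat]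
      · rw [ih ((n+1)/2) (by omega), ih ((n+1)/2+1) (by omega)]
        simp only [addN, addD, addS, addW, map_sub, map_mul, map_pow, map_add, map_ofNat]

lemma map_ladN (k : ℕ) :
    ladN (φ b₂) (φ b₄) (φ b₆) (φ b₈) (φ x) k = φ (ladN b₂ b₄ b₆ b₈ x k) := by
  rw [ladN, map_lad]; rfl

lemma map_ladD (k : ℕ) :
    ladD (φ b₂) (φ b₄) (φ b₆) (φ b₈) (φ x) k = φ (ladD b₂ b₄ b₆ b₈ x k) := by
  rw [ladD, map_lad]; rfl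

end map

end Fermat.Agent.S13.H891

end
-- ===== PACK-END S13/H891/LadderDef.lean

-- ===== PACK-BEGIN Lib/Frob/Statement.lean
section







/-!
# Shared library `Frob` — FROZEN INTERFACE (row S52, row-lead helper472)

`FrobRelation` is the statement "Frobenius satisfies `σ² − a_ℓ σ + ℓ = 0` on the
prime-to-`ℓ` torsion of `W(ℚ̄)`", for a prime `ℓ ≥ 5` of good reduction of the integral model `W`
and EVERY Frobenius element `σ` at EVERY valuation subring of `ℚ̄` above `ℓ`.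

This file only contains definitions (no `sorry`).  The proof is delivered as
`theorem Fermat.Agent.Lib.Frob.frobRelation : FrobRelation` in `Fermat/Agent/Lib/Frob/Main.lean`.
-/

set_option autoImplicit false

open WeierstrassCurve WeierstrassCurve.Affine WeierstrassCurve.Affine.Point

namespace Fermat.Agent.Lib.Frob

/-- `ℚ̄`. -/
abbrev Qb : Type := AlgebraicClosure ℚ

/-- The group of `ℚ̄`-points of the integral Weierstrass model `W` (exactly the type on which the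
Prelude Galois action `instSMulAlgEquiv` and `ModRepIsIrreducible` are defined). -/
abbrev Pts (W : WeierstrassCurve ℤ) : Type :=
  ((W.map (Int.castRingHom ℚ))⁄Qb).Point

/-- **Frobenius relation (T1).**  For a prime `ℓ ≥ 5` with `ℓ ∤ Δ(W)`, a valuation subring `A` of
`ℚ̄` above `ℓ`, a Frobenius element `σ` at `A`, and a point `P ∈ W(ℚ̄)` killed by some `n > 0`
prime to `ℓ`:  `σ²P − a_ℓ(W)·σP + ℓ·P = 0`,  where `a_ℓ(W) = W.apOfModel ℓ = ℓ + 1 − #W(𝔽_ℓ)`. -/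
def FrobRelation : Prop :=
  ∀ (W : WeierstrassCurve ℤ) (ℓ : ℕ), ℓ.Prime → 5 ≤ ℓ → W.IsGoodPrimeFor ℓ →
    ∀ (A : ValuationSubring Qb) (σ : Qb ≃ₐ[ℚ] Qb), A.LiesOverPrime ℓ → A.IsFrobeniusAt σ ℓ →
      ∀ (n : ℕ), 0 < n → ¬ ℓ ∣ n → ∀ P : Pts W, n • P = 0 →
        σ • σ • P - W.apOfModel ℓ • σ • P + (ℓ : ℤ) • P = 0

end Fermat.Agent.Lib.Frob

end
-- ===== PACK-END Lib/Frob/Statement.lean

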