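import Mathlib
import Mathlib.AlgebraicGeometry.EllipticCurve.Affine.AddSubMap
import Mathlib.RingTheory.Polynomial.Basic
import Mathlib.RingTheory.Ideal.Operations
import Mathlib.Algebra.Polynomial.Degree.Lemmas

-- ===== PACK-BEGIN Lib/Cheb/H221/LogEuler.lean
section
/-
CHEB shared library, piece A (helper221): abstract Euler products and their logarithms.

`P` is an index set of "primes", `N : P → ℝ` their norms (`2 ≤ N r`), `c : P → ℂ` unimodular
coefficients.  We study `Λ c s = ∑' r, log (1 - c r * N r ^ (-s))⁻¹`.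
-/


set_option autoImplicit false

namespace Fermat.Agent.Lib.Cheb.H221

open Filter Topology Complex

variable {P : Type*}

/-- The basic quantity `N r ^ (-s)`. -/
noncomputable def xs (N : P → ℝ) (s : ℝ) (r : P) : ℝ := N r ^ (-s)

lemma xs_pos {N : P → ℝ} (hN : ∀ r, 2 ≤ N r) (s : ℝ) (r : P) : 0 < xs N s r :=
  Real.rpow_pos_of_pos (by linarith [hN r]) _

lemma xs_le_half {N : P → ℝ} (hN : ∀ r, 2 ≤ N r) {s : ℝ} (hs : 1 ≤ s) (r : P) :
    xs N s r ≤ 1 / 2 := by
  unfold xs
  have h2 : (0 : ℝ) < 2 := by norm_num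
  calc N r ^ (-s) ≤ (2 : ℝ) ^ (-s) :=
        Real.rpow_le_rpow_of_nonpos h2 (hN r) (by linarith)
    _ ≤ (2 : ℝ) ^ (-1 : ℝ) :=
        Real.rpow_le_rpow_of_exponent_le (by norm_num) (by linarith)
    _ = 1 / 2 := by rw [Real.rpow_neg_one]; norm_num

lemma xs_anti {N : P → ℝ} (hN : ∀ r, 2 ≤ N r) {s t : ℝ} (hst : s ≤ t) (r : P) :
    xs N t r ≤ xs N s r := by
  unfold xs
  exact Real.rpow_le_rpow_of_exponent_le (by linarith [hN r]) (by linarith)

/-- The logarithmic Euler factor. -/
noncomputable def logFactor (N : P → ℝ) (c : P → ℂ) (s : ℝ) (r : P) : ℂ :=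
  Complex.log (1 - c r * (xs N s r : ℂ))⁻¹

/-- The logarithm of the Euler product. -/
noncomputable def logEuler (N : P → ℝ) (c : P → ℂ) (s : ℝ) : ℂ :=
  ∑' r, logFactor N c s r

lemma norm_z_le {N : P → ℝ} (hN : ∀ r, 2 ≤ N r) {c : P → ℂ} (hc : ∀ r, ‖c r‖ ≤ 1)
    (s : ℝ) (r : P) : ‖c r * (xs N s r : ℂ)‖ ≤ xs N s r := by
  rw [norm_mul, Complex.norm_real, Real.norm_of_nonneg (xs_pos hN s r).le]
  calc ‖c r‖ * xs N s r ≤ 1 * xs N s r :=
        mul_le_mul_of_nonneg_right (hc r) (xs_pos hN s r).le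
    _ = xs N s r := one_mul _

lemma norm_z_lt_one {N : P → ℝ} (hN : ∀ r, 2 ≤ N r) {c : P → ℂ} (hc : ∀ r, ‖c r‖ ≤ 1)
    {s : ℝ} (hs : 1 ≤ s) (r : P) : ‖c r * (xs N s r : ℂ)‖ < 1 :=
  lt_of_le_of_lt (norm_z_le hN hc s r) (by linarith [xs_le_half hN hs r])

/-- `‖log (1 - z)⁻¹ - z‖ ≤ x²` for the Euler factors. -/
lemma norm_logFactor_sub_le {N : P → ℝ} (hN : ∀ r, 2 ≤ N r) {c : P → ℂ} (hc : ∀ r, ‖c r‖ ≤ 1)
    {s : ℝ} (hs : 1 ≤ s) (r : P) :
    ‖logFactor N c s r - c r * (xs N s r : ℂ)‖ ≤ xs N s r ^ 2 := by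
  have hz := norm_z_lt_one hN hc hs r
  have hzle := norm_z_le hN hc s r
  have hx := xs_le_half hN hs r
  have hxpos := xs_pos hN s r
  have h1 := Complex.norm_log_one_sub_inv_sub_self_le hz
  refine le_trans h1 ?_
  have hnn : 0 ≤ ‖c r * (xs N s r : ℂ)‖ := norm_nonneg _
  have hinv : (1 - ‖c r * (xs N s r : ℂ)‖)⁻¹ ≤ 2 := by
    rw [inv_le_comm₀ (by linarith) (by norm_num)]
    linarith
  have hsq : ‖c r * (xs N s r : ℂ)‖ ^ 2 ≤ xs N s r ^ 2 :=
    pow_le_pow_left₀ hnn hzle 2
  calc ‖c r * (xs N s r : ℂ)‖ ^ 2 * (1 - ‖c r * (xs N s r : ℂ)‖)⁻¹ / 2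
      ≤ xs N s r ^ 2 * 2 / 2 := by
        apply div_le_div_of_nonneg_right _ (by norm_num : (0 : ℝ) ≤ 2)
        exact mul_le_mul hsq hinv (inv_nonneg.mpr (by linarith)) (by positivity)
    _ = xs N s r ^ 2 := by ring

lemma norm_logFactor_le {N : P → ℝ} (hN : ∀ r, 2 ≤ N r) {c : P → ℂ} (hc : ∀ r, ‖c r‖ ≤ 1)
    {s : ℝ} (hs : 1 ≤ s) (r : P) :
    ‖logFactor N c s r‖ ≤ 2 * xs N s r := by
  have h1 := norm_logFactor_sub_le hN hc hs r
  have h2 := norm_z_le hN hc s r
  have hx := xs_le_half hN hs r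
  have hxpos := xs_pos hN s r
  have h3 : ‖logFactor N c s r‖ ≤ ‖logFactor N c s r - c r * (xs N s r : ℂ)‖
      + ‖c r * (xs N s r : ℂ)‖ := by
    have := norm_add_le (logFactor N c s r - c r * (xs N s r : ℂ)) (c r * (xs N s r : ℂ))
    simpa using this
  have h4 : xs N s r ^ 2 ≤ xs N s r := by
    rw [pow_two]
    calc xs N s r * xs N s r ≤ 1 * xs N s r :=
          mul_le_mul_of_nonneg_right (by linarith) hxpos.le
      _ = xs N s r := one_mul _
  linarith


section summable

variable {N : P → ℝ} (hN : ∀ r, 2 ≤ N r) (hsum : ∀ s : ℝ, 1 < s → Summable (xs N s))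
  {c : P → ℂ} (hc : ∀ r, ‖c r‖ ≤ 1)

include hN hsum hc

lemma summable_logFactor {s : ℝ} (hs : 1 < s) : Summable (logFactor N c s) := by
  refine Summable.of_norm_bounded ((hsum s hs).mul_left 2) ?_
  intro r
  exact norm_logFactor_le hN hc hs.le r

lemma hasSum_logEuler {s : ℝ} (hs : 1 < s) :
    HasSum (logFactor N c s) (logEuler N c s) :=
  (summable_logFactor hN hsum hc hs).hasSum

/-- The Euler product is the exponential of `logEuler`. -/
lemma hasProd_exp_logEuler {s : ℝ} (hs : 1 < s) :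
    HasProd (fun r => (1 - c r * (xs N s r : ℂ))⁻¹) (Complex.exp (logEuler N c s)) := by
  have h := (hasSum_logEuler hN hsum hc hs).cexp
  have e : (Complex.exp ∘ logFactor N c s) = fun r => (1 - c r * (xs N s r : ℂ))⁻¹ := by
    funext r
    simp only [Function.comp, logFactor]
    apply Complex.exp_log
    apply inv_ne_zero
    intro h0
    have hz := norm_z_lt_one hN hc hs.le r
    have : c r * (xs N s r : ℂ) = 1 := by linear_combination -h0
    rw [this, norm_one] at hz
    exact lt_irrefl _ hz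
  rwa [e] at h

/-- Uniqueness: any value of the Euler product is `exp (logEuler)`. -/
lemma exp_logEuler_eq {s : ℝ} (hs : 1 < s) {L : ℂ}
    (hL : HasProd (fun r => (1 - c r * (xs N s r : ℂ))⁻¹) L) :
    Complex.exp (logEuler N c s) = L :=
  (hasProd_exp_logEuler hN hsum hc hs).unique hL

/-- Continuity of the logarithm of the Euler product on `(1, ∞)`. -/
lemma continuousOn_logEuler : ContinuousOn (logEuler N c) (Set.Ioi 1) := by
  intro s hs
  have hs1 : (1 : ℝ) < s := hs
  -- work on the neighbourhood `Ioi s₀`, `s₀ = (1 + s) / 2`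
  obtain ⟨s₀, hs₀1, hs₀s⟩ : ∃ s₀ : ℝ, 1 < s₀ ∧ s₀ < s := ⟨(1 + s) / 2, by linarith, by linarith⟩
  have hcont : ContinuousOn (logEuler N c) (Set.Ioi s₀) := by
    unfold logEuler
    refine continuousOn_tsum (u := fun r => 2 * xs N s₀ r) ?_ ((hsum s₀ hs₀1).mul_left 2) ?_
    · intro r
      -- continuity of each factor
      have hx : ContinuousOn (fun t : ℝ => (xs N t r : ℂ)) (Set.Ioi s₀) := by
        apply Continuous.continuousOn
        unfold xs
        have hpos : 0 < N r := by linarith [hN r]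
        exact Complex.continuous_ofReal.comp
          ((Real.continuous_const_rpow hpos.ne').comp continuous_neg)
      have hw : ContinuousOn (fun t : ℝ => (1 - c r * (xs N t r : ℂ))⁻¹) (Set.Ioi s₀) := by
        refine ContinuousOn.inv₀ (continuousOn_const.sub (continuousOn_const.mul hx)) ?_
        intro t ht h0
        have ht1 : (1 : ℝ) ≤ t := le_of_lt (lt_trans hs₀1 ht)
        have hz := norm_z_lt_one hN hc ht1 r
        have : c r * (xs N t r : ℂ) = 1 := by linear_combination -h0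
        rw [this, norm_one] at hz
        exact lt_irrefl _ hz
      refine ContinuousOn.clog hw ?_
      intro t ht
      have ht1 : (1 : ℝ) ≤ t := le_of_lt (lt_trans hs₀1 ht)
      have hz := norm_z_lt_one hN hc ht1 r
      -- `(1 - z)⁻¹` lies in the slit plane: its real part is positive
      have hre : 0 < (1 - c r * (xs N t r : ℂ)).re := by
        have h1 : (c r * (xs N t r : ℂ)).re ≤ ‖c r * (xs N t r : ℂ)‖ := Complex.re_le_norm _
        rw [Complex.sub_re, Complex.one_re]
        linarith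
      have hne : (1 - c r * (xs N t r : ℂ)) ≠ 0 := by
        intro h0
        rw [h0] at hre
        simp at hre
      rw [Complex.mem_slitPlane_iff]
      left
      rw [Complex.inv_re]
      exact div_pos hre (Complex.normSq_pos.mpr hne)
    · intro r t ht
      have ht1 : (1 : ℝ) ≤ t := le_of_lt (lt_trans hs₀1 ht)
      refine le_trans (norm_logFactor_le hN hc ht1 r) ?_
      have := xs_anti hN (le_of_lt ht) r
      linarith
  exact (hcont.continuousAt (Ioi_mem_nhds hs₀s)).continuousWithinAt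

end summable

end Fermat.Agent.Lib.Cheb.H221

end
-- ===== PACK-END Lib/Cheb/H221/LogEuler.lean

-- ===== PACK-BEGIN S14/H74/Defs.lean
section


/-!
# S14, analytic block N1 (helper74): definitions

Partial zeta functions of ideal classes and the smoothed lattice sums used to compare them.
-/

namespace Fermat.Agent.S14.H74

open NumberField NumberField.mixedEmbedding NumberField.Units
  NumberField.Units.dirichletUnitTheorem

open scoped nonZeroDivisors

variable (K : Type*) [Field K] [NumberField K]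

/-- The partial zeta function of the ideal class `C`, for a real argument `s`. -/
noncomputable def classZeta (C : ClassGroup (𝓞 K)) (s : ℝ) : ℝ :=
  ∑' I : {I : (Ideal (𝓞 K))⁰ // ClassGroup.mk0 I = C},
    (Ideal.absNorm (I.1 : Ideal (𝓞 K)) : ℝ) ^ (-s)

/-- The sum over all nonzero ideals of `N(I)^(-s)`. -/
noncomputable def idealZeta (s : ℝ) : ℝ :=
  ∑' I : (Ideal (𝓞 K))⁰, (Ideal.absNorm (I : Ideal (𝓞 K)) : ℝ) ^ (-s)

/-- The tent function `max 0 (1 - |c|)`. -/
noncomputable def tent (c : ℝ) : ℝ := max 0 (1 - |c|)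

open scoped Classical in
/-- Coordinates of `logMap x` in the real basis of `logSpace K` given by the unit lattice. -/
noncomputable def logCoord (x : mixedSpace K) (j : Fin (rank K)) : ℝ :=
  ((basisUnitLattice K).ofZLatticeBasis ℝ (unitLattice K)).repr (logMap x) j

/-- The smooth cut-off: a partition of unity for the action of the units. -/
noncomputable def rho (x : mixedSpace K) : ℝ :=
  if mixedEmbedding.norm x = 0 then 0 else ∏ j, tent (logCoord K x j)

/-- The summand `ρ(x) N(x)^(-s)`. -/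
noncomputable def fS (s : ℝ) (x : mixedSpace K) : ℝ :=
  rho K x * (mixedEmbedding.norm x) ^ (-s)

end Fermat.Agent.S14.H74

end
-- ===== PACK-END S14/H74/Defs.lean

-- ===== PACK-BEGIN Lib/NormL/Cop.lean
section


/-!
# `NormL`, block COP: coprime representatives of ideal classes (helper704)

Every ideal class of the ring of integers of a number field contains an integral ideal whose
absolute norm is coprime to a given integer `m ≠ 0`.

The statement is true in every Dedekind domain in the form "every ideal class contains an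
integral ideal coprime to a given nonzero ideal" (`exists_mk0_eq_and_sup_eq_top`).
-/

set_option autoImplicit false

namespace Fermat.Agent.Lib.NormL

open NumberField
open scoped nonZeroDivisors

namespace Cop

section Dedekind

variable {R : Type*} [CommRing R] [IsDedekindDomain R]

/-- In a Dedekind domain, for nonzero ideals `J₀`, `M` there are an element `a` and an ideal `J`
with `J₀ * J = (a)` and `J` coprime to `M`. -/
theorem exists_mul_eq_span_singleton_and_sup_eq_top {J₀ M : Ideal R} (hJ₀ : J₀ ≠ ⊥)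
    (hM : M ≠ ⊥) :
    ∃ (a : R) (J : Ideal R), J₀ * J = Ideal.span {a} ∧ J ⊔ M = ⊤ := by
  have hle : J₀ * M ≤ J₀ := Ideal.mul_le_left
  have hne : J₀ * M ≠ 0 := by
    rw [Ideal.zero_eq_bot]
    exact mul_ne_zero hJ₀ hM
  obtain ⟨a, ha⟩ := IsDedekindDomain.exists_sup_span_eq hle hne
  have haJ : Ideal.span {a} ≤ J₀ := by
    rw [← ha]
    exact le_sup_right
  obtain ⟨J, hJ⟩ := Ideal.dvd_iff_le.mpr haJ
  refine ⟨a, J, hJ.symm, ?_⟩
  have h1 : J₀ * (J ⊔ M) = J₀ * ⊤ := by
    rw [Ideal.mul_top, Ideal.mul_sup, ← hJ, sup_comm]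
    exact ha
  exact mul_left_cancel₀ (a := J₀) (by simpa using hJ₀) h1

/-- In a Dedekind domain every ideal class contains an integral ideal which is coprime to a
given nonzero ideal. -/
theorem exists_mk0_eq_and_sup_eq_top (C : ClassGroup R) {M : Ideal R} (hM : M ≠ ⊥) :
    ∃ J : (Ideal R)⁰, ClassGroup.mk0 J = C ∧ (J : Ideal R) ⊔ M = ⊤ := by
  obtain ⟨J₀, hJ₀⟩ := ClassGroup.mk0_surjective C⁻¹
  have hJ₀ne : (J₀ : Ideal R) ≠ ⊥ := by
    have := mem_nonZeroDivisors_iff_ne_zero.mp J₀.2
    simpa using this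
  by_cases hMtop : M = ⊤
  · obtain ⟨J, hJ⟩ := ClassGroup.mk0_surjective C
    exact ⟨J, hJ, by rw [hMtop]; exact sup_top_eq _⟩
  obtain ⟨a, J, hJ, hcop⟩ := exists_mul_eq_span_singleton_and_sup_eq_top hJ₀ne hM
  have hJne : J ≠ ⊥ := by
    rintro rfl
    rw [bot_sup_eq] at hcop
    exact hMtop hcop
  have hJmem : J ∈ (Ideal R)⁰ := mem_nonZeroDivisors_iff_ne_zero.mpr (by simpa using hJne)
  refine ⟨⟨J, hJmem⟩, ?_, hcop⟩
  have hprod : ClassGroup.mk0 (J₀ * ⟨J, hJmem⟩) = 1 := by
    rw [ClassGroup.mk0_eq_one_iff]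
    exact ⟨⟨a, by simpa using hJ⟩⟩
  rw [map_mul, hJ₀] at hprod
  exact (inv_mul_eq_one.mp hprod).symm

end Dedekind

section NumberField

variable (K : Type*) [Field K] [NumberField K]

/-- If a nonzero ideal `I` of `𝓞 K` is coprime to the ideal generated by the integer `m`, then
its absolute norm is coprime to `m`. -/
theorem absNorm_coprime_of_sup_span_eq_top {I : Ideal (𝓞 K)} (hI : I ≠ ⊥) {m : ℕ}
    (h : I ⊔ Ideal.span {(m : 𝓞 K)} = ⊤) : (Ideal.absNorm I).Coprime m := by
  rw [Nat.coprime_iff_gcd_eq_one]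
  by_contra hg
  obtain ⟨p, hp, hpg⟩ := Nat.exists_prime_and_dvd hg
  have hpI : p ∣ Ideal.absNorm I := hpg.trans (Nat.gcd_dvd_left _ _)
  obtain ⟨k, hk⟩ : p ∣ m := hpg.trans (Nat.gcd_dvd_right _ _)
  have : Fact p.Prime := ⟨hp⟩
  -- the quotient is a finite group whose cardinality is divisible by `p`
  have hcard : Nat.card (𝓞 K ⧸ I) = Ideal.absNorm I := by
    rw [Ideal.absNorm_apply, Submodule.cardQuot_apply]
  have hpos : Ideal.absNorm I ≠ 0 := fun h0 => hI (Ideal.absNorm_eq_zero_iff.mp h0)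
  have hfin : Finite (𝓞 K ⧸ I) := Nat.finite_of_card_ne_zero (by rwa [hcard])
  obtain ⟨x, hx⟩ := exists_prime_addOrderOf_dvd_card' (G := 𝓞 K ⧸ I) p (by rwa [hcard])
  -- but `p` is invertible in the quotient
  obtain ⟨i, hi, y, hy, hiy⟩ := Submodule.mem_sup.mp ((Ideal.eq_top_iff_one _).mp h)
  obtain ⟨r, rfl⟩ := Ideal.mem_span_singleton'.mp hy
  have hx0 : x ≠ 0 := by
    intro hx0
    rw [hx0, addOrderOf_zero] at hx
    exact hp.one_lt.ne hx
  have hpx : p • x = 0 := by
    rw [← hx]
    exact addOrderOf_nsmul_eq_zero x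
  apply hx0
  have h1 : (Ideal.Quotient.mk I (r * (k : 𝓞 K))) * (p : 𝓞 K ⧸ I) = 1 := by
    have : (Ideal.Quotient.mk I) (i + r * (m : 𝓞 K)) = 1 := by rw [hiy, map_one]
    rw [map_add, Ideal.Quotient.eq_zero_iff_mem.mpr hi, zero_add, hk] at this
    rw [← this]
    push_cast
    simp only [map_mul, map_natCast]
    ring
  calc x = (Ideal.Quotient.mk I (r * (k : 𝓞 K)) * (p : 𝓞 K ⧸ I)) * x := by rw [h1, one_mul]
    _ = Ideal.Quotient.mk I (r * (k : 𝓞 K)) * (p • x) := by
        rw [nsmul_eq_mul, mul_assoc]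
    _ = 0 := by rw [hpx, mul_zero]

end NumberField

end Cop

section NumberField

variable (K : Type*) [Field K] [NumberField K]

/-- COP: every ideal class contains an integral ideal of norm coprime to `m`. -/
theorem exists_mk0_eq_and_coprime (m : ℕ) [NeZero m] (C : ClassGroup (𝓞 K)) :
    ∃ J : (Ideal (𝓞 K))⁰, ClassGroup.mk0 J = C ∧
      (Ideal.absNorm (J : Ideal (𝓞 K))).Coprime m := by
  have hM : Ideal.span {(m : 𝓞 K)} ≠ ⊥ := by
    rw [Ne, Ideal.span_singleton_eq_bot]
    exact_mod_cast NeZero.ne m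
  obtain ⟨J, hJ, hcop⟩ := Cop.exists_mk0_eq_and_sup_eq_top C hM
  refine ⟨J, hJ, Cop.absNorm_coprime_of_sup_span_eq_top K ?_ hcop⟩
  have := mem_nonZeroDivisors_iff_ne_zero.mp J.2
  simpa using this

end NumberField

end Fermat.Agent.Lib.NormL

end
-- ===== PACK-END Lib/NormL/Cop.lean

-- ===== PACK-BEGIN S52/H311/Core.lean
section





/-!
# Exact degree doubling for `addSubMap` on primitive polynomial triples (S52, A2a core)

`F` a field, `W` an elliptic curve over `F`.  For a triple `p : Fin 3 → F[X]` generating the unit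
ideal, the triple `q = addSubMap W (p)` again generates the unit ideal and
`maxDeg q = 2 * maxDeg p`.  Also the Gauss lemma for the product of two linear forms.
-/

set_option autoImplicit false

namespace Fermat.Agent.S52.H311

open Polynomial WeierstrassCurve

variable {F : Type*} [Field F]

/-- maximal `natDegree` of the entries of a triple -/
noncomputable def maxDeg (p : Fin 3 → F[X]) : ℕ :=
  max (p 0).natDegree (max (p 1).natDegree (p 2).natDegree)

lemma natDegree_le_maxDeg (p : Fin 3 → F[X]) (i : Fin 3) : (p i).natDegree ≤ maxDeg p := by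
  fin_cases i <;> simp [maxDeg]

lemma maxDeg_le {p : Fin 3 → F[X]} {n : ℕ} (h : ∀ i, (p i).natDegree ≤ n) : maxDeg p ≤ n := by
  simp only [maxDeg, max_le_iff]
  exact ⟨h 0, h 1, h 2⟩

lemma exists_natDegree_eq_maxDeg (p : Fin 3 → F[X]) : ∃ i, (p i).natDegree = maxDeg p := by
  unfold maxDeg
  rcases max_cases (p 0).natDegree (max (p 1).natDegree (p 2).natDegree) with h | h
  · exact ⟨0, h.1.symm⟩
  · rcases max_cases (p 1).natDegree (p 2).natDegree with h' | h'
    · exact ⟨1, by rw [h.1, h'.1]⟩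
    · exact ⟨2, by rw [h.1, h'.1]⟩

/-- a triple is primitive if it generates the unit ideal -/
def IsPrim (p : Fin 3 → F[X]) : Prop := Ideal.span (Set.range p) = ⊤

/-- degree bound for the value of a multivariate polynomial with constant coefficients -/
lemma natDegree_aeval_le {σ : Type*} (φ : MvPolynomial σ F) (p : σ → F[X]) (D : ℕ)
    (hp : ∀ i, (p i).natDegree ≤ D) :
    (MvPolynomial.aeval p φ).natDegree ≤ φ.totalDegree * D := by
  classical
  rw [MvPolynomial.aeval_def, MvPolynomial.eval₂_eq]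
  refine natDegree_sum_le_of_forall_le _ _ fun m hm => ?_
  have h1 : (∏ i ∈ m.support, p i ^ m i).natDegree ≤ ∑ i ∈ m.support, m i * D := by
    refine (natDegree_prod_le _ _).trans (Finset.sum_le_sum fun i _ => ?_)
    exact (natDegree_pow_le).trans (Nat.mul_le_mul_left _ (hp i))
  have h2 : ∑ i ∈ m.support, m i * D ≤ φ.totalDegree * D := by
    rw [← Finset.sum_mul]
    exact Nat.mul_le_mul_right _ (MvPolynomial.le_totalDegree hm)
  calc _ ≤ (algebraMap F F[X] (φ.coeff m)).natDegree + (∏ i ∈ m.support, p i ^ m i).natDegree := by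
        exact natDegree_mul_le
    _ ≤ 0 + φ.totalDegree * D := by
        gcongr
        · simp
        · exact h1.trans h2
    _ = _ := by simp

/-! ### naturality of `addSubMap` and `addSubMapCoeff` -/

section naturality

variable {R S : Type*} [CommRing R] [CommRing S] (f : R →+* S) (W : WeierstrassCurve R)

lemma addSubMap_map (i : Fin 3) :
    addSubMap (W.map f) i = MvPolynomial.map f (addSubMap W i) := by
  fin_cases i <;> simp [addSubMap, _root_.map_ofNat]

lemma addSubMapCoeff_map (ij : Fin 3 × Fin 3) :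
    addSubMapCoeff (W.map f) ij = MvPolynomial.map f (addSubMapCoeff W ij) := by
  fin_cases ij <;> simp [addSubMapCoeff, _root_.map_ofNat]

end naturality

variable (W : WeierstrassCurve F)

/-- `addSubMap` applied to a polynomial triple -/
noncomputable def asmP (p : Fin 3 → F[X]) : Fin 3 → F[X] :=
  fun i => MvPolynomial.aeval p (addSubMap W i)

lemma asmP_eq_eval (p : Fin 3 → F[X]) (i : Fin 3) :
    asmP W p i = (addSubMap (W.map (C : F →+* F[X])) i).eval p := by
  rw [asmP, addSubMap_map, MvPolynomial.eval_map, MvPolynomial.aeval_def]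
  rfl

lemma natDegree_asmP_le (p : Fin 3 → F[X]) (i : Fin 3) :
    (asmP W p i).natDegree ≤ 2 * maxDeg p := by
  refine (natDegree_aeval_le _ p (maxDeg p) (natDegree_le_maxDeg p)).trans ?_
  exact Nat.mul_le_mul_right _ (isHomogeneous_addSubMap W i).totalDegree_le

variable [W.IsElliptic]

/-- the key identity of Mathlib, over `F[X]` -/
lemma asmP_condition (p : Fin 3 → F[X]) (i : Fin 3) :
    ∃ c : Fin 3 → F[X], (∀ j, (c j).natDegree ≤ 2 * maxDeg p) ∧
      ∑ j, c j * asmP W p j = p i ^ 4 := by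
  have key := addSubMapCoeff_condition (W.map (C : F →+* F[X])) p i
  refine ⟨fun j => (MvPolynomial.C (↑(W.map (C : F →+* F[X])).Δ'⁻¹ : F[X]) *
      addSubMapCoeff (W.map (C : F →+* F[X])) (i, j)).eval p, fun j => ?_, ?_⟩
  · show ((MvPolynomial.C (↑(W.map (C : F →+* F[X])).Δ'⁻¹ : F[X]) *
      addSubMapCoeff (W.map (C : F →+* F[X])) (i, j)).eval p).natDegree ≤ 2 * maxDeg p
    rw [MvPolynomial.eval_mul, MvPolynomial.eval_C, addSubMapCoeff_map, MvPolynomial.eval_map]
    have hu : ((↑(W.map (C : F →+* F[X])).Δ'⁻¹ : F[X])).natDegree = 0 :=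
      natDegree_eq_zero_of_isUnit (Units.isUnit _)
    refine natDegree_mul_le.trans ?_
    rw [hu, zero_add]
    have := natDegree_aeval_le (addSubMapCoeff W (i, j)) p (maxDeg p) (natDegree_le_maxDeg p)
    rw [MvPolynomial.aeval_def] at this
    refine this.trans ?_
    exact Nat.mul_le_mul_right _ (isHomogeneous_addSubMapCoeff W (i, j)).totalDegree_le
  · simp only [asmP_eq_eval]
    exact key

/-- **Primitivity is preserved.** -/
theorem IsPrim.asmP {p : Fin 3 → F[X]} (hp : IsPrim p) : IsPrim (asmP W p) := by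
  unfold IsPrim at hp ⊢
  rw [← Ideal.radical_eq_top, eq_top_iff, ← hp, Ideal.span_le]
  rintro _ ⟨i, rfl⟩
  refine ⟨4, ?_⟩
  obtain ⟨c, -, hc⟩ := asmP_condition W p i
  rw [← hc]
  refine Ideal.sum_mem _ fun j _ => Ideal.mul_mem_left _ _ (Ideal.subset_span ⟨j, rfl⟩)

/-- **Exact degree doubling.** -/
theorem maxDeg_asmP (p : Fin 3 → F[X]) : maxDeg (asmP W p) = 2 * maxDeg p := by
  refine le_antisymm (maxDeg_le (natDegree_asmP_le W p)) ?_
  obtain ⟨i, hi⟩ := exists_natDegree_eq_maxDeg p
  obtain ⟨c, hcdeg, hc⟩ := asmP_condition W p i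
  have h4 : (p i ^ 4).natDegree = 4 * maxDeg p := by rw [natDegree_pow, hi]
  have hle : (p i ^ 4).natDegree ≤ 2 * maxDeg p + maxDeg (asmP W p) := by
    rw [← hc]
    refine natDegree_sum_le_of_forall_le _ _ fun j _ => ?_
    exact natDegree_mul_le.trans (Nat.add_le_add (hcdeg j) (natDegree_le_maxDeg _ j))
  omega

end Fermat.Agent.S52.H311

end
-- ===== PACK-END S52/H311/Core.lean

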