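import Mathlib
import Fermat.Statements.S13
import Mathlib.Algebra.Polynomial.Degree.Lemmas
import Mathlib.Algebra.Polynomial.Eval.Degree
import Mathlib.Tactic

-- ===== PACK-BEGIN S13/H64/Gauss.lean
section


/-!
# S13 / T5b: a Gauss-lemma bound for split polynomials with integral coefficients

`v : Valuation K Γ₀`.  If `f = C c * ∏_{r ∈ s} (X - C r)` has all coefficients `v`-integral then
`v c * ∏_{r ∈ s, 1 < v r} v r ≤ 1`.
-/

set_option autoImplicit false

namespace Fermat.Agent.S13.H64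

open Polynomial

variable {K : Type*} [Field K] {Γ₀ : Type*} [LinearOrderedCommGroupWithZero Γ₀]
  (v : Valuation K Γ₀)

/-- Product of `X - C r` over integral `r` has integral coefficients. -/
lemma coeff_prod_X_sub_C_le_one (s : Multiset K) (hs : ∀ r ∈ s, v r ≤ 1) (n : ℕ) :
    v ((s.map (fun r => X - C r)).prod.coeff n) ≤ 1 := by
  induction s using Multiset.induction_on generalizing n with
  | empty =>
    simp only [Multiset.map_zero, Multiset.prod_zero, coeff_one]
    split_ifs <;> simp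
  | cons a s ih =>
    have ha : v a ≤ 1 := hs a (Multiset.mem_cons_self a s)
    have ih' := ih (fun r hr => hs r (Multiset.mem_cons_of_mem hr))
    rw [Multiset.map_cons, Multiset.prod_cons, sub_mul, coeff_sub, coeff_C_mul]
    refine (v.map_sub _ _).trans (max_le ?_ ?_)
    · cases n with
      | zero => simp
      | succ m => rw [coeff_X_mul]; exact ih' m
    · rw [map_mul]; exact mul_le_one' ha (ih' n)

/-- Multiplying by `1 - C a * X` with `v a < 1` preserves integrality of coefficients and the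
property that the `k`-th coefficient is a unit. -/
lemma coeff_mul_one_sub_CX (F : K[X]) (k : ℕ) (hF : ∀ n, v (F.coeff n) ≤ 1)
    (hk : v (F.coeff k) = 1) (a : K) (ha : v a < 1) :
    (∀ n, v (((1 - C a * X) * F).coeff n) ≤ 1) ∧ v (((1 - C a * X) * F).coeff k) = 1 := by
  have hcoeff : ∀ n, ((1 - C a * X) * F).coeff n =
      F.coeff n - a * (if n = 0 then 0 else F.coeff (n - 1)) := by
    intro n
    rw [sub_mul, one_mul, coeff_sub, mul_assoc, coeff_C_mul]
    cases n with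
    | zero => simp
    | succ m => rw [coeff_X_mul]; simp
  have hlt : ∀ n, v (a * (if n = 0 then 0 else F.coeff (n - 1))) < 1 := by
    intro n
    rw [map_mul]
    split_ifs
    · simp
    · exact (mul_le_of_le_one_right' (hF _)).trans_lt ha
  refine ⟨fun n => ?_, ?_⟩
  · rw [hcoeff]
    exact (v.map_sub _ _).trans (max_le (hF n) (hlt n).le)
  · rw [hcoeff, v.map_sub_eq_of_lt_left (by rw [hk]; exact hlt k), hk]

/-- Product over non-integral `r` of `1 - C r⁻¹ * X`, times an integral `G` with unit `k`-th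
coefficient. -/
lemma coeff_prod_one_sub_mul (s : Multiset K) (hs : ∀ r ∈ s, 1 < v r) (G : K[X]) (k : ℕ)
    (hG : ∀ n, v (G.coeff n) ≤ 1) (hk : v (G.coeff k) = 1) :
    (∀ n, v (((s.map (fun r => 1 - C r⁻¹ * X)).prod * G).coeff n) ≤ 1) ∧
      v (((s.map (fun r => 1 - C r⁻¹ * X)).prod * G).coeff k) = 1 := by
  induction s using Multiset.induction_on with
  | empty => simpa using ⟨hG, hk⟩
  | cons a s ih =>
    have ha : 1 < v a := hs a (Multiset.mem_cons_self a s)
    obtain ⟨h1, h2⟩ := ih (fun r hr => hs r (Multiset.mem_cons_of_mem hr))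
    rw [Multiset.map_cons, Multiset.prod_cons, mul_assoc]
    exact coeff_mul_one_sub_CX v _ k h1 h2 a⁻¹ (by
      rw [map_inv₀]; exact inv_lt_one_of_one_lt₀ ha)

/-- Rewriting `∏ (X - C r)` for nonzero `r`. -/
lemma prod_X_sub_C_eq (s : Multiset K) (hs : ∀ r ∈ s, r ≠ 0) :
    (s.map (fun r => X - C r)).prod =
      C (s.map (fun r => -r)).prod * (s.map (fun r => 1 - C r⁻¹ * X)).prod := by
  induction s using Multiset.induction_on with
  | empty => simp
  | cons a s ih =>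
    have ha : a ≠ 0 := hs a (Multiset.mem_cons_self a s)
    rw [Multiset.map_cons, Multiset.prod_cons, Multiset.map_cons, Multiset.prod_cons,
      Multiset.map_cons, Multiset.prod_cons, ih (fun r hr => hs r (Multiset.mem_cons_of_mem hr)),
      C_mul]
    have : (X - C a : K[X]) = C (-a) * (1 - C a⁻¹ * X) := by
      rw [mul_sub, mul_one, ← mul_assoc, ← C_mul, neg_mul, mul_inv_cancel₀ ha]
      simp only [C_neg, C_1, neg_mul, one_mul, sub_neg_eq_add]
      ring
    rw [this]; ring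

lemma val_prod_neg (s : Multiset K) :
    v (s.map (fun r => -r)).prod = (s.map v).prod := by
  induction s using Multiset.induction_on with
  | empty => simp
  | cons a s ih =>
    rw [Multiset.map_cons, Multiset.prod_cons, Multiset.map_cons, Multiset.prod_cons, map_mul,
      Valuation.map_neg, ih]

/-- **Gauss bound.** If `f = C c * ∏_{r ∈ s} (X - C r)` has `v`-integral coefficients, then
`v c * ∏_{r ∈ s, 1 < v r} v r ≤ 1`. -/
theorem gauss_bound (c : K) (s : Multiset K)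
    (hint : ∀ n, v ((C c * (s.map (fun r => X - C r)).prod).coeff n) ≤ 1) :
    v c * ((s.filter (fun r => 1 < v r)).map v).prod ≤ 1 := by
  classical
  set s1 := s.filter (fun r => 1 < v r) with hs1
  set s0 := s.filter (fun r => ¬ 1 < v r) with hs0
  have hsplit : s = s1 + s0 := (Multiset.filter_add_not _ s).symm
  have h1 : ∀ r ∈ s1, 1 < v r := fun r hr => (Multiset.mem_filter.mp hr).2
  have h0 : ∀ r ∈ s0, v r ≤ 1 := fun r hr => not_lt.mp (Multiset.mem_filter.mp hr).2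
  have h1ne : ∀ r ∈ s1, r ≠ 0 := by
    intro r hr h
    have := h1 r hr
    rw [h, map_zero] at this
    exact not_lt_zero this
  set G := (s0.map (fun r => X - C r)).prod with hG
  have hGint : ∀ n, v (G.coeff n) ≤ 1 := coeff_prod_X_sub_C_le_one v s0 h0
  have hGmonic : G.Monic := monic_multiset_prod_of_monic _ _ (fun r _ => monic_X_sub_C r)
  have hGdeg : G.natDegree = Multiset.card s0 := by
    rw [hG, natDegree_multiset_prod_of_monic _ (by
      intro p hp
      obtain ⟨r, -, rfl⟩ := Multiset.mem_map.mp hp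
      exact monic_X_sub_C r)]
    simp
  have hGk : v (G.coeff (Multiset.card s0)) = 1 := by
    rw [← hGdeg, ← leadingCoeff, hGmonic.leadingCoeff, map_one]
  obtain ⟨-, hunit⟩ := coeff_prod_one_sub_mul v s1 h1 G _ hGint hGk
  have hf : C c * (s.map (fun r => X - C r)).prod =
      C (c * (s1.map (fun r => -r)).prod) * ((s1.map (fun r => 1 - C r⁻¹ * X)).prod * G) := by
    conv_lhs => rw [hsplit]
    rw [Multiset.map_add, Multiset.prod_add, prod_X_sub_C_eq s1 h1ne, C_mul]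
    ring
  have := hint (Multiset.card s0)
  rw [hf, coeff_C_mul, map_mul, hunit, mul_one, map_mul, val_prod_neg] at this
  exact this

/-- Finset form of the Gauss bound: if `T` is a finite set of roots of `f`, all of valuation
`> 1`, `f` splits with leading coefficient `c` and has integral coefficients, then
`v c * ∏_{r ∈ T} v r ≤ 1`. -/
theorem gauss_bound_finset [DecidableEq K] (c : K) (s : Multiset K)
    (hint : ∀ n, v ((C c * (s.map (fun r => X - C r)).prod).coeff n) ≤ 1)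
    (T : Finset K) (hT : ∀ r ∈ T, r ∈ s ∧ 1 < v r) :
    v c * ∏ r ∈ T, v r ≤ 1 := by
  classical
  have hle : T.val ≤ s.filter (fun r => 1 < v r) := by
    rw [Multiset.le_iff_count]
    intro a
    by_cases ha : a ∈ T
    · rw [Multiset.count_eq_one_of_mem T.nodup ha]
      exact Multiset.one_le_count_iff_mem.mpr (Multiset.mem_filter.mpr (hT a ha))
    · rw [Multiset.count_eq_zero_of_notMem ha]; exact Nat.zero_le _
  obtain ⟨u, hu⟩ := Multiset.le_iff_exists_add.mp hle
  have hu1 : ∀ r ∈ u, 1 ≤ v r := by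
    intro r hr
    have : r ∈ s.filter (fun r => 1 < v r) := by rw [hu]; exact Multiset.mem_add.mpr (Or.inr hr)
    exact (Multiset.mem_filter.mp this).2.le
  have hprod_u : 1 ≤ (u.map v).prod := by
    apply Multiset.one_le_prod
    intro x hx
    obtain ⟨r, hr, rfl⟩ := Multiset.mem_map.mp hx
    exact hu1 r hr
  have hgb := gauss_bound v c s hint
  rw [hu, Multiset.map_add, Multiset.prod_add] at hgb
  have hTprod : (T.val.map v).prod = ∏ r ∈ T, v r := rfl
  rw [hTprod] at hgb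
  calc v c * ∏ r ∈ T, v r ≤ v c * ((∏ r ∈ T, v r) * (u.map v).prod) := by
        gcongr
        exact le_mul_of_one_le_right zero_le hprod_u
    _ ≤ 1 := hgb

end Fermat.Agent.S13.H64

end
-- ===== PACK-END S13/H64/Gauss.lean

-- ===== PACK-BEGIN S13/Skel.lean
section
/-
S13 skeleton / final glue (row-lead helper13).

`Fermat.Agent.S13.Skel.result_of_parts` proves the frozen S13 statement from the
frozen interface statements (T1, T3, T4, T5, T6, T7) taken as explicit hypotheses.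
Imports: the frozen statement module only.  Piece owners only have to match the shapes.
-/


set_option autoImplicit false

namespace Fermat.Agent.S13.Skel

/-! ### Linear algebra over a field: nilpotent maps on lines -/

section LinAlg

variable {K M : Type*} [Field K] [AddCommGroup M] [Module K M]

/-- On a module of rank `≤ 1`, an endomorphism with square zero is zero. -/
theorem eq_zero_of_sq_zero_of_finrank_le_one [Module.Finite K M]
    (h1 : Module.finrank K M ≤ 1) (g : M →ₗ[K] M) (hg : ∀ x, g (g x) = 0) (x : M) :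
    g x = 0 := by
  obtain ⟨v, hv⟩ := finrank_le_one_iff.1 h1
  obtain ⟨c, hc⟩ := hv (g v)
  have hgv : g v = 0 := by
    by_cases hv0 : v = 0
    · rw [hv0, map_zero]
    · have h2 : (c * c) • v = 0 := by
        have := hg v
        rw [← hc, map_smul, ← hc, smul_smul] at this
        exact this
      rcases smul_eq_zero.1 h2 with h | h
      · have hc0 : c = 0 := by simpa using h
        rw [← hc, hc0, zero_smul]
      · exact absurd h hv0
  obtain ⟨d, hd⟩ := hv x
  rw [← hd, map_smul, hgv, smul_zero]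

variable [Module.Finite K M]

/-- In a space of rank `≤ 2`, with `N ≠ ⊥, ⊤` stable under `f`:
`f² = 0` on `N` implies `f = 0` on `N`. -/
theorem eq_zero_on_of_sq_zero (h2 : Module.finrank K M ≤ 2) (N : Submodule K M)
    (hN : N ≠ ⊤) (f : M →ₗ[K] M) (hf : ∀ x ∈ N, f x ∈ N)
    (hsq : ∀ x ∈ N, f (f x) = 0) : ∀ x ∈ N, f x = 0 := by
  have hlt : Module.finrank K N < Module.finrank K M := Submodule.finrank_lt hN
  have h1 : Module.finrank K N ≤ 1 := by omega
  intro x hx
  have := eq_zero_of_sq_zero_of_finrank_le_one h1 (f.restrict hf)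
    (fun y => Subtype.ext (by simpa using hsq y y.2)) ⟨x, hx⟩
  simpa using congrArg Subtype.val this

/-- In a space of rank `≤ 2`, with `N ≠ ⊥, ⊤` stable under `f`:
`f² ⊆ N` implies `f ⊆ N`. -/
theorem mem_of_sq_mem (h2 : Module.finrank K M ≤ 2) (N : Submodule K M)
    (hN : N ≠ ⊥) (f : M →ₗ[K] M) (hf : ∀ x ∈ N, f x ∈ N)
    (hsq : ∀ x, f (f x) ∈ N) : ∀ x, f x ∈ N := by
  have hpos : 0 < Module.finrank K N := by
    rw [Module.finrank_pos_iff_exists_ne_zero]
    obtain ⟨x, hx, hx0⟩ := (Submodule.ne_bot_iff N).1 hN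
    exact ⟨⟨x, hx⟩, fun h => hx0 (congrArg Subtype.val h)⟩
  have hadd := N.finrank_quotient_add_finrank
  have h1 : Module.finrank K (M ⧸ N) ≤ 1 := by omega
  have hle : N ≤ N.comap f := fun x hx => hf x hx
  intro x
  have := eq_zero_of_sq_zero_of_finrank_le_one h1 (N.mapQ N f hle)
    (fun y => by
      induction y using Submodule.Quotient.induction_on with
      | _ y =>
        simp only [Submodule.mapQ_apply]
        exact (Submodule.Quotient.mk_eq_zero N).2 (hsq y)) (Submodule.Quotient.mk x)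
  simpa [Submodule.mapQ_apply, Submodule.Quotient.mk_eq_zero] using this

end LinAlg

/-! ### The Galois glue -/

section Glue

open WeierstrassCurve WeierstrassCurve.Affine WeierstrassCurve.Affine.Point

variable (P : FreyPackage)

/-- `E[p](ℚ̄)` of the Frey curve, in the exact Prelude shape. -/
abbrev Vp : Type :=
  Submodule.torsionBy ℤ (P.freyCurve⁄(AlgebraicClosure ℚ)).Point P.p

/-- `Gal(ℚ̄/ℚ)`. -/
abbrev GQ : Type := (AlgebraicClosure ℚ) ≃ₐ[ℚ] (AlgebraicClosure ℚ)

/-- `σ - 1` as a `ZMod p`-linear endomorphism of `E[p]`. -/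
noncomputable def sigmaSubOne (σ : GQ) : Vp P →ₗ[ZMod P.p] Vp P :=
  AddMonoidHom.toZModLinearMap P.p (DistribSMul.toAddMonoidHom (Vp P) σ) - LinearMap.id

theorem sigmaSubOne_apply (σ : GQ) (x : Vp P) : sigmaSubOne P σ x = σ • x - x := rfl

/-- `dim E[p] ≤ 2` from the T1 count. -/
theorem finrank_le_two (hfin : Finite (Vp P)) (hcard : Nat.card (Vp P) ≤ P.p ^ 2) :
    Module.finrank (ZMod P.p) (Vp P) ≤ 2 := by
  have : Fact P.p.Prime := ⟨P.pp⟩
  have : Module.Finite (ZMod P.p) (Vp P) := Module.Finite.of_finite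
  have h := Module.natCard_eq_pow_finrank (K := ZMod P.p) (V := Vp P)
  rw [Nat.card_zmod] at h
  rw [h] at hcard
  exact (Nat.pow_le_pow_iff_right P.pp.one_lt).1 hcard

/-- The subgroup of `Gal(ℚ̄/ℚ)` fixing `N` pointwise (kernel of `χ₁`). -/
def fixN (N : Submodule (ZMod P.p) (Vp P)) : Subgroup GQ where
  carrier := {σ | ∀ x ∈ N, σ • x = x}
  one_mem' := fun x _ => one_smul _ x
  mul_mem' := by
    intro σ τ hσ hτ x hx
    rw [mul_smul, hτ x hx, hσ x hx]
  inv_mem' := by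
    intro σ hσ x hx
    conv_lhs => rw [← hσ x hx]
    exact inv_smul_smul σ x

/-- The subgroup of `Gal(ℚ̄/ℚ)` acting trivially on `V/N` (kernel of `χ₂`). -/
def cofixN (N : Submodule (ZMod P.p) (Vp P)) : Subgroup GQ where
  carrier := {σ | ∀ x, σ • x - x ∈ N}
  one_mem' := fun x => by simp
  mul_mem' := by
    intro σ τ hσ hτ x
    have h : (σ * τ) • x - x = (σ • (τ • x) - τ • x) + (τ • x - x) := by
      rw [mul_smul]; abel
    rw [h]
    exact N.add_mem (hσ _) (hτ _)
  inv_mem' := by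
    intro σ hσ x
    have h : σ⁻¹ • x - x = -(σ • (σ⁻¹ • x) - σ⁻¹ • x) := by
      rw [smul_inv_smul]; abel
    rw [h]
    exact N.neg_mem (hσ _)

theorem mem_fixN {N : Submodule (ZMod P.p) (Vp P)} {σ : GQ} :
    σ ∈ fixN P N ↔ ∀ x ∈ N, σ • x = x := Iff.rfl

theorem mem_cofixN {N : Submodule (ZMod P.p) (Vp P)} {σ : GQ} :
    σ ∈ cofixN P N ↔ ∀ x, σ • x - x ∈ N := Iff.rfl

theorem fixN_normal {N : Submodule (ZMod P.p) (Vp P)}
    (hN : IsGaloisStable (K := AlgebraicClosure ℚ) ℚ N) : (fixN P N).Normal := by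
  refine ⟨fun σ hσ τ x hx => ?_⟩
  have h1 : τ⁻¹ • x ∈ N := hN τ⁻¹ x hx
  rw [mul_smul, mul_smul, hσ _ h1, smul_inv_smul]

theorem cofixN_normal {N : Submodule (ZMod P.p) (Vp P)}
    (hN : IsGaloisStable (K := AlgebraicClosure ℚ) ℚ N) : (cofixN P N).Normal := by
  refine ⟨fun σ hσ τ x => ?_⟩
  have h1 : σ • (τ⁻¹ • x) - τ⁻¹ • x ∈ N := hσ _
  have h2 := hN τ _ h1
  have h3 : (τ * σ * τ⁻¹) • x - x = τ • (σ • (τ⁻¹ • x) - τ⁻¹ • x) := by
    rw [mul_smul, mul_smul, smul_sub, smul_inv_smul]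
  rw [h3]
  exact h2

/-- Openness: a finite set of coordinates whose pointwise fixer acts trivially on `E[p]`. -/
theorem exists_finset_fix (hfin : Finite (Vp P)) :
    ∃ s : Finset (AlgebraicClosure ℚ), ∀ σ : GQ, (∀ x ∈ s, σ x = x) →
      ∀ v : Vp P, σ • v = v := by
  classical
  have := Fintype.ofFinite (Vp P)
  let coords : (P.freyCurve⁄(AlgebraicClosure ℚ)).Point → Finset (AlgebraicClosure ℚ) :=
    fun Q => match Q with
      | .zero => ∅
      | .some x y _ => {x, y}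
  refine ⟨Finset.univ.biUnion fun v : Vp P => coords v.1, fun σ hσ v => ?_⟩
  have hv : ∀ x ∈ coords v.1, σ x = x := fun x hx =>
    hσ x (Finset.mem_biUnion.2 ⟨v, Finset.mem_univ _, hx⟩)
  apply Subtype.ext
  change Point.map σ.toAlgHom v.1 = v.1
  rcases hQ : v.1 with _ | ⟨x, y, h⟩
  · rfl
  · rw [hQ] at hv
    have hx : σ x = x := hv x (by simp [coords])
    have hy : σ y = y := hv y (by simp [coords])
    rw [Point.map_some]
    simp only [Point.some.injEq]
    exact ⟨hx, hy⟩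

/-- Unipotent inertia (`(σ-1)² = 0` on `E[p]`) lies in both character kernels. -/
theorem unipotent_mem (hfin : Finite (Vp P)) (hcard : Nat.card (Vp P) ≤ P.p ^ 2)
    {N : Submodule (ZMod P.p) (Vp P)}
    (hN : IsGaloisStable (K := AlgebraicClosure ℚ) ℚ N) (hbot : N ≠ ⊥) (htop : N ≠ ⊤)
    (σ : GQ) (hσ : ∀ x : Vp P, σ • (σ • x - x) = σ • x - x) :
    σ ∈ fixN P N ∧ σ ∈ cofixN P N := by
  have : Fact P.p.Prime := ⟨P.pp⟩
  have : Module.Finite (ZMod P.p) (Vp P) := Module.Finite.of_finite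
  have h2 := finrank_le_two P hfin hcard
  have hst : ∀ x ∈ N, sigmaSubOne P σ x ∈ N := fun x hx =>
    N.sub_mem (hN σ x hx) hx
  have hsq : ∀ x : Vp P, sigmaSubOne P σ (sigmaSubOne P σ x) = 0 := fun x => by
    rw [sigmaSubOne_apply, sigmaSubOne_apply, hσ x, sub_self]
  constructor
  · intro x hx
    have := eq_zero_on_of_sq_zero h2 N htop (sigmaSubOne P σ) hst (fun y _ => hsq y) x hx
    rw [sigmaSubOne_apply] at this
    exact sub_eq_zero.1 this
  · intro x
    have := mem_of_sq_mem h2 N hbot (sigmaSubOne P σ) hst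
      (fun y => by rw [hsq y]; exact N.zero_mem) x
    rwa [sigmaSubOne_apply] at this

/-- `(σ-1)² E[p] ⊆ N` and `σ ∈ I` implies `σ` is trivial on `V/N`. -/
theorem mem_cofixN_of_sq (hfin : Finite (Vp P)) (hcard : Nat.card (Vp P) ≤ P.p ^ 2)
    {N : Submodule (ZMod P.p) (Vp P)}
    (hN : IsGaloisStable (K := AlgebraicClosure ℚ) ℚ N) (hbot : N ≠ ⊥)
    (σ : GQ) (hσ : ∀ x : Vp P, σ • (σ • x - x) - (σ • x - x) ∈ N) :
    σ ∈ cofixN P N := by
  have : Fact P.p.Prime := ⟨P.pp⟩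
  have : Module.Finite (ZMod P.p) (Vp P) := Module.Finite.of_finite
  have h2 := finrank_le_two P hfin hcard
  have hst : ∀ x ∈ N, sigmaSubOne P σ x ∈ N := fun x hx =>
    N.sub_mem (hN σ x hx) hx
  intro x
  have := mem_of_sq_mem h2 N hbot (sigmaSubOne P σ) hst
    (fun y => by rw [sigmaSubOne_apply, sigmaSubOne_apply]; exact hσ y) x
  rwa [sigmaSubOne_apply] at this

/-- Adapter: the character form of Minkowski (T6, `minkowski_character`) gives the
subgroup form used by `result_of_parts`. -/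
theorem minkowski_subgroup_of_character
    (hchar : ∀ (H : Type) [Group H] (χ : GQ →* H),
      (∃ s : Finset (AlgebraicClosure ℚ), ∀ σ : GQ, (∀ x ∈ s, σ x = x) → χ σ = 1) →
      (∀ q : ℕ, q.Prime → ∃ A : ValuationSubring (AlgebraicClosure ℚ),
          A.LiesOverPrime q ∧ ∀ σ ∈ A.inertiaSubgroupIn ℚ, χ σ = 1) →
      ∀ σ, χ σ = 1)
    (H : Subgroup GQ) (hH : H.Normal)
    (hopen : ∃ s : Finset (AlgebraicClosure ℚ), ∀ σ : GQ, (∀ x ∈ s, σ x = x) → σ ∈ H)
    (hunr : ∀ q : ℕ, q.Prime → ∃ A : ValuationSubring (AlgebraicClosure ℚ),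
        A.LiesOverPrime q ∧ ∀ σ ∈ A.inertiaSubgroupIn ℚ, σ ∈ H) : H = ⊤ := by
  have key := hchar (GQ ⧸ H) (QuotientGroup.mk' H)
    (by
      obtain ⟨s, hs⟩ := hopen
      exact ⟨s, fun σ hσ => (QuotientGroup.eq_one_iff σ).2 (hs σ hσ)⟩)
    (fun q hq => by
      obtain ⟨A, hA, hA2⟩ := hunr q hq
      exact ⟨A, hA, fun σ hσ => (QuotientGroup.eq_one_iff σ).2 (hA2 σ hσ)⟩)
  exact (Subgroup.eq_top_iff' H).2 fun σ => (QuotientGroup.eq_one_iff σ).1 (key σ)

/-- **S13 from its parts.**  Hypotheses are the frozen interface statements: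
* `hT1`  : `E[p](ℚ̄)` is nontrivial, finite, of cardinality `≤ p²`;
* `hT3`  : S05 (unramified at `q ≠ 2, p`);
* `hT4`  : at ONE valuation ring over `2`, inertia is unipotent: `(σ-1)² = 0`;
* `hT5`  : for each stable line `N`, at ONE valuation ring over `p`, inertia is trivial
           on `N` or trivial on `V/N`;
* `hT6`  : Minkowski (subgroup form): a normal open subgroup containing one inertia
           group at every prime is everything;
* `hT7`  : no nonzero Galois-fixed point in `E[p]`;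
* `hex`  : valuation rings over every prime exist. -/
theorem result_of_parts
    (hT1 : Nontrivial (Vp P) ∧ Finite (Vp P) ∧ Nat.card (Vp P) ≤ P.p ^ 2)
    (hT3 : ∀ q : ℕ, q.Prime → q ≠ 2 → q ≠ P.p → P.GaloisRepUnramifiedAt q)
    (hT4 : ∃ A : ValuationSubring (AlgebraicClosure ℚ), A.LiesOverPrime 2 ∧
        ∀ σ ∈ A.inertiaSubgroupIn ℚ, ∀ x : Vp P, σ • (σ • x - x) = σ • x - x)
    (hT5 : ∀ N : Submodule (ZMod P.p) (Vp P),
        IsGaloisStable (K := AlgebraicClosure ℚ) ℚ N → N ≠ ⊥ → N ≠ ⊤ →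
        ∃ A : ValuationSubring (AlgebraicClosure ℚ), A.LiesOverPrime P.p ∧
          ((∀ σ ∈ A.inertiaSubgroupIn ℚ, ∀ x ∈ N, σ • x = x) ∨
           (∀ σ ∈ A.inertiaSubgroupIn ℚ, ∀ x : Vp P, σ • x - x ∈ N)))
    (hT6 : ∀ H : Subgroup GQ, H.Normal →
        (∃ s : Finset (AlgebraicClosure ℚ), ∀ σ : GQ, (∀ x ∈ s, σ x = x) → σ ∈ H) →
        (∀ q : ℕ, q.Prime → ∃ A : ValuationSubring (AlgebraicClosure ℚ),
            A.LiesOverPrime q ∧ ∀ σ ∈ A.inertiaSubgroupIn ℚ, σ ∈ H) → H = ⊤)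
    (hT7 : ∀ x : Vp P, (∀ σ : GQ, σ • x = x) → x = 0)
    (hex : ∀ q : ℕ, q.Prime → ∃ A : ValuationSubring (AlgebraicClosure ℚ), A.LiesOverPrime q)
    (hred : ¬ GaloisRepIsIrreducible (K := AlgebraicClosure ℚ) ℚ P.freyCurve P.p) :
    HasGaloisStableCofixedLine (K := AlgebraicClosure ℚ) ℚ P.freyCurve P.p := by
  obtain ⟨hnt, hfin, hcard⟩ := hT1
  -- the stable line
  have hex' : ∃ N : Submodule (ZMod P.p) (Vp P),
      IsGaloisStable (K := AlgebraicClosure ℚ) ℚ N ∧ N ≠ ⊥ ∧ N ≠ ⊤ := by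
    by_contra hcon
    apply hred
    refine ⟨hnt, fun N hN => ?_⟩
    by_contra h
    exact hcon ⟨N, hN, fun h1 => h (Or.inl h1), fun h1 => h (Or.inr h1)⟩
  obtain ⟨N, hN, hbot, htop⟩ := hex'
  obtain ⟨s, hs⟩ := exists_finset_fix P hfin
  -- inertia at primes `q ≠ 2, p` and at `2` lies in both kernels
  have hboth : ∀ q : ℕ, q.Prime → q ≠ P.p →
      ∃ A : ValuationSubring (AlgebraicClosure ℚ), A.LiesOverPrime q ∧
        ∀ σ ∈ A.inertiaSubgroupIn ℚ, σ ∈ fixN P N ∧ σ ∈ cofixN P N := by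
    intro q hq hqp
    by_cases hq2 : q = 2
    · subst hq2
      obtain ⟨A, hA, hA2⟩ := hT4
      exact ⟨A, hA, fun σ hσ => unipotent_mem P hfin hcard hN hbot htop σ (hA2 σ hσ)⟩
    · obtain ⟨A, hA⟩ := hex q hq
      refine ⟨A, hA, fun σ hσ => ?_⟩
      have h := hT3 q hq hq2 hqp A hA σ hσ
      refine ⟨fun x _ => h x, fun x => ?_⟩
      have hx0 : σ • x - x = 0 := sub_eq_zero.2 (h x)
      rw [hx0]
      exact N.zero_mem
  obtain ⟨A, hA, hAp⟩ := hT5 N hN hbot htop
  rcases hAp with h1 | h2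
  · -- `χ₁` unramified everywhere: contradiction with T7
    exfalso
    have htop1 : fixN P N = ⊤ := by
      refine hT6 _ (fixN_normal P hN) ⟨s, fun σ hσ x _ => hs σ hσ x⟩ (fun q hq => ?_)
      by_cases hqp : q = P.p
      · subst hqp
        exact ⟨A, hA, fun σ hσ => h1 σ hσ⟩
      · obtain ⟨B, hB, hB2⟩ := hboth q hq hqp
        exact ⟨B, hB, fun σ hσ => (hB2 σ hσ).1⟩
    obtain ⟨x, hx, hx0⟩ := (Submodule.ne_bot_iff N).1 hbot
    refine hx0 (hT7 x fun σ => ?_)
    have : σ ∈ fixN P N := by rw [htop1]; exact Subgroup.mem_top σ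
    exact this x hx
  · -- `χ₂` unramified everywhere: done
    have htop2 : cofixN P N = ⊤ := by
      refine hT6 _ (cofixN_normal P hN) ⟨s, fun σ hσ x => ?_⟩ (fun q hq => ?_)
      · have hx0 : σ • x - x = 0 := sub_eq_zero.2 (hs σ hσ x)
        rw [hx0]
        exact N.zero_mem
      · by_cases hqp : q = P.p
        · subst hqp
          exact ⟨A, hA, fun σ hσ => h2 σ hσ⟩
        · obtain ⟨B, hB, hB2⟩ := hboth q hq hqp
          exact ⟨B, hB, fun σ hσ => (hB2 σ hσ).2⟩
    refine ⟨N, hN, hbot, htop, fun σ x => ?_⟩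
    have : σ ∈ cofixN P N := by rw [htop2]; exact Subgroup.mem_top σ
    exact this x

end Glue

end Fermat.Agent.S13.Skel

end
-- ===== PACK-END S13/Skel.lean

-- ===== PACK-BEGIN S13/H164/Ladder.lean
section




/-!
# S13 / T1 (helper164): the `x`-ladder for multiplication by `n` on a Weierstrass curve

For parameters `b₂ b₄ b₆ b₈ x` in a commutative ring `A` we define a sequence of pairs
`lad n = (N_n, D_n)` such that, on a Weierstrass curve with these `b`-invariants and for a point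
`P` with `x`-coordinate `x`, the `x`-coordinate of `n • P` is `N_n / D_n` (projectively).

The recursion is the Montgomery ladder:
* `(N_{2k} : D_{2k})` is the duplication map applied to `(N_k : D_k)`;
* `(N_{2k+1} : D_{2k+1})` comes from `x(Q+R) + x(Q-R) = S(x_Q, x_R) / (x_Q - x_R)²`
  with `Q = (k+1)P`, `R = kP`, `Q - R = P`.
-/

set_option autoImplicit false

namespace Fermat.Agent.S13.H164

section Generic

variable {A : Type*} [CommRing A]

/-- homogeneous numerator of the duplication map on `x`-coordinates -/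
def dN (b₄ b₆ b₈ u v : A) : A :=
  u ^ 4 - b₄ * u ^ 2 * v ^ 2 - 2 * b₆ * u * v ^ 3 - b₈ * v ^ 4

/-- homogeneous denominator of the duplication map on `x`-coordinates -/
def dD (b₂ b₄ b₆ u v : A) : A :=
  v * (4 * u ^ 3 + b₂ * u ^ 2 * v + 2 * b₄ * u * v ^ 2 + b₆ * v ^ 3)

/-- `x_R - x_Q` cleared of denominators -/
def oW (u₁ v₁ u₂ v₂ : A) : A := u₁ * v₂ - u₂ * v₁

/-- homogeneous numerator of `x(Q+R) + x(Q-R)` -/
def oS (b₂ b₄ b₆ u₁ v₁ u₂ v₂ : A) : A :=
  2 * u₁ * u₂ * (u₁ * v₂ + u₂ * v₁) + b₂ * u₁ * u₂ * v₁ * v₂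
    + b₄ * (u₁ * v₂ + u₂ * v₁) * v₁ * v₂ + b₆ * v₁ ^ 2 * v₂ ^ 2

/-- numerator of the odd ladder step -/
def oN (b₂ b₄ b₆ x u₁ v₁ u₂ v₂ : A) : A :=
  oS b₂ b₄ b₆ u₁ v₁ u₂ v₂ - x * oW u₁ v₁ u₂ v₂ ^ 2

/-- denominator of the odd ladder step -/
def oD (u₁ v₁ u₂ v₂ : A) : A := oW u₁ v₁ u₂ v₂ ^ 2

/-- The ladder: `lad n = (N_n, D_n)`. -/
def lad (b₂ b₄ b₆ b₈ x : A) : ℕ → A × A
  | 0 => (1, 0)
  | 1 => (x, 1)
  | (n + 2) =>
    if h : (n + 2) % 2 = 0 then
      (dN b₄ b₆ b₈ (lad b₂ b₄ b₆ b₈ x ((n + 2) / 2)).1 (lad b₂ b₄ b₆ b₈ x ((n + 2) / 2)).2,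
        dD b₂ b₄ b₆ (lad b₂ b₄ b₆ b₈ x ((n + 2) / 2)).1 (lad b₂ b₄ b₆ b₈ x ((n + 2) / 2)).2)
    else
      (oN b₂ b₄ b₆ x (lad b₂ b₄ b₆ b₈ x ((n + 2) / 2)).1 (lad b₂ b₄ b₆ b₈ x ((n + 2) / 2)).2
          (lad b₂ b₄ b₆ b₈ x ((n + 2) / 2 + 1)).1 (lad b₂ b₄ b₆ b₈ x ((n + 2) / 2 + 1)).2,
        oD (lad b₂ b₄ b₆ b₈ x ((n + 2) / 2)).1 (lad b₂ b₄ b₆ b₈ x ((n + 2) / 2)).2
          (lad b₂ b₄ b₆ b₈ x ((n + 2) / 2 + 1)).1 (lad b₂ b₄ b₆ b₈ x ((n + 2) / 2 + 1)).2)
termination_by n => n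
decreasing_by all_goals omega

variable (b₂ b₄ b₆ b₈ x : A)

@[simp] lemma lad_zero : lad b₂ b₄ b₆ b₈ x 0 = (1, 0) := by
  rw [lad]

@[simp] lemma lad_one : lad b₂ b₄ b₆ b₈ x 1 = (x, 1) := by
  rw [lad]

lemma lad_two_mul (k : ℕ) :
    lad b₂ b₄ b₆ b₈ x (2 * k) =
      (dN b₄ b₆ b₈ (lad b₂ b₄ b₆ b₈ x k).1 (lad b₂ b₄ b₆ b₈ x k).2,
        dD b₂ b₄ b₆ (lad b₂ b₄ b₆ b₈ x k).1 (lad b₂ b₄ b₆ b₈ x k).2) := by
  rcases k with _ | k
  · simp [dN, dD]
  · have e : 2 * (k + 1) = 2 * k + 2 := by ring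
    rw [e, lad]
    have h1 : (2 * k + 2) % 2 = 0 := by omega
    have h2 : (2 * k + 2) / 2 = k + 1 := by omega
    rw [dif_pos h1, h2]

lemma lad_two_mul_add_one (k : ℕ) :
    lad b₂ b₄ b₆ b₈ x (2 * k + 1) =
      (oN b₂ b₄ b₆ x (lad b₂ b₄ b₆ b₈ x k).1 (lad b₂ b₄ b₆ b₈ x k).2
          (lad b₂ b₄ b₆ b₈ x (k + 1)).1 (lad b₂ b₄ b₆ b₈ x (k + 1)).2,
        oD (lad b₂ b₄ b₆ b₈ x k).1 (lad b₂ b₄ b₆ b₈ x k).2
          (lad b₂ b₄ b₆ b₈ x (k + 1)).1 (lad b₂ b₄ b₆ b₈ x (k + 1)).2) := by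
  rcases k with _ | k
  · simp [oN, oD, oS, oW]
    ring
  · have e : 2 * (k + 1) + 1 = (2 * k + 1) + 2 := by ring
    rw [e, lad]
    have h1 : ¬ (2 * k + 1 + 2) % 2 = 0 := by omega
    have h2 : (2 * k + 1 + 2) / 2 = k + 1 := by omega
    rw [dif_neg h1, h2]

/-- The ladder commutes with ring homomorphisms. -/
lemma map_lad {B : Type*} [CommRing B] (f : A →+* B) (n : ℕ) :
    lad (f b₂) (f b₄) (f b₆) (f b₈) (f x) n =
      (f (lad b₂ b₄ b₆ b₈ x n).1, f (lad b₂ b₄ b₆ b₈ x n).2) := by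
  induction n using Nat.strong_induction_on with
  | _ n ih =>
    rcases Nat.even_or_odd' n with ⟨k, rfl | rfl⟩
    · rcases k with _ | k
      · simp
      · have hk : k + 1 < 2 * (k + 1) := by omega
        rw [lad_two_mul, lad_two_mul, ih _ hk]
        simp only [dN, dD, map_sub, map_mul, map_pow, map_add, map_ofNat]
    · rcases k with _ | k
      · simp
      · have hk : k + 1 < 2 * (k + 1) + 1 := by omega
        have hk' : k + 1 + 1 < 2 * (k + 1) + 1 := by omega
        rw [lad_two_mul_add_one, lad_two_mul_add_one, ih _ hk, ih _ hk']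
        simp only [oN, oD, oS, oW, map_sub, map_mul, map_pow, map_add, map_ofNat]

end Generic

end Fermat.Agent.S13.H164

end
-- ===== PACK-END S13/H164/Ladder.lean

-- ===== PACK-BEGIN Ribet/H403/DetLin.lean
section


/-!
# RIBET / DETF (helper403): the determinant from quadratic relations, pure linear algebra

`V` a vector space of dimension `2` over a field `k`.

* `det_eq_of_quadratic_of_not_scalar` : if `f² - a f + c = 0` and `f` is not a scalar then
  `det f = c` (Cayley–Hamilton).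
* `det_eq_of_forall_quadratic` : if `ρ : G →* End V`, `χ : G →* kˣ`, every `ρ g` satisfies a
  relation `ρ(g)² - a ρ(g) + χ(g) = 0` (for some `a` depending on `g`) and SOME `ρ h` is not a
  scalar, then `det ρ(g) = χ(g)` for all `g`.
-/

set_option autoImplicit false

namespace Fermat.Agent.Ribet.H403

open Polynomial

section LinAlg

variable {k V : Type*} [Field k] [AddCommGroup V] [Module k V] [Module.Finite k V]

/-- Cayley–Hamilton in dimension two, applied to a vector. -/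
theorem cayley_hamilton_two (h2 : Module.finrank k V = 2) (f : Module.End k V) (x : V) :
    f (f x) + f.charpoly.coeff 1 • f x + f.charpoly.coeff 0 • x = 0 := by
  have hmon : f.charpoly.Monic := LinearMap.charpoly_monic f
  have hdeg : f.charpoly.natDegree = 2 := by rw [LinearMap.charpoly_natDegree, h2]
  have hsum := hmon.as_sum
  rw [hdeg] at hsum
  have hch := LinearMap.aeval_self_charpoly f
  rw [hsum] at hch
  simp only [Finset.sum_range_succ, Finset.sum_range_zero, zero_add, pow_zero, mul_one, pow_one,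
    map_add, map_pow, map_mul, aeval_X, aeval_C] at hch
  have := congrArg (fun g : Module.End k V => g x) hch
  simp only [LinearMap.add_apply, LinearMap.zero_apply, Module.algebraMap_end_apply,
    Module.End.mul_apply, pow_two] at this
  rw [← this]
  abel

/-- If `f² - a f + c = 0` on a 2-dimensional space and `f` is not a scalar, then `det f = c`. -/
theorem det_eq_of_quadratic_of_not_scalar (h2 : Module.finrank k V = 2) (f : Module.End k V)
    (a c : k) (hrel : ∀ x, f (f x) - a • f x + c • x = 0)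
    (hns : ¬ ∃ s : k, ∀ x, f x = s • x) : LinearMap.det f = c := by
  have hCH := cayley_hamilton_two h2 f
  set u := f.charpoly.coeff 1 with hu
  set d := f.charpoly.coeff 0 with hd
  have hdiff : ∀ x, (u + a) • f x + (d - c) • x = 0 := by
    intro x
    have h1 := hCH x
    have h2' := hrel x
    have : (u + a) • f x + (d - c) • x
        = (f (f x) + u • f x + d • x) - (f (f x) - a • f x + c • x) := by
      rw [add_smul, sub_smul]; abel
    rw [this, h1, h2', sub_zero]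
  have hua : u + a = 0 := by
    by_contra hne
    apply hns
    refine ⟨-(d - c) / (u + a), fun x => ?_⟩
    have h := hdiff x
    have h3 : (u + a) • f x = -((d - c) • x) := eq_neg_of_add_eq_zero_left h
    have h4 : f x = (u + a)⁻¹ • ((u + a) • f x) := by
      rw [smul_smul, inv_mul_cancel₀ hne, one_smul]
    rw [h4, h3, ← neg_smul, smul_smul]
    congr 1
    field_simp
  have hnt : Nontrivial V := by
    apply Module.nontrivial_of_finrank_pos (R := k)
    rw [h2]; norm_num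
  obtain ⟨x, hx⟩ := exists_ne (0 : V)
  have hdc : d = c := by
    have h := hdiff x
    rw [hua, zero_smul, zero_add] at h
    rcases smul_eq_zero.1 h with h | h
    · exact sub_eq_zero.1 h
    · exact absurd h hx
  rw [LinearMap.det_eq_sign_charpoly_coeff, h2, ← hd, hdc]
  norm_num

/-- The determinant is the multiplier `χ` as soon as every element satisfies a quadratic relation
with constant term `χ` and one element is not a scalar. -/
theorem det_eq_of_forall_quadratic {G : Type*} [Group G] (h2 : Module.finrank k V = 2)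
    (ρ : G →* Module.End k V) (χ : G →* kˣ)
    (hrel : ∀ g, ∃ a : k, ∀ x, ρ g (ρ g x) - a • ρ g x + (χ g : k) • x = 0)
    (hns : ∃ h, ¬ ∃ s : k, ∀ x, ρ h x = s • x) (g : G) :
    LinearMap.det (ρ g) = (χ g : k) := by
  have key : ∀ g, (¬ ∃ s : k, ∀ x, ρ g x = s • x) → LinearMap.det (ρ g) = (χ g : k) := by
    intro g hg
    obtain ⟨a, ha⟩ := hrel g
    exact det_eq_of_quadratic_of_not_scalar h2 (ρ g) a (χ g) ha hg
  by_cases hg : ∃ s : k, ∀ x, ρ g x = s • x
  · obtain ⟨s, hs⟩ := hg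
    obtain ⟨h, hh⟩ := hns
    have hnt : Nontrivial V := by
      apply Module.nontrivial_of_finrank_pos (R := k)
      rw [h2]; norm_num
    have hs0 : s ≠ 0 := by
      rintro rfl
      obtain ⟨x, hx⟩ := exists_ne (0 : V)
      have h1 : ρ (g * g⁻¹) x = x := by rw [mul_inv_cancel, map_one]; rfl
      rw [map_mul, Module.End.mul_apply, hs, zero_smul] at h1
      exact hx h1.symm
    have hgh : ¬ ∃ t : k, ∀ x, ρ (g * h) x = t • x := by
      rintro ⟨t, ht⟩
      apply hh
      refine ⟨s⁻¹ * t, fun x => ?_⟩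
      have h1 := ht x
      rw [map_mul, Module.End.mul_apply, hs] at h1
      rw [← smul_smul, ← h1, smul_smul, inv_mul_cancel₀ hs0, one_smul]
    have e1 := key (g * h) hgh
    have e2 := key h hh
    rw [map_mul, map_mul, map_mul, e2, Units.val_mul] at e1
    exact mul_right_cancel₀ (χ h).ne_zero e1
  · exact key g hg

end LinAlg

end Fermat.Agent.Ribet.H403

end
-- ===== PACK-END Ribet/H403/DetLin.lean

-- ===== PACK-BEGIN Lib/Cheb/H223/Crossing.lean
section


/-!
# Chebotarev field crossing: the Galois-theoretic part (helper223, shared lib CHEB)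

Let `L / ℚ` be a finite Galois extension inside `ℚ̄` and `σ ∈ Gal(ℚ̄/ℚ)`.  We produce a prime `ℓ`
(as large as we like), a primitive `ℓ`-th root of unity `ζ` and `g ∈ Gal(ℚ̄/ℚ)` such that
`g = σ` on `L`, `g ζ = ζ ^ t`, and every power of `g` fixing `ζ` fixes `L` pointwise.
-/

set_option autoImplicit false
set_option linter.style.haveILetI false


namespace Fermat.Agent.Lib.Cheb.H223

open IntermediateField Polynomial

set_option backward.isDefEq.respectTransparency false in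
/-- Two cyclotomic fields of distinct prime levels inside a field of characteristic zero
meet in `ℚ`. -/
theorem cyclo_inf_eq_bot {K : Type*} [Field K] [CharZero K] [Algebra.IsAlgebraic ℚ K]
    {p₁ p₂ : ℕ} (hp₁ : p₁.Prime) (hp₂ : p₂.Prime) (hne : p₁ ≠ p₂) {ζ₁ ζ₂ : K}
    (h₁ : IsPrimitiveRoot ζ₁ p₁) (h₂ : IsPrimitiveRoot ζ₂ p₂) :
    ℚ⟮ζ₁⟯ ⊓ ℚ⟮ζ₂⟯ = ⊥ := by
  haveI : NeZero p₁ := ⟨hp₁.ne_zero⟩
  haveI : NeZero p₂ := ⟨hp₂.ne_zero⟩
  haveI : Algebra.IsIntegral ℚ K := Algebra.IsAlgebraic.isIntegral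
  haveI c₁ : IsCyclotomicExtension {p₁} ℚ ℚ⟮ζ₁⟯ := h₁.intermediateField_adjoin_isCyclotomicExtension ℚ
  haveI c₂ : IsCyclotomicExtension {p₂} ℚ ℚ⟮ζ₂⟯ := h₂.intermediateField_adjoin_isCyclotomicExtension ℚ
  haveI : FiniteDimensional ℚ ℚ⟮ζ₁⟯ := IsCyclotomicExtension.finiteDimensional {p₁} ℚ _
  haveI : FiniteDimensional ℚ ℚ⟮ζ₂⟯ := IsCyclotomicExtension.finiteDimensional {p₂} ℚ _
  have hcop : Nat.Coprime p₁ p₂ := (Nat.coprime_primes hp₁ hp₂).mpr hne
  haveI : NeZero (p₁.lcm p₂) := ⟨Nat.lcm_ne_zero hp₁.ne_zero hp₂.ne_zero⟩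
  haveI c₃ : IsCyclotomicExtension {p₁.lcm p₂} ℚ ↥(ℚ⟮ζ₁⟯ ⊔ ℚ⟮ζ₂⟯) :=
    IntermediateField.isCyclotomicExtension_lcm_sup ℚ K p₁ p₂ ℚ⟮ζ₁⟯ ℚ⟮ζ₂⟯
  have f₁ : Module.finrank ℚ ℚ⟮ζ₁⟯ = p₁.totient :=
    IsCyclotomicExtension.finrank _ (cyclotomic.irreducible_rat hp₁.pos)
  have f₂ : Module.finrank ℚ ℚ⟮ζ₂⟯ = p₂.totient :=
    IsCyclotomicExtension.finrank _ (cyclotomic.irreducible_rat hp₂.pos)
  have f₃ : Module.finrank ℚ ↥(ℚ⟮ζ₁⟯ ⊔ ℚ⟮ζ₂⟯) = (p₁.lcm p₂).totient :=
    IsCyclotomicExtension.finrank _ (cyclotomic.irreducible_rat (Nat.pos_of_ne_zero (NeZero.ne _)))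
  have hld : (ℚ⟮ζ₁⟯).LinearDisjoint ℚ⟮ζ₂⟯ := by
    apply LinearDisjoint.of_finrank_sup
    rw [f₁, f₂, f₃, hcop.lcm_eq_mul, Nat.totient_mul hcop]
  exact hld.inf_eq_bot

/-- For a finite extension `L / ℚ` inside `K` there are arbitrarily large primes `ℓ ≡ 1 (mod n)`
whose cyclotomic field meets `L` in `ℚ`. -/
theorem exists_prime_disjoint {K : Type*} [Field K] [CharZero K] [Algebra.IsAlgebraic ℚ K]
    (hroots : ∀ m : ℕ, m ≠ 0 → ∃ ζ : K, IsPrimitiveRoot ζ m)
    (L : IntermediateField ℚ K) [FiniteDimensional ℚ L] {n : ℕ} (hn : n ≠ 0) (B : ℕ) :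
    ∃ (ℓ : ℕ) (ζ : K), ℓ.Prime ∧ B < ℓ ∧ ℓ ≡ 1 [MOD n] ∧ IsPrimitiveRoot ζ ℓ ∧
      L ⊓ ℚ⟮ζ⟯ = ⊥ := by
  classical
  have hfin : Finite (IntermediateField ℚ L) :=
    Field.finite_intermediateField_of_exists_primitive_element ℚ L
      (Field.exists_primitive_element ℚ L)
  -- choose primitive roots
  have hroots' : ∀ m : ℕ, ∃ ζ : K, m ≠ 0 → IsPrimitiveRoot ζ m := fun m => by
    by_cases hm : m = 0
    · exact ⟨1, fun h => absurd hm h⟩
    · obtain ⟨ζ, hζ⟩ := hroots m hm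
      exact ⟨ζ, fun _ => hζ⟩
  choose z hz using hroots'
  let f : ℕ → IntermediateField ℚ L := fun p =>
    IntermediateField.restrict (inf_le_left : L ⊓ ℚ⟮z p⟯ ≤ L)
  have hinf : ({p : ℕ | p.Prime ∧ p ≡ 1 [MOD n]} \ Set.Iic B).Infinite :=
    (Nat.infinite_setOfPred_prime_modEq_one hn).sdiff (Set.finite_Iic B)
  obtain ⟨p₁, hp₁, p₂, hp₂, hne, hf⟩ :=
    hinf.exists_ne_map_eq_of_mapsTo (f := f) (t := Set.univ) (fun _ _ => Set.mem_univ _)
      Set.finite_univ
  have hf' : L ⊓ ℚ⟮z p₁⟯ = L ⊓ ℚ⟮z p₂⟯ := by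
    have := congrArg IntermediateField.lift hf
    simpa only [f, IntermediateField.lift_restrict] using this
  refine ⟨p₁, z p₁, hp₁.1.1, ?_, hp₁.1.2, hz p₁ hp₁.1.1.ne_zero, ?_⟩
  · have := hp₁.2
    simpa using this
  · have h1 : L ⊓ ℚ⟮z p₁⟯ ≤ ℚ⟮z p₁⟯ ⊓ ℚ⟮z p₂⟯ :=
      le_inf inf_le_right (hf' ▸ inf_le_right)
    rw [cyclo_inf_eq_bot hp₁.1.1 hp₂.1.1 hne (hz p₁ hp₁.1.1.ne_zero)
      (hz p₂ hp₂.1.1.ne_zero)] at h1
    exact le_bot_iff.mp h1

/-- `ℚ̄ / ℚ` is Galois. -/
theorem isGalois_Qb : IsGalois ℚ (AlgebraicClosure ℚ) := by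
  haveI : Algebra.IsAlgebraic ℚ (AlgebraicClosure ℚ) := AlgebraicClosure.isAlgebraic ℚ
  haveI : IsAlgClosure ℚ (AlgebraicClosure ℚ) := ⟨inferInstance, inferInstance⟩
  haveI : Normal ℚ (AlgebraicClosure ℚ) := IsAlgClosure.normal ℚ (AlgebraicClosure ℚ)
  exact isGalois_iff.mpr ⟨inferInstance, inferInstance⟩

/-- If `L ∩ C = ℚ` with `C / ℚ` finite Galois, every pair `(σ|_L, τ)` with `τ ∈ Gal(C/ℚ)` is
induced by an element of `Gal(ℚ̄/ℚ)`. -/
theorem exists_common_extension (L C : IntermediateField ℚ (AlgebraicClosure ℚ))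
    [FiniteDimensional ℚ C] [IsGalois ℚ C] (h : L ⊓ C = ⊥)
    (σ : AlgebraicClosure ℚ ≃ₐ[ℚ] AlgebraicClosure ℚ) (τ : C ≃ₐ[ℚ] C) :
    ∃ g : AlgebraicClosure ℚ ≃ₐ[ℚ] AlgebraicClosure ℚ,
      (∀ x ∈ L, g x = σ x) ∧ AlgEquiv.restrictNormalHom C g = τ := by
  haveI := isGalois_Qb
  set H : Subgroup (C ≃ₐ[ℚ] C) := L.fixingSubgroup.map (AlgEquiv.restrictNormalHom C) with hH
  have hfix : IntermediateField.fixedField H = ⊥ := by
    rw [eq_bot_iff]
    intro x hx
    rw [IntermediateField.mem_fixedField_iff] at hx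
    have hxL : (x : AlgebraicClosure ℚ) ∈ L := by
      rw [← InfiniteGalois.fixedField_fixingSubgroup L, IntermediateField.mem_fixedField_iff]
      intro f hf
      have := hx (AlgEquiv.restrictNormalHom C f) (Subgroup.mem_map_of_mem _ hf)
      have h2 := congrArg (Subtype.val) this
      exact (AlgEquiv.restrictNormal_commutes f C x).symm.trans h2
    have hxLC : (x : AlgebraicClosure ℚ) ∈ L ⊓ C := ⟨hxL, x.2⟩
    rw [h, IntermediateField.mem_bot] at hxLC
    obtain ⟨q, hq⟩ := hxLC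
    rw [IntermediateField.mem_bot]
    exact ⟨q, Subtype.ext hq⟩
  have htop : H = ⊤ := by
    rw [← IntermediateField.fixingSubgroup_fixedField H, hfix,
      IntermediateField.fixingSubgroup_bot]
  have hmem : (AlgEquiv.restrictNormalHom C σ)⁻¹ * τ ∈ H := htop ▸ Subgroup.mem_top _
  obtain ⟨f, hf, hfτ⟩ := Subgroup.mem_map.mp hmem
  refine ⟨σ * f, fun x hx => ?_, ?_⟩
  · rw [AlgEquiv.mul_apply, (IntermediateField.mem_fixingSubgroup_iff L f).mp hf x hx]
  · rw [map_mul, hfτ, mul_inv_cancel_left]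

/-- primitive roots of unity exist in `ℚ̄` -/
theorem exists_primitiveRoot_Qb (m : ℕ) (hm : m ≠ 0) :
    ∃ ζ : AlgebraicClosure ℚ, IsPrimitiveRoot ζ m := by
  haveI : NeZero m := ⟨hm⟩
  haveI : NeZero (m : AlgebraicClosure ℚ) := ⟨by exact_mod_cast hm⟩
  exact HasEnoughRootsOfUnity.exists_primitiveRoot _ m

/-- a unit of prescribed order dividing `ℓ - 1` modulo a prime `ℓ` -/
theorem exists_unit_orderOf {ℓ n : ℕ} (hℓ : ℓ.Prime) (h : ℓ ≡ 1 [MOD n]) :
    ∃ u : (ZMod ℓ)ˣ, orderOf u = n := by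
  haveI : Fact ℓ.Prime := ⟨hℓ⟩
  obtain ⟨r, hr⟩ := IsCyclic.exists_ofOrder_eq_natCard (α := (ZMod ℓ)ˣ)
  have hcard : Nat.card (ZMod ℓ)ˣ = ℓ - 1 := by
    rw [Nat.card_eq_fintype_card, ZMod.card_units_eq_totient, Nat.totient_prime hℓ]
  have hdvd : n ∣ ℓ - 1 := (Nat.modEq_iff_dvd' hℓ.one_lt.le).mp h.symm
  obtain ⟨c, hc⟩ := hdvd
  have hc0 : c ≠ 0 := by
    rintro rfl
    have := hℓ.one_lt
    omega
  refine ⟨r ^ c, ?_⟩
  rw [orderOf_pow_of_dvd hc0 (by rw [hr, hcard, hc]; exact dvd_mul_left c n), hr, hcard, hc]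
  exact Nat.mul_div_cancel _ (Nat.pos_of_ne_zero hc0)

set_option backward.isDefEq.respectTransparency false in
/-- **Field crossing.** -/
theorem exists_crossing (L : IntermediateField ℚ (AlgebraicClosure ℚ)) [FiniteDimensional ℚ L]
    [IsGalois ℚ L] (σ : AlgebraicClosure ℚ ≃ₐ[ℚ] AlgebraicClosure ℚ) (B : ℕ) :
    ∃ (ℓ : ℕ) (ζ : AlgebraicClosure ℚ) (g : AlgebraicClosure ℚ ≃ₐ[ℚ] AlgebraicClosure ℚ)
      (t : ℕ), ℓ.Prime ∧ B < ℓ ∧ IsPrimitiveRoot ζ ℓ ∧ (∀ x ∈ L, g x = σ x) ∧ g ζ = ζ ^ t ∧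
        ∀ k : ℕ, ζ ^ t ^ k = ζ → ∀ x ∈ L, (g ^ k) x = x := by
  haveI : Algebra.IsAlgebraic ℚ (AlgebraicClosure ℚ) := AlgebraicClosure.isAlgebraic ℚ
  haveI : Algebra.IsIntegral ℚ (AlgebraicClosure ℚ) := Algebra.IsAlgebraic.isIntegral
  set s₀ := AlgEquiv.restrictNormalHom L σ with hs₀
  set n := orderOf s₀
  have hn0 : n ≠ 0 := (orderOf_pos s₀).ne'
  obtain ⟨ℓ, ζ, hℓ, hB, hmod, hζ, hdisj⟩ := exists_prime_disjoint exists_primitiveRoot_Qb L hn0 B
  haveI : NeZero ℓ := ⟨hℓ.ne_zero⟩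
  haveI : Fact ℓ.Prime := ⟨hℓ⟩
  haveI hcyc : IsCyclotomicExtension {ℓ} ℚ ℚ⟮ζ⟯ :=
    hζ.intermediateField_adjoin_isCyclotomicExtension ℚ
  haveI : NumberField ℚ⟮ζ⟯ := IsCyclotomicExtension.numberField {ℓ} ℚ _
  haveI : IsGalois ℚ ℚ⟮ζ⟯ := IsCyclotomicExtension.isGalois {ℓ} ℚ _
  haveI : FiniteDimensional ℚ ℚ⟮ζ⟯ := IsCyclotomicExtension.finiteDimensional {ℓ} ℚ _
  obtain ⟨u, hu⟩ := exists_unit_orderOf hℓ hmod
  set τ := (IsCyclotomicExtension.Rat.galEquivZMod ℓ ℚ⟮ζ⟯).symm u with hτ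
  obtain ⟨g, hgL, hgC⟩ := exists_common_extension L ℚ⟮ζ⟯ hdisj σ τ
  set t := (u : ZMod ℓ).val with ht
  have hgζ : g ζ = ζ ^ t := by
    let ζC : ℚ⟮ζ⟯ := ⟨ζ, mem_adjoin_simple_self ℚ ζ⟩
    have h1 : ζC ^ ℓ = 1 := Subtype.ext (by simpa using hζ.pow_eq_one)
    have h2 := IsCyclotomicExtension.Rat.galEquivZMod_apply_of_pow_eq ℓ ℚ⟮ζ⟯ τ h1
    rw [hτ, MulEquiv.apply_symm_apply] at h2
    have h3 := congrArg Subtype.val h2
    rw [← hτ, ← hgC] at h3
    have h4 := AlgEquiv.restrictNormal_commutes g ℚ⟮ζ⟯ ζC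
    have h3' : (((AlgEquiv.restrictNormalHom ↥ℚ⟮ζ⟯) g) ζC : AlgebraicClosure ℚ) = ζ ^ t := by
      simpa using h3
    exact h4.symm.trans h3'
  refine ⟨ℓ, ζ, g, t, hℓ, hB, hζ, hgL, hgζ, ?_⟩
  intro k hk x hx
  -- `t ^ k ≡ 1 mod ℓ`
  have ht0 : t ≠ 0 := by
    intro h0
    have : (u : ZMod ℓ) = 0 := (ZMod.val_eq_zero _).mp h0
    exact u.ne_zero this
  have htk : 1 ≤ t ^ k := Nat.one_le_pow _ _ (Nat.pos_of_ne_zero ht0)
  have h1 : ζ ^ (t ^ k - 1) = 1 := by
    have : ζ * ζ ^ (t ^ k - 1) = ζ * 1 := by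
      rw [← pow_succ', Nat.sub_add_cancel htk, mul_one, hk]
    exact mul_left_cancel₀ (hζ.ne_zero hℓ.ne_zero) this
  have h2 : ℓ ∣ t ^ k - 1 := (hζ.pow_eq_one_iff_dvd _).mp h1
  have h3 : ((t : ZMod ℓ)) ^ k = 1 := by
    have : ((t ^ k - 1 : ℕ) : ZMod ℓ) = 0 := (ZMod.natCast_eq_zero_iff _ _).mpr h2
    rw [Nat.cast_sub htk] at this
    push_cast at this
    exact sub_eq_zero.mp this
  have h4 : u ^ k = 1 := by
    apply Units.ext
    rw [Units.val_pow_eq_pow_val, Units.val_one, ← h3, ht, ZMod.natCast_zmod_val]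
  have h5 : n ∣ k := by rw [← hu]; exact orderOf_dvd_iff_pow_eq_one.mpr h4
  have h6 : s₀ ^ k = 1 := orderOf_dvd_iff_pow_eq_one.mp h5
  have h7 : AlgEquiv.restrictNormalHom L g = s₀ := by
    apply AlgEquiv.ext
    intro y
    apply Subtype.ext
    have e1 := AlgEquiv.restrictNormal_commutes g L y
    have e2 := AlgEquiv.restrictNormal_commutes σ L y
    exact e1.trans ((hgL y y.2).trans e2.symm)
  have h8 : AlgEquiv.restrictNormalHom L (g ^ k) = 1 := by rw [map_pow, h7, h6]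
  have e3 := AlgEquiv.restrictNormal_commutes (g ^ k) L ⟨x, hx⟩
  have e4 : (AlgEquiv.restrictNormalHom L (g ^ k)) ⟨x, hx⟩ = ⟨x, hx⟩ := by rw [h8]; rfl
  exact e3.symm.trans (congrArg Subtype.val e4)

end Fermat.Agent.Lib.Cheb.H223

end
-- ===== PACK-END Lib/Cheb/H223/Crossing.lean

-- ===== PACK-BEGIN Lib/EulerProd/EulerUFM.lean
section


/-!
# Euler products over a unique factorization monoid with trivial units

`Fermat.Agent.Lib.EulerProd.hasProd_one_sub_inv`: if `M` is a commutative monoid with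
zero which is a unique factorization monoid with trivial unit group (e.g. the ideals of a
Dedekind domain), `F` is a complete normed field and `f : M → F` is completely multiplicative
(`f 0 = 0`, `f 1 = 1`, `f (a * b) = f a * f b`) and norm-summable, then
`∏ p prime, (1 - f p)⁻¹ = ∑ m, f m`.

The proof follows `Mathlib/NumberTheory/EulerProduct/Basic.lean` (the case `M = ℕ`).
-/

set_option autoImplicit false
set_option linter.unusedSectionVars false
set_option linter.overlappingInstances false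

namespace Fermat.Agent.Lib.EulerProd

open Finset

variable {M : Type*} [CommMonoidWithZero M] [UniqueFactorizationMonoid M]
  [Subsingleton Mˣ] [Nontrivial M]

/-- The nonzero elements of `M` all of whose prime divisors lie in `T`. -/
def smoothSet (T : Set M) : Set M := {m | m ≠ 0 ∧ ∀ p, Prime p → p ∣ m → p ∈ T}

theorem mem_smoothSet {T : Set M} {m : M} :
    m ∈ smoothSet T ↔ m ≠ 0 ∧ ∀ p, Prime p → p ∣ m → p ∈ T := Iff.rfl

theorem smoothSet_mono {T T' : Set M} (h : T ⊆ T') : smoothSet T ⊆ smoothSet T' :=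
  fun _ hm => ⟨hm.1, fun p hp hpm => h (hm.2 p hp hpm)⟩

theorem zero_notMem_smoothSet (T : Set M) : (0 : M) ∉ smoothSet T := fun h => h.1 rfl

theorem eq_one_of_forall_prime_not_dvd {m : M} (hm : m ≠ 0) (h : ∀ p, Prime p → ¬ p ∣ m) :
    m = 1 := by
  by_contra hne
  have hu : ¬ IsUnit m := fun hu => hne (by
    obtain ⟨u, rfl⟩ := hu
    rw [Subsingleton.elim u 1, Units.val_one])
  obtain ⟨i, hi, hdvd⟩ := WfDvdMonoid.exists_irreducible_factor hu hm
  exact h i (UniqueFactorizationMonoid.irreducible_iff_prime.mp hi) hdvd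

theorem smoothSet_empty : smoothSet (∅ : Set M) = {1} := by
  ext m
  simp only [mem_smoothSet, Set.mem_empty_iff_false, imp_false, Set.mem_singleton_iff]
  constructor
  · rintro ⟨hm, h⟩
    exact eq_one_of_forall_prime_not_dvd hm h
  · rintro rfl
    exact ⟨one_ne_zero, fun p hp hdvd => hp.not_isUnit (isUnit_of_dvd_one hdvd)⟩

/-- Inserting a non-prime does not change the smooth set. -/
theorem smoothSet_insert_of_not_prime {T : Set M} {p : M} (hp : ¬ Prime p) :
    smoothSet (insert p T) = smoothSet T := by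
  ext m
  simp only [mem_smoothSet, Set.mem_insert_iff]
  refine and_congr_right fun _ => forall_congr' fun q => ?_
  constructor
  · intro h hq hqm
    rcases h hq hqm with rfl | h'
    · exact absurd hq hp
    · exact h'
  · intro h hq hqm
    exact Or.inr (h hq hqm)

theorem pow_mul_mem_smoothSet {T : Set M} {p : M} (hp : Prime p) (e : ℕ) {m : M}
    (hm : m ∈ smoothSet T) : p ^ e * m ∈ smoothSet (insert p T) := by
  refine ⟨mul_ne_zero (pow_ne_zero _ hp.ne_zero) hm.1, fun q hq hqd => ?_⟩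
  rcases hq.dvd_or_dvd hqd with h | h
  · have := hq.dvd_of_dvd_pow h
    exact Or.inl ((prime_dvd_prime_iff_eq hq hp).mp this)
  · exact Or.inr (hm.2 q hq h)

/-- The bijection `(e, m) ↦ p ^ e * m`. -/
theorem bijective_pow_mul {T : Set M} {p : M} (hp : Prime p) (hpT : p ∉ T) :
    Function.Bijective (fun x : ℕ × smoothSet T =>
      (⟨p ^ x.1 * x.2.1, pow_mul_mem_smoothSet hp x.1 x.2.2⟩ : smoothSet (insert p T))) := by
  have hnd : ∀ m ∈ smoothSet T, ¬ p ∣ m := fun m hm hd => hpT (hm.2 p hp hd)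
  have key : ∀ (e e' : ℕ) (m m' : M), m ∈ smoothSet T → m' ∈ smoothSet T → e ≤ e' →
      p ^ e * m = p ^ e' * m' → e = e' ∧ m = m' := by
    intro e e' m m' hm hm' hle h
    obtain ⟨k, rfl⟩ := Nat.exists_eq_add_of_le hle
    rw [pow_add, mul_assoc] at h
    have h2 : m = p ^ k * m' := mul_left_cancel₀ (pow_ne_zero _ hp.ne_zero) h
    rcases Nat.eq_zero_or_pos k with rfl | hk
    · simpa using h2
    · exfalso
      apply hnd m hm
      rw [h2]
      exact Dvd.dvd.mul_right (dvd_pow_self p hk.ne') _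
  constructor
  · rintro ⟨e, m, hm⟩ ⟨e', m', hm'⟩ h
    simp only [Subtype.mk.injEq] at h
    rcases le_total e e' with hle | hle
    · obtain ⟨rfl, rfl⟩ := key e e' m m' hm hm' hle h
      rfl
    · obtain ⟨rfl, rfl⟩ := key e' e m' m hm' hm hle h.symm
      rfl
  · rintro ⟨m, hm⟩
    have hfin : FiniteMultiplicity p m := FiniteMultiplicity.of_not_isUnit hp.not_isUnit hm.1
    obtain ⟨c, hc, hnd'⟩ := hfin.exists_eq_pow_mul_and_not_dvd
    have hc0 : c ≠ 0 := by
      rintro rfl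
      exact hm.1 (by rw [hc, mul_zero])
    have hcs : c ∈ smoothSet T := by
      refine ⟨hc0, fun q hq hqc => ?_⟩
      have hqm : q ∣ m := by
        rw [hc]
        exact Dvd.dvd.mul_left hqc _
      rcases hm.2 q hq hqm with rfl | h
      · exact absurd hqc hnd'
      · exact h
    exact ⟨(multiplicity p m, ⟨c, hcs⟩), Subtype.ext hc.symm⟩

/-- The equivalence `ℕ × smoothSet T ≃ smoothSet (insert p T)`, `(e, m) ↦ p ^ e * m`. -/
noncomputable def equivProdNatSmooth {T : Set M} {p : M} (hp : Prime p) (hpT : p ∉ T) :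
    ℕ × smoothSet T ≃ smoothSet (insert p T) :=
  Equiv.ofBijective _ (bijective_pow_mul hp hpT)

@[simp]
theorem equivProdNatSmooth_apply {T : Set M} {p : M} (hp : Prime p) (hpT : p ∉ T)
    (x : ℕ × smoothSet T) : ((equivProdNatSmooth hp hpT x : smoothSet (insert p T)) : M) =
      p ^ x.1 * x.2.1 := rfl


/-! ### The analytic part -/

section Analytic

variable {F : Type*} [NormedField F] [CompleteSpace F] {f : M → F}

open Classical in
/-- A finite product over primes in `T` is the sum over `T`-smooth elements. -/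
theorem summable_and_hasSum_smoothSet (hf₁ : f 1 = 1) (hmul : ∀ a b, f (a * b) = f a * f b)
    (hlt : ∀ p, Prime p → ‖f p‖ < 1) (T : Finset M) :
    Summable (fun m : smoothSet (T : Set M) ↦ ‖f m‖) ∧
      HasSum (fun m : smoothSet (T : Set M) ↦ f m) (∏ p ∈ T with Prime p, (1 - f p)⁻¹) := by
  induction T using Finset.induction with
  | empty =>
    rw [Finset.coe_empty, smoothSet_empty]
    simp only [Finset.filter_empty, Finset.prod_empty]
    exact ⟨(Set.finite_singleton 1).summable (‖f ·‖), hf₁ ▸ hasSum_singleton 1 f⟩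
  | insert p T hp ih =>
    rw [Finset.coe_insert, Finset.filter_insert]
    split_ifs with hpp
    · have hpT : p ∉ (T : Set M) := by simpa using hp
      have hpow : ∀ e : ℕ, f (p ^ e) = f p ^ e := by
        intro e
        induction e with
        | zero => simp [hf₁]
        | succ e ihe => rw [pow_succ, hmul, ihe, pow_succ]
      have hgeo : Summable (fun e : ℕ => ‖f p ^ e‖) := by
        simp only [norm_pow]
        exact summable_geometric_of_lt_one (norm_nonneg _) (hlt p hpp)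
      constructor
      · rw [← (equivProdNatSmooth hpp hpT).summable_iff]
        simp only [Function.comp_def, equivProdNatSmooth_apply, hmul, hpow]
        refine Summable.of_nonneg_of_le (fun _ ↦ norm_nonneg _) (fun _ ↦ norm_mul_le ..) ?_
        apply Summable.mul_of_nonneg hgeo ih.1 <;> exact fun n ↦ norm_nonneg _
      · have hp' : p ∉ {p ∈ T | Prime p} := mt (Finset.mem_of_mem_filter p) hp
        rw [Finset.prod_insert hp', ← (equivProdNatSmooth hpp hpT).hasSum_iff, Function.comp_def]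
        simp only [equivProdNatSmooth_apply, hmul, hpow]
        apply (hasSum_geometric_of_norm_lt_one (hlt p hpp)).mul ih.2
        apply summable_mul_of_summable_norm hgeo ih.1
    · rwa [smoothSet_insert_of_not_prime hpp]


open Classical in
/-- Finitely many elements are simultaneously smooth for a finite set of primes. -/
theorem exists_finset_smooth (S : Finset M) :
    ∃ T : Finset M, ∀ m ∈ S, m ≠ 0 → m ∈ smoothSet (T : Set M) := by
  refine ⟨S.biUnion fun m => (UniqueFactorizationMonoid.factors m).toFinset, fun m hm hm0 => ?_⟩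
  refine ⟨hm0, fun p hp hpm => ?_⟩
  obtain ⟨q, hq, hpq⟩ := UniqueFactorizationMonoid.exists_mem_factors_of_dvd hm0 hp.irreducible hpm
  rw [associated_iff_eq] at hpq
  subst hpq
  simp only [Finset.coe_biUnion, Set.mem_iUnion, Finset.mem_coe, Multiset.mem_toFinset]
  exact ⟨m, hm, hq⟩

/-- Summing over `T`-smooth elements for `T` large gets arbitrarily close to the full sum. -/
theorem norm_tsum_smoothSet_sub_tsum_lt (hsum : Summable f) (hf₀ : f 0 = 0) {ε : ℝ}
    (εpos : 0 < ε) :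
    ∃ T₀ : Finset M, ∀ T : Finset M, T₀ ⊆ T →
      ‖(∑' m : M, f m) - ∑' m : smoothSet (T : Set M), f m‖ < ε := by
  obtain ⟨S, hS⟩ := hsum.tsum_vanishing (Metric.ball_mem_nhds 0 εpos)
  obtain ⟨T₀, hT₀⟩ := exists_finset_smooth S
  refine ⟨T₀, fun T hT => ?_⟩
  have hdisj : Disjoint ((smoothSet (T : Set M))ᶜ \ {0}) (S : Set M) := by
    rw [Set.disjoint_left]
    rintro m ⟨hm, hm0⟩ hmS
    exact hm (smoothSet_mono (by exact_mod_cast hT) (hT₀ m hmS hm0))
  have := hS _ hdisj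
  rw [mem_ball_zero_iff] at this
  rwa [← hsum.tsum_subtype_add_tsum_subtype_compl (smoothSet (T : Set M)),
    add_sub_cancel_left, tsum_eq_tsum_sdiff_singleton (smoothSet (T : Set M))ᶜ hf₀]

theorem norm_lt_one_of_summable (hf₁ : f 1 = 1) (hmul : ∀ a b, f (a * b) = f a * f b)
    (hsum : Summable (‖f ·‖)) {p : M} (hp : Prime p) : ‖f p‖ < 1 := by
  have hpow : ∀ e : ℕ, f (p ^ e) = f p ^ e := by
    intro e
    induction e with
    | zero => simp [hf₁]
    | succ e ihe => rw [pow_succ, hmul, ihe, pow_succ]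
  have h1 : Summable (fun e : ℕ => ‖f (p ^ e)‖) :=
    hsum.comp_injective (pow_injective_of_not_isUnit hp.not_isUnit hp.ne_zero)
  simp only [hpow, norm_pow] at h1
  have := summable_geometric_iff_norm_lt_one.mp h1
  simpa using this

open Classical in
/-- **Euler product** for a completely multiplicative norm-summable function on a unique
factorization monoid with trivial units. -/
theorem hasProd_one_sub_inv (hf₀ : f 0 = 0) (hf₁ : f 1 = 1)
    (hmul : ∀ a b, f (a * b) = f a * f b) (hsum : Summable (‖f ·‖)) :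
    HasProd (fun p : {p : M // Prime p} ↦ (1 - f p)⁻¹) (∑' m, f m) := by
  have hlt : ∀ p, Prime p → ‖f p‖ < 1 := fun p hp => norm_lt_one_of_summable hf₁ hmul hsum hp
  let G : M → F := fun p ↦ (1 - f p)⁻¹
  change HasProd (G ∘ Subtype.val (p := (· ∈ {x | Prime x}))) _
  rw [hasProd_subtype_iff_mulIndicator, HasProd, SummationFilter.unconditional,
    Metric.tendsto_atTop]
  intro ε hε
  obtain ⟨T₀, hT₀⟩ := norm_tsum_smoothSet_sub_tsum_lt hsum.of_norm hf₀ hε
  refine ⟨T₀, fun T hT ↦ ?_⟩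
  have : ∏ p ∈ T, {p | Prime p}.mulIndicator G p = ∏ p ∈ T with Prime p, G p :=
    Finset.prod_mulIndicator_eq_prod_filter T (fun _ ↦ G) _ id
  rw [this, dist_eq_norm, ← (summable_and_hasSum_smoothSet hf₁ hmul hlt T).2.tsum_eq,
    norm_sub_rev]
  exact hT₀ T hT

/-- Finite partial Euler products are sums over smooth elements. -/
theorem prod_one_sub_inv_eq_tsum_smoothSet (hf₁ : f 1 = 1)
    (hmul : ∀ a b, f (a * b) = f a * f b) (hsum : Summable (‖f ·‖)) (T : Finset M)
    (hT : ∀ p ∈ T, Prime p) :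
    ∏ p ∈ T, (1 - f p)⁻¹ = ∑' m : smoothSet (T : Set M), f m := by
  classical
  have hlt : ∀ p, Prime p → ‖f p‖ < 1 := fun p hp => norm_lt_one_of_summable hf₁ hmul hsum hp
  rw [(summable_and_hasSum_smoothSet hf₁ hmul hlt T).2.tsum_eq, Finset.filter_true_of_mem hT]

end Analytic

end Fermat.Agent.Lib.EulerProd

end
-- ===== PACK-END Lib/EulerProd/EulerUFM.lean

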