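import Fermat.Prelude.Def_FLTPrelim_FreyPackage
import Mathlib.Tactic
import Mathlib
import Fermat.Prelude.Def_FLTPrelim_GaloisRep
import Fermat.Prelude.Def_FLTPrelim_Modularity
import Fermat.Prelude.Def_FLTPrelim_ModularRep
import Fermat.Prelude.Def_FLTPrelim_Ramification
import Fermat.Prelude.Def_FLTPrelim_CofixedLine
import Fermat.Prelude.Def_FreyPackage_IsConductorLevel
import Fermat.Prelude.Def_FreyPackage_LevelRaising
import Fermat.Prelude.Def_FreyPackage_EigenformResidualAttachment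
import Fermat.Prelude.Def_WeierstrassCurve_PeuRamifiee
import Fermat.Prelude.Def_ModularCurve_HeckeModule

-- ===== PACK-BEGIN S13/H365/FreyArith.lean
section



/-!
# 2-adic arithmetic of a Frey package

`a ≡ 3 mod 4`, `2 ∣ b`, `p ≥ 5` odd: `4 ∣ b^p - 1 - a^p`, `32 ∣ b^p`, `b^p - a^p` is odd.
-/

set_option autoImplicit false

namespace Fermat.Agent.S13.H365

variable (P : FreyPackage)

lemma frey_two_dvd_b : (2 : ℤ) ∣ P.b :=
  (ZMod.intCast_zmod_eq_zero_iff_dvd P.b 2).1 P.hb2

lemma frey_four_dvd_a_sub : (4 : ℤ) ∣ P.a - 3 := by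
  have h : ((P.a - 3 : ℤ) : ZMod 4) = 0 := by
    push_cast
    rw [P.ha4]
    decide
  exact (ZMod.intCast_zmod_eq_zero_iff_dvd _ 4).1 h

lemma frey_a_odd : ¬ (2 : ℤ) ∣ P.a := by
  intro h
  obtain ⟨k, hk⟩ := frey_four_dvd_a_sub P
  obtain ⟨m, hm⟩ := h
  omega

/-- `b ^ p = 32 * m`. -/
lemma frey_exists_b_pow : ∃ m : ℤ, P.b ^ P.p = 32 * m := by
  obtain ⟨c, hc⟩ := frey_two_dvd_b P
  obtain ⟨k, hk⟩ := Nat.exists_eq_add_of_le P.hp5
  refine ⟨2 ^ k * c ^ P.p, ?_⟩
  rw [hc, mul_pow, hk, pow_add]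
  norm_num
  ring

/-- `b ^ p - 1 - a ^ p = 4 * k`. -/
lemma frey_exists_a₂ : ∃ k : ℤ, P.b ^ P.p - 1 - P.a ^ P.p = 4 * k := by
  obtain ⟨m, hm⟩ := frey_exists_b_pow P
  have h : ((P.b ^ P.p - 1 - P.a ^ P.p : ℤ) : ZMod 4) = 0 := by
    have h32 : ((32 : ℤ) : ZMod 4) = 0 := by decide
    have h3 : (3 : ZMod 4) = -1 := by decide
    rw [hm]
    push_cast
    rw [P.ha4, h3, P.hp_odd.neg_one_pow]
    have : ((32 : ZMod 4)) = 0 := by decide
    rw [this]
    ring
  obtain ⟨k, hk⟩ := (ZMod.intCast_zmod_eq_zero_iff_dvd _ 4).1 h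
  exact ⟨k, hk⟩

/-- `b ^ p - a ^ p` is odd. -/
lemma frey_b₂_odd : ¬ (2 : ℤ) ∣ P.b ^ P.p - P.a ^ P.p := by
  intro h
  have hb : (2 : ℤ) ∣ P.b ^ P.p := dvd_pow (frey_two_dvd_b P) P.hp0
  have ha : (2 : ℤ) ∣ P.a ^ P.p := by
    have := dvd_sub hb h
    simpa using this
  exact frey_a_odd P (Int.prime_two.dvd_of_dvd_pow ha)

end Fermat.Agent.S13.H365

end
-- ===== PACK-END S13/H365/FreyArith.lean

-- ===== PACK-BEGIN S51/H780/Dup.lean
section



/-!
# S51 helper: the `x`-coordinate duplication map on a Weierstrass curve over a field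

`x(2P) · Ψ₂Sq(x(P)) = Φ₂(x(P))`, stated with explicit polynomial expressions in the `b`-invariants.
-/

set_option autoImplicit false

namespace Fermat.Agent.S51.H780

open WeierstrassCurve

section Dup

variable {K : Type*} [Field K] (W : WeierstrassCurve.Affine K)

/-- numerator of the `x`-coordinate duplication map -/
def dupNum (x : K) : K := x ^ 4 - W.b₄ * x ^ 2 - 2 * W.b₆ * x - W.b₈

/-- denominator of the `x`-coordinate duplication map, `= ψ₂²` -/
def dupDen (x : K) : K := 4 * x ^ 3 + W.b₂ * x ^ 2 + 2 * W.b₄ * x + W.b₆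

/-- the `x`-coordinate of a point, with junk value `0` at infinity -/
def xc : W.Point → K
  | .zero => 0
  | .some x _ _ => x

@[simp] lemma xc_some {x y : K} (h : W.Nonsingular x y) : xc W (.some x y h) = x := rfl

lemma xc_neg (P : W.Point) : xc W (-P) = xc W P := by
  cases P <;> rfl

lemma dupDen_eq {x y : K} (h : W.Equation x y) : dupDen W x = (y - W.negY x y) ^ 2 := by
  rw [Affine.equation_iff] at h
  simp only [dupDen, Affine.negY, WeierstrassCurve.b₂, WeierstrassCurve.b₄, WeierstrassCurve.b₆]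
  linear_combination (-4 : K) * h

lemma dupDen_eq_zero_iff {x y : K} (h : W.Equation x y) : dupDen W x = 0 ↔ y = W.negY x y := by
  rw [dupDen_eq W h, sq_eq_zero_iff, sub_eq_zero]

/-- At a nonsingular point with `Ψ₂Sq(x) = 0`, we have `Φ₂(x) ≠ 0`. -/
lemma dupNum_ne_zero_of_dupDen_eq_zero {x y : K} (h : W.Nonsingular x y)
    (hD : dupDen W x = 0) : dupNum W x ≠ 0 := by
  have hy : y = W.negY x y := (dupDen_eq_zero_iff W h.1).mp hD
  rw [Affine.nonsingular_iff] at h
  obtain ⟨he, hs⟩ := h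
  rw [Affine.equation_iff] at he
  simp only [Affine.negY] at hy
  have hψ : 2 * y + W.a₁ * x + W.a₃ = 0 := by linear_combination hy
  have hX : W.a₁ * y - (3 * x ^ 2 + 2 * W.a₂ * x + W.a₄) ≠ 0 := by
    rcases hs with hs | hs
    · exact sub_ne_zero.mpr hs
    · exact absurd (by linear_combination hψ) hs
  have key : dupNum W x = (W.a₁ * y - (3 * x ^ 2 + 2 * W.a₂ * x + W.a₄)) ^ 2 := by
    simp only [dupNum, WeierstrassCurve.b₄, WeierstrassCurve.b₆, WeierstrassCurve.b₈]
    linear_combination (8 * x + W.a₁ ^ 2 + 4 * W.a₂) * he +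
      (W.a₁ * (3 * x ^ 2 + 2 * W.a₂ * x + W.a₄ - W.a₁ * y)
        - (W.a₂ + 2 * x) * (2 * y + W.a₁ * x + W.a₃)) * hψ
  rw [key]
  exact pow_ne_zero 2 hX

lemma eq_or_eq_neg_of_xc_eq {P Q : W.Point} (hP : P ≠ 0) (hQ : Q ≠ 0) (h : xc W P = xc W Q) :
    P = Q ∨ P = -Q := by
  match P, Q with
  | .zero, _ => exact absurd rfl hP
  | _, .zero => exact absurd rfl hQ
  | .some x₁ y₁ h₁, .some x₂ y₂ h₂ =>
    simp only [xc_some] at h
    exact Affine.Point.X_eq_iff.mp h

variable [DecidableEq K]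

lemma dup_addX {x y : K} (h : W.Equation x y) (hy : y ≠ W.negY x y) :
    W.addX x x (W.slope x x y y) * dupDen W x = dupNum W x := by
  have hne : y - W.negY x y ≠ 0 := sub_ne_zero.mpr hy
  rw [dupDen_eq W h, Affine.slope_of_Y_ne rfl hy]
  have h' := h
  rw [Affine.equation_iff] at h'
  set l := (3 * x ^ 2 + 2 * W.a₂ * x + W.a₄ - W.a₁ * y) / (y - W.negY x y) with hl
  have hl' : l * (y - W.negY x y) = 3 * x ^ 2 + 2 * W.a₂ * x + W.a₄ - W.a₁ * y :=
    div_mul_cancel₀ _ hne
  simp only [Affine.addX, dupNum, Affine.negY, WeierstrassCurve.b₄, WeierstrassCurve.b₆,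
    WeierstrassCurve.b₈] at hl' ⊢
  linear_combination (l * (y - (-y - W.a₁ * x - W.a₃)) + (3 * x ^ 2 + 2 * W.a₂ * x + W.a₄ - W.a₁ * y)
    + W.a₁ * (y - (-y - W.a₁ * x - W.a₃))) * hl' + (-8 * x - W.a₁ ^ 2 - 4 * W.a₂) * h'

lemma dupDen_xc_eq_zero_iff {P : W.Point} (hP : P ≠ 0) : dupDen W (xc W P) = 0 ↔ P + P = 0 := by
  match P with
  | .zero => exact absurd rfl hP
  | .some x y h =>
    rw [xc_some, dupDen_eq_zero_iff W h.1]
    constructor
    · intro hy
      exact Affine.Point.add_self_of_Y_eq hy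
    · intro h0
      by_contra hy
      rw [Affine.Point.add_self_of_Y_ne hy] at h0
      exact Affine.Point.some_ne_zero _ h0

lemma xc_add_self {P : W.Point} (hP : P ≠ 0) (h2 : P + P ≠ 0) :
    xc W (P + P) * dupDen W (xc W P) = dupNum W (xc W P) := by
  match P with
  | .zero => exact absurd rfl hP
  | .some x y h =>
    have hy : y ≠ W.negY x y := by
      intro hy
      exact h2 (Affine.Point.add_self_of_Y_eq hy)
    rw [Affine.Point.add_self_of_Y_ne hy, xc_some, xc_some]
    exact dup_addX W h.1 hy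

end Dup

end Fermat.Agent.S51.H780

end
-- ===== PACK-END S51/H780/Dup.lean

-- ===== PACK-BEGIN S12/H411/Count.lean
section


/-!
# S12 (helper411), piece END, part 1: the trivial bound `#E(F) ≤ 2 #F + 1`

For a Weierstrass cubic `W` over a finite field `F` (any reduction type), the group of
nonsingular points has at most `2 · #F + 1` elements: at most two `y` for every `x`.
-/

set_option autoImplicit false

open WeierstrassCurve WeierstrassCurve.Affine Polynomial

namespace Fermat.Agent.S12.H411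

variable {F : Type*} [Field F] (W : Affine F)

/-- the quadratic in `Y` cut out by the Weierstrass equation at a fixed `x` -/
noncomputable def fibrePoly (x : F) : F[X] :=
  X ^ 2 + C (W.a₁ * x + W.a₃) * X - C (x ^ 3 + W.a₂ * x ^ 2 + W.a₄ * x + W.a₆)

lemma fibrePoly_natDegree (x : F) : (fibrePoly W x).natDegree = 2 := by
  unfold fibrePoly
  compute_degree!

lemma fibrePoly_ne_zero (x : F) : fibrePoly W x ≠ 0 := by
  intro h
  have := fibrePoly_natDegree W x
  rw [h, natDegree_zero] at this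
  exact absurd this (by norm_num)

lemma isRoot_fibrePoly {x y : F} (h : W.Equation x y) : (fibrePoly W x).IsRoot y := by
  rw [equation_iff] at h
  simp only [fibrePoly, IsRoot.def, eval_sub, eval_add, eval_pow, eval_X, eval_mul, eval_C]
  linear_combination h

/-- affine points as pairs -/
def pointPair [DecidableEq F] : W.Point → Option (Σ _ : F, F)
  | .zero => none
  | .some x y _ => some ⟨x, y⟩

lemma pointPair_injective [DecidableEq F] : Function.Injective (pointPair W) := by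
  rintro (_ | ⟨x, y, h⟩) (_ | ⟨x', y', h'⟩) e
  · rfl
  · simp [pointPair] at e
  · simp [pointPair] at e
  · simp only [pointPair, Option.some.injEq, Sigma.mk.injEq, heq_eq_eq] at e
    obtain ⟨rfl, rfl⟩ := e
    rfl

/-- the points over a finite field form a finite set -/
theorem finite_point [Finite F] : Finite W.Point := by
  classical
  exact Finite.of_injective (pointPair W) (pointPair_injective W)

/-- **Trivial point count.** -/
theorem natCard_point_le [Finite F] : Nat.card W.Point ≤ 2 * Nat.card F + 1 := by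
  classical
  have := Fintype.ofFinite F
  let S : Finset (Σ _ : F, F) := Finset.univ.sigma fun x => (fibrePoly W x).roots.toFinset
  have hS : S.card ≤ 2 * Nat.card F := by
    rw [Finset.card_sigma]
    calc ∑ x : F, ((fibrePoly W x).roots.toFinset).card
        ≤ ∑ _x : F, 2 := Finset.sum_le_sum fun x _ => by
          calc ((fibrePoly W x).roots.toFinset).card ≤ Multiset.card (fibrePoly W x).roots :=
                Multiset.toFinset_card_le _
            _ ≤ (fibrePoly W x).natDegree := card_roots' _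
            _ = 2 := fibrePoly_natDegree W x
      _ = 2 * Nat.card F := by
          rw [Finset.sum_const, Finset.card_univ, Nat.card_eq_fintype_card, smul_eq_mul, mul_comm]
  let T : Finset (Option (Σ _ : F, F)) := insert none (S.map Function.Embedding.some)
  have hT : T.card ≤ 2 * Nat.card F + 1 := by
    calc T.card ≤ (S.map Function.Embedding.some).card + 1 := Finset.card_insert_le _ _
      _ = S.card + 1 := by rw [Finset.card_map]
      _ ≤ 2 * Nat.card F + 1 := by omega
  have hmem : ∀ P : W.Point, pointPair W P ∈ T := by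
    rintro (_ | ⟨x, y, h⟩)
    · exact Finset.mem_insert_self _ _
    · refine Finset.mem_insert_of_mem (Finset.mem_map.mpr ⟨⟨x, y⟩, ?_, rfl⟩)
      refine Finset.mem_sigma.mpr ⟨Finset.mem_univ _, ?_⟩
      rw [Multiset.mem_toFinset, mem_roots (fibrePoly_ne_zero W x)]
      exact isRoot_fibrePoly W h.1
  calc Nat.card W.Point ≤ Nat.card T :=
        Nat.card_le_card_of_injective (fun P => (⟨pointPair W P, hmem P⟩ : T))
          (fun P Q e => pointPair_injective W (congrArg Subtype.val e))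
    _ = T.card := by rw [Nat.card_eq_fintype_card, Fintype.card_coe]
    _ ≤ 2 * Nat.card F + 1 := hT

end Fermat.Agent.S12.H411

end
-- ===== PACK-END S12/H411/Count.lean

-- ===== PACK-BEGIN Ribet/Spec.lean
section













/-!
# Row RIBET (S38/S43, S39/S40/S44, S45): interface statements

Row-lead file (helper943).  Everything here is a `Prop`-valued *definition*: no proofs, no
`sorry`.  Owners prove `theorem foo : Spec.FooStatement`; glue consumes the statements as
hypotheses.  Plan, layers and owners: `coord/RIBET.md` on branch `origin/helper943`.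

Layers
* L0  frozen statements of this row and of the rows it consumes, as `Prop`s;
* L1  eigenform-level interfaces (Frey form): model transport, Mazur principle at `q ≠ p`,
      Mazur-Ribet at `p`, auxiliary prime, old/new dichotomy, Ribet pivot;
* L3  geometric interfaces on `J₀(N)(ℚ̄)` requested from rows A2 / A3 / S29.
-/

set_option autoImplicit false

open WeierstrassCurve WeierstrassCurve.Affine WeierstrassCurve.Affine.Point
open CuspForm ModularFormClass UpperHalfPlane

namespace Fermat.Agent.Ribet.Spec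

/-- Absolute Galois group of `ℚ`. -/
abbrev GQ : Type := AlgebraicClosure ℚ ≃ₐ[ℚ] AlgebraicClosure ℚ

/-! ## L0. Frozen statements, as Props -/

/-- Frozen S43 (row 37, Frey form). -/
def S43Statement : Prop :=
  ∀ (P : FreyPackage) {N q : ℕ}, P.IsConductorLevel N → q.Prime → q ≠ 2 → q ≠ P.p → q ∣ N →
    GaloisRepIsIrreducible (K := AlgebraicClosure ℚ) ℚ P.freyCurve P.p →
    P.ModularRepOfLevel N → P.GaloisRepUnramifiedAt q →
    ∃ M : ℕ, M ∣ N ∧ ¬ q ∣ M ∧ P.ModularRepOfLevel M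

/-- Frozen S44 (row 38, Frey form). -/
def S44Statement : Prop :=
  ∀ (P : FreyPackage) {N : ℕ}, P.IsConductorLevel N → P.p ∣ N →
    GaloisRepIsIrreducible (K := AlgebraicClosure ℚ) ℚ P.freyCurve P.p →
    P.ModularRepOfLevel N →
    ∃ M : ℕ, M ∣ N ∧ ¬ P.p ∣ M ∧ P.ModularRepOfLevel M

/-- Frozen S39 (row 38, peu ramifié form). -/
def S39Statement : Prop :=
  ∀ (W : WeierstrassCurve ℤ), W.Δ ≠ 0 → ∀ {p : ℕ}, p.Prime → p ≠ 2 →
    ((p : ℤ) ∣ W.Δ → ¬ (p : ℤ) ∣ W.c₄) → W.ModRepIsIrreducible p →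
    (W.map (Int.castRingHom ℚ)).IsPeuRamifieeAt p p →
    ∀ {M : ℕ}, 0 < M → p ∣ M → ¬ p ^ 2 ∣ M → W.IsResiduallyModularOfLevel p M →
    W.IsResiduallyModularOfLevel p (M / p)

/-- Frozen S40 (row 38, good reduction form). -/
def S40Statement : Prop :=
  ∀ (W : WeierstrassCurve ℤ), W.Δ ≠ 0 → ∀ {p : ℕ}, p.Prime → p ≠ 2 →
    W.IsGoodPrimeFor p → W.ModRepIsIrreducible p →
    ∀ {M : ℕ}, 0 < M → p ∣ M → ¬ p ^ 2 ∣ M → W.IsResiduallyModularOfLevel p M →
    W.IsResiduallyModularOfLevel p (M / p)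

/-- Frozen S45. -/
def S45Statement : Prop :=
  ∀ (P : FreyPackage), P.freyCurve.IsModular →
    GaloisRepIsIrreducible (K := AlgebraicClosure ℚ) ℚ P.freyCurve P.p →
    ∃ f : CuspForm (CongruenceSubgroup.Gamma0 2) 2, f ≠ 0

/-- Frozen S05 (landed on main as `Fermat.Agent.S05.result`). -/
def S05Statement : Prop :=
  ∀ (P : FreyPackage) {q : ℕ}, q.Prime → q ≠ 2 → q ≠ P.p → P.GaloisRepUnramifiedAt q

/-- Frozen S06 (glue row; consumed by S45). -/
def S06Statement : Prop :=
  ∀ (P : FreyPackage), ∃ N : ℕ, P.IsConductorLevel N ∧ P.ModularRepOfLevel N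

/-- Frozen S42 (row S29/S42). -/
def S42Statement : Prop :=
  ∀ (P : FreyPackage) (M : ℕ), 0 < M → P.EigenformResidualAttachmentAt M

/-- Level raising in the Frey form of the Prelude (`FreyPackage.LevelRaising`); this is what
frozen S41 gives after unfolding `IsCongruentWitness` (adapter = piece G4). -/
def LevelRaisingStatement : Prop :=
  ∀ (P : FreyPackage) (N q' : ℕ), P.LevelRaising N q'

/-! ## L1. Eigenform-level interfaces -/

/-- (G1a) ELEMENTARY.  When `p ∣ abc` the Frey curve has an integral model which is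
semistable at `p` and peu ramifié at `p` (`v_p(Δ) = 2p·v_p(abc)`; take `P.freyCurveInt`). -/
def FreyModelAtPStatement : Prop :=
  ∀ (P : FreyPackage), (P.p : ℤ) ∣ P.a * P.b * P.c →
    ∃ W : WeierstrassCurve ℤ, W.IsIntegralModelOf P.freyCurve ∧ W.Δ ≠ 0 ∧
      ((P.p : ℤ) ∣ W.Δ → ¬ (P.p : ℤ) ∣ W.c₄) ∧
      (W.map (Int.castRingHom ℚ)).IsPeuRamifieeAt P.p P.p

/-- (G1b) ELEMENTARY.  Irreducibility of the mod-`n` representation only depends on the
`ℚ`-isomorphism class. -/
def IrrTransportStatement : Prop :=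
  ∀ (E : WeierstrassCurve ℚ) (W : WeierstrassCurve ℤ) (n : ℕ), W.IsIntegralModelOf E →
    GaloisRepIsIrreducible (K := AlgebraicClosure ℚ) ℚ E n → W.ModRepIsIrreducible n

/-- (G1c) ELEMENTARY.  An integral model of the Frey curve is bad at every odd prime
dividing `abc` (`j`-invariant is not `q`-integral). -/
def FreyBadPrimeStatement : Prop :=
  ∀ (P : FreyPackage) (W : WeierstrassCurve ℤ) (q : ℕ), W.IsIntegralModelOf P.freyCurve →
    q.Prime → q ≠ 2 → (q : ℤ) ∣ P.a * P.b * P.c → ¬ W.IsGoodPrimeFor q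

/-- (G2) MODEL TRANSPORT.  A congruence witness for one integral model of the Frey curve is
a congruence witness for every integral model.  Inputs: frozen S42 + `Lib/Cheb` Tier 1 + the
trace formula `a_ℓ(W) ≡ tr(Frob_ℓ | E[p])`. -/
def ModelTransportStatement : Prop :=
  ∀ (P : FreyPackage) (N : ℕ), 0 < N → P.ModularRepOfLevel N →
    ∀ W : WeierstrassCurve ℤ, W.IsIntegralModelOf P.freyCurve →
      W.IsResiduallyModularOfLevel P.p N

/-- (TF) TRACE FORMULA.  For an integral model `W` of `E`, a prime `ℓ ≠ n` of good reduction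
of `W` and any Frobenius `τ` at a place over `ℓ`, the trace of `τ` on `E[n]` is `a_ℓ(W)`.
(Shared with rows S52 / S29-S42.) -/
def TraceFormulaStatement : Prop :=
  ∀ (E : WeierstrassCurve ℚ) [E.IsElliptic] (W : WeierstrassCurve ℤ), W.IsIntegralModelOf E →
    ∀ (n ℓ : ℕ), n.Prime → ℓ.Prime → ℓ ≠ n → W.IsGoodPrimeFor ℓ →
    ∀ A : ValuationSubring (AlgebraicClosure ℚ), A.LiesOverPrime ℓ →
    ∀ τ : GQ, A.IsFrobeniusAt τ ℓ →
      galoisTrace (S := ℚ) (K := AlgebraicClosure ℚ) E n τ = ((W.apOfModel ℓ : ℤ) : ZMod n)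

/-- (MPq) MAZUR'S PRINCIPLE at `q ≠ p`, Frey form, general level `L` with `q ‖ L`,
for `q ≢ 1 mod p`. -/
def MazurPrincipleStatement : Prop :=
  ∀ (P : FreyPackage) {L q : ℕ}, 0 < L → q.Prime → q ≠ P.p → q ∣ L → ¬ q ^ 2 ∣ L →
    GaloisRepIsIrreducible (K := AlgebraicClosure ℚ) ℚ P.freyCurve P.p →
    P.ModularRepOfLevel L → P.GaloisRepUnramifiedAt q → ¬ P.p ∣ q - 1 →
    P.ModularRepOfLevel (L / q)

/-- (MPq-weak) the same with the weaker exclusion `q ≢ ±1 mod p` (what the Prelude predicate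
`ToricFrobeniusSq` gives). -/
def MazurPrincipleWeakStatement : Prop :=
  ∀ (P : FreyPackage) {L q : ℕ}, 0 < L → q.Prime → q ≠ P.p → q ∣ L → ¬ q ^ 2 ∣ L →
    GaloisRepIsIrreducible (K := AlgebraicClosure ℚ) ℚ P.freyCurve P.p →
    P.ModularRepOfLevel L → P.GaloisRepUnramifiedAt q → ¬ P.p ∣ q - 1 → ¬ P.p ∣ q + 1 →
    P.ModularRepOfLevel (L / q)

/-- (AUX) AUXILIARY PRIME.  For every integral model `W` there is a prime `q'` of good
reduction of `W`, not dividing `N`, with `q' ≡ -1 mod p` and `a_{q'}(W) ≡ 0 mod p`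
(Frobenius at `q'` = complex conjugation on `ℚ(E[p])`; `Lib/Cheb` Tier 1 + TF + det = cyclotomic). -/
def AuxPrimeStatement : Prop :=
  ∀ (P : FreyPackage) (N : ℕ) (W : WeierstrassCurve ℤ), 0 < N →
    W.IsIntegralModelOf P.freyCurve →
    GaloisRepIsIrreducible (K := AlgebraicClosure ℚ) ℚ P.freyCurve P.p →
    ∃ q' : ℕ, q'.Prime ∧ ¬ q' ∣ N ∧ q' ≠ P.p ∧ q' ≠ 2 ∧ W.IsGoodPrimeFor q' ∧
      P.p ∣ q' + 1 ∧ (P.p : ℤ) ∣ W.apOfModel q'

/-- (ON) OLD/NEW DICHOTOMY (Atkin-Lehner; NEWFORM lib).  A normalised eigenform of level `L`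
with `q ‖ L` either has `a_q² = 1` or its eigensystem away from `L` occurs at level `L / q`. -/
def OldNewStatement : Prop :=
  ∀ (L q : ℕ), 0 < L → q.Prime → q ∣ L → ¬ q ^ 2 ∣ L →
    ∀ g : CuspForm (CongruenceSubgroup.Gamma0 L) 2, g.IsNormalizedEigenform →
      g.IsNewAt q ∨
      ∃ g' : CuspForm (CongruenceSubgroup.Gamma0 (L / q)) 2, g'.IsNormalizedEigenform ∧
        ∀ ℓ : ℕ, ℓ.Prime → ¬ ℓ ∣ L → qCoeff g' ℓ = qCoeff g ℓ

/-- (PIV) RIBET'S PIVOT = THE SHIMURA-CURVE WALL.  A witness of level `L` which is new at two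
distinct primes `q, q' ‖ L` (both `≠ p`), with the representation unramified at `q`, gives a
witness of level `L / q`.  (Cerednik-Drinfeld + Ribet's exact sequence of character groups.) -/
def RibetPivotStatement : Prop :=
  ∀ (P : FreyPackage) {L q q' : ℕ}, 0 < L → q.Prime → q'.Prime → q ≠ q' → q ≠ P.p → q' ≠ P.p →
    q ∣ L → ¬ q ^ 2 ∣ L → q' ∣ L → ¬ q' ^ 2 ∣ L →
    GaloisRepIsIrreducible (K := AlgebraicClosure ℚ) ℚ P.freyCurve P.p →
    P.GaloisRepUnramifiedAt q →
    ∀ (g : CuspForm (CongruenceSubgroup.Gamma0 L) 2) (W : WeierstrassCurve ℤ)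
      (𝔪 : Ideal (integralClosure ℤ ℂ)),
      P.IsCongruentWitness L g W 𝔪 → g.IsNewAt q → g.IsNewAt q' →
      P.ModularRepOfLevel (L / q)

/-! ## L3. Geometric interfaces on `J₀(N)(ℚ̄)` (requests to rows A2, A3, S29)

Conventions: `J₀(N) = ModularCurve.JZero N` with its Prelude Galois action; the Hecke operator
at a prime `ℓ` is `ModularCurve.heckeOperatorBar N ℓ`.  `E[p]` is
`Submodule.torsionBy ℤ (P.freyCurve⁄ℚ̄).Point P.p`.  All eigenvalues are integers acting by
`zsmul` (the eigensystem of `E[p]` is `𝔽_p`-valued, so no tensor products are needed). -/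

open ModularCurve

/-- `E[p]` for the Frey curve. -/
abbrev FreyTorsion (P : FreyPackage) : Type :=
  Submodule.torsionBy ℤ (P.freyCurve⁄(AlgebraicClosure ℚ)).Point P.p

/-- "The eigensystem `a` (integers, taken mod `p`) occurs in `J₀(N)[p]` away from `S`". -/
def OccursIn (N p : ℕ) [NeZero N] (S : Finset ℕ) (a : ℕ → ℤ) : Prop :=
  ∃ x : JZero N, x ≠ 0 ∧ p • x = 0 ∧
    ∀ ℓ : Nat.Primes, (ℓ : ℕ) ∉ S → heckeOperatorBar N ℓ x = a ℓ • x

/-- A Galois- and Hecke-equivariant embedding of `E[p]` into `J₀(N)`, away from `S`. -/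
def FreyEmbedsIn (P : FreyPackage) (N : ℕ) [NeZero N] (S : Finset ℕ) (a : ℕ → ℤ) : Prop :=
  ∃ ι : FreyTorsion P →+ JZero N, Function.Injective ι ∧
    (∀ (σ : GQ) (x : FreyTorsion P), ι (σ • x) = σ • ι x) ∧
    ∀ ℓ : Nat.Primes, (ℓ : ℕ) ∉ S → ∀ x : FreyTorsion P,
      heckeOperatorBar N ℓ (ι x) = a ℓ • ι x

/-- (BLR) [row S29/S42 + S37 + Tier 1]  Boston-Lenstra-Ribet: a congruence witness of level `N`
for an irreducible `E[p]` gives an equivariant embedding `E[p] ↪ J₀(N)[p]`, with `T_ℓ` acting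
through `a_ℓ(W)` for all `ℓ` outside a finite set. -/
def EmbedStatement : Prop :=
  ∀ (P : FreyPackage) (N : ℕ) [NeZero N],
    GaloisRepIsIrreducible (K := AlgebraicClosure ℚ) ℚ P.freyCurve P.p →
    ∀ (f : CuspForm (CongruenceSubgroup.Gamma0 N) 2) (W : WeierstrassCurve ℤ)
      (𝔪 : Ideal (integralClosure ℤ ℂ)), P.IsCongruentWitness N f W 𝔪 →
      ∃ S : Finset ℕ, FreyEmbedsIn P N S (fun ℓ => W.apOfModel ℓ)

/-- (R3) [row S29 dictionary + S21 + Deligne-Serre lifting]  An eigensystem occurring in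
`J₀(M)[p]` away from a finite set `S` is the reduction of a normalised eigenform of level `M`
(congruence for the primes outside `S`). -/
def EigenformOfOccursStatement : Prop :=
  ∀ (M p : ℕ) [NeZero M], p.Prime → ∀ (S : Finset ℕ) (a : ℕ → ℤ), OccursIn M p S a →
    ∃ (g : CuspForm (CongruenceSubgroup.Gamma0 M) 2) (𝔪 : Ideal (integralClosure ℤ ℂ)),
      g.IsNormalizedEigenform ∧ 𝔪.IsMaximal ∧ (p : integralClosure ℤ ℂ) ∈ 𝔪 ∧
      ∀ ℓ : ℕ, ℓ.Prime → ℓ ∉ S →
        ∃ b : integralClosure ℤ ℂ, (b : ℂ) = qCoeff g ℓ ∧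
          b - ((a ℓ : ℤ) : integralClosure ℤ ℂ) ∈ 𝔪

/-- (R3') [S42 + Tier 1 + TF]  Upgrade "congruent outside a finite set `S`" to a congruence
witness (all good primes not dividing `M·p`). -/
def AlmostAllToWitnessStatement : Prop :=
  ∀ (P : FreyPackage) (M : ℕ), 0 < M →
    ∀ (g : CuspForm (CongruenceSubgroup.Gamma0 M) 2) (W : WeierstrassCurve ℤ)
      (𝔪 : Ideal (integralClosure ℤ ℂ)) (S : Finset ℕ),
      g.IsNormalizedEigenform → W.IsIntegralModelOf P.freyCurve → 𝔪.IsMaximal →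
      (P.p : integralClosure ℤ ℂ) ∈ 𝔪 →
      (∀ ℓ : ℕ, ℓ.Prime → ℓ ∉ S →
        ∃ b : integralClosure ℤ ℂ, (b : ℂ) = qCoeff g ℓ ∧
          b - ((W.apOfModel ℓ : ℤ) : integralClosure ℤ ℂ) ∈ 𝔪) →
      P.IsCongruentWitness M g W 𝔪

/-- (A2+) TORIC PACKAGE at `q ‖ N = q·M'`, for `p`-torsion, `p ≠ q` [row A2, helper13].
At a place `A` over `q` there are subgroups `𝒯 ≤ 𝓕` of the inertia-fixed `p`-torsion of
`J₀(qM')` ("toric part" and "finite part") such that
* `J[p]^I / 𝓕` is Eisenstein (`T_ℓ - ℓ - 1` maps `J[p]^I` into `𝓕`; component group),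
* `𝓕 / 𝒯` embeds Hecke-equivariantly (away from `q·M'·p`) in `J₀(M')²` ("abelian part"),
* Frobenius at `A` preserves `𝒯` and acts on it as `q·u` with `u` an involution commuting
  with Galois and Hecke (`u = U_q`); in particular `φ² = q²` (`ToricFrobeniusSq`). -/
def ToricPackageStatement : Prop :=
  ∀ (M' q p : ℕ) [NeZero M'] [NeZero (q * M')], q.Prime → p.Prime → q ≠ p → ¬ q ∣ M' →
    ∀ A : ValuationSubring (AlgebraicClosure ℚ), A.LiesOverPrime q →
    ∃ (𝒯 𝓕 : AddSubgroup (JZero (q * M'))) (β : 𝓕 →+ JZero M' × JZero M')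
      (u : JZero (q * M') →+ JZero (q * M')),
      𝒯 ≤ 𝓕 ∧
      (∀ x ∈ 𝓕, p • x = 0 ∧ ∀ σ ∈ A.inertiaSubgroupIn ℚ, σ • x = x) ∧
      (∀ x : JZero (q * M'), p • x = 0 → (∀ σ ∈ A.inertiaSubgroupIn ℚ, σ • x = x) →
        ∀ ℓ : Nat.Primes, ¬ (ℓ : ℕ) ∣ q * M' * p →
          heckeOperatorBar (q * M') ℓ x - ((ℓ : ℕ) + 1) • x ∈ 𝓕) ∧
      (∀ ℓ : Nat.Primes, ¬ (ℓ : ℕ) ∣ q * M' * p → ∀ x : 𝓕,
        ∃ hx : heckeOperatorBar (q * M') ℓ (x : JZero (q * M')) ∈ 𝓕,
          β ⟨_, hx⟩ = (heckeOperatorBar M' ℓ (β x).1, heckeOperatorBar M' ℓ (β x).2)) ∧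
      (∀ x : 𝓕, β x = 0 → (x : JZero (q * M')) ∈ 𝒯) ∧
      (∀ (σ : GQ) (x : JZero (q * M')), u (σ • x) = σ • u x) ∧
      (∀ (ℓ : Nat.Primes) (x : JZero (q * M')),
        u (heckeOperatorBar (q * M') ℓ x) = heckeOperatorBar (q * M') ℓ (u x)) ∧
      (∀ x ∈ 𝒯, u (u x) = x) ∧
      (∀ φ : GQ, A.IsFrobeniusAt φ q → ∀ x ∈ 𝒯, φ • x = q • u x)

/-- (A3+) AT-`p` PACKAGE at `p ‖ N = p·M'` [rows A3 (helper15) + A2 (helper13)].
At a place `A` over `p` there are subgroups `𝒲 ≤ 𝓕 ≤ J₀(pM')[p]` ("multiplicative-type part"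
and "finite part") such that
* inertia acts on `𝒲` through the mod-`p` cyclotomic character (`MultiplicativeType`),
  encoded as: `σ x = c • x` whenever `σ ζ = ζ ^ c` for all `p`-th roots of unity `ζ`;
* `𝓕 / 𝒲` embeds Hecke-equivariantly (away from `M'·p`) in `J₀(M')²`;
* (FLAT ⇒ FINITE) the image of every Galois-equivariant map `E[p] → J₀(pM')[p]` lies in `𝓕`,
  when `E` is the Frey curve and `p ∣ abc` (Tate curve, peu ramifié). -/
def AtPPackageStatement : Prop :=
  ∀ (P : FreyPackage) (M' : ℕ) [NeZero M'] [NeZero (P.p * M')], ¬ P.p ∣ M' →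
    (P.p : ℤ) ∣ P.a * P.b * P.c →
    ∀ A : ValuationSubring (AlgebraicClosure ℚ), A.LiesOverPrime P.p →
    ∃ (𝒲 𝓕 : AddSubgroup (JZero (P.p * M'))) (β : 𝓕 →+ JZero M' × JZero M'),
      𝒲 ≤ 𝓕 ∧
      (∀ x ∈ 𝓕, P.p • x = 0) ∧
      (∀ σ ∈ A.inertiaSubgroupIn ℚ, ∀ c : ℕ,
        (∀ ζ : AlgebraicClosure ℚ, ζ ^ P.p = 1 → σ ζ = ζ ^ c) → ∀ x ∈ 𝒲, σ • x = c • x) ∧
      (∀ ℓ : Nat.Primes, ¬ (ℓ : ℕ) ∣ M' * P.p → ∀ x : 𝓕,
        ∃ hx : heckeOperatorBar (P.p * M') ℓ (x : JZero (P.p * M')) ∈ 𝓕,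
          β ⟨_, hx⟩ = (heckeOperatorBar M' ℓ (β x).1, heckeOperatorBar M' ℓ (β x).2)) ∧
      (∀ x : 𝓕, β x = 0 → (x : JZero (P.p * M')) ∈ 𝒲) ∧
      (∀ ι : FreyTorsion P →+ JZero (P.p * M'),
        (∀ (σ : GQ) (x : FreyTorsion P), ι (σ • x) = σ • ι x) → ∀ x, ι x ∈ 𝓕)

/-- (NMT) [Weil pairing: `det = cyclotomic`, Prelude `GaloisRepDetEqCyclotomic`]  `E[p]` is not
of multiplicative type at `p`: inertia at `p` does not act on all of `E[p]` through the
cyclotomic scalar (otherwise `det = χ²` on inertia, but `det = χ ≠ 1` there, `p ≥ 3`). -/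
def NotMultiplicativeTypeStatement : Prop :=
  ∀ (P : FreyPackage) (A : ValuationSubring (AlgebraicClosure ℚ)), A.LiesOverPrime P.p →
    ¬ ∀ σ ∈ A.inertiaSubgroupIn ℚ, ∀ c : ℕ,
      (∀ ζ : AlgebraicClosure ℚ, ζ ^ P.p = 1 → σ ζ = ζ ^ c) →
      ∀ x : FreyTorsion P, σ • x = c • x

/-- (DETF) [Weil pairing]  The determinant of a Frobenius at `q ≠ p` on `E[p]` is `q`. -/
def DetFrobStatement : Prop :=
  ∀ (P : FreyPackage) (q : ℕ), q.Prime → q ≠ P.p →
    ∀ A : ValuationSubring (AlgebraicClosure ℚ), A.LiesOverPrime q →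
    ∀ φ : GQ, A.IsFrobeniusAt φ q →
      LinearMap.det (galoisRepModuleEnd (S := ℚ) (K := AlgebraicClosure ℚ) P.freyCurve P.p φ)
        = (q : ZMod P.p)

/-- (DIM) `E[p]` has rank two over `𝔽_p` (landed libs only have `card ≤ p²`). -/
def TorsionRankStatement : Prop :=
  ∀ (P : FreyPackage), Module.finrank (ZMod P.p) (FreyTorsion P) = 2

/-- (NE) NON-EISENSTEIN [Tier 1 + TF + elementary group theory]  An irreducible `E[p]` has,
outside any finite set, a good prime `ℓ` with `a_ℓ(W) ≢ ℓ + 1 mod p`. -/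
def NonEisensteinStatement : Prop :=
  ∀ (P : FreyPackage) (W : WeierstrassCurve ℤ), W.IsIntegralModelOf P.freyCurve →
    GaloisRepIsIrreducible (K := AlgebraicClosure ℚ) ℚ P.freyCurve P.p →
    ∀ S : Finset ℕ, ∃ ℓ : ℕ, ℓ.Prime ∧ ℓ ∉ S ∧ W.IsGoodPrimeFor ℓ ∧
      ¬ (P.p : ℤ) ∣ W.apOfModel ℓ - (ℓ + 1)

/-- (PL) [Tier 1 lib / Mathlib]  Places and Frobenius elements exist. -/
def PlacesStatement : Prop :=
  ∀ q : ℕ, q.Prime → ∃ A : ValuationSubring (AlgebraicClosure ℚ), A.LiesOverPrime q ∧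
    ∃ φ : GQ, A.IsFrobeniusAt φ q

end Fermat.Agent.Ribet.Spec

end
-- ===== PACK-END Ribet/Spec.lean

-- ===== PACK-BEGIN Lib/Cheb/H341/Abstract.lean
section


/-!
# CHEB piece M, abstract part (helper341)

Prime Dirichlet sums `pSum b s = ∑' p, b p * p ^ (-s)` of bounded coefficient functions,
the relation `Near b c` (`pSum b s = c * log (1/(s-1)) + O(1)` on `(1, 2]`), and the
subgroup induction: if for every subgroup `H` of a finite group the sum over `X ≤ H` of `g X`
is `Near (card H)`, then each `g X` is `Near (psi X)`, `psi X` = number of generators of `X`.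
-/

set_option autoImplicit false

namespace Fermat.Agent.Lib.Cheb.H341

open Finset

/-- `ell s = log (1 / (s - 1))`. -/
noncomputable def ell (s : ℝ) : ℝ := Real.log (1 / (s - 1))

/-- The prime Dirichlet sum of a coefficient function. -/
noncomputable def pSum (b : Nat.Primes → ℝ) (s : ℝ) : ℝ :=
  ∑' p : Nat.Primes, b p * (p : ℝ) ^ (-s)

/-- Bounded coefficient function. -/
def Bdd (b : Nat.Primes → ℝ) : Prop := ∃ K : ℝ, ∀ p, |b p| ≤ K

/-- `pSum b s = c * ell s + O(1)` on `(1, 2]`. -/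
def Near (b : Nat.Primes → ℝ) (c : ℝ) : Prop :=
  ∃ C : ℝ, ∀ s : ℝ, 1 < s → s ≤ 2 → |pSum b s - c * ell s| ≤ C

theorem Bdd.add {b₁ b₂ : Nat.Primes → ℝ} (h₁ : Bdd b₁) (h₂ : Bdd b₂) :
    Bdd (fun p => b₁ p + b₂ p) := by
  obtain ⟨K₁, hK₁⟩ := h₁
  obtain ⟨K₂, hK₂⟩ := h₂
  exact ⟨K₁ + K₂, fun p => (abs_add_le _ _).trans (add_le_add (hK₁ p) (hK₂ p))⟩

theorem Bdd.neg {b : Nat.Primes → ℝ} (h : Bdd b) : Bdd (fun p => - b p) := by
  obtain ⟨K, hK⟩ := h
  exact ⟨K, fun p => by rw [abs_neg]; exact hK p⟩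

theorem Bdd.sub {b₁ b₂ : Nat.Primes → ℝ} (h₁ : Bdd b₁) (h₂ : Bdd b₂) :
    Bdd (fun p => b₁ p - b₂ p) := by
  simpa [sub_eq_add_neg] using h₁.add h₂.neg

theorem Bdd.const_mul {b : Nat.Primes → ℝ} (h : Bdd b) (k : ℝ) : Bdd (fun p => k * b p) := by
  obtain ⟨K, hK⟩ := h
  refine ⟨|k| * K, fun p => ?_⟩
  rw [abs_mul]
  exact mul_le_mul_of_nonneg_left (hK p) (abs_nonneg k)

theorem bdd_zero : Bdd (fun _ => 0) := ⟨0, fun _ => by simp⟩

theorem Bdd.finset_sum {ι : Type*} (t : Finset ι) (b : ι → Nat.Primes → ℝ)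
    (h : ∀ i ∈ t, Bdd (b i)) : Bdd (fun p => ∑ i ∈ t, b i p) := by
  classical
  induction t using Finset.induction_on with
  | empty => simpa using bdd_zero
  | insert a t ha ih =>
    have h1 : Bdd (b a) := h a (mem_insert_self a t)
    have h2 : Bdd (fun p => ∑ i ∈ t, b i p) := ih (fun i hi => h i (mem_insert_of_mem hi))
    obtain ⟨K, hK⟩ := h1.add h2
    refine ⟨K, fun p => ?_⟩
    simpa [sum_insert ha] using hK p

theorem summable_of_bdd {b : Nat.Primes → ℝ} (hb : Bdd b) {s : ℝ} (hs : 1 < s) :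
    Summable (fun p : Nat.Primes => b p * (p : ℝ) ^ (-s)) := by
  obtain ⟨K, hK⟩ := hb
  have h1 : Summable (fun p : Nat.Primes => K * (p : ℝ) ^ (-s)) :=
    (Nat.Primes.summable_rpow.mpr (by linarith)).mul_left K
  refine Summable.of_norm_bounded h1 (fun p => ?_)
  rw [Real.norm_eq_abs, abs_mul]
  have hp : (0:ℝ) ≤ (p : ℝ) ^ (-s) := Real.rpow_nonneg (Nat.cast_nonneg _) _
  rw [abs_of_nonneg hp]
  exact mul_le_mul_of_nonneg_right (hK p) hp

theorem pSum_add {b₁ b₂ : Nat.Primes → ℝ} (h₁ : Bdd b₁) (h₂ : Bdd b₂) {s : ℝ} (hs : 1 < s) :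
    pSum (fun p => b₁ p + b₂ p) s = pSum b₁ s + pSum b₂ s := by
  unfold pSum
  rw [← (summable_of_bdd h₁ hs).tsum_add (summable_of_bdd h₂ hs)]
  exact tsum_congr (fun p => by ring)

theorem pSum_neg (b : Nat.Primes → ℝ) (s : ℝ) :
    pSum (fun p => - b p) s = - pSum b s := by
  unfold pSum
  rw [← tsum_neg]
  exact tsum_congr (fun p => by ring)

theorem pSum_sub {b₁ b₂ : Nat.Primes → ℝ} (h₁ : Bdd b₁) (h₂ : Bdd b₂) {s : ℝ} (hs : 1 < s) :
    pSum (fun p => b₁ p - b₂ p) s = pSum b₁ s - pSum b₂ s := by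
  have := pSum_add h₁ h₂.neg hs
  simp only [pSum_neg] at this
  simpa [sub_eq_add_neg] using this

theorem pSum_const_mul (b : Nat.Primes → ℝ) (k : ℝ) (s : ℝ) :
    pSum (fun p => k * b p) s = k * pSum b s := by
  unfold pSum
  rw [← tsum_mul_left]
  exact tsum_congr (fun p => by ring)

theorem pSum_zero (s : ℝ) : pSum (fun _ => 0) s = 0 := by
  unfold pSum
  simp

theorem Near.add {b₁ b₂ : Nat.Primes → ℝ} {c₁ c₂ : ℝ} (hb₁ : Bdd b₁) (hb₂ : Bdd b₂)
    (h₁ : Near b₁ c₁) (h₂ : Near b₂ c₂) : Near (fun p => b₁ p + b₂ p) (c₁ + c₂) := by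
  obtain ⟨C₁, hC₁⟩ := h₁
  obtain ⟨C₂, hC₂⟩ := h₂
  refine ⟨C₁ + C₂, fun s hs hs2 => ?_⟩
  rw [pSum_add hb₁ hb₂ hs]
  have e : pSum b₁ s + pSum b₂ s - (c₁ + c₂) * ell s =
      (pSum b₁ s - c₁ * ell s) + (pSum b₂ s - c₂ * ell s) := by ring
  rw [e]
  exact (abs_add_le _ _).trans (add_le_add (hC₁ s hs hs2) (hC₂ s hs hs2))

theorem Near.neg {b : Nat.Primes → ℝ} {c : ℝ} (h : Near b c) : Near (fun p => - b p) (-c) := by
  obtain ⟨C, hC⟩ := h
  refine ⟨C, fun s hs hs2 => ?_⟩
  rw [pSum_neg]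
  have e : -pSum b s - -c * ell s = -(pSum b s - c * ell s) := by ring
  rw [e, abs_neg]
  exact hC s hs hs2

theorem Near.sub {b₁ b₂ : Nat.Primes → ℝ} {c₁ c₂ : ℝ} (hb₁ : Bdd b₁) (hb₂ : Bdd b₂)
    (h₁ : Near b₁ c₁) (h₂ : Near b₂ c₂) : Near (fun p => b₁ p - b₂ p) (c₁ - c₂) := by
  simpa [sub_eq_add_neg] using Near.add hb₁ hb₂.neg h₁ h₂.neg

theorem Near.const_mul {b : Nat.Primes → ℝ} {c : ℝ} (h : Near b c) (k : ℝ) :
    Near (fun p => k * b p) (k * c) := by
  obtain ⟨C, hC⟩ := h
  refine ⟨|k| * C, fun s hs hs2 => ?_⟩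
  rw [pSum_const_mul]
  have e : k * pSum b s - k * c * ell s = k * (pSum b s - c * ell s) := by ring
  rw [e, abs_mul]
  exact mul_le_mul_of_nonneg_left (hC s hs hs2) (abs_nonneg k)

theorem near_zero : Near (fun _ => 0) 0 :=
  ⟨0, fun s _ _ => by simp [pSum_zero]⟩

theorem Near.finset_sum {ι : Type*} (t : Finset ι) (b : ι → Nat.Primes → ℝ) (c : ι → ℝ)
    (hb : ∀ i ∈ t, Bdd (b i)) (h : ∀ i ∈ t, Near (b i) (c i)) :
    Near (fun p => ∑ i ∈ t, b i p) (∑ i ∈ t, c i) := by
  classical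
  induction t using Finset.induction_on with
  | empty => simpa using near_zero
  | insert a t ha ih =>
    have h1 : Near (b a) (c a) := h a (mem_insert_self a t)
    have hb1 : Bdd (b a) := hb a (mem_insert_self a t)
    have hb2 : Bdd (fun p => ∑ i ∈ t, b i p) :=
      Bdd.finset_sum t b (fun i hi => hb i (mem_insert_of_mem hi))
    have h2 := ih (fun i hi => hb i (mem_insert_of_mem hi)) (fun i hi => h i (mem_insert_of_mem hi))
    have := Near.add hb1 hb2 h1 h2
    rw [sum_insert ha]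
    refine ⟨this.choose, fun s hs hs2 => ?_⟩
    have e : (fun p => ∑ i ∈ insert a t, b i p) = fun p => b a p + ∑ i ∈ t, b i p := by
      funext p
      rw [sum_insert ha]
    rw [e]
    exact this.choose_spec s hs hs2

/-- A finitely supported coefficient function has bounded prime sum. -/
theorem near_zero_of_finite_support {b : Nat.Primes → ℝ} (T : Finset Nat.Primes)
    (h : ∀ p, p ∉ T → b p = 0) : Near b 0 := by
  refine ⟨∑ p ∈ T, |b p|, fun s hs _ => ?_⟩
  have e : pSum b s = ∑ p ∈ T, b p * (p : ℝ) ^ (-s) := by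
    unfold pSum
    exact tsum_eq_sum (fun p hp => by rw [h p hp, zero_mul])
  rw [e, zero_mul, sub_zero]
  refine (abs_sum_le_sum_abs _ _).trans (sum_le_sum (fun p _ => ?_))
  rw [abs_mul]
  have hp0 : (0:ℝ) ≤ (p : ℝ) ^ (-s) := Real.rpow_nonneg (Nat.cast_nonneg _) _
  rw [abs_of_nonneg hp0]
  have hp1 : (p : ℝ) ^ (-s) ≤ 1 := by
    have h1 : (1:ℝ) ≤ (p : ℝ) := by exact_mod_cast p.2.one_lt.le
    exact Real.rpow_le_one_of_one_le_of_nonpos h1 (by linarith)
  calc |b p| * (p : ℝ) ^ (-s) ≤ |b p| * 1 := mul_le_mul_of_nonneg_left hp1 (abs_nonneg _)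
    _ = |b p| := mul_one _

theorem bdd_of_finite_support {b : Nat.Primes → ℝ} (T : Finset Nat.Primes)
    (h : ∀ p, p ∉ T → b p = 0) : Bdd b := by
  refine ⟨∑ p ∈ T, |b p|, fun p => ?_⟩
  by_cases hp : p ∈ T
  · exact single_le_sum (f := fun p => |b p|) (fun i _ => abs_nonneg _) hp
  · rw [h p hp, abs_zero]
    exact sum_nonneg (fun i _ => abs_nonneg _)

/-- Changing a bounded coefficient function on a finite set does not change `Near`. -/
theorem Near.congr_off_finite {b b' : Nat.Primes → ℝ} {c : ℝ} (hb : Bdd b) (h : Near b c)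
    (T : Finset Nat.Primes) (hT : ∀ p, p ∉ T → b' p = b p) : Near b' c := by
  have hd : ∀ p, p ∉ T → (fun p => b' p - b p) p = 0 := fun p hp => by simp [hT p hp]
  have h1 := near_zero_of_finite_support T hd
  have hb1 := bdd_of_finite_support T hd
  have := Near.add hb hb1 h h1
  have e : (fun p => b p + (b' p - b p)) = b' := by funext p; ring
  rw [e, add_zero] at this
  exact this

theorem ell_unbounded (M : ℝ) : ∃ s : ℝ, 1 < s ∧ s ≤ 2 ∧ M < ell s := by
  refine ⟨1 + Real.exp (-(max M 0 + 1)), ?_, ?_, ?_⟩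
  · have := Real.exp_pos (-(max M 0 + 1))
    linarith
  · have : Real.exp (-(max M 0 + 1)) ≤ 1 := by
      rw [Real.exp_le_one_iff]
      have := le_max_right M 0
      linarith
    linarith
  · unfold ell
    have e : (1 + Real.exp (-(max M 0 + 1)) - 1) = Real.exp (-(max M 0 + 1)) := by ring
    rw [e, one_div, ← Real.exp_neg, Real.log_exp]
    have := le_max_left M 0
    linarith

/-- If `pSum b = c * ell + O(1)` with `c ≠ 0`, then `b` is not identically zero. -/
theorem Near.exists_ne_zero {b : Nat.Primes → ℝ} {c : ℝ} (h : Near b c) (hc : c ≠ 0) :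
    ∃ p, b p ≠ 0 := by
  by_contra hcon
  push Not at hcon
  obtain ⟨C, hC⟩ := h
  have hb : b = fun _ => 0 := funext hcon
  obtain ⟨s, hs, hs2, hM⟩ := ell_unbounded (C / |c|)
  have := hC s hs hs2
  rw [hb, pSum_zero, zero_sub, abs_neg, abs_mul] at this
  have hcpos : 0 < |c| := abs_pos.mpr hc
  have h2 : C / |c| < |ell s| := lt_of_lt_of_le hM (le_abs_self _)
  rw [div_lt_iff₀ hcpos] at h2
  linarith [mul_comm |c| |ell s|]

/-! ## Subgroup induction -/

section Group

variable {G : Type*} [Group G] [Finite G]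

/-- Number of generators of the subgroup `X`. -/
noncomputable def psi (X : Subgroup G) : ℕ := Nat.card {x : G // Subgroup.zpowers x = X}

/-- The finite set of subgroups contained in `H`. -/
noncomputable def subLe (H : Subgroup G) : Finset (Subgroup G) :=
  (Set.toFinite {X : Subgroup G | X ≤ H}).toFinset

/-- The finite set of subgroups strictly contained in `H`. -/
noncomputable def subLt (H : Subgroup G) : Finset (Subgroup G) :=
  (Set.toFinite {X : Subgroup G | X < H}).toFinset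

@[simp] theorem mem_subLe {H X : Subgroup G} : X ∈ subLe H ↔ X ≤ H := by
  simp [subLe]

@[simp] theorem mem_subLt {H X : Subgroup G} : X ∈ subLt H ↔ X < H := by
  simp [subLt]

theorem subLe_eq_insert (X : Subgroup G) [DecidableEq (Subgroup G)] :
    subLe X = insert X (subLt X) := by
  ext Y
  simp only [mem_subLe, mem_insert, mem_subLt]
  constructor
  · intro hY
    rcases eq_or_lt_of_le hY with h1 | h1
    · exact Or.inl h1
    · exact Or.inr h1
  · rintro (h1 | h1)
    · exact h1.le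
    · exact h1.le

theorem sum_psi (H : Subgroup G) : ∑ X ∈ subLe H, psi X = Nat.card H := by
  classical
  have : Fintype G := Fintype.ofFinite _
  have h1 : ∀ X : Subgroup G,
      psi X = (Finset.univ.filter (fun x : G => Subgroup.zpowers x = X)).card := by
    intro X
    unfold psi
    rw [Nat.card_eq_fintype_card, Fintype.card_subtype]
  have h2 : Nat.card H = (Finset.univ.filter (fun x : G => x ∈ H)).card := by
    rw [Nat.card_eq_fintype_card, Fintype.card_subtype]
  rw [h2]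
  simp only [h1]
  rw [← Finset.card_biUnion]
  · congr 1
    ext x
    simp only [mem_biUnion, mem_filter, mem_univ, true_and, mem_subLe]
    constructor
    · rintro ⟨X, hX, rfl⟩
      exact hX (Subgroup.mem_zpowers x)
    · intro hx
      exact ⟨Subgroup.zpowers x, (Subgroup.zpowers_le).mpr hx, rfl⟩
  · intro X _ Y _ hXY
    rw [Function.onFun, Finset.disjoint_left]
    intro x hx hy
    simp only [mem_filter, mem_univ, true_and] at hx hy
    exact hXY (hx.symm.trans hy)

/-- **Subgroup induction.** -/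
theorem near_psi_of_near_card (g : Subgroup G → Nat.Primes → ℝ) (hb : ∀ X, Bdd (g X))
    (h : ∀ H : Subgroup G, Near (fun p => ∑ X ∈ subLe H, g X p) (Nat.card H)) :
    ∀ X : Subgroup G, Near (g X) (psi X) := by
  classical
  intro X
  induction X using WellFoundedLT.induction with
  | ind X ih =>
    have hsplit := subLe_eq_insert X
    have hnot : X ∉ subLt X := by simp
    have hlow : Near (fun p => ∑ Y ∈ subLt X, g Y p) (∑ Y ∈ subLt X, (psi Y : ℝ)) :=
      Near.finset_sum _ g (fun Y => (psi Y : ℝ)) (fun Y _ => hb Y)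
        (fun Y hY => ih Y (by simpa using hY))
    have hblow : Bdd (fun p => ∑ Y ∈ subLt X, g Y p) :=
      Bdd.finset_sum _ g (fun Y _ => hb Y)
    have hball : Bdd (fun p => ∑ Y ∈ subLe X, g Y p) :=
      Bdd.finset_sum _ g (fun Y _ => hb Y)
    have hsub := Near.sub hball hblow (h X) hlow
    have e1 : (fun p => (∑ Y ∈ subLe X, g Y p) - ∑ Y ∈ subLt X, g Y p) = g X := by
      funext p
      rw [hsplit, sum_insert hnot]
      ring
    have e2 : ((Nat.card X : ℝ) - ∑ Y ∈ subLt X, (psi Y : ℝ)) = psi X := by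
      have := sum_psi X
      rw [hsplit, sum_insert hnot] at this
      have h3 : ((psi X : ℝ) + ∑ Y ∈ subLt X, (psi Y : ℝ)) = (Nat.card X : ℝ) := by
        exact_mod_cast this
      linarith
    rw [e1, e2] at hsub
    exact hsub

theorem psi_zpowers_pos (σ : G) : 0 < psi (Subgroup.zpowers σ) := by
  unfold psi
  have : Nonempty {x : G // Subgroup.zpowers x = Subgroup.zpowers σ} := ⟨⟨σ, rfl⟩⟩
  exact Nat.card_pos

end Group

end Fermat.Agent.Lib.Cheb.H341

end
-- ===== PACK-END Lib/Cheb/H341/Abstract.lean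

-- ===== PACK-BEGIN Lib/FrobRel/H230Translate.lean
section


/-!
# Translation automorphisms of the function field of a Weierstrass curve (helper230)

Setting: `W` a Weierstrass curve over a commutative ring `R`, `k` a field over `R` with
`(W⁄k).Δ ≠ 0`, `FF W k = (W⁄k).FunctionField`, `P₀ = (x, y)` the tautological ("generic")
point of `W` over `FF W k`.

* `sigma`: for a field `L` over `k` and a point `(x', y')` of `W` over `L` with `x'`
  transcendental over `k`, the `k`-algebra homomorphism `FF W k →ₐ[k] L` sending the generic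
  point to `(x', y')`.
* `exists_translation`: if `κ` is algebraically closed, then for every `T : (W⁄κ).Point` there is
  a `κ`-algebra endomorphism `σ` of `FF W κ` with `Point.map σ P₀ = P₀ + T`.
* `eq_zero_of_generic_const`: a family of additive endomorphisms of the points of `W` that
  commutes with `Point.map` and sends the generic point to a constant point vanishes on every
  `κ`-point.
-/

open WeierstrassCurve Polynomial
open scoped Polynomial.Bivariate WeierstrassCurve.Affine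

namespace Fermat.Agent.Lib.FrobRel.H230

universe u v w

variable {R : Type u} [CommRing R] (W : WeierstrassCurve R) (k : Type v) [Field k] [Algebra R k]

/-- The function field of `W` over `k`. -/
abbrev FF : Type v := (W⁄k).FunctionField

/-- The coordinate ring of `W` over `k`. -/
abbrev CR : Type v := (W⁄k).CoordinateRing

/-- The `x`-coordinate of the generic point. -/
noncomputable def gx : FF W k :=
  algebraMap (CR W k) (FF W k) (Affine.CoordinateRing.mk (W⁄k) (C X))

/-- The `y`-coordinate of the generic point. -/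
noncomputable def gy : FF W k :=
  algebraMap (CR W k) (FF W k) (Affine.CoordinateRing.mk (W⁄k) Y)

lemma algebraMap_FF_eq (c : k) :
    algebraMap k (FF W k) c
      = algebraMap (CR W k) (FF W k) (Affine.CoordinateRing.mk (W⁄k) (C (C c))) := by
  rw [IsScalarTower.algebraMap_apply k (CR W k) (FF W k)]
  rfl

/-- The Weierstrass relation in the coordinate ring. -/
lemma mk_relation :
    (Affine.CoordinateRing.mk (W⁄k) Y) ^ 2
      + Affine.CoordinateRing.mk (W⁄k) (C (C ((W⁄k).a₁))) * Affine.CoordinateRing.mk (W⁄k) (C X)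
          * Affine.CoordinateRing.mk (W⁄k) Y
      + Affine.CoordinateRing.mk (W⁄k) (C (C ((W⁄k).a₃))) * Affine.CoordinateRing.mk (W⁄k) Y
    = (Affine.CoordinateRing.mk (W⁄k) (C X)) ^ 3
      + Affine.CoordinateRing.mk (W⁄k) (C (C ((W⁄k).a₂)))
          * (Affine.CoordinateRing.mk (W⁄k) (C X)) ^ 2
      + Affine.CoordinateRing.mk (W⁄k) (C (C ((W⁄k).a₄))) * Affine.CoordinateRing.mk (W⁄k) (C X)
      + Affine.CoordinateRing.mk (W⁄k) (C (C ((W⁄k).a₆))) := by
  have h : Affine.CoordinateRing.mk (W⁄k)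
      (Y ^ 2 + C (C (W⁄k).a₁ * X + C (W⁄k).a₃) * Y
        - C (X ^ 3 + C (W⁄k).a₂ * X ^ 2 + C (W⁄k).a₄ * X + C (W⁄k).a₆)) = 0 :=
    AdjoinRoot.mk_self
  simp only [map_add, map_sub, map_mul, map_pow] at h
  rw [← sub_eq_zero]
  rw [← h]
  ring

/-! ### Coefficients of base changes along a tower -/

section Tower

variable {k}
variable (L : Type w) [Field L] [Algebra R L] [Algebra k L] [IsScalarTower R k L]

lemma algebraMap_tower (c : R) : algebraMap R L c = algebraMap k L (algebraMap R k c) :=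
  IsScalarTower.algebraMap_apply R k L c

lemma baseChange_a₁ : (W⁄L).a₁ = algebraMap k L (W⁄k).a₁ := algebraMap_tower L W.a₁

lemma baseChange_a₂ : (W⁄L).a₂ = algebraMap k L (W⁄k).a₂ := algebraMap_tower L W.a₂

lemma baseChange_a₃ : (W⁄L).a₃ = algebraMap k L (W⁄k).a₃ := algebraMap_tower L W.a₃

lemma baseChange_a₄ : (W⁄L).a₄ = algebraMap k L (W⁄k).a₄ := algebraMap_tower L W.a₄

lemma baseChange_a₆ : (W⁄L).a₆ = algebraMap k L (W⁄k).a₆ := algebraMap_tower L W.a₆

lemma baseChange_eq_map : (W⁄L) = (W⁄k).map (algebraMap k L) :=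
  (Affine.map_baseChange (R := R) (S := k) (A := k) (B := L) W (Algebra.ofId k L)).symm

lemma baseChange_Δ_ne_zero (hΔ : (W⁄k).Δ ≠ 0) : (W⁄L).Δ ≠ 0 := by
  rw [baseChange_eq_map (k := k)]
  show (WeierstrassCurve.map (W⁄k) (algebraMap k L)).Δ ≠ 0
  rw [WeierstrassCurve.map_Δ]
  exact (map_ne_zero_iff _ (algebraMap k L).injective).mpr hΔ

end Tower

/-! ### The generic point -/

lemma generic_equation : (W⁄(FF W k)).Equation (gx W k) (gy W k) := by
  rw [Affine.equation_iff]
  have h := congrArg (algebraMap (CR W k) (FF W k)) (mk_relation W k)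
  simp only [map_add, map_mul, map_pow, ← algebraMap_FF_eq] at h
  rw [baseChange_a₁ (k := k), baseChange_a₂ (k := k), baseChange_a₃ (k := k),
    baseChange_a₄ (k := k), baseChange_a₆ (k := k)]
  exact h

lemma gx_eq_algebraMap_X : gx W k = algebraMap k[X] (FF W k) X := by
  rw [IsScalarTower.algebraMap_apply k[X] (CR W k) (FF W k)]
  rfl

lemma algebraMap_poly_FF_injective : Function.Injective (algebraMap k[X] (FF W k)) := by
  rw [IsScalarTower.algebraMap_eq k[X] (CR W k) (FF W k)]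
  exact (IsFractionRing.injective (CR W k) (FF W k)).comp
    (FaithfulSMul.algebraMap_injective k[X] (CR W k))

/-- The `x`-coordinate of the generic point is transcendental over the base field. -/
lemma gx_transcendental : Transcendental k (gx W k) := by
  rw [gx_eq_algebraMap_X]
  exact (transcendental_algebraMap_iff (algebraMap_poly_FF_injective W k)).mpr
    (Polynomial.transcendental_X k)

/-- The `x`-coordinate of the generic point is not a constant. -/
lemma gx_not_const (c : k) : gx W k ≠ algebraMap k (FF W k) c := by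
  intro h
  exact gx_transcendental W k (h ▸ isAlgebraic_algebraMap c)

lemma generic_nonsingular (hΔ : (W⁄k).Δ ≠ 0) :
    (W⁄(FF W k)).Nonsingular (gx W k) (gy W k) :=
  (Affine.equation_iff_nonsingular_of_Δ_ne_zero (baseChange_Δ_ne_zero W (FF W k) hΔ)).mp
    (generic_equation W k)

/-- The generic point of `W` over the function field of `W⁄k`. -/
noncomputable def genericPoint (hΔ : (W⁄k).Δ ≠ 0) : (W⁄(FF W k)).Point :=
  Affine.Point.some (gx W k) (gy W k) (generic_nonsingular W k hΔ)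

/-! ### The homomorphism attached to a point with transcendental `x`-coordinate -/

section Lift

variable {W}
variable {L : Type w} [Field L] [Algebra R L] [Algebra k L] [IsScalarTower R k L]
variable {x' y' : L}

lemma eval₂_polynomial_eq_zero (heq : (W⁄L).Equation x' y') :
    ((W⁄k).polynomial).eval₂ ((Polynomial.aeval x' : k[X] →ₐ[k] L) : k[X] →+* L) y' = 0 := by
  rw [Affine.equation_iff] at heq
  rw [baseChange_a₁ (k := k), baseChange_a₂ (k := k), baseChange_a₃ (k := k),
    baseChange_a₄ (k := k), baseChange_a₆ (k := k)] at heq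
  show (Y ^ 2 + C (C (W⁄k).a₁ * X + C (W⁄k).a₃) * Y
        - C (X ^ 3 + C (W⁄k).a₂ * X ^ 2 + C (W⁄k).a₄ * X + C (W⁄k).a₆) : k[X][Y]).eval₂
      ((Polynomial.aeval x' : k[X] →ₐ[k] L) : k[X] →+* L) y' = 0
  simp only [eval₂_add, eval₂_sub, eval₂_mul, eval₂_pow, eval₂_X, eval₂_C, RingHom.coe_coe,
    map_add, map_mul, map_pow, aeval_X, aeval_C]
  linear_combination heq

/-- The `k`-algebra homomorphism from the coordinate ring sending `(X, Y)` to `(x', y')`. -/
noncomputable def liftCR (heq : (W⁄L).Equation x' y') : CR W k →ₐ[k] L :=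
  AdjoinRoot.liftAlgHom (W⁄k).polynomial (Polynomial.aeval x' : k[X] →ₐ[k] L) y'
    (eval₂_polynomial_eq_zero k heq)

lemma liftCR_mk (heq : (W⁄L).Equation x' y') (f : k[X][Y]) :
    liftCR k heq (Affine.CoordinateRing.mk (W⁄k) f)
      = f.eval₂ ((Polynomial.aeval x' : k[X] →ₐ[k] L) : k[X] →+* L) y' :=
  AdjoinRoot.liftAlgHom_mk _ _ _ _ f

lemma liftCR_C (heq : (W⁄L).Equation x' y') (p : k[X]) :
    liftCR k heq (Affine.CoordinateRing.mk (W⁄k) (C p)) = Polynomial.aeval x' p := by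
  rw [liftCR_mk, eval₂_C]; rfl

lemma liftCR_X (heq : (W⁄L).Equation x' y') :
    liftCR k heq (Affine.CoordinateRing.mk (W⁄k) (C X)) = x' := by
  rw [liftCR_C, aeval_X]

lemma liftCR_Y (heq : (W⁄L).Equation x' y') :
    liftCR k heq (Affine.CoordinateRing.mk (W⁄k) Y) = y' := by
  rw [liftCR_mk, eval₂_X]

lemma liftCR_injective (heq : (W⁄L).Equation x' y') (hx : Transcendental k x') :
    Function.Injective (liftCR k heq) := by
  rw [injective_iff_map_eq_zero]
  intro z hz
  obtain ⟨p, q, rfl⟩ := Affine.CoordinateRing.exists_smul_basis_eq z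
  by_contra hne
  have : Module.Finite k[X] (CR W k) :=
    Module.Finite.of_basis (Affine.CoordinateRing.basis (W⁄k))
  have hN : Algebra.norm k[X] (p • (1 : CR W k) + q • Affine.CoordinateRing.mk (W⁄k) Y) ≠ 0 :=
    Algebra.norm_ne_zero_iff.mpr hne
  have hcoe := Affine.CoordinateRing.coe_norm_smul_basis (W' := W⁄k) p q
  have hfac : Affine.CoordinateRing.mk (W⁄k) (C p + C q * Y)
      = p • (1 : CR W k) + q • Affine.CoordinateRing.mk (W⁄k) Y := by
    simp only [Affine.CoordinateRing.smul, map_add, map_mul, mul_one]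
  have h0 : Polynomial.aeval x'
      (Algebra.norm k[X] (p • (1 : CR W k) + q • Affine.CoordinateRing.mk (W⁄k) Y)) = 0 := by
    rw [← liftCR_C k heq]
    have h1 : Affine.CoordinateRing.mk (W⁄k) (C (Algebra.norm k[X]
        (p • (1 : CR W k) + q • Affine.CoordinateRing.mk (W⁄k) Y)))
        = Affine.CoordinateRing.mk (W⁄k) ((C p + C q * X) *
            (C p + C q * (-(Y : k[X][Y]) - C (C (W⁄k).a₁ * X + C (W⁄k).a₃)))) := hcoe
    rw [h1, map_mul, map_mul, hfac, hz, zero_mul]
  exact hx ⟨_, hN, h0⟩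

/-- The `k`-algebra homomorphism from the function field of `W⁄k` to `L` sending the generic
point `(x, y)` to a point `(x', y')` with `x'` transcendental over `k`. -/
noncomputable def sigma (heq : (W⁄L).Equation x' y') (hx : Transcendental k x') :
    FF W k →ₐ[k] L :=
  IsFractionRing.liftAlgHom (g := liftCR k heq) (liftCR_injective k heq hx)

lemma sigma_gx (heq : (W⁄L).Equation x' y') (hx : Transcendental k x') :
    sigma k heq hx (gx W k) = x' := by
  rw [sigma, IsFractionRing.liftAlgHom_apply, gx, IsFractionRing.lift_algebraMap]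
  exact liftCR_X k heq

lemma sigma_gy (heq : (W⁄L).Equation x' y') (hx : Transcendental k x') :
    sigma k heq hx (gy W k) = y' := by
  rw [sigma, IsFractionRing.liftAlgHom_apply, gy, IsFractionRing.lift_algebraMap]
  exact liftCR_Y k heq

/-- `Point.map (sigma ..)` sends the generic point to the given point. -/
lemma map_sigma_genericPoint [DecidableEq (FF W k)] [DecidableEq L] (hΔ : (W⁄k).Δ ≠ 0)
    (h : (W⁄L).Nonsingular x' y') (hx : Transcendental k x') :
    Affine.Point.map (W' := W) (sigma k h.1 hx) (genericPoint W k hΔ)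
      = Affine.Point.some x' y' h := by
  rw [genericPoint, Affine.Point.map_some]
  congr 1
  · exact sigma_gx k h.1 hx
  · exact sigma_gy k h.1 hx

end Lift

/-! ### Algebraically closed base field: constant points -/

section AlgClosed

variable (κ : Type v) [Field κ] [Algebra R κ]
variable {L : Type w} [Field L] [Algebra R L] [Algebra κ L] [IsScalarTower R κ L]

lemma mem_range_of_isAlgebraic [IsAlgClosed κ] {x' : L} (halg : IsAlgebraic κ x') :
    ∃ c : κ, x' = algebraMap κ L c := by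
  have hint : IsIntegral κ x' := halg.isIntegral
  have hdeg := IsAlgClosed.degree_eq_one_of_irreducible κ (minpoly.irreducible hint)
  obtain ⟨c, hc⟩ := minpoly.mem_range_of_degree_eq_one κ x' hdeg
  exact ⟨c, hc.symm⟩

lemma transcendental_of_not_const [IsAlgClosed κ] {x' : L}
    (hx : ∀ c : κ, x' ≠ algebraMap κ L c) : Transcendental κ x' := by
  intro halg
  obtain ⟨c, hc⟩ := mem_range_of_isAlgebraic κ halg
  exact hx c hc

lemma exists_y_const [IsAlgClosed κ] {x' y' : L} (h : (W⁄L).Equation x' y') (c : κ)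
    (hc : x' = algebraMap κ L c) : ∃ d : κ, y' = algebraMap κ L d := by
  rw [Affine.equation_iff] at h
  set u : κ := (W⁄κ).a₁ * c + (W⁄κ).a₃ with hu
  set v : κ := c ^ 3 + (W⁄κ).a₂ * c ^ 2 + (W⁄κ).a₄ * c + (W⁄κ).a₆ with hv
  obtain ⟨d, hd⟩ : ∃ d : κ, d ^ 2 + u * d - v = 0 := by
    have hdeg : (X ^ 2 + C u * X - C v : κ[X]).degree ≠ 0 := by
      have : (X ^ 2 + C u * X - C v : κ[X]).degree = 2 := by
        compute_degree!
      rw [this]; decide
    obtain ⟨d, hd⟩ := IsAlgClosed.exists_root (X ^ 2 + C u * X - C v : κ[X]) hdeg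
    exact ⟨d, by simpa using hd⟩
  have hprod : (y' - algebraMap κ L d) * (y' + algebraMap κ L (u + d)) = 0 := by
    have hd' := congrArg (algebraMap κ L) hd
    simp only [map_add, map_sub, map_mul, map_pow, map_zero, hu, hv] at hd' ⊢
    rw [baseChange_a₁ (k := κ), baseChange_a₂ (k := κ), baseChange_a₃ (k := κ),
      baseChange_a₄ (k := κ), baseChange_a₆ (k := κ), hc] at h
    linear_combination h - hd'
  rcases mul_eq_zero.mp hprod with h1 | h1
  · exact ⟨d, sub_eq_zero.mp h1⟩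
  · exact ⟨-(u + d), by rw [map_neg]; exact eq_neg_of_add_eq_zero_left h1⟩

end AlgClosed

/-! ### Translation automorphisms -/

section Translation

variable (κ : Type v) [Field κ] [Algebra R κ] [DecidableEq κ] [DecidableEq (FF W κ)]

/-- The base change map on points from `κ` to the function field. -/
noncomputable abbrev bc : (W⁄κ).Point →+ (W⁄(FF W κ)).Point :=
  Affine.Point.baseChange (W' := W) κ (FF W κ)

lemma bc_some {c d : κ} (h : (W⁄κ).Nonsingular c d) :
    bc W κ (Affine.Point.some c d h)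
      = Affine.Point.some (algebraMap κ (FF W κ) c) (algebraMap κ (FF W κ) d)
          ((Affine.baseChange_nonsingular (W := W) (f := Algebra.ofId κ (FF W κ))
            (Algebra.ofId κ (FF W κ)).injective c d).mpr h) :=
  rfl

lemma bc_injective : Function.Injective (bc W κ) :=
  Affine.Point.map_injective (W' := W) (Algebra.ofId κ (FF W κ))

lemma exists_of_x_const [IsAlgClosed κ] {x' y' : FF W κ}
    (h : (W⁄(FF W κ)).Nonsingular x' y') (c : κ) (hc : x' = algebraMap κ (FF W κ) c) :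
    ∃ T : (W⁄κ).Point, Affine.Point.some x' y' h = bc W κ T := by
  obtain ⟨d, hd⟩ := exists_y_const W κ h.1 c hc
  subst hc hd
  have h' : (W⁄κ).Nonsingular c d :=
    (Affine.baseChange_nonsingular (W := W) (f := Algebra.ofId κ (FF W κ))
      (Algebra.ofId κ (FF W κ)).injective c d).mp h
  exact ⟨Affine.Point.some c d h', rfl⟩

/-- The generic point is not a constant point. -/
lemma generic_ne_bc (hΔ : (W⁄κ).Δ ≠ 0) (T : (W⁄κ).Point) : genericPoint W κ hΔ ≠ bc W κ T := by
  rcases T with _ | ⟨c, d, hcd⟩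
  · intro h
    exact Affine.Point.some_ne_zero _ h
  · intro h
    rw [bc_some, genericPoint] at h
    have := (Affine.Point.some.injEq ..).mp h
    exact gx_not_const W κ c this.1

/-- The translate of the generic point by a constant point is an affine point whose
`x`-coordinate is not constant. -/
lemma generic_add_bc [IsAlgClosed κ] (hΔ : (W⁄κ).Δ ≠ 0) (T : (W⁄κ).Point) :
    ∃ (x' y' : FF W κ) (h : (W⁄(FF W κ)).Nonsingular x' y'),
      genericPoint W κ hΔ + bc W κ T = Affine.Point.some x' y' h ∧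
      ∀ c : κ, x' ≠ algebraMap κ (FF W κ) c := by
  rcases hQ : genericPoint W κ hΔ + bc W κ T with _ | ⟨x', y', h⟩
  · exfalso
    have h0 : genericPoint W κ hΔ + bc W κ T = 0 := hQ
    have : genericPoint W κ hΔ = bc W κ (-T) := by
      rw [map_neg]
      exact eq_neg_of_add_eq_zero_left h0
    exact generic_ne_bc W κ hΔ _ this
  · refine ⟨x', y', h, rfl, fun c hc => ?_⟩
    obtain ⟨Q₀, hQ₀⟩ := exists_of_x_const W κ h c hc
    have : genericPoint W κ hΔ = bc W κ (Q₀ - T) := by
      rw [map_sub, ← hQ₀, ← hQ, add_sub_cancel_right]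
    exact generic_ne_bc W κ hΔ _ this

variable [IsAlgClosed κ]

/-- **Translation automorphism.** For every `κ`-point `T` there is a `κ`-algebra endomorphism
`σ` of the function field such that `σ` maps the generic point `P₀` to `P₀ + T`. -/
theorem exists_translation (hΔ : (W⁄κ).Δ ≠ 0) (T : (W⁄κ).Point) :
    ∃ σ : FF W κ →ₐ[κ] FF W κ,
      Affine.Point.map (W' := W) σ (genericPoint W κ hΔ) = genericPoint W κ hΔ + bc W κ T := by
  obtain ⟨x', y', h, hQ, hx⟩ := generic_add_bc W κ hΔ T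
  exact ⟨sigma κ h.1 (transcendental_of_not_const κ hx),
    (map_sigma_genericPoint κ hΔ h _).trans hQ.symm⟩

/-- **Generic to all points (abstract form).** Let `ψK`, `ψκ` be additive endomorphisms of the
points of `W` over the function field and over `κ`, such that `ψK` commutes with `Point.map σ`
for every `κ`-algebra endomorphism `σ` of the function field, and `ψK` restricts to `ψκ` on
constant points. If `ψK` sends the generic point to a constant point, then `ψκ = 0`. -/
theorem eq_zero_of_generic_const (hΔ : (W⁄κ).Δ ≠ 0)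
    (ψK : (W⁄(FF W κ)).Point →+ (W⁄(FF W κ)).Point) (ψκ : (W⁄κ).Point →+ (W⁄κ).Point)
    (hnat : ∀ (σ : FF W κ →ₐ[κ] FF W κ) (P : (W⁄(FF W κ)).Point),
      ψK (Affine.Point.map (W' := W) σ P) = Affine.Point.map (W' := W) σ (ψK P))
    (hbc : ∀ T : (W⁄κ).Point, ψK (bc W κ T) = bc W κ (ψκ T))
    (C : (W⁄κ).Point) (hC : ψK (genericPoint W κ hΔ) = bc W κ C) (T : (W⁄κ).Point) :
    ψκ T = 0 := by
  obtain ⟨σ, hσ⟩ := exists_translation W κ hΔ T
  have h1 : ψK (genericPoint W κ hΔ + bc W κ T) = ψK (genericPoint W κ hΔ) := by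
    rw [← hσ, hnat, hC]
    exact Affine.Point.map_baseChange (W' := W) σ C
  rw [map_add, hbc] at h1
  have h2 : bc W κ (ψκ T) = 0 := by
    have := congrArg (fun P => P - ψK (genericPoint W κ hΔ)) h1
    simpa using this
  exact bc_injective W κ (h2.trans (map_zero _).symm)

end Translation

end Fermat.Agent.Lib.FrobRel.H230

end
-- ===== PACK-END Lib/FrobRel/H230Translate.lean

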