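import Mathlib
import Fermat.Agent.Pack.S15.AE0L2
import Fermat.Agent.Pack.S15.AE0L3
import Fermat.Agent.Pack.S15.BE0L0
import Fermat.Agent.Pack.S15.BE0L2
import Fermat.Agent.Pack.S15.BE0L3

-- ===== PACK-BEGIN S13/H891/LadderDeg.lean
section



/-!
# S13 / T1: degrees and leading coefficients of the ladder polynomials
-/

open Polynomial

namespace Fermat.Agent.S13.H891

variable {R : Type*} [CommRing R]

/-- `DC p n c`: `p` has degree at most `n` and its `n`-th coefficient is `c` -/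
def DC (p : R[X]) (n : ℕ) (c : R) : Prop := p.natDegree ≤ n ∧ p.coeff n = c

namespace DC

variable {p q : R[X]} {n m : ℕ} {a b : R}

lemma mul (hp : DC p n a) (hq : DC q m b) : DC (p * q) (n + m) (a * b) :=
  ⟨natDegree_mul_le_of_le hp.1 hq.1, by
    rw [coeff_mul_add_eq_of_natDegree_le hp.1 hq.1, hp.2, hq.2]⟩

lemma pow (hp : DC p n a) (e : ℕ) : DC (p ^ e) (e * n) (a ^ e) :=
  ⟨natDegree_pow_le_of_le e hp.1, by rw [coeff_pow_of_natDegree_le hp.1, hp.2]⟩

lemma add (hp : DC p n a) (hq : DC q n b) : DC (p + q) n (a + b) :=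
  ⟨natDegree_add_le_of_degree_le hp.1 hq.1, by rw [coeff_add, hp.2, hq.2]⟩

lemma sub (hp : DC p n a) (hq : DC q n b) : DC (p - q) n (a - b) :=
  ⟨(natDegree_sub_le_of_le hp.1 hq.1).trans (by simp), by rw [coeff_sub, hp.2, hq.2]⟩

lemma of_lt (hp : p.natDegree ≤ m) (h : m < n) : DC p n 0 :=
  ⟨hp.trans h.le, coeff_eq_zero_of_natDegree_lt (lt_of_le_of_lt hp h)⟩

lemma congr (hp : DC p n a) (hn : n = m) (ha : a = b) : DC p m b := by
  subst hn; subst ha; exact hp

lemma C_mul (r : R) (hp : DC p n a) : DC (C r * p) n (r * a) :=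
  ⟨(natDegree_C_mul_le r p).trans hp.1, by rw [coeff_C_mul, hp.2]⟩

lemma natCast_mul (r : ℕ) (hp : DC p n a) : DC ((r : R[X]) * p) n ((r : R) * a) := by
  have : ((r : R[X])) = C (r : R) := by simp
  rw [this]; exact hp.C_mul _

lemma X : DC (Polynomial.X : R[X]) 1 1 := ⟨natDegree_X_le, coeff_X_one⟩

end DC

variable (b₂ b₄ b₆ b₈ : R)

/-- the ladder polynomial `N_k` -/
noncomputable def polyN (k : ℕ) : R[X] := ladN (C b₂) (C b₄) (C b₆) (C b₈) Polynomial.X k
/-- the ladder polynomial `D_k` -/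
noncomputable def polyD (k : ℕ) : R[X] := ladD (C b₂) (C b₄) (C b₆) (C b₈) Polynomial.X k
/-- the polynomial `W_k = N_k D_{k+1} - N_{k+1} D_k`; for `n = 2k+1` this is the `n`-division
polynomial up to sign -/
noncomputable def polyW (k : ℕ) : R[X] :=
  addW (polyN b₂ b₄ b₆ b₈ k) (polyD b₂ b₄ b₆ b₈ k) (polyN b₂ b₄ b₆ b₈ (k+1))
    (polyD b₂ b₄ b₆ b₈ (k+1))

lemma eval_polyN (x : R) (k : ℕ) : (polyN b₂ b₄ b₆ b₈ k).eval x = ladN b₂ b₄ b₆ b₈ x k := by
  have := map_ladN (C b₂) (C b₄) (C b₆) (C b₈) (Polynomial.X : R[X]) (evalRingHom x) k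
  simp only [coe_evalRingHom, eval_C, eval_X] at this
  rw [polyN, this]

lemma eval_polyD (x : R) (k : ℕ) : (polyD b₂ b₄ b₆ b₈ k).eval x = ladD b₂ b₄ b₆ b₈ x k := by
  have := map_ladD (C b₂) (C b₄) (C b₆) (C b₈) (Polynomial.X : R[X]) (evalRingHom x) k
  simp only [coe_evalRingHom, eval_C, eval_X] at this
  rw [polyD, this]

lemma eval_polyW (x : R) (k : ℕ) : (polyW b₂ b₄ b₆ b₈ k).eval x =
    addW (ladN b₂ b₄ b₆ b₈ x k) (ladD b₂ b₄ b₆ b₈ x k) (ladN b₂ b₄ b₆ b₈ x (k+1))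
      (ladD b₂ b₄ b₆ b₈ x (k+1)) := by
  simp only [polyW, addW, eval_sub, eval_mul, eval_polyN, eval_polyD]

section map

variable {S : Type*} [CommRing S] (φ : R →+* S)

lemma map_polyN (k : ℕ) :
    (polyN b₂ b₄ b₆ b₈ k).map φ = polyN (φ b₂) (φ b₄) (φ b₆) (φ b₈) k := by
  have := map_ladN (C b₂) (C b₄) (C b₆) (C b₈) (Polynomial.X : R[X]) (mapRingHom φ) k
  simp only [coe_mapRingHom, map_C, map_X] at this
  rw [polyN, polyN, this]

lemma map_polyD (k : ℕ) :
    (polyD b₂ b₄ b₆ b₈ k).map φ = polyD (φ b₂) (φ b₄) (φ b₆) (φ b₈) k := by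
  have := map_ladD (C b₂) (C b₄) (C b₆) (C b₈) (Polynomial.X : R[X]) (mapRingHom φ) k
  simp only [coe_mapRingHom, map_C, map_X] at this
  rw [polyD, polyD, this]

lemma map_polyW (k : ℕ) :
    (polyW b₂ b₄ b₆ b₈ k).map φ = polyW (φ b₂) (φ b₄) (φ b₆) (φ b₈) k := by
  simp only [polyW, addW, Polynomial.map_sub, Polynomial.map_mul, map_polyN, map_polyD]

end map

/-- degree and leading coefficient of `N_k`, `D_k` -/
theorem dc_poly (k : ℕ) (hk : 1 ≤ k) :
    DC (polyN b₂ b₄ b₆ b₈ k) (k^2) 1 ∧ DC (polyD b₂ b₄ b₆ b₈ k) (k^2 - 1) ((k : R)^2) := by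
  revert hk
  refine ladder_induction (P := fun k => DC (polyN b₂ b₄ b₆ b₈ k) (k^2) 1 ∧
    DC (polyD b₂ b₄ b₆ b₈ k) (k^2 - 1) ((k : R)^2)) ?_ ?_ ?_ k
  · constructor
    · simp only [polyN, ladN_one]
      exact DC.X.congr (by norm_num) rfl
    · simp only [polyD, ladD_one]
      exact ⟨by simp, by simp⟩
  · -- doubling
    intro k hk ⟨hN, hD⟩
    have ha : 1 ≤ k^2 := Nat.one_le_pow _ _ hk
    have e2 : (2*k)^2 = 4 * k^2 := by ring
    generalize hA : k^2 = A at hN hD ha e2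
    set N := polyN b₂ b₄ b₆ b₈ k with hNdef
    set D := polyD b₂ b₄ b₆ b₈ k with hDdef
    constructor
    · have e : polyN b₂ b₄ b₆ b₈ (2*k) = N^4 - C b₄ * N^2 * D^2 - 2 * C b₆ * N * D^3
          - C b₈ * D^4 := by
        rw [polyN, ladN_even _ _ _ _ _ k hk]; rfl
      rw [e, e2]
      have t1 : DC (N^4) (4*A) 1 := (hN.pow 4).congr rfl (by simp)
      have t2 : DC (C b₄ * N^2 * D^2) (4*A) 0 := by
        refine DC.of_lt (m := 2*A + 2*(A-1)) ?_ (by omega)
        exact natDegree_mul_le_of_le ((natDegree_C_mul_le _ _).trans (hN.pow 2).1) (hD.pow 2).1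
      have t3 : DC (2 * C b₆ * N * D^3) (4*A) 0 := by
        refine DC.of_lt (m := A + 3*(A-1)) ?_ (by omega)
        have : (2 : R[X]) * C b₆ = C (2 * b₆) := by rw [map_mul, map_ofNat]
        rw [this]
        exact natDegree_mul_le_of_le ((natDegree_C_mul_le _ _).trans hN.1) (hD.pow 3).1
      have t4 : DC (C b₈ * D^4) (4*A) 0 := by
        refine DC.of_lt (m := 4*(A-1)) ?_ (by omega)
        exact (natDegree_C_mul_le _ _).trans (hD.pow 4).1
      exact (((t1.sub t2).sub t3).sub t4).congr rfl (by ring)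
    · have e : polyD b₂ b₄ b₆ b₈ (2*k) = D * (4 * N^3 + C b₂ * N^2 * D + 2 * C b₄ * N * D^2
          + C b₆ * D^3) := by
        rw [polyD, ladD_even _ _ _ _ _ k hk]; rfl
      rw [e, e2]
      have t1 : DC (4 * N^3) (3*A) 4 := by
        have : (4 : R[X]) = C 4 := (map_ofNat C 4).symm
        rw [this]
        exact ((hN.pow 3).C_mul 4).congr rfl (by simp)
      have t2 : DC (C b₂ * N^2 * D) (3*A) 0 := by
        refine DC.of_lt (m := 2*A + (A-1)) ?_ (by omega)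
        exact natDegree_mul_le_of_le ((natDegree_C_mul_le _ _).trans (hN.pow 2).1) hD.1
      have t3 : DC (2 * C b₄ * N * D^2) (3*A) 0 := by
        refine DC.of_lt (m := A + 2*(A-1)) ?_ (by omega)
        have : (2 : R[X]) * C b₄ = C (2 * b₄) := by rw [map_mul, map_ofNat]
        rw [this]
        exact natDegree_mul_le_of_le ((natDegree_C_mul_le _ _).trans hN.1) (hD.pow 2).1
      have t4 : DC (C b₆ * D^3) (3*A) 0 := by
        refine DC.of_lt (m := 3*(A-1)) ?_ (by omega)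
        exact (natDegree_C_mul_le _ _).trans (hD.pow 3).1
      refine (hD.mul (((t1.add t2).add t3).add t4)).congr (by omega) ?_
      push_cast; ring
  · -- differential addition
    intro k hk ⟨hN, hD⟩ ⟨hN', hD'⟩
    have ha : 1 ≤ k^2 := Nat.one_le_pow _ _ hk
    have e1 : (k+1)^2 = k^2 + 2*k + 1 := by ring
    have e2 : (2*k+1)^2 = 4 * k^2 + 4*k + 1 := by ring
    rw [e1] at hN' hD'
    generalize hA : k^2 = A at hN hD hN' hD' ha e1 e2
    set N := polyN b₂ b₄ b₆ b₈ k with hNdef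
    set D := polyD b₂ b₄ b₆ b₈ k with hDdef
    set N' := polyN b₂ b₄ b₆ b₈ (k+1) with hN'def
    set D' := polyD b₂ b₄ b₆ b₈ (k+1) with hD'def
    have hW : DC (N * D' - N' * D) (2*A + 2*k) (((k:R)+1)^2 - (k:R)^2) := by
      have t1 : DC (N * D') (2*A + 2*k) (((k:R)+1)^2) :=
        (hN.mul hD').congr (by omega) (by push_cast; ring)
      have t2 : DC (N' * D) (2*A + 2*k) ((k:R)^2) :=
        (hN'.mul hD).congr (by omega) (by ring)
      exact t1.sub t2
    have hV : DC (N * D' + N' * D) (2*A + 2*k) (((k:R)+1)^2 + (k:R)^2) := by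
      have t1 : DC (N * D') (2*A + 2*k) (((k:R)+1)^2) :=
        (hN.mul hD').congr (by omega) (by push_cast; ring)
      have t2 : DC (N' * D) (2*A + 2*k) ((k:R)^2) :=
        (hN'.mul hD).congr (by omega) (by ring)
      exact t1.add t2
    constructor
    · have e : polyN b₂ b₄ b₆ b₈ (2*k+1) =
          (2 * N * N' * (N * D' + N' * D) + C b₂ * N * N' * D * D'
            + C b₄ * D * D' * (N * D' + N' * D) + C b₆ * D^2 * D'^2)
          - Polynomial.X * (N * D' - N' * D)^2 := by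
        rw [polyN, ladN_odd _ _ _ _ _ k hk]; rfl
      rw [e, e2]
      have t1 : DC (2 * N * N' * (N * D' + N' * D)) (4*A + 4*k + 1)
          (2 * (((k:R)+1)^2 + (k:R)^2)) := by
        have h2 : (2 : R[X]) * N = C 2 * N := by rw [map_ofNat]
        rw [h2]
        refine (((hN.C_mul 2).mul hN').mul hV).congr (by omega) (by ring)
      have t2 : DC (C b₂ * N * N' * D * D') (4*A + 4*k + 1) 0 := by
        refine DC.of_lt (m := A + (A + 2*k + 1) + (A - 1) + (A + 2*k + 1 - 1)) ?_ (by omega)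
        exact natDegree_mul_le_of_le (natDegree_mul_le_of_le (natDegree_mul_le_of_le
          ((natDegree_C_mul_le _ _).trans hN.1) hN'.1) hD.1) hD'.1
      have t3 : DC (C b₄ * D * D' * (N * D' + N' * D)) (4*A + 4*k + 1) 0 := by
        refine DC.of_lt (m := (A - 1) + (A + 2*k + 1 - 1) + (2*A + 2*k)) ?_ (by omega)
        exact natDegree_mul_le_of_le (natDegree_mul_le_of_le
          ((natDegree_C_mul_le _ _).trans hD.1) hD'.1) hV.1
      have t4 : DC (C b₆ * D^2 * D'^2) (4*A + 4*k + 1) 0 := by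
        refine DC.of_lt (m := 2*(A - 1) + 2*(A + 2*k + 1 - 1)) ?_ (by omega)
        exact natDegree_mul_le_of_le ((natDegree_C_mul_le _ _).trans (hD.pow 2).1) (hD'.pow 2).1
      have t5 : DC (Polynomial.X * (N * D' - N' * D)^2) (4*A + 4*k + 1)
          ((((k:R)+1)^2 - (k:R)^2)^2) :=
        (DC.X.mul (hW.pow 2)).congr (by omega) (by ring)
      exact ((((t1.add t2).add t3).add t4).sub t5).congr rfl (by ring)
    · have e : polyD b₂ b₄ b₆ b₈ (2*k+1) = (N * D' - N' * D)^2 := by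
        rw [polyD, ladD_odd _ _ _ _ _ k hk]; rfl
      rw [e, e2]
      exact (hW.pow 2).congr (by omega) (by push_cast; ring)

/-- degree and leading coefficient of `W_k` -/
theorem dc_polyW (k : ℕ) (hk : 1 ≤ k) :
    DC (polyW b₂ b₄ b₆ b₈ k) (2*k^2 + 2*k) ((2*k+1 : ℕ) : R) := by
  obtain ⟨hN, hD⟩ := dc_poly b₂ b₄ b₆ b₈ k hk
  obtain ⟨hN', hD'⟩ := dc_poly b₂ b₄ b₆ b₈ (k+1) (by omega)
  have ha : 1 ≤ k^2 := Nat.one_le_pow _ _ hk
  have e1 : (k+1)^2 = k^2 + 2*k + 1 := by ring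
  rw [e1] at hN' hD'
  generalize hA : k^2 = A at hN hD hN' hD' ha e1
  have t1 : DC (polyN b₂ b₄ b₆ b₈ k * polyD b₂ b₄ b₆ b₈ (k+1)) (2*A + 2*k) (((k:R)+1)^2) :=
    (hN.mul hD').congr (by omega) (by push_cast; ring)
  have t2 : DC (polyN b₂ b₄ b₆ b₈ (k+1) * polyD b₂ b₄ b₆ b₈ k) (2*A + 2*k) ((k:R)^2) :=
    (hN'.mul hD).congr (by omega) (by ring)
  exact (t1.sub t2).congr rfl (by push_cast; ring)

end Fermat.Agent.S13.H891

end
-- ===== PACK-END S13/H891/LadderDeg.lean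

-- ===== PACK-BEGIN S13/H164/LadderValid.lean
section



/-!
# S13 / T1 (helper164): projective validity of the `x`-ladder

For a nonsingular affine point `P = (x, y)` on a Weierstrass curve `W` over a field and every
`n : ℕ`, the pair `lad … x n = (N_n, D_n)` represents the `x`-coordinate of `n • P`
projectively: `(N_n, D_n) ≠ (0, 0)`, `n • P = 0 ↔ D_n = 0`, and otherwise `x(n • P) = N_n / D_n`.
-/

set_option autoImplicit false

namespace Fermat.Agent.S13.H164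

open WeierstrassCurve WeierstrassCurve.Affine
open Fermat.Agent.S05.XId

variable {F : Type*} [Field F] {W : Affine F}

/-- `(u : v)` represents the `x`-coordinate of `Q` projectively. -/
def Rep (W : Affine F) : W.Point → F → F → Prop
  | .zero, u, v => v = 0 ∧ u ≠ 0
  | .some x _ _, u, v => v ≠ 0 ∧ x * v = u

lemma rep_zero_iff {u v : F} : _root_.Fermat.Agent.S13.H164.Rep W (0 : W.Point) u v ↔ v = 0 ∧ u ≠ 0 := Iff.rfl

lemma rep_some_iff {x y : F} {h : W.Nonsingular x y} {u v : F} :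
    _root_.Fermat.Agent.S13.H164.Rep W (Point.some x y h) u v ↔ v ≠ 0 ∧ x * v = u := Iff.rfl

lemma Rep.eq_zero_iff {Q : W.Point} {u v : F} (h : _root_.Fermat.Agent.S13.H164.Rep W Q u v) : Q = 0 ↔ v = 0 := by
  match Q, h with
  | .zero, h => exact ⟨fun _ => h.1, fun _ => rfl⟩
  | .some x y hxy, h => exact ⟨fun h0 => absurd h0 (Point.some_ne_zero hxy), fun h0 => absurd h0 h.1⟩

lemma Rep.ne_zero {Q : W.Point} {u v : F} (h : _root_.Fermat.Agent.S13.H164.Rep W Q u v) : u ≠ 0 ∨ v ≠ 0 := by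
  match Q, h with
  | .zero, h => exact Or.inl h.2
  | .some x y hxy, h => exact Or.inr h.1

/-- At a nonsingular point with `ψ₂²(x) = 0`, the duplication numerator does not vanish. -/
lemma dblNum_ne_zero_of_dblDen_eq_zero {x y : F} (h : W.Nonsingular x y)
    (hy : y = W.negY x y) : dblNum W x ≠ 0 := by
  rw [Affine.nonsingular_iff] at h
  obtain ⟨he, hs⟩ := h
  rw [Affine.equation_iff] at he
  simp only [Affine.negY] at hy
  have hψ : 2 * y + W.a₁ * x + W.a₃ = 0 := by linear_combination hy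
  have hX : W.a₁ * y - (3 * x ^ 2 + 2 * W.a₂ * x + W.a₄) ≠ 0 := by
    rcases hs with hs | hs
    · exact sub_ne_zero.mpr hs
    · exact absurd (by linear_combination hψ) hs
  have key : dblNum W x = (W.a₁ * y - (3 * x ^ 2 + 2 * W.a₂ * x + W.a₄)) ^ 2 := by
    simp only [dblNum, WeierstrassCurve.b₄, WeierstrassCurve.b₆, WeierstrassCurve.b₈]
    linear_combination (8 * x + W.a₁ ^ 2 + 4 * W.a₂) * he +
      (W.a₁ * (3 * x ^ 2 + 2 * W.a₂ * x + W.a₄ - W.a₁ * y)
        - (W.a₂ + 2 * x) * (2 * y + W.a₁ * x + W.a₃)) * hψ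
  rw [key]
  exact pow_ne_zero 2 hX

lemma dN_eq (x v : F) : dN W.b₄ W.b₆ W.b₈ (x * v) v = v ^ 4 * dblNum W x := by
  simp only [dN, dblNum]; ring

lemma dD_eq (x v : F) : dD W.b₂ W.b₄ W.b₆ (x * v) v = v ^ 4 * dblDen W x := by
  simp only [dD, dblDen]; ring

lemma oW_eq (x₁ v₁ x₂ v₂ : F) : oW (x₁ * v₁) v₁ (x₂ * v₂) v₂ = v₁ * v₂ * (x₁ - x₂) := by
  simp only [oW]; ring

lemma oS_eq (x₁ v₁ x₂ v₂ : F) :
    oS W.b₂ W.b₄ W.b₆ (x₁ * v₁) v₁ (x₂ * v₂) v₂ = (v₁ * v₂) ^ 2 * sumNum W x₁ x₂ := by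
  simp only [oS, sumNum]; ring

variable [DecidableEq F]

/-- the even ladder step -/
lemma Rep.double {Q : W.Point} {u v : F} (h : _root_.Fermat.Agent.S13.H164.Rep W Q u v) :
    _root_.Fermat.Agent.S13.H164.Rep W (Q + Q) (dN W.b₄ W.b₆ W.b₈ u v) (dD W.b₂ W.b₄ W.b₆ u v) := by
  match Q, h with
  | .zero, h =>
    obtain ⟨hv, hu⟩ := h
    subst hv
    have : (Point.zero : W.Point) + Point.zero = 0 := add_zero (0 : W.Point)
    rw [this, rep_zero_iff]
    refine ⟨by simp [dD], ?_⟩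
    simp only [dN]
    simpa using pow_ne_zero 4 hu
  | .some x y hxy, h =>
    obtain ⟨hv, hu⟩ := h
    subst hu
    rw [dN_eq, dD_eq]
    by_cases hy : y = W.negY x y
    · rw [Point.add_self_of_Y_eq hy, rep_zero_iff, dblDen_eq_zero_of_Y_eq hxy.1 hy]
      exact ⟨mul_zero _, mul_ne_zero (pow_ne_zero 4 hv) (dblNum_ne_zero_of_dblDen_eq_zero hxy hy)⟩
    · obtain ⟨x', y', h', hadd, hx', hD⟩ := add_self_some hxy hy
      rw [hadd, rep_some_iff]
      refine ⟨mul_ne_zero (pow_ne_zero 4 hv) hD, ?_⟩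
      rw [← hx']; ring

/-- the odd ladder step -/
lemma Rep.add_of_sub {x y : F} (hP : W.Nonsingular x y) {Q R : W.Point}
    (hQR : Q - R = Point.some x y hP) {u₁ v₁ u₂ v₂ : F}
    (hR : _root_.Fermat.Agent.S13.H164.Rep W R u₁ v₁) (hQ : _root_.Fermat.Agent.S13.H164.Rep W Q u₂ v₂) :
    _root_.Fermat.Agent.S13.H164.Rep W (Q + R) (oN W.b₂ W.b₄ W.b₆ x u₁ v₁ u₂ v₂) (oD u₁ v₁ u₂ v₂) := by
  match Q, R, hQR, hQ, hR with
  | .zero, .zero, hQR, _, _ =>
    exfalso
    have : (Point.zero : W.Point) - Point.zero = 0 := sub_zero (0 : W.Point)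
    rw [this] at hQR
    exact Point.some_ne_zero hP hQR.symm
  | .some x₂ y₂ h₂, .zero, hQR, hQ, hR =>
    obtain ⟨hv₁, hu₁⟩ := hR
    obtain ⟨hv₂, hu₂⟩ := hQ
    subst hv₁ hu₂
    have e0 : Point.some x₂ y₂ h₂ - (Point.zero : W.Point) = Point.some x₂ y₂ h₂ :=
      sub_zero (Point.some x₂ y₂ h₂)
    rw [e0] at hQR
    have hx : x₂ = x := by
      have := congrArg (fun P : W.Point => match P with | .zero => (0 : F) | .some a _ _ => a) hQR
      simpa using this
    subst hx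
    have e1 : Point.some x₂ y₂ h₂ + (Point.zero : W.Point) = Point.some x₂ y₂ h₂ :=
      add_zero (Point.some x₂ y₂ h₂)
    rw [e1, rep_some_iff]
    simp only [oD, oN, oS, oW]
    refine ⟨?_, by ring⟩
    simpa using mul_ne_zero hu₁ hv₂
  | .zero, .some x₁ y₁ h₁, hQR, hQ, hR =>
    obtain ⟨hv₁, hu₁⟩ := hR
    obtain ⟨hv₂, hu₂⟩ := hQ
    subst hv₂ hu₁
    have e0 : (Point.zero : W.Point) - Point.some x₁ y₁ h₁ = -Point.some x₁ y₁ h₁ :=
      zero_sub (Point.some x₁ y₁ h₁)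
    rw [e0, Point.neg_some] at hQR
    have hx : x₁ = x := by
      have := congrArg (fun P : W.Point => match P with | .zero => (0 : F) | .some a _ _ => a) hQR
      simpa using this
    subst hx
    have e1 : (Point.zero : W.Point) + Point.some x₁ y₁ h₁ = Point.some x₁ y₁ h₁ :=
      zero_add (Point.some x₁ y₁ h₁)
    rw [e1, rep_some_iff]
    simp only [oD, oN, oS, oW]
    refine ⟨?_, by ring⟩
    simpa using mul_ne_zero hu₂ hv₁
  | .some x₂ y₂ h₂, .some x₁ y₁ h₁, hQR, hQ, hR =>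
    obtain ⟨hv₁, hu₁⟩ := hR
    obtain ⟨hv₂, hu₂⟩ := hQ
    subst hu₁ hu₂
    have hvv : v₁ * v₂ ≠ 0 := mul_ne_zero hv₁ hv₂
    by_cases hx : x₂ = x₁
    · -- `Q = ± R`; `Q = R` is impossible, so `Q = -R`
      subst hx
      have hy : y₂ = W.negY x₂ y₁ := by
        rcases Affine.Y_eq_of_X_eq h₂.1 h₁.1 rfl with h | h
        · exfalso
          subst h
          have : Point.some x₂ y₂ h₂ - Point.some x₂ y₂ h₁ = 0 := sub_self _
          rw [this] at hQR
          exact Point.some_ne_zero hP hQR.symm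
        · exact h
      have hsum : Point.some x₂ y₂ h₂ + Point.some x₂ y₁ h₁ = 0 :=
        Point.add_of_Y_eq rfl hy
      rw [hsum, rep_zero_iff]
      simp only [oD, oN]
      rw [oW_eq, oS_eq, sub_self, mul_zero]
      refine ⟨by ring, ?_⟩
      -- `sumNum x x = dblDen x ≠ 0` since `R` is not `2`-torsion
      have hy1 : y₁ ≠ W.negY x₂ y₁ := by
        intro h
        -- then `Q = R`
        have : y₂ = y₁ := hy.trans h.symm
        subst this
        have : Point.some x₂ y₂ h₂ - Point.some x₂ y₂ h₁ = 0 := sub_self _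
        rw [this] at hQR
        exact Point.some_ne_zero hP hQR.symm
      have hD : dblDen W x₂ ≠ 0 := by
        rw [← sub_negY_sq W h₁.1]
        exact pow_ne_zero 2 (sub_ne_zero.mpr hy1)
      have e : sumNum W x₂ x₂ = dblDen W x₂ := by
        simp only [sumNum, dblDen]; ring
      have : (v₁ * v₂) ^ 2 * sumNum W x₂ x₂ - x * 0 ^ 2 ≠ 0 := by
        rw [e]
        simpa using mul_ne_zero (pow_ne_zero 2 hvv) hD
      exact this
    · obtain ⟨x₃, y₃, x₄, y₄, h₃, h₄, hadd, hsub, hsum, -⟩ := add_sub_some h₂ h₁ hx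
      rw [hsub] at hQR
      have hx4 : x₄ = x := by
        have := congrArg (fun P : W.Point => match P with | .zero => (0 : F) | .some a _ _ => a) hQR
        simpa using this
      subst hx4
      rw [hadd, rep_some_iff]
      simp only [oD, oN]
      rw [oW_eq, oS_eq]
      have hne : x₁ - x₂ ≠ 0 := sub_ne_zero.mpr (Ne.symm hx)
      refine ⟨pow_ne_zero 2 (mul_ne_zero hvv hne), ?_⟩
      have e : sumNum W x₁ x₂ = sumNum W x₂ x₁ := by
        simp only [sumNum]; ring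
      rw [e, ← hsum]; ring

/-- **Validity of the ladder.** -/
theorem rep_nsmul {x y : F} (hP : W.Nonsingular x y) (n : ℕ) :
    _root_.Fermat.Agent.S13.H164.Rep W (n • Point.some x y hP) (lad W.b₂ W.b₄ W.b₆ W.b₈ x n).1
      (lad W.b₂ W.b₄ W.b₆ W.b₈ x n).2 := by
  induction n using Nat.strong_induction_on with
  | _ n ih =>
    rcases Nat.even_or_odd' n with ⟨k, rfl | rfl⟩
    · rcases k with _ | k
      · simp only [Nat.mul_zero, zero_smul, lad_zero]
        exact ⟨rfl, one_ne_zero⟩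
      · have hk : k + 1 < 2 * (k + 1) := by omega
        rw [lad_two_mul, two_mul, add_smul]
        exact (ih _ hk).double
    · have hk : k < 2 * k + 1 := by omega
      rcases k with _ | k
      · simp only [Nat.mul_zero, zero_add, one_smul, lad_one]
        exact ⟨one_ne_zero, mul_one x⟩
      · have hk' : k + 1 + 1 < 2 * (k + 1) + 1 := by omega
        rw [lad_two_mul_add_one]
        have e : (2 * (k + 1) + 1) • Point.some x y hP =
            (k + 1 + 1) • Point.some x y hP + (k + 1) • Point.some x y hP := by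
          rw [← add_smul]; congr 1; ring
        rw [e]
        refine Rep.add_of_sub hP ?_ (ih _ hk) (ih _ hk')
        rw [add_smul (k + 1) 1, one_smul, add_sub_cancel_left]

/-- `n • P = 0` iff the `n`-th ladder denominator vanishes at `x(P)`. -/
theorem nsmul_eq_zero_iff {x y : F} (hP : W.Nonsingular x y) (n : ℕ) :
    n • Point.some x y hP = 0 ↔ (lad W.b₂ W.b₄ W.b₆ W.b₈ x n).2 = 0 :=
  (rep_nsmul hP n).eq_zero_iff

/-- `(2m+1) • P = 0` iff `W_m = N_m D_{m+1} - N_{m+1} D_m` vanishes at `x(P)`. -/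
theorem odd_nsmul_eq_zero_iff {x y : F} (hP : W.Nonsingular x y) (m : ℕ) :
    (2 * m + 1) • Point.some x y hP = 0 ↔
      oW (lad W.b₂ W.b₄ W.b₆ W.b₈ x m).1 (lad W.b₂ W.b₄ W.b₆ W.b₈ x m).2
        (lad W.b₂ W.b₄ W.b₆ W.b₈ x (m + 1)).1 (lad W.b₂ W.b₄ W.b₆ W.b₈ x (m + 1)).2 = 0 := by
  rw [nsmul_eq_zero_iff, lad_two_mul_add_one]
  simp only [oD]
  exact pow_eq_zero_iff two_ne_zero

end Fermat.Agent.S13.H164

end
-- ===== PACK-END S13/H164/LadderValid.lean

-- ===== PACK-BEGIN Ribet/H164/FreyModelAtP.lean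
section


/-!
# RIBET piece G1a (helper164): `FreyModelAtPStatement`

The integral Frey curve `P.freyCurveInt` is an integral model of `P.freyCurve`, has nonzero
discriminant, is semistable at `p` (in fact at every prime: `c₄ = A² + AB + B²`,
`2⁸ Δ = (ABC)²` with `A = aᵖ`, `B = bᵖ`, `C = cᵖ` pairwise coprime) and is peu ramifié at `p`
(`v_p(Δ) = 2p · v_p(abc)`).  The hypothesis `p ∣ abc` is not needed.
-/

set_option autoImplicit false

namespace Fermat.Agent.Ribet.H164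

open WeierstrassCurve

variable (P : FreyPackage)

lemma g1a_four_dvd : (4 : ℤ) ∣ P.b ^ P.p - 1 - P.a ^ P.p := by
  have hp := P.hp5
  have hb : (2 : ℤ) ∣ P.b := (ZMod.intCast_zmod_eq_zero_iff_dvd P.b 2).1 P.hb2
  have hb4 : (4 : ℤ) ∣ P.b ^ P.p := by
    obtain ⟨k, hk⟩ := hb
    obtain ⟨j, hj⟩ : ∃ j, P.p = j + 2 := ⟨P.p - 2, by omega⟩
    have : P.b ^ P.p = 4 * (2 ^ j * k ^ P.p) := by
      rw [hk, hj]
      ring
    exact ⟨_, this⟩
  have ha : ((P.a ^ P.p : ℤ) : ZMod 4) = 3 := by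
    push_cast
    rw [P.ha4]
    obtain ⟨m, hm⟩ := P.hp_odd
    rw [hm, pow_succ, pow_mul]
    have : (3 : ZMod 4) ^ 2 = 1 := by decide
    rw [this, one_pow, one_mul]
  have hb' : ((P.b ^ P.p : ℤ) : ZMod 4) = 0 :=
    (ZMod.intCast_zmod_eq_zero_iff_dvd _ 4).2 hb4
  apply (ZMod.intCast_zmod_eq_zero_iff_dvd _ 4).1
  push_cast at ha hb' ⊢
  rw [ha, hb']
  decide

lemma g1a_sixteen_dvd : (16 : ℤ) ∣ -(P.a ^ P.p) * P.b ^ P.p := by
  have hp := P.hp5
  have hb : (2 : ℤ) ∣ P.b := (ZMod.intCast_zmod_eq_zero_iff_dvd P.b 2).1 P.hb2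
  obtain ⟨k, hk⟩ := hb
  obtain ⟨j, hj⟩ : ∃ j, P.p = j + 4 := ⟨P.p - 4, by omega⟩
  have : -(P.a ^ P.p) * P.b ^ P.p = 16 * (-(P.a ^ P.p) * (2 ^ j * k ^ P.p)) := by
    rw [hk, hj]
    ring
  exact ⟨_, this⟩

lemma g1a_four_mul_a₂ : 4 * P.freyCurveInt.a₂ = P.b ^ P.p - 1 - P.a ^ P.p := by
  simp only [FreyPackage.freyCurveInt]
  exact Int.mul_ediv_cancel' (g1a_four_dvd P)

lemma g1a_sixteen_mul_a₄ : 16 * P.freyCurveInt.a₄ = -(P.a ^ P.p) * P.b ^ P.p := by
  simp only [FreyPackage.freyCurveInt]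
  exact Int.mul_ediv_cancel' (g1a_sixteen_dvd P)

/-- The Frey curve over `ℚ` is the base change of the integral Frey curve. -/
theorem g1a_freyCurve_eq_map : P.freyCurve = P.freyCurveInt.map (Int.castRingHom ℚ) := by
  have h4 := g1a_four_dvd P
  have h16 := g1a_sixteen_dvd P
  ext
  · simp [FreyPackage.freyCurve, FreyPackage.freyCurveInt, WeierstrassCurve.map]
  · simp only [FreyPackage.freyCurve, FreyPackage.freyCurveInt, WeierstrassCurve.map,
      eq_intCast]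
    rw [Int.cast_div h4 (by norm_num)]
    push_cast
    ring
  · simp [FreyPackage.freyCurve, FreyPackage.freyCurveInt, WeierstrassCurve.map]
  · simp only [FreyPackage.freyCurve, FreyPackage.freyCurveInt, WeierstrassCurve.map,
      eq_intCast]
    rw [Int.cast_div h16 (by norm_num)]
    push_cast
    ring
  · simp [FreyPackage.freyCurve, FreyPackage.freyCurveInt, WeierstrassCurve.map]

theorem g1a_isIntegralModelOf : P.freyCurveInt.IsIntegralModelOf P.freyCurve :=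
  ⟨1, by rw [one_smul, g1a_freyCurve_eq_map]⟩

/-- `c₄ = A² + AB + B²`. -/
theorem g1a_c₄ : P.freyCurveInt.c₄ =
    (P.a ^ P.p) ^ 2 + P.a ^ P.p * P.b ^ P.p + (P.b ^ P.p) ^ 2 := by
  have h2 := g1a_four_mul_a₂ P
  have h4 := g1a_sixteen_mul_a₄ P
  have e1 : P.freyCurveInt.a₁ = 1 := rfl
  have e3 : P.freyCurveInt.a₃ = 0 := rfl
  simp only [WeierstrassCurve.c₄, WeierstrassCurve.b₂, WeierstrassCurve.b₄, e1, e3]
  linear_combination (1 + 4 * P.freyCurveInt.a₂ + P.b ^ P.p - P.a ^ P.p) * h2 - 3 * h4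

/-- `2⁸ Δ = (abc)^{2p}`. -/
theorem g1a_Δ : 2 ^ 8 * P.freyCurveInt.Δ = (P.a * P.b * P.c) ^ (2 * P.p) := by
  have h2 := g1a_four_mul_a₂ P
  have h4 := g1a_sixteen_mul_a₄ P
  have e1 : P.freyCurveInt.a₁ = 1 := rfl
  have e3 : P.freyCurveInt.a₃ = 0 := rfl
  have e6 : P.freyCurveInt.a₆ = 0 := rfl
  have hb2 : P.freyCurveInt.b₂ = P.b ^ P.p - P.a ^ P.p := by
    simp only [WeierstrassCurve.b₂, e1]; linear_combination h2
  have hΔ : P.freyCurveInt.Δ =
      P.freyCurveInt.a₄ ^ 2 * ((P.b ^ P.p - P.a ^ P.p) ^ 2 - 64 * P.freyCurveInt.a₄) := by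
    simp only [WeierstrassCurve.Δ, WeierstrassCurve.b₄, WeierstrassCurve.b₆,
      WeierstrassCurve.b₈, hb2, e1, e3, e6]
    ring
  rw [hΔ, pow_mul', mul_pow, mul_pow, ← P.hFLT]
  linear_combination
    ((P.b ^ P.p - P.a ^ P.p) ^ 2 * (16 * P.freyCurveInt.a₄ - P.a ^ P.p * P.b ^ P.p)
      - 4 * ((16 * P.freyCurveInt.a₄) ^ 2 - 16 * P.freyCurveInt.a₄ * (P.a ^ P.p * P.b ^ P.p)
        + (P.a ^ P.p * P.b ^ P.p) ^ 2)) * h4

theorem g1a_Δ_ne_zero : P.freyCurveInt.Δ ≠ 0 := by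
  intro h
  have := g1a_Δ P
  rw [h, mul_zero] at this
  exact pow_ne_zero _ P.habc0 this.symm

/-- The integral Frey curve is semistable (at every prime). -/
theorem g1a_semistable (q : ℕ) (hq : q.Prime) (hΔ : (q : ℤ) ∣ P.freyCurveInt.Δ) :
    ¬ (q : ℤ) ∣ P.freyCurveInt.c₄ := by
  intro hc4
  have hq' : Prime (q : ℤ) := Nat.prime_iff_prime_int.mp hq
  have hp0 : P.p ≠ 0 := P.hp0
  -- `q ∣ abc`
  have h1 : (q : ℤ) ∣ (P.a * P.b * P.c) ^ (2 * P.p) := by
    rw [← g1a_Δ]; exact dvd_mul_of_dvd_right hΔ _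
  have h2 : (q : ℤ) ∣ P.a * P.b * P.c := hq'.dvd_of_dvd_pow h1
  rw [g1a_c₄] at hc4
  have hnot : ∀ x y : ℤ, gcd x y = 1 → (q : ℤ) ∣ x → (q : ℤ) ∣ y → False := by
    intro x y hxy hx hy
    have : (q : ℤ) ∣ gcd x y := dvd_gcd hx hy
    rw [hxy] at this
    exact hq'.not_dvd_one this
  have hab : (q : ℤ) ∣ P.a → (q : ℤ) ∣ P.b → False := hnot _ _ P.hgcdab
  have hac : (q : ℤ) ∣ P.a → (q : ℤ) ∣ P.c → False := hnot _ _ P.hgcdac
  have hbc : (q : ℤ) ∣ P.b → (q : ℤ) ∣ P.c → False := hnot _ _ P.hgcdbc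
  rcases hq'.dvd_or_dvd h2 with h3 | hc
  · rcases hq'.dvd_or_dvd h3 with ha | hb
    · -- `q ∣ a`, so `q ∣ B²`
      have hA : (q : ℤ) ∣ P.a ^ P.p := dvd_pow ha hp0
      have : (q : ℤ) ∣ (P.b ^ P.p) ^ 2 := by
        have e : (P.b ^ P.p) ^ 2 = ((P.a ^ P.p) ^ 2 + P.a ^ P.p * P.b ^ P.p + (P.b ^ P.p) ^ 2)
            - P.a ^ P.p * (P.a ^ P.p + P.b ^ P.p) := by ring
        rw [e]
        exact dvd_sub hc4 (dvd_mul_of_dvd_left hA _)
      exact hab ha (hq'.dvd_of_dvd_pow (hq'.dvd_of_dvd_pow this))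
    · have hB : (q : ℤ) ∣ P.b ^ P.p := dvd_pow hb hp0
      have : (q : ℤ) ∣ (P.a ^ P.p) ^ 2 := by
        have e : (P.a ^ P.p) ^ 2 = ((P.a ^ P.p) ^ 2 + P.a ^ P.p * P.b ^ P.p + (P.b ^ P.p) ^ 2)
            - P.b ^ P.p * (P.a ^ P.p + P.b ^ P.p) := by ring
        rw [e]
        exact dvd_sub hc4 (dvd_mul_of_dvd_left hB _)
      exact hab (hq'.dvd_of_dvd_pow (hq'.dvd_of_dvd_pow this)) hb
  · -- `q ∣ c`, so `q ∣ A + B` and `q ∣ AB`
    have hC : (q : ℤ) ∣ P.a ^ P.p + P.b ^ P.p := by rw [P.hFLT]; exact dvd_pow hc hp0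
    have : (q : ℤ) ∣ P.a ^ P.p * P.b ^ P.p := by
      have e : P.a ^ P.p * P.b ^ P.p = (P.a ^ P.p + P.b ^ P.p) * (P.a ^ P.p + P.b ^ P.p)
          - ((P.a ^ P.p) ^ 2 + P.a ^ P.p * P.b ^ P.p + (P.b ^ P.p) ^ 2) := by ring
      rw [e]
      exact dvd_sub (dvd_mul_of_dvd_left hC _) hc4
    rcases hq'.dvd_or_dvd this with hA | hB
    · exact hac (hq'.dvd_of_dvd_pow hA) hc
    · exact hbc (hq'.dvd_of_dvd_pow hB) hc

lemma g1a_padicValInt_pow (q : ℕ) (hq : q.Prime) (n : ℕ) {x : ℤ} (hx : x ≠ 0) :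
    padicValInt q (x ^ n) = n * padicValInt q x := by
  have : Fact q.Prime := ⟨hq⟩
  induction n with
  | zero => simp
  | succ n ih =>
    rw [pow_succ, padicValInt.mul (pow_ne_zero _ hx) hx, ih]
    ring

/-- `v_q(Δ) = 2p · v_q(abc)` for every odd prime `q`. -/
theorem g1a_padicValInt_Δ (q : ℕ) (hq : q.Prime) (hq2 : q ≠ 2) :
    padicValInt q P.freyCurveInt.Δ = 2 * P.p * padicValInt q (P.a * P.b * P.c) := by
  have : Fact q.Prime := ⟨hq⟩
  have h := congrArg (padicValInt q) (g1a_Δ P)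
  rw [padicValInt.mul (by norm_num) (g1a_Δ_ne_zero P), g1a_padicValInt_pow q hq _ P.habc0] at h
  have h0 : padicValInt q ((2 : ℤ) ^ 8) = 0 := by
    apply padicValInt.eq_zero_of_not_dvd
    intro hd
    have hq' : Prime (q : ℤ) := Nat.prime_iff_prime_int.mp hq
    have h2 : (q : ℤ) ∣ 2 := hq'.dvd_of_dvd_pow hd
    have h3 : q ∣ 2 := by exact_mod_cast h2
    exact hq2 ((Nat.prime_dvd_prime_iff_eq hq Nat.prime_two).mp h3)
  rw [h0, zero_add] at h
  exact h

/-- The integral Frey curve is peu ramifié at `p` (and at every odd prime). -/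
theorem g1a_peuRamifiee (q : ℕ) (hq : q.Prime) (hq2 : q ≠ 2) :
    (P.freyCurveInt.map (Int.castRingHom ℚ)).IsPeuRamifieeAt P.p q := by
  unfold WeierstrassCurve.IsPeuRamifieeAt
  rw [WeierstrassCurve.map_Δ, eq_intCast, padicValRat.of_int, g1a_padicValInt_Δ P q hq hq2]
  push_cast
  exact ⟨2 * (padicValInt q (P.a * P.b * P.c) : ℤ), by ring⟩

/-- **G1a.**  `Spec.FreyModelAtPStatement`. -/
theorem freyModelAtP : Spec.FreyModelAtPStatement := by
  intro P _
  refine ⟨P.freyCurveInt, g1a_isIntegralModelOf P, g1a_Δ_ne_zero P,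
    g1a_semistable P P.p P.pp, g1a_peuRamifiee P P.p P.pp ?_⟩
  have := P.hp5
  omega

end Fermat.Agent.Ribet.H164

end
-- ===== PACK-END Ribet/H164/FreyModelAtP.lean

-- ===== PACK-BEGIN Lib/Cheb/H221/CycSpec.lean
section



/-!
# CYC (helper221): internal interface statements for
`PrimeSum + Count + Frob + FrobFinite + DirichletLimit ⇒ CycStatement`

Definitions and `Prop`s only.
-/

set_option autoImplicit false

open NumberField IsDedekindDomain Filter Topology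
open Fermat.Agent.Lib.Cheb

namespace Fermat.Agent.Lib.Cheb.H221

/-- (EP) twisted Euler product -/
def EulerProductStatement : Prop :=
  ∀ (F : Type) [Field F] [NumberField F] (m : ℕ) [NeZero m] (χ : DirichletCharacter ℂ m)
    (s : ℝ), 1 < s →
    HasProd (fun 𝔭 : HeightOneSpectrum (𝓞 F) =>
      (1 - χ (Ideal.absNorm 𝔭.asIdeal : ZMod m) *
        (((Ideal.absNorm 𝔭.asIdeal : ℝ) ^ (-s) : ℝ) : ℂ))⁻¹)
      (LSeries (fun n => χ (n : ZMod m) * (Spec.idealCount F n : ℂ)) (s : ℂ))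

/-- (DEG) twisted prime-ideal sums versus twisted sums over rational primes -/
def TwistedPrimeSumStatement : Prop :=
  Spec.PrimeSumStatement →
  ∀ (F : Type) [Field F] [NumberField F] (m : ℕ) [NeZero m] (χ : DirichletCharacter ℂ m),
    ∃ C : ℝ, ∀ s : ℝ, 1 < s → s ≤ 2 →
      Summable (fun p : Nat.Primes => (Spec.primeCount F p : ℝ) * (p : ℝ) ^ (-s)) ∧
      ‖(∑' 𝔭 : HeightOneSpectrum (𝓞 F), χ (Ideal.absNorm 𝔭.asIdeal : ZMod m) *
          (((Ideal.absNorm 𝔭.asIdeal : ℝ) ^ (-s) : ℝ) : ℂ)) -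
        ∑' p : Nat.Primes, χ ((p : ℕ) : ZMod m) *
          (((Spec.primeCount F p : ℝ) * (p : ℝ) ^ (-s) : ℝ) : ℂ)‖ ≤ C

/-- (ABS) abstract Dirichlet lemma -/
def AbstractDirichletStatement : Prop :=
  ∀ (m : ℕ) [NeZero m] (c : Nat.Primes → ℝ), (∀ p, 0 ≤ c p) →
    (∀ s : ℝ, 1 < s → s ≤ 2 → Summable (fun p : Nat.Primes => c p * (p : ℝ) ^ (-s))) →
    ∀ A : Subgroup (ZMod m)ˣ,
    (∃ B : Finset ℕ, ∀ p : Nat.Primes, (p : ℕ) ∉ B → c p ≠ 0 →
      ∃ u ∈ A, ((u : (ZMod m)ˣ) : ZMod m) = ((p : ℕ) : ZMod m)) →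
    (∃ C : ℝ, ∀ s : ℝ, 1 < s → s ≤ 2 →
      |(∑' p : Nat.Primes, c p * (p : ℝ) ^ (-s)) - Real.log (1 / (s - 1))| ≤ C) →
    (∃ C : ℝ, ∀ s : ℝ, 1 < s → s ≤ 2 →
      (Nat.card A : ℝ)⁻¹ * Real.log (1 / (s - 1)) - C ≤
        ∑' p : Nat.Primes, if ((p : ℕ) : ZMod m) = 1 then c p * (p : ℝ) ^ (-s) else 0) →
    (∀ χ : DirichletCharacter ℂ m, (∃ u ∈ A, χ ((u : (ZMod m)ˣ) : ZMod m) ≠ 1) →
      ∃ (Λ : ℝ → ℂ) (ℓ : ℂ) (C : ℝ), ContinuousOn Λ (Set.Ioi 1) ∧
        Tendsto (fun s => Complex.exp (Λ s)) (𝓝[>] 1) (𝓝 ℓ) ∧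
        ∀ s : ℝ, 1 < s → s ≤ 2 →
          ‖Λ s - ∑' p : Nat.Primes, χ ((p : ℕ) : ZMod m) * ((c p * (p : ℝ) ^ (-s) : ℝ) : ℂ)‖ ≤ C) →
    ∀ a ∈ A, ∀ S : Finset ℕ, ∃ p : Nat.Primes, (p : ℕ) ∉ S ∧
      ((p : ℕ) : ZMod m) = ((a : (ZMod m)ˣ) : ZMod m) ∧ c p ≠ 0

section alg

variable (L : Type) [Field L] [NumberField L] [IsGalois ℚ L]

/-- the fixed field of `⟨g⟩` -/
abbrev fixM (g : L ≃ₐ[ℚ] L) : IntermediateField ℚ L :=
  IntermediateField.fixedField (Subgroup.zpowers g)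

/-- the fixed field of the trivial group (a copy of `L`) -/
abbrev fixBot : IntermediateField ℚ L :=
  IntermediateField.fixedField (⊥ : Subgroup (L ≃ₐ[ℚ] L))

/-- (ALG) the algebraic input of CYC, in the situation of `Spec.CycStatement` -/
def CycAlgStatement : Prop :=
  Spec.CountStatement → Spec.FrobStatement → Spec.FrobFiniteStatement →
  ∀ (L : Type) [Field L] [NumberField L] [IsGalois ℚ L] (m : ℕ) [NeZero m] (ζ : L)
    (hζ : IsPrimitiveRoot ζ m) (g : L ≃ₐ[ℚ] L), (∀ k : ℕ, (g ^ k) ζ = ζ → g ^ k = 1) →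
    Nat.card (Subgroup.zpowers (hζ.autToPow ℚ g)) = orderOf g ∧
    ∃ B : Finset ℕ,
      -- (SUPP)
      (∀ p : ℕ, p.Prime → p ∉ B → Spec.primeCount (fixM L g) p ≠ 0 →
        ∃ u ∈ Subgroup.zpowers (hζ.autToPow ℚ g), ((u : (ZMod m)ˣ) : ZMod m) = (p : ZMod m)) ∧
      -- (SPLIT)
      (∀ p : ℕ, p.Prime → p ∉ B →
        Spec.primeCount (fixBot L) p =
          if (p : ZMod m) = 1 then orderOf g * Spec.primeCount (fixM L g) p else 0) ∧
      -- (NT)
      (∀ χ : DirichletCharacter ℂ m, χ ((hζ.autToPow ℚ g : (ZMod m)ˣ) : ZMod m) ≠ 1 →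
        ∃ I : Ideal (𝓞 (fixM L g)), χ (Ideal.absNorm I : ZMod m) ≠ 0 ∧
          χ (Ideal.absNorm I : ZMod m) ≠ 1) ∧
      -- (FIN)
      (∀ p : ℕ, p.Prime → p ∉ B → Spec.primeCount (fixM L g) p ≠ 0 →
        (p : ZMod m) = ((hζ.autToPow ℚ g : (ZMod m)ˣ) : ZMod m) →
        ∃ P : Ideal (𝓞 L), P.IsPrime ∧ (p : 𝓞 L) ∈ P ∧ Spec.InertiaTrivial L P ∧
          IsArithFrobAt ℤ g P)

end alg

end Fermat.Agent.Lib.Cheb.H221

end
-- ===== PACK-END Lib/Cheb/H221/CycSpec.lean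

-- ===== PACK-BEGIN S55/H414/CycloOrder.lean
section


/-!
# S55, leaf CYC-INF (helper414), part 2: orders of integers modulo `p ^ n`

Elementary number theory: if `q ≥ 2` then the `p`-part of the multiplicative order of `q`
modulo `p ^ n` tends to infinity with `n`.
-/

set_option autoImplicit false

namespace Fermat.Agent.S55.H414

/-- If `o ∣ (p - 1) * p ^ m` and `p ^ k ∤ o` (with `k ≥ 1`), then `o ∣ (p - 1) * p ^ (k - 1)`. -/
theorem dvd_pred_mul_pow_of_not_pow_dvd {p : ℕ} (hp : p.Prime) {o m k : ℕ}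
    (ho : o ∣ (p - 1) * p ^ m) (hk : ¬ p ^ k ∣ o) : o ∣ (p - 1) * p ^ (k - 1) := by
  have ho0 : o ≠ 0 := by
    rintro rfl
    exact hk (dvd_zero _)
  obtain ⟨j, a, ha, rfl⟩ := Nat.exists_eq_pow_mul_and_not_dvd ho0 p hp.ne_one
  have hcop : Nat.Coprime a (p ^ m) := Nat.Coprime.pow_right _
    ((Nat.Prime.coprime_iff_not_dvd hp).2 ha).symm
  have ha1 : a ∣ p - 1 := by
    have : a ∣ (p - 1) * p ^ m := (Dvd.intro_left _ rfl).trans ho
    exact hcop.dvd_of_dvd_mul_right this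
  have hj : j < k := by
    by_contra hjk
    exact hk ((pow_dvd_pow p (Nat.le_of_not_lt hjk)).trans (Dvd.intro _ rfl))
  have hj' : p ^ j ∣ p ^ (k - 1) := pow_dvd_pow p (by omega)
  rw [mul_comm (p - 1)]
  exact Nat.mul_dvd_mul hj' ha1

/-- For `q ≥ 2` and every `k`, for all large `n`, every unit of `ZMod (p ^ n)` which is the class
of `q` has order divisible by `p ^ k`. -/
theorem exists_forall_pow_dvd_orderOf (p q : ℕ) (hp : p.Prime) (hq : 2 ≤ q) (k : ℕ) :
    ∃ n₀ : ℕ, ∀ n, n₀ ≤ n → ∀ u : (ZMod (p ^ n))ˣ, (u : ZMod (p ^ n)) = (q : ZMod (p ^ n)) →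
      p ^ k ∣ orderOf u := by
  set E : ℕ := (p - 1) * p ^ (k - 1) with hE
  have hE0 : 0 < E := Nat.mul_pos (Nat.sub_pos_of_lt hp.one_lt) (pow_pos hp.pos _)
  set m : ℕ := q ^ E with hm
  have hm2 : 2 ≤ m := by
    calc 2 ≤ q := hq
      _ = q ^ 1 := (pow_one q).symm
      _ ≤ q ^ E := Nat.pow_le_pow_right (by omega) hE0
  refine ⟨m, fun n hn u hu => ?_⟩
  by_contra hk
  haveI : NeZero (p ^ n) := ⟨pow_ne_zero _ hp.ne_zero⟩
  have hn0 : n ≠ 0 := by
    rintro rfl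
    omega
  have hcard : Nat.card (ZMod (p ^ n))ˣ = (p - 1) * p ^ (n - 1) := by
    rw [Nat.card_eq_fintype_card, ZMod.card_units_eq_totient,
      Nat.totient_prime_pow hp (Nat.pos_of_ne_zero hn0), mul_comm]
  have ho : orderOf u ∣ (p - 1) * p ^ (n - 1) := by
    rw [← hcard]
    exact orderOf_dvd_natCard u
  have hoE : orderOf u ∣ E := dvd_pred_mul_pow_of_not_pow_dvd hp ho hk
  have h1 : u ^ E = 1 := orderOf_dvd_iff_pow_eq_one.1 hoE
  have h2 : ((m : ℕ) : ZMod (p ^ n)) = 1 := by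
    have := congrArg (fun v : (ZMod (p ^ n))ˣ => (v : ZMod (p ^ n))) h1
    simp only [Units.val_pow_eq_pow_val, Units.val_one, hu] at this
    rw [hm, Nat.cast_pow]
    exact this
  have h3 : ((m - 1 : ℕ) : ZMod (p ^ n)) = 0 := by
    rw [Nat.cast_sub (by omega), h2]
    simp
  have h4 : p ^ n ∣ m - 1 := (ZMod.natCast_eq_zero_iff _ _).1 h3
  have h5 : p ^ n ≤ m - 1 := Nat.le_of_dvd (by omega) h4
  have h6 : m < p ^ m := Nat.lt_pow_self hp.one_lt
  have h7 : p ^ m ≤ p ^ n := Nat.pow_le_pow_right hp.pos hn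
  omega

end Fermat.Agent.S55.H414

end
-- ===== PACK-END S55/H414/CycloOrder.lean

-- ===== PACK-BEGIN S41/H701/LinAlg2.lean
section


/-!
# Linear algebra in dimension two (helper701, S41 piece D2)

* `ker_eq_of_unipotent_pair_h701`: two non-trivial unipotent endomorphisms of a plane whose
  product is unipotent have the same fixed line.
* `det_eq_of_quadratic_h701`: a non-scalar endomorphism `T` of a plane with `T² - aT + l = 0` has
  determinant `l`.
-/

set_option autoImplicit false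

open Module

namespace Fermat.Agent.S41.H701

section LinAlg2

variable {k V : Type*} [Field k] [AddCommGroup V] [Module k V]

/-- A nonzero square-zero endomorphism of a plane: its kernel is a line `k e`, equal to its
range. -/
lemma exists_ker_eq_span_h701 (hdim : finrank k V = 2) (A : End k V) (hA : A ≠ 0)
    (hA2 : A * A = 0) :
    ∃ e : V, e ≠ 0 ∧ A e = 0 ∧ (∀ x, A x = 0 → ∃ c : k, x = c • e) ∧ (∀ x, ∃ c : k, A x = c • e) := by
  have hfd : FiniteDimensional k V := FiniteDimensional.of_finrank_pos (by omega)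
  have hrk := LinearMap.finrank_range_add_finrank_ker A
  rw [hdim] at hrk
  have hle : LinearMap.range A ≤ LinearMap.ker A := by
    rintro _ ⟨y, rfl⟩
    rw [LinearMap.mem_ker]
    have := congrArg (fun f : End k V => f y) hA2
    simpa using this
  have hr0 : finrank k (LinearMap.range A) ≠ 0 := by
    intro h
    rw [Submodule.finrank_eq_zero, LinearMap.range_eq_bot] at h
    exact hA h
  have hle' := Submodule.finrank_mono hle
  have hk1 : finrank k (LinearMap.ker A) = 1 := by omega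
  have hr1 : finrank k (LinearMap.range A) = 1 := by omega
  have heq : LinearMap.range A = LinearMap.ker A :=
    Submodule.eq_of_le_of_finrank_eq hle (by rw [hk1, hr1])
  obtain ⟨⟨e, he⟩, he0, hspan⟩ := finrank_eq_one_iff'.mp hk1
  refine ⟨e, ?_, LinearMap.mem_ker.mp he, ?_, ?_⟩
  · intro h
    apply he0
    exact Subtype.ext h
  · intro x hx
    obtain ⟨c, hc⟩ := hspan ⟨x, LinearMap.mem_ker.mpr hx⟩
    exact ⟨c, (congrArg Subtype.val hc).symm⟩
  · intro x
    have hx : A x ∈ LinearMap.ker A := heq ▸ LinearMap.mem_range_self A x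
    obtain ⟨c, hc⟩ := hspan ⟨A x, hx⟩
    exact ⟨c, (congrArg Subtype.val hc).symm⟩

/-- Two non-trivial unipotent endomorphisms of a plane whose product is unipotent fix the same
vectors. -/
theorem ker_le_of_unipotent_pair_h701 (hdim : finrank k V = 2) (u v : End k V)
    (hu : (u - 1) * (u - 1) = 0) (hv : (v - 1) * (v - 1) = 0)
    (huv : (u * v - 1) * (u * v - 1) = 0) (hu1 : u ≠ 1) (hv1 : v ≠ 1)
    (x : V) (hx : u x = x) : v x = x := by
  set A : End k V := u - 1 with hAdef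
  set B : End k V := v - 1 with hBdef
  have hA0 : A ≠ 0 := sub_ne_zero.mpr hu1
  have hB0 : B ≠ 0 := sub_ne_zero.mpr hv1
  obtain ⟨e, he0, hAe, hkerA, hrangeA⟩ := exists_ker_eq_span_h701 hdim A hA0 hu
  obtain ⟨f, hf0, hBf, hkerB, hrangeB⟩ := exists_ker_eq_span_h701 hdim B hB0 hv
  have hw : u * v - 1 = A + B + A * B := by
    rw [hAdef, hBdef]; noncomm_ring
  rw [hw] at huv
  -- `A f = a e`, `B e = b f`
  obtain ⟨a, ha⟩ := hrangeA f
  obtain ⟨b, hb⟩ := hrangeB e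
  have key := congrArg (fun T : End k V => A (T f)) huv
  simp only [Module.End.mul_apply, LinearMap.add_apply, LinearMap.zero_apply, map_zero,
    hBf, ha, map_add, map_smul, hAe, hb, smul_zero, add_zero, zero_add, smul_smul] at key
  -- key : (a * b * a) • e = 0  (up to normalisation)
  have hab : a = 0 ∨ b = 0 := by
    by_contra hcon
    rw [not_or] at hcon
    rcases smul_eq_zero.mp key with h | h
    · simp [hcon.1, hcon.2] at h
    · exact he0 h
  have hAx : A x = 0 := by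
    rw [hAdef, LinearMap.sub_apply, Module.End.one_apply, hx, sub_self]
  obtain ⟨c, rfl⟩ := hkerA x hAx
  have hBe : B e = 0 := by
    rcases hab with h | h
    · -- `A f = 0`, so `f ∈ ker A = k e`
      rw [h, zero_smul] at ha
      obtain ⟨c', hc'⟩ := hkerA f ha
      have hc'0 : c' ≠ 0 := by
        rintro rfl
        rw [zero_smul] at hc'
        exact hf0 hc'
      have : e = c'⁻¹ • f := by rw [hc', smul_smul, inv_mul_cancel₀ hc'0, one_smul]
      rw [this, map_smul, hBf, smul_zero]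
    · rw [hb, h, zero_smul]
  have : B (c • e) = 0 := by rw [map_smul, hBe, smul_zero]
  rw [hBdef, LinearMap.sub_apply, Module.End.one_apply, sub_eq_zero] at this
  exact this

/-- Powers of a unipotent endomorphism are unipotent (any ring). -/
lemma sq_zero_pow_sub_one_h701 {R : Type*} [Ring R] (T : R) (hT : (T - 1) * (T - 1) = 0)
    (j : ℕ) : (T ^ j - 1) * (T ^ j - 1) = 0 := by
  have h1 : T ^ j - 1 = (∑ i ∈ Finset.range j, T ^ i) * (T - 1) := (geom_sum_mul T j).symm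
  have h2 : T ^ j - 1 = (T - 1) * (∑ i ∈ Finset.range j, T ^ i) := (mul_geom_sum T j).symm
  calc (T ^ j - 1) * (T ^ j - 1)
      = ((∑ i ∈ Finset.range j, T ^ i) * (T - 1)) * ((T - 1) * (∑ i ∈ Finset.range j, T ^ i)) := by
        rw [← h1, ← h2]
    _ = (∑ i ∈ Finset.range j, T ^ i) * ((T - 1) * (T - 1)) * (∑ i ∈ Finset.range j, T ^ i) := by
        noncomm_ring
    _ = 0 := by rw [hT, mul_zero, zero_mul]

/-- A `2 × 2` matrix satisfying `M² - aM + l = 0` is scalar or has determinant `l`. -/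
lemma matrix_det_eq_of_quadratic_h701 (M : Matrix (Fin 2) (Fin 2) k) (a l : k)
    (hrel : M * M - a • M + l • (1 : Matrix (Fin 2) (Fin 2) k) = 0)
    (hns : ∀ s : k, M ≠ s • (1 : Matrix (Fin 2) (Fin 2) k)) : M.det = l := by
  have h00 := congrFun (congrFun hrel 0) 0
  have h01 := congrFun (congrFun hrel 0) 1
  have h10 := congrFun (congrFun hrel 1) 0
  have h11 := congrFun (congrFun hrel 1) 1
  simp only [Matrix.add_apply, Matrix.sub_apply, Matrix.mul_apply, Fin.sum_univ_two,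
    Matrix.smul_apply, Matrix.one_apply_eq, Matrix.zero_apply, smul_eq_mul, mul_one, ne_eq,
    Matrix.one_apply_ne, mul_zero, add_zero, Fin.isValue, zero_ne_one, one_ne_zero,
    not_false_eq_true] at h00 h01 h10 h11
  rw [Matrix.det_fin_two]
  by_cases htr : M 0 0 + M 1 1 = a
  · linear_combination (-1 : k) * h00 + M 0 0 * htr
  · exfalso
    have htr' : M 0 0 + M 1 1 - a ≠ 0 := sub_ne_zero.mpr htr
    have e01 : M 0 1 = 0 := by
      have : M 0 1 * (M 0 0 + M 1 1 - a) = 0 := by linear_combination h01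
      exact (mul_eq_zero.mp this).resolve_right htr'
    have e10 : M 1 0 = 0 := by
      have : M 1 0 * (M 0 0 + M 1 1 - a) = 0 := by linear_combination h10
      exact (mul_eq_zero.mp this).resolve_right htr'
    have e : M 0 0 = M 1 1 := by
      have : (M 0 0 - M 1 1) * (M 0 0 + M 1 1 - a) = 0 := by
        linear_combination h00 - h11
      exact sub_eq_zero.mp ((mul_eq_zero.mp this).resolve_right htr')
    apply hns (M 0 0)
    ext i j
    fin_cases i <;> fin_cases j <;> simp [e01, e10, e]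

/-- A non-scalar endomorphism `T` of a plane with `T² - aT + l = 0` has determinant `l`. -/
theorem det_eq_of_quadratic_h701 (hdim : finrank k V = 2) (T : End k V) (a l : k)
    (hrel : T * T - a • T + l • (1 : End k V) = 0)
    (hns : ∀ s : k, T ≠ s • (1 : End k V)) : LinearMap.det T = l := by
  have hfd : FiniteDimensional k V := FiniteDimensional.of_finrank_pos (by omega)
  let b : Basis (Fin 2) k V := Module.finBasisOfFinrankEq k V hdim
  let φ := LinearMap.toMatrixAlgEquiv b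
  have h1 : φ T * φ T - a • φ T + l • (1 : Matrix (Fin 2) (Fin 2) k) = 0 := by
    have := congrArg φ hrel
    simpa using this
  have h2 : ∀ s : k, φ T ≠ s • (1 : Matrix (Fin 2) (Fin 2) k) := by
    intro s hs
    apply hns s
    apply φ.injective
    rw [hs, map_smul, map_one]
  have h3 := matrix_det_eq_of_quadratic_h701 (φ T) a l h1 h2
  rw [← h3]
  exact (LinearMap.det_toMatrix b T).symm

end LinAlg2

end Fermat.Agent.S41.H701

end
-- ===== PACK-END S41/H701/LinAlg2.lean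

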