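import Mathlib
import Mathlib.AlgebraicGeometry.EllipticCurve.Affine.Point
import Mathlib.AlgebraicGeometry.EllipticCurve.VariableChange
import Mathlib.Tactic.FieldSimp
import Mathlib.Tactic.LinearCombination
import Mathlib.RingTheory.Valuation.Basic
import Mathlib.Tactic
import Fermat.Agent.Pack.S15.AE0L3
import Fermat.Agent.Pack.S15.BE0L0
import Fermat.Agent.Pack.S15.BE0L2
import Fermat.Agent.Pack.S15.BE0L1

-- ===== PACK-BEGIN S51/FiveTorsion.lean
section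



/-!
# S51, the `5`-side: points of order `5` on a Weierstrass curve
-/

open WeierstrassCurve WeierstrassCurve.Affine

namespace Fermat.Agent.S51.Five

variable {K : Type*} [Field K] [DecidableEq K] {E : WeierstrassCurve.Affine K}

/-- the `x`-coordinate of a point, with junk value `0` at infinity -/
def xc : E.Point → K
  | .zero => 0
  | .some x _ _ => x

@[simp] lemma xc_some {x y : K} (h : E.Nonsingular x y) : xc (Point.some x y h) = x := rfl

lemma xc_neg (P : E.Point) : xc (-P) = xc P := by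
  cases P <;> rfl

lemma eq_or_eq_neg_of_xc_eq {P Q : E.Point} (hP : P ≠ 0) (hQ : Q ≠ 0) (h : xc P = xc Q) :
    P = Q ∨ P = -Q := by
  match P, Q with
  | .zero, _ => exact absurd rfl hP
  | _, .zero => exact absurd rfl hQ
  | .some x₁ y₁ h₁, .some x₂ y₂ h₂ => exact Point.X_eq_iff.mp h

/-- doubling formula for `x`-coordinates -/
lemma xc_add_self {P : E.Point} (hP : P ≠ 0) (h2 : P + P ≠ 0) :
    dD E.b₂ E.b₄ E.b₆ (xc P) ≠ 0 ∧
      xc (P + P) * dD E.b₂ E.b₄ E.b₆ (xc P) = dN E.b₄ E.b₆ E.b₈ (xc P) := by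
  match P with
  | .zero => exact absurd rfl hP
  | .some x y h =>
    have hy : y ≠ E.negY x y := fun hy => h2 (Point.add_self_of_Y_eq hy)
    constructor
    · rw [xc_some, dD_eq E h.1]; exact pow_ne_zero 2 (sub_ne_zero.mpr hy)
    · rw [Point.add_self_of_Y_ne hy, xc_some, xc_some]; exact dup_X E h.1 hy

/-- if `D (x P) ≠ 0` then `2P ≠ 0` -/
lemma add_self_ne_zero_of_dD_ne_zero {P : E.Point} (hP : P ≠ 0)
    (hD : dD E.b₂ E.b₄ E.b₆ (xc P) ≠ 0) : P + P ≠ 0 := by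
  match P with
  | .zero => exact absurd rfl hP
  | .some x y h =>
    have hy : y ≠ E.negY x y := by
      intro hy
      apply hD
      rw [xc_some, dD_eq E h.1, ← hy, sub_self]; ring
    rw [Point.add_self_of_Y_ne hy]
    exact Point.some_ne_zero _

section order5

lemma nsmul_eq_zero_iff_of_order5 {P : E.Point} (hP : P ≠ 0) (h5 : 5 • P = 0) (k : ℕ) :
    k • P = 0 ↔ 5 ∣ k := by
  haveI : Fact (Nat.Prime 5) := ⟨by norm_num⟩
  have ho : addOrderOf P = 5 := addOrderOf_eq_prime h5 hP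
  rw [← ho]
  exact addOrderOf_dvd_iff_nsmul_eq_zero.symm

/-- the relations satisfied by `u = x(P)`, `v = x(2P)` for a point `P` of order `5` -/
lemma order5_rel {P : E.Point} (hP : P ≠ 0) (h5 : 5 • P = 0) :
    dD E.b₂ E.b₄ E.b₆ (xc P) ≠ 0 ∧ dD E.b₂ E.b₄ E.b₆ (xc (2 • P)) ≠ 0 ∧
    xc (2 • P) * dD E.b₂ E.b₄ E.b₆ (xc P) = dN E.b₄ E.b₆ E.b₈ (xc P) ∧
    xc P * dD E.b₂ E.b₄ E.b₆ (xc (2 • P)) = dN E.b₄ E.b₆ E.b₈ (xc (2 • P)) ∧
    xc P ≠ xc (2 • P) := by
  have key := nsmul_eq_zero_iff_of_order5 hP h5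
  have h2 : 2 • P ≠ 0 := fun h => by have := (key 2).mp h; omega
  have h3 : 3 • P ≠ 0 := fun h => by have := (key 3).mp h; omega
  have h4 : 4 • P ≠ 0 := fun h => by have := (key 4).mp h; omega
  have e2 : P + P = 2 • P := (two_nsmul P).symm
  have e4 : 2 • P + 2 • P = 4 • P := by rw [← add_nsmul]
  have e4' : 4 • P = -P := by
    rw [eq_neg_iff_add_eq_zero, ← succ_nsmul]; exact h5
  obtain ⟨hD1, hX1⟩ := xc_add_self hP (e2 ▸ h2)
  obtain ⟨hD2, hX2⟩ := xc_add_self h2 (e4 ▸ h4)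
  rw [e2] at hX1
  rw [e4, e4', xc_neg] at hX2
  refine ⟨hD1, hD2, hX1, hX2, ?_⟩
  intro huv
  rcases eq_or_eq_neg_of_xc_eq hP h2 huv with h | h
  · apply hP
    have : P + P = P + 0 := by rw [e2, add_zero]; exact h.symm
    exact (add_left_cancel this)
  · apply h3
    have h' : 2 • P + P = 0 := by
      nth_rewrite 2 [h]
      exact add_neg_cancel _
    rw [succ_nsmul]; exact h'

/-- the `x`-coordinate of a point of order `5` is a root of the `5`-division polynomial -/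
lemma dPsi5_eq_zero_of_order5 [CharZero K] {P : E.Point} (hP : P ≠ 0) (h5 : 5 • P = 0) :
    dPsi5 E.b₂ E.b₄ E.b₆ E.b₈ (xc P) = 0 := by
  obtain ⟨hD1, hD2, hX1, hX2, huv⟩ := order5_rel hP h5
  have h4 : (4:K) ≠ 0 := by norm_num
  have hb := E.b_relation
  set u := xc P with hu
  set v := xc (2 • P) with hv
  have hv' : v = dN E.b₄ E.b₆ E.b₈ u / dD E.b₂ E.b₄ E.b₆ u := by
    rw [eq_div_iff hD1]; exact hX1
  have e1 := dD_div E.b₂ E.b₄ E.b₆ E.b₈ u hD1
  have e2 := dN_div E.b₂ E.b₄ E.b₆ E.b₈ u hD1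
  rw [← hv'] at e1 e2
  have e3 := id3 E.b₂ E.b₄ E.b₆ E.b₈ u hb h4
  have e0 := id1 E.b₂ E.b₄ E.b₆ E.b₈ u
  have hpsi3 : dPsi3 E.b₂ E.b₄ E.b₆ E.b₈ u ≠ 0 := by
    intro h0
    rw [h0, neg_zero, sub_eq_zero, ← hX1] at e0
    exact huv (mul_right_cancel₀ hD1 e0).symm
  have : dPsi3 E.b₂ E.b₄ E.b₆ E.b₈ u * dPsi5 E.b₂ E.b₄ E.b₆ E.b₈ u = 0 := by
    have : dN2 E.b₂ E.b₄ E.b₆ E.b₈ u = u * dD E.b₂ E.b₄ E.b₆ u * dD2 E.b₂ E.b₄ E.b₆ E.b₈ u := by
      rw [← e1, ← e2, ← hX2]; ring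
    rw [this, sub_self] at e3
    linear_combination e3
  exact (mul_eq_zero.mp this).resolve_left hpsi3

end order5

section existence

lemma eval_preΨ'_five (E : WeierstrassCurve.Affine K) (x : K) :
    (E.preΨ' 5).eval x = dPsi5 E.b₂ E.b₄ E.b₆ E.b₈ x := by
  have h := E.preΨ'_odd 0
  simp only [zero_add, Nat.reduceMul, Nat.reduceAdd, preΨ'_four, preΨ'_two, one_pow, mul_one,
    Even.zero, if_true, preΨ'_one, preΨ'_three, one_mul] at h
  rw [h]
  simp only [dPsi5, dPre4, dD, dPsi3, WeierstrassCurve.preΨ₄, WeierstrassCurve.Ψ₂Sq,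
    WeierstrassCurve.Ψ₃, Polynomial.eval_sub, Polynomial.eval_mul, Polynomial.eval_pow,
    Polynomial.eval_add, Polynomial.eval_C, Polynomial.eval_X, Polynomial.eval_ofNat]

/-- every point on the curve: existence of `y` for a given `x` over an algebraically closed
field -/
lemma exists_equation [IsAlgClosed K] [CharZero K] (E : WeierstrassCurve.Affine K) (x : K) :
    ∃ y : K, E.Equation x y := by
  obtain ⟨s, hs⟩ := IsAlgClosed.exists_pow_nat_eq (dD E.b₂ E.b₄ E.b₆ x) (n := 2) (by norm_num)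
  refine ⟨(s - E.a₁ * x - E.a₃) / 2, ?_⟩
  rw [Affine.equation_iff]
  simp only [dD, WeierstrassCurve.b₂, WeierstrassCurve.b₄, WeierstrassCurve.b₆] at hs
  field_simp
  linear_combination hs

/-- key nonvanishing statements at a root of the `5`-division polynomial -/
lemma nonvanishing_of_dPsi5 [CharZero K] {x y : K} (h : E.Nonsingular x y)
    (h5 : dPsi5 E.b₂ E.b₄ E.b₆ E.b₈ x = 0) :
    dD E.b₂ E.b₄ E.b₆ x ≠ 0 ∧ dPsi3 E.b₂ E.b₄ E.b₆ E.b₈ x ≠ 0 ∧
      dPre4 E.b₂ E.b₄ E.b₆ E.b₈ x ≠ 0 := by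
  have h4 : (4:K) ≠ 0 := by norm_num
  have hb := E.b_relation
  have e0 := id1 E.b₂ E.b₄ E.b₆ E.b₈ x
  have e2 := id2 E.b₂ E.b₄ E.b₆ E.b₈ x hb h4
  rw [dPsi5, sub_eq_zero] at h5
  have hD : dD E.b₂ E.b₄ E.b₆ x ≠ 0 := by
    intro hD
    rw [hD] at h5
    have h3 : dPsi3 E.b₂ E.b₄ E.b₆ E.b₈ x = 0 := by
      have : (dPsi3 E.b₂ E.b₄ E.b₆ E.b₈ x)^3 = 0 := by rw [← h5]; ring
      exact pow_eq_zero_iff (by norm_num) |>.mp this
    rw [h3, hD] at e0
    have hN : dN E.b₄ E.b₆ E.b₈ x = 0 := by linear_combination e0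
    have hy : y - E.negY x y = 0 := by
      have := dD_eq E h.1
      rw [hD] at this
      exact pow_eq_zero_iff (by norm_num) |>.mp this.symm
    have hn := dN_eq E h.1
    rw [hN, hy] at hn
    have hn' : 3 * x ^ 2 + 2 * E.a₂ * x + E.a₄ - E.a₁ * y = 0 := by
      have : (3 * x ^ 2 + 2 * E.a₂ * x + E.a₄ - E.a₁ * y)^2 = 0 := by linear_combination -hn
      exact pow_eq_zero_iff (by norm_num) |>.mp this
    rcases (Affine.nonsingular_iff x y).mp h with ⟨-, h' | h'⟩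
    · exact h' (by linear_combination -hn')
    · exact h' (by simp only [Affine.negY] at hy; linear_combination hy)
  have h3 : dPsi3 E.b₂ E.b₄ E.b₆ E.b₈ x ≠ 0 := by
    intro h3
    rw [h3] at h5 e0
    have hp : dPre4 E.b₂ E.b₄ E.b₆ E.b₈ x = 0 := by
      have : dPre4 E.b₂ E.b₄ E.b₆ E.b₈ x * dD E.b₂ E.b₄ E.b₆ x ^ 2 = 0 := by rw [h5]; ring
      exact (mul_eq_zero.mp this).resolve_right (pow_ne_zero 2 hD)
    rw [hp] at e2
    have hN : dN E.b₄ E.b₆ E.b₈ x = x * dD E.b₂ E.b₄ E.b₆ x := by linear_combination e0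
    have : dD2 E.b₂ E.b₄ E.b₆ E.b₈ x = (dD E.b₂ E.b₄ E.b₆ x)^4 := by
      rw [dD2, hN]
      generalize hd : dD E.b₂ E.b₄ E.b₆ x = d
      simp only [dD] at hd
      rw [← hd]; ring
    rw [this] at e2
    exact pow_ne_zero 4 hD (by rw [e2]; ring)
  refine ⟨hD, h3, ?_⟩
  intro hp
  rw [hp] at h5
  apply h3
  have : (dPsi3 E.b₂ E.b₄ E.b₆ E.b₈ x)^3 = 0 := by rw [← h5]; ring
  exact pow_eq_zero_iff (by norm_num) |>.mp this

/-- a root of the `5`-division polynomial is the `x`-coordinate of a point of order `5` -/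
lemma order5_of_dPsi5 [CharZero K] {x y : K} (h : E.Nonsingular x y)
    (h5 : dPsi5 E.b₂ E.b₄ E.b₆ E.b₈ x = 0) :
    5 • (Point.some x y h) = 0 := by
  obtain ⟨hD, h3, hp⟩ := nonvanishing_of_dPsi5 h h5
  have h4 : (4:K) ≠ 0 := by norm_num
  have hb := E.b_relation
  have e0 := id1 E.b₂ E.b₄ E.b₆ E.b₈ x
  have e2 := id2 E.b₂ E.b₄ E.b₆ E.b₈ x hb h4
  have e3 := id3 E.b₂ E.b₄ E.b₆ E.b₈ x hb h4
  set P : E.Point := Point.some x y h with hPdef
  have hP : P ≠ 0 := Point.some_ne_zero _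
  have hxP : xc P = x := rfl
  have h2P : P + P ≠ 0 := add_self_ne_zero_of_dD_ne_zero hP (by rw [hxP]; exact hD)
  obtain ⟨-, hX1⟩ := xc_add_self hP h2P
  rw [hxP] at hX1
  set v := xc (P + P) with hv
  have hv' : v = dN E.b₄ E.b₆ E.b₈ x / dD E.b₂ E.b₄ E.b₆ x := by
    rw [eq_div_iff hD]; exact hX1
  have e1' := dD_div E.b₂ E.b₄ E.b₆ E.b₈ x hD
  have e2' := dN_div E.b₂ E.b₄ E.b₆ E.b₈ x hD
  rw [← hv'] at e1' e2'
  have hDv : dD E.b₂ E.b₄ E.b₆ v ≠ 0 := by
    intro h0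
    rw [h0, zero_mul, e2] at e1'
    exact hp (pow_eq_zero_iff (by norm_num) |>.mp e1'.symm)
  have h4P : (P + P) + (P + P) ≠ 0 := add_self_ne_zero_of_dD_ne_zero h2P hDv
  obtain ⟨-, hX2⟩ := xc_add_self h2P h4P
  rw [← hv] at hX2
  have hx4 : xc ((P + P) + (P + P)) = xc P := by
    rw [hxP]
    have hD3 : dD E.b₂ E.b₄ E.b₆ x ^ 3 ≠ 0 := pow_ne_zero 3 hD
    apply mul_right_cancel₀ hDv
    apply mul_right_cancel₀ (pow_ne_zero 4 hD)
    rw [hX2, e2']
    rw [h5, mul_zero, sub_eq_zero] at e3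
    rw [e3, ← e1']; ring
  rcases eq_or_eq_neg_of_xc_eq h4P hP hx4 with h' | h'
  · -- 4P = P, so 3P = 0, so 2P = -P
    exfalso
    have h3P : P + P = -P := by
      have e : (P + P + P) + P = 0 + P := by
        rw [zero_add]
        exact (by abel : P + P + P + P = P + P + (P + P)).trans h'
      have := add_right_cancel e
      exact eq_neg_of_add_eq_zero_left this
    have : v = x := by rw [hv, h3P, xc_neg, hxP]
    rw [this] at hX1
    rw [← hX1, sub_self] at e0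
    exact h3 (by linear_combination e0)
  · have : 5 • P = (P + P) + (P + P) + P := by
      simp only [succ_nsmul, zero_nsmul, zero_add]; abel
    rw [this, h', neg_add_cancel]

/-- over an algebraically closed field of characteristic `0`, an elliptic curve has a point of
order `5` -/
theorem exists_order5 [IsAlgClosed K] [CharZero K] (E : WeierstrassCurve.Affine K)
    [E.IsElliptic] : ∃ P : E.Point, P ≠ 0 ∧ 5 • P = 0 := by
  have h5K : ((5 : ℕ) : K) ≠ 0 := by norm_num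
  have hdeg : (E.preΨ' 5).degree ≠ 0 := by
    have := E.natDegree_preΨ' h5K
    have hne := E.preΨ'_ne_zero h5K
    rw [Polynomial.degree_eq_natDegree hne, this]
    norm_num [Nat.not_even_iff_odd.mpr (by decide : Odd 5)]
  obtain ⟨x, hx⟩ := IsAlgClosed.exists_root (E.preΨ' 5) hdeg
  rw [Polynomial.IsRoot.def, eval_preΨ'_five] at hx
  obtain ⟨y, hy⟩ := exists_equation E x
  have hns : E.Nonsingular x y := Affine.equation_iff_nonsingular.mp hy
  exact ⟨Point.some x y hns, Point.some_ne_zero _, order5_of_dPsi5 hns hx⟩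

end existence

section counting

variable [CharZero K]

lemma isRoot_of_order5 {P : E.Point} (hP : P ≠ 0) (h5 : 5 • P = 0) :
    (E.preΨ' 5).IsRoot (xc P) := by
  rw [Polynomial.IsRoot.def, eval_preΨ'_five]
  exact dPsi5_eq_zero_of_order5 hP h5

open Classical in
/-- a finite set containing all nonzero points with a given set of `x`-coordinates -/
noncomputable def pointsOver (E : WeierstrassCurve.Affine K) (R : Finset K) : Finset E.Point :=
  R.biUnion fun a =>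
    if h : ∃ Q : E.Point, Q ≠ 0 ∧ xc Q = a then {Classical.choose h, -Classical.choose h} else ∅

lemma card_pointsOver_le (E : WeierstrassCurve.Affine K) (R : Finset K) :
    (pointsOver E R).card ≤ R.card * 2 := by
  classical
  unfold pointsOver
  apply Finset.card_biUnion_le_card_mul
  intro a _
  split_ifs with h
  · exact Finset.card_le_two
  · simp

lemma mem_pointsOver {R : Finset K} {P : E.Point} (hP : P ≠ 0) (hx : xc P ∈ R) :
    P ∈ pointsOver E R := by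
  classical
  unfold pointsOver
  rw [Finset.mem_biUnion]
  refine ⟨xc P, hx, ?_⟩
  have h : ∃ Q : E.Point, Q ≠ 0 ∧ xc Q = xc P := ⟨P, hP, rfl⟩
  rw [dif_pos h]
  obtain ⟨hQ0, hQx⟩ := Classical.choose_spec h
  rcases eq_or_eq_neg_of_xc_eq hP hQ0 hQx.symm with h' | h'
  · rw [Finset.mem_insert]; exact Or.inl h'
  · rw [Finset.mem_insert, Finset.mem_singleton]; exact Or.inr h'

/-- the finite set of candidates for the `5`-torsion points -/
noncomputable def fiveCandidates (E : WeierstrassCurve.Affine K) : Finset E.Point :=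
  insert 0 (pointsOver E (E.preΨ' 5).roots.toFinset)

lemma card_fiveCandidates_le (E : WeierstrassCurve.Affine K) : (fiveCandidates E).card ≤ 25 := by
  classical
  have h5K : ((5 : ℕ) : K) ≠ 0 := by norm_num
  have hdeg : (E.preΨ' 5).natDegree = 12 := by
    rw [E.natDegree_preΨ' h5K]
    norm_num [Nat.not_even_iff_odd.mpr (by decide : Odd 5)]
  have h1 : (E.preΨ' 5).roots.toFinset.card ≤ 12 := by
    calc (E.preΨ' 5).roots.toFinset.card ≤ Multiset.card (E.preΨ' 5).roots :=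
          Multiset.toFinset_card_le _
      _ ≤ (E.preΨ' 5).natDegree := Polynomial.card_roots' _
      _ = 12 := hdeg
  calc (fiveCandidates E).card ≤ (pointsOver E (E.preΨ' 5).roots.toFinset).card + 1 :=
        Finset.card_insert_le _ _
    _ ≤ (E.preΨ' 5).roots.toFinset.card * 2 + 1 :=
        Nat.add_le_add_right (card_pointsOver_le E _) 1
    _ ≤ 25 := by omega

lemma mem_fiveCandidates {P : E.Point} (h5 : 5 • P = 0) : P ∈ fiveCandidates E := by
  classical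
  have h5K : ((5 : ℕ) : K) ≠ 0 := by norm_num
  unfold fiveCandidates
  by_cases hP : P = 0
  · rw [hP]; exact Finset.mem_insert_self _ _
  · apply Finset.mem_insert_of_mem
    apply mem_pointsOver hP
    rw [Multiset.mem_toFinset, Polynomial.mem_roots (E.preΨ'_ne_zero h5K)]
    exact isRoot_of_order5 hP h5

end counting

end Fermat.Agent.S51.Five

end
-- ===== PACK-END S51/FiveTorsion.lean

-- ===== PACK-BEGIN Lib/Cheb/H223/Cross.lean
section




/-!
# Chebotarev field crossing in the `Spec` shape (helper223, shared lib CHEB)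

`cross : Spec.CrossStatement`, i.e. `FrobStatement → CycStatement → ChebFiniteStatement`.
-/

set_option autoImplicit false
set_option linter.style.haveILetI false

namespace Fermat.Agent.Lib.Cheb.H223

open NumberField IntermediateField
open Fermat.Agent.Lib.Cheb.Spec

/-- Pulling back an arithmetic Frobenius along an equivariant embedding of number fields. -/
theorem isArithFrobAt_comap {L L' : Type} [Field L] [NumberField L] [Field L'] [NumberField L']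
    (ψ : L →+* L') (σ : L ≃ₐ[ℚ] L) (g' : L' ≃ₐ[ℚ] L') (hcomm : ∀ x, ψ (σ x) = g' (ψ x))
    (P' : Ideal (𝓞 L')) (h : IsArithFrobAt ℤ g' P') :
    IsArithFrobAt ℤ σ (P'.comap (RingOfIntegers.mapRingHom ψ)) := by
  intro x
  have hx := h (RingOfIntegers.mapRingHom ψ x)
  have e1 : RingOfIntegers.mapRingHom ψ (σ • x) = g' • (RingOfIntegers.mapRingHom ψ x) := by
    apply RingOfIntegers.ext
    exact hcomm x
  have e2 : (P'.comap (RingOfIntegers.mapRingHom ψ)).under ℤ = P'.under ℤ := by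
    ext n
    simp [Ideal.under, Ideal.mem_comap]
  rw [Ideal.mem_comap, e2]
  change RingOfIntegers.mapRingHom ψ (σ • x - x ^ Nat.card (ℤ ⧸ P'.under ℤ)) ∈ P'
  rw [map_sub, map_pow, e1]
  exact hx

/-- powers of `g` act on `ζ` by powers of `t` -/
theorem pow_apply_of_apply_eq_pow {K : Type*} [Field K] [Algebra ℚ K] (g : K ≃ₐ[ℚ] K) {ζ : K}
    {t : ℕ} (h : g ζ = ζ ^ t) (k : ℕ) : (g ^ k) ζ = ζ ^ t ^ k := by
  induction k with
  | zero => simp
  | succ k ih =>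
    rw [pow_succ', AlgEquiv.mul_apply, ih, map_pow, h, ← pow_mul, ← pow_succ']

/-- an automorphism fixing `L` pointwise and `ζ` fixes `L ⊔ ℚ⟮ζ⟯` pointwise -/
theorem apply_eq_of_mem_sup {K : Type*} [Field K] [Algebra ℚ K] (f : K ≃ₐ[ℚ] K)
    (L : IntermediateField ℚ K) (ζ : K) (hL : ∀ x ∈ L, f x = x) (hζ : f ζ = ζ) :
    ∀ x ∈ L ⊔ ℚ⟮ζ⟯, f x = x := by
  let E : IntermediateField ℚ K :=
    { carrier := {x | f x = x}
      mul_mem' := fun {a b} ha hb => by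
        simp only [Set.mem_ofPred_eq] at ha hb ⊢
        rw [map_mul, ha, hb]
      one_mem' := map_one f
      add_mem' := fun {a b} ha hb => by
        simp only [Set.mem_ofPred_eq] at ha hb ⊢
        rw [map_add, ha, hb]
      zero_mem' := map_zero f
      algebraMap_mem' := fun r => f.commutes r
      inv_mem' := fun x hx => by
        simp only [Set.mem_ofPred_eq] at hx ⊢
        rw [map_inv₀, hx] }
  have h1 : L ≤ E := fun x hx => hL x hx
  have h2 : ℚ⟮ζ⟯ ≤ E := by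
    rw [IntermediateField.adjoin_simple_le_iff]
    exact hζ
  intro x hx
  exact (sup_le h1 h2) hx

set_option backward.isDefEq.respectTransparency false in
/-- **Field crossing** in the `Spec` shape. -/
theorem cross : CrossStatement := by
  intro hF hC L _ _ _ σ S
  haveI := isGalois_Qb
  haveI : Algebra.IsAlgebraic ℚ Qb := AlgebraicClosure.isAlgebraic ℚ
  obtain ⟨BL, hBL⟩ := hF L
  -- embed `L` into `ℚ̄`
  let φ : L →ₐ[ℚ] Qb := IsAlgClosed.lift
  let L₀ : IntermediateField ℚ Qb := φ.fieldRange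
  let e : L ≃ₐ[ℚ] L₀ := AlgEquiv.ofInjectiveField φ
  haveI : FiniteDimensional ℚ L₀ := e.toLinearEquiv.finiteDimensional
  haveI : IsGalois ℚ L₀ := IsGalois.of_algEquiv e
  have heφ : ∀ x : L, ((e x : L₀) : Qb) = φ x := fun x => rfl
  -- transport `σ` and lift it to `ℚ̄`
  let σ₀ : L₀ ≃ₐ[ℚ] L₀ := (e.symm.trans σ).trans e
  obtain ⟨σ', hσ'⟩ := AlgEquiv.restrictNormalHom_surjective (F := ℚ) (K₁ := L₀) Qb σ₀
  have hσφ : ∀ x : L, σ' (φ x) = φ (σ x) := by
    intro x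
    have h1 := AlgEquiv.restrictNormal_commutes σ' L₀ (e x)
    have h2 : (AlgEquiv.restrictNormalHom L₀ σ') (e x) = σ₀ (e x) := by rw [hσ']
    have h3 : σ₀ (e x) = e (σ x) := by
      simp [σ₀]
    have h4 := congrArg (Subtype.val) (h2.trans h3)
    exact h1.symm.trans h4
  -- crossing
  obtain ⟨ℓ, ζ, g, t, hℓ, -, hζ, hgL, hgζ, hkey⟩ := exists_crossing L₀ σ' 0
  haveI : Algebra.IsIntegral ℚ Qb := Algebra.IsAlgebraic.isIntegral
  haveI : NeZero ℓ := ⟨hℓ.ne_zero⟩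
  haveI hcyc : IsCyclotomicExtension {ℓ} ℚ ℚ⟮ζ⟯ :=
    hζ.intermediateField_adjoin_isCyclotomicExtension ℚ
  haveI : FiniteDimensional ℚ ℚ⟮ζ⟯ := IsCyclotomicExtension.finiteDimensional {ℓ} ℚ _
  haveI : IsGalois ℚ ℚ⟮ζ⟯ := IsCyclotomicExtension.isGalois {ℓ} ℚ _
  let L' : IntermediateField ℚ Qb := L₀ ⊔ ℚ⟮ζ⟯
  haveI : FiniteDimensional ℚ L' := IntermediateField.finiteDimensional_sup L₀ ℚ⟮ζ⟯
  haveI : NumberField L' := ⟨⟩
  haveI : Normal ℚ L' := IntermediateField.normal_sup ℚ Qb L₀ ℚ⟮ζ⟯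
  haveI : IsGalois ℚ L' := isGalois_iff.mpr ⟨inferInstance, inferInstance⟩
  have hζL' : ζ ∈ L' := (le_sup_right : ℚ⟮ζ⟯ ≤ L') (mem_adjoin_simple_self ℚ ζ)
  let ζ' : L' := ⟨ζ, hζL'⟩
  have hζ' : IsPrimitiveRoot ζ' ℓ :=
    IsPrimitiveRoot.of_map_of_injective (f := L'.val) (by simpa [ζ'] using hζ) L'.val.injective
  let g' : L' ≃ₐ[ℚ] L' := AlgEquiv.restrictNormalHom L' g
  have hg'val : ∀ (k : ℕ) (y : L'), (((g' ^ k) y : L') : Qb) = (g ^ k) (y : Qb) := by
    intro k y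
    have h1 : g' ^ k = AlgEquiv.restrictNormalHom L' (g ^ k) := (map_pow _ g k).symm
    rw [h1]
    exact AlgEquiv.restrictNormal_commutes (g ^ k) L' y
  have hcond : ∀ k : ℕ, (g' ^ k) ζ' = ζ' → g' ^ k = 1 := by
    intro k hk
    have h1 : (g ^ k) ζ = ζ := by
      have := congrArg Subtype.val hk
      rw [hg'val k ζ'] at this
      exact this
    have h2 : ζ ^ t ^ k = ζ := by rw [← pow_apply_of_apply_eq_pow g hgζ k]; exact h1
    have h3 := apply_eq_of_mem_sup (g ^ k) L₀ ζ (hkey k h2) h1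
    apply AlgEquiv.ext
    intro y
    apply Subtype.ext
    rw [hg'val k y]
    exact h3 y y.2
  obtain ⟨p, P', hp, hpS, hP', hpP', -, hfrob⟩ := hC L' ℓ ζ' hℓ.pos hζ' g' hcond (S ∪ BL)
  -- pull back to `L`
  have hφL' : ∀ x : L, φ x ∈ L' := fun x => (le_sup_left : L₀ ≤ L') (e x).2
  let ψ : L →+* L' := φ.toRingHom.codRestrict L'.toSubfield hφL'
  have hψval : ∀ x : L, ((ψ x : L') : Qb) = φ x := fun x => rfl
  have hcomm : ∀ x : L, ψ (σ x) = g' (ψ x) := by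
    intro x
    apply Subtype.ext
    have h1 := hg'val 1 (ψ x)
    rw [pow_one, pow_one] at h1
    rw [h1, hψval, hψval, hgL (φ x) (e x).2, hσφ]
  have hpS' : p ∉ S := fun h => hpS (Finset.mem_union_left _ h)
  have hpB : p ∉ BL := fun h => hpS (Finset.mem_union_right _ h)
  let P : Ideal (𝓞 L) := P'.comap (RingOfIntegers.mapRingHom ψ)
  have hP : P.IsPrime := Ideal.comap_isPrime _ _
  have hpP : (p : 𝓞 L) ∈ P := by
    rw [Ideal.mem_comap, map_natCast]
    exact hpP'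
  exact ⟨p, P, hp, hpS', hP, hpP, (hBL p hp hpB P hP hpP).1,
    isArithFrobAt_comap ψ σ g' hcomm P' hfrob⟩

end Fermat.Agent.Lib.Cheb.H223

end
-- ===== PACK-END Lib/Cheb/H223/Cross.lean

-- ===== PACK-BEGIN S14/H74/Tent.lean
section


/-!
# S14/N1 (helper74): the tent function and its partition of unity (piece P1)
-/

namespace Fermat.Agent.S14.H74

theorem tent_nonneg (c : ℝ) : 0 ≤ tent c := le_max_left _ _

theorem tent_le_one (c : ℝ) : tent c ≤ 1 := by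
  unfold tent
  exact max_le zero_le_one (by linarith [abs_nonneg c])

theorem tent_eq_zero_of_one_le {c : ℝ} (h : 1 ≤ |c|) : tent c = 0 := by
  unfold tent
  exact max_eq_left (by linarith)

theorem tent_of_abs_le_one {c : ℝ} (h : |c| ≤ 1) : tent c = 1 - |c| := by
  unfold tent
  exact max_eq_right (by linarith)

theorem abs_lt_one_of_tent_ne_zero {c : ℝ} (h : tent c ≠ 0) : |c| < 1 := by
  by_contra h'
  exact h (tent_eq_zero_of_one_le (not_lt.mp h'))

theorem tent_lipschitz (a b : ℝ) : |tent a - tent b| ≤ |a - b| := by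
  unfold tent
  rw [max_comm 0 (1 - |a|), max_comm 0 (1 - |b|)]
  have h1 := abs_max_sub_max_le_abs (1 - |a|) (1 - |b|) 0
  have h2 : |(1 - |a|) - (1 - |b|)| ≤ |a - b| := by
    have : (1 - |a|) - (1 - |b|) = |b| - |a| := by ring
    rw [this, abs_sub_comm a b]
    exact abs_abs_sub_abs_le_abs_sub b a
  exact h1.trans h2

/-- `|∏ a - ∏ b| ≤ ∑ |a - b|` for families with values in `[0, 1]`. -/
theorem abs_prod_sub_prod_le_sum {ι : Type*} (s : Finset ι) (a b : ι → ℝ)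
    (ha0 : ∀ i, 0 ≤ a i) (ha1 : ∀ i, a i ≤ 1) (hb0 : ∀ i, 0 ≤ b i) (hb1 : ∀ i, b i ≤ 1) :
    |∏ i ∈ s, a i - ∏ i ∈ s, b i| ≤ ∑ i ∈ s, |a i - b i| := by
  classical
  induction s using Finset.induction_on with
  | empty => simp
  | insert i s hi ih =>
    rw [Finset.prod_insert hi, Finset.prod_insert hi, Finset.sum_insert hi]
    have hA0 : 0 ≤ ∏ j ∈ s, a j := Finset.prod_nonneg fun j _ ↦ ha0 j
    have hA1 : ∏ j ∈ s, a j ≤ 1 := Finset.prod_le_one (fun j _ ↦ ha0 j) fun j _ ↦ ha1 j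
    have key : a i * ∏ j ∈ s, a j - b i * ∏ j ∈ s, b j
        = (a i - b i) * ∏ j ∈ s, a j + b i * (∏ j ∈ s, a j - ∏ j ∈ s, b j) := by ring
    rw [key]
    refine (abs_add_le _ _).trans (add_le_add ?_ ?_)
    · rw [abs_mul, abs_of_nonneg hA0]
      exact mul_le_of_le_one_right (abs_nonneg _) hA1
    · rw [abs_mul, abs_of_nonneg (hb0 i)]
      exact (mul_le_of_le_one_left (abs_nonneg _) (hb1 i)).trans ih

/-- The integer translates of the tent function sum to `1`. -/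
theorem tent_hasSum (c : ℝ) : HasSum (fun k : ℤ ↦ tent (c + k)) 1 := by
  have hfl := Int.floor_le c
  have hlt := Int.lt_floor_add_one c
  set m : ℤ := ⌊c⌋ with hm
  have hne : (-m : ℤ) ≠ -m - 1 := by omega
  have hsupp : ∀ k : ℤ, k ∉ ({-m, -m - 1} : Finset ℤ) → tent (c + k) = 0 := by
    intro k hk
    simp only [Finset.mem_insert, Finset.mem_singleton, not_or] at hk
    apply tent_eq_zero_of_one_le
    rcases lt_or_gt_of_ne hk.1 with h | h
    · have h2 : k ≤ -m - 2 := by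
        have : k ≠ -m - 1 := hk.2
        omega
      have h3 : (k : ℝ) ≤ -m - 2 := by exact_mod_cast h2
      rw [abs_of_nonpos (by linarith)]
      linarith
    · have h2 : -m + 1 ≤ k := by omega
      have h3 : (-m : ℝ) + 1 ≤ k := by exact_mod_cast h2
      rw [abs_of_nonneg (by linarith)]
      linarith
  have h : HasSum (fun k : ℤ ↦ tent (c + k)) (∑ k ∈ ({-m, -m - 1} : Finset ℤ), tent (c + k)) :=
    hasSum_sum_of_ne_finset_zero hsupp
  convert h using 1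
  rw [Finset.sum_pair hne]
  have e1 : tent (c + ((-m : ℤ) : ℝ)) = 1 - (c - m) := by
    rw [tent_of_abs_le_one]
    · rw [abs_of_nonneg] <;> push_cast <;> linarith
    · rw [abs_of_nonneg] <;> push_cast <;> linarith
  have e2 : tent (c + ((-m - 1 : ℤ) : ℝ)) = c - m := by
    rw [tent_of_abs_le_one]
    · rw [abs_of_nonpos] <;> push_cast <;> linarith
    · rw [abs_of_nonpos] <;> push_cast <;> linarith
  rw [e1, e2]
  ring

/-- Product version of the partition of unity. -/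
theorem tent_prod_hasSum {ι : Type*} [Fintype ι] (c : ι → ℝ) :
    HasSum (fun k : ι → ℤ ↦ ∏ j, tent (c j + k j)) 1 := by
  classical
  let S : ι → Finset ℤ := fun j ↦ {-⌊c j⌋, -⌊c j⌋ - 1}
  have hS : ∀ j (k : ℤ), k ∉ S j → tent (c j + k) = 0 := by
    intro j k hk
    by_contra h
    have h1 := abs_lt_one_of_tent_ne_zero h
    have hfl := Int.floor_le (c j)
    have hlt := Int.lt_floor_add_one (c j)
    rw [abs_lt] at h1
    apply hk
    simp only [S, Finset.mem_insert, Finset.mem_singleton]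
    have h2 : (-⌊c j⌋ - 2 : ℝ) < k := by linarith
    have h3 : (k : ℝ) < -⌊c j⌋ + 1 := by linarith
    have h2' : -⌊c j⌋ - 2 < k := by exact_mod_cast h2
    have h3' : k < -⌊c j⌋ + 1 := by exact_mod_cast h3
    omega
  have hsum : ∀ j, ∑ k ∈ S j, tent (c j + k) = 1 := by
    intro j
    have h : HasSum (fun k : ℤ ↦ tent (c j + k)) (∑ k ∈ S j, tent (c j + k)) :=
      hasSum_sum_of_ne_finset_zero (hS j)
    exact h.unique (tent_hasSum (c j))
  have hsupp : ∀ k : ι → ℤ, k ∉ Fintype.piFinset S → ∏ j, tent (c j + k j) = 0 := by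
    intro k hk
    rw [Fintype.mem_piFinset] at hk
    push Not at hk
    obtain ⟨j, hj⟩ := hk
    exact Finset.prod_eq_zero (Finset.mem_univ j) (hS j _ hj)
  have h : HasSum (fun k : ι → ℤ ↦ ∏ j, tent (c j + k j))
      (∑ k ∈ Fintype.piFinset S, ∏ j, tent (c j + k j)) :=
    hasSum_sum_of_ne_finset_zero hsupp
  convert h using 1
  have := Finset.prod_univ_sum S (fun j (k : ℤ) ↦ tent (c j + k))
  rw [← this]
  simp [hsum]

end Fermat.Agent.S14.H74

end
-- ===== PACK-END S14/H74/Tent.lean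

-- ===== PACK-BEGIN Lib/VC/Basic.lean
section





/-!
# Shared lib `VC`: admissible changes of variables act on POINTS

Mathlib defines the action of `WeierstrassCurve.VariableChange` on Weierstrass curves only.
Here we show that, over a field `F`, the change of variables
`(x, y) ↦ (u² x + r, u³ y + u² s x + t)` induces an isomorphism of groups
`(C • W).Point ≃+ W.Point`  (`vcPoint`), compatible with field homomorphisms (`Point.map`).

(helper240)
-/

set_option autoImplicit false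
set_option linter.unusedSectionVars false

namespace Fermat.Agent.Lib.VC

open WeierstrassCurve WeierstrassCurve.Affine

variable {F : Type*} [Field F]

/-- The `x`-coordinate of the image of `(x, y)` under the change of variables `C`. -/
def vcX (C : VariableChange F) (x : F) : F := (C.u : F) ^ 2 * x + C.r

/-- The `y`-coordinate of the image of `(x, y)` under the change of variables `C`. -/
def vcY (C : VariableChange F) (x y : F) : F := (C.u : F) ^ 3 * y + (C.u : F) ^ 2 * C.s * x + C.t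

theorem vcX_injective (C : VariableChange F) : Function.Injective (vcX C) := by
  intro x x' h
  have hu : (C.u : F) ^ 2 ≠ 0 := pow_ne_zero _ C.u.ne_zero
  unfold vcX at h
  exact mul_left_cancel₀ hu (add_right_cancel h)

theorem vcY_injective (C : VariableChange F) (x : F) : Function.Injective (vcY C x) := by
  intro y y' h
  have hu : (C.u : F) ^ 3 ≠ 0 := pow_ne_zero _ C.u.ne_zero
  unfold vcY at h
  exact mul_left_cancel₀ hu (add_right_cancel (add_right_cancel h))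

section formulas

variable (W : WeierstrassCurve F) (C : VariableChange F)

theorem a₁_smul : (C • W).a₁ = (C.u : F)⁻¹ * (W.a₁ + 2 * C.s) := by
  rw [variableChange_a₁, Units.val_inv_eq_inv_val]

theorem a₂_smul : (C • W).a₂ = (C.u : F)⁻¹ ^ 2 * (W.a₂ - C.s * W.a₁ + 3 * C.r - C.s ^ 2) := by
  rw [variableChange_a₂, Units.val_inv_eq_inv_val]

theorem a₃_smul : (C • W).a₃ = (C.u : F)⁻¹ ^ 3 * (W.a₃ + C.r * W.a₁ + 2 * C.t) := by
  rw [variableChange_a₃, Units.val_inv_eq_inv_val]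

theorem a₄_smul : (C • W).a₄ = (C.u : F)⁻¹ ^ 4 * (W.a₄ - C.s * W.a₃ + 2 * C.r * W.a₂
    - (C.t + C.r * C.s) * W.a₁ + 3 * C.r ^ 2 - 2 * C.s * C.t) := by
  rw [variableChange_a₄, Units.val_inv_eq_inv_val]

theorem a₆_smul : (C • W).a₆ = (C.u : F)⁻¹ ^ 6 * (W.a₆ + C.r * W.a₄ + C.r ^ 2 * W.a₂ + C.r ^ 3
    - C.t * W.a₃ - C.t ^ 2 - C.r * C.t * W.a₁) := by
  rw [variableChange_a₆, Units.val_inv_eq_inv_val]

/-- The Weierstrass polynomial transforms by the factor `u⁶`. -/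
theorem polynomial_eval_vc (x y : F) :
    (vcY C x y) ^ 2 + W.a₁ * (vcX C x) * (vcY C x y) + W.a₃ * (vcY C x y)
      - ((vcX C x) ^ 3 + W.a₂ * (vcX C x) ^ 2 + W.a₄ * (vcX C x) + W.a₆)
    = (C.u : F) ^ 6 * (y ^ 2 + (C • W).a₁ * x * y + (C • W).a₃ * y
      - (x ^ 3 + (C • W).a₂ * x ^ 2 + (C • W).a₄ * x + (C • W).a₆)) := by
  have hu : (C.u : F) ≠ 0 := C.u.ne_zero
  rw [a₁_smul, a₂_smul, a₃_smul, a₄_smul, a₆_smul]
  unfold vcX vcY
  field_simp
  ring

theorem equation_smul_iff (x y : F) :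
    (C • W).toAffine.Equation x y ↔ W.toAffine.Equation (vcX C x) (vcY C x y) := by
  have hu : (C.u : F) ^ 6 ≠ 0 := pow_ne_zero _ C.u.ne_zero
  rw [equation_iff, equation_iff, ← sub_eq_zero, ← sub_eq_zero (a := (vcY C x y) ^ 2 + _ + _)]
  show _ ↔ (vcY C x y) ^ 2 + W.a₁ * (vcX C x) * (vcY C x y) + W.a₃ * (vcY C x y)
      - ((vcX C x) ^ 3 + W.a₂ * (vcX C x) ^ 2 + W.a₄ * (vcX C x) + W.a₆) = 0
  rw [polynomial_eval_vc, mul_eq_zero]
  constructor
  · intro h; exact Or.inr h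
  · rintro (h | h)
    · exact absurd h hu
    · exact h

/-- Transformation of the partial derivative in `y`. -/
theorem polynomialY_eval_vc (x y : F) :
    2 * vcY C x y + W.a₁ * vcX C x + W.a₃
      = (C.u : F) ^ 3 * (2 * y + (C • W).a₁ * x + (C • W).a₃) := by
  have hu : (C.u : F) ≠ 0 := C.u.ne_zero
  rw [a₁_smul, a₃_smul]
  unfold vcX vcY
  field_simp
  ring

/-- Transformation of the partial derivative in `x`. -/
theorem polynomialX_eval_vc (x y : F) :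
    W.a₁ * vcY C x y - (3 * vcX C x ^ 2 + 2 * W.a₂ * vcX C x + W.a₄)
      = (C.u : F) ^ 4 * ((C • W).a₁ * y - (3 * x ^ 2 + 2 * (C • W).a₂ * x + (C • W).a₄))
        - C.s * ((C.u : F) ^ 3 * (2 * y + (C • W).a₁ * x + (C • W).a₃)) := by
  have hu : (C.u : F) ≠ 0 := C.u.ne_zero
  rw [a₁_smul, a₂_smul, a₃_smul, a₄_smul]
  unfold vcX vcY
  field_simp
  ring

theorem nonsingular_smul_iff (x y : F) :
    (C • W).toAffine.Nonsingular x y ↔ W.toAffine.Nonsingular (vcX C x) (vcY C x y) := by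
  have hu3 : (C.u : F) ^ 3 ≠ 0 := pow_ne_zero _ C.u.ne_zero
  have hu4 : (C.u : F) ^ 4 ≠ 0 := pow_ne_zero _ C.u.ne_zero
  rw [nonsingular_iff', nonsingular_iff', equation_smul_iff, polynomialX_eval_vc,
    polynomialY_eval_vc]
  refine and_congr_right fun _ => ?_
  by_cases hY : 2 * y + (C • W).a₁ * x + (C • W).a₃ = 0
  · rw [hY]
    simp only [mul_zero, sub_zero, ne_eq, not_true_eq_false, or_false, mul_eq_zero, hu4, false_or]
  · have : (C.u : F) ^ 3 * (2 * y + (C • W).a₁ * x + (C • W).a₃) ≠ 0 := mul_ne_zero hu3 hY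
    simp only [ne_eq, hY, not_false_eq_true, or_true, this]

theorem negY_vc (x y : F) :
    W.toAffine.negY (vcX C x) (vcY C x y) = vcY C x ((C • W).toAffine.negY x y) := by
  have hu : (C.u : F) ≠ 0 := C.u.ne_zero
  simp only [negY]
  rw [a₁_smul, a₃_smul]
  unfold vcX vcY
  field_simp
  ring

theorem addX_vc (x₁ x₂ ℓ : F) :
    W.toAffine.addX (vcX C x₁) (vcX C x₂) ((C.u : F) * ℓ + C.s)
      = vcX C ((C • W).toAffine.addX x₁ x₂ ℓ) := by
  have hu : (C.u : F) ≠ 0 := C.u.ne_zero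
  simp only [addX]
  rw [a₁_smul, a₂_smul]
  unfold vcX
  field_simp
  ring

theorem negAddY_vc (x₁ x₂ y₁ ℓ : F) :
    W.toAffine.negAddY (vcX C x₁) (vcX C x₂) (vcY C x₁ y₁) ((C.u : F) * ℓ + C.s)
      = vcY C ((C • W).toAffine.addX x₁ x₂ ℓ) ((C • W).toAffine.negAddY x₁ x₂ y₁ ℓ) := by
  rw [negAddY, addX_vc, negAddY]
  unfold vcX vcY
  ring

theorem addY_vc (x₁ x₂ y₁ ℓ : F) :
    W.toAffine.addY (vcX C x₁) (vcX C x₂) (vcY C x₁ y₁) ((C.u : F) * ℓ + C.s)
      = vcY C ((C • W).toAffine.addX x₁ x₂ ℓ) ((C • W).toAffine.addY x₁ x₂ y₁ ℓ) := by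
  rw [addY, negAddY_vc, addX_vc, negY_vc, addY]

variable [DecidableEq F]

theorem slope_vc {x₁ x₂ y₁ y₂ : F} (h₁ : (C • W).toAffine.Equation x₁ y₁)
    (h₂ : (C • W).toAffine.Equation x₂ y₂)
    (hxy : ¬(x₁ = x₂ ∧ y₁ = (C • W).toAffine.negY x₂ y₂)) :
    W.toAffine.slope (vcX C x₁) (vcX C x₂) (vcY C x₁ y₁) (vcY C x₂ y₂)
      = (C.u : F) * (C • W).toAffine.slope x₁ x₂ y₁ y₂ + C.s := by
  have hu : (C.u : F) ≠ 0 := C.u.ne_zero
  by_cases hx : x₁ = x₂
  · have hy : y₁ ≠ (C • W).toAffine.negY x₂ y₂ := fun h => hxy ⟨hx, h⟩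
    have hyy : y₁ = y₂ := Y_eq_of_Y_ne h₁ h₂ hx hy
    subst hx hyy
    have hy' : vcY C x₁ y₁ ≠ W.toAffine.negY (vcX C x₁) (vcY C x₁ y₁) := by
      rw [negY_vc]
      exact fun h => hy (vcY_injective C x₁ h)
    rw [slope_of_Y_ne rfl hy', slope_of_Y_ne rfl hy]
    have hd : y₁ - (C • W).toAffine.negY x₁ y₁ ≠ 0 := sub_ne_zero.mpr hy
    have hd' : vcY C x₁ y₁ - W.toAffine.negY (vcX C x₁) (vcY C x₁ y₁) ≠ 0 := sub_ne_zero.mpr hy'
    have e1 : vcY C x₁ y₁ - W.toAffine.negY (vcX C x₁) (vcY C x₁ y₁)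
        = (C.u : F) ^ 3 * (y₁ - (C • W).toAffine.negY x₁ y₁) := by
      have := polynomialY_eval_vc W C x₁ y₁
      simp only [negY]
      linear_combination this
    have e2 : 3 * vcX C x₁ ^ 2 + 2 * W.a₂ * vcX C x₁ + W.a₄ - W.a₁ * vcY C x₁ y₁
        = (C.u : F) ^ 4 * (3 * x₁ ^ 2 + 2 * (C • W).a₂ * x₁ + (C • W).a₄ - (C • W).a₁ * y₁)
          + C.s * ((C.u : F) ^ 3 * (y₁ - (C • W).toAffine.negY x₁ y₁)) := by
      have := polynomialX_eval_vc W C x₁ y₁
      simp only [negY]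
      linear_combination -this
    rw [e2, e1]
    field_simp
  · have hx' : vcX C x₁ ≠ vcX C x₂ := fun h => hx (vcX_injective C h)
    rw [slope_of_X_ne hx', slope_of_X_ne hx]
    have hd : x₁ - x₂ ≠ 0 := sub_ne_zero.mpr hx
    have hd' : vcX C x₁ - vcX C x₂ ≠ 0 := sub_ne_zero.mpr hx'
    have e1 : vcX C x₁ - vcX C x₂ = (C.u : F) ^ 2 * (x₁ - x₂) := by unfold vcX; ring
    have e2 : vcY C x₁ y₁ - vcY C x₂ y₂
        = (C.u : F) ^ 3 * (y₁ - y₂) + (C.u : F) ^ 2 * C.s * (x₁ - x₂) := by unfold vcY; ring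
    rw [e2, e1]
    field_simp

/-- The map on points induced by the change of variables `C`. -/
def toFun : (C • W).toAffine.Point → W.toAffine.Point
  | .zero => .zero
  | .some x y h => .some (vcX C x) (vcY C x y) ((nonsingular_smul_iff W C x y).mp h)

@[simp] theorem toFun_zero : toFun W C (0 : (C • W).toAffine.Point) = 0 := rfl

@[simp] theorem toFun_some {x y : F} (h : (C • W).toAffine.Nonsingular x y) :
    toFun W C (.some x y h) = .some (vcX C x) (vcY C x y) ((nonsingular_smul_iff W C x y).mp h) :=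
  rfl

theorem toFun_add (P Q : (C • W).toAffine.Point) :
    toFun W C (P + Q) = toFun W C P + toFun W C Q := by
  rcases P with _ | ⟨x₁, y₁, h₁⟩
  · change toFun W C (0 + Q) = 0 + toFun W C Q
    rw [zero_add, zero_add]
  rcases Q with _ | ⟨x₂, y₂, h₂⟩
  · change toFun W C (_ + 0) = _ + 0
    rw [add_zero, add_zero]
  by_cases hxy : x₁ = x₂ ∧ y₁ = (C • W).toAffine.negY x₂ y₂
  · rw [Point.add_of_Y_eq hxy.1 hxy.2, toFun_zero, toFun_some, toFun_some,
      Point.add_of_Y_eq (congrArg _ hxy.1) (by rw [negY_vc, hxy.2, hxy.1])]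
  · have hxy' : ¬(vcX C x₁ = vcX C x₂ ∧
        vcY C x₁ y₁ = W.toAffine.negY (vcX C x₂) (vcY C x₂ y₂)) := by
      rintro ⟨hx, hy⟩
      have hx0 := vcX_injective C hx
      subst hx0
      rw [negY_vc] at hy
      exact hxy ⟨rfl, vcY_injective C x₁ hy⟩
    rw [Point.add_some hxy, toFun_some, toFun_some, toFun_some, Point.add_some hxy']
    simp only [Point.some.injEq]
    rw [slope_vc W C h₁.1 h₂.1 hxy]
    exact ⟨(addX_vc W C _ _ _).symm, (addY_vc W C _ _ _ _).symm⟩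

theorem toFun_injective : Function.Injective (toFun W C) := by
  rintro (_ | ⟨x₁, y₁, h₁⟩) (_ | ⟨x₂, y₂, h₂⟩) h
  · rfl
  · simp [toFun] at h
  · simp [toFun] at h
  · simp only [toFun, Point.some.injEq] at h
    obtain ⟨hx, hy⟩ := h
    have hx0 := vcX_injective C hx
    subst hx0
    have hy0 := vcY_injective C x₁ hy
    subst hy0
    rfl

theorem toFun_surjective : Function.Surjective (toFun W C) := by
  have hu : (C.u : F) ≠ 0 := C.u.ne_zero
  rintro (_ | ⟨X, Y, h⟩)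
  · exact ⟨0, rfl⟩
  · set x : F := (X - C.r) / (C.u : F) ^ 2 with hx
    set y : F := (Y - (C.u : F) ^ 2 * C.s * x - C.t) / (C.u : F) ^ 3 with hy
    have eX : vcX C x = X := by
      rw [hx]; unfold vcX; field_simp; ring
    have eY : vcY C x y = Y := by
      rw [hy]; unfold vcY; field_simp; ring
    have h' : (C • W).toAffine.Nonsingular x y := by
      rw [nonsingular_smul_iff, eX, eY]; exact h
    refine ⟨.some x y h', ?_⟩
    simp only [toFun, Point.some.injEq]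
    exact ⟨eX, eY⟩

/-- **The change of variables on points**: `(C • W).Point ≃+ W.Point`,
`(x, y) ↦ (u² x + r, u³ y + u² s x + t)`. -/
noncomputable def vcPoint : (C • W).toAffine.Point ≃+ W.toAffine.Point :=
  AddEquiv.ofBijective
    ({ toFun := toFun W C
       map_zero' := rfl
       map_add' := toFun_add W C } : (C • W).toAffine.Point →+ W.toAffine.Point)
    ⟨toFun_injective W C, toFun_surjective W C⟩

@[simp] theorem vcPoint_zero : vcPoint W C 0 = 0 := rfl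

@[simp] theorem vcPoint_some {x y : F} (h : (C • W).toAffine.Nonsingular x y) :
    vcPoint W C (.some x y h)
      = .some (vcX C x) (vcY C x y) ((nonsingular_smul_iff W C x y).mp h) := rfl

end formulas

end Fermat.Agent.Lib.VC

end
-- ===== PACK-END Lib/VC/Basic.lean

-- ===== PACK-BEGIN S13/Comp2Core.lean
section



/-!
# Core valuation lemmas for the component homomorphism at a node, any residue characteristic

Abstract setting: a field `K` with a valuation `v`, a cubic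
`(y - γ₁ x) (y - γ₂ x) = x (x ^ 2 + a)` with `v a < 1`, `a ≠ 0`, `v (γ₁ - γ₂) = 1`
(no hypothesis on `v 2`).  Three collinear points `(xᵢ, yᵢ)` on the line `y = l x + n`
satisfy Vieta's relations.

This is the analogue, valid in residue characteristic `2`, of the odd residue characteristic
development `Fermat.Agent.S05.Comp`.
-/

set_option autoImplicit false

namespace Fermat.Agent.S13.Comp2

variable {K : Type*} [Field K] {Γ₀ : Type*} [LinearOrderedCommGroupWithZero Γ₀]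
  {v : Valuation K Γ₀}

/-- The data of three collinear points on the cubic `(y - γ₁ x) (y - γ₂ x) = x (x ^ 2 + a)`. -/
structure Coll2 (a γ₁ γ₂ : K) (x₁ y₁ x₂ y₂ x₃ y₃ l n : K) : Prop where
  L1 : y₁ = l * x₁ + n
  L2 : y₂ = l * x₂ + n
  L3 : y₃ = l * x₃ + n
  E1 : (y₁ - γ₁ * x₁) * (y₁ - γ₂ * x₁) = x₁ * (x₁ ^ 2 + a)
  E2 : (y₂ - γ₁ * x₂) * (y₂ - γ₂ * x₂) = x₂ * (x₂ ^ 2 + a)
  E3 : (y₃ - γ₁ * x₃) * (y₃ - γ₂ * x₃) = x₃ * (x₃ ^ 2 + a)
  V1 : x₁ + x₂ + x₃ = (l - γ₁) * (l - γ₂)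
  V2 : x₁ * x₂ + x₁ * x₃ + x₂ * x₃ = a - n * ((l - γ₁) + (l - γ₂))
  V3 : x₁ * x₂ * x₃ = n ^ 2

namespace Coll2

variable {a γ₁ γ₂ x₁ y₁ x₂ y₂ x₃ y₃ l n : K}

lemma swap12 (h : Coll2 a γ₁ γ₂ x₁ y₁ x₂ y₂ x₃ y₃ l n) :
    Coll2 a γ₁ γ₂ x₂ y₂ x₁ y₁ x₃ y₃ l n where
  L1 := h.L2
  L2 := h.L1
  L3 := h.L3
  E1 := h.E2
  E2 := h.E1
  E3 := h.E3
  V1 := by rw [← h.V1]; ring
  V2 := by rw [← h.V2]; ring
  V3 := by rw [← h.V3]; ring

lemma swap23 (h : Coll2 a γ₁ γ₂ x₁ y₁ x₂ y₂ x₃ y₃ l n) :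
    Coll2 a γ₁ γ₂ x₁ y₁ x₃ y₃ x₂ y₂ l n where
  L1 := h.L1
  L2 := h.L3
  L3 := h.L2
  E1 := h.E1
  E2 := h.E3
  E3 := h.E2
  V1 := by rw [← h.V1]; ring
  V2 := by rw [← h.V2]; ring
  V3 := by rw [← h.V3]; ring

lemma swap13 (h : Coll2 a γ₁ γ₂ x₁ y₁ x₂ y₂ x₃ y₃ l n) :
    Coll2 a γ₁ γ₂ x₃ y₃ x₂ y₂ x₁ y₁ l n where
  L1 := h.L3
  L2 := h.L2
  L3 := h.L1
  E1 := h.E3
  E2 := h.E2
  E3 := h.E1
  V1 := by rw [← h.V1]; ring
  V2 := by rw [← h.V2]; ring
  V3 := by rw [← h.V3]; ring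

lemma rot (h : Coll2 a γ₁ γ₂ x₁ y₁ x₂ y₂ x₃ y₃ l n) :
    Coll2 a γ₁ γ₂ x₂ y₂ x₃ y₃ x₁ y₁ l n :=
  h.swap12.swap23

lemma rot' (h : Coll2 a γ₁ γ₂ x₁ y₁ x₂ y₂ x₃ y₃ l n) :
    Coll2 a γ₁ γ₂ x₃ y₃ x₁ y₁ x₂ y₂ l n :=
  h.swap23.swap12

/-- Exchanging the two branches. -/
lemma flip (h : Coll2 a γ₁ γ₂ x₁ y₁ x₂ y₂ x₃ y₃ l n) :
    Coll2 a γ₂ γ₁ x₁ y₁ x₂ y₂ x₃ y₃ l n where
  L1 := h.L1
  L2 := h.L2
  L3 := h.L3
  E1 := by rw [← h.E1]; ring
  E2 := by rw [← h.E2]; ring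
  E3 := by rw [← h.E3]; ring
  V1 := by rw [h.V1]; ring
  V2 := by rw [h.V2]; ring
  V3 := h.V3

end Coll2

variable {a γ₁ γ₂ x₁ y₁ x₂ y₂ x₃ y₃ l n : K}

lemma val_add3_le {p q r : K} {g : Γ₀} (hp : v p ≤ g) (hq : v q ≤ g) (hr : v r ≤ g) :
    v (p + q + r) ≤ g :=
  Valuation.map_add_le _ (Valuation.map_add_le _ hp hq) hr

lemma val_add3_lt {p q r : K} {g : Γ₀} (hp : v p < g) (hq : v q < g) (hr : v r < g) :
    v (p + q + r) < g :=
  Valuation.map_add_lt _ (Valuation.map_add_lt _ hp hq) hr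

lemma val_two_le_one : v (2 : K) ≤ 1 := by
  have e : (2 : K) = 1 + 1 := by norm_num
  rw [e]
  exact Valuation.map_add_le _ (by rw [map_one]) (by rw [map_one])

lemma val_four_le_one : v (4 : K) ≤ 1 := by
  have e : (4 : K) = 2 * 2 := by norm_num
  rw [e, map_mul]
  exact mul_le_one' val_two_le_one val_two_le_one

lemma val_swap_delta (hδ : v (γ₁ - γ₂) = 1) : v (γ₂ - γ₁) = 1 := by
  rw [← Valuation.map_neg, neg_sub]; exact hδ

lemma Coll2.vs_vn (h : Coll2 a γ₁ γ₂ x₁ y₁ x₂ y₂ x₃ y₃ l n) :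
    v n * v ((l - γ₁) + (l - γ₂)) = v (a - (x₁ * x₂ + x₁ * x₃ + x₂ * x₃)) := by
  rw [h.V2]
  have e : a - (a - n * ((l - γ₁) + (l - γ₂))) = n * ((l - γ₁) + (l - γ₂)) := by ring
  rw [e, map_mul]

lemma Coll2.vn_sq (h : Coll2 a γ₁ γ₂ x₁ y₁ x₂ y₂ x₃ y₃ l n) :
    v n ^ 2 = v x₁ * v x₂ * v x₃ := by
  rw [← map_pow, ← h.V3, map_mul, map_mul]

lemma Coll2.s_sq (h : Coll2 a γ₁ γ₂ x₁ y₁ x₂ y₂ x₃ y₃ l n) :
    ((l - γ₁) + (l - γ₂)) ^ 2 = (γ₁ - γ₂) ^ 2 + 4 * (x₁ + x₂ + x₃) := by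
  rw [h.V1]; ring

/-- If all three points are at the node then exactly one of `l - γ₁`, `l - γ₂` is small. -/
lemma Coll2.kappa_dichotomy (h : Coll2 a γ₁ γ₂ x₁ y₁ x₂ y₂ x₃ y₃ l n)
    (hδ : v (γ₁ - γ₂) = 1) (h1 : v x₁ < 1) (h2 : v x₂ < 1) (h3 : v x₃ < 1) :
    (v (l - γ₁) < 1 ∧ v (l - γ₂) = 1) ∨ (v (l - γ₁) = 1 ∧ v (l - γ₂) < 1) := by
  have hprod : v ((l - γ₁) * (l - γ₂)) < 1 := by
    rw [← h.V1]; exact val_add3_lt h1 h2 h3
  rcases lt_or_ge (v (l - γ₁)) 1 with hk | hk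
  · left
    refine ⟨hk, ?_⟩
    have e : l - γ₂ = (l - γ₁) + (γ₁ - γ₂) := by ring
    rw [e, Valuation.map_add_eq_of_lt_right _ (by rw [hδ]; exact hk), hδ]
  · right
    have hk' : v (l - γ₂) < 1 := by
      by_contra hcon
      rw [not_lt] at hcon
      rw [map_mul] at hprod
      exact absurd (one_le_mul_of_one_le_of_one_le hk hcon) (not_le.mpr hprod)
    refine ⟨?_, hk'⟩
    have e : l - γ₁ = (l - γ₂) + (γ₂ - γ₁) := by ring
    rw [e, Valuation.map_add_eq_of_lt_right _ (by rw [val_swap_delta hδ]; exact hk'),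
      val_swap_delta hδ]

/-- If all three points are at the node then `v ((l - γ₁) + (l - γ₂)) = 1`. -/
lemma Coll2.vs_eq_one (h : Coll2 a γ₁ γ₂ x₁ y₁ x₂ y₂ x₃ y₃ l n)
    (hδ : v (γ₁ - γ₂) = 1) (h1 : v x₁ < 1) (h2 : v x₂ < 1) (h3 : v x₃ < 1) :
    v ((l - γ₁) + (l - γ₂)) = 1 := by
  rcases h.kappa_dichotomy hδ h1 h2 h3 with ⟨hk, hk'⟩ | ⟨hk, hk'⟩
  · rw [Valuation.map_add_eq_of_lt_right _ (by rw [hk']; exact hk), hk']
  · rw [Valuation.map_add_eq_of_lt_left _ (by rw [hk]; exact hk'), hk]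

/-- If all three points are at the node then `v (l - γ₁) ≤ 1`. -/
lemma Coll2.vk_le_one (h : Coll2 a γ₁ γ₂ x₁ y₁ x₂ y₂ x₃ y₃ l n)
    (hδ : v (γ₁ - γ₂) = 1) (h1 : v x₁ < 1) (h2 : v x₂ < 1) (h3 : v x₃ < 1) :
    v (l - γ₁) ≤ 1 := by
  rcases h.kappa_dichotomy hδ h1 h2 h3 with ⟨hk, -⟩ | ⟨hk, -⟩
  · exact hk.le
  · exact hk.le

/-- Key inequality: if `x₁` is strictly smaller than `x₂, x₃`, `x₃` is not at the node and
`v a < v x₂ * v x₃`, contradiction. Covers "exactly one point at the node" and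
"two at the node with different valuations". -/
lemma factD (h : Coll2 a γ₁ γ₂ x₁ y₁ x₂ y₂ x₃ y₃ l n) (hδ : v (γ₁ - γ₂) = 1)
    (h12 : v x₁ < v x₂) (h13 : v x₁ < v x₃) (h23 : v x₂ ≤ v x₃) (h3 : 1 ≤ v x₃)
    (hμ : v a < v x₂ * v x₃) : False := by
  have hr2 : 0 < v x₂ := lt_of_le_of_lt zero_le h12
  have hr3 : 0 < v x₃ := lt_of_lt_of_le zero_lt_one h3
  have hne : v x₂ * v x₃ ≠ 0 := (mul_pos hr2 hr3).ne'
  have hd1 : v (x₁ * x₂) < v (x₂ * x₃) := by
    rw [map_mul, map_mul, mul_comm (v x₁)]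
    exact mul_lt_mul_of_pos_left h13 hr2
  have hd2 : v (x₁ * x₃) < v (x₂ * x₃) := by
    rw [map_mul, map_mul]
    exact mul_lt_mul_of_pos_right h12 hr3
  have ha : v a < v (x₂ * x₃) := by rw [map_mul]; exact hμ
  have hsn : v n * v ((l - γ₁) + (l - γ₂)) = v x₂ * v x₃ := by
    rw [h.vs_vn, ← map_mul]
    have e : a - (x₁ * x₂ + x₁ * x₃ + x₂ * x₃) = (a - (x₁ * x₂ + x₁ * x₃)) - x₂ * x₃ := by
      ring
    rw [e]
    apply Valuation.map_sub_eq_of_lt_right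
    exact Valuation.map_sub_lt _ ha (Valuation.map_add_lt _ hd1 hd2)
  have hs2 : v ((l - γ₁) + (l - γ₂)) ^ 2 * v x₁ = v x₂ * v x₃ := by
    have e1 : (v n * v ((l - γ₁) + (l - γ₂))) ^ 2 = (v x₂ * v x₃) ^ 2 := by rw [hsn]
    rw [mul_pow, h.vn_sq] at e1
    have e2 : (v ((l - γ₁) + (l - γ₂)) ^ 2 * v x₁) * (v x₂ * v x₃) =
        (v x₂ * v x₃) * (v x₂ * v x₃) := by
      rw [← pow_two, ← e1]; ac_rfl
    exact mul_right_cancel₀ hne e2
  have hs2le : v ((l - γ₁) + (l - γ₂)) ^ 2 ≤ v x₃ := by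
    rw [← map_pow, h.s_sq]
    refine Valuation.map_add_le _ ?_ ?_
    · rw [map_pow, hδ, one_pow]; exact h3
    · rw [map_mul]
      calc v 4 * v (x₁ + x₂ + x₃) ≤ 1 * v (x₁ + x₂ + x₃) :=
            mul_le_mul' val_four_le_one le_rfl
        _ = v (x₁ + x₂ + x₃) := one_mul _
        _ ≤ v x₃ := val_add3_le h13.le h23 le_rfl
  have : v ((l - γ₁) + (l - γ₂)) ^ 2 * v x₁ < v x₂ * v x₃ := by
    rcases eq_or_ne (v ((l - γ₁) + (l - γ₂)) ^ 2) 0 with h0 | h0
    · rw [h0, zero_mul]; exact mul_pos hr2 hr3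
    · calc v ((l - γ₁) + (l - γ₂)) ^ 2 * v x₁
          < v ((l - γ₁) + (l - γ₂)) ^ 2 * v x₂ :=
            mul_lt_mul_of_pos_left h12 (zero_lt_iff.mpr h0)
        _ ≤ v x₃ * v x₂ := mul_le_mul' hs2le le_rfl
        _ = v x₂ * v x₃ := mul_comm _ _
  exact absurd hs2 this.ne

/-- Exactly one point at the node is impossible. -/
lemma factC (h : Coll2 a γ₁ γ₂ x₁ y₁ x₂ y₂ x₃ y₃ l n) (hδ : v (γ₁ - γ₂) = 1)
    (ha : v a < 1) (h1 : v x₁ < 1) (h2' : 1 ≤ v x₂) (h3 : 1 ≤ v x₃) : False := by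
  have h23 : 1 ≤ v x₂ * v x₃ := one_le_mul_of_one_le_of_one_le h2' h3
  rcases le_total (v x₂) (v x₃) with h' | h'
  · exact factD h hδ (lt_of_lt_of_le h1 h2') (lt_of_lt_of_le h1 h3) h' h3
      (lt_of_lt_of_le ha h23)
  · exact factD h.swap23 hδ (lt_of_lt_of_le h1 h3) (lt_of_lt_of_le h1 h2') h' h2'
      (lt_of_lt_of_le ha (by rwa [mul_comm]))

/-- All three points in the `M`-range (`v x ≤ v a`) is impossible. -/
lemma factMMM (h : Coll2 a γ₁ γ₂ x₁ y₁ x₂ y₂ x₃ y₃ l n) (hδ : v (γ₁ - γ₂) = 1)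
    (ha : v a < 1) (ha0 : a ≠ 0)
    (h1 : v x₁ ≤ v a) (h2' : v x₂ ≤ v a) (h3 : v x₃ ≤ v a) : False := by
  have hμ : 0 < v a := by rw [Valuation.pos_iff]; exact ha0
  have hs : v ((l - γ₁) + (l - γ₂)) = 1 :=
    h.vs_eq_one hδ (h1.trans_lt ha) (h2'.trans_lt ha) (h3.trans_lt ha)
  have hn : v n < v a := by
    by_contra hcon
    rw [not_lt] at hcon
    have e1 : v a ^ 2 ≤ v n ^ 2 := pow_le_pow_left₀ zero_le hcon 2
    rw [h.vn_sq] at e1
    have e2 : v x₁ * v x₂ * v x₃ ≤ v a * v a * v a :=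
      mul_le_mul' (mul_le_mul' h1 h2') h3
    have e3 : v a * v a * v a < v a ^ 2 := by
      rw [pow_two]
      calc v a * v a * v a < v a * v a * 1 := mul_lt_mul_of_pos_left ha (mul_pos hμ hμ)
        _ = v a * v a := mul_one _
    exact absurd (e1.trans e2) (not_le.mpr e3)
  have hsn := h.vs_vn (v := v)
  rw [hs, mul_one] at hsn
  have hsum : v (x₁ * x₂ + x₁ * x₃ + x₂ * x₃) < v a := by
    have hh : ∀ p q : K, v p ≤ v a → v q ≤ v a → v (p * q) < v a := by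
      intro p q hp hq
      rw [map_mul]
      calc v p * v q ≤ v a * v a := mul_le_mul' hp hq
        _ < v a * 1 := mul_lt_mul_of_pos_left ha hμ
        _ = v a := mul_one _
    exact val_add3_lt (hh _ _ h1 h2') (hh _ _ h1 h3) (hh _ _ h2' h3)
  rw [Valuation.map_sub_eq_of_lt_left _ hsum] at hsn
  exact absurd hsn hn.ne

/-- Two points in the `M`-range and one at the node is impossible. -/
lemma factMMmid (h : Coll2 a γ₁ γ₂ x₁ y₁ x₂ y₂ x₃ y₃ l n) (hδ : v (γ₁ - γ₂) = 1)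
    (ha : v a < 1) (ha0 : a ≠ 0)
    (h1 : v x₁ ≤ v a) (h2' : v x₂ ≤ v a) (h3 : v x₃ < 1) : False := by
  have hμ : 0 < v a := by rw [Valuation.pos_iff]; exact ha0
  have hs : v ((l - γ₁) + (l - γ₂)) = 1 :=
    h.vs_eq_one hδ (h1.trans_lt ha) (h2'.trans_lt ha) h3
  have hsn := h.vs_vn (v := v)
  rw [hs, mul_one] at hsn
  have hh : ∀ p q : K, v p ≤ v a → v q < 1 → v (p * q) < v a := by
    intro p q hp hq
    rw [map_mul]
    calc v p * v q ≤ v a * v q := mul_le_mul' hp le_rfl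
      _ < v a * 1 := mul_lt_mul_of_pos_left hq hμ
      _ = v a := mul_one _
  have hsum : v (x₁ * x₂ + x₁ * x₃ + x₂ * x₃) < v a :=
    val_add3_lt (hh _ _ h1 (h2'.trans_lt ha)) (hh _ _ h1 h3) (hh _ _ h2' h3)
  rw [Valuation.map_sub_eq_of_lt_left _ hsum] at hsn
  have e1 := h.vn_sq (v := v)
  rw [hsn] at e1
  have e2 : v x₁ * v x₂ * v x₃ < v a ^ 2 := by
    rw [pow_two]
    calc v x₁ * v x₂ * v x₃ ≤ v a * v a * v x₃ := mul_le_mul' (mul_le_mul' h1 h2') le_rfl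
      _ < v a * v a * 1 := mul_lt_mul_of_pos_left h3 (mul_pos hμ hμ)
      _ = v a * v a := mul_one _
  exact absurd e1.symm e2.ne

/-- In the middle range, one of the two branches of the node is chosen. -/
lemma sign_exists {x y : K}
    (hE : (y - γ₁ * x) * (y - γ₂ * x) = x * (x ^ 2 + a)) (hlo : v a < v x) (hhi : v x < 1) :
    v (y - γ₁ * x) < v x ∨ v (y - γ₂ * x) < v x := by
  have hx : 0 < v x := lt_of_le_of_lt zero_le hlo
  have h1 : v (x ^ 2 + a) < v x := by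
    apply Valuation.map_add_lt _ _ hlo
    rw [map_pow, pow_two]
    calc v x * v x < v x * 1 := mul_lt_mul_of_pos_left hhi hx
      _ = v x := mul_one _
  by_contra hcon
  rw [not_or, not_lt, not_lt] at hcon
  have h2 : v x * v x ≤ v ((y - γ₁ * x) * (y - γ₂ * x)) := by
    rw [map_mul]; exact mul_le_mul' hcon.1 hcon.2
  rw [hE, map_mul] at h2
  exact absurd h2 (not_le.mpr (mul_lt_mul_of_pos_left h1 hx))

/-- In the middle range, the two branches of the node are exclusive. -/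
lemma sign_exclusive {x y : K} (hδ : v (γ₁ - γ₂) = 1) :
    ¬ (v (y - γ₁ * x) < v x ∧ v (y - γ₂ * x) < v x) := by
  rintro ⟨h1, h3⟩
  have e : (γ₁ - γ₂) * x = (y - γ₂ * x) - (y - γ₁ * x) := by ring
  have h4 : v ((γ₁ - γ₂) * x) < v x := by
    rw [e]; exact Valuation.map_sub_lt _ h3 h1
  rw [map_mul, hδ, one_mul] at h4
  exact lt_irrefl _ h4

/-- Two points at the node with the same valuation `< 1` and third point away from the
node cannot lie on the same branch. -/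
lemma factBsign (h : Coll2 a γ₁ γ₂ x₁ y₁ x₂ y₂ x₃ y₃ l n) (hδ : v (γ₁ - γ₂) = 1)
    (h12 : v x₁ = v x₂) (h1 : v x₁ < 1) (hx1 : x₁ ≠ 0) (h3 : 1 ≤ v x₃)
    (hP1 : v (y₁ - γ₁ * x₁) < v x₁) (hP2 : v (y₂ - γ₁ * x₂) < v x₂) : False := by
  have hr : 0 < v x₁ := by rw [Valuation.pos_iff]; exact hx1
  set κ := l - γ₁ with hκ
  set θ₁ := y₁ - γ₁ * x₁ with hθ₁
  set θ₂ := y₂ - γ₁ * x₂ with hθ₂
  set δ := -x₁ - x₂ with hδ'
  have hθ₁' : θ₁ = κ * x₁ + n := by rw [hθ₁, h.L1, hκ]; ring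
  have hθ₂' : θ₂ = κ * x₂ + n := by rw [hθ₂, h.L2, hκ]; ring
  have hx3 : x₃ = κ ^ 2 + (γ₁ - γ₂) * κ + δ := by
    have := h.V1
    have e : x₃ = (l - γ₁) * (l - γ₂) - x₁ - x₂ := by rw [← this]; ring
    rw [e, hκ, hδ']; ring
  have hid : θ₁ * θ₂ - κ * (x₁ * θ₂ + x₂ * θ₁) = x₁ * x₂ * ((γ₁ - γ₂) * κ + δ) := by
    have e3 := h.V3
    rw [hx3] at e3
    have : θ₁ * θ₂ - κ * (x₁ * θ₂ + x₂ * θ₁) = n ^ 2 - κ ^ 2 * (x₁ * x₂) := by
      rw [hθ₁', hθ₂']; ring
    rw [this, ← e3]; ring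
  have hδ1 : v δ < 1 := by
    rw [hδ']
    exact Valuation.map_sub_lt _ (by rw [Valuation.map_neg]; exact h1) (h12 ▸ h1)
  -- v κ ≥ 1
  have hκ1 : 1 ≤ v κ := by
    by_contra hcon
    rw [not_le] at hcon
    have hn : v n < v x₁ := by
      have e : n = θ₁ - κ * x₁ := by rw [hθ₁']; ring
      rw [e]
      apply Valuation.map_sub_lt _ hP1
      rw [map_mul]
      calc v κ * v x₁ < 1 * v x₁ := mul_lt_mul_of_pos_right hcon hr
        _ = v x₁ := one_mul _
    have e1 := h.vn_sq (v := v)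
    have e2 : v n ^ 2 < v x₁ * v x₂ * v x₃ := by
      rw [← h12, pow_two]
      calc v n * v n ≤ v n * v x₁ := mul_le_mul' le_rfl hn.le
        _ < v x₁ * v x₁ := mul_lt_mul_of_pos_right hn hr
        _ = v x₁ * v x₁ * 1 := (mul_one _).symm
        _ ≤ v x₁ * v x₁ * v x₃ := mul_le_mul' le_rfl h3
    exact absurd e1 e2.ne
  have hκpos : 0 < v κ := lt_of_lt_of_le zero_lt_one hκ1
  have hR : v (x₁ * x₂ * ((γ₁ - γ₂) * κ + δ)) = v x₁ * v x₁ * v κ := by
    rw [map_mul, map_mul, ← h12]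
    congr 1
    have : v δ < v ((γ₁ - γ₂) * κ) := by
      rw [map_mul, hδ, one_mul]; exact lt_of_lt_of_le hδ1 hκ1
    rw [Valuation.map_add_eq_of_lt_left _ this, map_mul, hδ, one_mul]
  have hL : v (θ₁ * θ₂ - κ * (x₁ * θ₂ + x₂ * θ₁)) < v x₁ * v x₁ * v κ := by
    apply Valuation.map_sub_lt
    · rw [map_mul]
      calc v θ₁ * v θ₂ ≤ v θ₁ * v x₁ := mul_le_mul' le_rfl (h12 ▸ hP2.le)
        _ < v x₁ * v x₁ := mul_lt_mul_of_pos_right hP1 hr
        _ = v x₁ * v x₁ * 1 := (mul_one _).symm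
        _ ≤ v x₁ * v x₁ * v κ := mul_le_mul' le_rfl hκ1
    · rw [map_mul, mul_comm]
      apply mul_lt_mul_of_pos_right _ hκpos
      apply Valuation.map_add_lt
      · rw [map_mul]
        exact mul_lt_mul_of_pos_left (h12 ▸ hP2) hr
      · rw [map_mul, ← h12]
        exact mul_lt_mul_of_pos_left hP1 hr
  rw [hid, hR] at hL
  exact lt_irrefl _ hL

/-- A point in the `M`-range has `v (y - γ₁ x) ≤ v a`. -/
lemma val_theta_le_of_M {x y : K} (hδ : v (γ₁ - γ₂) = 1) (ha : v a < 1)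
    (hE : (y - γ₁ * x) * (y - γ₂ * x) = x * (x ^ 2 + a)) (hx : v x ≤ v a) :
    v (y - γ₁ * x) ≤ v a := by
  by_contra hcon
  rw [not_le] at hcon
  have hpos : 0 < v (y - γ₁ * x) := lt_of_le_of_lt zero_le hcon
  have h2 : v (y - γ₂ * x) = v (y - γ₁ * x) := by
    have e : y - γ₂ * x = (y - γ₁ * x) + (γ₁ - γ₂) * x := by ring
    rw [e]
    apply Valuation.map_add_eq_of_lt_left
    rw [map_mul, hδ, one_mul]; exact hx.trans_lt hcon
  have h3 : v a * v a < v ((y - γ₁ * x) * (y - γ₂ * x)) := by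
    rw [map_mul, h2]
    calc v a * v a ≤ v a * v (y - γ₁ * x) := mul_le_mul' le_rfl hcon.le
      _ < v (y - γ₁ * x) * v (y - γ₁ * x) := mul_lt_mul_of_pos_right hcon hpos
  have h4 : v (x * (x ^ 2 + a)) ≤ v a * v a := by
    rw [map_mul]
    apply mul_le_mul' hx
    apply Valuation.map_add_le _ _ le_rfl
    rw [map_pow, pow_two]
    calc v x * v x ≤ v a * v a := mul_le_mul' hx hx
      _ ≤ v a * 1 := mul_le_mul' le_rfl ha.le
      _ = v a := mul_one _
  rw [hE] at h3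
  exact absurd h4 (not_le.mpr h3)

/-- `M`, at the node, at the node: `v n ≤ v a`. -/
lemma Coll2.vn_le_of_M (h : Coll2 a γ₁ γ₂ x₁ y₁ x₂ y₂ x₃ y₃ l n) (hδ : v (γ₁ - γ₂) = 1)
    (ha : v a < 1) (h1 : v x₁ ≤ v a) (h2 : v x₂ < 1) (h3 : v x₃ < 1) : v n ≤ v a := by
  have hk : v (l - γ₁) ≤ 1 := h.vk_le_one hδ (h1.trans_lt ha) h2 h3
  have ht : v (y₁ - γ₁ * x₁) ≤ v a := val_theta_le_of_M hδ ha h.E1 h1
  have e : n = (y₁ - γ₁ * x₁) - (l - γ₁) * x₁ := by rw [h.L1]; ring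
  rw [e]
  apply Valuation.map_sub_le _ ht
  rw [map_mul]
  calc v (l - γ₁) * v x₁ ≤ 1 * v a := mul_le_mul' hk h1
    _ = v a := one_mul _

/-- `M`, mid, mid: the two middle points have `v x₂ * v x₃ = v a`. -/
lemma factA'_val (h : Coll2 a γ₁ γ₂ x₁ y₁ x₂ y₂ x₃ y₃ l n) (hδ : v (γ₁ - γ₂) = 1)
    (ha : v a < 1) (ha0 : a ≠ 0)
    (h1 : v x₁ ≤ v a) (h2hi : v x₂ < 1) (h3hi : v x₃ < 1) : v x₂ * v x₃ = v a := by
  have hμ : 0 < v a := by rw [Valuation.pos_iff]; exact ha0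
  have hs : v ((l - γ₁) + (l - γ₂)) = 1 := h.vs_eq_one hδ (h1.trans_lt ha) h2hi h3hi
  have hn : v n ≤ v a := h.vn_le_of_M hδ ha h1 h2hi h3hi
  have h12 : v (x₁ * x₂) < v a := by
    rw [map_mul]
    calc v x₁ * v x₂ ≤ v a * v x₂ := mul_le_mul' h1 le_rfl
      _ < v a * 1 := mul_lt_mul_of_pos_left h2hi hμ
      _ = v a := mul_one _
  have h13 : v (x₁ * x₃) < v a := by
    rw [map_mul]
    calc v x₁ * v x₃ ≤ v a * v x₃ := mul_le_mul' h1 le_rfl
      _ < v a * 1 := mul_lt_mul_of_pos_left h3hi hμ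
      _ = v a := mul_one _
  have hle : v x₂ * v x₃ ≤ v a := by
    have e : x₂ * x₃ = a - n * ((l - γ₁) + (l - γ₂)) - x₁ * x₂ - x₁ * x₃ := by
      rw [← h.V2]; ring
    rw [← map_mul, e]
    apply Valuation.map_sub_le _ (Valuation.map_sub_le _ (Valuation.map_sub_le _ le_rfl _)
      h12.le) h13.le
    rw [map_mul, hs, mul_one]; exact hn
  rcases hle.lt_or_eq with hlt | heq
  · exfalso
    have hsn := h.vs_vn (v := v)
    rw [hs, mul_one] at hsn
    have hsum : v (x₁ * x₂ + x₁ * x₃ + x₂ * x₃) < v a :=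
      val_add3_lt h12 h13 (by rw [map_mul]; exact hlt)
    rw [Valuation.map_sub_eq_of_lt_left _ hsum] at hsn
    have e1 := h.vn_sq (v := v)
    rw [hsn] at e1
    have e2 : v x₁ * v x₂ * v x₃ < v a ^ 2 := by
      rw [pow_two, mul_assoc]
      calc v x₁ * (v x₂ * v x₃) ≤ v a * (v x₂ * v x₃) := mul_le_mul' h1 le_rfl
        _ < v a * v a := mul_lt_mul_of_pos_left hlt hμ
    exact absurd e1.symm e2.ne
  · exact heq

/-- `M`, mid, mid: the two middle points lie on the same branch. -/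
lemma factA'_sign (h : Coll2 a γ₁ γ₂ x₁ y₁ x₂ y₂ x₃ y₃ l n) (hδ : v (γ₁ - γ₂) = 1)
    (ha : v a < 1)
    (h1 : v x₁ ≤ v a) (h2lo : v a < v x₂) (h2hi : v x₂ < 1) (h3lo : v a < v x₃)
    (h3hi : v x₃ < 1)
    (hP2 : v (y₂ - γ₁ * x₂) < v x₂) (hN3 : v (y₃ - γ₂ * x₃) < v x₃) : False := by
  have hr2 : 0 < v x₂ := lt_of_le_of_lt zero_le h2lo
  have hr3 : 0 < v x₃ := lt_of_le_of_lt zero_le h3lo
  have hn : v n ≤ v a := h.vn_le_of_M hδ ha h1 h2hi h3hi
  have hk : v (l - γ₁) < 1 := by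
    have e : (l - γ₁) * x₂ = (y₂ - γ₁ * x₂) - n := by rw [h.L2]; ring
    have : v ((l - γ₁) * x₂) < v x₂ := by
      rw [e]; exact Valuation.map_sub_lt _ hP2 (hn.trans_lt h2lo)
    rw [map_mul] at this
    by_contra hcon
    rw [not_lt] at hcon
    exact absurd (le_mul_of_one_le_left hr2.le hcon) (not_le.mpr this)
  have hk' : v (l - γ₂) < 1 := by
    have e : (l - γ₂) * x₃ = (y₃ - γ₂ * x₃) - n := by rw [h.L3]; ring
    have : v ((l - γ₂) * x₃) < v x₃ := by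
      rw [e]; exact Valuation.map_sub_lt _ hN3 (hn.trans_lt h3lo)
    rw [map_mul] at this
    by_contra hcon
    rw [not_lt] at hcon
    exact absurd (le_mul_of_one_le_left hr3.le hcon) (not_le.mpr this)
  have e : γ₁ - γ₂ = (l - γ₂) - (l - γ₁) := by ring
  have : v (γ₁ - γ₂) < 1 := by rw [e]; exact Valuation.map_sub_lt _ hk' hk
  rw [hδ] at this
  exact lt_irrefl _ this

/-- If `v κ < 1` and `v (κ x + n) < v x` then `v n < v x`. -/
lemma val_n_lt_of_small {κ x n : K} (hκ : v κ < 1) (hx : 0 < v x)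
    (h : v (κ * x + n) < v x) : v n < v x := by
  have e : n = (κ * x + n) - κ * x := by ring
  rw [e]
  apply Valuation.map_sub_lt _ h
  rw [map_mul]
  calc v κ * v x < 1 * v x := mul_lt_mul_of_pos_right hκ hx
    _ = v x := one_mul _

/-- If `v κ = 1` and `v (κ x + n) < v x` then `v n = v x`. -/
lemma val_n_eq_of_unit {κ x n : K} (hκ : v κ = 1)
    (h : v (κ * x + n) < v x) : v n = v x := by
  have e : n = (κ * x + n) - κ * x := by ring
  have hκx : v (κ * x) = v x := by rw [map_mul, hκ, one_mul]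
  rw [e, Valuation.map_sub_eq_of_lt_right _ (by rw [hκx]; exact h), hκx]

/-- mid, mid, mid, all on the same branch: `v x₁ * v x₂ * v x₃ = v a ^ 2`. -/
lemma factA_same (h : Coll2 a γ₁ γ₂ x₁ y₁ x₂ y₂ x₃ y₃ l n) (hδ : v (γ₁ - γ₂) = 1)
    (h1lo : v a < v x₁) (h1hi : v x₁ < 1)
    (h2lo : v a < v x₂) (h2hi : v x₂ < 1) (h3lo : v a < v x₃) (h3hi : v x₃ < 1)
    (hP1 : v (y₁ - γ₁ * x₁) < v x₁) (hP2 : v (y₂ - γ₁ * x₂) < v x₂)
    (hP3 : v (y₃ - γ₁ * x₃) < v x₃) : v x₁ * v x₂ * v x₃ = v a ^ 2 := by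
  have hr1 : 0 < v x₁ := lt_of_le_of_lt zero_le h1lo
  have hr2 : 0 < v x₂ := lt_of_le_of_lt zero_le h2lo
  have hr3 : 0 < v x₃ := lt_of_le_of_lt zero_le h3lo
  have hs : v ((l - γ₁) + (l - γ₂)) = 1 := h.vs_eq_one hδ h1hi h2hi h3hi
  have e1 : y₁ - γ₁ * x₁ = (l - γ₁) * x₁ + n := by rw [h.L1]; ring
  have e2 : y₂ - γ₁ * x₂ = (l - γ₁) * x₂ + n := by rw [h.L2]; ring
  have e3 : y₃ - γ₁ * x₃ = (l - γ₁) * x₃ + n := by rw [h.L3]; ring
  rw [e1] at hP1
  rw [e2] at hP2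
  rw [e3] at hP3
  rcases h.kappa_dichotomy hδ h1hi h2hi h3hi with ⟨hk, -⟩ | ⟨hk, -⟩
  · have hn1 := val_n_lt_of_small hk hr1 hP1
    have hn2 := val_n_lt_of_small hk hr2 hP2
    have hn3 := val_n_lt_of_small hk hr3 hP3
    have hnsq := h.vn_sq (v := v)
    have key : ∀ p q r : Γ₀, 0 < p → 0 < q → v n ^ 2 = p * q * r → v n < r → p * q < v n := by
      intro p q r hp hq hpqr hr
      by_contra hcon
      rw [not_lt] at hcon
      have : v n ^ 2 < p * q * r := by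
        rw [pow_two]
        calc v n * v n ≤ p * q * v n := mul_le_mul' hcon le_rfl
          _ < p * q * r := mul_lt_mul_of_pos_left hr (mul_pos hp hq)
      exact absurd hpqr this.ne
    have k12 : v (x₁ * x₂) < v n := by
      rw [map_mul]; exact key _ _ _ hr1 hr2 hnsq hn3
    have k13 : v (x₁ * x₃) < v n := by
      rw [map_mul]; exact key _ _ _ hr1 hr3 (by rw [hnsq]; exact mul_right_comm _ _ _) hn2
    have k23 : v (x₂ * x₃) < v n := by
      rw [map_mul]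
      exact key _ _ _ hr2 hr3 (by rw [hnsq]; exact mul_rotate _ _ _) hn1
    have hsum : v (x₁ * x₂ + x₁ * x₃ + x₂ * x₃) < v n := val_add3_lt k12 k13 k23
    have hns : v (n * ((l - γ₁) + (l - γ₂))) = v n := by rw [map_mul, hs, mul_one]
    have : v a = v (n * ((l - γ₁) + (l - γ₂))) := by
      have e : a = (a - n * ((l - γ₁) + (l - γ₂))) + n * ((l - γ₁) + (l - γ₂)) := by ring
      conv_lhs => rw [e]
      apply Valuation.map_add_eq_of_lt_right
      rw [← h.V2, hns]; exact hsum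
    rw [hns] at this
    rw [← hnsq, this]
  · exfalso
    have hn1 := val_n_eq_of_unit hk hP1
    have hn2 := val_n_eq_of_unit hk hP2
    have hn3 := val_n_eq_of_unit hk hP3
    have hnsq := h.vn_sq (v := v)
    rw [← hn1, ← hn2, ← hn3, pow_two] at hnsq
    have hnpos : 0 < v n := hn1 ▸ hr1
    have : v n * v n * 1 = v n * v n * v n := by rw [mul_one]; exact hnsq
    have := mul_left_cancel₀ (mul_pos hnpos hnpos).ne' this
    rw [← this] at hn1
    exact absurd hn1.symm h1hi.ne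

/-- mid, mid, mid, two on one branch and the third on the other: `v x₃ = v x₁ * v x₂`. -/
lemma factA_mixed (h : Coll2 a γ₁ γ₂ x₁ y₁ x₂ y₂ x₃ y₃ l n) (hδ : v (γ₁ - γ₂) = 1)
    (h1lo : v a < v x₁) (h1hi : v x₁ < 1)
    (h2lo : v a < v x₂) (h2hi : v x₂ < 1) (h3lo : v a < v x₃) (h3hi : v x₃ < 1)
    (hP1 : v (y₁ - γ₁ * x₁) < v x₁) (hP2 : v (y₂ - γ₁ * x₂) < v x₂)
    (hN3 : v (y₃ - γ₂ * x₃) < v x₃) : v x₃ = v x₁ * v x₂ := by
  have hr1 : 0 < v x₁ := lt_of_le_of_lt zero_le h1lo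
  have hr2 : 0 < v x₂ := lt_of_le_of_lt zero_le h2lo
  have hr3 : 0 < v x₃ := lt_of_le_of_lt zero_le h3lo
  have e1 : y₁ - γ₁ * x₁ = (l - γ₁) * x₁ + n := by rw [h.L1]; ring
  have e2 : y₂ - γ₁ * x₂ = (l - γ₁) * x₂ + n := by rw [h.L2]; ring
  have e3 : y₃ - γ₂ * x₃ = (l - γ₂) * x₃ + n := by rw [h.L3]; ring
  rw [e1] at hP1
  rw [e2] at hP2
  rw [e3] at hN3
  have hnsq := h.vn_sq (v := v)
  rcases h.kappa_dichotomy hδ h1hi h2hi h3hi with ⟨-, hk'⟩ | ⟨hk, hk'⟩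
  · have hn3 := val_n_eq_of_unit hk' hN3
    rw [hn3, pow_two] at hnsq
    have : v x₃ * v x₃ = v x₁ * v x₂ * v x₃ := hnsq
    exact mul_right_cancel₀ hr3.ne' this
  · exfalso
    have hn1 := val_n_eq_of_unit hk hP1
    have hn2 := val_n_eq_of_unit hk hP2
    rw [← hn1, ← hn2, pow_two] at hnsq
    have hnpos : 0 < v n := hn1 ▸ hr1
    have : v n * v n * 1 = v n * v n * v x₃ := by rw [mul_one]; exact hnsq
    have := mul_left_cancel₀ (mul_pos hnpos hnpos).ne' this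
    exact absurd this.symm h3hi.ne

end Fermat.Agent.S13.Comp2

end
-- ===== PACK-END S13/Comp2Core.lean

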