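import Mathlib
import Fermat.Agent.Pack.S15.AE0L3
import Fermat.Agent.Pack.S15.BE0L2
import Fermat.Agent.Pack.S15.BE0L1
import Fermat.Agent.Pack.S15.BE0L3

-- ===== PACK-BEGIN S13/H164/LadderDeg.lean
section


/-!
# S13 / T1 (helper164): degrees and leading coefficients of the ladder polynomials
-/

set_option autoImplicit false

namespace Fermat.Agent.S13.H164

open Polynomial

section Lead

variable {R : Type*} [CommRing R]

/-- `f` has degree at most `d` and `d`-th coefficient `c`. -/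
def Lead (f : R[X]) (d : ℕ) (c : R) : Prop := f.natDegree ≤ d ∧ f.coeff d = c

lemma Lead.congr {f : R[X]} {d d' : ℕ} {c c' : R} (h : Lead f d c) (hd : d = d') (hc : c = c') :
    Lead f d' c' := by
  subst hd hc; exact h

lemma Lead.one : Lead (1 : R[X]) 0 1 := ⟨by simp, by simp⟩

lemma Lead.X : Lead (Polynomial.X : R[X]) 1 1 := ⟨natDegree_X_le, by simp⟩

lemma Lead.zero (d : ℕ) : Lead (0 : R[X]) d 0 := ⟨by simp, by simp⟩

lemma Lead.of_lt {f : R[X]} {d : ℕ} (h : f.natDegree < d) : Lead f d 0 :=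
  ⟨h.le, coeff_eq_zero_of_natDegree_lt h⟩

lemma Lead.mul {f g : R[X]} {d e : ℕ} {c c' : R} (hf : Lead f d c) (hg : Lead g e c') :
    Lead (f * g) (d + e) (c * c') :=
  ⟨natDegree_mul_le_of_le hf.1 hg.1, by rw [coeff_mul_add_eq_of_natDegree_le hf.1 hg.1, hf.2, hg.2]⟩

lemma Lead.pow {f : R[X]} {d : ℕ} {c : R} (hf : Lead f d c) (n : ℕ) :
    Lead (f ^ n) (n * d) (c ^ n) :=
  ⟨natDegree_pow_le_of_le n hf.1, by rw [coeff_pow_of_natDegree_le hf.1, hf.2]⟩

lemma Lead.add {f g : R[X]} {d : ℕ} {c c' : R} (hf : Lead f d c) (hg : Lead g d c') :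
    Lead (f + g) d (c + c') :=
  ⟨natDegree_add_le_of_degree_le hf.1 hg.1, by rw [coeff_add, hf.2, hg.2]⟩

lemma Lead.neg {f : R[X]} {d : ℕ} {c : R} (hf : Lead f d c) : Lead (-f) d (-c) :=
  ⟨by rw [natDegree_neg]; exact hf.1, by rw [coeff_neg, hf.2]⟩

lemma Lead.sub {f g : R[X]} {d : ℕ} {c c' : R} (hf : Lead f d c) (hg : Lead g d c') :
    Lead (f - g) d (c - c') := by
  rw [sub_eq_add_neg, sub_eq_add_neg]
  exact hf.add hg.neg

lemma Lead.add_lt {f g : R[X]} {d : ℕ} {c : R} (hf : Lead f d c) (hg : g.natDegree < d) :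
    Lead (f + g) d c := by
  have := hf.add (Lead.of_lt hg)
  rwa [add_zero] at this

lemma Lead.sub_lt {f g : R[X]} {d : ℕ} {c : R} (hf : Lead f d c) (hg : g.natDegree < d) :
    Lead (f - g) d c := by
  have := hf.sub (Lead.of_lt hg)
  rwa [sub_zero] at this

lemma Lead.C_mul {f : R[X]} {d : ℕ} {c : R} (a : R) (hf : Lead f d c) :
    Lead (C a * f) d (a * c) :=
  ⟨(natDegree_C_mul_le a f).trans hf.1, by rw [coeff_C_mul, hf.2]⟩

lemma Lead.ofNat_mul {f : R[X]} {d : ℕ} {c : R} (n : ℕ) (hf : Lead f d c) :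
    Lead ((n : R[X]) * f) d ((n : R) * c) := by
  have := hf.C_mul (n : R)
  rwa [_root_.map_natCast] at this

end Lead

section Steps

variable {R : Type*} [CommRing R] (b₂ b₄ b₆ b₈ : R)

lemma natDegree_C_mul_le' (a : R) (f : R[X]) {d : ℕ} (h : f.natDegree ≤ d) :
    (C a * f).natDegree ≤ d := (natDegree_C_mul_le a f).trans h

/-- leading term of the duplication numerator -/
lemma lead_dN {u v : R[X]} {e : ℕ} (hu : Lead u (e + 1) 1) (hv : v.natDegree ≤ e) :
    Lead (dN (C b₄) (C b₆) (C b₈) u v) (4 * (e + 1)) 1 := by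
  unfold dN
  have h1 : Lead (u ^ 4) (4 * (e + 1)) 1 := (hu.pow 4).congr rfl (one_pow 4)
  have h2 : (C b₄ * u ^ 2 * v ^ 2).natDegree < 4 * (e + 1) := by
    have : (C b₄ * u ^ 2 * v ^ 2).natDegree ≤ 0 + 2 * (e + 1) + 2 * e :=
      natDegree_mul_le_of_le (natDegree_mul_le_of_le (natDegree_C b₄).le
        (natDegree_pow_le_of_le 2 hu.1)) (natDegree_pow_le_of_le 2 hv)
    omega
  have h3 : (2 * C b₆ * u * v ^ 3).natDegree < 4 * (e + 1) := by
    have e2 : (2 : R[X]) * C b₆ = C (2 * b₆) := by rw [C_mul, C_ofNat]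
    rw [e2]
    have : (C (2 * b₆) * u * v ^ 3).natDegree ≤ 0 + (e + 1) + 3 * e :=
      natDegree_mul_le_of_le (natDegree_mul_le_of_le (natDegree_C _).le hu.1)
        (natDegree_pow_le_of_le 3 hv)
    omega
  have h4 : (C b₈ * v ^ 4).natDegree < 4 * (e + 1) := by
    have : (C b₈ * v ^ 4).natDegree ≤ 0 + 4 * e :=
      natDegree_mul_le_of_le (natDegree_C _).le (natDegree_pow_le_of_le 4 hv)
    omega
  exact ((h1.sub_lt h2).sub_lt h3).sub_lt h4

/-- leading term of the duplication denominator -/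
lemma lead_dD {u v : R[X]} {e : ℕ} {c : R} (hu : Lead u (e + 1) 1) (hv : Lead v e c) :
    Lead (dD (C b₂) (C b₄) (C b₆) u v) (4 * e + 3) (4 * c) := by
  unfold dD
  have h1 : Lead (4 * u ^ 3) (3 * (e + 1)) 4 := by
    have := (hu.pow 3).ofNat_mul 4
    simpa using this
  have h2 : (C b₂ * u ^ 2 * v).natDegree < 3 * (e + 1) := by
    have : (C b₂ * u ^ 2 * v).natDegree ≤ 0 + 2 * (e + 1) + e :=
      natDegree_mul_le_of_le (natDegree_mul_le_of_le (natDegree_C _).le
        (natDegree_pow_le_of_le 2 hu.1)) hv.1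
    omega
  have h3 : (2 * C b₄ * u * v ^ 2).natDegree < 3 * (e + 1) := by
    have e2 : (2 : R[X]) * C b₄ = C (2 * b₄) := by rw [C_mul, C_ofNat]
    rw [e2]
    have : (C (2 * b₄) * u * v ^ 2).natDegree ≤ 0 + (e + 1) + 2 * e :=
      natDegree_mul_le_of_le (natDegree_mul_le_of_le (natDegree_C _).le hu.1)
        (natDegree_pow_le_of_le 2 hv.1)
    omega
  have h4 : (C b₆ * v ^ 3).natDegree < 3 * (e + 1) := by
    have : (C b₆ * v ^ 3).natDegree ≤ 0 + 3 * e :=
      natDegree_mul_le_of_le (natDegree_C _).le (natDegree_pow_le_of_le 3 hv.1)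
    omega
  have h5 := hv.mul (((h1.add_lt h2).add_lt h3).add_lt h4)
  exact h5.congr (by ring) (by ring)

/-- leading term of `W` in the odd step -/
lemma lead_oW {u₁ v₁ u₂ v₂ : R[X]} {e₁ e₂ : ℕ} {c₁ c₂ : R}
    (hu₁ : Lead u₁ (e₁ + 1) 1) (hv₁ : Lead v₁ e₁ c₁)
    (hu₂ : Lead u₂ (e₂ + 1) 1) (hv₂ : Lead v₂ e₂ c₂) :
    Lead (oW u₁ v₁ u₂ v₂) (e₁ + e₂ + 1) (c₂ - c₁) := by
  unfold oW
  have h1 := (hu₁.mul hv₂).congr (show e₁ + 1 + e₂ = e₁ + e₂ + 1 by ring) (one_mul c₂)
  have h2 := (hu₂.mul hv₁).congr (show e₂ + 1 + e₁ = e₁ + e₂ + 1 by ring) (one_mul c₁)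
  exact h1.sub h2

lemma lead_oD {u₁ v₁ u₂ v₂ : R[X]} {e₁ e₂ : ℕ} {c₁ c₂ : R}
    (hu₁ : Lead u₁ (e₁ + 1) 1) (hv₁ : Lead v₁ e₁ c₁)
    (hu₂ : Lead u₂ (e₂ + 1) 1) (hv₂ : Lead v₂ e₂ c₂) :
    Lead (oD u₁ v₁ u₂ v₂) (2 * (e₁ + e₂ + 1)) ((c₂ - c₁) ^ 2) :=
  (lead_oW hu₁ hv₁ hu₂ hv₂).pow 2

lemma lead_oS {u₁ v₁ u₂ v₂ : R[X]} {e₁ e₂ : ℕ} {c₁ c₂ : R}
    (hu₁ : Lead u₁ (e₁ + 1) 1) (hv₁ : Lead v₁ e₁ c₁)
    (hu₂ : Lead u₂ (e₂ + 1) 1) (hv₂ : Lead v₂ e₂ c₂) :
    Lead (oS (C b₂) (C b₄) (C b₆) u₁ v₁ u₂ v₂) (2 * (e₁ + e₂ + 1) + 1) (2 * (c₁ + c₂)) := by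
  unfold oS
  have hA : Lead (u₁ * v₂ + u₂ * v₁) (e₁ + e₂ + 1) (c₂ + c₁) := by
    have h1 := (hu₁.mul hv₂).congr (show e₁ + 1 + e₂ = e₁ + e₂ + 1 by ring) (one_mul c₂)
    have h2 := (hu₂.mul hv₁).congr (show e₂ + 1 + e₁ = e₁ + e₂ + 1 by ring) (one_mul c₁)
    exact h1.add h2
  have h1 : Lead (2 * u₁ * u₂ * (u₁ * v₂ + u₂ * v₁)) (2 * (e₁ + e₂ + 1) + 1) (2 * (c₁ + c₂)) := by
    have := (((hu₁.mul hu₂).mul hA).ofNat_mul 2)
    have e : ((2 : ℕ) : R[X]) * (u₁ * u₂ * (u₁ * v₂ + u₂ * v₁)) =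
        2 * u₁ * u₂ * (u₁ * v₂ + u₂ * v₁) := by push_cast; ring
    rw [e] at this
    exact this.congr (by ring) (by push_cast; ring)
  have h2 : (C b₂ * u₁ * u₂ * v₁ * v₂).natDegree < 2 * (e₁ + e₂ + 1) + 1 := by
    have : (C b₂ * u₁ * u₂ * v₁ * v₂).natDegree ≤ 0 + (e₁ + 1) + (e₂ + 1) + e₁ + e₂ :=
      natDegree_mul_le_of_le (natDegree_mul_le_of_le (natDegree_mul_le_of_le
        (natDegree_mul_le_of_le (natDegree_C _).le hu₁.1) hu₂.1) hv₁.1) hv₂.1
    omega
  have h3 : (C b₄ * (u₁ * v₂ + u₂ * v₁) * v₁ * v₂).natDegree < 2 * (e₁ + e₂ + 1) + 1 := by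
    have : (C b₄ * (u₁ * v₂ + u₂ * v₁) * v₁ * v₂).natDegree ≤ 0 + (e₁ + e₂ + 1) + e₁ + e₂ :=
      natDegree_mul_le_of_le (natDegree_mul_le_of_le
        (natDegree_mul_le_of_le (natDegree_C _).le hA.1) hv₁.1) hv₂.1
    omega
  have h4 : (C b₆ * v₁ ^ 2 * v₂ ^ 2).natDegree < 2 * (e₁ + e₂ + 1) + 1 := by
    have : (C b₆ * v₁ ^ 2 * v₂ ^ 2).natDegree ≤ 0 + 2 * e₁ + 2 * e₂ :=
      natDegree_mul_le_of_le (natDegree_mul_le_of_le (natDegree_C _).le
        (natDegree_pow_le_of_le 2 hv₁.1)) (natDegree_pow_le_of_le 2 hv₂.1)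
    omega
  exact ((h1.add_lt h2).add_lt h3).add_lt h4

lemma lead_oN {u₁ v₁ u₂ v₂ : R[X]} {e₁ e₂ : ℕ} {c₁ c₂ : R}
    (hu₁ : Lead u₁ (e₁ + 1) 1) (hv₁ : Lead v₁ e₁ c₁)
    (hu₂ : Lead u₂ (e₂ + 1) 1) (hv₂ : Lead v₂ e₂ c₂) :
    Lead (oN (C b₂) (C b₄) (C b₆) X u₁ v₁ u₂ v₂) (2 * (e₁ + e₂ + 1) + 1)
      (2 * (c₁ + c₂) - (c₂ - c₁) ^ 2) := by
  unfold oN
  have h1 := lead_oS b₂ b₄ b₆ hu₁ hv₁ hu₂ hv₂
  have h2 : Lead (X * oW u₁ v₁ u₂ v₂ ^ 2) (2 * (e₁ + e₂ + 1) + 1) ((c₂ - c₁) ^ 2) :=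
    (Lead.X.mul ((lead_oW hu₁ hv₁ hu₂ hv₂).pow 2)).congr (by ring) (one_mul _)
  exact h1.sub h2

end Steps

section LadP

variable {R : Type*} [CommRing R] (b₂ b₄ b₆ b₈ : R)

/-- The ladder polynomials `(N_n, D_n)` in `R[X]`. -/
noncomputable def ladP (n : ℕ) : R[X] × R[X] :=
  lad (C b₂) (C b₄) (C b₆) (C b₈) X n

/-- Degrees and leading coefficients of the ladder polynomials: for `n = j + 1 ≥ 1`,
`N_n` is monic of degree `n²` and `D_n` has degree `≤ n² - 1` with `(n²-1)`-th coefficient `n²`. -/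
theorem lead_ladP (j : ℕ) :
    Lead (ladP b₂ b₄ b₆ b₈ (j + 1)).1 (j * j + 2 * j + 1) 1 ∧
      Lead (ladP b₂ b₄ b₆ b₈ (j + 1)).2 (j * j + 2 * j) (((j + 1 : ℕ) : R) ^ 2) := by
  induction j using Nat.strong_induction_on with
  | _ j ih =>
    rcases Nat.even_or_odd' (j + 1) with ⟨k, hk | hk⟩
    · -- j + 1 = 2 * k, k ≥ 1
      obtain ⟨i, rfl⟩ : ∃ i, k = i + 1 := ⟨k - 1, by omega⟩
      have hi : i < j := by omega
      obtain ⟨hu, hv⟩ := ih i hi
      have hj : j = 2 * i + 1 := by omega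
      subst hj
      unfold ladP at hu hv ⊢
      rw [show 2 * i + 1 + 1 = 2 * (i + 1) by ring, lad_two_mul]
      refine ⟨(lead_dN b₄ b₆ b₈ hu hv.1).congr (by ring) rfl,
        (lead_dD b₂ b₄ b₆ hu hv).congr (by ring) (by push_cast; ring)⟩
    · -- j + 1 = 2 * k + 1
      have hj : j = 2 * k := by omega
      subst hj
      rcases k with _ | i
      · simp only [ladP, Nat.mul_zero, zero_add, lad_one, Nat.cast_one, one_pow]
        exact ⟨Lead.X, Lead.one⟩
      · have hi : i < 2 * (i + 1) := by omega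
        have hi' : i + 1 < 2 * (i + 1) := by omega
        obtain ⟨hu₁, hv₁⟩ := ih i hi
        obtain ⟨hu₂, hv₂⟩ := ih (i + 1) hi'
        unfold ladP at hu₁ hv₁ hu₂ hv₂ ⊢
        rw [lad_two_mul_add_one]
        refine ⟨(lead_oN b₂ b₄ b₆ hu₁ hv₁ hu₂ hv₂).congr (by ring) (by push_cast; ring),
          (lead_oD hu₁ hv₁ hu₂ hv₂).congr (by ring) (by push_cast; ring)⟩

/-- The polynomial `Q_m = N_m D_{m+1} - N_{m+1} D_m`, whose roots are the `x`-coordinates of the
nonzero points killed by `2m+1`. -/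
noncomputable def ladQ (m : ℕ) : R[X] :=
  oW (ladP b₂ b₄ b₆ b₈ m).1 (ladP b₂ b₄ b₆ b₈ m).2
    (ladP b₂ b₄ b₆ b₈ (m + 1)).1 (ladP b₂ b₄ b₆ b₈ (m + 1)).2

theorem lead_ladQ (m : ℕ) :
    Lead (ladQ b₂ b₄ b₆ b₈ m) (2 * m * m + 2 * m) ((2 * m + 1 : ℕ) : R) := by
  rcases m with _ | i
  · simp only [ladQ, ladP, lad_zero, zero_add, lad_one, oW]
    simp only [one_mul, mul_zero, sub_zero]
    exact (Lead.one (R := R)).congr rfl (by simp)
  · obtain ⟨hu₁, hv₁⟩ := lead_ladP b₂ b₄ b₆ b₈ i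
    obtain ⟨hu₂, hv₂⟩ := lead_ladP b₂ b₄ b₆ b₈ (i + 1)
    unfold ladQ
    exact (lead_oW hu₁ hv₁ hu₂ hv₂).congr (by ring) (by push_cast; ring)

end LadP

end Fermat.Agent.S13.H164

end
-- ===== PACK-END S13/H164/LadderDeg.lean

-- ===== PACK-BEGIN Lib/Cheb/H221/LogBound.lean
section
/-
CHEB shared library, piece A (helper221): a continuous logarithm of a function with a nonzero
limit is bounded.
-/


set_option autoImplicit false

namespace Fermat.Agent.Lib.Cheb.H221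

open Filter Topology Complex

/-- A continuous real function on a preconnected set taking only integer values, and vanishing at
one point, vanishes identically. -/
lemma eq_zero_of_int_valued {S : Set ℝ} (hS : IsPreconnected S) {h : ℝ → ℝ}
    (hc : ContinuousOn h S) (hint : ∀ s ∈ S, ∃ n : ℤ, h s = n) {s₀ : ℝ} (hs₀ : s₀ ∈ S)
    (h0 : h s₀ = 0) {s : ℝ} (hs : s ∈ S) : h s = 0 := by
  obtain ⟨n, hn⟩ := hint s hs
  by_contra hne
  have hn0 : n ≠ 0 := by
    rintro rfl
    exact hne (by simpa using hn)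
  rcases lt_or_gt_of_ne hn0 with hneg | hpos
  · -- `n ≤ -1`: the value `-1/2` is attained
    have hle : (n : ℝ) ≤ -1 := by exact_mod_cast Int.le_sub_one_of_lt hneg
    have hmem : (-1 / 2 : ℝ) ∈ Set.Icc (h s) (h s₀) := by
      rw [hn, h0]; constructor <;> linarith
    obtain ⟨t, ht, hval⟩ := hS.intermediate_value hs hs₀ hc hmem
    obtain ⟨k, hk⟩ := hint t ht
    rw [hk] at hval
    have h2 : (2 * k : ℤ) = -1 := by
      have : (2 : ℝ) * k = -1 := by linarith
      exact_mod_cast this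
    omega
  · have hge : (1 : ℝ) ≤ n := by exact_mod_cast Int.add_one_le_of_lt hpos
    have hmem : (1 / 2 : ℝ) ∈ Set.Icc (h s₀) (h s) := by
      rw [hn, h0]; constructor <;> linarith
    obtain ⟨t, ht, hval⟩ := hS.intermediate_value hs₀ hs hc hmem
    obtain ⟨k, hk⟩ := hint t ht
    rw [hk] at hval
    have h2 : (2 * k : ℤ) = 1 := by
      have : (2 : ℝ) * k = 1 := by linarith
      exact_mod_cast this
    omega

/-- If `exp ∘ Λ` tends to a nonzero limit at `1⁺` and `Λ` is continuous on `(1,∞)`, then `Λ` is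
bounded near `1⁺`. -/
lemma exists_bound_of_exp_tendsto {Λ : ℝ → ℂ} (hΛ : ContinuousOn Λ (Set.Ioi 1)) {ℓ : ℂ}
    (hℓ : ℓ ≠ 0) (h : Tendsto (fun s => Complex.exp (Λ s)) (𝓝[>] (1 : ℝ)) (𝓝 ℓ)) :
    ∃ B : ℝ, ∀ᶠ s in 𝓝[>] (1 : ℝ), ‖Λ s‖ ≤ B := by
  -- eventually `exp (Λ s) / ℓ` is within `1/2` of `1`
  have h1 : Tendsto (fun s => Complex.exp (Λ s) / ℓ - 1) (𝓝[>] (1 : ℝ)) (𝓝 0) := by
    have := (h.div_const ℓ).sub_const 1
    simpa [div_self hℓ] using this
  have hev : ∀ᶠ s in 𝓝[>] (1 : ℝ), ‖Complex.exp (Λ s) / ℓ - 1‖ < 1 / 2 := by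
    have := (tendsto_zero_iff_norm_tendsto_zero.mp h1).eventually
      (gt_mem_nhds (by norm_num : (0 : ℝ) < 1 / 2))
    exact this
  obtain ⟨u, hu1, hu⟩ := mem_nhdsGT_iff_exists_Ioo_subset.mp hev
  -- the set `S = Ioo 1 u`
  have hSsub : Set.Ioo (1 : ℝ) u ⊆ Set.Ioi 1 := fun s hs => hs.1
  obtain ⟨s₀, hs₀⟩ : ∃ s₀, s₀ ∈ Set.Ioo (1 : ℝ) u := ⟨(1 + u) / 2, by
    constructor <;> linarith [Set.mem_Ioi.mp hu1]⟩
  -- the auxiliary function
  set w : ℝ → ℂ := fun s => Complex.exp (Λ s) / ℓ - 1 with hw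
  set g : ℝ → ℂ := fun s => Λ s - Complex.log (1 + w s) with hg
  have hwlt : ∀ s ∈ Set.Ioo (1 : ℝ) u, ‖w s‖ < 1 / 2 := fun s hs => hu hs
  have hwcont : ContinuousOn w (Set.Ioo (1 : ℝ) u) := by
    have : ContinuousOn (fun s => Complex.exp (Λ s)) (Set.Ioo (1 : ℝ) u) :=
      (Complex.continuous_exp.comp_continuousOn (hΛ.mono hSsub))
    exact (this.div_const ℓ).sub continuousOn_const
  have hgcont : ContinuousOn g (Set.Ioo (1 : ℝ) u) := by
    refine (hΛ.mono hSsub).sub ?_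
    refine ContinuousOn.clog (continuousOn_const.add hwcont) ?_
    intro s hs
    exact Complex.mem_slitPlane_of_norm_lt_one (lt_trans (hwlt s hs) (by norm_num))
  have hexp : ∀ s ∈ Set.Ioo (1 : ℝ) u, Complex.exp (g s) = ℓ := by
    intro s hs
    have hne : (1 + w s) ≠ 0 := by
      intro h0
      have : w s = -1 := by linear_combination h0
      have hlt := hwlt s hs
      rw [this, norm_neg, norm_one] at hlt
      norm_num at hlt
    simp only [hg, Complex.exp_sub, Complex.exp_log hne]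
    simp only [hw]
    have : (1 + (Complex.exp (Λ s) / ℓ - 1)) = Complex.exp (Λ s) / ℓ := by ring
    rw [this]
    field_simp
  -- `g` is constant on `S`
  have hconst : ∀ s ∈ Set.Ioo (1 : ℝ) u, g s = g s₀ := by
    intro s hs
    have hint : ∀ t ∈ Set.Ioo (1 : ℝ) u, ∃ n : ℤ, g t - g s₀ = n * (2 * Real.pi * Complex.I) := by
      intro t ht
      apply Complex.exp_eq_one_iff.mp
      rw [Complex.exp_sub, hexp t ht, hexp s₀ hs₀, div_self hℓ]
    have key := eq_zero_of_int_valued (isPreconnected_Ioo (a := (1 : ℝ)) (b := u))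
      (h := fun t => (g t - g s₀).im / (2 * Real.pi))
      (by
        refine ContinuousOn.div_const ?_ _
        exact Complex.continuous_im.comp_continuousOn (hgcont.sub continuousOn_const))
      (by
        intro t ht
        obtain ⟨n, hn⟩ := hint t ht
        refine ⟨n, ?_⟩
        simp only [hn]
        have hpi : (2 * Real.pi) ≠ 0 := by positivity
        have : ((n : ℂ) * (2 * (Real.pi : ℂ) * Complex.I)).im = n * (2 * Real.pi) := by
          simp [Complex.mul_im]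
        rw [this]
        field_simp)
      hs₀ (by simp) hs
    obtain ⟨n, hn⟩ := hint s hs
    have hn0 : (n : ℝ) = 0 := by
      have hpi : (2 * Real.pi) ≠ 0 := by positivity
      have him : ((n : ℂ) * (2 * (Real.pi : ℂ) * Complex.I)).im = n * (2 * Real.pi) := by
        simp [Complex.mul_im]
      have : (g s - g s₀).im / (2 * Real.pi) = n := by
        rw [hn, him]; field_simp
      have key' : (g s - g s₀).im / (2 * Real.pi) = 0 := key
      rw [this] at key'
      exact key'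
    have hn0' : n = 0 := by exact_mod_cast hn0
    rw [hn0'] at hn
    simp only [Int.cast_zero, zero_mul] at hn
    exact sub_eq_zero.mp hn
  refine ⟨‖g s₀‖ + 1, ?_⟩
  have hmem : Set.Ioo (1 : ℝ) u ∈ 𝓝[>] (1 : ℝ) := Ioo_mem_nhdsGT hu1
  filter_upwards [hmem] with s hs
  have e : Λ s = g s₀ + Complex.log (1 + w s) := by
    have := hconst s hs
    simp only [hg] at this ⊢
    linear_combination this
  rw [e]
  have hlog : ‖Complex.log (1 + w s)‖ ≤ 1 := by
    have h2 := Complex.norm_log_one_add_half_le_self (le_of_lt (hwlt s hs))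
    have h3 := hwlt s hs
    linarith
  exact le_trans (norm_add_le _ _) (by linarith)

end Fermat.Agent.Lib.Cheb.H221

end
-- ===== PACK-END Lib/Cheb/H221/LogBound.lean

-- ===== PACK-BEGIN Lib/Cheb/H341/Main.lean
section



/-!
# CHEB piece M (helper341): `FrobFiniteStatement` from `Z`, `B0`, `A`, `D`

`frobFinite : PrimeSumStatement → PrimeCountBoundStatement → CountStatement → FrobStatement →
FrobFiniteStatement`, in the exact shapes of `Fermat/Agent/Lib/Cheb/Spec.lean`.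
-/

set_option autoImplicit false

namespace Fermat.Agent.Lib.Cheb.H341

open NumberField Finset
open Fermat.Agent.Lib.Cheb

section

variable (L : Type) [Field L] [NumberField L]

/-- The primes of `𝓞 L` containing `p` with decomposition group exactly `X`. -/
def primesEq (X : Subgroup (L ≃ₐ[ℚ] L)) (p : ℕ) : Set (Ideal (𝓞 L)) :=
  {P | P.IsPrime ∧ (p : 𝓞 L) ∈ P ∧ Spec.decomp L P = X}

theorem primesAbove_finite {p : ℕ} (hp : p.Prime) :
    {P : Ideal (𝓞 L) | P.IsPrime ∧ (p : 𝓞 L) ∈ P}.Finite := by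
  have : Fact p.Prime := ⟨hp⟩
  have := Int.ideal_span_isMaximal_of_prime p
  refine (IsDedekindDomain.primesOver_finite (Ideal.span {(p : ℤ)}) (𝓞 L)).subset ?_
  rintro P ⟨hP, hpP⟩
  refine ⟨hP, ?_⟩
  rw [Ideal.liesOver_iff]
  refine Ideal.IsMaximal.eq_of_le inferInstance ?_ ?_
  · have := hP
    exact (Ideal.IsPrime.under ℤ P).ne_top
  · rw [Ideal.span_le, Set.singleton_subset_iff]
    change (p : ℤ) ∈ Ideal.comap (algebraMap ℤ (𝓞 L)) P
    rw [Ideal.mem_comap]
    simpa using hpP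

theorem primesEq_finite (X : Subgroup (L ≃ₐ[ℚ] L)) {p : ℕ} (hp : p.Prime) :
    (primesEq L X p).Finite :=
  (primesAbove_finite L hp).subset (fun _ hP => ⟨hP.1, hP.2.1⟩)

/-- `a_X(p) = ∑_{P ∣ p, D_P = X} |D_P|`. -/
noncomputable def aCoef (X : Subgroup (L ≃ₐ[ℚ] L)) (p : ℕ) : ℕ :=
  ∑ᶠ P ∈ primesEq L X p, Nat.card (Spec.decomp L P)

theorem decompWeight_eq_sum (H : Subgroup (L ≃ₐ[ℚ] L)) {p : ℕ} (hp : p.Prime) :
    Spec.decompWeight L H p = ∑ X ∈ subLe H, aCoef L X p := by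
  unfold Spec.decompWeight aCoef
  rw [finsum_set_coe_eq_finsum_mem (f := fun P : Ideal (𝓞 L) => Nat.card (Spec.decomp L P))
    (Spec.primesLe L H p)]
  have hU : Spec.primesLe L H p = ⋃ X ∈ (subLe H : Set (Subgroup (L ≃ₐ[ℚ] L))), primesEq L X p := by
    ext P
    simp only [Spec.primesLe, primesEq, Set.mem_ofPred_eq, Set.mem_iUnion, Finset.mem_coe,
      mem_subLe, exists_prop]
    constructor
    · rintro ⟨h1, h2, h3⟩
      exact ⟨Spec.decomp L P, h3, h1, h2, rfl⟩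
    · rintro ⟨X, hX, h1, h2, rfl⟩
      exact ⟨h1, h2, hX⟩
  rw [hU, finsum_mem_biUnion]
  · rw [finsum_mem_coe_finset]
  · intro X _ Y _ hXY
    rw [Function.onFun, Set.disjoint_left]
    intro P hPX hPY
    exact hXY (hPX.2.2.symm.trans hPY.2.2)
  · exact (subLe H).finite_toSet
  · intro X _
    exact primesEq_finite L X hp

theorem exists_of_aCoef_ne_zero {X : Subgroup (L ≃ₐ[ℚ] L)} {p : ℕ} (h : aCoef L X p ≠ 0) :
    ∃ P : Ideal (𝓞 L), P.IsPrime ∧ (p : 𝓞 L) ∈ P ∧ Spec.decomp L P = X := by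
  by_contra hcon
  push Not at hcon
  apply h
  unfold aCoef
  refine finsum_mem_eq_zero_of_forall_eq_zero (fun P hP => ?_)
  exact absurd hP.2.2 (hcon P hP.1 hP.2.1)

end

/-- **Piece M.** -/
theorem frobFinite (hZ : Spec.PrimeSumStatement) (hB0 : Spec.PrimeCountBoundStatement)
    (hA : Spec.CountStatement) (hD : Spec.FrobStatement) : Spec.FrobFiniteStatement := by
  classical
  intro L _ _ _ σ S
  -- the bad sets
  obtain ⟨BD, hBD⟩ := hD L
  choose BA hBA using hA L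
  set B : Finset ℕ := S ∪ BD ∪ (subLe (⊤ : Subgroup (L ≃ₐ[ℚ] L))).biUnion BA with hB
  have hBS : ∀ p, p ∉ B → p ∉ S := fun p hp hpS =>
    hp (mem_union_left _ (mem_union_left _ hpS))
  have hBBD : ∀ p, p ∉ B → p ∉ BD := fun p hp hpS =>
    hp (mem_union_left _ (mem_union_right _ hpS))
  have hBBA : ∀ p, p ∉ B → ∀ H, p ∉ BA H := fun p hp H hpS =>
    hp (mem_union_right _ (mem_biUnion.mpr ⟨H, by simp, hpS⟩))
  -- coefficient functions
  set g : Subgroup (L ≃ₐ[ℚ] L) → Nat.Primes → ℝ :=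
    fun X p => if (p : ℕ) ∈ B then 0 else (aCoef L X p : ℝ) with hg
  set f : Subgroup (L ≃ₐ[ℚ] L) → Nat.Primes → ℝ :=
    fun H p => if (p : ℕ) ∈ B then 0
      else (Spec.primeCount (IntermediateField.fixedField H) p : ℝ) with hf
  -- (i)
  have hi : ∀ H p, ∑ X ∈ subLe H, g X p = (Nat.card H : ℝ) * f H p := by
    intro H p
    by_cases hp : (p : ℕ) ∈ B
    · simp [hg, hf, hp]
    · simp only [hg, hf, hp, if_false]
      have h1 := hBA H p p.2 (hBBA p hp H)
      rw [decompWeight_eq_sum L H p.2] at h1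
      have h2 : ((∑ X ∈ subLe H, aCoef L X p : ℕ) : ℝ) =
          ((Spec.primeCount (IntermediateField.fixedField H) p * Nat.card H : ℕ) : ℝ) := by
        rw [h1]
      push_cast at h2
      rw [h2]
      ring
  -- (ii)
  have hfb : ∀ H, Bdd (f H) := by
    intro H
    refine ⟨(Module.finrank ℚ (IntermediateField.fixedField H) : ℝ), fun p => ?_⟩
    simp only [hf]
    split_ifs
    · simp
    · rw [abs_of_nonneg (Nat.cast_nonneg _)]
      exact_mod_cast hB0 (IntermediateField.fixedField H) p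
  -- (iii)
  have hfn : ∀ H, Near (f H) 1 := by
    intro H
    obtain ⟨C, hC⟩ := hZ (IntermediateField.fixedField H)
    have hb0 : Bdd (fun p : Nat.Primes =>
        (Spec.primeCount (IntermediateField.fixedField H) p : ℝ)) := by
      refine ⟨(Module.finrank ℚ (IntermediateField.fixedField H) : ℝ), fun p => ?_⟩
      beta_reduce
      rw [abs_of_nonneg (Nat.cast_nonneg _)]
      exact_mod_cast hB0 (IntermediateField.fixedField H) p
    have hn0 : Near (fun p : Nat.Primes =>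
        (Spec.primeCount (IntermediateField.fixedField H) p : ℝ)) 1 := by
      refine ⟨C, fun s hs hs2 => ?_⟩
      have := hC s hs hs2
      simpa [pSum, ell] using this
    refine Near.congr_off_finite hb0 hn0 (Finset.subtype Nat.Prime B) (fun p hp => ?_)
    have hp' : (p : ℕ) ∉ B := by
      intro h
      exact hp (Finset.mem_subtype.mpr h)
    simp [hf, hp']
  -- (iv)
  have hgnn : ∀ X p, 0 ≤ g X p := by
    intro X p
    simp only [hg]
    split_ifs
    · exact le_refl _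
    · exact Nat.cast_nonneg _
  have hgb : ∀ X, Bdd (g X) := by
    intro X
    obtain ⟨K, hK⟩ := hfb ⊤
    refine ⟨(Nat.card (⊤ : Subgroup (L ≃ₐ[ℚ] L)) : ℝ) * K, fun p => ?_⟩
    rw [abs_of_nonneg (hgnn X p)]
    have h1 : g X p ≤ ∑ Y ∈ subLe (⊤ : Subgroup (L ≃ₐ[ℚ] L)), g Y p :=
      single_le_sum (f := fun Y => g Y p) (fun Y _ => hgnn Y p) (by simp)
    rw [hi] at h1
    refine h1.trans ?_
    exact mul_le_mul_of_nonneg_left ((le_abs_self _).trans (hK p)) (Nat.cast_nonneg _)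
  -- (v)
  have hv : ∀ H : Subgroup (L ≃ₐ[ℚ] L),
      Near (fun p => ∑ X ∈ subLe H, g X p) (Nat.card H) := by
    intro H
    have := (hfn H).const_mul (Nat.card H : ℝ)
    rw [mul_one] at this
    have e : (fun p => ∑ X ∈ subLe H, g X p) = fun p => (Nat.card H : ℝ) * f H p := by
      funext p
      exact hi H p
    rw [e]
    exact this
  -- (vi)
  have hmain := near_psi_of_near_card g hgb hv (Subgroup.zpowers σ)
  have hpos : ((psi (Subgroup.zpowers σ) : ℕ) : ℝ) ≠ 0 := by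
    have := psi_zpowers_pos σ
    positivity
  obtain ⟨p, hp⟩ := hmain.exists_ne_zero hpos
  have hpB : (p : ℕ) ∉ B := by
    intro h
    apply hp
    simp [hg, h]
  have hne : aCoef L (Subgroup.zpowers σ) p ≠ 0 := by
    intro h
    apply hp
    simp [hg, hpB, h]
  obtain ⟨P, hP, hpP, hDP⟩ := exists_of_aCoef_ne_zero L hne
  obtain ⟨hin, τ, hτ, hτD⟩ := hBD p p.2 (hBBD p hpB) P hP hpP
  exact ⟨p, P, τ, p.2, hBS p hpB, hP, hpP, hin, hτ, by rw [← hτD, hDP]⟩

end Fermat.Agent.Lib.Cheb.H341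

end
-- ===== PACK-END Lib/Cheb/H341/Main.lean

-- ===== PACK-BEGIN S52/H621/RatDeg.lean
section


/-!
# S52 / Part A (Frobenius relation, Manin's proof): degree of a rational function

`ratDeg R = max (natDegree R.num) (natDegree R.denom)` and its multiplicativity under
composition (piece A2d of `coord/S52-route.md`).
-/

set_option autoImplicit false

open Polynomial

namespace Fermat.Agent.S52.H621

variable {F : Type*} [Field F]

/-- The degree (height) of a rational function: `max (deg num) (deg denom)`. -/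
noncomputable def ratDeg (R : RatFunc F) : ℕ := max R.num.natDegree R.denom.natDegree

theorem ratDeg_def (R : RatFunc F) : ratDeg R = max R.num.natDegree R.denom.natDegree := rfl

@[simp] theorem ratDeg_zero : ratDeg (0 : RatFunc F) = 0 := by
  simp [ratDeg]

@[simp] theorem ratDeg_one : ratDeg (1 : RatFunc F) = 0 := by
  simp [ratDeg]

@[simp] theorem ratDeg_algebraMap (p : F[X]) :
    ratDeg (algebraMap F[X] (RatFunc F) p) = p.natDegree := by
  simp [ratDeg]

@[simp] theorem ratDeg_C (c : F) : ratDeg (RatFunc.C c : RatFunc F) = 0 := by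
  have : (RatFunc.C c : RatFunc F) = algebraMap F[X] (RatFunc F) (Polynomial.C c) := by
    simp [RatFunc.algebraMap_C]
  rw [this, ratDeg_algebraMap, natDegree_C]

@[simp] theorem ratDeg_X : ratDeg (RatFunc.X : RatFunc F) = 1 := by
  have : (RatFunc.X : RatFunc F) = algebraMap F[X] (RatFunc F) Polynomial.X := by
    simp [RatFunc.algebraMap_X]
  rw [this, ratDeg_algebraMap, natDegree_X]

/-- The degree of a quotient of coprime polynomials. -/
theorem ratDeg_div_of_isCoprime (N D : F[X]) (hD : D ≠ 0) (h : IsCoprime N D) :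
    ratDeg (algebraMap F[X] (RatFunc F) N / algebraMap F[X] (RatFunc F) D)
      = max N.natDegree D.natDegree := by
  classical
  have hg : IsUnit (gcd N D) := by
    rw [← EuclideanDomain.gcd_isUnit_iff] at h
    -- `gcd` here is `GCDMonoid.gcd`
    have h1 : gcd N D ∣ EuclideanDomain.gcd N D :=
      EuclideanDomain.dvd_gcd (gcd_dvd_left N D) (gcd_dvd_right N D)
    exact isUnit_of_dvd_unit h1 h
  have hDg : D / gcd N D ≠ 0 := right_div_gcd_ne_zero hD
  have hc : (D / gcd N D).leadingCoeff⁻¹ ≠ 0 := inv_ne_zero (leadingCoeff_ne_zero.mpr hDg)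
  have key : ∀ p : F[X], gcd N D ∣ p → (p / gcd N D).natDegree = p.natDegree := by
    intro p hp
    obtain ⟨q, rfl⟩ := hp
    have hg0 : gcd N D ≠ 0 := hg.ne_zero
    rw [← EuclideanDomain.eq_div_of_mul_eq_right hg0 rfl]
    by_cases hq : q = 0
    · simp [hq]
    · rw [natDegree_mul hg0 hq, natDegree_eq_zero_of_isUnit hg, zero_add]
  rw [ratDeg, RatFunc.num_div, RatFunc.denom_div N hD, natDegree_C_mul hc, natDegree_C_mul hc,
    key N (gcd_dvd_left N D), key D (gcd_dvd_right N D)]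

/-- The degree of a quotient of polynomials with a common factor removed. -/
theorem ratDeg_div_of_eq_mul (N D G N' D' : F[X]) (hD : D ≠ 0) (hN : N = G * N')
    (hD' : D = G * D') (h : IsCoprime N' D') :
    ratDeg (algebraMap F[X] (RatFunc F) N / algebraMap F[X] (RatFunc F) D)
      = max N'.natDegree D'.natDegree := by
  have hG : G ≠ 0 := by rintro rfl; exact hD (by simp [hD'])
  have hD0 : D' ≠ 0 := by rintro rfl; exact hD (by simp [hD'])
  rw [← ratDeg_div_of_isCoprime N' D' hD0 h, hN, hD', map_mul, map_mul,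
    mul_div_mul_left _ _ (RatFunc.algebraMap_ne_zero hG)]

/-! ### Homogenisation -/

/-- `homog n N P Q = ∑_{i ≤ n} N_i P^i Q^(n-i)`, the homogenisation of `N` in degree `n`
evaluated at `(P, Q)`. -/
noncomputable def homog {R : Type*} [CommRing R] [Algebra F R] (n : ℕ) (N : F[X]) (P Q : R) : R :=
  ∑ i ∈ Finset.range (n + 1), algebraMap F R (N.coeff i) * P ^ i * Q ^ (n - i)

theorem homog_map {R S : Type*} [CommRing R] [Algebra F R] [CommRing S] [Algebra F S]
    (φ : R →ₐ[F] S) (n : ℕ) (N : F[X]) (P Q : R) :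
    φ (homog n N P Q) = homog n N (φ P) (φ Q) := by
  simp [homog, map_sum]

/-- In a field: if `q ≠ 0` then `homog n N p q = q ^ n * N(p/q)`. -/
theorem homog_eq_of_ne_zero {L : Type*} [Field L] [Algebra F L] (n : ℕ) (N : F[X])
    (hn : N.natDegree ≤ n) (p q : L) (hq : q ≠ 0) :
    homog n N p q = q ^ n * aeval (p / q) N := by
  rw [aeval_eq_sum_range' (Nat.lt_succ_of_le hn), Finset.mul_sum, homog]
  refine Finset.sum_congr rfl fun i hi => ?_
  have hi' : i ≤ n := Nat.lt_succ_iff.mp (Finset.mem_range.mp hi)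
  rw [Algebra.smul_def, div_pow]
  have : q ^ n = q ^ (n - i) * q ^ i := by rw [← pow_add, Nat.sub_add_cancel hi']
  rw [this]
  field_simp

/-- `homog n N p 0 = N_n p^n`. -/
theorem homog_zero_right {R : Type*} [CommRing R] [Algebra F R] (n : ℕ) (N : F[X]) (p : R) :
    homog n N p 0 = algebraMap F R (N.coeff n) * p ^ n := by
  rw [homog, Finset.sum_eq_single n]
  · simp
  · intro i hi hin
    have hi' : i < n := lt_of_le_of_ne (Nat.lt_succ_iff.mp (Finset.mem_range.mp hi)) hin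
    have : n - i ≠ 0 := by omega
    simp [zero_pow this]
  · intro h; exact absurd (Finset.mem_range.mpr (Nat.lt_succ_self n)) h

/-- Key non-vanishing: coprime `N`, `D` with `max (deg N) (deg D) = n` have no common
"projective zero". -/
theorem homog_ne_zero_of_isCoprime {L : Type*} [Field L] [Algebra F L] (N D : F[X])
    (h : IsCoprime N D) (n : ℕ) (hn : max N.natDegree D.natDegree = n) (p q : L)
    (hpq : p ≠ 0 ∨ q ≠ 0) : homog n N p q ≠ 0 ∨ homog n D p q ≠ 0 := by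
  by_contra hcon
  push Not at hcon
  obtain ⟨h1, h2⟩ := hcon
  have hNn : N.natDegree ≤ n := hn ▸ le_max_left _ _
  have hDn : D.natDegree ≤ n := hn ▸ le_max_right _ _
  by_cases hq : q = 0
  · subst hq
    have hp : p ≠ 0 := by tauto
    rw [homog_zero_right] at h1 h2
    have hpn : p ^ n ≠ 0 := pow_ne_zero n hp
    have h1' : N.coeff n = 0 := by
      have := (mul_eq_zero.mp h1).resolve_right hpn
      exact (map_eq_zero (algebraMap F L)).mp this
    have h2' : D.coeff n = 0 := by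
      have := (mul_eq_zero.mp h2).resolve_right hpn
      exact (map_eq_zero (algebraMap F L)).mp this
    -- both leading coefficients vanish: contradiction with `max = n`
    rcases max_cases N.natDegree D.natDegree with ⟨hm, -⟩ | ⟨hm, -⟩
    · have hNd : N.natDegree = n := hm ▸ hn
      have hN0 : N = 0 := by
        by_contra hN0
        have := leadingCoeff_ne_zero.mpr hN0
        rw [leadingCoeff, hNd] at this
        exact this h1'
      subst hN0
      have hn0 : n = 0 := by simpa using hNd.symm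
      subst hn0
      have hD0 : D = 0 := by
        have : D.natDegree = 0 := Nat.le_zero.mp hDn
        rw [eq_C_of_natDegree_eq_zero this, h2', C_0]
      subst hD0
      obtain ⟨u, v, huv⟩ := h
      simp at huv
    · have hDd : D.natDegree = n := hm ▸ hn
      have hD0 : D = 0 := by
        by_contra hD0
        have := leadingCoeff_ne_zero.mpr hD0
        rw [leadingCoeff, hDd] at this
        exact this h2'
      subst hD0
      have hn0 : n = 0 := by simpa using hDd.symm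
      subst hn0
      have hN0 : N = 0 := by
        have : N.natDegree = 0 := Nat.le_zero.mp hNn
        rw [eq_C_of_natDegree_eq_zero this, h1', C_0]
      subst hN0
      obtain ⟨u, v, huv⟩ := h
      simp at huv
  · rw [homog_eq_of_ne_zero n N hNn p q hq] at h1
    rw [homog_eq_of_ne_zero n D hDn p q hq] at h2
    have hqn : q ^ n ≠ 0 := pow_ne_zero n hq
    have h1' := (mul_eq_zero.mp h1).resolve_left hqn
    have h2' := (mul_eq_zero.mp h2).resolve_left hqn
    obtain ⟨u, v, huv⟩ := h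
    have := congrArg (aeval (p / q)) huv
    simp [h1', h2'] at this

end Fermat.Agent.S52.H621

end
-- ===== PACK-END S52/H621/RatDeg.lean

-- ===== PACK-BEGIN S13/H11/ValQ.lean
section


/-!
# S13 / T7 (helper11): valuations on `ℚ` with `w 2 < 1`

Any valuation `w` on `ℚ` with `w 2 < 1` behaves like the `2`-adic valuation:
odd integers are units, every nonzero rational has valuation `(w 2) ^ k`, and the residue
field is `𝔽₂` (an integral rational is congruent to `0` or to `1`).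
-/

set_option autoImplicit false

namespace Fermat.Agent.S13.H11

variable {Γ₀ : Type*} [LinearOrderedCommGroupWithZero Γ₀] (w : Valuation ℚ Γ₀)

lemma val_nat_le_one (n : ℕ) : w (n : ℚ) ≤ 1 := by
  induction n with
  | zero => simp
  | succ n ih =>
    push_cast
    exact (w.map_add _ _).trans (max_le ih (by simp))

lemma val_int_le_one (n : ℤ) : w (n : ℚ) ≤ 1 := by
  rcases Int.eq_nat_or_neg n with ⟨m, rfl | rfl⟩
  · exact_mod_cast val_nat_le_one w m
  · push_cast
    rw [Valuation.map_neg]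
    exact val_nat_le_one w m

variable {w}

lemma val_two_ne_zero : w (2 : ℚ) ≠ 0 := by
  rw [Valuation.ne_zero_iff]; norm_num

lemma val_two_pos : 0 < w (2 : ℚ) := by
  rw [Valuation.pos_iff]; norm_num

lemma val_even_lt_one (h2 : w (2 : ℚ) < 1) {n : ℤ} (hn : Even n) : w (n : ℚ) < 1 := by
  obtain ⟨m, rfl⟩ := hn
  have : ((m + m : ℤ) : ℚ) = 2 * (m : ℚ) := by push_cast; ring
  rw [this, map_mul]
  exact (mul_le_of_le_one_right' (val_int_le_one w m)).trans_lt h2

lemma val_odd_eq_one (h2 : w (2 : ℚ) < 1) {n : ℤ} (hn : Odd n) : w (n : ℚ) = 1 := by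
  obtain ⟨m, rfl⟩ := hn
  have h : w ((2 * m : ℤ) : ℚ) < 1 := val_even_lt_one h2 (even_two_mul m)
  have : ((2 * m + 1 : ℤ) : ℚ) = 1 + ((2 * m : ℤ) : ℚ) := by push_cast; ring
  rw [this, w.map_add_eq_of_lt_left (by rwa [map_one]), map_one]

lemma int_eq_two_pow_mul_odd {z : ℤ} (hz : z ≠ 0) :
    ∃ (a : ℕ) (m : ℤ), Odd m ∧ z = 2 ^ a * m := by
  have hfin : FiniteMultiplicity (2 : ℤ) z :=
    Int.finiteMultiplicity_iff.mpr ⟨by decide, hz⟩
  obtain ⟨c, hc, hnd⟩ := hfin.exists_eq_pow_mul_and_not_dvd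
  refine ⟨_, c, ?_, hc⟩
  rw [← Int.not_even_iff_odd, even_iff_two_dvd]
  exact hnd

/-- Every nonzero rational is `2 ^ k * m / n` with `m`, `n` odd. -/
lemma rat_eq_two_zpow_mul_odd_div_odd {r : ℚ} (hr : r ≠ 0) :
    ∃ (k : ℤ) (m n : ℤ), Odd m ∧ Odd n ∧ r = (2 : ℚ) ^ k * m / n := by
  have hnum : r.num ≠ 0 := by
    rw [Ne, Rat.num_eq_zero]; exact hr
  have hden : (r.den : ℤ) ≠ 0 := by exact_mod_cast r.den_ne_zero
  obtain ⟨a, m, hm, hma⟩ := int_eq_two_pow_mul_odd hnum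
  obtain ⟨b, n, hn, hnb⟩ := int_eq_two_pow_mul_odd hden
  refine ⟨(a : ℤ) - b, m, n, hm, hn, ?_⟩
  have h2 : (2 : ℚ) ≠ 0 := by norm_num
  have hn0 : (n : ℚ) ≠ 0 := by
    intro h
    have : n = 0 := by exact_mod_cast h
    rw [this] at hn
    exact absurd hn (by decide)
  have hnumeq : (r.num : ℚ) = (2 : ℚ) ^ a * m := by
    have := congrArg (Int.cast : ℤ → ℚ) hma
    push_cast at this
    exact this
  have hdeneq : (r.den : ℚ) = (2 : ℚ) ^ b * n := by
    have := congrArg (Int.cast : ℤ → ℚ) hnb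
    push_cast at this
    exact this
  calc r = (r.num : ℚ) / (r.den : ℚ) := (Rat.num_div_den r).symm
    _ = ((2 : ℚ) ^ a * m) / ((2 : ℚ) ^ b * n) := by rw [hnumeq, hdeneq]
    _ = (2 : ℚ) ^ ((a : ℤ) - b) * m / n := by
      rw [zpow_sub₀ h2, zpow_natCast, zpow_natCast]
      field_simp

lemma val_two_zpow (k : ℤ) : w ((2 : ℚ) ^ k) = w 2 ^ k := map_zpow₀ w 2 k

/-- Every nonzero rational has valuation `(w 2) ^ k`. -/
lemma exists_val_eq_zpow (h2 : w (2 : ℚ) < 1) {r : ℚ} (hr : r ≠ 0) :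
    ∃ k : ℤ, w r = w 2 ^ k := by
  obtain ⟨k, m, n, hm, hn, rfl⟩ := rat_eq_two_zpow_mul_odd_div_odd hr
  refine ⟨k, ?_⟩
  rw [map_div₀, map_mul, val_odd_eq_one h2 hm, val_odd_eq_one h2 hn, val_two_zpow, mul_one,
    div_one]

lemma zpow_lt_one_iff (h2 : w (2 : ℚ) < 1) (k : ℤ) : w 2 ^ k < 1 ↔ 0 < k := by
  constructor
  · intro h
    by_contra hk
    rw [not_lt] at hk
    obtain ⟨n, rfl⟩ : ∃ n : ℕ, k = -n := ⟨(-k).toNat, by omega⟩
    rw [zpow_neg, zpow_natCast] at h
    have h1 : (w 2) ^ n ≤ 1 := pow_le_one₀ zero_le h2.le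
    have h3 : 0 < (w 2) ^ n := pow_pos val_two_pos n
    have := (one_le_inv₀ h3).mpr h1
    exact absurd h (not_lt.mpr this)
  · intro hk
    obtain ⟨n, rfl⟩ : ∃ n : ℕ, k = n := ⟨k.toNat, by omega⟩
    rw [zpow_natCast]
    have hn : n ≠ 0 := by omega
    exact pow_lt_one₀ zero_le h2 hn

lemma zpow_lt_zpow_iff (h2 : w (2 : ℚ) < 1) (k l : ℤ) : w 2 ^ k < w 2 ^ l ↔ l < k := by
  have h0 : w (2 : ℚ) ≠ 0 := val_two_ne_zero
  have hl : 0 < w 2 ^ l := zpow_pos val_two_pos l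
  have : w 2 ^ k = w 2 ^ (k - l) * w 2 ^ l := by
    rw [← zpow_add₀ h0]; congr 1; ring
  rw [this]
  constructor
  · intro h
    have h' : w 2 ^ (k - l) < 1 := by
      by_contra hc
      rw [not_lt] at hc
      have := mul_le_mul_left hc (w 2 ^ l)
      rw [one_mul] at this
      exact absurd h (not_lt.mpr this)
    have := (zpow_lt_one_iff h2 _).mp h'
    omega
  · intro h
    have h' : w 2 ^ (k - l) < 1 := (zpow_lt_one_iff h2 _).mpr (by omega)
    calc w 2 ^ (k - l) * w 2 ^ l < 1 * w 2 ^ l := by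
          exact mul_lt_mul_of_pos_right h' hl
      _ = w 2 ^ l := one_mul _

lemma zpow_eq_zpow_iff (h2 : w (2 : ℚ) < 1) (k l : ℤ) : w 2 ^ k = w 2 ^ l ↔ k = l := by
  constructor
  · intro h
    rcases lt_trichotomy k l with hlt | heq | hgt
    · exact absurd h ((zpow_lt_zpow_iff h2 l k).mpr hlt).ne'
    · exact heq
    · exact absurd h ((zpow_lt_zpow_iff h2 k l).mpr hgt).ne
  · rintro rfl; rfl

/-- The residue field is `𝔽₂`. -/
lemma val_lt_one_or_sub_one (h2 : w (2 : ℚ) < 1) {r : ℚ} (hr : w r ≤ 1) :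
    w r < 1 ∨ w (r - 1) < 1 := by
  by_cases hr0 : r = 0
  · left; rw [hr0, map_zero]; exact zero_lt_one
  obtain ⟨k, m, n, hm, hn, rfl⟩ := rat_eq_two_zpow_mul_odd_div_odd hr0
  have hval : w ((2 : ℚ) ^ k * m / n) = w 2 ^ k := by
    rw [map_div₀, map_mul, val_odd_eq_one h2 hm, val_odd_eq_one h2 hn, val_two_zpow, mul_one,
      div_one]
  rcases lt_trichotomy k 0 with hk | hk | hk
  · exfalso
    rw [hval] at hr
    have : w 2 ^ (0 : ℤ) < w 2 ^ k := (zpow_lt_zpow_iff h2 0 k).mpr hk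
    rw [zpow_zero] at this
    exact absurd hr (not_le.mpr this)
  · right
    subst hk
    have hn0 : (n : ℚ) ≠ 0 := by
      intro h
      have : n = 0 := by exact_mod_cast h
      rw [this] at hn
      exact absurd hn (by decide)
    have : (2 : ℚ) ^ (0 : ℤ) * m / n - 1 = ((m - n : ℤ) : ℚ) / n := by
      push_cast
      field_simp
    rw [this, map_div₀, val_odd_eq_one h2 hn, div_one]
    exact val_even_lt_one h2 (hm.sub_odd hn)
  · left
    rw [hval]
    exact (zpow_lt_one_iff h2 k).mpr hk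

lemma val_sub_lt_one_of_val_eq_one (h2 : w (2 : ℚ) < 1) {r s : ℚ} (hr : w r = 1) (hs : w s = 1) :
    w (r - s) < 1 := by
  have h1 : w (r - 1) < 1 := (val_lt_one_or_sub_one h2 hr.le).resolve_left hr.not_lt
  have h3 : w (s - 1) < 1 := (val_lt_one_or_sub_one h2 hs.le).resolve_left hs.not_lt
  have : r - s = (r - 1) - (s - 1) := by ring
  rw [this]
  exact (w.map_sub _ _).trans_lt (max_lt h1 h3)

end Fermat.Agent.S13.H11

end
-- ===== PACK-END S13/H11/ValQ.lean

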