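import Mathlib
import Fermat.Prelude.Def_FLTPrelim_Ramification
import Fermat.Agent.Pack.S15.AE0L2
import Fermat.Agent.Pack.S15.AE0L3
import Fermat.Agent.Pack.S15.AE0L1
import Fermat.Agent.Pack.S15.BE0L3

-- ===== PACK-BEGIN S12/H291/Jacobi.lean
section



/-!
# Jacobi's identity for a cyclic subgroup of odd order (helper291, row S12)

`W` a Weierstrass curve over a field `K` of characteristic `≠ 2` with full rational `2`-torsion:
`4x³ + b₂x² + 2b₄x + b₆ = 4 (x - e)(x - f)(x - g)`, `e, f, g` distinct.  `T₀` a point of odd order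
`n`.  With `Π_r := ∏_{k ∈ Ico 1 n} (x(k • T₀) - r)`:

  `(g - e)ⁿ Π_f² - (g - f)ⁿ Π_e² - (f - e)ⁿ Π_g² = 0`        (`jacobi_identity`).

This is the relation `λ² + λ'² = 1` between the transformed moduli in Jacobi's `n`-th order
transformation (equivalently: the quotient curve `E/⟨T₀⟩` has `2`-torsion differences
`(e_k - e_j)ⁿ Π_l / (Π_j Π_k)`), proved here WITHOUT constructing the isogeny: the polynomial
`(X - e) M_e - (X - f) M_f - c D` of degree `≤ n` has the `n + 1` roots `x(T + E_e)`, `x(T + E_f)`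
(`T ∈ ⟨T₀⟩`).
-/

set_option autoImplicit false
set_option linter.unusedSectionVars false

namespace Fermat.Agent.S12.H291

open WeierstrassCurve WeierstrassCurve.Affine
open Fermat.Agent.S05.XId

variable {K : Type*} [Field K] [DecidableEq K] {W : Affine K}

/-- The `x`-coordinate of a point (`0` at infinity). -/
def xc : W.Point → K
  | .zero => 0
  | .some x _ _ => x

@[simp] lemma xc_some {x y : K} (h : W.Nonsingular x y) : xc (Point.some x y h) = x := rfl

lemma xc_neg (P : W.Point) : xc (-P) = xc P := by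
  cases P with
  | zero => rfl
  | some x y h => rfl

lemma exists_some_of_ne_zero {P : W.Point} (hP : P ≠ 0) :
    ∃ (x y : K) (h : W.Nonsingular x y), P = Point.some x y h := by
  cases P with
  | zero => exact absurd rfl hP
  | some x y h => exact ⟨x, y, h, rfl⟩

/-- Two affine points with the same `x`-coordinate are equal or opposite. -/
lemma eq_or_eq_neg_of_xc_eq {P Q : W.Point} (hP : P ≠ 0) (hQ : Q ≠ 0) (h : xc P = xc Q) :
    P = Q ∨ P = -Q := by
  obtain ⟨x₁, y₁, h₁, rfl⟩ := exists_some_of_ne_zero hP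
  obtain ⟨x₂, y₂, h₂, rfl⟩ := exists_some_of_ne_zero hQ
  simp only [xc_some] at h
  subst h
  rcases Y_eq_of_X_eq h₁.1 h₂.1 rfl with hy | hy
  · left; subst hy; rfl
  · right
    rw [Point.neg_some]
    subst hy
    rfl

/-- Full rational `2`-torsion: `4x³ + b₂x² + 2b₄x + b₆ = 4 (x - e)(x - f)(x - g)`. -/
structure FullTwo (W : Affine K) (e f g : K) : Prop where
  two_ne : (2 : K) ≠ 0
  hb₂ : W.b₂ = -4 * (e + f + g)
  hb₄ : W.b₄ = 2 * (e * f + e * g + f * g)
  hb₆ : W.b₆ = -4 * (e * f * g)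
  hef : e ≠ f
  heg : e ≠ g
  hfg : f ≠ g

namespace FullTwo

variable {e f g : K}

lemma swap23 (h : FullTwo W e f g) : FullTwo W e g f where
  two_ne := h.two_ne
  hb₂ := by rw [h.hb₂]; ring
  hb₄ := by rw [h.hb₄]; ring
  hb₆ := by rw [h.hb₆]; ring
  hef := h.heg
  heg := h.hef
  hfg := h.hfg.symm

lemma swap12 (h : FullTwo W e f g) : FullTwo W f e g where
  two_ne := h.two_ne
  hb₂ := by rw [h.hb₂]; ring
  hb₄ := by rw [h.hb₄]; ring
  hb₆ := by rw [h.hb₆]; ring
  hef := h.hef.symm
  heg := h.hfg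
  hfg := h.heg

lemma rot (h : FullTwo W e f g) : FullTwo W f g e := h.swap12.swap23

lemma rot' (h : FullTwo W e f g) : FullTwo W g e f := h.swap23.swap12

lemma four_ne (h : FullTwo W e f g) : (4 : K) ≠ 0 := by
  have : (4 : K) = 2 * 2 := by norm_num
  rw [this]
  exact mul_ne_zero h.two_ne h.two_ne

lemma hb₈ (h : FullTwo W e f g) :
    W.b₈ = (W.b₂ * W.b₆ - W.b₄ ^ 2) / 4 := by
  rw [eq_div_iff h.four_ne, mul_comm]
  exact W.b_relation

lemma dblDen_eq (h : FullTwo W e f g) (x : K) :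
    dblDen W x = 4 * ((x - e) * (x - f) * (x - g)) := by
  simp only [dblDen, h.hb₂, h.hb₄, h.hb₆]
  ring

/-- The `y`-coordinate of the `2`-torsion point with `x = e`. -/
def yTwo (W : Affine K) (e : K) : K := -(W.a₁ * e + W.a₃) / 2

lemma equation_two (h : FullTwo W e f g) : W.Equation e (yTwo W e) := by
  rw [Affine.equation_iff]
  have h0 := h.dblDen_eq e
  simp only [dblDen, WeierstrassCurve.b₂, WeierstrassCurve.b₄, WeierstrassCurve.b₆, sub_self,
    zero_mul, mul_zero] at h0
  have h2 := h.two_ne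
  simp only [yTwo]
  field_simp
  linear_combination (-1) * h0

lemma nonsingular_two (h : FullTwo W e f g) : W.Nonsingular e (yTwo W e) := by
  rw [Affine.nonsingular_iff]
  refine ⟨h.equation_two, Or.inl ?_⟩
  have h2 := h.two_ne
  have hb2 := h.hb₂
  have hb4 := h.hb₄
  simp only [WeierstrassCurve.b₂, WeierstrassCurve.b₄] at hb2 hb4
  have key : W.a₁ * yTwo W e - (3 * e ^ 2 + 2 * W.a₂ * e + W.a₄) = -((e - f) * (e - g)) := by
    simp only [yTwo]
    field_simp
    linear_combination (-e) * hb2 - hb4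
  intro h0
  have : (e - f) * (e - g) = 0 := by linear_combination key - h0
  rcases mul_eq_zero.mp this with h1 | h1
  · exact h.hef (sub_eq_zero.mp h1)
  · exact h.heg (sub_eq_zero.mp h1)

/-- The `2`-torsion point `(e, -(a₁e + a₃)/2)`. -/
def twoPt (h : FullTwo W e f g) : W.Point := Point.some e (yTwo W e) h.nonsingular_two

lemma twoPt_ne_zero (h : FullTwo W e f g) : h.twoPt ≠ 0 := by
  intro h0
  exact Point.some_ne_zero _ h0

@[simp] lemma xc_twoPt (h : FullTwo W e f g) : xc h.twoPt = e := rfl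

lemma negY_two (h : FullTwo W e f g) : W.negY e (yTwo W e) = yTwo W e := by
  have h2 := h.two_ne
  simp only [negY, yTwo]
  field_simp
  ring

lemma neg_twoPt (h : FullTwo W e f g) : -h.twoPt = h.twoPt := by
  simp only [twoPt, Point.neg_some]
  congr 1
  exact h.negY_two

lemma two_nsmul_twoPt (h : FullTwo W e f g) : h.twoPt + h.twoPt = 0 := by
  have := h.neg_twoPt
  calc h.twoPt + h.twoPt = h.twoPt + -h.twoPt := by rw [this]
    _ = 0 := add_neg_cancel _

lemma hb₈' (h : FullTwo W e f g) :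
    W.b₈ = 4 * (e + f + g) * (e * f * g) - (e * f + e * g + f * g) ^ 2 := by
  rw [h.hb₈, h.hb₂, h.hb₄, h.hb₆, div_eq_iff h.four_ne]
  ring

/-- `F_e(x₁, x₂) = (x₁ - e)(x₂ - e) - (e - f)(e - g)`. -/
def FF (e f g : K) (x₁ x₂ : K) : K := (x₁ - e) * (x₂ - e) - (e - f) * (e - g)

/-- **Product formula**: `(x(P+T) - e)(x(P-T) - e)(x_P - x_T)² = F_e(x_P, x_T)²`. -/
lemma prod_formula (h : FullTwo W e f g) {P T : W.Point} (hP : P ≠ 0) (hT : T ≠ 0)
    (hx : xc P ≠ xc T) :
    (xc (P + T) - e) * (xc (P - T) - e) * (xc P - xc T) ^ 2 = FF e f g (xc P) (xc T) ^ 2 := by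
  obtain ⟨x₁, y₁, h₁, rfl⟩ := exists_some_of_ne_zero hP
  obtain ⟨x₂, y₂, h₂, rfl⟩ := exists_some_of_ne_zero hT
  simp only [xc_some] at hx ⊢
  obtain ⟨x₃, y₃, x₄, y₄, h₃, h₄, hadd, hsub, hsum, hprod⟩ := add_sub_some h₁ h₂ hx
  rw [hadd, hsub]
  simp only [xc_some]
  simp only [sumNum, prodNum, h.hb₈', h.hb₂, h.hb₄, h.hb₆] at hsum hprod
  simp only [FF]
  linear_combination hprod - e * hsum

/-- **Translation by a `2`-torsion point**: `(x(P + E_e) - e)(x_P - e) = (e - f)(e - g)`. -/
lemma translate_formula (h : FullTwo W e f g) {P : W.Point} (hP : P ≠ 0) (hx : xc P ≠ e) :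
    P + h.twoPt ≠ 0 ∧ (xc (P + h.twoPt) - e) * (xc P - e) = (e - f) * (e - g) := by
  obtain ⟨x₁, y₁, h₁, rfl⟩ := exists_some_of_ne_zero hP
  simp only [xc_some] at hx ⊢
  obtain ⟨x₃, y₃, x₄, y₄, h₃, h₄, hadd, hsub, hsum, hprod⟩ :=
    add_sub_some h₁ h.nonsingular_two hx
  have hadd' : Point.some x₁ y₁ h₁ + h.twoPt = Point.some x₃ y₃ h₃ := hadd
  have hsub' : Point.some x₁ y₁ h₁ - h.twoPt = Point.some x₄ y₄ h₄ := hsub
  rw [sub_eq_add_neg, h.neg_twoPt, hadd'] at hsub'
  have h34 : x₃ = x₄ := by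
    have := congrArg xc hsub'
    simpa using this
  subst h34
  rw [hadd']
  refine ⟨Point.some_ne_zero _, ?_⟩
  simp only [xc_some]
  simp only [sumNum, h.hb₂, h.hb₄, h.hb₆] at hsum
  have h2 := h.two_ne
  have hne : x₁ - e ≠ 0 := sub_ne_zero.mpr hx
  have h2ne : 2 * (x₁ - e) ≠ 0 := mul_ne_zero h2 hne
  apply mul_left_cancel₀ h2ne
  linear_combination hsum

end FullTwo

/-! ### Products over the nonzero elements of `ZMod n`, `n` odd -/

section Pairing

variable {n : ℕ} [NeZero n]

/-- The nonzero elements of `ZMod n`. -/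
abbrev nz (n : ℕ) [NeZero n] : Finset (ZMod n) := (Finset.univ : Finset (ZMod n)).erase 0

lemma mem_nz {a : ZMod n} : a ∈ nz n ↔ a ≠ 0 := by simp [nz]

lemma neg_mem_nz {a : ZMod n} (ha : a ∈ nz n) : -a ∈ nz n := by
  rw [mem_nz] at ha ⊢
  simpa using ha

lemma neg_ne_self_of_odd (hn : Odd n) {a : ZMod n} (ha : a ≠ 0) : -a ≠ a := by
  intro h
  rcases (ZMod.neg_eq_self_iff a).mp h with h0 | h0
  · exact ha h0
  · obtain ⟨k, hk⟩ := hn
    omega

lemma card_nz : (nz n).card = n - 1 := by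
  rw [nz, Finset.card_erase_of_mem (Finset.mem_univ _), Finset.card_univ, ZMod.card]

/-- If `φ(a) φ(-a) = ψ(a) ψ(-a)` for all `a ≠ 0` then `∏ φ = ∏ ψ` over the nonzero elements of
`ZMod n`, `n` odd. -/
lemma prod_nz_eq_of_pair (hn : Odd n) (φ ψ : ZMod n → K)
    (hpair : ∀ a : ZMod n, a ≠ 0 → φ a * φ (-a) = ψ a * ψ (-a)) :
    ∏ a ∈ nz n, φ a = ∏ a ∈ nz n, ψ a := by
  classical
  by_cases hψ : ∀ a ∈ nz n, ψ a ≠ 0
  · have hne : ∏ a ∈ nz n, ψ a ≠ 0 := Finset.prod_ne_zero_iff.mpr hψ
    have key : ∏ a ∈ nz n, (φ a / ψ a) = 1 := by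
      refine Finset.prod_involution (fun a _ => -a) ?_ ?_ ?_ ?_
      · intro a ha
        have ha0 : a ≠ 0 := mem_nz.mp ha
        have h1 := hψ a ha
        have h2 := hψ (-a) (neg_mem_nz ha)
        rw [div_mul_div_comm, hpair a ha0, div_self (mul_ne_zero h1 h2)]
      · intro a ha _
        exact neg_ne_self_of_odd hn (mem_nz.mp ha)
      · intro a ha
        exact neg_mem_nz ha
      · intro a ha
        simp
    rw [Finset.prod_div_distrib, div_eq_one_iff_eq hne] at key
    exact key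
  · push Not at hψ
    obtain ⟨a₀, ha₀, h0⟩ := hψ
    have hR : ∏ a ∈ nz n, ψ a = 0 := Finset.prod_eq_zero ha₀ h0
    have hp := hpair a₀ (mem_nz.mp ha₀)
    rw [h0, zero_mul] at hp
    rcases mul_eq_zero.mp hp with h1 | h1
    · rw [hR, Finset.prod_eq_zero ha₀ h1]
    · rw [hR, Finset.prod_eq_zero (neg_mem_nz ha₀) h1]

end Pairing

/-! ### A cyclic subgroup of odd order -/

section Cyclic

variable {n : ℕ} [NeZero n] {e f g : K} (T : ZMod n →+ W.Point)

/-- `Π_r = ∏_{a ≠ 0} (x(T a) - r)`. -/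
noncomputable def piP (r : K) : K := ∏ a ∈ nz n, (xc (T a) - r)

variable {T}

lemma T_ne_zero (hT : Function.Injective T) {a : ZMod n} (ha : a ≠ 0) : T a ≠ 0 := by
  intro h
  exact ha (hT (h.trans (map_zero T).symm))

lemma eq_zero_of_two_torsion_mem (hT : Function.Injective T) (hn : Odd n) {Q : W.Point}
    (hQ : Q + Q = 0) {c : ZMod n} (hc : Q = T c) : Q = 0 := by
  have h1 : T (c + c) = 0 := by rw [map_add, ← hc, hQ]
  have h2 : c + c = 0 := hT (h1.trans (map_zero T).symm)
  have h3 : -c = c := by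
    rw [neg_eq_iff_add_eq_zero]
    exact h2
  by_cases hc0 : c = 0
  · rw [hc, hc0, map_zero]
  · exact absurd h3 (neg_ne_self_of_odd hn hc0)

lemma twoPt_ne_T (hT : Function.Injective T) (hn : Odd n) (h : FullTwo W e f g) (c : ZMod n) :
    h.twoPt ≠ T c := fun hc =>
  h.twoPt_ne_zero (eq_zero_of_two_torsion_mem hT hn h.two_nsmul_twoPt hc)

lemma T_add_twoPt_ne_zero (hT : Function.Injective T) (hn : Odd n) (h : FullTwo W e f g)
    (a : ZMod n) : T a + h.twoPt ≠ 0 := by
  intro h0
  have : h.twoPt = T (-a) := by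
    rw [map_neg]
    exact (neg_eq_of_add_eq_zero_right h0).symm ▸ rfl
  exact twoPt_ne_T hT hn h _ this

lemma T_add_twoPt_ne_T (hT : Function.Injective T) (hn : Odd n) (h : FullTwo W e f g)
    (a b : ZMod n) : T a + h.twoPt ≠ T b := by
  intro h0
  have : h.twoPt = T (b - a) := by
    rw [map_sub, ← h0]
    abel
  exact twoPt_ne_T hT hn h _ this

lemma xc_T_ne (hT : Function.Injective T) (hn : Odd n) (h : FullTwo W e f g) {a : ZMod n}
    (ha : a ≠ 0) : xc (T a) ≠ e := by
  intro hx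
  have hx' : xc (T a) = xc h.twoPt := by rw [hx, FullTwo.xc_twoPt]
  rcases eq_or_eq_neg_of_xc_eq (T_ne_zero hT ha) h.twoPt_ne_zero hx' with h1 | h1
  · exact twoPt_ne_T hT hn h a h1.symm
  · rw [h.neg_twoPt] at h1
    exact twoPt_ne_T hT hn h a h1.symm

lemma piP_ne_zero (hT : Function.Injective T) (hn : Odd n) (h : FullTwo W e f g) :
    piP T e ≠ 0 := by
  rw [piP, Finset.prod_ne_zero_iff]
  intro a ha
  exact sub_ne_zero.mpr (xc_T_ne hT hn h (mem_nz.mp ha))

lemma xc_ne_xc_T (hT : Function.Injective T) {P : W.Point} (hP0 : P ≠ 0)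
    (hPN : ∀ a, P ≠ T a) {a : ZMod n} (ha : a ≠ 0) : xc P ≠ xc (T a) := by
  intro hx
  rcases eq_or_eq_neg_of_xc_eq hP0 (T_ne_zero hT ha) hx with h1 | h1
  · exact hPN a h1
  · rw [← map_neg] at h1
    exact hPN _ h1

/-- **Pair-product lemma.** -/
lemma prod_FF (hT : Function.Injective T) (hn : Odd n) (h : FullTwo W e f g) {P : W.Point}
    (hP0 : P ≠ 0) (hPN : ∀ a, P ≠ T a) :
    ∏ a ∈ nz n, FullTwo.FF e f g (xc P) (xc (T a)) =
      (∏ a ∈ nz n, (xc (P + T a) - e)) * ∏ a ∈ nz n, (xc P - xc (T a)) := by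
  rw [← Finset.prod_mul_distrib]
  apply prod_nz_eq_of_pair hn
  intro a ha
  have hx := xc_ne_xc_T hT hP0 hPN ha
  have hpf := h.prod_formula hP0 (T_ne_zero hT ha) hx
  rw [map_neg, xc_neg, ← sub_eq_add_neg]
  linear_combination -hpf

/-- **Evaluation lemma.**  For `ξ = x(T a₀ + E_f)`:
`(ξ - e) ∏_{a ≠ 0} (ξ - x(T a + E_e)) · Π_e Π_f = (f - e)ⁿ Π_g ∏_{a ≠ 0} (ξ - x(T a))`. -/
lemma eval_key (hT : Function.Injective T) (hn : Odd n) (h : FullTwo W e f g) (a₀ : ZMod n) :
    (xc (T a₀ + h.swap12.twoPt) - e) *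
        (∏ a ∈ nz n, (xc (T a₀ + h.swap12.twoPt) - xc (T a + h.twoPt))) *
        (piP T e * piP T f)
      = (f - e) ^ n * piP T g * ∏ a ∈ nz n, (xc (T a₀ + h.swap12.twoPt) - xc (T a)) := by
  set P : W.Point := T a₀ + h.swap12.twoPt with hPdef
  set ξ : K := xc P with hξ
  have hP0 : P ≠ 0 := T_add_twoPt_ne_zero hT hn h.swap12 a₀
  have hPN : ∀ a, P ≠ T a := fun a => T_add_twoPt_ne_T hT hn h.swap12 a₀ a
  -- Step 1
  have h1 : (∏ a ∈ nz n, (ξ - xc (T a + h.twoPt))) * piP T e
      = (∏ a ∈ nz n, (xc (P + T a) - e)) * ∏ a ∈ nz n, (ξ - xc (T a)) := by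
    rw [← prod_FF hT hn h hP0 hPN, piP, ← Finset.prod_mul_distrib]
    refine Finset.prod_congr rfl fun a ha => ?_
    have htr := (h.translate_formula (T_ne_zero hT (mem_nz.mp ha))
      (xc_T_ne hT hn h (mem_nz.mp ha))).2
    simp only [FullTwo.FF]
    linear_combination -htr
  -- Step 2
  have h2 : (ξ - e) * ∏ a ∈ nz n, (xc (P + T a) - e)
      = (f - e) * ∏ b ∈ nz n, (xc (T b + h.swap12.twoPt) - e) := by
    have e1 : (ξ - e) * ∏ a ∈ nz n, (xc (P + T a) - e)
        = ∏ a : ZMod n, (xc (P + T a) - e) := by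
      have := Finset.mul_prod_erase (Finset.univ : Finset (ZMod n))
        (fun a => xc (P + T a) - e) (Finset.mem_univ 0)
      simp only [map_zero, add_zero] at this
      exact this
    have e2 : ∏ a : ZMod n, (xc (P + T a) - e)
        = ∏ b : ZMod n, (xc (T b + h.swap12.twoPt) - e) := by
      refine Fintype.prod_equiv (Equiv.addLeft a₀) _ _ fun a => ?_
      simp only [Equiv.coe_addLeft, map_add, hPdef]
      congr 2
      abel
    have e3 : (f - e) * ∏ b ∈ nz n, (xc (T b + h.swap12.twoPt) - e)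
        = ∏ b : ZMod n, (xc (T b + h.swap12.twoPt) - e) := by
      have := Finset.mul_prod_erase (Finset.univ : Finset (ZMod n))
        (fun b => xc (T b + h.swap12.twoPt) - e) (Finset.mem_univ 0)
      simp only [map_zero, zero_add, FullTwo.xc_twoPt] at this
      exact this
    rw [e1, e2, e3]
  -- Step 3
  have h3 : (∏ b ∈ nz n, (xc (T b + h.swap12.twoPt) - e)) * piP T f
      = (f - e) ^ (n - 1) * piP T g := by
    rw [piP, piP, ← Finset.prod_mul_distrib, ← card_nz (n := n), ← Finset.prod_const,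
      ← Finset.prod_mul_distrib]
    refine Finset.prod_congr rfl fun b hb => ?_
    have htr := (h.swap12.translate_formula (T_ne_zero hT (mem_nz.mp hb))
      (xc_T_ne hT hn h.swap12 (mem_nz.mp hb))).2
    linear_combination htr
  have hn1 : (f - e) ^ n = (f - e) * (f - e) ^ (n - 1) := by
    rw [← pow_succ']
    congr 1
    have := NeZero.ne n
    omega
  rw [hn1]
  calc (ξ - e) * (∏ a ∈ nz n, (ξ - xc (T a + h.twoPt))) * (piP T e * piP T f)
      = (ξ - e) * ((∏ a ∈ nz n, (ξ - xc (T a + h.twoPt))) * piP T e) * piP T f := by ring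
    _ = ((ξ - e) * ∏ a ∈ nz n, (xc (P + T a) - e)) * (∏ a ∈ nz n, (ξ - xc (T a))) * piP T f := by
        rw [h1]; ring
    _ = (f - e) * ((∏ b ∈ nz n, (xc (T b + h.swap12.twoPt) - e)) * piP T f) *
          (∏ a ∈ nz n, (ξ - xc (T a))) := by
        rw [h2]; ring
    _ = (f - e) * (f - e) ^ (n - 1) * piP T g * ∏ a ∈ nz n, (ξ - xc (T a)) := by
        rw [h3]; ring

/-! ### The polynomial with too many roots -/

open Polynomial

variable (T)

/-- `M_e = ∏_{a ≠ 0} (X - x(T a + E_e))`. -/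
noncomputable def polyM (h : FullTwo W e f g) : K[X] :=
  ∏ a ∈ nz n, (X - C (xc (T a + h.twoPt)))

/-- `D = ∏_{a ≠ 0} (X - x(T a))`. -/
noncomputable def polyD : K[X] := ∏ a ∈ nz n, (X - C (xc (T a)))

/-- `L = Π_e Π_f ((X - e) M_e - (X - f) M_f) - (f - e)ⁿ Π_g D`. -/
noncomputable def polyL (h : FullTwo W e f g) : K[X] :=
  C (piP T e * piP T f) * ((X - C e) * polyM T h - (X - C f) * polyM T h.swap12)
    - C ((f - e) ^ n * piP T g) * polyD T

variable {T}

lemma natDegree_polyM (h : FullTwo W e f g) : (polyM T h).natDegree = n - 1 := by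
  rw [polyM, natDegree_finsetProd_X_sub_C_eq_card, card_nz]

lemma natDegree_polyD : (polyD T).natDegree = n - 1 := by
  rw [polyD, natDegree_finsetProd_X_sub_C_eq_card, card_nz]

lemma natDegree_polyL_le (h : FullTwo W e f g) : (polyL T h).natDegree ≤ n := by
  have hn0 := NeZero.ne n
  have hM : ∀ (r : K) (Q : K[X]), Q.natDegree = n - 1 → ((X - C r) * Q).natDegree ≤ n := by
    intro r Q hQ
    refine (natDegree_mul_le).trans ?_
    rw [natDegree_X_sub_C, hQ]
    omega
  have h1 : ((X - C e) * polyM T h - (X - C f) * polyM T h.swap12).natDegree ≤ n :=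
    (natDegree_sub_le _ _).trans (max_le (hM e _ (natDegree_polyM h))
      (hM f _ (natDegree_polyM h.swap12)))
  have h2 : (C (piP T e * piP T f) *
      ((X - C e) * polyM T h - (X - C f) * polyM T h.swap12)).natDegree ≤ n :=
    (natDegree_C_mul_le _ _).trans h1
  have h3 : (C ((f - e) ^ n * piP T g) * polyD T).natDegree ≤ n := by
    refine (natDegree_C_mul_le _ _).trans ?_
    rw [natDegree_polyD]
    omega
  exact (natDegree_sub_le _ _).trans (max_le h2 h3)

lemma eval_polyM (h : FullTwo W e f g) (ξ : K) :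
    (polyM T h).eval ξ = ∏ a ∈ nz n, (ξ - xc (T a + h.twoPt)) := by
  simp [polyM, eval_prod]

lemma eval_polyD (ξ : K) : (polyD T).eval ξ = ∏ a ∈ nz n, (ξ - xc (T a)) := by
  simp [polyD, eval_prod]

lemma eval_polyL (h : FullTwo W e f g) (ξ : K) :
    (polyL T h).eval ξ = piP T e * piP T f *
        ((ξ - e) * (polyM T h).eval ξ - (ξ - f) * (polyM T h.swap12).eval ξ)
      - (f - e) ^ n * piP T g * (polyD T).eval ξ := by
  simp [polyL]

/-- `(ξ - e) M_e(ξ) = 0` at `ξ = x(T a₀ + E_e)`. -/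
lemma eval_self_eq_zero (h : FullTwo W e f g) (a₀ : ZMod n) :
    (xc (T a₀ + h.twoPt) - e) * (polyM T h).eval (xc (T a₀ + h.twoPt)) = 0 := by
  by_cases ha : a₀ = 0
  · subst ha
    simp
  · rw [eval_polyM]
    have : ∏ a ∈ nz n, (xc (T a₀ + h.twoPt) - xc (T a + h.twoPt)) = 0 :=
      Finset.prod_eq_zero (i := a₀) (mem_nz.mpr ha) (sub_self _)
    rw [this, mul_zero]

lemma eval_polyL_root_f (hT : Function.Injective T) (hn : Odd n) (h : FullTwo W e f g)
    (a₀ : ZMod n) : (polyL T h).eval (xc (T a₀ + h.swap12.twoPt)) = 0 := by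
  have hk := eval_key hT hn h a₀
  have h0 := eval_self_eq_zero (T := T) h.swap12 a₀
  rw [eval_polyL, h0, eval_polyM, eval_polyD]
  linear_combination hk

lemma eval_polyL_root_e (hT : Function.Injective T) (hn : Odd n) (h : FullTwo W e f g)
    (a₀ : ZMod n) : (polyL T h).eval (xc (T a₀ + h.twoPt)) = 0 := by
  have hk := eval_key hT hn h.swap12 a₀
  have h0 := eval_self_eq_zero (T := T) h a₀
  have hodd : (e - f) ^ n = -(f - e) ^ n := by
    rw [← Odd.neg_pow hn, neg_sub]
  rw [hodd] at hk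
  rw [eval_polyL, h0, eval_polyM, eval_polyD]
  linear_combination -hk

lemma twoPt_congr {f' g' : K} (h : FullTwo W e f g) (h' : FullTwo W e f' g') :
    h'.twoPt = h.twoPt := rfl

lemma two_mul_card_image_ge (hT : Function.Injective T) (hn : Odd n) (h : FullTwo W e f g) :
    n ≤ 2 * ((Finset.univ : Finset (ZMod n)).image fun a => xc (T a + h.twoPt)).card := by
  have key := Finset.card_le_mul_card_image (f := fun a : ZMod n => xc (T a + h.twoPt))
    Finset.univ 2 ?_
  · simpa [ZMod.card] using key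
  · intro y hy
    obtain ⟨a₁, -, rfl⟩ := Finset.mem_image.mp hy
    refine (Finset.card_le_card (?_ : _ ⊆ ({a₁, -a₁} : Finset (ZMod n)))).trans
      Finset.card_le_two
    intro a ha
    simp only [Finset.mem_filter, Finset.mem_univ, true_and] at ha
    rcases eq_or_eq_neg_of_xc_eq (T_add_twoPt_ne_zero hT hn h a)
      (T_add_twoPt_ne_zero hT hn h a₁) ha with h1 | h1
    · have : T a = T a₁ := add_right_cancel h1
      simp [hT this]
    · have : T a = T (-a₁) := by
        rw [neg_add, h.neg_twoPt, ← map_neg] at h1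
        exact add_right_cancel h1
      simp [hT this]

lemma disjoint_images (hT : Function.Injective T) (hn : Odd n) (h : FullTwo W e f g) :
    Disjoint ((Finset.univ : Finset (ZMod n)).image fun a => xc (T a + h.twoPt))
      ((Finset.univ : Finset (ZMod n)).image fun a => xc (T a + h.swap12.twoPt)) := by
  rw [Finset.disjoint_left]
  intro x hx hx'
  obtain ⟨a, -, rfl⟩ := Finset.mem_image.mp hx
  obtain ⟨b, -, hb⟩ := Finset.mem_image.mp hx'
  have hQ2 : (h.twoPt + h.swap12.twoPt) + (h.twoPt + h.swap12.twoPt) = 0 := by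
    have h1 := h.two_nsmul_twoPt
    have h2 := h.swap12.two_nsmul_twoPt
    calc (h.twoPt + h.swap12.twoPt) + (h.twoPt + h.swap12.twoPt)
        = (h.twoPt + h.twoPt) + (h.swap12.twoPt + h.swap12.twoPt) := by abel
      _ = 0 := by rw [h1, h2, add_zero]
  have hmem : ∃ c : ZMod n, h.twoPt + h.swap12.twoPt = T c := by
    rcases eq_or_eq_neg_of_xc_eq (T_add_twoPt_ne_zero hT hn h.swap12 b)
      (T_add_twoPt_ne_zero hT hn h a) hb with h1 | h1
    · refine ⟨b - a, ?_⟩
      rw [map_sub]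
      have h3 : h.twoPt = T b + h.swap12.twoPt - T a := by rw [h1]; abel
      have h4 := h.swap12.neg_twoPt
      calc h.twoPt + h.swap12.twoPt = (T b + h.swap12.twoPt - T a) + h.swap12.twoPt := by
            rw [← h3]
        _ = T b - T a + (h.swap12.twoPt + h.swap12.twoPt) := by abel
        _ = T b - T a := by rw [h.swap12.two_nsmul_twoPt, add_zero]
    · refine ⟨-(a + b), ?_⟩
      rw [map_neg, map_add]
      have h3 : h.swap12.twoPt = -(T a + h.twoPt) - T b := by rw [← h1]; abel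
      have h4 := h.neg_twoPt
      calc h.twoPt + h.swap12.twoPt = h.twoPt + (-(T a + h.twoPt) - T b) := by rw [← h3]
        _ = -(T a + T b) := by abel
  obtain ⟨c, hc⟩ := hmem
  have h0 := eq_zero_of_two_torsion_mem hT hn hQ2 hc
  have h5 : h.twoPt = -h.swap12.twoPt := eq_neg_of_add_eq_zero_left h0
  rw [h.swap12.neg_twoPt] at h5
  have := congrArg xc h5
  simp only [FullTwo.xc_twoPt] at this
  exact h.hef this

/-- The polynomial `L` vanishes identically. -/
lemma polyL_eq_zero (hT : Function.Injective T) (hn : Odd n) (h : FullTwo W e f g) :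
    polyL T h = 0 := by
  classical
  refine eq_zero_of_natDegree_lt_card_of_eval_eq_zero' (polyL T h)
    (((Finset.univ : Finset (ZMod n)).image fun a => xc (T a + h.twoPt)) ∪
      ((Finset.univ : Finset (ZMod n)).image fun a => xc (T a + h.swap12.twoPt))) ?_ ?_
  · intro ξ hξ
    rcases Finset.mem_union.mp hξ with h1 | h1
    · obtain ⟨a, -, rfl⟩ := Finset.mem_image.mp h1
      exact eval_polyL_root_e hT hn h a
    · obtain ⟨a, -, rfl⟩ := Finset.mem_image.mp h1
      exact eval_polyL_root_f hT hn h a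
  · rw [Finset.card_union_of_disjoint (disjoint_images hT hn h)]
    have h1 := two_mul_card_image_ge hT hn h
    have h2 := two_mul_card_image_ge hT hn h.swap12
    have h3 := natDegree_polyL_le (T := T) h
    obtain ⟨k, hk⟩ := hn
    omega

/-- **Jacobi's identity** (indexed by `ZMod n`). -/
theorem jacobi_zmod (hT : Function.Injective T) (hn : Odd n) (h : FullTwo W e f g) :
    (g - e) ^ n * piP T f ^ 2 - (g - f) ^ n * piP T e ^ 2 - (f - e) ^ n * piP T g ^ 2 = 0 := by
  have hL := congrArg (Polynomial.eval g) (polyL_eq_zero hT hn h)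
  rw [eval_polyL, eval_polyM, eval_polyM, eval_polyD, eval_zero] at hL
  have hk1 := eval_key hT hn h.swap23 (0 : ZMod n)
  have hk2 := eval_key hT hn h.rot (0 : ZMod n)
  simp only [map_zero, zero_add, FullTwo.xc_twoPt] at hk1 hk2
  rw [twoPt_congr h h.swap23] at hk1
  rw [twoPt_congr h.swap12 h.rot] at hk2
  have hD : ∏ a ∈ nz n, (g - xc (T a)) ≠ 0 := by
    rw [Finset.prod_ne_zero_iff]
    intro a ha
    exact sub_ne_zero.mpr (xc_T_ne hT hn h.rot' (mem_nz.mp ha)).symm
  apply mul_left_cancel₀ hD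
  rw [mul_zero]
  linear_combination (-piP T f) * hk1 + piP T e * hk2 + piP T g * hL

end Cyclic

/-! ### The statement for a point of odd order -/

section Final

variable {e f g : K}

/-- `Π_r(T₀, n) = ∏_{k ∈ Ico 1 n} (x(k • T₀) - r)`. -/
noncomputable def piProd (T₀ : W.Point) (n : ℕ) (r : K) : K :=
  ∏ k ∈ Finset.Ico 1 n, (xc (k • T₀) - r)

/-- The homomorphism `ZMod n →+ W.Point`, `a ↦ a • T₀`, for `n • T₀ = 0`. -/
noncomputable def zmodHom {n : ℕ} (T₀ : W.Point) (h : n • T₀ = 0) : ZMod n →+ W.Point :=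
  ZMod.lift n ⟨zmultiplesHom W.Point T₀, by
    rw [zmultiplesHom_apply, natCast_zsmul]
    exact h⟩

lemma zmodHom_natCast {n : ℕ} (T₀ : W.Point) (h : n • T₀ = 0) (k : ℕ) :
    zmodHom T₀ h (k : ZMod n) = k • T₀ := by
  have := ZMod.lift_coe n (⟨zmultiplesHom W.Point T₀, by
    rw [zmultiplesHom_apply, natCast_zsmul]
    exact h⟩ : {f : ℤ →+ W.Point // f n = 0}) (k : ℤ)
  simp only [Int.cast_natCast, zmultiplesHom_apply, natCast_zsmul] at this
  exact this

lemma zmodHom_apply {n : ℕ} [NeZero n] (T₀ : W.Point) (h : n • T₀ = 0) (a : ZMod n) :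
    zmodHom T₀ h a = a.val • T₀ := by
  conv_lhs => rw [← ZMod.natCast_zmod_val a]
  exact zmodHom_natCast T₀ h a.val

lemma zmodHom_injective {n : ℕ} [NeZero n] {T₀ : W.Point} (hT₀ : addOrderOf T₀ = n) :
    Function.Injective (zmodHom T₀ (hT₀ ▸ addOrderOf_nsmul_eq_zero T₀)) := by
  rw [injective_iff_map_eq_zero]
  intro a ha
  rw [zmodHom_apply] at ha
  have h1 : n ∣ a.val := by
    have := addOrderOf_dvd_of_nsmul_eq_zero ha
    rwa [hT₀] at this
  have h2 := ZMod.val_lt a
  have h3 : a.val = 0 := Nat.eq_zero_of_dvd_of_lt h1 h2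
  exact (ZMod.val_eq_zero a).mp h3

lemma piP_zmodHom {n : ℕ} [NeZero n] (T₀ : W.Point) (h : n • T₀ = 0) (r : K) :
    piP (zmodHom T₀ h) r = piProd T₀ n r := by
  rw [piP, piProd]
  refine Finset.prod_nbij' (fun a => a.val) (fun k => (k : ZMod n)) ?_ ?_ ?_ ?_ ?_
  · intro a ha
    have ha0 : a ≠ 0 := mem_nz.mp ha
    rw [Finset.mem_Ico]
    exact ⟨ZMod.val_pos.mpr ha0, ZMod.val_lt a⟩
  · intro k hk
    rw [Finset.mem_Ico] at hk
    rw [mem_nz]
    intro h0
    rw [ZMod.natCast_eq_zero_iff] at h0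
    have := Nat.le_of_dvd (by omega) h0
    omega
  · intro a _
    exact ZMod.natCast_zmod_val a
  · intro k hk
    rw [Finset.mem_Ico] at hk
    exact ZMod.val_natCast_of_lt hk.2
  · intro a _
    rw [zmodHom_apply]

/-- **Jacobi's identity** for a point `T₀` of odd order `n` on a Weierstrass curve with full
rational `2`-torsion `e, f, g`:
`(g - e)ⁿ Π_f² - (g - f)ⁿ Π_e² - (f - e)ⁿ Π_g² = 0`, `Π_r = ∏_{k=1}^{n-1} (x(k T₀) - r)`. -/
theorem jacobi_identity (h : FullTwo W e f g) {n : ℕ} (hn : Odd n) {T₀ : W.Point}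
    (hT₀ : addOrderOf T₀ = n) :
    (g - e) ^ n * piProd T₀ n f ^ 2 - (g - f) ^ n * piProd T₀ n e ^ 2
      - (f - e) ^ n * piProd T₀ n g ^ 2 = 0 := by
  have : NeZero n := ⟨by obtain ⟨k, hk⟩ := hn; omega⟩
  have h0 : n • T₀ = 0 := hT₀ ▸ addOrderOf_nsmul_eq_zero T₀
  have key := jacobi_zmod (T := zmodHom T₀ h0) (zmodHom_injective hT₀) hn h
  rw [piP_zmodHom, piP_zmodHom, piP_zmodHom] at key
  exact key

end Final

end Fermat.Agent.S12.H291

end
-- ===== PACK-END S12/H291/Jacobi.lean

-- ===== PACK-BEGIN S13/H64/RatProd.lean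
section





/-!
# S13 / T5b2: the product of a Galois-stable finite set of non-integral algebraic numbers

For a valuation subring `A` of `ℚ̄` over `p` with valuation `v`: a rational number `q` with
`1 < v q` satisfies `(v p)⁻¹ ≤ v q`; the product of a Galois-stable finset is rational.
-/

set_option autoImplicit false

namespace Fermat.Agent.S13.H64

open Polynomial

section rat

variable {K : Type*} [Field K] [CharZero K]

omit [CharZero K] in
/-- Integers are integral for every valuation subring. -/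
lemma valuation_intCast_le_one (A : ValuationSubring K) (a : ℤ) : A.valuation (a : K) ≤ 1 :=
  (A.valuation_le_one_iff _).mpr (intCast_mem A a)

/-- An integer prime to `p` is a unit of every valuation subring over `p`. -/
lemma valuation_intCast_eq_one (A : ValuationSubring K) (p : ℕ) (hp : p.Prime)
    (hA : A.LiesOverPrime p) (a : ℤ) (ha : ¬ (p : ℤ) ∣ a) : A.valuation (a : K) = 1 := by
  refine le_antisymm (valuation_intCast_le_one A a) (not_lt.mp fun h => ha ?_)
  exact Fermat.Agent.S54.dvd_of_intCast_mem_nonunits A p hp hA a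
    ((ValuationSubring.mem_nonunits_iff A).mpr h)

/-- A rational number of valuation `> 1` at a valuation subring over `p` has valuation at least
`(v p)⁻¹`. -/
theorem inv_valuation_prime_le_of_one_lt (A : ValuationSubring K) (p : ℕ) (hp : p.Prime)
    (hA : A.LiesOverPrime p) (q : ℚ) (hq : 1 < A.valuation ((q : ℚ) : K)) :
    (A.valuation (p : K))⁻¹ ≤ A.valuation ((q : ℚ) : K) := by
  have hp0 : (p : K) ≠ 0 := by exact_mod_cast hp.ne_zero
  have hden0 : ((q.den : ℤ) : K) ≠ 0 := by
    have := q.den_pos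
    exact_mod_cast this.ne'
  have hqe : ((q : ℚ) : K) = (q.num : K) / ((q.den : ℤ) : K) := by
    conv_lhs => rw [← Rat.num_div_den q]
    push_cast
    rfl
  rw [hqe, map_div₀] at hq ⊢
  have hnum : A.valuation (q.num : K) ≤ 1 := valuation_intCast_le_one A _
  have hdenpos : 0 < A.valuation ((q.den : ℤ) : K) := (Valuation.pos_iff _).mpr hden0
  -- the denominator is a non-unit
  have hden_lt : A.valuation ((q.den : ℤ) : K) < 1 := by
    by_contra h
    have h1 : A.valuation ((q.den : ℤ) : K) = 1 :=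
      le_antisymm (valuation_intCast_le_one A _) (not_lt.mp h)
    rw [h1, div_one] at hq
    exact absurd hq (not_lt.mpr hnum)
  have hpd : (p : ℤ) ∣ (q.den : ℤ) :=
    Fermat.Agent.S54.dvd_of_intCast_mem_nonunits A p hp hA _
      ((ValuationSubring.mem_nonunits_iff A).mpr hden_lt)
  -- hence the numerator is a unit
  have hpn : ¬ (p : ℤ) ∣ q.num := by
    intro h
    have h1 : p ∣ q.num.natAbs := Int.natCast_dvd.mp h
    have h2 : p ∣ q.den := Int.natCast_dvd_natCast.mp hpd
    have := Nat.dvd_gcd h1 h2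
    rw [q.reduced] at this
    exact hp.one_lt.ne' (Nat.dvd_one.mp this)
  have hnum1 : A.valuation (q.num : K) = 1 := valuation_intCast_eq_one A p hp hA _ hpn
  obtain ⟨b', hb'⟩ := hpd
  have hden_le : A.valuation ((q.den : ℤ) : K) ≤ A.valuation (p : K) := by
    rw [hb']
    push_cast
    rw [map_mul]
    exact mul_le_of_le_one_right' (valuation_intCast_le_one A b')
  have hppos : 0 < A.valuation (p : K) := (Valuation.pos_iff _).mpr hp0
  rw [hnum1, one_div]
  exact (inv_le_inv₀ hppos hdenpos).mpr hden_le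

end rat

section galois

variable {K : Type*} [Field K] [Algebra ℚ K] [IsGalois ℚ K]

/-- An element fixed by the whole Galois group is rational. -/
theorem exists_rat_of_forall_fixed (c : K) (h : ∀ σ : K ≃ₐ[ℚ] K, σ c = c) :
    ∃ q : ℚ, algebraMap ℚ K q = c := by
  have hfix : c ∈ IntermediateField.fixedField (⊤ : Subgroup (K ≃ₐ[ℚ] K)) := by
    rintro ⟨g, -⟩
    exact h g
  rw [InfiniteGalois.fixedField_bot, IntermediateField.mem_bot] at hfix
  exact hfix

/-- The product of a Galois-stable finset is rational. -/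
theorem exists_rat_prod_of_stable [DecidableEq K] (T : Finset K)
    (hT : ∀ σ : K ≃ₐ[ℚ] K, ∀ r ∈ T, σ r ∈ T) :
    ∃ q : ℚ, algebraMap ℚ K q = ∏ r ∈ T, r := by
  apply exists_rat_of_forall_fixed
  intro σ
  rw [map_prod]
  have himg : T.image σ = T := by
    apply Finset.eq_of_subset_of_card_le
    · intro x hx
      obtain ⟨r, hr, rfl⟩ := Finset.mem_image.mp hx
      exact hT σ r hr
    · rw [Finset.card_image_of_injective _ σ.injective]
  conv_rhs => rw [← himg]
  rw [Finset.prod_image (fun x _ y _ hxy => σ.injective hxy)]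

end galois

section main

variable {K : Type*} [Field K] [CharZero K] [Algebra ℚ K] [IsGalois ℚ K] [DecidableEq K]

/-- **(T5b2)** A nonempty Galois-stable finset of elements of valuation `> 1` (at a valuation
subring over `p`) has product of valuation at least `(v p)⁻¹`. -/
theorem inv_valuation_prime_le_prod (A : ValuationSubring K) (p : ℕ) (hp : p.Prime)
    (hA : A.LiesOverPrime p) (T : Finset K) (hne : T.Nonempty)
    (hT : ∀ σ : K ≃ₐ[ℚ] K, ∀ r ∈ T, σ r ∈ T) (hv : ∀ r ∈ T, 1 < A.valuation r) :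
    (A.valuation (p : K))⁻¹ ≤ ∏ r ∈ T, A.valuation r := by
  obtain ⟨q, hq⟩ := exists_rat_prod_of_stable T hT
  have hq' : ((q : ℚ) : K) = ∏ r ∈ T, r := by rw [← hq]; simp
  have hprod : A.valuation (∏ r ∈ T, r) = ∏ r ∈ T, A.valuation r := map_prod _ _ _
  have hgt : 1 < ∏ r ∈ T, A.valuation r := by
    obtain ⟨r0, hr0⟩ := hne
    rw [← Finset.mul_prod_erase T _ hr0]
    have h1 : 1 ≤ ∏ r ∈ T.erase r0, A.valuation r :=
      Finset.one_le_prod' (fun r hr => (hv r (Finset.mem_of_mem_erase hr)).le)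
    calc (1 : _) < A.valuation r0 := hv r0 hr0
      _ ≤ A.valuation r0 * ∏ r ∈ T.erase r0, A.valuation r :=
        le_mul_of_one_le_right zero_le h1
  rw [← hprod, ← hq'] at hgt ⊢
  exact inv_valuation_prime_le_of_one_lt A p hp hA q hgt

end main

end Fermat.Agent.S13.H64

end
-- ===== PACK-END S13/H64/RatProd.lean

-- ===== PACK-BEGIN S51/H780/Count.lean
section


/-!
# S51 helper: counting points with `x`-coordinate among the roots of a polynomial,
and lines in small `ZMod p`-vector spaces.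
-/

set_option autoImplicit false

namespace Fermat.Agent.S51.H780

open WeierstrassCurve Polynomial

section Count

variable {K : Type*} [Field K] (W : WeierstrassCurve.Affine K)

/-- the pair of coordinates of a point (`none` at infinity) -/
def toPair : W.Point → Option (K × K)
  | .zero => none
  | .some x y _ => some (x, y)

lemma toPair_injective : Function.Injective (toPair W) := by
  rintro (_ | ⟨x₁, y₁, h₁⟩) (_ | ⟨x₂, y₂, h₂⟩) h <;>
    simp only [toPair, Option.some.injEq, Prod.mk.injEq, reduceCtorEq] at h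
  · rfl
  · obtain ⟨rfl, rfl⟩ := h; rfl

/-- the quadratic polynomial in `Y` cutting out the points with given `x`-coordinate -/
noncomputable def yPoly (x : K) : K[X] :=
  X ^ 2 + C (W.a₁ * x + W.a₃) * X - C (x ^ 3 + W.a₂ * x ^ 2 + W.a₄ * x + W.a₆)

lemma yPoly_natDegree (x : K) : (yPoly W x).natDegree = 2 := by
  unfold yPoly
  compute_degree!

lemma yPoly_ne_zero (x : K) : yPoly W x ≠ 0 := by
  intro h
  have := yPoly_natDegree W x
  rw [h] at this
  simp at this

lemma yPoly_eval {x y : K} : (yPoly W x).eval y = 0 ↔ W.Equation x y := by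
  rw [Affine.equation_iff]
  simp only [yPoly, eval_sub, eval_add, eval_pow, eval_X, eval_mul, eval_C]
  constructor <;> intro h <;> linear_combination h

variable [DecidableEq K]

/-- the finite set of pairs `(x, y)` on the curve with `f x = 0` -/
noncomputable def rootPairs (f : K[X]) : Finset (K × K) :=
  f.roots.toFinset.biUnion fun x => (yPoly W x).roots.toFinset.image (Prod.mk x)

lemma card_rootPairs_le (f : K[X]) : (rootPairs W f).card ≤ 2 * f.natDegree := by
  unfold rootPairs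
  refine Finset.card_biUnion_le.trans ?_
  calc ∑ x ∈ f.roots.toFinset, ((yPoly W x).roots.toFinset.image (Prod.mk x)).card
      ≤ ∑ _x ∈ f.roots.toFinset, 2 := by
        refine Finset.sum_le_sum fun x _ => ?_
        refine Finset.card_image_le.trans ?_
        refine (Multiset.toFinset_card_le _).trans ?_
        exact (Polynomial.card_roots' _).trans (yPoly_natDegree W x).le
    _ = f.roots.toFinset.card * 2 := by simp
    _ ≤ f.natDegree * 2 := by
        refine Nat.mul_le_mul_right 2 ?_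
        exact (Multiset.toFinset_card_le _).trans (Polynomial.card_roots' _)
    _ = 2 * f.natDegree := by ring

lemma mem_rootPairs {f : K[X]} (hf : f ≠ 0) {x y : K} (hx : f.eval x = 0)
    (h : W.Equation x y) : (x, y) ∈ rootPairs W f := by
  unfold rootPairs
  simp only [Finset.mem_biUnion, Multiset.mem_toFinset, Finset.mem_image, Prod.mk.injEq]
  refine ⟨x, (Polynomial.mem_roots hf).mpr hx, y, ?_, rfl, rfl⟩
  exact (Polynomial.mem_roots (yPoly_ne_zero W x)).mpr ((yPoly_eval W).mpr h)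

/-- A set of points all of whose nonzero members have `x`-coordinate a root of a nonzero
polynomial `f` is finite of cardinality at most `2 deg f + 1`. -/
lemma finite_and_ncard_le_of_xc_roots (T : Set W.Point) (f : K[X]) (hf : f ≠ 0)
    (hT : ∀ P ∈ T, P ≠ 0 → f.eval (xc W P) = 0) :
    T.Finite ∧ T.ncard ≤ 2 * f.natDegree + 1 := by
  classical
  set S : Finset (Option (K × K)) := insert none ((rootPairs W f).image some) with hS
  have hsub : T ⊆ (toPair W) ⁻¹' (S : Set (Option (K × K))) := by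
    intro P hP
    rw [Set.mem_preimage, Finset.mem_coe, hS]
    match P, hP with
    | .zero, _ => simp [toPair]
    | .some x y h, hP =>
      have := hT _ hP (Affine.Point.some_ne_zero h)
      simp only [xc_some] at this
      simp only [toPair, Finset.mem_insert, reduceCtorEq, Finset.mem_image, Option.some.injEq,
        exists_eq_right, false_or]
      exact mem_rootPairs W hf this h.1
  have hmaps : ∀ P ∈ T, toPair W P ∈ (S : Set (Option (K × K))) := fun P hP => hsub hP
  have hfin : ((toPair W) ⁻¹' (S : Set (Option (K × K)))).Finite :=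
    Set.Finite.preimage ((toPair_injective W).injOn) S.finite_toSet
  refine ⟨hfin.subset hsub, ?_⟩
  calc T.ncard ≤ (S : Set (Option (K × K))).ncard :=
        Set.ncard_le_ncard_of_injOn (toPair W) hmaps ((toPair_injective W).injOn) S.finite_toSet
    _ = S.card := Set.ncard_coe_finset S
    _ ≤ ((rootPairs W f).image some).card + 1 := Finset.card_insert_le _ _
    _ ≤ (rootPairs W f).card + 1 := Nat.add_le_add_right Finset.card_image_le 1
    _ ≤ 2 * f.natDegree + 1 := Nat.add_le_add_right (card_rootPairs_le W f) 1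

end Count

section Line

/-- In a `ZMod p`-vector space with fewer than `p ^ 3` elements, a proper submodule containing
a nonzero vector `P` consists of multiples of `P`. -/
lemma exists_smul_of_card_lt {p : ℕ} [Fact p.Prime] {V : Type*} [AddCommGroup V]
    [Module (ZMod p) V] [Finite V] (hcard : Nat.card V < p ^ 3)
    (N : Submodule (ZMod p) V) (hN : N ≠ ⊤) {P : V} (hP : P ∈ N) (hP0 : P ≠ 0)
    {Q : V} (hQ : Q ∈ N) : ∃ k : ZMod p, Q = k • P := by
  have : Module.Finite (ZMod p) V := Module.Finite.of_finite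
  have hp : 1 < p := (Fact.out : p.Prime).one_lt
  have h1 : Nat.card V = p ^ Module.finrank (ZMod p) V := by
    rw [Module.natCard_eq_pow_finrank (K := ZMod p), Nat.card_zmod]
  have h2 : Module.finrank (ZMod p) V < 3 := by
    rw [h1] at hcard
    exact (Nat.pow_lt_pow_iff_right hp).mp hcard
  have h3 : Module.finrank (ZMod p) N < Module.finrank (ZMod p) V := Submodule.finrank_lt hN
  have h4 : Submodule.span (ZMod p) {P} ≤ N := by
    rw [Submodule.span_singleton_le_iff_mem]; exact hP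
  have h5 : Module.finrank (ZMod p) (Submodule.span (ZMod p) {P}) = 1 :=
    finrank_span_singleton hP0
  have h6 : Submodule.span (ZMod p) {P} = N :=
    Submodule.eq_of_le_of_finrank_le h4 (by omega)
  rw [← h6] at hQ
  obtain ⟨k, hk⟩ := Submodule.mem_span_singleton.mp hQ
  exact ⟨k, hk.symm⟩

end Line

end Fermat.Agent.S51.H780

end
-- ===== PACK-END S51/H780/Count.lean

-- ===== PACK-BEGIN S52/H127/QuadForm.lean
section


/-!
# S52, Part A, pieces A2b + A2e (abstract form) — helper127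

Pure algebra, Mathlib only.

* `IsPar h` : the parallelogram law `h (P + Q) + h (P - Q) = 2 * h P + 2 * h Q` for an
  integer-valued function on an abelian group.
* `IsPar.polar h P Q = h (P + Q) - h P - h Q` is symmetric and biadditive (A2b).
* `IsPar.frobenius_relation` (A2e): if `Φ : M →+ M` satisfies `h (Φ Q) = ℓ * h Q` and
  `h (Φ Q - Q) = (ℓ + 1 - a) * h Q` for all `Q`, then `h (Φ (Φ Q) - a • Φ Q + ℓ • Q) = 0`.
* `ℕ`-valued variants `frobenius_relation_nat`.
-/

set_option autoImplicit false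

namespace Fermat.Agent.S52.H127

variable {M : Type*} [AddCommGroup M]

/-- The parallelogram law for an integer-valued function on an abelian group. -/
def IsPar (h : M → ℤ) : Prop :=
  ∀ P Q : M, h (P + Q) + h (P - Q) = 2 * h P + 2 * h Q

namespace IsPar

variable {h : M → ℤ}

theorem height_zero (hp : IsPar h) : h 0 = 0 := by
  have := hp 0 0
  simp only [add_zero, sub_zero] at this
  omega

theorem height_neg (hp : IsPar h) (Q : M) : h (-Q) = h Q := by
  have h1 := hp 0 Q
  have h0 := hp.height_zero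
  simp only [zero_add, zero_sub] at h1
  omega

theorem height_sub_comm (hp : IsPar h) (P Q : M) : h (P - Q) = h (Q - P) := by
  rw [← hp.height_neg (P - Q), neg_sub]

theorem height_two_nsmul (hp : IsPar h) (P : M) : h (P + P) = 4 * h P := by
  have h1 := hp P P
  have h0 := hp.height_zero
  simp only [sub_self] at h1
  omega

/-- The polar form of `h`. -/
def polar (h : M → ℤ) (P Q : M) : ℤ := h (P + Q) - h P - h Q

theorem polar_def (h : M → ℤ) (P Q : M) : polar h P Q = h (P + Q) - h P - h Q := rfl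

theorem height_add (h : M → ℤ) (P Q : M) : h (P + Q) = h P + h Q + polar h P Q := by
  rw [polar_def]; ring

theorem height_sub (hp : IsPar h) (P Q : M) : h (P - Q) = h P + h Q - polar h P Q := by
  have := hp P Q
  rw [polar_def]
  omega

theorem polar_comm (h : M → ℤ) (P Q : M) : polar h P Q = polar h Q P := by
  rw [polar_def, polar_def, add_comm P Q]; ring

theorem polar_self (hp : IsPar h) (P : M) : polar h P P = 2 * h P := by
  rw [polar_def, hp.height_two_nsmul]; ring

/-- The cube identity. -/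
theorem cube (hp : IsPar h) (P P' Q : M) :
    h (P + P' + Q) + h P + h P' + h Q = h (P + P') + h (P + Q) + h (P' + Q) := by
  have h1 := hp (P + Q) (P' + Q)
  have h2 := hp (P + P' + Q) Q
  have h3 := hp P P'
  have e1 : P + Q + (P' + Q) = P + P' + Q + Q := by abel
  have e2 : P + Q - (P' + Q) = P - P' := by abel
  have e3 : P + P' + Q - Q = P + P' := by abel
  rw [e1, e2] at h1
  rw [e3] at h2
  omega

theorem polar_add_left (hp : IsPar h) (P P' Q : M) :
    polar h (P + P') Q = polar h P Q + polar h P' Q := by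
  have := hp.cube P P' Q
  simp only [polar_def]
  omega

theorem polar_add_right (hp : IsPar h) (P Q Q' : M) :
    polar h P (Q + Q') = polar h P Q + polar h P Q' := by
  rw [polar_comm, hp.polar_add_left, polar_comm h Q P, polar_comm h Q' P]

/-- The polar form as a homomorphism in the first variable. -/
def polarHom (hp : IsPar h) (Q : M) : M →+ ℤ :=
  AddMonoidHom.mk' (fun P => polar h P Q) fun P P' => hp.polar_add_left P P' Q

@[simp] theorem polarHom_apply (hp : IsPar h) (Q P : M) : hp.polarHom Q P = polar h P Q := rfl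

theorem polar_zero_left (hp : IsPar h) (Q : M) : polar h 0 Q = 0 :=
  _root_.map_zero (hp.polarHom Q)

theorem polar_zero_right (hp : IsPar h) (P : M) : polar h P 0 = 0 := by
  rw [polar_comm, hp.polar_zero_left]

theorem polar_neg_left (hp : IsPar h) (P Q : M) : polar h (-P) Q = -polar h P Q :=
  _root_.map_neg (hp.polarHom Q) P

theorem polar_neg_right (hp : IsPar h) (P Q : M) : polar h P (-Q) = -polar h P Q := by
  rw [polar_comm, hp.polar_neg_left, polar_comm]

theorem polar_sub_left (hp : IsPar h) (P P' Q : M) :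
    polar h (P - P') Q = polar h P Q - polar h P' Q :=
  _root_.map_sub (hp.polarHom Q) P P'

theorem polar_sub_right (hp : IsPar h) (P Q Q' : M) :
    polar h P (Q - Q') = polar h P Q - polar h P Q' := by
  rw [polar_comm, hp.polar_sub_left, polar_comm h Q P, polar_comm h Q' P]

theorem polar_zsmul_left (hp : IsPar h) (n : ℤ) (P Q : M) :
    polar h (n • P) Q = n * polar h P Q := by
  have := _root_.map_zsmul (hp.polarHom Q) n P
  simpa [smul_eq_mul] using this

theorem polar_zsmul_right (hp : IsPar h) (n : ℤ) (P Q : M) :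
    polar h P (n • Q) = n * polar h P Q := by
  rw [polar_comm, hp.polar_zsmul_left, polar_comm]

theorem polar_nsmul_left (hp : IsPar h) (n : ℕ) (P Q : M) :
    polar h (n • P) Q = n * polar h P Q := by
  have := _root_.map_nsmul (hp.polarHom Q) n P
  simpa [smul_eq_mul] using this

theorem polar_nsmul_right (hp : IsPar h) (n : ℕ) (P Q : M) :
    polar h P (n • Q) = n * polar h P Q := by
  rw [polar_comm, hp.polar_nsmul_left, polar_comm]

theorem polar_sum_left (hp : IsPar h) {ι : Type*} (s : Finset ι) (P : ι → M) (Q : M) :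
    polar h (∑ i ∈ s, P i) Q = ∑ i ∈ s, polar h (P i) Q := by
  show hp.polarHom Q (∑ i ∈ s, P i) = ∑ i ∈ s, hp.polarHom Q (P i)
  exact _root_.map_sum (hp.polarHom Q) P s

/-- `h` is homogeneous of degree two. -/
theorem height_zsmul (hp : IsPar h) (n : ℤ) (P : M) : h (n • P) = n ^ 2 * h P := by
  have h1 : polar h (n • P) (n • P) = 2 * h (n • P) := hp.polar_self _
  rw [hp.polar_zsmul_left, hp.polar_zsmul_right, hp.polar_self] at h1
  have h2 : 2 * h (n • P) = 2 * (n ^ 2 * h P) := by rw [← h1]; ring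
  omega

theorem height_nsmul (hp : IsPar h) (n : ℕ) (P : M) : h (n • P) = (n : ℤ) ^ 2 * h P := by
  have := hp.height_zsmul (n : ℤ) P
  rwa [natCast_zsmul] at this

/-! ### Endomorphisms scaling `h` -/

section Endo

variable (hp : IsPar h) (Φ : M →+ M) (ℓ a : ℤ)

/-- If `h ∘ Φ = ℓ * h` then `polar (Φ P) (Φ Q) = ℓ * polar P Q`. -/
theorem polar_map_map (hΦ : ∀ Q, h (Φ Q) = ℓ * h Q) (P Q : M) :
    polar h (Φ P) (Φ Q) = ℓ * polar h P Q := by
  have h1 := hΦ (P + Q)
  rw [_root_.map_add Φ] at h1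
  simp only [polar_def]
  rw [h1, hΦ P, hΦ Q]
  ring

include hp in
/-- `polar (Φ Q) Q = a * h Q`. -/
theorem polar_map_self (hΦ : ∀ Q, h (Φ Q) = ℓ * h Q)
    (hΦ1 : ∀ Q, h (Φ Q - Q) = (ℓ + 1 - a) * h Q) (Q : M) :
    polar h (Φ Q) Q = a * h Q := by
  have h1 := hΦ1 Q
  rw [hp.height_sub, hΦ Q] at h1
  linear_combination -h1

include hp in
/-- Polarised form: `polar (Φ P) Q + polar (Φ Q) P = a * polar P Q`. -/
theorem polar_map_add_polar_map (hΦ : ∀ Q, h (Φ Q) = ℓ * h Q)
    (hΦ1 : ∀ Q, h (Φ Q - Q) = (ℓ + 1 - a) * h Q) (P Q : M) :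
    polar h (Φ P) Q + polar h (Φ Q) P = a * polar h P Q := by
  have h1 := hp.polar_map_self Φ ℓ a hΦ hΦ1 (P + Q)
  rw [_root_.map_add Φ, hp.polar_add_left, hp.polar_add_right, hp.polar_add_right,
    hp.polar_map_self Φ ℓ a hΦ hΦ1 P, hp.polar_map_self Φ ℓ a hΦ hΦ1 Q, height_add h P Q] at h1
  linear_combination h1

include hp in
/-- `polar (Φ (Φ Q)) Q = (a ^ 2 - 2 * ℓ) * h Q`. -/
theorem polar_map_map_self (hΦ : ∀ Q, h (Φ Q) = ℓ * h Q)
    (hΦ1 : ∀ Q, h (Φ Q - Q) = (ℓ + 1 - a) * h Q) (Q : M) :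
    polar h (Φ (Φ Q)) Q = (a ^ 2 - 2 * ℓ) * h Q := by
  have h1 := hp.polar_map_add_polar_map Φ ℓ a hΦ hΦ1 (Φ Q) Q
  rw [hp.polar_self, hΦ Q, hp.polar_map_self Φ ℓ a hΦ hΦ1 Q] at h1
  linear_combination h1

include hp in
/-- **A2e (abstract Frobenius relation).**  If `h` satisfies the parallelogram law and the
endomorphism `Φ` satisfies `h (Φ Q) = ℓ * h Q` and `h (Φ Q - Q) = (ℓ + 1 - a) * h Q`, then
`h` vanishes on `(Φ² - a Φ + ℓ) Q`. -/
theorem frobenius_relation (hΦ : ∀ Q, h (Φ Q) = ℓ * h Q)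
    (hΦ1 : ∀ Q, h (Φ Q - Q) = (ℓ + 1 - a) * h Q) (Q : M) :
    h (Φ (Φ Q) - a • Φ Q + ℓ • Q) = 0 := by
  have e1 := hp.polar_map_self Φ ℓ a hΦ hΦ1 Q
  have e2 := hp.polar_map_self Φ ℓ a hΦ hΦ1 (Φ Q)
  have e3 := hp.polar_map_map_self Φ ℓ a hΦ hΦ1 Q
  rw [height_add h (Φ (Φ Q) - a • Φ Q) (ℓ • Q), hp.height_sub, hp.height_zsmul, hp.height_zsmul,
    hp.polar_sub_left,
    hp.polar_zsmul_right, hp.polar_zsmul_right, hp.polar_zsmul_right, hp.polar_zsmul_left,
    hΦ (Φ Q), hΦ Q, e2, e3, e1, hΦ Q]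
  ring

include hp in
/-- The same with the relation written as `Φ² Q + ℓ Q = a Φ Q` up to a point of height `0`. -/
theorem frobenius_relation' (hΦ : ∀ Q, h (Φ Q) = ℓ * h Q)
    (hΦ1 : ∀ Q, h (Φ Q - Q) = (ℓ + 1 - a) * h Q) (Q : M) :
    h (Φ (Φ Q) + ℓ • Q - a • Φ Q) = 0 := by
  have := hp.frobenius_relation Φ ℓ a hΦ hΦ1 Q
  have e : Φ (Φ Q) + ℓ • Q - a • Φ Q = Φ (Φ Q) - a • Φ Q + ℓ • Q := by abel
  rw [e]; exact this

end Endo

end IsPar

/-! ### `ℕ`-valued heights -/

/-- The parallelogram law for a `ℕ`-valued function. -/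
def IsParNat (h : M → ℕ) : Prop :=
  ∀ P Q : M, h (P + Q) + h (P - Q) = 2 * h P + 2 * h Q

theorem IsParNat.isPar {h : M → ℕ} (hp : IsParNat h) : IsPar fun P => (h P : ℤ) := by
  intro P Q
  have := hp P Q
  push_cast [← this]
  exact_mod_cast this

/-- **A2e for `ℕ`-valued heights.**  `N` plays the role of `#E(𝔽_ℓ)`, `a = ℓ + 1 - N`. -/
theorem IsParNat.frobenius_relation {h : M → ℕ} (hp : IsParNat h) (Φ : M →+ M) (ℓ N : ℕ)
    (hΦ : ∀ Q, h (Φ Q) = ℓ * h Q) (hΦ1 : ∀ Q, h (Φ Q - Q) = N * h Q) (Q : M) :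
    h (Φ (Φ Q) - ((ℓ : ℤ) + 1 - N) • Φ Q + ℓ • Q) = 0 := by
  have key := hp.isPar.frobenius_relation Φ (ℓ : ℤ) ((ℓ : ℤ) + 1 - N)
    (fun Q => by
      show ((h (Φ Q) : ℕ) : ℤ) = (ℓ : ℤ) * ((h Q : ℕ) : ℤ)
      rw [hΦ Q]; push_cast; ring)
    (fun Q => by
      show ((h (Φ Q - Q) : ℕ) : ℤ) = ((ℓ : ℤ) + 1 - ((ℓ : ℤ) + 1 - N)) * ((h Q : ℕ) : ℤ)
      rw [hΦ1 Q]; push_cast; ring) Q
  have key' : ((h (Φ (Φ Q) - ((ℓ : ℤ) + 1 - N) • Φ Q + (ℓ : ℤ) • Q) : ℕ) : ℤ) = 0 := key
  rw [natCast_zsmul] at key'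
  exact_mod_cast key'

end Fermat.Agent.S52.H127

end
-- ===== PACK-END S52/H127/QuadForm.lean

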