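import Mathlib
import Fermat.Prelude.Def_FLTPrelim_FreyPackage
import Fermat.Prelude.Def_FLTPrelim_GaloisRep
import Fermat.Prelude.Def_FLTPrelim_Ramification
import Fermat.Prelude.Def_FLTPrelim_CofixedLine
import Fermat.Statements.S05
import Fermat.Prelude.Def_EllipticCurve_ZeroComponentAt
import Mathlib.AlgebraicGeometry.EllipticCurve.Affine.AddSubMap
import Fermat.Prelude.Def_FLTPrelim_Modularity
import Mathlib.FieldTheory.Minpoly.Field
import Mathlib.RingTheory.Algebraic.Basic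
import Mathlib.FieldTheory.IsAlgClosed.AlgebraicClosure
import Mathlib.GroupTheory.QuotientGroup.Basic
import Mathlib.Algebra.Group.Subgroup.ZPowers.Basic
import Mathlib.AlgebraicGeometry.EllipticCurve.Affine.Point
import Mathlib.FieldTheory.IsAlgClosed.Basic
import Fermat.Statements.S13
import Fermat.Agent.Pack.S15.AE2L2
import Fermat.Agent.Pack.S15.AE0L3
import Fermat.Agent.Pack.S15.AE1L3
import Fermat.Agent.Pack.S15.AE1L1
import Fermat.Agent.Pack.S15.AE2L3
import Fermat.Agent.Pack.S15.AE0L1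
import Fermat.Agent.Pack.S15.AE3L3
import Fermat.Agent.Pack.S15.AE3L1
import Fermat.Agent.Pack.S15.AE1L2
import Fermat.Agent.Pack.S15.AE1L0
import Fermat.Agent.Pack.S15.AE0L2
import Fermat.Agent.Pack.S15.AE5L2
import Fermat.Agent.Pack.S15.AE6L3
import Fermat.Agent.Pack.S15.AE6L1
import Fermat.Agent.Pack.S15.AE7L0
import Fermat.Agent.Pack.S15.BE1L3
import Fermat.Agent.Pack.S15.BE0L0
import Fermat.Agent.Pack.S15.BE0L2
import Fermat.Agent.Pack.S15.BE1L1
import Fermat.Agent.Pack.S15.BE1L0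
import Fermat.Agent.Pack.S15.BE0L3
import Fermat.Agent.Pack.S15.BE1L2
import Fermat.Agent.Pack.S15.BE0L1

-- ===== PACK-BEGIN S12/H291/OneStep.lean
section








/-!
# S12 — the ONE-STEP route: TOP assembly (helper291)

`s12_of_piRat : PiRatStatement → frozen S12`.

For a cofixed line `N` of the Frey curve `E : y² + xy = x³ + ((Y - 1 - X)/4) x² - (XY/16) x`
(`X = a^p`, `Y = b^p`; `2`-torsion `ε₁ = 0`, `ε₂ = X/4`, `ε₃ = -Y/4`) and a generator `T₀` of `N`
put `Π_j := ∏_{k ∈ Ico 1 p} (x(k • T₀) - ε_j)`.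

* Jacobi's identity (`Jacobi.lean`, proved):  `(X+Y)^p Π₁² = X^p Π₃² + Y^p Π₂²`.
* `PiRatStatement` (NODE): the `Π_j` are rational, `Π₃² = Π₁²` and `Π₁² = 16^(p-1) Π₂²`
  (i.e. `N` is the toric line at every prime; this is where frozen S15 enters).
* Endgame (`Endgame.lean`, proved): `16^(p-1) ((X+Y)^p - X^p) = Y^p` is impossible `2`-adically.
-/

set_option autoImplicit false
set_option linter.unusedSectionVars false

noncomputable section

open WeierstrassCurve WeierstrassCurve.Affine WeierstrassCurve.Affine.Point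

namespace Fermat.Agent.S12.H291

/-- `ℚ̄`. -/
abbrev Qb : Type := AlgebraicClosure ℚ

/-- The `ℚ̄`-points of the Frey curve (Prelude shape). -/
abbrev FreyPt (P : FreyPackage) : Type := (P.freyCurve⁄Qb).Point

/-- `ε₂ = a^p / 4`. -/
def eps₂ (P : FreyPackage) : Qb := algebraMap ℚ Qb ((P.a : ℚ) ^ P.p / 4)

/-- `ε₃ = - b^p / 4`. -/
def eps₃ (P : FreyPackage) : Qb := algebraMap ℚ Qb (-((P.b : ℚ) ^ P.p) / 4)

/-- The Frey curve over `ℚ̄` has full `2`-torsion `ε₃, 0, ε₂`. -/
lemma frey_fullTwo (P : FreyPackage) : FullTwo (P.freyCurve⁄Qb) (eps₃ P) 0 (eps₂ P) := by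
  have ha : ((P.a : ℚ) ^ P.p) ≠ 0 := pow_ne_zero _ (by exact_mod_cast P.ha0)
  have hb : ((P.b : ℚ) ^ P.p) ≠ 0 := pow_ne_zero _ (by exact_mod_cast P.hb0)
  have hc : ((P.a : ℚ) ^ P.p) + ((P.b : ℚ) ^ P.p) ≠ 0 := by
    have h := P.hFLT
    have h' : ((P.a : ℚ) ^ P.p) + ((P.b : ℚ) ^ P.p) = (P.c : ℚ) ^ P.p := by exact_mod_cast h
    rw [h']
    exact pow_ne_zero _ (by exact_mod_cast P.hc0)
  have inj := (algebraMap ℚ Qb).injective
  refine ⟨two_ne_zero, ?_, ?_, ?_, ?_, ?_, ?_⟩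
  · have : (P.freyCurve⁄Qb).b₂ = algebraMap ℚ Qb P.freyCurve.b₂ := by
      simp [WeierstrassCurve.baseChange]
    rw [this, eps₂, eps₃]
    simp only [WeierstrassCurve.b₂, FreyPackage.freyCurve]
    rw [show (-4 : Qb) = algebraMap ℚ Qb (-4) by simp, show (0 : Qb) = algebraMap ℚ Qb 0 by simp,
      ← map_add, ← map_add, ← map_mul]
    congr 1
    ring
  · have : (P.freyCurve⁄Qb).b₄ = algebraMap ℚ Qb P.freyCurve.b₄ := by
      simp [WeierstrassCurve.baseChange]
    rw [this, eps₂, eps₃]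
    simp only [WeierstrassCurve.b₄, FreyPackage.freyCurve]
    rw [show (2 : Qb) = algebraMap ℚ Qb 2 by simp, show (0 : Qb) = algebraMap ℚ Qb 0 by simp,
      ← map_mul, ← map_mul, ← map_mul, ← map_add, ← map_add, ← map_mul]
    congr 1
    ring
  · have : (P.freyCurve⁄Qb).b₆ = algebraMap ℚ Qb P.freyCurve.b₆ := by
      simp [WeierstrassCurve.baseChange]
    rw [this]
    simp [WeierstrassCurve.b₆, FreyPackage.freyCurve]
  · rw [eps₃, ← map_zero (algebraMap ℚ Qb)]
    intro h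
    have := inj h
    field_simp at this
    exact hb (by linarith)
  · rw [eps₃, eps₂]
    intro h
    have := inj h
    field_simp at this
    exact hc (by linarith)
  · rw [eps₂, ← map_zero (algebraMap ℚ Qb)]
    intro h
    have := inj h
    field_simp at this
    exact ha (by linarith)

/-- **NODE PiRat** (this is where frozen S15 enters, through "the cofixed line is the toric
line at every prime"): for a cofixed line of the Frey representation, `17 ≤ p`, there is a point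
`T₀` of order `p` (a generator of the line) such that the three products
`Π_j = ∏_{k ∈ Ico 1 p} (x(k • T₀) - ε_j)` are rational numbers `r₁, r₂, r₃` (for
`ε₁ = 0`, `ε₂ = a^p/4`, `ε₃ = -b^p/4`) with `r₃² = r₁²` and `r₁² = 16^(p-1) r₂²`. -/
def PiRatStatement : Prop :=
  ∀ (P : FreyPackage), 17 ≤ P.p →
    ∀ N : Submodule (ZMod P.p) (Submodule.torsionBy ℤ (FreyPt P) P.p),
      IsGaloisStable (K := Qb) ℚ N → N ≠ ⊥ → N ≠ ⊤ →
      (∀ σ : Qb ≃ₐ[ℚ] Qb, ∀ x : Submodule.torsionBy ℤ (FreyPt P) P.p, σ • x - x ∈ N) →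
      ∃ T₀ : Submodule.torsionBy ℤ (FreyPt P) P.p, T₀ ∈ N ∧ T₀ ≠ 0 ∧
        ∃ r₁ r₂ r₃ : ℚ, r₁ ≠ 0 ∧
          piProd (T₀ : FreyPt P) P.p 0 = algebraMap ℚ Qb r₁ ∧
          piProd (T₀ : FreyPt P) P.p (eps₂ P) = algebraMap ℚ Qb r₂ ∧
          piProd (T₀ : FreyPt P) P.p (eps₃ P) = algebraMap ℚ Qb r₃ ∧
          r₃ ^ 2 = r₁ ^ 2 ∧ r₁ ^ 2 = 16 ^ (P.p - 1) * r₂ ^ 2

lemma frey_a_pow_odd (P : FreyPackage) : Odd (P.a ^ P.p) := by
  apply Odd.pow
  have h := P.ha4
  have h3 : ((P.a : ℤ) : ZMod 4) = ((3 : ℤ) : ZMod 4) := by rw [h]; rfl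
  rw [ZMod.intCast_eq_intCast_iff_dvd_sub] at h3
  obtain ⟨k, hk⟩ := h3
  exact ⟨-2 * k + 1, by push_cast at hk; linarith⟩

lemma frey_b_pow_dvd (P : FreyPackage) : (32 : ℤ) ∣ P.b ^ P.p := by
  have h2 : (2 : ℤ) ∣ P.b := (ZMod.intCast_zmod_eq_zero_iff_dvd P.b 2).1 P.hb2
  have h5 : (2 : ℤ) ^ 5 ∣ P.b ^ 5 := pow_dvd_pow_of_dvd h2 5
  have h6 : P.b ^ 5 ∣ P.b ^ P.p := pow_dvd_pow _ P.hp5
  exact (by norm_num : (32 : ℤ) = 2 ^ 5) ▸ h5.trans h6

/-- **Row S12, ONE-STEP TOP.**  The frozen statement S12 from the node `PiRatStatement`. -/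
theorem s12_of_piRat (hPi : PiRatStatement) (P : FreyPackage) (hp : 17 ≤ P.p) :
    ¬ HasGaloisStableCofixedLine (K := AlgebraicClosure ℚ) ℚ P.freyCurve P.p := by
  rintro ⟨N, hstab, hbot, htop, hcof⟩
  obtain ⟨T₀, -, hT₀, r₁, r₂, r₃, hr₁, h1, h2, h3, h31, h12⟩ :=
    hPi P hp N hstab hbot htop hcof
  -- `T₀` has exact order `p`
  have hord : addOrderOf (T₀ : FreyPt P) = P.p := by
    have hp0 : P.p • (T₀ : FreyPt P) = 0 := by
      have := T₀.2
      rw [Submodule.mem_torsionBy_iff] at this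
      rw [← natCast_zsmul]
      exact this
    have hne : (T₀ : FreyPt P) ≠ 0 := fun h => hT₀ (Subtype.ext h)
    have hdvd := addOrderOf_dvd_of_nsmul_eq_zero hp0
    rcases (Nat.dvd_prime P.pp).mp hdvd with h | h
    · exact absurd (AddMonoid.addOrderOf_eq_one_iff.mp h) hne
    · exact h
  have hJ := jacobi_identity (frey_fullTwo P) P.hp_odd hord
  rw [h1, h2, h3, eps₂, eps₃] at hJ
  rw [show (0 : Qb) = algebraMap ℚ Qb 0 by simp] at hJ
  simp only [← map_sub, ← map_pow, ← map_mul] at hJ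
  have hQ := (algebraMap ℚ Qb).injective hJ
  -- the identity over `ℚ`
  have hr₂ : r₂ ≠ 0 := by
    rintro rfl
    apply hr₁
    have : r₁ ^ 2 = 0 := by rw [h12]; ring
    exact pow_eq_zero_iff (two_ne_zero) |>.mp this
  have h4p : ((4 : ℚ) ^ P.p) ≠ 0 := pow_ne_zero _ (by norm_num)
  have key : (16 : ℚ) ^ (P.p - 1) * (((P.a : ℚ) ^ P.p + (P.b : ℚ) ^ P.p) ^ P.p
      - ((P.a : ℚ) ^ P.p) ^ P.p) = ((P.b : ℚ) ^ P.p) ^ P.p := by
    have hr₂2 : r₂ ^ 2 ≠ 0 := pow_ne_zero _ hr₂
    apply mul_right_cancel₀ hr₂2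
    have e1 : ((P.a : ℚ) ^ P.p / 4 - -((P.b : ℚ) ^ P.p) / 4) ^ P.p
        = ((P.a : ℚ) ^ P.p + (P.b : ℚ) ^ P.p) ^ P.p / 4 ^ P.p := by
      rw [← div_pow]; congr 1; ring
    have e2 : ((P.a : ℚ) ^ P.p / 4 - 0) ^ P.p = ((P.a : ℚ) ^ P.p) ^ P.p / 4 ^ P.p := by
      rw [sub_zero, div_pow]
    have e3 : ((0 : ℚ) - -((P.b : ℚ) ^ P.p) / 4) ^ P.p = ((P.b : ℚ) ^ P.p) ^ P.p / 4 ^ P.p := by
      rw [← div_pow]; congr 1; ring
    rw [e1, e2, e3, h31, h12] at hQ
    field_simp at hQ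
    linear_combination hQ
  have keyZ : (16 : ℤ) ^ (P.p - 1) * ((P.a ^ P.p + P.b ^ P.p) ^ P.p - (P.a ^ P.p) ^ P.p)
      = (P.b ^ P.p) ^ P.p := by
    exact_mod_cast key
  exact endgame P.hp_odd (by have := P.hp5; omega) (frey_a_pow_odd P) (frey_b_pow_dvd P)
    (pow_ne_zero _ P.hb0) keyZ

end Fermat.Agent.S12.H291

end
end
-- ===== PACK-END S12/H291/OneStep.lean

-- ===== PACK-BEGIN S05/AssembleMain.lean
section
/-
S05 final assembly (helper665): the two abstract theorems [Good] and [Node].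
-/


set_option autoImplicit false

namespace Fermat.Agent.S05.Assemble

open WeierstrassCurve WeierstrassCurve.Affine
open Fermat.Agent.S05.SameRed

set_option linter.unusedSectionVars false
set_option linter.unusedVariables false

variable {K : Type*} [Field K] [DecidableEq K]
  {Γ₀ : Type*} [LinearOrderedCommGroupWithZero Γ₀]
variable {W : Affine K} {v : Valuation K Γ₀}

/-- (C3c) in hypothesis form. -/
def NodeTorsion (W : Affine K) (v : Valuation K Γ₀) (e₁ α : K) (n : ℕ) : Prop :=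
  ∀ (x y : K) (h : W.Nonsingular x y), n • Point.some x y h = 0 → v (x - e₁) < 1 →
    v α < v (x - e₁) ∧ ∃ j : ℕ, v (x - e₁) ^ n = v α ^ (2 * j)

lemma pow_eq_pow_imp_eq {a b : Γ₀} {n : ℕ} (hn : n ≠ 0) (h : a ^ n = b ^ n) : a = b := by
  rcases lt_trichotomy a b with hlt | heq | hgt
  · exact absurd h (pow_lt_pow_left₀ hlt zero_le hn).ne
  · exact heq
  · exact absurd h (pow_lt_pow_left₀ hgt zero_le hn).ne'

lemma val_sub_eq_of_lt {a b : K} (h : v b < v a) : v (a - b) = v a := by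
  rw [sub_eq_add_neg]
  exact v.map_add_eq_of_lt_left (by rwa [Valuation.map_neg])

lemma val_sub_eq_of_lt' {a b : K} (h : v a < v b) : v (a - b) = v b := by
  rw [← Valuation.map_neg, neg_sub]
  exact val_sub_eq_of_lt h

/-- If the product of three integral elements lies in the maximal ideal, one of them does. -/
lemma exists_lt_one_of_mul {a b c : K} (ha : v a ≤ 1) (hb : v b ≤ 1) (hc : v c ≤ 1)
    (h : v (a * b * c) < 1) : v a < 1 ∨ v b < 1 ∨ v c < 1 := by
  by_contra hcon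
  simp only [not_or, not_lt] at hcon
  obtain ⟨h1, h2, h3⟩ := hcon
  have ha1 : v a = 1 := le_antisymm ha h1
  have hb1 : v b = 1 := le_antisymm hb h2
  have hc1 : v c = 1 := le_antisymm hc h3
  rw [map_mul, map_mul, ha1, hb1, hc1, one_mul, one_mul] at h
  exact lt_irrefl _ h

lemma val_eta_sq_lt_one {a : K} (h : v a < 1) : v (a ^ 2) < 1 := by
  rw [map_pow]
  exact pow_lt_one' h (by norm_num)

/-- **[Good]** If the three roots of the 2-division cubic are integral and pairwise distinct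
modulo the maximal ideal, an inertia-like `σ` fixes all odd torsion points prime to the
residue characteristic. -/
theorem fixed_of_good (hW : IntegralCoeffs W v) (h2 : v (2 : K) = 1)
    (σ : K →+* K) (hres : ∀ z, v z ≤ 1 → v (σ z - z) < 1)
    (hσ₁ : σ W.a₁ = W.a₁) (hσ₃ : σ W.a₃ = W.a₃)
    (τ : W.Point →+ W.Point)
    (hτ : ∀ (x y : K) (h : W.Nonsingular x y),
      ∃ h' : W.Nonsingular (σ x) (σ y), τ (Point.some x y h) = Point.some (σ x) (σ y) h')
    {n : ℕ} (hn : Odd n) (hC1 : KerTorsionFree W v n)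
    {r₁ r₂ r₃ : K} (hr : Roots W r₁ r₂ r₃) (hr₁ : v r₁ ≤ 1) (hr₂ : v r₂ ≤ 1) (hr₃ : v r₃ ≤ 1)
    (h12 : v (r₁ - r₂) = 1) (h13 : v (r₁ - r₃) = 1) (h23 : v (r₂ - r₃) = 1)
    (P : W.Point) (hP : n • P = 0) : τ P = P := by
  rcases P with _ | ⟨x, y, h⟩
  · exact map_zero τ
  have hx : v x ≤ 1 := val_x_le_one_of_torsion hC1 h hP
  have hy : v y ≤ 1 := val_y_le_one hW h.1 hx
  have h4 := val_four (v := v) h2
  have h21 : v (r₂ - r₁) = 1 := by rw [← Valuation.map_neg, neg_sub]; exact h12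
  have h31 : v (r₃ - r₁) = 1 := by rw [← Valuation.map_neg, neg_sub]; exact h13
  have h32 : v (r₃ - r₂) = 1 := by rw [← Valuation.map_neg, neg_sub]; exact h23
  have hη1 : v (2 * y + W.a₁ * x + W.a₃) = 1 := by
    apply val_eta_eq_one_of_torsion hW h2 hn hC1 h hP
    intro hη
    have hsq := val_eta_sq_lt_one hη
    rw [hr.eta_sq h.1, map_mul, h4, one_mul] at hsq
    rcases exists_lt_one_of_mul (val_sub_le_one hx hr₁) (val_sub_le_one hx hr₂)
      (val_sub_le_one hx hr₃) hsq with h1 | h1 | h1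
    · exact hr.val_WX_eq_one hW h2 hx hr₁ hr₂ hr₃ hη h1 h12 h13
    · exact hr.swap₁₂.val_WX_eq_one hW h2 hx hr₂ hr₁ hr₃ hη h1 h21 h23
    · exact hr.swap₁₃.val_WX_eq_one hW h2 hx hr₃ hr₂ hr₁ hη h1 h32 h31
  exact fixed_of_scaled hW h2 σ hres hσ₁ hσ₃ τ hτ hC1 h hP (c := 1) (e := 0)
    (map_one σ) (map_zero σ) (by rw [hη1, map_one]) (by rw [sub_zero, map_one]; exact hx)

/-- **[Node]** The multiplicative case. -/
theorem fixed_of_node (hW : IntegralCoeffs W v) (h2 : v (2 : K) = 1)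
    (σ : K →+* K) (hres : ∀ z, v z ≤ 1 → v (σ z - z) < 1)
    (hσ₁ : σ W.a₁ = W.a₁) (hσ₃ : σ W.a₃ = W.a₃)
    (τ : W.Point →+ W.Point)
    (hτ : ∀ (x y : K) (h : W.Nonsingular x y),
      ∃ h' : W.Nonsingular (σ x) (σ y), τ (Point.some x y h) = Point.some (σ x) (σ y) h')
    {n : ℕ} (hn : Odd n) (hC1 : KerTorsionFree W v n)
    {e₁ α β : K} (hr : Roots W e₁ (e₁ + α) (e₁ + β)) (he₁ : v e₁ ≤ 1) (hα : v α < 1)
    (hβ : v β = 1) (hσe : σ e₁ = e₁)
    {π : K} (hσπ : σ π = π) (hπ : v π ^ n = v α ^ 2)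
    (hC3 : NodeTorsion W v e₁ α n)
    (P : W.Point) (hP : n • P = 0) : τ P = P := by
  rcases P with _ | ⟨x, y, h⟩
  · exact map_zero τ
  have hx : v x ≤ 1 := val_x_le_one_of_torsion hC1 h hP
  have hy : v y ≤ 1 := val_y_le_one hW h.1 hx
  have h4 := val_four (v := v) h2
  have hn0 : n ≠ 0 := hn.pos.ne'
  have hxe : v (x - e₁) ≤ 1 := val_sub_le_one hx he₁
  have hr₂ : v (e₁ + α) ≤ 1 := val_add_le_one he₁ hα.le
  have hr₃ : v (e₁ + β) ≤ 1 := val_add_le_one he₁ hβ.le
  have hβα : v (β - α) = 1 := by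
    rw [val_sub_eq_of_lt (by rw [hβ]; exact hα), hβ]
  rcases hxe.lt_or_eq with hlt | heq
  · -- off `E₀`
    obtain ⟨hαx, j, hj⟩ := hC3 x y h hP hlt
    have hvc : v (π ^ j) = v (x - e₁) := by
      apply pow_eq_pow_imp_eq hn0
      rw [hj, map_pow, ← pow_mul, mul_comm, pow_mul, hπ, ← pow_mul]
    have hxα : v (x - (e₁ + α)) = v (x - e₁) := by
      have : x - (e₁ + α) = (x - e₁) - α := by ring
      rw [this, val_sub_eq_of_lt hαx]
    have hxβ : v (x - (e₁ + β)) = 1 := by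
      have : x - (e₁ + β) = (x - e₁) - β := by ring
      rw [this, val_sub_eq_of_lt' (by rw [hβ]; exact hlt), hβ]
    have hη : v (2 * y + W.a₁ * x + W.a₃) = v (π ^ j) := by
      apply pow_eq_pow_imp_eq (n := 2) (by norm_num)
      rw [← map_pow, hr.eta_sq h.1, map_mul, map_mul, map_mul, h4, hxα, hxβ, hvc]
      simp [pow_two]
    exact fixed_of_scaled hW h2 σ hres hσ₁ hσ₃ τ hτ hC1 h hP (c := π ^ j) (e := e₁)
      (by rw [map_pow, hσπ]) hσe hη (by rw [hvc])
  · -- on `E₀`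
    have hη1 : v (2 * y + W.a₁ * x + W.a₃) = 1 := by
      apply val_eta_eq_one_of_torsion hW h2 hn hC1 h hP
      intro hη
      have hsq := val_eta_sq_lt_one hη
      rw [hr.eta_sq h.1, map_mul, h4, one_mul] at hsq
      have hxα : v (x - (e₁ + α)) = 1 := by
        have : x - (e₁ + α) = (x - e₁) - α := by ring
        rw [this, val_sub_eq_of_lt (by rw [heq]; exact hα), heq]
      have h3 : v (x - (e₁ + β)) < 1 := by
        rw [map_mul, map_mul, heq, hxα, one_mul, one_mul] at hsq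
        exact hsq
      have h31 : v (e₁ + β - e₁) = 1 := by
        have : e₁ + β - e₁ = β := by ring
        rw [this, hβ]
      have h32 : v (e₁ + β - (e₁ + α)) = 1 := by
        have : e₁ + β - (e₁ + α) = β - α := by ring
        rw [this, hβα]
      exact hr.swap₁₃.val_WX_eq_one hW h2 hx hr₃ hr₂ he₁ hη h3 h32 h31
    exact fixed_of_scaled hW h2 σ hres hσ₁ hσ₃ τ hτ hC1 h hP (c := 1) (e := 0)
      (map_one σ) (map_zero σ) (by rw [hη1, map_one]) (by rw [sub_zero, map_one]; exact hx)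

end Fermat.Agent.S05.Assemble

end
-- ===== PACK-END S05/AssembleMain.lean

-- ===== PACK-BEGIN S05/AssembleFrey.lean
section
/-
S05 final assembly (helper665): the concrete part for the Frey curve over `AlgebraicClosure ℚ`.
-/



set_option autoImplicit false

namespace Fermat.Agent.S05.Assemble

open WeierstrassCurve WeierstrassCurve.Affine WeierstrassCurve.Affine.Point
open Fermat.Agent.S05.SameRed

set_option linter.unusedSectionVars false
set_option linter.unusedVariables false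

/-- `ℚ̄`. -/
abbrev Qb : Type := AlgebraicClosure ℚ

section inertia

variable (A : ValuationSubring Qb)

/-- Elements of the inertia group act trivially on the residue field. -/
lemma inertia_res {σ : Qb ≃ₐ[ℚ] Qb} (hσ : σ ∈ A.inertiaSubgroupIn ℚ) (z : Qb)
    (hz : A.valuation z ≤ 1) : A.valuation (σ z - z) < 1 := by
  obtain ⟨g, hg, rfl⟩ := hσ
  have hzA : z ∈ A := (A.valuation_le_one_iff z).mp hz
  have h1 : MulSemiringAction.toRingAut (A.decompositionSubgroup ℚ)
      (IsLocalRing.ResidueField A) g = 1 := hg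
  have h2 : g • (IsLocalRing.residue A ⟨z, hzA⟩) = IsLocalRing.residue A ⟨z, hzA⟩ := by
    have := congrArg (fun f => f (IsLocalRing.residue A ⟨z, hzA⟩)) h1
    simpa using this
  rw [← IsLocalRing.ResidueField.residue_smul] at h2
  have h3 : (g • (⟨z, hzA⟩ : A)) - ⟨z, hzA⟩ ∈ IsLocalRing.maximalIdeal A := by
    rw [← Ideal.Quotient.eq]
    exact h2
  rw [ValuationSubring.valuation_lt_one_iff] at h3
  exact h3

variable {A}

lemma val_int_le_one (n : ℤ) : A.valuation (n : Qb) ≤ 1 :=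
  (A.valuation_le_one_iff _).mpr (intCast_mem A n)

lemma val_nat_le_one (n : ℕ) : A.valuation (n : Qb) ≤ 1 :=
  (A.valuation_le_one_iff _).mpr (natCast_mem A n)

/-- An integer divisible by `q` lies in the maximal ideal. -/
lemma val_int_lt_one {q : ℕ} (hq : A.LiesOverPrime q) {n : ℤ} (hn : (q : ℤ) ∣ n) :
    A.valuation (n : Qb) < 1 := by
  obtain ⟨m, rfl⟩ := hn
  have hq' : A.valuation (q : Qb) < 1 := (A.mem_nonunits_iff).mp hq
  push_cast
  rw [map_mul]
  exact (mul_le_of_le_one_right' (val_int_le_one m)).trans_lt hq'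

/-- An integer prime to `q` is a unit. -/
lemma val_int_eq_one {q : ℕ} (hq : A.LiesOverPrime q) (hqp : q.Prime) {n : ℤ}
    (hn : ¬ (q : ℤ) ∣ n) : A.valuation (n : Qb) = 1 := by
  have hq' : A.valuation (q : Qb) < 1 := (A.mem_nonunits_iff).mp hq
  have hcop : IsCoprime (q : ℤ) n := by
    have hp : Prime (q : ℤ) := Nat.prime_iff_prime_int.mp hqp
    exact (Prime.coprime_iff_not_dvd hp).mpr hn
  obtain ⟨u, w, huw⟩ := hcop
  have h1 : (u : Qb) * (q : Qb) + (w : Qb) * (n : Qb) = 1 := by exact_mod_cast congrArg (Int.cast : ℤ → Qb) huw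
  have hsmall : A.valuation ((u : Qb) * (q : Qb)) < 1 := by
    rw [map_mul]
    exact (mul_le_of_le_one_left' (val_int_le_one u)).trans_lt hq'
  have hwn : A.valuation ((w : Qb) * (n : Qb)) = 1 := by
    have : (w : Qb) * (n : Qb) = 1 + -((u : Qb) * (q : Qb)) := by linear_combination h1
    rw [this, (A.valuation).map_add_eq_of_lt_left (by rw [Valuation.map_neg, map_one]; exact hsmall),
      map_one]
  rw [map_mul] at hwn
  refine le_antisymm (val_int_le_one n) ?_
  calc (1 : A.ValueGroup) = A.valuation (w : Qb) * A.valuation (n : Qb) := hwn.symm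
    _ ≤ 1 * A.valuation (n : Qb) := mul_le_mul_left (val_int_le_one w) _
    _ = A.valuation (n : Qb) := one_mul _

lemma val_nat_eq_one {q : ℕ} (hq : A.LiesOverPrime q) (hqp : q.Prime) {n : ℕ}
    (hn : ¬ q ∣ n) : A.valuation (n : Qb) = 1 := by
  have := val_int_eq_one hq hqp (n := (n : ℤ)) (by exact_mod_cast hn)
  simpa using this

end inertia

end Fermat.Agent.S05.Assemble

namespace Fermat.Agent.S05.Assemble

open WeierstrassCurve WeierstrassCurve.Affine WeierstrassCurve.Affine.Point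
open Fermat.Agent.S05.SameRed

set_option linter.unusedSectionVars false
set_option linter.unusedVariables false

section frey

variable (P : FreyPackage)

/-- `a ^ p` in `ℚ̄`. -/
noncomputable def fA : Qb := ((P.a ^ P.p : ℤ) : Qb)
/-- `b ^ p` in `ℚ̄`. -/
noncomputable def fB : Qb := ((P.b ^ P.p : ℤ) : Qb)
/-- `c ^ p` in `ℚ̄`. -/
noncomputable def fC : Qb := ((P.c ^ P.p : ℤ) : Qb)

lemma fA_add_fB : fA P + fB P = fC P := by
  simp only [fA, fB, fC]
  exact_mod_cast congrArg (Int.cast : ℤ → Qb) P.hFLT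

lemma frey_a₁ : (P.freyCurve⁄Qb).a₁ = 1 := by
  simp [FreyPackage.freyCurve, WeierstrassCurve.baseChange]

lemma frey_a₃ : (P.freyCurve⁄Qb).a₃ = 0 := by
  simp [FreyPackage.freyCurve, WeierstrassCurve.baseChange]

lemma frey_a₆ : (P.freyCurve⁄Qb).a₆ = 0 := by
  simp [FreyPackage.freyCurve, WeierstrassCurve.baseChange]

lemma frey_a₂ : (P.freyCurve⁄Qb).a₂ = (fB P - 1 - fA P) / 4 := by
  simp [FreyPackage.freyCurve, WeierstrassCurve.baseChange, fA, fB]

lemma frey_a₄ : (P.freyCurve⁄Qb).a₄ = -(fA P) * (fB P) / 16 := by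
  simp [FreyPackage.freyCurve, WeierstrassCurve.baseChange, fA, fB]

lemma four_ne_zero_Qb : (4 : Qb) ≠ 0 := by norm_num

lemma frey_roots : Roots (P.freyCurve⁄Qb) 0 (fA P / 4) (-(fB P) / 4) := by
  refine ⟨?_, ?_, ?_⟩
  · simp only [WeierstrassCurve.b₂, frey_a₁, frey_a₂]
    field_simp
    ring
  · simp only [WeierstrassCurve.b₄, frey_a₁, frey_a₃, frey_a₄]
    field_simp
    ring
  · simp only [WeierstrassCurve.b₆, frey_a₃, frey_a₆]
    ring

variable {P}
variable {A : ValuationSubring Qb}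

lemma val_two_eq_one {q : ℕ} (hq : A.LiesOverPrime q) (hqp : q.Prime) (hq2 : q ≠ 2) :
    A.valuation (2 : Qb) = 1 := by
  have := val_nat_eq_one hq hqp (n := 2)
    (fun h => hq2 ((Nat.prime_dvd_prime_iff_eq hqp Nat.prime_two).mp h))
  simpa using this

lemma val_four_eq_one {q : ℕ} (hq : A.LiesOverPrime q) (hqp : q.Prime) (hq2 : q ≠ 2) :
    A.valuation (4 : Qb) = 1 :=
  val_four (val_two_eq_one hq hqp hq2)

lemma val_sixteen_eq_one {q : ℕ} (hq : A.LiesOverPrime q) (hqp : q.Prime) (hq2 : q ≠ 2) :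
    A.valuation (16 : Qb) = 1 := by
  have : (16 : Qb) = 4 * 4 := by norm_num
  rw [this, map_mul, val_four_eq_one hq hqp hq2, one_mul]

lemma val_p_eq_one {q : ℕ} (hq : A.LiesOverPrime q) (hqp : q.Prime) (hne : q ≠ P.p) :
    A.valuation (P.p : Qb) = 1 :=
  val_nat_eq_one hq hqp (fun h => hne ((Nat.prime_dvd_prime_iff_eq hqp P.pp).mp h))

lemma val_fA_le_one : A.valuation (fA P) ≤ 1 := val_int_le_one _
lemma val_fB_le_one : A.valuation (fB P) ≤ 1 := val_int_le_one _
lemma val_fC_le_one : A.valuation (fC P) ≤ 1 := val_int_le_one _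

lemma frey_integral {q : ℕ} (hq : A.LiesOverPrime q) (hqp : q.Prime) (hq2 : q ≠ 2) :
    IntegralCoeffs (P.freyCurve⁄Qb) A.valuation := by
  have h4 := val_four_eq_one hq hqp hq2
  have h16 := val_sixteen_eq_one hq hqp hq2
  refine ⟨?_, ?_, ?_, ?_, ?_⟩
  · rw [frey_a₁, map_one]
  · rw [frey_a₂, map_div₀, h4, div_one]
    exact val_sub_le_one (val_sub_le_one val_fB_le_one (by rw [map_one])) val_fA_le_one
  · rw [frey_a₃, _root_.map_zero]; exact zero_le_one
  · rw [frey_a₄, map_div₀, h16, div_one, map_mul, Valuation.map_neg]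
    exact mul_le_one' val_fA_le_one val_fB_le_one
  · rw [frey_a₆, _root_.map_zero]; exact zero_le_one

lemma int_pow_dvd_iff {q : ℕ} (hqp : q.Prime) (a : ℤ) {n : ℕ} (hn : n ≠ 0) :
    (q : ℤ) ∣ a ^ n ↔ (q : ℤ) ∣ a := by
  have hp : Prime (q : ℤ) := Nat.prime_iff_prime_int.mp hqp
  exact ⟨fun h => hp.dvd_of_dvd_pow h, fun h => dvd_pow h hn⟩

lemma val_fA_eq_one {q : ℕ} (hq : A.LiesOverPrime q) (hqp : q.Prime) (h : ¬ (q : ℤ) ∣ P.a) :
    A.valuation (fA P) = 1 :=
  val_int_eq_one hq hqp (fun h' => h ((int_pow_dvd_iff hqp _ P.hp0).mp h'))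

lemma val_fB_eq_one {q : ℕ} (hq : A.LiesOverPrime q) (hqp : q.Prime) (h : ¬ (q : ℤ) ∣ P.b) :
    A.valuation (fB P) = 1 :=
  val_int_eq_one hq hqp (fun h' => h ((int_pow_dvd_iff hqp _ P.hp0).mp h'))

lemma val_fC_eq_one {q : ℕ} (hq : A.LiesOverPrime q) (hqp : q.Prime) (h : ¬ (q : ℤ) ∣ P.c) :
    A.valuation (fC P) = 1 :=
  val_int_eq_one hq hqp (fun h' => h ((int_pow_dvd_iff hqp _ P.hp0).mp h'))

lemma val_fA_lt_one {q : ℕ} (hq : A.LiesOverPrime q) (h : (q : ℤ) ∣ P.a) :
    A.valuation (fA P) < 1 :=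
  val_int_lt_one hq (dvd_pow h P.hp0)

lemma val_fB_lt_one {q : ℕ} (hq : A.LiesOverPrime q) (h : (q : ℤ) ∣ P.b) :
    A.valuation (fB P) < 1 :=
  val_int_lt_one hq (dvd_pow h P.hp0)

lemma val_fC_lt_one {q : ℕ} (hq : A.LiesOverPrime q) (h : (q : ℤ) ∣ P.c) :
    A.valuation (fC P) < 1 :=
  val_int_lt_one hq (dvd_pow h P.hp0)

/-- A prime cannot divide two of `a`, `b`, `c`. -/
lemma not_dvd_of_gcd_eq_one {q : ℕ} (hqp : q.Prime) {x y : ℤ} (hg : gcd x y = 1)
    (hx : (q : ℤ) ∣ x) : ¬ (q : ℤ) ∣ y := by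
  intro hy
  have h1 : (q : ℤ) ∣ gcd x y := dvd_gcd hx hy
  rw [hg] at h1
  have hp : Prime (q : ℤ) := Nat.prime_iff_prime_int.mp hqp
  exact hp.not_dvd_one h1

end frey

end Fermat.Agent.S05.Assemble

end
-- ===== PACK-END S05/AssembleFrey.lean

-- ===== PACK-BEGIN S05/AssembleFinal.lean
section
/-
S05 final assembly (helper665): `P.GaloisRepUnramifiedAt q` from the two abstract facts
(C1b) = `HC1` and (C3c) = `HC3`.
-/


set_option autoImplicit false

namespace Fermat.Agent.S05.Assemble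

open WeierstrassCurve WeierstrassCurve.Affine WeierstrassCurve.Affine.Point
open Fermat.Agent.S05.SameRed

set_option linter.unusedSectionVars false
set_option linter.unusedVariables false

/-- (C1b) specialised to `ℚ̄`: the kernel of reduction has no odd torsion prime to the residue
characteristic. -/
def HC1 : Prop :=
  ∀ (A : ValuationSubring Qb) (W : Affine Qb), IntegralCoeffs W A.valuation →
    A.valuation (2 : Qb) = 1 → ∀ n : ℕ, Odd n → A.valuation (n : Qb) = 1 →
    KerTorsionFree W A.valuation n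

/-- (C3c) specialised to `ℚ̄`. -/
def HC3 : Prop :=
  ∀ (A : ValuationSubring Qb) (W : Affine Qb), IntegralCoeffs W A.valuation →
    A.valuation (2 : Qb) = 1 → ∀ e₁ α β : Qb, Roots W e₁ (e₁ + α) (e₁ + β) →
    A.valuation e₁ ≤ 1 → α ≠ 0 → A.valuation α < 1 → A.valuation β = 1 →
    ∀ n : ℕ, Odd n → A.valuation (n : Qb) = 1 → KerTorsionFree W A.valuation n →
    NodeTorsion W A.valuation e₁ α n

lemma fA_ne_zero (P : FreyPackage) : fA P ≠ 0 := by
  simp only [fA]
  exact_mod_cast pow_ne_zero _ P.ha0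

lemma fB_ne_zero (P : FreyPackage) : fB P ≠ 0 := by
  simp only [fB]
  exact_mod_cast pow_ne_zero _ P.hb0

lemma fC_ne_zero (P : FreyPackage) : fC P ≠ 0 := by
  simp only [fC]
  exact_mod_cast pow_ne_zero _ P.hc0

lemma sigma_int (σ : Qb ≃ₐ[ℚ] Qb) (n : ℤ) : σ (n : Qb) = (n : Qb) := map_intCast σ n

lemma sigma_fA (P : FreyPackage) (σ : Qb ≃ₐ[ℚ] Qb) : σ (fA P) = fA P := sigma_int σ _
lemma sigma_fB (P : FreyPackage) (σ : Qb ≃ₐ[ℚ] Qb) : σ (fB P) = fB P := sigma_int σ _
lemma sigma_fC (P : FreyPackage) (σ : Qb ≃ₐ[ℚ] Qb) : σ (fC P) = fC P := sigma_int σ _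

lemma val_div_four {A : ValuationSubring Qb} (h4 : A.valuation (4 : Qb) = 1) (z : Qb) :
    A.valuation (z / 4) = A.valuation z := by
  rw [map_div₀, h4, div_one]

lemma val_neg_div_four {A : ValuationSubring Qb} (h4 : A.valuation (4 : Qb) = 1) (z : Qb) :
    A.valuation (-z / 4) = A.valuation z := by
  rw [map_div₀, h4, div_one, Valuation.map_neg]

/-- `v (π) ^ p = v (α) ^ 2` for `π = t ^ 2`, `α = ± t ^ p / 4`. -/
lemma val_sq_pow {A : ValuationSubring Qb} (t : ℤ) (p : ℕ) :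
    A.valuation (((t ^ 2 : ℤ) : Qb)) ^ p = A.valuation (((t ^ p : ℤ) : Qb)) ^ 2 := by
  push_cast
  rw [map_pow, map_pow, ← pow_mul, ← pow_mul, mul_comm]

theorem unramified_of (h1 : HC1) (h3 : HC3) (P : FreyPackage) {q : ℕ} (hq : q.Prime)
    (hq2 : q ≠ 2) (hqp : q ≠ P.p) : P.GaloisRepUnramifiedAt q := by
  intro A hA σ hσ x
  obtain ⟨pt, hpt⟩ := x
  apply Subtype.ext
  show Point.map (W' := P.freyCurve) σ.toAlgHom pt = pt
  have hP : P.p • pt = 0 := by
    have := (Submodule.mem_torsionBy_iff _ _).mp hpt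
    rwa [natCast_zsmul] at this
  have hW := frey_integral (P := P) hA hq hq2
  have h2 := val_two_eq_one hA hq hq2
  have h4 := val_four_eq_one hA hq hq2
  have hp := val_p_eq_one (P := P) hA hq hqp
  have hodd : Odd P.p := P.hp_odd
  have hC1 := h1 A (P.freyCurve⁄Qb) hW h2 P.p hodd hp
  have hres := inertia_res A hσ
  have hσ₁ : (σ : Qb →+* Qb) (P.freyCurve⁄Qb).a₁ = (P.freyCurve⁄Qb).a₁ := by
    rw [frey_a₁]; exact map_one _
  have hσ₃ : (σ : Qb →+* Qb) (P.freyCurve⁄Qb).a₃ = (P.freyCurve⁄Qb).a₃ := by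
    rw [frey_a₃]; exact _root_.map_zero _
  have hτ : ∀ (x y : Qb) (h : (P.freyCurve⁄Qb).Nonsingular x y),
      ∃ h' : (P.freyCurve⁄Qb).Nonsingular ((σ : Qb →+* Qb) x) ((σ : Qb →+* Qb) y),
        Point.map (W' := P.freyCurve) σ.toAlgHom (Point.some x y h) =
          Point.some ((σ : Qb →+* Qb) x) ((σ : Qb →+* Qb) y) h' := by
    intro x y h
    exact ⟨_, Point.map_some (W' := P.freyCurve) σ.toAlgHom h⟩
  have hroots := frey_roots P
  by_cases ha : (q : ℤ) ∣ P.a
  · -- node at `x ≡ 0`, small root `a^p / 4`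
    have hb : ¬ (q : ℤ) ∣ P.b := not_dvd_of_gcd_eq_one hq P.hgcdab ha
    have hr : Roots (P.freyCurve⁄Qb) 0 (0 + fA P / 4) (0 + -(fB P) / 4) := by
      simpa using hroots
    have hα : A.valuation (fA P / 4) < 1 := by
      rw [val_div_four h4]; exact val_fA_lt_one hA ha
    have hβ : A.valuation (-(fB P) / 4) = 1 := by
      rw [val_neg_div_four h4]; exact val_fB_eq_one hA hq hb
    have hα0 : fA P / 4 ≠ 0 := div_ne_zero (fA_ne_zero P) four_ne_zero_Qb
    have hπ : A.valuation (((P.a ^ 2 : ℤ) : Qb)) ^ P.p = A.valuation (fA P / 4) ^ 2 := by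
      rw [val_div_four h4]; exact val_sq_pow _ _
    have hC3 := h3 A (P.freyCurve⁄Qb) hW h2 0 (fA P / 4) (-(fB P) / 4) hr
      (by rw [_root_.map_zero]; exact zero_le_one) hα0 hα hβ P.p hodd hp hC1
    exact fixed_of_node hW h2 (σ : Qb →+* Qb) hres hσ₁ hσ₃ _ hτ hodd hC1 hr
      (by rw [_root_.map_zero]; exact zero_le_one) hα hβ (_root_.map_zero _)
      (π := ((P.a ^ 2 : ℤ) : Qb)) (sigma_int σ _) hπ hC3 pt hP
  by_cases hb : (q : ℤ) ∣ P.b
  · -- node at `x ≡ 0`, small root `-b^p / 4`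
    have hr : Roots (P.freyCurve⁄Qb) 0 (0 + -(fB P) / 4) (0 + fA P / 4) := by
      have := hroots.swap₁₂.swap₁₃.swap₁₂
      simpa using this
    have hα : A.valuation (-(fB P) / 4) < 1 := by
      rw [val_neg_div_four h4]; exact val_fB_lt_one hA hb
    have hβ : A.valuation (fA P / 4) = 1 := by
      rw [val_div_four h4]; exact val_fA_eq_one hA hq ha
    have hα0 : -(fB P) / 4 ≠ 0 := div_ne_zero (neg_ne_zero.mpr (fB_ne_zero P)) four_ne_zero_Qb
    have hπ : A.valuation (((P.b ^ 2 : ℤ) : Qb)) ^ P.p = A.valuation (-(fB P) / 4) ^ 2 := by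
      rw [val_neg_div_four h4]; exact val_sq_pow _ _
    have hC3 := h3 A (P.freyCurve⁄Qb) hW h2 0 (-(fB P) / 4) (fA P / 4) hr
      (by rw [_root_.map_zero]; exact zero_le_one) hα0 hα hβ P.p hodd hp hC1
    exact fixed_of_node hW h2 (σ : Qb →+* Qb) hres hσ₁ hσ₃ _ hτ hodd hC1 hr
      (by rw [_root_.map_zero]; exact zero_le_one) hα hβ (_root_.map_zero _)
      (π := ((P.b ^ 2 : ℤ) : Qb)) (sigma_int σ _) hπ hC3 pt hP
  by_cases hc : (q : ℤ) ∣ P.c
  · -- node at `x ≡ a^p / 4 ≡ -b^p / 4`, small root difference `-c^p / 4`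
    have hABC := fA_add_fB P
    have hr : Roots (P.freyCurve⁄Qb) (fA P / 4) (fA P / 4 + -(fC P) / 4)
        (fA P / 4 + -(fA P) / 4) := by
      have h' := hroots.swap₁₂
      have e1 : fA P / 4 + -(fC P) / 4 = -(fB P) / 4 := by rw [← hABC]; ring
      have e2 : fA P / 4 + -(fA P) / 4 = 0 := by ring
      rw [e1, e2]
      exact hroots.swap₁₃.swap₁₂
    have he : A.valuation (fA P / 4) ≤ 1 := by
      rw [val_div_four h4]; exact val_fA_le_one
    have hα : A.valuation (-(fC P) / 4) < 1 := by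
      rw [val_neg_div_four h4]; exact val_fC_lt_one hA hc
    have hβ : A.valuation (-(fA P) / 4) = 1 := by
      rw [val_neg_div_four h4]; exact val_fA_eq_one hA hq ha
    have hα0 : -(fC P) / 4 ≠ 0 := div_ne_zero (neg_ne_zero.mpr (fC_ne_zero P)) four_ne_zero_Qb
    have hπ : A.valuation (((P.c ^ 2 : ℤ) : Qb)) ^ P.p = A.valuation (-(fC P) / 4) ^ 2 := by
      rw [val_neg_div_four h4]; exact val_sq_pow _ _
    have hσe : (σ : Qb →+* Qb) (fA P / 4) = fA P / 4 := by
      simp only [fA, map_div₀, map_intCast, map_ofNat]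
    have hC3 := h3 A (P.freyCurve⁄Qb) hW h2 (fA P / 4) (-(fC P) / 4) (-(fA P) / 4) hr
      he hα0 hα hβ P.p hodd hp hC1
    exact fixed_of_node hW h2 (σ : Qb →+* Qb) hres hσ₁ hσ₃ _ hτ hodd hC1 hr
      he hα hβ hσe
      (π := ((P.c ^ 2 : ℤ) : Qb)) (sigma_int σ _) hπ hC3 pt hP
  · -- good reduction
    have hA1 := val_fA_eq_one hA hq ha
    have hB1 := val_fB_eq_one hA hq hb
    have hC1' := val_fC_eq_one hA hq hc
    have hABC := fA_add_fB P
    refine fixed_of_good hW h2 (σ : Qb →+* Qb) hres hσ₁ hσ₃ _ hτ hodd hC1 hroots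
      (by rw [_root_.map_zero]; exact zero_le_one)
      (by rw [val_div_four h4]; exact val_fA_le_one)
      (by rw [val_neg_div_four h4]; exact val_fB_le_one) ?_ ?_ ?_ pt hP
    · have : (0 : Qb) - fA P / 4 = -(fA P) / 4 := by ring
      rw [this, val_neg_div_four h4]; exact hA1
    · have : (0 : Qb) - -(fB P) / 4 = fB P / 4 := by ring
      rw [this, val_div_four h4]; exact hB1
    · have : fA P / 4 - -(fB P) / 4 = fC P / 4 := by rw [← hABC]; ring
      rw [this, val_div_four h4]; exact hC1'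

end Fermat.Agent.S05.Assemble

end
-- ===== PACK-END S05/AssembleFinal.lean

-- ===== PACK-BEGIN S13/H64/LineP.lean
section










/-!
# S13 / T5: the analysis at `ℓ = p`

`A` a valuation subring of `K = ℚ̄` over `p`, `v` its valuation, `E₁ = InKer` the kernel of
reduction, `V = E[p](K)`, `N0 ⊆ V` a Galois-stable line.

* `mem_of_inKer_of_line_le`: if `N0 ⊆ E₁` then `V ∩ E₁ ⊆ N0`
  (Gauss bound on the `p`-division polynomial + rationality of the product over `N0`).
* `inertia_line_dichotomy`: inertia at `A` acts trivially on `N0` or on `V / N0`.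
-/

set_option autoImplicit false
set_option linter.unusedSectionVars false
set_option linter.unusedVariables false

namespace Fermat.Agent.S13.H64

open WeierstrassCurve WeierstrassCurve.Affine WeierstrassCurve.Affine.Point Polynomial
open Fermat.Agent.S05 Fermat.Agent.S05.SameRed

section kernel

variable {K : Type*} [Field K] [DecidableEq K]
  {Γ₀ : Type*} [LinearOrderedCommGroupWithZero Γ₀]
  {W : Affine K} {v : Valuation K Γ₀}

lemma inKer_neg {P : W.Point} (hP : InKer W v P) : InKer W v (-P) := by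
  rcases P with _ | ⟨x, y, h⟩
  · exact hP
  · rw [Point.neg_some]; exact hP

/-- The kernel of reduction is stable under multiplication by natural numbers. -/
lemma inKer_nsmul (hW : IntegralCoeffs W v) {P : W.Point} (hP : InKer W v P) (k : ℕ) :
    InKer W v (k • P) := by
  rcases P with _ | ⟨x, y, h⟩
  · rw [show (Point.zero : W.Point) = 0 from rfl, smul_zero]; exact inKer_zero
  · have hx : 1 < v x := hP
    have hx0 : x ≠ 0 := by
      rintro rfl
      rw [_root_.map_zero] at hx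
      exact not_lt_zero hx
    have hs : v x⁻¹ < 1 := by
      rw [map_inv₀]; exact inv_lt_one_of_one_lt₀ hx
    rcases (FG.good_all (C1b.isIntegralAt_of_integralCoeffs hW) h hx k).1 with
      ⟨h0, -⟩ | ⟨xk, yk, hk, hkP, hxk0, hlt⟩
    · rw [h0]; exact inKer_zero
    · rw [hkP, inKer_some]
      have h1 : v ((k : K) ^ 2 * x⁻¹) ≤ v x⁻¹ := by
        rw [map_mul]
        exact mul_le_of_le_one_left' (by
          rw [map_pow]; exact pow_le_one₀ zero_le (FG.v_natCast_le_one v k))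
      have h2 : v xk⁻¹ ≤ v x⁻¹ := by
        have : xk⁻¹ = (xk⁻¹ - (k : K) ^ 2 * x⁻¹) + (k : K) ^ 2 * x⁻¹ := by ring
        rw [this]
        exact (v.map_add _ _).trans (max_le hlt.le h1)
      have h3 : v xk⁻¹ < 1 := h2.trans_lt hs
      rw [map_inv₀] at h3
      have hxkpos : 0 < v xk := (Valuation.pos_iff v).mpr hxk0
      by_contra hcon
      rw [not_lt] at hcon
      have : 1 ≤ (v xk)⁻¹ := (one_le_inv₀ hxkpos).mpr hcon
      exact absurd h3 (not_lt.mpr this)

/-- The kernel of reduction is stable under multiplication by integers. -/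
lemma inKer_zsmul (hW : IntegralCoeffs W v) {P : W.Point} (hP : InKer W v P) (k : ℤ) :
    InKer W v (k • P) := by
  rcases Int.eq_nat_or_neg k with ⟨n, rfl | rfl⟩
  · rw [natCast_zsmul]; exact inKer_nsmul hW hP n
  · rw [neg_smul, natCast_zsmul]; exact inKer_neg (inKer_nsmul hW hP n)

end kernel

section main

variable {K : Type*} [Field K] [CharZero K] [Algebra ℚ K] [IsGalois ℚ K] [IsAlgClosed K]
  [DecidableEq K] {W' : Affine ℚ}

/-- `r` is the `x`-coordinate of a nonzero point of `N0`. -/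
def IsXOf {p : ℕ} (N0 : Submodule (ZMod p) (Submodule.torsionBy ℤ (W'⁄K).Point p)) (r : K) :
    Prop :=
  ∃ P ∈ N0, ∃ (y : K) (h : (W'⁄K).Nonsingular r y),
    (P : (W'⁄K).Point) = Point.some r y h

lemma smul_coe {p : ℕ} (σ : K ≃ₐ[ℚ] K) (P : Submodule.torsionBy ℤ (W'⁄K).Point p) :
    ((σ • P : Submodule.torsionBy ℤ (W'⁄K).Point p) : (W'⁄K).Point) =
      σ • (P : (W'⁄K).Point) := rfl

lemma isXOf_map {p : ℕ} {N0 : Submodule (ZMod p) (Submodule.torsionBy ℤ (W'⁄K).Point p)}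
    (hstab : IsGaloisStable ℚ N0) (σ : K ≃ₐ[ℚ] K) {r : K} (hr : IsXOf N0 r) :
    IsXOf N0 (σ r) := by
  obtain ⟨P, hP, y, h, hPe⟩ := hr
  refine ⟨σ • P, hstab σ P hP, σ y,
    (W'.baseChange_nonsingular σ.toAlgHom.injective r y).mpr h, ?_⟩
  rw [smul_coe, hPe]
  rfl

lemma aeval_eq_zero_of_mem {p : ℕ} (Q : ℤ[X])
    (hQ : ∀ (x y : K) (h : (W'⁄K).Nonsingular x y),
      (p : ℤ) • Point.some x y h = 0 → aeval x Q = 0)
    (P : Submodule.torsionBy ℤ (W'⁄K).Point p) {x y : K} {h : (W'⁄K).Nonsingular x y}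
    (hP : (P : (W'⁄K).Point) = Point.some x y h) : aeval x Q = 0 := by
  apply hQ x y h
  rw [← hP]
  exact (Submodule.mem_torsionBy_iff _ _).mp P.2

/-- **(T5b3)** If the Galois-stable nonzero submodule `N0` of `E[p]` lies in the kernel of
reduction at `A` (over `p`), then every `p`-torsion point in the kernel of reduction lies in
`N0`. -/
theorem mem_of_inKer_of_line_le
    (A : ValuationSubring K) (p : ℕ) (hp : p.Prime) (hA : A.LiesOverPrime p)
    (Q : ℤ[X]) (hQlc : Q.leadingCoeff = p)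
    (hQ : ∀ (x y : K) (h : (W'⁄K).Nonsingular x y),
      (p : ℤ) • Point.some x y h = 0 → aeval x Q = 0)
    (N0 : Submodule (ZMod p) (Submodule.torsionBy ℤ (W'⁄K).Point p))
    (hstab : IsGaloisStable ℚ N0) (hN0 : N0 ≠ ⊥)
    (hsub : ∀ P ∈ N0, InKer (W'⁄K) A.valuation (P : (W'⁄K).Point))
    (P' : Submodule.torsionBy ℤ (W'⁄K).Point p)
    (hP' : InKer (W'⁄K) A.valuation (P' : (W'⁄K).Point)) : P' ∈ N0 := by
  classical
  set v := A.valuation with hv
  have hp0 : (p : K) ≠ 0 := by exact_mod_cast hp.ne_zero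
  -- the polynomial over `K`
  set f : K[X] := Q.map (Int.castRingHom K) with hf
  have hinj : Function.Injective (Int.castRingHom K) := Int.cast_injective
  have hflc : f.leadingCoeff = (p : K) := by
    rw [hf, leadingCoeff_map_of_injective hinj, hQlc]; simp
  have hf0 : f ≠ 0 := by
    intro h0
    rw [h0, leadingCoeff_zero] at hflc
    exact hp0 hflc.symm
  have hroot : ∀ x : K, aeval x Q = 0 → x ∈ f.roots := by
    intro x hx
    rw [aeval_def, algebraMap_int_eq] at hx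
    rw [mem_roots hf0, IsRoot, hf, eval_map]
    exact hx
  have hfsplit : f = C (p : K) * (f.roots.map (fun r => X - C r)).prod := by
    have := (IsAlgClosed.splits f).eq_prod_roots
    rw [hflc] at this
    exact this
  have hint : ∀ n, v ((C (p : K) * (f.roots.map (fun r => X - C r)).prod).coeff n) ≤ 1 := by
    intro n
    rw [← hfsplit, hf, coeff_map]
    exact valuation_intCast_le_one A _
  -- the set of `x`-coordinates of `N0`
  set T : Finset K := f.roots.toFinset.filter (fun r => IsXOf N0 r) with hT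
  have hTmem : ∀ r, r ∈ T ↔ IsXOf N0 r := by
    intro r
    rw [hT, Finset.mem_filter, Multiset.mem_toFinset]
    refine ⟨fun h => h.2, fun h => ⟨?_, h⟩⟩
    obtain ⟨P, -, y, hns, hPe⟩ := h
    exact hroot r (aeval_eq_zero_of_mem Q hQ P hPe)
  have hTstab : ∀ σ : K ≃ₐ[ℚ] K, ∀ r ∈ T, σ r ∈ T := fun σ r hr =>
    (hTmem _).mpr (isXOf_map hstab σ ((hTmem r).mp hr))
  have hTv : ∀ r ∈ T, 1 < v r := by
    intro r hr
    obtain ⟨P, hPN, y, hns, hPe⟩ := (hTmem r).mp hr
    have := hsub P hPN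
    rw [hPe] at this
    exact this
  have hTne : T.Nonempty := by
    obtain ⟨P, hPN, hP0⟩ := (Submodule.ne_bot_iff N0).mp hN0
    rcases hPc : (P : (W'⁄K).Point) with _ | ⟨x, y, h⟩
    · exact absurd (Subtype.ext hPc) hP0
    · exact ⟨x, (hTmem x).mpr ⟨P, hPN, y, h, hPc⟩⟩
  have hlow : (v (p : K))⁻¹ ≤ ∏ r ∈ T, v r :=
    inv_valuation_prime_le_prod A p hp hA T hTne hTstab hTv
  have hvp : 0 < v (p : K) := (Valuation.pos_iff _).mpr hp0
  -- every root of valuation `> 1` is in `T`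
  have hall : ∀ r ∈ f.roots, 1 < v r → r ∈ T := by
    intro r hr hvr
    by_contra hrT
    have hT' : ∀ s ∈ insert r T, s ∈ f.roots ∧ 1 < v s := by
      intro s hs
      rcases Finset.mem_insert.mp hs with rfl | hs
      · exact ⟨hr, hvr⟩
      · exact ⟨Multiset.mem_toFinset.mp (Finset.mem_filter.mp hs).1, hTv s hs⟩
    have hg := gauss_bound_finset v (p : K) f.roots hint (insert r T) hT'
    rw [Finset.prod_insert hrT] at hg
    have h1 : v (p : K) * (v r * (v (p : K))⁻¹) ≤ 1 :=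
      le_trans (by gcongr) hg
    rw [mul_comm (v r), ← mul_assoc, mul_inv_cancel₀ hvp.ne', one_mul] at h1
    exact absurd hvr (not_lt.mpr h1)
  -- conclusion
  rcases hPc : (P' : (W'⁄K).Point) with _ | ⟨x, y, h⟩
  · have : P' = 0 := Subtype.ext hPc
    rw [this]; exact N0.zero_mem
  · rw [hPc] at hP'
    have hxT : x ∈ T := hall x (hroot x (aeval_eq_zero_of_mem Q hQ P' hPc)) hP'
    obtain ⟨P, hPN, y₀, h₀, hPe⟩ := (hTmem x).mp hxT
    rcases Affine.Y_eq_of_X_eq h.1 h₀.1 rfl with hy | hy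
    · have : P' = P := by
        apply Subtype.ext
        rw [hPc, hPe]
        subst hy
        rfl
      rw [this]; exact hPN
    · have : P' = -P := by
        apply Subtype.ext
        rw [hPc, Submodule.coe_neg, hPe, Point.neg_some]
        subst hy
        rfl
      rw [this]; exact N0.neg_mem hPN

/-- **(T5c)** Dichotomy at `p`: the inertia group at `A` acts trivially on the line `N0` or on
`E[p] / N0`.  The hypothesis `ha` is (T5a). -/
theorem inertia_line_dichotomy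
    (A : ValuationSubring K) (p : ℕ) (hp : p.Prime) (hA : A.LiesOverPrime p)
    (hW : IntegralCoeffs (W'⁄K) A.valuation)
    (Q : ℤ[X]) (hQlc : Q.leadingCoeff = p)
    (hQ : ∀ (x y : K) (h : (W'⁄K).Nonsingular x y),
      (p : ℤ) • Point.some x y h = 0 → aeval x Q = 0)
    (N0 : Submodule (ZMod p) (Submodule.torsionBy ℤ (W'⁄K).Point p))
    (hstab : IsGaloisStable ℚ N0) (hN0 : N0 ≠ ⊥)
    (hline : ∀ x ∈ N0, x ≠ 0 → ∀ y ∈ N0, ∃ k : ℤ, y = k • x)
    (ha : ∀ σ ∈ A.inertiaSubgroupIn ℚ, ∀ P : Submodule.torsionBy ℤ (W'⁄K).Point p,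
      ¬ InKer (W'⁄K) A.valuation (P : (W'⁄K).Point) →
      InKer (W'⁄K) A.valuation ((σ • P - P : Submodule.torsionBy ℤ (W'⁄K).Point p) :
        (W'⁄K).Point)) :
    (∀ σ ∈ A.inertiaSubgroupIn ℚ, ∀ x ∈ N0, σ • x = x) ∨
    (∀ σ ∈ A.inertiaSubgroupIn ℚ, ∀ x : Submodule.torsionBy ℤ (W'⁄K).Point p,
      σ • x - x ∈ N0) := by
  classical
  by_cases hsub : ∀ P ∈ N0, InKer (W'⁄K) A.valuation (P : (W'⁄K).Point)
  · right
    intro σ hσ x
    by_cases hx : InKer (W'⁄K) A.valuation (x : (W'⁄K).Point)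
    · have hxN : x ∈ N0 := mem_of_inKer_of_line_le A p hp hA Q hQlc hQ N0 hstab hN0 hsub x hx
      exact N0.sub_mem (hstab σ x hxN) hxN
    · exact mem_of_inKer_of_line_le A p hp hA Q hQlc hQ N0 hstab hN0 hsub _ (ha σ hσ x hx)
  · left
    push Not at hsub
    obtain ⟨P1, hP1N, hP1⟩ := hsub
    -- no nonzero element of `N0` is in the kernel of reduction
    have hnone : ∀ x ∈ N0, x ≠ 0 → ¬ InKer (W'⁄K) A.valuation (x : (W'⁄K).Point) := by
      intro x hxN hx0 hxK
      obtain ⟨k, hk⟩ := hline x hxN hx0 P1 hP1N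
      apply hP1
      rw [hk, Submodule.coe_smul_of_tower]
      exact inKer_zsmul hW hxK k
    intro σ hσ x hxN
    by_cases hx0 : x = 0
    · rw [hx0]
      exact smul_zero (A := Submodule.torsionBy ℤ (W'⁄K).Point (p : ℤ)) σ
    · have h1 := ha σ hσ x (hnone x hxN hx0)
      have h2 : σ • x - x ∈ N0 := N0.sub_mem (hstab σ x hxN) hxN
      by_contra hne
      exact hnone _ h2 (sub_ne_zero.mpr hne) h1

end main

end Fermat.Agent.S13.H64

end
-- ===== PACK-END S13/H64/LineP.lean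

-- ===== PACK-BEGIN S13/H64/AtP.lean
section





/-!
# S13 / T5a: inertia at `p` moves `p`-torsion points of the Frey curve only inside `E₁`

Adaptation of the S05 assembly (helper665) to the residue characteristic `p`: the kernel of
reduction may now contain `p`-torsion, so "(C1)" is replaced by the explicit hypothesis that the
point is integral, and the conclusion is `σ P - P ∈ E₁` instead of `σ P = P`.
-/

set_option autoImplicit false
set_option linter.unusedSectionVars false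
set_option linter.unusedVariables false

namespace Fermat.Agent.S13.H64

open WeierstrassCurve WeierstrassCurve.Affine WeierstrassCurve.Affine.Point
open Fermat.Agent.S05 Fermat.Agent.S05.SameRed Fermat.Agent.S05.Assemble

section abstract

variable {K : Type*} [Field K] [DecidableEq K]
  {Γ₀ : Type*} [LinearOrderedCommGroupWithZero Γ₀]
variable {W : Affine K} {v : Valuation K Γ₀}

/-- For an integral odd torsion point with nonsingular reduction, `η` is a unit. -/
lemma val_eta_eq_one_of_integral_torsion (hW : IntegralCoeffs W v) (h2 : v (2 : K) = 1) {n : ℕ}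
    (hn : Odd n) {x y : K}
    (h : W.Nonsingular x y) (hP : n • Point.some x y h = 0) (hx : v x ≤ 1)
    (hNR : v (2 * y + W.a₁ * x + W.a₃) < 1 →
      v (W.a₁ * y - (3 * x ^ 2 + 2 * W.a₂ * x + W.a₄)) = 1) :
    v (2 * y + W.a₁ * x + W.a₃) = 1 := by
  have hy : v y ≤ 1 := Assemble.val_y_le_one hW h.1 hx
  have hle := val_eta_le_one hW h2 hx hy
  rcases hle.lt_or_eq with hlt | heq
  swap
  · exact heq
  exfalso
  have hX := hNR hlt
  have hneg : W.Nonsingular x (W.negY x y) := (Affine.nonsingular_neg ..).mpr h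
  have hnegY : W.negY x y = -y - W.a₁ * x - W.a₃ := rfl
  have hyn : v (W.negY x y) ≤ 1 := by
    rw [hnegY]
    exact val_sub_le_one (val_sub_le_one (by rwa [Valuation.map_neg])
      (val_mul_le_one hW.a₁ hx)) hW.a₃
  have hker := inKer_sub_of_same_reduction hW h hneg hx hy hx hyn (by simp)
    (by
      have : y - W.negY x y = 2 * y + W.a₁ * x + W.a₃ := by rw [hnegY]; ring
      rw [this]; exact hlt) (Or.inl hX)
  rw [← Point.neg_some h, sub_neg_eq_add] at hker
  obtain ⟨k, hk⟩ := hn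
  have hPk : Point.some x y h = (k + 1) • (Point.some x y h + Point.some x y h) := by
    have h3 : (k + 1) • (Point.some x y h + Point.some x y h) =
        n • Point.some x y h + Point.some x y h := by
      rw [hk]
      module
    rw [h3, hP, zero_add]
  have hin : InKer W v (Point.some x y h) := by
    rw [hPk]; exact inKer_nsmul hW hker (k + 1)
  exact absurd hin (not_lt.mpr hx)

/-- The core Galois argument without (C1): if `x - e` and `η` are both "`c` times integral",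
with `c ≠ 0`, `e` fixed by `σ` and `η / c` a unit, then `σ P - P ∈ E₁`. -/
theorem inKer_sub_of_scaled (hW : IntegralCoeffs W v) (h2 : v (2 : K) = 1)
    (σ : K →+* K) (hres : ∀ z, v z ≤ 1 → v (σ z - z) < 1)
    (hσ₁ : σ W.a₁ = W.a₁) (hσ₃ : σ W.a₃ = W.a₃)
    {x y : K} (h : W.Nonsingular x y) (h' : W.Nonsingular (σ x) (σ y)) (hx : v x ≤ 1)
    {c e : K} (hc0 : c ≠ 0) (hc : σ c = c) (he : σ e = e)
    (hηc : v (2 * y + W.a₁ * x + W.a₃) = v c) (hxc : v (x - e) ≤ v c) :
    InKer W v (Point.some (σ x) (σ y) h' - Point.some x y h) := by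
  have hy : v y ≤ 1 := Assemble.val_y_le_one hW h.1 hx
  set η : K := 2 * y + W.a₁ * x + W.a₃ with hη
  have hx' : v (σ x) ≤ 1 := by
    have : σ x = x + (σ x - x) := by ring
    rw [this]; exact val_add_le_one hx (hres x hx).le
  have hvc : 0 < v c := (Valuation.pos_iff v).mpr hc0
  set ε : K := (x - e) / c with hε
  set θ : K := η / c with hθ
  have hεv : v ε ≤ 1 := by
    rw [hε, map_div₀]; exact (div_le_one₀ hvc).mpr hxc
  have hθv : v θ ≤ 1 := by
    rw [hθ, map_div₀, hηc, div_self hvc.ne']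
  have hxε : x = e + c * ε := by rw [hε]; field_simp; ring
  have hηθ : η = c * θ := by rw [hθ]; field_simp
  have hσxx : σ x - x = c * (σ ε - ε) := by
    conv_lhs => rw [hxε]
    simp only [map_add, map_mul, hc, he]; ring
  have hση : (2 * σ y + W.a₁ * σ x + W.a₃) = σ η := by
    simp only [hη, map_add, map_mul, hσ₁, hσ₃, map_ofNat]
  have hσηη : σ η - η = c * (σ θ - θ) := by
    conv_lhs => rw [hηθ]
    simp only [map_mul, hc]; ring
  have hlt1 : v (σ x - x) < v η := by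
    rw [hσxx, map_mul, hηc]
    exact mul_lt_of_lt_one_right hvc (hres ε hεv)
  have hlt2 : v ((2 * σ y + W.a₁ * σ x + W.a₃) - η) < v η := by
    rw [hση, hσηη, map_mul, hηc]
    exact mul_lt_of_lt_one_right hvc (hres θ hθv)
  exact inKer_sub_of_eta hW h2 h h' hx hx' hlt1 hlt2

/-- **[Good]** without (C1). -/
theorem inKer_sub_of_good (hW : IntegralCoeffs W v) (h2 : v (2 : K) = 1)
    (σ : K →+* K) (hres : ∀ z, v z ≤ 1 → v (σ z - z) < 1)
    (hσ₁ : σ W.a₁ = W.a₁) (hσ₃ : σ W.a₃ = W.a₃)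
    {n : ℕ} (hn : Odd n)
    {r₁ r₂ r₃ : K} (hr : Roots W r₁ r₂ r₃) (hr₁ : v r₁ ≤ 1) (hr₂ : v r₂ ≤ 1) (hr₃ : v r₃ ≤ 1)
    (h12 : v (r₁ - r₂) = 1) (h13 : v (r₁ - r₃) = 1) (h23 : v (r₂ - r₃) = 1)
    {x y : K} (h : W.Nonsingular x y) (h' : W.Nonsingular (σ x) (σ y))
    (hP : n • Point.some x y h = 0) (hx : v x ≤ 1) :
    InKer W v (Point.some (σ x) (σ y) h' - Point.some x y h) := by
  have hy : v y ≤ 1 := Assemble.val_y_le_one hW h.1 hx
  have h4 := val_four (v := v) h2
  have h21 : v (r₂ - r₁) = 1 := by rw [← Valuation.map_neg, neg_sub]; exact h12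
  have h31 : v (r₃ - r₁) = 1 := by rw [← Valuation.map_neg, neg_sub]; exact h13
  have h32 : v (r₃ - r₂) = 1 := by rw [← Valuation.map_neg, neg_sub]; exact h23
  have hη1 : v (2 * y + W.a₁ * x + W.a₃) = 1 := by
    apply val_eta_eq_one_of_integral_torsion hW h2 hn h hP hx
    intro hη
    have hsq := val_eta_sq_lt_one hη
    rw [hr.eta_sq h.1, map_mul, h4, one_mul] at hsq
    rcases exists_lt_one_of_mul (val_sub_le_one hx hr₁) (val_sub_le_one hx hr₂)
      (val_sub_le_one hx hr₃) hsq with h1 | h1 | h1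
    · exact hr.val_WX_eq_one hW h2 hx hr₁ hr₂ hr₃ hη h1 h12 h13
    · exact hr.swap₁₂.val_WX_eq_one hW h2 hx hr₂ hr₁ hr₃ hη h1 h21 h23
    · exact hr.swap₁₃.val_WX_eq_one hW h2 hx hr₃ hr₂ hr₁ hη h1 h32 h31
  exact inKer_sub_of_scaled hW h2 σ hres hσ₁ hσ₃ h h' hx (c := 1) (e := 0) one_ne_zero
    (map_one σ) (map_zero σ) (by rw [hη1, map_one]) (by rw [sub_zero, map_one]; exact hx)

/-- **[Node]** without (C1). -/
theorem inKer_sub_of_node (hW : IntegralCoeffs W v) (h2 : v (2 : K) = 1)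
    (σ : K →+* K) (hres : ∀ z, v z ≤ 1 → v (σ z - z) < 1)
    (hσ₁ : σ W.a₁ = W.a₁) (hσ₃ : σ W.a₃ = W.a₃)
    {n : ℕ} (hn : Odd n)
    {e₁ α β : K} (hr : Roots W e₁ (e₁ + α) (e₁ + β)) (he₁ : v e₁ ≤ 1) (hα : v α < 1)
    (hβ : v β = 1) (hσe : σ e₁ = e₁)
    {π : K} (hπ0 : π ≠ 0) (hσπ : σ π = π) (hπ : v π ^ n = v α ^ 2)
    (hC3 : NodeTorsion W v e₁ α n)
    {x y : K} (h : W.Nonsingular x y) (h' : W.Nonsingular (σ x) (σ y))
    (hP : n • Point.some x y h = 0) (hx : v x ≤ 1) :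
    InKer W v (Point.some (σ x) (σ y) h' - Point.some x y h) := by
  have hy : v y ≤ 1 := Assemble.val_y_le_one hW h.1 hx
  have h4 := val_four (v := v) h2
  have hn0 : n ≠ 0 := hn.pos.ne'
  have hxe : v (x - e₁) ≤ 1 := val_sub_le_one hx he₁
  have hr₂ : v (e₁ + α) ≤ 1 := val_add_le_one he₁ hα.le
  have hr₃ : v (e₁ + β) ≤ 1 := val_add_le_one he₁ hβ.le
  have hβα : v (β - α) = 1 := by
    rw [val_sub_eq_of_lt (by rw [hβ]; exact hα), hβ]
  rcases hxe.lt_or_eq with hlt | heq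
  · -- off `E₀`
    obtain ⟨hαx, j, hj⟩ := hC3 x y h hP hlt
    have hvc : v (π ^ j) = v (x - e₁) := by
      apply pow_eq_pow_imp_eq hn0
      rw [hj, map_pow, ← pow_mul, mul_comm, pow_mul, hπ, ← pow_mul]
    have hxα : v (x - (e₁ + α)) = v (x - e₁) := by
      have : x - (e₁ + α) = (x - e₁) - α := by ring
      rw [this, val_sub_eq_of_lt hαx]
    have hxβ : v (x - (e₁ + β)) = 1 := by
      have : x - (e₁ + β) = (x - e₁) - β := by ring
      rw [this, val_sub_eq_of_lt' (by rw [hβ]; exact hlt), hβ]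
    have hη : v (2 * y + W.a₁ * x + W.a₃) = v (π ^ j) := by
      apply pow_eq_pow_imp_eq (n := 2) (by norm_num)
      rw [← map_pow, hr.eta_sq h.1, map_mul, map_mul, map_mul, h4, hxα, hxβ, hvc]
      simp [pow_two]
    exact inKer_sub_of_scaled hW h2 σ hres hσ₁ hσ₃ h h' hx (c := π ^ j) (e := e₁)
      (pow_ne_zero _ hπ0) (by rw [map_pow, hσπ]) hσe hη (by rw [hvc])
  · -- on `E₀`
    have hη1 : v (2 * y + W.a₁ * x + W.a₃) = 1 := by
      apply val_eta_eq_one_of_integral_torsion hW h2 hn h hP hx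
      intro hη
      have hsq := val_eta_sq_lt_one hη
      rw [hr.eta_sq h.1, map_mul, h4, one_mul] at hsq
      have hxα : v (x - (e₁ + α)) = 1 := by
        have : x - (e₁ + α) = (x - e₁) - α := by ring
        rw [this, val_sub_eq_of_lt (by rw [heq]; exact hα), heq]
      have h3 : v (x - (e₁ + β)) < 1 := by
        rw [map_mul, map_mul, heq, hxα, one_mul, one_mul] at hsq
        exact hsq
      have h31 : v (e₁ + β - e₁) = 1 := by
        have : e₁ + β - e₁ = β := by ring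
        rw [this, hβ]
      have h32 : v (e₁ + β - (e₁ + α)) = 1 := by
        have : e₁ + β - (e₁ + α) = β - α := by ring
        rw [this, hβα]
      exact hr.swap₁₃.val_WX_eq_one hW h2 hx hr₃ hr₂ he₁ hη h3 h32 h31
    exact inKer_sub_of_scaled hW h2 σ hres hσ₁ hσ₃ h h' hx (c := 1) (e := 0) one_ne_zero
      (map_one σ) (map_zero σ) (by rw [hη1, map_one]) (by rw [sub_zero, map_one]; exact hx)

end abstract

section frey

lemma int_cast_ne_zero_Qb {n : ℤ} (hn : n ≠ 0) : ((n : ℤ) : Qb) ≠ 0 := by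
  exact_mod_cast hn

/-- (C3c) for the Frey curve at any odd residue characteristic, from `Comp.c3c`. -/
lemma nodeTorsion_of_c3c {W : Affine Qb} {A : ValuationSubring Qb}
    (h2 : A.valuation (2 : Qb) = 1) {e₁ α β : Qb} (hr : Roots W e₁ (e₁ + α) (e₁ + β))
    (hα0 : α ≠ 0) (hα : A.valuation α < 1) (hβ : A.valuation β = 1) {n : ℕ} (hn : Odd n) :
    NodeTorsion W A.valuation e₁ α n :=
  fun x y h hP hx =>
    Comp.c3c h2 e₁ α β (by rw [hr.b₂]; ring) hr.b₄ hr.b₆ hα0 hα hβ n hn x y h hP hx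

/-- **(T5a)** At a valuation subring `A` of `ℚ̄` over an odd prime `q` (in particular `q = p`),
an inertia element moves an integral `p`-torsion point of the Frey curve by an element of the
kernel of reduction. -/
theorem frey_inKer_smul_sub (P : FreyPackage) {q : ℕ} (hq : q.Prime) (hq2 : q ≠ 2)
    (A : ValuationSubring Qb) (hA : A.LiesOverPrime q)
    (σ : Qb ≃ₐ[ℚ] Qb) (hσ : σ ∈ A.inertiaSubgroupIn ℚ)
    {x y : Qb} (h : (P.freyCurve⁄Qb).Nonsingular x y)
    (hP : P.p • Point.some x y h = 0) (hx : A.valuation x ≤ 1) :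
    InKer (P.freyCurve⁄Qb) A.valuation (σ • Point.some x y h - Point.some x y h) := by
  have hW := frey_integral (P := P) hA hq hq2
  have h2 := val_two_eq_one hA hq hq2
  have h4 := val_four_eq_one hA hq hq2
  have hodd : Odd P.p := P.hp_odd
  have hres := inertia_res A hσ
  have hσ₁ : (σ : Qb →+* Qb) (P.freyCurve⁄Qb).a₁ = (P.freyCurve⁄Qb).a₁ := by
    rw [frey_a₁]; exact map_one _
  have hσ₃ : (σ : Qb →+* Qb) (P.freyCurve⁄Qb).a₃ = (P.freyCurve⁄Qb).a₃ := by
    rw [frey_a₃]; exact _root_.map_zero _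
  have h' : (P.freyCurve⁄Qb).Nonsingular ((σ : Qb →+* Qb) x) ((σ : Qb →+* Qb) y) :=
    (WeierstrassCurve.Affine.baseChange_nonsingular P.freyCurve
      σ.toAlgHom.injective x y).mpr h
  have hsmul : σ • Point.some x y h =
      Point.some ((σ : Qb →+* Qb) x) ((σ : Qb →+* Qb) y) h' := rfl
  rw [hsmul]
  have hroots := frey_roots P
  by_cases ha : (q : ℤ) ∣ P.a
  · have hb : ¬ (q : ℤ) ∣ P.b := not_dvd_of_gcd_eq_one hq P.hgcdab ha
    have hr : Roots (P.freyCurve⁄Qb) 0 (0 + fA P / 4) (0 + -(fB P) / 4) := by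
      simpa using hroots
    have hα : A.valuation (fA P / 4) < 1 := by
      rw [val_div_four h4]; exact val_fA_lt_one hA ha
    have hβ : A.valuation (-(fB P) / 4) = 1 := by
      rw [val_neg_div_four h4]; exact val_fB_eq_one hA hq hb
    have hα0 : fA P / 4 ≠ 0 := div_ne_zero (fA_ne_zero P) four_ne_zero_Qb
    have hπ : A.valuation (((P.a ^ 2 : ℤ) : Qb)) ^ P.p = A.valuation (fA P / 4) ^ 2 := by
      rw [val_div_four h4]; exact val_sq_pow _ _
    exact inKer_sub_of_node hW h2 (σ : Qb →+* Qb) hres hσ₁ hσ₃ hodd hr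
      (by rw [_root_.map_zero]; exact zero_le_one) hα hβ (_root_.map_zero _)
      (π := ((P.a ^ 2 : ℤ) : Qb)) (int_cast_ne_zero_Qb (pow_ne_zero _ P.ha0)) (sigma_int σ _) hπ
      (nodeTorsion_of_c3c h2 hr hα0 hα hβ hodd) h h' hP hx
  by_cases hb : (q : ℤ) ∣ P.b
  · have hr : Roots (P.freyCurve⁄Qb) 0 (0 + -(fB P) / 4) (0 + fA P / 4) := by
      have := hroots.swap₁₂.swap₁₃.swap₁₂
      simpa using this
    have hα : A.valuation (-(fB P) / 4) < 1 := by
      rw [val_neg_div_four h4]; exact val_fB_lt_one hA hb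
    have hβ : A.valuation (fA P / 4) = 1 := by
      rw [val_div_four h4]; exact val_fA_eq_one hA hq ha
    have hα0 : -(fB P) / 4 ≠ 0 := div_ne_zero (neg_ne_zero.mpr (fB_ne_zero P)) four_ne_zero_Qb
    have hπ : A.valuation (((P.b ^ 2 : ℤ) : Qb)) ^ P.p = A.valuation (-(fB P) / 4) ^ 2 := by
      rw [val_neg_div_four h4]; exact val_sq_pow _ _
    exact inKer_sub_of_node hW h2 (σ : Qb →+* Qb) hres hσ₁ hσ₃ hodd hr
      (by rw [_root_.map_zero]; exact zero_le_one) hα hβ (_root_.map_zero _)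
      (π := ((P.b ^ 2 : ℤ) : Qb)) (int_cast_ne_zero_Qb (pow_ne_zero _ P.hb0)) (sigma_int σ _) hπ
      (nodeTorsion_of_c3c h2 hr hα0 hα hβ hodd) h h' hP hx
  by_cases hc : (q : ℤ) ∣ P.c
  · have hABC := fA_add_fB P
    have hr : Roots (P.freyCurve⁄Qb) (fA P / 4) (fA P / 4 + -(fC P) / 4)
        (fA P / 4 + -(fA P) / 4) := by
      have e1 : fA P / 4 + -(fC P) / 4 = -(fB P) / 4 := by rw [← hABC]; ring
      have e2 : fA P / 4 + -(fA P) / 4 = 0 := by ring
      rw [e1, e2]
      exact hroots.swap₁₃.swap₁₂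
    have he : A.valuation (fA P / 4) ≤ 1 := by
      rw [val_div_four h4]; exact val_fA_le_one
    have hα : A.valuation (-(fC P) / 4) < 1 := by
      rw [val_neg_div_four h4]; exact val_fC_lt_one hA hc
    have hβ : A.valuation (-(fA P) / 4) = 1 := by
      rw [val_neg_div_four h4]; exact val_fA_eq_one hA hq ha
    have hα0 : -(fC P) / 4 ≠ 0 := div_ne_zero (neg_ne_zero.mpr (fC_ne_zero P)) four_ne_zero_Qb
    have hπ : A.valuation (((P.c ^ 2 : ℤ) : Qb)) ^ P.p = A.valuation (-(fC P) / 4) ^ 2 := by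
      rw [val_neg_div_four h4]; exact val_sq_pow _ _
    have hσe : (σ : Qb →+* Qb) (fA P / 4) = fA P / 4 := by
      simp only [fA, map_div₀, map_intCast, map_ofNat]
    exact inKer_sub_of_node hW h2 (σ : Qb →+* Qb) hres hσ₁ hσ₃ hodd hr
      he hα hβ hσe
      (π := ((P.c ^ 2 : ℤ) : Qb)) (int_cast_ne_zero_Qb (pow_ne_zero _ P.hc0)) (sigma_int σ _) hπ
      (nodeTorsion_of_c3c h2 hr hα0 hα hβ hodd) h h' hP hx
  · have hA1 := val_fA_eq_one hA hq ha
    have hB1 := val_fB_eq_one hA hq hb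
    have hC1' := val_fC_eq_one hA hq hc
    have hABC := fA_add_fB P
    refine inKer_sub_of_good hW h2 (σ : Qb →+* Qb) hres hσ₁ hσ₃ hodd hroots
      (by rw [_root_.map_zero]; exact zero_le_one)
      (by rw [val_div_four h4]; exact val_fA_le_one)
      (by rw [val_neg_div_four h4]; exact val_fB_le_one) ?_ ?_ ?_ h h' hP hx
    · have : (0 : Qb) - fA P / 4 = -(fA P) / 4 := by ring
      rw [this, val_neg_div_four h4]; exact hA1
    · have : (0 : Qb) - -(fB P) / 4 = fB P / 4 := by ring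
      rw [this, val_div_four h4]; exact hB1
    · have : fA P / 4 - -(fB P) / 4 = fC P / 4 := by rw [← hABC]; ring
      rw [this, val_div_four h4]; exact hC1'

end frey

end Fermat.Agent.S13.H64

end
-- ===== PACK-END S13/H64/AtP.lean

-- ===== PACK-BEGIN S13/H64/FreyP.lean
section



/-!
# S13 / T5: inertia at `p` acts trivially on a stable line of the Frey curve or on the quotient

Final statement of piece T5 for the Frey curve (everything at the prime `p = P.p`).
-/

set_option autoImplicit false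
set_option linter.unusedSectionVars false
set_option linter.unusedVariables false

namespace Fermat.Agent.S13.H64

open WeierstrassCurve WeierstrassCurve.Affine WeierstrassCurve.Affine.Point Polynomial
open Fermat.Agent.S05 Fermat.Agent.S05.SameRed Fermat.Agent.S05.Assemble

/-- **(T5a)** in torsion-module form. -/
theorem frey_inKer_smul_sub_torsion (P : FreyPackage)
    (A : ValuationSubring Qb) (hA : A.LiesOverPrime P.p)
    (σ : Qb ≃ₐ[ℚ] Qb) (hσ : σ ∈ A.inertiaSubgroupIn ℚ)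
    (pt : Submodule.torsionBy ℤ (P.freyCurve⁄Qb).Point P.p)
    (hpt : ¬ InKer (P.freyCurve⁄Qb) A.valuation (pt : (P.freyCurve⁄Qb).Point)) :
    InKer (P.freyCurve⁄Qb) A.valuation
      ((σ • pt - pt : Submodule.torsionBy ℤ (P.freyCurve⁄Qb).Point P.p) :
        (P.freyCurve⁄Qb).Point) := by
  have hp2 : P.p ≠ 2 := by have := P.hp5; omega
  obtain ⟨Q, hQ⟩ := pt
  have hP : P.p • Q = 0 := by
    have := (Submodule.mem_torsionBy_iff _ _).mp hQ
    rwa [natCast_zsmul] at this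
  rcases Q with _ | ⟨x, y, h⟩
  · exact absurd trivial hpt
  · have hx : A.valuation x ≤ 1 := not_lt.mp hpt
    exact frey_inKer_smul_sub P P.pp hp2 A hA σ hσ h hP hx

/-- **(T5)** For the Frey curve, a valuation subring `A` of `ℚ̄` over `p`, and a Galois-stable
line `N0` in `E[p]`: the inertia group at `A` acts trivially on `N0` or on `E[p] / N0`.
`Q` is any integer polynomial with leading coefficient `p` vanishing at the `x`-coordinates of
the nonzero `p`-torsion points (the `p`-division polynomial, piece T1). -/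
theorem frey_inertia_dichotomy_at_p (P : FreyPackage)
    (A : ValuationSubring Qb) (hA : A.LiesOverPrime P.p)
    (Q : ℤ[X]) (hQlc : Q.leadingCoeff = P.p)
    (hQ : ∀ (x y : Qb) (h : (P.freyCurve⁄Qb).Nonsingular x y),
      (P.p : ℤ) • Point.some x y h = 0 → aeval x Q = 0)
    (N0 : Submodule (ZMod P.p) (Submodule.torsionBy ℤ (P.freyCurve⁄Qb).Point P.p))
    (hstab : IsGaloisStable ℚ N0) (hN0 : N0 ≠ ⊥)
    (hline : ∀ x ∈ N0, x ≠ 0 → ∀ y ∈ N0, ∃ k : ℤ, y = k • x) :
    (∀ σ ∈ A.inertiaSubgroupIn ℚ, ∀ x ∈ N0, σ • x = x) ∨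
    (∀ σ ∈ A.inertiaSubgroupIn ℚ,
      ∀ x : Submodule.torsionBy ℤ (P.freyCurve⁄Qb).Point P.p, σ • x - x ∈ N0) := by
  have : IsGalois ℚ Qb := Fermat.Agent.S54.isGalois_algebraicClosure_rat
  have hp2 : P.p ≠ 2 := by have := P.hp5; omega
  have hW := frey_integral (P := P) hA P.pp hp2
  exact inertia_line_dichotomy A P.p P.pp hA hW Q hQlc hQ N0 hstab hN0 hline
    (fun σ hσ pt hpt => frey_inKer_smul_sub_torsion P A hA σ hσ pt hpt)

end Fermat.Agent.S13.H64

end
-- ===== PACK-END S13/H64/FreyP.lean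

-- ===== PACK-BEGIN S13/H891/LadderValid.lean
section




/-!
# S13 / T1: projective validity of the `x`-ladder
-/

open WeierstrassCurve WeierstrassCurve.Affine
open Fermat.Agent.S51.Five (xc dD dN dD_eq dN_eq xc_add_self add_self_ne_zero_of_dD_ne_zero
  eq_or_eq_neg_of_xc_eq xc_neg xc_some)

namespace Fermat.Agent.S13.H891

variable {K : Type*} [Field K]

lemma dblN_eq (b₄ b₆ b₈ n d : K) (hd : d ≠ 0) :
    dblN b₄ b₆ b₈ n d = d^4 * dN b₄ b₆ b₈ (n/d) := by
  simp only [dblN, dN]; field_simp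

lemma dblD_eq (b₂ b₄ b₆ n d : K) (hd : d ≠ 0) :
    dblD b₂ b₄ b₆ n d = d^4 * dD b₂ b₄ b₆ (n/d) := by
  simp only [dblD, dD]; field_simp

/-- the symmetric function `S(u,v) = (u-v)^2 (x(Q+R) + x(Q-R))` -/
def sS (b₂ b₄ b₆ u v : K) : K := 2*u*v*(u+v) + b₂*u*v + b₄*(u+v) + b₆

lemma addS_eq (b₂ b₄ b₆ n₁ d₁ n₂ d₂ : K) (h₁ : d₁ ≠ 0) (h₂ : d₂ ≠ 0) :
    addS b₂ b₄ b₆ n₁ d₁ n₂ d₂ = d₁^2 * d₂^2 * sS b₂ b₄ b₆ (n₁/d₁) (n₂/d₂) := by
  simp only [addS, sS]; field_simp

lemma addW_eq (n₁ d₁ n₂ d₂ : K) (h₁ : d₁ ≠ 0) (h₂ : d₂ ≠ 0) :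
    addW n₁ d₁ n₂ d₂ = d₁ * d₂ * (n₁/d₁ - n₂/d₂) := by
  simp only [addW]; field_simp

lemma sS_self (b₂ b₄ b₆ u : K) : sS b₂ b₄ b₆ u u = dD b₂ b₄ b₆ u := by
  simp only [sS, dD]; ring

variable [DecidableEq K] {E : WeierstrassCurve.Affine K}

/-- `N` and `D` have no common zero at the `x`-coordinate of a (nonsingular) point -/
lemma dN_ne_zero_of_dD_eq_zero {Q : E.Point} (hQ : Q ≠ 0)
    (hD : dD E.b₂ E.b₄ E.b₆ (xc Q) = 0) : dN E.b₄ E.b₆ E.b₈ (xc Q) ≠ 0 := by
  match Q with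
  | .zero => exact absurd rfl hQ
  | .some x y h =>
    rw [xc_some] at hD ⊢
    intro hN
    have hy : y - E.negY x y = 0 := by
      have := dD_eq E h.1
      rw [hD] at this
      exact pow_eq_zero_iff (by norm_num) |>.mp this.symm
    have hn := dN_eq E h.1
    rw [hN, hy] at hn
    have hn' : 3 * x ^ 2 + 2 * E.a₂ * x + E.a₄ - E.a₁ * y = 0 := by
      have : (3 * x ^ 2 + 2 * E.a₂ * x + E.a₄ - E.a₁ * y)^2 = 0 := by linear_combination -hn
      exact pow_eq_zero_iff (by norm_num) |>.mp this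
    rcases (Affine.nonsingular_iff x y).mp h with ⟨-, h' | h'⟩
    · exact h' (by linear_combination -hn')
    · exact h' (by simp only [Affine.negY] at hy; linear_combination hy)

/-- the sum formula `x(Q+R) + x(Q-R) = S(x_Q, x_R)/(x_Q - x_R)^2` -/
lemma xc_add_add_xc_sub {Q R : E.Point} (hQ : Q ≠ 0) (hR : R ≠ 0) (hx : xc Q ≠ xc R) :
    (xc (Q + R) + xc (Q - R)) * (xc Q - xc R)^2 = sS E.b₂ E.b₄ E.b₆ (xc Q) (xc R) := by
  match Q, R with
  | .zero, _ => exact absurd rfl hQ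
  | _, .zero => exact absurd rfl hR
  | .some x₁ y₁ h₁, .some x₂ y₂ h₂ =>
    simp only [xc_some] at hx ⊢
    have hx' : x₁ - x₂ ≠ 0 := sub_ne_zero.mpr hx
    rw [sub_eq_add_neg, Point.neg_some, Point.add_of_X_ne hx, Point.add_of_X_ne hx]
    simp only [xc_some]
    rw [Affine.slope_of_X_ne hx, Affine.slope_of_X_ne hx]
    have e₁ := (Affine.equation_iff x₁ y₁).mp h₁.1
    have e₂ := (Affine.equation_iff x₂ y₂).mp h₂.1
    simp only [Affine.addX, Affine.negY, sS, WeierstrassCurve.b₂, WeierstrassCurve.b₄,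
      WeierstrassCurve.b₆]
    field_simp
    linear_combination (2 : K) * e₁ + (2 : K) * e₂

/-- `Rep Q n d`: `(n : d)` is a projective representative of `x(Q) ∈ ℙ¹` -/
def Rep (Q : E.Point) (n d : K) : Prop :=
  (Q = 0 ∧ d = 0 ∧ n ≠ 0) ∨ (Q ≠ 0 ∧ d ≠ 0 ∧ xc Q * d = n)

lemma Rep.eq_zero_iff {Q : E.Point} {n d : K} (h : Rep Q n d) : Q = 0 ↔ d = 0 := by
  rcases h with ⟨h1, h2, -⟩ | ⟨h1, h2, -⟩
  · exact ⟨fun _ => h2, fun _ => h1⟩
  · exact ⟨fun h => absurd h h1, fun h => absurd h h2⟩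

lemma Rep.xc_eq {Q : E.Point} {n d : K} (h : Rep Q n d) (hQ : Q ≠ 0) : xc Q = n / d := by
  rcases h with ⟨h1, -, -⟩ | ⟨-, h2, h3⟩
  · exact absurd h1 hQ
  · rw [eq_div_iff h2]; exact h3

lemma rep_dbl {Q : E.Point} {n d : K} (h : Rep Q n d) :
    Rep (Q + Q) (dblN E.b₄ E.b₆ E.b₈ n d) (dblD E.b₂ E.b₄ E.b₆ n d) := by
  rcases h with ⟨h1, h2, h3⟩ | ⟨h1, h2, h3⟩
  · left
    refine ⟨by rw [h1, add_zero], by simp [dblD, h2], ?_⟩
    simp only [dblN, h2]
    ring_nf
    exact pow_ne_zero 4 h3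
  · have hu : xc Q = n / d := by rw [eq_div_iff h2]; exact h3
    rw [dblN_eq _ _ _ _ _ h2, dblD_eq _ _ _ _ _ h2, ← hu]
    by_cases h2Q : Q + Q = 0
    · left
      have hD : dD E.b₂ E.b₄ E.b₆ (xc Q) = 0 := by
        by_contra hD
        exact add_self_ne_zero_of_dD_ne_zero h1 hD h2Q
      refine ⟨h2Q, by rw [hD, mul_zero], ?_⟩
      exact mul_ne_zero (pow_ne_zero 4 h2) (dN_ne_zero_of_dD_eq_zero h1 hD)
    · right
      obtain ⟨hD, hX⟩ := xc_add_self h1 h2Q
      refine ⟨h2Q, mul_ne_zero (pow_ne_zero 4 h2) hD, ?_⟩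
      rw [← hX]; ring

lemma rep_add {P Q R : E.Point} (hP : P ≠ 0) (hPQR : R = Q + P) {n₁ d₁ n₂ d₂ : K}
    (h₁ : Rep Q n₁ d₁) (h₂ : Rep R n₂ d₂) :
    Rep (Q + R) (addN E.b₂ E.b₄ E.b₆ (xc P) n₁ d₁ n₂ d₂) (addD n₁ d₁ n₂ d₂) := by
  have hQR : Q ≠ R := by
    intro h
    rw [← h] at hPQR
    exact hP (by simpa using hPQR)
  rcases h₁ with ⟨hQ, hd₁, hn₁⟩ | ⟨hQ, hd₁, hn₁⟩
  · -- Q = 0, R = P
    have hRP : R = P := by rw [hPQR, hQ, zero_add]
    rcases h₂ with ⟨hR, -, -⟩ | ⟨hR, hd₂, hn₂⟩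
    · exact absurd (hRP ▸ hR) hP
    · right
      rw [hRP] at hn₂
      refine ⟨by rw [hQ, zero_add]; exact hR, ?_, ?_⟩
      · simp only [addD, addW, hd₁]
        ring_nf
        exact mul_ne_zero (pow_ne_zero 2 hn₁) (pow_ne_zero 2 hd₂)
      · rw [hQ, zero_add, hRP]
        simp only [addN, addD, addS, addW, hd₁, ← hn₂]
        ring
  · rcases h₂ with ⟨hR, hd₂, hn₂⟩ | ⟨hR, hd₂, hn₂⟩
    · -- R = 0, Q = -P
      have hQP : Q = -P := by
        rw [hR] at hPQR
        exact eq_neg_of_add_eq_zero_left hPQR.symm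
      right
      refine ⟨by rw [hR, add_zero]; exact hQ, ?_, ?_⟩
      · simp only [addD, addW, hd₂]
        ring_nf
        exact mul_ne_zero (pow_ne_zero 2 hn₂) (pow_ne_zero 2 hd₁)
      · have hxQ : xc Q = xc P := by rw [hQP, xc_neg]
        rw [hR, add_zero]
        simp only [addN, addD, addS, addW, hd₂, ← hn₁, ← hxQ]
        ring
    · -- both nonzero
      have hu : xc Q = n₁ / d₁ := by rw [eq_div_iff hd₁]; exact hn₁
      have hv : xc R = n₂ / d₂ := by rw [eq_div_iff hd₂]; exact hn₂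
      have hW := addW_eq n₁ d₁ n₂ d₂ hd₁ hd₂
      have hS := addS_eq E.b₂ E.b₄ E.b₆ n₁ d₁ n₂ d₂ hd₁ hd₂
      rw [← hu, ← hv] at hW hS
      by_cases hx : xc Q = xc R
      · -- Q = -R
        left
        have hQR' : Q = -R := (eq_or_eq_neg_of_xc_eq hQ hR hx).resolve_left hQR
        refine ⟨by rw [hQR', neg_add_cancel], ?_, ?_⟩
        · rw [addD, hW, hx, sub_self, mul_zero]; ring
        · rw [addN, hW, hS, hx, sub_self, mul_zero, sS_self]
          have h2R : R + R ≠ 0 := by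
            intro h
            apply hQR
            rw [hQR']
            exact (eq_neg_of_add_eq_zero_left h).symm
          have hD := (xc_add_self hR h2R).1
          simp only [ne_eq, zero_pow, OfNat.ofNat_ne_zero, not_false_eq_true, mul_zero, sub_zero]
          exact mul_ne_zero (mul_ne_zero (pow_ne_zero 2 hd₁) (pow_ne_zero 2 hd₂)) hD
      · right
        have hsum : Q + R ≠ 0 := by
          intro h
          apply hx
          rw [eq_neg_of_add_eq_zero_left h, xc_neg]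
        have hdiff : xc (Q - R) = xc P := by
          have : Q - R = -P := by rw [hPQR]; abel
          rw [this, xc_neg]
        have key := xc_add_add_xc_sub hQ hR hx
        rw [hdiff] at key
        have hne : xc Q - xc R ≠ 0 := sub_ne_zero.mpr hx
        refine ⟨hsum, ?_, ?_⟩
        · rw [addD, hW]
          exact pow_ne_zero 2 (mul_ne_zero (mul_ne_zero hd₁ hd₂) hne)
        · rw [addN, addD, hW, hS, ← key]; ring

/-- **projective validity of the ladder** -/
theorem rep_lad {P : E.Point} (hP : P ≠ 0) (k : ℕ) :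
    Rep (k • P) (ladN E.b₂ E.b₄ E.b₆ E.b₈ (xc P) k) (ladD E.b₂ E.b₄ E.b₆ E.b₈ (xc P) k) := by
  rcases Nat.eq_zero_or_pos k with rfl | hk
  · left; simp
  revert hk
  refine ladder_induction (P := fun k => Rep (k • P) (ladN E.b₂ E.b₄ E.b₆ E.b₈ (xc P) k)
    (ladD E.b₂ E.b₄ E.b₆ E.b₈ (xc P) k)) ?_ ?_ ?_ k
  · right
    simp only [one_nsmul, ladN_one, ladD_one, mul_one]
    exact ⟨hP, one_ne_zero, trivial⟩
  · intro k hk ih
    rw [ladN_even _ _ _ _ _ k hk, ladD_even _ _ _ _ _ k hk, two_mul, add_nsmul]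
    exact rep_dbl ih
  · intro k hk ih ih'
    rw [ladN_odd _ _ _ _ _ k hk, ladD_odd _ _ _ _ _ k hk]
    have e : (2 * k + 1) • P = k • P + (k + 1) • P := by
      rw [← add_nsmul]; congr 1; ring
    rw [e]
    exact rep_add hP (by rw [succ_nsmul]) ih ih'

end Fermat.Agent.S13.H891

end
-- ===== PACK-END S13/H891/LadderValid.lean

-- ===== PACK-BEGIN S13/H891/Torsion.lean
section





/-!
# S13 / T1: `n`-torsion of a Weierstrass curve for odd `n = 2m+1`

* `torsion_iff_root`: for `P ≠ 0`, `(2m+1) • P = 0 ↔ W_m(x(P)) = 0`;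
* `exists_order_odd`: existence of a nonzero `(2m+1)`-torsion point over an algebraically closed
  field of characteristic zero;
* `card_torsion_odd_le`: `#E[2m+1] ≤ (2m+1)^2`.
-/

open WeierstrassCurve WeierstrassCurve.Affine Polynomial
open Fermat.Agent.S51.Five (xc dD dN dD_eq dN_eq xc_add_self add_self_ne_zero_of_dD_ne_zero
  eq_or_eq_neg_of_xc_eq xc_neg xc_some exists_equation pointsOver card_pointsOver_le
  mem_pointsOver)

namespace Fermat.Agent.S13.H891

variable {K : Type*} [Field K] [DecidableEq K] {E : WeierstrassCurve.Affine K}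

/-- for `P ≠ 0`: `(2m+1) P = 0` iff `x(P)` is a root of `W_m` -/
theorem torsion_iff_root {P : E.Point} (hP : P ≠ 0) (m : ℕ) :
    (2*m+1) • P = 0 ↔ (polyW E.b₂ E.b₄ E.b₆ E.b₈ m).eval (xc P) = 0 := by
  rw [eval_polyW, addW]
  have h₁ := rep_lad hP m
  have h₂ := rep_lad hP (m+1)
  have e : (2 * m + 1) • P = m • P + (m + 1) • P := by
    rw [← add_nsmul]; congr 1; ring
  have e' : (m + 1) • P = m • P + P := succ_nsmul P m
  set N := ladN E.b₂ E.b₄ E.b₆ E.b₈ (xc P) m
  set D := ladD E.b₂ E.b₄ E.b₆ E.b₈ (xc P) m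
  set N' := ladN E.b₂ E.b₄ E.b₆ E.b₈ (xc P) (m+1)
  set D' := ladD E.b₂ E.b₄ E.b₆ E.b₈ (xc P) (m+1)
  constructor
  · intro h
    rw [e] at h
    have hneg : m • P = -((m + 1) • P) := eq_neg_of_add_eq_zero_left h
    rcases h₁ with ⟨hQ, -, -⟩ | ⟨hQ, hd₁, hn₁⟩
    · exfalso
      rw [hQ, zero_add] at h
      rw [e', hQ, zero_add] at h
      exact hP h
    · rcases h₂ with ⟨hR, -, -⟩ | ⟨hR, hd₂, hn₂⟩
      · exfalso
        rw [hR, neg_zero] at hneg
        exact hQ hneg
      · have hx : xc (m • P) = xc ((m + 1) • P) := by rw [hneg, xc_neg]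
        rw [← hn₁, ← hn₂, hx]; ring
  · intro h
    rcases h₁ with ⟨hQ, hd₁, hn₁⟩ | ⟨hQ, hd₁, hn₁⟩
    · exfalso
      rw [hd₁, mul_zero, sub_zero] at h
      have hd₂ : D' = 0 := (mul_eq_zero.mp h).resolve_left hn₁
      have hR : (m + 1) • P = 0 := h₂.eq_zero_iff.mpr hd₂
      rw [e', hQ, zero_add] at hR
      exact hP hR
    · rcases h₂ with ⟨hR, hd₂, hn₂⟩ | ⟨hR, hd₂, hn₂⟩
      · exfalso
        rw [hd₂, mul_zero, zero_sub, neg_eq_zero] at h
        exact hd₁ ((mul_eq_zero.mp h).resolve_left hn₂)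
      · have hx : xc (m • P) = xc ((m + 1) • P) := by
          have : (xc (m • P) - xc ((m + 1) • P)) * (D * D') = 0 := by
            rw [← h, ← hn₁, ← hn₂]; ring
          exact sub_eq_zero.mp ((mul_eq_zero.mp this).resolve_right (mul_ne_zero hd₁ hd₂))
        rcases eq_or_eq_neg_of_xc_eq hQ hR hx with h' | h'
        · exfalso
          rw [e'] at h'
          exact hP (by simpa using h')
        · rw [e, h', neg_add_cancel]

section degree

variable (E)

lemma natDegree_polyW (m : ℕ) (hm : 1 ≤ m) (hn : ((2*m+1 : ℕ) : K) ≠ 0) :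
    (polyW E.b₂ E.b₄ E.b₆ E.b₈ m).natDegree = 2*m^2 + 2*m := by
  obtain ⟨h1, h2⟩ := dc_polyW E.b₂ E.b₄ E.b₆ E.b₈ m hm
  exact natDegree_eq_of_le_of_coeff_ne_zero h1 (by rw [h2]; exact hn)

lemma polyW_ne_zero (m : ℕ) (hm : 1 ≤ m) (hn : ((2*m+1 : ℕ) : K) ≠ 0) :
    polyW E.b₂ E.b₄ E.b₆ E.b₈ m ≠ 0 := by
  intro h
  have := (dc_polyW E.b₂ E.b₄ E.b₆ E.b₈ m hm).2
  rw [h, coeff_zero] at this
  exact hn this.symm

end degree

/-- over an algebraically closed field of characteristic `0`, an elliptic curve has a nonzero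
point killed by `2m+1`, for every `m ≥ 1` -/
theorem exists_order_odd [IsAlgClosed K] [CharZero K] (E : WeierstrassCurve.Affine K)
    [E.IsElliptic] (m : ℕ) (hm : 1 ≤ m) : ∃ P : E.Point, P ≠ 0 ∧ (2*m+1) • P = 0 := by
  have hn : ((2*m+1 : ℕ) : K) ≠ 0 := Nat.cast_ne_zero.mpr (by omega)
  have hdeg : (polyW E.b₂ E.b₄ E.b₆ E.b₈ m).degree ≠ 0 := by
    rw [degree_eq_natDegree (polyW_ne_zero E m hm hn), natDegree_polyW E m hm hn]
    have : 0 < 2 * m ^ 2 + 2 * m := by positivity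
    exact_mod_cast this.ne'
  obtain ⟨x, hx⟩ := IsAlgClosed.exists_root _ hdeg
  obtain ⟨y, hy⟩ := exists_equation E x
  have hns : E.Nonsingular x y := Affine.equation_iff_nonsingular.mp hy
  refine ⟨Point.some x y hns, Point.some_ne_zero _, ?_⟩
  rw [torsion_iff_root (Point.some_ne_zero _)]
  exact hx

section counting

variable [CharZero K]

/-- a finite set containing all `(2m+1)`-torsion points -/
noncomputable def oddCandidates (E : WeierstrassCurve.Affine K) (m : ℕ) : Finset E.Point :=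
  insert 0 (pointsOver E (polyW E.b₂ E.b₄ E.b₆ E.b₈ m).roots.toFinset)

lemma card_oddCandidates_le (E : WeierstrassCurve.Affine K) (m : ℕ) (hm : 1 ≤ m) :
    (oddCandidates E m).card ≤ (2*m+1)^2 := by
  classical
  have hn : ((2*m+1 : ℕ) : K) ≠ 0 := Nat.cast_ne_zero.mpr (by omega)
  have h1 : (polyW E.b₂ E.b₄ E.b₆ E.b₈ m).roots.toFinset.card ≤ 2*m^2 + 2*m := by
    calc (polyW E.b₂ E.b₄ E.b₆ E.b₈ m).roots.toFinset.card
        ≤ Multiset.card (polyW E.b₂ E.b₄ E.b₆ E.b₈ m).roots := Multiset.toFinset_card_le _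
      _ ≤ (polyW E.b₂ E.b₄ E.b₆ E.b₈ m).natDegree := Polynomial.card_roots' _
      _ = 2*m^2 + 2*m := natDegree_polyW E m hm hn
  have e : (2*m+1)^2 = (2*m^2 + 2*m) * 2 + 1 := by ring
  calc (oddCandidates E m).card
      ≤ (pointsOver E (polyW E.b₂ E.b₄ E.b₆ E.b₈ m).roots.toFinset).card + 1 :=
        Finset.card_insert_le _ _
    _ ≤ (polyW E.b₂ E.b₄ E.b₆ E.b₈ m).roots.toFinset.card * 2 + 1 :=
        Nat.add_le_add_right (card_pointsOver_le E _) 1
    _ ≤ (2*m^2 + 2*m) * 2 + 1 := by omega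
    _ = (2*m+1)^2 := e.symm

lemma mem_oddCandidates {P : E.Point} (m : ℕ) (hm : 1 ≤ m) (h : (2*m+1) • P = 0) :
    P ∈ oddCandidates E m := by
  classical
  have hn : ((2*m+1 : ℕ) : K) ≠ 0 := Nat.cast_ne_zero.mpr (by omega)
  unfold oddCandidates
  by_cases hP : P = 0
  · rw [hP]; exact Finset.mem_insert_self _ _
  · apply Finset.mem_insert_of_mem
    apply mem_pointsOver hP
    rw [Multiset.mem_toFinset, Polynomial.mem_roots (polyW_ne_zero E m hm hn)]
    exact (torsion_iff_root hP m).mp h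

lemma nsmul_eq_zero_of_mem_torsionBy (n : ℕ) (P : Submodule.torsionBy ℤ E.Point ((n : ℕ) : ℤ)) :
    n • (P : E.Point) = 0 := by
  have := P.2
  rw [Submodule.mem_torsionBy_iff] at this
  rw [← this]
  exact (natCast_zsmul _ n).symm

/-- `E[2m+1]` is finite -/
theorem finite_torsion_odd (E : WeierstrassCurve.Affine K) (m : ℕ) (hm : 1 ≤ m) :
    Finite (Submodule.torsionBy ℤ E.Point ((2*m+1 : ℕ) : ℤ)) := by
  classical
  let f : Submodule.torsionBy ℤ E.Point ((2*m+1 : ℕ) : ℤ) → (oddCandidates E m) :=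
    fun P => ⟨P.1, mem_oddCandidates m hm (nsmul_eq_zero_of_mem_torsionBy _ P)⟩
  have hf : Function.Injective f := by
    intro P Q h
    exact Subtype.ext (congrArg (fun x : oddCandidates E m => (x : E.Point)) h)
  exact Finite.of_injective f hf

/-- `#E[2m+1] ≤ (2m+1)^2` -/
theorem card_torsion_odd_le (E : WeierstrassCurve.Affine K) (m : ℕ) (hm : 1 ≤ m) :
    Nat.card (Submodule.torsionBy ℤ E.Point ((2*m+1 : ℕ) : ℤ)) ≤ (2*m+1)^2 := by
  classical
  let f : Submodule.torsionBy ℤ E.Point ((2*m+1 : ℕ) : ℤ) → (oddCandidates E m) :=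
    fun P => ⟨P.1, mem_oddCandidates m hm (nsmul_eq_zero_of_mem_torsionBy _ P)⟩
  have hf : Function.Injective f := by
    intro P Q h
    exact Subtype.ext (congrArg (fun x : oddCandidates E m => (x : E.Point)) h)
  calc Nat.card (Submodule.torsionBy ℤ E.Point ((2*m+1 : ℕ) : ℤ))
      ≤ Nat.card (oddCandidates E m) := Nat.card_le_card_of_injective f hf
    _ = (oddCandidates E m).card := by rw [Nat.card_eq_fintype_card, Fintype.card_coe]
    _ ≤ (2*m+1)^2 := card_oddCandidates_le E m hm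

/-- `E[2m+1]` is nontrivial over an algebraically closed field of characteristic `0` -/
theorem nontrivial_torsion_odd [IsAlgClosed K] (E : WeierstrassCurve.Affine K) [E.IsElliptic]
    (m : ℕ) (hm : 1 ≤ m) :
    Nontrivial (Submodule.torsionBy ℤ E.Point ((2*m+1 : ℕ) : ℤ)) := by
  obtain ⟨P, hP, hP5⟩ := exists_order_odd E m hm
  have hmem : P ∈ Submodule.torsionBy ℤ E.Point ((2*m+1 : ℕ) : ℤ) := by
    rw [Submodule.mem_torsionBy_iff, natCast_zsmul]; exact hP5
  exact ⟨⟨⟨P, hmem⟩, 0, fun h => hP (congrArg Subtype.val h)⟩⟩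

end counting

/-- **T1 for odd primes `p`** (stated for any odd `p ≥ 3`): over an algebraically closed field of
characteristic `0`, `E[p]` is nontrivial, finite, of cardinality at most `p^2`. -/
theorem T1_odd [IsAlgClosed K] [CharZero K] (E : WeierstrassCurve.Affine K) [E.IsElliptic]
    (p : ℕ) (hp3 : 3 ≤ p) (hodd : Odd p) :
    Nontrivial (Submodule.torsionBy ℤ E.Point ((p : ℕ) : ℤ)) ∧
    Finite (Submodule.torsionBy ℤ E.Point ((p : ℕ) : ℤ)) ∧
    Nat.card (Submodule.torsionBy ℤ E.Point ((p : ℕ) : ℤ)) ≤ p ^ 2 := by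
  obtain ⟨m, rfl⟩ := hodd
  have hm : 1 ≤ m := by omega
  exact ⟨nontrivial_torsion_odd E m hm, finite_torsion_odd E m hm, card_torsion_odd_le E m hm⟩

end Fermat.Agent.S13.H891

end
-- ===== PACK-END S13/H891/Torsion.lean

-- ===== PACK-BEGIN S13/H891/Frey.lean
section





/-!
# S13 / T1 for the Frey curve

`T1_frey`: for a Frey package `P`, `V = E[p](ℚ̄)` is nontrivial, finite, of cardinality `≤ p^2`.
`exists_integral_poly`: the division polynomial with coefficients in a subring.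
-/

open WeierstrassCurve WeierstrassCurve.Affine Polynomial
open Fermat.Agent.S51.Five (xc)

namespace Fermat.Agent.S13.H891

/-- the division polynomial `W_m` has coefficients in any ring `R` containing the `b`-invariants,
leading coefficient `2m+1`, and vanishes at the `x`-coordinates of the nonzero `(2m+1)`-torsion
points -/
theorem exists_integral_poly {K : Type*} [Field K] [DecidableEq K]
    (E : WeierstrassCurve.Affine K) {R : Type*} [CommRing R] (φ : R →+* K)
    (c₂ c₄ c₆ c₈ : R) (h₂ : φ c₂ = E.b₂) (h₄ : φ c₄ = E.b₄) (h₆ : φ c₆ = E.b₆)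
    (h₈ : φ c₈ = E.b₈) (m : ℕ) (hm : 1 ≤ m) :
    ∃ Q : R[X], Q.natDegree ≤ 2*m^2 + 2*m ∧ Q.coeff (2*m^2 + 2*m) = ((2*m+1 : ℕ) : R) ∧
      ∀ P : E.Point, P ≠ 0 → ((2*m+1) • P = 0 ↔ (Q.map φ).eval (xc P) = 0) := by
  refine ⟨polyW c₂ c₄ c₆ c₈ m, (dc_polyW c₂ c₄ c₆ c₈ m hm).1, (dc_polyW c₂ c₄ c₆ c₈ m hm).2, ?_⟩
  intro P hP
  rw [map_polyW, h₂, h₄, h₆, h₈]
  exact torsion_iff_root hP m

local notation "Qbar" => AlgebraicClosure ℚ

lemma freyCurve_Δ (P : FreyPackage) :
    P.freyCurve.Δ = ((P.a : ℚ) * P.b * P.c) ^ (2 * P.p) / 2 ^ 8 := by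
  have h : ((P.c : ℚ)) ^ P.p = (P.a : ℚ) ^ P.p + (P.b : ℚ) ^ P.p := by
    exact_mod_cast P.hFLT.symm
  simp only [WeierstrassCurve.Δ, WeierstrassCurve.b₂, WeierstrassCurve.b₄, WeierstrassCurve.b₆,
    WeierstrassCurve.b₈, FreyPackage.freyCurve]
  rw [mul_pow, mul_pow, pow_mul', pow_mul', pow_mul', h]
  ring

lemma freyCurve_Δ_ne_zero (P : FreyPackage) : P.freyCurve.Δ ≠ 0 := by
  rw [freyCurve_Δ]
  have : ((P.a : ℚ) * P.b * P.c) ≠ 0 := by exact_mod_cast P.habc0
  exact div_ne_zero (pow_ne_zero _ this) (by norm_num)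

/-- **T1 for the Frey curve**: `E[p](ℚ̄)` is nontrivial, finite, of cardinality at most `p^2`. -/
theorem T1_frey (P : FreyPackage) :
    Nontrivial (Submodule.torsionBy ℤ (P.freyCurve⁄Qbar).Point ((P.p : ℕ) : ℤ)) ∧
    Finite (Submodule.torsionBy ℤ (P.freyCurve⁄Qbar).Point ((P.p : ℕ) : ℤ)) ∧
    Nat.card (Submodule.torsionBy ℤ (P.freyCurve⁄Qbar).Point ((P.p : ℕ) : ℤ)) ≤ P.p ^ 2 := by
  haveI : (P.freyCurve⁄Qbar).IsElliptic := by
    constructor
    rw [isUnit_iff_ne_zero]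
    show (P.freyCurve.map (algebraMap ℚ Qbar)).Δ ≠ 0
    rw [WeierstrassCurve.map_Δ]
    exact (_root_.map_ne_zero _).mpr (freyCurve_Δ_ne_zero P)
  exact T1_odd (P.freyCurve⁄Qbar) P.p (by have := P.hp5; omega) P.hp_odd

end Fermat.Agent.S13.H891

end
-- ===== PACK-END S13/H891/Frey.lean

-- ===== PACK-BEGIN S13/H64/T5.lean
section





/-!
# S13 / T5 in the frozen interface shape

`Fermat.Agent.S13.H64.T5`: for every Galois-stable `N ≠ ⊥, ⊤` in `E[p]` of the Frey curve there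
is a valuation subring `A` of `ℚ̄` over `p` whose inertia group acts trivially on `N` or on
`E[p] / N`.  Also `T1'` (`frey_exists_divpoly`): an integral `p`-division polynomial with leading
coefficient `p`.
-/

set_option autoImplicit false
set_option linter.unusedSectionVars false
set_option linter.unusedVariables false

namespace Fermat.Agent.S13.H64

open WeierstrassCurve WeierstrassCurve.Affine WeierstrassCurve.Affine.Point Polynomial
open Fermat.Agent.S05 Fermat.Agent.S05.SameRed Fermat.Agent.S05.Assemble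

/-- `32 ∣ b ^ p` for a Frey package. -/
lemma frey_b_pow (P : FreyPackage) : ∃ t : ℤ, P.b ^ P.p = 32 * t := by
  have h2 : (2 : ℤ) ∣ P.b := (ZMod.intCast_zmod_eq_zero_iff_dvd P.b 2).1 P.hb2
  obtain ⟨s, hs⟩ := h2
  have hp5 := P.hp5
  obtain ⟨k, hk⟩ : ∃ k, P.p = 5 + k := ⟨P.p - 5, by omega⟩
  refine ⟨2 ^ k * s ^ P.p, ?_⟩
  rw [hs, mul_pow]
  conv_lhs => rw [hk, pow_add]
  rw [← hk]
  ring

/-- **(T1')** An integral `p`-division polynomial for the Frey curve: leading coefficient `p`,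
vanishing at the `x`-coordinates of all nonzero `p`-torsion points over `ℚ̄`. -/
theorem frey_exists_divpoly (P : FreyPackage) : ∃ Q : ℤ[X], Q.leadingCoeff = P.p ∧
    ∀ (x y : Qb) (h : (P.freyCurve⁄Qb).Nonsingular x y),
      (P.p : ℤ) • Point.some x y h = 0 → aeval x Q = 0 := by
  obtain ⟨t, ht⟩ := frey_b_pow P
  obtain ⟨m, hm⟩ := P.hp_odd
  have hm1 : 1 ≤ m := by have := P.hp5; omega
  have hfB : fB P = 32 * (t : Qb) := by
    simp only [fB]; rw [ht]; push_cast; ring
  have h₂ : (Int.castRingHom Qb) (P.b ^ P.p - P.a ^ P.p) = (P.freyCurve⁄Qb).b₂ := by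
    simp only [WeierstrassCurve.b₂, frey_a₁, frey_a₂, fA, fB, eq_intCast]
    push_cast
    ring
  have h₄ : (Int.castRingHom Qb) (-(P.a ^ P.p) * (4 * t)) = (P.freyCurve⁄Qb).b₄ := by
    simp only [WeierstrassCurve.b₄, frey_a₁, frey_a₃, frey_a₄, hfB, fA, eq_intCast]
    push_cast
    ring
  have h₆ : (Int.castRingHom Qb) 0 = (P.freyCurve⁄Qb).b₆ := by
    simp only [WeierstrassCurve.b₆, frey_a₃, frey_a₆]
    simp
  have h₈ : (Int.castRingHom Qb) (-(P.a ^ P.p * (2 * t)) ^ 2) = (P.freyCurve⁄Qb).b₈ := by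
    simp only [WeierstrassCurve.b₈, frey_a₁, frey_a₃, frey_a₄, frey_a₆, hfB, fA, eq_intCast]
    push_cast
    ring
  obtain ⟨Q, hdeg, hcoeff, hroot⟩ := H891.exists_integral_poly (P.freyCurve⁄Qb)
    (Int.castRingHom Qb) _ _ _ _ h₂ h₄ h₆ h₈ m hm1
  have hp0 : ((2 * m + 1 : ℕ) : ℤ) ≠ 0 := by
    have : 0 < 2 * m + 1 := by omega
    exact_mod_cast this.ne'
  have hnat : Q.natDegree = 2 * m ^ 2 + 2 * m :=
    natDegree_eq_of_le_of_coeff_ne_zero hdeg (by rw [hcoeff]; exact hp0)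
  refine ⟨Q, ?_, ?_⟩
  · rw [leadingCoeff, hnat, hcoeff, hm]
  · intro x y h hP
    rw [natCast_zsmul, hm] at hP
    have := (hroot (Point.some x y h) (Point.some_ne_zero h)).mp hP
    have hmap : algebraMap ℤ Qb = Int.castRingHom Qb := RingHom.ext_int _ _
    rw [aeval_def, hmap, eval₂_eq_eval_map]
    exact this

/-- A proper submodule of `E[p]` is a line: any nonzero element generates it over `ℤ`. -/
theorem frey_line (P : FreyPackage)
    (N : Submodule (ZMod P.p) (Submodule.torsionBy ℤ (P.freyCurve⁄Qb).Point P.p))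
    (htop : N ≠ ⊤) : ∀ x ∈ N, x ≠ 0 → ∀ y ∈ N, ∃ k : ℤ, y = k • x := by
  have : Fact P.p.Prime := ⟨P.pp⟩
  obtain ⟨-, hfin, hcard⟩ := H891.T1_frey P
  have : Finite (Skel.Vp P) := hfin
  have : Module.Finite (ZMod P.p) (Skel.Vp P) := Module.Finite.of_finite
  have h2 : Module.finrank (ZMod P.p) (Skel.Vp P) ≤ 2 := Skel.finrank_le_two P hfin hcard
  have hlt : Module.finrank (ZMod P.p) N < Module.finrank (ZMod P.p) (Skel.Vp P) :=
    Submodule.finrank_lt htop
  have h1 : Module.finrank (ZMod P.p) N ≤ 1 := by omega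
  obtain ⟨v, hv⟩ := finrank_le_one_iff.1 h1
  intro x hx hx0 y hy
  obtain ⟨a, ha⟩ := hv ⟨x, hx⟩
  obtain ⟨b, hb⟩ := hv ⟨y, hy⟩
  have ha0 : a ≠ 0 := by
    rintro rfl
    rw [zero_smul] at ha
    exact hx0 (congrArg Subtype.val ha.symm)
  have hyx : (⟨y, hy⟩ : N) = (b * a⁻¹) • (⟨x, hx⟩ : N) := by
    rw [← ha, smul_smul, mul_assoc, inv_mul_cancel₀ ha0, mul_one, hb]
  have hyx' : y = (b * a⁻¹) • x := congrArg Subtype.val hyx
  refine ⟨((b * a⁻¹).val : ℤ), ?_⟩
  rw [hyx']
  conv_lhs => rw [← ZMod.natCast_zmod_val (b * a⁻¹)]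
  rw [Nat.cast_smul_eq_nsmul, natCast_zsmul]

/-- **(T5)**, frozen interface shape. -/
theorem T5 (P : FreyPackage)
    (N : Submodule (ZMod P.p) (Submodule.torsionBy ℤ (P.freyCurve⁄(AlgebraicClosure ℚ)).Point P.p))
    (hN : IsGaloisStable (K := AlgebraicClosure ℚ) ℚ N) (hbot : N ≠ ⊥) (htop : N ≠ ⊤) :
    ∃ A : ValuationSubring (AlgebraicClosure ℚ), A.LiesOverPrime P.p ∧
      ((∀ σ ∈ A.inertiaSubgroupIn ℚ, ∀ x ∈ N, σ • x = x) ∨
       (∀ σ ∈ A.inertiaSubgroupIn ℚ,
          ∀ x : Submodule.torsionBy ℤ (P.freyCurve⁄(AlgebraicClosure ℚ)).Point P.p,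
            σ • x - x ∈ N)) := by
  obtain ⟨A, hA⟩ := Fermat.Agent.S54.exists_valuationSubring_liesOver P.p P.pp
  obtain ⟨Q, hQlc, hQ⟩ := frey_exists_divpoly P
  exact ⟨A, hA, frey_inertia_dichotomy_at_p P A hA Q hQlc hQ N hN hbot (frey_line P N htop)⟩

end Fermat.Agent.S13.H64

end
-- ===== PACK-END S13/H64/T5.lean

-- ===== PACK-BEGIN S12/H291/PiRat.lean
section




/-!
# S12 one-step route: `PiRatStatement` from the LOCAL node `PiValStatement` (helper291)

* `PiValStatement` (NODE, purely local): for a cofixed line `N` of the Frey curve with generator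
  `T₀`, every prime `ℓ` and every valuation subring `A` of `ℚ̄` over `ℓ`:
  `v_A(Π₃) = v_A(Π₁)` and `v_A(Π₁) = v_A(4)^(p-1) · v_A(Π₂)`.
* `piRat_of_piVal : PiValStatement → PiRatStatement`: the `Π_j` are Galois-fixed (the line is
  Galois-stable), hence rational, and a rational number which is a unit at every valuation
  subring of `ℚ̄` is `±1`.
* `s12_of_piVal : PiValStatement → frozen S12`.
-/

set_option autoImplicit false
set_option linter.unusedSectionVars false

noncomputable section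

open WeierstrassCurve WeierstrassCurve.Affine WeierstrassCurve.Affine.Point

namespace Fermat.Agent.S12.H291

/-- **NODE PiVal** (local valuations of the three products). -/
def PiValStatement : Prop :=
  ∀ (P : FreyPackage), 17 ≤ P.p →
    ∀ N : Submodule (ZMod P.p) (Submodule.torsionBy ℤ (FreyPt P) P.p),
      IsGaloisStable (K := Qb) ℚ N → N ≠ ⊥ → N ≠ ⊤ →
      (∀ σ : Qb ≃ₐ[ℚ] Qb, ∀ x : Submodule.torsionBy ℤ (FreyPt P) P.p, σ • x - x ∈ N) →
      ∀ T₀ : Submodule.torsionBy ℤ (FreyPt P) P.p, T₀ ∈ N → T₀ ≠ 0 →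
      ∀ (ℓ : ℕ), ℓ.Prime → ∀ A : ValuationSubring Qb, A.LiesOverPrime ℓ →
        A.valuation (piProd (T₀ : FreyPt P) P.p (eps₃ P))
            = A.valuation (piProd (T₀ : FreyPt P) P.p 0) ∧
          A.valuation (piProd (T₀ : FreyPt P) P.p 0)
            = A.valuation (4 : Qb) ^ (P.p - 1) * A.valuation (piProd (T₀ : FreyPt P) P.p (eps₂ P))

/-! ### Galois action on `x`-coordinates -/

lemma xc_smul {P : FreyPackage} (σ : Qb ≃ₐ[ℚ] Qb) (T : FreyPt P) : xc (σ • T) = σ (xc T) := by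
  cases T with
  | zero => exact (map_zero σ).symm
  | some x y h => rfl

lemma zmodHom_intCast {K : Type*} [Field K] [DecidableEq K] {W : Affine K} {n : ℕ}
    (T₀ : W.Point) (h : n • T₀ = 0) (k : ℤ) :
    zmodHom T₀ h (k : ZMod n) = k • T₀ := by
  have := ZMod.lift_coe n (⟨zmultiplesHom W.Point T₀, by
    rw [zmultiplesHom_apply, natCast_zsmul]
    exact h⟩ : {f : ℤ →+ W.Point // f n = 0}) k
  simp only [zmultiplesHom_apply] at this
  exact this

/-- If `σ` acts on the cyclic group `T (ZMod p)` through multiplication by `c ≠ 0` and fixes `r`,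
then it fixes `Π_r`. -/
lemma piP_fixed {P : FreyPackage} {p : ℕ} [Fact p.Prime] (T : ZMod p →+ FreyPt P)
    (σ : Qb ≃ₐ[ℚ] Qb) (c : ZMod p) (hc : c ≠ 0) (hσ : ∀ a, σ • T a = T (a * c)) (r : Qb)
    (hr : σ r = r) : σ (piP T r) = piP T r := by
  rw [piP, map_prod]
  refine Finset.prod_nbij' (fun a => a * c) (fun b => b * c⁻¹) ?_ ?_ ?_ ?_ ?_
  · intro a ha
    rw [mem_nz] at ha ⊢
    exact mul_ne_zero ha hc
  · intro b hb
    rw [mem_nz] at hb ⊢
    exact mul_ne_zero hb (inv_ne_zero hc)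
  · intro a _
    rw [mul_assoc, mul_inv_cancel₀ hc, mul_one]
  · intro b _
    rw [mul_assoc, inv_mul_cancel₀ hc, mul_one]
  · intro a _
    rw [map_sub, hr, ← xc_smul, hσ]

lemma nsmul_eq_zero_of_mem_torsion {P : FreyPackage}
    (T₀ : Submodule.torsionBy ℤ (FreyPt P) P.p) : P.p • (T₀ : FreyPt P) = 0 := by
  have := T₀.2
  rw [Submodule.mem_torsionBy_iff] at this
  rw [← natCast_zsmul]
  exact this

theorem isGalois_Qb_h291 : IsGalois ℚ Qb := by
  have : Algebra.IsAlgebraic ℚ Qb := AlgebraicClosure.isAlgebraic ℚ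
  have : IsAlgClosure ℚ Qb := ⟨inferInstance, inferInstance⟩
  have : Normal ℚ Qb := IsAlgClosure.normal ℚ Qb
  exact isGalois_iff.mpr ⟨inferInstance, inferInstance⟩

/-- The order of a nonzero element of `E[p]`. -/
lemma addOrderOf_eq_of_mem_torsion {P : FreyPackage}
    (T₀ : Submodule.torsionBy ℤ (FreyPt P) P.p) (hT₀ : T₀ ≠ 0) :
    addOrderOf (T₀ : FreyPt P) = P.p := by
  have hp0 : P.p • (T₀ : FreyPt P) = 0 := nsmul_eq_zero_of_mem_torsion T₀
  have hne : (T₀ : FreyPt P) ≠ 0 := fun h => hT₀ (Subtype.ext h)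
  have hdvd := addOrderOf_dvd_of_nsmul_eq_zero hp0
  rcases (Nat.dvd_prime P.pp).mp hdvd with h | h
  · exact absurd (AddMonoid.addOrderOf_eq_one_iff.mp h) hne
  · exact h

/-- **RAT**: the products `Π_r` (`r` rational) of a Galois-stable line are rational. -/
theorem piProd_rational (P : FreyPackage)
    (N : Submodule (ZMod P.p) (Submodule.torsionBy ℤ (FreyPt P) P.p))
    (hstab : IsGaloisStable (K := Qb) ℚ N) (htop : N ≠ ⊤)
    (T₀ : Submodule.torsionBy ℤ (FreyPt P) P.p) (hT₀N : T₀ ∈ N) (hT₀ : T₀ ≠ 0) (r : ℚ) :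
    ∃ q : ℚ, algebraMap ℚ Qb q = piProd (T₀ : FreyPt P) P.p (algebraMap ℚ Qb r) := by
  have : Fact P.p.Prime := ⟨P.pp⟩
  have : IsGalois ℚ Qb := isGalois_Qb_h291
  have hp0 : P.p • (T₀ : FreyPt P) = 0 := nsmul_eq_zero_of_mem_torsion T₀
  rw [← piP_zmodHom (T₀ : FreyPt P) hp0]
  apply Fermat.Agent.S13.H64.exists_rat_of_forall_fixed
  intro σ
  obtain ⟨k, hk⟩ := Fermat.Agent.S13.H64.frey_line P N htop T₀ hT₀N hT₀ (σ • T₀)
    (hstab σ T₀ hT₀N)
  have hk' : σ • (T₀ : FreyPt P) = k • (T₀ : FreyPt P) := by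
    have := congrArg (Subtype.val) hk
    exact this
  have hc : ((k : ℤ) : ZMod P.p) ≠ 0 := by
    intro h0
    have h1 : zmodHom (T₀ : FreyPt P) hp0 ((k : ℤ) : ZMod P.p) = 0 := by
      rw [h0, _root_.map_zero]
    rw [zmodHom_intCast, ← hk'] at h1
    have h2 : (T₀ : FreyPt P) = 0 := by
      have := congrArg (fun Q => σ⁻¹ • Q) h1
      simpa using this
    exact hT₀ (Subtype.ext h2)
  refine piP_fixed _ σ _ hc ?_ _ (by simp)
  intro a
  rw [zmodHom_apply, ← natCast_zsmul, algEquiv_smul_zsmul, hk', smul_smul]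
  have : a * ((k : ℤ) : ZMod P.p) = (((a.val : ℤ) * k : ℤ) : ZMod P.p) := by
    push_cast
    rw [ZMod.natCast_zmod_val]
  rw [this, zmodHom_intCast]

/-! ### A rational number which is a unit everywhere is `±1` -/

lemma val_rat_eq {A : ValuationSubring Qb} (q : ℚ) :
    A.valuation (algebraMap ℚ Qb q) =
      A.valuation ((q.num : ℤ) : Qb) / A.valuation ((q.den : ℤ) : Qb) := by
  rw [← map_div₀]
  congr 1
  conv_lhs => rw [← Rat.num_div_den q]
  push_cast
  rfl

lemma val_lt_one_of_dvd {ℓ : ℕ} {A : ValuationSubring Qb} (hA : A.LiesOverPrime ℓ) {m : ℤ}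
    (hm : (ℓ : ℤ) ∣ m) : A.valuation ((m : ℤ) : Qb) < 1 := by
  obtain ⟨t, rfl⟩ := hm
  push_cast
  rw [map_mul]
  have h1 : A.valuation ((ℓ : ℕ) : Qb) < 1 := (ValuationSubring.mem_nonunits_iff A).mp hA
  have h2 := Fermat.Agent.S13.H64.valuation_intCast_le_one A t
  calc A.valuation ((ℓ : ℕ) : Qb) * A.valuation ((t : ℤ) : Qb)
      ≤ A.valuation ((ℓ : ℕ) : Qb) * 1 := by gcongr
    _ < 1 := by rwa [mul_one]

/-- A rational number of valuation `1` at every valuation subring of `ℚ̄` over a prime has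
square `1`. -/
theorem sq_eq_one_of_val_eq_one (t : ℚ)
    (h : ∀ (ℓ : ℕ), ℓ.Prime → ∀ A : ValuationSubring Qb, A.LiesOverPrime ℓ →
      A.valuation (algebraMap ℚ Qb t) = 1) : t ^ 2 = 1 := by
  have hnum : t.num.natAbs = 1 := by
    by_contra hne
    obtain ⟨ℓ, hℓ, hdvd⟩ := Nat.exists_prime_and_dvd hne
    obtain ⟨A, hA⟩ := Fermat.Agent.S54.exists_valuationSubring_liesOver ℓ hℓ
    have h1 := h ℓ hℓ A hA
    rw [val_rat_eq] at h1
    have hn : A.valuation ((t.num : ℤ) : Qb) < 1 :=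
      val_lt_one_of_dvd hA (Int.natCast_dvd.mpr hdvd)
    have hd : A.valuation ((t.den : ℤ) : Qb) = 1 := by
      apply Fermat.Agent.S13.H64.valuation_intCast_eq_one A ℓ hℓ hA
      intro hd
      have h2 : ℓ ∣ t.den := Int.natCast_dvd_natCast.mp hd
      have := Nat.dvd_gcd hdvd h2
      rw [t.reduced] at this
      exact hℓ.one_lt.ne' (Nat.dvd_one.mp this)
    rw [hd, div_one] at h1
    exact hn.ne h1
  have hden : t.den = 1 := by
    by_contra hne
    obtain ⟨ℓ, hℓ, hdvd⟩ := Nat.exists_prime_and_dvd hne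
    obtain ⟨A, hA⟩ := Fermat.Agent.S54.exists_valuationSubring_liesOver ℓ hℓ
    have h1 := h ℓ hℓ A hA
    rw [val_rat_eq] at h1
    have hd : A.valuation ((t.den : ℤ) : Qb) < 1 :=
      val_lt_one_of_dvd hA (Int.natCast_dvd_natCast.mpr hdvd)
    have hn : A.valuation ((t.num : ℤ) : Qb) = 1 := by
      apply Fermat.Agent.S13.H64.valuation_intCast_eq_one A ℓ hℓ hA
      intro hn
      have h2 : ℓ ∣ t.num.natAbs := Int.natCast_dvd.mp hn
      have := Nat.dvd_gcd h2 hdvd
      rw [t.reduced] at this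
      exact hℓ.one_lt.ne' (Nat.dvd_one.mp this)
    rw [hn] at h1
    have hd0 : A.valuation ((t.den : ℤ) : Qb) ≠ 0 := by
      rw [Valuation.ne_zero_iff]
      have := t.den_pos
      exact_mod_cast this.ne'
    rw [div_eq_iff hd0, one_mul] at h1
    exact hd.ne h1.symm
  have ht : t = t.num := by
    conv_lhs => rw [← Rat.num_div_den t, hden]
    simp
  rw [ht]
  rcases Int.natAbs_eq t.num with h1 | h1
  · rw [h1, hnum]; norm_num
  · rw [h1, hnum]; norm_num

/-- Two nonzero rationals with the same valuation at every valuation subring of `ℚ̄` over a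
prime have the same square. -/
theorem sq_eq_sq_of_val_eq {q₁ q₂ : ℚ} (h₂ : q₂ ≠ 0)
    (h : ∀ (ℓ : ℕ), ℓ.Prime → ∀ A : ValuationSubring Qb, A.LiesOverPrime ℓ →
      A.valuation (algebraMap ℚ Qb q₁) = A.valuation (algebraMap ℚ Qb q₂)) : q₁ ^ 2 = q₂ ^ 2 := by
  have key := sq_eq_one_of_val_eq_one (q₁ / q₂) (fun ℓ hℓ A hA => by
    rw [map_div₀, map_div₀, h ℓ hℓ A hA]
    apply div_self
    rw [Valuation.ne_zero_iff]
    exact (map_ne_zero _).mpr h₂)
  rw [div_pow, div_eq_one_iff_eq (pow_ne_zero _ h₂)] at key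
  exact key

/-! ### The glue -/

theorem piRat_of_piVal (hV : PiValStatement) : PiRatStatement := by
  intro P hp N hstab hbot htop hcof
  obtain ⟨T₀, hT₀N, hT₀⟩ := (Submodule.ne_bot_iff N).mp hbot
  refine ⟨T₀, hT₀N, hT₀, ?_⟩
  have : NeZero P.p := ⟨P.hp0⟩
  have hord := addOrderOf_eq_of_mem_torsion T₀ hT₀
  have hp0 : P.p • (T₀ : FreyPt P) = 0 := nsmul_eq_zero_of_mem_torsion T₀
  have hinj : Function.Injective (zmodHom (T₀ : FreyPt P) hp0) := zmodHom_injective hord
  obtain ⟨r₁, hr₁⟩ := piProd_rational P N hstab htop T₀ hT₀N hT₀ 0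
  obtain ⟨r₂, hr₂⟩ := piProd_rational P N hstab htop T₀ hT₀N hT₀ ((P.a : ℚ) ^ P.p / 4)
  obtain ⟨r₃, hr₃⟩ := piProd_rational P N hstab htop T₀ hT₀N hT₀ (-((P.b : ℚ) ^ P.p) / 4)
  rw [_root_.map_zero] at hr₁
  have hne₁ : piProd (T₀ : FreyPt P) P.p 0 ≠ 0 := by
    rw [← piP_zmodHom (T₀ : FreyPt P) hp0]
    exact piP_ne_zero hinj P.hp_odd (frey_fullTwo P).swap12
  have hne₂ : piProd (T₀ : FreyPt P) P.p (eps₂ P) ≠ 0 := by
    rw [← piP_zmodHom (T₀ : FreyPt P) hp0]
    exact piP_ne_zero hinj P.hp_odd (frey_fullTwo P).rot'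
  have hq₁ : r₁ ≠ 0 := by
    rintro rfl
    exact hne₁ (by rw [← hr₁, _root_.map_zero])
  have hq₂ : r₂ ≠ 0 := by
    rintro rfl
    apply hne₂
    rw [eps₂, ← hr₂, _root_.map_zero]
  refine ⟨r₁, r₂, r₃, hq₁, hr₁.symm, hr₂.symm, hr₃.symm, ?_, ?_⟩
  · apply sq_eq_sq_of_val_eq hq₁
    intro ℓ hℓ A hA
    have := (hV P hp N hstab hbot htop hcof T₀ hT₀N hT₀ ℓ hℓ A hA).1
    rw [hr₃, hr₁]
    exact this
  · have h16 : (16 : ℚ) ^ (P.p - 1) * r₂ ^ 2 = (4 ^ (P.p - 1) * r₂) ^ 2 := by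
      rw [mul_pow, ← pow_mul, mul_comm (P.p - 1) 2, pow_mul]
      norm_num
    rw [h16]
    apply sq_eq_sq_of_val_eq (mul_ne_zero (pow_ne_zero _ (by norm_num)) hq₂)
    intro ℓ hℓ A hA
    have := (hV P hp N hstab hbot htop hcof T₀ hT₀N hT₀ ℓ hℓ A hA).2
    rw [map_mul, map_mul, map_pow, map_pow, hr₁, hr₂]
    have h4 : (algebraMap ℚ Qb) 4 = (4 : Qb) := by simp
    rw [h4]
    exact this

/-- **Row S12, one-step route**: frozen S12 from the local node `PiValStatement`. -/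
theorem s12_of_piVal (hV : PiValStatement) (P : FreyPackage) (hp : 17 ≤ P.p) :
    ¬ HasGaloisStableCofixedLine (K := AlgebraicClosure ℚ) ℚ P.freyCurve P.p :=
  s12_of_piRat (piRat_of_piVal hV) P hp

end Fermat.Agent.S12.H291

end
end
-- ===== PACK-END S12/H291/PiRat.lean

-- ===== PACK-BEGIN S12/H291/Local.lean
section



/-!
# S12 one-step route: the four LOCAL leaves and the final glue (helper291)

For a cofixed line `N` of the Frey curve, a nonzero `T ∈ N`, a prime `ℓ` and a valuation subring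
`A` of `ℚ̄` over `ℓ`, the **term statement** is

  `v_A(x_T - ε₃) = v_A(x_T)`  and  `v_A(x_T) = v_A(4) · v_A(x_T - ε₂)`        (`TermAt`)

(`ε₂ = a^p/4`, `ε₃ = -b^p/4`).  It holds
* at `ℓ = 2`      because `N` is the toric line there (`x_T` is a unit, `v(ε₂) = v(4)⁻¹`, `v(ε₃) < 1`);
* at `ℓ = p`      because `N` lies in the kernel of reduction (`v(x_T) > 1`);
* at good `ℓ`     because `T`, `T ± E_j` have order prime to `ℓ` (all three differences are units);
* at bad odd `ℓ ≠ p` because `N` is the toric line — THIS is where frozen S15 is used.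

`s12_of_leaves : S15Statement → Loc2 → LocP → LocGood → LocBad → frozen S12`, sorry-free.
-/

set_option autoImplicit false
set_option linter.unusedSectionVars false

noncomputable section

open WeierstrassCurve WeierstrassCurve.Affine WeierstrassCurve.Affine.Point

namespace Fermat.Agent.S12.H291

/-- The frozen statement S15 (Mazur's Step 3), as a proposition. -/
def S15Statement : Prop :=
  ∀ {p : ℕ} (_ : p.Prime) (_ : p ∉ ({2, 3, 5, 7, 13} : Finset ℕ))
    (W : WeierstrassCurve ℤ) (_ : W.Δ ≠ 0)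
    (Q : ((W.map (Int.castRingHom ℚ))⁄(AlgebraicClosure ℚ)).Point)
    (_ : ∀ σ : AlgebraicClosure ℚ ≃ₐ[ℚ] AlgebraicClosure ℚ, σ • Q = Q)
    (_ : addOrderOf Q = p)
    (_ : (2 : ℤ) ∣ W.Δ) (_ : ¬ (2 : ℤ) ∣ W.c₄)
    (_ : ∀ A : ValuationSubring (AlgebraicClosure ℚ), A.LiesOverPrime 2 →
      ¬ W.InZeroComponentAt A Q)
    (_ : (3 : ℤ) ∣ W.Δ) (_ : ¬ (3 : ℤ) ∣ W.c₄)
    (_ : ∀ A : ValuationSubring (AlgebraicClosure ℚ), A.LiesOverPrime 3 →
      ¬ W.InZeroComponentAt A Q)
    {ℓ : ℕ} (_ : ℓ.Prime) (_ : ℓ ≠ p) (_ : (ℓ : ℤ) ∣ W.Δ) (_ : ¬ (ℓ : ℤ) ∣ W.c₄)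
    (A : ValuationSubring (AlgebraicClosure ℚ)) (_ : A.LiesOverPrime ℓ),
    ¬ W.InZeroComponentAt A Q

/-- The term statement at `A` for the point `T`. -/
def TermAt (P : FreyPackage) (A : ValuationSubring Qb) (T : FreyPt P) : Prop :=
  A.valuation (xc T - eps₃ P) = A.valuation (xc T - 0) ∧
    A.valuation (xc T - 0) = A.valuation (4 : Qb) * A.valuation (xc T - eps₂ P)

/-- The hypotheses on the line `N`: a cofixed line of the Frey representation. -/
structure IsCofixedLine (P : FreyPackage)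
    (N : Submodule (ZMod P.p) (Submodule.torsionBy ℤ (FreyPt P) P.p)) : Prop where
  stable : IsGaloisStable (K := Qb) ℚ N
  ne_bot : N ≠ ⊥
  ne_top : N ≠ ⊤
  cofixed : ∀ σ : Qb ≃ₐ[ℚ] Qb, ∀ x : Submodule.torsionBy ℤ (FreyPt P) P.p, σ • x - x ∈ N

/-- **LEAF Loc2**: the term statement at `ℓ = 2`. -/
def Loc2Statement : Prop :=
  ∀ (P : FreyPackage), 17 ≤ P.p →
    ∀ N : Submodule (ZMod P.p) (Submodule.torsionBy ℤ (FreyPt P) P.p), IsCofixedLine P N →
    ∀ T : Submodule.torsionBy ℤ (FreyPt P) P.p, T ∈ N → T ≠ 0 →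
    ∀ A : ValuationSubring Qb, A.LiesOverPrime 2 → TermAt P A (T : FreyPt P)

/-- **LEAF LocP**: the term statement at `ℓ = p`. -/
def LocPStatement : Prop :=
  ∀ (P : FreyPackage), 17 ≤ P.p →
    ∀ N : Submodule (ZMod P.p) (Submodule.torsionBy ℤ (FreyPt P) P.p), IsCofixedLine P N →
    ∀ T : Submodule.torsionBy ℤ (FreyPt P) P.p, T ∈ N → T ≠ 0 →
    ∀ A : ValuationSubring Qb, A.LiesOverPrime P.p → TermAt P A (T : FreyPt P)

/-- **LEAF LocGood**: the term statement at the primes `ℓ ∤ 2·p·abc`. -/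
def LocGoodStatement : Prop :=
  ∀ (P : FreyPackage), 17 ≤ P.p →
    ∀ N : Submodule (ZMod P.p) (Submodule.torsionBy ℤ (FreyPt P) P.p), IsCofixedLine P N →
    ∀ T : Submodule.torsionBy ℤ (FreyPt P) P.p, T ∈ N → T ≠ 0 →
    ∀ (ℓ : ℕ), ℓ.Prime → ℓ ≠ 2 → ℓ ≠ P.p → ¬ (ℓ : ℤ) ∣ P.a * P.b * P.c →
    ∀ A : ValuationSubring Qb, A.LiesOverPrime ℓ → TermAt P A (T : FreyPt P)

/-- **LEAF LocBad** (the only place where frozen S15 is used): the term statement at the odd
primes `ℓ ≠ p` dividing `abc`. -/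
def LocBadStatement : Prop :=
  S15Statement →
  ∀ (P : FreyPackage), 17 ≤ P.p →
    ∀ N : Submodule (ZMod P.p) (Submodule.torsionBy ℤ (FreyPt P) P.p), IsCofixedLine P N →
    ∀ T : Submodule.torsionBy ℤ (FreyPt P) P.p, T ∈ N → T ≠ 0 →
    ∀ (ℓ : ℕ), ℓ.Prime → ℓ ≠ 2 → ℓ ≠ P.p → (ℓ : ℤ) ∣ P.a * P.b * P.c →
    ∀ A : ValuationSubring Qb, A.LiesOverPrime ℓ → TermAt P A (T : FreyPt P)

/-- The local node `PiValStatement` from the term statement at every `A`. -/
theorem piVal_of_termAt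
    (h : ∀ (P : FreyPackage), 17 ≤ P.p →
      ∀ N : Submodule (ZMod P.p) (Submodule.torsionBy ℤ (FreyPt P) P.p), IsCofixedLine P N →
      ∀ T : Submodule.torsionBy ℤ (FreyPt P) P.p, T ∈ N → T ≠ 0 →
      ∀ (ℓ : ℕ), ℓ.Prime → ∀ A : ValuationSubring Qb, A.LiesOverPrime ℓ →
        TermAt P A (T : FreyPt P)) : PiValStatement := by
  intro P hp N hstab hbot htop hcof T₀ hT₀N hT₀ ℓ hℓ A hA
  have hN : IsCofixedLine P N := ⟨hstab, hbot, htop, hcof⟩
  have hord := addOrderOf_eq_of_mem_torsion T₀ hT₀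
  have hterm : ∀ k ∈ Finset.Ico 1 P.p, TermAt P A (k • (T₀ : FreyPt P)) := by
    intro k hk
    rw [Finset.mem_Ico] at hk
    have hkN : k • T₀ ∈ N := N.nsmul_mem hT₀N k
    have hk0 : k • T₀ ≠ 0 := by
      intro h0
      have h1 : k • (T₀ : FreyPt P) = 0 := by
        have := congrArg Subtype.val h0
        exact this
      have h2 := addOrderOf_dvd_of_nsmul_eq_zero h1
      rw [hord] at h2
      have := Nat.le_of_dvd (by omega) h2
      omega
    exact h P hp N hN (k • T₀) hkN hk0 ℓ hℓ A hA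
  simp only [piProd, map_prod]
  refine ⟨Finset.prod_congr rfl fun k hk => (hterm k hk).1, ?_⟩
  have hcard : (Finset.Ico 1 P.p).card = P.p - 1 := by simp
  rw [← hcard, ← Finset.prod_const, ← Finset.prod_mul_distrib]
  exact Finset.prod_congr rfl fun k hk => (hterm k hk).2

/-- **Row S12, one-step route, FINAL GLUE**: frozen S12 from frozen S15 and the four local
leaves. -/
theorem s12_of_leaves (hS15 : S15Statement) (h2 : Loc2Statement) (hP : LocPStatement)
    (hG : LocGoodStatement) (hB : LocBadStatement) (P : FreyPackage) (hp : 17 ≤ P.p) :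
    ¬ HasGaloisStableCofixedLine (K := AlgebraicClosure ℚ) ℚ P.freyCurve P.p := by
  refine s12_of_piVal (piVal_of_termAt ?_) P hp
  intro P hp N hN T hTN hT ℓ hℓ A hA
  by_cases hℓ2 : ℓ = 2
  · subst hℓ2
    exact h2 P hp N hN T hTN hT A hA
  by_cases hℓp : ℓ = P.p
  · subst hℓp
    exact hP P hp N hN T hTN hT A hA
  by_cases hdvd : (ℓ : ℤ) ∣ P.a * P.b * P.c
  · exact hB hS15 P hp N hN T hTN hT ℓ hℓ hℓ2 hℓp hdvd A hA
  · exact hG P hp N hN T hTN hT ℓ hℓ hℓ2 hℓp hdvd A hA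

end Fermat.Agent.S12.H291

end
end
-- ===== PACK-END S12/H291/Local.lean

-- ===== PACK-BEGIN S13/H365/NodeInertia.lean
section


/-!
# Inertia acts unipotently on the odd torsion of a curve with nodal reduction

Abstract form of (T4): `K` a valued field, `W` an integral Weierstrass curve with a node
at `(e, f)` (a `NodeModel`), `σ` a field endomorphism acting trivially on the residue field
(`v z ≤ 1 → v (σ z - z) < 1`), `τ` the induced action on points.  Then for every `n`-torsion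
point `P` (`n` odd, the kernel of reduction without `n`-torsion), `τ (τ P - P) = τ P - P`.
No hypothesis on `v 2`.
-/

set_option autoImplicit false
set_option linter.unusedSectionVars false
set_option linter.unusedVariables false

namespace Fermat.Agent.S13.H365

open WeierstrassCurve WeierstrassCurve.Affine
open Fermat.Agent.S05.Comp (cls CompGroup)
open Fermat.Agent.S05.SameRed
open Fermat.Agent.S05.Assemble (KerTorsionFree val_y_le_one val_x_le_one_of_torsion)

variable {K : Type*} [Field K] [DecidableEq K] {Γ₀ : Type*} [LinearOrderedCommGroupWithZero Γ₀]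
  {v : Valuation K Γ₀} {W : Affine K}

section sigma

variable {σ : K →+* K} (hres : ∀ z, v z ≤ 1 → v (σ z - z) < 1)
include hres

lemma val_sigma_le_one {z : K} (hz : v z ≤ 1) : v (σ z) ≤ 1 := by
  have : σ z = z + (σ z - z) := by ring
  rw [this]; exact val_add_le_one hz (hres z hz).le

lemma val_sigma_lt_one {z : K} (hz : v z < 1) : v (σ z) < 1 := by
  have : σ z = z + (σ z - z) := by ring
  rw [this]; exact val_add_lt_one hz (hres z hz.le)

lemma val_sigma_eq_one {z : K} (hz : v z = 1) : v (σ z) = 1 := by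
  have : σ z = z + (σ z - z) := by ring
  rw [this, v.map_add_eq_of_lt_left (by rw [hz]; exact hres z hz.le), hz]

/-- Transfer of the branch condition. -/
lemma sign_sigma {γ ξ υ : K} (hγ : v γ ≤ 1) (hξ0 : ξ ≠ 0)
    (h : v (υ - γ * ξ) < v ξ) : v (σ υ - γ * σ ξ) < v (σ ξ) := by
  have hσξ0 : σ ξ ≠ 0 := (map_ne_zero σ).mpr hξ0
  have hpos : 0 < v ξ := (Valuation.pos_iff v).mpr hξ0
  have hpos' : 0 < v (σ ξ) := (Valuation.pos_iff v).mpr hσξ0
  have ht : v ((υ - γ * ξ) / ξ) < 1 := by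
    rw [map_div₀]; exact (div_lt_one₀ hpos).mpr h
  have ht' := val_sigma_lt_one hres ht
  rw [map_div₀, map_sub, map_mul, map_div₀, div_lt_one₀ hpos'] at ht'
  have hγ' : v ((σ γ - γ) * σ ξ) < v (σ ξ) := by
    rw [map_mul]
    exact mul_lt_of_lt_one_left hpos' (hres γ hγ)
  have : σ υ - γ * σ ξ = (σ υ - σ γ * σ ξ) + (σ γ - γ) * σ ξ := by ring
  rw [this]
  exact lt_of_le_of_lt (v.map_add _ _) (max_lt ht' hγ')

end sigma

namespace NodeModel

/-- **Step A**: the component of an odd torsion point is invariant under inertia. -/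
theorem comp_sigma (M : NodeModel v W) (he : v M.e ≤ 1)
    (hγ₁ : v M.γ₁ ≤ 1) (hγ₂ : v M.γ₂ ≤ 1)
    {σ : K →+* K} (hres : ∀ z, v z ≤ 1 → v (σ z - z) < 1)
    (hσe : σ M.e = M.e) (hσf : σ M.f = M.f) (hσa : σ M.a = M.a)
    {n : ℕ} (hn : Odd n) (hC1 : KerTorsionFree W v n) {x y : K}
    (h : W.Nonsingular x y) (hP : n • Point.some x y h = 0)
    (h' : W.Nonsingular (σ x) (σ y)) :
    M.comp (Point.some (σ x) (σ y) h') = M.comp (Point.some x y h) := by
  have hx : v x ≤ 1 := val_x_le_one_of_torsion hC1 h hP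
  have hξ : v (x - M.e) ≤ 1 := val_sub_le_one hx he
  have hσξ : σ x - M.e = σ (x - M.e) := by rw [map_sub, hσe]
  have hσυ : σ y - M.f = σ (y - M.f) := by rw [map_sub, hσf]
  rw [comp_some, comp_some, hσξ, hσυ]
  rcases le_or_gt 1 (v (x - M.e)) with hZ | hlt
  · have h1 : v (x - M.e) = 1 := le_antisymm hξ hZ
    rw [compN_of_Z hZ, compN_of_Z (val_sigma_eq_one hres h1).ge]
  · obtain ⟨hlo, j, hj⟩ := M.torsion_near_node hn h hP hlt
    have ha0 : v M.a ≠ 0 := (Valuation.ne_zero_iff v).mpr M.ha0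
    have hapos : 0 < v M.a := zero_lt_iff.mpr ha0
    have hξ0 : x - M.e ≠ 0 := (Valuation.ne_zero_iff v).mp (hapos.trans hlo).ne'
    -- `v (σ ξ) = v ξ`
    have hval : v (σ (x - M.e)) = v (x - M.e) := by
      have hu : v ((x - M.e) ^ n / M.a ^ (2 * j)) = 1 := by
        rw [map_div₀, map_pow, map_pow, hj]
        exact div_self (pow_ne_zero _ ha0)
      have hu' := val_sigma_eq_one hres hu
      rw [map_div₀, map_pow, map_pow, hσa, map_div₀, map_pow, map_pow,
        div_eq_one_iff_eq (pow_ne_zero _ ha0), ← hj] at hu'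
      exact (pow_left_inj hn.pos.ne').mp hu'
    have hlo' : v M.a < v (σ (x - M.e)) := by rw [hval]; exact hlo
    have hlt' : v (σ (x - M.e)) < 1 := by rw [hval]; exact hlt
    rcases _root_.Fermat.Agent.S13.H365.sign_exists ((M.equation_iff x y).mp h.1) hlo hlt with hP1 | hN1
    · rw [compN_of_P hlo hlt hP1, compN_of_P hlo' hlt' (sign_sigma hres hγ₁ hξ0 hP1), hval]
    · rw [compN_of_N M.hδ hlo hlt hN1,
        compN_of_N M.hδ hlo' hlt' (sign_sigma hres hγ₂ hξ0 hN1), hval]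

/-- **Step B**: a torsion point with nonsingular reduction is fixed by inertia. -/
theorem fixed_of_inE0 (M : NodeModel v W) (hW : IntegralCoeffs W v) (he : v M.e ≤ 1)
    {σ : K →+* K} (hres : ∀ z, v z ≤ 1 → v (σ z - z) < 1)
    (τ : W.Point →+ W.Point)
    (hτ : ∀ (x y : K) (h : W.Nonsingular x y),
      ∃ h' : W.Nonsingular (σ x) (σ y), τ (Point.some x y h) = Point.some (σ x) (σ y) h')
    {n : ℕ} (hC1 : KerTorsionFree W v n) (D : W.Point) (hD : n • D = 0) (hE0 : M.InE0 D) :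
    τ D = D := by
  rcases D with _ | ⟨x, y, h⟩
  · exact map_zero τ
  · have hx : v x ≤ 1 := val_x_le_one_of_torsion hC1 h hD
    have hy : v y ≤ 1 := val_y_le_one hW h.1 hx
    have hξ : v (x - M.e) = 1 := le_antisymm (val_sub_le_one hx he) hE0
    have hns := M.nonsingular_red hW h.1 hx hy hξ
    obtain ⟨h', hτD⟩ := hτ x y h
    have hker := inKer_sub_of_same_reduction hW h h' hx hy (val_sigma_le_one hres hx)
      (val_sigma_le_one hres hy) (by rw [Valuation.map_sub_swap]; exact hres x hx)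
      (by rw [Valuation.map_sub_swap]; exact hres y hy) hns
    have htors : n • (Point.some x y h - Point.some (σ x) (σ y) h') = 0 := by
      rw [smul_sub, hD, zero_sub, ← hτD, ← map_nsmul, hD, map_zero, neg_zero]
    have := hC1 _ hker htors
    rw [hτD]
    exact (sub_eq_zero.mp this).symm

/-- **(T4), abstract form**: inertia acts unipotently on the `n`-torsion. -/
theorem unipotent (M : NodeModel v W) (hW : IntegralCoeffs W v) (he : v M.e ≤ 1)
    {σ : K →+* K} (hres : ∀ z, v z ≤ 1 → v (σ z - z) < 1)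
    (hσe : σ M.e = M.e) (hσf : σ M.f = M.f) (hσa : σ M.a = M.a)
    (τ : W.Point →+ W.Point)
    (hτ : ∀ (x y : K) (h : W.Nonsingular x y),
      ∃ h' : W.Nonsingular (σ x) (σ y), τ (Point.some x y h) = Point.some (σ x) (σ y) h')
    {n : ℕ} (hn : Odd n) (hC1 : KerTorsionFree W v n) (P : W.Point) (hP : n • P = 0) :
    τ (τ P - P) = τ P - P := by
  apply M.fixed_of_inE0 hW he hres τ hτ hC1
  · rw [smul_sub, hP, sub_zero, ← map_nsmul, hP, map_zero]
  · apply M.inE0_sub_of_comp_eq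
    rcases P with _ | ⟨x, y, h⟩
    · have : τ (0 : W.Point) = 0 := map_zero τ
      change M.comp (τ 0) = M.comp 0
      rw [this]
    · obtain ⟨h', hτP⟩ := hτ x y h
      rw [hτP]
      exact M.comp_sigma he (M.val_γ₁_le_one hW he) (M.val_γ₂_le_one hW he) hres hσe hσf hσa
        hn hC1 h hP h'

end NodeModel

end Fermat.Agent.S13.H365

end
-- ===== PACK-END S13/H365/NodeInertia.lean

-- ===== PACK-BEGIN S13/H365/FreyTwo.lean
section





/-!
# (T4) for the Frey curve: inertia at `2` acts unipotently on `E[p]`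

For every valuation ring `A` of `ℚ̄` over `2` and every `σ` in its inertia group,
`(σ - 1)² = 0` on the `p`-torsion of the Frey curve.
-/

set_option autoImplicit false
set_option linter.unusedSectionVars false
set_option linter.unusedVariables false

namespace Fermat.Agent.S13.H365

open WeierstrassCurve WeierstrassCurve.Affine WeierstrassCurve.Affine.Point
open Fermat.Agent.S05.SameRed
open Fermat.Agent.S05.Assemble (Qb inertia_res val_int_le_one val_int_lt_one val_int_eq_one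
  val_nat_eq_one fA fB frey_a₁ frey_a₂ frey_a₃ frey_a₄ frey_a₆ val_p_eq_one KerTorsionFree
  fA_ne_zero fB_ne_zero sigma_int)

variable (P : FreyPackage)

/-- `a₂` of the Frey curve is an integer. -/
lemma frey_a₂_int : ∃ k : ℤ, (P.freyCurve⁄Qb).a₂ = (k : Qb) := by
  obtain ⟨k, hk⟩ := frey_exists_a₂ P
  refine ⟨k, ?_⟩
  rw [frey_a₂]
  have h : fB P - 1 - fA P = 4 * (k : Qb) := by
    simp only [fA, fB]
    exact_mod_cast congrArg (Int.cast : ℤ → Qb) hk
  rw [h]
  field_simp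

/-- `a₄` of the Frey curve is an even integer. -/
lemma frey_a₄_int : ∃ m : ℤ, (P.freyCurve⁄Qb).a₄ = ((2 * m : ℤ) : Qb) := by
  obtain ⟨m, hm⟩ := frey_exists_b_pow P
  refine ⟨-(P.a ^ P.p) * m, ?_⟩
  rw [frey_a₄]
  have h : fB P = 32 * (m : Qb) := by
    simp only [fB]
    exact_mod_cast congrArg (Int.cast : ℤ → Qb) hm
  rw [h]
  simp only [fA]
  push_cast
  ring

lemma frey_a₄_ne_zero : (P.freyCurve⁄Qb).a₄ ≠ 0 := by
  rw [frey_a₄]
  exact div_ne_zero (mul_ne_zero (neg_ne_zero.mpr (fA_ne_zero P)) (fB_ne_zero P)) (by norm_num)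

variable {A : ValuationSubring Qb}

/-- The Frey curve has integral coefficients at every valuation ring of `ℚ̄`. -/
lemma frey_integral_all : IntegralCoeffs (P.freyCurve⁄Qb) A.valuation := by
  obtain ⟨k, hk⟩ := frey_a₂_int P
  obtain ⟨m, hm⟩ := frey_a₄_int P
  refine ⟨?_, ?_, ?_, ?_, ?_⟩
  · rw [frey_a₁, map_one]
  · rw [hk]; exact val_int_le_one k
  · rw [frey_a₃, _root_.map_zero]; exact zero_le_one
  · rw [hm]; exact val_int_le_one _
  · rw [frey_a₆, _root_.map_zero]; exact zero_le_one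

lemma frey_val_a₄_lt_one (hA : A.LiesOverPrime 2) : A.valuation (P.freyCurve⁄Qb).a₄ < 1 := by
  obtain ⟨m, hm⟩ := frey_a₄_int P
  rw [hm]
  exact val_int_lt_one hA ⟨m, by push_cast; ring⟩

lemma frey_val_b₂_eq_one (hA : A.LiesOverPrime 2) : A.valuation (fB P - fA P) = 1 := by
  have h := val_int_eq_one hA Nat.prime_two (n := P.b ^ P.p - P.a ^ P.p)
    (by exact_mod_cast frey_b₂_odd P)
  have e : ((P.b ^ P.p - P.a ^ P.p : ℤ) : Qb) = fB P - fA P := by
    simp only [fA, fB]; push_cast; ring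
  rwa [e] at h

lemma sigma_frey_a₄ (σ : Qb ≃ₐ[ℚ] Qb) :
    (σ : Qb →+* Qb) (P.freyCurve⁄Qb).a₄ = (P.freyCurve⁄Qb).a₄ := by
  obtain ⟨m, hm⟩ := frey_a₄_int P
  rw [hm]
  exact sigma_int σ _

/-- The node model of the Frey curve at `2`: node at `(0, 0)`, tangent slopes the roots of
`t² + t - a₂`. -/
noncomputable def freyNode (hA : A.LiesOverPrime 2) (s : Qb) (hs : s ^ 2 = fB P - fA P) :
    NodeModel A.valuation (P.freyCurve⁄Qb) where
  e := 0
  f := 0
  γ₁ := (-1 + s) / 2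
  γ₂ := (-1 - s) / 2
  a := (P.freyCurve⁄Qb).a₄
  h2tors := by rw [frey_a₃]; ring
  hon := by rw [frey_a₆]; ring
  hsum := by rw [frey_a₁]; ring
  hprod := by
    rw [frey_a₂]
    have h2 : (2 : Qb) ≠ 0 := by norm_num
    have h4 : (4 : Qb) ≠ 0 := by norm_num
    field_simp
    linear_combination (-4 : Qb) * hs
  ha_def := by ring
  hδ := by
    have e : (-1 + s) / 2 - (-1 - s) / 2 = s := by ring
    rw [e]
    have h := frey_val_b₂_eq_one P hA
    rw [← hs, map_pow] at h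
    exact (pow_left_inj (n := 2) two_ne_zero).mp (by rw [h, one_pow])
  ha := frey_val_a₄_lt_one P hA
  ha0 := frey_a₄_ne_zero P

/-- **(T4)** for every valuation ring over `2`. -/
theorem inertia_two_unipotent (A : ValuationSubring Qb) (hA : A.LiesOverPrime 2)
    (σ : Qb ≃ₐ[ℚ] Qb) (hσ : σ ∈ A.inertiaSubgroupIn ℚ)
    (x : Submodule.torsionBy ℤ (P.freyCurve⁄Qb).Point P.p) :
    σ • (σ • x - x) = σ • x - x := by
  obtain ⟨pt, hpt⟩ := x
  apply Subtype.ext
  show Point.map (W' := P.freyCurve) σ.toAlgHom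
      (Point.map (W' := P.freyCurve) σ.toAlgHom pt - pt) =
    Point.map (W' := P.freyCurve) σ.toAlgHom pt - pt
  have hP : P.p • pt = 0 := by
    have := (Submodule.mem_torsionBy_iff _ _).mp hpt
    rwa [natCast_zsmul] at this
  have hW : IntegralCoeffs (P.freyCurve⁄Qb) A.valuation := frey_integral_all P
  have hp2 : (2 : ℕ) ≠ P.p := by have := P.hp5; omega
  have hp : A.valuation (P.p : Qb) = 1 := val_p_eq_one (P := P) hA Nat.prime_two hp2
  have hC1 : KerTorsionFree (P.freyCurve⁄Qb) A.valuation P.p := fun Q hQ hQ0 =>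
    Fermat.Agent.S05.C1b.eq_zero_of_inKer_of_nsmul_eq_zero hW P.p hp Q hQ hQ0
  have hres := inertia_res A hσ
  have hτ : ∀ (x y : Qb) (h : (P.freyCurve⁄Qb).Nonsingular x y),
      ∃ h' : (P.freyCurve⁄Qb).Nonsingular ((σ : Qb →+* Qb) x) ((σ : Qb →+* Qb) y),
        Point.map (W' := P.freyCurve) σ.toAlgHom (Point.some x y h) =
          Point.some ((σ : Qb →+* Qb) x) ((σ : Qb →+* Qb) y) h' := by
    intro x y h
    exact ⟨_, Point.map_some (W' := P.freyCurve) σ.toAlgHom h⟩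
  obtain ⟨s, hs⟩ := IsAlgClosed.exists_pow_nat_eq (fB P - fA P) (n := 2) (by norm_num)
  have h0 : A.valuation (0 : Qb) ≤ 1 := by rw [_root_.map_zero]; exact zero_le_one
  exact (freyNode P hA s hs).unipotent hW h0 (σ := (σ : Qb →+* Qb)) hres
    (_root_.map_zero _) (_root_.map_zero _) (sigma_frey_a₄ P σ) _ hτ P.hp_odd hC1 pt hP

end Fermat.Agent.S13.H365

end
-- ===== PACK-END S13/H365/FreyTwo.lean

-- ===== PACK-BEGIN S13/H164/Torsion.lean
section




/-!
# S13 / T1 (helper164): odd torsion of a Weierstrass curve via the `x`-ladder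

For `n = 2m+1` we get a polynomial `Qpoly W m ∈ R[X]` (functorial in the coefficient ring `R`),
of degree `≤ (n² - 1)/2 = 2m² + 2m` with coefficient `n` in that degree, such that for every
nonsingular affine point `P = (x, y)` over a field: `n • P = 0 ↔ Qpoly(x) = 0`.

Consequences over an algebraically closed field in which `n ≠ 0` (and `Δ ≠ 0` for existence):
a nonzero point killed by `n` exists, and there are at most `n²` points killed by `n`.
-/

set_option autoImplicit false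

namespace Fermat.Agent.S13.H164

open Polynomial WeierstrassCurve

section Ring

variable {R : Type*} [CommRing R]

/-- The `x`-ladder division polynomial for `n = 2m + 1`. -/
noncomputable def Qpoly (W : WeierstrassCurve R) (m : ℕ) : R[X] :=
  ladQ W.b₂ W.b₄ W.b₆ W.b₈ m

lemma ringHom_ladP {S : Type*} [CommRing S] (φ : R[X] →+* S) (b₂ b₄ b₆ b₈ : R) (n : ℕ) :
    lad (φ (C b₂)) (φ (C b₄)) (φ (C b₆)) (φ (C b₈)) (φ X) n =
      (φ (ladP b₂ b₄ b₆ b₈ n).1, φ (ladP b₂ b₄ b₆ b₈ n).2) :=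
  map_lad (C b₂) (C b₄) (C b₆) (C b₈) X φ n

lemma ringHom_ladQ {S : Type*} [CommRing S] (φ : R[X] →+* S) (b₂ b₄ b₆ b₈ : R) (m : ℕ) :
    φ (ladQ b₂ b₄ b₆ b₈ m) =
      oW (lad (φ (C b₂)) (φ (C b₄)) (φ (C b₆)) (φ (C b₈)) (φ X) m).1
        (lad (φ (C b₂)) (φ (C b₄)) (φ (C b₆)) (φ (C b₈)) (φ X) m).2
        (lad (φ (C b₂)) (φ (C b₄)) (φ (C b₆)) (φ (C b₈)) (φ X) (m + 1)).1
        (lad (φ (C b₂)) (φ (C b₄)) (φ (C b₆)) (φ (C b₈)) (φ X) (m + 1)).2 := by
  rw [ringHom_ladP, ringHom_ladP]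
  simp only [ladQ, oW, map_sub, map_mul]

/-- Evaluating `Qpoly` along a ring homomorphism. -/
lemma eval₂_Qpoly {S : Type*} [CommRing S] (f : R →+* S) (W : WeierstrassCurve R) (m : ℕ) (x : S) :
    (Qpoly W m).eval₂ f x =
      oW (lad (W.map f).b₂ (W.map f).b₄ (W.map f).b₆ (W.map f).b₈ x m).1
        (lad (W.map f).b₂ (W.map f).b₄ (W.map f).b₆ (W.map f).b₈ x m).2
        (lad (W.map f).b₂ (W.map f).b₄ (W.map f).b₆ (W.map f).b₈ x (m + 1)).1
        (lad (W.map f).b₂ (W.map f).b₄ (W.map f).b₆ (W.map f).b₈ x (m + 1)).2 := by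
  have := ringHom_ladQ (eval₂RingHom f x) W.b₂ W.b₄ W.b₆ W.b₈ m
  simp only [coe_eval₂RingHom, eval₂_C, eval₂_X] at this
  rw [Qpoly, this, WeierstrassCurve.map_b₂, WeierstrassCurve.map_b₄, WeierstrassCurve.map_b₆,
    WeierstrassCurve.map_b₈]

lemma eval_Qpoly (W : WeierstrassCurve R) (m : ℕ) (x : R) :
    (Qpoly W m).eval x =
      oW (lad W.b₂ W.b₄ W.b₆ W.b₈ x m).1 (lad W.b₂ W.b₄ W.b₆ W.b₈ x m).2
        (lad W.b₂ W.b₄ W.b₆ W.b₈ x (m + 1)).1 (lad W.b₂ W.b₄ W.b₆ W.b₈ x (m + 1)).2 := by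
  have := ringHom_ladQ (evalRingHom x) W.b₂ W.b₄ W.b₆ W.b₈ m
  simp only [coe_evalRingHom, eval_C, eval_X] at this
  rw [Qpoly, this]

/-- `Qpoly` is functorial in the coefficient ring. -/
lemma map_Qpoly {S : Type*} [CommRing S] (f : R →+* S) (W : WeierstrassCurve R) (m : ℕ) :
    (Qpoly W m).map f = Qpoly (W.map f) m := by
  have := ringHom_ladQ (mapRingHom f) W.b₂ W.b₄ W.b₆ W.b₈ m
  simp only [coe_mapRingHom, map_C, map_X] at this
  rw [Qpoly, this, Qpoly, ladQ, WeierstrassCurve.map_b₂, WeierstrassCurve.map_b₄,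
    WeierstrassCurve.map_b₆, WeierstrassCurve.map_b₈]
  rfl

lemma lead_Qpoly (W : WeierstrassCurve R) (m : ℕ) :
    Lead (Qpoly W m) (2 * m * m + 2 * m) ((2 * m + 1 : ℕ) : R) :=
  lead_ladQ W.b₂ W.b₄ W.b₆ W.b₈ m

lemma natDegree_Qpoly_le (W : WeierstrassCurve R) (m : ℕ) :
    (Qpoly W m).natDegree ≤ 2 * m * m + 2 * m := (lead_Qpoly W m).1

lemma coeff_Qpoly (W : WeierstrassCurve R) (m : ℕ) :
    (Qpoly W m).coeff (2 * m * m + 2 * m) = ((2 * m + 1 : ℕ) : R) := (lead_Qpoly W m).2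

lemma natDegree_Qpoly (W : WeierstrassCurve R) (m : ℕ) (h : ((2 * m + 1 : ℕ) : R) ≠ 0) :
    (Qpoly W m).natDegree = 2 * m * m + 2 * m := by
  refine le_antisymm (natDegree_Qpoly_le W m) ?_
  apply le_natDegree_of_ne_zero
  rw [coeff_Qpoly]; exact h

lemma leadingCoeff_Qpoly (W : WeierstrassCurve R) (m : ℕ) (h : ((2 * m + 1 : ℕ) : R) ≠ 0) :
    (Qpoly W m).leadingCoeff = ((2 * m + 1 : ℕ) : R) := by
  rw [leadingCoeff, natDegree_Qpoly W m h, coeff_Qpoly]

lemma Qpoly_ne_zero (W : WeierstrassCurve R) (m : ℕ) (h : ((2 * m + 1 : ℕ) : R) ≠ 0) :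
    Qpoly W m ≠ 0 := by
  intro h0
  have := coeff_Qpoly W m
  rw [h0, coeff_zero] at this
  exact h this.symm

end Ring

section Field

variable {F : Type*} [Field F] [DecidableEq F] (W : WeierstrassCurve.Affine F)

/-- **Torsion criterion**: `(2m+1) • P = 0 ↔ Qpoly(x(P)) = 0`. -/
theorem odd_nsmul_eq_zero_iff_eval {x y : F} (hP : W.Nonsingular x y) (m : ℕ) :
    (2 * m + 1) • Affine.Point.some x y hP = 0 ↔ (Qpoly W m).eval x = 0 := by
  rw [odd_nsmul_eq_zero_iff, eval_Qpoly]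

/-- Version for a curve defined over a subring: the polynomial has coefficients in `R`. -/
theorem odd_nsmul_eq_zero_iff_eval₂ {R : Type*} [CommRing R] (f : R →+* F)
    (W₀ : WeierstrassCurve R) {x y : F} (hP : (W₀.map f).toAffine.Nonsingular x y) (m : ℕ) :
    (2 * m + 1) • Affine.Point.some x y hP = 0 ↔ (Qpoly W₀ m).eval₂ f x = 0 := by
  rw [odd_nsmul_eq_zero_iff, eval₂_Qpoly]

lemma mem_torsionBy_iff_nsmul' {n : ℕ} (P : W.Point) :
    P ∈ Submodule.torsionBy ℤ W.Point n ↔ n • P = 0 := by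
  rw [Submodule.mem_torsionBy_iff, Nat.cast_smul_eq_nsmul]

open Fermat.Agent.S51.H780 in
/-- There are at most `n²` points killed by an odd `n = 2m+1` which is nonzero in `F`. -/
theorem finite_card_odd_torsion (m : ℕ) (h : ((2 * m + 1 : ℕ) : F) ≠ 0) :
    Finite (Submodule.torsionBy ℤ W.Point ((2 * m + 1 : ℕ) : ℤ)) ∧
      Nat.card (Submodule.torsionBy ℤ W.Point ((2 * m + 1 : ℕ) : ℤ)) ≤ (2 * m + 1) ^ 2 := by
  have key := finite_and_ncard_le_of_xc_roots W
    (Submodule.torsionBy ℤ W.Point ((2 * m + 1 : ℕ) : ℤ) : Set W.Point) (Qpoly W m)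
    (Qpoly_ne_zero W m h) (by
      intro P hP hP0
      match P, hP, hP0 with
      | .zero, _, hP0 => exact absurd rfl hP0
      | .some x y hxy, hP, _ =>
        rw [xc_some]
        exact (odd_nsmul_eq_zero_iff_eval W hxy m).mp ((mem_torsionBy_iff_nsmul' W _).mp hP))
  refine ⟨key.1.to_subtype, ?_⟩
  have hdeg := natDegree_Qpoly_le W m
  have e : Nat.card (Submodule.torsionBy ℤ W.Point ((2 * m + 1 : ℕ) : ℤ)) =
      (Submodule.torsionBy ℤ W.Point ((2 * m + 1 : ℕ) : ℤ) : Set W.Point).ncard := rfl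
  rw [e]
  calc _ ≤ 2 * (Qpoly W m).natDegree + 1 := key.2
    _ ≤ 2 * (2 * m * m + 2 * m) + 1 := by omega
    _ = (2 * m + 1) ^ 2 := by ring

open Fermat.Agent.S51.H780 in
/-- Over an algebraically closed field, a nonzero point killed by `n = 2m+1 ≥ 3` exists. -/
theorem exists_odd_torsion [IsAlgClosed F] (hΔ : W.Δ ≠ 0) (m : ℕ) (hm : 1 ≤ m)
    (h : ((2 * m + 1 : ℕ) : F) ≠ 0) :
    ∃ P : W.Point, P ≠ 0 ∧ (2 * m + 1) • P = 0 := by
  obtain ⟨x, hx⟩ := IsAlgClosed.exists_root (Qpoly W m) (by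
    rw [Polynomial.degree_eq_natDegree (Qpoly_ne_zero W m h), natDegree_Qpoly W m h]
    have : 0 < 2 * m * m + 2 * m := by positivity
    exact_mod_cast this.ne')
  obtain ⟨y, hy⟩ := IsAlgClosed.exists_root (yPoly W x) (by
    rw [Polynomial.degree_eq_natDegree (yPoly_ne_zero W x), yPoly_natDegree]; norm_num)
  have he : W.Equation x y := (yPoly_eval W).mp hy
  have hns : W.Nonsingular x y := (Affine.equation_iff_nonsingular_of_Δ_ne_zero hΔ).mp he
  exact ⟨Affine.Point.some x y hns, Affine.Point.some_ne_zero hns,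
    (odd_nsmul_eq_zero_iff_eval W hns m).mpr hx⟩

/-- `E[n]` is nontrivial for odd `n ≥ 3` invertible in an algebraically closed field. -/
theorem nontrivial_odd_torsion [IsAlgClosed F] (hΔ : W.Δ ≠ 0) (n : ℕ) (hn : Odd n) (hn3 : 3 ≤ n)
    (h : (n : F) ≠ 0) : Nontrivial (Submodule.torsionBy ℤ W.Point (n : ℤ)) := by
  obtain ⟨m, rfl⟩ := hn
  obtain ⟨P, hP0, hP⟩ := exists_odd_torsion W hΔ m (by omega) h
  refine ⟨⟨⟨P, (mem_torsionBy_iff_nsmul' W P).mpr hP⟩, 0, ?_⟩⟩
  intro h0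
  exact hP0 (congrArg Subtype.val h0)

/-- `#E[n] ≤ n²` for odd `n` invertible in the field. -/
theorem finite_card_torsion_of_odd (n : ℕ) (hn : Odd n) (h : (n : F) ≠ 0) :
    Finite (Submodule.torsionBy ℤ W.Point (n : ℤ)) ∧
      Nat.card (Submodule.torsionBy ℤ W.Point (n : ℤ)) ≤ n ^ 2 := by
  obtain ⟨m, rfl⟩ := hn
  exact finite_card_odd_torsion W m h

end Field

end Fermat.Agent.S13.H164

end
-- ===== PACK-END S13/H164/Torsion.lean

-- ===== PACK-BEGIN S13/H164/Frey.lean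
section



/-!
# S13 / T1 (helper164): the `p`-torsion of the Frey curve

Specialisation of the ladder results to `P.freyCurve` over any algebraically closed field `K`
with an `Algebra ℚ K` structure (in particular `AlgebraicClosure ℚ`, with whatever instances the
frozen statement uses).

Main results (`V := Submodule.torsionBy ℤ (P.freyCurve⁄K).Point P.p`):
* `frey_nontrivial_torsion : Nontrivial V`
* `frey_finite_card_torsion : Finite V ∧ Nat.card V ≤ P.p ^ 2`
* `freyQ P : ℤ[X]` with `leadingCoeff = p`, `natDegree = (p² - 1) / 2` and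
  `P.p • (x, y) = 0 ↔ aeval x (freyQ P) = 0`.
-/

set_option autoImplicit false

namespace Fermat.Agent.S13.H164

open Polynomial WeierstrassCurve
open scoped WeierstrassCurve.Affine

variable (P : FreyPackage)

lemma frey_four_dvd : (4 : ℤ) ∣ P.b ^ P.p - 1 - P.a ^ P.p := by
  have hp := P.hp5
  have hb : (2 : ℤ) ∣ P.b := (ZMod.intCast_zmod_eq_zero_iff_dvd P.b 2).1 P.hb2
  have hb4 : (4 : ℤ) ∣ P.b ^ P.p := by
    obtain ⟨k, hk⟩ := hb
    obtain ⟨j, hj⟩ : ∃ j, P.p = j + 2 := ⟨P.p - 2, by omega⟩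
    have : P.b ^ P.p = 4 * (2 ^ j * k ^ P.p) := by
      rw [hk, hj]
      ring
    exact ⟨_, this⟩
  have ha : ((P.a ^ P.p : ℤ) : ZMod 4) = 3 := by
    push_cast
    rw [P.ha4]
    obtain ⟨m, hm⟩ := P.hp_odd
    rw [hm, pow_succ, pow_mul]
    have : (3 : ZMod 4) ^ 2 = 1 := by decide
    rw [this, one_pow, one_mul]
  have hb' : ((P.b ^ P.p : ℤ) : ZMod 4) = 0 :=
    (ZMod.intCast_zmod_eq_zero_iff_dvd _ 4).2 hb4
  apply (ZMod.intCast_zmod_eq_zero_iff_dvd _ 4).1
  push_cast at ha hb' ⊢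
  rw [ha, hb']
  decide

lemma frey_sixteen_dvd : (16 : ℤ) ∣ -(P.a ^ P.p) * P.b ^ P.p := by
  have hp := P.hp5
  have hb : (2 : ℤ) ∣ P.b := (ZMod.intCast_zmod_eq_zero_iff_dvd P.b 2).1 P.hb2
  obtain ⟨k, hk⟩ := hb
  obtain ⟨j, hj⟩ : ∃ j, P.p = j + 4 := ⟨P.p - 4, by omega⟩
  have : -(P.a ^ P.p) * P.b ^ P.p = 16 * (-(P.a ^ P.p) * (2 ^ j * k ^ P.p)) := by
    rw [hk, hj]
    ring
  exact ⟨_, this⟩

/-- The Frey curve over `ℚ` is the base change of the integral Frey curve. -/
theorem freyCurve_eq_map : P.freyCurve = P.freyCurveInt.map (Int.castRingHom ℚ) := by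
  have h4 := frey_four_dvd P
  have h16 := frey_sixteen_dvd P
  ext
  · simp [FreyPackage.freyCurve, FreyPackage.freyCurveInt, WeierstrassCurve.map]
  · simp only [FreyPackage.freyCurve, FreyPackage.freyCurveInt, WeierstrassCurve.map,
      eq_intCast]
    rw [Int.cast_div h4 (by norm_num)]
    push_cast
    ring
  · simp [FreyPackage.freyCurve, FreyPackage.freyCurveInt, WeierstrassCurve.map]
  · simp only [FreyPackage.freyCurve, FreyPackage.freyCurveInt, WeierstrassCurve.map,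
      eq_intCast]
    rw [Int.cast_div h16 (by norm_num)]
    push_cast
    ring
  · simp [FreyPackage.freyCurve, FreyPackage.freyCurveInt, WeierstrassCurve.map]

/-- The discriminant of the Frey curve is `(abc)^{2p} / 2^8`. -/
theorem freyCurve_Δ : P.freyCurve.Δ = ((P.a * P.b * P.c : ℤ) : ℚ) ^ (2 * P.p) / 2 ^ 8 := by
  have hc : ((P.c : ℤ) : ℚ) ^ P.p = (P.a : ℚ) ^ P.p + (P.b : ℚ) ^ P.p := by
    have := congrArg (Int.cast : ℤ → ℚ) P.hFLT
    push_cast at this
    exact this.symm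
  simp only [WeierstrassCurve.Δ, WeierstrassCurve.b₂, WeierstrassCurve.b₄, WeierstrassCurve.b₆,
    WeierstrassCurve.b₈, FreyPackage.freyCurve]
  push_cast
  rw [pow_mul', mul_pow, mul_pow, hc]
  ring

theorem freyCurve_Δ_ne_zero : P.freyCurve.Δ ≠ 0 := by
  rw [freyCurve_Δ]
  have h := P.habc0
  have : ((P.a * P.b * P.c : ℤ) : ℚ) ≠ 0 := by exact_mod_cast h
  positivity

section BaseChange

variable {K : Type*} [Field K] [Algebra ℚ K]

theorem frey_baseChange_Δ_ne_zero : (P.freyCurve⁄K).Δ ≠ 0 := by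
  simp only [WeierstrassCurve.baseChange, WeierstrassCurve.map_Δ]
  exact (map_ne_zero_iff _ (algebraMap ℚ K).injective).mpr (freyCurve_Δ_ne_zero P)

lemma frey_charZero : CharZero K := charZero_of_injective_algebraMap (algebraMap ℚ K).injective

lemma frey_p_ne_zero : ((P.p : ℕ) : K) ≠ 0 := by
  have : CharZero K := frey_charZero
  exact Nat.cast_ne_zero.mpr P.hp0

variable [DecidableEq K]

/-- `E[p](K)` is nontrivial for the Frey curve. -/
theorem frey_nontrivial_torsion [IsAlgClosed K] :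
    Nontrivial (Submodule.torsionBy ℤ (P.freyCurve⁄K).Point P.p) :=
  nontrivial_odd_torsion (P.freyCurve⁄K).toAffine (frey_baseChange_Δ_ne_zero P) P.p P.hp_odd
    (le_trans (by norm_num) P.hp5) (frey_p_ne_zero P)

/-- `#E[p](K) ≤ p²` for the Frey curve. -/
theorem frey_finite_card_torsion :
    Finite (Submodule.torsionBy ℤ (P.freyCurve⁄K).Point P.p) ∧
      Nat.card (Submodule.torsionBy ℤ (P.freyCurve⁄K).Point P.p) ≤ P.p ^ 2 :=
  finite_card_torsion_of_odd (P.freyCurve⁄K).toAffine P.p P.hp_odd (frey_p_ne_zero P)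

/-- The integral `p`-division polynomial (in `x`) of the Frey curve. -/
noncomputable def freyQ : ℤ[X] := Qpoly P.freyCurveInt (P.p / 2)

lemma frey_two_mul_half : 2 * (P.p / 2) + 1 = P.p := by
  obtain ⟨m, hm⟩ := P.hp_odd
  omega

theorem freyQ_leadingCoeff : (freyQ P).leadingCoeff = (P.p : ℤ) := by
  have h : (((2 * (P.p / 2) + 1 : ℕ)) : ℤ) ≠ 0 := by
    rw [frey_two_mul_half]; exact_mod_cast P.hp0
  rw [freyQ, leadingCoeff_Qpoly _ _ h, frey_two_mul_half]

theorem freyQ_natDegree : (freyQ P).natDegree = (P.p ^ 2 - 1) / 2 := by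
  have h : (((2 * (P.p / 2) + 1 : ℕ)) : ℤ) ≠ 0 := by
    rw [frey_two_mul_half]; exact_mod_cast P.hp0
  rw [freyQ, natDegree_Qpoly _ _ h]
  obtain ⟨m, hm⟩ := P.hp_odd
  have e : P.p / 2 = m := by omega
  rw [e, hm]
  have : (2 * m + 1) ^ 2 - 1 = 2 * (2 * m * m + 2 * m) := by
    have : (2 * m + 1) ^ 2 = 2 * (2 * m * m + 2 * m) + 1 := by ring
    omega
  rw [this, Nat.mul_div_cancel_left _ (by norm_num : 0 < 2)]

omit [DecidableEq K] in
lemma frey_baseChange_eq :
    (P.freyCurve⁄K) = P.freyCurveInt.map (Int.castRingHom K) := by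
  change P.freyCurve.map (algebraMap ℚ K) = _
  rw [freyCurve_eq_map, WeierstrassCurve.map_map]
  congr 1
  exact RingHom.ext_int _ _

/-- **Torsion criterion for the Frey curve**, with an integral polynomial. -/
theorem frey_nsmul_eq_zero_iff {x y : K} (h : (P.freyCurve⁄K).toAffine.Nonsingular x y) :
    P.p • Affine.Point.some x y h = 0 ↔ aeval x (freyQ P) = 0 := by
  have key : ∀ (W : WeierstrassCurve K) (hW : W = P.freyCurveInt.map (Int.castRingHom K))
      (h : W.toAffine.Nonsingular x y),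
      P.p • Affine.Point.some x y h = 0 ↔ aeval x (freyQ P) = 0 := by
    intro W hW h
    subst hW
    have := odd_nsmul_eq_zero_iff_eval₂ (Int.castRingHom K) P.freyCurveInt h (P.p / 2)
    rw [frey_two_mul_half] at this
    rw [this, freyQ, aeval_def]
    rfl
  exact key _ (frey_baseChange_eq P) h

end BaseChange

end Fermat.Agent.S13.H164

end
-- ===== PACK-END S13/H164/Frey.lean

-- ===== PACK-BEGIN S12/H291/Toric.lean
section








/-!
# S12 one-step route: LOCAL tools for the toric line (helper291)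

* `exists_pow_eq_of_torsion` : the `p`-torsion of the component group `Γ₀ˣ ⧸ ⟨u⟩` is cyclic;
* `exists_zmod_point_of_frob_fixed`, `le_of_frob_fixed`, `dvd_of_frob_fixed` : a point of prime
  order `p ≠ ℓ` of `E⁰`, fixed by a Frobenius element at `A ∣ ℓ`, reduces to an `𝔽_ℓ`-rational
  point of order `p`; hence `p ≤ 2ℓ + 1`, and `p ∣ ℓ ± 1` at a multiplicative prime;
* `inE0_of_nodeInE0` : the identity component of a node model (`S13.H365.NodeModel`) lies in the
  identity component in the sense of reduction (`S15.H242.InE0`).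
-/

set_option autoImplicit false
set_option linter.unusedSectionVars false
set_option linter.style.haveILetI false

noncomputable section

open WeierstrassCurve WeierstrassCurve.Affine WeierstrassCurve.Affine.Point

namespace Fermat.Agent.S12.H291

open Fermat.Agent.Lib.Red.H290 Fermat.Agent.S15.H242
open Fermat.Agent.S13.H365 (NodeModel)
open Fermat.Agent.S05.SameRed (IntegralCoeffs)

section cyclic

variable {Γ₀ : Type*} [LinearOrderedCommGroupWithZero Γ₀]

/-- The unit group of a linearly ordered group with zero is torsion-free. -/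
lemma units_eq_one_of_pow_eq_one {g : Γ₀ˣ} {n : ℕ} (hn : n ≠ 0) (h : g ^ n = 1) : g = 1 := by
  have h1 : ((g : Γ₀)) ^ n = (1 : Γ₀) ^ n := by
    rw [one_pow, ← Units.val_pow_eq_pow_val, h, Units.val_one]
  exact Units.ext (Fermat.Agent.S05.Assemble.pow_eq_pow_imp_eq hn h1)

/-- In `Γ₀ˣ ⧸ ⟨u⟩` the `p`-torsion is cyclic: if `c₁ ≠ 1`, `c₁^p = c₂^p = 1` then `c₂` is a
power of `c₁`. -/
lemma exists_pow_eq_of_torsion (u : Γ₀ˣ) {p : ℕ} (hp : p.Prime)
    (c₁ c₂ : Γ₀ˣ ⧸ Subgroup.zpowers u) (h₁ : c₁ ^ p = 1) (h₂ : c₂ ^ p = 1) (hne : c₁ ≠ 1) :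
    ∃ k : ℕ, c₂ = c₁ ^ k := by
  haveI : Fact p.Prime := ⟨hp⟩
  obtain ⟨g₁, rfl⟩ := QuotientGroup.mk_surjective c₁
  obtain ⟨g₂, rfl⟩ := QuotientGroup.mk_surjective c₂
  rw [← QuotientGroup.mk_pow, QuotientGroup.eq_one_iff, Subgroup.mem_zpowers_iff] at h₁ h₂
  obtain ⟨m₁, hm₁⟩ := h₁
  obtain ⟨m₂, hm₂⟩ := h₂
  have hnd : ¬ (p : ℤ) ∣ m₁ := by
    rintro ⟨t, rfl⟩
    apply hne
    rw [QuotientGroup.eq_one_iff, Subgroup.mem_zpowers_iff]
    refine ⟨t, ?_⟩
    have : (g₁ / u ^ t) ^ p = 1 := by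
      rw [div_pow, ← hm₁, ← zpow_natCast (u ^ t) p, ← zpow_mul, mul_comm, div_self']
    have := units_eq_one_of_pow_eq_one hp.ne_zero this
    exact (div_eq_one.mp this).symm
  have hm₁' : (m₁ : ZMod p) ≠ 0 := by
    rwa [Ne, ZMod.intCast_zmod_eq_zero_iff_dvd]
  set k : ℕ := ((m₂ : ZMod p) * (m₁ : ZMod p)⁻¹).val with hk
  have hkm : ((m₂ - k * m₁ : ℤ) : ZMod p) = 0 := by
    push_cast
    rw [hk, ZMod.natCast_val, ZMod.cast_id', id, mul_assoc, inv_mul_cancel₀ hm₁', mul_one, sub_self]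
  obtain ⟨t, ht⟩ := (ZMod.intCast_zmod_eq_zero_iff_dvd _ p).mp hkm
  refine ⟨k, ?_⟩
  rw [← QuotientGroup.mk_pow, QuotientGroup.eq, Subgroup.mem_zpowers_iff]
  refine ⟨-t, ?_⟩
  have : (g₂ / (g₁ ^ k * u ^ t)) ^ p = 1 := by
    rw [div_pow, mul_pow, ← hm₂, ← pow_mul, mul_comm k p, pow_mul, ← hm₁,
      ← zpow_natCast (u ^ t) p, ← zpow_mul, ← zpow_natCast (u ^ m₁) k, ← zpow_mul, ← zpow_add,
      div_eq_one]
    congr 1
    linarith
  have h := div_eq_one.mp (units_eq_one_of_pow_eq_one hp.ne_zero this)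
  rw [h, zpow_neg]
  group

end cyclic

section frob

/-- A Frobenius element at `A` is congruent to `x ↦ x ^ ℓ` on `A`. -/
theorem frob_sub_pow_mem {A : ValuationSubring Qb} {σ : Qb ≃ₐ[ℚ] Qb} {ℓ : ℕ}
    (h : A.IsFrobeniusAt σ ℓ) {x : Qb} (hx : x ∈ A) : σ x - x ^ ℓ ∈ A.nonunits := by
  obtain ⟨hσ, hF⟩ := h
  have h1 := hF (IsLocalRing.residue A ⟨x, hx⟩)
  rw [← IsLocalRing.ResidueField.residue_smul, ← map_pow, ← sub_eq_zero, ← map_sub,
    IsLocalRing.residue_eq_zero_iff, ← ValuationSubring.coe_mem_nonunits_iff] at h1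
  exact h1

/-- The residue of a Frobenius-fixed integral element lies in the prime field. -/
lemma rd_mem_range_of_frob_fixed {A : ValuationSubring Qb} {σ : Qb ≃ₐ[ℚ] Qb} {ℓ : ℕ}
    (hℓ : ℓ.Prime) (hσ : A.IsFrobeniusAt σ ℓ)
    [CharP (IsLocalRing.ResidueField A) ℓ] {x : Qb} (hx : x ∈ A) (hfix : σ x = x) :
    rd A (IsLocalRing.residue A) x ∈
      Set.range (ZMod.castHom (dvd_refl ℓ) (IsLocalRing.ResidueField A)) := by
  haveI : Fact ℓ.Prime := ⟨hℓ⟩
  have hφ : KerMax A (IsLocalRing.residue A) := kerMax_residue A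
  have h1 := frob_sub_pow_mem hσ hx
  rw [hfix, A.mem_nonunits_iff] at h1
  have h2 : rd A (IsLocalRing.residue A) x = rd A (IsLocalRing.residue A) (x ^ ℓ) :=
    (rd_eq_iff hφ hx (pow_mem hx ℓ)).mpr h1
  rw [rd_pow hx] at h2
  have h3 : rd A (IsLocalRing.residue A) x ∈ (⊥ : Subfield (IsLocalRing.ResidueField A)) :=
    (Subfield.mem_bot_iff_pow_eq_self (IsLocalRing.ResidueField A) ℓ).mpr h2.symm
  rw [← ZMod.fieldRange_castHom_eq_bot ℓ] at h3
  exact h3

/-- **Frobenius-fixed points of `E⁰` reduce to `𝔽_ℓ`-points**: a point of prime order `p ≠ ℓ`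
of `E⁰`, fixed by a Frobenius element at `A`, gives a point of order `p` of the reduction
over `𝔽_ℓ`. -/
theorem exists_zmod_point_of_frob_fixed
    {p : ℕ} (hp : p.Prime) (Wq : WeierstrassCurve ℚ) (W₀ : WeierstrassCurve ℤ)
    (A : ValuationSubring Qb) {ℓ : ℕ} [Fact ℓ.Prime] (hℓp : ℓ ≠ p) (hA : A.LiesOverPrime ℓ)
    (hred : IsRedOf A (IsLocalRing.residue A) (Wq⁄Qb) (W₀⁄(IsLocalRing.ResidueField A)))
    (σ : Qb ≃ₐ[ℚ] Qb) (hσ : A.IsFrobeniusAt σ ℓ)
    (Q : (Wq⁄Qb).Point) (hfix : σ • Q = Q) (hQord : addOrderOf Q = p)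
    (hE0 : InE0 A (IsLocalRing.residue A) (W₀⁄(IsLocalRing.ResidueField A)) Q) :
    ∃ R : (W₀⁄(ZMod ℓ)).Point, addOrderOf R = p := by
  classical
  have hℓ : ℓ.Prime := Fact.out
  have hφ : KerMax A (IsLocalRing.residue A) := kerMax_residue A
  have hv : A.valuation ((p : ℕ) : Qb) = 1 := val_natCast_eq_one A hA hℓ hp hℓp
  have hord := addOrderOf_red0 hred hφ hp hv hE0 hQord
  rcases Q with _ | ⟨x, y, h⟩
  · rw [show (Point.zero : (Wq⁄Qb).Point) = 0 from rfl, addOrderOf_zero] at hQord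
    exact absurd hQord hp.one_lt.ne
  have key : σ x = x ∧ σ y = y := by
    have := hfix
    rw [Point.algEquiv_smul_def, Point.map_some] at this
    simp only [Point.some.injEq] at this
    exact this
  have hx : x ∈ A := by
    by_contra hx
    rw [red0_some_of_not_mem h hx, addOrderOf_zero] at hord
    exact hp.one_lt.ne hord
  have hns : (W₀⁄(IsLocalRing.ResidueField A)).Nonsingular
      (rd A (IsLocalRing.residue A) x) (rd A (IsLocalRing.residue A) y) := hE0 hx
  have hy : y ∈ A := y_mem_of_x_mem hred h.1 hx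
  rw [red0_some_of_mem h hx hns] at hord
  haveI : CharP (IsLocalRing.ResidueField A) ℓ := (CharP.charP_iff_prime_eq_zero hℓ).mpr (by
    have h0 : rd A (IsLocalRing.residue A) ((ℓ : ℤ) : Qb) = 0 :=
      rd_eq_zero_of_lt hφ (by
        have := (A.mem_nonunits_iff).mp hA
        simpa using this)
    rw [rd_intCast] at h0
    exact_mod_cast h0)
  let f : ZMod ℓ →ₐ[ℤ] IsLocalRing.ResidueField A :=
    (ZMod.castHom dvd_rfl (IsLocalRing.ResidueField A)).toIntAlgHom
  have hf : Function.Injective f := (f : ZMod ℓ →+* IsLocalRing.ResidueField A).injective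
  obtain ⟨u, hu⟩ := rd_mem_range_of_frob_fixed hℓ hσ hx key.1
  obtain ⟨w, hw⟩ := rd_mem_range_of_frob_fixed hℓ hσ hy key.2
  have hu' : f u = rd A (IsLocalRing.residue A) x := hu
  have hw' : f w = rd A (IsLocalRing.residue A) y := hw
  generalize rd A (IsLocalRing.residue A) x = X at hns hord hu'
  generalize rd A (IsLocalRing.residue A) y = Y at hns hord hw'
  subst hu' hw'
  have hns0 : (W₀⁄(ZMod ℓ)).Nonsingular u w :=
    (Affine.baseChange_nonsingular W₀ (f := f) hf u w).mp hns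
  have hmap : Point.map (W' := W₀) f (Point.some u w hns0) = Point.some _ _ hns :=
    Point.map_some f hns0
  refine ⟨Point.some u w hns0, ?_⟩
  rw [← addOrderOf_injective (Point.map (W' := W₀) f) (Point.map_injective f), hmap]
  exact hord

/-- Crude bound: `p ≤ 2ℓ + 1`. -/
theorem le_of_frob_fixed
    {p : ℕ} (hp : p.Prime) (Wq : WeierstrassCurve ℚ) (W₀ : WeierstrassCurve ℤ)
    (A : ValuationSubring Qb) {ℓ : ℕ} (hℓ : ℓ.Prime) (hℓp : ℓ ≠ p) (hA : A.LiesOverPrime ℓ)
    (hred : IsRedOf A (IsLocalRing.residue A) (Wq⁄Qb) (W₀⁄(IsLocalRing.ResidueField A)))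
    (σ : Qb ≃ₐ[ℚ] Qb) (hσ : A.IsFrobeniusAt σ ℓ)
    (Q : (Wq⁄Qb).Point) (hfix : σ • Q = Q) (hQord : addOrderOf Q = p)
    (hE0 : InE0 A (IsLocalRing.residue A) (W₀⁄(IsLocalRing.ResidueField A)) Q) :
    p ≤ 2 * ℓ + 1 := by
  classical
  haveI : Fact ℓ.Prime := ⟨hℓ⟩
  obtain ⟨R, hR⟩ := exists_zmod_point_of_frob_fixed hp Wq W₀ A hℓp hA hred σ hσ Q hfix hQord hE0
  haveI : Finite (W₀⁄(ZMod ℓ)).Point := Fermat.Agent.S12.H411.finite_point _
  have h1 : Nat.card (W₀⁄(ZMod ℓ)).Point ≤ 2 * Nat.card (ZMod ℓ) + 1 :=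
    Fermat.Agent.S12.H411.natCard_point_le _
  rw [Nat.card_zmod] at h1
  have h2 : addOrderOf R ∣ Nat.card (W₀⁄(ZMod ℓ)).Point := addOrderOf_dvd_natCard R
  rw [hR] at h2
  exact (Nat.le_of_dvd Nat.card_pos h2).trans h1

/-- Nodal count: at a multiplicative prime, `p ∣ ℓ - 1` or `p ∣ ℓ + 1`. -/
theorem dvd_of_frob_fixed
    {p : ℕ} (hp : p.Prime) (Wq : WeierstrassCurve ℚ) (W₀ : WeierstrassCurve ℤ)
    (A : ValuationSubring Qb) {ℓ : ℕ} (hℓ : ℓ.Prime) (hℓp : ℓ ≠ p) (hA : A.LiesOverPrime ℓ)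
    (hℓΔ : (ℓ : ℤ) ∣ W₀.Δ) (hℓc₄ : ¬ (ℓ : ℤ) ∣ W₀.c₄)
    (hred : IsRedOf A (IsLocalRing.residue A) (Wq⁄Qb) (W₀⁄(IsLocalRing.ResidueField A)))
    (σ : Qb ≃ₐ[ℚ] Qb) (hσ : A.IsFrobeniusAt σ ℓ)
    (Q : (Wq⁄Qb).Point) (hfix : σ • Q = Q) (hQord : addOrderOf Q = p)
    (hE0 : InE0 A (IsLocalRing.residue A) (W₀⁄(IsLocalRing.ResidueField A)) Q) :
    p ∣ ℓ - 1 ∨ p ∣ ℓ + 1 := by
  classical
  haveI : Fact ℓ.Prime := ⟨hℓ⟩
  obtain ⟨R, hR⟩ := exists_zmod_point_of_frob_fixed hp Wq W₀ A hℓp hA hred σ hσ Q hfix hQord hE0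
  have hΔ0 : (W₀⁄(ZMod ℓ)).Δ = 0 := by
    show (W₀.map (algebraMap ℤ (ZMod ℓ))).Δ = 0
    rw [WeierstrassCurve.map_Δ, algebraMap_int_eq, eq_intCast,
      ZMod.intCast_zmod_eq_zero_iff_dvd]
    exact hℓΔ
  have hc0 : (W₀⁄(ZMod ℓ)).c₄ ≠ 0 := by
    show (W₀.map (algebraMap ℤ (ZMod ℓ))).c₄ ≠ 0
    rw [WeierstrassCurve.map_c₄, algebraMap_int_eq, eq_intCast, Ne,
      ZMod.intCast_zmod_eq_zero_iff_dvd]
    exact hℓc₄
  have := addOrderOf_dvd_of_nodal hc0 hΔ0 R
  rwa [hR, Nat.card_zmod] at this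

end frob

section bridge

variable {K : Type*} [Field K] [DecidableEq K] {κ : Type*} [Field κ] [DecidableEq κ]
variable {A : ValuationSubring K} {φ : A →+* κ} {W : Affine K} {Wκ : Affine κ}

/-- `2y + a₁x + a₃` of an integral point is integral and reduces as expected. -/
lemma rd_etaExpr (h : IsRedOf A φ W Wκ) {x y : K} (hx : x ∈ A) (hy : y ∈ A) :
    2 * y + W.a₁ * x + W.a₃ ∈ A ∧
    rd A φ (2 * y + W.a₁ * x + W.a₃) = 2 * rd A φ y + Wκ.a₁ * rd A φ x + Wκ.a₃ := by
  obtain ⟨c₁, c₂, c₃, c₄, c₆, e₁, e₂, e₃, e₄, e₆, f₁, f₂, f₃, f₄, f₆⟩ := h.exists_lift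
  lift x to A using hx
  lift y to A using hy
  simp only [← e₁, ← e₃, ← f₁, ← f₃]
  have : (2 * (y : K) + c₁ * x + c₃) = ((2 * y + c₁ * x + c₃ : A) : K) := by
    push_cast; rw [coe_two]
  rw [this, rd_coe, rd_coe, rd_coe]
  exact ⟨Subtype.mem _, by simp only [map_add, map_mul, map_ofNat]⟩

/-- If one of the two partial derivatives at an integral point is a unit, the reduced point is
nonsingular. -/
lemma nonsingular_rd_of_val (h : IsRedOf A φ W Wκ) (hφ : KerMax A φ) {x y : K}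
    (hxy : W.Equation x y) (hx : x ∈ A) (hy : y ∈ A)
    (hns : A.valuation (W.a₁ * y - (3 * x ^ 2 + 2 * W.a₂ * x + W.a₄)) = 1 ∨
      A.valuation (2 * y + W.a₁ * x + W.a₃) = 1) :
    Wκ.Nonsingular (rd A φ x) (rd A φ y) := by
  rw [Affine.nonsingular_iff']
  refine ⟨rd_equation h hx hy hxy, ?_⟩
  rcases hns with h1 | h1
  · left
    obtain ⟨hm, hr⟩ := rd_slopeNum h hx hy
    have h2 : A.valuation (3 * x ^ 2 + 2 * W.a₂ * x + W.a₄ - W.a₁ * y) = 1 := by
      rw [← Valuation.map_neg, neg_sub]; exact h1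
    have h3 := (rd_ne_zero_iff hφ hm).mpr h2
    rw [hr] at h3
    intro h0
    apply h3
    linear_combination -h0
  · right
    obtain ⟨hm, hr⟩ := rd_etaExpr h hx hy
    have h3 := (rd_ne_zero_iff hφ hm).mpr h1
    rwa [hr] at h3

/-- A point of the identity component in the sense of a node model is in `E⁰` in the sense of
reduction. -/
lemma inE0_of_nodeInE0 (h : IsRedOf A φ W Wκ) (hφ : KerMax A φ) (M : NodeModel A.valuation W)
    (he : A.valuation M.e ≤ 1) {Q : W.Point} (hQ : M.InE0 Q) : InE0 A φ Wκ Q := by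
  rcases Q with _ | ⟨x, y, hxy⟩
  · exact inE0_zero
  · intro hx
    have hxv : A.valuation x ≤ 1 := (A.valuation_le_one_iff x).mpr hx
    have hy : y ∈ A := y_mem_of_x_mem h hxy.1 hx
    have hyv : A.valuation y ≤ 1 := (A.valuation_le_one_iff y).mpr hy
    have hξ : A.valuation (x - M.e) = 1 :=
      le_antisymm (Fermat.Agent.S05.SameRed.val_sub_le_one hxv he) hQ
    exact nonsingular_rd_of_val h hφ hxy.1 hx hy
      (M.nonsingular_red h.integralCoeffs hxy.1 hxv hyv hξ)

end bridge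

section node

variable {K : Type*} [Field K] [DecidableEq K] {Γ₀ : Type*} [LinearOrderedCommGroupWithZero Γ₀]
  {v : Valuation K Γ₀} {W : Affine K}

lemma nodeInE0_zsmul (M : NodeModel v W) {Q : W.Point} (hQ : M.InE0 Q) (k : ℤ) :
    M.InE0 (k • Q) := by
  rw [← M.comp_eq_one_iff] at hQ ⊢
  have h1 : M.compHom Q = 0 := by
    show Additive.ofMul (M.comp Q) = 0
    rw [hQ]; rfl
  have h2 : M.compHom (k • Q) = 0 := by rw [map_zsmul, h1, zsmul_zero]
  exact h2

end node

end Fermat.Agent.S12.H291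

end
end
-- ===== PACK-END S12/H291/Toric.lean

-- ===== PACK-BEGIN S12/H291/ToricFrey.lean
section


/-!
# S12 one-step route: LOCAL-TORIC for the Frey curve (helper291)

`toric_local` : let `N` be a cofixed line of the Frey curve, `ℓ ≠ p` a prime dividing `abc`
(a multiplicative prime) with `p ∤ ℓ - 1` and `p ∤ ℓ + 1`, and `A` a valuation ring of `ℚ̄`
over `ℓ`.  Then `N ⊆ E⁰` at `A` (`N` is the toric line).

Proof.  If some `T ∈ N` is not in `E⁰`, the cyclicity of the `p`-torsion of the component group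
produces `Q = S - k • T ∈ E[p] ∩ E⁰`, `Q ∉ N`.  For a Frobenius element `σ` at `A` the
difference `σ Q - Q` lies in `N ∩ E⁰ = 0`, so `Q` is a `σ`-fixed point of order `p` of `E⁰`;
it reduces to an `𝔽_ℓ`-point of order `p` of the nodal cubic, whence `p ∣ ℓ ± 1`.
No determinant / Weil pairing is used.
-/

set_option autoImplicit false
set_option linter.unusedSectionVars false
set_option linter.style.haveILetI false

noncomputable section

open WeierstrassCurve WeierstrassCurve.Affine WeierstrassCurve.Affine.Point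

namespace Fermat.Agent.S12.H291

open Fermat.Agent.Lib.Red.H290 Fermat.Agent.S15.H242
open Fermat.Agent.S13.H365 (NodeModel)
open Fermat.Agent.S05.SameRed (IntegralCoeffs)
open Fermat.Agent.S05.Assemble (fA fB fC fA_add_fB frey_a₁ frey_a₂ frey_a₃ frey_a₄ frey_a₆
  fA_ne_zero fB_ne_zero fC_ne_zero val_fA_le_one val_fB_le_one val_fC_le_one
  val_fA_eq_one val_fB_eq_one val_fC_eq_one val_fA_lt_one val_fB_lt_one val_fC_lt_one
  val_sixteen_eq_one val_four_eq_one val_two_eq_one not_dvd_of_gcd_eq_one sigma_fA)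

/-- `P ∈ E⁰` at `A`, in the sense of reduction to the integral Frey model. -/
def FreyInE0 (P : FreyPackage) (A : ValuationSubring _root_.Fermat.Agent.S12.H291.Qb) (Q : FreyPt P) : Prop :=
  InE0 A (IsLocalRing.residue A) (P.freyCurveInt⁄(IsLocalRing.ResidueField A)) Q

variable (P : FreyPackage) {A : ValuationSubring _root_.Fermat.Agent.S12.H291.Qb}

/-- The Frey curve over `ℚ̄` reduces to the integral Frey model. -/
lemma frey_isRedOf (A : ValuationSubring _root_.Fermat.Agent.S12.H291.Qb) :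
    IsRedOf A (IsLocalRing.residue A) (P.freyCurve⁄_root_.Fermat.Agent.S12.H291.Qb)
      (P.freyCurveInt⁄(IsLocalRing.ResidueField A)) := by
  have h := isRedOf_int A P.freyCurveInt (IsLocalRing.residue A)
  rwa [← Fermat.Agent.S13.H164.freyCurve_eq_map] at h

/-- The node model of the Frey curve at `(0, 0)`. -/
def freyNodeZero (ha : A.valuation (P.freyCurve⁄_root_.Fermat.Agent.S12.H291.Qb).a₄ < 1)
    (hb : A.valuation (fB P - fA P) = 1) (s : _root_.Fermat.Agent.S12.H291.Qb) (hs : s ^ 2 = fB P - fA P) :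
    NodeModel A.valuation (P.freyCurve⁄_root_.Fermat.Agent.S12.H291.Qb) where
  e := 0
  f := 0
  γ₁ := (-1 + s) / 2
  γ₂ := (-1 - s) / 2
  a := (P.freyCurve⁄_root_.Fermat.Agent.S12.H291.Qb).a₄
  h2tors := by rw [frey_a₃]; ring
  hon := by rw [frey_a₆]; ring
  hsum := by rw [frey_a₁]; ring
  hprod := by
    rw [frey_a₂]
    have h2 : (2 : _root_.Fermat.Agent.S12.H291.Qb) ≠ 0 := by norm_num
    have h4 : (4 : _root_.Fermat.Agent.S12.H291.Qb) ≠ 0 := by norm_num
    field_simp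
    linear_combination (-4 : _root_.Fermat.Agent.S12.H291.Qb) * hs
  ha_def := by ring
  hδ := by
    have e : (-1 + s) / 2 - (-1 - s) / 2 = s := by ring
    rw [e]
    rw [← hs, map_pow] at hb
    exact (pow_left_inj (n := 2) two_ne_zero).mp (by rw [hb, one_pow])
  ha := ha
  ha0 := Fermat.Agent.S13.H365.frey_a₄_ne_zero P

/-- The node model of the Frey curve at the `2`-torsion point `(a^p/4, -a^p/8)`. -/
def freyNodeC (h16 : A.valuation (16 : _root_.Fermat.Agent.S12.H291.Qb) = 1) (hc : A.valuation (fC P) < 1)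
    (ha : A.valuation (fA P) = 1) (s : _root_.Fermat.Agent.S12.H291.Qb) (hs : s ^ 2 = fB P + 2 * fA P) :
    NodeModel A.valuation (P.freyCurve⁄_root_.Fermat.Agent.S12.H291.Qb) where
  e := fA P / 4
  f := -(fA P) / 8
  γ₁ := (-1 + s) / 2
  γ₂ := (-1 - s) / 2
  a := fA P * fC P / 16
  h2tors := by rw [frey_a₁, frey_a₃]; ring
  hon := by rw [frey_a₁, frey_a₂, frey_a₃, frey_a₄, frey_a₆]; ring
  hsum := by rw [frey_a₁]; ring
  hprod := by
    rw [frey_a₂]
    have h2 : (2 : _root_.Fermat.Agent.S12.H291.Qb) ≠ 0 := by norm_num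
    have h4 : (4 : _root_.Fermat.Agent.S12.H291.Qb) ≠ 0 := by norm_num
    field_simp
    linear_combination (-4 : _root_.Fermat.Agent.S12.H291.Qb) * hs
  ha_def := by rw [frey_a₁, frey_a₂, frey_a₄, ← fA_add_fB]; ring
  hδ := by
    have e : (-1 + s) / 2 - (-1 - s) / 2 = s := by ring
    rw [e]
    have h1 : A.valuation (fB P + 2 * fA P) = 1 := by
      have e2 : fB P + 2 * fA P = fA P + fC P := by rw [← fA_add_fB]; ring
      rw [e2, Valuation.map_add_eq_of_lt_left _ (by rw [ha]; exact hc), ha]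
    rw [← hs, map_pow] at h1
    exact (pow_left_inj (n := 2) two_ne_zero).mp (by rw [h1, one_pow])
  ha := by
    rw [map_div₀, map_mul, h16, div_one, ha, one_mul]
    exact hc
  ha0 := div_ne_zero (mul_ne_zero (fA_ne_zero P) (fC_ne_zero P)) (by norm_num)

/-- At every prime `ℓ ∣ abc` the Frey curve has a node model with rational, integral node. -/
theorem exists_freyNode {ℓ : ℕ} (hℓ : ℓ.Prime) (hA : A.LiesOverPrime ℓ)
    (hbad : (ℓ : ℤ) ∣ P.a * P.b * P.c) :
    ∃ M : NodeModel A.valuation (P.freyCurve⁄_root_.Fermat.Agent.S12.H291.Qb), A.valuation M.e ≤ 1 ∧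
      ∀ σ : _root_.Fermat.Agent.S12.H291.Qb ≃ₐ[ℚ] _root_.Fermat.Agent.S12.H291.Qb, σ M.e = M.e := by
  have hℓ' : Prime (ℓ : ℤ) := Nat.prime_iff_prime_int.mp hℓ
  by_cases h2 : ℓ = 2
  · subst h2
    obtain ⟨s, hs⟩ := IsAlgClosed.exists_pow_nat_eq (fB P - fA P) (n := 2) (by norm_num)
    refine ⟨freyNodeZero P (Fermat.Agent.S13.H365.frey_val_a₄_lt_one P hA)
      (Fermat.Agent.S13.H365.frey_val_b₂_eq_one P hA) s hs, ?_, fun σ => ?_⟩
    · show A.valuation (0 : _root_.Fermat.Agent.S12.H291.Qb) ≤ 1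
      rw [_root_.map_zero]; exact zero_le_one
    · show σ (0 : _root_.Fermat.Agent.S12.H291.Qb) = 0
      exact _root_.map_zero σ
  have h16 : A.valuation (16 : _root_.Fermat.Agent.S12.H291.Qb) = 1 := val_sixteen_eq_one hA hℓ h2
  have h4 : A.valuation (4 : _root_.Fermat.Agent.S12.H291.Qb) = 1 := val_four_eq_one hA hℓ h2
  have hzero : ∀ (ha : A.valuation (fA P) * A.valuation (fB P) < 1)
      (hb : A.valuation (fB P - fA P) = 1),
      ∃ M : NodeModel A.valuation (P.freyCurve⁄_root_.Fermat.Agent.S12.H291.Qb), A.valuation M.e ≤ 1 ∧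
        ∀ σ : _root_.Fermat.Agent.S12.H291.Qb ≃ₐ[ℚ] _root_.Fermat.Agent.S12.H291.Qb, σ M.e = M.e := by
    intro ha hb
    obtain ⟨s, hs⟩ := IsAlgClosed.exists_pow_nat_eq (fB P - fA P) (n := 2) (by norm_num)
    have ha4 : A.valuation (P.freyCurve⁄_root_.Fermat.Agent.S12.H291.Qb).a₄ < 1 := by
      rw [frey_a₄, map_div₀, map_mul, Valuation.map_neg, h16, div_one]
      exact ha
    refine ⟨freyNodeZero P ha4 hb s hs, ?_, fun σ => ?_⟩
    · show A.valuation (0 : _root_.Fermat.Agent.S12.H291.Qb) ≤ 1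
      rw [_root_.map_zero]; exact zero_le_one
    · show σ (0 : _root_.Fermat.Agent.S12.H291.Qb) = 0
      exact _root_.map_zero σ
  rcases hℓ'.dvd_or_dvd hbad with hab | hc
  · rcases hℓ'.dvd_or_dvd hab with ha | hb
    · -- `ℓ ∣ a`
      have hb' : ¬ (ℓ : ℤ) ∣ P.b := not_dvd_of_gcd_eq_one hℓ P.hgcdab ha
      have h1 : A.valuation (fA P) < 1 := val_fA_lt_one hA ha
      have h2' : A.valuation (fB P) = 1 := val_fB_eq_one hA hℓ hb'
      apply hzero
      · rw [h2', mul_one]; exact h1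
      · rw [sub_eq_add_neg, Valuation.map_add_eq_of_lt_left _
          (by rw [Valuation.map_neg, h2']; exact h1), h2']
    · -- `ℓ ∣ b`
      have ha' : ¬ (ℓ : ℤ) ∣ P.a := by
        have hg : gcd P.b P.a = 1 := by rw [gcd_comm]; exact P.hgcdab
        exact not_dvd_of_gcd_eq_one hℓ hg hb
      have h1 : A.valuation (fB P) < 1 := val_fB_lt_one hA hb
      have h2' : A.valuation (fA P) = 1 := val_fA_eq_one hA hℓ ha'
      apply hzero
      · rw [h2', one_mul]; exact h1
      · rw [Valuation.map_sub_swap, sub_eq_add_neg, Valuation.map_add_eq_of_lt_left _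
          (by rw [Valuation.map_neg, h2']; exact h1), h2']
  · -- `ℓ ∣ c`
    have ha' : ¬ (ℓ : ℤ) ∣ P.a := by
      have hg : gcd P.c P.a = 1 := by rw [gcd_comm]; exact P.hgcdac
      exact not_dvd_of_gcd_eq_one hℓ hg hc
    have h1 : A.valuation (fC P) < 1 := val_fC_lt_one hA hc
    have h2' : A.valuation (fA P) = 1 := val_fA_eq_one hA hℓ ha'
    obtain ⟨s, hs⟩ := IsAlgClosed.exists_pow_nat_eq (fB P + 2 * fA P) (n := 2) (by norm_num)
    refine ⟨freyNodeC P h16 h1 h2' s hs, ?_, fun σ => ?_⟩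
    · show A.valuation (fA P / 4) ≤ 1
      rw [map_div₀, h4, div_one, h2']
    · show σ (fA P / 4) = fA P / 4
      rw [map_div₀, sigma_fA, map_ofNat]

section decomp

open Pointwise

lemma apply_mem_of_mem_decomp_h291 {σ : _root_.Fermat.Agent.S12.H291.Qb ≃ₐ[ℚ] _root_.Fermat.Agent.S12.H291.Qb} (hσ : σ ∈ A.decompositionSubgroup ℚ)
    {x : _root_.Fermat.Agent.S12.H291.Qb} (hx : x ∈ A) : σ x ∈ A := by
  have h : σ • A = A := hσ
  have := ValuationSubring.smul_mem_pointwise_smul σ x A hx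
  rw [h] at this
  exact this

/-- An element of the decomposition group preserves `1 ≤ v z`. -/
lemma one_le_val_apply_of_mem_decomp {σ : _root_.Fermat.Agent.S12.H291.Qb ≃ₐ[ℚ] _root_.Fermat.Agent.S12.H291.Qb} (hσ : σ ∈ A.decompositionSubgroup ℚ)
    {z : _root_.Fermat.Agent.S12.H291.Qb} (hz : 1 ≤ A.valuation z) : 1 ≤ A.valuation (σ z) := by
  have hz0 : z ≠ 0 := by
    rintro rfl
    rw [_root_.map_zero] at hz
    exact absurd hz (not_le.mpr zero_lt_one)
  have hv0 : A.valuation z ≠ 0 := (Valuation.ne_zero_iff _).mpr hz0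
  have h1 : z⁻¹ ∈ A := by
    rw [← A.valuation_le_one_iff, map_inv₀]
    exact inv_le_one_of_one_le₀ hz
  have h2 := apply_mem_of_mem_decomp_h291 hσ h1
  rw [map_inv₀, ← A.valuation_le_one_iff, map_inv₀] at h2
  have hσz0 : A.valuation (σ z) ≠ 0 :=
    (Valuation.ne_zero_iff _).mpr ((map_ne_zero σ).mpr hz0)
  exact (one_le_inv₀ (zero_lt_iff.mpr (inv_ne_zero hσz0))).mpr h2 |>.trans_eq (inv_inv _)

/-- The decomposition group preserves the identity component of a node model with rational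
node. -/
lemma nodeInE0_smul (M : NodeModel A.valuation (P.freyCurve⁄_root_.Fermat.Agent.S12.H291.Qb)) {σ : _root_.Fermat.Agent.S12.H291.Qb ≃ₐ[ℚ] _root_.Fermat.Agent.S12.H291.Qb}
    (hσ : σ ∈ A.decompositionSubgroup ℚ) (hσe : σ M.e = M.e) {Q : FreyPt P}
    (hQ : M.InE0 Q) : M.InE0 (σ • Q) := by
  rcases Q with _ | ⟨x, y, h⟩
  · exact hQ
  · rw [Point.algEquiv_smul_def, Point.map_some]
    show 1 ≤ A.valuation (σ x - M.e)
    have : σ x - M.e = σ (x - M.e) := by rw [map_sub, hσe]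
    rw [this]
    exact one_le_val_apply_of_mem_decomp hσ hQ

end decomp

section exists_toric

variable {K : Type*} [Field K] [DecidableEq K] {Γ₀ : Type*} [LinearOrderedCommGroupWithZero Γ₀]
  {v : Valuation K Γ₀} {W : Affine K}

/-- If `T₀ ∈ E[p]` is not in `E⁰`, every `S ∈ E[p]` is congruent modulo `E⁰` to a multiple
of `T₀`. -/
theorem exists_nodeInE0_sub (M : NodeModel v W) {p : ℕ} (hp : p.Prime) (T₀ S : W.Point)
    (hT₀ : p • T₀ = 0) (hS : p • S = 0) (hT₀E : ¬ M.InE0 T₀) :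
    ∃ k : ℕ, M.InE0 (S - k • T₀) := by
  have h₁ : M.comp T₀ ^ p = 1 := by rw [← M.comp_nsmul, hT₀]; rfl
  have h₂ : M.comp S ^ p = 1 := by rw [← M.comp_nsmul, hS]; rfl
  have hne : M.comp T₀ ≠ 1 := fun h => hT₀E ((M.comp_eq_one_iff T₀).mp h)
  obtain ⟨k, hk⟩ := exists_pow_eq_of_torsion _ hp (M.comp T₀) (M.comp S) h₁ h₂ hne
  refine ⟨k, ?_⟩
  rw [← M.comp_eq_one_iff, M.comp_sub, M.comp_nsmul, hk, mul_inv_cancel]

end exists_toric

/-- A prime dividing `abc` divides the discriminant of the integral Frey model. -/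
lemma dvd_freyΔ_of_dvd_abc {ℓ : ℕ} (hℓ : ℓ.Prime) (hbad : (ℓ : ℤ) ∣ P.a * P.b * P.c) :
    (ℓ : ℤ) ∣ P.freyCurveInt.Δ := by
  have hℓ' : Prime (ℓ : ℤ) := Nat.prime_iff_prime_int.mp hℓ
  have h := Fermat.Agent.Ribet.H164.g1a_Δ P
  by_cases h2 : ℓ = 2
  · subst h2
    obtain ⟨t, ht⟩ := hbad
    have h10 : (2 : ℤ) ^ 10 ∣ (P.a * P.b * P.c) ^ (2 * P.p) := by
      rw [ht, mul_pow]
      have h5 := P.hp5
      exact Dvd.dvd.mul_right (pow_dvd_pow _ (by omega)) _
    rw [← h] at h10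
    have e : (2 : ℤ) ^ 10 = 2 ^ 8 * 4 := by norm_num
    rw [e] at h10
    have h4 : (4 : ℤ) ∣ P.freyCurveInt.Δ := (mul_dvd_mul_iff_left (by norm_num)).mp h10
    exact (by norm_num : ((2 : ℕ) : ℤ) ∣ 4).trans h4
  · have h1 : (ℓ : ℤ) ∣ 2 ^ 8 * P.freyCurveInt.Δ := by
      rw [h]; exact dvd_pow hbad (by have := P.hp5; omega)
    rcases hℓ'.dvd_or_dvd h1 with h3 | h3
    · exfalso
      have h4 := hℓ'.dvd_of_dvd_pow h3
      have h5 : ℓ ∣ 2 := by exact_mod_cast h4
      exact h2 ((Nat.prime_dvd_prime_iff_eq hℓ Nat.prime_two).mp h5)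
    · exact h3

/-- **LOCAL-TORIC.**  A cofixed line of the Frey curve lies in `E⁰` at every multiplicative
prime `ℓ ≠ p` with `p ∤ ℓ - 1`, `p ∤ ℓ + 1`. -/
theorem toric_local
    (N : Submodule (ZMod P.p) (Submodule.torsionBy ℤ (FreyPt P) P.p)) (hN : IsCofixedLine P N)
    {ℓ : ℕ} (hℓ : ℓ.Prime) (hℓp : ℓ ≠ P.p) (hbad : (ℓ : ℤ) ∣ P.a * P.b * P.c)
    (hnd : ¬ P.p ∣ ℓ - 1) (hnd' : ¬ P.p ∣ ℓ + 1)
    (A : ValuationSubring _root_.Fermat.Agent.S12.H291.Qb) (hA : A.LiesOverPrime ℓ)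
    (T : Submodule.torsionBy ℤ (FreyPt P) P.p) (hT : T ∈ N) :
    FreyInE0 P A (T : FreyPt P) := by
  classical
  by_contra hT0
  have hred := frey_isRedOf P A
  have hφ : KerMax A (IsLocalRing.residue A) := kerMax_residue A
  obtain ⟨M, he, hσe⟩ := exists_freyNode P hℓ hA hbad
  have hTM : ¬ M.InE0 (T : FreyPt P) := fun h => hT0 (inE0_of_nodeInE0 hred hφ M he h)
  obtain ⟨S, hS⟩ : ∃ S : Submodule.torsionBy ℤ (FreyPt P) P.p, S ∉ N := by
    by_contra h
    push Not at h
    exact hN.ne_top (eq_top_iff.mpr fun x _ => h x)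
  obtain ⟨k, hk⟩ := exists_nodeInE0_sub M P.pp (T : FreyPt P) (S : FreyPt P)
    (nsmul_eq_zero_of_mem_torsion T) (nsmul_eq_zero_of_mem_torsion S) hTM
  set Q : Submodule.torsionBy ℤ (FreyPt P) P.p := S - k • T with hQdef
  have hQcoe : (Q : FreyPt P) = (S : FreyPt P) - k • (T : FreyPt P) := rfl
  have hQN : Q ∉ N := by
    intro h
    apply hS
    have h1 : k • T ∈ N := N.nsmul_mem hT k
    have h2 := N.add_mem h h1
    rwa [hQdef, sub_add_cancel] at h2
  have hQ0 : Q ≠ 0 := fun h => hQN (h ▸ N.zero_mem)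
  have hQE : M.InE0 (Q : FreyPt P) := by rw [hQcoe]; exact hk
  obtain ⟨σ, hσ⟩ := Fermat.Agent.S37.H99.exists_isFrobeniusAt ℓ hℓ A hA
  have hD : σ • Q - Q ∈ N := hN.cofixed σ Q
  have hDcoe : ((σ • Q - Q : Submodule.torsionBy ℤ (FreyPt P) P.p) : FreyPt P) =
      σ • (Q : FreyPt P) - (Q : FreyPt P) := rfl
  have hDE : M.InE0 ((σ • Q - Q : Submodule.torsionBy ℤ (FreyPt P) P.p) : FreyPt P) := by
    rw [hDcoe]
    exact M.inE0_sub (nodeInE0_smul P M hσ.mem_decompositionSubgroup (hσe σ) hQE) hQE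
  have hD0 : σ • Q - Q = 0 := by
    by_contra hne
    obtain ⟨j, hj⟩ := Fermat.Agent.S13.H64.frey_line P N hN.ne_top _ hD hne T hT
    apply hTM
    have : (T : FreyPt P) = j • ((σ • Q - Q : Submodule.torsionBy ℤ (FreyPt P) P.p) : FreyPt P) :=
      congrArg Subtype.val hj
    rw [this]
    exact nodeInE0_zsmul M hDE j
  have hfix : σ • (Q : FreyPt P) = (Q : FreyPt P) := by
    have := congrArg Subtype.val hD0
    rw [hDcoe] at this
    exact sub_eq_zero.mp this
  have hord : addOrderOf (Q : FreyPt P) = P.p := addOrderOf_eq_of_mem_torsion Q hQ0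
  have hΔ := dvd_freyΔ_of_dvd_abc P hℓ hbad
  have hc₄ := Fermat.Agent.Ribet.H164.g1a_semistable P ℓ hℓ hΔ
  exact (dvd_of_frob_fixed P.pp P.freyCurve P.freyCurveInt A hℓ hℓp hA hΔ hc₄ hred σ hσ
    (Q : FreyPt P) hfix hord (inE0_of_nodeInE0 hred hφ M he hQE)).elim hnd hnd'

/-- **Toric at `2`.** -/
theorem toric_two (hp : 5 ≤ P.p)
    (N : Submodule (ZMod P.p) (Submodule.torsionBy ℤ (FreyPt P) P.p)) (hN : IsCofixedLine P N)
    (A : ValuationSubring _root_.Fermat.Agent.S12.H291.Qb) (hA : A.LiesOverPrime 2)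
    (T : Submodule.torsionBy ℤ (FreyPt P) P.p) (hT : T ∈ N) :
    FreyInE0 P A (T : FreyPt P) := by
  refine toric_local P N hN Nat.prime_two (by omega) P.two_dvd_abc ?_ ?_ A hA T hT
  · intro h
    have := Nat.le_of_dvd (by norm_num) h
    omega
  · intro h
    have := Nat.le_of_dvd (by norm_num) h
    omega

/-- **Toric at `3`** (when `3 ∣ abc`). -/
theorem toric_three (hp : 5 ≤ P.p) (h3 : (3 : ℤ) ∣ P.a * P.b * P.c)
    (N : Submodule (ZMod P.p) (Submodule.torsionBy ℤ (FreyPt P) P.p)) (hN : IsCofixedLine P N)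
    (A : ValuationSubring _root_.Fermat.Agent.S12.H291.Qb) (hA : A.LiesOverPrime 3)
    (T : Submodule.torsionBy ℤ (FreyPt P) P.p) (hT : T ∈ N) :
    FreyInE0 P A (T : FreyPt P) := by
  refine toric_local P N hN Nat.prime_three (by omega) (by exact_mod_cast h3) ?_ ?_ A hA T hT
  · intro h
    have := Nat.le_of_dvd (by norm_num) h
    omega
  · intro h
    have := Nat.le_of_dvd (by norm_num) h
    omega

end Fermat.Agent.S12.H291

end
end
-- ===== PACK-END S12/H291/ToricFrey.lean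

-- ===== PACK-BEGIN S12/H291/GoodSmall.lean
section


/-!
# S12 one-step route: small primes of good reduction (helper291)

`no_cofixed_of_good_small` : if `ℓ ∤ abc` is a prime with `2ℓ + 1 < p`, the Frey curve has no
cofixed line.  (A Frobenius element `σ` at `ℓ` has a nonzero fixed vector `Q ∈ E[p]`, because
`σ - 1` maps `E[p]` into the line `N`; `Q` reduces to an `𝔽_ℓ`-point of order `p`, and
`#E(𝔽_ℓ) ≤ 2ℓ + 1`.)  In particular `3 ∣ abc` whenever a cofixed line exists and `p ≥ 11`.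
-/

set_option autoImplicit false
set_option linter.unusedSectionVars false
set_option linter.style.haveILetI false

noncomputable section

open WeierstrassCurve WeierstrassCurve.Affine WeierstrassCurve.Affine.Point

namespace Fermat.Agent.S12.H291

open Fermat.Agent.Lib.Red.H290 Fermat.Agent.S15.H242

variable (P : FreyPackage)

/-- A prime not dividing `abc` does not divide the discriminant of the integral Frey model. -/
lemma not_dvd_freyΔ_of_not_dvd_abc {ℓ : ℕ} (hℓ : ℓ.Prime) (hgood : ¬ (ℓ : ℤ) ∣ P.a * P.b * P.c) :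
    ¬ (ℓ : ℤ) ∣ P.freyCurveInt.Δ := by
  intro h
  have hℓ' : Prime (ℓ : ℤ) := Nat.prime_iff_prime_int.mp hℓ
  have h1 : (ℓ : ℤ) ∣ (P.a * P.b * P.c) ^ (2 * P.p) := by
    rw [← Fermat.Agent.Ribet.H164.g1a_Δ]; exact dvd_mul_of_dvd_right h _
  exact hgood (hℓ'.dvd_of_dvd_pow h1)

/-- At a prime of good reduction the reduced curve is nonsingular. -/
lemma frey_redΔ_ne_zero {ℓ : ℕ} (hℓ : ℓ.Prime) (hgood : ¬ (ℓ : ℤ) ∣ P.a * P.b * P.c)
    (A : ValuationSubring Qb) (hA : A.LiesOverPrime ℓ) :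
    (P.freyCurveInt⁄(IsLocalRing.ResidueField A)).Δ ≠ 0 := by
  have hφ : KerMax A (IsLocalRing.residue A) := kerMax_residue A
  have h1 : A.valuation ((P.freyCurveInt.Δ : ℤ) : Qb) = 1 :=
    val_intCast_eq_one A hA hℓ (not_dvd_freyΔ_of_not_dvd_abc P hℓ hgood)
  have h2 := (rd_ne_zero_iff hφ (intCast_mem A _)).mpr h1
  rw [rd_intCast] at h2
  show (P.freyCurveInt.map (algebraMap ℤ (IsLocalRing.ResidueField A))).Δ ≠ 0
  rw [WeierstrassCurve.map_Δ, eq_intCast]
  exact h2

/-- Every endomorphism-like map `σ` with `σ x - x ∈ N` for a proper submodule `N` has a nonzero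
fixed vector in `E[p]`. -/
lemma exists_fixed_of_cofixed
    (N : Submodule (ZMod P.p) (Submodule.torsionBy ℤ (FreyPt P) P.p)) (hN : IsCofixedLine P N)
    (σ : Qb ≃ₐ[ℚ] Qb) :
    ∃ Q : Submodule.torsionBy ℤ (FreyPt P) P.p, Q ≠ 0 ∧ σ • Q = Q := by
  obtain ⟨T, hTN, hT0⟩ : ∃ T : Submodule.torsionBy ℤ (FreyPt P) P.p, T ∈ N ∧ T ≠ 0 := by
    by_contra h
    push Not at h
    exact hN.ne_bot ((Submodule.eq_bot_iff N).mpr h)
  obtain ⟨S, hS⟩ : ∃ S : Submodule.torsionBy ℤ (FreyPt P) P.p, S ∉ N := by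
    by_contra h
    push Not at h
    exact hN.ne_top (eq_top_iff.mpr fun x _ => h x)
  by_cases hD : σ • T - T = 0
  · exact ⟨T, hT0, sub_eq_zero.mp hD⟩
  · obtain ⟨j, hj⟩ := Fermat.Agent.S13.H64.frey_line P N hN.ne_top _ (hN.cofixed σ T) hD
      (σ • S - S) (hN.cofixed σ S)
    refine ⟨S - j • T, ?_, ?_⟩
    · intro h0
      apply hS
      have : S = j • T := sub_eq_zero.mp h0
      rw [this]
      exact zsmul_mem hTN j
    · have e : σ • (S - j • T) = σ • S - j • (σ • T) := by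
        rw [smul_sub, smul_comm]
      rw [e]
      have h1 : σ • S = S + j • (σ • T - T) := by rw [← hj]; abel
      rw [h1, smul_sub]
      abel

/-- **GOOD-SMALL.**  No cofixed line if some prime `ℓ ∤ abc` has `2ℓ + 1 < p`. -/
theorem no_cofixed_of_good_small
    (N : Submodule (ZMod P.p) (Submodule.torsionBy ℤ (FreyPt P) P.p)) (hN : IsCofixedLine P N)
    {ℓ : ℕ} (hℓ : ℓ.Prime) (hgood : ¬ (ℓ : ℤ) ∣ P.a * P.b * P.c) (hsmall : 2 * ℓ + 1 < P.p) :
    False := by
  classical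
  obtain ⟨A, hA⟩ := Fermat.Agent.S54.exists_valuationSubring_liesOver ℓ hℓ
  obtain ⟨σ, hσ⟩ := Fermat.Agent.S37.H99.exists_isFrobeniusAt ℓ hℓ A hA
  obtain ⟨Q, hQ0, hQfix⟩ := exists_fixed_of_cofixed P N hN σ
  have hred := frey_isRedOf P A
  have hΔ := frey_redΔ_ne_zero P hℓ hgood A hA
  have hE0 : InE0 A (IsLocalRing.residue A) (P.freyCurveInt⁄(IsLocalRing.ResidueField A))
      (Q : FreyPt P) := by
    rcases hQ : (Q : FreyPt P) with _ | ⟨x, y, hxy⟩
    · exact inE0_zero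
    · intro hx
      exact rd_nonsingular hred hΔ hx hxy.1
  have hfix : σ • (Q : FreyPt P) = (Q : FreyPt P) := congrArg Subtype.val hQfix
  have hord : addOrderOf (Q : FreyPt P) = P.p := addOrderOf_eq_of_mem_torsion Q hQ0
  have := le_of_frob_fixed P.pp P.freyCurve P.freyCurveInt A hℓ (by omega) hA hred σ hσ
    (Q : FreyPt P) hfix hord hE0
  omega

/-- If a cofixed line exists and `p ≥ 11`, then `3 ∣ abc`. -/
theorem three_dvd_abc_of_cofixed (hp : 11 ≤ P.p)
    (N : Submodule (ZMod P.p) (Submodule.torsionBy ℤ (FreyPt P) P.p)) (hN : IsCofixedLine P N) :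
    (3 : ℤ) ∣ P.a * P.b * P.c := by
  by_contra h
  exact no_cofixed_of_good_small P N hN Nat.prime_three (by exact_mod_cast h) (by omega)

end Fermat.Agent.S12.H291

end
end
-- ===== PACK-END S12/H291/GoodSmall.lean

-- ===== PACK-BEGIN Lib/Cheb/H221/CycAlg.lean
section






/-!
# CYC, algebraic part (helper221)

Setting of `Spec.CycStatement`: `L/ℚ` Galois, `ζ ∈ L` a primitive `m`-th root of unity,
`g ∈ Gal(L/ℚ)` such that `⟨g⟩` acts faithfully on `ζ`.
-/

set_option autoImplicit false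

open NumberField

namespace Fermat.Agent.Lib.Cheb.H221

set_option linter.unusedSectionVars false

section basic

variable {L : Type} [Field L] [NumberField L] [IsGalois ℚ L]

lemma modEq_of_pow_eq_pow {m : ℕ} [NeZero m] {ζ : L} (hζ : IsPrimitiveRoot ζ m) {i j : ℕ}
    (h : ζ ^ i = ζ ^ j) : i ≡ j [MOD m] := by
  have ho := hζ.eq_orderOf
  have h1 : ζ ^ (i % m) = ζ ^ (j % m) := by
    rw [ho, pow_mod_orderOf, pow_mod_orderOf, h]
  exact hζ.pow_inj (Nat.mod_lt _ (NeZero.pos m)) (Nat.mod_lt _ (NeZero.pos m)) h1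

lemma card_quot_under_eq {p : ℕ} (hp : p.Prime) {P : Ideal (𝓞 L)} (hP : P.IsPrime)
    (hpP : (p : 𝓞 L) ∈ P) : Nat.card (ℤ ⧸ P.under ℤ) = p := by
  have : Fact p.Prime := ⟨hp⟩
  have hmax := Int.ideal_span_isMaximal_of_prime p
  have hle : Ideal.span {(p : ℤ)} ≤ P.under ℤ := by
    rw [Ideal.span_le, Set.singleton_subset_iff]
    change (p : ℤ) ∈ Ideal.comap (algebraMap ℤ (𝓞 L)) P
    rw [Ideal.mem_comap]
    simpa using hpP
  have hne : P.under ℤ ≠ ⊤ := (Ideal.IsPrime.under ℤ P).ne_top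
  have heq : Ideal.span {(p : ℤ)} = P.under ℤ := hmax.eq_of_le hne hle
  rw [← heq, ← Submodule.cardQuot_apply, ← Ideal.absNorm_apply, Ideal.absNorm_span_singleton]
  simp

lemma natCast_notMem_of_not_dvd {p m : ℕ} (hp : p.Prime) (hpm : ¬ p ∣ m) {P : Ideal (𝓞 L)}
    (hP : P.IsPrime) (hpP : (p : 𝓞 L) ∈ P) : (m : 𝓞 L) ∉ P := by
  intro hm
  have hcop : Nat.Coprime p m := (Nat.Prime.coprime_iff_not_dvd hp).mpr hpm
  have h1 : ((p : ℤ) * Nat.gcdA p m + (m : ℤ) * Nat.gcdB p m : ℤ) = 1 := by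
    have := Nat.gcd_eq_gcd_ab p m
    rw [hcop] at this
    simpa using this.symm
  have h2 : ((1 : ℤ) : 𝓞 L) ∈ P := by
    rw [← h1]
    push_cast
    exact P.add_mem (P.mul_mem_right _ hpP) (P.mul_mem_right _ hm)
  exact hP.ne_top ((Ideal.eq_top_iff_one P).mpr (by simpa using h2))

variable {m : ℕ} [NeZero m] {ζ : L} (hζ : IsPrimitiveRoot ζ m)

include hζ in
/-- A Frobenius at a prime above `p ∤ m` raises `ζ` to the `p`-th power. -/
lemma frob_apply_zeta {p : ℕ} (hp : p.Prime) (hpm : ¬ p ∣ m) {P : Ideal (𝓞 L)}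
    (hP : P.IsPrime) (hpP : (p : 𝓞 L) ∈ P) {τ : L ≃ₐ[ℚ] L} (hτ : IsArithFrobAt ℤ τ P) :
    τ ζ = ζ ^ p := by
  have h1 : hζ.toInteger ^ m = 1 := hζ.toInteger_isPrimitiveRoot.pow_eq_one
  have h2 := AlgHom.IsArithFrobAt.apply_of_pow_eq_one hτ h1
    (natCast_notMem_of_not_dvd hp hpm hP hpP)
  rw [card_quot_under_eq hp hP hpP] at h2
  have h3 := congrArg (fun x : 𝓞 L => (x : L)) h2
  exact h3

/-- The cyclotomic character of a Frobenius at a prime above `p ∤ m` is `p mod m`. -/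
lemma autToPow_frob {p : ℕ} (hp : p.Prime) (hpm : ¬ p ∣ m) {P : Ideal (𝓞 L)}
    (hP : P.IsPrime) (hpP : (p : 𝓞 L) ∈ P) {τ : L ≃ₐ[ℚ] L} (hτ : IsArithFrobAt ℤ τ P) :
    ((hζ.autToPow ℚ τ : (ZMod m)ˣ) : ZMod m) = (p : ZMod m) := by
  have h1 := frob_apply_zeta hζ hp hpm hP hpP hτ
  have h2 := hζ.autToPow_spec ℚ τ
  rw [h1] at h2
  have h3 := modEq_of_pow_eq_pow hζ h2
  have := (ZMod.natCast_eq_natCast_iff _ _ m).mpr h3
  simpa using this

include hζ in
lemma apply_zeta_of_autToPow_eq_one {σ : L ≃ₐ[ℚ] L} (h : hζ.autToPow ℚ σ = 1) : σ ζ = ζ := by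
  have h2 := hζ.autToPow_spec ℚ σ
  rw [h] at h2
  rw [← h2]
  have ho := hζ.eq_orderOf
  have h3 : ((1 : (ZMod m)ˣ) : ZMod m).val = 1 % m := by
    rw [Units.val_one, ZMod.val_one_eq_one_mod]
  rw [h3]
  conv_lhs => rw [ho, pow_mod_orderOf]
  exact pow_one ζ

lemma autToPow_eq_one_of_apply_zeta {σ : L ≃ₐ[ℚ] L} (h : σ ζ = ζ) : hζ.autToPow ℚ σ = 1 := by
  have h2 := hζ.autToPow_spec ℚ σ
  rw [h] at h2
  have h3 : (hζ.autToPow ℚ σ : ZMod m).val ≡ 1 [MOD m] := by
    apply modEq_of_pow_eq_pow hζ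
    rw [h2, pow_one]
  have := (ZMod.natCast_eq_natCast_iff _ _ m).mpr h3
  ext
  simpa using this

variable {g : L ≃ₐ[ℚ] L} (hg : ∀ k : ℕ, (g ^ k) ζ = ζ → g ^ k = 1)

include hg in
lemma eq_one_of_mem_zpowers {τ : L ≃ₐ[ℚ] L} (hτ : τ ∈ Subgroup.zpowers g)
    (h : hζ.autToPow ℚ τ = 1) : τ = 1 := by
  rw [← mem_powers_iff_mem_zpowers] at hτ
  obtain ⟨k, rfl⟩ := hτ
  exact hg k (apply_zeta_of_autToPow_eq_one hζ h)

include hg in
lemma eq_of_mem_zpowers {τ : L ≃ₐ[ℚ] L} (hτ : τ ∈ Subgroup.zpowers g)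
    (h : hζ.autToPow ℚ τ = hζ.autToPow ℚ g) : τ = g := by
  have h1 : τ * g⁻¹ ∈ Subgroup.zpowers g :=
    Subgroup.mul_mem _ hτ (Subgroup.inv_mem _ (Subgroup.mem_zpowers g))
  have h2 : hζ.autToPow ℚ (τ * g⁻¹) = 1 := by
    rw [map_mul, map_inv, h, mul_inv_cancel]
  have := eq_one_of_mem_zpowers hζ hg h1 h2
  exact mul_inv_eq_one.mp this

include hg in
lemma orderOf_autToPow : orderOf (hζ.autToPow ℚ g) = orderOf g := by
  rw [orderOf_eq_orderOf_iff]
  intro n
  rw [← map_pow]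
  constructor
  · intro h
    exact hg n (apply_zeta_of_autToPow_eq_one hζ h)
  · intro h
    rw [h, map_one]

end basic

section weight

variable (L : Type) [Field L] [NumberField L] [IsGalois ℚ L]

lemma primesLe_finite (H : Subgroup (L ≃ₐ[ℚ] L)) {p : ℕ} (hp : p.Prime) :
    (Spec.primesLe L H p).Finite :=
  (H341.primesAbove_finite L hp).subset (fun _ hP => ⟨hP.1, hP.2.1⟩)

variable {L}

lemma exists_of_decompWeight_ne_zero {H : Subgroup (L ≃ₐ[ℚ] L)} {p : ℕ}
    (h : Spec.decompWeight L H p ≠ 0) : ∃ P, P ∈ Spec.primesLe L H p := by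
  by_contra hcon
  push Not at hcon
  apply h
  unfold Spec.decompWeight
  have : IsEmpty (Spec.primesLe L H p) := ⟨fun P => hcon P.1 P.2⟩
  exact finsum_of_isEmpty _

lemma decompWeight_ne_zero {H : Subgroup (L ≃ₐ[ℚ] L)} {p : ℕ} (hp : p.Prime)
    {P : Ideal (𝓞 L)} (hP : P ∈ Spec.primesLe L H p) : Spec.decompWeight L H p ≠ 0 := by
  unfold Spec.decompWeight
  have hfin : Finite (Spec.primesLe L H p) := (primesLe_finite L H hp).to_subtype
  have : Fintype (Spec.primesLe L H p) := Fintype.ofFinite _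
  rw [finsum_eq_sum_of_fintype]
  intro h0
  rw [Finset.sum_eq_zero_iff] at h0
  have h1 := h0 ⟨P, hP⟩ (Finset.mem_univ _)
  exact Nat.card_pos.ne' h1

lemma decompWeight_congr {H H' : Subgroup (L ≃ₐ[ℚ] L)} {p : ℕ}
    (h : Spec.primesLe L H p = Spec.primesLe L H' p) :
    Spec.decompWeight L H p = Spec.decompWeight L H' p := by
  unfold Spec.decompWeight
  rw [finsum_set_coe_eq_finsum_mem (f := fun P : Ideal (𝓞 L) => Nat.card (Spec.decomp L P))
      (Spec.primesLe L H p),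
    finsum_set_coe_eq_finsum_mem (f := fun P : Ideal (𝓞 L) => Nat.card (Spec.decomp L P))
      (Spec.primesLe L H' p), h]

lemma decompWeight_eq_zero {H : Subgroup (L ≃ₐ[ℚ] L)} {p : ℕ}
    (h : ∀ P, P ∉ Spec.primesLe L H p) : Spec.decompWeight L H p = 0 := by
  by_contra h0
  obtain ⟨P, hP⟩ := exists_of_decompWeight_ne_zero h0
  exact h P hP

end weight

section main

variable {L : Type} [Field L] [NumberField L] [IsGalois ℚ L]
variable {m : ℕ} [NeZero m] {ζ : L} (hζ : IsPrimitiveRoot ζ m)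
variable {g : L ≃ₐ[ℚ] L} (hg : ∀ k : ℕ, (g ^ k) ζ = ζ → g ^ k = 1)

/-- Frobenius data at a prime `P ∣ p` whose decomposition group lies in `⟨g⟩`. -/
lemma exists_frob_of_mem_primesLe {B : Finset ℕ}
    (hB : ∀ p : ℕ, p.Prime → p ∉ B → ∀ P : Ideal (𝓞 L), P.IsPrime → (p : 𝓞 L) ∈ P →
        Spec.InertiaTrivial L P ∧
        ∃ τ : L ≃ₐ[ℚ] L, IsArithFrobAt ℤ τ P ∧ Spec.decomp L P = Subgroup.zpowers τ)
    {p : ℕ} (hp : p.Prime) (hpB : p ∉ B) (hpm : ¬ p ∣ m) {H : Subgroup (L ≃ₐ[ℚ] L)}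
    {P : Ideal (𝓞 L)} (hP : P ∈ Spec.primesLe L H p) :
    Spec.InertiaTrivial L P ∧ ∃ τ : L ≃ₐ[ℚ] L, IsArithFrobAt ℤ τ P ∧
      Spec.decomp L P = Subgroup.zpowers τ ∧ τ ∈ H ∧
      ((hζ.autToPow ℚ τ : (ZMod m)ˣ) : ZMod m) = (p : ZMod m) := by
  obtain ⟨hI, τ, hτ, hD⟩ := hB p hp hpB P hP.1 hP.2.1
  refine ⟨hI, τ, hτ, hD, ?_, autToPow_frob hζ hp hpm hP.1 hP.2.1 hτ⟩
  apply hP.2.2
  rw [hD]
  exact Subgroup.mem_zpowers τ

theorem cycAlg : CycAlgStatement := by
  intro hA hD hM L _ _ _ m _ ζ hζ g hg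
  classical
  refine ⟨by rw [Nat.card_zpowers]; exact orderOf_autToPow hζ hg, ?_⟩
  obtain ⟨B1, hB1⟩ := hA L (Subgroup.zpowers g)
  obtain ⟨B2, hB2⟩ := hA L ⊥
  obtain ⟨B3, hB3⟩ := hD L
  have hcard : 0 < Nat.card (Subgroup.zpowers g) := Nat.card_pos
  refine ⟨B1 ∪ B2 ∪ B3 ∪ m.primeFactors, ?_, ?_, ?_, ?_⟩
  · -- SUPP
    intro p hp hpB hc
    simp only [Finset.mem_union, not_or] at hpB
    obtain ⟨⟨⟨hp1, hp2⟩, hp3⟩, hp4⟩ := hpB
    have hpm : ¬ p ∣ m := fun h => hp4 (Nat.mem_primeFactors.mpr ⟨hp, h, NeZero.ne m⟩)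
    have hw : Spec.decompWeight L (Subgroup.zpowers g) p ≠ 0 := by
      rw [← hB1 p hp hp1]
      exact Nat.mul_ne_zero hc hcard.ne'
    obtain ⟨P, hP⟩ := exists_of_decompWeight_ne_zero hw
    obtain ⟨-, τ, -, -, hτg, hτp⟩ := exists_frob_of_mem_primesLe hζ hB3 hp hp3 hpm hP
    refine ⟨hζ.autToPow ℚ τ, ?_, hτp⟩
    obtain ⟨k, rfl⟩ := Subgroup.mem_zpowers_iff.mp hτg
    rw [map_zpow]
    exact Subgroup.zpow_mem _ (Subgroup.mem_zpowers _) k
  · -- SPLIT
    intro p hp hpB
    simp only [Finset.mem_union, not_or] at hpB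
    obtain ⟨⟨⟨hp1, hp2⟩, hp3⟩, hp4⟩ := hpB
    have hpm : ¬ p ∣ m := fun h => hp4 (Nat.mem_primeFactors.mpr ⟨hp, h, NeZero.ne m⟩)
    have h1 := hB1 p hp hp1
    have h2 := hB2 p hp hp2
    rw [Nat.card_eq_one_iff_unique.mpr ⟨inferInstance, inferInstance⟩, mul_one] at h2
    rw [Nat.card_zpowers] at h1
    split_ifs with hp1m
    · -- p ≡ 1
      have hset : Spec.primesLe L (Subgroup.zpowers g) p = Spec.primesLe L ⊥ p := by
        ext P
        constructor
        · intro hP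
          obtain ⟨-, τ, -, hDP, hτg, hτp⟩ := exists_frob_of_mem_primesLe hζ hB3 hp hp3 hpm hP
          have hτ1 : τ = 1 := by
            apply eq_one_of_mem_zpowers hζ hg hτg
            ext
            rw [hτp, hp1m]
            simp
          refine ⟨hP.1, hP.2.1, ?_⟩
          rw [hDP, hτ1]
          simp
        · intro hP
          exact ⟨hP.1, hP.2.1, hP.2.2.trans bot_le⟩
      rw [h2, ← decompWeight_congr hset, ← h1, mul_comm]
    · -- p ≢ 1
      rw [h2]
      apply decompWeight_eq_zero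
      intro P hP
      obtain ⟨-, τ, -, hDP, hτg, hτp⟩ := exists_frob_of_mem_primesLe hζ hB3 hp hp3 hpm hP
      apply hp1m
      rw [← hτp]
      have : τ = 1 := by simpa using hτg
      rw [this, map_one]
      simp
  · -- NT
    intro χ hχ
    obtain ⟨p, P, τ, hp, hpB, hP, hpP, hI, hτ, hτg⟩ :=
      hM L g (B1 ∪ B2 ∪ B3 ∪ m.primeFactors)
    simp only [Finset.mem_union, not_or] at hpB
    obtain ⟨⟨⟨hp1, hp2⟩, hp3⟩, hp4⟩ := hpB
    have hpm : ¬ p ∣ m := fun h => hp4 (Nat.mem_primeFactors.mpr ⟨hp, h, NeZero.ne m⟩)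
    have hDP : Spec.decomp L P = Subgroup.zpowers g := by
      have := hP
      rw [H943.decomp_eq_zpowers hp hpP hI hτ, hτg]
    have hPle : P ∈ Spec.primesLe L (Subgroup.zpowers g) p := ⟨hP, hpP, hDP.le⟩
    have hw := decompWeight_ne_zero hp hPle
    rw [← hB1 p hp hp1] at hw
    have hc : Spec.primeCount (fixM L g) p ≠ 0 := fun h => hw (by rw [h, zero_mul])
    -- a prime of norm `p`
    have hne : Nonempty {𝔮 : Ideal (𝓞 (fixM L g)) // 𝔮.IsPrime ∧ Ideal.absNorm 𝔮 = p} := by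
      by_contra hemp
      rw [not_nonempty_iff] at hemp
      exact hc Nat.card_of_isEmpty
    obtain ⟨𝔮, -, h𝔮⟩ := hne
    refine ⟨𝔮, ?_, ?_⟩
    · rw [h𝔮]
      have hu : IsUnit (p : ZMod m) := by
        rw [ZMod.isUnit_iff_coprime]
        exact (Nat.Prime.coprime_iff_not_dvd hp).mpr hpm
      exact (hu.map χ).ne_zero
    · rw [h𝔮]
      intro h1
      apply hχ
      have hτp := autToPow_frob hζ hp hpm hP hpP hτ
      have hgτ : g ∈ Subgroup.zpowers τ := by rw [hτg]; exact Subgroup.mem_zpowers g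
      obtain ⟨k, hk⟩ := (mem_powers_iff_mem_zpowers.mpr hgτ)
      rw [← hk, map_pow, Units.val_pow_eq_pow_val, hτp, map_pow, h1, one_pow]
  · -- FIN
    intro p hp hpB hc hpa
    simp only [Finset.mem_union, not_or] at hpB
    obtain ⟨⟨⟨hp1, hp2⟩, hp3⟩, hp4⟩ := hpB
    have hpm : ¬ p ∣ m := fun h => hp4 (Nat.mem_primeFactors.mpr ⟨hp, h, NeZero.ne m⟩)
    have hw : Spec.decompWeight L (Subgroup.zpowers g) p ≠ 0 := by
      rw [← hB1 p hp hp1]
      exact Nat.mul_ne_zero hc hcard.ne'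
    obtain ⟨P, hP⟩ := exists_of_decompWeight_ne_zero hw
    obtain ⟨hI, τ, hτ, -, hτg, hτp⟩ := exists_frob_of_mem_primesLe hζ hB3 hp hp3 hpm hP
    have : τ = g := by
      apply eq_of_mem_zpowers hζ hg hτg
      ext
      rw [hτp, hpa]
    exact ⟨P, hP.1, hP.2.1, hI, this ▸ hτ⟩

end main

end Fermat.Agent.Lib.Cheb.H221

end
-- ===== PACK-END Lib/Cheb/H221/CycAlg.lean

-- ===== PACK-BEGIN Lib/Cheb/H221/CycEP.lean
section





/-!
# CYC, Euler product of `L_F(s, χ ∘ N)` (helper221)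
-/

set_option autoImplicit false

open NumberField IsDedekindDomain Filter Topology

namespace Fermat.Agent.Lib.Cheb.H221

set_option linter.unusedSectionVars false

section

variable (F : Type) [Field F] [NumberField F] {m : ℕ} [NeZero m] (χ : DirichletCharacter ℂ m)

/-- `χ(N I) N(I)^(-s)` -/
noncomputable def twTerm (s : ℝ) (I : Ideal (𝓞 F)) : ℂ :=
  χ (Ideal.absNorm I : ZMod m) * (((Ideal.absNorm I : ℝ) ^ (-s) : ℝ) : ℂ)

lemma twTerm_mul (s : ℝ) (I J : Ideal (𝓞 F)) :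
    twTerm F χ s (I * J) = twTerm F χ s I * twTerm F χ s J := by
  unfold twTerm
  have h := H761.normPow_mul F s I J
  unfold H761.normPow at h
  rw [h, map_mul, Nat.cast_mul, map_mul]
  push_cast
  ring

lemma twTerm_top (s : ℝ) : twTerm F χ s ⊤ = 1 := by
  simp [twTerm]

lemma twTerm_bot {s : ℝ} (hs : s ≠ 0) : twTerm F χ s ⊥ = 0 := by
  have h0 : (0 : ℝ) ^ (-s) = 0 := Real.zero_rpow (neg_ne_zero.mpr hs)
  simp [twTerm, h0]

lemma norm_twTerm_le (s : ℝ) (I : Ideal (𝓞 F)) : ‖twTerm F χ s I‖ ≤ H761.normPow F s I := by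
  unfold twTerm H761.normPow
  rw [norm_mul, Complex.norm_real, Real.norm_of_nonneg (Real.rpow_nonneg (Nat.cast_nonneg _) _)]
  calc ‖χ (Ideal.absNorm I : ZMod m)‖ * (Ideal.absNorm I : ℝ) ^ (-s)
      ≤ 1 * (Ideal.absNorm I : ℝ) ^ (-s) :=
        mul_le_mul_of_nonneg_right (DirichletCharacter.norm_le_one χ _)
          (Real.rpow_nonneg (Nat.cast_nonneg _) _)
    _ = _ := one_mul _

lemma summable_twTerm {s : ℝ} (hs : 1 < s) : Summable (twTerm F χ s) :=
  Summable.of_norm_bounded (H761.summable_normPow F hs) (norm_twTerm_le F χ s)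

/-- the sum over the ideals of norm `n` -/
lemma tsum_fiber_twTerm (s : ℝ) (n : ℕ) :
    ∑' I : {I : Ideal (𝓞 F) // Ideal.absNorm I = n}, twTerm F χ s I.1 =
      χ (n : ZMod m) * ((Spec.idealCount F n : ℂ) * (((n : ℝ) ^ (-s) : ℝ) : ℂ)) := by
  have hfin : Finite {I : Ideal (𝓞 F) // Ideal.absNorm I = n} :=
    (Ideal.finite_setOfPred_absNorm_eq n).to_subtype
  have : Fintype {I : Ideal (𝓞 F) // Ideal.absNorm I = n} := Fintype.ofFinite _
  rw [tsum_fintype]
  have h1 : ∀ I : {I : Ideal (𝓞 F) // Ideal.absNorm I = n},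
      twTerm F χ s I.1 = χ (n : ZMod m) * (((n : ℝ) ^ (-s) : ℝ) : ℂ) := by
    intro I
    simp only [twTerm, I.2]
  simp only [h1, Finset.sum_const, Finset.card_univ, nsmul_eq_mul, Spec.idealCount,
    Nat.card_eq_fintype_card]
  ring

lemma tsum_twTerm_eq_lseries {s : ℝ} (hs : 1 < s) :
    ∑' I : Ideal (𝓞 F), twTerm F χ s I =
      LSeries (fun n => χ (n : ZMod m) * (Spec.idealCount F n : ℂ)) (s : ℂ) := by
  have hsum := summable_twTerm F χ hs
  have hsum' : Summable (fun x : Σ n : ℕ, {I : Ideal (𝓞 F) // Ideal.absNorm I = n} =>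
      twTerm F χ s x.2.1) :=
    ((Equiv.sigmaFiberEquiv (fun I : Ideal (𝓞 F) => Ideal.absNorm I)).summable_iff
      (f := twTerm F χ s)).mpr hsum
  calc ∑' I : Ideal (𝓞 F), twTerm F χ s I
      = ∑' x : Σ n : ℕ, {I : Ideal (𝓞 F) // Ideal.absNorm I = n}, twTerm F χ s x.2.1 :=
        ((Equiv.sigmaFiberEquiv (fun I : Ideal (𝓞 F) => Ideal.absNorm I)).tsum_eq
          (twTerm F χ s)).symm
    _ = ∑' n : ℕ, ∑' I : {I : Ideal (𝓞 F) // Ideal.absNorm I = n}, twTerm F χ s I.1 :=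
        hsum'.tsum_sigma
    _ = _ := by
        unfold LSeries
        refine tsum_congr fun n => ?_
        rw [tsum_fiber_twTerm]
        rcases eq_or_ne n 0 with rfl | hn
        · have : (0 : ℝ) ^ (-s) = 0 := Real.zero_rpow (by linarith)
          simp [this]
        · rw [LSeries.term_of_ne_zero hn, Complex.ofReal_cpow (Nat.cast_nonneg n),
            Complex.ofReal_neg, Complex.cpow_neg]
          simp [div_eq_mul_inv, mul_assoc]

lemma tsum_sieveSet_empty_twTerm {s : ℝ} (hs : 1 < s) :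
    ∑' I : H761.sieveSet (∅ : Set (HeightOneSpectrum (𝓞 F))), twTerm F χ s I =
      ∑' I : Ideal (𝓞 F), twTerm F χ s I := by
  have hs0 : s ≠ 0 := by linarith
  rw [← tsum_subtype_eq_of_support_subset (f := twTerm F χ s)
    (s := H761.sieveSet (∅ : Set (HeightOneSpectrum (𝓞 F))))]
  intro I hI
  rw [H761.mem_sieveSet_empty]
  rintro rfl
  exact hI (twTerm_bot F χ hs0)

theorem eulerProduct : EulerProductStatement := by
  intro F _ _ m _ χ s hs
  have hf := summable_twTerm F χ hs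
  have h1 := H761.hasProd_one_sub hf (twTerm_mul F χ s) (twTerm_top F χ s)
  have hne := H761.tsum_sieve_empty_ne_zero hf (twTerm_mul F χ s) (twTerm_top F χ s)
  have h2 := h1.inv₀ (inv_ne_zero hne)
  rw [inv_inv, tsum_sieveSet_empty_twTerm F χ hs, tsum_twTerm_eq_lseries F χ hs] at h2
  exact h2

end

end Fermat.Agent.Lib.Cheb.H221

end
-- ===== PACK-END Lib/Cheb/H221/CycEP.lean

-- ===== PACK-BEGIN Lib/Cheb/H221/CycDeg.lean
section





/-!
# CYC, twisted prime sums: prime ideals versus rational primes (helper221)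
-/

set_option autoImplicit false

open NumberField IsDedekindDomain Filter Topology

namespace Fermat.Agent.Lib.Cheb.H221

set_option linter.unusedSectionVars false

section

variable (F : Type) [Field F] [NumberField F] {m : ℕ} [NeZero m] (χ : DirichletCharacter ℂ m)

/-- `χ(N 𝔭) N(𝔭)^(-s)` -/
noncomputable def twP (s : ℝ) (𝔭 : HeightOneSpectrum (𝓞 F)) : ℂ :=
  χ (Ideal.absNorm 𝔭.asIdeal : ZMod m) * (((Ideal.absNorm 𝔭.asIdeal : ℝ) ^ (-s) : ℝ) : ℂ)

lemma norm_twP_le (s : ℝ) (𝔭 : HeightOneSpectrum (𝓞 F)) :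
    ‖twP F χ s 𝔭‖ ≤ H761.normPow F s 𝔭.asIdeal := by
  unfold twP H761.normPow
  rw [norm_mul, Complex.norm_real, Real.norm_of_nonneg (Real.rpow_nonneg (Nat.cast_nonneg _) _)]
  calc ‖χ (Ideal.absNorm 𝔭.asIdeal : ZMod m)‖ * (Ideal.absNorm 𝔭.asIdeal : ℝ) ^ (-s)
      ≤ 1 * (Ideal.absNorm 𝔭.asIdeal : ℝ) ^ (-s) :=
        mul_le_mul_of_nonneg_right (DirichletCharacter.norm_le_one χ _)
          (Real.rpow_nonneg (Nat.cast_nonneg _) _)
    _ = _ := one_mul _

lemma summable_twP {s : ℝ} (hs : 1 < s) : Summable (twP F χ s) :=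
  Summable.of_norm_bounded (H761.summable_primeSum F hs) (norm_twP_le F χ s)

lemma tsum_fibre_twP (s : ℝ) (p : Nat.Primes) :
    ∑' x : {𝔭 : H761.lowPrimes F // H761.lowNorm F 𝔭 = p}, twP F χ s x.1.1 =
      χ ((p : ℕ) : ZMod m) * (((Spec.primeCount F p : ℝ) * ((p : ℕ) : ℝ) ^ (-s) : ℝ) : ℂ) := by
  have := H761.finite_fibre F p
  have : Fintype {𝔭 : H761.lowPrimes F // H761.lowNorm F 𝔭 = p} := Fintype.ofFinite _
  rw [tsum_fintype]
  have h : ∀ x : {𝔭 : H761.lowPrimes F // H761.lowNorm F 𝔭 = p},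
      twP F χ s x.1.1 = χ ((p : ℕ) : ZMod m) * ((((p : ℕ) : ℝ) ^ (-s) : ℝ) : ℂ) := by
    intro x
    have := congrArg Subtype.val x.2
    simp only [H761.lowNorm] at this
    simp only [twP, this]
  simp only [h, Finset.sum_const, Finset.card_univ, nsmul_eq_mul, ← H761.card_fibre F p,
    Nat.card_eq_fintype_card]
  push_cast
  ring

lemma summable_primeCount {s : ℝ} (hs : 1 < s) :
    Summable (fun p : Nat.Primes => (Spec.primeCount F p : ℝ) * ((p : ℕ) : ℝ) ^ (-s)) := by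
  have hsum : Summable (fun 𝔭 : H761.lowPrimes F => H761.normPow F s 𝔭.1.asIdeal) :=
    (H761.summable_primeSum F hs).subtype _
  have hsum' : Summable (fun y : Σ p : Nat.Primes,
      {𝔭 : H761.lowPrimes F // H761.lowNorm F 𝔭 = p} => H761.normPow F s y.2.1.1.asIdeal) :=
    ((Equiv.sigmaFiberEquiv (H761.lowNorm F)).summable_iff
      (f := fun 𝔭 : H761.lowPrimes F => H761.normPow F s 𝔭.1.asIdeal)).mpr hsum
  have := hsum'.sigma
  refine this.congr fun p => ?_
  exact H761.tsum_fibre F s p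

lemma tsum_lowPrimes_twP {s : ℝ} (hs : 1 < s) :
    ∑' 𝔭 : H761.lowPrimes F, twP F χ s 𝔭.1 =
      ∑' p : Nat.Primes, χ ((p : ℕ) : ZMod m) *
        (((Spec.primeCount F p : ℝ) * ((p : ℕ) : ℝ) ^ (-s) : ℝ) : ℂ) := by
  have hsum : Summable (fun 𝔭 : H761.lowPrimes F => twP F χ s 𝔭.1) :=
    (summable_twP F χ hs).subtype _
  have hsum' : Summable (fun y : Σ p : Nat.Primes,
      {𝔭 : H761.lowPrimes F // H761.lowNorm F 𝔭 = p} => twP F χ s y.2.1.1) :=
    ((Equiv.sigmaFiberEquiv (H761.lowNorm F)).summable_iff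
      (f := fun 𝔭 : H761.lowPrimes F => twP F χ s 𝔭.1)).mpr hsum
  calc ∑' 𝔭 : H761.lowPrimes F, twP F χ s 𝔭.1
      = ∑' y : Σ p : Nat.Primes, {𝔭 : H761.lowPrimes F // H761.lowNorm F 𝔭 = p},
          twP F χ s y.2.1.1 :=
        ((Equiv.sigmaFiberEquiv (H761.lowNorm F)).tsum_eq
          (fun 𝔭 : H761.lowPrimes F => twP F χ s 𝔭.1)).symm
    _ = ∑' p : Nat.Primes, ∑' x : {𝔭 : H761.lowPrimes F // H761.lowNorm F 𝔭 = p},
          twP F χ s x.1.1 := hsum'.tsum_sigma
    _ = _ := tsum_congr fun p => tsum_fibre_twP F χ s p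

theorem twistedPrimeSum : TwistedPrimeSumStatement := by
  intro _ F _ _ m _ χ
  refine ⟨H761.highBound F, fun s hs1 _ => ⟨summable_primeCount F hs1, ?_⟩⟩
  have hsum := summable_twP F χ hs1
  have hsplit : ∑' 𝔭 : HeightOneSpectrum (𝓞 F), twP F χ s 𝔭 =
      (∑' 𝔭 : H761.lowPrimes F, twP F χ s 𝔭.1) +
        ∑' 𝔭 : H761.highPrimes F, twP F χ s 𝔭.1 := by
    have hc : H761.highPrimes F = (H761.lowPrimes F)ᶜ := rfl
    rw [hc]
    exact ((hsum.subtype _).tsum_add_tsum_compl (hsum.subtype _)).symm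
  have hhigh : ‖∑' 𝔭 : H761.highPrimes F, twP F χ s 𝔭.1‖ ≤ H761.highBound F := by
    have hs' : Summable (fun 𝔭 : H761.highPrimes F => H761.normPow F s 𝔭.1.asIdeal) :=
      (H761.summable_primeSum F hs1).subtype _
    calc ‖∑' 𝔭 : H761.highPrimes F, twP F χ s 𝔭.1‖
        ≤ ∑' 𝔭 : H761.highPrimes F, H761.normPow F s 𝔭.1.asIdeal :=
          tsum_of_norm_bounded hs'.hasSum (fun 𝔭 => norm_twP_le F χ s 𝔭.1)
      _ ≤ _ := H761.tsum_highPrimes_le F hs1
  change ‖(∑' 𝔭 : HeightOneSpectrum (𝓞 F), twP F χ s 𝔭) - _‖ ≤ _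
  rw [hsplit, tsum_lowPrimes_twP F χ hs1, add_sub_cancel_left]
  exact hhigh

end

end Fermat.Agent.Lib.Cheb.H221

end
-- ===== PACK-END Lib/Cheb/H221/CycDeg.lean

-- ===== PACK-BEGIN Lib/Cheb/H221/CycAbs.lean
section




/-!
# CYC, the abstract Dirichlet argument (helper221)
-/

set_option autoImplicit false

open Filter Topology

namespace Fermat.Agent.Lib.Cheb.H221

set_option linter.unusedSectionVars false

section chars

variable {m : ℕ} [NeZero m] (A : Subgroup (ZMod m)ˣ)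

/-- `χ` is trivial on `A` -/
def TrivOn (χ : DirichletCharacter ℂ m) : Prop :=
  ∀ u ∈ A, χ ((u : (ZMod m)ˣ) : ZMod m) = 1

open Classical in
lemma sum_subgroup_eq_zero {χ : DirichletCharacter ℂ m} (hχ : ¬ TrivOn A χ) :
    ∑ u : A, χ ((u : (ZMod m)ˣ) : ZMod m) = 0 := by
  let f : A →* ℂ := χ.toMonoidHom.comp ((Units.coeHom (ZMod m)).comp A.subtype)
  have hf : f ≠ 1 := by
    intro h
    apply hχ
    intro u hu
    have := DFunLike.congr_fun h ⟨u, hu⟩
    simpa [f] using this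
  have := sum_hom_units_eq_zero f hf
  simpa [f] using this

open Classical in
lemma sum_subgroup_eq_card {χ : DirichletCharacter ℂ m} (hχ : TrivOn A χ) :
    ∑ u : A, χ ((u : (ZMod m)ˣ) : ZMod m) = (Nat.card A : ℂ) := by
  have : ∀ u : A, χ ((u : (ZMod m)ˣ) : ZMod m) = 1 := fun u => hχ u.1 u.2
  simp [this]

open Classical in
/-- the number of characters trivial on `A`, times `|A|`, is `φ(m)` -/
lemma card_trivOn_mul :
    ((Finset.univ.filter (fun χ : DirichletCharacter ℂ m => TrivOn A χ)).card : ℂ) *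
      (Nat.card A : ℂ) = (m.totient : ℂ) := by
  have h1 : ∑ χ : DirichletCharacter ℂ m, ∑ u : A, χ ((u : (ZMod m)ˣ) : ZMod m) =
      ((Finset.univ.filter (fun χ : DirichletCharacter ℂ m => TrivOn A χ)).card : ℂ) *
        (Nat.card A : ℂ) := by
    have : ∀ χ : DirichletCharacter ℂ m, ∑ u : A, χ ((u : (ZMod m)ˣ) : ZMod m) =
        if TrivOn A χ then (Nat.card A : ℂ) else 0 := by
      intro χ
      split_ifs with h
      · exact sum_subgroup_eq_card A h
      · exact sum_subgroup_eq_zero A h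
    simp only [this]
    rw [← Finset.sum_filter, Finset.sum_const, nsmul_eq_mul]
  have h2 : ∑ χ : DirichletCharacter ℂ m, ∑ u : A, χ ((u : (ZMod m)ˣ) : ZMod m) =
      (m.totient : ℂ) := by
    rw [Finset.sum_comm]
    have : ∀ u : A, ∑ χ : DirichletCharacter ℂ m, χ ((u : (ZMod m)ˣ) : ZMod m) =
        if (u : A) = 1 then (m.totient : ℂ) else 0 := by
      intro u
      rw [DirichletCharacter.sum_characters_eq]
      congr 1
      rw [eq_iff_iff]
      constructor
      · intro h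
        ext
        simpa using h
      · intro h
        rw [h]
        simp
    simp only [this]
    simp
  rw [← h1, h2]

end chars

section analysis

variable {m : ℕ} [NeZero m] (c : Nat.Primes → ℝ)

/-- the weights `c(p) p^(-s)` -/
noncomputable def wt (s : ℝ) (p : Nat.Primes) : ℝ := c p * ((p : ℕ) : ℝ) ^ (-s)

lemma wt_nonneg (hc : ∀ p, 0 ≤ c p) (s : ℝ) (p : Nat.Primes) : 0 ≤ wt c s p :=
  mul_nonneg (hc p) (Real.rpow_nonneg (Nat.cast_nonneg _) _)

lemma wt_le (hc : ∀ p, 0 ≤ c p) {s : ℝ} (hs : 0 ≤ s) (p : Nat.Primes) : wt c s p ≤ c p := by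
  unfold wt
  have : (((p : ℕ) : ℝ)) ^ (-s) ≤ 1 :=
    Real.rpow_le_one_of_one_le_of_nonpos (by exact_mod_cast p.2.one_le) (by linarith)
  exact mul_le_of_le_one_right (hc p) this

/-- the twisted sums -/
noncomputable def Tsum (χ : DirichletCharacter ℂ m) (s : ℝ) : ℂ :=
  ∑' p : Nat.Primes, χ ((p : ℕ) : ZMod m) * ((wt c s p : ℝ) : ℂ)

/-- the sums over a residue class -/
noncomputable def Dsum (b : ZMod m) (s : ℝ) : ℝ :=
  ∑' p : Nat.Primes, if ((p : ℕ) : ZMod m) = b then wt c s p else 0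

variable (hc : ∀ p, 0 ≤ c p)
include hc

lemma summable_char_wt {s : ℝ} (hsum : Summable (wt c s)) (χ : DirichletCharacter ℂ m) :
    Summable (fun p : Nat.Primes => χ ((p : ℕ) : ZMod m) * ((wt c s p : ℝ) : ℂ)) := by
  refine Summable.of_norm_bounded hsum (fun p => ?_)
  rw [norm_mul, Complex.norm_real, Real.norm_of_nonneg (wt_nonneg c hc s p)]
  calc ‖χ ((p : ℕ) : ZMod m)‖ * wt c s p ≤ 1 * wt c s p :=
        mul_le_mul_of_nonneg_right (DirichletCharacter.norm_le_one χ _) (wt_nonneg c hc s p)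
    _ = _ := one_mul _

lemma sum_coeff_Tsum {s : ℝ} (hsum : Summable (wt c s)) (κ : DirichletCharacter ℂ m → ℂ) :
    ∑ χ, κ χ * Tsum c χ s =
      ∑' p : Nat.Primes, (∑ χ, κ χ * χ ((p : ℕ) : ZMod m)) * ((wt c s p : ℝ) : ℂ) := by
  unfold Tsum
  simp_rw [← tsum_mul_left]
  rw [← Summable.tsum_finsetSum (fun χ _ => (summable_char_wt c hc hsum χ).mul_left (κ χ))]
  refine tsum_congr fun p => ?_
  rw [Finset.sum_mul]
  refine Finset.sum_congr rfl fun χ _ => ?_
  ring

lemma sum_inv_Tsum {s : ℝ} (hsum : Summable (wt c s)) {a : ZMod m} (ha : IsUnit a) :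
    ∑ χ : DirichletCharacter ℂ m, χ a⁻¹ * Tsum c χ s =
      (m.totient : ℂ) * ((Dsum c a s : ℝ) : ℂ) := by
  rw [sum_coeff_Tsum c hc hsum]
  simp_rw [DirichletCharacter.sum_char_inv_mul_char_eq ℂ ha]
  unfold Dsum
  rw [Complex.ofReal_tsum, ← tsum_mul_left]
  refine tsum_congr fun p => ?_
  by_cases h : ((p : ℕ) : ZMod m) = a
  · rw [if_pos h.symm, if_pos h]
  · rw [if_neg (fun h' => h h'.symm), if_neg h]
    simp

lemma sum_Tsum {s : ℝ} (hsum : Summable (wt c s)) :
    ∑ χ : DirichletCharacter ℂ m, Tsum c χ s =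
      (m.totient : ℂ) * ((Dsum c (1 : ZMod m) s : ℝ) : ℂ) := by
  have := sum_inv_Tsum (m := m) c hc hsum (a := 1) isUnit_one
  simpa using this

/-- the primes in a finite set of naturals -/
noncomputable def primesIn (B : Finset ℕ) : Finset Nat.Primes := by
  classical
  exact (Finset.subtype Nat.Prime B : Finset {n : ℕ // n.Prime})

omit hc in
lemma mem_primesIn {B : Finset ℕ} {p : Nat.Primes} : p ∈ primesIn B ↔ (p : ℕ) ∈ B := by
  classical
  unfold primesIn
  exact Finset.mem_subtype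

lemma norm_Tsum_sub_le (A : Subgroup (ZMod m)ˣ) {B : Finset ℕ}
    (hB : ∀ p : Nat.Primes, (p : ℕ) ∉ B → c p ≠ 0 →
      ∃ u ∈ A, ((u : (ZMod m)ˣ) : ZMod m) = ((p : ℕ) : ZMod m))
    {χ : DirichletCharacter ℂ m} (hχ : TrivOn A χ) {s : ℝ} (hs : 0 ≤ s)
    (hsum : Summable (wt c s)) :
    ‖Tsum c χ s - ((∑' p, wt c s p : ℝ) : ℂ)‖ ≤ ∑ p ∈ primesIn B, 2 * c p := by
  unfold Tsum
  rw [Complex.ofReal_tsum, ← (summable_char_wt c hc hsum χ).tsum_sub
    (Complex.summable_ofReal.mpr hsum)]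
  have h0 : ∀ p : Nat.Primes, p ∉ primesIn B →
      χ ((p : ℕ) : ZMod m) * ((wt c s p : ℝ) : ℂ) - ((wt c s p : ℝ) : ℂ) = 0 := by
    intro p hp
    rw [mem_primesIn] at hp
    by_cases hcp : c p = 0
    · simp [wt, hcp]
    · obtain ⟨u, hu, hup⟩ := hB p hp hcp
      rw [← hup, hχ u hu, one_mul, sub_self]
  rw [tsum_eq_sum h0]
  refine (norm_sum_le _ _).trans (Finset.sum_le_sum fun p _ => ?_)
  have h1 : ‖χ ((p : ℕ) : ZMod m) * ((wt c s p : ℝ) : ℂ)‖ ≤ wt c s p := by
    rw [norm_mul, Complex.norm_real, Real.norm_of_nonneg (wt_nonneg c hc s p)]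
    calc ‖χ ((p : ℕ) : ZMod m)‖ * wt c s p ≤ 1 * wt c s p :=
          mul_le_mul_of_nonneg_right (DirichletCharacter.norm_le_one χ _) (wt_nonneg c hc s p)
      _ = _ := one_mul _
  have h2 : ‖((wt c s p : ℝ) : ℂ)‖ = wt c s p := by
    rw [Complex.norm_real, Real.norm_of_nonneg (wt_nonneg c hc s p)]
  calc ‖χ ((p : ℕ) : ZMod m) * ((wt c s p : ℝ) : ℂ) - ((wt c s p : ℝ) : ℂ)‖
      ≤ ‖χ ((p : ℕ) : ZMod m) * ((wt c s p : ℝ) : ℂ)‖ + ‖((wt c s p : ℝ) : ℂ)‖ := norm_sub_le _ _
    _ ≤ wt c s p + wt c s p := by rw [h2]; linarith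
    _ ≤ 2 * c p := by linarith [wt_le c hc hs p]

lemma Dsum_le_of_forall {a : ZMod m} {S : Finset ℕ}
    (hS : ∀ p : Nat.Primes, (p : ℕ) ∉ S → ((p : ℕ) : ZMod m) = a → c p = 0)
    {s : ℝ} (hs : 0 ≤ s) : Dsum c a s ≤ ∑ p ∈ primesIn S, c p := by
  unfold Dsum
  have h0 : ∀ p : Nat.Primes, p ∉ primesIn S →
      (if ((p : ℕ) : ZMod m) = a then wt c s p else 0) = 0 := by
    intro p hp
    rw [mem_primesIn] at hp
    split_ifs with h
    · simp [wt, hS p hp h]
    · rfl
  rw [tsum_eq_sum h0]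
  refine Finset.sum_le_sum fun p _ => ?_
  split_ifs
  · exact wt_le c hc hs p
  · exact hc p

end analysis

lemma tendsto_log_one_div_sub :
    Tendsto (fun s : ℝ => Real.log (1 / (s - 1))) (𝓝[>] (1 : ℝ)) atTop := by
  have h1 : Tendsto (fun s : ℝ => s - 1) (𝓝[>] (1 : ℝ)) (𝓝[>] (0 : ℝ)) := by
    refine tendsto_nhdsWithin_of_tendsto_nhds_of_eventually_within _ ?_ ?_
    · have : Tendsto (fun s : ℝ => s - 1) (𝓝 (1 : ℝ)) (𝓝 (1 - 1)) :=
        (continuous_id.sub continuous_const).tendsto 1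
      simpa using this.mono_left nhdsWithin_le_nhds
    · filter_upwards [self_mem_nhdsWithin] with s hs
      have hs' : (1 : ℝ) < s := hs
      exact Set.mem_Ioi.mpr (sub_pos.mpr hs')
  have h2 := tendsto_inv_nhdsGT_zero.comp h1
  have h3 := Real.tendsto_log_atTop.comp h2
  refine h3.congr fun s => ?_
  simp [one_div]

theorem abstractDirichlet : AbstractDirichletStatement := by
  intro m _ c hc hsum A hsupp htot hone hχ a ha S
  classical
  obtain ⟨B, hB⟩ := hsupp
  obtain ⟨C0, hC0⟩ := htot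
  obtain ⟨C1, hC1⟩ := hone
  by_contra hcon
  push Not at hcon
  have hcon' : ∀ p : Nat.Primes, (p : ℕ) ∉ S →
      ((p : ℕ) : ZMod m) = ((a : (ZMod m)ˣ) : ZMod m) → c p = 0 := fun p hp hpa => hcon p hp hpa
  have hF : ∀ᶠ s in 𝓝[>] (1 : ℝ), 1 < s ∧ s ≤ 2 := by
    have : Set.Ioc (1 : ℝ) 2 ∈ 𝓝[>] (1 : ℝ) := Ioc_mem_nhdsGT (by norm_num)
    filter_upwards [this] with s hs using hs
  have hsw : ∀ s : ℝ, 1 < s → s ≤ 2 → Summable (wt c s) := hsum
  set Tr := Finset.univ.filter (fun χ : DirichletCharacter ℂ m => TrivOn A χ) with hTrdef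
  set Nt := Finset.univ.filter (fun χ : DirichletCharacter ℂ m => ¬ TrivOn A χ) with hNtdef
  have hk := card_trivOn_mul A
  have hkR : (Tr.card : ℝ) * (Nat.card A : ℝ) = (m.totient : ℝ) := by exact_mod_cast hk
  have hApos : (0 : ℝ) < Nat.card A := by exact_mod_cast Nat.card_pos
  have hφpos : (0 : ℝ) < m.totient := by exact_mod_cast Nat.totient_pos.mpr (NeZero.pos m)
  have hk0 : (0 : ℝ) ≤ Tr.card := Nat.cast_nonneg _
  have hkpos : (0 : ℝ) < Tr.card := by
    rcases hk0.eq_or_lt with h | h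
    · rw [← h, zero_mul] at hkR
      linarith
    · exact h
  have hdata : ∀ χ : DirichletCharacter ℂ m, ¬ TrivOn A χ →
      ∃ (Λ : ℝ → ℂ) (ℓ : ℂ) (C : ℝ), ContinuousOn Λ (Set.Ioi 1) ∧
        Tendsto (fun s => Complex.exp (Λ s)) (𝓝[>] (1 : ℝ)) (𝓝 ℓ) ∧
        ∀ s : ℝ, 1 < s → s ≤ 2 → ‖Λ s - Tsum c χ s‖ ≤ C := by
    intro χ hχn
    apply hχ χ
    unfold TrivOn at hχn
    push Not at hχn
    exact hχn
  choose! Λ ℓ C hΛc hΛt hΛb using hdata
  have hNt : ∀ χ ∈ Nt, ¬ TrivOn A χ := fun χ h => (Finset.mem_filter.mp h).2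
  set CB := ∑ p ∈ primesIn B, 2 * c p with hCBdef
  have hTr : ∀ χ ∈ Tr, ∀ s : ℝ, 1 < s → s ≤ 2 →
      ‖Tsum c χ s - ((∑' p, wt c s p : ℝ) : ℂ)‖ ≤ CB := fun χ hχ s h1 h2 =>
    norm_Tsum_sub_le c hc A hB (Finset.mem_filter.mp hχ).2 (by linarith) (hsw s h1 h2)
  have hsplit : ∀ f : DirichletCharacter ℂ m → ℂ,
      ∑ χ, f χ = ∑ χ ∈ Tr, f χ + ∑ χ ∈ Nt, f χ := fun f =>
    (Finset.sum_filter_add_sum_filter_not _ _ _).symm
  have hlgnn : ∀ s : ℝ, 1 < s → s ≤ 2 → 0 ≤ Real.log (1 / (s - 1)) := by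
    intro s h1 h2
    apply Real.log_nonneg
    rw [le_div_iff₀ (by linarith)]
    linarith
  have hTrre : ∀ χ ∈ Tr, ∀ s : ℝ, 1 < s → s ≤ 2 →
      |(Tsum c χ s).re - ∑' p, wt c s p| ≤ CB := by
    intro χ hχ s h1 h2
    have h3 := (Complex.abs_re_le_norm _).trans (hTr χ hχ s h1 h2)
    simpa using h3
  -- Step 1: lower bound for the nontrivial characters
  have hlow : ∀ s : ℝ, 1 < s → s ≤ 2 →
      -((m.totient : ℝ) * C1 + Tr.card * (C0 + CB)) ≤ ∑ χ ∈ Nt, (Tsum c χ s).re := by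
    intro s h1 h2
    have hS := sum_Tsum (m := m) c hc (hsw s h1 h2)
    rw [hsplit] at hS
    have hre := congrArg Complex.re hS
    simp only [Complex.add_re, Complex.re_sum, Complex.mul_re, Complex.natCast_re,
      Complex.natCast_im, Complex.ofReal_re, Complex.ofReal_im, zero_mul, sub_zero] at hre
    have hD1 : (Nat.card A : ℝ)⁻¹ * Real.log (1 / (s - 1)) - C1 ≤ Dsum c (1 : ZMod m) s :=
      hC1 s h1 h2
    have hW : |(∑' p, wt c s p) - Real.log (1 / (s - 1))| ≤ C0 := hC0 s h1 h2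
    rw [abs_le] at hW
    have hsumTr : ∑ χ ∈ Tr, (Tsum c χ s).re ≤ Tr.card * ((∑' p, wt c s p) + CB) := by
      calc ∑ χ ∈ Tr, (Tsum c χ s).re ≤ ∑ χ ∈ Tr, ((∑' p, wt c s p) + CB) :=
            Finset.sum_le_sum fun χ hχ => by
              have := hTrre χ hχ s h1 h2
              rw [abs_le] at this
              linarith [this.2]
        _ = _ := by rw [Finset.sum_const, nsmul_eq_mul]
    have hlg := hlgnn s h1 h2
    have e1 : (m.totient : ℝ) * ((Nat.card A : ℝ)⁻¹ * Real.log (1 / (s - 1))) =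
        Tr.card * Real.log (1 / (s - 1)) := by
      rw [← hkR]
      field_simp
    have e2 : (m.totient : ℝ) * ((Nat.card A : ℝ)⁻¹ * Real.log (1 / (s - 1)) - C1) ≤
        (m.totient : ℝ) * Dsum c (1 : ZMod m) s :=
      mul_le_mul_of_nonneg_left hD1 hφpos.le
    have e3 : (Tr.card : ℝ) * ((∑' p, wt c s p) + CB) ≤
        Tr.card * (Real.log (1 / (s - 1)) + C0 + CB) :=
      mul_le_mul_of_nonneg_left (by linarith [hW.2]) hk0
    linarith
  -- Step 2: nonvanishing of the limits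
  set K2 := (m.totient : ℝ) * C1 + Tr.card * (C0 + CB) + ∑ χ ∈ Nt, C χ with hK2
  have hexp : ∀ s : ℝ, 1 < s → s ≤ 2 →
      Real.exp (-K2) ≤ ∏ χ ∈ Nt, ‖Complex.exp (Λ χ s)‖ := by
    intro s h1 h2
    simp only [Complex.norm_exp]
    rw [← Real.exp_sum]
    apply Real.exp_le_exp.mpr
    have h3 : ∑ χ ∈ Nt, ((Tsum c χ s).re - C χ) ≤ ∑ χ ∈ Nt, (Λ χ s).re := by
      refine Finset.sum_le_sum fun χ hχ => ?_
      have h4 := (Complex.abs_re_le_norm _).trans (hΛb χ (hNt χ hχ) s h1 h2)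
      rw [Complex.sub_re, abs_le] at h4
      linarith [h4.1]
    rw [Finset.sum_sub_distrib] at h3
    linarith [hlow s h1 h2]
  have hlim : Tendsto (fun s => ∏ χ ∈ Nt, ‖Complex.exp (Λ χ s)‖) (𝓝[>] (1 : ℝ))
      (𝓝 (∏ χ ∈ Nt, ‖ℓ χ‖)) :=
    tendsto_finsetProd _ fun χ hχ => (hΛt χ (hNt χ hχ)).norm
  have hprod : Real.exp (-K2) ≤ ∏ χ ∈ Nt, ‖ℓ χ‖ :=
    ge_of_tendsto hlim (hF.mono fun s hs => hexp s hs.1 hs.2)
  have hℓ : ∀ χ ∈ Nt, ℓ χ ≠ 0 := by
    intro χ hχ h0
    have : ∏ χ ∈ Nt, ‖ℓ χ‖ = 0 := Finset.prod_eq_zero hχ (by simp [h0])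
    linarith [Real.exp_pos (-K2)]
  -- Step 3: the logarithms are bounded
  have hbd : ∀ χ ∈ Nt, ∃ Bχ : ℝ, ∀ᶠ s in 𝓝[>] (1 : ℝ), ‖Λ χ s‖ ≤ Bχ := fun χ hχ =>
    exists_bound_of_exp_tendsto (hΛc χ (hNt χ hχ)) (hℓ χ hχ) (hΛt χ (hNt χ hχ))
  choose! Bd hBd using hbd
  have hev : ∀ᶠ s in 𝓝[>] (1 : ℝ), ∀ χ ∈ Nt, ‖Λ χ s‖ ≤ Bd χ :=
    (Filter.eventually_all_finset Nt).mpr hBd
  -- Step 4: the class of `a`
  set a' : ZMod m := ((a : (ZMod m)ˣ) : ZMod m) with ha'
  have hau : IsUnit a' := a.isUnit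
  have hainv : a'⁻¹ = (((a⁻¹ : (ZMod m)ˣ) : (ZMod m)ˣ) : ZMod m) := by
    rw [ha', ZMod.inv_coe_unit]
  set K4 := (m.totient : ℝ) * (∑ p ∈ primesIn S, c p) + Tr.card * (C0 + CB) +
    ∑ χ ∈ Nt, (Bd χ + C χ) with hK4
  have hfinal : ∀ᶠ s in 𝓝[>] (1 : ℝ), (Tr.card : ℝ) * Real.log (1 / (s - 1)) ≤ K4 := by
    filter_upwards [hF, hev] with s hs hsev
    obtain ⟨h1, h2⟩ := hs
    have hS := sum_inv_Tsum (m := m) c hc (hsw s h1 h2) hau
    rw [hsplit] at hS
    have hre := congrArg Complex.re hS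
    simp only [Complex.add_re, Complex.re_sum] at hre
    rw [Complex.mul_re] at hre
    simp only [Complex.natCast_re, Complex.natCast_im, Complex.ofReal_re, Complex.ofReal_im,
      zero_mul, sub_zero] at hre
    have hW : |(∑' p, wt c s p) - Real.log (1 / (s - 1))| ≤ C0 := hC0 s h1 h2
    rw [abs_le] at hW
    have hDle : Dsum c a' s ≤ ∑ p ∈ primesIn S, c p :=
      Dsum_le_of_forall c hc hcon' (by linarith)
    -- trivial characters
    have hT1 : (Tr.card : ℝ) * (Real.log (1 / (s - 1)) - C0 - CB) ≤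
        ∑ χ ∈ Tr, (χ a'⁻¹ * Tsum c χ s).re := by
      calc (Tr.card : ℝ) * (Real.log (1 / (s - 1)) - C0 - CB)
          = ∑ χ ∈ Tr, (Real.log (1 / (s - 1)) - C0 - CB) := by
            rw [Finset.sum_const, nsmul_eq_mul]
        _ ≤ _ := Finset.sum_le_sum fun χ hχ => by
            have hχ1 : χ a'⁻¹ = 1 := by
              rw [hainv]
              exact (Finset.mem_filter.mp hχ).2 _ (Subgroup.inv_mem A ha)
            rw [hχ1, one_mul]
            have := hTrre χ hχ s h1 h2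
            rw [abs_le] at this
            linarith [this.1, hW.1]
    -- nontrivial characters
    have hT2 : -∑ χ ∈ Nt, (Bd χ + C χ) ≤ ∑ χ ∈ Nt, (χ a'⁻¹ * Tsum c χ s).re := by
      rw [← Finset.sum_neg_distrib]
      refine Finset.sum_le_sum fun χ hχ => ?_
      have h3 : ‖χ a'⁻¹ * Tsum c χ s‖ ≤ Bd χ + C χ := by
        rw [norm_mul]
        have h4 : ‖Tsum c χ s‖ ≤ Bd χ + C χ := by
          have h5 := hΛb χ (hNt χ hχ) s h1 h2
          have h6 := hsev χ hχ
          calc ‖Tsum c χ s‖ = ‖Λ χ s - (Λ χ s - Tsum c χ s)‖ := by rw [sub_sub_cancel]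
            _ ≤ ‖Λ χ s‖ + ‖Λ χ s - Tsum c χ s‖ := norm_sub_le _ _
            _ ≤ _ := by linarith
        calc ‖χ a'⁻¹‖ * ‖Tsum c χ s‖ ≤ 1 * ‖Tsum c χ s‖ :=
              mul_le_mul_of_nonneg_right (DirichletCharacter.norm_le_one χ _) (norm_nonneg _)
          _ ≤ _ := by rw [one_mul]; exact h4
      have h7 := (Complex.abs_re_le_norm _).trans h3
      rw [abs_le] at h7
      linarith [h7.1]
    have hφD : (m.totient : ℝ) * Dsum c a' s ≤ (m.totient : ℝ) * ∑ p ∈ primesIn S, c p :=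
      mul_le_mul_of_nonneg_left hDle hφpos.le
    have e4 : (Tr.card : ℝ) * (Real.log (1 / (s - 1)) - C0 - CB) =
        Tr.card * Real.log (1 / (s - 1)) - Tr.card * (C0 + CB) := by ring
    linarith
  have hgt := tendsto_log_one_div_sub.eventually_gt_atTop (K4 / Tr.card)
  obtain ⟨s, hs1, hs2⟩ := (hfinal.and hgt).exists
  rw [div_lt_iff₀ hkpos] at hs2
  linarith

end Fermat.Agent.Lib.Cheb.H221

end
-- ===== PACK-END Lib/Cheb/H221/CycAbs.lean

-- ===== PACK-BEGIN Lib/Cheb/H221/Cyc.lean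
section











/-!
# CYC (helper221): `PrimeSum + Count + Frob + FrobFinite + DirichletLimit ⇒ CycStatement`
-/

set_option autoImplicit false

open NumberField IsDedekindDomain Filter Topology

namespace Fermat.Agent.Lib.Cheb.H221

set_option linter.unusedSectionVars false

section logsum

variable {P : Type*} {N : P → ℝ} (hN : ∀ r, 2 ≤ N r)
  (hsum : ∀ s : ℝ, 1 < s → Summable (xs N s)) {c : P → ℂ} (hc : ∀ r, ‖c r‖ ≤ 1)

include hN in
lemma xs_sq_le {s : ℝ} (hs : 1 ≤ s) (r : P) : xs N s r ^ 2 ≤ xs N 2 r := by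
  unfold xs
  have hpos : (0 : ℝ) < N r := by linarith [hN r]
  rw [← Real.rpow_natCast, ← Real.rpow_mul hpos.le]
  apply Real.rpow_le_rpow_of_exponent_le (by linarith [hN r])
  push_cast
  linarith

include hN hsum hc in
lemma norm_logEuler_sub_le {s : ℝ} (hs : 1 < s) :
    ‖logEuler N c s - ∑' r, c r * (xs N s r : ℂ)‖ ≤ ∑' r, xs N 2 r := by
  have h1 : Summable (fun r => c r * (xs N s r : ℂ)) :=
    Summable.of_norm_bounded (hsum s hs) (fun r => norm_z_le hN hc s r)
  unfold logEuler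
  rw [← (summable_logFactor hN hsum hc hs).tsum_sub h1]
  refine tsum_of_norm_bounded (hsum 2 (by norm_num)).hasSum (fun r => ?_)
  exact (norm_logFactor_sub_le hN hc hs.le r).trans (xs_sq_le hN hs.le r)

end logsum

section glue

lemma rpow_neg_le_one (p : Nat.Primes) {s : ℝ} (hs : 0 ≤ s) : (((p : ℕ) : ℝ)) ^ (-s) ≤ 1 :=
  Real.rpow_le_one_of_one_le_of_nonpos (by exact_mod_cast p.2.one_le) (by linarith)

/-- the glue: CYC from its pieces -/
theorem cyc_of_pieces (hEP : EulerProductStatement) (hDEG : TwistedPrimeSumStatement)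
    (hABS : AbstractDirichletStatement) (hALG : CycAlgStatement)
    (hZ : Spec.PrimeSumStatement) (hA : Spec.CountStatement) (hD : Spec.FrobStatement)
    (hM : Spec.FrobFiniteStatement) (hAN : Spec.DirichletLimitStatement) :
    Spec.CycStatement := by
  intro L _ _ _ m ζ hm hζ g hg S
  classical
  have : NeZero m := ⟨hm.ne'⟩
  obtain ⟨hord, B, hSUPP, hSPLIT, hNT, hFIN⟩ := hALG hA hD hM L m ζ hζ g hg
  set a := hζ.autToPow ℚ g with ha
  set c : Nat.Primes → ℝ := fun p => (Spec.primeCount (fixM L g) p : ℝ) with hc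
  have hc0 : ∀ p, 0 ≤ c p := fun p => Nat.cast_nonneg _
  have hsumc : ∀ s : ℝ, 1 < s → s ≤ 2 →
      Summable (fun p : Nat.Primes => c p * (p : ℝ) ^ (-s)) :=
    fun s h1 _ => summable_primeCount (fixM L g) h1
  have hcne : ∀ p : Nat.Primes, c p ≠ 0 → Spec.primeCount (fixM L g) p ≠ 0 := by
    intro p hcp h
    apply hcp
    simp [hc, h]
  have hsupp : ∃ B : Finset ℕ, ∀ p : Nat.Primes, (p : ℕ) ∉ B → c p ≠ 0 →
      ∃ u ∈ Subgroup.zpowers a, ((u : (ZMod m)ˣ) : ZMod m) = ((p : ℕ) : ZMod m) :=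
    ⟨B, fun p hpB hcp => hSUPP p p.2 hpB (hcne p hcp)⟩
  have htot : ∃ C : ℝ, ∀ s : ℝ, 1 < s → s ≤ 2 →
      |(∑' p : Nat.Primes, c p * (p : ℝ) ^ (-s)) - Real.log (1 / (s - 1))| ≤ C :=
    hZ (fixM L g)
  have hone : ∃ C : ℝ, ∀ s : ℝ, 1 < s → s ≤ 2 →
      (Nat.card (Subgroup.zpowers a) : ℝ)⁻¹ * Real.log (1 / (s - 1)) - C ≤
        ∑' p : Nat.Primes, if ((p : ℕ) : ZMod m) = 1 then c p * (p : ℝ) ^ (-s) else 0 := by
    obtain ⟨C', hC'⟩ := hZ (fixBot L)
    set CE : ℝ := ∑ p ∈ primesIn B, (Spec.primeCount (fixBot L) p : ℝ) with hCE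
    have hn : (0 : ℝ) < Nat.card (Subgroup.zpowers a) := by exact_mod_cast Nat.card_pos
    refine ⟨(C' + CE) / Nat.card (Subgroup.zpowers a), fun s h1 h2 => ?_⟩
    set u : Nat.Primes → ℝ :=
      fun p => (Spec.primeCount (fixBot L) p : ℝ) * ((p : ℕ) : ℝ) ^ (-s) with hu
    set v : Nat.Primes → ℝ :=
      fun p => if ((p : ℕ) : ZMod m) = 1 then c p * ((p : ℕ) : ℝ) ^ (-s) else 0 with hv
    have hpw : ∀ p : Nat.Primes, 0 ≤ (((p : ℕ) : ℝ)) ^ (-s) :=
      fun p => Real.rpow_nonneg (Nat.cast_nonneg _) _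
    have hv0 : ∀ p, 0 ≤ v p := by
      intro p
      simp only [hv]
      split_ifs
      · exact mul_nonneg (hc0 p) (hpw p)
      · exact le_rfl
    have husum : Summable u := summable_primeCount (fixBot L) h1
    have hvsum : Summable v := by
      refine Summable.of_nonneg_of_le hv0 (fun p => ?_) (hsumc s h1 h2)
      simp only [hv]
      split_ifs
      · exact le_rfl
      · exact mul_nonneg (hc0 p) (hpw p)
    have hdiff : ∀ p : Nat.Primes, p ∉ primesIn B →
        u p - (Nat.card (Subgroup.zpowers a) : ℝ) * v p = 0 := by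
      intro p hp
      rw [mem_primesIn] at hp
      have h3 := hSPLIT p p.2 hp
      simp only [hu, hv, h3, hord, hc]
      split_ifs
      · push_cast
        ring
      · simp
    have h3 : (∑' p, u p) - (Nat.card (Subgroup.zpowers a) : ℝ) * ∑' p, v p =
        ∑ p ∈ primesIn B, (u p - (Nat.card (Subgroup.zpowers a) : ℝ) * v p) := by
      rw [← tsum_mul_left, ← husum.tsum_sub (hvsum.mul_left _)]
      exact tsum_eq_sum hdiff
    have h4 : ∑ p ∈ primesIn B, (u p - (Nat.card (Subgroup.zpowers a) : ℝ) * v p) ≤ CE := by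
      refine Finset.sum_le_sum fun p _ => ?_
      have h5 : u p ≤ (Spec.primeCount (fixBot L) p : ℝ) :=
        mul_le_of_le_one_right (Nat.cast_nonneg _) (rpow_neg_le_one p (by linarith))
      have h6 : 0 ≤ (Nat.card (Subgroup.zpowers a) : ℝ) * v p := mul_nonneg hn.le (hv0 p)
      linarith
    have h5 := hC' s h1 h2
    rw [abs_le] at h5
    have h6 : Real.log (1 / (s - 1)) - (C' + CE) ≤
        (Nat.card (Subgroup.zpowers a) : ℝ) * ∑' p, v p := by
      have : (∑' p : Nat.Primes, (Spec.primeCount (fixBot L) p : ℝ) * (p : ℝ) ^ (-s)) =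
          ∑' p, u p := rfl
      linarith [h5.1]
    have h7 : (Nat.card (Subgroup.zpowers a) : ℝ)⁻¹ * Real.log (1 / (s - 1)) -
        (C' + CE) / Nat.card (Subgroup.zpowers a) =
        (Real.log (1 / (s - 1)) - (C' + CE)) / Nat.card (Subgroup.zpowers a) := by
      field_simp
    rw [h7, div_le_iff₀ hn, mul_comm]
    exact h6
  have hχ : ∀ χ : DirichletCharacter ℂ m,
      (∃ u ∈ Subgroup.zpowers a, χ ((u : (ZMod m)ˣ) : ZMod m) ≠ 1) →
      ∃ (Λ : ℝ → ℂ) (ℓ : ℂ) (C : ℝ), ContinuousOn Λ (Set.Ioi 1) ∧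
        Tendsto (fun s => Complex.exp (Λ s)) (𝓝[>] 1) (𝓝 ℓ) ∧
        ∀ s : ℝ, 1 < s → s ≤ 2 →
          ‖Λ s - ∑' p : Nat.Primes, χ ((p : ℕ) : ZMod m) *
            ((c p * (p : ℝ) ^ (-s) : ℝ) : ℂ)‖ ≤ C := by
    rintro χ ⟨u, hu, hχu⟩
    have hχa : χ ((a : (ZMod m)ˣ) : ZMod m) ≠ 1 := by
      intro h1
      apply hχu
      obtain ⟨k, rfl⟩ := Subgroup.mem_zpowers_iff.mp hu
      have h2 : χ.toUnitHom a = 1 := by
        ext
        rw [MulChar.coe_toUnitHom]
        simpa using h1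
      have h3 : χ.toUnitHom (a ^ k) = 1 := by rw [map_zpow, h2, one_zpow]
      have h4 := congrArg Units.val h3
      rwa [MulChar.coe_toUnitHom] at h4
    obtain ⟨I, hI0, hI1⟩ := hNT χ hχa
    obtain ⟨ℓ, hℓ⟩ := hAN (fixM L g) m χ ⟨I, hI0, hI1⟩
    obtain ⟨CD, hCD⟩ := hDEG hZ (fixM L g) m χ
    set Nn : HeightOneSpectrum (𝓞 (fixM L g)) → ℝ :=
      fun 𝔭 => (Ideal.absNorm 𝔭.asIdeal : ℝ) with hNn
    set cχ : HeightOneSpectrum (𝓞 (fixM L g)) → ℂ :=
      fun 𝔭 => χ (Ideal.absNorm 𝔭.asIdeal : ZMod m) with hcχdef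
    have hN : ∀ 𝔭, 2 ≤ Nn 𝔭 := fun 𝔭 => by
      simp only [hNn]
      exact_mod_cast H761.two_le_absNorm (fixM L g) 𝔭
    have hsumN : ∀ s : ℝ, 1 < s → Summable (xs Nn s) :=
      fun s hs => H761.summable_primeSum (fixM L g) hs
    have hcχ : ∀ 𝔭, ‖cχ 𝔭‖ ≤ 1 := fun 𝔭 => DirichletCharacter.norm_le_one χ _
    refine ⟨logEuler Nn cχ, ℓ, (∑' r, xs Nn 2 r) + CD,
      continuousOn_logEuler hN hsumN hcχ, ?_, ?_⟩
    · refine hℓ.congr' ?_
      filter_upwards [self_mem_nhdsWithin] with s hs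
      exact (exp_logEuler_eq hN hsumN hcχ hs (hEP (fixM L g) m χ s hs)).symm
    · intro s h1 h2
      have e1 := norm_logEuler_sub_le hN hsumN hcχ h1
      have e2 := (hCD s h1 h2).2
      exact (norm_sub_le_norm_sub_add_norm_sub _ _ _).trans (add_le_add e1 e2)
  obtain ⟨p, hpS, hpa, hcp⟩ := hABS m c hc0 hsumc (Subgroup.zpowers a) hsupp htot hone hχ a
    (Subgroup.mem_zpowers a) (S ∪ B)
  have hpS' : (p : ℕ) ∉ S := fun h => hpS (Finset.mem_union_left _ h)
  have hpB : (p : ℕ) ∉ B := fun h => hpS (Finset.mem_union_right _ h)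
  obtain ⟨P, hP, hpP, hI, hF⟩ := hFIN p p.2 hpB (hcne p hcp) hpa
  exact ⟨p, P, p.2, hpS', hP, hpP, hI, hF⟩

/-- **CYC** from the other interface statements. -/
theorem cyc (hZ : Spec.PrimeSumStatement) (hA : Spec.CountStatement) (hD : Spec.FrobStatement)
    (hM : Spec.FrobFiniteStatement) (hAN : Spec.DirichletLimitStatement) :
    Spec.CycStatement :=
  cyc_of_pieces eulerProduct twistedPrimeSum abstractDirichlet cycAlg hZ hA hD hM hAN

end glue

end Fermat.Agent.Lib.Cheb.H221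

end
-- ===== PACK-END Lib/Cheb/H221/Cyc.lean

-- ===== PACK-BEGIN Lib/Cheb/H221/Tier2.lean
section









/-!
# Tier 2 of CHEB modulo the analytic core (helper221)

Everything except `Spec.DirichletLimitStatement` (AN) is discharged with the theorems already on
main: exact qualitative Chebotarev follows from AN alone.
-/

set_option autoImplicit false

namespace Fermat.Agent.Lib.Cheb.H221

open Fermat.Agent.Lib.Cheb

/-- Tier 1, finite level (assembled from landed pieces). -/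
theorem frobFinite_main : Spec.FrobFiniteStatement :=
  H341.frobFinite H761.primeSum_statement H761.primeCountBound_statement H764.count
    H943.frobStatement

/-- CYC from AN. -/
theorem cyc_of_dirichletLimit (hAN : Spec.DirichletLimitStatement) : Spec.CycStatement :=
  cyc H761.primeSum_statement H764.count H943.frobStatement frobFinite_main hAN

/-- Finite-level exact Chebotarev from AN. -/
theorem chebFinite_of_dirichletLimit (hAN : Spec.DirichletLimitStatement) :
    Spec.ChebFiniteStatement :=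
  H223.cross H943.frobStatement (cyc_of_dirichletLimit hAN)

/-- Prelude-level exact qualitative Chebotarev from AN. -/
theorem chebotarev_of_dirichletLimit (hAN : Spec.DirichletLimitStatement) :
    Spec.ChebotarevStatement :=
  H476.bridge (chebFinite_of_dirichletLimit hAN)

end Fermat.Agent.Lib.Cheb.H221

end
-- ===== PACK-END Lib/Cheb/H221/Tier2.lean

-- ===== PACK-BEGIN S14/H74/Support.lean
section


/-!
# S14/N1 (helper74): the support of `rho` (piece P5a)

On the support of `rho` all the `normAtPlace w x` are comparable with `‖x‖`.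
-/

namespace Fermat.Agent.S14.H74

open NumberField NumberField.mixedEmbedding NumberField.Units
  NumberField.Units.dirichletUnitTheorem NumberField.InfinitePlace Module

open scoped Classical

variable {K : Type*} [Field K] [NumberField K]

theorem normAtPlace_le_norm (w : InfinitePlace K) (x : mixedSpace K) :
    normAtPlace w x ≤ ‖x‖ := by
  classical
  rw [norm_eq_sup'_normAtPlace]
  exact Finset.le_sup' (fun w ↦ normAtPlace w x) (Finset.mem_univ w)

theorem exists_norm_eq_normAtPlace (x : mixedSpace K) : ∃ w, ‖x‖ = normAtPlace w x := by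
  classical
  obtain ⟨w, -, hw⟩ := Finset.exists_mem_eq_sup' Finset.univ_nonempty
    (fun w : InfinitePlace K ↦ normAtPlace w x)
  exact ⟨w, by rw [norm_eq_sup'_normAtPlace, hw]⟩

theorem log_norm_eq_sum {x : mixedSpace K} (hx : mixedEmbedding.norm x ≠ 0) :
    Real.log (mixedEmbedding.norm x) = ∑ w, (mult w : ℝ) * Real.log (normAtPlace w x) := by
  rw [mixedEmbedding.norm_apply, Real.log_prod]
  · exact Finset.sum_congr rfl fun w _ ↦ by rw [Real.log_pow]
  · intro w _
    exact pow_ne_zero _ (mixedEmbedding.norm_ne_zero_iff.mp hx w)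

theorem norm_ne_zero_of_rho_ne_zero {x : mixedSpace K} (h : rho K x ≠ 0) :
    mixedEmbedding.norm x ≠ 0 := by
  intro h0
  exact h (by simp [rho, h0])

theorem rho_eq_prod {x : mixedSpace K} (hx : mixedEmbedding.norm x ≠ 0) :
    rho K x = ∏ j, tent (logCoord K x j) := by
  simp [rho, hx]

theorem rho_nonneg (x : mixedSpace K) : 0 ≤ rho K x := by
  unfold rho
  split_ifs
  · exact le_rfl
  · exact Finset.prod_nonneg fun j _ ↦ tent_nonneg _

theorem rho_le_one (x : mixedSpace K) : rho K x ≤ 1 := by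
  unfold rho
  split_ifs
  · exact zero_le_one
  · exact Finset.prod_le_one (fun j _ ↦ tent_nonneg _) fun j _ ↦ tent_le_one _

theorem abs_logCoord_lt_one_of_rho_ne_zero {x : mixedSpace K} (h : rho K x ≠ 0)
    (j : Fin (rank K)) : |logCoord K x j| < 1 := by
  have hx := norm_ne_zero_of_rho_ne_zero h
  rw [rho_eq_prod hx] at h
  exact abs_lt_one_of_tent_ne_zero fun h0 ↦ h (Finset.prod_eq_zero (Finset.mem_univ j) h0)

theorem logMap_eq_sum_logCoord (x : mixedSpace K) :
    logMap x = ∑ j, logCoord K x j • ((basisUnitLattice K).ofZLatticeBasis ℝ (unitLattice K)) j :=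
  (((basisUnitLattice K).ofZLatticeBasis ℝ (unitLattice K)).sum_repr (logMap x)).symm

/-- A bound for `logMap` on the support of `rho`. -/
theorem exists_logMap_bound : ∃ B : ℝ, 0 ≤ B ∧ ∀ x : mixedSpace K, rho K x ≠ 0 →
    ‖logMap x‖ ≤ B := by
  refine ⟨∑ j, ‖((basisUnitLattice K).ofZLatticeBasis ℝ (unitLattice K)) j‖,
    Finset.sum_nonneg fun j _ ↦ norm_nonneg _, fun x hx ↦ ?_⟩
  rw [logMap_eq_sum_logCoord x]
  refine (norm_sum_le _ _).trans (Finset.sum_le_sum fun j _ ↦ ?_)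
  rw [_root_.norm_smul, Real.norm_eq_abs]
  exact mul_le_of_le_one_left (norm_nonneg _) (abs_logCoord_lt_one_of_rho_ne_zero hx j).le

theorem sum_mult_mul_log_sub {x : mixedSpace K} (hx : mixedEmbedding.norm x ≠ 0) :
    ∑ w : InfinitePlace K, (mult w : ℝ) * (Real.log (normAtPlace w x) -
      Real.log (mixedEmbedding.norm x) * (finrank ℚ K : ℝ)⁻¹) = 0 := by
  have h1 : (∑ w : InfinitePlace K, (mult w : ℝ)) = (finrank ℚ K : ℝ) := by
    rw [← Nat.cast_sum, sum_mult_eq]
  have h2 : (finrank ℚ K : ℝ) ≠ 0 := Nat.cast_ne_zero.mpr finrank_pos.ne'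
  simp_rw [mul_sub]
  rw [Finset.sum_sub_distrib, ← log_norm_eq_sum hx, ← Finset.sum_mul, h1]
  field_simp
  ring

/-- On the support of `rho`, all `log (normAtPlace w x)` are within a bounded distance of
`log (norm x) / n`. -/
theorem exists_log_normAtPlace_bound : ∃ B : ℝ, 0 ≤ B ∧ ∀ x : mixedSpace K, rho K x ≠ 0 →
    ∀ w, |Real.log (normAtPlace w x) -
      Real.log (mixedEmbedding.norm x) * (finrank ℚ K : ℝ)⁻¹| ≤ B := by
  obtain ⟨B, hB0, hB⟩ := exists_logMap_bound (K := K)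
  refine ⟨(Fintype.card (InfinitePlace K) + 1) * B, by positivity, fun x hx w ↦ ?_⟩
  have hN := norm_ne_zero_of_rho_ne_zero hx
  set d : InfinitePlace K → ℝ := fun w ↦ Real.log (normAtPlace w x) -
      Real.log (mixedEmbedding.norm x) * (finrank ℚ K : ℝ)⁻¹ with hd
  have hne : ∀ w : InfinitePlace K, w ≠ w₀ → |(mult w : ℝ) * d w| ≤ B := by
    intro w hw
    have h1 : logMap x ⟨w, hw⟩ = (mult w : ℝ) * d w := by simp [hd]
    rw [← h1]
    exact (norm_le_pi_norm (logMap x) ⟨w, hw⟩).trans (hB x hx)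
  have hall : ∀ w : InfinitePlace K, |(mult w : ℝ) * d w| ≤ Fintype.card (InfinitePlace K) * B := by
    intro w
    by_cases hw : w = w₀
    · have hsum := sum_mult_mul_log_sub hN
      rw [← Finset.add_sum_erase Finset.univ _ (Finset.mem_univ w)] at hsum
      have h2 : (mult w : ℝ) * d w = - ∑ v ∈ Finset.univ.erase w, (mult v : ℝ) * d v := by
        linarith
      rw [h2, abs_neg]
      refine (Finset.abs_sum_le_sum_abs _ _).trans ?_
      calc ∑ v ∈ Finset.univ.erase w, |(mult v : ℝ) * d v|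
          ≤ ∑ v ∈ Finset.univ.erase w, B := by
            refine Finset.sum_le_sum fun v hv ↦ hne v ?_
            rw [← hw]
            exact Finset.ne_of_mem_erase hv
        _ = (Finset.univ.erase w).card * B := by rw [Finset.sum_const, nsmul_eq_mul]
        _ ≤ Fintype.card (InfinitePlace K) * B := by
            gcongr
            exact Finset.card_le_univ _
    · refine (hne w hw).trans ?_
      have : (1 : ℝ) ≤ Fintype.card (InfinitePlace K) := by
        exact_mod_cast Fintype.card_pos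
      nlinarith
  have h1 : |d w| ≤ |(mult w : ℝ) * d w| := by
    rw [abs_mul, abs_of_nonneg (by positivity : (0 : ℝ) ≤ mult w)]
    exact le_mul_of_one_le_left (abs_nonneg _) one_le_mult
  refine h1.trans ((hall w).trans ?_)
  nlinarith

/-- On the support of `rho`, all `normAtPlace w x` are comparable with `‖x‖`. -/
theorem exists_support_bound : ∃ A : ℝ, 1 ≤ A ∧ ∀ x : mixedSpace K, rho K x ≠ 0 →
    ∀ w, ‖x‖ ≤ A * normAtPlace w x := by
  obtain ⟨B, hB0, hB⟩ := exists_log_normAtPlace_bound (K := K)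
  refine ⟨Real.exp (2 * B), Real.one_le_exp (by positivity), fun x hx w ↦ ?_⟩
  have hN := norm_ne_zero_of_rho_ne_zero hx
  have hpos : ∀ v, 0 < normAtPlace v x := fun v ↦
    lt_of_le_of_ne (normAtPlace_nonneg v x) (mixedEmbedding.norm_ne_zero_iff.mp hN v).symm
  obtain ⟨v, hv⟩ := exists_norm_eq_normAtPlace x
  rw [hv]
  have h1 := abs_le.mp (hB x hx v)
  have h2 := abs_le.mp (hB x hx w)
  have h3 : Real.log (normAtPlace v x) ≤ 2 * B + Real.log (normAtPlace w x) := by linarith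
  calc normAtPlace v x = Real.exp (Real.log (normAtPlace v x)) := (Real.exp_log (hpos v)).symm
    _ ≤ Real.exp (2 * B + Real.log (normAtPlace w x)) := Real.exp_le_exp.mpr h3
    _ = Real.exp (2 * B) * normAtPlace w x := by rw [Real.exp_add, Real.exp_log (hpos w)]

end Fermat.Agent.S14.H74

end
-- ===== PACK-END S14/H74/Support.lean

-- ===== PACK-BEGIN S14/H74/Lipschitz.lean
section


/-!
# S14/N1 (helper74): Lipschitz estimate for `fS` (piece P5)
-/

namespace Fermat.Agent.S14.H74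

open NumberField NumberField.mixedEmbedding NumberField.Units
  NumberField.Units.dirichletUnitTheorem NumberField.InfinitePlace Module

open scoped Classical

variable {K : Type*} [Field K] [NumberField K]

theorem abs_log_sub_log_le {a b : ℝ} (ha : 0 < a) (hab : |b - a| ≤ a / 2) :
    |Real.log b - Real.log a| ≤ 2 * |b - a| / a := by
  have hb : 0 < b := by
    have := (abs_le.mp hab).1
    linarith
  have hb2 : a / 2 ≤ b := by
    have := (abs_le.mp hab).1
    linarith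
  rw [← Real.log_div hb.ne' ha.ne']
  have hr : 0 < b / a := div_pos hb ha
  have h1 : Real.log (b / a) ≤ b / a - 1 := Real.log_le_sub_one_of_pos hr
  have h2 : 1 - (b / a)⁻¹ ≤ Real.log (b / a) := Real.one_sub_inv_le_log_of_pos hr
  have e1 : b / a - 1 = (b - a) / a := by field_simp
  have e2 : 1 - (b / a)⁻¹ = (b - a) / b := by field_simp
  rw [e1] at h1
  rw [e2] at h2
  have h3 : (b - a) / a ≤ 2 * |b - a| / a := by
    apply div_le_div_of_nonneg_right _ ha.le
    have := le_abs_self (b - a)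
    have := abs_nonneg (b - a)
    linarith
  have h4 : -(2 * |b - a| / a) ≤ (b - a) / b := by
    rw [neg_le, ← neg_div, div_le_div_iff₀ hb ha]
    have h5 := neg_abs_le (b - a)
    have h6 := abs_nonneg (b - a)
    have h7 : -(b - a) ≤ |b - a| := by linarith
    calc -(b - a) * a ≤ |b - a| * a := by gcongr
      _ ≤ |b - a| * (2 * b) := by gcongr; linarith
      _ = 2 * |b - a| * b := by ring
  exact abs_le.mpr ⟨by linarith, by linarith⟩

theorem abs_normAtPlace_add_sub_le (w : InfinitePlace K) (x t : mixedSpace K) :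
    |normAtPlace w (x + t) - normAtPlace w x| ≤ ‖t‖ := by
  have h1 := normAtPlace_add_le w x t
  have h2 := normAtPlace_add_le w (x + t) (-t)
  rw [normAtPlace_neg, add_neg_cancel_right] at h2
  have h3 := normAtPlace_le_norm w t
  exact abs_le.mpr ⟨by linarith, by linarith⟩

/-- Bound for the coordinates in the unit lattice basis. -/
theorem exists_logCoord_bound : ∃ M : ℝ, 0 ≤ M ∧ ∀ (v : logSpace K) (j : Fin (rank K)),
    |((basisUnitLattice K).ofZLatticeBasis ℝ (unitLattice K)).repr v j| ≤ M * ‖v‖ := by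
  set b := (basisUnitLattice K).ofZLatticeBasis ℝ (unitLattice K) with hb
  refine ⟨‖(b.equivFunL : logSpace K →L[ℝ] (Fin (rank K) → ℝ))‖, norm_nonneg _, fun v j ↦ ?_⟩
  have h1 := (b.equivFunL : logSpace K →L[ℝ] (Fin (rank K) → ℝ)).le_opNorm v
  have h2 : b.repr v j = (b.equivFunL : logSpace K →L[ℝ] (Fin (rank K) → ℝ)) v j := by
    simp [Basis.equivFunL]
  rw [h2, ← Real.norm_eq_abs]
  exact (norm_le_pi_norm _ j).trans h1

theorem mult_le_two_real (w : InfinitePlace K) : (mult w : ℝ) ≤ 2 := by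
  unfold mult
  split_ifs <;> norm_num

theorem normAtPlace_pos_of_norm_ne_zero {x : mixedSpace K} (hx : mixedEmbedding.norm x ≠ 0)
    (w : InfinitePlace K) : 0 < normAtPlace w x :=
  lt_of_le_of_ne (normAtPlace_nonneg w x) (mixedEmbedding.norm_ne_zero_iff.mp hx w).symm

/-- L1: a small perturbation keeps the norm nonzero and moves the logarithms of the
`normAtPlace` by a small amount. -/
theorem log_normAtPlace_add_sub {x t : mixedSpace K} (hx : mixedEmbedding.norm x ≠ 0)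
    (ht : ∀ w, ‖t‖ ≤ normAtPlace w x / 2) :
    mixedEmbedding.norm (x + t) ≠ 0 ∧ ∀ w, |Real.log (normAtPlace w (x + t)) -
      Real.log (normAtPlace w x)| ≤ 2 * ‖t‖ / normAtPlace w x := by
  have hpos := normAtPlace_pos_of_norm_ne_zero hx
  have h1 : ∀ w, |normAtPlace w (x + t) - normAtPlace w x| ≤ normAtPlace w x / 2 :=
    fun w ↦ (abs_normAtPlace_add_sub_le w x t).trans (ht w)
  refine ⟨mixedEmbedding.norm_ne_zero_iff.mpr fun w ↦ ?_, fun w ↦ ?_⟩
  · have := (abs_le.mp (h1 w)).1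
    have := hpos w
    exact ne_of_gt (by linarith)
  · refine (abs_log_sub_log_le (hpos w) (h1 w)).trans ?_
    apply div_le_div_of_nonneg_right _ (hpos w).le
    have := abs_normAtPlace_add_sub_le w x t
    linarith

/-- L2 (i): the logarithm of the norm moves by at most `n δ`. -/
theorem abs_log_norm_sub_le {x y : mixedSpace K} (hx : mixedEmbedding.norm x ≠ 0)
    (hy : mixedEmbedding.norm y ≠ 0) {δ : ℝ}
    (h : ∀ w, |Real.log (normAtPlace w y) - Real.log (normAtPlace w x)| ≤ δ) :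
    |Real.log (mixedEmbedding.norm y) - Real.log (mixedEmbedding.norm x)|
      ≤ (finrank ℚ K : ℝ) * δ := by
  rw [log_norm_eq_sum hx, log_norm_eq_sum hy, ← Finset.sum_sub_distrib]
  refine (Finset.abs_sum_le_sum_abs _ _).trans ?_
  have h1 : (∑ w : InfinitePlace K, (mult w : ℝ)) = (finrank ℚ K : ℝ) := by
    rw [← Nat.cast_sum, sum_mult_eq]
  rw [← h1, Finset.sum_mul]
  refine Finset.sum_le_sum fun w _ ↦ ?_
  rw [← mul_sub, abs_mul, abs_of_nonneg (by positivity : (0 : ℝ) ≤ mult w)]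
  exact mul_le_mul_of_nonneg_left (h w) (by positivity)

/-- L2 (ii): `logMap` moves by at most `4 δ`. -/
theorem norm_logMap_sub_le {x y : mixedSpace K} (hx : mixedEmbedding.norm x ≠ 0)
    (hy : mixedEmbedding.norm y ≠ 0) {δ : ℝ} (hδ : 0 ≤ δ)
    (h : ∀ w, |Real.log (normAtPlace w y) - Real.log (normAtPlace w x)| ≤ δ) :
    ‖logMap y - logMap x‖ ≤ 4 * δ := by
  rw [pi_norm_le_iff_of_nonneg (by positivity)]
  intro w
  have hn : (0 : ℝ) < finrank ℚ K := Nat.cast_pos.mpr finrank_pos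
  have h1 := abs_log_norm_sub_le hx hy h
  have h2 := h w.1
  rw [Pi.sub_apply, logMap_apply, logMap_apply, ← mul_sub, Real.norm_eq_abs, abs_mul,
    abs_of_nonneg (by positivity : (0 : ℝ) ≤ mult w.1)]
  have h3 : |Real.log (normAtPlace w.1 y) -
      Real.log (mixedEmbedding.norm y) * (finrank ℚ K : ℝ)⁻¹ -
      (Real.log (normAtPlace w.1 x) - Real.log (mixedEmbedding.norm x) * (finrank ℚ K : ℝ)⁻¹)|
      ≤ 2 * δ := by
    have e : Real.log (normAtPlace w.1 y) -
      Real.log (mixedEmbedding.norm y) * (finrank ℚ K : ℝ)⁻¹ -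
      (Real.log (normAtPlace w.1 x) - Real.log (mixedEmbedding.norm x) * (finrank ℚ K : ℝ)⁻¹)
      = (Real.log (normAtPlace w.1 y) - Real.log (normAtPlace w.1 x)) -
        (Real.log (mixedEmbedding.norm y) - Real.log (mixedEmbedding.norm x)) *
          (finrank ℚ K : ℝ)⁻¹ := by ring
    rw [e]
    refine (abs_sub _ _).trans ?_
    rw [abs_mul, abs_of_pos (inv_pos.mpr hn)]
    have h4 : |Real.log (mixedEmbedding.norm y) - Real.log (mixedEmbedding.norm x)| *
        (finrank ℚ K : ℝ)⁻¹ ≤ δ := by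
      rw [← div_eq_mul_inv, div_le_iff₀ hn]
      linarith
    linarith
  calc (mult w.1 : ℝ) * _ ≤ 2 * (2 * δ) :=
        mul_le_mul (mult_le_two_real w.1) h3 (abs_nonneg _) (by norm_num)
    _ = 4 * δ := by ring

/-- L2 (iii): `rho` moves by at most `r M 4 δ`. -/
theorem exists_rho_sub_bound : ∃ M : ℝ, 0 ≤ M ∧ ∀ (x y : mixedSpace K),
    mixedEmbedding.norm x ≠ 0 → mixedEmbedding.norm y ≠ 0 → ∀ δ : ℝ, 0 ≤ δ →
    (∀ w, |Real.log (normAtPlace w y) - Real.log (normAtPlace w x)| ≤ δ) →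
    |rho K y - rho K x| ≤ M * δ := by
  obtain ⟨M, hM0, hM⟩ := exists_logCoord_bound (K := K)
  refine ⟨rank K * (M * 4), by positivity, fun x y hx hy δ hδ h ↦ ?_⟩
  rw [rho_eq_prod hx, rho_eq_prod hy]
  refine (abs_prod_sub_prod_le_sum _ _ _ (fun _ ↦ tent_nonneg _) (fun _ ↦ tent_le_one _)
    (fun _ ↦ tent_nonneg _) (fun _ ↦ tent_le_one _)).trans ?_
  have h1 : ∀ j, |tent (logCoord K y j) - tent (logCoord K x j)| ≤ M * 4 * δ := by
    intro j
    refine (tent_lipschitz _ _).trans ?_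
    have e : logCoord K y j - logCoord K x j =
        ((basisUnitLattice K).ofZLatticeBasis ℝ (unitLattice K)).repr (logMap y - logMap x) j := by
      simp [logCoord]
    rw [e]
    refine (hM _ j).trans ?_
    rw [mul_assoc]
    exact mul_le_mul_of_nonneg_left (norm_logMap_sub_le hx hy hδ h) hM0
  calc ∑ j, |tent (logCoord K y j) - tent (logCoord K x j)|
      ≤ ∑ _j : Fin (rank K), M * 4 * δ := Finset.sum_le_sum fun j _ ↦ h1 j
    _ = rank K * (M * 4) * δ := by
        rw [Finset.sum_const, Finset.card_univ, Fintype.card_fin, nsmul_eq_mul]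
        ring

theorem pow_le_norm_of_support {A : ℝ} (hA : 1 ≤ A) {x : mixedSpace K}
    (h : ∀ w, ‖x‖ ≤ A * normAtPlace w x) :
    (‖x‖ / A) ^ (finrank ℚ K) ≤ mixedEmbedding.norm x := by
  have hA0 : 0 < A := by linarith
  rw [mixedEmbedding.norm_apply, ← sum_mult_eq, ← Finset.prod_pow_eq_pow_sum]
  refine Finset.prod_le_prod (fun w _ ↦ by positivity) fun w _ ↦ ?_
  refine pow_le_pow_left₀ (by positivity) ?_ _
  rw [div_le_iff₀ hA0, mul_comm]
  exact h w

theorem fS_eq_zero_of_rho_eq_zero {s : ℝ} {x : mixedSpace K} (h : rho K x = 0) :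
    fS K s x = 0 := by
  simp [fS, h]

/-- P5, core case: Lipschitz estimate at points of the support of `rho`. -/
theorem exists_fS_lipschitz_core : ∃ C A : ℝ, 0 ≤ C ∧ 1 ≤ A ∧ ∀ s : ℝ, 1 ≤ s → s ≤ 2 →
    ∀ x t : mixedSpace K, rho K x ≠ 0 → 4 * (finrank ℚ K : ℝ) * A * ‖t‖ ≤ ‖x‖ → A ≤ ‖x‖ →
    |fS K s (x + t) - fS K s x| ≤ C * ‖t‖ / ‖x‖ ^ (finrank ℚ K + 1) := by
  obtain ⟨A, hA1, hA⟩ := exists_support_bound (K := K)
  obtain ⟨M, hM0, hM⟩ := exists_rho_sub_bound (K := K)
  have hA0 : 0 < A := by linarith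
  have hn1 : (1 : ℝ) ≤ finrank ℚ K := by exact_mod_cast finrank_pos
  set n : ℕ := finrank ℚ K with hn
  refine ⟨(3 * M + 4 * n) * 2 * A ^ (n + 1), A, by positivity, hA1,
    fun s hs1 hs2 x t hρ hxt hxA ↦ ?_⟩
  have hN := norm_ne_zero_of_rho_ne_zero hρ
  have hsupp := hA x hρ
  have hxpos : 0 < ‖x‖ := by linarith
  have hapos := normAtPlace_pos_of_norm_ne_zero hN
  have htn : 0 ≤ ‖t‖ := norm_nonneg t
  -- `‖t‖` is small with respect to all `normAtPlace w x`
  have ht4 : ∀ w, 4 * (n : ℝ) * ‖t‖ ≤ normAtPlace w x := by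
    intro w
    have h1 := hsupp w
    have h2 : A * (4 * (n : ℝ) * ‖t‖) ≤ A * normAtPlace w x := by
      calc A * (4 * (n : ℝ) * ‖t‖) = 4 * (n : ℝ) * A * ‖t‖ := by ring
        _ ≤ ‖x‖ := hxt
        _ ≤ A * normAtPlace w x := h1
    exact le_of_mul_le_mul_left h2 hA0
  have ht : ∀ w, ‖t‖ ≤ normAtPlace w x / 2 := by
    intro w
    have := ht4 w
    nlinarith
  obtain ⟨hN', hlog⟩ := log_normAtPlace_add_sub hN ht
  set δ : ℝ := 2 * A * ‖t‖ / ‖x‖ with hδ
  have hδ0 : 0 ≤ δ := by positivity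
  have hδ1 : 2 * (n : ℝ) * δ ≤ 1 := by
    rw [hδ, ← mul_div_assoc, div_le_one hxpos]
    calc 2 * (n : ℝ) * (2 * A * ‖t‖) = 4 * (n : ℝ) * A * ‖t‖ := by ring
      _ ≤ ‖x‖ := hxt
  have hlogδ : ∀ w, |Real.log (normAtPlace w (x + t)) - Real.log (normAtPlace w x)| ≤ δ := by
    intro w
    refine (hlog w).trans ?_
    rw [hδ, div_le_div_iff₀ (hapos w) hxpos]
    calc 2 * ‖t‖ * ‖x‖ ≤ 2 * ‖t‖ * (A * normAtPlace w x) := by gcongr; exact hsupp w
      _ = 2 * A * ‖t‖ * normAtPlace w x := by ring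
  have hΔ := abs_log_norm_sub_le hN hN' hlogδ
  have hρ' := hM x (x + t) hN hN' δ hδ0 hlogδ
  set Δ : ℝ := Real.log (mixedEmbedding.norm (x + t)) - Real.log (mixedEmbedding.norm x) with hΔdef
  have hNpos : 0 < mixedEmbedding.norm x :=
    lt_of_le_of_ne (mixedEmbedding.norm_nonneg x) hN.symm
  have hNpos' : 0 < mixedEmbedding.norm (x + t) :=
    lt_of_le_of_ne (mixedEmbedding.norm_nonneg _) hN'.symm
  -- the exponential factor
  have hsΔ : |(-s) * Δ| ≤ 2 * (n : ℝ) * δ := by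
    rw [abs_mul, abs_neg, abs_of_nonneg (by linarith : (0 : ℝ) ≤ s)]
    calc s * |Δ| ≤ 2 * ((n : ℝ) * δ) := mul_le_mul hs2 hΔ (abs_nonneg _) (by norm_num)
      _ = 2 * (n : ℝ) * δ := by ring
  have he1 : |Real.exp ((-s) * Δ) - 1| ≤ 4 * (n : ℝ) * δ := by
    refine (Real.abs_exp_sub_one_le (hsΔ.trans hδ1)).trans ?_
    linarith
  have he2 : Real.exp ((-s) * Δ) ≤ 3 := by
    have := (abs_le.mp he1).2
    linarith
  have he0 : 0 ≤ Real.exp ((-s) * Δ) := (Real.exp_pos _).le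
  have hpow : (mixedEmbedding.norm (x + t)) ^ (-s) =
      (mixedEmbedding.norm x) ^ (-s) * Real.exp ((-s) * Δ) := by
    rw [Real.rpow_def_of_pos hNpos, Real.rpow_def_of_pos hNpos', ← Real.exp_add, hΔdef]
    congr 1
    ring
  -- bound for `N(x)^(-s)`
  have hNge := pow_le_norm_of_support hA1 hsupp
  have hxA1 : 1 ≤ ‖x‖ / A := by rwa [le_div_iff₀ hA0, one_mul]
  have hN1 : 1 ≤ mixedEmbedding.norm x := (one_le_pow₀ hxA1).trans hNge
  have hNs : (mixedEmbedding.norm x) ^ (-s) ≤ (A / ‖x‖) ^ n := by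
    calc (mixedEmbedding.norm x) ^ (-s) ≤ (mixedEmbedding.norm x) ^ (-1 : ℝ) :=
          Real.rpow_le_rpow_of_exponent_le hN1 (by linarith)
      _ = (mixedEmbedding.norm x)⁻¹ := Real.rpow_neg_one _
      _ ≤ ((‖x‖ / A) ^ n)⁻¹ := inv_anti₀ (by positivity) hNge
      _ = (A / ‖x‖) ^ n := by rw [← inv_pow, inv_div]
  have hNs0 : 0 ≤ (mixedEmbedding.norm x) ^ (-s) := Real.rpow_nonneg hNpos.le _
  -- assemble
  have hρ0 := rho_nonneg (K := K) x
  have hρ1 := rho_le_one (K := K) x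
  have key : fS K s (x + t) - fS K s x = (mixedEmbedding.norm x) ^ (-s) *
      ((rho K (x + t) - rho K x) * Real.exp ((-s) * Δ) +
        rho K x * (Real.exp ((-s) * Δ) - 1)) := by
    have e1 : fS K s (x + t) = rho K (x + t) * (mixedEmbedding.norm (x + t)) ^ (-s) := rfl
    have e2 : fS K s x = rho K x * (mixedEmbedding.norm x) ^ (-s) := rfl
    rw [e1, e2, hpow]
    generalize rho K (x + t) = r1
    generalize rho K x = r2
    generalize (mixedEmbedding.norm x) ^ (-s) = q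
    generalize Real.exp ((-s) * Δ) = e
    ring
  rw [key, abs_mul, abs_of_nonneg hNs0]
  have hin : |(rho K (x + t) - rho K x) * Real.exp ((-s) * Δ) +
        rho K x * (Real.exp ((-s) * Δ) - 1)| ≤ (3 * M + 4 * n) * δ := by
    refine (abs_add_le _ _).trans ?_
    rw [abs_mul, abs_mul, abs_of_nonneg he0, abs_of_nonneg hρ0]
    have h1 : |rho K (x + t) - rho K x| * Real.exp ((-s) * Δ) ≤ (M * δ) * 3 :=
      mul_le_mul hρ' he2 he0 (mul_nonneg hM0 hδ0)
    have h2 : rho K x * |Real.exp ((-s) * Δ) - 1| ≤ 1 * (4 * (n : ℝ) * δ) :=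
      mul_le_mul hρ1 he1 (abs_nonneg _) (by norm_num)
    linarith
  calc (mixedEmbedding.norm x) ^ (-s) * _ ≤ (A / ‖x‖) ^ n * ((3 * M + 4 * n) * δ) :=
        mul_le_mul hNs hin (abs_nonneg _) (by positivity)
    _ = (3 * M + 4 * n) * 2 * A ^ (n + 1) * ‖t‖ / ‖x‖ ^ (n + 1) := by
        rw [hδ, div_pow]
        field_simp
        ring

/-- **P5**: Lipschitz estimate for `fS`, uniform in `s ∈ [1, 2]`. -/
theorem exists_fS_lipschitz {T : ℝ} (hT : 0 ≤ T) : ∃ R C : ℝ, 0 < R ∧ 0 ≤ C ∧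
    ∀ s : ℝ, 1 ≤ s → s ≤ 2 → ∀ x t : mixedSpace K, ‖t‖ ≤ T → R ≤ ‖x‖ →
    |fS K s (x + t) - fS K s x| ≤ C / ‖x‖ ^ (finrank ℚ K + 1) := by
  obtain ⟨C, A, hC0, hA1, h⟩ := exists_fS_lipschitz_core (K := K)
  have hA0 : 0 < A := by linarith
  have hn1 : (1 : ℝ) ≤ finrank ℚ K := by exact_mod_cast finrank_pos
  set n : ℕ := finrank ℚ K with hn
  have hnAT : 0 ≤ (n : ℝ) * A * T := by positivity
  refine ⟨2 * A + 8 * n * A * T + 2 * T, C * T * 2 ^ (n + 1), by positivity, by positivity,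
    fun s hs1 hs2 x t ht hx ↦ ?_⟩
  have hxpos : 0 < ‖x‖ := by linarith
  have htn : 0 ≤ ‖t‖ := norm_nonneg t
  have h2pow : (1 : ℝ) ≤ 2 ^ (n + 1) := one_le_pow₀ (by norm_num)
  by_cases hρ : rho K x = 0
  · by_cases hρ' : rho K (x + t) = 0
    · rw [fS_eq_zero_of_rho_eq_zero hρ, fS_eq_zero_of_rho_eq_zero hρ', sub_zero, abs_zero]
      positivity
    · -- apply the core case at `x + t` with `-t`
      have hxt : ‖x‖ / 2 ≤ ‖x + t‖ := by
        have h1 : ‖x‖ ≤ ‖x + t‖ + ‖t‖ := by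
          calc ‖x‖ = ‖(x + t) - t‖ := by rw [add_sub_cancel_right]
            _ ≤ ‖x + t‖ + ‖t‖ := norm_sub_le _ _
        linarith
      have hxt0 : 0 < ‖x + t‖ := by linarith
      have h1 := h s hs1 hs2 (x + t) (-t) hρ' (by
        rw [norm_neg]
        calc 4 * (n : ℝ) * A * ‖t‖ ≤ 4 * (n : ℝ) * A * T := by gcongr
          _ ≤ ‖x‖ / 2 := by linarith
          _ ≤ ‖x + t‖ := hxt) (by linarith)
      rw [add_neg_cancel_right, norm_neg, abs_sub_comm] at h1
      refine h1.trans ?_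
      rw [div_le_div_iff₀ (by positivity) (by positivity)]
      have h3 : ‖x‖ ^ (n + 1) ≤ 2 ^ (n + 1) * ‖x + t‖ ^ (n + 1) := by
        rw [← mul_pow]
        exact pow_le_pow_left₀ hxpos.le (by linarith) _
      calc C * ‖t‖ * ‖x‖ ^ (n + 1) ≤ C * T * (2 ^ (n + 1) * ‖x + t‖ ^ (n + 1)) := by gcongr
        _ = C * T * 2 ^ (n + 1) * ‖x + t‖ ^ (n + 1) := by ring
  · have h1 := h s hs1 hs2 x t hρ (by
      calc 4 * (n : ℝ) * A * ‖t‖ ≤ 4 * (n : ℝ) * A * T := by gcongr
        _ ≤ ‖x‖ := by linarith) (by linarith)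
    refine h1.trans ?_
    apply div_le_div_of_nonneg_right _ (by positivity)
    calc C * ‖t‖ ≤ C * T * 1 := by rw [mul_one]; gcongr
      _ ≤ C * T * 2 ^ (n + 1) := by gcongr

end Fermat.Agent.S14.H74

end
-- ===== PACK-END S14/H74/Lipschitz.lean

-- ===== PACK-BEGIN S14/H74/Lattice.lean
section


/-!
# S14/N1 (helper74): lattice sums of `fS` (piece P6)
-/

namespace Fermat.Agent.S14.H74

open NumberField NumberField.mixedEmbedding NumberField.Units
  NumberField.Units.dirichletUnitTheorem NumberField.InfinitePlace Module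

open scoped Classical

variable (K : Type*) [Field K] [NumberField K]

/-- The summand on the ring of integers. -/
noncomputable def FS (s : ℝ) (x : 𝓞 K) : ℝ := fS K s (mixedEmbedding K (x : K))

/-- The norm of the image in the mixed space. -/
noncomputable def mnorm (x : 𝓞 K) : ℝ := ‖mixedEmbedding K (x : K)‖

variable {K}

theorem mnorm_nonneg (x : 𝓞 K) : 0 ≤ mnorm K x := norm_nonneg _

theorem mnorm_eq_zero_iff {x : 𝓞 K} : mnorm K x = 0 ↔ x = 0 := by
  unfold mnorm
  rw [norm_eq_zero, map_eq_zero, RingOfIntegers.coe_eq_zero_iff]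

theorem mnorm_add_le (x y : 𝓞 K) : mnorm K (x + y) ≤ mnorm K x + mnorm K y := by
  unfold mnorm
  have : mixedEmbedding K ((x + y : 𝓞 K) : K) =
      mixedEmbedding K (x : K) + mixedEmbedding K (y : K) := by
    rw [← map_add]
    rfl
  rw [this]
  exact norm_add_le _ _

theorem mixedEmbedding_norm_coe (x : 𝓞 K) :
    mixedEmbedding.norm (mixedEmbedding K (x : K)) = |(Algebra.norm ℤ x : ℝ)| := by
  rw [mixedEmbedding.norm_eq_norm, ← Algebra.coe_norm_int]
  simp

theorem one_le_mixedEmbedding_norm {x : 𝓞 K} (hx : x ≠ 0) :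
    1 ≤ mixedEmbedding.norm (mixedEmbedding K (x : K)) := by
  rw [mixedEmbedding_norm_coe]
  have h : Algebra.norm ℤ x ≠ 0 := by
    rwa [Ne, Algebra.norm_eq_zero_iff]
  have : (1 : ℤ) ≤ |Algebra.norm ℤ x| := Int.one_le_abs h
  exact_mod_cast this

theorem FS_zero (s : ℝ) : FS K s 0 = 0 := by
  simp [FS, fS, rho]

theorem FS_nonneg (s : ℝ) (x : 𝓞 K) : 0 ≤ FS K s x :=
  mul_nonneg (rho_nonneg _) (Real.rpow_nonneg (mixedEmbedding.norm_nonneg _) _)

theorem FS_le_one {s : ℝ} (hs : 0 ≤ s) (x : 𝓞 K) : FS K s x ≤ 1 := by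
  by_cases hx : x = 0
  · rw [hx, FS_zero]
    exact zero_le_one
  · have h1 := one_le_mixedEmbedding_norm hx
    have h2 : (mixedEmbedding.norm (mixedEmbedding K (x : K))) ^ (-s) ≤ 1 :=
      Real.rpow_le_one_of_one_le_of_nonpos h1 (by linarith)
    calc FS K s x = rho K _ * _ := rfl
      _ ≤ 1 * 1 := mul_le_mul (rho_le_one _) h2 (Real.rpow_nonneg (by linarith) _) zero_le_one
      _ = 1 := one_mul 1

theorem abs_FS_le_one {s : ℝ} (hs : 0 ≤ s) (x : 𝓞 K) : |FS K s x| ≤ 1 := by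
  rw [abs_of_nonneg (FS_nonneg s x)]
  exact FS_le_one hs x

variable (K) in
/-- The ring of integers as the integer lattice. -/
noncomputable def toLattice : 𝓞 K ≃ mixedEmbedding.integerLattice K :=
  Equiv.ofBijective (fun x ↦ ⟨mixedEmbedding K (x : K), ⟨x, rfl⟩⟩) (by
    constructor
    · intro x y h
      have h1 : mixedEmbedding K (x : K) = mixedEmbedding K (y : K) := congrArg Subtype.val h
      exact RingOfIntegers.ext ((mixedEmbedding_injective K) h1)
    · rintro ⟨_, ⟨x, rfl⟩⟩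
      exact ⟨x, rfl⟩)

theorem summable_mnorm_rpow {r : ℝ} (hr : r < -(finrank ℚ K : ℝ)) :
    Summable fun x : 𝓞 K ↦ mnorm K x ^ r := by
  have h1 : finrank ℤ (mixedEmbedding.integerLattice K) = finrank ℚ K := by
    rw [ZLattice.rank ℝ, mixedEmbedding.finrank]
  have h2 := ZLattice.summable_norm_rpow (mixedEmbedding.integerLattice K) r (by rwa [h1])
  exact ((toLattice K).summable_iff (f := fun z : mixedEmbedding.integerLattice K ↦ ‖z‖ ^ r)).mpr h2

theorem exists_FS_le_mnorm_rpow : ∃ A : ℝ, 1 ≤ A ∧ ∀ s : ℝ, 0 ≤ s → ∀ x : 𝓞 K,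
    FS K s x ≤ A ^ ((finrank ℚ K : ℝ) * s) * mnorm K x ^ (-((finrank ℚ K : ℝ) * s)) := by
  obtain ⟨A, hA1, hA⟩ := exists_support_bound (K := K)
  have hA0 : 0 < A := by linarith
  refine ⟨A, hA1, fun s hs x ↦ ?_⟩
  by_cases hρ : rho K (mixedEmbedding K (x : K)) = 0
  · have : FS K s x = 0 := fS_eq_zero_of_rho_eq_zero hρ
    rw [this]
    exact mul_nonneg (Real.rpow_nonneg hA0.le _) (Real.rpow_nonneg (mnorm_nonneg x) _)
  · have hN := norm_ne_zero_of_rho_ne_zero hρ
    have hx : x ≠ 0 := by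
      rintro rfl
      simp at hN
    have hm : 0 < mnorm K x := lt_of_le_of_ne (mnorm_nonneg x) (Ne.symm (by
      rwa [Ne, mnorm_eq_zero_iff]))
    have h1 := pow_le_norm_of_support hA1 (hA _ hρ)
    have h2 : 0 < (mnorm K x / A) ^ (finrank ℚ K) := by positivity
    have h3 : (mixedEmbedding.norm (mixedEmbedding K (x : K))) ^ (-s) ≤
        ((mnorm K x / A) ^ (finrank ℚ K)) ^ (-s) :=
      Real.rpow_le_rpow_of_nonpos h2 h1 (by linarith)
    have h4 : ((mnorm K x / A) ^ (finrank ℚ K)) ^ (-s) =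
        A ^ ((finrank ℚ K : ℝ) * s) * mnorm K x ^ (-((finrank ℚ K : ℝ) * s)) := by
      rw [← Real.rpow_natCast, ← Real.rpow_mul (by positivity), Real.div_rpow hm.le hA0.le,
        mul_neg, Real.rpow_neg hA0.le, div_eq_mul_inv, inv_inv, mul_comm]
    calc FS K s x = rho K _ * (mixedEmbedding.norm (mixedEmbedding K (x : K))) ^ (-s) := rfl
      _ ≤ 1 * ((mnorm K x / A) ^ (finrank ℚ K)) ^ (-s) :=
          mul_le_mul (rho_le_one _) h3 (Real.rpow_nonneg (mixedEmbedding.norm_nonneg _) _)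
            zero_le_one
      _ = _ := by rw [one_mul, h4]

theorem summable_FS {s : ℝ} (hs : 1 < s) : Summable (FS K s) := by
  obtain ⟨A, -, hA⟩ := exists_FS_le_mnorm_rpow (K := K)
  have hn : (0 : ℝ) < finrank ℚ K := Nat.cast_pos.mpr finrank_pos
  refine Summable.of_nonneg_of_le (FS_nonneg s) (hA s (by linarith)) ?_
  refine Summable.mul_left _ (summable_mnorm_rpow ?_)
  rw [neg_lt_neg_iff]
  nlinarith

/-- Domination of the differences `FS (y + t) - FS y`, uniformly in `s ∈ [1, 2]`. -/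
theorem exists_dominating (t : 𝓞 K) : ∃ g : 𝓞 K → ℝ, Summable g ∧ (∀ y, 0 ≤ g y) ∧
    ∀ s : ℝ, 1 ≤ s → s ≤ 2 → ∀ y : 𝓞 K, |FS K s (y + t) - FS K s y| ≤ g y := by
  obtain ⟨R, C, hR, hC, h⟩ := exists_fS_lipschitz (K := K) (mnorm_nonneg t)
  set n : ℕ := finrank ℚ K with hn
  have hsum : Summable fun y : 𝓞 K ↦ mnorm K y ^ (-((n : ℝ) + 1)) :=
    summable_mnorm_rpow (by rw [neg_lt_neg_iff]; linarith)
  refine ⟨fun y ↦ (C + R ^ (n + 1)) * mnorm K y ^ (-((n : ℝ) + 1)) + if y = 0 then 1 else 0,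
    (hsum.mul_left _).add (hasSum_ite_eq 0 (1 : ℝ)).summable, fun y ↦ ?_,
    fun s hs1 hs2 y ↦ ?_⟩
  · have : 0 ≤ mnorm K y ^ (-((n : ℝ) + 1)) := Real.rpow_nonneg (mnorm_nonneg y) _
    have : (0 : ℝ) ≤ if y = 0 then 1 else 0 := by split_ifs <;> norm_num
    show 0 ≤ (C + R ^ (n + 1)) * mnorm K y ^ (-((n : ℝ) + 1)) + if y = 0 then 1 else 0
    positivity
  · have hs0 : (0 : ℝ) ≤ s := by linarith
    show |FS K s (y + t) - FS K s y| ≤
      (C + R ^ (n + 1)) * mnorm K y ^ (-((n : ℝ) + 1)) + if y = 0 then 1 else 0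
    by_cases hy : y = 0
    · subst hy
      rw [zero_add, FS_zero, sub_zero, if_pos rfl]
      have : 0 ≤ mnorm K (0 : 𝓞 K) ^ (-((n : ℝ) + 1)) := Real.rpow_nonneg (mnorm_nonneg _) _
      have := abs_FS_le_one hs0 t
      have : 0 ≤ (C + R ^ (n + 1)) * mnorm K (0 : 𝓞 K) ^ (-((n : ℝ) + 1)) := by positivity
      linarith
    · rw [if_neg hy, add_zero]
      have hm : 0 < mnorm K y := lt_of_le_of_ne (mnorm_nonneg y) (Ne.symm (by
        rwa [Ne, mnorm_eq_zero_iff]))
      have e : mnorm K y ^ (-((n : ℝ) + 1)) = 1 / mnorm K y ^ (n + 1) := by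
        rw [Real.rpow_neg hm.le, one_div]
        congr 1
        exact_mod_cast Real.rpow_natCast (mnorm K y) (n + 1)
      rw [e, mul_one_div]
      by_cases hyR : R ≤ mnorm K y
      · have h1 := h s hs1 hs2 (mixedEmbedding K (y : K)) (mixedEmbedding K (t : K)) le_rfl hyR
        have h2 : FS K s (y + t) = fS K s (mixedEmbedding K (y : K) + mixedEmbedding K (t : K)) := by
          unfold FS
          rw [← map_add]
          rfl
        rw [h2]
        refine h1.trans ?_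
        apply div_le_div_of_nonneg_right _ (by positivity)
        have : 0 ≤ R ^ (n + 1) := by positivity
        linarith
      · have h1 : |FS K s (y + t) - FS K s y| ≤ 1 := by
          have a1 := FS_nonneg s (y + t)
          have a2 := FS_le_one hs0 (y + t)
          have a3 := FS_nonneg s y
          have a4 := FS_le_one hs0 y
          exact abs_le.mpr ⟨by linarith, by linarith⟩
        refine h1.trans ?_
        rw [le_div_iff₀ (by positivity), one_mul]
        have h3 : mnorm K y ^ (n + 1) ≤ R ^ (n + 1) :=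
          pow_le_pow_left₀ hm.le (not_le.mp hyR).le _
        linarith

/-- Coset decomposition of `𝓞 K` along an ideal. -/
noncomputable def cosetEquiv (J : Ideal (𝓞 K)) : (𝓞 K ⧸ J) × J ≃ 𝓞 K where
  toFun p := Quotient.out p.1 + (p.2 : 𝓞 K)
  invFun x := (Ideal.Quotient.mk J x, ⟨x - Quotient.out (Ideal.Quotient.mk J x), by
    rw [← Ideal.Quotient.eq, Ideal.Quotient.mk_out]⟩)
  left_inv := by
    rintro ⟨q, y⟩
    have h1 : Ideal.Quotient.mk J (Quotient.out q + (y : 𝓞 K)) = q := by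
      rw [map_add, Ideal.Quotient.mk_out, Ideal.Quotient.eq_zero_iff_mem.mpr y.2, add_zero]
    ext
    · exact h1
    · simp only
      rw [h1, add_sub_cancel_left]
  right_inv := by
    intro x
    simp

theorem cosetEquiv_apply (J : Ideal (𝓞 K)) (q : 𝓞 K ⧸ J) (y : J) :
    cosetEquiv J (q, y) = Quotient.out q + (y : 𝓞 K) := rfl

/-- **P6**: comparison of the smoothed sums over `𝓞 K` and over an ideal `J`. -/
theorem exists_compare_bound (J : Ideal (𝓞 K)) (hJ : J ≠ ⊥) : ∃ B : ℝ, ∀ s : ℝ, 1 < s → s ≤ 2 →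
    |∑' x : 𝓞 K, FS K s x - (Ideal.absNorm J : ℝ) * ∑' y : J, FS K s (y : 𝓞 K)| ≤ B := by
  have : Finite (𝓞 K ⧸ J) := Ideal.finiteQuotientOfFreeOfNeBot J hJ
  let _ : Fintype (𝓞 K ⧸ J) := Fintype.ofFinite _
  have hcard : (Ideal.absNorm J : ℝ) = Fintype.card (𝓞 K ⧸ J) := by
    rw [Ideal.absNorm_apply, Submodule.cardQuot_apply, Nat.card_eq_fintype_card]
  choose g hg hg0 hgb using fun t : 𝓞 K ↦ exists_dominating (K := K) t
  refine ⟨∑ q : 𝓞 K ⧸ J, ∑' y : J, g (Quotient.out q) (y : 𝓞 K), fun s hs1 hs2 ↦ ?_⟩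
  have hsumF := summable_FS (K := K) hs1
  have hsumJ : Summable fun y : J ↦ FS K s (y : 𝓞 K) :=
    hsumF.comp_injective Subtype.val_injective
  have hsumq : ∀ q : 𝓞 K ⧸ J, Summable fun y : J ↦ FS K s (Quotient.out q + (y : 𝓞 K)) := by
    intro q
    refine hsumF.comp_injective (f := FS K s) (i := fun y : J ↦ Quotient.out q + (y : 𝓞 K)) ?_
    intro y y' h
    exact Subtype.ext (add_left_cancel h)
  have h1 : ∑' x : 𝓞 K, FS K s x = ∑ q : 𝓞 K ⧸ J, ∑' y : J,
      FS K s (Quotient.out q + (y : 𝓞 K)) := by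
    have hs' : Summable (FS K s ∘ cosetEquiv J) :=
      ((cosetEquiv J).summable_iff (f := FS K s)).mpr hsumF
    have e1 : ∑' x : 𝓞 K, FS K s x = ∑' p : (𝓞 K ⧸ J) × J, (FS K s ∘ cosetEquiv J) p :=
      ((cosetEquiv J).tsum_eq (FS K s)).symm
    have hsumq' : ∀ q : 𝓞 K ⧸ J, Summable fun y : J ↦ (FS K s ∘ cosetEquiv J) (q, y) := by
      intro q
      simp only [Function.comp_apply, cosetEquiv_apply]
      exact hsumq q
    rw [e1, hs'.tsum_prod' hsumq', tsum_fintype]
    simp only [Function.comp_apply, cosetEquiv_apply]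
  have h2 : (Ideal.absNorm J : ℝ) * ∑' y : J, FS K s (y : 𝓞 K) =
      ∑ _q : 𝓞 K ⧸ J, ∑' y : J, FS K s (y : 𝓞 K) := by
    rw [Finset.sum_const, Finset.card_univ, nsmul_eq_mul, hcard]
  rw [h1, h2, ← Finset.sum_sub_distrib]
  refine (Finset.abs_sum_le_sum_abs _ _).trans (Finset.sum_le_sum fun q _ ↦ ?_)
  rw [← (hsumq q).tsum_sub hsumJ, ← Real.norm_eq_abs]
  have hgJ : Summable fun y : J ↦ g (Quotient.out q) (y : 𝓞 K) :=
    (hg (Quotient.out q)).comp_injective Subtype.val_injective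
  refine tsum_of_norm_bounded hgJ.hasSum fun y ↦ ?_
  rw [Real.norm_eq_abs, add_comm (Quotient.out q) (y : 𝓞 K)]
  exact hgb (Quotient.out q) s hs1.le hs2 y

end Fermat.Agent.S14.H74

end
-- ===== PACK-END S14/H74/Lattice.lean

-- ===== PACK-BEGIN Lib/NormL/Defs.lean
section



/-!
# Shared library `NormL` (analytic core of qualitative Chebotarev), definitions

For a number field `K` and a Dirichlet character `χ` mod `m` we study
`normL K χ s = ∑_I χ(N I) N(I)^(-s)` (sum over nonzero integral ideals) for real `s > 1`.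
Main result (file `Main.lean`): if `χ(N I₀) ∉ {0, 1}` for some ideal `I₀`, then `normL K χ`
extends to a continuous function on `[1, 2]`.
-/

namespace Fermat.Agent.Lib.NormL

open NumberField NumberField.mixedEmbedding Fermat.Agent.S14.H74
open scoped nonZeroDivisors Classical

variable (K : Type*) [Field K] [NumberField K]

/-- The norm-twisted `L`-series `∑_I χ(N I) N(I)^(-s)` over the nonzero ideals of `𝓞 K`,
for a real argument `s`. -/
noncomputable def normL {m : ℕ} (χ : DirichletCharacter ℂ m) (s : ℝ) : ℂ :=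
  ∑' I : (Ideal (𝓞 K))⁰, χ ((Ideal.absNorm (I : Ideal (𝓞 K)) : ℕ) : ZMod m) *
    (((Ideal.absNorm (I : Ideal (𝓞 K)) : ℝ) ^ (-s) : ℝ) : ℂ)

/-- The summand `ρ(x) |N(x)|^(-s)` on `𝓞 K`, twisted by the sign of the norm if `ε = true`. -/
noncomputable def GS (ε : Bool) (s : ℝ) (x : 𝓞 K) : ℝ :=
  FS K s x * (if ε then (((Algebra.norm ℤ x).sign : ℤ) : ℝ) else 1)

/-- The sum over the principal nonzero ideals divisible by `A` of `χ(N I) N(I)^(-s)`. -/
noncomputable def prinL {m : ℕ} (χ : DirichletCharacter ℂ m) (A : Ideal (𝓞 K)) (s : ℝ) : ℂ :=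
  ∑' I : {I : (Ideal (𝓞 K))⁰ // (I : Ideal (𝓞 K)).IsPrincipal ∧ A ∣ (I : Ideal (𝓞 K))},
    χ ((Ideal.absNorm (I.1 : Ideal (𝓞 K)) : ℕ) : ZMod m) *
      (((Ideal.absNorm (I.1 : Ideal (𝓞 K)) : ℝ) ^ (-s) : ℝ) : ℂ)

/-- The partial `L`-series of the ideal class `C`. -/
noncomputable def classL {m : ℕ} (χ : DirichletCharacter ℂ m) (C : ClassGroup (𝓞 K)) (s : ℝ) :
    ℂ :=
  ∑' I : {I : (Ideal (𝓞 K))⁰ // ClassGroup.mk0 I = C},
    χ ((Ideal.absNorm (I.1 : Ideal (𝓞 K)) : ℕ) : ZMod m) *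
      (((Ideal.absNorm (I.1 : Ideal (𝓞 K)) : ℝ) ^ (-s) : ℝ) : ℂ)

/-- The sum over the elements `x` of the ideal `A` of `χ(N x) GS(x)`. -/
noncomputable def elemSum {m : ℕ} (χ : DirichletCharacter ℂ m) (ε : Bool) (A : Ideal (𝓞 K))
    (s : ℝ) : ℂ :=
  ∑' x : A, χ ((Algebra.norm ℤ (x : 𝓞 K) : ℤ) : ZMod m) * ((GS K ε s (x : 𝓞 K) : ℝ) : ℂ)

end Fermat.Agent.Lib.NormL

end
-- ===== PACK-END Lib/NormL/Defs.lean

-- ===== PACK-BEGIN Lib/NormL/Sign.lean
section


/-!
# `NormL`: stability of the sign of the norm under small perturbations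
-/

namespace Fermat.Agent.Lib.NormL

open NumberField

variable {K : Type*} [Field K] [NumberField K]

/-- The auxiliary function `λ ↦ ∏_σ (σ x + λ σ t)`. -/
noncomputable def normPath (x t : K) (l : ℝ) : ℂ :=
  ∏ σ : K →ₐ[ℚ] ℂ, (σ x + (l : ℂ) * σ t)

theorem continuous_normPath (x t : K) : Continuous (normPath x t) := by
  unfold normPath
  exact continuous_finsetProd _ fun σ _ ↦
    continuous_const.add (Complex.continuous_ofReal.mul continuous_const)

theorem normPath_ratCast (x t : K) (q : ℚ) :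
    normPath x t (q : ℝ) = ((Algebra.norm ℚ (x + q • t) : ℚ) : ℂ) := by
  have h := Algebra.norm_eq_prod_embeddings ℚ ℂ (x + q • t)
  rw [eq_ratCast] at h
  rw [h]
  unfold normPath
  refine Finset.prod_congr rfl fun σ _ ↦ ?_
  rw [map_add, Algebra.smul_def, map_mul, AlgHom.commutes, Complex.ofReal_ratCast, eq_ratCast]

theorem normPath_im (x t : K) (l : ℝ) : (normPath x t l).im = 0 := by
  have h1 : Continuous fun l : ℝ ↦ (normPath x t l).im :=
    Complex.continuous_im.comp (continuous_normPath x t)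
  have h2 : Continuous fun _ : ℝ ↦ (0 : ℝ) := continuous_const
  have h3 := Continuous.ext_on Rat.denseRange_cast h1 h2 (by
    rintro _ ⟨q, rfl⟩
    show (normPath x t (q : ℝ)).im = 0
    rw [normPath_ratCast]
    exact Complex.ratCast_im _)
  exact congrFun h3 l

theorem normPath_ne_zero {x t : K} (h : ∀ w : InfinitePlace K, w t < w x) {l : ℝ}
    (hl0 : 0 ≤ l) (hl1 : l ≤ 1) : normPath x t l ≠ 0 := by
  unfold normPath
  rw [Finset.prod_ne_zero_iff]
  intro σ _ h0
  have hw := h (InfinitePlace.mk σ.toRingHom)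
  rw [InfinitePlace.apply, InfinitePlace.apply] at hw
  have h1 : σ x = -((l : ℂ) * σ t) := eq_neg_of_add_eq_zero_left h0
  have h2 : ‖σ x‖ = l * ‖σ t‖ := by
    rw [h1, norm_neg, norm_mul, Complex.norm_real, Real.norm_of_nonneg hl0]
  have h3 : l * ‖σ t‖ ≤ ‖σ t‖ := by
    have := norm_nonneg (σ t)
    nlinarith
  have hw' : ‖σ t‖ < ‖σ x‖ := hw
  linarith

theorem normPath_zero (x t : K) : normPath x t 0 = ((Algebra.norm ℚ x : ℚ) : ℂ) := by
  have := normPath_ratCast x t 0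
  simpa using this

theorem normPath_one (x t : K) : normPath x t 1 = ((Algebra.norm ℚ (x + t) : ℚ) : ℂ) := by
  have := normPath_ratCast x t 1
  simpa using this

/-- If `t` is smaller than `x` at every infinite place, then `N(x + t)` and `N(x)` have the
same sign. -/
theorem norm_pos_iff_of_lt {x t : K} (h : ∀ w : InfinitePlace K, w t < w x) :
    0 < Algebra.norm ℚ (x + t) ↔ 0 < Algebra.norm ℚ x := by
  set g : ℝ → ℝ := fun l ↦ (normPath x t l).re with hg
  have hgc : Continuous g := Complex.continuous_re.comp (continuous_normPath x t)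
  have hg0 : g 0 = ((Algebra.norm ℚ x : ℚ) : ℝ) := by
    simp only [hg]
    rw [normPath_zero]
    exact Complex.ratCast_re _
  have hg1 : g 1 = ((Algebra.norm ℚ (x + t) : ℚ) : ℝ) := by
    simp only [hg]
    rw [normPath_one]
    exact Complex.ratCast_re _
  have hne : ∀ l ∈ Set.Icc (0 : ℝ) 1, g l ≠ 0 := by
    intro l hl h0
    apply normPath_ne_zero h hl.1 hl.2
    apply Complex.ext
    · exact h0
    · exact normPath_im x t l
  have key : 0 < g 1 ↔ 0 < g 0 := by
    constructor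
    · intro h1
      by_contra h0
      have h0' : g 0 ≤ 0 := not_lt.mp h0
      obtain ⟨l, hl, hl0⟩ := intermediate_value_Icc zero_le_one hgc.continuousOn
        (show (0 : ℝ) ∈ Set.Icc (g 0) (g 1) from ⟨h0', h1.le⟩)
      exact hne l hl hl0
    · intro h0
      by_contra h1
      have h1' : g 1 ≤ 0 := not_lt.mp h1
      obtain ⟨l, hl, hl0⟩ := intermediate_value_Icc' zero_le_one hgc.continuousOn
        (show (0 : ℝ) ∈ Set.Icc (g 1) (g 0) from ⟨h1', h0.le⟩)
      exact hne l hl hl0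
  rw [hg0, hg1] at key
  exact_mod_cast key

/-- Integral version: the sign of the norm is stable. -/
theorem sign_norm_add_eq {x t : 𝓞 K} (h : ∀ w : InfinitePlace K, w (t : K) < w (x : K)) :
    (Algebra.norm ℤ (x + t)).sign = (Algebra.norm ℤ x).sign := by
  have h1 := norm_pos_iff_of_lt h
  have e1 : ((Algebra.norm ℤ x : ℤ) : ℚ) = Algebra.norm ℚ (x : K) := Algebra.coe_norm_int x
  have e2 : ((Algebra.norm ℤ (x + t) : ℤ) : ℚ) = Algebra.norm ℚ ((x : K) + (t : K)) := by
    exact Algebra.coe_norm_int (x + t)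
  rw [← e1, ← e2] at h1
  have h2 : 0 < Algebra.norm ℤ (x + t) ↔ 0 < Algebra.norm ℤ x := by exact_mod_cast h1
  have hx : x ≠ 0 := by
    rintro rfl
    have := h (Classical.arbitrary _)
    simp only [map_zero] at this
    exact absurd this (not_lt.mpr (apply_nonneg _ _))
  have hxt : x + t ≠ 0 := by
    intro h0
    have ht : t = -x := eq_neg_of_add_eq_zero_right h0
    have := h (Classical.arbitrary _)
    rw [ht] at this
    have e : (((-x : 𝓞 K) : 𝓞 K) : K) = -(x : K) := rfl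
    rw [e, ← InfinitePlace.norm_embedding_eq, ← InfinitePlace.norm_embedding_eq, map_neg,
      norm_neg] at this
    exact lt_irrefl _ this
  have n1 : Algebra.norm ℤ x ≠ 0 := by rwa [Ne, Algebra.norm_eq_zero_iff]
  have n2 : Algebra.norm ℤ (x + t) ≠ 0 := by rwa [Ne, Algebra.norm_eq_zero_iff]
  rcases lt_or_gt_of_ne n1 with hneg | hpos
  · have : ¬ 0 < Algebra.norm ℤ (x + t) := fun h' ↦ absurd (h2.mp h') (not_lt.mpr hneg.le)
    have hneg' : Algebra.norm ℤ (x + t) < 0 := lt_of_le_of_ne (not_lt.mp this) n2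
    rw [Int.sign_eq_neg_one_of_neg hneg, Int.sign_eq_neg_one_of_neg hneg']
  · rw [Int.sign_eq_one_of_pos hpos, Int.sign_eq_one_of_pos (h2.mpr hpos)]

end Fermat.Agent.Lib.NormL

end
-- ===== PACK-END Lib/NormL/Sign.lean

-- ===== PACK-BEGIN Lib/NormL/DS.lean
section


/-!
# `NormL`, block DS: domination of differences of the signed summand `GS`, coset lemma
-/

namespace Fermat.Agent.Lib.NormL

open NumberField NumberField.mixedEmbedding Fermat.Agent.S14.H74 Module
open scoped Classical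

variable (K : Type*) [Field K] [NumberField K]

/-- The sign twist. -/
noncomputable def theta (ε : Bool) (x : 𝓞 K) : ℝ :=
  if ε then (((Algebra.norm ℤ x).sign : ℤ) : ℝ) else 1

variable {K}

theorem GS_eq (ε : Bool) (s : ℝ) (x : 𝓞 K) : GS K ε s x = FS K s x * theta K ε x := rfl

theorem abs_theta_le_one (ε : Bool) (x : 𝓞 K) : |theta K ε x| ≤ 1 := by
  unfold theta
  split_ifs
  · rcases lt_trichotomy (Algebra.norm ℤ x) 0 with h | h | h
    · rw [Int.sign_eq_neg_one_of_neg h]; simp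
    · rw [h]; simp
    · rw [Int.sign_eq_one_of_pos h]; simp
  · simp

theorem abs_GS_le (ε : Bool) (s : ℝ) (x : 𝓞 K) : |GS K ε s x| ≤ FS K s x := by
  rw [GS_eq, abs_mul, abs_of_nonneg (FS_nonneg s x)]
  exact mul_le_of_le_one_right (FS_nonneg s x) (abs_theta_le_one ε x)

theorem summable_GS (ε : Bool) {s : ℝ} (hs : 1 < s) : Summable (GS K ε s) :=
  Summable.of_norm_bounded (summable_FS (K := K) hs) fun x ↦ by
    rw [Real.norm_eq_abs]
    exact abs_GS_le ε s x

theorem continuous_FS (x : 𝓞 K) : Continuous fun s : ℝ ↦ FS K s x := by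
  by_cases hx : x = 0
  · subst hx
    simp only [FS_zero]
    exact continuous_const
  · have h1 := one_le_mixedEmbedding_norm hx
    have h0 : mixedEmbedding.norm (mixedEmbedding K (x : K)) ≠ 0 := by linarith
    unfold FS fS
    exact continuous_const.mul ((Real.continuous_const_rpow h0).comp continuous_neg)

theorem continuous_GS (ε : Bool) (x : 𝓞 K) : Continuous fun s : ℝ ↦ GS K ε s x := by
  simp only [GS_eq]
  exact (continuous_FS x).mul continuous_const

theorem FS_eq_zero_of_rho_eq_zero {s : ℝ} {x : 𝓞 K}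
    (h : rho K (mixedEmbedding K (x : K)) = 0) : FS K s x = 0 :=
  fS_eq_zero_of_rho_eq_zero h

/-- On the support of `rho`, far from the origin, the sign twist is stable. -/
theorem theta_add_eq {A : ℝ} (hA1 : 1 ≤ A)
    (hA : ∀ x : mixedSpace K, rho K x ≠ 0 → ∀ w, ‖x‖ ≤ A * normAtPlace w x) (ε : Bool)
    {y t : 𝓞 K} (hρ : rho K (mixedEmbedding K (y : K)) ≠ 0) (hy : A * mnorm K t < mnorm K y) :
    theta K ε (y + t) = theta K ε y := by
  unfold theta
  split_ifs
  · congr 1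
    apply sign_norm_add_eq
    intro w
    have h1 := hA _ hρ w
    rw [normAtPlace_apply] at h1
    have h2 : w (t : K) ≤ mnorm K t := by
      have := normAtPlace_le_norm w (mixedEmbedding K (t : K))
      rwa [normAtPlace_apply] at this
    have hA0 : 0 < A := by linarith
    have h3 : A * w (t : K) ≤ A * mnorm K t := mul_le_mul_of_nonneg_left h2 hA0.le
    have h4 : A * w (t : K) < A * w (y : K) := by
      unfold mnorm at hy h3
      linarith
    exact lt_of_mul_lt_mul_left h4 hA0.le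
  · rfl

/-- Signed version of helper74's `exists_dominating`. -/
theorem exists_dominating_GS (ε : Bool) (t : 𝓞 K) : ∃ g : 𝓞 K → ℝ, Summable g ∧
    (∀ y, 0 ≤ g y) ∧
    ∀ s : ℝ, 1 ≤ s → s ≤ 2 → ∀ y : 𝓞 K, |GS K ε s (y + t) - GS K ε s y| ≤ g y := by
  obtain ⟨g, hg, hg0, hgb⟩ := exists_dominating (K := K) t
  obtain ⟨A, hA1, hA⟩ := exists_support_bound (K := K)
  have hA0 : 0 < A := by linarith
  set n : ℕ := finrank ℚ K with hn
  set R : ℝ := A * mnorm K t with hR
  have hR0 : 0 ≤ R := mul_nonneg hA0.le (mnorm_nonneg t)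
  have hsum : Summable fun y : 𝓞 K ↦ mnorm K y ^ (-((n : ℝ) + 1)) :=
    summable_mnorm_rpow (by rw [neg_lt_neg_iff]; linarith)
  refine ⟨fun y ↦ g y + 2 * R ^ (n + 1) * mnorm K y ^ (-((n : ℝ) + 1)) +
      if y = 0 then 2 else 0,
    (hg.add (hsum.mul_left _)).add (hasSum_ite_eq 0 (2 : ℝ)).summable, fun y ↦ ?_,
    fun s hs1 hs2 y ↦ ?_⟩
  · have h1 : 0 ≤ mnorm K y ^ (-((n : ℝ) + 1)) := Real.rpow_nonneg (mnorm_nonneg y) _
    have h2 : (0 : ℝ) ≤ if y = 0 then 2 else 0 := by split_ifs <;> norm_num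
    have h3 := hg0 y
    show 0 ≤ g y + 2 * R ^ (n + 1) * mnorm K y ^ (-((n : ℝ) + 1)) + if y = 0 then 2 else 0
    positivity
  · have hs0 : (0 : ℝ) ≤ s := by linarith
    show |GS K ε s (y + t) - GS K ε s y| ≤
      g y + 2 * R ^ (n + 1) * mnorm K y ^ (-((n : ℝ) + 1)) + if y = 0 then 2 else 0
    have hb := hgb s hs1 hs2 y
    have h1 : 0 ≤ 2 * R ^ (n + 1) * mnorm K y ^ (-((n : ℝ) + 1)) :=
      mul_nonneg (by positivity) (Real.rpow_nonneg (mnorm_nonneg y) _)
    have h2 : (0 : ℝ) ≤ if y = 0 then 2 else 0 := by split_ifs <;> norm_num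
    by_cases hρ : rho K (mixedEmbedding K (y : K)) = 0
    · have hF : FS K s y = 0 := FS_eq_zero_of_rho_eq_zero hρ
      have hG : GS K ε s y = 0 := by rw [GS_eq, hF, zero_mul]
      rw [hG, sub_zero]
      rw [hF, sub_zero, abs_of_nonneg (FS_nonneg s _)] at hb
      have := abs_GS_le ε s (y + t)
      linarith
    · by_cases hy : R < mnorm K y
      · have hθ := theta_add_eq hA1 hA ε hρ hy
        have e : GS K ε s (y + t) - GS K ε s y =
            (FS K s (y + t) - FS K s y) * theta K ε y := by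
          rw [GS_eq, GS_eq, hθ]
          ring
        rw [e, abs_mul]
        have := mul_le_of_le_one_right (abs_nonneg (FS K s (y + t) - FS K s y))
          (abs_theta_le_one ε y)
        linarith
      · have hy' : mnorm K y ≤ R := not_lt.mp hy
        have a1 := abs_GS_le ε s (y + t)
        have a2 := abs_GS_le ε s y
        have a3 := FS_le_one hs0 (y + t)
        have a4 := FS_le_one hs0 y
        have h3 : |GS K ε s (y + t) - GS K ε s y| ≤ 2 := by
          have := abs_sub (GS K ε s (y + t)) (GS K ε s y)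
          linarith
        by_cases hy0 : y = 0
        · rw [if_pos hy0]
          have := hg0 y
          linarith
        · rw [if_neg hy0, add_zero]
          have hm : 0 < mnorm K y := lt_of_le_of_ne (mnorm_nonneg y) (Ne.symm (by
            rwa [Ne, mnorm_eq_zero_iff]))
          have e : mnorm K y ^ (-((n : ℝ) + 1)) = 1 / mnorm K y ^ (n + 1) := by
            rw [Real.rpow_neg hm.le, one_div]
            congr 1
            exact_mod_cast Real.rpow_natCast (mnorm K y) (n + 1)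
          have h4 : 2 ≤ 2 * R ^ (n + 1) * mnorm K y ^ (-((n : ℝ) + 1)) := by
            rw [e, mul_one_div, le_div_iff₀ (by positivity)]
            have : mnorm K y ^ (n + 1) ≤ R ^ (n + 1) := pow_le_pow_left₀ hm.le hy' _
            linarith
          have := hg0 y
          linarith

/-- **Coset lemma**: the difference of the sums of `GS` over two cosets of an ideal `Λ`
extends continuously to `[1, 2]`. -/
theorem exists_continuousOn_coset_sub (ε : Bool) (Λ : Ideal (𝓞 K)) (r r' : 𝓞 K) :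
    ∃ D : ℝ → ℝ, ContinuousOn D (Set.Icc 1 2) ∧ ∀ s : ℝ, 1 < s → s ≤ 2 →
      (∑' l : Λ, GS K ε s (r + (l : 𝓞 K))) - (∑' l : Λ, GS K ε s (r' + (l : 𝓞 K))) = D s := by
  obtain ⟨g, hg, hg0, hgb⟩ := exists_dominating_GS (K := K) ε (r - r')
  have hinj : ∀ a : 𝓞 K, Function.Injective fun l : Λ ↦ a + (l : 𝓞 K) := fun a l l' h ↦
    Subtype.ext (add_left_cancel h)
  have hgΛ : Summable fun l : Λ ↦ g (r' + (l : 𝓞 K)) := hg.comp_injective (hinj r')
  refine ⟨fun s ↦ ∑' l : Λ, (GS K ε s (r + (l : 𝓞 K)) - GS K ε s (r' + (l : 𝓞 K))), ?_,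
    fun s hs1 hs2 ↦ ?_⟩
  · refine continuousOn_tsum (fun l ↦ ?_) hgΛ fun l s hs ↦ ?_
    · exact ((continuous_GS ε _).sub (continuous_GS ε _)).continuousOn
    · rw [Real.norm_eq_abs]
      have := hgb s hs.1 hs.2 (r' + (l : 𝓞 K))
      rwa [show r' + (l : 𝓞 K) + (r - r') = r + (l : 𝓞 K) by ring] at this
  · have h1 : Summable fun l : Λ ↦ GS K ε s (r + (l : 𝓞 K)) :=
      (summable_GS ε hs1).comp_injective (hinj r)
    have h2 : Summable fun l : Λ ↦ GS K ε s (r' + (l : 𝓞 K)) :=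
      (summable_GS ε hs1).comp_injective (hinj r')
    exact (h1.tsum_sub h2).symm

end Fermat.Agent.Lib.NormL

end
-- ===== PACK-END Lib/NormL/DS.lean

-- ===== PACK-BEGIN Lib/NormL/Periodic.lean
section


/-!
# `NormL`, block KEY, part 1: `x ↦ N(x) mod m` is periodic modulo `m 𝓞 K`
-/

namespace Fermat.Agent.Lib.NormL

open NumberField

variable {K : Type*} [Field K] [NumberField K]

theorem intCast_det_zmod {ι : Type*} [Fintype ι] [DecidableEq ι] (m : ℕ) (M : Matrix ι ι ℤ) :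
    ((M.det : ℤ) : ZMod m) = ((Int.castRingHom (ZMod m)).mapMatrix M).det := by
  rw [← RingHom.map_det]
  rfl

theorem norm_add_natCast_mul_zmod (m : ℕ) (x y : 𝓞 K) :
    ((Algebra.norm ℤ (x + (m : 𝓞 K) * y) : ℤ) : ZMod m) =
      ((Algebra.norm ℤ x : ℤ) : ZMod m) := by
  classical
  let b := RingOfIntegers.basis K
  rw [Algebra.norm_eq_matrix_det b, Algebra.norm_eq_matrix_det b, intCast_det_zmod,
    intCast_det_zmod]
  congr 1
  rw [map_add (Algebra.leftMulMatrix b), map_mul (Algebra.leftMulMatrix b), map_add, map_mul,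
    map_natCast (Algebra.leftMulMatrix b), map_natCast]
  have h0 : ((m : ℕ) : Matrix (Module.Free.ChooseBasisIndex ℤ (𝓞 K))
      (Module.Free.ChooseBasisIndex ℤ (𝓞 K)) (ZMod m)) = 0 := by
    ext i j
    rw [Matrix.natCast_apply]
    simp
  rw [h0, zero_mul, add_zero]

/-- Periodicity modulo the ideal generated by `m`. -/
theorem norm_add_zmod_of_mem (m : ℕ) (x : 𝓞 K) {y : 𝓞 K}
    (hy : y ∈ Ideal.span {(m : 𝓞 K)}) :
    ((Algebra.norm ℤ (x + y) : ℤ) : ZMod m) = ((Algebra.norm ℤ x : ℤ) : ZMod m) := by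
  obtain ⟨z, rfl⟩ := Ideal.mem_span_singleton'.mp hy
  rw [mul_comm]
  exact norm_add_natCast_mul_zmod m x z

/-- If `x ≡ x'` modulo `m`, the norms agree modulo `m`. -/
theorem norm_zmod_eq_of_sub_mem (m : ℕ) {x x' : 𝓞 K}
    (h : x - x' ∈ Ideal.span {(m : 𝓞 K)}) :
    ((Algebra.norm ℤ x : ℤ) : ZMod m) = ((Algebra.norm ℤ x' : ℤ) : ZMod m) := by
  have := norm_add_zmod_of_mem m x' h
  rwa [add_sub_cancel] at this

end Fermat.Agent.Lib.NormL

end
-- ===== PACK-END Lib/NormL/Periodic.lean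

-- ===== PACK-BEGIN Lib/NormL/Cosets.lean
section



/-!
# `NormL`, block KEY, part 2: coset decompositions of sums over ideals
-/

namespace Fermat.Agent.Lib.NormL

open NumberField Fermat.Agent.S14.H74
open scoped Classical

variable {K : Type*} [Field K] [NumberField K]

/-- The coset bijection: if `r i` is a system of representatives of `X` modulo `Λ`. -/
noncomputable def cosetSystemEquiv (X Λ : Ideal (𝓞 K)) (hΛ : Λ ≤ X) {ι : Type*} (r : ι → 𝓞 K)
    (hr : ∀ i, r i ∈ X) (hex : ∀ x ∈ X, ∃ i, x - r i ∈ Λ)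
    (hinj : ∀ i j, r i - r j ∈ Λ → i = j) : ι × Λ ≃ X :=
  Equiv.ofBijective (fun p ↦ ⟨r p.1 + (p.2 : 𝓞 K), X.add_mem (hr _) (hΛ p.2.2)⟩) (by
    constructor
    · rintro ⟨i, l⟩ ⟨j, l'⟩ h
      have h1 : r i + (l : 𝓞 K) = r j + (l' : 𝓞 K) := congrArg Subtype.val h
      have h2 : r i - r j = (l' : 𝓞 K) - (l : 𝓞 K) := by
        linear_combination h1
      have hij : i = j := hinj i j (by rw [h2]; exact Λ.sub_mem l'.2 l.2)
      subst hij
      have : (l : 𝓞 K) = (l' : 𝓞 K) := add_left_cancel h1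
      rw [Subtype.ext this]
    · rintro ⟨x, hx⟩
      obtain ⟨i, hi⟩ := hex x hx
      refine ⟨(i, ⟨x - r i, hi⟩), ?_⟩
      apply Subtype.ext
      show r i + (x - r i) = x
      ring)

theorem cosetSystemEquiv_apply (X Λ : Ideal (𝓞 K)) (hΛ : Λ ≤ X) {ι : Type*} (r : ι → 𝓞 K)
    (hr : ∀ i, r i ∈ X) (hex : ∀ x ∈ X, ∃ i, x - r i ∈ Λ)
    (hinj : ∀ i j, r i - r j ∈ Λ → i = j) (p : ι × Λ) :
    ((cosetSystemEquiv X Λ hΛ r hr hex hinj p : X) : 𝓞 K) = r p.1 + (p.2 : 𝓞 K) := rfl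

/-- **GEN**: decomposition of a sum over an ideal `X` into sums over cosets of `Λ ≤ X`. -/
theorem tsum_ideal_eq_sum_cosets {E : Type*} [NormedAddCommGroup E] [CompleteSpace E]
    (X Λ : Ideal (𝓞 K)) (hΛ : Λ ≤ X) {ι : Type*} [Fintype ι] (r : ι → 𝓞 K)
    (hr : ∀ i, r i ∈ X) (hex : ∀ x ∈ X, ∃ i, x - r i ∈ Λ)
    (hinj : ∀ i j, r i - r j ∈ Λ → i = j) (F : 𝓞 K → E) (hF : Summable F) :
    ∑' x : X, F (x : 𝓞 K) = ∑ i, ∑' l : Λ, F (r i + (l : 𝓞 K)) := by
  set e := cosetSystemEquiv X Λ hΛ r hr hex hinj with he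
  have hX : Summable fun x : X ↦ F (x : 𝓞 K) := hF.comp_injective Subtype.val_injective
  have hs : Summable fun p : ι × Λ ↦ F (r p.1 + (p.2 : 𝓞 K)) :=
    (e.summable_iff (f := fun x : X ↦ F (x : 𝓞 K))).mpr hX
  have hfib : ∀ i, Summable fun l : Λ ↦ F (r i + (l : 𝓞 K)) := fun i ↦
    hF.comp_injective (i := fun l : Λ ↦ r i + (l : 𝓞 K)) fun l l' h ↦
      Subtype.ext (add_left_cancel h)
  have e1 : ∑' x : X, F (x : 𝓞 K) = ∑' p : ι × Λ, F (r p.1 + (p.2 : 𝓞 K)) :=
    (e.tsum_eq (fun x : X ↦ F (x : 𝓞 K))).symm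
  rw [e1, hs.tsum_prod' hfib, tsum_fintype]

end Fermat.Agent.Lib.NormL

end
-- ===== PACK-END Lib/NormL/Cosets.lean

-- ===== PACK-BEGIN Lib/NormL/Index.lean
section


/-!
# `NormL`, block KEY, part 3: passing from `Λ` to the sublattice `Λ * P`
-/

namespace Fermat.Agent.Lib.NormL

open NumberField Fermat.Agent.S14.H74
open scoped Classical

variable {K : Type*} [Field K] [NumberField K]

/-- The kernel of `𝓞 ⧸ Λ' → 𝓞 ⧸ Λ`. -/
noncomputable abbrev factorKer (Λ' Λ : Ideal (𝓞 K)) (h : Λ' ≤ Λ) : AddSubgroup (𝓞 K ⧸ Λ') :=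
  (Ideal.Quotient.factor h).toAddMonoidHom.ker

theorem mem_factorKer_iff {Λ' Λ : Ideal (𝓞 K)} (h : Λ' ≤ Λ) (q : 𝓞 K ⧸ Λ') :
    q ∈ factorKer Λ' Λ h ↔ Quotient.out q ∈ Λ := by
  rw [AddMonoidHom.mem_ker]
  conv_lhs => rw [← Ideal.Quotient.mk_out q]
  show Ideal.Quotient.factor h (Ideal.Quotient.mk Λ' (Quotient.out q)) = 0 ↔ _
  rw [Ideal.Quotient.factor_mk, Ideal.Quotient.eq_zero_iff_mem]

theorem card_factorKer_mul (Λ' Λ : Ideal (𝓞 K)) (h : Λ' ≤ Λ) :
    Nat.card (factorKer Λ' Λ h) * Ideal.absNorm Λ = Ideal.absNorm Λ' := by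
  have h1 := AddSubgroup.card_mul_index (factorKer Λ' Λ h)
  have h2 : (factorKer Λ' Λ h).index = Nat.card (𝓞 K ⧸ Λ) := by
    unfold factorKer
    rw [AddSubgroup.index_ker]
    have hsurj : Function.Surjective (Ideal.Quotient.factor h).toAddMonoidHom :=
      Ideal.Quotient.factor_surjective h
    rw [AddMonoidHom.range_eq_top.mpr hsurj, AddSubgroup.card_top]
  rw [h2] at h1
  rw [Ideal.absNorm_apply, Ideal.absNorm_apply, Submodule.cardQuot_apply,
    Submodule.cardQuot_apply]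
  exact h1

theorem card_factorKer_mul_right (Λ P : Ideal (𝓞 K)) (hΛ : Λ ≠ ⊥) :
    Nat.card (factorKer (Λ * P) Λ Ideal.mul_le_left) = Ideal.absNorm P := by
  have h := card_factorKer_mul (Λ * P) Λ Ideal.mul_le_left
  rw [map_mul, mul_comm] at h
  have h0 : Ideal.absNorm Λ ≠ 0 := by
    rwa [Ne, Ideal.absNorm_eq_zero_iff]
  exact Nat.eq_of_mul_eq_mul_left (Nat.pos_of_ne_zero h0) h

/-- **K3**: `N(P) * ∑_{Λ P} GS (r' + ·) - ∑_{Λ} GS (r + ·)` extends continuously to `[1, 2]`. -/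
theorem exists_continuousOn_index_sub (ε : Bool) (Λ P : Ideal (𝓞 K)) (hΛ : Λ ≠ ⊥) (hP : P ≠ ⊥)
    (r r' : 𝓞 K) :
    ∃ D : ℝ → ℝ, ContinuousOn D (Set.Icc 1 2) ∧ ∀ s : ℝ, 1 < s → s ≤ 2 →
      (Ideal.absNorm P : ℝ) * (∑' l : (Λ * P : Ideal (𝓞 K)), GS K ε s (r' + (l : 𝓞 K))) -
        (∑' l : Λ, GS K ε s (r + (l : 𝓞 K))) = D s := by
  have hle : Λ * P ≤ Λ := Ideal.mul_le_left
  have hne : Λ * P ≠ ⊥ := mul_ne_zero hΛ hP
  have : Finite (𝓞 K ⧸ (Λ * P)) := Ideal.finiteQuotientOfFreeOfNeBot _ hne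
  let _ : Fintype (factorKer (Λ * P) Λ hle) := Fintype.ofFinite _
  have hcard : Fintype.card (factorKer (Λ * P) Λ hle) = Ideal.absNorm P := by
    rw [← Nat.card_eq_fintype_card]
    exact card_factorKer_mul_right Λ P hΛ
  set rep : factorKer (Λ * P) Λ hle → 𝓞 K := fun q ↦ Quotient.out (q : 𝓞 K ⧸ (Λ * P)) with hrep
  have hr : ∀ q, rep q ∈ Λ := fun q ↦ (mem_factorKer_iff hle _).mp q.2
  have hex : ∀ x ∈ Λ, ∃ q, x - rep q ∈ Λ * P := by
    intro x hx
    have hq : Ideal.Quotient.mk (Λ * P) x ∈ factorKer (Λ * P) Λ hle := by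
      rw [AddMonoidHom.mem_ker]
      show Ideal.Quotient.factor hle (Ideal.Quotient.mk (Λ * P) x) = 0
      rw [Ideal.Quotient.factor_mk, Ideal.Quotient.eq_zero_iff_mem]
      exact hx
    refine ⟨⟨_, hq⟩, ?_⟩
    rw [← Ideal.Quotient.eq, hrep]
    simp only
    rw [Ideal.Quotient.mk_out]
  have hinj : ∀ q q', rep q - rep q' ∈ Λ * P → q = q' := by
    intro q q' h
    rw [← Ideal.Quotient.eq, hrep] at h
    simp only at h
    rw [Ideal.Quotient.mk_out, Ideal.Quotient.mk_out] at h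
    exact Subtype.ext h
  choose D hDc hD using fun q : factorKer (Λ * P) Λ hle ↦
    exists_continuousOn_coset_sub (K := K) ε (Λ * P) r' (r + rep q)
  refine ⟨fun s ↦ ∑ q, D q s, continuousOn_finsetSum _ fun q _ ↦ hDc q, fun s hs1 hs2 ↦ ?_⟩
  have hF : Summable fun x : 𝓞 K ↦ GS K ε s (r + x) :=
    (summable_GS ε hs1).comp_injective (add_right_injective r)
  have h1 := tsum_ideal_eq_sum_cosets Λ (Λ * P) hle rep hr hex hinj
    (fun x : 𝓞 K ↦ GS K ε s (r + x)) hF
  rw [h1]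
  have h2 : (Ideal.absNorm P : ℝ) * (∑' l : (Λ * P : Ideal (𝓞 K)), GS K ε s (r' + (l : 𝓞 K))) =
      ∑ _q : factorKer (Λ * P) Λ hle, ∑' l : (Λ * P : Ideal (𝓞 K)), GS K ε s (r' + (l : 𝓞 K)) := by
    rw [Finset.sum_const, Finset.card_univ, hcard, nsmul_eq_mul]
  rw [h2, ← Finset.sum_sub_distrib]
  refine Finset.sum_congr rfl fun q _ ↦ ?_
  rw [← hD q s hs1 hs2]
  simp only [add_assoc]

end Fermat.Agent.Lib.NormL

end
-- ===== PACK-END Lib/NormL/Index.lean

-- ===== PACK-BEGIN Lib/NormL/Key.lean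
section


/-!
# `NormL`, block KEY: `N(P) * elemSum (A * P) - elemSum A` extends continuously to `[1, 2]`
-/

namespace Fermat.Agent.Lib.NormL

open NumberField Fermat.Agent.S14.H74
open scoped nonZeroDivisors Classical

variable {K : Type*} [Field K] [NumberField K]

/-- The weight `χ(N x)`. -/
noncomputable def wt {m : ℕ} (χ : DirichletCharacter ℂ m) (x : 𝓞 K) : ℂ :=
  χ ((Algebra.norm ℤ x : ℤ) : ZMod m)

theorem wt_eq_of_sub_mem {m : ℕ} (χ : DirichletCharacter ℂ m) {x x' : 𝓞 K}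
    (h : x - x' ∈ Ideal.span {(m : 𝓞 K)}) : wt χ x = wt χ x' := by
  unfold wt
  rw [norm_zmod_eq_of_sub_mem m h]

theorem norm_wt_le_one {m : ℕ} (χ : DirichletCharacter ℂ m) (x : 𝓞 K) : ‖wt χ x‖ ≤ 1 :=
  DirichletCharacter.norm_le_one χ _

theorem summable_wt_mul_GS {m : ℕ} (χ : DirichletCharacter ℂ m) (ε : Bool) {s : ℝ}
    (hs : 1 < s) : Summable fun x : 𝓞 K ↦ wt χ x * ((GS K ε s x : ℝ) : ℂ) :=
  Summable.of_norm_bounded (summable_FS (K := K) hs) fun x ↦ by
    rw [norm_mul, Complex.norm_real, Real.norm_eq_abs]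
    calc ‖wt χ x‖ * |GS K ε s x| ≤ 1 * FS K s x :=
          mul_le_mul (norm_wt_le_one χ x) (abs_GS_le ε s x) (abs_nonneg _) zero_le_one
      _ = FS K s x := one_mul _

theorem sup_span_natCast_eq_top {m : ℕ} {B : Ideal (𝓞 K)} (h : (Ideal.absNorm B).Coprime m) :
    B ⊔ Ideal.span {(m : 𝓞 K)} = ⊤ := by
  rw [Ideal.eq_top_iff_one]
  have hc : IsCoprime ((Ideal.absNorm B : ℕ) : ℤ) (m : ℤ) := Nat.isCoprime_iff_coprime.mpr h
  obtain ⟨u, v, huv⟩ := hc
  have h1 : ((u * (Ideal.absNorm B : ℤ) + v * (m : ℤ) : ℤ) : 𝓞 K) = 1 := by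
    rw [huv]
    simp
  rw [← h1]
  push_cast
  refine Submodule.add_mem_sup ?_ ?_
  · exact B.mul_mem_left _ (Ideal.absNorm_mem B)
  · exact Ideal.mul_mem_left _ _ (Ideal.subset_span rfl)

/-- **K2**: decomposition of `elemSum` along residues modulo `m`. -/
theorem elemSum_eq_sum_residues {m : ℕ} (χ : DirichletCharacter ℂ m) (ε : Bool)
    (B Λ M : Ideal (𝓞 K)) (hM : M = Ideal.span {(m : 𝓞 K)}) [Fintype (𝓞 K ⧸ M)]
    (hB : B ⊔ M = ⊤) (h1 : Λ ≤ B) (h2 : Λ ≤ M) (h3 : B ⊓ M ≤ Λ) :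
    ∃ r : (𝓞 K ⧸ M) → 𝓞 K, ∀ s : ℝ, 1 < s →
      elemSum K χ ε B s = ∑ ρ : 𝓞 K ⧸ M,
        wt χ (Quotient.out ρ) * ((∑' l : Λ, GS K ε s (r ρ + (l : 𝓞 K)) : ℝ) : ℂ) := by
  have hex0 : ∀ ρ : 𝓞 K ⧸ M, ∃ b : 𝓞 K, b ∈ B ∧ b - Quotient.out ρ ∈ M := by
    intro ρ
    have : Quotient.out ρ ∈ B ⊔ M := by rw [hB]; trivial
    obtain ⟨b, hb, c, hc, hbc⟩ := Submodule.mem_sup.mp this
    refine ⟨b, hb, ?_⟩
    have : b - Quotient.out ρ = -c := by rw [← hbc]; ring
    rw [this]
    exact M.neg_mem hc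
  choose r hrB hrM using hex0
  have hout : ∀ x : 𝓞 K, x - Quotient.out (Ideal.Quotient.mk M x) ∈ M := by
    intro x
    rw [← Ideal.Quotient.eq, Ideal.Quotient.mk_out]
  have hex : ∀ x ∈ B, ∃ ρ, x - r ρ ∈ Λ := by
    intro x hx
    refine ⟨Ideal.Quotient.mk M x, h3 ⟨B.sub_mem hx (hrB _), ?_⟩⟩
    have e : x - r (Ideal.Quotient.mk M x) =
        (x - Quotient.out (Ideal.Quotient.mk M x)) -
          (r (Ideal.Quotient.mk M x) - Quotient.out (Ideal.Quotient.mk M x)) := by ring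
    rw [e]
    exact M.sub_mem (hout x) (hrM _)
  have hinj : ∀ ρ ρ', r ρ - r ρ' ∈ Λ → ρ = ρ' := by
    intro ρ ρ' h
    have hm : Quotient.out ρ - Quotient.out ρ' ∈ M := by
      have e : Quotient.out ρ - Quotient.out ρ' =
          (r ρ - r ρ') - (r ρ - Quotient.out ρ) + (r ρ' - Quotient.out ρ') := by ring
      rw [e]
      exact M.add_mem (M.sub_mem (h2 h) (hrM ρ)) (hrM ρ')
    rw [← Ideal.Quotient.eq, Ideal.Quotient.mk_out, Ideal.Quotient.mk_out] at hm
    exact hm
  refine ⟨r, fun s hs ↦ ?_⟩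
  have hF := summable_wt_mul_GS (K := K) χ ε hs
  have hgen := tsum_ideal_eq_sum_cosets B Λ h1 r hrB hex hinj
    (fun x : 𝓞 K ↦ wt χ x * ((GS K ε s x : ℝ) : ℂ)) hF
  have e0 : elemSum K χ ε B s = ∑' x : B, wt χ (x : 𝓞 K) * ((GS K ε s (x : 𝓞 K) : ℝ) : ℂ) := rfl
  rw [e0, hgen]
  refine Finset.sum_congr rfl fun ρ _ ↦ ?_
  rw [Complex.ofReal_tsum, ← tsum_mul_left]
  refine tsum_congr fun l ↦ ?_
  congr 1
  apply wt_eq_of_sub_mem
  have e : r ρ + (l : 𝓞 K) - Quotient.out ρ = (r ρ - Quotient.out ρ) + (l : 𝓞 K) := by ring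
  rw [e, ← hM]
  exact M.add_mem (hrM ρ) (h2 l.2)

/-- **KEY**: for nonzero ideals `A`, `P` of norm coprime to `m`, the function
`N(P) * elemSum (A * P) - elemSum A` extends continuously to `[1, 2]`. -/
theorem exists_continuousOn_elemSum_sub (K : Type*) [Field K] [NumberField K]
    {m : ℕ} [NeZero m] (χ : DirichletCharacter ℂ m)
    (ε : Bool) (A P : (Ideal (𝓞 K))⁰)
    (hA : (Ideal.absNorm (A : Ideal (𝓞 K))).Coprime m)
    (hP : (Ideal.absNorm (P : Ideal (𝓞 K))).Coprime m) :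
    ∃ Δ : ℝ → ℂ, ContinuousOn Δ (Set.Icc 1 2) ∧ ∀ s : ℝ, 1 < s → s ≤ 2 →
      (Ideal.absNorm (P : Ideal (𝓞 K)) : ℂ) *
          elemSum K χ ε ((A : Ideal (𝓞 K)) * (P : Ideal (𝓞 K))) s -
        elemSum K χ ε (A : Ideal (𝓞 K)) s = Δ s := by
  set M : Ideal (𝓞 K) := Ideal.span {(m : 𝓞 K)} with hM
  have hm0 : (m : 𝓞 K) ≠ 0 := Nat.cast_ne_zero.mpr (NeZero.ne m)
  have hM0 : M ≠ ⊥ := by
    rw [hM, Ne, Ideal.span_singleton_eq_bot]
    exact hm0
  have hA0 : (A : Ideal (𝓞 K)) ≠ ⊥ := nonZeroDivisors.coe_ne_zero A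
  have hP0 : (P : Ideal (𝓞 K)) ≠ ⊥ := nonZeroDivisors.coe_ne_zero P
  have : Finite (𝓞 K ⧸ M) := Ideal.finiteQuotientOfFreeOfNeBot _ hM0
  let _ : Fintype (𝓞 K ⧸ M) := Fintype.ofFinite _
  have hAM : (A : Ideal (𝓞 K)) ⊔ M = ⊤ := sup_span_natCast_eq_top hA
  have hAPM : (A : Ideal (𝓞 K)) * (P : Ideal (𝓞 K)) ⊔ M = ⊤ := by
    apply sup_span_natCast_eq_top
    rw [map_mul]
    exact Nat.Coprime.mul_left hA hP
  set Λ : Ideal (𝓞 K) := (A : Ideal (𝓞 K)) * M with hΛ
  have hΛ0 : Λ ≠ ⊥ := mul_ne_zero hA0 hM0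
  have hΛP : Λ * (P : Ideal (𝓞 K)) = (A : Ideal (𝓞 K)) * (P : Ideal (𝓞 K)) * M := by
    rw [hΛ]
    ring
  obtain ⟨r, hr⟩ := elemSum_eq_sum_residues χ ε (A : Ideal (𝓞 K)) Λ M hM hAM Ideal.mul_le_left
    Ideal.mul_le_right (by
      rw [← Ideal.mul_eq_inf_of_isCoprime ((Ideal.isCoprime_iff_sup_eq).mpr hAM)])
  obtain ⟨r', hr'⟩ := elemSum_eq_sum_residues χ ε ((A : Ideal (𝓞 K)) * (P : Ideal (𝓞 K)))
    (Λ * (P : Ideal (𝓞 K))) M hM hAPM (by rw [hΛP]; exact Ideal.mul_le_left)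
    (by rw [hΛP]; exact Ideal.mul_le_right) (by
      rw [hΛP, ← Ideal.mul_eq_inf_of_isCoprime ((Ideal.isCoprime_iff_sup_eq).mpr hAPM)])
  choose D hDc hD using fun ρ : 𝓞 K ⧸ M ↦
    exists_continuousOn_index_sub (K := K) ε Λ (P : Ideal (𝓞 K)) hΛ0 hP0 (r ρ) (r' ρ)
  refine ⟨fun s ↦ ∑ ρ : 𝓞 K ⧸ M, wt χ (Quotient.out ρ) * ((D ρ s : ℝ) : ℂ), ?_,
    fun s hs1 hs2 ↦ ?_⟩
  · refine continuousOn_finsetSum _ fun ρ _ ↦ ?_
    exact continuousOn_const.mul (Complex.continuous_ofReal.comp_continuousOn (hDc ρ))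
  · rw [hr s hs1, hr' s hs1, Finset.mul_sum, ← Finset.sum_sub_distrib]
    refine Finset.sum_congr rfl fun ρ _ ↦ ?_
    rw [← hD ρ s hs1 hs2]
    push_cast
    ring

end Fermat.Agent.Lib.NormL

end
-- ===== PACK-END Lib/NormL/Key.lean

-- ===== PACK-BEGIN Lib/EulerProd/IdealSum.lean
section



/-!
# Sums over the ideals of the ring of integers of a number field

* `summable_absNorm_rpow`: `∑ I, N(I)^(-s)` converges for real `s > 1`.
* `zetaR`: the real Dedekind zeta function as a sum over ideals, `zetaR_eq_dedekindZeta`.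
* `exists_zetaR_bounds`: `c / (s - 1) ≤ zetaR K s ≤ C / (s - 1)` on `(1, 2]`.
-/

set_option autoImplicit false
set_option linter.style.haveILetI false

namespace Fermat.Agent.Lib.EulerProd

open NumberField Ideal Filter Topology Finset

variable (K : Type*) [Field K] [NumberField K]

/-- Partial sums of the coefficients of the Dedekind zeta function (from Mathlib's proof of the
class number formula). -/
theorem tendsto_sum_card_div :
    Tendsto (fun n : ℕ ↦ (∑ k ∈ Icc 1 n,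
      (Nat.card {I : Ideal (𝓞 K) // absNorm I = k} : ℝ)) / (n : ℝ)) atTop
      (𝓝 (dedekindZeta_residue K)) := by
  refine ((Ideal.tendsto_norm_le_div_atTop₀ K).comp tendsto_natCast_atTop_atTop).congr fun n ↦ ?_
  simp only [Function.comp_apply, Nat.cast_le, ← Nat.cast_sum]
  congr
  rw [← add_left_inj 1, ← card_norm_le_eq_card_norm_le_add_one,
    show Finset.Icc 1 n = Finset.Ioc 0 n from Finset.Icc_succ_left_eq_Ioc _ _,
    show 1 = Nat.card {I : Ideal (𝓞 K) // absNorm I = 0} by simp [Ideal.absNorm_eq_zero_iff],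
    Finset.sum_Ioc_add_eq_sum_Icc (n.zero_le),
    ← Finset.card_preimage_eq_sum_card_image_eq (fun k _ ↦ finite_setOfPred_absNorm_eq k)]
  simp [Set.coe_eq_subtype]

theorem lseriesSummable_card {s : ℝ} (hs : 1 < s) :
    LSeriesSummable (fun n ↦ ((Nat.card {I : Ideal (𝓞 K) // absNorm I = n} : ℝ) : ℂ)) (s : ℂ) := by
  refine LSeriesSummable_of_sum_norm_bigO_and_nonneg ?_ (fun _ ↦ Nat.cast_nonneg _) zero_le_one
    (by simpa using hs)
  exact Asymptotics.isBigO_atTop_natCast_rpow_of_tendsto_div_rpow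
    (by simpa using tendsto_sum_card_div K)


/-- The fibre sums of `N(I)^(-s)` over the norm map. -/
theorem tsum_fiber_absNorm_rpow (s : ℝ) (n : ℕ) :
    ∑' I : {I : Ideal (𝓞 K) // absNorm I = n}, ((absNorm I.1 : ℕ) : ℝ) ^ (-s) =
      (Nat.card {I : Ideal (𝓞 K) // absNorm I = n} : ℝ) * (n : ℝ) ^ (-s) := by
  haveI : Finite {I : Ideal (𝓞 K) // absNorm I = n} := finite_setOfPred_absNorm_eq n
  haveI : Fintype {I : Ideal (𝓞 K) // absNorm I = n} := Fintype.ofFinite _
  rw [tsum_fintype, Finset.sum_congr rfl (fun I _ => by rw [I.2]), Finset.sum_const,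
    Finset.card_univ, Nat.card_eq_fintype_card, nsmul_eq_mul]

theorem summable_card_mul_rpow {s : ℝ} (hs : 1 < s) :
    Summable (fun n : ℕ ↦
      (Nat.card {I : Ideal (𝓞 K) // absNorm I = n} : ℝ) * (n : ℝ) ^ (-s)) := by
  have h := (lseriesSummable_card K hs).norm
  refine h.congr fun n => ?_
  rw [LSeries.norm_term_eq]
  split_ifs with hn
  · subst hn
    have hs0 : -s ≠ 0 := by linarith
    simp [Real.zero_rpow hs0]
  · simp only [Complex.ofReal_re, Complex.norm_real, Real.norm_eq_abs, Nat.abs_cast]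
    rw [Real.rpow_neg (Nat.cast_nonneg _), div_eq_mul_inv]

/-- `∑ I, N(I)^(-s)` converges for `s > 1`. -/
theorem summable_absNorm_rpow {s : ℝ} (hs : 1 < s) :
    Summable (fun I : Ideal (𝓞 K) ↦ ((absNorm I : ℕ) : ℝ) ^ (-s)) := by
  rw [← (Equiv.sigmaFiberEquiv (fun I : Ideal (𝓞 K) => absNorm I)).summable_iff]
  rw [summable_sigma_of_nonneg (fun _ => by
    simp only [Function.comp_apply]
    positivity)]
  refine ⟨fun n => ?_, ?_⟩
  · haveI : Finite {I : Ideal (𝓞 K) // absNorm I = n} := finite_setOfPred_absNorm_eq n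
    exact Summable.of_finite
  · refine (summable_card_mul_rpow K hs).congr fun n => ?_
    simp only [Function.comp_apply, Equiv.sigmaFiberEquiv_apply]
    exact (tsum_fiber_absNorm_rpow K s n).symm

/-- The Dedekind zeta function at a real argument, as a sum over all ideals (the zero ideal
contributes `0`). -/
noncomputable def zetaR (s : ℝ) : ℝ := ∑' I : Ideal (𝓞 K), ((absNorm I : ℕ) : ℝ) ^ (-s)

theorem zetaR_eq_tsum_nat {s : ℝ} (hs : 1 < s) :
    zetaR K s = ∑' n : ℕ,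
      (Nat.card {I : Ideal (𝓞 K) // absNorm I = n} : ℝ) * (n : ℝ) ^ (-s) := by
  have hsum := summable_absNorm_rpow K hs
  rw [zetaR, ← (Equiv.sigmaFiberEquiv (fun I : Ideal (𝓞 K) => absNorm I)).tsum_eq]
  rw [← (Equiv.sigmaFiberEquiv (fun I : Ideal (𝓞 K) => absNorm I)).summable_iff] at hsum
  have hfib : ∀ n : ℕ, Summable fun c : {I : Ideal (𝓞 K) // absNorm I = n} =>
      ((fun I : Ideal (𝓞 K) => ((absNorm I : ℕ) : ℝ) ^ (-s)) ∘
        (Equiv.sigmaFiberEquiv (fun I : Ideal (𝓞 K) => absNorm I))) ⟨n, c⟩ := by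
    intro n
    haveI : Finite {I : Ideal (𝓞 K) // absNorm I = n} := finite_setOfPred_absNorm_eq n
    exact Summable.of_finite
  have := Summable.tsum_sigma' hfib hsum
  simp only [Function.comp_apply] at this
  rw [this]
  refine tsum_congr fun n => ?_
  simp only [Equiv.sigmaFiberEquiv_apply]
  exact tsum_fiber_absNorm_rpow K s n

theorem zetaR_eq_dedekindZeta {s : ℝ} (hs : 1 < s) :
    ((zetaR K s : ℝ) : ℂ) = dedekindZeta K (s : ℂ) := by
  rw [zetaR_eq_tsum_nat K hs, dedekindZeta, LSeries, Complex.ofReal_tsum]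
  refine tsum_congr fun n => ?_
  rw [LSeries.term_def]
  split_ifs with hn
  · subst hn
    have hs0 : -s ≠ 0 := by linarith
    simp [Real.zero_rpow hs0]
  · rw [Complex.ofReal_mul, Complex.ofReal_natCast, Complex.ofReal_cpow (Nat.cast_nonneg _),
      Complex.ofReal_neg, Complex.cpow_neg, Complex.ofReal_natCast, div_eq_mul_inv]


theorem tendsto_sub_one_mul_zetaR :
    Tendsto (fun s : ℝ ↦ (s - 1) * zetaR K s) (𝓝[>] 1) (𝓝 (dedekindZeta_residue K)) := by
  have h := tendsto_sub_one_mul_dedekindZeta_nhdsGT K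
  have h2 : Tendsto (fun s : ℝ ↦ (((s - 1) * zetaR K s : ℝ) : ℂ)) (𝓝[>] 1)
      (𝓝 ((dedekindZeta_residue K : ℝ) : ℂ)) := by
    refine h.congr' ?_
    filter_upwards [self_mem_nhdsWithin] with s hs
    rw [Complex.ofReal_mul, zetaR_eq_dedekindZeta K hs]
    push_cast
    rfl
  have h3 := (Complex.continuous_re.tendsto _).comp h2
  rw [Complex.ofReal_re] at h3
  refine h3.congr fun s => ?_
  simp only [Function.comp_apply, Complex.ofReal_re]

theorem one_le_zetaR {s : ℝ} (hs : 1 < s) : 1 ≤ zetaR K s := by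
  have hsum := summable_absNorm_rpow K hs
  have := hsum.le_tsum (⊤ : Ideal (𝓞 K)) (fun _ _ => by positivity)
  simpa [zetaR] using this

theorem zetaR_pos {s : ℝ} (hs : 1 < s) : 0 < zetaR K s :=
  lt_of_lt_of_le one_pos (one_le_zetaR K hs)

/-- Upper bound near `1`. -/
theorem eventually_zetaR_le :
    ∃ C : ℝ, 0 < C ∧ ∀ᶠ s in 𝓝[>] (1 : ℝ), zetaR K s ≤ C / (s - 1) := by
  refine ⟨dedekindZeta_residue K + 1, by linarith [dedekindZeta_residue_pos K], ?_⟩
  have h := (tendsto_order.1 (tendsto_sub_one_mul_zetaR K)).2 (dedekindZeta_residue K + 1)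
    (by linarith)
  filter_upwards [h, self_mem_nhdsWithin] with s hs hs1
  have hs1' : (0 : ℝ) < s - 1 := by
    have : (1 : ℝ) < s := hs1
    linarith
  rw [le_div_iff₀ hs1']
  linarith

/-- Lower bound near `1`. -/
theorem eventually_le_zetaR :
    ∃ c : ℝ, 0 < c ∧ ∀ᶠ s in 𝓝[>] (1 : ℝ), c / (s - 1) ≤ zetaR K s := by
  refine ⟨dedekindZeta_residue K / 2, by linarith [dedekindZeta_residue_pos K], ?_⟩
  have h := (tendsto_order.1 (tendsto_sub_one_mul_zetaR K)).1 (dedekindZeta_residue K / 2)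
    (by linarith [dedekindZeta_residue_pos K])
  filter_upwards [h, self_mem_nhdsWithin] with s hs hs1
  have hs1' : (0 : ℝ) < s - 1 := by
    have : (1 : ℝ) < s := hs1
    linarith
  rw [div_le_iff₀ hs1']
  linarith

end Fermat.Agent.Lib.EulerProd

end
-- ===== PACK-END Lib/EulerProd/IdealSum.lean

-- ===== PACK-BEGIN Lib/NormL/Cls_584.lean
section



/-!
# `NormL`, block CLS (helper584): decomposition of `normL` along ideal classes

* `normL_eq_sum_classL` (CLS1): `normL K χ s = ∑ C, classL K χ C s` for `s > 1`;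
* `prinL_eq_mul_classL` (CLS2): if `[J] = C⁻¹` then
  `prinL K χ J s = χ(N J) * N(J)^(-s) * classL K χ C s`.

Statements are those of `Fermat/Agent/Lib/NormL/Interface.lean` (origin/helper44 @c43fef9),
with `classL` from `Defs.lean`.
-/

namespace Fermat.Agent.Lib.NormL

open NumberField NumberField.mixedEmbedding
open scoped nonZeroDivisors Classical

variable (K : Type*) [Field K] [NumberField K]

/-- The general term of `normL`. -/
noncomputable def normLTerm {m : ℕ} (χ : DirichletCharacter ℂ m) (s : ℝ)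
    (I : (Ideal (𝓞 K))⁰) : ℂ :=
  χ ((Ideal.absNorm (I : Ideal (𝓞 K)) : ℕ) : ZMod m) *
    (((Ideal.absNorm (I : Ideal (𝓞 K)) : ℝ) ^ (-s) : ℝ) : ℂ)

lemma normL_eq_tsum_normLTerm {m : ℕ} (χ : DirichletCharacter ℂ m) (s : ℝ) :
    normL K χ s = ∑' I : (Ideal (𝓞 K))⁰, normLTerm K χ s I := rfl

lemma classL_eq_tsum_normLTerm {m : ℕ} (χ : DirichletCharacter ℂ m) (C : ClassGroup (𝓞 K))
    (s : ℝ) :
    classL K χ C s = ∑' I : {I : (Ideal (𝓞 K))⁰ // ClassGroup.mk0 I = C}, normLTerm K χ s I.1 :=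
  rfl

lemma prinL_eq_tsum_normLTerm {m : ℕ} (χ : DirichletCharacter ℂ m) (A : Ideal (𝓞 K)) (s : ℝ) :
    prinL K χ A s =
      ∑' I : {I : (Ideal (𝓞 K))⁰ // (I : Ideal (𝓞 K)).IsPrincipal ∧ A ∣ (I : Ideal (𝓞 K))},
        normLTerm K χ s I.1 := rfl

lemma norm_normLTerm_le {m : ℕ} (χ : DirichletCharacter ℂ m) (s : ℝ) (I : (Ideal (𝓞 K))⁰) :
    ‖normLTerm K χ s I‖ ≤ (Ideal.absNorm (I : Ideal (𝓞 K)) : ℝ) ^ (-s) := by
  unfold normLTerm
  rw [norm_mul, Complex.norm_real, Real.norm_eq_abs,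
    abs_of_nonneg (Real.rpow_nonneg (Nat.cast_nonneg _) _)]
  calc ‖χ ((Ideal.absNorm (I : Ideal (𝓞 K)) : ℕ) : ZMod m)‖ *
        (Ideal.absNorm (I : Ideal (𝓞 K)) : ℝ) ^ (-s)
      ≤ 1 * (Ideal.absNorm (I : Ideal (𝓞 K)) : ℝ) ^ (-s) :=
        mul_le_mul_of_nonneg_right (DirichletCharacter.norm_le_one χ _)
          (Real.rpow_nonneg (Nat.cast_nonneg _) _)
    _ = _ := one_mul _

/-- Summability of the terms of `normL` for `s > 1`. -/
theorem summable_normLTerm {m : ℕ} (χ : DirichletCharacter ℂ m) {s : ℝ} (hs : 1 < s) :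
    Summable (normLTerm K χ s) := by
  have h1 : Summable (fun I : (Ideal (𝓞 K))⁰ ↦ (Ideal.absNorm (I : Ideal (𝓞 K)) : ℝ) ^ (-s)) :=
    (Fermat.Agent.Lib.EulerProd.summable_absNorm_rpow K hs).comp_injective
      Subtype.val_injective
  exact Summable.of_norm_bounded h1 (norm_normLTerm_le K χ s)

/-- CLS1 -/
theorem normL_eq_sum_classL {m : ℕ} (χ : DirichletCharacter ℂ m) {s : ℝ} (hs : 1 < s) :
    normL K χ s = ∑ C : ClassGroup (𝓞 K), classL K χ C s := by
  have hsum := summable_normLTerm K χ hs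
  set e := Equiv.sigmaFiberEquiv (fun I : (Ideal (𝓞 K))⁰ ↦ ClassGroup.mk0 I) with he
  have hsum' : Summable (fun x : (Σ C : ClassGroup (𝓞 K),
      {I : (Ideal (𝓞 K))⁰ // ClassGroup.mk0 I = C}) ↦ normLTerm K χ s (e x)) :=
    e.summable_iff.mpr hsum
  rw [normL_eq_tsum_normLTerm, ← e.tsum_eq (normLTerm K χ s), hsum'.tsum_sigma, tsum_fintype]
  rfl

/-- multiplicativity of the general term -/
lemma normLTerm_mul {m : ℕ} (χ : DirichletCharacter ℂ m) (s : ℝ) (I J : (Ideal (𝓞 K))⁰) :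
    normLTerm K χ s (I * J) = normLTerm K χ s I * normLTerm K χ s J := by
  unfold normLTerm
  have h1 : Ideal.absNorm ((I * J : (Ideal (𝓞 K))⁰) : Ideal (𝓞 K)) =
      Ideal.absNorm (I : Ideal (𝓞 K)) * Ideal.absNorm (J : Ideal (𝓞 K)) := by
    rw [Submonoid.coe_mul, map_mul]
  rw [h1, Nat.cast_mul, map_mul, Nat.cast_mul,
    Real.mul_rpow (Nat.cast_nonneg _) (Nat.cast_nonneg _), Complex.ofReal_mul]
  ring

/-- The bijection between the ideals of the class `C` and the principal ideals divisible by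
`J`, where `[J] = C⁻¹`. -/
noncomputable def classEquivPrin (C : ClassGroup (𝓞 K)) (J : (Ideal (𝓞 K))⁰)
    (hJ : ClassGroup.mk0 J = C⁻¹) :
    {I : (Ideal (𝓞 K))⁰ // ClassGroup.mk0 I = C} ≃
      {I : (Ideal (𝓞 K))⁰ // (I : Ideal (𝓞 K)).IsPrincipal ∧ J.1 ∣ (I : Ideal (𝓞 K))} where
  toFun I := ⟨J * I.1, by
    constructor
    · rw [← ClassGroup.mk0_eq_one_iff (J * I.1).2, map_mul, hJ, I.2, inv_mul_cancel]
    · rw [Submonoid.coe_mul]
      exact Dvd.intro _ rfl⟩
  invFun I := ⟨⟨(I.2.2).choose, by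
      rw [mem_nonZeroDivisors_iff_ne_zero]
      intro h0
      have h := (I.2.2).choose_spec
      rw [h0, mul_zero] at h
      exact nonZeroDivisors.coe_ne_zero I.1 h⟩, by
    have h := (I.2.2).choose_spec
    have hprin : ClassGroup.mk0 I.1 = 1 := (ClassGroup.mk0_eq_one_iff I.1.2).mpr I.2.1
    set I' : (Ideal (𝓞 K))⁰ := ⟨(I.2.2).choose, by
      rw [mem_nonZeroDivisors_iff_ne_zero]
      intro h0
      rw [h0, mul_zero] at h
      exact nonZeroDivisors.coe_ne_zero I.1 h⟩ with hI'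
    have h2 : I.1 = J * I' := Subtype.ext (by rw [Submonoid.coe_mul]; exact h)
    have h3 : ClassGroup.mk0 J * ClassGroup.mk0 I' = 1 := by
      rw [← map_mul, ← h2]; exact hprin
    rw [hJ] at h3
    calc ClassGroup.mk0 I' = C * (C⁻¹ * ClassGroup.mk0 I') := by rw [mul_inv_cancel_left]
      _ = C := by rw [h3, mul_one]⟩
  left_inv I := by
    apply Subtype.ext
    apply Subtype.ext
    have hmem : (J : Ideal (𝓞 K)) ∣ ((J * I.1 : (Ideal (𝓞 K))⁰) : Ideal (𝓞 K)) := by
      rw [Submonoid.coe_mul]; exact Dvd.intro _ rfl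
    have h : ((J * I.1 : (Ideal (𝓞 K))⁰) : Ideal (𝓞 K)) = J * hmem.choose := hmem.choose_spec
    have h' : (J : Ideal (𝓞 K)) * (I.1 : Ideal (𝓞 K)) = J * hmem.choose :=
      (Submonoid.coe_mul _ J I.1).symm.trans h
    have hJ0 : (J : Ideal (𝓞 K)) ≠ 0 := nonZeroDivisors.coe_ne_zero J
    exact (mul_left_cancel₀ hJ0 h').symm
  right_inv I := by
    apply Subtype.ext
    apply Subtype.ext
    rw [Submonoid.coe_mul]
    exact (I.2.2).choose_spec.symm

set_option linter.unusedVariables false in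
/-- CLS2: ideals in the class `C` correspond to principal ideals divisible by `J`, where `J`
is in the class `C⁻¹`. -/
theorem prinL_eq_mul_classL {m : ℕ} (χ : DirichletCharacter ℂ m) (C : ClassGroup (𝓞 K))
    (J : (Ideal (𝓞 K))⁰) (hJ : ClassGroup.mk0 J = C⁻¹) {s : ℝ} (hs : 1 < s) :
    prinL K χ (J : Ideal (𝓞 K)) s =
      χ ((Ideal.absNorm (J : Ideal (𝓞 K)) : ℕ) : ZMod m) *
        (((Ideal.absNorm (J : Ideal (𝓞 K)) : ℝ) ^ (-s) : ℝ) : ℂ) * classL K χ C s := by
  rw [prinL_eq_tsum_normLTerm, classL_eq_tsum_normLTerm,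
    ← (classEquivPrin K C J hJ).tsum_eq, ← tsum_mul_left]
  refine tsum_congr fun I ↦ ?_
  exact normLTerm_mul K χ s J I.1

end Fermat.Agent.Lib.NormL

end
-- ===== PACK-END Lib/NormL/Cls_584.lean

-- ===== PACK-BEGIN S14/H74/UnitSum.lean
section


/-!
# S14/N1 (helper74): `rho` is a partition of unity for the action of the units (piece P2)
-/

namespace Fermat.Agent.S14.H74

open NumberField NumberField.mixedEmbedding NumberField.Units
  NumberField.Units.dirichletUnitTheorem NumberField.InfinitePlace Module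

open scoped Classical

variable (K : Type*) [Field K] [NumberField K]

/-- The decomposition of the units as torsion times the free part. -/
noncomputable def unitsEquiv : torsion K × (Fin (rank K) → ℤ) ≃ (𝓞 K)ˣ :=
  Equiv.ofBijective (fun p ↦ (p.1 : (𝓞 K)ˣ) * ∏ i, (fundSystem K i) ^ (p.2 i)) (by
    constructor
    · intro p q h
      obtain ⟨c, -, hc⟩ := exist_unique_eq_mul_prod K
        ((p.1 : (𝓞 K)ˣ) * ∏ i, (fundSystem K i) ^ (p.2 i))
      rw [hc p rfl, hc q h]
    · intro x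
      obtain ⟨c, hc, -⟩ := exist_unique_eq_mul_prod K x
      exact ⟨c, hc.symm⟩)

theorem unitsEquiv_apply (p : torsion K × (Fin (rank K) → ℤ)) :
    unitsEquiv K p = (p.1 : (𝓞 K)ˣ) * ∏ i, (fundSystem K i) ^ (p.2 i) := rfl

theorem logEmbedding_unitsEquiv (p : torsion K × (Fin (rank K) → ℤ)) :
    logEmbedding K (Additive.ofMul (unitsEquiv K p)) =
      ∑ i, ((p.2 i : ℤ) : ℝ) • ((basisUnitLattice K).ofZLatticeBasis ℝ (unitLattice K)) i := by
  rw [unitsEquiv_apply, ofMul_mul, map_add, ofMul_prod, map_sum]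
  have h1 : logEmbedding K (Additive.ofMul (p.1 : (𝓞 K)ˣ)) = 0 := by
    rw [logEmbedding_eq_zero_iff]
    exact p.1.2
  rw [h1, zero_add]
  refine Finset.sum_congr rfl fun i _ ↦ ?_
  rw [ofMul_zpow, map_zsmul, logEmbedding_fundSystem, Basis.ofZLatticeBasis_apply,
    Int.cast_smul_eq_zsmul]

variable {K}

theorem logCoord_unitsEquiv_smul (p : torsion K × (Fin (rank K) → ℤ)) {x : mixedSpace K}
    (hx : mixedEmbedding.norm x ≠ 0) (j : Fin (rank K)) :
    logCoord K (unitsEquiv K p • x) j = logCoord K x j + p.2 j := by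
  unfold logCoord
  rw [logMap_unit_smul _ hx, map_add, Finsupp.add_apply, logEmbedding_unitsEquiv,
    Basis.repr_sum_self, add_comm]

theorem rho_unitsEquiv_smul (p : torsion K × (Fin (rank K) → ℤ)) {x : mixedSpace K}
    (hx : mixedEmbedding.norm x ≠ 0) :
    rho K (unitsEquiv K p • x) = ∏ j, tent (logCoord K x j + p.2 j) := by
  have h : mixedEmbedding.norm (unitsEquiv K p • x) ≠ 0 := by rwa [norm_unit_smul]
  rw [rho_eq_prod h]
  exact Finset.prod_congr rfl fun j _ ↦ by rw [logCoord_unitsEquiv_smul p hx]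

/-- **P2**: the translates of `rho` by the units sum to the number of roots of unity. -/
theorem hasSum_rho_unit_smul {x : mixedSpace K} (hx : mixedEmbedding.norm x ≠ 0) :
    HasSum (fun u : (𝓞 K)ˣ ↦ rho K (u • x)) (torsionOrder K) := by
  rw [← (unitsEquiv K).hasSum_iff]
  have hfun : ((fun u : (𝓞 K)ˣ ↦ rho K (u • x)) ∘ unitsEquiv K) =
      fun p : torsion K × (Fin (rank K) → ℤ) ↦ ∏ j, tent (logCoord K x j + p.2 j) := by
    funext p
    exact rho_unitsEquiv_smul p hx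
  rw [hfun]
  have h1 := tent_prod_hasSum (fun j ↦ logCoord K x j)
  have hnn : (0 : torsion K × (Fin (rank K) → ℤ) → ℝ) ≤
      fun p ↦ ∏ j, tent (logCoord K x j + p.2 j) :=
    fun p ↦ Finset.prod_nonneg fun j _ ↦ tent_nonneg _
  have : Fintype (torsion K) := Fintype.ofFinite _
  have hsum : Summable fun p : torsion K × (Fin (rank K) → ℤ) ↦
      ∏ j, tent (logCoord K x j + p.2 j) := by
    rw [summable_prod_of_nonneg hnn]
    exact ⟨fun _ ↦ h1.summable, Summable.of_finite⟩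
  have h2 := hsum.tsum_prod' (fun _ ↦ h1.summable)
  simp only [h1.tsum_eq, tsum_fintype, Finset.sum_const, Finset.card_univ, nsmul_eq_mul,
    mul_one] at h2
  have h3 : (Fintype.card (torsion K) : ℝ) = torsionOrder K := by
    rw [torsionOrder, Nat.card_eq_fintype_card]
  rw [← h3, ← h2]
  exact hsum.hasSum

end Fermat.Agent.S14.H74

end
-- ===== PACK-END S14/H74/UnitSum.lean

-- ===== PACK-BEGIN S14/H74/Orbit.lean
section



/-!
# S14/N1 (helper74): orbit decomposition of the smoothed sum (piece P3)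
-/

namespace Fermat.Agent.S14.H74

open NumberField NumberField.mixedEmbedding NumberField.Units
  NumberField.Units.dirichletUnitTheorem NumberField.InfinitePlace Module

open scoped Classical

variable {K : Type*} [Field K] [NumberField K]

/-- Nonzero principal ideals contained in `J`. -/
def PJ (J : Ideal (𝓞 K)) : Type _ :=
  {I : Ideal (𝓞 K) // I ≠ ⊥ ∧ I.IsPrincipal ∧ I ≤ J}

/-- A chosen generator. -/
noncomputable def pjGen {J : Ideal (𝓞 K)} (I : PJ J) : 𝓞 K :=
  haveI := I.2.2.1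
  Submodule.IsPrincipal.generator I.1

theorem span_pjGen {J : Ideal (𝓞 K)} (I : PJ J) : Ideal.span {pjGen I} = I.1 := by
  have := I.2.2.1
  exact Ideal.span_singleton_generator I.1

theorem pjGen_ne_zero {J : Ideal (𝓞 K)} (I : PJ J) : pjGen I ≠ 0 := by
  intro h
  have := span_pjGen I
  rw [h, Ideal.span_singleton_eq_bot.mpr rfl] at this
  exact I.2.1 this.symm

theorem pjGen_mem {J : Ideal (𝓞 K)} (I : PJ J) : pjGen I ∈ J := by
  apply I.2.2.2
  rw [← span_pjGen I]
  exact Ideal.mem_span_singleton_self _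

theorem span_unit_mul (u : (𝓞 K)ˣ) (g : 𝓞 K) :
    Ideal.span {(u : 𝓞 K) * g} = Ideal.span {g} :=
  Ideal.span_singleton_mul_left_unit u.isUnit g

/-- The orbit decomposition of the nonzero elements of `J`. -/
noncomputable def orbitEquiv (J : Ideal (𝓞 K)) :
    PJ J × (𝓞 K)ˣ ≃ {y : 𝓞 K // y ∈ J ∧ y ≠ 0} :=
  Equiv.ofBijective (fun p ↦ ⟨(p.2 : 𝓞 K) * pjGen p.1,
    J.mul_mem_left _ (pjGen_mem p.1), mul_ne_zero p.2.ne_zero (pjGen_ne_zero p.1)⟩) (by
    constructor
    · rintro ⟨I, u⟩ ⟨I', u'⟩ h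
      have h1 : (u : 𝓞 K) * pjGen I = (u' : 𝓞 K) * pjGen I' := congrArg Subtype.val h
      have e1 : I.1 = Ideal.span {(u : 𝓞 K) * pjGen I} := by rw [span_unit_mul, span_pjGen]
      have e2 : I'.1 = Ideal.span {(u' : 𝓞 K) * pjGen I'} := by rw [span_unit_mul, span_pjGen]
      have h2 : I = I' := Subtype.ext (by rw [e1, e2, h1])
      subst h2
      have h3 : (u : 𝓞 K) = u' := mul_right_cancel₀ (pjGen_ne_zero I) h1
      rw [Units.ext h3]
    · rintro ⟨y, hyJ, hy0⟩
      let I : PJ J := ⟨Ideal.span {y}, by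
        rw [Ne, Ideal.span_singleton_eq_bot]
        exact hy0, ⟨⟨y, rfl⟩⟩, by
        rw [Ideal.span_singleton_le_iff_mem]
        exact hyJ⟩
      have h1 : Ideal.span {pjGen I} = Ideal.span {y} := span_pjGen I
      rw [Ideal.span_singleton_eq_span_singleton] at h1
      obtain ⟨u, hu⟩ := h1
      refine ⟨(I, u), Subtype.ext ?_⟩
      show (u : 𝓞 K) * pjGen I = y
      rw [mul_comm]
      exact hu)

theorem orbitEquiv_apply (J : Ideal (𝓞 K)) (p : PJ J × (𝓞 K)ˣ) :
    ((orbitEquiv J p : {y : 𝓞 K // y ∈ J ∧ y ≠ 0}) : 𝓞 K) = (p.2 : 𝓞 K) * pjGen p.1 := rfl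

theorem mixedEmbedding_unit_mul (u : (𝓞 K)ˣ) (g : 𝓞 K) :
    mixedEmbedding K (((u : 𝓞 K) * g : 𝓞 K) : K) = u • mixedEmbedding K (g : K) := by
  rw [unitSMul_smul, ← map_mul]
  rfl

theorem norm_pjGen {J : Ideal (𝓞 K)} (I : PJ J) :
    mixedEmbedding.norm (mixedEmbedding K (pjGen I : K)) = (Ideal.absNorm I.1 : ℝ) := by
  rw [mixedEmbedding_norm_coe, ← span_pjGen I, Ideal.absNorm_span_singleton, Nat.cast_natAbs,
    Int.cast_abs]

theorem FS_unit_mul (s : ℝ) (u : (𝓞 K)ˣ) {J : Ideal (𝓞 K)} (I : PJ J) :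
    FS K s ((u : 𝓞 K) * pjGen I) =
      rho K (u • mixedEmbedding K (pjGen I : K)) * (Ideal.absNorm I.1 : ℝ) ^ (-s) := by
  unfold FS fS
  rw [mixedEmbedding_unit_mul, norm_unit_smul, norm_pjGen]

theorem tsum_ideal_eq_tsum_ne_zero (J : Ideal (𝓞 K)) (s : ℝ) :
    ∑' y : J, FS K s (y : 𝓞 K) = ∑' y : {y : 𝓞 K // y ∈ J ∧ y ≠ 0}, FS K s (y : 𝓞 K) := by
  have h1 := tsum_subtype (J : Set (𝓞 K)) (FS K s)
  have h2 := tsum_subtype ({y : 𝓞 K | y ∈ J ∧ y ≠ 0}) (FS K s)
  have h3 : (J : Set (𝓞 K)).indicator (FS K s) =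
      ({y : 𝓞 K | y ∈ J ∧ y ≠ 0}).indicator (FS K s) := by
    funext y
    by_cases hy : y = 0
    · subst hy
      simp [Set.indicator, FS_zero]
    · simp [Set.indicator, hy]
  calc ∑' y : J, FS K s (y : 𝓞 K) = ∑' y, (J : Set (𝓞 K)).indicator (FS K s) y := h1
    _ = ∑' y, ({y : 𝓞 K | y ∈ J ∧ y ≠ 0}).indicator (FS K s) y := by rw [h3]
    _ = _ := h2.symm

/-- **P3**: the smoothed sum over `J` is the sum over the nonzero principal ideals contained
in `J`, counted with multiplicity `torsionOrder K`. -/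
theorem tsum_FS_eq (J : Ideal (𝓞 K)) {s : ℝ} (hs : 1 < s) :
    ∑' y : J, FS K s (y : 𝓞 K) =
      (torsionOrder K : ℝ) * ∑' I : PJ J, (Ideal.absNorm I.1 : ℝ) ^ (-s) := by
  rw [tsum_ideal_eq_tsum_ne_zero]
  have hsumF := summable_FS (K := K) hs
  have hsum0 : Summable fun y : {y : 𝓞 K // y ∈ J ∧ y ≠ 0} ↦ FS K s (y : 𝓞 K) :=
    hsumF.comp_injective Subtype.val_injective
  set G : PJ J × (𝓞 K)ˣ → ℝ := fun p ↦
    rho K (p.2 • mixedEmbedding K (pjGen p.1 : K)) * (Ideal.absNorm p.1.1 : ℝ) ^ (-s) with hG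
  have hcomp : (fun y : {y : 𝓞 K // y ∈ J ∧ y ≠ 0} ↦ FS K s (y : 𝓞 K)) ∘ orbitEquiv J = G := by
    funext p
    simp only [Function.comp_apply, orbitEquiv_apply, hG]
    exact FS_unit_mul s p.2 p.1
  have hsumG : Summable G := by
    rw [← hcomp]
    exact (orbitEquiv J).summable_iff.mpr hsum0
  have hfib : ∀ I : PJ J, HasSum (fun u : (𝓞 K)ˣ ↦ G (I, u))
      ((torsionOrder K : ℝ) * (Ideal.absNorm I.1 : ℝ) ^ (-s)) := by
    intro I
    have hN : mixedEmbedding.norm (mixedEmbedding K (pjGen I : K)) ≠ 0 := by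
      rw [norm_pjGen]
      have : Ideal.absNorm I.1 ≠ 0 := by
        rw [Ne, Ideal.absNorm_eq_zero_iff]
        exact I.2.1
      exact_mod_cast this
    exact (hasSum_rho_unit_smul hN).mul_right _
  calc ∑' y : {y : 𝓞 K // y ∈ J ∧ y ≠ 0}, FS K s (y : 𝓞 K)
      = ∑' p : PJ J × (𝓞 K)ˣ, G p := by
        rw [← hcomp]
        exact ((orbitEquiv J).tsum_eq _).symm
    _ = ∑' I : PJ J, ∑' u : (𝓞 K)ˣ, G (I, u) := hsumG.tsum_prod' fun I ↦ (hfib I).summable
    _ = ∑' I : PJ J, (torsionOrder K : ℝ) * (Ideal.absNorm I.1 : ℝ) ^ (-s) :=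
        tsum_congr fun I ↦ (hfib I).tsum_eq
    _ = _ := tsum_mul_left

end Fermat.Agent.S14.H74

end
-- ===== PACK-END S14/H74/Orbit.lean

-- ===== PACK-BEGIN Lib/NormL/Orb.lean
section



/-!
# `NormL`, piece ORB (helper941): sums over elements vs sums over principal ideals

`elemSum K χ ε A s = torsionOrder K * prinL K χ A s` for `ε = decide (χ (-1) = -1)` and `s > 1`.

The weight `χ(N x) sign(N x)^ε` only depends on `|N x| = N((x))`, hence is constant on the orbits
of the units; the orbit sums of `rho` are `torsionOrder K` (helper74, `hasSum_rho_unit_smul`).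
-/

namespace Fermat.Agent.Lib.NormL

open NumberField NumberField.mixedEmbedding NumberField.Units Fermat.Agent.S14.H74
open scoped nonZeroDivisors Classical

/-- The sign-twisted character value only depends on `|n|`. -/
theorem orb941_char_sign {m : ℕ} (χ : DirichletCharacter ℂ m) {n : ℤ} (hn : n ≠ 0) :
    χ ((n : ℤ) : ZMod m) *
        (((if decide (χ (-1) = -1) = true then ((n.sign : ℤ) : ℝ) else 1 : ℝ)) : ℂ) =
      χ ((n.natAbs : ℕ) : ZMod m) := by
  have hsq : χ (-1) * χ (-1) = 1 := by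
    rw [← map_mul]
    simp
  have h11 : χ (-1) = 1 ∨ χ (-1) = -1 := mul_self_eq_one_iff.mp hsq
  rcases lt_or_gt_of_ne hn with h | h
  · have hs : n.sign = -1 := Int.sign_eq_neg_one_of_neg h
    have hn' : ((n : ℤ) : ZMod m) = -1 * ((n.natAbs : ℕ) : ZMod m) := by
      have h0 : n = -((n.natAbs : ℕ) : ℤ) := by omega
      calc ((n : ℤ) : ZMod m) = ((-((n.natAbs : ℕ) : ℤ) : ℤ) : ZMod m) := by rw [← h0]
        _ = -1 * ((n.natAbs : ℕ) : ZMod m) := by
          rw [Int.cast_neg, Int.cast_natCast, neg_one_mul]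
    rw [hn', map_mul, hs]
    by_cases hε : χ (-1) = -1
    · rw [hε]
      simp
    · have h1 : χ (-1) = 1 := h11.resolve_right hε
      rw [h1]
      have h2 : ¬ ((1 : ℂ) = -1) := by norm_num
      simp [h2]
  · have hs : n.sign = 1 := Int.sign_eq_one_of_pos h
    have hn' : ((n : ℤ) : ZMod m) = ((n.natAbs : ℕ) : ZMod m) := by
      have h0 : n = ((n.natAbs : ℕ) : ℤ) := by omega
      calc ((n : ℤ) : ZMod m) = ((((n.natAbs : ℕ) : ℤ) : ℤ) : ZMod m) := by rw [← h0]
        _ = ((n.natAbs : ℕ) : ZMod m) := Int.cast_natCast _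
    rw [hn', hs]
    by_cases hε : χ (-1) = -1 <;> simp [hε]

variable (K : Type*) [Field K] [NumberField K]

/-- The summand of `elemSum` in terms of the ideal generated by `x`. -/
theorem orb941_term_eq {m : ℕ} (χ : DirichletCharacter ℂ m) (s : ℝ) (x : 𝓞 K) :
    χ ((Algebra.norm ℤ (x : 𝓞 K) : ℤ) : ZMod m) *
        ((GS K (decide (χ (-1) = -1)) s x : ℝ) : ℂ) =
      χ ((Ideal.absNorm (Ideal.span {x}) : ℕ) : ZMod m) * ((FS K s x : ℝ) : ℂ) := by
  by_cases hx : x = 0
  · subst hx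
    simp [GS, FS_zero]
  · have hN : Algebra.norm ℤ x ≠ 0 := by
      rwa [Ne, Algebra.norm_eq_zero_iff]
    rw [Ideal.absNorm_span_singleton, ← orb941_char_sign χ hN]
    unfold GS
    push_cast
    ring

variable {K} in
/-- `PJ A` (helper74) against the index type of `prinL`. -/
noncomputable def orb941_equiv (A : Ideal (𝓞 K)) :
    PJ A ≃ {I : (Ideal (𝓞 K))⁰ // (I : Ideal (𝓞 K)).IsPrincipal ∧ A ∣ (I : Ideal (𝓞 K))} where
  toFun I := ⟨⟨I.1, mem_nonZeroDivisors_iff_ne_zero.mpr I.2.1⟩, I.2.2.1,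
    Ideal.dvd_iff_le.mpr I.2.2.2⟩
  invFun I := ⟨I.1.1, nonZeroDivisors.coe_ne_zero I.1, I.2.1, Ideal.dvd_iff_le.mp I.2.2⟩
  left_inv _ := rfl
  right_inv _ := rfl

/-- **ORB**: the sum over elements is `torsionOrder` times the sum over principal ideals. -/
theorem elemSum_eq_torsionOrder_mul_prinL {m : ℕ} (χ : DirichletCharacter ℂ m)
    (A : (Ideal (𝓞 K))⁰) {s : ℝ} (hs : 1 < s) :
    elemSum K χ (decide (χ (-1) = -1)) (A : Ideal (𝓞 K)) s =
      (Units.torsionOrder K : ℂ) * prinL K χ (A : Ideal (𝓞 K)) s := by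
  set J : Ideal (𝓞 K) := (A : Ideal (𝓞 K)) with hJ
  set T : 𝓞 K → ℂ := fun x ↦
    χ ((Ideal.absNorm (Ideal.span {x}) : ℕ) : ZMod m) * ((FS K s x : ℝ) : ℂ) with hT
  have hT0 : T 0 = 0 := by simp [hT, FS_zero]
  have hTn : ∀ x, ‖T x‖ ≤ FS K s x := by
    intro x
    simp only [hT]
    rw [norm_mul, Complex.norm_real, Real.norm_of_nonneg (FS_nonneg s x)]
    exact mul_le_of_le_one_left (FS_nonneg s x) (DirichletCharacter.norm_le_one χ _)
  have hsumF := summable_FS (K := K) hs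
  have hsumT : Summable T := Summable.of_norm_bounded hsumF hTn
  have h1 : elemSum K χ (decide (χ (-1) = -1)) J s = ∑' x : J, T (x : 𝓞 K) := by
    unfold elemSum
    exact tsum_congr fun x ↦ orb941_term_eq K χ s x
  rw [h1]
  have h2 : ∑' x : J, T (x : 𝓞 K) = ∑' y : {y : 𝓞 K // y ∈ J ∧ y ≠ 0}, T (y : 𝓞 K) := by
    have e1 := tsum_subtype (J : Set (𝓞 K)) T
    have e2 := tsum_subtype ({y : 𝓞 K | y ∈ J ∧ y ≠ 0}) T
    have e3 : (J : Set (𝓞 K)).indicator T = ({y : 𝓞 K | y ∈ J ∧ y ≠ 0}).indicator T := by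
      funext y
      by_cases hy : y = 0
      · subst hy
        simp [Set.indicator, hT0]
      · simp [Set.indicator, hy]
    calc ∑' x : J, T (x : 𝓞 K) = ∑' y, (J : Set (𝓞 K)).indicator T y := e1
      _ = ∑' y, ({y : 𝓞 K | y ∈ J ∧ y ≠ 0}).indicator T y := by rw [e3]
      _ = _ := e2.symm
  rw [h2]
  have hsum0 : Summable fun y : {y : 𝓞 K // y ∈ J ∧ y ≠ 0} ↦ T (y : 𝓞 K) :=
    hsumT.comp_injective Subtype.val_injective
  set c : PJ J → ℂ := fun I ↦
    χ ((Ideal.absNorm I.1 : ℕ) : ZMod m) * (((Ideal.absNorm I.1 : ℝ) ^ (-s) : ℝ) : ℂ) with hc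
  set G : PJ J × (𝓞 K)ˣ → ℂ := fun p ↦
    c p.1 * ((rho K (p.2 • mixedEmbedding K (pjGen p.1 : K)) : ℝ) : ℂ) with hG
  have hcomp : (fun y : {y : 𝓞 K // y ∈ J ∧ y ≠ 0} ↦ T (y : 𝓞 K)) ∘ orbitEquiv J = G := by
    funext p
    simp only [Function.comp_apply, orbitEquiv_apply, hG, hT, hc]
    rw [FS_unit_mul s p.2 p.1, span_unit_mul, span_pjGen]
    push_cast
    ring
  have hsumG : Summable G := by
    rw [← hcomp]
    exact (orbitEquiv J).summable_iff.mpr hsum0
  have hfib : ∀ I : PJ J, HasSum (fun u : (𝓞 K)ˣ ↦ G (I, u))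
      (c I * (torsionOrder K : ℂ)) := by
    intro I
    have hN : mixedEmbedding.norm (mixedEmbedding K (pjGen I : K)) ≠ 0 := by
      rw [norm_pjGen]
      have : Ideal.absNorm I.1 ≠ 0 := by
        rw [Ne, Ideal.absNorm_eq_zero_iff]
        exact I.2.1
      exact_mod_cast this
    have h := hasSum_rho_unit_smul hN
    have h' : HasSum (fun u : (𝓞 K)ˣ ↦
        ((rho K (u • mixedEmbedding K (pjGen I : K)) : ℝ) : ℂ)) (((torsionOrder K : ℝ)) : ℂ) :=
      Complex.hasSum_ofReal.mpr h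
    have h'' := h'.mul_left (c I)
    simpa [hG] using h''
  have hre : ∑' I : PJ J, c I = prinL K χ J s := by
    unfold prinL
    exact (orb941_equiv J).tsum_eq (fun I ↦
      χ ((Ideal.absNorm (I.1 : Ideal (𝓞 K)) : ℕ) : ZMod m) *
        (((Ideal.absNorm (I.1 : Ideal (𝓞 K)) : ℝ) ^ (-s) : ℝ) : ℂ))
  calc ∑' y : {y : 𝓞 K // y ∈ J ∧ y ≠ 0}, T (y : 𝓞 K)
      = ∑' p : PJ J × (𝓞 K)ˣ, G p := by
        rw [← hcomp]
        exact ((orbitEquiv J).tsum_eq _).symm
    _ = ∑' I : PJ J, ∑' u : (𝓞 K)ˣ, G (I, u) := hsumG.tsum_prod' fun I ↦ (hfib I).summable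
    _ = ∑' I : PJ J, c I * (torsionOrder K : ℂ) := tsum_congr fun I ↦ (hfib I).tsum_eq
    _ = (∑' I : PJ J, c I) * (torsionOrder K : ℂ) := tsum_mul_right
    _ = _ := by rw [hre, mul_comm]

end Fermat.Agent.Lib.NormL

end
-- ===== PACK-END Lib/NormL/Orb.lean

-- ===== PACK-BEGIN Lib/NormL/Main.lean
section





/-!
# `NormL`: main theorem (assembly)

If `χ(N I₀) ∉ {0, 1}` for some nonzero ideal `I₀`, then `s ↦ ∑_I χ(N I) N(I)^(-s)` extends to a
continuous function on `[1, 2]`; in particular it is bounded on `(1, 2]` and has a limit as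
`s → 1⁺`.
-/

namespace Fermat.Agent.Lib.NormL

open NumberField NumberField.mixedEmbedding
open scoped nonZeroDivisors Classical

variable (K : Type*) [Field K] [NumberField K]

theorem absNorm_pos_of_mem_nonZeroDivisors (I : (Ideal (𝓞 K))⁰) :
    0 < Ideal.absNorm (I : Ideal (𝓞 K)) := by
  rw [Nat.pos_iff_ne_zero, Ne, Ideal.absNorm_eq_zero_iff]
  exact nonZeroDivisors.coe_ne_zero I

/-- The denominator `χ(q) q^(1-s) - 1` does not vanish on `[1, 2]`. -/
theorem main_denominator_ne_zero {q : ℕ} (hq2 : (1 : ℝ) < q) {z : ℂ} (hz : ‖z‖ ≤ 1) (hz1 : z ≠ 1)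
    {s : ℝ} (hs : 1 ≤ s) : z * (((q : ℝ) ^ (1 - s) : ℝ) : ℂ) - 1 ≠ 0 := by
  intro h
  have h' : z * (((q : ℝ) ^ (1 - s) : ℝ) : ℂ) = 1 := sub_eq_zero.mp h
  have hq0 : (0 : ℝ) < q := by linarith
  rcases eq_or_lt_of_le hs with rfl | hs1
  · apply hz1
    simpa using h'
  · have hlt : (q : ℝ) ^ (1 - s) < 1 := Real.rpow_lt_one_of_one_lt_of_neg hq2 (by linarith)
    have hnn : 0 ≤ (q : ℝ) ^ (1 - s) := (Real.rpow_pos_of_pos hq0 _).le
    have hn : ‖z * (((q : ℝ) ^ (1 - s) : ℝ) : ℂ)‖ < 1 := by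
      rw [norm_mul, Complex.norm_real, Real.norm_of_nonneg hnn]
      calc ‖z‖ * (q : ℝ) ^ (1 - s) ≤ 1 * (q : ℝ) ^ (1 - s) := by gcongr
        _ < 1 := by linarith
    rw [h', norm_one] at hn
    exact lt_irrefl _ hn

/-- Pure algebra used in the assembly. -/
theorem main_algebra (a b w x y Q z r c c' ainv winv : ℂ) (ha : a * ainv = 1)
    (hw : w * winv = 1) (hxy : x * y = 1) (hQz : Q * z = r) :
    (Q * (w * (a * b * (x * z) * c')) - w * (a * x * c)) * ainv * y * winv = b * r * c' - c := by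
  calc (Q * (w * (a * b * (x * z) * c')) - w * (a * x * c)) * ainv * y * winv
      = (a * ainv) * (w * winv) * (x * y) * (Q * z) * b * c' -
          (a * ainv) * (w * winv) * (x * y) * c := by ring
    _ = b * r * c' - c := by rw [ha, hw, hxy, hQz]; ring

theorem exists_continuousOn_normL {m : ℕ} [NeZero m] (χ : DirichletCharacter ℂ m)
    (I₀ : (Ideal (𝓞 K))⁰)
    (h0 : χ ((Ideal.absNorm (I₀ : Ideal (𝓞 K)) : ℕ) : ZMod m) ≠ 0)
    (h1 : χ ((Ideal.absNorm (I₀ : Ideal (𝓞 K)) : ℕ) : ZMod m) ≠ 1) :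
    ∃ F : ℝ → ℂ, ContinuousOn F (Set.Icc 1 2) ∧
      ∀ s : ℝ, 1 < s → s ≤ 2 → F s = normL K χ s := by
  set q : ℕ := Ideal.absNorm (I₀ : Ideal (𝓞 K)) with hq
  have hq0 : 0 < q := absNorm_pos_of_mem_nonZeroDivisors K I₀
  have hqu : IsUnit ((q : ℕ) : ZMod m) := by
    by_contra hu
    exact h0 (χ.map_nonunit hu)
  have hqm : q.Coprime m := (ZMod.isUnit_iff_coprime q m).mp hqu
  have hq1 : q ≠ 1 := by
    intro h
    apply h1
    rw [h]
    simp
  have hq2 : (1 : ℝ) < q := by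
    have : 2 ≤ q := by omega
    exact_mod_cast this
  have hqpos : (0 : ℝ) < q := by linarith
  -- representatives
  choose J hJC hJm using fun C : ClassGroup (𝓞 K) ↦ exists_mk0_eq_and_coprime K m C⁻¹
  set ε : Bool := decide (χ (-1) = -1) with hε
  choose Δ hΔc hΔ using fun C : ClassGroup (𝓞 K) ↦
    exists_continuousOn_elemSum_sub K χ ε (J C) I₀ (hJm C) hqm
  set w : ℂ := (Units.torsionOrder K : ℂ) with hw
  have hw0 : w ≠ 0 := by
    rw [hw]
    exact_mod_cast (Units.torsionOrder_pos K).ne'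
  set nJ : ClassGroup (𝓞 K) → ℕ := fun C ↦ Ideal.absNorm (J C : Ideal (𝓞 K)) with hnJ
  have hnJpos : ∀ C, (0 : ℝ) < nJ C := fun C ↦ by
    have := absNorm_pos_of_mem_nonZeroDivisors K (J C)
    exact_mod_cast this
  have hχJ : ∀ C, χ ((nJ C : ℕ) : ZMod m) ≠ 0 := by
    intro C
    have hu : IsUnit ((nJ C : ℕ) : ZMod m) := (ZMod.isUnit_iff_coprime _ m).mpr (hJm C)
    exact (IsUnit.map χ hu).ne_zero
  have hχq : ‖χ ((q : ℕ) : ZMod m)‖ ≤ 1 := DirichletCharacter.norm_le_one χ _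
  set E : ℝ → ℂ := fun s ↦ ∑ C : ClassGroup (𝓞 K),
    Δ C s * (χ ((nJ C : ℕ) : ZMod m))⁻¹ * ((((nJ C : ℝ) ^ s : ℝ) : ℂ)) / w with hE
  set D : ℝ → ℂ := fun s ↦ χ ((q : ℕ) : ZMod m) * (((q : ℝ) ^ (1 - s) : ℝ) : ℂ) - 1 with hD
  have hDne : ∀ s ∈ Set.Icc (1 : ℝ) 2, D s ≠ 0 := fun s hs ↦
    main_denominator_ne_zero hq2 hχq h1 hs.1
  have hDc : ContinuousOn D (Set.Icc 1 2) := by
    apply Continuous.continuousOn
    have : Continuous fun s : ℝ ↦ (q : ℝ) ^ (1 - s) :=
      Real.continuous_const_rpow hqpos.ne' |>.comp (continuous_const.sub continuous_id)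
    exact (continuous_const.mul (Complex.continuous_ofReal.comp this)).sub continuous_const
  have hEc : ContinuousOn E (Set.Icc 1 2) := by
    apply continuousOn_finsetSum
    intro C _
    have h1 : Continuous fun s : ℝ ↦ (((nJ C : ℝ) ^ s : ℝ) : ℂ) :=
      Complex.continuous_ofReal.comp (Real.continuous_const_rpow (hnJpos C).ne')
    exact (((hΔc C).mul continuousOn_const).mul h1.continuousOn).div_const _
  refine ⟨fun s ↦ E s / D s, hEc.div hDc hDne, fun s hs1 hs2 ↦ ?_⟩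
  have hDs : D s ≠ 0 := hDne s ⟨hs1.le, hs2⟩
  rw [div_eq_iff hDs]
  -- the identity `E s = normL s * D s`
  have key : ∀ C : ClassGroup (𝓞 K),
      Δ C s * (χ ((nJ C : ℕ) : ZMod m))⁻¹ * ((((nJ C : ℝ) ^ s : ℝ) : ℂ)) / w =
        χ ((q : ℕ) : ZMod m) * (((q : ℝ) ^ (1 - s) : ℝ) : ℂ) *
          classL K χ (C * (ClassGroup.mk0 I₀)⁻¹) s - classL K χ C s := by
    intro C
    have e1 := elemSum_eq_torsionOrder_mul_prinL K χ (J C) hs1
    have e2 := elemSum_eq_torsionOrder_mul_prinL K χ (J C * I₀) hs1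
    have c1 := prinL_eq_mul_classL K χ C (J C) (hJC C) hs1
    have c2 := prinL_eq_mul_classL K χ (C * (ClassGroup.mk0 I₀)⁻¹) (J C * I₀)
      (by rw [map_mul, hJC C, mul_inv_rev, inv_inv, mul_comm]) hs1
    have hd := hΔ C s hs1 hs2
    have hcoe : ((J C * I₀ : (Ideal (𝓞 K))⁰) : Ideal (𝓞 K)) =
        (J C : Ideal (𝓞 K)) * (I₀ : Ideal (𝓞 K)) := rfl
    rw [hcoe] at e2 c2
    rw [← hε] at e1 e2
    rw [e1, e2, c1, c2] at hd
    have hN : Ideal.absNorm ((J C : Ideal (𝓞 K)) * (I₀ : Ideal (𝓞 K))) = nJ C * q := by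
      rw [map_mul]
    rw [hN] at hd
    have hcast : (((nJ C * q : ℕ) : ℕ) : ZMod m) = ((nJ C : ℕ) : ZMod m) * ((q : ℕ) : ZMod m) := by
      push_cast; ring
    have hpow : (((nJ C * q : ℕ) : ℝ)) ^ (-s) = (nJ C : ℝ) ^ (-s) * (q : ℝ) ^ (-s) := by
      push_cast
      rw [Real.mul_rpow (hnJpos C).le hqpos.le]
    rw [hcast, map_mul, hpow] at hd
    have hJs : (((nJ C : ℝ) ^ (-s) : ℝ) : ℂ) * (((nJ C : ℝ) ^ s : ℝ) : ℂ) = 1 := by
      rw [← Complex.ofReal_mul, ← Real.rpow_add (hnJpos C), neg_add_cancel, Real.rpow_zero]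
      simp
    have hqs : ((q : ℕ) : ℂ) * (((q : ℝ) ^ (-s) : ℝ) : ℂ) = (((q : ℝ) ^ (1 - s) : ℝ) : ℂ) := by
      rw [show (1 - s) = 1 + (-s) by ring, Real.rpow_add hqpos, Real.rpow_one]
      push_cast
      ring
    rw [← hd, div_eq_mul_inv]
    have hx := hχJ C
    have hcq : ((Ideal.absNorm (I₀ : Ideal (𝓞 K)) : ℕ) : ℂ) = ((q : ℕ) : ℂ) := rfl
    rw [hcq, Complex.ofReal_mul]
    exact main_algebra _ _ _ _ _ _ _ _ _ _ _ _ (mul_inv_cancel₀ hx) (mul_inv_cancel₀ hw0) hJs hqs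
  simp only [hE, hD]
  rw [Finset.sum_congr rfl fun C _ ↦ key C, Finset.sum_sub_distrib, ← Finset.mul_sum]
  have hre : ∑ C : ClassGroup (𝓞 K), classL K χ (C * (ClassGroup.mk0 I₀)⁻¹) s =
      ∑ C : ClassGroup (𝓞 K), classL K χ C s :=
    Fintype.sum_equiv (Equiv.mulRight (ClassGroup.mk0 I₀)⁻¹) _ _ fun _ ↦ rfl
  rw [hre, ← normL_eq_sum_classL K χ hs1]
  ring

end Fermat.Agent.Lib.NormL

end
-- ===== PACK-END Lib/NormL/Main.lean

-- ===== PACK-BEGIN Lib/Cheb/H941/DirichletLimitBridge.lean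
section



/-!
# Bridge for the analytic core (AN) of CHEB (helper941)

`Spec.DirichletLimitStatement` is phrased with Mathlib's `LSeries` of the arithmetic function
`n ↦ χ n * idealCount F n`.  The analytic work (tent method) naturally produces statements about
the ideal-indexed series

  `idealL K χ s = ∑' I : (Ideal (𝓞 K))⁰, χ (N I) * N(I) ^ (-s)`   (real `s > 1`).

This file proves that the two agree for real `s > 1` and deduces `Spec.DirichletLimitStatement`
from the existence of a limit (or of a continuous extension to `[1, 2]`) of `idealL`.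
-/

set_option autoImplicit false

open NumberField Ideal Filter Topology
open scoped nonZeroDivisors

namespace Fermat.Agent.Lib.Cheb.H941

noncomputable section

variable (K : Type*) [Field K] [NumberField K]

/-- The ideal-indexed norm-twisted `L`-series, for a real argument. -/
def idealL {m : ℕ} (χ : DirichletCharacter ℂ m) (s : ℝ) : ℂ :=
  ∑' I : (Ideal (𝓞 K))⁰, χ ((absNorm (I : Ideal (𝓞 K)) : ℕ) : ZMod m) *
    (((absNorm (I : Ideal (𝓞 K)) : ℝ) ^ (-s) : ℝ) : ℂ)

/-- The summand, extended to all ideals (it vanishes at the zero ideal). -/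
def idealTerm {m : ℕ} (χ : DirichletCharacter ℂ m) (s : ℝ) (I : Ideal (𝓞 K)) : ℂ :=
  χ ((absNorm I : ℕ) : ZMod m) * (((absNorm I : ℝ) ^ (-s) : ℝ) : ℂ)

lemma norm_idealTerm_le {m : ℕ} (χ : DirichletCharacter ℂ m) (s : ℝ) (I : Ideal (𝓞 K)) :
    ‖idealTerm K χ s I‖ ≤ H761.normPow K s I := by
  unfold idealTerm H761.normPow
  rw [norm_mul, Complex.norm_real, Real.norm_of_nonneg (Real.rpow_nonneg (Nat.cast_nonneg _) _)]
  calc ‖χ ((absNorm I : ℕ) : ZMod m)‖ * (absNorm I : ℝ) ^ (-s)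
      ≤ 1 * (absNorm I : ℝ) ^ (-s) :=
        mul_le_mul_of_nonneg_right (DirichletCharacter.norm_le_one χ _)
          (Real.rpow_nonneg (Nat.cast_nonneg _) _)
    _ = (absNorm I : ℝ) ^ (-s) := one_mul _

lemma summable_idealTerm {m : ℕ} (χ : DirichletCharacter ℂ m) {s : ℝ} (hs : 1 < s) :
    Summable (idealTerm K χ s) :=
  Summable.of_norm_bounded (H761.summable_normPow K hs) (norm_idealTerm_le K χ s)

lemma idealTerm_bot {m : ℕ} (χ : DirichletCharacter ℂ m) {s : ℝ} (hs : s ≠ 0) :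
    idealTerm K χ s ⊥ = 0 := by
  unfold idealTerm
  simp [Real.zero_rpow (neg_ne_zero.mpr hs)]

/-- `idealL` as a sum over all ideals. -/
lemma idealL_eq_tsum {m : ℕ} (χ : DirichletCharacter ℂ m) {s : ℝ} (hs : s ≠ 0) :
    idealL K χ s = ∑' I : Ideal (𝓞 K), idealTerm K χ s I := by
  unfold idealL
  have h1 : ∑' I : (Ideal (𝓞 K))⁰, χ ((absNorm (I : Ideal (𝓞 K)) : ℕ) : ZMod m) *
      (((absNorm (I : Ideal (𝓞 K)) : ℝ) ^ (-s) : ℝ) : ℂ)
      = ∑' I : ((Ideal (𝓞 K))⁰ : Set (Ideal (𝓞 K))), idealTerm K χ s I := rfl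
  rw [h1, tsum_subtype]
  refine tsum_congr fun I => ?_
  by_cases hI : I ∈ ((Ideal (𝓞 K))⁰ : Set (Ideal (𝓞 K)))
  · rw [Set.indicator_of_mem hI]
  · rw [Set.indicator_of_notMem hI]
    have hI' : I = ⊥ := by
      by_contra hne
      exact hI (mem_nonZeroDivisors_iff_ne_zero.mpr hne)
    rw [hI', idealTerm_bot K χ hs]

/-- The sum of the summands over the ideals of norm `n`. -/
lemma tsum_fiber_idealTerm {m : ℕ} (χ : DirichletCharacter ℂ m) (s : ℝ) (n : ℕ) :
    ∑' I : {I : Ideal (𝓞 K) // absNorm I = n}, idealTerm K χ s I.1 =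
      χ ((n : ℕ) : ZMod m) * ((Nat.card {I : Ideal (𝓞 K) // absNorm I = n} : ℂ) *
        (((n : ℝ) ^ (-s) : ℝ) : ℂ)) := by
  have hfin : Finite {I : Ideal (𝓞 K) // absNorm I = n} :=
    (Ideal.finite_setOfPred_absNorm_eq n).to_subtype
  have : Fintype {I : Ideal (𝓞 K) // absNorm I = n} := Fintype.ofFinite _
  rw [tsum_fintype]
  have h : ∀ I : {I : Ideal (𝓞 K) // absNorm I = n},
      idealTerm K χ s I.1 = χ ((n : ℕ) : ZMod m) * (((n : ℝ) ^ (-s) : ℝ) : ℂ) := by
    intro I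
    simp only [idealTerm, I.2]
  simp only [h, Finset.sum_const, Finset.card_univ, nsmul_eq_mul, Nat.card_eq_fintype_card]
  ring

/-- `idealL` as a sum over the norms. -/
lemma idealL_eq_tsum_nat {m : ℕ} (χ : DirichletCharacter ℂ m) {s : ℝ} (hs : 1 < s) :
    idealL K χ s = ∑' n : ℕ, χ ((n : ℕ) : ZMod m) *
      ((Nat.card {I : Ideal (𝓞 K) // absNorm I = n} : ℂ) * (((n : ℝ) ^ (-s) : ℝ) : ℂ)) := by
  have hsum := summable_idealTerm K χ hs
  have hsum' : Summable (fun x : Σ n : ℕ, {I : Ideal (𝓞 K) // absNorm I = n} =>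
      idealTerm K χ s x.2.1) :=
    ((Equiv.sigmaFiberEquiv (fun I : Ideal (𝓞 K) => absNorm I)).summable_iff
      (f := idealTerm K χ s)).mpr hsum
  calc idealL K χ s
      = ∑' I : Ideal (𝓞 K), idealTerm K χ s I := idealL_eq_tsum K χ (by linarith)
    _ = ∑' x : Σ n : ℕ, {I : Ideal (𝓞 K) // absNorm I = n}, idealTerm K χ s x.2.1 :=
        ((Equiv.sigmaFiberEquiv (fun I : Ideal (𝓞 K) => absNorm I)).tsum_eq
          (idealTerm K χ s)).symm
    _ = ∑' n : ℕ, ∑' I : {I : Ideal (𝓞 K) // absNorm I = n}, idealTerm K χ s I.1 :=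
        hsum'.tsum_sigma
    _ = _ := tsum_congr fun n => tsum_fiber_idealTerm K χ s n

/-- The `LSeries` of `n ↦ χ n * idealCount n` at a real `s > 1` is `idealL`. -/
theorem lseries_eq_idealL {m : ℕ} (χ : DirichletCharacter ℂ m) {s : ℝ} (hs : 1 < s) :
    LSeries (fun n => χ (n : ZMod m) *
      (Nat.card {I : Ideal (𝓞 K) // absNorm I = n} : ℂ)) (s : ℂ) = idealL K χ s := by
  rw [idealL_eq_tsum_nat K χ hs, LSeries]
  refine tsum_congr fun n => ?_
  rcases eq_or_ne n 0 with rfl | hn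
  · have : (0 : ℝ) ^ (-s) = 0 := Real.zero_rpow (by linarith)
    simp [this]
  · rw [LSeries.term_of_ne_zero hn, Complex.ofReal_cpow (Nat.cast_nonneg n), Complex.ofReal_neg,
      Complex.cpow_neg]
    simp only [Complex.ofReal_natCast]
    rw [div_eq_mul_inv]
    ring

/-- A function agreeing on `(1, 2]` with a function continuous on `[1, 2]` has a limit at `1⁺`. -/
theorem tendsto_of_continuousOn_Icc {f G : ℝ → ℂ} (hG : ContinuousOn G (Set.Icc 1 2))
    (hfG : ∀ s : ℝ, 1 < s → s ≤ 2 → G s = f s) :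
    Tendsto f (𝓝[>] 1) (𝓝 (G 1)) := by
  have h1 : Tendsto G (𝓝[Set.Icc 1 2] 1) (𝓝 (G 1)) := hG 1 ⟨le_rfl, by norm_num⟩
  have h2 : 𝓝[Set.Ioc 1 2] (1:ℝ) = 𝓝[>] 1 := nhdsWithin_Ioc_eq_nhdsGT (by norm_num)
  have h3 : Tendsto G (𝓝[Set.Ioc 1 2] 1) (𝓝 (G 1)) :=
    h1.mono_left (nhdsWithin_mono _ Set.Ioc_subset_Icc_self)
  rw [h2] at h3
  refine h3.congr' ?_
  have hev : ∀ᶠ s in 𝓝[>] (1:ℝ), s ≤ 2 :=
    mem_nhdsWithin_of_mem_nhds (Iic_mem_nhds (by norm_num))
  filter_upwards [self_mem_nhdsWithin, hev] with s hs hs2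
  exact hfG s hs hs2

end

/-- **AN in the frozen `Spec` shape**, from the ideal-indexed statement. -/
theorem dirichletLimit_of_tendsto_idealL
    (h : ∀ (F : Type) [Field F] [NumberField F] (m : ℕ) [NeZero m] (χ : DirichletCharacter ℂ m)
      (I₀ : (Ideal (𝓞 F))⁰),
      χ ((absNorm (I₀ : Ideal (𝓞 F)) : ℕ) : ZMod m) ≠ 0 →
      χ ((absNorm (I₀ : Ideal (𝓞 F)) : ℕ) : ZMod m) ≠ 1 →
      ∃ c : ℂ, Tendsto (fun s : ℝ => idealL F χ s) (𝓝[>] 1) (𝓝 c)) :
    Spec.DirichletLimitStatement := by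
  intro F _ _ m _ χ hI
  obtain ⟨I, hI0, hI1⟩ := hI
  have hIne : I ≠ ⊥ := by
    rintro rfl
    rw [Ideal.absNorm_bot] at hI0 hI1
    by_cases hm : m = 1
    · subst hm
      apply hI1
      have : ((0 : ℕ) : ZMod 1) = 1 := Subsingleton.elim _ _
      rw [this, map_one]
    · apply hI0
      have hnu : ¬ IsUnit (((0 : ℕ) : ZMod m)) := by
        have : Fact (1 < m) := ⟨by
          have := NeZero.ne m
          omega⟩
        simp
      exact χ.map_nonunit hnu
  obtain ⟨c, hc⟩ := h F m χ ⟨I, mem_nonZeroDivisors_iff_ne_zero.mpr hIne⟩ hI0 hI1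
  refine ⟨c, hc.congr' ?_⟩
  filter_upwards [self_mem_nhdsWithin] with s hs
  have hs1 : (1:ℝ) < s := hs
  exact (lseries_eq_idealL F χ hs1).symm

/-- **AN in the frozen `Spec` shape**, from a continuous extension to `[1, 2]`. -/
theorem dirichletLimit_of_continuousOn
    (h : ∀ (F : Type) [Field F] [NumberField F] (m : ℕ) [NeZero m] (χ : DirichletCharacter ℂ m)
      (I₀ : (Ideal (𝓞 F))⁰),
      χ ((absNorm (I₀ : Ideal (𝓞 F)) : ℕ) : ZMod m) ≠ 0 →
      χ ((absNorm (I₀ : Ideal (𝓞 F)) : ℕ) : ZMod m) ≠ 1 →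
      ∃ G : ℝ → ℂ, ContinuousOn G (Set.Icc 1 2) ∧
        ∀ s : ℝ, 1 < s → s ≤ 2 → G s = idealL F χ s) :
    Spec.DirichletLimitStatement :=
  dirichletLimit_of_tendsto_idealL fun F _ _ m _ χ I₀ h0 h1 => by
    obtain ⟨G, hG, hGf⟩ := h F m χ I₀ h0 h1
    exact ⟨G 1, tendsto_of_continuousOn_Icc hG hGf⟩

end Fermat.Agent.Lib.Cheb.H941

end
-- ===== PACK-END Lib/Cheb/H941/DirichletLimitBridge.lean

-- ===== PACK-BEGIN Lib/Cheb/H44/DirichletLimit.lean
section



/-!
# CHEB, Tier 2, piece (AN): `Spec.DirichletLimitStatement`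

For a number field `F` and a Dirichlet character `χ` mod `m` with `χ(N I) ∉ {0, 1}` for some
ideal `I`, the series `L_F(s, χ ∘ N) = ∑_I χ(N I) N(I)^(-s)` has a limit as `s → 1⁺`.

Assembly: `NormL.exists_continuousOn_normL` (helper44: multiplier trick; blocks KEY/DS by
helper44, ORB by helper941, CLS by helper584, COP by helper704, tent toolkit by helper74) and the
bridge to the `LSeries` form of `Spec` by helper941.
-/

namespace Fermat.Agent.Lib.Cheb.H44

open NumberField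

/-- **(AN)** in the frozen `Spec` shape. -/
theorem dirichletLimit : Fermat.Agent.Lib.Cheb.Spec.DirichletLimitStatement :=
  Fermat.Agent.Lib.Cheb.H941.dirichletLimit_of_continuousOn fun F _ _ _ _ χ I₀ h0 h1 =>
    Fermat.Agent.Lib.NormL.exists_continuousOn_normL F χ I₀ h0 h1

end Fermat.Agent.Lib.Cheb.H44

end
-- ===== PACK-END Lib/Cheb/H44/DirichletLimit.lean

-- ===== PACK-BEGIN Lib/Cheb/Chebotarev.lean
section



/-!
# CHEB, Tier 2 END: exact qualitative Chebotarev over `ℚ`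

* `Fermat.Agent.Lib.Cheb.chebFinite : Spec.ChebFiniteStatement` — for a Galois number field `L`,
  every `σ ∈ Gal(L/ℚ)` is an arithmetic Frobenius at a prime `P` of `𝓞 L` with trivial inertia,
  above a prime number outside any given finite set.
* `Fermat.Agent.Lib.Cheb.chebotarev : Spec.ChebotarevStatement` — for every finite extension
  `E ⊆ ℚ̄`, every `σ ∈ Gal(ℚ̄/ℚ)` and every finite set `S` there are a prime `ℓ ∉ S`, a valuation
  subring `A` of `ℚ̄` over `ℓ` and a Frobenius `τ` at `A` (Prelude's `IsFrobeniusAt`) such that the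
  inertia group of `A` acts trivially on `E` and `τ = σ` on `E`.

Assembled (row-lead helper56) from the analytic core AN (`H44.dirichletLimit`, helper44 and the
NormL squad), CYC (`H221`, helper221), CROSS (`H223`, helper223), the bridge (`H476`, helper476)
and Tier 1.  Unconditional; no class field theory.
-/

set_option autoImplicit false

namespace Fermat.Agent.Lib.Cheb

/-- The cyclotomic case. -/
theorem cycStatement : Spec.CycStatement :=
  H221.cyc_of_dirichletLimit H44.dirichletLimit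

/-- **Qualitative Chebotarev, finite level.** -/
theorem chebFinite : Spec.ChebFiniteStatement :=
  H221.chebFinite_of_dirichletLimit H44.dirichletLimit

/-- **Qualitative Chebotarev over `ℚ̄`.** -/
theorem chebotarev : Spec.ChebotarevStatement :=
  H221.chebotarev_of_dirichletLimit H44.dirichletLimit

end Fermat.Agent.Lib.Cheb

end
-- ===== PACK-END Lib/Cheb/Chebotarev.lean

-- ===== PACK-BEGIN Lib/Frob/Interfaces.lean
section


/-!
# Shared library `Frob` — second-level FROZEN interfaces (row S52, row-lead helper472)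

`FrobRelation ⇐ FrobRelationFin ∧ ReductionData`   (proved in `Glue.lean`).

* `FrobRelationFin` (piece A2): over `𝔽_ℓ`, `ℓ ≥ 5`:  `Φ² − a·Φ + ℓ = 0` on `E(k)` for every field
  `k ⊇ 𝔽_ℓ`, where `Φ` is the `ℓ`-power Frobenius on coordinates and `a = ℓ + 1 − #E(𝔽_ℓ)`.
* `ReductionData` (piece A1): reduction of prime-to-`ℓ` torsion at a valuation subring of `ℚ̄` above a
  good prime `ℓ` is an injective additive map into the points of the reduced curve over the residue
  field, intertwining a Frobenius element with `Φ`.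
No `sorry` in this file (definitions only).
-/

set_option autoImplicit false

open WeierstrassCurve WeierstrassCurve.Affine WeierstrassCurve.Affine.Point

namespace Fermat.Agent.Lib.Frob

/-- The `ℓ`-power Frobenius endomorphism of the group `E(k)`, `k ⊇ 𝔽_ℓ`. -/
noncomputable def frobPt (ℓ : ℕ) [Fact ℓ.Prime] (E : WeierstrassCurve (ZMod ℓ))
    (k : Type) [Field k] [Algebra (ZMod ℓ) k] [DecidableEq k] :
    (E⁄k).Point →+ (E⁄k).Point :=
  Point.map (W' := E) (FiniteField.frobeniusAlgHom (ZMod ℓ) k)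

/-- **Piece A2 (Hasse–Weil relation over `𝔽_ℓ`).** -/
def FrobRelationFin : Prop :=
  ∀ (ℓ : ℕ) [Fact ℓ.Prime], 5 ≤ ℓ → ∀ (E : WeierstrassCurve (ZMod ℓ)), E.Δ ≠ 0 →
    ∀ (k : Type) [Field k] [Algebra (ZMod ℓ) k] [DecidableEq k] (P : (E⁄k).Point),
      frobPt ℓ E k (frobPt ℓ E k P) - E.traceOfFrobenius • frobPt ℓ E k P + (ℓ : ℤ) • P = 0

/-- **Piece A1 (reduction of torsion).**  For `ℓ` prime, `W` good at `ℓ`, `A` a valuation subring of
`ℚ̄` over `ℓ`, `σ` a Frobenius at `A`, `n > 0` prime to `ℓ`: there are a field `k` of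
characteristic `ℓ` and an injective additive map `red : W[n](ℚ̄) → (W mod ℓ)(k)` with
`red (σ • P) = Φ (red P)`. -/
def ReductionData : Prop :=
  ∀ (W : WeierstrassCurve ℤ) (ℓ : ℕ) [Fact ℓ.Prime], W.IsGoodPrimeFor ℓ →
    ∀ (A : ValuationSubring Qb) (σ : Qb ≃ₐ[ℚ] Qb), A.LiesOverPrime ℓ → A.IsFrobeniusAt σ ℓ →
      ∀ (n : ℕ), 0 < n → ¬ ℓ ∣ n →
        ∃ (k : Type) (_ : Field k) (_ : Algebra (ZMod ℓ) k) (_ : DecidableEq k)
          (red : Submodule.torsionBy ℤ (Pts W) n →+ ((W.reductionMod ℓ)⁄k).Point),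
          Function.Injective red ∧
          ∀ P : Submodule.torsionBy ℤ (Pts W) n,
            red (σ • P) = frobPt ℓ (W.reductionMod ℓ) k (red P)

end Fermat.Agent.Lib.Frob

end
-- ===== PACK-END Lib/Frob/Interfaces.lean

-- ===== PACK-BEGIN Lib/Frob/Glue.lean
section


/-!
# `FrobRelation ⇐ FrobRelationFin ∧ ReductionData`  (row-lead glue, no `sorry`)
-/

set_option autoImplicit false

open WeierstrassCurve WeierstrassCurve.Affine WeierstrassCurve.Affine.Point

namespace Fermat.Agent.Lib.Frob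

theorem reductionMod_Δ_ne_zero (W : WeierstrassCurve ℤ) (ℓ : ℕ) (h : W.IsGoodPrimeFor ℓ) :
    (W.reductionMod ℓ).Δ ≠ 0 := by
  unfold WeierstrassCurve.reductionMod
  rw [WeierstrassCurve.map_Δ]
  intro h0
  apply h
  have := (ZMod.intCast_zmod_eq_zero_iff_dvd W.Δ ℓ).mp (by simpa using h0)
  exact this

theorem coe_galois_smul_torsion (W : WeierstrassCurve ℤ) (n : ℕ) (σ : Qb ≃ₐ[ℚ] Qb)
    (P : Submodule.torsionBy ℤ (Pts W) n) :
    ((σ • P : Submodule.torsionBy ℤ (Pts W) n) : Pts W) = σ • (P : Pts W) := rfl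

theorem frobRelation_of_parts (hFin : FrobRelationFin) (hRed : ReductionData) : FrobRelation := by
  intro W ℓ hℓ h5 hgood A σ hA hσ n hn hℓn P hP
  have : Fact ℓ.Prime := ⟨hℓ⟩
  obtain ⟨k, hk1, hk2, hk3, red, hinj, hcomm⟩ := hRed W ℓ hgood A σ hA hσ n hn hℓn
  have hmem : P ∈ Submodule.torsionBy ℤ (Pts W) n := by
    rw [Submodule.mem_torsionBy_iff]
    rw [← hP]
    exact (natCast_zsmul P n)
  set P' : Submodule.torsionBy ℤ (Pts W) n := ⟨P, hmem⟩ with hP'
  have key : σ • σ • P' - W.apOfModel ℓ • σ • P' + (ℓ : ℤ) • P' = 0 := by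
    apply hinj
    rw [_root_.map_zero, map_add, map_sub, map_zsmul, map_zsmul, hcomm, hcomm]
    exact hFin ℓ h5 (W.reductionMod ℓ) (reductionMod_Δ_ne_zero W ℓ hgood) k (red P')
  have h2 := congrArg Subtype.val key
  simp only [Submodule.coe_add, Submodule.coe_sub, Submodule.coe_smul_of_tower, 
    coe_galois_smul_torsion, ZeroMemClass.coe_zero] at h2
  exact h2

end Fermat.Agent.Lib.Frob

end
-- ===== PACK-END Lib/Frob/Glue.lean

-- ===== PACK-BEGIN Lib/Frob/A1/H290/Main.lean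
section



/-!
# Piece A1 of row S52: `ReductionData` (helper290)

For `W : WeierstrassCurve ℤ`, a prime `ℓ ∤ Δ(W)`, a valuation subring `A` of `ℚ̄` over `ℓ` and a
Frobenius element `σ` at `A`: the reduction map of `Fermat.Agent.Lib.Red.H290` with
`k = κ_A` (the residue field of `A`) restricted to the `n`-torsion (`ℓ ∤ n`) is additive, injective
and intertwines `σ` with the `ℓ`-power Frobenius.
-/

set_option autoImplicit false
set_option linter.style.haveILetI false

open WeierstrassCurve WeierstrassCurve.Affine WeierstrassCurve.Affine.Point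

namespace Fermat.Agent.Lib.Frob.A1.H290

open Fermat.Agent.Lib.Red.H290
open Fermat.Agent.Lib.Frob

variable (A : ValuationSubring Qb)

/-- The residue field of `A`. -/
abbrev Res : Type := IsLocalRing.ResidueField A

lemma rd_intCast {K : Type*} [Field K] {κ : Type*} [Field κ] {V : ValuationSubring K}
    {φ : V →+* κ} (m : ℤ) : rd V φ (m : K) = (m : κ) := by
  rw [rd_of_mem (intCast_mem V m)]
  have : (⟨(m : K), intCast_mem V m⟩ : V) = (m : V) := rfl
  rw [this, map_intCast]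

section char

variable {A} {ℓ : ℕ} [hℓ : Fact ℓ.Prime] (hA : A.LiesOverPrime ℓ)
include hA

omit hℓ in
lemma natCast_res_eq_zero : ((ℓ : ℕ) : Res A) = 0 := by
  have h1 : A.valuation ((ℓ : ℕ) : Qb) < 1 := (A.mem_nonunits_iff).mp hA
  have h2 := rd_eq_zero_of_lt (kerMax_residue A) h1
  rwa [rd_natCast] at h2

lemma charP_res : CharP (Res A) ℓ := by
  obtain ⟨p, hp⟩ := CharP.exists (Res A)
  have hdvd : p ∣ ℓ := (CharP.cast_eq_zero_iff (Res A) p ℓ).mp (natCast_res_eq_zero hA)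
  have hp1 : p ≠ 1 := CharP.char_ne_one (Res A) p
  have : p = ℓ := (Nat.prime_dvd_prime_iff_eq
    ((Nat.dvd_prime hℓ.out).mp hdvd |>.resolve_left hp1 ▸ hℓ.out) hℓ.out).mp hdvd
  exact this ▸ hp

lemma val_natCast_eq_one {n : ℕ} (hn : ¬ ℓ ∣ n) : A.valuation (n : Qb) = 1 := by
  have := charP_res hA
  have hne : ((n : ℕ) : Res A) ≠ 0 := by
    intro h0
    exact hn ((CharP.cast_eq_zero_iff (Res A) ℓ n).mp h0)
  rw [← rd_natCast (A := A) (φ := IsLocalRing.residue A)] at hne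
  exact (rd_ne_zero_iff (kerMax_residue A) (natCast_mem A n)).mp hne

end char

section curve

variable {A} {ℓ : ℕ} [Fact ℓ.Prime] [Algebra (ZMod ℓ) (Res A)]

/-- The reduction of the `ℚ̄`-curve of `W` is the base change of `W mod ℓ`. -/
lemma isRedOf_int (W : WeierstrassCurve ℤ) :
    IsRedOf A (IsLocalRing.residue A) ((W.map (Int.castRingHom ℚ))⁄Qb)
      ((W.reductionMod ℓ)⁄(Res A)) := by
  have e : ∀ m : ℤ, algebraMap ℚ Qb (Int.castRingHom ℚ m) = (m : Qb) := fun m => by simp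
  have e' : ∀ m : ℤ, algebraMap (ZMod ℓ) (Res A) (Int.castRingHom (ZMod ℓ) m) = (m : Res A) :=
    fun m => by simp
  have hm : ∀ m : ℤ, algebraMap ℚ Qb (Int.castRingHom ℚ m) ∈ A := fun m => by
    rw [e]; exact intCast_mem A m
  have hr : ∀ m : ℤ, rd A (IsLocalRing.residue A) (algebraMap ℚ Qb (Int.castRingHom ℚ m)) =
      algebraMap (ZMod ℓ) (Res A) (Int.castRingHom (ZMod ℓ) m) := fun m => by
    rw [e, e', rd_intCast]
  exact ⟨hm _, hm _, hm _, hm _, hm _, hr _, hr _, hr _, hr _, hr _⟩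

lemma Δ_red_ne_zero [CharP (Res A) ℓ] (W : WeierstrassCurve ℤ) (hgood : W.IsGoodPrimeFor ℓ) :
    ((W.reductionMod ℓ)⁄(Res A)).Δ ≠ 0 := by
  have h1 : ((W.reductionMod ℓ)⁄(Res A)).Δ =
      algebraMap (ZMod ℓ) (Res A) (Int.castRingHom (ZMod ℓ) W.Δ) := by
    show ((W.map (Int.castRingHom (ZMod ℓ))).map (algebraMap (ZMod ℓ) (Res A))).Δ = _
    rw [WeierstrassCurve.map_Δ, WeierstrassCurve.map_Δ]
  rw [h1]
  have e' : algebraMap (ZMod ℓ) (Res A) (Int.castRingHom (ZMod ℓ) W.Δ) = (W.Δ : Res A) := by simp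
  rw [e']
  intro h0
  exact hgood ((CharP.intCast_eq_zero_iff (Res A) ℓ W.Δ).mp h0)

end curve

section frob

variable {A} {ℓ : ℕ} {σ : Qb ≃ₐ[ℚ] Qb} (hσ : A.IsFrobeniusAt σ ℓ)
include hσ

lemma frob_mem {x : Qb} (hx : x ∈ A) : σ x ∈ A := by
  obtain ⟨hd, -⟩ := hσ
  exact ((⟨σ, hd⟩ : A.decompositionSubgroup ℚ) • (⟨x, hx⟩ : A)).2

lemma frob_mem_iff (x : Qb) : σ x ∈ A ↔ x ∈ A := by
  refine ⟨fun h => ?_, frob_mem hσ⟩
  obtain ⟨hd, -⟩ := hσ
  have := ((⟨σ, hd⟩ : A.decompositionSubgroup ℚ)⁻¹ • (⟨σ x, h⟩ : A)).2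
  have e : (((⟨σ, hd⟩ : A.decompositionSubgroup ℚ)⁻¹ • (⟨σ x, h⟩ : A) : A) : Qb) = x := by
    show σ⁻¹ (σ x) = x
    exact σ.symm_apply_apply x
  rwa [e] at this

lemma rd_frob {x : Qb} (hx : x ∈ A) :
    rd A (IsLocalRing.residue A) (σ x) = rd A (IsLocalRing.residue A) x ^ ℓ := by
  have hx' := frob_mem hσ hx
  obtain ⟨hd, hF⟩ := hσ
  rw [rd_of_mem hx', rd_of_mem hx, ← hF, ← IsLocalRing.ResidueField.residue_smul]
  rfl

end frob

/-- **A1.** -/
theorem reductionData : ReductionData := by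
  intro W ℓ _ hgood A σ hA hσ n hn hℓn
  letI : DecidableEq (Res A) := Classical.decEq _
  haveI : CharP (Res A) ℓ := charP_res hA
  letI : Algebra (ZMod ℓ) (Res A) := ZMod.algebra _ ℓ
  have h := isRedOf_int (A := A) (ℓ := ℓ) W
  have hφ := kerMax_residue A
  have hΔ := Δ_red_ne_zero (A := A) W hgood
  have hn1 : A.valuation (n : Qb) = 1 := val_natCast_eq_one hA hℓn
  refine ⟨Res A, inferInstance, inferInstance, inferInstance,
    (redHom h hφ hΔ).comp (Submodule.torsionBy ℤ (Pts W) n).subtype.toAddMonoidHom, ?_, ?_⟩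
  · intro P Q hPQ
    have hP : n • (P : Pts W) = 0 := by
      have := (Submodule.mem_torsionBy_iff _ _).mp P.2
      rwa [natCast_zsmul] at this
    have hQ : n • (Q : Pts W) = 0 := by
      have := (Submodule.mem_torsionBy_iff _ _).mp Q.2
      rwa [natCast_zsmul] at this
    exact Subtype.ext (eq_of_red_eq_of_nsmul h hφ hΔ n hn1 _ _ hP hQ hPQ)
  · intro P
    show red h hΔ (σ • (P : Pts W)) = frobPt ℓ (W.reductionMod ℓ) (Res A) (red h hΔ (P : Pts W))
    rcases hP : (P : Pts W) with _ | ⟨x, y, hxy⟩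
    · rfl
    · rw [WeierstrassCurve.Affine.Point.algEquiv_smul_def, Point.map_some]
      by_cases hx : x ∈ A
      · have hy : y ∈ A := y_mem_of_x_mem h hxy.1 hx
        rw [red_some_of_mem h hΔ (x := σ.toAlgHom x) (y := σ.toAlgHom y) _ (frob_mem hσ hx),
          red_some_of_mem h hΔ hxy hx]
        simp only [frobPt, Point.map_some]
        congr 1
        · refine (rd_frob hσ hx).trans ?_
          simp [FiniteField.frobeniusAlgHom, ZMod.card]
        · refine (rd_frob hσ hy).trans ?_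
          simp [FiniteField.frobeniusAlgHom, ZMod.card]
      · rw [red_some_of_not_mem h hΔ (x := σ.toAlgHom x) (y := σ.toAlgHom y) _
            (fun h' => hx ((frob_mem_iff hσ x).mp h')),
          red_some_of_not_mem h hΔ hxy hx]
        exact (_root_.map_zero _).symm

end Fermat.Agent.Lib.Frob.A1.H290

end
-- ===== PACK-END Lib/Frob/A1/H290/Main.lean

-- ===== PACK-BEGIN Lib/Frob/A1/Main.lean
section



/-!
# Shared library `Frob`, piece A1: the deliverable `reductionData : ReductionData`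

Proof: `Fermat/Agent/Lib/Frob/A1/H290/Main.lean` (helper290), an instance of the general reduction
homomorphism `Fermat.Agent.Lib.Red.H290.redHom` with `k` the residue field of `A`.
-/

set_option autoImplicit false

namespace Fermat.Agent.Lib.Frob

/-- **A1**: reduction of prime-to-`ℓ` torsion at a valuation subring of `ℚ̄` over a good prime. -/
theorem reductionData : ReductionData := A1.H290.reductionData

end Fermat.Agent.Lib.Frob

end
-- ===== PACK-END Lib/Frob/A1/Main.lean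

-- ===== PACK-BEGIN Lib/FrobRel/H230Frob.lean
section


/-!
# Frobenius relation: from the generic point to all points (helper230)

`F` a finite field with `q` elements, `W` a Weierstrass curve over `F` with `Δ ≠ 0`.
For a field `L` over `F`, `frobPt W L` is the `q`-power Frobenius on `(W⁄L).Point` and
`frobPsi W L a = Φ² - a Φ + q`.

Main result `frobPsi_eq_zero_of_generic`: if `frobPsi` sends the generic point of `W` over the
function field of `W⁄κ` (`κ` algebraically closed) to a constant point, then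
`frobPsi W κ a T = 0` for all `T : (W⁄κ).Point`; and `frobPsi_eq_zero` transports this to all
fields `L` over `F`.
-/

open WeierstrassCurve Polynomial
open scoped Polynomial.Bivariate WeierstrassCurve.Affine

namespace Fermat.Agent.Lib.FrobRel.H230

universe u v w

variable {F : Type u} [Field F] [Fintype F] (W : WeierstrassCurve F)

section Defs

variable (L : Type v) [Field L] [Algebra F L] [DecidableEq L]

/-- The `#F`-power Frobenius endomorphism of the group of `L`-points of `W`. -/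
noncomputable def frobPt : (W⁄L).Point →+ (W⁄L).Point :=
  Affine.Point.map (W' := W) (S := F) (FiniteField.frobeniusAlgHom F L)

/-- `Φ² - a Φ + #F` on the group of `L`-points of `W`. -/
noncomputable def frobPsi (a : ℤ) : (W⁄L).Point →+ (W⁄L).Point :=
  (frobPt W L).comp (frobPt W L) - a • frobPt W L
    + (Fintype.card F : ℤ) • AddMonoidHom.id (W⁄L).Point

lemma frobPsi_apply (a : ℤ) (P : (W⁄L).Point) :
    frobPsi W L a P = frobPt W L (frobPt W L P) - a • frobPt W L P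
      + (Fintype.card F : ℤ) • P :=
  rfl

lemma frobPt_zero : frobPt W L 0 = 0 := map_zero _

lemma frobPt_some {x y : L} (h : (W⁄L).Nonsingular x y) :
    frobPt W L (Affine.Point.some x y h)
      = Affine.Point.some (x ^ Fintype.card F) (y ^ Fintype.card F)
          ((Affine.baseChange_nonsingular (W := W) (f := FiniteField.frobeniusAlgHom F L)
            (FiniteField.frobeniusAlgHom F L).injective x y).mpr h) :=
  rfl

end Defs

section Naturality

variable {L : Type v} [Field L] [Algebra F L] [DecidableEq L]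
variable {L' : Type w} [Field L'] [Algebra F L'] [DecidableEq L']

/-- Frobenius commutes with `Point.map`. -/
lemma frobPt_map (g : L →ₐ[F] L') (P : (W⁄L).Point) :
    frobPt W L' (Affine.Point.map (W' := W) g P) = Affine.Point.map (W' := W) g (frobPt W L P) := by
  rw [frobPt, frobPt, Affine.Point.map_map, Affine.Point.map_map]
  have hcomp : (FiniteField.frobeniusAlgHom F L').comp g
      = g.comp (FiniteField.frobeniusAlgHom F L) := by
    ext x
    simp [FiniteField.coe_frobeniusAlgHom]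
  rw [hcomp]

/-- `Φ² - a Φ + q` commutes with `Point.map`. -/
lemma frobPsi_map (a : ℤ) (g : L →ₐ[F] L') (P : (W⁄L).Point) :
    frobPsi W L' a (Affine.Point.map (W' := W) g P)
      = Affine.Point.map (W' := W) g (frobPsi W L a P) := by
  simp only [frobPsi_apply, frobPt_map, map_add, map_sub, map_zsmul]

end Naturality

/-- `Point.map` only depends on the underlying function of the algebra homomorphism. -/
lemma map_congr_fun {R : Type*} {S S' : Type*} {L L' : Type*} [CommRing R] [CommRing S]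
    [CommRing S'] [Field L] [Field L'] {W' : WeierstrassCurve.Affine R} [DecidableEq L]
    [DecidableEq L'] [Algebra R S] [Algebra R L] [Algebra S L] [IsScalarTower R S L]
    [Algebra R L'] [Algebra S L'] [IsScalarTower R S L'] [Algebra R S'] [Algebra S' L]
    [IsScalarTower R S' L] [Algebra S' L'] [IsScalarTower R S' L']
    (f : L →ₐ[S] L') (f' : L →ₐ[S'] L') (hf : ∀ x, f x = f' x) (P : (W'⁄L).Point) :
    Affine.Point.map (W' := W') f P = Affine.Point.map (W' := W') f' P := by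
  rcases P with _ | ⟨x, y, h⟩
  · rfl
  · simp only [Affine.Point.map_some, hf]

omit [Fintype F] in
lemma baseChange_Δ_ne_zero' (hΔ : W.Δ ≠ 0) (L : Type v) [Field L] [Algebra F L] :
    (W⁄L).Δ ≠ 0 := by
  show (WeierstrassCurve.map W (algebraMap F L)).Δ ≠ 0
  rw [WeierstrassCurve.map_Δ]
  exact (map_ne_zero_iff _ (algebraMap F L).injective).mpr hΔ

section Main

variable (κ : Type v) [Field κ] [Algebra F κ] [IsAlgClosed κ] [DecidableEq κ]
  [DecidableEq (FF W κ)]

/-- **Frobenius relation, generic to all points.** If `Φ² - a Φ + q` sends the generic point of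
`W` over the function field of `W⁄κ` to a constant point, then it vanishes on all `κ`-points. -/
theorem frobPsi_eq_zero_of_generic (hΔ : (W⁄κ).Δ ≠ 0) (a : ℤ) (C : (W⁄κ).Point)
    (hC : frobPsi W (FF W κ) a (genericPoint W κ hΔ) = bc W κ C) (T : (W⁄κ).Point) :
    frobPsi W κ a T = 0 := by
  refine eq_zero_of_generic_const W κ hΔ (frobPsi W (FF W κ) a) (frobPsi W κ a) ?_ ?_ C hC T
  · intro σ P
    rw [map_congr_fun σ (σ.restrictScalars F) (fun _ => rfl), frobPsi_map,
      map_congr_fun σ (σ.restrictScalars F) (fun _ => rfl)]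
  · intro T
    show frobPsi W (FF W κ) a (Affine.Point.map (W' := W) (Algebra.ofId κ (FF W κ)) T)
      = Affine.Point.map (W' := W) (Algebra.ofId κ (FF W κ)) (frobPsi W κ a T)
    rw [map_congr_fun (Algebra.ofId κ (FF W κ)) ((Algebra.ofId κ (FF W κ)).restrictScalars F)
      (fun _ => rfl), frobPsi_map,
      map_congr_fun (Algebra.ofId κ (FF W κ)) ((Algebra.ofId κ (FF W κ)).restrictScalars F)
      (fun _ => rfl)]

end Main

section Final

/-- A point is *constant* if it is zero or has `x`-coordinate algebraic over `F`. -/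
def IsConstPt {K : Type v} [Field K] [Algebra F K] (P : (W⁄K).Point) : Prop :=
  P = 0 ∨ ∃ (x y : K) (h : (W⁄K).Nonsingular x y), P = Affine.Point.some x y h ∧ IsAlgebraic F x

omit [Fintype F] in
lemma isConstPt_baseChange {K : Type v} [Field K] [Algebra F K] [DecidableEq F] [DecidableEq K]
    (C : (W⁄F).Point) : IsConstPt W (Affine.Point.baseChange (W' := W) F K C) := by
  rcases C with _ | ⟨c, d, hcd⟩
  · exact Or.inl rfl
  · exact Or.inr ⟨_, _, _, rfl, isAlgebraic_algebraMap c⟩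

omit [Fintype F] in
/-- Constancy is reflected and preserved by `Point.map`. -/
lemma isConstPt_map_iff {K : Type v} [Field K] [Algebra F K] [DecidableEq K]
    {K' : Type w} [Field K'] [Algebra F K'] [DecidableEq K'] (g : K →ₐ[F] K')
    (P : (W⁄K).Point) : IsConstPt W (Affine.Point.map (W' := W) g P) ↔ IsConstPt W P := by
  rcases P with _ | ⟨x, y, h⟩
  · exact ⟨fun _ => Or.inl rfl, fun _ => Or.inl rfl⟩
  · rw [Affine.Point.map_some]
    constructor
    · rintro (h0 | ⟨x₁, y₁, h₁, he, halg⟩)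
      · exact absurd h0 (Affine.Point.some_ne_zero _)
      · have hx : g x = x₁ := ((Affine.Point.some.injEq ..).mp he).1
        refine Or.inr ⟨x, y, h, rfl, ?_⟩
        rw [← hx] at halg
        exact (isAlgebraic_algHom_iff g g.injective).mp halg
    · rintro (h0 | ⟨x₁, y₁, h₁, he, halg⟩)
      · exact absurd h0 (Affine.Point.some_ne_zero _)
      · have hx : x = x₁ := ((Affine.Point.some.injEq ..).mp he).1
        refine Or.inr ⟨g x, g y, _, rfl, ?_⟩
        rw [← hx] at halg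
        exact halg.algHom g

/-- **Frobenius relation from one generic point.** Let `F` be a finite field with `q` elements,
`W` a Weierstrass curve over `F` with `Δ ≠ 0`, `K` a field over `F` and `P = (x, y)` a point of
`W` over `K` with `x` transcendental over `F`. If `(Φ² - a Φ + q) P` is a constant point
(zero, or with `x`-coordinate algebraic over `F`), then `Φ² - a Φ + q = 0` on `(W⁄L).Point` for
every field `L` over `F`. -/
theorem frobPsi_eq_zero (hΔ : W.Δ ≠ 0) {K : Type v} [Field K] [Algebra F K] [DecidableEq K]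
    {x y : K} (h : (W⁄K).Nonsingular x y) (hx : Transcendental F x) (a : ℤ)
    (hC : IsConstPt W (frobPsi W K a (Affine.Point.some x y h)))
    {L : Type w} [Field L] [Algebra F L] [DecidableEq L] (T : (W⁄L).Point) :
    frobPsi W L a T = 0 := by
  classical
  -- the generic point over the function field of `W⁄F`
  have hΔF : (W⁄F).Δ ≠ 0 := baseChange_Δ_ne_zero' W hΔ F
  have hG : IsConstPt W (frobPsi W (FF W F) a (genericPoint W F hΔF)) := by
    rw [← isConstPt_map_iff W (sigma F h.1 hx), ← frobPsi_map, map_sigma_genericPoint F hΔF h hx]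
    exact hC
  -- the generic point over the function field of `W⁄κ`, `κ` an algebraic closure of `L`
  have hΔκ : (W⁄(AlgebraicClosure L)).Δ ≠ 0 := baseChange_Δ_ne_zero' W hΔ (AlgebraicClosure L)
  have hxκ : Transcendental F (gx W (AlgebraicClosure L)) :=
    (gx_transcendental W (AlgebraicClosure L)).restrictScalars
      (algebraMap F (AlgebraicClosure L)).injective
  have hGκ : IsConstPt W (frobPsi W (FF W (AlgebraicClosure L)) a
      (genericPoint W (AlgebraicClosure L) hΔκ)) := by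
    have hj : Affine.Point.map (W' := W)
        (sigma F (generic_nonsingular W (AlgebraicClosure L) hΔκ).1 hxκ) (genericPoint W F hΔF)
        = genericPoint W (AlgebraicClosure L) hΔκ :=
      map_sigma_genericPoint F hΔF (generic_nonsingular W (AlgebraicClosure L) hΔκ) hxκ
    rw [← hj, frobPsi_map, isConstPt_map_iff]
    exact hG
  obtain ⟨C, hCκ⟩ : ∃ C : (W⁄(AlgebraicClosure L)).Point,
      frobPsi W (FF W (AlgebraicClosure L)) a (genericPoint W (AlgebraicClosure L) hΔκ)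
        = bc W (AlgebraicClosure L) C := by
    rcases hGκ with h0 | ⟨x₁, y₁, h₁, he, halg⟩
    · exact ⟨0, h0.trans (map_zero _).symm⟩
    · have halg' : IsAlgebraic (AlgebraicClosure L) x₁ := halg.extendScalars
        (algebraMap F (AlgebraicClosure L)).injective
      obtain ⟨c, hc⟩ := mem_range_of_isAlgebraic (AlgebraicClosure L) halg'
      obtain ⟨C, hC'⟩ := exists_of_x_const W (AlgebraicClosure L) h₁ c hc
      exact ⟨C, he.trans hC'⟩
  have hκ := frobPsi_eq_zero_of_generic W (AlgebraicClosure L) hΔκ a C hCκ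
  -- descend to `L`
  have hL := hκ (Affine.Point.map (W' := W) (IsScalarTower.toAlgHom F L (AlgebraicClosure L)) T)
  rw [frobPsi_map] at hL
  exact Affine.Point.map_injective (W' := W) (IsScalarTower.toAlgHom F L (AlgebraicClosure L))
    (hL.trans (map_zero _).symm)

/-- Variant of `frobPsi_eq_zero` with the constant point given as an `F`-point. -/
theorem frobPsi_eq_zero' (hΔ : W.Δ ≠ 0) [DecidableEq F] {K : Type v} [Field K] [Algebra F K]
    [DecidableEq K] {x y : K} (h : (W⁄K).Nonsingular x y) (hx : Transcendental F x) (a : ℤ)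
    (C : (W⁄F).Point)
    (hC : frobPsi W K a (Affine.Point.some x y h) = Affine.Point.baseChange (W' := W) F K C)
    {L : Type w} [Field L] [Algebra F L] [DecidableEq L] (T : (W⁄L).Point) :
    frobPsi W L a T = 0 :=
  frobPsi_eq_zero W hΔ h hx a (hC ▸ isConstPt_baseChange W C) T

end Final

end Fermat.Agent.Lib.FrobRel.H230

end
-- ===== PACK-END Lib/FrobRel/H230Frob.lean

-- ===== PACK-BEGIN Lib/Frob/A2/H230/OddPts.lean
section


/-!
# The odd points of a short Weierstrass curve over its function field (helper230)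

`W` a Weierstrass curve over a field `F` with `a₁ = a₃ = 0`, `2 ≠ 0`, `Δ ≠ 0`;
`K = FF W F` its function field, `(gx, gy)` the generic point.

* `tau` : the `F`-algebra endomorphism of `K` with `gx ↦ gx`, `gy ↦ -gy`.
* `oddPts` : the subgroup `{P | Point.map tau P = -P}` of `W(K)`; it contains the generic point
  and is stable under every endomorphism commuting with `Point.map`.
* `exists_ratFunc_of_mem_oddPts` : the `x`-coordinate of an odd point is in the image of
  `RatFunc F` (`jhat`).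
-/

open WeierstrassCurve Polynomial
open scoped Polynomial.Bivariate WeierstrassCurve.Affine

namespace Fermat.Agent.Lib.Frob.A2.H230

open Fermat.Agent.Lib.FrobRel.H230

universe u

variable {F : Type u} [Field F] (W : WeierstrassCurve F)

/-- The function field of `W` over its field of definition. -/
abbrev KK : Type u := FF W F

/-- `F[X] → K`, `X ↦ gx`. -/
noncomputable def jj : F[X] →ₐ[F] KK W := IsScalarTower.toAlgHom F F[X] (KK W)

lemma jj_apply (p : F[X]) : jj W p = algebraMap F[X] (KK W) p := rfl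

lemma jj_X : jj W X = gx W F := (gx_eq_algebraMap_X W F).symm

lemma jj_injective : Function.Injective (jj W) := algebraMap_poly_FF_injective W F

lemma jj_eq_aeval (p : F[X]) : jj W p = Polynomial.aeval (gx W F) p := by
  have : jj W = Polynomial.aeval (gx W F) := by
    apply Polynomial.algHom_ext
    rw [jj_X, aeval_X]
  rw [this]

/-- `RatFunc F → K`, `X ↦ gx`. -/
noncomputable def jhat : RatFunc F →ₐ[F] KK W :=
  IsFractionRing.liftAlgHom (g := jj W) (jj_injective W)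

lemma jhat_algebraMap (p : F[X]) : jhat W (algebraMap F[X] (RatFunc F) p) = jj W p := by
  rw [jhat, IsFractionRing.liftAlgHom_apply, IsFractionRing.lift_algebraMap]
  rfl

lemma jhat_injective : Function.Injective (jhat W) := (jhat W).injective

lemma jhat_div (p r : F[X]) :
    jhat W (algebraMap F[X] (RatFunc F) p / algebraMap F[X] (RatFunc F) r)
      = jj W p / jj W r := by
  rw [map_div₀, jhat_algebraMap, jhat_algebraMap]

lemma jhat_eq_num_div_denom (S : RatFunc F) : jhat W S = jj W S.num / jj W S.denom := by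
  conv_lhs => rw [← RatFunc.num_div_denom S]
  exact jhat_div W _ _

lemma jj_denom_ne_zero (S : RatFunc F) : jj W S.denom ≠ 0 :=
  (map_ne_zero_iff _ (jj_injective W)).mpr S.denom_ne_zero

lemma jhat_C (c : F) : jhat W (RatFunc.C c) = algebraMap F (KK W) c := by
  rw [← RatFunc.algebraMap_eq_C]
  exact (jhat W).commutes c

/-! ### Every element of the function field is `(p + q·y) / r` -/

/-- Every nonzero element of the coordinate ring divides a nonzero polynomial in `X`. -/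
lemma exists_mul_eq_algebraMap (w : CR W F) (hw0 : w ≠ 0) :
    ∃ (wbar : CR W F) (N : F[X]), N ≠ 0 ∧ algebraMap F[X] (CR W F) N = w * wbar := by
  obtain ⟨p', q', rfl⟩ := Affine.CoordinateRing.exists_smul_basis_eq w
  have : Module.Finite F[X] (CR W F) :=
    Module.Finite.of_basis (Affine.CoordinateRing.basis (W⁄F))
  have hN : Algebra.norm F[X] (p' • (1 : CR W F) + q' • Affine.CoordinateRing.mk (W⁄F) Y) ≠ 0 :=
    Algebra.norm_ne_zero_iff.mpr hw0
  have hcoe := Affine.CoordinateRing.coe_norm_smul_basis (W' := W⁄F) p' q'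
  have hfac : Affine.CoordinateRing.mk (W⁄F) (C p' + C q' * Y)
      = p' • (1 : CR W F) + q' • Affine.CoordinateRing.mk (W⁄F) Y := by
    simp only [Affine.CoordinateRing.smul, map_add, map_mul, mul_one]
  refine ⟨Affine.CoordinateRing.mk (W⁄F)
    (C p' + C q' * (-(Y : F[X][Y]) - C (C (W⁄F).a₁ * X + C (W⁄F).a₃))), _, hN, ?_⟩
  have h1 : algebraMap F[X] (CR W F) (Algebra.norm F[X]
      (p' • (1 : CR W F) + q' • Affine.CoordinateRing.mk (W⁄F) Y))
      = Affine.CoordinateRing.mk (W⁄F) ((C p' + C q' * X) *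
            (C p' + C q' * (-(Y : F[X][Y]) - C (C (W⁄F).a₁ * X + C (W⁄F).a₃)))) := hcoe
  rw [h1, map_mul, hfac]

lemma jj_eq_algebraMap_CR (p : F[X]) :
    jj W p = algebraMap (CR W F) (KK W) (algebraMap F[X] (CR W F) p) := by
  rw [jj_apply, IsScalarTower.algebraMap_apply F[X] (CR W F) (KK W)]

lemma jj_add_mul_gy (p q : F[X]) : jj W p + jj W q * gy W F
    = algebraMap (CR W F) (KK W) (p • (1 : CR W F) + q • Affine.CoordinateRing.mk (W⁄F) Y) := by
  rw [map_add, Algebra.smul_def, Algebra.smul_def, mul_one, map_mul, jj_eq_algebraMap_CR,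
    jj_eq_algebraMap_CR]
  rfl

lemma exists_rep (u : KK W) : ∃ p q r : F[X], r ≠ 0 ∧
    u = (jj W p + jj W q * gy W F) / jj W r := by
  obtain ⟨z, w, hw, rfl⟩ := IsFractionRing.div_surjective (A := CR W F) u
  have hw0 : w ≠ 0 := nonZeroDivisors.ne_zero hw
  obtain ⟨wbar, N, hN, hprod⟩ := exists_mul_eq_algebraMap W w hw0
  obtain ⟨p, q, hpq⟩ := Affine.CoordinateRing.exists_smul_basis_eq (z * wbar)
  refine ⟨p, q, N, hN, ?_⟩
  have hjN : jj W N ≠ 0 := (map_ne_zero_iff _ (jj_injective W)).mpr hN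
  have hwK : algebraMap (CR W F) (KK W) w ≠ 0 :=
    (map_ne_zero_iff _ (IsFractionRing.injective (CR W F) (KK W))).mpr hw0
  rw [div_eq_div_iff hwK hjN, jj_eq_algebraMap_CR, jj_add_mul_gy, hpq, hprod, ← map_mul,
    ← map_mul]
  congr 1
  ring

/-! ### The hyperelliptic involution and the odd points -/

/-- The `F`-algebra endomorphism of the function field sending the generic point `P₀` to
`-P₀`. -/
noncomputable def tau : KK W →ₐ[F] KK W :=
  sigma F ((Affine.equation_neg (gx W F) (gy W F)).mpr (generic_equation W F))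
    (gx_transcendental W F)

lemma tau_gx : tau W (gx W F) = gx W F := sigma_gx F _ _

lemma tau_gy : tau W (gy W F) = (W⁄(KK W)).negY (gx W F) (gy W F) := sigma_gy F _ _

lemma tau_jj (p : F[X]) : tau W (jj W p) = jj W p := by
  have : (tau W).comp (jj W) = jj W := by
    apply Polynomial.algHom_ext
    rw [AlgHom.comp_apply, jj_X, tau_gx]
  exact congrArg (fun f => f p) this

section Short

variable {W}
variable (ha₁ : W.a₁ = 0) (ha₃ : W.a₃ = 0)

include ha₁ ha₃ in
lemma negY_eq_neg (x y : KK W) : (W⁄(KK W)).negY x y = -y := by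
  have h1 : (W⁄(KK W)).a₁ = 0 := by
    show algebraMap F (KK W) W.a₁ = 0
    rw [ha₁, map_zero]
  have h3 : (W⁄(KK W)).a₃ = 0 := by
    show algebraMap F (KK W) W.a₃ = 0
    rw [ha₃, map_zero]
  rw [Affine.negY, h1, h3]
  ring

include ha₁ ha₃ in
lemma tau_gy_short : tau W (gy W F) = -gy W F := by
  rw [tau_gy, negY_eq_neg ha₁ ha₃]

lemma gy_ne_zero : gy W F ≠ 0 := by
  intro h0
  -- then `gx` is a root of the cubic, hence algebraic
  have heq := generic_equation W F
  rw [Affine.equation_iff, h0] at heq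
  apply gx_transcendental W F
  refine ⟨X ^ 3 + C (W⁄F).a₂ * X ^ 2 + C (W⁄F).a₄ * X + C (W⁄F).a₆, ?_, ?_⟩
  · intro h
    have := congrArg (fun p => p.coeff 3) h
    simp [coeff_X_pow] at this
  · simp only [map_add, map_mul, map_pow, aeval_X, aeval_C]
    rw [baseChange_a₂ (k := F), baseChange_a₄ (k := F), baseChange_a₆ (k := F)] at heq
    simpa using heq.symm

include ha₁ ha₃ in
/-- Elements of the function field fixed by `tau` are rational functions of `gx`. -/
lemma exists_ratFunc_of_tau_fixed (h2 : (2 : F) ≠ 0) (u : KK W)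
    (hu : tau W u = u) : ∃ S : RatFunc F, u = jhat W S := by
  obtain ⟨p, q, r, hr, rfl⟩ := exists_rep W u
  have hjr : jj W r ≠ 0 := (map_ne_zero_iff _ (jj_injective W)).mpr hr
  rw [map_div₀, map_add, map_mul, tau_jj, tau_jj, tau_jj, tau_gy_short ha₁ ha₃,
    div_left_inj' hjr] at hu
  have h2K : (2 : KK W) ≠ 0 := by
    rw [← map_ofNat (algebraMap F (KK W)) 2]
    exact (map_ne_zero_iff _ (algebraMap F (KK W)).injective).mpr h2
  have hq : jj W q = 0 := by
    have h3 : 2 * (jj W q * gy W F) = 0 := by linear_combination -hu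
    rcases mul_eq_zero.mp h3 with h4 | h4
    · exact absurd h4 h2K
    · exact (mul_eq_zero.mp h4).resolve_right gy_ne_zero
  refine ⟨algebraMap F[X] (RatFunc F) p / algebraMap F[X] (RatFunc F) r, ?_⟩
  rw [jhat_div, hq, zero_mul, add_zero]

end Short

section Odd

variable [DecidableEq (KK W)]

/-- `Point.map tau`. -/
noncomputable def tauPt : (W⁄(KK W)).Point →+ (W⁄(KK W)).Point :=
  Affine.Point.map (W' := W) (tau W)

/-- The subgroup of odd points `{P | τ P = -P}`. -/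
noncomputable def oddPts : AddSubgroup (W⁄(KK W)).Point :=
  (tauPt W + AddMonoidHom.id _).ker

variable {W}

lemma mem_oddPts {P : (W⁄(KK W)).Point} : P ∈ oddPts W ↔ tauPt W P = -P := by
  rw [oddPts, AddMonoidHom.mem_ker, AddMonoidHom.add_apply, AddMonoidHom.id_apply,
    add_eq_zero_iff_eq_neg]

lemma generic_mem_oddPts (hΔ : (W⁄F).Δ ≠ 0) : genericPoint W F hΔ ∈ oddPts W := by
  rw [mem_oddPts, tauPt, tau]
  rw [map_sigma_genericPoint F hΔ
    ((Affine.nonsingular_neg (gx W F) (gy W F)).mpr (generic_nonsingular W F hΔ))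
    (gx_transcendental W F)]
  rfl

lemma map_mem_oddPts (φ : (W⁄(KK W)).Point →+ (W⁄(KK W)).Point)
    (hφ : ∀ P, φ (tauPt W P) = tauPt W (φ P)) {P : (W⁄(KK W)).Point} (hP : P ∈ oddPts W) :
    φ P ∈ oddPts W := by
  rw [mem_oddPts] at hP ⊢
  rw [← hφ, hP, map_neg]

lemma tau_x_of_mem_oddPts {x y : KK W} {h : (W⁄(KK W)).Nonsingular x y}
    (hP : Affine.Point.some x y h ∈ oddPts W) : tau W x = x := by
  rw [mem_oddPts, tauPt, Affine.Point.map_some, Affine.Point.neg_some] at hP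
  exact ((Affine.Point.some.injEq ..).mp hP).1

lemma exists_ratFunc_of_mem_oddPts (ha₁ : W.a₁ = 0) (ha₃ : W.a₃ = 0) (h2 : (2 : F) ≠ 0)
    {x y : KK W} {h : (W⁄(KK W)).Nonsingular x y}
    (hP : Affine.Point.some x y h ∈ oddPts W) : ∃ S : RatFunc F, x = jhat W S :=
  exists_ratFunc_of_tau_fixed ha₁ ha₃ h2 x (tau_x_of_mem_oddPts hP)

end Odd

end Fermat.Agent.Lib.Frob.A2.H230

end
-- ===== PACK-END Lib/Frob/A2/H230/OddPts.lean

-- ===== PACK-BEGIN S52/H311/AddSub.lean
section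



/-!
# `sym2x (P + Q) (P - Q)` is projectively `addSubMap (sym2x P Q)`  (S52, piece A2a-points)

For nonsingular points `P`, `Q` on a Weierstrass curve over a field (no ellipticity needed)
the Mathlib map `WeierstrassCurve.addSubMap` sends the coordinate vector `P.sym2x Q` of
`(x(P) x(Q) : x(P) + x(Q) : 1)` to a nonzero multiple of `(P + Q).sym2x (P - Q)`.
-/

set_option autoImplicit false

namespace Fermat.Agent.S52.H311

open WeierstrassCurve WeierstrassCurve.Affine MvPolynomial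
open Fermat.Agent.S05

variable {F : Type*} [Field F] (W : Affine F)

/-- the three coordinates of `addSubMap` evaluated at a vector -/
lemma eval_addSubMap (v : Fin 3 → F) :
    (fun i => (addSubMap W i).eval v) =
      ![v 0 ^ 2 - W.b₄ * v 0 * v 2 - W.b₆ * v 1 * v 2 - W.b₈ * v 2 ^ 2,
        2 * v 1 * v 0 + W.b₂ * v 0 * v 2 + W.b₄ * v 1 * v 2 + W.b₆ * v 2 ^ 2,
        v 1 ^ 2 - 4 * v 0 * v 2] := by
  funext i
  fin_cases i <;> simp [addSubMap]

/-- on the curve, `dblNum = n² + a₁ d n - (a₂ + 2x) d²` with `n` the numerator of the tangent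
slope and `d = y - negY x y`. -/
lemma dblNum_eq {x y : F} (h : W.Equation x y) :
    XId.dblNum W x = (3 * x ^ 2 + 2 * W.a₂ * x + W.a₄ - W.a₁ * y) ^ 2 +
      W.a₁ * (y - W.negY x y) * (3 * x ^ 2 + 2 * W.a₂ * x + W.a₄ - W.a₁ * y) -
      (W.a₂ + x + x) * (y - W.negY x y) ^ 2 := by
  rw [Affine.equation_iff] at h
  simp only [negY, XId.dblNum, WeierstrassCurve.b₄, WeierstrassCurve.b₆, WeierstrassCurve.b₈]
  linear_combination (8 * x + W.a₁ ^ 2 + 4 * W.a₂) * h

/-- at a nonsingular 2-torsion point the duplication numerator does not vanish -/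
lemma dblNum_ne_zero_of_Y_eq {x y : F} (h : W.Nonsingular x y) (hy : y = W.negY x y) :
    XId.dblNum W x ≠ 0 := by
  have hd : y - W.negY x y = 0 := sub_eq_zero.mpr hy
  rw [dblNum_eq W h.1, hd]
  have hn : 3 * x ^ 2 + 2 * W.a₂ * x + W.a₄ - W.a₁ * y ≠ 0 := by
    rcases (Affine.nonsingular_iff' ..).mp h with ⟨_, h1 | h2⟩
    · intro h0; apply h1; linear_combination -h0
    · exfalso; apply h2; simp only [negY] at hd; linear_combination hd
  simpa using pow_ne_zero 2 hn

variable [DecidableEq F]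
variable {W}

/-- **Addition–subtraction on `x`-coordinates.**  For all nonsingular points `P`, `Q` of a
Weierstrass curve over a field, `addSubMap` maps `P.sym2x Q` to a nonzero multiple of
`(P + Q).sym2x (P - Q)`. -/
theorem sym2x_add_sub (P Q : W.Point) :
    ∃ c : F, c ≠ 0 ∧
      (fun i => (addSubMap W i).eval (P.sym2x Q)) = c • (P + Q).sym2x (P - Q) := by
  rw [eval_addSubMap]
  rcases P with _ | ⟨x₁, y₁, h₁⟩ <;> rcases Q with _ | ⟨x₂, y₂, h₂⟩
  · -- `0, 0`
    refine ⟨1, one_ne_zero, ?_⟩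
    simp [← Point.zero_def]
  · -- `0, Q`
    refine ⟨1, one_ne_zero, ?_⟩
    rw [← Point.zero_def, zero_add, zero_sub, Point.sym2x_neg_right]
    simp only [Point.sym2x_zero_some, Point.sym2x_some_some, one_smul]
    funext i; fin_cases i <;> simp <;> ring
  · -- `P, 0`
    refine ⟨1, one_ne_zero, ?_⟩
    rw [← Point.zero_def, add_zero, sub_zero]
    simp only [Point.sym2x_some_zero, Point.sym2x_some_some, one_smul]
    funext i; fin_cases i <;> simp <;> ring
  · by_cases hx : x₁ = x₂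
    · subst hx
      by_cases hy : y₁ = W.negY x₁ y₂
      · -- `Q = -P`
        have hPQ : Point.some x₁ y₁ h₁ + Point.some x₁ y₂ h₂ = 0 := Point.add_of_Y_eq rfl hy
        have hQ : Point.some x₁ y₂ h₂ = -Point.some x₁ y₁ h₁ := by
          rw [eq_neg_iff_add_eq_zero, add_comm]; exact hPQ
        rw [hPQ, hQ, sub_neg_eq_add]
        by_cases h2 : y₁ = W.negY x₁ y₁
        · -- `P` is 2-torsion
          have h2P : Point.some x₁ y₁ h₁ + Point.some x₁ y₁ h₁ = 0 := Point.add_of_Y_eq rfl h2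
          refine ⟨XId.dblNum W x₁, dblNum_ne_zero_of_Y_eq W h₁ h2, ?_⟩
          rw [h2P, Point.sym2x_neg_right]
          have hden := XId.dblDen_eq_zero_of_Y_eq h₁.1 h2
          simp only [Point.sym2x_some_some, Point.sym2x_zero_zero]
          simp only [XId.dblNum, XId.dblDen] at hden ⊢
          funext i; fin_cases i
          · simp; ring
          · simp; linear_combination hden
          · simp; ring
        · obtain ⟨x', y', h', hadd, hmul, hne⟩ := XId.add_self_some h₁ h2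
          refine ⟨XId.dblDen W x₁, hne, ?_⟩
          rw [hadd, Point.sym2x_neg_right]
          simp only [Point.sym2x_some_some, Point.sym2x_zero_some]
          simp only [XId.dblNum, XId.dblDen] at hmul ⊢
          funext i; fin_cases i
          · simp; linear_combination -hmul
          · simp; ring
          · simp; ring
      · -- `Q = P`, not 2-torsion
        have hyy : y₁ = y₂ := by
          rcases Affine.Y_eq_of_X_eq h₁.1 h₂.1 rfl with h | h
          · exact h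
          · exact absurd h hy
        subst hyy
        obtain ⟨x', y', h', hadd, hmul, hne⟩ := XId.add_self_some h₁ hy
        refine ⟨XId.dblDen W x₁, hne, ?_⟩
        rw [hadd, sub_self]
        simp only [Point.sym2x_some_some, Point.sym2x_some_zero]
        simp only [XId.dblNum, XId.dblDen] at hmul ⊢
        funext i; fin_cases i
        · simp; linear_combination -hmul
        · simp; ring
        · simp; ring
    · obtain ⟨x₃, y₃, x₄, y₄, h₃, h₄, hadd, hsub, hsum, hprod⟩ := XId.add_sub_some h₁ h₂ hx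
      refine ⟨(x₁ - x₂) ^ 2, pow_ne_zero 2 (sub_ne_zero.mpr hx), ?_⟩
      rw [hadd, hsub]
      simp only [Point.sym2x_some_some]
      simp only [XId.sumNum, XId.prodNum] at hsum hprod
      funext i; fin_cases i
      · simp; linear_combination -hprod
      · simp; linear_combination -hsum
      · simp; ring

end Fermat.Agent.S52.H311

end
-- ===== PACK-END S52/H311/AddSub.lean

-- ===== PACK-BEGIN S52/H311/Gauss.lean
section


/-!
# Gauss lemma for products of two linear forms, and uniqueness of primitive representatives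
(S52, A2a core, continued)
-/

set_option autoImplicit false

namespace Fermat.Agent.S52.H311

open Polynomial

variable {F : Type*} [Field F]

/-- the coefficient triple of `(a₁ T + b₁)(a₂ T + b₂)` -/
noncomputable def prodTriple (a₁ b₁ a₂ b₂ : F[X]) : Fin 3 → F[X] :=
  ![a₁ * a₂, a₁ * b₂ + b₁ * a₂, b₁ * b₂]

/-- degree of a pair -/
noncomputable def pairDeg (a b : F[X]) : ℕ := max a.natDegree b.natDegree

theorem isPrim_prodTriple {a₁ b₁ a₂ b₂ : F[X]} (h₁ : IsCoprime a₁ b₁) (h₂ : IsCoprime a₂ b₂) :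
    IsPrim (prodTriple a₁ b₁ a₂ b₂) := by
  unfold IsPrim
  set I := Ideal.span (Set.range (prodTriple a₁ b₁ a₂ b₂)) with hI
  have m0 : a₁ * a₂ ∈ I := Ideal.subset_span ⟨0, rfl⟩
  have m1 : a₁ * b₂ + b₁ * a₂ ∈ I := Ideal.subset_span ⟨1, rfl⟩
  have m2 : b₁ * b₂ ∈ I := Ideal.subset_span ⟨2, rfl⟩
  have r0 : a₁ * a₂ ∈ I.radical := Ideal.le_radical m0
  have r2 : b₁ * b₂ ∈ I.radical := Ideal.le_radical m2
  have r1 : a₁ * b₂ ∈ I.radical := by
    refine ⟨2, ?_⟩
    have : (a₁ * b₂) ^ 2 = (a₁ * b₂) * (a₁ * b₂ + b₁ * a₂) - (a₁ * a₂) * (b₁ * b₂) := by ring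
    rw [this]
    exact I.sub_mem (I.mul_mem_left _ m1) (I.mul_mem_right _ m0)
  have r1' : b₁ * a₂ ∈ I.radical := by
    refine ⟨2, ?_⟩
    have : (b₁ * a₂) ^ 2 = (b₁ * a₂) * (a₁ * b₂ + b₁ * a₂) - (a₁ * a₂) * (b₁ * b₂) := by ring
    rw [this]
    exact I.sub_mem (I.mul_mem_left _ m1) (I.mul_mem_right _ m0)
  obtain ⟨u₂, v₂, e₂⟩ := h₂
  obtain ⟨u₁, v₁, e₁⟩ := h₁
  have ra : a₁ ∈ I.radical := by
    have : a₁ = u₂ * (a₁ * a₂) + v₂ * (a₁ * b₂) := by linear_combination -a₁ * e₂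
    rw [this]
    exact I.radical.add_mem (I.radical.mul_mem_left _ r0) (I.radical.mul_mem_left _ r1)
  have rb : b₁ ∈ I.radical := by
    have : b₁ = u₂ * (b₁ * a₂) + v₂ * (b₁ * b₂) := by linear_combination -b₁ * e₂
    rw [this]
    exact I.radical.add_mem (I.radical.mul_mem_left _ r1') (I.radical.mul_mem_left _ r2)
  have r1 : (1 : F[X]) ∈ I.radical := by
    rw [← e₁]
    exact I.radical.add_mem (I.radical.mul_mem_left _ ra) (I.radical.mul_mem_left _ rb)
  rw [← Ideal.radical_eq_top]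
  exact (Ideal.eq_top_iff_one _).mpr r1

lemma coeff_pairDeg_ne_zero {a b : F[X]} (h : IsCoprime a b) :
    a.coeff (pairDeg a b) ≠ 0 ∨ b.coeff (pairDeg a b) ≠ 0 := by
  by_contra hcon
  push Not at hcon
  obtain ⟨ha, hb⟩ := hcon
  have hne : ¬ (a = 0 ∧ b = 0) := by
    rintro ⟨rfl, rfl⟩
    exact not_isCoprime_zero_zero h
  unfold pairDeg at ha hb
  rcases max_cases a.natDegree b.natDegree with ⟨hm, hle⟩ | ⟨hm, hlt⟩
  · rw [hm] at ha hb
    have a0 : a = 0 := leadingCoeff_eq_zero.mp ha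
    rw [a0, natDegree_zero] at hle
    have b0 : b = 0 := by
      rw [eq_C_of_natDegree_le_zero hle]
      rw [a0, natDegree_zero] at hb
      simp [hb]
    exact hne ⟨a0, b0⟩
  · rw [hm] at ha hb
    have b0 : b = 0 := leadingCoeff_eq_zero.mp hb
    rw [b0, natDegree_zero] at hlt
    exact absurd hlt (Nat.not_lt_zero _)

theorem maxDeg_prodTriple {a₁ b₁ a₂ b₂ : F[X]} (h₁ : IsCoprime a₁ b₁) (h₂ : IsCoprime a₂ b₂) :
    maxDeg (prodTriple a₁ b₁ a₂ b₂) = pairDeg a₁ b₁ + pairDeg a₂ b₂ := by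
  set d₁ := pairDeg a₁ b₁ with hd₁
  set d₂ := pairDeg a₂ b₂ with hd₂
  have ha₁ : a₁.natDegree ≤ d₁ := le_max_left _ _
  have hb₁ : b₁.natDegree ≤ d₁ := le_max_right _ _
  have ha₂ : a₂.natDegree ≤ d₂ := le_max_left _ _
  have hb₂ : b₂.natDegree ≤ d₂ := le_max_right _ _
  refine le_antisymm (maxDeg_le fun i => ?_) ?_
  · fin_cases i
    · exact natDegree_mul_le.trans (Nat.add_le_add ha₁ ha₂)
    · refine (natDegree_add_le _ _).trans (max_le ?_ ?_)
      · exact natDegree_mul_le.trans (Nat.add_le_add ha₁ hb₂)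
      · exact natDegree_mul_le.trans (Nat.add_le_add hb₁ ha₂)
    · exact natDegree_mul_le.trans (Nat.add_le_add hb₁ hb₂)
  · have c0 : (a₁ * a₂).coeff (d₁ + d₂) = a₁.coeff d₁ * a₂.coeff d₂ :=
      coeff_mul_add_eq_of_natDegree_le ha₁ ha₂
    have c2 : (b₁ * b₂).coeff (d₁ + d₂) = b₁.coeff d₁ * b₂.coeff d₂ :=
      coeff_mul_add_eq_of_natDegree_le hb₁ hb₂
    have c1 : (a₁ * b₂ + b₁ * a₂).coeff (d₁ + d₂) =
        a₁.coeff d₁ * b₂.coeff d₂ + b₁.coeff d₁ * a₂.coeff d₂ := by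
      rw [coeff_add, coeff_mul_add_eq_of_natDegree_le ha₁ hb₂, coeff_mul_add_eq_of_natDegree_le hb₁ ha₂]
    have key : ∃ i, (prodTriple a₁ b₁ a₂ b₂ i).coeff (d₁ + d₂) ≠ 0 := by
      by_contra hcon
      push Not at hcon
      have e0 := hcon 0
      have e1 := hcon 1
      have e2 := hcon 2
      simp only [prodTriple, Matrix.cons_val_zero, Matrix.cons_val_one, Matrix.cons_val] at e0 e1 e2
      rw [c0] at e0
      rw [c1] at e1
      rw [c2] at e2
      rcases coeff_pairDeg_ne_zero h₁ with hα₁ | hβ₁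
      · have hα₂ : a₂.coeff d₂ = 0 := by
          rcases mul_eq_zero.mp e0 with h | h
          · exact absurd h hα₁
          · exact h
        have hβ₂ : b₂.coeff d₂ ≠ 0 := by
          rcases coeff_pairDeg_ne_zero h₂ with h | h
          · exact absurd hα₂ h
          · exact h
        rw [hα₂, mul_zero, add_zero] at e1
        rcases mul_eq_zero.mp e1 with h | h
        · exact hα₁ h
        · exact hβ₂ h
      · have hβ₂ : b₂.coeff d₂ = 0 := by
          rcases mul_eq_zero.mp e2 with h | h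
          · exact absurd h hβ₁
          · exact h
        have hα₂ : a₂.coeff d₂ ≠ 0 := by
          rcases coeff_pairDeg_ne_zero h₂ with h | h
          · exact h
          · exact absurd hβ₂ h
        rw [hβ₂, mul_zero, zero_add] at e1
        rcases mul_eq_zero.mp e1 with h | h
        · exact hβ₁ h
        · exact hα₂ h
    obtain ⟨i, hi⟩ := key
    exact (le_natDegree_of_ne_zero hi).trans (natDegree_le_maxDeg _ i)

/-- two primitive triples which are projectively equal have the same `maxDeg` -/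
theorem maxDeg_eq_of_proportional {p p' : Fin 3 → F[X]} (hp : IsPrim p) (hp' : IsPrim p')
    (h : ∀ i j, p i * p' j = p j * p' i) : maxDeg p = maxDeg p' := by
  have one_mem : (1 : F[X]) ∈ Ideal.span (Set.range p) := by rw [hp]; trivial
  have one_mem' : (1 : F[X]) ∈ Ideal.span (Set.range p') := by rw [hp']; trivial
  obtain ⟨r, hr⟩ := (Ideal.mem_span_range_iff_exists_fun).mp one_mem
  obtain ⟨r', hr'⟩ := (Ideal.mem_span_range_iff_exists_fun).mp one_mem'
  -- `p j = u * p' j`, `p' j = u' * p j`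
  set u := ∑ i, r' i * p i with hu
  set u' := ∑ i, r i * p' i with hu'
  have e1 : ∀ j, p j = u * p' j := fun j => by
    calc p j = p j * ∑ i, r' i * p' i := by rw [hr', mul_one]
      _ = ∑ i, r' i * (p j * p' i) := by
          rw [Finset.mul_sum]; exact Finset.sum_congr rfl fun i _ => by ring
      _ = ∑ i, r' i * (p i * p' j) := Finset.sum_congr rfl fun i _ => by rw [h i j]
      _ = u * p' j := by
          rw [hu, Finset.sum_mul]; exact Finset.sum_congr rfl fun i _ => by ring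
  have e2 : ∀ j, p' j = u' * p j := fun j => by
    calc p' j = p' j * ∑ i, r i * p i := by rw [hr, mul_one]
      _ = ∑ i, r i * (p i * p' j) := by
          rw [Finset.mul_sum]; exact Finset.sum_congr rfl fun i _ => by ring
      _ = ∑ i, r i * (p j * p' i) := Finset.sum_congr rfl fun i _ => by rw [h i j]
      _ = u' * p j := by
          rw [hu', Finset.sum_mul]; exact Finset.sum_congr rfl fun i _ => by ring
  refine le_antisymm (maxDeg_le fun j => ?_) (maxDeg_le fun j => ?_)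
  · by_cases hj : p j = 0
    · simp [hj]
    · have hne : p' j ≠ 0 := fun h0 => hj (by rw [e1 j, h0, mul_zero])
      have hdeg : (p' j).natDegree = (u' * p j).natDegree := by rw [← e2 j]
      have hu0 : u' ≠ 0 := fun h0 => hne (by rw [e2 j, h0, zero_mul])
      rw [natDegree_mul hu0 hj] at hdeg
      exact (by omega : (p j).natDegree ≤ (p' j).natDegree).trans (natDegree_le_maxDeg _ j)
  · by_cases hj : p' j = 0
    · simp [hj]
    · have hne : p j ≠ 0 := fun h0 => hj (by rw [e2 j, h0, mul_zero])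
      have hdeg : (p j).natDegree = (u * p' j).natDegree := by rw [← e1 j]
      have hu0 : u ≠ 0 := fun h0 => hne (by rw [e1 j, h0, zero_mul])
      rw [natDegree_mul hu0 hj] at hdeg
      exact (by omega : (p' j).natDegree ≤ (p j).natDegree).trans (natDegree_le_maxDeg _ j)

end Fermat.Agent.S52.H311

end
-- ===== PACK-END S52/H311/Gauss.lean

-- ===== PACK-BEGIN S52/H311/Par.lean
section



/-!
# Exact parallelogram law for the degree height (S52, piece A2a)

`F` a field, `W` an elliptic curve over `F`, `K ⊇ F` a field, `j : F[X] →ₐ[F] K` injective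
(e.g. `aeval x₀` with `x₀` transcendental).  A point `P` of `W` over `K` has `x`-coordinate
*represented by* a coprime pair `(a, b)` of polynomials if `(j a : j b)` is projectively equal to
`P.xRep` (so `P = 0 ↔ b = 0`, and otherwise `x(P) = j a / j b`).

If `P`, `Q`, `P + Q`, `P - Q` have represented `x`-coordinates then the degrees satisfy the
**exact** parallelogram law.
-/

set_option autoImplicit false

namespace Fermat.Agent.S52.H311

open Polynomial WeierstrassCurve WeierstrassCurve.Affine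

variable {F : Type*} [Field F] {K : Type*} [Field K] [Algebra F K]

/-- explicit form of `addSubMap`, any commutative ring -/
lemma eval_addSubMap_ring {R : Type*} [CommRing R] (W : WeierstrassCurve R) (v : Fin 3 → R) :
    (fun i => (addSubMap W i).eval v) =
      ![v 0 ^ 2 - W.b₄ * v 0 * v 2 - W.b₆ * v 1 * v 2 - W.b₈ * v 2 ^ 2,
        2 * v 1 * v 0 + W.b₂ * v 0 * v 2 + W.b₄ * v 1 * v 2 + W.b₆ * v 2 ^ 2,
        v 1 ^ 2 - 4 * v 0 * v 2] := by
  funext i
  fin_cases i <;> simp [addSubMap]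

/-- `(a, b)` represents the `x`-coordinate of `P` -/
def IsXRep (j : F[X] →ₐ[F] K) {W : Affine K} (P : W.Point) (a b : F[X]) : Prop :=
  IsCoprime a b ∧ ∃ c : K, c ≠ 0 ∧ ![j a, j b] = c • P.xRep

variable (W : WeierstrassCurve F) (j : F[X] →ₐ[F] K)

/-- naturality: `j` of `asmP` is `addSubMap` over `K` of the `j`-image -/
lemma j_asmP (p : Fin 3 → F[X]) :
    (fun i => j (asmP W p i)) =
      fun i => (addSubMap (W.baseChange K) i).eval (fun k => j (p k)) := by
  have h1 : (fun i => asmP W p i) = fun i => (addSubMap (W.map (C : F →+* F[X])) i).eval p :=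
    _root_.funext fun i => asmP_eq_eval W p i
  have h2 := eval_addSubMap_ring (W.map (C : F →+* F[X])) p
  have h3 := eval_addSubMap_ring (W.baseChange K) (fun k => j (p k))
  rw [h3]
  have hC : ∀ a : F, j (C a) = algebraMap F K a := fun a => j.commutes a
  funext i
  have := congrFun (h1.trans h2) i
  rw [this]
  fin_cases i <;>
    simp [WeierstrassCurve.baseChange, map_b₂, map_b₄, map_b₆, map_b₈, hC, _root_.map_ofNat]

variable {W j}

lemma sym2x_of_isXRep {W' : Affine K} {P Q : W'.Point} {a₁ b₁ a₂ b₂ : F[X]}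
    (h₁ : IsXRep j P a₁ b₁) (h₂ : IsXRep j Q a₂ b₂) :
    ∃ c : K, c ≠ 0 ∧ (fun k => j (prodTriple a₁ b₁ a₂ b₂ k)) = c • P.sym2x Q := by
  obtain ⟨-, c₁, hc₁, e₁⟩ := h₁
  obtain ⟨-, c₂, hc₂, e₂⟩ := h₂
  refine ⟨c₁ * c₂, mul_ne_zero hc₁ hc₂, ?_⟩
  have e10 : j a₁ = c₁ * P.xRep 0 := by simpa using congrFun e₁ 0
  have e11 : j b₁ = c₁ * P.xRep 1 := by simpa using congrFun e₁ 1
  have e20 : j a₂ = c₂ * Q.xRep 0 := by simpa using congrFun e₂ 0
  have e21 : j b₂ = c₂ * Q.xRep 1 := by simpa using congrFun e₂ 1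
  funext k
  fin_cases k
  · simp [prodTriple, Point.sym2x, e10, e20]; ring
  · simp [prodTriple, Point.sym2x, e10, e11, e20, e21]; ring
  · simp [prodTriple, Point.sym2x, e11, e21]; ring

variable [W.IsElliptic] [DecidableEq K]

/-- **Exact parallelogram law**, in terms of representatives. -/
theorem pairDeg_add_sub (hj : Function.Injective j) {P Q : (W.toAffine⁄K).Point}
    {a₁ b₁ a₂ b₂ a₃ b₃ a₄ b₄ : F[X]}
    (h₁ : IsXRep j P a₁ b₁) (h₂ : IsXRep j Q a₂ b₂)
    (h₃ : IsXRep j (P + Q) a₃ b₃) (h₄ : IsXRep j (P - Q) a₄ b₄) :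
    pairDeg a₃ b₃ + pairDeg a₄ b₄ = 2 * (pairDeg a₁ b₁ + pairDeg a₂ b₂) := by
  set p := asmP W (prodTriple a₁ b₁ a₂ b₂) with hp
  set p' := prodTriple a₃ b₃ a₄ b₄ with hp'
  have prim : IsPrim p := (isPrim_prodTriple h₁.1 h₂.1).asmP W
  have prim' : IsPrim p' := isPrim_prodTriple h₃.1 h₄.1
  obtain ⟨c₁₂, hc₁₂, e₁₂⟩ := sym2x_of_isXRep h₁ h₂
  obtain ⟨c₃₄, hc₃₄, e₃₄⟩ := sym2x_of_isXRep h₃ h₄
  obtain ⟨c, hc, e⟩ := sym2x_add_sub P Q
  -- `j ∘ p = κ • j ∘ p'`
  have hκ : (fun k => j (p k)) = (c₁₂ ^ 2 * c * c₃₄⁻¹) • fun k => j (p' k) := by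
    rw [hp, j_asmP, e₁₂, e₃₄]
    have hE := eval_addSubMap_ring (W.baseChange K) (c₁₂ • P.sym2x Q)
    have hE' := eval_addSubMap_ring (W.baseChange K) (P.sym2x Q)
    rw [hE]
    rw [hE'] at e
    have e0 := congrFun e 0
    have e1 := congrFun e 1
    have e2 := congrFun e 2
    simp only [Matrix.cons_val_zero, Matrix.cons_val_one, Matrix.cons_val, Pi.smul_apply,
      smul_eq_mul] at e0 e1 e2
    have hcancel : c₃₄⁻¹ * c₃₄ = 1 := inv_mul_cancel₀ hc₃₄
    funext k
    fin_cases k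
    · simp only [Fin.zero_eta, Matrix.cons_val_zero, Pi.smul_apply, smul_eq_mul]
      linear_combination c₁₂ ^ 2 * e0 -
        (c₁₂ ^ 2 * c * (P + Q).sym2x (P - Q) 0) * hcancel
    · simp only [Fin.mk_one, Matrix.cons_val_one, Matrix.cons_val_zero, Pi.smul_apply,
        smul_eq_mul]
      linear_combination c₁₂ ^ 2 * e1 -
        (c₁₂ ^ 2 * c * (P + Q).sym2x (P - Q) 1) * hcancel
    · simp only [Fin.reduceFinMk, Matrix.cons_val, Pi.smul_apply, smul_eq_mul]
      linear_combination c₁₂ ^ 2 * e2 -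
        (c₁₂ ^ 2 * c * (P + Q).sym2x (P - Q) 2) * hcancel
  have cross : ∀ i k, p i * p' k = p k * p' i := fun i k => by
    apply hj
    have hi := congrFun hκ i
    have hk := congrFun hκ k
    simp only [Pi.smul_apply, smul_eq_mul] at hi hk
    rw [_root_.map_mul, _root_.map_mul, hi, hk]
    ring
  have key := maxDeg_eq_of_proportional prim prim' cross
  rw [hp, maxDeg_asmP, maxDeg_prodTriple h₁.1 h₂.1, hp', maxDeg_prodTriple h₃.1 h₄.1] at key
  exact key.symm

end Fermat.Agent.S52.H311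

end
-- ===== PACK-END S52/H311/Par.lean

-- ===== PACK-BEGIN S52/H311/Height.lean
section


/-!
# The degree height on points with rational `x`-coordinate (S52, piece A2a, API)
-/

set_option autoImplicit false

namespace Fermat.Agent.S52.H311

open Polynomial WeierstrassCurve WeierstrassCurve.Affine

variable {F : Type*} [Field F] {K : Type*} [Field K] [Algebra F K]
variable {j : F[X] →ₐ[F] K} {W' : Affine K}

lemma isXRep_zero : IsXRep j (0 : W'.Point) 1 0 :=
  ⟨isCoprime_one_left, 1, one_ne_zero, by simp [Point.xRep_zero]⟩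

lemma isXRep_some {x y : K} (h : W'.Nonsingular x y) {a b : F[X]} (hab : IsCoprime a b)
    (hb : j b ≠ 0) (hx : x * j b = j a) : IsXRep j (Point.some x y h) a b := by
  refine ⟨hab, j b, hb, ?_⟩
  rw [Point.xRep_some]
  funext k
  fin_cases k
  · simp [← hx, mul_comm]
  · simp

/-- pairs of coprime polynomials which are proportional have the same degree -/
lemma pairDeg_eq_of_cross {a b a' b' : F[X]} (h : IsCoprime a b) (h' : IsCoprime a' b')
    (hc : a * b' = a' * b) : pairDeg a b = pairDeg a' b' := by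
  -- apply the triple statement to `(a, b) * (1, 0)`
  have key := maxDeg_eq_of_proportional
    (isPrim_prodTriple h (isCoprime_one_left (x := (0 : F[X]))))
    (isPrim_prodTriple h' (isCoprime_one_left (x := (0 : F[X])))) (fun i k => by
      fin_cases i <;> fin_cases k <;> simp [prodTriple] <;>
        first | linear_combination hc | linear_combination -hc)
  rw [maxDeg_prodTriple h isCoprime_one_left, maxDeg_prodTriple h' isCoprime_one_left] at key
  simpa [pairDeg] using key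

lemma pairDeg_eq_of_isXRep (hj : Function.Injective j) {P : W'.Point} {a b a' b' : F[X]}
    (h : IsXRep j P a b) (h' : IsXRep j P a' b') : pairDeg a b = pairDeg a' b' := by
  refine pairDeg_eq_of_cross h.1 h'.1 (hj ?_)
  obtain ⟨-, c, hc, e⟩ := h
  obtain ⟨-, c', hc', e'⟩ := h'
  have e0 : j a = c * P.xRep 0 := by simpa using congrFun e 0
  have e1 : j b = c * P.xRep 1 := by simpa using congrFun e 1
  have e0' : j a' = c' * P.xRep 0 := by simpa using congrFun e' 0
  have e1' : j b' = c' * P.xRep 1 := by simpa using congrFun e' 1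
  rw [_root_.map_mul, _root_.map_mul, e0, e1, e0', e1']
  ring

open Classical in
/-- the degree height of a point (`0` if the `x`-coordinate is not represented) -/
noncomputable def hgt (j : F[X] →ₐ[F] K) (P : W'.Point) : ℕ :=
  if h : ∃ ab : F[X] × F[X], IsXRep j P ab.1 ab.2 then
    pairDeg (Classical.choose h).1 (Classical.choose h).2
  else 0

lemma hgt_eq (hj : Function.Injective j) {P : W'.Point} {a b : F[X]} (h : IsXRep j P a b) :
    hgt j P = pairDeg a b := by
  have hex : ∃ ab : F[X] × F[X], IsXRep j P ab.1 ab.2 := ⟨(a, b), h⟩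
  rw [hgt, dif_pos hex]
  exact pairDeg_eq_of_isXRep hj (Classical.choose_spec hex) h

lemma hgt_zero (hj : Function.Injective j) : hgt j (0 : W'.Point) = 0 := by
  rw [hgt_eq hj isXRep_zero]
  simp [pairDeg]

/-- **Exact parallelogram law for the degree height.** -/
theorem hgt_add_sub {W : WeierstrassCurve F} [W.IsElliptic] [DecidableEq K]
    (hj : Function.Injective j) {P Q : (W.toAffine⁄K).Point}
    (hP : ∃ a b, IsXRep j P a b) (hQ : ∃ a b, IsXRep j Q a b)
    (hS : ∃ a b, IsXRep j (P + Q) a b) (hD : ∃ a b, IsXRep j (P - Q) a b) :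
    hgt j (P + Q) + hgt j (P - Q) = 2 * hgt j P + 2 * hgt j Q := by
  obtain ⟨a₁, b₁, h₁⟩ := hP
  obtain ⟨a₂, b₂, h₂⟩ := hQ
  obtain ⟨a₃, b₃, h₃⟩ := hS
  obtain ⟨a₄, b₄, h₄⟩ := hD
  rw [hgt_eq hj h₁, hgt_eq hj h₂, hgt_eq hj h₃, hgt_eq hj h₄,
    pairDeg_add_sub hj h₁ h₂ h₃ h₄]
  ring

end Fermat.Agent.S52.H311

end
-- ===== PACK-END S52/H311/Height.lean

-- ===== PACK-BEGIN S52/H621/RatDegComp.lean
section



/-!
# S52 / Part A: multiplicativity of the degree of rational functions under composition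

`ratDeg_comp : ratDeg (N(S) / D(S)) = ratDeg (N / D) * ratDeg S` (piece A2d).
-/

set_option autoImplicit false

open Polynomial

namespace Fermat.Agent.S52.H621

variable {F : Type*} [Field F]

/-- degree bound for the homogenisation evaluated at polynomials -/
theorem natDegree_homog_le (n m : ℕ) (N P Q : F[X]) (hP : P.natDegree ≤ m)
    (hQ : Q.natDegree ≤ m) : (homog n N P Q).natDegree ≤ n * m := by
  unfold homog
  refine natDegree_sum_le_of_forall_le _ _ fun i hi => ?_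
  have hi' : i ≤ n := Nat.lt_succ_iff.mp (Finset.mem_range.mp hi)
  have h1 : (P ^ i).natDegree ≤ i * m := natDegree_pow_le_of_le i hP
  have h2 : (Q ^ (n - i)).natDegree ≤ (n - i) * m := natDegree_pow_le_of_le (n - i) hQ
  have h3 : (algebraMap F F[X] (N.coeff i) * P ^ i).natDegree ≤ i * m := by
    rw [algebraMap_eq]
    exact (natDegree_C_mul_le _ _).trans h1
  calc (algebraMap F F[X] (N.coeff i) * P ^ i * Q ^ (n - i)).natDegree
      ≤ i * m + (n - i) * m := natDegree_mul_le_of_le h3 h2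
    _ = n * m := by rw [← add_mul, Nat.add_sub_cancel' hi']

/-- top coefficient of the homogenisation evaluated at polynomials -/
theorem coeff_homog (n m : ℕ) (N P Q : F[X]) (hP : P.natDegree ≤ m)
    (hQ : Q.natDegree ≤ m) :
    (homog n N P Q).coeff (n * m) = homog n N (P.coeff m) (Q.coeff m) := by
  unfold homog
  rw [finsetSum_coeff]
  refine Finset.sum_congr rfl fun i hi => ?_
  have hi' : i ≤ n := Nat.lt_succ_iff.mp (Finset.mem_range.mp hi)
  have h1 : (P ^ i).natDegree ≤ i * m := natDegree_pow_le_of_le i hP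
  have h2 : (Q ^ (n - i)).natDegree ≤ (n - i) * m := natDegree_pow_le_of_le (n - i) hQ
  have hnm : n * m = i * m + (n - i) * m := by rw [← add_mul, Nat.add_sub_cancel' hi']
  rw [algebraMap_eq, mul_assoc, coeff_C_mul, hnm, coeff_mul_add_eq_of_natDegree_le h1 h2,
    coeff_pow_of_natDegree_le hP, coeff_pow_of_natDegree_le hQ]
  simp [mul_assoc]

/-- The algebra map `F[X] → RatFunc F` as an `F`-algebra homomorphism. -/
noncomputable def toRatFuncAlgHom (F : Type*) [Field F] : F[X] →ₐ[F] RatFunc F :=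
  IsScalarTower.toAlgHom F F[X] (RatFunc F)

@[simp] theorem toRatFuncAlgHom_apply (p : F[X]) :
    toRatFuncAlgHom F p = algebraMap F[X] (RatFunc F) p := rfl

/-- **Core case**: coprime `N`, `D` and coprime `P`, `Q`. -/
theorem ratDeg_homog_div (N D P Q : F[X]) (hND : IsCoprime N D) (hPQ : IsCoprime P Q)
    (hQ : Q ≠ 0) :
    IsCoprime (homog (max N.natDegree D.natDegree) N P Q)
        (homog (max N.natDegree D.natDegree) D P Q) ∧
      max (homog (max N.natDegree D.natDegree) N P Q).natDegree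
          (homog (max N.natDegree D.natDegree) D P Q).natDegree
        = max N.natDegree D.natDegree * max P.natDegree Q.natDegree := by
  set n := max N.natDegree D.natDegree with hn
  set m := max P.natDegree Q.natDegree with hm
  have hPm : P.natDegree ≤ m := le_max_left _ _
  have hQm : Q.natDegree ≤ m := le_max_right _ _
  -- the leading coefficients
  have hlead : P.coeff m ≠ 0 ∨ Q.coeff m ≠ 0 := by
    rcases max_cases P.natDegree Q.natDegree with ⟨h1, -⟩ | ⟨h1, -⟩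
    · by_cases hP0 : P = 0
      · right
        have : Q.natDegree = m := by
          have h2 : Q.natDegree ≤ P.natDegree := by
            have := le_max_right P.natDegree Q.natDegree
            omega
          rw [hP0, natDegree_zero] at h2
          have : m = 0 := by rw [hm, h1, hP0, natDegree_zero]
          omega
        rw [← this]
        exact leadingCoeff_ne_zero.mpr hQ
      · left
        rw [hm, h1]
        exact leadingCoeff_ne_zero.mpr hP0
    · right
      rw [hm, h1]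
      exact leadingCoeff_ne_zero.mpr hQ
  have htop := homog_ne_zero_of_isCoprime (L := F) N D hND n hn.symm (P.coeff m) (Q.coeff m) hlead
  rw [← coeff_homog n m N P Q hPm hQm, ← coeff_homog n m D P Q hPm hQm] at htop
  have hA := natDegree_homog_le n m N P Q hPm hQm
  have hB := natDegree_homog_le n m D P Q hPm hQm
  refine ⟨?_, ?_⟩
  · -- coprimality
    refine isCoprime_of_irreducible_dvd ?_ ?_
    · rintro ⟨h1, h2⟩
      rcases htop with h | h
      · exact h (by rw [h1, coeff_zero])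
      · exact h (by rw [h2, coeff_zero])
    · intro π hπ hπA hπB
      have : Fact (Irreducible π) := ⟨hπ⟩
      let φ : F[X] →ₐ[F] AdjoinRoot π := AdjoinRoot.mkₐ π
      have hφ : ∀ g : F[X], φ g = 0 ↔ π ∣ g := fun g => AdjoinRoot.mk_eq_zero
      have hA0 : homog n N (φ P) (φ Q) = 0 := by
        rw [← homog_map φ, hφ]; exact hπA
      have hB0 : homog n D (φ P) (φ Q) = 0 := by
        rw [← homog_map φ, hφ]; exact hπB
      have hpq : φ P ≠ 0 ∨ φ Q ≠ 0 := by
        by_contra hcon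
        push Not at hcon
        obtain ⟨h1, h2⟩ := hcon
        rw [hφ] at h1 h2
        obtain ⟨u, v, huv⟩ := hPQ
        have : π ∣ 1 := huv ▸ dvd_add (dvd_mul_of_dvd_right h1 u) (dvd_mul_of_dvd_right h2 v)
        exact hπ.not_isUnit (isUnit_of_dvd_one this)
      rcases homog_ne_zero_of_isCoprime (L := AdjoinRoot π) N D hND n hn.symm (φ P) (φ Q) hpq
        with h | h
      · exact h hA0
      · exact h hB0
  · -- degree
    apply le_antisymm (max_le hA hB)
    rcases htop with h | h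
    · exact le_max_of_le_left (le_natDegree_of_ne_zero h)
    · exact le_max_of_le_right (le_natDegree_of_ne_zero h)

/-- evaluation of a polynomial at a rational function, in terms of the homogenisation -/
theorem aeval_ratFunc_eq (N : F[X]) (n : ℕ) (hn : N.natDegree ≤ n) (S : RatFunc F) :
    aeval S N = algebraMap F[X] (RatFunc F) (homog n N S.num S.denom)
      / algebraMap F[X] (RatFunc F) S.denom ^ n := by
  have hq : algebraMap F[X] (RatFunc F) S.denom ≠ 0 := RatFunc.algebraMap_ne_zero S.denom_ne_zero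
  have h1 := homog_eq_of_ne_zero (L := RatFunc F) n N hn (algebraMap F[X] (RatFunc F) S.num)
    (algebraMap F[X] (RatFunc F) S.denom) hq
  rw [RatFunc.num_div_denom] at h1
  rw [← toRatFuncAlgHom_apply (homog n N S.num S.denom), homog_map, toRatFuncAlgHom_apply,
    toRatFuncAlgHom_apply, h1, mul_div_cancel_left₀ _ (pow_ne_zero n hq)]

/-- `ratDeg S = 0` iff `S` is constant. -/
theorem ratDeg_eq_zero_iff (S : RatFunc F) : ratDeg S = 0 ↔ ∃ c : F, S = RatFunc.C c := by
  constructor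
  · intro h
    rw [ratDeg, Nat.max_eq_zero_iff] at h
    obtain ⟨h1, h2⟩ := h
    refine ⟨S.num.coeff 0 / S.denom.coeff 0, ?_⟩
    conv_lhs => rw [← RatFunc.num_div_denom S]
    rw [eq_C_of_natDegree_eq_zero h1, eq_C_of_natDegree_eq_zero h2]
    simp only [coeff_C_zero, RatFunc.algebraMap_C]
    rw [map_div₀]
  · rintro ⟨c, rfl⟩
    exact ratDeg_C c

/-- **A2d, coprime form.** -/
theorem ratDeg_comp_of_isCoprime (N D : F[X]) (hND : IsCoprime N D) (S : RatFunc F) :
    ratDeg (aeval S N / aeval S D) = max N.natDegree D.natDegree * ratDeg S := by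
  set n := max N.natDegree D.natDegree with hn
  have hNn : N.natDegree ≤ n := le_max_left _ _
  have hDn : D.natDegree ≤ n := le_max_right _ _
  have hq : algebraMap F[X] (RatFunc F) S.denom ≠ 0 := RatFunc.algebraMap_ne_zero S.denom_ne_zero
  rw [aeval_ratFunc_eq N n hNn S, aeval_ratFunc_eq D n hDn S,
    div_div_div_cancel_right₀ (pow_ne_zero n hq)]
  obtain ⟨hcop, hdeg⟩ := ratDeg_homog_div N D S.num S.denom hND S.isCoprime_num_denom
    S.denom_ne_zero
  rw [← hn] at hcop hdeg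
  by_cases hB : homog n D S.num S.denom = 0
  · rw [hB, map_zero, div_zero, ratDeg_zero]
    rw [hB, natDegree_zero] at hdeg
    have hA : IsUnit (homog n N S.num S.denom) := by
      rw [hB] at hcop
      exact isCoprime_zero_right.mp hcop
    rw [natDegree_eq_zero_of_isUnit hA, max_self] at hdeg
    rw [ratDeg]
    exact hdeg
  · rw [ratDeg_div_of_isCoprime _ _ hB hcop, hdeg, ratDeg]

/-- **A2d**: the degree of a composition of rational functions is the product of the degrees.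
Here the composition `R ∘ S` is written `N(S) / D(S)` for `R = N / D` (any representation
with `D ≠ 0`). -/
theorem ratDeg_comp (N D : F[X]) (hD : D ≠ 0) (S : RatFunc F) :
    ratDeg (aeval S N / aeval S D)
      = ratDeg (algebraMap F[X] (RatFunc F) N / algebraMap F[X] (RatFunc F) D) * ratDeg S := by
  classical
  by_cases hS : ratDeg S = 0
  · -- `S` constant
    rw [hS, mul_zero]
    obtain ⟨c, rfl⟩ := (ratDeg_eq_zero_iff S).mp hS
    have h1 : ∀ p : F[X], aeval (RatFunc.C c : RatFunc F) p = RatFunc.C (p.eval c) := by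
      intro p
      have : (RatFunc.C c : RatFunc F) = algebraMap F (RatFunc F) c := by
        rw [RatFunc.algebraMap_eq_C]
      rw [this, aeval_algebraMap_apply, ← RatFunc.algebraMap_eq_C]
      simp
    rw [h1, h1, ← map_div₀, ratDeg_C]
  · -- `S` transcendental
    have htr : Transcendental F S := by
      apply RatFunc.transcendental_of_ne_C
      rintro ⟨c, hc⟩
      exact hS ((ratDeg_eq_zero_iff S).mpr ⟨c, by rw [hc]⟩)
    have hne : ∀ p : F[X], p ≠ 0 → aeval S p ≠ 0 := fun p hp h =>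
      hp ((transcendental_iff.mp htr) p h)
    -- remove the gcd
    set R := algebraMap F[X] (RatFunc F) N / algebraMap F[X] (RatFunc F) D with hR
    have hRnd : algebraMap F[X] (RatFunc F) R.num / algebraMap F[X] (RatFunc F) R.denom = R :=
      RatFunc.num_div_denom R
    have hcross : R.num * D = N * R.denom := by
      have h1 : algebraMap F[X] (RatFunc F) (R.num * D)
          = algebraMap F[X] (RatFunc F) (N * R.denom) := by
        rw [map_mul, map_mul]
        have hD' : algebraMap F[X] (RatFunc F) D ≠ 0 := RatFunc.algebraMap_ne_zero hD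
        have hd' : algebraMap F[X] (RatFunc F) R.denom ≠ 0 :=
          RatFunc.algebraMap_ne_zero R.denom_ne_zero
        have := hRnd
        rw [hR] at this ⊢
        rw [div_eq_div_iff hd' hD'] at this
        exact this
      exact (IsFractionRing.injective F[X] (RatFunc F)) h1
    have hcomp : aeval S N / aeval S D = aeval S R.num / aeval S R.denom := by
      rw [div_eq_div_iff (hne D hD) (hne _ R.denom_ne_zero), ← map_mul, ← map_mul, hcross]
    rw [hcomp, ratDeg_comp_of_isCoprime _ _ R.isCoprime_num_denom]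
    rfl

/-- Special case: powers. -/
theorem ratDeg_pow (S : RatFunc F) (k : ℕ) : ratDeg (S ^ k) = k * ratDeg S := by
  have h := ratDeg_comp (Polynomial.X ^ k : F[X]) 1 one_ne_zero S
  simp only [map_pow, aeval_X, map_one, div_one] at h
  rw [h]
  congr 1
  rw [← map_pow, ratDeg_algebraMap, natDegree_X_pow]

end Fermat.Agent.S52.H621

end
-- ===== PACK-END S52/H621/RatDegComp.lean

-- ===== PACK-BEGIN Lib/Frob/A2/H230/Height.lean
section




/-!
# The degree height on the odd points (helper230)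

Glue between helper311's exact parallelogram law (`H311.hgt_add_sub`), helper621's `ratDeg`
and the odd points of `OddPts.lean`.

* `hgt_some_eq`   : for an odd point `(x, y)` with `x = jhat S`, the height is `ratDeg S`.
* `hgt_parallelogram` : parallelogram law on the odd points.
* `hgt_frob`      : `h (Φ P) = q · h P`.
-/

set_option linter.unusedSectionVars false

open WeierstrassCurve Polynomial
open scoped Polynomial.Bivariate WeierstrassCurve.Affine

namespace Fermat.Agent.Lib.Frob.A2.H230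

open Fermat.Agent.Lib.FrobRel.H230 Fermat.Agent.S52.H311 Fermat.Agent.S52.H621

universe u

variable {F : Type u} [Field F] {W : WeierstrassCurve F} [DecidableEq (KK W)]

/-- The height on points of `W` over its function field. -/
noncomputable def hh (P : (W⁄(KK W)).Point) : ℕ := hgt (jj W) P

lemma isXRep_of_jhat {x y : KK W} (h : (W⁄(KK W)).Nonsingular x y) (S : RatFunc F)
    (hx : x = jhat W S) : IsXRep (jj W) (Affine.Point.some x y h) S.num S.denom := by
  refine isXRep_some h (RatFunc.isCoprime_num_denom S) (jj_denom_ne_zero W S) ?_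
  rw [hx, jhat_eq_num_div_denom, div_mul_cancel₀ _ (jj_denom_ne_zero W S)]

lemma hh_some_eq {x y : KK W} (h : (W⁄(KK W)).Nonsingular x y) (S : RatFunc F)
    (hx : x = jhat W S) : hh (Affine.Point.some x y h) = ratDeg S := by
  rw [hh, hgt_eq (jj_injective W) (isXRep_of_jhat h S hx)]
  rfl

lemma hh_zero : hh (0 : (W⁄(KK W)).Point) = 0 := hgt_zero (jj_injective W)

lemma exists_isXRep_of_mem (ha₁ : W.a₁ = 0) (ha₃ : W.a₃ = 0) (h2 : (2 : F) ≠ 0)
    {P : (W⁄(KK W)).Point} (hP : P ∈ oddPts W) : ∃ a b, IsXRep (jj W) P a b := by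
  rcases P with _ | ⟨x, y, h⟩
  · exact ⟨1, 0, isXRep_zero⟩
  · obtain ⟨S, hS⟩ := exists_ratFunc_of_mem_oddPts ha₁ ha₃ h2 hP
    exact ⟨_, _, isXRep_of_jhat h S hS⟩

/-- **Parallelogram law** for the height on the odd points. -/
theorem hh_parallelogram (ha₁ : W.a₁ = 0) (ha₃ : W.a₃ = 0) (h2 : (2 : F) ≠ 0) (hΔ : W.Δ ≠ 0)
    {P Q : (W⁄(KK W)).Point} (hP : P ∈ oddPts W) (hQ : Q ∈ oddPts W) :
    hh (P + Q) + hh (P - Q) = 2 * hh P + 2 * hh Q := by
  have : W.IsElliptic := ⟨isUnit_iff_ne_zero.mpr hΔ⟩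
  exact hgt_add_sub (W := W) (jj_injective W)
    (exists_isXRep_of_mem ha₁ ha₃ h2 hP) (exists_isXRep_of_mem ha₁ ha₃ h2 hQ)
    (exists_isXRep_of_mem ha₁ ha₃ h2 ((oddPts W).add_mem hP hQ))
    (exists_isXRep_of_mem ha₁ ha₃ h2 ((oddPts W).sub_mem hP hQ))

lemma hh_eq_zero_iff_isConst (ha₁ : W.a₁ = 0) (ha₃ : W.a₃ = 0) (h2 : (2 : F) ≠ 0)
    {P : (W⁄(KK W)).Point} (hP : P ∈ oddPts W) (h0 : hh P = 0) :
    P = 0 ∨ ∃ (x y : KK W) (h : (W⁄(KK W)).Nonsingular x y),
      P = Affine.Point.some x y h ∧ IsAlgebraic F x := by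
  rcases P with _ | ⟨x, y, h⟩
  · exact Or.inl rfl
  · obtain ⟨S, hS⟩ := exists_ratFunc_of_mem_oddPts ha₁ ha₃ h2 hP
    rw [hh_some_eq h S hS, ratDeg_eq_zero_iff] at h0
    obtain ⟨c, rfl⟩ := h0
    refine Or.inr ⟨x, y, h, rfl, ?_⟩
    rw [hS, jhat_C]
    exact isAlgebraic_algebraMap c

end Fermat.Agent.Lib.Frob.A2.H230

end
-- ===== PACK-END Lib/Frob/A2/H230/Height.lean

-- ===== PACK-BEGIN S52/H621/Manin.lean
section



/-!
# S52 / Part A: Manin's count (piece A2c)

For an odd prime `p`, `F = ZMod p` and `f = X³ + A X + B` with `4A³ + 27B² ≠ 0`, the rational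
function

  `R = f (f^((p-1)/2) + 1)² / (X^p - X)² - X^p - X`

(the `x`-coordinate of `Frob(P₀) - P₀` for the generic point `P₀ = (x, y)`) has degree exactly
`#{(x, y) ∈ F² | y² = f(x)} + 1 = #E(F_p)`.
-/

set_option autoImplicit false

open Polynomial

namespace Fermat.Agent.S52.H621

section Generalities

variable (p : ℕ) [Fact p.Prime]

theorem X_pow_sub_X_eq_prod : (X ^ p - X : (ZMod p)[X]) = ∏ c : ZMod p, (X - C c) := by
  have hmonic : (X ^ p - X : (ZMod p)[X]).Monic := by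
    apply monic_X_pow_sub
    rw [degree_X]
    exact_mod_cast (Fact.out : p.Prime).one_lt
  have hroots : (X ^ p - X : (ZMod p)[X]).roots = Finset.univ.val := by
    have := FiniteField.roots_X_pow_card_sub_X (ZMod p)
    rwa [ZMod.card] at this
  have hcard : Multiset.card (X ^ p - X : (ZMod p)[X]).roots
      = (X ^ p - X : (ZMod p)[X]).natDegree := by
    rw [hroots, FiniteField.X_pow_card_sub_X_natDegree_eq _ (Fact.out : p.Prime).one_lt]
    simp [ZMod.card]
  have := prod_multiset_X_sub_C_of_monic_of_roots_card_eq hmonic hcard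
  rw [← this, hroots]
  rfl

/-- number of square roots in `ZMod p`, `p` odd -/
theorem card_sqrt (hp2 : p ≠ 2) (a : ZMod p) :
    (Finset.univ.filter fun y : ZMod p => y ^ 2 = a).card
      = if a = 0 then 1 else if IsSquare a then 2 else 0 := by
  classical
  by_cases ha : a = 0
  · subst ha
    rw [if_pos rfl]
    have : (Finset.univ.filter fun y : ZMod p => y ^ 2 = 0) = {0} := by
      ext y
      simp
    rw [this, Finset.card_singleton]
  · rw [if_neg ha]
    by_cases hsq : IsSquare a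
    · rw [if_pos hsq]
      obtain ⟨b, rfl⟩ := hsq
      have hb : b ≠ 0 := by rintro rfl; simp at ha
      have hbb : b ≠ -b := by
        intro h
        have h2 : (2 : ZMod p) * b = 0 := by
          have : b + b = 0 := by nth_rewrite 1 [h]; simp
          rw [two_mul]; exact this
        rcases mul_eq_zero.mp h2 with h3 | h3
        · have : ((2 : ℕ) : ZMod p) = 0 := by exact_mod_cast h3
          rw [ZMod.natCast_eq_zero_iff] at this
          have := (Nat.prime_dvd_prime_iff_eq (Fact.out : p.Prime) Nat.prime_two).mp this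
          exact hp2 this
        · exact hb h3
      have : (Finset.univ.filter fun y : ZMod p => y ^ 2 = b * b) = {b, -b} := by
        ext y
        simp only [Finset.mem_filter, Finset.mem_univ, true_and, Finset.mem_insert,
          Finset.mem_singleton]
        rw [← sq, sq_eq_sq_iff_eq_or_eq_neg]
      rw [this, Finset.card_pair hbb]
    · rw [if_neg hsq]
      rw [Finset.card_eq_zero, Finset.filter_eq_empty_iff]
      intro y _ hy
      exact hsq ⟨y, by rw [← hy, sq]⟩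

end Generalities

section Manin

variable (p : ℕ) [Fact p.Prime] (A B : ZMod p)

/-- the cubic `X³ + A X + B` -/
noncomputable def cubic : (ZMod p)[X] := X ^ 3 + C A * X + C B

/-- numerator of Manin's function -/
noncomputable def maninNum : (ZMod p)[X] :=
  cubic p A B * (cubic p A B ^ ((p - 1) / 2) + 1) ^ 2 - (X ^ p + X) * (X ^ p - X) ^ 2

/-- denominator of Manin's function -/
noncomputable def maninDen : (ZMod p)[X] := (X ^ p - X) ^ 2

/-- Manin's rational function `x(Frob P₀ - P₀)`. -/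
noncomputable def maninFun : RatFunc (ZMod p) :=
  algebraMap _ _ (maninNum p A B) / algebraMap _ _ (maninDen p)

/-- the local cancellation exponent at `c` -/
noncomputable def cancelExp (c : ZMod p) : ℕ :=
  open Classical in
  if (cubic p A B).eval c = 0 then 1 else if IsSquare ((cubic p A B).eval c) then 0 else 2

theorem cancelExp_le (c : ZMod p) : cancelExp p A B c ≤ 2 := by
  unfold cancelExp
  split_ifs <;> omega

theorem eval_cubic (c : ZMod p) : (cubic p A B).eval c = c ^ 3 + A * c + B := by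
  simp [cubic]

theorem natDegree_cubic : (cubic p A B).natDegree = 3 := by
  unfold cubic
  compute_degree!

theorem cubic_monic : (cubic p A B).Monic := by
  unfold cubic
  monicity!

theorem cubic_ne_zero : cubic p A B ≠ 0 := (cubic_monic p A B).ne_zero

theorem maninDen_eq_prod : maninDen p = ∏ c : ZMod p, (X - C c) ^ 2 := by
  rw [maninDen, X_pow_sub_X_eq_prod, Finset.prod_pow]

/-- the common factor of numerator and denominator -/
noncomputable def cancelPoly : (ZMod p)[X] := ∏ c : ZMod p, (X - C c) ^ cancelExp p A B c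

/-- the reduced denominator -/
noncomputable def redDen : (ZMod p)[X] := ∏ c : ZMod p, (X - C c) ^ (2 - cancelExp p A B c)

theorem maninDen_eq : maninDen p = cancelPoly p A B * redDen p A B := by
  rw [maninDen_eq_prod, cancelPoly, redDen, ← Finset.prod_mul_distrib]
  refine Finset.prod_congr rfl fun c _ => ?_
  rw [← pow_add, Nat.add_sub_cancel' (cancelExp_le p A B c)]

theorem cancelPoly_monic : (cancelPoly p A B).Monic :=
  monic_prod_of_monic _ _ fun c _ => (monic_X_sub_C c).pow _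

theorem redDen_monic : (redDen p A B).Monic :=
  monic_prod_of_monic _ _ fun c _ => (monic_X_sub_C c).pow _

theorem natDegree_cancelPoly :
    (cancelPoly p A B).natDegree = ∑ c : ZMod p, cancelExp p A B c := by
  rw [cancelPoly, natDegree_prod_of_monic _ _ fun c _ => (monic_X_sub_C c).pow _]
  refine Finset.sum_congr rfl fun c _ => ?_
  rw [natDegree_pow, natDegree_X_sub_C, mul_one]

theorem natDegree_redDen :
    (redDen p A B).natDegree = ∑ c : ZMod p, (2 - cancelExp p A B c) := by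
  rw [redDen, natDegree_prod_of_monic _ _ fun c _ => (monic_X_sub_C c).pow _]
  refine Finset.sum_congr rfl fun c _ => ?_
  rw [natDegree_pow, natDegree_X_sub_C, mul_one]

theorem eval_maninNum (c : ZMod p) :
    (maninNum p A B).eval c
      = (cubic p A B).eval c * ((cubic p A B).eval c ^ ((p - 1) / 2) + 1) ^ 2 := by
  simp [maninNum, ZMod.pow_card]

variable {p} in
theorem half_spec (hp2 : p ≠ 2) : 2 * ((p - 1) / 2) + 1 = p ∧ (p - 1) / 2 = p / 2 ∧
    1 ≤ (p - 1) / 2 := by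
  have h1 := (Fact.out : p.Prime).two_le
  have h2 : p % 2 = 1 := (Fact.out : p.Prime).eq_two_or_odd.resolve_left hp2
  omega

/-- divisibility of the numerator by the local factors -/
theorem pow_cancelExp_dvd_maninNum (hp2 : p ≠ 2) (c : ZMod p) :
    (X - C c) ^ cancelExp p A B c ∣ maninNum p A B := by
  classical
  obtain ⟨-, hm, -⟩ := half_spec hp2
  unfold cancelExp
  by_cases h0 : (cubic p A B).eval c = 0
  · rw [if_pos h0, pow_one, dvd_iff_isRoot, IsRoot.def, eval_maninNum, h0, zero_mul]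
  · rw [if_neg h0]
    by_cases hsq : IsSquare ((cubic p A B).eval c)
    · rw [if_pos hsq, pow_zero]; exact one_dvd _
    · rw [if_neg hsq]
      have hneg : (cubic p A B).eval c ^ ((p - 1) / 2) = -1 := by
        rw [hm]
        rcases ZMod.pow_div_two_eq_neg_one_or_one p h0 with h | h
        · exact absurd ((ZMod.euler_criterion p h0).mpr h) hsq
        · exact h
      have h1 : (X - C c) ∣ cubic p A B ^ ((p - 1) / 2) + 1 := by
        rw [dvd_iff_isRoot, IsRoot.def, eval_add, eval_pow, hneg, eval_one]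
        ring
      have h2 : (X - C c) ∣ (X ^ p - X : (ZMod p)[X]) := by
        rw [dvd_iff_isRoot, IsRoot.def, eval_sub, eval_pow, eval_X, ZMod.pow_card, sub_self]
      unfold maninNum
      exact dvd_sub (dvd_mul_of_dvd_right (pow_dvd_pow_of_dvd h1 2) _)
        (dvd_mul_of_dvd_right (pow_dvd_pow_of_dvd h2 2) _)

theorem cancelPoly_dvd_maninNum (hp2 : p ≠ 2) : cancelPoly p A B ∣ maninNum p A B := by
  unfold cancelPoly
  refine Finset.prod_dvd_of_coprime ?_ fun c _ => pow_cancelExp_dvd_maninNum p A B hp2 c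
  intro c _ c' _ hcc'
  exact (pairwise_coprime_X_sub_C (K := ZMod p) (s := id) Function.injective_id hcc').pow

/-- Frobenius on the cubic -/
theorem cubic_pow_p : cubic p A B ^ p = X ^ (3 * p) + C A * X ^ p + C B := by
  unfold cubic
  rw [add_pow_char, add_pow_char, mul_pow, ← C_pow, ← C_pow, ZMod.pow_card, ZMod.pow_card,
    ← pow_mul]

theorem maninNum_eq (hp2 : p ≠ 2) :
    maninNum p A B = X ^ (2 * p + 1)
      + (X ^ (p + 2) - X ^ 3 + C A * X ^ p + C B
          + 2 * cubic p A B ^ ((p - 1) / 2 + 1) + cubic p A B) := by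
  obtain ⟨hm, -, -⟩ := half_spec hp2
  have h1 : cubic p A B * (cubic p A B ^ ((p - 1) / 2) + 1) ^ 2
      = cubic p A B ^ (2 * ((p - 1) / 2) + 1) + 2 * cubic p A B ^ ((p - 1) / 2 + 1)
        + cubic p A B := by ring
  rw [hm, cubic_pow_p] at h1
  rw [maninNum, h1]
  ring

theorem natDegree_maninNum (hp2 : p ≠ 2) : (maninNum p A B).natDegree = 2 * p + 1 := by
  obtain ⟨hm, -, -⟩ := half_spec hp2
  have hp1 := (Fact.out : p.Prime).one_lt
  rw [maninNum_eq p A B hp2]
  have hlow : (X ^ (p + 2) - X ^ 3 + C A * X ^ p + C B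
          + 2 * cubic p A B ^ ((p - 1) / 2 + 1) + cubic p A B : (ZMod p)[X]).natDegree
        < 2 * p + 1 := by
    have e1 : (X ^ (p + 2) : (ZMod p)[X]).natDegree ≤ 2 * p := by
      rw [natDegree_X_pow]; omega
    have e2 : (X ^ 3 : (ZMod p)[X]).natDegree ≤ 2 * p := by
      rw [natDegree_X_pow]; omega
    have e3 : (C A * X ^ p : (ZMod p)[X]).natDegree ≤ 2 * p :=
      (natDegree_C_mul_le _ _).trans (by rw [natDegree_X_pow]; omega)
    have e4 : (C B : (ZMod p)[X]).natDegree ≤ 2 * p := by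
      rw [natDegree_C]; omega
    have e5 : (2 * cubic p A B ^ ((p - 1) / 2 + 1) : (ZMod p)[X]).natDegree ≤ 2 * p := by
      rw [two_mul]
      have e5' : (cubic p A B ^ ((p - 1) / 2 + 1)).natDegree ≤ 2 * p := by
        refine natDegree_pow_le.trans ?_
        rw [natDegree_cubic]
        omega
      exact natDegree_add_le_of_degree_le e5' e5'
    have e6 : (cubic p A B).natDegree ≤ 2 * p := by
      rw [natDegree_cubic]; omega
    have e12 : (X ^ (p + 2) - X ^ 3 : (ZMod p)[X]).natDegree ≤ 2 * p :=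
      (natDegree_sub_le _ _).trans (max_le e1 e2)
    have := natDegree_add_le_of_degree_le (natDegree_add_le_of_degree_le
      (natDegree_add_le_of_degree_le (natDegree_add_le_of_degree_le e12 e3) e4) e5) e6
    omega
  rw [natDegree_add_eq_left_of_natDegree_lt (by rwa [natDegree_X_pow]), natDegree_X_pow]

theorem maninNum_ne_zero (hp2 : p ≠ 2) : maninNum p A B ≠ 0 := by
  intro h
  have := natDegree_maninNum p A B hp2
  rw [h, natDegree_zero] at this
  omega

/-- the derivative of the numerator at a root of the cubic -/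
theorem eval_derivative_maninNum (hp2 : p ≠ 2) (c : ZMod p)
    (hc : (cubic p A B).eval c = 0) :
    (derivative (maninNum p A B)).eval c = (derivative (cubic p A B)).eval c := by
  obtain ⟨-, -, hm1⟩ := half_spec hp2
  have hW : (X ^ p - X : (ZMod p)[X]).eval c = 0 := by
    rw [eval_sub, eval_pow, eval_X, ZMod.pow_card, sub_self]
  have hm0 : (p - 1) / 2 ≠ 0 := by omega
  unfold maninNum
  rw [derivative_sub, derivative_mul, derivative_mul, eval_sub, eval_add, eval_add, eval_mul,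
    eval_mul, eval_mul, eval_mul, hc, zero_mul, add_zero, eval_pow (n := 2), eval_pow (n := 2), hW,
    derivative_pow (p := X ^ p - X), eval_mul, eval_mul, eval_pow, hW]
  simp [hc, hm0]

/-- the cubic has simple roots -/
theorem eval_derivative_cubic_ne_zero (hΔ : 4 * A ^ 3 + 27 * B ^ 2 ≠ 0) (c : ZMod p)
    (hc : (cubic p A B).eval c = 0) : (derivative (cubic p A B)).eval c ≠ 0 := by
  intro hd
  apply hΔ
  have h1 : c ^ 3 + A * c + B = 0 := by rw [← eval_cubic]; exact hc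
  have h2 : 3 * c ^ 2 + A = 0 := by
    have : (derivative (cubic p A B)).eval c = 3 * c ^ 2 + A := by
      simp [cubic, derivative_pow]
    rw [← this]; exact hd
  linear_combination (4 * (3 * c ^ 2 + A) ^ 2 - 9 * (3 * c ^ 2 + A) * c ^ 2
    - 54 * (c ^ 3 + A * c + B) * c) * h2 + (27 * (c ^ 3 + A * c + B) + 108 * c ^ 3) * h1

theorem eval_cancelPoly_eq_zero (c : ZMod p) (hc : cancelExp p A B c ≠ 0) :
    (cancelPoly p A B).eval c = 0 := by
  rw [cancelPoly, eval_prod]
  refine Finset.prod_eq_zero (Finset.mem_univ c) ?_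
  rw [eval_pow, eval_sub, eval_X, eval_C, sub_self, zero_pow hc]

theorem two_ne_zero_zmod (hp2 : p ≠ 2) : (2 : ZMod p) ≠ 0 := by
  intro h
  have : ((2 : ℕ) : ZMod p) = 0 := by exact_mod_cast h
  rw [ZMod.natCast_eq_zero_iff] at this
  exact hp2 ((Nat.prime_dvd_prime_iff_eq (Fact.out : p.Prime) Nat.prime_two).mp this)

/-- the reduced numerator does not vanish at the roots of the reduced denominator -/
theorem eval_redNum_ne_zero (hp2 : p ≠ 2) (hΔ : 4 * A ^ 3 + 27 * B ^ 2 ≠ 0)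
    (N' : (ZMod p)[X]) (hN' : maninNum p A B = cancelPoly p A B * N') (c : ZMod p)
    (hc : cancelExp p A B c < 2) : N'.eval c ≠ 0 := by
  classical
  obtain ⟨-, hm, -⟩ := half_spec hp2
  intro h0
  by_cases hf : (cubic p A B).eval c = 0
  · -- simple root: derivative argument
    have he : cancelExp p A B c ≠ 0 := by
      unfold cancelExp; rw [if_pos hf]; exact one_ne_zero
    have h1 := eval_derivative_maninNum p A B hp2 c hf
    rw [hN', derivative_mul, eval_add, eval_mul, eval_mul, h0, mul_zero, zero_add,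
      eval_cancelPoly_eq_zero p A B c he, zero_mul] at h1
    exact eval_derivative_cubic_ne_zero p A B hΔ c hf h1.symm
  · have hsq : IsSquare ((cubic p A B).eval c) := by
      by_contra hsq
      unfold cancelExp at hc
      rw [if_neg hf, if_neg hsq] at hc
      omega
    have h1 : (cubic p A B).eval c ^ ((p - 1) / 2) = 1 := by
      rw [hm]; exact (ZMod.euler_criterion p hf).mp hsq
    have h2 := eval_maninNum p A B c
    rw [hN', eval_mul, h0, mul_zero, h1] at h2
    have h3 : (1 + 1 : ZMod p) = 2 := by norm_num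
    rw [h3] at h2
    exact (mul_ne_zero hf (pow_ne_zero 2 (two_ne_zero_zmod p hp2))) h2.symm

theorem isCoprime_redNum_redDen (hp2 : p ≠ 2) (hΔ : 4 * A ^ 3 + 27 * B ^ 2 ≠ 0)
    (N' : (ZMod p)[X]) (hN' : maninNum p A B = cancelPoly p A B * N') :
    IsCoprime N' (redDen p A B) := by
  unfold redDen
  refine IsCoprime.prod_right fun c _ => ?_
  by_cases hc : cancelExp p A B c < 2
  · refine IsCoprime.pow_right ?_
    refine ((irreducible_X_sub_C c).coprime_iff_not_dvd.mpr ?_).symm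
    rw [dvd_iff_isRoot]
    exact eval_redNum_ne_zero p A B hp2 hΔ N' hN' c hc
  · have : 2 - cancelExp p A B c = 0 := by omega
    rw [this, pow_zero]
    exact isCoprime_one_right

/-- the number of affine points, fibrewise -/
theorem card_affine (hp2 : p ≠ 2) :
    Nat.card {q : ZMod p × ZMod p // q.2 ^ 2 = q.1 ^ 3 + A * q.1 + B}
      = ∑ c : ZMod p, (2 - cancelExp p A B c) := by
  classical
  rw [Nat.card_eq_fintype_card, Fintype.card_subtype, Finset.card_filter,
    Fintype.sum_prod_type]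
  refine Finset.sum_congr rfl fun c _ => ?_
  rw [← Finset.card_filter]
  have := card_sqrt p hp2 (c ^ 3 + A * c + B)
  simp only at this ⊢
  rw [this, cancelExp, eval_cubic]
  split_ifs <;> rfl

/-- **A2c (Manin's count)**: the degree of `x(Frob P₀ - P₀)` is the number of points of the
curve `y² = x³ + A x + B` over `F_p` (including the point at infinity). -/
theorem ratDeg_maninFun (hp2 : p ≠ 2) (hΔ : 4 * A ^ 3 + 27 * B ^ 2 ≠ 0) :
    ratDeg (maninFun p A B)
      = Nat.card {q : ZMod p × ZMod p // q.2 ^ 2 = q.1 ^ 3 + A * q.1 + B} + 1 := by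
  obtain ⟨N', hN'⟩ := cancelPoly_dvd_maninNum p A B hp2
  have hDen : maninDen p ≠ 0 := by
    rw [maninDen_eq p A B]
    exact mul_ne_zero (cancelPoly_monic p A B).ne_zero (redDen_monic p A B).ne_zero
  have hcop := isCoprime_redNum_redDen p A B hp2 hΔ N' hN'
  rw [maninFun, ratDeg_div_of_eq_mul _ _ (cancelPoly p A B) N' (redDen p A B) hDen hN'
    (maninDen_eq p A B) hcop, card_affine p A B hp2]
  -- degrees
  have hN0 : N' ≠ 0 := by
    rintro rfl
    exact maninNum_ne_zero p A B hp2 (by rw [hN', mul_zero])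
  have hdN : (cancelPoly p A B).natDegree + N'.natDegree = 2 * p + 1 := by
    rw [← natDegree_mul (cancelPoly_monic p A B).ne_zero hN0, ← hN', natDegree_maninNum p A B hp2]
  have hdD : (cancelPoly p A B).natDegree + (redDen p A B).natDegree = 2 * p := by
    rw [← natDegree_mul (cancelPoly_monic p A B).ne_zero (redDen_monic p A B).ne_zero,
      ← maninDen_eq, maninDen, natDegree_pow,
      FiniteField.X_pow_card_sub_X_natDegree_eq _ (Fact.out : p.Prime).one_lt]
  rw [← natDegree_redDen]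
  omega

end Manin

end Fermat.Agent.S52.H621

end
-- ===== PACK-END S52/H621/Manin.lean

-- ===== PACK-BEGIN S52/H621/ManinCard.lean
section




/-!
# S52 / Part A: Manin's count in terms of `WeierstrassCurve.card` / `traceOfFrobenius`
-/

set_option autoImplicit false

open Polynomial

namespace Fermat.Agent.S52.H621

section

variable {F : Type*} [Field F]

/-- points of a Weierstrass curve with `Δ ≠ 0` = solutions of the equation + the point at
infinity -/
noncomputable def pointEquivOption (W : WeierstrassCurve.Affine F) (hΔ : W.Δ ≠ 0) :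
    W.Point ≃ Option {q : F × F // W.Equation q.1 q.2} where
  toFun
    | .zero => none
    | .some x y h => some ⟨(x, y), h.1⟩
  invFun
    | none => .zero
    | some q => .some q.1.1 q.1.2 ((W.equation_iff_nonsingular_of_Δ_ne_zero hΔ).mp q.2)
  left_inv := by rintro (_ | _) <;> rfl
  right_inv := by rintro (_ | _) <;> rfl

theorem card_point_eq [Finite F] (W : WeierstrassCurve.Affine F) (hΔ : W.Δ ≠ 0) :
    Nat.card W.Point = Nat.card {q : F × F // W.Equation q.1 q.2} + 1 := by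
  rw [Nat.card_congr (pointEquivOption W hΔ), Finite.card_option]

end

variable (p : ℕ) [Fact p.Prime]

/-- The short Weierstrass curve `y² = x³ + A x + B`. -/
def shortW (A B : ZMod p) : WeierstrassCurve (ZMod p) := ⟨0, 0, 0, A, B⟩

theorem shortW_Δ (A B : ZMod p) : (shortW p A B).Δ = -16 * (4 * A ^ 3 + 27 * B ^ 2) := by
  simp only [shortW, WeierstrassCurve.Δ, WeierstrassCurve.b₂, WeierstrassCurve.b₄,
    WeierstrassCurve.b₆, WeierstrassCurve.b₈]
  ring

theorem shortW_equation (A B x y : ZMod p) :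
    (shortW p A B).toAffine.Equation x y ↔ y ^ 2 = x ^ 3 + A * x + B := by
  rw [WeierstrassCurve.Affine.equation_iff]
  simp [shortW]

theorem shortW_card (A B : ZMod p) (hΔ : (shortW p A B).Δ ≠ 0) :
    (shortW p A B).card
      = Nat.card {q : ZMod p × ZMod p // q.2 ^ 2 = q.1 ^ 3 + A * q.1 + B} + 1 := by
  rw [WeierstrassCurve.card, card_point_eq _ hΔ]
  congr 1
  apply Nat.card_congr
  exact Equiv.subtypeEquivRight fun q => shortW_equation p A B q.1 q.2

/-- **A2c**, curve form: `deg x(Frob P₀ - P₀) = #E(F_p)`. -/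
theorem ratDeg_maninFun_eq_card (hp2 : p ≠ 2) (A B : ZMod p) (hΔ : (shortW p A B).Δ ≠ 0) :
    ratDeg (maninFun p A B) = (shortW p A B).card := by
  have h : 4 * A ^ 3 + 27 * B ^ 2 ≠ 0 := by
    intro h0
    apply hΔ
    rw [shortW_Δ, h0, mul_zero]
  rw [ratDeg_maninFun p A B hp2 h, shortW_card p A B hΔ]

/-- **A2c**, trace form: `deg x(Frob P₀ - P₀) = p + 1 - a_p`. -/
theorem ratDeg_maninFun_eq_trace (hp2 : p ≠ 2) (A B : ZMod p) (hΔ : (shortW p A B).Δ ≠ 0) :
    (ratDeg (maninFun p A B) : ℤ) = p + 1 - (shortW p A B).traceOfFrobenius := by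
  rw [ratDeg_maninFun_eq_card p hp2 A B hΔ, WeierstrassCurve.traceOfFrobenius, Nat.card_zmod]
  ring

end Fermat.Agent.S52.H621

end
-- ===== PACK-END S52/H621/ManinCard.lean

-- ===== PACK-BEGIN Lib/Frob/A2/H230/FrobHeight.lean
section



/-!
# Frobenius and the height on odd points (helper230)

* `hh_frob`     : `h (Φ P) = q · h P` on odd points (any finite field, short form, char ≠ 2).
* `hh_frob_sub` : `h (Φ P - P) = ratDeg (maninFun) · h P` on odd points of `y² = x³ + A x + B`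
  over `ZMod p`, `p ≠ 2`.
-/

set_option linter.unusedSectionVars false

open WeierstrassCurve Polynomial
open scoped Polynomial.Bivariate WeierstrassCurve.Affine

namespace Fermat.Agent.Lib.Frob.A2.H230

open Fermat.Agent.Lib.FrobRel.H230 Fermat.Agent.S52.H311 Fermat.Agent.S52.H621

universe u

section General

variable {F : Type u} [Field F] [Fintype F] {W : WeierstrassCurve F} [DecidableEq (KK W)]

lemma frobPt_mem_oddPts {P : (W⁄(KK W)).Point} (hP : P ∈ oddPts W) :
    _root_.Fermat.Agent.Lib.FrobRel.H230.frobPt W (KK W) P ∈ oddPts W :=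
  map_mem_oddPts _ (fun P => frobPt_map W (tau W) P) hP

lemma frobPt_some_exists {L : Type*} [Field L] [Algebra F L] [DecidableEq L] {x y : L}
    (h : (W⁄L).Nonsingular x y) :
    ∃ h' : (W⁄L).Nonsingular (x ^ Fintype.card F) (y ^ Fintype.card F),
      _root_.Fermat.Agent.Lib.FrobRel.H230.frobPt W L (Affine.Point.some x y h)
        = Affine.Point.some (x ^ Fintype.card F) (y ^ Fintype.card F) h' :=
  ⟨_, frobPt_some W L h⟩

lemma hh_frob (ha₁ : W.a₁ = 0) (ha₃ : W.a₃ = 0) (h2 : (2 : F) ≠ 0)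
    {P : (W⁄(KK W)).Point} (hP : P ∈ oddPts W) :
    hh (_root_.Fermat.Agent.Lib.FrobRel.H230.frobPt W (KK W) P) = Fintype.card F * hh P := by
  rcases P with _ | ⟨x, y, h⟩
  · have : _root_.Fermat.Agent.Lib.FrobRel.H230.frobPt W (KK W) (Affine.Point.zero) = 0 := map_zero _
    rw [this]
    show hh (0 : (W⁄(KK W)).Point) = _ * hh (0 : (W⁄(KK W)).Point)
    rw [hh_zero, mul_zero]
  · obtain ⟨S, hS⟩ := exists_ratFunc_of_mem_oddPts ha₁ ha₃ h2 hP
    obtain ⟨h', e⟩ := frobPt_some_exists h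
    rw [e, hh_some_eq h S hS,
      hh_some_eq h' (S ^ Fintype.card F) (by rw [hS, map_pow]), ratDeg_pow]

lemma hh_neg (ha₁ : W.a₁ = 0) (ha₃ : W.a₃ = 0) (h2 : (2 : F) ≠ 0) (hΔ : W.Δ ≠ 0)
    {P : (W⁄(KK W)).Point} (hP : P ∈ oddPts W) : hh (-P) = hh P := by
  have := hh_parallelogram ha₁ ha₃ h2 hΔ (oddPts W).zero_mem hP
  rw [zero_add, zero_sub, hh_zero] at this
  omega

lemma hh_neg_sub_self (ha₁ : W.a₁ = 0) (ha₃ : W.a₃ = 0) (h2 : (2 : F) ≠ 0) (hΔ : W.Δ ≠ 0)
    {P : (W⁄(KK W)).Point} (hP : P ∈ oddPts W) : hh (-P - P) = 4 * hh P := by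
  have := hh_parallelogram ha₁ ha₃ h2 hΔ ((oddPts W).neg_mem hP) hP
  rw [neg_add_cancel, hh_zero, hh_neg ha₁ ha₃ h2 hΔ hP] at this
  omega

end General

section Manin

variable (p : ℕ) [Fact p.Prime] (A B : ZMod p)

lemma maninDen_ne_zero' : maninDen p ≠ 0 := by
  rw [maninDen_eq p 0 0]
  exact mul_ne_zero (cancelPoly_monic p 0 0).ne_zero (redDen_monic p 0 0).ne_zero

variable {p A B}

lemma equation_short {x y : KK (shortW p A B)}
    (h : ((shortW p A B)⁄(KK (shortW p A B))).Equation x y) :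
    y ^ 2 = x ^ 3 + algebraMap (ZMod p) (KK (shortW p A B)) A * x
      + algebraMap (ZMod p) (KK (shortW p A B)) B := by
  rw [Affine.equation_iff] at h
  have h1 : ((shortW p A B)⁄(KK (shortW p A B))).a₁ = 0 := map_zero _
  have h2 : ((shortW p A B)⁄(KK (shortW p A B))).a₂ = 0 := map_zero _
  have h3 : ((shortW p A B)⁄(KK (shortW p A B))).a₃ = 0 := map_zero _
  have h4 : ((shortW p A B)⁄(KK (shortW p A B))).a₄
      = algebraMap (ZMod p) (KK (shortW p A B)) A := rfl
  have h6 : ((shortW p A B)⁄(KK (shortW p A B))).a₆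
      = algebraMap (ZMod p) (KK (shortW p A B)) B := rfl
  rw [h1, h2, h3, h4, h6] at h
  linear_combination h

lemma addX_short (x₁ x₂ l : KK (shortW p A B)) :
    ((shortW p A B)⁄(KK (shortW p A B))).addX x₁ x₂ l = l ^ 2 - x₁ - x₂ := by
  have h1 : ((shortW p A B)⁄(KK (shortW p A B))).a₁ = 0 := map_zero _
  have h2 : ((shortW p A B)⁄(KK (shortW p A B))).a₂ = 0 := map_zero _
  rw [Affine.addX, h1, h2]
  ring

lemma aeval_cubic (x : KK (shortW p A B)) :
    aeval x (cubic p A B) = x ^ 3 + algebraMap (ZMod p) (KK (shortW p A B)) A * x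
      + algebraMap (ZMod p) (KK (shortW p A B)) B := by
  simp [cubic]

lemma aeval_maninDen (x : KK (shortW p A B)) :
    aeval x (maninDen p) = (x ^ p - x) ^ 2 := by
  simp [maninDen]

lemma aeval_maninNum (x : KK (shortW p A B)) :
    aeval x (maninNum p A B) = aeval x (cubic p A B) * (aeval x (cubic p A B) ^ ((p - 1) / 2) + 1) ^ 2
      - (x ^ p + x) * (x ^ p - x) ^ 2 := by
  simp [maninNum]

/-- The `x`-coordinate of `Φ P - P` is Manin's function of the `x`-coordinate of `P`. -/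
lemma manin_x (hp2 : p ≠ 2) {x y : KK (shortW p A B)}
    (heq : ((shortW p A B)⁄(KK (shortW p A B))).Equation x y) (hx : x ^ p ≠ x) :
    ((y ^ p + y) / (x ^ p - x)) ^ 2 - x ^ p - x
      = aeval x (maninNum p A B) / aeval x (maninDen p) := by
  obtain ⟨hm, -, -⟩ := half_spec hp2
  have hy : y ^ p = y * (y ^ 2) ^ ((p - 1) / 2) := by
    have e : y ^ (2 * ((p - 1) / 2) + 1) = y ^ p := congrArg (fun n : ℕ => y ^ n) hm
    rw [← e, pow_succ, pow_mul]
    ring
  have hd : x ^ p - x ≠ 0 := sub_ne_zero.mpr hx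
  rw [aeval_maninNum, aeval_maninDen, aeval_cubic, ← equation_short heq, hy]
  field_simp
  ring

lemma jhat_manin (x : KK (shortW p A B)) (S : RatFunc (ZMod p))
    (hS : x = jhat (shortW p A B) S) :
    jhat (shortW p A B) (aeval S (maninNum p A B) / aeval S (maninDen p))
      = aeval x (maninNum p A B) / aeval x (maninDen p) := by
  rw [map_div₀, hS, Polynomial.aeval_algHom_apply, Polynomial.aeval_algHom_apply]

variable [DecidableEq (KK (shortW p A B))]

/-- **Manin's count on the odd points**: `h (Φ P - P) = ratDeg (maninFun) · h P`. -/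
theorem hh_frob_sub (hp2 : p ≠ 2) (hΔ : (shortW p A B).Δ ≠ 0)
    {P : ((shortW p A B)⁄(KK (shortW p A B))).Point} (hP : P ∈ oddPts (shortW p A B)) :
    hh (_root_.Fermat.Agent.Lib.FrobRel.H230.frobPt (shortW p A B) (KK (shortW p A B)) P - P)
      = ratDeg (maninFun p A B) * hh P := by
  have ha₁ : (shortW p A B).a₁ = 0 := rfl
  have ha₃ : (shortW p A B).a₃ = 0 := rfl
  have h2 : (2 : ZMod p) ≠ 0 := two_ne_zero_zmod p hp2
  have hq : Fintype.card (ZMod p) = p := ZMod.card p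
  rcases P with _ | ⟨x, y, h⟩
  · have e0 : _root_.Fermat.Agent.Lib.FrobRel.H230.frobPt (shortW p A B) (KK (shortW p A B)) (Affine.Point.zero) - Affine.Point.zero
        = (0 : ((shortW p A B)⁄(KK (shortW p A B))).Point) := by
      have : (Affine.Point.zero : ((shortW p A B)⁄(KK (shortW p A B))).Point) = 0 := rfl
      rw [this, map_zero, sub_zero]
    rw [e0]
    show hh (0 : ((shortW p A B)⁄(KK (shortW p A B))).Point)
      = _ * hh (0 : ((shortW p A B)⁄(KK (shortW p A B))).Point)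
    rw [hh_zero, mul_zero]
  · obtain ⟨S, hS⟩ := exists_ratFunc_of_mem_oddPts ha₁ ha₃ h2 hP
    obtain ⟨h', e⟩ := frobPt_some_exists h
    by_cases hx : x ^ p = x
    · -- constant `x`-coordinate
      have hS0 : ratDeg S = 0 := by
        have hSp : S ^ p = S := jhat_injective _ (by rw [map_pow, ← hS, hx])
        have h3 := ratDeg_pow S p
        rw [hSp] at h3
        have h4 := (Fact.out : p.Prime).two_le
        by_contra hne
        have : 0 < ratDeg S := Nat.pos_of_ne_zero hne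
        nlinarith
      have hhP : hh (Affine.Point.some x y h) = 0 := by rw [hh_some_eq h S hS, hS0]
      rw [hhP, mul_zero]
      have hxx : x ^ Fintype.card (ZMod p) = x := by rw [hq]; exact hx
      rcases (Affine.Point.X_eq_iff (h₁ := h') (h₂ := h)).mp hxx with e1 | e1
      · rw [e, e1, sub_self]; exact hh_zero
      · rw [e, e1, hh_neg_sub_self ha₁ ha₃ h2 hΔ hP, hhP, mul_zero]
    · -- generic case
      have hxne : x ^ Fintype.card (ZMod p) ≠ x := by rw [hq]; exact hx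
      rw [e, sub_eq_add_neg, Affine.Point.neg_some, Affine.Point.add_of_X_ne hxne]
      rw [hh_some_eq _ (aeval S (maninNum p A B) / aeval S (maninDen p)),
        ratDeg_comp _ _ (maninDen_ne_zero' p) S, hh_some_eq h S hS]
      · rfl
      · rw [jhat_manin x S hS, ← manin_x hp2 h.1 hx, addX_short, Affine.slope_of_X_ne hxne,
          negY_eq_neg ha₁ ha₃, hq, sub_neg_eq_add]

end Manin

end Fermat.Agent.Lib.Frob.A2.H230

end
-- ===== PACK-END Lib/Frob/A2/H230/FrobHeight.lean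

-- ===== PACK-BEGIN Lib/VC/BaseChange.lean
section


/-!
# Shared lib `VC`: change of variables on points, base-changed version and naturality

For `W : WeierstrassCurve k`, `C : VariableChange k` and a field `F` over `k` we get
`vcPointBC : ((C • W)⁄F).Point ≃+ (W⁄F).Point`, natural in `F` (`Point.map`).
Consequences: equality of point counts, and transfer of any relation between `Point.map f`'s
(e.g. the Frobenius relation `Φ² − aΦ + ℓ = 0`) from `C • W` to `W`.

(helper240)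
-/

set_option autoImplicit false
set_option linter.unusedSectionVars false

namespace Fermat.Agent.Lib.VC

open WeierstrassCurve WeierstrassCurve.Affine

section congr

variable {F : Type*} [Field F] [DecidableEq F]

/-- Transport of points along an equality of curves. -/
def pointCongr {W₁ W₂ : WeierstrassCurve F} (h : W₁ = W₂) :
    W₁.toAffine.Point ≃+ W₂.toAffine.Point := by
  subst h
  exact AddEquiv.refl _

theorem pointCongr_zero {W₁ W₂ : WeierstrassCurve F} (h : W₁ = W₂) :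
    pointCongr h (0 : W₁.toAffine.Point) = 0 := by
  subst h; rfl

theorem pointCongr_some {W₁ W₂ : WeierstrassCurve F} (h : W₁ = W₂) {x y : F}
    (hxy : W₁.toAffine.Nonsingular x y) :
    pointCongr h (Point.some x y hxy) = Point.some x y (h ▸ hxy) := by
  subst h; rfl

end congr

section baseChange

variable {k : Type*} [CommRing k] (W : WeierstrassCurve k) (C : VariableChange k)
variable (F : Type*) [Field F] [Algebra k F] [DecidableEq F]
variable (K : Type*) [Field K] [Algebra k K] [DecidableEq K]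

theorem baseChange_smul :
    (C.baseChange F) • (W.baseChange F) = (C • W).baseChange F :=
  map_variableChange W C (algebraMap k F)

/-- The change of variables on `F`-points, for a curve and a change of variables defined
over `k`. -/
noncomputable def vcPointBC : ((C • W)⁄F).Point ≃+ (W⁄F).Point :=
  (pointCongr (baseChange_smul W C F).symm).trans (vcPoint (W.baseChange F) (C.baseChange F))

theorem vcPointBC_zero : vcPointBC W C F 0 = 0 := by
  simp [vcPointBC, pointCongr_zero]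

theorem vcPointBC_some {x y : F} (h : ((C • W)⁄F).Nonsingular x y) :
    ∃ h' : (W⁄F).Nonsingular (vcX (C.baseChange F) x) (vcY (C.baseChange F) x y),
      vcPointBC W C F (Point.some x y h) = Point.some _ _ h' := by
  refine ⟨?_, ?_⟩
  · exact (nonsingular_smul_iff (W.baseChange F) (C.baseChange F) x y).mp
      ((baseChange_smul W C F).symm ▸ h)
  · simp only [vcPointBC, AddEquiv.trans_apply, pointCongr_some, vcPoint_some]

variable {F K}

theorem map_vcX (f : F →ₐ[k] K) (x : F) :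
    f (vcX (C.baseChange F) x) = vcX (C.baseChange K) (f x) := by
  simp only [vcX, VariableChange.baseChange, VariableChange.map, Units.coe_map,
    MonoidHom.coe_coe, map_add, map_mul, map_pow, AlgHom.commutes]

theorem map_vcY (f : F →ₐ[k] K) (x y : F) :
    f (vcY (C.baseChange F) x y) = vcY (C.baseChange K) (f x) (f y) := by
  simp only [vcY, VariableChange.baseChange, VariableChange.map, Units.coe_map,
    MonoidHom.coe_coe, map_add, map_mul, map_pow, AlgHom.commutes]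

/-- **Naturality** of the change of variables on points. -/
theorem map_vcPointBC (f : F →ₐ[k] K) (P : ((C • W)⁄F).Point) :
    Point.map (W' := W) f (vcPointBC W C F P)
      = vcPointBC W C K (Point.map (W' := C • W) f P) := by
  rcases P with _ | ⟨x, y, h⟩
  · change Point.map (W' := W) f (vcPointBC W C F 0)
      = vcPointBC W C K (Point.map (W' := C • W) f 0)
    rw [vcPointBC_zero, map_zero, map_zero, vcPointBC_zero]
  · obtain ⟨h', e⟩ := vcPointBC_some W C F h
    rw [e, Point.map_some, Point.map_some]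
    obtain ⟨h'', e'⟩ := vcPointBC_some W C K
      ((WeierstrassCurve.Affine.baseChange_nonsingular (C • W) f.injective x y).mpr h)
    rw [e']
    simp only [Point.some.injEq]
    exact ⟨map_vcX C f x, map_vcY C f x y⟩

/-- The inverse direction of naturality. -/
theorem map_vcPointBC_symm (f : F →ₐ[k] K) (Q : (W⁄F).Point) :
    Point.map (W' := C • W) f ((vcPointBC W C F).symm Q)
      = (vcPointBC W C K).symm (Point.map (W' := W) f Q) := by
  apply (vcPointBC W C K).injective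
  rw [← map_vcPointBC, AddEquiv.apply_symm_apply, AddEquiv.apply_symm_apply]

variable (F)

/-- Point counts agree. -/
theorem natCard_point_smul :
    Nat.card ((C • W)⁄F).Point = Nat.card (W⁄F).Point :=
  Nat.card_congr (vcPointBC W C F).toEquiv

variable {F}

/-- **Transfer of a quadratic relation** for an endomorphism of the form `Point.map f`
(e.g. Frobenius) from `C • W` to `W`. -/
theorem relation_transfer (f : F →ₐ[k] F) (a b : ℤ)
    (h : ∀ P : ((C • W)⁄F).Point,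
      Point.map (W' := C • W) f (Point.map (W' := C • W) f P)
        - a • Point.map (W' := C • W) f P + b • P = 0)
    (Q : (W⁄F).Point) :
    Point.map (W' := W) f (Point.map (W' := W) f Q)
      - a • Point.map (W' := W) f Q + b • Q = 0 := by
  obtain ⟨P, rfl⟩ := (vcPointBC W C F).surjective Q
  have := congrArg (vcPointBC W C F) (h P)
  rw [map_zero, map_add, map_sub, map_zsmul, map_zsmul, ← map_vcPointBC, ← map_vcPointBC] at this
  exact this

end baseChange

end Fermat.Agent.Lib.VC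

end
-- ===== PACK-END Lib/VC/BaseChange.lean

-- ===== PACK-BEGIN Lib/Frob/A2/H240/ShortNF.lean
section



/-!
# Piece A3 of row S52 / shared lib `Frob`: long ↔ short Weierstrass form

`FrobRelationFin` (the frozen interface of piece A2, stated for ARBITRARY long Weierstrass curves
over `𝔽_ℓ`, `ℓ ≥ 5`) follows from its special case for short Weierstrass curves
`y² = x³ + A x + B`  (`FrobRelationFinShort`, resp. `FrobRelationFinShortLit`).

Main results:
* `frobRelationFin_of_short    : FrobRelationFinShort → FrobRelationFin`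
* `frobRelationFin_of_shortLit : FrobRelationFinShortLit → FrobRelationFin`
* `traceOfFrobenius_smul : (C • E).traceOfFrobenius = E.traceOfFrobenius`

(helper240)
-/

set_option autoImplicit false

open WeierstrassCurve WeierstrassCurve.Affine WeierstrassCurve.Affine.Point

namespace Fermat.Agent.Lib.Frob.A2.H240

open Fermat.Agent.Lib.Frob Fermat.Agent.Lib.VC

/-- Piece A2 restricted to curves in short Weierstrass form (`a₁ = a₂ = a₃ = 0`). -/
def FrobRelationFinShort : Prop :=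
  ∀ (ℓ : ℕ) [Fact ℓ.Prime], 5 ≤ ℓ → ∀ (E : WeierstrassCurve (ZMod ℓ)),
    E.a₁ = 0 → E.a₂ = 0 → E.a₃ = 0 → E.Δ ≠ 0 →
    ∀ (k : Type) [Field k] [Algebra (ZMod ℓ) k] [DecidableEq k] (P : (E⁄k).Point),
      frobPt ℓ E k (frobPt ℓ E k P) - E.traceOfFrobenius • frobPt ℓ E k P + (ℓ : ℤ) • P = 0

/-- Piece A2 for the literal curves `⟨0, 0, 0, A, B⟩`. -/
def FrobRelationFinShortLit : Prop :=
  ∀ (ℓ : ℕ) [Fact ℓ.Prime], 5 ≤ ℓ → ∀ (A B : ZMod ℓ),
    (⟨0, 0, 0, A, B⟩ : WeierstrassCurve (ZMod ℓ)).Δ ≠ 0 →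
    ∀ (k : Type) [Field k] [Algebra (ZMod ℓ) k] [DecidableEq k]
      (P : ((⟨0, 0, 0, A, B⟩ : WeierstrassCurve (ZMod ℓ))⁄k).Point),
      frobPt ℓ ⟨0, 0, 0, A, B⟩ k (frobPt ℓ ⟨0, 0, 0, A, B⟩ k P)
        - (⟨0, 0, 0, A, B⟩ : WeierstrassCurve (ZMod ℓ)).traceOfFrobenius
            • frobPt ℓ ⟨0, 0, 0, A, B⟩ k P + (ℓ : ℤ) • P = 0

theorem frobRelationFinShort_of_lit (h : FrobRelationFinShortLit) : FrobRelationFinShort := by
  intro ℓ _ hℓ E h₁ h₂ h₃ hΔ k _ _ _ P
  obtain ⟨a₁, a₂, a₃, a₄, a₆⟩ := E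
  simp only at h₁ h₂ h₃
  subst h₁ h₂ h₃
  exact h ℓ hℓ a₄ a₆ hΔ k P

/-- The number of points is invariant under a change of variables. -/
theorem card_smul {F : Type*} [Field F] (E : WeierstrassCurve F) (C : VariableChange F) :
    (C • E).card = E.card := by
  classical
  exact Nat.card_congr (vcPoint E C).toEquiv

/-- The trace of Frobenius is invariant under a change of variables. -/
theorem traceOfFrobenius_smul {F : Type*} [Field F] (E : WeierstrassCurve F)
    (C : VariableChange F) : (C • E).traceOfFrobenius = E.traceOfFrobenius := by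
  unfold WeierstrassCurve.traceOfFrobenius
  rw [card_smul]

/-- The Frobenius relation is invariant under a change of variables defined over `𝔽_ℓ`. -/
theorem frobRel_of_smul (ℓ : ℕ) [Fact ℓ.Prime] (E : WeierstrassCurve (ZMod ℓ))
    (C : VariableChange (ZMod ℓ)) (k : Type) [Field k] [Algebra (ZMod ℓ) k] [DecidableEq k]
    (h : ∀ P : ((C • E)⁄k).Point,
      frobPt ℓ (C • E) k (frobPt ℓ (C • E) k P)
        - (C • E).traceOfFrobenius • frobPt ℓ (C • E) k P + (ℓ : ℤ) • P = 0)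
    (Q : (E⁄k).Point) :
    frobPt ℓ E k (frobPt ℓ E k Q) - E.traceOfFrobenius • frobPt ℓ E k Q + (ℓ : ℤ) • Q = 0 := by
  have h' := h
  simp only [traceOfFrobenius_smul] at h'
  exact relation_transfer E C (FiniteField.frobeniusAlgHom (ZMod ℓ) k) E.traceOfFrobenius
    (ℓ : ℤ) h' Q

theorem two_ne_zero_zmod (ℓ : ℕ) [Fact ℓ.Prime] (hℓ : 5 ≤ ℓ) : (2 : ZMod ℓ) ≠ 0 := by
  intro h
  have h2 : ((2 : ℕ) : ZMod ℓ) = 0 := by exact_mod_cast h
  rw [ZMod.natCast_eq_zero_iff] at h2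
  have := Nat.le_of_dvd (by norm_num) h2
  omega

theorem three_ne_zero_zmod (ℓ : ℕ) [Fact ℓ.Prime] (hℓ : 5 ≤ ℓ) : (3 : ZMod ℓ) ≠ 0 := by
  intro h
  have h3 : ((3 : ℕ) : ZMod ℓ) = 0 := by exact_mod_cast h
  rw [ZMod.natCast_eq_zero_iff] at h3
  have := Nat.le_of_dvd (by norm_num) h3
  omega

/-- **A3**: the frozen interface `FrobRelationFin` follows from its short-Weierstrass case. -/
theorem frobRelationFin_of_short (h : FrobRelationFinShort) : FrobRelationFin := by
  intro ℓ _ hℓ E hΔ k _ _ _ Q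
  let _i2 : Invertible (2 : ZMod ℓ) := invertibleOfNonzero (two_ne_zero_zmod ℓ hℓ)
  let _i3 : Invertible (3 : ZMod ℓ) := invertibleOfNonzero (three_ne_zero_zmod ℓ hℓ)
  set C : VariableChange (ZMod ℓ) := E.toShortNF with hC
  have hNF : (C • E).IsShortNF := E.toShortNF_spec
  have hΔ' : (C • E).Δ ≠ 0 := by
    rw [variableChange_Δ]
    exact mul_ne_zero (pow_ne_zero _ (Units.ne_zero _)) hΔ
  exact frobRel_of_smul ℓ E C k
    (h ℓ hℓ (C • E) (a₁_of_isShortNF _) (a₂_of_isShortNF _) (a₃_of_isShortNF _) hΔ' k) Q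

theorem frobRelationFin_of_shortLit (h : FrobRelationFinShortLit) : FrobRelationFin :=
  frobRelationFin_of_short (frobRelationFinShort_of_lit h)

end Fermat.Agent.Lib.Frob.A2.H240

end
-- ===== PACK-END Lib/Frob/A2/H240/ShortNF.lean

-- ===== PACK-BEGIN Lib/Frob/A2/H230/Main.lean
section




/-!
# Piece A2 of row S52: the Hasse–Weil Frobenius relation over `𝔽_ℓ` (helper230 assembly)

`frobRelationFin : FrobRelationFin` — for every prime `ℓ ≥ 5`, every Weierstrass curve `E` over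
`ZMod ℓ` with `Δ ≠ 0`, every field `k` over `ZMod ℓ` and every `P : (E⁄k).Point`:
`Φ (Φ P) - a_ℓ • Φ P + ℓ • P = 0`.

Assembly of: helper311 (exact parallelogram law), helper621 (Manin count, degree of
compositions), helper127 (quadratic form algebra), helper240 (short Weierstrass form),
helper230 (odd points, generic point ⇒ all points).
-/

open WeierstrassCurve Polynomial
open scoped Polynomial.Bivariate WeierstrassCurve.Affine

namespace Fermat.Agent.Lib.Frob.A2.H230

open Fermat.Agent.S52.H311 Fermat.Agent.S52.H621 Fermat.Agent.S52.H127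

/-- The Frobenius relation for the literal short Weierstrass curves, in terms of `frobPsi`. -/
theorem frobPsi_shortW_eq_zero (ℓ : ℕ) [Fact ℓ.Prime] (hℓ2 : ℓ ≠ 2) (A B : ZMod ℓ)
    (hΔ : (shortW ℓ A B).Δ ≠ 0) (k : Type) [Field k] [Algebra (ZMod ℓ) k] [DecidableEq k]
    (P : ((shortW ℓ A B)⁄k).Point) :
    Fermat.Agent.Lib.FrobRel.H230.frobPsi (shortW ℓ A B) k
      (shortW ℓ A B).traceOfFrobenius P = 0 := by
  classical
  have h2 : (2 : ZMod ℓ) ≠ 0 := two_ne_zero_zmod ℓ hℓ2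
  have hΔF : ((shortW ℓ A B)⁄(ZMod ℓ)).Δ ≠ 0 :=
    Fermat.Agent.Lib.FrobRel.H230.baseChange_Δ_ne_zero' _ hΔ _
  have hpar : IsParNat (fun P : oddPts (shortW ℓ A B) => hh P.1) :=
    fun P Q => hh_parallelogram rfl rfl h2 hΔ P.2 Q.2
  have key := IsParNat.frobenius_relation hpar
    (((Fermat.Agent.Lib.FrobRel.H230.frobPt (shortW ℓ A B) (KK (shortW ℓ A B))).comp
      (oddPts (shortW ℓ A B)).subtype).codRestrict (oddPts (shortW ℓ A B))
      (fun P => frobPt_mem_oddPts P.2))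
    ℓ (ratDeg (maninFun ℓ A B))
    (fun Q => by
      show hh (Fermat.Agent.Lib.FrobRel.H230.frobPt (shortW ℓ A B) (KK (shortW ℓ A B)) Q.1)
        = ℓ * hh Q.1
      rw [hh_frob rfl rfl h2 Q.2, ZMod.card])
    (fun Q => hh_frob_sub hℓ2 hΔ Q.2)
    ⟨Fermat.Agent.Lib.FrobRel.H230.genericPoint (shortW ℓ A B) (ZMod ℓ) hΔF,
      generic_mem_oddPts hΔF⟩
  have hconst := hh_eq_zero_iff_isConst rfl rfl h2 (SetLike.coe_mem _) key
  have htr : (ℓ : ℤ) + 1 - (ratDeg (maninFun ℓ A B) : ℤ) = (shortW ℓ A B).traceOfFrobenius := by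
    rw [ratDeg_maninFun_eq_trace ℓ hℓ2 A B hΔ]
    ring
  refine Fermat.Agent.Lib.FrobRel.H230.frobPsi_eq_zero (shortW ℓ A B) hΔ
    (Fermat.Agent.Lib.FrobRel.H230.generic_nonsingular (shortW ℓ A B) (ZMod ℓ) hΔF)
    (Fermat.Agent.Lib.FrobRel.H230.gx_transcendental (shortW ℓ A B) (ZMod ℓ))
    (shortW ℓ A B).traceOfFrobenius ?_ P
  rw [← htr]
  convert hconst using 1
  rw [Fermat.Agent.Lib.FrobRel.H230.frobPsi_apply, ZMod.card]
  simp only [AddSubgroup.coe_add, AddSubgroup.coe_sub, AddSubgroup.coe_zsmul,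
    AddSubgroup.coe_nsmul, natCast_zsmul]
  rfl

/-- Piece A2 for the literal short Weierstrass curves `⟨0, 0, 0, A, B⟩`. -/
theorem frobRelationFinShortLit : Fermat.Agent.Lib.Frob.A2.H240.FrobRelationFinShortLit := by
  intro ℓ _ hℓ A B hΔ k _ _ _ P
  have hℓ2 : ℓ ≠ 2 := by omega
  have h := frobPsi_shortW_eq_zero ℓ hℓ2 A B hΔ k P
  have e := Fermat.Agent.Lib.FrobRel.H230.frobPsi_apply (shortW ℓ A B) k
    (shortW ℓ A B).traceOfFrobenius P
  rw [h, ZMod.card] at e
  exact e.symm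

/-- **Piece A2** (frozen interface `FrobRelationFin` of `Lib/Frob/Interfaces.lean`). -/
theorem frobRelationFin_H230 : Fermat.Agent.Lib.Frob.FrobRelationFin :=
  Fermat.Agent.Lib.Frob.A2.H240.frobRelationFin_of_shortLit frobRelationFinShortLit

end Fermat.Agent.Lib.Frob.A2.H230

end
-- ===== PACK-END Lib/Frob/A2/H230/Main.lean

-- ===== PACK-BEGIN Lib/Frob/A2/Main.lean
section



/-!
# Shared library `Frob`, piece A2: the deliverable `frobRelationFin : FrobRelationFin`

Proof: `Fermat/Agent/Lib/Frob/A2/H230/Main.lean` (helper230 assembly) from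
* helper311 `S52/H311` (exact parallelogram law for the degree height),
* helper621 `S52/H621` (Manin count, degree of a composition of rational functions),
* helper127 `S52/H127/QuadForm` (quadratic form algebra),
* helper240 `Lib/Frob/A2/H240/ShortNF` + `Lib/VC` (reduction to short Weierstrass form),
* helper230 `Lib/FrobRel` (generic point implies all points) and `Lib/Frob/A2/H230` (odd points).
-/

set_option autoImplicit false

namespace Fermat.Agent.Lib.Frob

/-- **A2**: the Hasse–Weil Frobenius relation `Φ² - a_ℓ Φ + ℓ = 0` on `E(k)` for every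
Weierstrass curve `E` over `ZMod ℓ` (`ℓ ≥ 5` prime, `Δ ≠ 0`) and every field `k` over `ZMod ℓ`. -/
theorem frobRelationFin : FrobRelationFin := A2.H230.frobRelationFin_H230

end Fermat.Agent.Lib.Frob

end
-- ===== PACK-END Lib/Frob/A2/Main.lean

-- ===== PACK-BEGIN S59/H127/FibPoly.lean
section



/-!
# E-side foundation, part 1: fibres of multiplication by `n` on the `x`-line

For a Weierstrass curve `E` over a field `K`, the landed `x`-ladder (`S13/H891`) gives polynomials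
`N_n, D_n` with `x(nQ) = N_n(x(Q)) / D_n(x(Q))`.  Here we study the *fibre polynomial*
`fibPoly E n c = N_n - c D_n`:

* it is monic of degree `n^2` (`fibPoly_monic`, `natDegree_fibPoly`);
* for `Q ≠ 0`, `x(Q)` is a root iff `nQ ≠ 0` and `x(nQ) = c` (`fibPoly_root_iff`);
* over an algebraically closed field of characteristic `0`, multiplication by `n ≥ 1` is
  surjective on `E(K)` (`exists_nsmul_eq`).
-/

open WeierstrassCurve WeierstrassCurve.Affine Polynomial
open Fermat.Agent.S51.Five (xc dD dN xc_add_self add_self_ne_zero_of_dD_ne_zero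
  eq_or_eq_neg_of_xc_eq xc_neg xc_some exists_equation)
open Fermat.Agent.S13.H891

namespace Fermat.Agent.S59.H127

variable {K : Type*} [Field K]

/-- the fibre polynomial `N_n - c D_n`; its roots are the `x(Q)` with `x(nQ) = c` -/
noncomputable def fibPoly (E : WeierstrassCurve.Affine K) (n : ℕ) (c : K) : K[X] :=
  polyN E.b₂ E.b₄ E.b₆ E.b₈ n - C c * polyD E.b₂ E.b₄ E.b₆ E.b₈ n

section degree

variable (E : WeierstrassCurve.Affine K)

lemma dc_fibPoly (n : ℕ) (hn : 1 ≤ n) (c : K) : DC (fibPoly E n c) (n ^ 2) 1 := by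
  obtain ⟨hN, hD⟩ := dc_poly E.b₂ E.b₄ E.b₆ E.b₈ n hn
  have h1 : 1 ≤ n ^ 2 := Nat.one_le_pow _ _ hn
  have hD' : DC (C c * polyD E.b₂ E.b₄ E.b₆ E.b₈ n) (n ^ 2) 0 :=
    DC.of_lt ((natDegree_C_mul_le c _).trans hD.1) (by omega)
  have := hN.sub hD'
  rw [sub_zero] at this
  exact this

lemma natDegree_fibPoly (n : ℕ) (hn : 1 ≤ n) (c : K) : (fibPoly E n c).natDegree = n ^ 2 := by
  obtain ⟨h1, h2⟩ := dc_fibPoly E n hn c
  exact natDegree_eq_of_le_of_coeff_ne_zero h1 (by rw [h2]; exact one_ne_zero)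

lemma fibPoly_monic (n : ℕ) (hn : 1 ≤ n) (c : K) : (fibPoly E n c).Monic := by
  rw [Monic, leadingCoeff, natDegree_fibPoly E n hn c]
  exact (dc_fibPoly E n hn c).2

lemma fibPoly_ne_zero (n : ℕ) (hn : 1 ≤ n) (c : K) : fibPoly E n c ≠ 0 :=
  (fibPoly_monic E n hn c).ne_zero

lemma eval_fibPoly (n : ℕ) (c x : K) :
    (fibPoly E n c).eval x
      = ladN E.b₂ E.b₄ E.b₆ E.b₈ x n - c * ladD E.b₂ E.b₄ E.b₆ E.b₈ x n := by
  simp only [fibPoly, eval_sub, eval_mul, eval_C, eval_polyN, eval_polyD]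

end degree

variable [DecidableEq K] {E : WeierstrassCurve.Affine K}

/-- for `Q ≠ 0`: `x(Q)` is a root of `N_n - c D_n` iff `nQ ≠ 0` and `x(nQ) = c` -/
theorem fibPoly_root_iff {Q : E.Point} (hQ : Q ≠ 0) (n : ℕ) (c : K) :
    (fibPoly E n c).eval (xc Q) = 0 ↔ n • Q ≠ 0 ∧ xc (n • Q) = c := by
  rw [eval_fibPoly]
  rcases rep_lad hQ n with ⟨h0, hd, hN⟩ | ⟨h0, hd, hx⟩
  · rw [hd, mul_zero, sub_zero]
    exact ⟨fun h => absurd h hN, fun h => absurd h0 h.1⟩
  · rw [← hx, ← sub_mul]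
    constructor
    · intro h
      exact ⟨h0, sub_eq_zero.mp ((mul_eq_zero.mp h).resolve_right hd)⟩
    · rintro ⟨-, h⟩
      rw [h, sub_self, zero_mul]

/-- `N_n` and `D_n` have no common zero -/
theorem ladN_ne_zero_of_ladD_eq_zero {Q : E.Point} (hQ : Q ≠ 0) (n : ℕ)
    (hD : ladD E.b₂ E.b₄ E.b₆ E.b₈ (xc Q) n = 0) :
    ladN E.b₂ E.b₄ E.b₆ E.b₈ (xc Q) n ≠ 0 := by
  rcases rep_lad hQ n with ⟨-, -, hN⟩ | ⟨-, hd, -⟩
  · exact hN
  · exact absurd hD hd

section algClosed

variable [IsAlgClosed K] [CharZero K] [E.IsElliptic]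

/-- every `x ∈ K` is the `x`-coordinate of a point -/
lemma exists_point_xc (E : WeierstrassCurve.Affine K) [E.IsElliptic] (x : K) :
    ∃ Q : E.Point, Q ≠ 0 ∧ xc Q = x := by
  obtain ⟨y, hy⟩ := exists_equation E x
  have hns : E.Nonsingular x y := Affine.equation_iff_nonsingular.mp hy
  exact ⟨Point.some x y hns, Point.some_ne_zero _, rfl⟩

/-- the points over the roots of the fibre polynomial: for a root `x` of `N_n - x(P) D_n` there
is `Q` with `x(Q) = x` and `nQ = P` -/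
lemma exists_nsmul_eq_of_root {P : E.Point} (hP : P ≠ 0) (n : ℕ) {x : K}
    (hx : (fibPoly E n (xc P)).eval x = 0) : ∃ Q : E.Point, xc Q = x ∧ n • Q = P := by
  obtain ⟨Q, hQ, rfl⟩ := exists_point_xc E x
  obtain ⟨h0, h1⟩ := (fibPoly_root_iff hQ n (xc P)).mp hx
  rcases eq_or_eq_neg_of_xc_eq h0 hP h1 with h | h
  · exact ⟨Q, rfl, h⟩
  · exact ⟨-Q, xc_neg Q, by rw [smul_neg, h, neg_neg]⟩

/-- multiplication by `n ≥ 1` is surjective on `E(K)`, `K` algebraically closed of
characteristic `0` -/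
theorem exists_nsmul_eq (n : ℕ) (hn : 1 ≤ n) (P : E.Point) : ∃ Q : E.Point, n • Q = P := by
  by_cases hP : P = 0
  · exact ⟨0, by rw [hP, smul_zero]⟩
  have hdeg : (fibPoly E n (xc P)).degree ≠ 0 := by
    rw [degree_eq_natDegree (fibPoly_ne_zero E n hn _), natDegree_fibPoly E n hn]
    have : 0 < n ^ 2 := by positivity
    exact_mod_cast this.ne'
  obtain ⟨x, hx⟩ := IsAlgClosed.exists_root _ hdeg
  obtain ⟨Q, -, hQ⟩ := exists_nsmul_eq_of_root hP n hx
  exact ⟨Q, hQ⟩

end algClosed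

end Fermat.Agent.S59.H127

end
-- ===== PACK-END S59/H127/FibPoly.lean

-- ===== PACK-BEGIN S59/H127/CardTorsion.lean
section



/-!
# E-side foundation, part 2: `#E[n] = n^2`

Over an algebraically closed field `K` of characteristic `0`, for an elliptic curve `E` (in affine
Weierstrass form) and every `n : ℕ`:

* `card_torsion_eq` : `Nat.card (Submodule.torsionBy ℤ E.Point n) = n ^ 2`;
* `finite_torsion` : `E[n]` is finite for `n ≥ 1`.

Proof: for a generic `c = x(P)` the fibre polynomial `N_n - c D_n` (monic of degree `n^2`) is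
separable (the bad `c` are the values of `N_n / D_n` at the roots of the Wronskian
`N_n' D_n - N_n D_n'`, which has leading coefficient `n^2 ≠ 0`), its roots are exactly the `x(Q)`
with `nQ = ± P`, and `{Q | nQ = P}` is a torsor under `E[n]` on which `x` is injective as soon as
`2P ≠ 0`.
-/

open WeierstrassCurve WeierstrassCurve.Affine Polynomial
open Fermat.Agent.S51.Five (xc dD dN xc_add_self add_self_ne_zero_of_dD_ne_zero
  eq_or_eq_neg_of_xc_eq xc_neg xc_some exists_equation)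
open Fermat.Agent.S13.H891

namespace Fermat.Agent.S59.H127

variable {K : Type*} [Field K]

section wronskian

lemma DC.derivative' {p : K[X]} {m : ℕ} {a : K} (hp : DC p (m + 1) a) :
    DC (derivative p) m (a * ((m : K) + 1)) := by
  refine ⟨(natDegree_derivative_le p).trans ?_, ?_⟩
  · have := hp.1; omega
  · rw [coeff_derivative, hp.2]

variable (E : WeierstrassCurve.Affine K)

/-- the Wronskian `N_n' D_n - N_n D_n'` -/
noncomputable def wronskPoly (n : ℕ) : K[X] :=
  derivative (polyN E.b₂ E.b₄ E.b₆ E.b₈ n) * polyD E.b₂ E.b₄ E.b₆ E.b₈ n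
    - polyN E.b₂ E.b₄ E.b₆ E.b₈ n * derivative (polyD E.b₂ E.b₄ E.b₆ E.b₈ n)

lemma dc_wronskPoly (n : ℕ) (hn : 2 ≤ n) :
    DC (wronskPoly E n) (2 * n ^ 2 - 2) ((n : K) ^ 2) := by
  obtain ⟨hN, hD⟩ := dc_poly E.b₂ E.b₄ E.b₆ E.b₈ n (by omega)
  have h4 : 4 ≤ n ^ 2 := by nlinarith
  obtain ⟨B, hB⟩ : ∃ B, n ^ 2 = B + 2 := ⟨n ^ 2 - 2, by omega⟩
  have hBK : (n : K) ^ 2 = (B : K) + 2 := by
    have := congrArg (Nat.cast : ℕ → K) hB
    push_cast at this
    exact this
  rw [hB] at hN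
  have hD1 : DC (polyD E.b₂ E.b₄ E.b₆ E.b₈ n) (B + 1) ((n : K) ^ 2) :=
    hD.congr (by omega) rfl
  have hN' := DC.derivative' hN
  have hD' := DC.derivative' hD1
  have h1 := hN'.mul hD1
  have h2 := hN.mul hD'
  have h2' := h2.congr (show B + 1 + 1 + B = B + 1 + (B + 1) by ring) rfl
  have h3 := h1.sub h2'
  unfold wronskPoly
  refine h3.congr (by omega) ?_
  push_cast
  rw [hBK]
  ring

lemma wronskPoly_ne_zero [CharZero K] (n : ℕ) (hn : 2 ≤ n) : wronskPoly E n ≠ 0 := by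
  intro h
  have := (dc_wronskPoly E n hn).2
  rw [h, coeff_zero] at this
  have hn0 : (n : K) ≠ 0 := Nat.cast_ne_zero.mpr (by omega)
  exact pow_ne_zero 2 hn0 this.symm

lemma polyD_two_ne_zero [CharZero K] : polyD E.b₂ E.b₄ E.b₆ E.b₈ 2 ≠ 0 := by
  intro h
  have := (dc_poly E.b₂ E.b₄ E.b₆ E.b₈ 2 (by norm_num)).2.2
  rw [h, coeff_zero] at this
  have h2 : ((2 : ℕ) : K) ≠ 0 := Nat.cast_ne_zero.mpr (by norm_num)
  exact pow_ne_zero 2 h2 this.symm

lemma eval_derivative_fibPoly (n : ℕ) (c x : K) :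
    (derivative (fibPoly E n c)).eval x
      = (derivative (polyN E.b₂ E.b₄ E.b₆ E.b₈ n)).eval x
        - c * (derivative (polyD E.b₂ E.b₄ E.b₆ E.b₈ n)).eval x := by
  simp only [fibPoly, derivative_sub, derivative_mul, derivative_C, zero_mul, zero_add, eval_sub,
    eval_mul, eval_C]

end wronskian

variable [DecidableEq K] {E : WeierstrassCurve.Affine K}

/-- `2P ≠ 0` as soon as `x(P)` is not a root of `D_2` -/
lemma add_self_ne_zero_of_polyD_two {P : E.Point} (hP : P ≠ 0)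
    (h : (polyD E.b₂ E.b₄ E.b₆ E.b₈ 2).eval (xc P) ≠ 0) : P + P ≠ 0 := by
  rw [eval_polyD] at h
  have := rep_lad hP 2
  rw [two_nsmul] at this
  exact fun h0 => h (this.eq_zero_iff.mp h0)

lemma mem_torsionBy_natCast_iff {n : ℕ} {T : E.Point} :
    T ∈ Submodule.torsionBy ℤ E.Point ((n : ℕ) : ℤ) ↔ n • T = 0 := by
  rw [Submodule.mem_torsionBy_iff, natCast_zsmul]

section algClosed

variable [IsAlgClosed K] [CharZero K] [E.IsElliptic]

/-- the set of bad values `c` -/
noncomputable def badValues (E : WeierstrassCurve.Affine K) (n : ℕ) : Finset K :=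
  (polyD E.b₂ E.b₄ E.b₆ E.b₈ 2).roots.toFinset ∪
    (wronskPoly E n).roots.toFinset.image
      (fun x => (polyN E.b₂ E.b₄ E.b₆ E.b₈ n).eval x / (polyD E.b₂ E.b₄ E.b₆ E.b₈ n).eval x)

/-- for `c` outside the bad set, the fibre polynomial has simple roots -/
theorem nodup_roots_fibPoly (n : ℕ) (hn : 2 ≤ n) {c : K} (hc : c ∉ badValues E n) :
    (fibPoly E n c).roots.Nodup := by
  rw [Multiset.nodup_iff_count_le_one]
  intro x
  rw [count_roots]
  by_contra hlt
  rw [not_le] at hlt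
  obtain ⟨h0, h1⟩ := (one_lt_rootMultiplicity_iff_isRoot (fibPoly_ne_zero E n (by omega) c)).mp hlt
  rw [IsRoot.def] at h0 h1
  have h0' := h0
  rw [eval_fibPoly] at h0
  rw [eval_derivative_fibPoly] at h1
  obtain ⟨Q, hQ, rfl⟩ := exists_point_xc E x
  have hD : ladD E.b₂ E.b₄ E.b₆ E.b₈ (xc Q) n ≠ 0 := by
    intro hD
    apply ladN_ne_zero_of_ladD_eq_zero hQ n hD
    rw [hD, mul_zero, sub_zero] at h0
    exact h0
  apply hc
  unfold badValues
  rw [Finset.mem_union]
  right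
  rw [Finset.mem_image]
  refine ⟨xc Q, ?_, ?_⟩
  · rw [Multiset.mem_toFinset, mem_roots (wronskPoly_ne_zero E n hn), IsRoot.def]
    unfold wronskPoly
    rw [eval_sub, eval_mul, eval_mul, eval_polyN, eval_polyD]
    linear_combination (ladD E.b₂ E.b₄ E.b₆ E.b₈ (xc Q) n) * h1
      - (derivative (polyD E.b₂ E.b₄ E.b₆ E.b₈ n)).eval (xc Q) * h0
  · rw [eval_polyN, eval_polyD, div_eq_iff hD]
    linear_combination h0

/-- for `c` outside the bad set, the fibre polynomial has exactly `n^2` roots -/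
theorem card_roots_fibPoly (n : ℕ) (hn : 2 ≤ n) {c : K} (hc : c ∉ badValues E n) :
    (fibPoly E n c).roots.toFinset.card = n ^ 2 := by
  rw [Multiset.toFinset_card_of_nodup (nodup_roots_fibPoly n hn hc),
    IsAlgClosed.card_roots_eq_natDegree, natDegree_fibPoly E n (by omega)]

/-- a good base point: `P ≠ 0`, `2P ≠ 0`, `x(P)` outside the bad set -/
lemma exists_good_point (E : WeierstrassCurve.Affine K) [E.IsElliptic] (n : ℕ) :
    ∃ P : E.Point, P ≠ 0 ∧ P + P ≠ 0 ∧ xc P ∉ badValues E n := by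
  obtain ⟨c, hc⟩ := Infinite.exists_notMem_finset (badValues E n)
  obtain ⟨P, hP, rfl⟩ := exists_point_xc E c
  refine ⟨P, hP, add_self_ne_zero_of_polyD_two hP ?_, hc⟩
  intro h
  apply hc
  unfold badValues
  rw [Finset.mem_union]
  left
  rw [Multiset.mem_toFinset, mem_roots (polyD_two_ne_zero E)]
  exact h

omit [IsAlgClosed K] [CharZero K] [E.IsElliptic] in
/-- the `x`-coordinate map from the `n`-torsion, translated by `Q₁`, to the roots of the fibre
polynomial -/
lemma xc_add_mem_roots {P Q₁ : E.Point} (hP : P ≠ 0) {n : ℕ} (hn : 1 ≤ n) (hQ₁ : n • Q₁ = P)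
    {T : E.Point} (hT : n • T = 0) :
    xc (Q₁ + T) ∈ (fibPoly E n (xc P)).roots.toFinset := by
  have hnQ : n • (Q₁ + T) = P := by rw [smul_add, hQ₁, hT, add_zero]
  have hQ0 : Q₁ + T ≠ 0 := by
    intro h
    rw [h, smul_zero] at hnQ
    exact hP hnQ.symm
  rw [Multiset.mem_toFinset, mem_roots (fibPoly_ne_zero E n hn _), IsRoot.def,
    fibPoly_root_iff hQ0, hnQ]
  exact ⟨hP, rfl⟩

omit [IsAlgClosed K] [CharZero K] [E.IsElliptic] in
lemma xc_add_injective {P Q₁ : E.Point} (hP2 : P + P ≠ 0) {n : ℕ} (hQ₁ : n • Q₁ = P)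
    {T T' : E.Point} (hT : n • T = 0) (hT' : n • T' = 0)
    (hQ0 : Q₁ + T ≠ 0) (hQ0' : Q₁ + T' ≠ 0) (h : xc (Q₁ + T) = xc (Q₁ + T')) : T = T' := by
  rcases eq_or_eq_neg_of_xc_eq hQ0 hQ0' h with h' | h'
  · exact add_left_cancel h'
  · exfalso
    apply hP2
    have h1 : n • (Q₁ + T) = P := by rw [smul_add, hQ₁, hT, add_zero]
    have h2 : n • (Q₁ + T') = P := by rw [smul_add, hQ₁, hT', add_zero]
    rw [h', smul_neg, h2] at h1
    calc P + P = P + -P := by rw [h1]
      _ = 0 := add_neg_cancel P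

/-- `E[n]` is finite, of cardinality at most the number of roots of a fibre polynomial -/
theorem torsion_le_roots {P : E.Point} (hP : P ≠ 0) (hP2 : P + P ≠ 0) (n : ℕ) (hn : 1 ≤ n) :
    Finite (Submodule.torsionBy ℤ E.Point ((n : ℕ) : ℤ)) ∧
    Nat.card (Submodule.torsionBy ℤ E.Point ((n : ℕ) : ℤ))
      ≤ (fibPoly E n (xc P)).roots.toFinset.card := by
  obtain ⟨Q₁, hQ₁⟩ := exists_nsmul_eq n hn P
  have hne : ∀ T : E.Point, n • T = 0 → Q₁ + T ≠ 0 := by
    intro T hT h
    have hnQ : n • (Q₁ + T) = P := by rw [smul_add, hQ₁, hT, add_zero]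
    rw [h, smul_zero] at hnQ
    exact hP hnQ.symm
  let f : Submodule.torsionBy ℤ E.Point ((n : ℕ) : ℤ) → (fibPoly E n (xc P)).roots.toFinset :=
    fun T => ⟨xc (Q₁ + T.1), xc_add_mem_roots hP hn hQ₁ (mem_torsionBy_natCast_iff.mp T.2)⟩
  have hf : Function.Injective f := by
    intro T T' h
    have h' : xc (Q₁ + T.1) = xc (Q₁ + T'.1) := congrArg Subtype.val h
    exact Subtype.ext (xc_add_injective hP2 hQ₁ (mem_torsionBy_natCast_iff.mp T.2)
      (mem_torsionBy_natCast_iff.mp T'.2) (hne _ (mem_torsionBy_natCast_iff.mp T.2))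
      (hne _ (mem_torsionBy_natCast_iff.mp T'.2)) h')
  refine ⟨Finite.of_injective f hf, ?_⟩
  calc Nat.card (Submodule.torsionBy ℤ E.Point ((n : ℕ) : ℤ))
      ≤ Nat.card (fibPoly E n (xc P)).roots.toFinset := Nat.card_le_card_of_injective f hf
    _ = (fibPoly E n (xc P)).roots.toFinset.card := by
        rw [Nat.card_eq_fintype_card, Fintype.card_coe]

/-- the number of roots of a fibre polynomial is at most `#E[n]` -/
theorem roots_le_torsion {P : E.Point} (hP : P ≠ 0) (n : ℕ) (hn : 1 ≤ n)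
    [Finite (Submodule.torsionBy ℤ E.Point ((n : ℕ) : ℤ))] :
    (fibPoly E n (xc P)).roots.toFinset.card
      ≤ Nat.card (Submodule.torsionBy ℤ E.Point ((n : ℕ) : ℤ)) := by
  obtain ⟨Q₁, hQ₁⟩ := exists_nsmul_eq n hn P
  have hex : ∀ x : (fibPoly E n (xc P)).roots.toFinset,
      ∃ Q : E.Point, xc Q = x.1 ∧ n • Q = P := by
    intro x
    have hx := x.2
    rw [Multiset.mem_toFinset, mem_roots (fibPoly_ne_zero E n hn _), IsRoot.def] at hx
    exact exists_nsmul_eq_of_root hP n hx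
  choose q hq1 hq2 using hex
  let g : (fibPoly E n (xc P)).roots.toFinset → Submodule.torsionBy ℤ E.Point ((n : ℕ) : ℤ) :=
    fun x => ⟨q x - Q₁, mem_torsionBy_natCast_iff.mpr (by rw [smul_sub, hq2, hQ₁, sub_self])⟩
  have hg : Function.Injective g := by
    intro x y h
    have h' : q x - Q₁ = q y - Q₁ := congrArg Subtype.val h
    have h'' : q x = q y := sub_left_inj.mp h'
    apply Subtype.ext
    rw [← hq1 x, ← hq1 y, h'']
  calc (fibPoly E n (xc P)).roots.toFinset.card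
      = Nat.card (fibPoly E n (xc P)).roots.toFinset := by
        rw [Nat.card_eq_fintype_card, Fintype.card_coe]
    _ ≤ Nat.card (Submodule.torsionBy ℤ E.Point ((n : ℕ) : ℤ)) :=
        Nat.card_le_card_of_injective g hg

variable (E)

/-- `E[n]` is finite for `n ≥ 1` -/
theorem finite_torsion (n : ℕ) (hn : 1 ≤ n) :
    Finite (Submodule.torsionBy ℤ E.Point ((n : ℕ) : ℤ)) := by
  obtain ⟨P, hP, hP2, -⟩ := exists_good_point E n
  exact (torsion_le_roots hP hP2 n hn).1

/-- `E(K)` is infinite -/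
theorem infinite_point : Infinite E.Point := by
  have hsurj : Function.Surjective (xc : E.Point → K) := fun x => by
    obtain ⟨Q, -, hQ⟩ := exists_point_xc E x
    exact ⟨Q, hQ⟩
  exact Infinite.of_surjective _ hsurj

/-- **`#E[n] = n^2`** over an algebraically closed field of characteristic `0` -/
theorem card_torsion_eq (n : ℕ) :
    Nat.card (Submodule.torsionBy ℤ E.Point ((n : ℕ) : ℤ)) = n ^ 2 := by
  rcases Nat.lt_or_ge n 2 with hlt | hn
  · interval_cases n
    · -- `n = 0`: the whole (infinite) group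
      have hI := infinite_point E
      have hinf : Infinite (Submodule.torsionBy ℤ E.Point ((0 : ℕ) : ℤ)) :=
        Infinite.of_injective
          (fun P : E.Point => (⟨P, mem_torsionBy_natCast_iff.mpr (zero_nsmul P)⟩ :
            Submodule.torsionBy ℤ E.Point ((0 : ℕ) : ℤ)))
          (fun P Q h => congrArg Subtype.val h)
      rw [Nat.card_eq_zero_of_infinite]
      rfl
    · -- `n = 1`: the trivial group
      have hbot : Submodule.torsionBy ℤ E.Point ((1 : ℕ) : ℤ) = ⊥ := by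
        rw [Nat.cast_one]; exact Submodule.torsionBy_one
      have : Subsingleton (Submodule.torsionBy ℤ E.Point ((1 : ℕ) : ℤ)) := by
        rw [hbot]; infer_instance
      rw [Nat.card_unique]
      rfl
  · obtain ⟨P, hP, hP2, hc⟩ := exists_good_point E n
    obtain ⟨hfin, hle⟩ := torsion_le_roots hP hP2 n (by omega)
    have hge := roots_le_torsion hP n (by omega)
    rw [card_roots_fibPoly n hn hc] at hle hge
    exact le_antisymm hle hge

end algClosed

end Fermat.Agent.S59.H127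

end
-- ===== PACK-END S59/H127/CardTorsion.lean

-- ===== PACK-BEGIN S55/H414/CycloLevel.lean
section


/-!
# S55, leaf CYC-INF (helper414), part 1: the cyclotomic levels `ℚ(ζ_N) ⊆ ℚ̄`

For `N ≠ 0` we define `cycloLevel N = ℚ(ζ_N)` as an intermediate field of `ℚ̄/ℚ`, show that it is
Galois with commutative Galois group, and that it is unramified at every prime not dividing `N`
(in the Prelude sense: inertia groups of valuation subrings of `ℚ̄` fix it pointwise).
-/

set_option autoImplicit false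

namespace Fermat.Agent.S55.H414

open ExtCitation Fermat.Agent.S55.Bridge

/-- A chosen primitive `N`-th root of unity in `ℚ̄`. -/
noncomputable def zetaBar (N : ℕ) [NeZero N] : AlgebraicClosure ℚ :=
  (HasEnoughRootsOfUnity.exists_primitiveRoot (AlgebraicClosure ℚ) N).choose

theorem zetaBar_spec (N : ℕ) [NeZero N] : IsPrimitiveRoot (zetaBar N) N :=
  (HasEnoughRootsOfUnity.exists_primitiveRoot (AlgebraicClosure ℚ) N).choose_spec

/-- The cyclotomic field `ℚ(ζ_N)` inside `ℚ̄`. -/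
noncomputable def cycloLevel (N : ℕ) [NeZero N] : IntermediateField ℚ (AlgebraicClosure ℚ) :=
  IntermediateField.adjoin ℚ {zetaBar N}

theorem zetaBar_mem_cycloLevel (N : ℕ) [NeZero N] : zetaBar N ∈ cycloLevel N :=
  IntermediateField.subset_adjoin ℚ _ rfl

instance isCyclotomicExtension_cycloLevel (N : ℕ) [NeZero N] :
    IsCyclotomicExtension {N} ℚ (cycloLevel N) :=
  haveI : Algebra.IsAlgebraic ℚ (AlgebraicClosure ℚ) := AlgebraicClosure.isAlgebraic ℚ
  haveI : Algebra.IsIntegral ℚ (AlgebraicClosure ℚ) := Algebra.IsAlgebraic.isIntegral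
  (zetaBar_spec N).intermediateField_adjoin_isCyclotomicExtension ℚ

instance finiteDimensional_cycloLevel (N : ℕ) [NeZero N] :
    FiniteDimensional ℚ (cycloLevel N) :=
  IsCyclotomicExtension.finiteDimensional {N} ℚ (cycloLevel N)

instance isGalois_cycloLevel (N : ℕ) [NeZero N] : IsGalois ℚ (cycloLevel N) :=
  IsCyclotomicExtension.isGalois {N} ℚ (cycloLevel N)

/-- An automorphism of `ℚ̄` fixes `ℚ(ζ_N)` pointwise iff it fixes `ζ_N`. -/
theorem mem_fixingSubgroup_cycloLevel_iff (N : ℕ) [NeZero N]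
    (σ : AlgebraicClosure ℚ ≃ₐ[ℚ] AlgebraicClosure ℚ) :
    σ ∈ (cycloLevel N).fixingSubgroup ↔ σ (zetaBar N) = zetaBar N := by
  constructor
  · intro h
    exact (IntermediateField.mem_fixingSubgroup_iff _ σ).1 h _ (zetaBar_mem_cycloLevel N)
  · intro h
    rw [IntermediateField.mem_fixingSubgroup_iff]
    intro x hx
    have hle : cycloLevel N ≤ IntermediateField.fixedField (Subgroup.zpowers σ) := by
      rw [cycloLevel, IntermediateField.adjoin_le_iff]
      rintro y rfl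
      rw [SetLike.mem_coe, IntermediateField.mem_fixedField_iff]
      intro τ hτ
      obtain ⟨k, rfl⟩ := Subgroup.mem_zpowers_iff.1 hτ
      have hfix : ∀ m : ℕ, (σ ^ m) (zetaBar N) = zetaBar N := by
        intro m
        induction m with
        | zero => simp
        | succ m ih => rw [pow_succ, AlgEquiv.mul_apply, h, ih]
      rcases Int.eq_nat_or_neg k with ⟨m, rfl | rfl⟩
      · rw [zpow_natCast]; exact hfix m
      · rw [zpow_neg, zpow_natCast]
        have := hfix m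
        calc (σ ^ m)⁻¹ (zetaBar N) = (σ ^ m)⁻¹ ((σ ^ m) (zetaBar N)) := by rw [this]
          _ = zetaBar N := by
            show ((σ ^ m)⁻¹ * (σ ^ m)) (zetaBar N) = zetaBar N
            rw [inv_mul_cancel]; rfl
    have := hle hx
    rw [IntermediateField.mem_fixedField_iff] at this
    exact this σ (Subgroup.mem_zpowers σ)

/-- Any `N`-th root of unity has valuation `1`. -/
theorem valuation_eq_one_of_pow_eq_one (A : ValuationSubring (AlgebraicClosure ℚ)) {N : ℕ}
    (hN : N ≠ 0) {a : AlgebraicClosure ℚ} (ha : a ^ N = 1) : A.valuation a = 1 := by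
  have h : (A.valuation a) ^ N = 1 := by rw [← map_pow, ha, map_one]
  exact (pow_eq_one_iff.1 h).resolve_right hN

/-- If `N` is a unit at `A` then `ℚ(ζ_N)` is fixed by the inertia group at `A`. -/
theorem inertia_le_fixingSubgroup_cycloLevel (N : ℕ) [NeZero N]
    (A : ValuationSubring (AlgebraicClosure ℚ))
    (hNv : A.valuation (N : AlgebraicClosure ℚ) = 1) :
    A.inertiaSubgroupIn ℚ ≤ (cycloLevel N).fixingSubgroup := by
  intro σ hσ
  rw [mem_fixingSubgroup_cycloLevel_iff]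
  by_contra hne
  have hz : zetaBar N ^ N = 1 := (zetaBar_spec N).pow_eq_one
  have hσz : (σ (zetaBar N)) ^ N = 1 := by rw [← map_pow, hz, map_one]
  have h1 := val_sub_roots_eq_one (A := A) (NeZero.ne N) hNv hσz hz hne
  have h2 := inertia_val_sub_lt_one A hσ (zetaBar N)
    (valuation_eq_one_of_pow_eq_one A (NeZero.ne N) hz).le
  rw [h1] at h2
  exact lt_irrefl _ h2

/-- `ℚ(ζ_{p^n})` is unramified outside every set of primes containing `p`. -/
theorem isUnramifiedOutside_cycloLevel (p : ℕ) [Fact p.Prime] (n : ℕ)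
    (S : Finset Nat.Primes) (hpS : pPrime p ∈ S) :
    (cycloLevel (p ^ n)).IsUnramifiedOutside S := by
  refine ⟨inferInstance, fun q hq A hA => ?_⟩
  apply inertia_le_fixingSubgroup_cycloLevel
  have hp : p.Prime := Fact.out
  have hqp : (q : ℕ) ≠ p := by
    rintro h
    apply hq
    have : q = pPrime p := Subtype.ext h
    rw [this]; exact hpS
  have := val_prime_eq_one (A := A) hA q.2 hp hqp
  rw [Nat.cast_pow, map_pow, this, one_pow]

end Fermat.Agent.S55.H414

end
-- ===== PACK-END S55/H414/CycloLevel.lean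

-- ===== PACK-BEGIN S55/H414/CycloPow.lean
section




/-!
# S55, leaf CYC-INF (helper414), part 3: the cyclotomic character mod `N` on `G_ℚ`, Frobenius

* `cycloPow N : G_ℚ →* (ZMod N)ˣ`, `σ ζ_N = ζ_N ^ (cycloPow N σ)`, with kernel the fixing subgroup
  of `ℚ(ζ_N)`;
* every valuation subring `A` of `ℚ̄` over a prime `q` has a Frobenius element
  (`exists_isFrobeniusAt`, the proof of `Fermat.Agent.S54.exists_frobenius` for a given `A`);
* a Frobenius element at `A | q`, `q ∤ N`, acts on `ζ_N` by `ζ ↦ ζ ^ q`;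
* hence for `q ≠ p` the local degree of `ℚ(ζ_{p^n})` at `A` is divisible by `p ^ k` for `n ≫ 0`.
-/

set_option autoImplicit false

namespace Fermat.Agent.S55.H414

open ExtCitation Fermat.Agent.S55.Bridge

/-- The cyclotomic character modulo `N` of `G_ℚ`. -/
noncomputable def cycloPow (N : ℕ) [NeZero N] :
    (AlgebraicClosure ℚ ≃ₐ[ℚ] AlgebraicClosure ℚ) →* (ZMod N)ˣ :=
  (zetaBar_spec N).autToPow ℚ

theorem cycloPow_spec (N : ℕ) [NeZero N] (σ : AlgebraicClosure ℚ ≃ₐ[ℚ] AlgebraicClosure ℚ) :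
    σ (zetaBar N) = zetaBar N ^ ((cycloPow N σ : (ZMod N)ˣ) : ZMod N).val :=
  ((zetaBar_spec N).autToPow_spec ℚ σ).symm

/-- Two powers of a primitive `N`-th root of unity agree iff the exponents agree in `ZMod N`. -/
theorem pow_eq_pow_iff_natCast_eq {R : Type*} [CommRing R] [IsDomain R] {ζ : R} {N : ℕ}
    [NeZero N] (hζ : IsPrimitiveRoot ζ N) (a b : ℕ) :
    ζ ^ a = ζ ^ b ↔ (a : ZMod N) = (b : ZMod N) := by
  obtain ⟨u, rfl⟩ := hζ.isUnit (NeZero.ne N)
  have hu : IsPrimitiveRoot u N := IsPrimitiveRoot.coe_units_iff.1 hζ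
  rw [ZMod.natCast_eq_natCast_iff, ← Units.val_pow_eq_pow_val, ← Units.val_pow_eq_pow_val,
    Units.val_inj, pow_eq_pow_iff_modEq, ← hu.eq_orderOf]

/-- Characterisation of the value of the cyclotomic character. -/
theorem cycloPow_eq_iff (N : ℕ) [NeZero N] (σ : AlgebraicClosure ℚ ≃ₐ[ℚ] AlgebraicClosure ℚ)
    (u : (ZMod N)ˣ) :
    cycloPow N σ = u ↔ σ (zetaBar N) = zetaBar N ^ (u : ZMod N).val := by
  rw [cycloPow_spec, pow_eq_pow_iff_natCast_eq (zetaBar_spec N), ZMod.natCast_zmod_val,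
    ZMod.natCast_zmod_val]
  exact Units.ext_iff

/-- If `σ ζ = ζ ^ a` then `cycloPow N σ` is the class of `a`. -/
theorem coe_cycloPow_of_apply_eq_pow (N : ℕ) [NeZero N]
    (σ : AlgebraicClosure ℚ ≃ₐ[ℚ] AlgebraicClosure ℚ) (a : ℕ)
    (h : σ (zetaBar N) = zetaBar N ^ a) :
    ((cycloPow N σ : (ZMod N)ˣ) : ZMod N) = (a : ZMod N) := by
  rw [cycloPow_spec, pow_eq_pow_iff_natCast_eq (zetaBar_spec N), ZMod.natCast_zmod_val] at h
  exact h

theorem ker_cycloPow (N : ℕ) [NeZero N] :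
    (cycloPow N).ker = (cycloLevel N).fixingSubgroup := by
  ext σ
  rw [MonoidHom.mem_ker, mem_fixingSubgroup_cycloLevel_iff, cycloPow_eq_iff]
  have h1 : zetaBar N ^ ((1 : (ZMod N)ˣ) : ZMod N).val = zetaBar N := by
    conv_rhs => rw [← pow_one (zetaBar N)]
    rw [pow_eq_pow_iff_natCast_eq (zetaBar_spec N), ZMod.natCast_zmod_val, Units.val_one,
      Nat.cast_one]
  rw [h1]

/-- The local degree `[D : D ∩ G_F]` for `F = ℚ(ζ_N)` is the order of the image of `D` under the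
cyclotomic character. -/
theorem relIndex_fixingSubgroup_cycloLevel (N : ℕ) [NeZero N]
    (D : Subgroup (AlgebraicClosure ℚ ≃ₐ[ℚ] AlgebraicClosure ℚ)) :
    (cycloLevel N).fixingSubgroup.relIndex D = Nat.card (D.map (cycloPow N)) := by
  rw [← ker_cycloPow, Subgroup.relIndex_ker]

/-- The local degree `[D : D ∩ G_F]` is the order of the image of `D` in `Gal(F/ℚ)`. -/
theorem relIndex_fixingSubgroup_eq_card_map_restrictNormalHom
    (F : IntermediateField ℚ (AlgebraicClosure ℚ)) [Normal ℚ F]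
    (D : Subgroup (AlgebraicClosure ℚ ≃ₐ[ℚ] AlgebraicClosure ℚ)) :
    F.fixingSubgroup.relIndex D = Nat.card (D.map (AlgEquiv.restrictNormalHom F)) := by
  have hker : (AlgEquiv.restrictNormalHom (F := ℚ) (K₁ := AlgebraicClosure ℚ) F).ker
      = F.fixingSubgroup := by
    ext x
    rw [MonoidHom.mem_ker, IntermediateField.mem_fixingSubgroup_iff]
    constructor
    · intro h a ha
      have h1 := AlgEquiv.restrictNormal_commutes x F ⟨a, ha⟩
      have h2 : x.restrictNormal F = 1 := h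
      rw [h2] at h1
      exact h1.symm
    · intro h
      apply AlgEquiv.ext
      intro a
      apply Subtype.ext
      have h1 := AlgEquiv.restrictNormal_commutes x F a
      have h2 := h a a.2
      exact h1.trans h2
  rw [← hker, Subgroup.relIndex_ker]

/-- Every valuation subring of `ℚ̄` over a prime number `ℓ` has a Frobenius element. -/
theorem exists_isFrobeniusAt (A : ValuationSubring (AlgebraicClosure ℚ)) (ℓ : ℕ) (hℓ : ℓ.Prime)
    (hA : A.LiesOverPrime ℓ) :
    ∃ σ : AlgebraicClosure ℚ ≃ₐ[ℚ] AlgebraicClosure ℚ, A.IsFrobeniusAt σ ℓ := by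
  open Fermat.Agent.S54 in
  open scoped Pointwise in
  have : Algebra.IsAlgebraic ℚ (AlgebraicClosure ℚ) := AlgebraicClosure.isAlgebraic ℚ
  have := primeBelow_isPrime A
  have hℓQ : (ℓ : integralClosure ℤ (AlgebraicClosure ℚ)) ∈ primeBelow A := by
    rw [mem_primeBelow]
    exact hA
  obtain ⟨σ, hσQ', hσF⟩ := exists_frob_integralClosure ℓ hℓ (primeBelow A) hℓQ
  have hσQ : ∀ x, σ • x ∈ primeBelow A ↔ x ∈ primeBelow A := by
    intro x
    conv_lhs => rw [← hσQ']
    exact Ideal.smul_mem_pointwise_smul_iff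
  have key : ∀ τ : AlgebraicClosure ℚ ≃ₐ[ℚ] AlgebraicClosure ℚ,
      (∀ x, τ • x ∈ primeBelow A ↔ x ∈ primeBelow A) → ∀ x ∈ A, τ x ∈ A := by
    intro τ hτ x hx
    obtain ⟨b, s, hb, hs, hsA, hxs⟩ := (mem_valuationSubring_iff A ℓ hℓ hA x).mp hx
    refine (mem_valuationSubring_iff A ℓ hℓ hA (τ x)).mpr
      ⟨τ b, τ s, hb.map τ, hs.map τ, ?_, ?_⟩
    · exact (hτ ⟨s, hs⟩).not.mpr hsA
    · rw [← map_mul, hxs]
  have hσA : σ ∈ A.decompositionSubgroup ℚ := by
    rw [MulAction.mem_stabilizer_iff]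
    ext x
    rw [ValuationSubring.mem_smul_pointwise_iff_exists]
    constructor
    · rintro ⟨s, hs, rfl⟩
      exact key σ hσQ s hs
    · intro hx
      refine ⟨σ⁻¹ • x, key σ⁻¹ ?_ x hx, by simp⟩
      intro y
      rw [← hσQ (σ⁻¹ • y)]
      simp
  refine ⟨σ, hσA, ?_⟩
  intro x
  obtain ⟨a, rfl⟩ := IsLocalRing.residue_surjective x
  obtain ⟨b, s, hb, hs, hsA, hxs⟩ := (mem_valuationSubring_iff A ℓ hℓ hA a).mp a.2
  have hbA : b ∈ A := isIntegral_mem_valuationSubring A hb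
  have hsA' : s ∈ A := isIntegral_mem_valuationSubring A hs
  have hint : ∀ (y : AlgebraicClosure ℚ) (hy : IsIntegral ℤ y),
      (⟨σ, hσA⟩ : A.decompositionSubgroup ℚ) •
        IsLocalRing.residue A ⟨y, isIntegral_mem_valuationSubring A hy⟩ =
      (IsLocalRing.residue A ⟨y, isIntegral_mem_valuationSubring A hy⟩) ^ ℓ := by
    intro y hy
    rw [← IsLocalRing.ResidueField.residue_smul, ← map_pow, ← sub_eq_zero, ← map_sub,
      IsLocalRing.residue_eq_zero_iff, ← ValuationSubring.coe_mem_nonunits_iff]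
    exact hσF ⟨y, hy⟩
  have h1 : IsLocalRing.residue A a * IsLocalRing.residue A ⟨s, hsA'⟩ =
      IsLocalRing.residue A ⟨b, hbA⟩ := by
    rw [← map_mul]
    congr 1
    exact Subtype.ext hxs
  have h2 : IsLocalRing.residue A ⟨s, hsA'⟩ ≠ 0 := by
    rw [Ne, IsLocalRing.residue_eq_zero_iff, ← ValuationSubring.coe_mem_nonunits_iff]
    exact hsA
  have h3 := congrArg (fun z => (⟨σ, hσA⟩ : A.decompositionSubgroup ℚ) • z) h1
  simp only [smul_mul'] at h3
  rw [hint s hs, hint b hb, ← h1, mul_pow] at h3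
  exact mul_right_cancel₀ (pow_ne_zero _ h2) h3

/-- A Frobenius element at `A` is congruent to the `q`-th power map on `A`. -/
theorem IsFrobeniusAt_val_sub_pow_lt_one {A : ValuationSubring (AlgebraicClosure ℚ)}
    {σ : AlgebraicClosure ℚ ≃ₐ[ℚ] AlgebraicClosure ℚ} {q : ℕ} (hσ : A.IsFrobeniusAt σ q)
    (z : AlgebraicClosure ℚ) (hz : z ∈ A) : A.valuation (σ z - z ^ q) < 1 := by
  obtain ⟨hσD, hF⟩ := hσ
  have h2 := hF (IsLocalRing.residue A ⟨z, hz⟩)
  rw [← IsLocalRing.ResidueField.residue_smul, ← map_pow] at h2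
  have h3 : ((⟨σ, hσD⟩ : A.decompositionSubgroup ℚ) • (⟨z, hz⟩ : A)) - (⟨z, hz⟩ : A) ^ q
      ∈ IsLocalRing.maximalIdeal A := by
    rw [← Ideal.Quotient.eq]
    exact h2
  rw [ValuationSubring.valuation_lt_one_iff] at h3
  exact h3

/-- A Frobenius element at `A | q` acts on `N`-th roots of unity (`N` a unit at `A`) by
`ζ ↦ ζ ^ q`. -/
theorem IsFrobeniusAt_apply_root {A : ValuationSubring (AlgebraicClosure ℚ)}
    {σ : AlgebraicClosure ℚ ≃ₐ[ℚ] AlgebraicClosure ℚ} {q : ℕ} (hσ : A.IsFrobeniusAt σ q)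
    {N : ℕ} (hN : N ≠ 0) (hNv : A.valuation (N : AlgebraicClosure ℚ) = 1)
    {z : AlgebraicClosure ℚ} (hz : z ^ N = 1) : σ z = z ^ q := by
  by_contra hne
  have hσz : (σ z) ^ N = 1 := by rw [← map_pow, hz, map_one]
  have hzq : (z ^ q) ^ N = 1 := by rw [← pow_mul, mul_comm, pow_mul, hz, one_pow]
  have h1 := val_sub_roots_eq_one (A := A) hN hNv hσz hzq hne
  have hzA : z ∈ A := (A.valuation_le_one_iff z).1 (valuation_eq_one_of_pow_eq_one A hN hz).le
  have h2 := IsFrobeniusAt_val_sub_pow_lt_one hσ z hzA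
  rw [h1] at h2
  exact lt_irrefl _ h2

/-- **CYC-INF, case `q ≠ p`.** For a valuation subring `A` of `ℚ̄` over a prime `q ≠ p` and every
`k`, for all large `n` the local degree at `A` of `ℚ(ζ_{p^n})/ℚ` is divisible by `p ^ k`. -/
theorem exists_forall_pow_dvd_relIndex_of_ne (p : ℕ) [Fact p.Prime] (q : ℕ) (hq : q.Prime)
    (hqp : q ≠ p) (A : ValuationSubring (AlgebraicClosure ℚ)) (hA : A.LiesOverPrime q) (k : ℕ) :
    ∃ n₀ : ℕ, ∀ n, n₀ ≤ n →
      p ^ k ∣ (cycloLevel (p ^ n)).fixingSubgroup.relIndex (A.decompositionSubgroup ℚ) := by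
  have hp : p.Prime := Fact.out
  obtain ⟨n₀, hn₀⟩ := exists_forall_pow_dvd_orderOf p q hp hq.two_le k
  obtain ⟨σ, hσ⟩ := exists_isFrobeniusAt A q hq hA
  refine ⟨n₀, fun n hn => ?_⟩
  rw [relIndex_fixingSubgroup_cycloLevel]
  have hNv : A.valuation ((p ^ n : ℕ) : AlgebraicClosure ℚ) = 1 := by
    rw [Nat.cast_pow, map_pow, val_prime_eq_one (A := A) hA hq hp hqp, one_pow]
  have hζ : σ (zetaBar (p ^ n)) = zetaBar (p ^ n) ^ q :=
    IsFrobeniusAt_apply_root hσ (NeZero.ne _) hNv (zetaBar_spec (p ^ n)).pow_eq_one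
  have hu := coe_cycloPow_of_apply_eq_pow (p ^ n) σ q hζ
  have hdvd := hn₀ n hn (cycloPow (p ^ n) σ) hu
  have hmem : cycloPow (p ^ n) σ ∈ (A.decompositionSubgroup ℚ).map (cycloPow (p ^ n)) :=
    Subgroup.mem_map_of_mem _ hσ.mem_decompositionSubgroup
  have h2 : orderOf (cycloPow (p ^ n) σ) ∣
      Nat.card ((A.decompositionSubgroup ℚ).map (cycloPow (p ^ n))) := by
    have := Subgroup.orderOf_dvd_natCard
      ((A.decompositionSubgroup ℚ).map (cycloPow (p ^ n))) hmem
    exact this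
  exact hdvd.trans h2

end Fermat.Agent.S55.H414

end
-- ===== PACK-END S55/H414/CycloPow.lean

-- ===== PACK-BEGIN Ribet/H403/DetCyc.lean
section








/-!
# RIBET / DETF (helper403): `det ρ̄_{E,p} = ` mod-`p` cyclotomic character, without Weil pairing

`W` an integral Weierstrass curve with `Δ ≠ 0`, `E = W_ℚ`, `p` a prime, `V = E[p](ℚ̄)` with the
Prelude Galois action.  If SOME element of `Gal(ℚ̄/ℚ)` does not act on `V` as a scalar, then
`det (σ | V) = χ_p(σ)` for every `σ`, where `χ_p = cycloPow p` is the mod-`p` cyclotomic character.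

Route: every `σ` agrees on `ℚ(E[p], ζ_p)` with a Frobenius element `τ` at a good prime `ℓ ≥ 5`,
`ℓ ≠ p` (landed `Lib.Cheb.chebotarev`); `τ² - a_ℓ τ + ℓ = 0` on `E[p]` (landed `Lib.Frob`) and
`χ_p(τ) = ℓ`; `dim V = 2` (landed `S59/H127`); conclude with `det_eq_of_forall_quadratic`.
-/

set_option autoImplicit false

open WeierstrassCurve WeierstrassCurve.Affine WeierstrassCurve.Affine.Point

namespace Fermat.Agent.Ribet.H403

/-- `ℚ̄`. -/
abbrev Qb : Type := AlgebraicClosure ℚ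

/-- `Gal(ℚ̄/ℚ)`. -/
abbrev GQ : Type := Qb ≃ₐ[ℚ] Qb

/-- `E[n](ℚ̄)` in the exact Prelude shape. -/
abbrev Tors (E : WeierstrassCurve ℚ) (n : ℕ) : Type :=
  Submodule.torsionBy ℤ (E⁄Qb).Point n

section general

variable (E : WeierstrassCurve ℚ)

theorem isElliptic_baseChange (hΔ : E.Δ ≠ 0) : (E⁄Qb).IsElliptic := by
  constructor
  rw [isUnit_iff_ne_zero]
  show (E.map (algebraMap ℚ Qb)).Δ ≠ 0
  rw [WeierstrassCurve.map_Δ]
  exact (_root_.map_ne_zero _).mpr hΔ

theorem finite_tors (hΔ : E.Δ ≠ 0) (n : ℕ) (hn : 1 ≤ n) : Finite (Tors E n) := by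
  have := isElliptic_baseChange E hΔ
  exact Fermat.Agent.S59.H127.finite_torsion (E⁄Qb) n hn

theorem card_tors (hΔ : E.Δ ≠ 0) (n : ℕ) : Nat.card (Tors E n) = n ^ 2 := by
  have := isElliptic_baseChange E hΔ
  exact Fermat.Agent.S59.H127.card_torsion_eq (E⁄Qb) n

theorem finrank_tors (hΔ : E.Δ ≠ 0) (p : ℕ) [Fact p.Prime] :
    Module.finrank (ZMod p) (Tors E p) = 2 := by
  have hp : p.Prime := Fact.out
  have := finite_tors E hΔ p hp.one_lt.le
  have : Module.Finite (ZMod p) (Tors E p) := Module.Finite.of_finite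
  have h := Module.natCard_eq_pow_finrank (K := ZMod p) (V := Tors E p)
  rw [Nat.card_zmod, card_tors E hΔ] at h
  exact (Nat.pow_right_injective hp.two_le h).symm

/-- A finite set of coordinates controlling the Galois action on `E[n]`. -/
theorem exists_finset_coords (n : ℕ) (hfin : Finite (Tors E n)) :
    ∃ s : Finset Qb, ∀ σ τ : GQ, (∀ x ∈ s, τ x = σ x) → ∀ v : Tors E n, τ • v = σ • v := by
  classical
  have := Fintype.ofFinite (Tors E n)
  let coords : (E⁄Qb).Point → Finset Qb :=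
    fun Q => match Q with
      | .zero => ∅
      | .some x y _ => {x, y}
  refine ⟨Finset.univ.biUnion fun v : Tors E n => coords v.1, fun σ τ hσ v => ?_⟩
  have hv : ∀ x ∈ coords v.1, τ x = σ x := fun x hx =>
    hσ x (Finset.mem_biUnion.2 ⟨v, Finset.mem_univ _, hx⟩)
  apply Subtype.ext
  change Point.map τ.toAlgHom v.1 = Point.map σ.toAlgHom v.1
  rcases hQ : v.1 with _ | ⟨x, y, h⟩
  · rfl
  · rw [hQ] at hv
    have hx : τ x = σ x := hv x (by simp [coords])
    have hy : τ y = σ y := hv y (by simp [coords])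
    rw [Point.map_some, Point.map_some]
    simp only [Point.some.injEq]
    exact ⟨hx, hy⟩

end general

section integral

variable (W : WeierstrassCurve ℤ) (p : ℕ) [Fact p.Prime]

/-- **Quadratic relation.**  Every `σ ∈ Gal(ℚ̄/ℚ)` satisfies `σ² - a σ + χ_p(σ) = 0` on `E[p]`
for some `a ∈ 𝔽_p`. -/
theorem exists_quadratic_rel (hΔ : W.Δ ≠ 0) (σ : GQ) :
    ∃ a : ZMod p, ∀ x : Tors (W.map (Int.castRingHom ℚ)) p,
      σ • (σ • x) - a • (σ • x)
        + ((Fermat.Agent.S55.H414.cycloPow p σ : (ZMod p)ˣ) : ZMod p) • x = 0 := by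
  classical
  have hp : p.Prime := Fact.out
  have hΔQ : (W.map (Int.castRingHom ℚ)).Δ ≠ 0 := by
    rw [WeierstrassCurve.map_Δ]
    simpa using hΔ
  have hfin := finite_tors (W.map (Int.castRingHom ℚ)) hΔQ p hp.one_lt.le
  obtain ⟨s, hs⟩ := exists_finset_coords (W.map (Int.castRingHom ℚ)) p hfin
  -- the finite level
  set ζ := Fermat.Agent.S55.H414.zetaBar p with hζ
  let T : Set Qb := (↑(insert ζ s) : Set Qb)
  have hfd : FiniteDimensional ℚ (IntermediateField.adjoin ℚ T) :=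
    IntermediateField.finiteDimensional_adjoin
      (fun x _ => (AlgebraicClosure.isAlgebraic ℚ).isIntegral.isIntegral x)
  -- Chebotarev
  obtain ⟨ℓ, A, τ, hℓ, hℓS, hA, hτ, -, hτσ⟩ :=
    Fermat.Agent.Lib.Cheb.chebotarev (IntermediateField.adjoin ℚ T) hfd σ
      (insert 2 (insert 3 (insert p W.Δ.natAbs.primeFactors)))
  have hℓ2 : ℓ ≠ 2 := fun h => hℓS (by rw [h]; simp)
  have hℓ3 : ℓ ≠ 3 := fun h => hℓS (by rw [h]; simp)
  have hℓp : ℓ ≠ p := fun h => hℓS (by rw [h]; simp)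
  have hℓΔ : ℓ ∉ W.Δ.natAbs.primeFactors := fun h => hℓS (by simp [h])
  have h5 : 5 ≤ ℓ := by
    have h2 := hℓ.two_le
    by_contra hlt
    have h4 : ℓ = 4 := by omega
    rw [h4] at hℓ
    exact absurd hℓ (by decide)
  have hgood : W.IsGoodPrimeFor ℓ := by
    intro hdvd
    apply hℓΔ
    rw [Nat.mem_primeFactors]
    refine ⟨hℓ, ?_, ?_⟩
    · exact Int.natCast_dvd.mp hdvd
    · simpa using hΔ
  have hℓnp : ¬ ℓ ∣ p := by
    intro h
    rcases (Nat.dvd_prime hp).1 h with h1 | h1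
    · exact hℓ.one_lt.ne' h1
    · exact hℓp h1
  -- agreement of `τ` and `σ`
  have hagree : ∀ x ∈ s, τ x = σ x := fun x hx =>
    hτσ x (IntermediateField.subset_adjoin ℚ T (by simp [T, hx]))
  have hact : ∀ v : Tors (W.map (Int.castRingHom ℚ)) p, τ • v = σ • v := hs σ τ hagree
  have hζT : ζ ∈ IntermediateField.adjoin ℚ T :=
    IntermediateField.subset_adjoin ℚ T (by simp [T])
  -- the cyclotomic character
  have hpv : A.valuation ((p : ℕ) : Qb) = 1 :=
    Fermat.Agent.S55.Bridge.val_prime_eq_one (A := A) hA hℓ hp hℓp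
  have hζp : ζ ^ p = 1 := (Fermat.Agent.S55.H414.zetaBar_spec p).pow_eq_one
  have hτζ : τ ζ = ζ ^ ℓ :=
    Fermat.Agent.S55.H414.IsFrobeniusAt_apply_root hτ hp.ne_zero hpv hζp
  have hσζ : σ ζ = ζ ^ ℓ := by rw [← hτσ ζ hζT, hτζ]
  have hχ : ((Fermat.Agent.S55.H414.cycloPow p σ : (ZMod p)ˣ) : ZMod p) = (ℓ : ZMod p) :=
    Fermat.Agent.S55.H414.coe_cycloPow_of_apply_eq_pow p σ ℓ hσζ
  -- the Frobenius relation
  have hrel := Fermat.Agent.Lib.Frob.frobRelation_of_parts Fermat.Agent.Lib.Frob.frobRelationFin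
    Fermat.Agent.Lib.Frob.reductionData W ℓ hℓ h5 hgood A τ hA hτ p hp.pos hℓnp
  refine ⟨((W.apOfModel ℓ : ℤ) : ZMod p), fun x => ?_⟩
  have hx : (p : ℕ) • (x : ((W.map (Int.castRingHom ℚ))⁄Qb).Point) = 0 := by
    have := x.2
    rw [Submodule.mem_torsionBy_iff] at this
    rw [← natCast_zsmul]
    exact this
  have h1 := hrel x.1 hx
  rw [hχ, ← hact x, ← hact (τ • x)]
  apply Subtype.ext
  rw [Int.cast_smul_eq_zsmul, Nat.cast_smul_eq_nsmul]
  rw [← natCast_zsmul]
  exact h1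


/-- **`det = cyclotomic`** for an integral Weierstrass curve whose mod-`p` image contains a
non-scalar element. -/
theorem det_eq_cycloPow (hΔ : W.Δ ≠ 0)
    (hns : ∃ h : GQ, ¬ ∃ s : ZMod p, ∀ x : Tors (W.map (Int.castRingHom ℚ)) p, h • x = s • x)
    (σ : GQ) :
    LinearMap.det (galoisRepModuleEnd (S := ℚ) (K := Qb) (W.map (Int.castRingHom ℚ)) p σ)
      = ((Fermat.Agent.S55.H414.cycloPow p σ : (ZMod p)ˣ) : ZMod p) := by
  have hp : p.Prime := Fact.out
  have hΔQ : (W.map (Int.castRingHom ℚ)).Δ ≠ 0 := by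
    rw [WeierstrassCurve.map_Δ]
    simpa using hΔ
  have hfin := finite_tors (W.map (Int.castRingHom ℚ)) hΔQ p hp.one_lt.le
  have : Module.Finite (ZMod p) (Tors (W.map (Int.castRingHom ℚ)) p) := Module.Finite.of_finite
  exact det_eq_of_forall_quadratic (finrank_tors (W.map (Int.castRingHom ℚ)) hΔQ p)
    (galoisRepModuleEnd (S := ℚ) (K := Qb) (W.map (Int.castRingHom ℚ)) p)
    (Fermat.Agent.S55.H414.cycloPow p)
    (fun g => exists_quadratic_rel W p hΔ g) hns σ

/-- The same in elementary form: if `σ` raises the `p`-th roots of unity to the `c`-th power then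
`det (σ | E[p]) = c`. -/
theorem det_eq_of_apply_root (hΔ : W.Δ ≠ 0)
    (hns : ∃ h : GQ, ¬ ∃ s : ZMod p, ∀ x : Tors (W.map (Int.castRingHom ℚ)) p, h • x = s • x)
    (σ : GQ) (c : ℕ) (hc : ∀ ζ : Qb, ζ ^ p = 1 → σ ζ = ζ ^ c) :
    LinearMap.det (galoisRepModuleEnd (S := ℚ) (K := Qb) (W.map (Int.castRingHom ℚ)) p σ)
      = (c : ZMod p) := by
  rw [det_eq_cycloPow W p hΔ hns σ]
  exact Fermat.Agent.S55.H414.coe_cycloPow_of_apply_eq_pow p σ c
    (hc _ (Fermat.Agent.S55.H414.zetaBar_spec p).pow_eq_one)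

end integral

end Fermat.Agent.Ribet.H403

end
-- ===== PACK-END Ribet/H403/DetCyc.lean

-- ===== PACK-BEGIN S05.lean
section
-- S05: the mod-p Galois representation of the Frey curve is unramified at every prime q ≠ 2, p.
-- Assembly (helper665) of: (C1b) no torsion in the kernel of reduction (helper845),
-- (C2) same-reduction lemma (helper853), (C3c) component analysis at a node (helper365),
-- slope lemma + Galois argument + Frey arithmetic (helper665).





set_option autoImplicit false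
open WeierstrassCurve WeierstrassCurve.Affine WeierstrassCurve.Affine.Point
open CuspForm ModularFormClass UpperHalfPlane
open FreyPackage

namespace Fermat.Agent.S05

/-- (C1b) in the form consumed by the assembly. -/
theorem assemble_hC1 : Assemble.HC1 :=
  fun _ _ hW _ n _ hvn P hP h => C1b.eq_zero_of_inKer_of_nsmul_eq_zero hW n hvn P hP h

/-- (C3c) in the form consumed by the assembly. -/
theorem assemble_hC3 : Assemble.HC3 :=
  fun _ _ _ h2 e₁ α β hr _ hα0 hα hβ n hn _ _ x y h hP hx =>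
    Comp.c3c h2 e₁ α β (by rw [hr.b₂]; ring) hr.b₄ hr.b₆ hα0 hα hβ n hn x y h hP hx

theorem result (P : FreyPackage) {q : ℕ} (hq : q.Prime) (hq2 : q ≠ 2) (hqp : q ≠ P.p) : P.GaloisRepUnramifiedAt q := by
  exact Assemble.unramified_of assemble_hC1 assemble_hC3 P hq hq2 hqp

end Fermat.Agent.S05

end
-- ===== PACK-END S05.lean

-- ===== PACK-BEGIN S13/H129/AtTwo.lean
section




/-!
# S13, piece T4 (abstract form): inertia acts unipotently on odd torsion at a node in residue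
characteristic 2

Setting: `K` a field, `v : Valuation K Γ₀`, `W : y² + a₁xy = x³ + a₂x² + a₄x` (`a₃ = a₆ = 0`)
with `v`-integral coefficients, `v a₁ = 1`, `v a₄ < 1`, `v 2 < 1`.  The reduction has a node at the
origin.  For a torsion point `P` of odd order `n` (so `v n = 1`) and `σ` acting trivially on the
residue field and preserving `v`, we prove `σ (σ P - P) = σ P - P`.
-/

set_option autoImplicit false
set_option linter.unusedSectionVars false
set_option linter.unusedVariables false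

namespace Fermat.Agent.S13.H129

open WeierstrassCurve WeierstrassCurve.Affine
open Fermat.Agent.S05 Fermat.Agent.S05.SameRed

section identities

variable {F : Type*} [Field F] [DecidableEq F] (W : Affine F)

/-- For a curve through the origin with `a₃ = a₆ = 0`, the `x`-coordinate of `P₁ - P₂` satisfies
`x₁ x₂ (x₁ - x₂)² x(P₁ - P₂) = (y₁ x₂ + y₂ x₁ + a₁ x₁ x₂)²`. -/
lemma addX_sub_formula (h3 : W.a₃ = 0) (h6 : W.a₆ = 0) {x₁ x₂ y₁ y₂ : F}
    (h₁ : W.Equation x₁ y₁) (h₂ : W.Equation x₂ y₂) (hx : x₁ ≠ x₂) :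
    x₁ * x₂ * ((x₁ - x₂) ^ 2 * W.addX x₁ x₂ (W.slope x₁ x₂ y₁ (W.negY x₂ y₂))) =
      (y₁ * x₂ + y₂ * x₁ + W.a₁ * x₁ * x₂) ^ 2 := by
  rw [Affine.equation_iff] at h₁ h₂
  rw [h3, h6] at h₁ h₂
  have hd : x₁ - x₂ ≠ 0 := sub_ne_zero.mpr hx
  rw [slope_of_X_ne hx, XId.addX_div W _ _ _ _ hd]
  simp only [negY, h3]
  linear_combination (x₁ * x₂ - x₂ ^ 2) * h₁ + (x₁ * x₂ - x₁ ^ 2) * h₂

/-- For a curve through the origin with `a₃ = a₆ = 0`, the `x`-coordinate of `P₁ + P₂` satisfies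
`x₁ x₂ (x₁ - x₂)² x(P₁ + P₂) = (y₁ x₂ - y₂ x₁)²`. -/
lemma addX_add_formula (h3 : W.a₃ = 0) (h6 : W.a₆ = 0) {x₁ x₂ y₁ y₂ : F}
    (h₁ : W.Equation x₁ y₁) (h₂ : W.Equation x₂ y₂) (hx : x₁ ≠ x₂) :
    x₁ * x₂ * ((x₁ - x₂) ^ 2 * W.addX x₁ x₂ (W.slope x₁ x₂ y₁ y₂)) =
      (y₁ * x₂ - y₂ * x₁) ^ 2 := by
  rw [Affine.equation_iff] at h₁ h₂
  rw [h3, h6] at h₁ h₂
  have hd : x₁ - x₂ ≠ 0 := sub_ne_zero.mpr hx
  rw [slope_of_X_ne hx, XId.addX_div W _ _ _ _ hd]
  linear_combination (x₁ * x₂ - x₂ ^ 2) * h₁ + (x₁ * x₂ - x₁ ^ 2) * h₂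

lemma dblNum_eq (h3 : W.a₃ = 0) (h6 : W.a₆ = 0) (x : F) :
    XId.dblNum W x = (x ^ 2 - W.a₄) ^ 2 := by
  simp only [XId.dblNum, WeierstrassCurve.b₄, WeierstrassCurve.b₆, WeierstrassCurve.b₈, h3, h6]
  ring

lemma dblDen_eq (h3 : W.a₃ = 0) (h6 : W.a₆ = 0) (x : F) :
    XId.dblDen W x = x * (4 * x ^ 2 + W.b₂ * x + 4 * W.a₄) := by
  simp only [XId.dblDen, WeierstrassCurve.b₂, WeierstrassCurve.b₄, WeierstrassCurve.b₆, h3, h6]
  ring

end identities

section valuation

variable {K : Type*} [Field K] [DecidableEq K]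
  {Γ₀ : Type*} [LinearOrderedCommGroupWithZero Γ₀]
  {W : Affine K} {v : Valuation K Γ₀}

/-- Hypotheses: integral model `y² + a₁xy = x³ + a₂x² + a₄x` with a node at the origin in
residue characteristic two. -/
structure NodeTwo (W : Affine K) (v : Valuation K Γ₀) : Prop where
  int : IntegralCoeffs W v
  a₃ : W.a₃ = 0
  a₆ : W.a₆ = 0
  a₄ : v W.a₄ < 1
  a₄_ne : W.a₄ ≠ 0
  a₁ : v W.a₁ = 1
  two : v 2 < 1

lemma mul_le_mul_l {b c : Γ₀} (h : b ≤ c) (a : Γ₀) : a * b ≤ a * c := by gcongr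

lemma mul_le_mul_r {a b : Γ₀} (h : a ≤ b) (c : Γ₀) : a * c ≤ b * c := by gcongr

lemma sq_lt_sq_of_lt {a b : Γ₀} (h : a < b) : a * a < b * b := by
  have hb : 0 < b := lt_of_le_of_lt zero_le h
  calc a * a ≤ a * b := mul_le_mul_l h.le a
    _ < b * b := mul_lt_mul_of_pos_right h hb

lemma eq_of_sq_eq {a b : Γ₀} (h : a * a = b * b) : a = b := by
  rcases lt_trichotomy a b with hlt | heq | hgt
  · exact absurd h (ne_of_lt (sq_lt_sq_of_lt hlt))
  · exact heq
  · exact absurd h.symm (ne_of_lt (sq_lt_sq_of_lt hgt))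

lemma val_four_lt_one (h2 : v (2 : K) < 1) : v (4 : K) < 1 := by
  have : (4 : K) = 2 * 2 := by norm_num
  rw [this]
  exact val_mul_lt_one_left h2 h2.le

namespace NodeTwo

variable (hN : NodeTwo W v)
include hN

lemma val_b₂ : v W.b₂ = 1 := by
  have h1 : v (W.a₁ ^ 2) = 1 := by rw [map_pow, hN.a₁, one_pow]
  have h2 : v (4 * W.a₂) < 1 := val_mul_lt_one_left (val_four_lt_one hN.two) hN.int.a₂
  simp only [WeierstrassCurve.b₂]
  rw [v.map_add_eq_of_lt_left (by rw [h1]; exact h2), h1]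

/-- the inner factor `4x² + b₂x + 4a₄` of `ψ₂²` has the valuation of `x` in the zone
`v a₄ ≤ v x < 1`. -/
lemma val_inner {x : K} (hx0 : x ≠ 0) (hx1 : v x < 1) (hx4 : v W.a₄ ≤ v x) :
    v (4 * x ^ 2 + W.b₂ * x + 4 * W.a₄) = v x := by
  have hvx : 0 < v x := (Valuation.pos_iff v).mpr hx0
  have h4 := val_four_lt_one hN.two
  have e1 : v (W.b₂ * x) = v x := by rw [map_mul, hN.val_b₂, one_mul]
  have e2 : v (4 * x ^ 2) < v x := by
    have : (4 : K) * x ^ 2 = (4 * x) * x := by ring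
    rw [this, map_mul]
    calc v (4 * x) * v x < 1 * v x :=
          mul_lt_mul_of_pos_right (val_mul_lt_one_left h4 hx1.le) hvx
      _ = v x := one_mul _
  have e3 : v (4 * W.a₄) < v x := by
    rw [map_mul]
    calc v 4 * v W.a₄ ≤ v 4 * v x := mul_le_mul_l hx4 _
      _ < 1 * v x := mul_lt_mul_of_pos_right h4 hvx
      _ = v x := one_mul _
  have e4 : v (4 * x ^ 2 + W.b₂ * x) = v x := by
    rw [v.map_add_eq_of_lt_right (by rw [e1]; exact e2), e1]
  rw [v.map_add_eq_of_lt_left (by rw [e4]; exact e3), e4]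

/-- **class C, lower bound**: if `P = (x, y)` and `2P = (x', _)` are both integral and `P` reduces
to the node, then `v a₄ ≤ v x`. -/
lemma val_a₄_le {x x' : K} (hdbl : x' * XId.dblDen W x = XId.dblNum W x)
    (hden : XId.dblDen W x ≠ 0) (hx' : v x' ≤ 1) : v W.a₄ ≤ v x := by
  by_contra hlt
  rw [not_le] at hlt
  have ha4 : 0 < v W.a₄ := lt_of_le_of_lt zero_le hlt
  have h4 := val_four_lt_one hN.two
  have hx1 : v x < 1 := hlt.trans hN.a₄
  -- numerator
  have hxx : v (x ^ 2) < v W.a₄ := by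
    rw [pow_two, map_mul]
    calc v x * v x ≤ v x * 1 := mul_le_mul_l hx1.le _
      _ = v x := mul_one _
      _ < v W.a₄ := hlt
  have hnum : v (XId.dblNum W x) = v W.a₄ * v W.a₄ := by
    rw [dblNum_eq W hN.a₃ hN.a₆, pow_two, map_mul, sub_eq_add_neg,
      v.map_add_eq_of_lt_right (by rw [Valuation.map_neg]; exact hxx), Valuation.map_neg]
  -- denominator
  have hinner : v (4 * x ^ 2 + W.b₂ * x + 4 * W.a₄) ≤ v W.a₄ := by
    refine (v.map_add _ _).trans (max_le ((v.map_add _ _).trans (max_le ?_ ?_)) ?_)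
    · rw [map_mul]
      calc v 4 * v (x ^ 2) ≤ 1 * v (x ^ 2) := mul_le_mul_r h4.le _
        _ = v (x ^ 2) := one_mul _
        _ ≤ v W.a₄ := hxx.le
    · rw [map_mul, hN.val_b₂, one_mul]; exact hlt.le
    · rw [map_mul]
      calc v 4 * v W.a₄ ≤ 1 * v W.a₄ := mul_le_mul_r h4.le _
        _ = v W.a₄ := one_mul _
  have hdenv : v (XId.dblDen W x) < v W.a₄ * v W.a₄ := by
    rw [dblDen_eq W hN.a₃ hN.a₆, map_mul]
    calc v x * v (4 * x ^ 2 + W.b₂ * x + 4 * W.a₄) ≤ v x * v W.a₄ := mul_le_mul_l hinner _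
      _ < v W.a₄ * v W.a₄ := mul_lt_mul_of_pos_right hlt ha4
  have := congrArg v hdbl
  rw [map_mul, hnum] at this
  have h5 : v x' * v (XId.dblDen W x) ≤ v (XId.dblDen W x) := by
    calc v x' * v (XId.dblDen W x) ≤ 1 * v (XId.dblDen W x) := mul_le_mul_r hx' _
      _ = _ := one_mul _
  rw [this] at h5
  exact absurd hdenv (not_lt.mpr h5)

/-- In the zone `v a₄ ≤ v x < 1`, `η = 2y + a₁x` has the valuation of `x`. -/
lemma val_eta {x y : K} (h : W.Equation x y) (hx0 : x ≠ 0) (hx1 : v x < 1)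
    (hx4 : v W.a₄ ≤ v x) : v (2 * y + W.a₁ * x) = v x := by
  have e := XId.sub_negY_sq W h
  rw [dblDen_eq W hN.a₃ hN.a₆] at e
  have e' : (2 * y + W.a₁ * x) ^ 2 = x * (4 * x ^ 2 + W.b₂ * x + 4 * W.a₄) := by
    rw [← e]; simp only [negY, hN.a₃]; ring
  have := congrArg v e'
  rw [pow_two, map_mul, map_mul, hN.val_inner hx0 hx1 hx4] at this
  exact eq_of_sq_eq this

/-- In the zone `v a₄ ≤ v x ≤ 1`, `y / x` is integral: `v y ≤ v x`. -/
lemma val_y_le_val_x {x y : K} (h : W.Equation x y) (hx1 : v x ≤ 1)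
    (hx4 : v W.a₄ ≤ v x) : v y ≤ v x := by
  by_contra hlt
  rw [not_le] at hlt
  have e := (Affine.equation_iff x y).mp h
  rw [hN.a₃, hN.a₆] at e
  have e' : y * (y + W.a₁ * x) = x * (x ^ 2 + W.a₂ * x + W.a₄) := by linear_combination e
  have h1 : v (y + W.a₁ * x) = v y := by
    apply v.map_add_eq_of_lt_left
    rw [map_mul, hN.a₁, one_mul]; exact hlt
  have h2 : v (x ^ 2 + W.a₂ * x + W.a₄) ≤ v x := by
    refine (v.map_add _ _).trans (max_le ((v.map_add _ _).trans (max_le ?_ ?_)) hx4)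
    · rw [pow_two, map_mul]
      calc v x * v x ≤ v x * 1 := mul_le_mul_l hx1 _
        _ = v x := mul_one _
    · rw [map_mul]
      calc v W.a₂ * v x ≤ 1 * v x := mul_le_mul_r hN.int.a₂ _
        _ = v x := one_mul _
  have := congrArg v e'
  rw [map_mul, map_mul, h1] at this
  have h3 : v y * v y ≤ v x * v x := by
    rw [this]; exact mul_le_mul_l h2 _
  exact absurd (sq_lt_sq_of_lt hlt) (not_lt.mpr h3)

end NodeTwo

end valuation

section galois

variable {R S K : Type*} [CommRing R] [CommRing S] [Field K] [DecidableEq K]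
  [Algebra R S] [Algebra R K] [Algebra S K] [IsScalarTower R S K]
  {Γ₀ : Type*} [LinearOrderedCommGroupWithZero Γ₀]
  {W' : Affine R} {v : Valuation K Γ₀}

/-- a `v`-unit natural number is odd in residue characteristic two. -/
lemma odd_of_val_eq_one (h2 : v (2 : K) < 1) {n : ℕ} (hn : v (n : K) = 1) : Odd n := by
  rcases Nat.even_or_odd n with he | ho
  · exfalso
    obtain ⟨k, rfl⟩ := he
    have : ((k + k : ℕ) : K) = 2 * (k : K) := by push_cast; ring
    rw [this] at hn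
    exact absurd hn (ne_of_lt (val_mul_lt_one_left h2 (val_natCast_le_one k)))
  · exact ho

/-- odd torsion points are not killed by `2`. -/
lemma add_self_ne_zero_of_odd {G : Type*} [AddCommGroup G] {n : ℕ} (hodd : Odd n) {P : G}
    (hP : n • P = 0) (hP0 : P ≠ 0) : P + P ≠ 0 := by
  intro h
  obtain ⟨k, rfl⟩ := hodd
  apply hP0
  have : (2 * k + 1) • P = k • (P + P) + P := by
    rw [add_smul, one_smul, mul_comm, mul_smul, two_smul]
  rw [this, h, smul_zero, zero_add] at hP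
  exact hP

lemma nsmul_algEquiv_smul (σ : K ≃ₐ[S] K) (n : ℕ) (P : (W'⁄K).Point) :
    n • (σ • P) = σ • (n • P) := by
  have := Point.algEquiv_smul_zsmul σ (n : ℤ) P
  rw [natCast_zsmul, natCast_zsmul] at this
  exact this.symm

/-- **Unit case**: in residue characteristic two, with `v a₁ = 1` and `a₃ = 0`, a torsion point
with unit `x`-coordinate has nonsingular reduction, hence is fixed by inertia. -/
theorem smul_eq_self_of_val_x_eq_one (hN : NodeTwo (W'⁄K) v)
    (σ : K ≃ₐ[S] K) (hσ : ∀ t : K, v t ≤ 1 → v (σ t - t) < 1) {n : ℕ} (hn : v (n : K) = 1)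
    {x y : K} (h : (W'⁄K).Nonsingular x y) (hx : v x = 1)
    (hP : n • Point.some x y h = 0) :
    σ • Point.some x y h = Point.some x y h := by
  have hy : v y ≤ 1 := GoodRed.val_y_le_one hN.int h.1 hx.le
  refine GoodRed.smul_eq_self_of_nonsingular_reduction hN.int σ hσ (n : ℤ)
    (fun Q hQ hnQ => C1b.eq_zero_of_inKer_of_zsmul_eq_zero hN.int n hn Q hQ hnQ) h hx.le
    (Or.inr ?_) (by rwa [natCast_zsmul])
  rw [hN.a₃, add_zero]
  have h1 : v ((W'⁄K).a₁ * x) = 1 := by rw [map_mul, hN.a₁, hx, one_mul]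
  have h2 : v (2 * y) < 1 := val_mul_lt_one_left hN.two hy
  rw [v.map_add_eq_of_lt_right (by rw [h1]; exact h2), h1]

/-- **T4, abstract form.** At a node at the origin in residue characteristic two, an
automorphism `σ` acting trivially on the residue field and preserving the valuation satisfies
`σ (σ P - P) = σ P - P` for every torsion point `P` of `v`-unit order. -/
theorem smul_sub_fixed (hN : NodeTwo (W'⁄K) v)
    (σ : K ≃ₐ[S] K) (hσ : ∀ t : K, v t ≤ 1 → v (σ t - t) < 1) (hσv : ∀ t : K, v (σ t) = v t)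
    {n : ℕ} (hn : v (n : K) = 1) (P : (W'⁄K).Point) (hP : n • P = 0) :
    σ • (σ • P - P) = σ • P - P := by
  have hodd : Odd n := odd_of_val_eq_one hN.two hn
  rcases P with _ | ⟨x, y, h⟩
  · have h0 : σ • (0 : (W'⁄K).Point) = 0 := smul_zero σ
    change σ • (σ • (0 : (W'⁄K).Point) - 0) = σ • (0 : (W'⁄K).Point) - 0
    rw [h0, sub_zero, h0]
  have hxy := C1b.val_x_le_one_of_nsmul_eq_zero hN.int hn h hP
  -- `Q = σ P - P` is `n`-torsion
  have hQ : n • (σ • Point.some x y h - Point.some x y h) = 0 := by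
    rw [smul_sub, nsmul_algEquiv_smul, hP, smul_zero, sub_zero]
  -- it suffices to show `Q = 0` or `Q` has unit `x`-coordinate
  suffices hsuff : σ • Point.some x y h - Point.some x y h = 0 ∨
      ∃ (xq yq : K) (hq : (W'⁄K).Nonsingular xq yq),
        σ • Point.some x y h - Point.some x y h = Point.some xq yq hq ∧ v xq = 1 by
    rcases hsuff with h0 | ⟨xq, yq, hq, hQe, hxq⟩
    · rw [h0]; exact smul_zero σ
    · rw [hQe] at hQ ⊢
      exact smul_eq_self_of_val_x_eq_one hN σ hσ hn hq hxq hQ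
  rcases lt_or_eq_of_le hxy.1 with hx1 | hx1
  swap
  · left
    rw [smul_eq_self_of_val_x_eq_one hN σ hσ hn h hx1 hP, sub_self]
  -- now `v x < 1`: the point reduces to the node
  -- `2P ≠ 0`
  have h2P : Point.some x y h + Point.some x y h ≠ 0 :=
    add_self_ne_zero_of_odd hodd hP (Point.some_ne_zero h)
  have hyne : y ≠ (W'⁄K).negY x y := by
    intro hy
    exact h2P (Point.add_self_of_Y_eq hy)
  obtain ⟨x', y', h', hdbl, hdblx, hden⟩ := XId.add_self_some h hyne
  have h2Pn : n • Point.some x' y' h' = 0 := by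
    rw [← hdbl, smul_add, hP, add_zero]
  have hx' := (C1b.val_x_le_one_of_nsmul_eq_zero hN.int hn h' h2Pn).1
  have hx4 : v (W'⁄K).a₄ ≤ v x := hN.val_a₄_le hdblx hden hx'
  have hx0 : x ≠ 0 := by
    intro hx0
    rw [hx0, map_zero] at hx4
    exact hN.a₄_ne ((Valuation.zero_iff v).mp (le_antisymm hx4 zero_le))
  have hvx : 0 < v x := (Valuation.pos_iff v).mpr hx0
  have heta : v (2 * y + (W'⁄K).a₁ * x) = v x := hN.val_eta h.1 hx0 hx1 hx4
  have hyx : v y ≤ v x := hN.val_y_le_val_x h.1 hx1.le hx4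
  -- `g = y / x` is integral
  have hg : v (y / x) ≤ 1 := by
    rw [map_div₀]; exact (div_le_one₀ hvx).mpr hyx
  have hσg := hσ (y / x) hg
  have hσx0 : σ x ≠ 0 := by
    intro h0
    exact hx0 (by simpa using h0)
  have h2g : v (2 * (y / x) + (W'⁄K).a₁) = 1 := by
    have : 2 * (y / x) + (W'⁄K).a₁ = (2 * y + (W'⁄K).a₁ * x) / x := by
      field_simp
    rw [this, map_div₀, heta, div_self (ne_of_gt hvx)]
  -- the image point
  have hσns : (W'⁄K).Nonsingular (σ x) (σ y) :=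
    (W'.baseChange_nonsingular σ.toAlgHom.injective x y).mpr h
  have hσP : σ • Point.some x y h = Point.some (σ x) (σ y) hσns := GoodRed.smul_some σ h
  by_cases hxe : σ x = x
  · -- same `x`-coordinate
    rcases Affine.Y_eq_of_X_eq hσns.1 h.1 hxe with hye | hye
    · left
      rw [hσP, sub_eq_zero]
      simp only [Point.some.injEq]
      exact ⟨hxe, hye⟩
    · exfalso
      have hneg : σ y = -y - (W'⁄K).a₁ * x := by
        rw [hye]; simp only [negY, hN.a₃]; ring
      have : σ (y / x) - y / x = -(2 * (y / x) + (W'⁄K).a₁) := by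
        rw [map_div₀, hxe, hneg]
        field_simp
        ring
      rw [this, Valuation.map_neg, h2g] at hσg
      exact lt_irrefl _ hσg
  · -- different `x`-coordinates
    right
    have hns' : (W'⁄K).Nonsingular x ((W'⁄K).negY x y) := (nonsingular_neg ..).mpr h
    refine ⟨_, _, nonsingular_add hσns hns' fun hxy => hxe hxy.left, ?_, ?_⟩
    · rw [hσP, sub_eq_add_neg, Point.neg_some, Point.add_of_X_ne hxe]
    · set xq := (W'⁄K).addX (σ x) x ((W'⁄K).slope (σ x) x (σ y) ((W'⁄K).negY x y)) with hxq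
      have hform := addX_sub_formula (W'⁄K) hN.a₃ hN.a₆ hσns.1 h.1 hxe
      rw [← hxq] at hform
      -- `Q` is integral
      have hQ' : n • Point.some xq _ (nonsingular_add hσns hns' fun hxy => hxe hxy.left) = 0 := by
        rw [← hQ, hσP, sub_eq_add_neg, Point.neg_some, Point.add_of_X_ne hxe]
      have hxq1 := (C1b.val_x_le_one_of_nsmul_eq_zero hN.int hn _ hQ').1
      refine le_antisymm hxq1 ?_
      -- the right-hand side
      have hrhs : σ y * x + y * σ x + (W'⁄K).a₁ * σ x * x =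
          σ x * x * ((σ (y / x) - y / x) + (2 * (y / x) + (W'⁄K).a₁)) := by
        rw [map_div₀]
        field_simp
        ring
      have hsum : v ((σ (y / x) - y / x) + (2 * (y / x) + (W'⁄K).a₁)) = 1 := by
        rw [v.map_add_eq_of_lt_right (by rw [h2g]; exact hσg), h2g]
      rw [hrhs] at hform
      have hval := congrArg v hform
      simp only [map_mul, map_pow] at hval
      rw [hsum, hσv x, mul_one] at hval
      -- `v (σ x - x) ≤ v x`
      have hd : v (σ x - x) ≤ v x := by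
        refine (v.map_sub _ _).trans (max_le ?_ le_rfl)
        rw [hσv x]
      have hvxx : 0 < v x * v x := mul_pos hvx hvx
      have hle : (v x * v x) * (v x * v x) * 1 ≤ (v x * v x) * (v x * v x) * v xq := by
        calc (v x * v x) * (v x * v x) * 1 = (v x * v x) ^ 2 := by rw [mul_one, pow_two]
          _ = v x * v x * (v (σ x - x) ^ 2 * v xq) := hval.symm
          _ ≤ v x * v x * (v x ^ 2 * v xq) := by
              have h1 : v (σ x - x) ^ 2 ≤ v x ^ 2 := pow_le_pow_left₀ zero_le hd 2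
              exact mul_le_mul_l (mul_le_mul_r h1 _) _
          _ = (v x * v x) * (v x * v x) * v xq := by rw [pow_two]; simp only [mul_assoc]
      exact le_of_mul_le_mul_left hle (mul_pos hvxx hvxx)

end galois

end Fermat.Agent.S13.H129

end
-- ===== PACK-END S13/H129/AtTwo.lean

-- ===== PACK-BEGIN S13/H129/AtTwoFrey.lean
section






/-!
# S13, piece T4: inertia at `2` acts unipotently on the `p`-torsion of the Frey curve

For every valuation subring `A` of `AlgebraicClosure ℚ` lying over `2`, every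
`σ ∈ A.inertiaSubgroupIn ℚ` and every `p`-torsion point `x` of the Frey curve,
`σ • (σ • x - x) = σ • x - x`.

The inertia/valuation lemmas of the first sections follow `Fermat.Agent.S05.Inertia`
(helper725); they are restated here so that this file only depends on modules already on main.
-/

set_option autoImplicit false
set_option linter.unusedSectionVars false
set_option linter.unusedVariables false

namespace Fermat.Agent.S13.H129

open ValuationSubring
open scoped Pointwise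

section inertia

variable {K : Type*} [Field K] {L : Type*} [Field L] [Algebra K L]

theorem mem_inertiaSubgroupIn_iff (A : ValuationSubring L) (σ : L ≃ₐ[K] L) :
    σ ∈ A.inertiaSubgroupIn K ↔
      ∃ h : σ ∈ A.decompositionSubgroup K,
        (⟨σ, h⟩ : A.decompositionSubgroup K) ∈ A.inertiaSubgroup K := by
  unfold ValuationSubring.inertiaSubgroupIn
  constructor
  · rintro ⟨τ, hτ, rfl⟩
    exact ⟨τ.2, hτ⟩
  · rintro ⟨h, hσ⟩
    exact ⟨⟨σ, h⟩, hσ, rfl⟩

theorem mem_decomp_of_mem_inertia {A : ValuationSubring L} {σ : L ≃ₐ[K] L}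
    (hσ : σ ∈ A.inertiaSubgroupIn K) : σ ∈ A.decompositionSubgroup K :=
  ((mem_inertiaSubgroupIn_iff A σ).1 hσ).1

theorem apply_mem_of_mem_decomp {A : ValuationSubring L} {σ : L ≃ₐ[K] L}
    (hσ : σ ∈ A.decompositionSubgroup K) {t : L} (ht : t ∈ A) : σ t ∈ A := by
  have h1 : σ • t ∈ σ • A := ValuationSubring.smul_mem_pointwise_smul σ t A ht
  have h2 : σ • A = A := hσ
  rw [h2] at h1
  exact h1

theorem apply_mem_iff_of_mem_decomp {A : ValuationSubring L} {σ : L ≃ₐ[K] L}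
    (hσ : σ ∈ A.decompositionSubgroup K) {t : L} : σ t ∈ A ↔ t ∈ A := by
  constructor
  · intro h
    have h2 : σ⁻¹ ∈ A.decompositionSubgroup K := inv_mem hσ
    have := apply_mem_of_mem_decomp h2 h
    simpa using this
  · exact apply_mem_of_mem_decomp hσ

/-- the key property of inertia: `σ t - t` lies in the maximal ideal for `t ∈ A`. -/
theorem apply_sub_mem_nonunits_of_mem_inertia {A : ValuationSubring L} {σ : L ≃ₐ[K] L}
    (hσ : σ ∈ A.inertiaSubgroupIn K) {t : L} (ht : t ∈ A) : σ t - t ∈ A.nonunits := by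
  obtain ⟨h, hker⟩ := (mem_inertiaSubgroupIn_iff A σ).1 hσ
  have hmem : σ t ∈ A := apply_mem_of_mem_decomp h ht
  rw [ValuationSubring.mem_nonunits_iff_exists_mem_maximalIdeal]
  refine ⟨A.sub_mem hmem ht, ?_⟩
  have h1 : MulSemiringAction.toRingAut (A.decompositionSubgroup K)
      (IsLocalRing.ResidueField A) ⟨σ, h⟩ = 1 := hker
  have h2 : (⟨σ, h⟩ : A.decompositionSubgroup K) • (IsLocalRing.residue A ⟨t, ht⟩) =
      IsLocalRing.residue A ⟨t, ht⟩ := by
    have := congrArg (fun f => f (IsLocalRing.residue A ⟨t, ht⟩)) h1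
    simpa using this
  rw [← IsLocalRing.ResidueField.residue_smul] at h2
  have h3 : ((⟨σ, h⟩ : A.decompositionSubgroup K) • (⟨t, ht⟩ : A)) = ⟨σ t, hmem⟩ := rfl
  rw [h3] at h2
  have h4 : IsLocalRing.residue A (⟨σ t, hmem⟩ - ⟨t, ht⟩) = 0 := by
    rw [map_sub, h2, sub_self]
  exact (IsLocalRing.residue_eq_zero_iff _).1 h4

theorem valuation_apply_sub_lt_one {A : ValuationSubring L} {σ : L ≃ₐ[K] L}
    (hσ : σ ∈ A.inertiaSubgroupIn K) {t : L} (ht : A.valuation t ≤ 1) :
    A.valuation (σ t - t) < 1 :=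
  A.mem_nonunits_iff.1
    (apply_sub_mem_nonunits_of_mem_inertia hσ ((A.valuation_le_one_iff t).1 ht))

/-- every automorphism has finite order on an algebraic element. -/
theorem exists_pow_apply_eq_self (σ : L ≃ₐ[K] L) {x : L} (hx : IsAlgebraic K x) :
    ∃ n : ℕ, 0 < n ∧ (σ ^ n) x = x := by
  have hint : IsIntegral K x := hx.isIntegral
  have hfin : ((minpoly K x).rootSet L).Finite := Polynomial.rootSet_finite _ _
  have hmem : ∀ k : ℕ, (σ ^ k) x ∈ (minpoly K x).rootSet L := by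
    intro k
    rw [Polynomial.mem_rootSet]
    refine ⟨minpoly.ne_zero hint, ?_⟩
    have : Polynomial.aeval ((σ ^ k) x) (minpoly K x) =
        (σ ^ k) (Polynomial.aeval x (minpoly K x)) := by
      exact Polynomial.aeval_algHom_apply ((σ ^ k : L ≃ₐ[K] L) : L →ₐ[K] L) x (minpoly K x)
    rw [this, minpoly.aeval, map_zero]
  obtain ⟨i, j, hij, heq⟩ : ∃ i j : ℕ, i ≠ j ∧ (σ ^ i) x = (σ ^ j) x := by
    by_contra hcon
    push Not at hcon
    have hinj : Function.Injective (fun k : ℕ => (σ ^ k) x) := by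
      intro i j h
      by_contra hne
      exact hcon i j hne h
    have : (Set.range (fun k : ℕ => (σ ^ k) x)).Infinite := Set.infinite_range_of_injective hinj
    apply this
    apply hfin.subset
    rintro _ ⟨k, rfl⟩
    exact hmem k
  wlog hlt : i < j generalizing i j
  · exact this j i hij.symm heq.symm (lt_of_le_of_ne (not_lt.1 hlt) hij.symm)
  refine ⟨j - i, Nat.sub_pos_of_lt hlt, ?_⟩
  have hj : j = (j - i) + i := by omega
  rw [hj, pow_add] at heq
  have h2 : (σ ^ i) x = (σ ^ i) ((σ ^ (j - i)) x) := by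
    rw [heq]
    have hc : σ ^ (j - i) * σ ^ i = σ ^ i * σ ^ (j - i) := by
      rw [← pow_add, ← pow_add, add_comm]
    rw [hc]
    rfl
  exact ((σ ^ i).injective h2).symm

theorem apply_mem_nonunits_of_mem_decomp {A : ValuationSubring L} {σ : L ≃ₐ[K] L}
    (hσ : σ ∈ A.decompositionSubgroup K) {t : L} (ht : t ∈ A.nonunits) : σ t ∈ A.nonunits := by
  rw [ValuationSubring.mem_nonunits_iff_or] at ht ⊢
  rcases ht with h | h
  · left; rw [h, map_zero]
  · right
    rw [← map_inv₀]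
    rwa [apply_mem_iff_of_mem_decomp hσ]

theorem valuation_apply_le_of_mem_decomp {A : ValuationSubring L}
    {σ : L ≃ₐ[K] L} (hσ : σ ∈ A.decompositionSubgroup K) {x : L} (hxa : IsAlgebraic K x) :
    A.valuation (σ x) ≤ A.valuation x := by
  by_contra hlt
  rw [not_le] at hlt
  have hx0 : σ x ≠ 0 := by
    intro h
    rw [h, map_zero] at hlt
    exact absurd hlt (not_lt.2 zero_le)
  have hx : x ≠ 0 := fun h => hx0 (by rw [h, map_zero])
  have hw : x / σ x ∈ A.nonunits := by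
    rw [ValuationSubring.mem_nonunits_iff, map_div₀]
    exact (div_lt_one₀ (lt_of_le_of_ne zero_le
      (Ne.symm ((Valuation.ne_zero_iff _).2 hx0)))).2 hlt
  have key : ∀ n : ℕ, 0 < n → x / (σ ^ n) x ∈ A.nonunits := by
    intro n hn
    induction n with
    | zero => exact absurd hn (lt_irrefl 0)
    | succ k ih =>
      rcases Nat.eq_zero_or_pos k with hk | hk
      · subst hk
        simpa using hw
      · have h1 := ih hk
        have h2 : σ (x / (σ ^ k) x) ∈ A.nonunits := apply_mem_nonunits_of_mem_decomp hσ h1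
        have h3 : x / (σ ^ (k + 1)) x = (x / σ x) * σ (x / (σ ^ k) x) := by
          have e1 : (σ ^ (k + 1)) x = σ ((σ ^ k) x) := by
            rw [pow_succ']; rfl
          rw [e1, map_div₀]
          field_simp
        rw [h3]
        exact A.nonunits.mul_mem hw h2
  obtain ⟨n, hn, hfix⟩ := exists_pow_apply_eq_self σ hxa
  have := key n hn
  rw [hfix, div_self hx, ValuationSubring.mem_nonunits_iff, map_one] at this
  exact lt_irrefl _ this

theorem valuation_apply_eq_of_mem_decomp {A : ValuationSubring L}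
    {σ : L ≃ₐ[K] L} (hσ : σ ∈ A.decompositionSubgroup K) {x : L} (hxa : IsAlgebraic K x) :
    A.valuation (σ x) = A.valuation x := by
  apply le_antisymm (valuation_apply_le_of_mem_decomp hσ hxa)
  have h2 : σ⁻¹ ∈ A.decompositionSubgroup K := inv_mem hσ
  have hxa' : IsAlgebraic K (σ x) := by
    obtain ⟨p, hp0, hp⟩ := hxa
    refine ⟨p, hp0, ?_⟩
    have : Polynomial.aeval (σ x) p = σ (Polynomial.aeval x p) :=
      Polynomial.aeval_algHom_apply (σ : L →ₐ[K] L) x p
    rw [this, hp, map_zero]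
  have := valuation_apply_le_of_mem_decomp h2 hxa'
  simpa using this

end inertia

section integers

variable {L : Type*} [Field L]

theorem valuation_intCast_le_one (A : ValuationSubring L) (n : ℤ) : A.valuation (n : L) ≤ 1 :=
  (A.valuation_le_one_iff _).2 (_root_.intCast_mem A n)

theorem valuation_natCast_le_one (A : ValuationSubring L) (n : ℕ) : A.valuation (n : L) ≤ 1 :=
  (A.valuation_le_one_iff _).2 (_root_.natCast_mem A n)

/-- integers prime to `q` are units of `A` when `q` is a nonunit. -/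
theorem valuation_intCast_eq_one {A : ValuationSubring L} {q : ℕ}
    (hq : A.LiesOverPrime q) {n : ℤ} (hn : IsCoprime n (q : ℤ)) :
    A.valuation (n : L) = 1 := by
  obtain ⟨a, b, hab⟩ := hn
  have hqv : A.valuation (q : L) < 1 := A.mem_nonunits_iff.1 hq
  have h1 : (a : L) * (n : L) = 1 - (b : L) * (q : L) := by
    have : ((a * n + b * q : ℤ) : L) = 1 := by rw [hab]; simp
    push_cast at this
    linear_combination this
  have h2 : A.valuation ((b : L) * (q : L)) < 1 := by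
    rw [map_mul]
    calc A.valuation (b : L) * A.valuation (q : L) ≤ 1 * A.valuation (q : L) := by
          gcongr
          exact valuation_intCast_le_one A b
      _ < 1 := by simpa using hqv
  have h3 : A.valuation ((a : L) * (n : L)) = 1 := by
    rw [h1]
    exact Valuation.map_one_sub_of_lt _ h2
  rw [map_mul] at h3
  have ha := valuation_intCast_le_one A a
  have hn := valuation_intCast_le_one A n
  apply le_antisymm hn
  by_contra hlt
  rw [not_le] at hlt
  have : A.valuation (a : L) * A.valuation (n : L) < 1 := by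
    calc A.valuation (a : L) * A.valuation (n : L) ≤ 1 * A.valuation (n : L) := by gcongr
      _ < 1 := by simpa using hlt
  exact absurd h3 (ne_of_lt this)

/-- integers divisible by `q` are nonunits. -/
theorem valuation_intCast_lt_one {A : ValuationSubring L} {q : ℕ}
    (hq : A.LiesOverPrime q) {n : ℤ} (hn : (q : ℤ) ∣ n) :
    A.valuation (n : L) < 1 := by
  obtain ⟨k, rfl⟩ := hn
  have hqv : A.valuation (q : L) < 1 := A.mem_nonunits_iff.1 hq
  push_cast
  rw [map_mul]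
  calc A.valuation (q : L) * A.valuation (k : L) ≤ A.valuation (q : L) * 1 := by
        gcongr
        exact valuation_intCast_le_one A k
    _ < 1 := by simpa using hqv

end integers

section frey

open WeierstrassCurve WeierstrassCurve.Affine
open Fermat.Agent.S05 Fermat.Agent.S05.SameRed

variable (P : FreyPackage)

lemma frey_b_pow : ∃ k : ℤ, k ≠ 0 ∧ P.b ^ P.p = 32 * k := by
  obtain ⟨c, hc⟩ := (ZMod.intCast_zmod_eq_zero_iff_dvd P.b 2).1 P.hb2
  obtain ⟨d, hd⟩ := Nat.exists_eq_add_of_le P.hp5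
  have hb := P.hb0
  have hc0 : c ≠ 0 := by
    rintro rfl
    exact hb (by simpa using hc)
  refine ⟨2 ^ d * c ^ P.p, mul_ne_zero (pow_ne_zero _ two_ne_zero) (pow_ne_zero _ hc0), ?_⟩
  rw [hc, mul_pow]
  nth_rewrite 1 [hd]
  rw [pow_add]
  norm_num
  ring

lemma frey_a_pow : ∃ k : ℤ, P.a ^ P.p = 4 * k + 3 := by
  have h : (((P.a ^ P.p - 3 : ℤ)) : ZMod 4) = 0 := by
    push_cast
    rw [P.ha4]
    have h3 : (3 : ZMod 4) = -1 := by decide
    rw [h3, P.hp_odd.neg_one_pow]
    ring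
  obtain ⟨k, hk⟩ := (ZMod.intCast_zmod_eq_zero_iff_dvd _ 4).1 h
  exact ⟨k, by push_cast at hk; linarith⟩

/-- `a₂` of the Frey curve is an integer. -/
lemma frey_a₂_int : ∃ m : ℤ, P.freyCurve.a₂ = (m : ℚ) := by
  obtain ⟨k, _, hk⟩ := frey_b_pow P
  obtain ⟨k', hk'⟩ := frey_a_pow P
  refine ⟨8 * k - k' - 1, ?_⟩
  have hkq : (P.b : ℚ) ^ P.p = 32 * (k : ℚ) := by exact_mod_cast hk
  have hkq' : (P.a : ℚ) ^ P.p = 4 * (k' : ℚ) + 3 := by exact_mod_cast hk'
  simp only [FreyPackage.freyCurve]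
  rw [hkq, hkq']
  push_cast
  ring

/-- `a₄` of the Frey curve is a nonzero even integer. -/
lemma frey_a₄_int : ∃ m : ℤ, m ≠ 0 ∧ P.freyCurve.a₄ = ((2 * m : ℤ) : ℚ) := by
  obtain ⟨k, hk0, hk⟩ := frey_b_pow P
  refine ⟨-(P.a ^ P.p) * k, mul_ne_zero (neg_ne_zero.mpr (pow_ne_zero _ P.ha0)) hk0, ?_⟩
  have hkq : (P.b : ℚ) ^ P.p = 32 * (k : ℚ) := by exact_mod_cast hk
  simp only [FreyPackage.freyCurve]
  rw [hkq]
  push_cast
  ring

variable {K : Type*} [Field K] [DecidableEq K] [Algebra ℚ K]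

lemma frey_a₁ : (P.freyCurve⁄K).a₁ = 1 := by
  simp [WeierstrassCurve.baseChange, FreyPackage.freyCurve]

lemma frey_a₃ : (P.freyCurve⁄K).a₃ = 0 := by
  simp [WeierstrassCurve.baseChange, FreyPackage.freyCurve]

lemma frey_a₆ : (P.freyCurve⁄K).a₆ = 0 := by
  simp [WeierstrassCurve.baseChange, FreyPackage.freyCurve]

lemma frey_a₂ : ∃ m : ℤ, (P.freyCurve⁄K).a₂ = (m : K) := by
  obtain ⟨m, hm⟩ := frey_a₂_int P
  refine ⟨m, ?_⟩
  simp only [WeierstrassCurve.baseChange, WeierstrassCurve.map_a₂, hm]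
  simp

lemma frey_a₄ : ∃ m : ℤ, m ≠ 0 ∧ (P.freyCurve⁄K).a₄ = ((2 * m : ℤ) : K) := by
  obtain ⟨m, hm0, hm⟩ := frey_a₄_int P
  refine ⟨m, hm0, ?_⟩
  have : CharZero K := algebraRat.charZero K
  simp only [WeierstrassCurve.baseChange, WeierstrassCurve.map_a₄, hm]
  simp

/-- The Frey curve has a node at the origin at every place over `2`. -/
theorem frey_nodeTwo (A : ValuationSubring K) (hA : A.LiesOverPrime 2) :
    NodeTwo (P.freyCurve⁄K) A.valuation := by
  have hchar : CharZero K := algebraRat.charZero K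
  have h2 : A.valuation (2 : K) < 1 := by
    have := A.mem_nonunits_iff.1 hA
    simpa using this
  obtain ⟨m₂, hm₂⟩ := frey_a₂ (K := K) P
  obtain ⟨m₄, hm₄0, hm₄⟩ := frey_a₄ (K := K) P
  have h4 : A.valuation (P.freyCurve⁄K).a₄ < 1 := by
    rw [hm₄]
    exact valuation_intCast_lt_one hA (by push_cast; exact Dvd.intro _ rfl)
  refine
    { int := ⟨?_, ?_, ?_, h4.le, ?_⟩
      a₃ := frey_a₃ P
      a₆ := frey_a₆ P
      a₄ := h4
      a₄_ne := ?_
      a₁ := by rw [frey_a₁, map_one]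
      two := h2 }
  · rw [frey_a₁, map_one]
  · rw [hm₂]; exact valuation_intCast_le_one A m₂
  · rw [frey_a₃, map_zero]; exact zero_le_one
  · rw [frey_a₆, map_zero]; exact zero_le_one
  · rw [hm₄]
    exact Int.cast_ne_zero.mpr (mul_ne_zero two_ne_zero hm₄0)

/-- `p` is a unit at every place over `2`. -/
lemma frey_val_p (A : ValuationSubring K) (hA : A.LiesOverPrime 2) :
    A.valuation ((P.p : ℕ) : K) = 1 := by
  have hodd : Odd ((P.p : ℕ) : ℤ) := by exact_mod_cast P.hp_odd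
  have hcop : IsCoprime ((P.p : ℕ) : ℤ) ((2 : ℕ) : ℤ) := by
    obtain ⟨k, hk⟩ := hodd
    exact ⟨1, -k, by rw [hk]; push_cast; ring⟩
  have := valuation_intCast_eq_one hA hcop
  simpa using this

/-- **S13/T4, general field form.**  Inertia at a place over `2` acts unipotently on the
`p`-torsion of the Frey curve. -/
theorem frey_inertia_two_unipotent (halg : ∀ t : K, IsAlgebraic ℚ t)
    (A : ValuationSubring K) (hA : A.LiesOverPrime 2)
    (σ : K ≃ₐ[ℚ] K) (hσ : σ ∈ A.inertiaSubgroupIn ℚ)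
    (x : Submodule.torsionBy ℤ (P.freyCurve⁄K).Point P.p) :
    σ • (σ • x - x) = σ • x - x := by
  have hN := frey_nodeTwo P A hA
  have hp := frey_val_p P A hA
  have hx : P.p • (x : (P.freyCurve⁄K).Point) = 0 := by
    have := (Submodule.mem_torsionBy_iff _ _).1 x.2
    rwa [natCast_zsmul] at this
  have key := smul_sub_fixed (S := ℚ) hN σ
    (fun t ht => valuation_apply_sub_lt_one hσ ht)
    (fun t => valuation_apply_eq_of_mem_decomp (mem_decomp_of_mem_inertia hσ) (halg t))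
    hp (x : (P.freyCurve⁄K).Point) hx
  apply Subtype.ext
  exact key

end frey

section Qbar

open WeierstrassCurve WeierstrassCurve.Affine

/-- every element of `AlgebraicClosure ℚ` is algebraic over `ℚ` for the default algebra
structure. -/
theorem isAlgebraic_algebraicClosure_rat (x : AlgebraicClosure ℚ) : IsAlgebraic ℚ x := by
  have h : (AlgebraicClosure.instAlgebra ℚ : Algebra ℚ (AlgebraicClosure ℚ)) =
      DivisionRing.toRatAlgebra := Subsingleton.elim _ _
  have hx : @IsAlgebraic ℚ (AlgebraicClosure ℚ) _ _ (AlgebraicClosure.instAlgebra ℚ) x :=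
    @Algebra.IsAlgebraic.isAlgebraic ℚ (AlgebraicClosure ℚ) _ _ (AlgebraicClosure.instAlgebra ℚ)
      (AlgebraicClosure.isAlgebraic ℚ) x
  rw [h] at hx
  exact hx

/-- **S13/T4.**  For every valuation subring `A` of `AlgebraicClosure ℚ` over `2`, inertia acts
unipotently on the `p`-torsion of the Frey curve. -/
theorem frey_inertia_two_unipotent_Qbar [DecidableEq (AlgebraicClosure ℚ)] (P : FreyPackage)
    (A : ValuationSubring (AlgebraicClosure ℚ)) (hA : A.LiesOverPrime 2)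
    (σ : AlgebraicClosure ℚ ≃ₐ[ℚ] AlgebraicClosure ℚ) (hσ : σ ∈ A.inertiaSubgroupIn ℚ)
    (x : Submodule.torsionBy ℤ (P.freyCurve⁄(AlgebraicClosure ℚ)).Point P.p) :
    σ • (σ • x - x) = σ • x - x :=
  frey_inertia_two_unipotent P isAlgebraic_algebraicClosure_rat A hA σ hσ x

end Qbar

end Fermat.Agent.S13.H129

end
-- ===== PACK-END S13/H129/AtTwoFrey.lean

-- ===== PACK-BEGIN S13/H129/T4.lean
section




/-!
# S13, piece T4 in the frozen interface shape of `Fermat.Agent.S13.Skel.result_of_parts`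
-/

set_option autoImplicit false

namespace Fermat.Agent.S13.H129

open WeierstrassCurve WeierstrassCurve.Affine WeierstrassCurve.Affine.Point

/-- **T4 (for every place over `2`).** -/
theorem T4_forall (P : FreyPackage) (A : ValuationSubring (AlgebraicClosure ℚ))
    (hA : A.LiesOverPrime 2) :
    ∀ σ ∈ A.inertiaSubgroupIn ℚ, ∀ x : Skel.Vp P, σ • (σ • x - x) = σ • x - x :=
  fun σ hσ x => frey_inertia_two_unipotent_Qbar P A hA σ hσ x

/-- **T4**, exactly the hypothesis `hT4` of `Skel.result_of_parts`. -/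
theorem T4 (P : FreyPackage) :
    ∃ A : ValuationSubring (AlgebraicClosure ℚ), A.LiesOverPrime 2 ∧
      ∀ σ ∈ A.inertiaSubgroupIn ℚ, ∀ x : Skel.Vp P, σ • (σ • x - x) = σ • x - x := by
  obtain ⟨A, hA⟩ := Fermat.Agent.S54.exists_valuationSubring_liesOver 2 Nat.prime_two
  exact ⟨A, hA, T4_forall P A hA⟩

end Fermat.Agent.S13.H129

end
-- ===== PACK-END S13/H129/T4.lean

-- ===== PACK-BEGIN S13/H11/FreyArith.lean
section




/-!
# S13 / T7 (helper11): `2`-adic arithmetic of the Frey curve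

For a Frey package (`a ≡ 3 mod 4`, `b` even, `p ≥ 5`) and a valuation `w` on `ℚ` with `w 2 < 1`:
`a₂ ∈ ℤ`, `w a₄ = (w 2) ^ M` with `M = p β - 4 ≥ 1`, `β ≥ 1`, and `p ∤ 2 M`.
-/

set_option autoImplicit false

namespace Fermat.Agent.S13.H11

variable (P : FreyPackage)

lemma frey_a_odd : Odd P.a := by
  rw [← Int.not_even_iff_odd]
  intro h
  obtain ⟨k, hk⟩ := h
  have h4 := P.ha4
  rw [hk] at h4
  push_cast at h4
  have : ∀ z : ZMod 4, z + z ≠ 3 := by decide
  exact this _ h4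

lemma frey_b_even : Even P.b := by
  rw [even_iff_two_dvd]
  exact (ZMod.intCast_zmod_eq_zero_iff_dvd P.b 2).1 P.hb2

lemma frey_four_dvd : (4 : ℤ) ∣ P.b ^ P.p - 1 - P.a ^ P.p := by
  have h1 : (4 : ℤ) ∣ P.b ^ P.p := by
    obtain ⟨k, hk⟩ := even_iff_two_dvd.mp (frey_b_even P)
    have hp : P.p = 2 + (P.p - 2) := by have := P.hp5; omega
    have h2p : (2 : ℤ) ^ P.p = 4 * 2 ^ (P.p - 2) := by
      conv_lhs => rw [hp, pow_add]
      norm_num
    rw [hk, mul_pow, h2p]
    exact ⟨2 ^ (P.p - 2) * k ^ P.p, by ring⟩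
  have h2 : (4 : ℤ) ∣ 1 + P.a ^ P.p := by
    apply (ZMod.intCast_zmod_eq_zero_iff_dvd (1 + P.a ^ P.p) 4).mp
    push_cast
    rw [P.ha4]
    have h3 : (3 : ZMod 4) = -1 := by decide
    rw [h3, P.hp_odd.neg_one_pow]
    ring
  have : P.b ^ P.p - 1 - P.a ^ P.p = P.b ^ P.p - (1 + P.a ^ P.p) := by ring
  rw [this]
  exact dvd_sub h1 h2

/-- The `2`-adic valuation of `b` (as a bare natural number with its defining property). -/
lemma frey_b_decomp : ∃ (β : ℕ) (b' : ℤ), 1 ≤ β ∧ Odd b' ∧ P.b = 2 ^ β * b' := by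
  obtain ⟨β, b', hb', hb⟩ := int_eq_two_pow_mul_odd P.hb0
  refine ⟨β, b', ?_, hb', hb⟩
  by_contra h
  have h0 : β = 0 := by omega
  subst h0
  rw [pow_zero, one_mul] at hb
  have := frey_b_even P
  rw [hb] at this
  exact (Int.not_even_iff_odd.mpr hb') this

lemma frey_a₂_eq : ∃ z : ℤ, P.freyCurve.a₂ = (z : ℚ) := by
  obtain ⟨z, hz⟩ := frey_four_dvd P
  refine ⟨z, ?_⟩
  have : ((P.b : ℚ) ^ P.p - 1 - (P.a : ℚ) ^ P.p) = 4 * (z : ℚ) := by
    have := congrArg (Int.cast : ℤ → ℚ) hz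
    push_cast at this
    exact this
  simp only [FreyPackage.freyCurve]
  rw [this]
  field_simp

lemma frey_a₁_eq : P.freyCurve.a₁ = 1 := rfl
lemma frey_a₃_eq : P.freyCurve.a₃ = 0 := rfl
lemma frey_a₆_eq : P.freyCurve.a₆ = 0 := rfl
lemma frey_a₄_eq : P.freyCurve.a₄ = -((P.a : ℚ) ^ P.p) * ((P.b : ℚ) ^ P.p) / 16 := rfl

lemma frey_a₄_ne_zero : P.freyCurve.a₄ ≠ 0 := by
  rw [frey_a₄_eq]
  have ha : (P.a : ℚ) ≠ 0 := by exact_mod_cast P.ha0
  have hb : (P.b : ℚ) ≠ 0 := by exact_mod_cast P.hb0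
  have := pow_ne_zero P.p ha
  have := pow_ne_zero P.p hb
  simp only [ne_eq, div_eq_zero_iff, mul_eq_zero, neg_eq_zero, not_or]
  refine ⟨⟨by assumption, by assumption⟩, by norm_num⟩

variable {Γ₀ : Type*} [LinearOrderedCommGroupWithZero Γ₀] {w : Valuation ℚ Γ₀}

lemma frey_val_a₂ : w P.freyCurve.a₂ ≤ 1 := by
  obtain ⟨z, hz⟩ := frey_a₂_eq P
  rw [hz]
  exact val_int_le_one w z

/-- `w a₄ = (w 2) ^ (p β - 4)` where `β ≥ 1` is the `2`-adic valuation of `b`. -/
lemma frey_val_a₄ (h2 : w (2 : ℚ) < 1) :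
    ∃ β : ℕ, 1 ≤ β ∧ w P.freyCurve.a₄ = w 2 ^ ((P.p : ℤ) * β - 4) := by
  obtain ⟨β, b', hβ, hb', hb⟩ := frey_b_decomp P
  refine ⟨β, hβ, ?_⟩
  have h20 : (2 : ℚ) ≠ 0 := by norm_num
  have hbq : (P.b : ℚ) = 2 ^ β * (b' : ℚ) := by
    have := congrArg (Int.cast : ℤ → ℚ) hb
    push_cast at this
    exact this
  have hwa : w ((P.a : ℚ) ^ P.p) = 1 := by
    rw [map_pow, val_odd_eq_one h2 (frey_a_odd P), one_pow]
  have hwb' : w ((b' : ℚ) ^ P.p) = 1 := by
    rw [map_pow, val_odd_eq_one h2 hb', one_pow]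
  have h16 : (16 : ℚ) = 2 ^ (4 : ℕ) := by norm_num
  rw [frey_a₄_eq, map_div₀, map_mul, Valuation.map_neg, hwa, one_mul, hbq, mul_pow, map_mul,
    hwb', mul_one, h16, map_pow, map_pow, map_pow, ← pow_mul, zpow_sub₀ val_two_ne_zero]
  congr 1
  · rw [mul_comm]
    exact_mod_cast (zpow_natCast (w (2 : ℚ)) (P.p * β)).symm
  · exact_mod_cast (zpow_natCast (w (2 : ℚ)) 4).symm

/-- `p` is prime to `2 M` for `M = p β - 4`. -/
lemma frey_not_dvd (β : ℤ) : ¬ ((P.p : ℤ) ∣ 2 * ((P.p : ℤ) * β - 4)) := by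
  intro h
  have h8 : (P.p : ℤ) ∣ 8 := by
    have h1 : (P.p : ℤ) ∣ 2 * ((P.p : ℤ) * β) := Dvd.intro (2 * β) (by ring)
    have := dvd_sub h1 h
    have e : 2 * ((P.p : ℤ) * β) - 2 * ((P.p : ℤ) * β - 4) = 8 := by ring
    rwa [e] at this
  have h8' : P.p ∣ 8 := by exact_mod_cast h8
  have h2 : P.p ∣ 2 := P.pp.dvd_of_dvd_pow (n := 3) (by norm_num; exact h8')
  have hle : P.p ≤ 2 := Nat.le_of_dvd (by norm_num) h2
  have h5 := P.hp5
  omega

/-- The arithmetic contradiction: `0 < ξ < M`, `p ξ = 2 M j` is impossible. -/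
lemma frey_arith_contra (β ξ j : ℤ) (h0 : 0 < ξ) (h1 : ξ < (P.p : ℤ) * β - 4)
    (h : (P.p : ℤ) * ξ = 2 * ((P.p : ℤ) * β - 4) * j) : False := by
  have hp : Prime (P.p : ℤ) := Nat.prime_iff_prime_int.mp P.pp
  have hdvd : (P.p : ℤ) ∣ 2 * ((P.p : ℤ) * β - 4) * j := Dvd.intro _ h
  rcases hp.dvd_or_dvd hdvd with h' | h'
  · exact frey_not_dvd P β h'
  · obtain ⟨j', rfl⟩ := h'
    have hp0 : (P.p : ℤ) ≠ 0 := by exact_mod_cast P.hp0
    have hξ : ξ = 2 * ((P.p : ℤ) * β - 4) * j' := by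
      apply mul_left_cancel₀ hp0
      rw [h]; ring
    have hM : 0 < (P.p : ℤ) * β - 4 := lt_trans h0 h1
    rcases lt_trichotomy j' 0 with hj | hj | hj
    · have : 2 * ((P.p : ℤ) * β - 4) * j' < 0 :=
        mul_neg_of_pos_of_neg (by linarith) hj
      linarith
    · subst hj; simp at hξ; omega
    · have : 2 * ((P.p : ℤ) * β - 4) * 1 ≤ 2 * ((P.p : ℤ) * β - 4) * j' :=
        mul_le_mul_of_nonneg_left (by omega) (by linarith)
      linarith

end Fermat.Agent.S13.H11

end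
-- ===== PACK-END S13/H11/FreyArith.lean

-- ===== PACK-BEGIN S13/H11/NoTorsion.lean
section




/-!
# S13 / T7 (helper11): the `E₀` part of "no rational point of order `p`"

Abstract form over `ℚ`: `W` a Weierstrass curve over `ℚ` with `a₁ = 1`, `a₃ = 0` and
`w`-integral coefficients for a valuation `w` with `w 2 < 1` (so the residue field is `𝔽₂` and
the reduction `y² + xy = x³ + ā₂x² + ā₄ x + ā₆` has at most the affine points with `x̄ = 1`
outside `x̄ = 0`).  If no point of order `p` has `w x < 1`, then there is no point of order `p`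
at all (`p ≥ 5` prime).
-/

set_option autoImplicit false

namespace Fermat.Agent.S13.H11

open WeierstrassCurve WeierstrassCurve.Affine
open Fermat.Agent.S05

variable {Γ₀ : Type*} [LinearOrderedCommGroupWithZero Γ₀]

section group

variable {G : Type*} [AddCommGroup G]

lemma eq_zero_of_coprime_nsmul {k p : ℕ} (hkp : Nat.Coprime k p) {Q : G} (hk : k • Q = 0)
    (hp : p • Q = 0) : Q = 0 := by
  have h1 : addOrderOf Q ∣ k := addOrderOf_dvd_of_nsmul_eq_zero hk
  have h2 : addOrderOf Q ∣ p := addOrderOf_dvd_of_nsmul_eq_zero hp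
  have h3 : addOrderOf Q ∣ Nat.gcd k p := Nat.dvd_gcd h1 h2
  rw [hkp.gcd_eq_one, Nat.dvd_one] at h3
  exact AddMonoid.addOrderOf_eq_one_iff.mp h3

end group

variable [DecidableEq ℚ] {W : Affine ℚ} {w : Valuation ℚ Γ₀}

/-- A nonzero point of order `p` outside the node region has unit `x` and integral `y`. -/
lemma unit_coords (hW : SameRed.IntegralCoeffs W w) {p : ℕ} (hwp : w (p : ℚ) = 1)
    (hnode : ∀ (x y : ℚ) (h : W.Nonsingular x y), p • Point.some x y h = 0 → ¬ w x < 1)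
    {R : W.Point} (hR0 : R ≠ 0) (hR : p • R = 0) :
    ∃ (x y : ℚ) (h : W.Nonsingular x y), R = Point.some x y h ∧ w x = 1 ∧ w y ≤ 1 := by
  rcases R with _ | ⟨x, y, h⟩
  · exact absurd rfl hR0
  · obtain ⟨hx, hy⟩ := C1b.val_x_le_one_of_nsmul_eq_zero hW hwp h hR
    refine ⟨x, y, h, rfl, le_antisymm hx ?_, hy⟩
    exact not_lt.mp (hnode x y h hR)

/-- **`E₀` part of T7.** -/
theorem eq_zero_of_no_node_torsion (hW : SameRed.IntegralCoeffs W w) (h2 : w (2 : ℚ) < 1)
    (ha₁ : W.a₁ = 1) (ha₃ : W.a₃ = 0) {p : ℕ} (hp : p.Prime) (hp5 : 5 ≤ p)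
    (hnode : ∀ (x y : ℚ) (h : W.Nonsingular x y), p • Point.some x y h = 0 → ¬ w x < 1)
    (Q : W.Point) (hQ : p • Q = 0) : Q = 0 := by
  by_contra hQ0
  have hodd : Odd p := hp.odd_of_ne_two (by omega)
  have hwp : w (p : ℚ) = 1 := by
    have := val_odd_eq_one h2 (n := (p : ℤ)) (by exact_mod_cast hodd)
    exact_mod_cast this
  have hc2 : Nat.Coprime 2 p := by
    rw [Nat.coprime_comm]
    exact (Nat.coprime_primes hp Nat.prime_two).mpr (by omega)
  have hc3 : Nat.Coprime 3 p := by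
    rw [Nat.coprime_comm]
    exact (Nat.coprime_primes hp Nat.prime_three).mpr (by omega)
  -- the point `Q`
  obtain ⟨x₁, y₁, h₁, rfl, hx₁, hy₁⟩ := unit_coords hW hwp hnode hQ0 hQ
  -- the point `2 Q`
  have h2Q0 : (2 : ℕ) • Point.some x₁ y₁ h₁ ≠ 0 := fun h => hQ0 (eq_zero_of_coprime_nsmul hc2 h hQ)
  have h2Q : p • ((2 : ℕ) • Point.some x₁ y₁ h₁) = 0 := by
    rw [smul_comm, hQ, nsmul_zero]
  obtain ⟨x₂, y₂, h₂, e₂, hx₂, hy₂⟩ := unit_coords hW hwp hnode h2Q0 h2Q
  have hx : w (x₁ - x₂) < 1 := val_sub_lt_one_of_val_eq_one h2 hx₁ hx₂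
  have hns : w (W.a₁ * y₁ - (3 * x₁ ^ 2 + 2 * W.a₂ * x₁ + W.a₄)) = 1 ∨
      w (2 * y₁ + W.a₁ * x₁ + W.a₃) = 1 := by
    right
    rw [ha₁, ha₃, add_zero, one_mul]
    have h2y : w (2 * y₁) < 1 := by
      rw [map_mul]
      exact (mul_le_of_le_one_right' hy₁).trans_lt h2
    rw [w.map_add_eq_of_lt_right (by rwa [hx₁]), hx₁]
  -- the two cases for the reductions of `y₁`, `y₂`
  by_cases hy : w (y₁ - y₂) < 1
  · -- same reduction: `Q - 2Q ∈ E₁`
    have hker := SameRed.inKer_sub_of_same_reduction hW h₁ h₂ hx₁.le hy₁ hx₂.le hy₂ hx hy hns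
    have hp' : p • (Point.some x₁ y₁ h₁ - Point.some x₂ y₂ h₂) = 0 := by
      rw [nsmul_sub, hQ, ← e₂, h2Q, sub_zero]
    have h0 := C1b.eq_zero_of_inKer_of_nsmul_eq_zero hW p hwp _ hker hp'
    rw [← e₂] at h0
    apply hQ0
    have : Point.some x₁ y₁ h₁ - (2 : ℕ) • Point.some x₁ y₁ h₁ = -Point.some x₁ y₁ h₁ := by
      rw [two_nsmul]; abel
    rw [this, neg_eq_zero] at h0
    exact h0
  · -- opposite reductions: `Q + 2Q ∈ E₁`
    have hy' : w (y₁ - W.negY x₂ y₂) < 1 := by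
      have e : y₁ - W.negY x₂ y₂ = (y₁ - y₂ - 1) + 2 * y₂ + (x₂ - 1) + 2 := by
        simp only [Affine.negY, ha₁, ha₃]; ring
      have hx₂' : w (x₂ - 1) < 1 :=
        (val_lt_one_or_sub_one h2 hx₂.le).resolve_left hx₂.not_lt
      have hy12 : w (y₁ - y₂) ≤ 1 := (w.map_sub _ _).trans (max_le hy₁ hy₂)
      have hy12' : w (y₁ - y₂ - 1) < 1 := (val_lt_one_or_sub_one h2 hy12).resolve_left hy
      have h2y : w (2 * y₂) < 1 := by
        rw [map_mul]
        exact (mul_le_of_le_one_right' hy₂).trans_lt h2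
      rw [e]
      exact (w.map_add _ _).trans_lt (max_lt ((w.map_add _ _).trans_lt (max_lt
        ((w.map_add _ _).trans_lt (max_lt hy12' h2y)) hx₂')) h2)
    have hneg : -Point.some x₂ y₂ h₂ = Point.some x₂ (W.negY x₂ y₂) ((nonsingular_neg ..).mpr h₂) :=
      rfl
    have hny : w (W.negY x₂ y₂) ≤ 1 := by
      have e : W.negY x₂ y₂ = -y₂ - x₂ := by simp only [Affine.negY, ha₁, ha₃]; ring
      rw [e]
      exact (w.map_sub _ _).trans (max_le (by rwa [Valuation.map_neg]) hx₂.le)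
    have hker := SameRed.inKer_sub_of_same_reduction hW h₁ ((nonsingular_neg ..).mpr h₂)
      hx₁.le hy₁ hx₂.le hny hx hy' hns
    rw [← hneg, ← e₂, sub_neg_eq_add] at hker
    have e3 : Point.some x₁ y₁ h₁ + (2 : ℕ) • Point.some x₁ y₁ h₁ =
        (3 : ℕ) • Point.some x₁ y₁ h₁ := by
      rw [two_nsmul, succ_nsmul, two_nsmul]; abel
    rw [e3] at hker
    have hp' : p • ((3 : ℕ) • Point.some x₁ y₁ h₁) = 0 := by
      rw [smul_comm, hQ, nsmul_zero]
    have h0 := C1b.eq_zero_of_inKer_of_nsmul_eq_zero hW p hwp _ hker hp'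
    exact hQ0 (eq_zero_of_coprime_nsmul hc3 h0 hQ)

end Fermat.Agent.S13.H11

end
-- ===== PACK-END S13/H11/NoTorsion.lean

-- ===== PACK-BEGIN S13/H11/T7.lean
section





/-!
# S13 / T7 (helper11): no rational point of order `p` on the Frey curve, modulo the node law

`NodeLaw v W n` is the statement of the node lemma (shape K3 of plan #1430 / (C3c) of S05):
an `n`-torsion point with `v x < 1` satisfies `v a₄ < v x` and `(v x) ^ n ∈ (v a₄) ^ (2 ℤ)`.

Main results:
* `no_rational_point_of_order_p_of_nodeLaw_rat` : the node law for the Frey curve over `ℚ` w.r.t.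
  one valuation `w` on `ℚ` with `w 2 < 1` implies T7;
* `no_rational_point_of_order_p_of_nodeLaw` : the node law for the Frey curve over any field
  `K ⊇ ℚ` w.r.t. one valuation `v` on `K` with `v 2 < 1` implies T7.
-/

set_option autoImplicit false

namespace Fermat.Agent.S13.H11

open WeierstrassCurve WeierstrassCurve.Affine
open Fermat.Agent.S05

variable {Γ₀ : Type*} [LinearOrderedCommGroupWithZero Γ₀]

/-- The node law (shape K3 / C3c) for `n`-torsion points near the node `(0, 0)`. -/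
def NodeLaw {K : Type*} [Field K] [DecidableEq K] (v : Valuation K Γ₀) (W : Affine K)
    (n : ℕ) : Prop :=
  ∀ (x y : K) (h : W.Nonsingular x y), n • Point.some x y h = 0 → v x < 1 →
    v W.a₄ < v x ∧ ∃ j : ℤ, v x ^ n = (v W.a₄ ^ 2) ^ j

variable (P : FreyPackage)

section rat

variable {w : Valuation ℚ Γ₀}

lemma freyQ_a₁ : (P.freyCurve⁄ℚ).a₁ = 1 := by
  simp [FreyPackage.freyCurve, WeierstrassCurve.baseChange]

lemma freyQ_a₃ : (P.freyCurve⁄ℚ).a₃ = 0 := by
  simp [FreyPackage.freyCurve, WeierstrassCurve.baseChange]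

lemma freyQ_a₆ : (P.freyCurve⁄ℚ).a₆ = 0 := by
  simp [FreyPackage.freyCurve, WeierstrassCurve.baseChange]

lemma freyQ_a₂ : (P.freyCurve⁄ℚ).a₂ = P.freyCurve.a₂ := by
  simp [WeierstrassCurve.baseChange]

lemma freyQ_a₄ : (P.freyCurve⁄ℚ).a₄ = P.freyCurve.a₄ := by
  simp [WeierstrassCurve.baseChange]

lemma freyQ_val_a₄_lt_one (h2 : w (2 : ℚ) < 1) : w P.freyCurve.a₄ < 1 := by
  obtain ⟨β, hβ, hval⟩ := frey_val_a₄ P (w := w) h2
  rw [hval, zpow_lt_one_iff h2]
  have h5 : (5 : ℤ) ≤ (P.p : ℤ) := by exact_mod_cast P.hp5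
  have hβ' : (1 : ℤ) ≤ (β : ℤ) := by exact_mod_cast hβ
  nlinarith

lemma freyQ_integral (h2 : w (2 : ℚ) < 1) : SameRed.IntegralCoeffs (P.freyCurve⁄ℚ) w := by
  refine ⟨?_, ?_, ?_, ?_, ?_⟩
  · rw [freyQ_a₁, map_one]
  · rw [freyQ_a₂]; exact frey_val_a₂ P
  · rw [freyQ_a₃, map_zero]; exact zero_le_one
  · rw [freyQ_a₄]; exact (freyQ_val_a₄_lt_one P h2).le
  · rw [freyQ_a₆, map_zero]; exact zero_le_one

variable [DecidableEq ℚ]

/-- The node law excludes points of order `p` near the node (arithmetic of `v₂(a₄) = p β - 4`). -/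
lemma no_node_torsion_rat (h2 : w (2 : ℚ) < 1) (hlaw : NodeLaw w (P.freyCurve⁄ℚ) P.p)
    (x y : ℚ) (h : (P.freyCurve⁄ℚ).Nonsingular x y) (hQ : P.p • Point.some x y h = 0) :
    ¬ w x < 1 := by
  intro hx
  obtain ⟨hlt, j, hj⟩ := hlaw x y h hQ hx
  rw [freyQ_a₄] at hlt hj
  obtain ⟨β, hβ, hval⟩ := frey_val_a₄ P (w := w) h2
  have hx0 : x ≠ 0 := by
    rintro rfl
    rw [map_zero] at hlt
    exact absurd hlt (not_lt.mpr zero_le)
  obtain ⟨ξ, hξ⟩ := exists_val_eq_zpow h2 hx0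
  rw [hξ] at hlt hx hj
  rw [hval] at hlt hj
  have h0 : 0 < ξ := (zpow_lt_one_iff h2 ξ).mp hx
  have h1 : ξ < (P.p : ℤ) * β - 4 := (zpow_lt_zpow_iff h2 _ _).mp hlt
  have hw0 : w (2 : ℚ) ≠ 0 := val_two_ne_zero
  have e : (P.p : ℤ) * ξ = 2 * ((P.p : ℤ) * β - 4) * j := by
    have e1 : (w (2 : ℚ) ^ ξ) ^ P.p = w 2 ^ (ξ * (P.p : ℤ)) := by
      rw [zpow_mul, zpow_natCast]
    have e2 : ((w (2 : ℚ) ^ ((P.p : ℤ) * β - 4)) ^ 2) ^ j =
        w 2 ^ (((P.p : ℤ) * β - 4) * 2 * j) := by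
      rw [zpow_mul, zpow_mul]
      norm_cast
    rw [e1, e2, zpow_eq_zpow_iff h2] at hj
    linarith
  exact frey_arith_contra P β ξ j h0 h1 e

/-- **T7 modulo the node law over `ℚ`.** -/
theorem no_rational_point_of_order_p_of_nodeLaw_rat (h2 : w (2 : ℚ) < 1)
    (hlaw : NodeLaw w (P.freyCurve⁄ℚ) P.p) (Q : (P.freyCurve⁄ℚ).Point) (hQ : P.p • Q = 0) :
    Q = 0 :=
  eq_zero_of_no_node_torsion (freyQ_integral P h2) h2 (freyQ_a₁ P) (freyQ_a₃ P) P.pp P.hp5
    (no_node_torsion_rat P h2 hlaw) Q hQ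

end rat

section general

variable {K : Type*} [Field K] [DecidableEq K] [Algebra ℚ K] [DecidableEq ℚ]

/-- The node law over an extension `K ⊇ ℚ` restricts to the node law over `ℚ`. -/
lemma nodeLaw_rat_of_nodeLaw (v : Valuation K Γ₀) {n : ℕ} (hlaw : NodeLaw v (P.freyCurve⁄K) n) :
    NodeLaw (v.comap (algebraMap ℚ K)) (P.freyCurve⁄ℚ) n := by
  intro x y h hQ hx
  have hmap : Point.map (W' := P.freyCurve) (Algebra.ofId ℚ K) (Point.some x y h) =
      Point.some (Algebra.ofId ℚ K x) (Algebra.ofId ℚ K y)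
        ((WeierstrassCurve.Affine.baseChange_nonsingular (W := P.freyCurve)
          (f := Algebra.ofId ℚ K) (Algebra.ofId ℚ K).injective x y).mpr h) := rfl
  have hQ' : n • Point.some (Algebra.ofId ℚ K x) (Algebra.ofId ℚ K y)
        ((WeierstrassCurve.Affine.baseChange_nonsingular (W := P.freyCurve)
          (f := Algebra.ofId ℚ K) (Algebra.ofId ℚ K).injective x y).mpr h) = 0 := by
    rw [← hmap, ← map_nsmul, hQ, map_zero]
  have ha₄ : (P.freyCurve⁄K).a₄ = algebraMap ℚ K ((P.freyCurve⁄ℚ).a₄) := by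
    simp [WeierstrassCurve.baseChange]
  have := hlaw _ _ _ hQ' hx
  rw [ha₄] at this
  exact this

/-- **T7 modulo the node law over any valued extension of `ℚ` with `v 2 < 1`.** -/
theorem no_rational_point_of_order_p_of_nodeLaw (v : Valuation K Γ₀) (h2 : v (2 : K) < 1)
    (hlaw : NodeLaw v (P.freyCurve⁄K) P.p) (Q : (P.freyCurve⁄ℚ).Point) (hQ : P.p • Q = 0) :
    Q = 0 := by
  have h2' : (v.comap (algebraMap ℚ K)) (2 : ℚ) < 1 := by
    rw [Valuation.comap_apply]
    simpa using h2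
  exact no_rational_point_of_order_p_of_nodeLaw_rat P h2' (nodeLaw_rat_of_nodeLaw P v hlaw) Q hQ

end general

end Fermat.Agent.S13.H11

end
-- ===== PACK-END S13/H11/T7.lean

-- ===== PACK-BEGIN S13/Comp2XY.lean
section




/-!
# The component map on coordinates (any residue characteristic), and its multiplicativity
on collinear triples
-/

set_option autoImplicit false

namespace Fermat.Agent.S13.Comp2

variable {K : Type*} [Field K] {Γ₀ : Type*} [LinearOrderedCommGroupWithZero Γ₀]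

/-- The unit of `Γ₀` attached to a (possibly zero) element; junk value `1` at `0`. -/
noncomputable def toU (g : Γ₀) : Γ₀ˣ := if h : g = 0 then 1 else Units.mk0 g h

lemma toU_coe {g : Γ₀} (h : g ≠ 0) : ((toU g : Γ₀ˣ) : Γ₀) = g := by
  simp [toU, h]

lemma toU_mul {p q : Γ₀} (hp : p ≠ 0) (hq : q ≠ 0) : toU (p * q) = toU p * toU q := by
  apply Units.ext
  rw [Units.val_mul, toU_coe hp, toU_coe hq, toU_coe (mul_ne_zero hp hq)]

lemma toU_pow {p : Γ₀} (hp : p ≠ 0) (k : ℕ) : toU (p ^ k) = toU p ^ k := by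
  apply Units.ext
  rw [Units.val_pow_eq_pow_val, toU_coe hp, toU_coe (pow_ne_zero k hp)]

lemma toU_one : toU (1 : Γ₀) = 1 := by
  apply Units.ext
  rw [toU_coe one_ne_zero, Units.val_one]

variable (v : Valuation K Γ₀)

/-- The component group `Γ₀ˣ / ⟨v(a)²⟩`. -/
abbrev CompGroup (a : K) : Type _ := Γ₀ˣ ⧸ Subgroup.zpowers (toU (v a) ^ 2)

/-- The class of an element of `Γ₀` in the component group. -/
noncomputable def cls (a : K) (g : Γ₀) : CompGroup v a := QuotientGroup.mk (toU g)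

lemma cls_mul (a : K) {p q : Γ₀} (hp : p ≠ 0) (hq : q ≠ 0) :
    cls v a (p * q) = cls v a p * cls v a q := by
  rw [cls, toU_mul hp hq]; rfl

lemma cls_pow (a : K) {p : Γ₀} (hp : p ≠ 0) (k : ℕ) :
    cls v a (p ^ k) = cls v a p ^ k := by
  rw [cls, toU_pow hp]; rfl

lemma cls_one (a : K) : cls v a 1 = 1 := by
  rw [cls, toU_one]; rfl

lemma cls_a_sq (a : K) (ha0 : a ≠ 0) : cls v a (v a ^ 2) = 1 := by
  have h0 : v a ≠ 0 := (Valuation.ne_zero_iff v).mpr ha0
  rw [cls, toU_pow h0]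
  exact (QuotientGroup.eq_one_iff _).mpr (Subgroup.mem_zpowers _)

lemma cls_a_mul_self (a : K) (ha0 : a ≠ 0) : cls v a (v a) * cls v a (v a) = 1 := by
  have h0 : v a ≠ 0 := (Valuation.ne_zero_iff v).mpr ha0
  rw [← cls_mul v a h0 h0, ← pow_two, cls_a_sq v a ha0]

lemma cls_a_inv (a : K) (ha0 : a ≠ 0) : (cls v a (v a))⁻¹ = cls v a (v a) :=
  inv_eq_of_mul_eq_one_left (cls_a_mul_self v a ha0)

/-- The component of a point with coordinates `(x, y)` on
`(y - γ₁ x) (y - γ₂ x) = x (x ^ 2 + a)`, relative to the branch `y ≡ γ₁ x`. -/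
noncomputable def comp2XY (a γ₁ : K) (x y : K) : CompGroup v a :=
  if 1 ≤ v x then 1
  else if v x ≤ v a then cls v a (v a)
  else if v (y - γ₁ * x) < v x then cls v a (v x)
  else (cls v a (v x))⁻¹

variable {v}
variable {a γ₁ γ₂ x₁ y₁ x₂ y₂ x₃ y₃ l n : K}

lemma comp2XY_of_Z {x y : K} (h : 1 ≤ v x) : comp2XY v a γ₁ x y = 1 := by
  simp [comp2XY, h]

lemma comp2XY_of_M {x y : K} (ha : v a < 1) (h : v x ≤ v a) :
    comp2XY v a γ₁ x y = cls v a (v a) := by
  have : ¬ 1 ≤ v x := not_le.mpr (h.trans_lt ha)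
  simp [comp2XY, this, h]

lemma comp2XY_of_P {x y : K} (hlo : v a < v x) (hhi : v x < 1)
    (hP : v (y - γ₁ * x) < v x) : comp2XY v a γ₁ x y = cls v a (v x) := by
  simp [comp2XY, not_le.mpr hhi, not_le.mpr hlo, hP]

lemma comp2XY_of_N {x y : K} (hδ : v (γ₁ - γ₂) = 1)
    (hlo : v a < v x) (hhi : v x < 1)
    (hN : v (y - γ₂ * x) < v x) : comp2XY v a γ₁ x y = (cls v a (v x))⁻¹ := by
  have hP : ¬ v (y - γ₁ * x) < v x := fun hP => sign_exclusive hδ ⟨hP, hN⟩
  simp [comp2XY, not_le.mpr hhi, not_le.mpr hlo, hP]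

/-- The four types of points. -/
lemma comp2XY_cases {x y : K} (hδ : v (γ₁ - γ₂) = 1) (ha : v a < 1)
    (hE : (y - γ₁ * x) * (y - γ₂ * x) = x * (x ^ 2 + a)) :
    (1 ≤ v x ∧ comp2XY v a γ₁ x y = 1) ∨
    (v x ≤ v a ∧ comp2XY v a γ₁ x y = cls v a (v a)) ∨
    (v a < v x ∧ v x < 1 ∧ v (y - γ₁ * x) < v x ∧ comp2XY v a γ₁ x y = cls v a (v x)) ∨
    (v a < v x ∧ v x < 1 ∧ v (y - γ₂ * x) < v x ∧
      comp2XY v a γ₁ x y = (cls v a (v x))⁻¹) := by
  rcases le_or_gt 1 (v x) with hZ | hhi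
  · exact Or.inl ⟨hZ, comp2XY_of_Z hZ⟩
  rcases le_or_gt (v x) (v a) with hM | hlo
  · exact Or.inr (Or.inl ⟨hM, comp2XY_of_M ha hM⟩)
  rcases sign_exists hE hlo hhi with hP | hN
  · exact Or.inr (Or.inr (Or.inl ⟨hlo, hhi, hP, comp2XY_of_P hlo hhi hP⟩))
  · exact Or.inr (Or.inr (Or.inr ⟨hlo, hhi, hN, comp2XY_of_N hδ hlo hhi hN⟩))

/-- Exchanging the branches inverts the component. -/
lemma comp2XY_flip {x y : K} (hδ : v (γ₁ - γ₂) = 1) (ha : v a < 1) (ha0 : a ≠ 0)
    (hE : (y - γ₁ * x) * (y - γ₂ * x) = x * (x ^ 2 + a)) :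
    comp2XY v a γ₂ x y = (comp2XY v a γ₁ x y)⁻¹ := by
  have hδ' : v (γ₂ - γ₁) = 1 := val_swap_delta hδ
  rcases comp2XY_cases hδ ha hE with ⟨hZ, e⟩ | ⟨hM, e⟩ | ⟨hlo, hhi, hP, e⟩ | ⟨hlo, hhi, hN, e⟩
  · rw [e, comp2XY_of_Z hZ, inv_one]
  · rw [e, comp2XY_of_M ha hM, cls_a_inv v a ha0]
  · rw [e]; exact comp2XY_of_N hδ' hlo hhi hP
  · rw [e, inv_inv]; exact comp2XY_of_P hlo hhi hN

/-- Two points at the node, third away: the components cancel. -/
lemma core_two (h : Coll2 a γ₁ γ₂ x₁ y₁ x₂ y₂ x₃ y₃ l n) (hδ : v (γ₁ - γ₂) = 1)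
    (ha : v a < 1) (ha0 : a ≠ 0)
    (h1 : v x₁ < 1) (h2' : v x₂ < 1) (h3 : 1 ≤ v x₃) :
    comp2XY v a γ₁ x₁ y₁ * comp2XY v a γ₁ x₂ y₂ = 1 := by
  have hμ : 0 < v a := by rw [Valuation.pos_iff]; exact ha0
  have hδ' : v (γ₂ - γ₁) = 1 := val_swap_delta hδ
  rcases comp2XY_cases hδ ha h.E1 with ⟨hZ, -⟩ | ⟨hM1, e1⟩ | ⟨hlo1, hhi1, hP1, e1⟩ |
    ⟨hlo1, hhi1, hN1, e1⟩
  · exact absurd hZ (not_le.mpr h1)
  · rcases comp2XY_cases hδ ha h.E2 with ⟨hZ, -⟩ | ⟨hM2, e2⟩ | ⟨hlo2, hhi2, hP2, e2⟩ |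
      ⟨hlo2, hhi2, hN2, e2⟩
    · exact absurd hZ (not_le.mpr h2')
    · rw [e1, e2]; exact cls_a_mul_self v a ha0
    · exact (factD h hδ (hM1.trans_lt hlo2) (h1.trans_le h3) (hhi2.le.trans h3) h3
        (hlo2.trans_le (le_mul_of_one_le_right (hμ.trans hlo2).le h3))).elim
    · exact (factD h hδ (hM1.trans_lt hlo2) (h1.trans_le h3) (hhi2.le.trans h3) h3
        (hlo2.trans_le (le_mul_of_one_le_right (hμ.trans hlo2).le h3))).elim
  all_goals
    rcases comp2XY_cases hδ ha h.E2 with ⟨hZ, -⟩ | ⟨hM2, e2⟩ | ⟨hlo2, hhi2, hP2, e2⟩ |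
      ⟨hlo2, hhi2, hN2, e2⟩
    · exact absurd hZ (not_le.mpr h2')
    · exact (factD h.swap12 hδ (hM2.trans_lt hlo1) (h2'.trans_le h3) (hhi1.le.trans h3) h3
        (hlo1.trans_le (le_mul_of_one_le_right (hμ.trans hlo1).le h3))).elim
  all_goals
    have h12 : v x₁ = v x₂ := by
      rcases lt_trichotomy (v x₁) (v x₂) with hlt | heq | hgt
      · exact (factD h hδ hlt (h1.trans_le h3) (hhi2.le.trans h3) h3
          (hlo2.trans_le (le_mul_of_one_le_right (hμ.trans hlo2).le h3))).elim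
      · exact heq
      · exact (factD h.swap12 hδ hgt (h2'.trans_le h3) (hhi1.le.trans h3) h3
          (hlo1.trans_le (le_mul_of_one_le_right (hμ.trans hlo1).le h3))).elim
    have hx1 : x₁ ≠ 0 := (Valuation.ne_zero_iff v).mp (hμ.trans hlo1).ne'
  · exact (factBsign h hδ h12 h1 hx1 h3 hP1 hP2).elim
  · rw [e1, e2, h12]; exact mul_inv_cancel _
  · rw [e1, e2, h12]; exact inv_mul_cancel _
  · exact (factBsign h.flip hδ' h12 h1 hx1 h3 hN1 hN2).elim

/-- All three points at the node, the first one in the `M`-range. -/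
lemma core_three_M (h : Coll2 a γ₁ γ₂ x₁ y₁ x₂ y₂ x₃ y₃ l n) (hδ : v (γ₁ - γ₂) = 1)
    (ha : v a < 1) (ha0 : a ≠ 0)
    (h1 : v x₁ ≤ v a) (h2' : v x₂ < 1) (h3 : v x₃ < 1) :
    comp2XY v a γ₁ x₁ y₁ * comp2XY v a γ₁ x₂ y₂ * comp2XY v a γ₁ x₃ y₃ = 1 := by
  have hμ : 0 < v a := by rw [Valuation.pos_iff]; exact ha0
  have hδ' : v (γ₂ - γ₁) = 1 := val_swap_delta hδ
  have e1 : comp2XY v a γ₁ x₁ y₁ = cls v a (v a) := comp2XY_of_M ha h1
  rcases comp2XY_cases hδ ha h.E2 with ⟨hZ, -⟩ | ⟨hM2, e2⟩ | ⟨hlo2, hhi2, hP2, e2⟩ |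
    ⟨hlo2, hhi2, hN2, e2⟩
  · exact absurd hZ (not_le.mpr h2')
  · exact (factMMmid h hδ ha ha0 h1 hM2 h3).elim
  all_goals
    rcases comp2XY_cases hδ ha h.E3 with ⟨hZ, -⟩ | ⟨hM3, e3⟩ | ⟨hlo3, hhi3, hP3, e3⟩ |
      ⟨hlo3, hhi3, hN3, e3⟩
    · exact absurd hZ (not_le.mpr h3)
    · exact (factMMmid h.swap23 hδ ha ha0 h1 hM3 h2').elim
  all_goals
    have hval := factA'_val h hδ ha ha0 h1 hhi2 hhi3
    have hne2 : v x₂ ≠ 0 := (hμ.trans hlo2).ne'
    have hne3 : v x₃ ≠ 0 := (hμ.trans hlo3).ne'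
  · rw [e1, e2, e3, mul_assoc, ← cls_mul v a hne2 hne3, hval]
    exact cls_a_mul_self v a ha0
  · exact (factA'_sign h hδ ha h1 hlo2 hhi2 hlo3 hhi3 hP2 hN3).elim
  · exact (factA'_sign h.flip hδ' ha h1 hlo2 hhi2 hlo3 hhi3 hN2 hP3).elim
  · rw [e1, e2, e3, mul_assoc, ← mul_inv, ← cls_mul v a hne2 hne3, hval]
    exact mul_inv_cancel _

/-- All three points in the middle range. -/
lemma core_three_mid (h : Coll2 a γ₁ γ₂ x₁ y₁ x₂ y₂ x₃ y₃ l n) (hδ : v (γ₁ - γ₂) = 1)
    (ha0 : a ≠ 0)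
    (h1lo : v a < v x₁) (h1hi : v x₁ < 1)
    (h2lo : v a < v x₂) (h2hi : v x₂ < 1) (h3lo : v a < v x₃) (h3hi : v x₃ < 1) :
    comp2XY v a γ₁ x₁ y₁ * comp2XY v a γ₁ x₂ y₂ * comp2XY v a γ₁ x₃ y₃ = 1 := by
  have hμ : 0 < v a := by rw [Valuation.pos_iff]; exact ha0
  have hδ' : v (γ₂ - γ₁) = 1 := val_swap_delta hδ
  have hne1 : v x₁ ≠ 0 := (hμ.trans h1lo).ne'
  have hne2 : v x₂ ≠ 0 := (hμ.trans h2lo).ne'
  have hne3 : v x₃ ≠ 0 := (hμ.trans h3lo).ne'
  rcases sign_exists h.E1 h1lo h1hi with hP1 | hN1 <;>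
  rcases sign_exists h.E2 h2lo h2hi with hP2 | hN2 <;>
  rcases sign_exists h.E3 h3lo h3hi with hP3 | hN3
  · -- PPP
    rw [comp2XY_of_P h1lo h1hi hP1, comp2XY_of_P h2lo h2hi hP2, comp2XY_of_P h3lo h3hi hP3,
      ← cls_mul v a hne1 hne2, ← cls_mul v a (mul_ne_zero hne1 hne2) hne3,
      factA_same h hδ h1lo h1hi h2lo h2hi h3lo h3hi hP1 hP2 hP3]
    exact cls_a_sq v a ha0
  · -- PPN
    rw [comp2XY_of_P h1lo h1hi hP1, comp2XY_of_P h2lo h2hi hP2,
      comp2XY_of_N hδ h3lo h3hi hN3,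
      factA_mixed h hδ h1lo h1hi h2lo h2hi h3lo h3hi hP1 hP2 hN3,
      ← cls_mul v a hne1 hne2]
    exact mul_inv_cancel _
  · -- PNP
    rw [comp2XY_of_P h1lo h1hi hP1, comp2XY_of_N hδ h2lo h2hi hN2,
      comp2XY_of_P h3lo h3hi hP3,
      factA_mixed h.swap23 hδ h1lo h1hi h3lo h3hi h2lo h2hi hP1 hP3 hN2,
      cls_mul v a hne1 hne3, mul_right_comm]
    exact mul_inv_cancel _
  · -- PNN
    have := factA_mixed h.rot.flip hδ' h2lo h2hi h3lo h3hi h1lo h1hi hN2 hN3 hP1
    rw [comp2XY_of_P h1lo h1hi hP1, comp2XY_of_N hδ h2lo h2hi hN2,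
      comp2XY_of_N hδ h3lo h3hi hN3, this, cls_mul v a hne2 hne3, mul_assoc, ← mul_inv]
    exact mul_inv_cancel _
  · -- NPP
    have := factA_mixed h.rot hδ h2lo h2hi h3lo h3hi h1lo h1hi hP2 hP3 hN1
    rw [comp2XY_of_N hδ h1lo h1hi hN1, comp2XY_of_P h2lo h2hi hP2,
      comp2XY_of_P h3lo h3hi hP3, this, cls_mul v a hne2 hne3, mul_assoc]
    exact inv_mul_cancel _
  · -- NPN
    have := factA_mixed h.swap23.flip hδ' h1lo h1hi h3lo h3hi h2lo h2hi hN1 hN3 hP2
    rw [comp2XY_of_N hδ h1lo h1hi hN1, comp2XY_of_P h2lo h2hi hP2,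
      comp2XY_of_N hδ h3lo h3hi hN3, this, cls_mul v a hne1 hne3, mul_right_comm,
      ← mul_inv]
    exact inv_mul_cancel _
  · -- NNP
    have := factA_mixed h.flip hδ' h1lo h1hi h2lo h2hi h3lo h3hi hN1 hN2 hP3
    rw [comp2XY_of_N hδ h1lo h1hi hN1, comp2XY_of_N hδ h2lo h2hi hN2,
      comp2XY_of_P h3lo h3hi hP3, this, cls_mul v a hne1 hne2, ← mul_inv]
    exact inv_mul_cancel _
  · -- NNN
    have := factA_same h.flip hδ' h1lo h1hi h2lo h2hi h3lo h3hi hN1 hN2 hN3
    rw [comp2XY_of_N hδ h1lo h1hi hN1, comp2XY_of_N hδ h2lo h2hi hN2,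
      comp2XY_of_N hδ h3lo h3hi hN3, ← mul_inv, ← mul_inv,
      ← cls_mul v a hne1 hne2, ← cls_mul v a (mul_ne_zero hne1 hne2) hne3, this,
      cls_a_sq v a ha0, inv_one]

/-- **Core theorem**: the components of three collinear points multiply to `1`. -/
theorem comp2XY_mul (h : Coll2 a γ₁ γ₂ x₁ y₁ x₂ y₂ x₃ y₃ l n) (hδ : v (γ₁ - γ₂) = 1)
    (ha : v a < 1) (ha0 : a ≠ 0) :
    comp2XY v a γ₁ x₁ y₁ * comp2XY v a γ₁ x₂ y₂ * comp2XY v a γ₁ x₃ y₃ = 1 := by
  rcases le_or_gt 1 (v x₁) with hZ1 | h1 <;>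
  rcases le_or_gt 1 (v x₂) with hZ2 | h2' <;>
  rcases le_or_gt 1 (v x₃) with hZ3 | h3
  · rw [comp2XY_of_Z hZ1, comp2XY_of_Z hZ2, comp2XY_of_Z hZ3]; simp
  · exact (factC h.swap13 hδ ha h3 hZ2 hZ1).elim
  · exact (factC h.swap12 hδ ha h2' hZ1 hZ3).elim
  · rw [comp2XY_of_Z hZ1, one_mul]
    exact core_two h.rot hδ ha ha0 h2' h3 hZ1
  · exact (factC h hδ ha h1 hZ2 hZ3).elim
  · rw [comp2XY_of_Z hZ2, mul_one]
    exact core_two h.swap23 hδ ha ha0 h1 h3 hZ2
  · rw [comp2XY_of_Z hZ3, mul_one]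
    exact core_two h hδ ha ha0 h1 h2' hZ3
  · -- all three at the node
    rcases le_or_gt (v x₁) (v a) with hM1 | hlo1
    · exact core_three_M h hδ ha ha0 hM1 h2' h3
    rcases le_or_gt (v x₂) (v a) with hM2 | hlo2
    · have := core_three_M h.swap12 hδ ha ha0 hM2 h1 h3
      rw [mul_comm (comp2XY v a γ₁ x₁ y₁)]; exact this
    rcases le_or_gt (v x₃) (v a) with hM3 | hlo3
    · have := core_three_M h.rot' hδ ha ha0 hM3 h1 h2'
      rw [mul_comm, ← mul_assoc]; exact this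
    exact core_three_mid h hδ ha0 hlo1 h1 hlo2 h2' hlo3 h3

end Fermat.Agent.S13.Comp2

end
-- ===== PACK-END S13/Comp2XY.lean

-- ===== PACK-BEGIN S13/Comp2Point.lean
section




/-!
# The component homomorphism on the points of a Weierstrass curve with nodal reduction,
valid in every residue characteristic

Model: `a₃ = a₆ = 0`, so that `(0, 0)` is a point of order two reducing to the node, and
`γ₁, γ₂` are the two roots of `t² + a₁ t - a₂` (the tangent directions at the node), which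
are assumed to be distinct in the residue field.
-/

set_option autoImplicit false

namespace Fermat.Agent.S13.Comp2

open WeierstrassCurve WeierstrassCurve.Affine

variable {K : Type*} [Field K] {Γ₀ : Type*} [LinearOrderedCommGroupWithZero Γ₀]

/-- A Weierstrass curve `y² + a₁ x y = x³ + a₂ x² + a₄ x` over a valued field, together with
a factorisation `t² + a₁ t - a₂ = (t - γ₁) (t - γ₂)` with `v (γ₁ - γ₂) = 1`, and `v a₄ < 1`:
the reduction has a node at `(0, 0)` with tangent directions `γ₁ ≠ γ₂`.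
No hypothesis on the residue characteristic. -/
structure NodeModel2 (v : Valuation K Γ₀) (W : Affine K) where
  γ₁ : K
  γ₂ : K
  ha₁ : W.a₁ = -(γ₁ + γ₂)
  ha₂ : W.a₂ = -(γ₁ * γ₂)
  ha₃ : W.a₃ = 0
  ha₆ : W.a₆ = 0
  hδ : v (γ₁ - γ₂) = 1
  ha : v W.a₄ < 1
  ha0 : W.a₄ ≠ 0

namespace NodeModel2

variable {v : Valuation K Γ₀} {W : Affine K}

/-- The same model with the two branches exchanged. -/
def flip (M : NodeModel2 v W) : NodeModel2 v W where
  γ₁ := M.γ₂
  γ₂ := M.γ₁
  ha₁ := by rw [M.ha₁]; ring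
  ha₂ := by rw [M.ha₂]; ring
  ha₃ := M.ha₃
  ha₆ := M.ha₆
  hδ := val_swap_delta M.hδ
  ha := M.ha
  ha0 := M.ha0

lemma key_id (M : NodeModel2 v W) (x y : K) :
    (y - M.γ₁ * x) * (y - M.γ₂ * x) - x * (x ^ 2 + W.a₄) =
      (y ^ 2 + W.a₁ * x * y + W.a₃ * y) - (x ^ 3 + W.a₂ * x ^ 2 + W.a₄ * x + W.a₆) := by
  rw [M.ha₁, M.ha₂, M.ha₃, M.ha₆]
  ring

lemma equation_iff (M : NodeModel2 v W) (x y : K) :
    W.Equation x y ↔ (y - M.γ₁ * x) * (y - M.γ₂ * x) = x * (x ^ 2 + W.a₄) := by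
  rw [Affine.equation_iff, ← sub_eq_zero, ← M.key_id x y, sub_eq_zero]

lemma theta_negY (M : NodeModel2 v W) (x y : K) :
    W.negY x y - M.γ₁ * x = -(y - M.γ₂ * x) := by
  simp only [Affine.negY]
  rw [M.ha₁, M.ha₃]
  ring

/-- The component of a point. -/
noncomputable def comp (M : NodeModel2 v W) : W.Point → CompGroup v W.a₄
  | .zero => 1
  | .some x y _ => comp2XY v W.a₄ M.γ₁ x y

@[simp] lemma comp_zero (M : NodeModel2 v W) : M.comp 0 = 1 := rfl

lemma comp_some (M : NodeModel2 v W) {x y : K} (h : W.Nonsingular x y) :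
    M.comp (.some x y h) = comp2XY v W.a₄ M.γ₁ x y := rfl

lemma comp2XY_negY (M : NodeModel2 v W) {x y : K} (h : W.Equation x y) :
    comp2XY v W.a₄ M.γ₁ x (W.negY x y) = (comp2XY v W.a₄ M.γ₁ x y)⁻¹ := by
  rw [← comp2XY_flip M.hδ M.ha M.ha0 ((M.equation_iff x y).mp h)]
  simp only [comp2XY]
  rw [M.theta_negY, Valuation.map_neg]

lemma comp_neg (M : NodeModel2 v W) (P : W.Point) : M.comp (-P) = (M.comp P)⁻¹ := by
  rcases P with _ | ⟨x, y, h⟩
  · change M.comp 0 = (M.comp 0)⁻¹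
    simp
  · rw [Point.neg_some, comp_some, comp_some]
    exact M.comp2XY_negY h.1

variable [DecidableEq K]

/-- The collinearity data attached to a sum of two affine points. -/
lemma coll_of_add (M : NodeModel2 v W) {x₁ y₁ x₂ y₂ : K} (h₁ : W.Equation x₁ y₁)
    (h₂ : W.Equation x₂ y₂) (hxy : ¬(x₁ = x₂ ∧ y₁ = W.negY x₂ y₂)) :
    Coll2 W.a₄ M.γ₁ M.γ₂ x₁ y₁ x₂ y₂
      (W.addX x₁ x₂ (W.slope x₁ x₂ y₁ y₂))
      (W.negAddY x₁ x₂ y₁ (W.slope x₁ x₂ y₁ y₂))
      (W.slope x₁ x₂ y₁ y₂)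
      (y₁ - W.slope x₁ x₂ y₁ y₂ * x₁) := by
  set ℓ := W.slope x₁ x₂ y₁ y₂ with hℓ
  -- the line passes through the second point
  have hline : y₂ = ℓ * (x₂ - x₁) + y₁ := by
    by_cases hx : x₁ = x₂
    · have hy : y₁ ≠ W.negY x₂ y₂ := fun h => hxy ⟨hx, h⟩
      have := Y_eq_of_Y_ne h₁ h₂ hx hy
      rw [hx, this]; ring
    · rw [hℓ, slope_of_X_ne hx]
      have : x₁ - x₂ ≠ 0 := sub_ne_zero.mpr hx
      field_simp
      ring
  -- Vieta
  have hV := addPolynomial_slope h₁ h₂ hxy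
  rw [addPolynomial_eq, neg_inj, Cubic.prod_X_sub_C_eq, Cubic.toPoly_injective] at hV
  have hVc := congrArg Cubic.c hV
  have hVd := congrArg Cubic.d hV
  simp only at hVc hVd
  rw [← hℓ] at hVc hVd
  have hE3 : W.Equation (W.addX x₁ x₂ ℓ) (W.negAddY x₁ x₂ y₁ ℓ) := equation_negAdd h₁ h₂ hxy
  refine ⟨?_, ?_, ?_, (M.equation_iff _ _).mp h₁, (M.equation_iff _ _).mp h₂,
    (M.equation_iff _ _).mp hE3, ?_, ?_, ?_⟩
  · ring
  · rw [hline]; ring
  · simp only [negAddY]
    ring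
  · simp only [addX]
    rw [M.ha₁, M.ha₂]
    ring
  · rw [← hVc]
    rw [M.ha₁, M.ha₃]
    ring
  · have e : x₁ * x₂ * W.addX x₁ x₂ ℓ = -(-(x₁ * x₂ * W.addX x₁ x₂ ℓ)) := by ring
    rw [e, ← hVd]
    rw [M.ha₃, M.ha₆]
    ring

/-- **The component map is additive.** -/
theorem comp_add (M : NodeModel2 v W) (P Q : W.Point) :
    M.comp (P + Q) = M.comp P * M.comp Q := by
  rcases P with _ | ⟨x₁, y₁, h₁⟩
  · change M.comp (0 + Q) = M.comp 0 * M.comp Q
    rw [zero_add, comp_zero, one_mul]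
  rcases Q with _ | ⟨x₂, y₂, h₂⟩
  · change M.comp (_ + 0) = M.comp _ * M.comp 0
    rw [add_zero, comp_zero, mul_one]
  by_cases hxy : x₁ = x₂ ∧ y₁ = W.negY x₂ y₂
  · rw [Point.add_of_Y_eq hxy.1 hxy.2, comp_zero]
    have : Point.some x₁ y₁ h₁ = -Point.some x₂ y₂ h₂ := by
      rw [Point.neg_some]
      obtain ⟨rfl, rfl⟩ := hxy
      rfl
    rw [this, comp_neg, inv_mul_cancel]
  · rw [Point.add_some hxy, comp_some, comp_some, comp_some]
    have hc := M.coll_of_add h₁.1 h₂.1 hxy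
    have h3 := comp2XY_mul hc M.hδ M.ha M.ha0
    rw [addY, M.comp2XY_negY (equation_negAdd h₁.1 h₂.1 hxy)]
    exact (mul_eq_one_iff_eq_inv.mp h3).symm

/-- The component map as a homomorphism. -/
noncomputable def compHom (M : NodeModel2 v W) : W.Point →+ Additive (CompGroup v W.a₄) where
  toFun P := Additive.ofMul (M.comp P)
  map_zero' := rfl
  map_add' P Q := by
    rw [M.comp_add P Q]; rfl

lemma comp_nsmul (M : NodeModel2 v W) (k : ℕ) (P : W.Point) :
    M.comp (k • P) = M.comp P ^ k := by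
  induction k with
  | zero => simp
  | succ k ih =>
    rw [succ_nsmul, comp_add, ih]
    exact (pow_succ _ _).symm

lemma comp_sub (M : NodeModel2 v W) (P Q : W.Point) :
    M.comp (P - Q) = M.comp P * (M.comp Q)⁻¹ := by
  rw [sub_eq_add_neg, comp_add, comp_neg]

end NodeModel2

end Fermat.Agent.S13.Comp2

end
-- ===== PACK-END S13/Comp2Point.lean

-- ===== PACK-BEGIN S13/Comp2Torsion.lean
section



/-!
# Kernel of the component map, torsion points near the node, and Galois invariance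
(any residue characteristic)
-/

set_option autoImplicit false

namespace Fermat.Agent.S13.Comp2

open WeierstrassCurve WeierstrassCurve.Affine

variable {K : Type*} [Field K] {Γ₀ : Type*} [LinearOrderedCommGroupWithZero Γ₀]
  {v : Valuation K Γ₀}

lemma cls_eq_one_iff (a : K) (g : Γ₀) :
    cls v a g = 1 ↔ ∃ k : ℤ, (toU (v a) ^ 2) ^ k = toU g := by
  rw [cls, QuotientGroup.eq_one_iff, Subgroup.mem_zpowers_iff]

/-- If `cls g = 1` with `g ≠ 0` then `g` is an integral power of `v a ^ 2`. -/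
lemma exists_zpow_of_cls_eq_one {a : K} (ha0 : a ≠ 0) {g : Γ₀} (hg : g ≠ 0)
    (h : cls v a g = 1) : ∃ k : ℤ, g = (v a ^ 2) ^ k := by
  have h0 : v a ≠ 0 := (Valuation.ne_zero_iff v).mpr ha0
  obtain ⟨k, hk⟩ := (cls_eq_one_iff a g).mp h
  refine ⟨k, ?_⟩
  have := congrArg (fun u : Γ₀ˣ => (u : Γ₀)) hk
  simp only [Units.val_zpow_eq_zpow_val, Units.val_pow_eq_pow_val, toU_coe h0, toU_coe hg] at this
  exact this.symm

/-- An element `g < 1` which is an integral power of `m < 1` is a natural power. -/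
lemma exists_pow_of_zpow {m g : Γ₀} (hm0 : m ≠ 0) (hm : m < 1) (hg : g < 1) {k : ℤ}
    (h : g = m ^ k) : ∃ j : ℕ, g = m ^ j := by
  rcases le_or_gt 0 k with hk | hk
  · refine ⟨k.toNat, ?_⟩
    rw [h]
    conv_lhs => rw [← Int.toNat_of_nonneg hk]
    exact zpow_natCast m k.toNat
  · exfalso
    have h1 : 1 ≤ m ^ k := by
      have : m ^ k = (m ^ (-k).toNat)⁻¹ := by
        rw [← zpow_natCast, Int.toNat_of_nonneg (by omega), zpow_neg, inv_inv]
      rw [this]
      apply (one_le_inv₀ (pow_pos (zero_lt_iff.mpr hm0) _)).mpr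
      exact pow_le_one₀ zero_le hm.le
    rw [← h] at h1
    exact absurd h1 (not_le.mpr hg)

/-- An element `g` with `v a ≤ g < 1` is not in the subgroup generated by `v a ^ 2`. -/
lemma cls_ne_one_of_le_of_lt {a : K} (ha0 : a ≠ 0) (ha : v a < 1) {g : Γ₀}
    (hlo : v a ≤ g) (hhi : g < 1) : cls v a g ≠ 1 := by
  have h0 : v a ≠ 0 := (Valuation.ne_zero_iff v).mpr ha0
  have hpos : 0 < v a := zero_lt_iff.mpr h0
  have hg0 : g ≠ 0 := (hpos.trans_le hlo).ne'
  intro h
  obtain ⟨k, hk⟩ := exists_zpow_of_cls_eq_one ha0 hg0 h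
  have hsq0 : v a ^ 2 ≠ 0 := pow_ne_zero 2 h0
  have hsq1 : v a ^ 2 < 1 := pow_lt_one₀ zero_le ha (by norm_num)
  obtain ⟨j, hj⟩ := exists_pow_of_zpow hsq0 hsq1 hhi hk
  rw [← pow_mul] at hj
  rcases Nat.eq_zero_or_pos j with h0j | hjpos
  · rw [h0j, mul_zero, pow_zero] at hj
    exact absurd hj hhi.ne
  · have : v a ^ (2 * j) < v a := by
      calc v a ^ (2 * j) ≤ v a ^ 2 := pow_le_pow_of_le_one zero_le ha.le (by omega)
        _ = v a * v a := pow_two _
        _ < v a * 1 := mul_lt_mul_of_pos_left ha hpos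
        _ = v a := mul_one _
    rw [← hj] at this
    exact absurd hlo (not_le.mpr this)

lemma cls_a_ne_one {a : K} (ha0 : a ≠ 0) (ha : v a < 1) : cls v a (v a) ≠ 1 :=
  cls_ne_one_of_le_of_lt ha0 ha le_rfl ha

/-- The component of a point on the cubic is trivial iff the point is away from the node. -/
theorem comp2XY_eq_one_iff {a γ₁ γ₂ x y : K} (hδ : v (γ₁ - γ₂) = 1) (ha : v a < 1)
    (ha0 : a ≠ 0) (hE : (y - γ₁ * x) * (y - γ₂ * x) = x * (x ^ 2 + a)) :
    comp2XY v a γ₁ x y = 1 ↔ 1 ≤ v x := by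
  constructor
  · intro h
    rcases comp2XY_cases hδ ha hE with ⟨hZ, -⟩ | ⟨-, e⟩ | ⟨hlo, hhi, -, e⟩ | ⟨hlo, hhi, -, e⟩
    · exact hZ
    · rw [e] at h
      exact absurd h (cls_a_ne_one ha0 ha)
    · rw [e] at h
      exact absurd h (cls_ne_one_of_le_of_lt ha0 ha hlo.le hhi)
    · rw [e, inv_eq_one] at h
      exact absurd h (cls_ne_one_of_le_of_lt ha0 ha hlo.le hhi)
  · exact comp2XY_of_Z

/-- The component is invariant under valuation-preserving ring endomorphisms fixing the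
branch `γ₁`. -/
lemma comp2XY_map {a γ₁ x y : K} (σ : K →+* K) (hv : ∀ t, v (σ t) = v t)
    (hγ : σ γ₁ = γ₁) : comp2XY v a γ₁ (σ x) (σ y) = comp2XY v a γ₁ x y := by
  have e : σ y - γ₁ * σ x = σ (y - γ₁ * x) := by
    rw [map_sub, map_mul, hγ]
  simp only [comp2XY]
  rw [e, hv, hv]

namespace NodeModel2

variable {W : Affine K}

lemma gamma₁_root (M : NodeModel2 v W) : M.γ₁ ^ 2 + W.a₁ * M.γ₁ - W.a₂ = 0 := by
  rw [M.ha₁, M.ha₂]; ring

/-- The branches are `v`-integral when `a₁` and `a₂` are. -/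
lemma val_gamma₁_le_one (M : NodeModel2 v W) (h1 : v W.a₁ ≤ 1) (h2 : v W.a₂ ≤ 1) :
    v M.γ₁ ≤ 1 := by
  by_contra hcon
  rw [not_le] at hcon
  have hpos : 0 < v M.γ₁ := zero_lt_one.trans hcon
  have e : M.γ₁ ^ 2 = -(W.a₁ * M.γ₁) + W.a₂ := by
    linear_combination M.gamma₁_root
  have h3 : v (M.γ₁ ^ 2) ≤ v M.γ₁ := by
    rw [e]
    apply Valuation.map_add_le
    · rw [Valuation.map_neg, map_mul]
      calc v W.a₁ * v M.γ₁ ≤ 1 * v M.γ₁ := mul_le_mul' h1 le_rfl
        _ = v M.γ₁ := one_mul _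
    · exact h2.trans hcon.le
  rw [map_pow, pow_two] at h3
  have h4 : v M.γ₁ < v M.γ₁ * v M.γ₁ := by
    calc v M.γ₁ = 1 * v M.γ₁ := (one_mul _).symm
      _ < v M.γ₁ * v M.γ₁ := mul_lt_mul_of_pos_right hcon hpos
  exact absurd h3 (not_le.mpr h4)

/-- A ring endomorphism fixing `a₁`, `a₂` and acting trivially on the residue field fixes
the branch `γ₁`. -/
lemma map_gamma₁_eq (M : NodeModel2 v W) (σ : K →+* K) (h1 : σ W.a₁ = W.a₁)
    (h2 : σ W.a₂ = W.a₂) (hσ : v (σ M.γ₁ - M.γ₁) < 1) : σ M.γ₁ = M.γ₁ := by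
  have hroot : σ M.γ₁ ^ 2 + W.a₁ * σ M.γ₁ - W.a₂ = 0 := by
    have := congrArg σ M.gamma₁_root
    rw [map_sub, map_add, map_pow, map_mul, h1, h2, map_zero] at this
    exact this
  have hprod : (σ M.γ₁ - M.γ₁) * (σ M.γ₁ - M.γ₂) = 0 := by
    have e : (σ M.γ₁ - M.γ₁) * (σ M.γ₁ - M.γ₂) = σ M.γ₁ ^ 2 + W.a₁ * σ M.γ₁ - W.a₂ := by
      rw [M.ha₁, M.ha₂]; ring
    rw [e, hroot]
  rcases mul_eq_zero.mp hprod with h | h
  · exact sub_eq_zero.mp h
  · exfalso
    have e : σ M.γ₁ - M.γ₁ = M.γ₂ - M.γ₁ := by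
      rw [sub_eq_zero.mp h]
    rw [e, val_swap_delta M.hδ] at hσ
    exact lt_irrefl _ hσ

/-- The component of a point is trivial iff the point is `0` or has `1 ≤ v x`. -/
theorem comp_some_eq_one_iff (M : NodeModel2 v W) {x y : K} (h : W.Nonsingular x y) :
    M.comp (.some x y h) = 1 ↔ 1 ≤ v x := by
  rw [comp_some]
  exact comp2XY_eq_one_iff M.hδ M.ha M.ha0 ((M.equation_iff x y).mp h.1)

variable [DecidableEq K]

/-- The subgroup `E₀` of points with nonsingular reduction. -/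
noncomputable def E0 (M : NodeModel2 v W) : AddSubgroup W.Point := M.compHom.ker

lemma mem_E0_iff (M : NodeModel2 v W) (P : W.Point) : P ∈ M.E0 ↔ M.comp P = 1 := by
  rw [E0, AddMonoidHom.mem_ker]
  exact Iff.rfl

lemma zero_mem_E0 (M : NodeModel2 v W) : (0 : W.Point) ∈ M.E0 := M.E0.zero_mem

lemma some_mem_E0_iff (M : NodeModel2 v W) {x y : K} (h : W.Nonsingular x y) :
    Point.some x y h ∈ M.E0 ↔ 1 ≤ v x := by
  rw [mem_E0_iff, comp_some_eq_one_iff]

/-- Twice a point in the `M`-range has nonsingular reduction. -/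
theorem two_nsmul_mem_E0 (M : NodeModel2 v W) {x y : K} (h : W.Nonsingular x y)
    (hx : v x ≤ v W.a₄) : 2 • Point.some x y h ∈ M.E0 := by
  rw [mem_E0_iff, comp_nsmul, comp_some, comp2XY_of_M M.ha hx, pow_two]
  exact cls_a_mul_self v W.a₄ M.ha0

/-- Torsion points in the middle range: `v x ^ n` is an even power of `v a₄`. -/
theorem torsion_mid (M : NodeModel2 v W) {n : ℕ} {x y : K}
    (h : W.Nonsingular x y) (hP : n • Point.some x y h = 0)
    (hlo : v W.a₄ < v x) (hhi : v x < 1) :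
    ∃ j : ℕ, v x ^ n = v W.a₄ ^ (2 * j) := by
  have h0 : v W.a₄ ≠ 0 := (Valuation.ne_zero_iff v).mpr M.ha0
  have hμ : 0 < v W.a₄ := zero_lt_iff.mpr h0
  rcases Nat.eq_zero_or_pos n with hn0 | hnpos
  · exact ⟨0, by rw [hn0, pow_zero, mul_zero, pow_zero]⟩
  have hc : M.comp (Point.some x y h) ^ n = 1 := by
    rw [← M.comp_nsmul, hP, comp_zero]
  rw [comp_some] at hc
  have hE := (M.equation_iff x y).mp h.1
  have hsq0 : v W.a₄ ^ 2 ≠ 0 := pow_ne_zero 2 h0
  have hsq1 : v W.a₄ ^ 2 < 1 := pow_lt_one₀ zero_le M.ha (by norm_num)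
  have hr0 : v x ≠ 0 := (hμ.trans hlo).ne'
  have hrn0 : v x ^ n ≠ 0 := pow_ne_zero n hr0
  have hcls : cls v W.a₄ (v x) ^ n = 1 := by
    rcases sign_exists hE hlo hhi with hP' | hN'
    · rwa [comp2XY_of_P hlo hhi hP'] at hc
    · rwa [comp2XY_of_N M.hδ hlo hhi hN', inv_pow, inv_eq_one] at hc
  have hcls' : cls v W.a₄ (v x ^ n) = 1 := by
    rw [cls_pow v W.a₄ hr0, hcls]
  obtain ⟨k, hk⟩ := exists_zpow_of_cls_eq_one M.ha0 hrn0 hcls'
  have hlt : v x ^ n < 1 := pow_lt_one₀ zero_le hhi hnpos.ne'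
  obtain ⟨j, hj⟩ := exists_pow_of_zpow hsq0 hsq1 hlt hk
  exact ⟨j, by rw [hj, ← pow_mul]⟩

/-- **Odd torsion near the node**: if `n` is odd, `n • P = 0` and `P` reduces to the node, then
`v a₄ < v x < 1` and `v x ^ n` is an even power of `v a₄`. -/
theorem torsion_near_node (M : NodeModel2 v W) {n : ℕ} (hn : Odd n) {x y : K}
    (h : W.Nonsingular x y) (hP : n • Point.some x y h = 0) (hx : v x < 1) :
    v W.a₄ < v x ∧ ∃ j : ℕ, v x ^ n = v W.a₄ ^ (2 * j) := by
  have hlo : v W.a₄ < v x := by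
    by_contra hcon
    rw [not_lt] at hcon
    have hc : M.comp (Point.some x y h) ^ n = 1 := by
      rw [← M.comp_nsmul, hP, comp_zero]
    rw [comp_some, comp2XY_of_M M.ha hcon] at hc
    obtain ⟨m, rfl⟩ := hn
    have hsq : cls v W.a₄ (v W.a₄) ^ 2 = 1 :=
      (pow_two _).trans (cls_a_mul_self v W.a₄ M.ha0)
    rw [pow_succ, pow_mul, hsq, one_pow, one_mul] at hc
    exact cls_a_ne_one M.ha0 M.ha hc
  exact ⟨hlo, M.torsion_mid h hP hlo hx⟩

end NodeModel2

/-- Over an algebraically closed field, every curve `y² + a₁ x y = x³ + a₂ x² + a₄ x` with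
`v b₂ = 1` and `0 < v a₄ < 1` carries a nodal model. -/
theorem exists_nodeModel2 [IsAlgClosed K] (W : Affine K) (h3 : W.a₃ = 0) (h6 : W.a₆ = 0)
    (hb2 : v W.b₂ = 1) (ha : v W.a₄ < 1) (ha0 : W.a₄ ≠ 0) : Nonempty (NodeModel2 v W) := by
  obtain ⟨g, hg⟩ := IsAlgClosed.exists_root
    (Polynomial.X ^ 2 + Polynomial.C W.a₁ * Polynomial.X - Polynomial.C W.a₂ : Polynomial K)
    (by
      have : (Polynomial.X ^ 2 + Polynomial.C W.a₁ * Polynomial.X - Polynomial.C W.a₂ :
          Polynomial K).degree = 2 := by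
        compute_degree!
      rw [this]; norm_num)
  simp only [Polynomial.IsRoot, Polynomial.eval_sub, Polynomial.eval_add, Polynomial.eval_pow,
    Polynomial.eval_X, Polynomial.eval_mul, Polynomial.eval_C] at hg
  refine ⟨⟨g, -W.a₁ - g, by ring, ?_, h3, h6, ?_, ha, ha0⟩⟩
  · linear_combination -hg
  · have e : (g - (-W.a₁ - g)) ^ 2 = W.b₂ := by
      rw [WeierstrassCurve.b₂]
      linear_combination 4 * hg
    have : v (g - (-W.a₁ - g)) ^ 2 = 1 := by rw [← map_pow, e, hb2]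
    exact (pow_eq_one_iff_of_nonneg zero_le (by norm_num)).mp this

section galois

variable {R S : Type*} [CommRing R] [CommRing S] [DecidableEq K]
  [Algebra R S] [Algebra R K] [Algebra S K] [IsScalarTower R S K]
  {W' : Affine R}

lemma smul_some' (σ : K ≃ₐ[S] K) {x y : K} (h : (W'⁄K).Nonsingular x y) :
    σ • Point.some x y h = Point.some (σ x) (σ y)
      ((W'.baseChange_nonsingular σ.toAlgHom.injective x y).mpr h) :=
  rfl

omit [DecidableEq K] in
lemma algEquiv_map_coeff (σ : K ≃ₐ[S] K) (r : R) :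
    σ (algebraMap R K r) = algebraMap R K r := by
  rw [IsScalarTower.algebraMap_apply R S K, σ.commutes]

/-- **Galois invariance of the component**: an automorphism preserving the valuation and
acting trivially on the residue field preserves the component of every point. -/
theorem NodeModel2.comp_smul (M : NodeModel2 v (W'⁄K)) (σ : K ≃ₐ[S] K)
    (hv : ∀ t : K, v (σ t) = v t) (hσ : ∀ t : K, v t ≤ 1 → v (σ t - t) < 1)
    (h1 : v (W'⁄K).a₁ ≤ 1) (h2 : v (W'⁄K).a₂ ≤ 1) (P : (W'⁄K).Point) :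
    M.comp (σ • P) = M.comp P := by
  have hγ : σ M.γ₁ = M.γ₁ := by
    refine M.map_gamma₁_eq (σ : K →+* K) ?_ ?_ (hσ _ (M.val_gamma₁_le_one h1 h2))
    · exact algEquiv_map_coeff σ W'.a₁
    · exact algEquiv_map_coeff σ W'.a₂
  rcases P with _ | ⟨x, y, h⟩
  · rfl
  · rw [smul_some', NodeModel2.comp_some, NodeModel2.comp_some]
    exact comp2XY_map (σ : K →+* K) hv hγ

/-- **Inertia moves points inside their component**: `σ • P - P` has nonsingular reduction. -/
theorem NodeModel2.smul_sub_mem_E0 (M : NodeModel2 v (W'⁄K)) (σ : K ≃ₐ[S] K)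
    (hv : ∀ t : K, v (σ t) = v t) (hσ : ∀ t : K, v t ≤ 1 → v (σ t - t) < 1)
    (h1 : v (W'⁄K).a₁ ≤ 1) (h2 : v (W'⁄K).a₂ ≤ 1) (P : (W'⁄K).Point) :
    σ • P - P ∈ M.E0 := by
  rw [NodeModel2.mem_E0_iff, NodeModel2.comp_sub, M.comp_smul σ hv hσ h1 h2 P]
  exact mul_inv_cancel _

end galois

end Fermat.Agent.S13.Comp2

end
-- ===== PACK-END S13/Comp2Torsion.lean

-- ===== PACK-BEGIN S13/H13/T7.lean
section
/-
S13, piece T7 (final assembly, helper13): `E[p](ℚ̄)` of the Frey curve has no nonzero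
Galois-fixed point.

Inputs: helper11 (`H11.no_rational_point_of_order_p_of_nodeLaw`: the 2-adic argument modulo the
node law), helper511 (`Comp2.exists_nodeModel2`, `NodeModel2.torsion_near_node`: the node law in
every residue characteristic), the Galois descent of a fixed point (after helper187), landed
S05 (`val_int_eq_one`, ...) and S54 (`exists_valuationSubring_liesOver`).
-/






set_option autoImplicit false

namespace Fermat.Agent.S13.H13

open WeierstrassCurve WeierstrassCurve.Affine WeierstrassCurve.Affine.Point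
open Fermat.Agent.S05.Assemble

/-! ### Galois descent of a fixed point -/

/-- An element of `ℚ̄` fixed by the whole Galois group is rational. -/
lemma exists_rat_of_fixed (z : AlgebraicClosure ℚ)
    (hz : ∀ σ : (AlgebraicClosure ℚ) ≃ₐ[ℚ] (AlgebraicClosure ℚ), σ z = z) :
    ∃ r : ℚ, algebraMap ℚ (AlgebraicClosure ℚ) r = z := by
  have := Fermat.Agent.S54.isGalois_algebraicClosure_rat
  exact (InfiniteGalois.mem_range_algebraMap_iff_fixed (k := ℚ) (K := AlgebraicClosure ℚ) z).mpr hz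

variable (P : FreyPackage)

lemma smul_some13 (σ : (AlgebraicClosure ℚ) ≃ₐ[ℚ] (AlgebraicClosure ℚ))
    {x y : AlgebraicClosure ℚ} (h : (P.freyCurve⁄(AlgebraicClosure ℚ)).Nonsingular x y) :
    σ • (Point.some x y h : (P.freyCurve⁄(AlgebraicClosure ℚ)).Point) =
      Point.some (σ x) (σ y)
        ((Affine.baseChange_nonsingular P.freyCurve (f := σ.toAlgHom) σ.injective x y).mpr h) :=
  rfl

/-- A Galois-fixed point of the Frey curve over `ℚ̄` is the base change of a point over `ℚ`. -/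
lemma exists_rat_point_of_fixed (Q : (P.freyCurve⁄(AlgebraicClosure ℚ)).Point)
    (hQ : ∀ σ : (AlgebraicClosure ℚ) ≃ₐ[ℚ] (AlgebraicClosure ℚ), σ • Q = Q) :
    ∃ Q0 : (P.freyCurve⁄ℚ).Point,
      Point.map (W' := P.freyCurve) (Algebra.ofId ℚ (AlgebraicClosure ℚ)) Q0 = Q := by
  cases Q with
  | zero => exact ⟨0, rfl⟩
  | some x y hxy =>
    have hx : ∀ σ : (AlgebraicClosure ℚ) ≃ₐ[ℚ] (AlgebraicClosure ℚ), σ x = x := fun σ => by
      have := hQ σ
      rw [smul_some13] at this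
      exact (Point.some.inj this).1
    have hy : ∀ σ : (AlgebraicClosure ℚ) ≃ₐ[ℚ] (AlgebraicClosure ℚ), σ y = y := fun σ => by
      have := hQ σ
      rw [smul_some13] at this
      exact (Point.some.inj this).2
    obtain ⟨x0, rfl⟩ := exists_rat_of_fixed x hx
    obtain ⟨y0, rfl⟩ := exists_rat_of_fixed y hy
    have h0 : (P.freyCurve⁄ℚ).Nonsingular x0 y0 :=
      (Affine.baseChange_nonsingular P.freyCurve (f := Algebra.ofId ℚ (AlgebraicClosure ℚ))
        (Algebra.ofId ℚ (AlgebraicClosure ℚ)).injective x0 y0).mp hxy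
    exact ⟨Point.some x0 y0 h0, rfl⟩

/-- **T7 bridge.** If the Frey curve has no nonzero rational point killed by `p`, then there is
no nonzero Galois-fixed point in `E[p](ℚ̄)`. -/
theorem T7_of_no_rational_torsion
    (h : ∀ Q0 : (P.freyCurve⁄ℚ).Point, (P.p : ℤ) • Q0 = 0 → Q0 = 0) :
    ∀ x : Skel.Vp P,
      (∀ σ : (AlgebraicClosure ℚ) ≃ₐ[ℚ] (AlgebraicClosure ℚ), σ • x = x) → x = 0 := by
  intro x hx
  have hfix : ∀ σ : (AlgebraicClosure ℚ) ≃ₐ[ℚ] (AlgebraicClosure ℚ),
      σ • (x : (P.freyCurve⁄(AlgebraicClosure ℚ)).Point) = x := fun σ =>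
    congrArg Subtype.val (hx σ)
  obtain ⟨Q0, hQ0⟩ := exists_rat_point_of_fixed P (x : (P.freyCurve⁄(AlgebraicClosure ℚ)).Point) hfix
  have hx0 : (P.p : ℤ) • (x : (P.freyCurve⁄(AlgebraicClosure ℚ)).Point) = 0 :=
    (Submodule.mem_torsionBy_iff _ _).mp x.2
  have h1 : Point.map (W' := P.freyCurve) (Algebra.ofId ℚ (AlgebraicClosure ℚ))
      ((P.p : ℤ) • Q0) = 0 := by
    rw [map_zsmul, hQ0, hx0]
  have h2 : (P.p : ℤ) • Q0 = 0 :=
    Point.map_injective (W' := P.freyCurve) (Algebra.ofId ℚ (AlgebraicClosure ℚ))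
      (by rw [h1]; rfl)
  have h3 := h Q0 h2
  apply Subtype.ext
  show (x : (P.freyCurve⁄(AlgebraicClosure ℚ)).Point) = 0
  rw [← hQ0, h3]; rfl

/-! ### The node law at `2` for the Frey curve -/

section nodeLaw

variable {A : ValuationSubring (AlgebraicClosure ℚ)}

lemma frey_b₂_eq :
    (P.freyCurve⁄(AlgebraicClosure ℚ)).b₂ = ((P.b ^ P.p - P.a ^ P.p : ℤ) : AlgebraicClosure ℚ) := by
  simp only [WeierstrassCurve.b₂, frey_a₁, frey_a₂, fA, fB]
  push_cast
  ring

lemma frey_val_b₂ (hA : A.LiesOverPrime 2) :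
    A.valuation (P.freyCurve⁄(AlgebraicClosure ℚ)).b₂ = 1 := by
  rw [frey_b₂_eq]
  apply val_int_eq_one hA Nat.prime_two
  have ha : Odd (P.a ^ P.p) := (H11.frey_a_odd P).pow
  have hb : Even (P.b ^ P.p) := (H11.frey_b_even P).pow_of_ne_zero P.hp0
  have hodd : Odd (P.b ^ P.p - P.a ^ P.p) := hb.sub_odd ha
  intro hdvd
  have : Even (P.b ^ P.p - P.a ^ P.p) := even_iff_two_dvd.mpr (by exact_mod_cast hdvd)
  exact (Int.not_even_iff_odd.mpr hodd) this

lemma frey_a₄_ne_zero13 : (P.freyCurve⁄(AlgebraicClosure ℚ)).a₄ ≠ 0 := by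
  rw [frey_a₄]
  exact div_ne_zero (mul_ne_zero (neg_ne_zero.mpr (fA_ne_zero P)) (fB_ne_zero P)) (by norm_num)

lemma frey_val_a₄_lt_one (hA : A.LiesOverPrime 2) :
    A.valuation (P.freyCurve⁄(AlgebraicClosure ℚ)).a₄ < 1 := by
  have h2 : (2 : ℤ) ∣ P.b := (ZMod.intCast_zmod_eq_zero_iff_dvd P.b 2).1 P.hb2
  obtain ⟨s, hs⟩ := h2
  have hp5 := P.hp5
  obtain ⟨k, hk⟩ : ∃ k, P.p = 5 + k := ⟨P.p - 5, by omega⟩
  have hB : P.b ^ P.p = 32 * (2 ^ k * s ^ P.p) := by
    rw [hs, mul_pow]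
    conv_lhs => rw [hk, pow_add]
    rw [← hk]
    ring
  have e : (P.freyCurve⁄(AlgebraicClosure ℚ)).a₄ =
      ((-(P.a ^ P.p) * (2 * (2 ^ k * s ^ P.p)) : ℤ) : AlgebraicClosure ℚ) := by
    rw [frey_a₄]
    simp only [fA, fB]
    rw [hB]
    push_cast
    ring
  rw [e]
  exact val_int_lt_one hA ⟨-(P.a ^ P.p) * (2 ^ k * s ^ P.p), by push_cast; ring⟩

/-- The node law (helper11's `NodeLaw`) holds for the Frey curve at every valuation ring of `ℚ̄`
over `2` (helper511's component homomorphism). -/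
theorem frey_nodeLaw (hA : A.LiesOverPrime 2) :
    H11.NodeLaw A.valuation (P.freyCurve⁄(AlgebraicClosure ℚ)) P.p := by
  intro x y h hP hx
  obtain ⟨M⟩ := Comp2.exists_nodeModel2 (v := A.valuation) (P.freyCurve⁄(AlgebraicClosure ℚ))
    (frey_a₃ P) (frey_a₆ P) (frey_val_b₂ P hA) (frey_val_a₄_lt_one P hA) (frey_a₄_ne_zero13 P)
  obtain ⟨hlo, j, hj⟩ := M.torsion_near_node P.hp_odd h hP hx
  exact ⟨hlo, (j : ℤ), by rw [hj, pow_mul, zpow_natCast]⟩

end nodeLaw

/-- **T7** (frozen shape): `E[p](ℚ̄)` of the Frey curve has no nonzero Galois-fixed point. -/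
theorem frey_T7 (x : Skel.Vp P)
    (hx : ∀ σ : (AlgebraicClosure ℚ) ≃ₐ[ℚ] (AlgebraicClosure ℚ), σ • x = x) : x = 0 := by
  obtain ⟨A, hA⟩ := Fermat.Agent.S54.exists_valuationSubring_liesOver 2 Nat.prime_two
  have h2 : A.valuation (2 : AlgebraicClosure ℚ) < 1 := by
    have := (A.mem_nonunits_iff).mp hA
    simpa using this
  refine T7_of_no_rational_torsion P (fun Q0 hQ0 => ?_) x hx
  rw [natCast_zsmul] at hQ0
  exact H11.no_rational_point_of_order_p_of_nodeLaw P A.valuation h2 (frey_nodeLaw P hA) Q0 hQ0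

end Fermat.Agent.S13.H13

end
-- ===== PACK-END S13/H13/T7.lean

-- ===== PACK-BEGIN S13.lean
section
-- S13 (row 12): a reducible mod-p representation of the Frey curve has a Galois-stable
-- cofixed line.  Elementary route (helper673 / helper13): characters on the stable line and on
-- the quotient, inertia analysis at every prime (S05 away from 2 and p; node law at 2;
-- Gauss bound on the division polynomial at p), Minkowski, and the 2-adic exclusion of a
-- rational point of order p.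
-- Pieces: T1 helper891, T3 = S05, T4 helper129, T5 helper64 (+ helper290, helper429,
-- helper575), T6 helper175, T7 helper11 + helper511 (node law) + helper187 (descent),
-- glue and integration helper13.









set_option autoImplicit false
open WeierstrassCurve WeierstrassCurve.Affine WeierstrassCurve.Affine.Point
open CuspForm ModularFormClass UpperHalfPlane
open FreyPackage

namespace Fermat.Agent.S13

theorem result (P : FreyPackage) (hred : ¬ GaloisRepIsIrreducible (K := AlgebraicClosure ℚ) ℚ P.freyCurve P.p) : HasGaloisStableCofixedLine (K := AlgebraicClosure ℚ) ℚ P.freyCurve P.p := by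
  exact Skel.result_of_parts P (H891.T1_frey P)
    (fun q hq hq2 hqp => Fermat.Agent.S05.result P hq hq2 hqp)
    (H129.T4 P)
    (H64.T5 P)
    (Skel.minkowski_subgroup_of_character
      (fun _ _ χ hopen hunr => H175.minkowski_character χ hopen hunr))
    (H13.frey_T7 P)
    Fermat.Agent.S54.exists_valuationSubring_liesOver
    hred

end Fermat.Agent.S13

end
-- ===== PACK-END S13.lean

-- ===== PACK-BEGIN Ribet/H403/DetFrey.lean
section




/-!
# RIBET pieces DETF and NMT (helper403)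

* `frey_nonscalar` : for the Frey curve, some element of `Gal(ℚ̄/ℚ)` does not act on `E[p]` as a
  scalar (landed S13 + T7: a scalar image would be reducible, hence have a cofixed line, hence be
  trivial, hence `E[p]` would consist of rational points).
* `frey_det_eq_cycloPow`, `frey_det_eq_of_apply_root` : `det (σ | E[p]) = χ_p(σ)` for ALL `σ`
  (no irreducibility hypothesis, no Weil pairing).
* `detFrob : Spec.DetFrobStatement` (DETF).
* `notMultiplicativeType : Spec.NotMultiplicativeTypeStatement` (NMT), via landed Minkowski.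
-/

set_option autoImplicit false

open WeierstrassCurve WeierstrassCurve.Affine WeierstrassCurve.Affine.Point

namespace Fermat.Agent.Ribet.H403

open Fermat.Agent.S55.H414

variable (P : FreyPackage)

/-! ### The integral Frey curve -/

lemma frey_four_dvd : (4 : ℤ) ∣ P.b ^ P.p - 1 - P.a ^ P.p := by
  have hp := P.hp5
  have hb : (2 : ℤ) ∣ P.b := (ZMod.intCast_zmod_eq_zero_iff_dvd P.b 2).1 P.hb2
  have hb4 : (4 : ℤ) ∣ P.b ^ P.p := by
    obtain ⟨k, hk⟩ := hb
    obtain ⟨j, hj⟩ : ∃ j, P.p = j + 2 := ⟨P.p - 2, by omega⟩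
    have : P.b ^ P.p = 4 * (2 ^ j * k ^ P.p) := by
      rw [hk, hj]
      ring
    exact ⟨_, this⟩
  have ha : ((P.a ^ P.p : ℤ) : ZMod 4) = 3 := by
    push_cast
    rw [P.ha4]
    obtain ⟨m, hm⟩ := P.hp_odd
    rw [hm, pow_succ, pow_mul]
    have : (3 : ZMod 4) ^ 2 = 1 := by decide
    rw [this, one_pow, one_mul]
  have hb' : ((P.b ^ P.p : ℤ) : ZMod 4) = 0 :=
    (ZMod.intCast_zmod_eq_zero_iff_dvd _ 4).2 hb4
  apply (ZMod.intCast_zmod_eq_zero_iff_dvd _ 4).1
  push_cast at ha hb' ⊢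
  rw [ha, hb']
  decide

lemma frey_sixteen_dvd : (16 : ℤ) ∣ -(P.a ^ P.p) * P.b ^ P.p := by
  have hp := P.hp5
  have hb : (2 : ℤ) ∣ P.b := (ZMod.intCast_zmod_eq_zero_iff_dvd P.b 2).1 P.hb2
  obtain ⟨k, hk⟩ := hb
  obtain ⟨j, hj⟩ : ∃ j, P.p = j + 4 := ⟨P.p - 4, by omega⟩
  have : -(P.a ^ P.p) * P.b ^ P.p = 16 * (-(P.a ^ P.p) * (2 ^ j * k ^ P.p)) := by
    rw [hk, hj]
    ring
  exact ⟨_, this⟩

/-- The Frey curve over `ℚ` is the base change of the integral Frey curve. -/
theorem freyCurve_eq_map_int : P.freyCurve = P.freyCurveInt.map (Int.castRingHom ℚ) := by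
  have h4 := frey_four_dvd P
  have h16 := frey_sixteen_dvd P
  ext
  · simp [FreyPackage.freyCurve, FreyPackage.freyCurveInt, WeierstrassCurve.map]
  · simp only [FreyPackage.freyCurve, FreyPackage.freyCurveInt, WeierstrassCurve.map,
      eq_intCast]
    rw [Int.cast_div h4 (by norm_num)]
    push_cast
    ring
  · simp [FreyPackage.freyCurve, FreyPackage.freyCurveInt, WeierstrassCurve.map]
  · simp only [FreyPackage.freyCurve, FreyPackage.freyCurveInt, WeierstrassCurve.map,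
      eq_intCast]
    rw [Int.cast_div h16 (by norm_num)]
    push_cast
    ring
  · simp [FreyPackage.freyCurve, FreyPackage.freyCurveInt, WeierstrassCurve.map]

theorem freyCurveInt_Δ_ne_zero : P.freyCurveInt.Δ ≠ 0 := by
  intro h
  apply Fermat.Agent.S13.H891.freyCurve_Δ_ne_zero P
  rw [freyCurve_eq_map_int, WeierstrassCurve.map_Δ, h, _root_.map_zero]

/-! ### A non-scalar element -/

/-- For the Frey curve, the image of Galois on `E[p]` is not contained in the scalars. -/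
theorem frey_nonscalar :
    ∃ h : GQ, ¬ ∃ s : ZMod P.p, ∀ x : Tors P.freyCurve P.p, h • x = s • x := by
  have : Fact P.p.Prime := ⟨P.pp⟩
  by_contra hcon
  push Not at hcon
  obtain ⟨hnt, hfin, -⟩ := Fermat.Agent.S13.H891.T1_frey P
  have hdim : Module.finrank (ZMod P.p) (Tors P.freyCurve P.p) = 2 :=
    finrank_tors P.freyCurve (Fermat.Agent.S13.H891.freyCurve_Δ_ne_zero P) P.p
  have : Module.Finite (ZMod P.p) (Tors P.freyCurve P.p) := Module.Finite.of_finite
  -- reducible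
  have hred : ¬ GaloisRepIsIrreducible (K := AlgebraicClosure ℚ) ℚ P.freyCurve P.p := by
    rintro ⟨-, hirr⟩
    obtain ⟨x, hx⟩ := exists_ne (0 : Tors P.freyCurve P.p)
    have hst : IsGaloisStable (K := AlgebraicClosure ℚ) ℚ
        (Submodule.span (ZMod P.p) {x}) := by
      intro σ y hy
      obtain ⟨s, hs⟩ := hcon σ
      rw [hs y]
      exact Submodule.smul_mem _ _ hy
    rcases hirr _ hst with h | h
    · rw [Submodule.span_singleton_eq_bot] at h
      exact hx h
    · have h1 := finrank_span_singleton (K := ZMod P.p) hx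
      rw [h, finrank_top, hdim] at h1
      omega
  obtain ⟨N, -, -, htop, hco⟩ := Fermat.Agent.S13.result P hred
  -- the action is trivial
  have htriv : ∀ (σ : GQ) (x : Tors P.freyCurve P.p), σ • x = x := by
    intro σ x
    obtain ⟨s, hs⟩ := hcon σ
    by_cases h1 : s = 1
    · rw [hs, h1, one_smul]
    · exfalso
      apply htop
      rw [eq_top_iff]
      intro y _
      have hy := hco σ y
      rw [hs y] at hy
      have h2 : s • y - y = (s - 1) • y := by rw [sub_smul, one_smul]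
      rw [h2] at hy
      have h3 : y = (s - 1)⁻¹ • ((s - 1) • y) := by
        rw [smul_smul, inv_mul_cancel₀ (sub_ne_zero.2 h1), one_smul]
      rw [h3]
      exact Submodule.smul_mem _ _ hy
  obtain ⟨x, hx⟩ := exists_ne (0 : Tors P.freyCurve P.p)
  exact hx (Fermat.Agent.S13.H13.frey_T7 P x fun σ => htriv σ x)

/-! ### `det = cyclotomic` for the Frey curve -/

/-- Transport along `E = W_ℚ`. -/
theorem det_eq_cycloPow_of_eq_map (E : WeierstrassCurve ℚ) (W : WeierstrassCurve ℤ)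
    (hE : E = W.map (Int.castRingHom ℚ)) (p : ℕ) [Fact p.Prime] (hΔ : W.Δ ≠ 0)
    (hns : ∃ h : GQ, ¬ ∃ s : ZMod p, ∀ x : Tors E p, h • x = s • x) (σ : GQ) :
    LinearMap.det (galoisRepModuleEnd (S := ℚ) (K := Qb) E p σ)
      = ((cycloPow p σ : (ZMod p)ˣ) : ZMod p) := by
  subst hE
  exact det_eq_cycloPow W p hΔ hns σ

/-- **`det ρ̄ = χ_p`** for the Frey curve. -/
theorem frey_det_eq_cycloPow (σ : GQ) :
    haveI : Fact P.p.Prime := ⟨P.pp⟩
    LinearMap.det (galoisRepModuleEnd (S := ℚ) (K := Qb) P.freyCurve P.p σ)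
      = ((cycloPow P.p σ : (ZMod P.p)ˣ) : ZMod P.p) :=
  haveI : Fact P.p.Prime := ⟨P.pp⟩
  det_eq_cycloPow_of_eq_map P.freyCurve P.freyCurveInt (freyCurve_eq_map_int P) P.p
    (freyCurveInt_Δ_ne_zero P) (frey_nonscalar P) σ

/-- Elementary form: if `σ ζ = ζ ^ c` for all `p`-th roots of unity then `det (σ | E[p]) = c`. -/
theorem frey_det_eq_of_apply_root (σ : GQ) (c : ℕ)
    (hc : ∀ ζ : Qb, ζ ^ P.p = 1 → σ ζ = ζ ^ c) :
    LinearMap.det (galoisRepModuleEnd (S := ℚ) (K := Qb) P.freyCurve P.p σ) = (c : ZMod P.p) := by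
  have : Fact P.p.Prime := ⟨P.pp⟩
  rw [frey_det_eq_cycloPow P σ]
  exact coe_cycloPow_of_apply_eq_pow P.p σ c (hc _ (zetaBar_spec P.p).pow_eq_one)

/-! ### DETF -/

/-- **(DETF)** The determinant of a Frobenius at `q ≠ p` on `E[p]` is `q`. -/
theorem detFrob : Fermat.Agent.Ribet.Spec.DetFrobStatement := by
  intro P q hq hqp A hA φ hφ
  apply frey_det_eq_of_apply_root P φ q
  intro ζ hζ
  exact IsFrobeniusAt_apply_root hφ P.hp0
    (Fermat.Agent.S55.Bridge.val_prime_eq_one (A := A) hA hq P.pp hqp) hζ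

/-! ### NMT -/

/-- Every `p`-th root of unity is moved by `σ` as `ζ ↦ ζ ^ χ_p(σ)`. -/
theorem apply_root_eq_pow_cycloPow (p : ℕ) [Fact p.Prime] (σ : GQ) (ζ : Qb) (hζ : ζ ^ p = 1) :
    σ ζ = ζ ^ ((cycloPow p σ : (ZMod p)ˣ) : ZMod p).val := by
  have hp : p.Prime := Fact.out
  obtain ⟨i, -, rfl⟩ := (zetaBar_spec p).eq_pow_of_pow_eq_one hζ
  rw [map_pow, cycloPow_spec, ← pow_mul, ← pow_mul, mul_comm]

/-- The mod-`p` cyclotomic character is ramified at `p` (`p ≥ 3`): no inertia group at `p` acts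
trivially on the `p`-th roots of unity. -/
theorem exists_inertia_cycloPow_ne_one (p : ℕ) [Fact p.Prime] (hp2 : p ≠ 2)
    (A : ValuationSubring Qb) (hA : A.LiesOverPrime p) :
    ∃ σ ∈ A.inertiaSubgroupIn ℚ, cycloPow p σ ≠ 1 := by
  have hp : p.Prime := Fact.out
  by_contra hcon
  push Not at hcon
  have hall : ∀ σ : GQ, cycloPow p σ = 1 := by
    refine Fermat.Agent.S13.H175.minkowski_character (cycloPow p) ⟨{zetaBar p}, ?_⟩ ?_
    · intro σ hσ
      have h1 : σ (zetaBar p) = zetaBar p ^ 1 := by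
        rw [pow_one]
        exact hσ _ (Finset.mem_singleton_self _)
      have h2 := coe_cycloPow_of_apply_eq_pow p σ 1 h1
      apply Units.ext
      rw [h2, Nat.cast_one, Units.val_one]
    · intro q hq
      by_cases hqp : q = p
      · subst hqp
        exact ⟨A, hA, hcon⟩
      · obtain ⟨B, hB⟩ := Fermat.Agent.S54.exists_valuationSubring_liesOver q hq
        refine ⟨B, hB, fun σ hσ => ?_⟩
        have hv := Fermat.Agent.S55.Bridge.val_prime_eq_one (A := B) hB hq hp hqp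
        have h1 := inertia_le_fixingSubgroup_cycloLevel p B hv hσ
        rw [mem_fixingSubgroup_cycloLevel_iff] at h1
        have h2 : σ (zetaBar p) = zetaBar p ^ 1 := by rw [pow_one]; exact h1
        have h3 := coe_cycloPow_of_apply_eq_pow p σ 1 h2
        apply Units.ext
        rw [h3, Nat.cast_one, Units.val_one]
  -- a Frobenius at `2` squares the roots of unity
  obtain ⟨B, hB⟩ := Fermat.Agent.S54.exists_valuationSubring_liesOver 2 Nat.prime_two
  obtain ⟨φ, hφ⟩ := exists_isFrobeniusAt B 2 Nat.prime_two hB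
  have hv := Fermat.Agent.S55.Bridge.val_prime_eq_one (A := B) hB Nat.prime_two hp
    (fun h => hp2 h.symm)
  have h1 : φ (zetaBar p) = zetaBar p ^ 2 :=
    IsFrobeniusAt_apply_root hφ hp.ne_zero hv (zetaBar_spec p).pow_eq_one
  have h2 := coe_cycloPow_of_apply_eq_pow p φ 2 h1
  rw [hall φ, Units.val_one] at h2
  have h3 : ((1 : ℕ) : ZMod p) = ((2 : ℕ) : ZMod p) := by
    rw [Nat.cast_one]; exact h2
  rw [ZMod.natCast_eq_natCast_iff] at h3
  have h4 : p ∣ 2 - 1 := (Nat.modEq_iff_dvd' (by norm_num)).1 h3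
  have h5 : p ∣ 1 := by simpa using h4
  exact hp.one_lt.ne' (Nat.dvd_one.1 h5)

/-- **(NMT)** `E[p]` of the Frey curve is not of multiplicative type at `p`. -/
theorem notMultiplicativeType : Fermat.Agent.Ribet.Spec.NotMultiplicativeTypeStatement := by
  intro P A hA H
  have : Fact P.p.Prime := ⟨P.pp⟩
  have hp2 : P.p ≠ 2 := by have := P.hp5; omega
  obtain ⟨σ, hσ, hne⟩ := exists_inertia_cycloPow_ne_one P.p hp2 A hA
  apply hne
  set c : ℕ := ((cycloPow P.p σ : (ZMod P.p)ˣ) : ZMod P.p).val with hc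
  have hroot : ∀ ζ : Qb, ζ ^ P.p = 1 → σ ζ = ζ ^ c :=
    fun ζ hζ => apply_root_eq_pow_cycloPow P.p σ ζ hζ
  have hsc : ∀ x : Tors P.freyCurve P.p, σ • x = c • x := H σ hσ c hroot
  have hdet := frey_det_eq_of_apply_root P σ c hroot
  have hdim : Module.finrank (ZMod P.p) (Tors P.freyCurve P.p) = 2 :=
    finrank_tors P.freyCurve (Fermat.Agent.S13.H891.freyCurve_Δ_ne_zero P) P.p
  have hend : galoisRepModuleEnd (S := ℚ) (K := Qb) P.freyCurve P.p σ
      = (c : ZMod P.p) • (LinearMap.id : Tors P.freyCurve P.p →ₗ[ZMod P.p] _) := by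
    apply LinearMap.ext
    intro x
    rw [galoisRepModuleEnd_apply, hsc x, LinearMap.smul_apply, LinearMap.id_apply,
      Nat.cast_smul_eq_nsmul]
  rw [hend, LinearMap.det_smul, LinearMap.det_id, mul_one, hdim] at hdet
  have hcu : (c : ZMod P.p) = ((cycloPow P.p σ : (ZMod P.p)ˣ) : ZMod P.p) := by
    rw [hc, ZMod.natCast_zmod_val]
  have hc0 : (c : ZMod P.p) ≠ 0 := by
    rw [hcu]
    exact Units.ne_zero _
  have hc1 : (c : ZMod P.p) = 1 := by
    have h : (c : ZMod P.p) * (c : ZMod P.p) = (c : ZMod P.p) * 1 := by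
      rw [mul_one, ← pow_two]
      exact hdet
    exact mul_left_cancel₀ hc0 h
  apply Units.ext
  rw [← hcu, hc1, Units.val_one]

end Fermat.Agent.Ribet.H403

end
-- ===== PACK-END Ribet/H403/DetFrey.lean

-- ===== PACK-BEGIN S12/H411/LocP.lean
section






/-!
# Row S12 (one-step route), local leaf at `ℓ = p` (helper411)

For a Frey package and a cofixed line `N ⊂ E[p]`:

* `cofixed_line_smul_eq_det` (linear algebra): an endomorphism of a plane which preserves a line
  `N` and is the identity on `V / N` acts on `N` through its determinant;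
* `frey_line_smul` : `σ • T = χ_p(σ) • T` for `T ∈ N` (`det ρ̄ = χ_p`, landed `Ribet.H403`);
* `frey_line_inKer` : at EVERY valuation subring `A` of `ℚ̄` over `p`, the line `N` lies in the
  kernel of reduction (inertia acts on `N` through `χ_p`, which is ramified at `p`, and moves
  integral `p`-torsion points only inside the kernel of reduction, landed `S13.H64`);
* `frey_line_x_not_mem` : the `x`-coordinate of a nonzero point of `N` is NOT in `A`;
* `frey_line_val_sub` : hence `v (x(T) - e) = v (x(T))` for every `e ∈ A`: the three products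
  `Π_j = ∏ (x(kT₀) - ε_j)` of the one-step route have the SAME valuation at `A`.
-/

set_option autoImplicit false

open WeierstrassCurve WeierstrassCurve.Affine WeierstrassCurve.Affine.Point

namespace Fermat.Agent.S12.H411

open Module in
/-- An endomorphism `f` of a plane which preserves a line `N` and induces the identity on `V / N`
acts on `N` as multiplication by `det f`. -/
theorem cofixed_line_smul_eq_det {k V : Type*} [Field k] [AddCommGroup V] [Module k V]
    (hdim : finrank k V = 2) (f : End k V) (N : Submodule k V) (hbot : N ≠ ⊥) (htop : N ≠ ⊤)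
    (hstab : ∀ x ∈ N, f x ∈ N) (hcof : ∀ x : V, f x - x ∈ N) :
    ∀ x ∈ N, f x = LinearMap.det f • x := by
  have hfd : FiniteDimensional k V := FiniteDimensional.of_finrank_pos (by omega)
  -- `N` is a line
  have hN1 : finrank k N = 1 := by
    have h1 : finrank k N < 2 := by
      rw [← hdim]
      exact Submodule.finrank_lt htop
    have h0 : 0 < finrank k N := by
      rw [Module.finrank_pos_iff]
      exact (Submodule.nontrivial_iff_ne_bot).mpr hbot
    omega
  obtain ⟨n₀, hn₀, hn₀0⟩ := (Submodule.ne_bot_iff N).1 hbot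
  have hspan : ∀ x ∈ N, ∃ c : k, x = c • n₀ := by
    intro x hx
    obtain ⟨c, hc⟩ := (finrank_eq_one_iff_of_nonzero' (⟨n₀, hn₀⟩ : N)
      (fun h => hn₀0 (congrArg Subtype.val h))).1 hN1 ⟨x, hx⟩
    exact ⟨c, by simpa using (congrArg Subtype.val hc).symm⟩
  obtain ⟨a, ha⟩ := hspan (f n₀) (hstab n₀ hn₀)
  have hfa : ∀ x ∈ N, f x = a • x := by
    intro x hx
    obtain ⟨c, rfl⟩ := hspan x hx
    rw [map_smul, ha, smul_smul, smul_smul, mul_comm]
  suffices hdet : LinearMap.det f = a by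
    intro x hx
    rw [hdet]
    exact hfa x hx
  by_cases hsc : ∃ s : k, f = s • (1 : End k V)
  · obtain ⟨s, hs⟩ := hsc
    have hsa : s = a := by
      have h1 : f n₀ = s • n₀ := by rw [hs]; rfl
      rw [ha] at h1
      have h2 : (a - s) • n₀ = 0 := by rw [sub_smul, h1, sub_self]
      rcases smul_eq_zero.1 h2 with h | h
      · exact (sub_eq_zero.1 h).symm
      · exact absurd h hn₀0
    have hs1 : s = 1 := by
      by_contra hne
      apply htop
      rw [eq_top_iff]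
      intro y _
      have hy := hcof y
      have h1 : f y = s • y := by rw [hs]; rfl
      rw [h1] at hy
      have h2 : s • y - y = (s - 1) • y := by rw [sub_smul, one_smul]
      rw [h2] at hy
      have h3 : y = (s - 1)⁻¹ • ((s - 1) • y) := by
        rw [smul_smul, inv_mul_cancel₀ (sub_ne_zero.2 hne), one_smul]
      rw [h3]
      exact N.smul_mem _ hy
    rw [← hsa, hs1, hs, hs1, one_smul]
    exact LinearMap.det_id
  · push Not at hsc
    apply Fermat.Agent.S41.H701.det_eq_of_quadratic_h701 hdim f (1 + a) a ?_ hsc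
    apply LinearMap.ext
    intro x
    have h1 := hfa _ (hcof x)
    simp only [map_sub] at h1
    simp only [LinearMap.add_apply, LinearMap.sub_apply, LinearMap.smul_apply,
      Module.End.mul_apply, Module.End.one_apply, LinearMap.zero_apply]
    have h2 : f (f x) = f x + (a • (f x - x)) := by
      rw [← h1]; abel
    rw [h2, add_smul, one_smul, smul_sub]
    abel

open Fermat.Agent.Ribet.H403 Fermat.Agent.S55.H414 in
/-- Galois acts on a cofixed line of the Frey representation through the mod `p` cyclotomic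
character. -/
theorem frey_line_smul (P : FreyPackage)
    (N : Submodule (ZMod P.p) (Tors P.freyCurve P.p))
    (hstab : IsGaloisStable (K := AlgebraicClosure ℚ) ℚ N) (hbot : N ≠ ⊥) (htop : N ≠ ⊤)
    (hcof : ∀ σ : GQ, ∀ x : Tors P.freyCurve P.p, σ • x - x ∈ N) (σ : GQ) :
    haveI : NeZero P.p := ⟨P.hp0⟩
    ∀ x ∈ N, σ • x = ((cycloPow P.p σ : (ZMod P.p)ˣ) : ZMod P.p) • x := by
  have : Fact P.p.Prime := ⟨P.pp⟩
  have : NeZero P.p := ⟨P.hp0⟩
  intro x hx
  have hdim : Module.finrank (ZMod P.p) (Tors P.freyCurve P.p) = 2 :=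
    finrank_tors P.freyCurve (Fermat.Agent.S13.H891.freyCurve_Δ_ne_zero P) P.p
  have := cofixed_line_smul_eq_det hdim
    (galoisRepModuleEnd (S := ℚ) (K := AlgebraicClosure ℚ) P.freyCurve P.p σ) N hbot htop
    (fun y hy => hstab σ y hy) (fun y => hcof σ y) x hx
  rw [frey_det_eq_cycloPow P σ] at this
  exact this

open Fermat.Agent.Ribet.H403 Fermat.Agent.S55.H414 Fermat.Agent.S05 Fermat.Agent.S05.SameRed
  Fermat.Agent.S05.Assemble in
/-- **LOCp.**  At every valuation subring of `ℚ̄` over `p`, a cofixed line of the Frey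
representation lies in the kernel of reduction. -/
theorem frey_line_inKer (P : FreyPackage)
    (N : Submodule (ZMod P.p) (Tors P.freyCurve P.p))
    (hstab : IsGaloisStable (K := AlgebraicClosure ℚ) ℚ N) (hbot : N ≠ ⊥) (htop : N ≠ ⊤)
    (hcof : ∀ σ : GQ, ∀ x : Tors P.freyCurve P.p, σ • x - x ∈ N)
    (A : ValuationSubring (AlgebraicClosure ℚ)) (hA : A.LiesOverPrime P.p)
    (T : Tors P.freyCurve P.p) (hT : T ∈ N) :
    InKer (P.freyCurve⁄(AlgebraicClosure ℚ)) A.valuation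
      (T : (P.freyCurve⁄(AlgebraicClosure ℚ)).Point) := by
  have : Fact P.p.Prime := ⟨P.pp⟩
  have : NeZero P.p := ⟨P.hp0⟩
  have hp2 : P.p ≠ 2 := by have := P.hp5; omega
  have hW := frey_integral (P := P) hA P.pp hp2
  rcases hTe : (T : (P.freyCurve⁄(AlgebraicClosure ℚ)).Point) with _ | ⟨x, y, h⟩
  · trivial
  by_contra hnk
  have hx : A.valuation x ≤ 1 := not_lt.mp hnk
  obtain ⟨σ, hσ, hne⟩ := exists_inertia_cycloPow_ne_one P.p hp2 A hA
  have h1 := frey_line_smul P N hstab hbot htop hcof σ T hT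
  set c : ZMod P.p := ((cycloPow P.p σ : (ZMod P.p)ˣ) : ZMod P.p) with hc
  have hc1 : c - 1 ≠ 0 := by
    intro h0
    apply hne
    apply Units.ext
    rw [Units.val_one]
    exact sub_eq_zero.mp h0
  have hP : P.p • Point.some x y h = 0 := by
    rw [← hTe, ← natCast_zsmul]
    exact (Submodule.mem_torsionBy_iff _ _).mp T.2
  have hker := Fermat.Agent.S13.H64.frey_inKer_smul_sub P P.pp hp2 A hA σ hσ h hP hx
  -- `T = u • (σ T - T)` with `u = (c - 1)⁻¹`
  have h2 : T = ((c - 1)⁻¹.val : ℕ) • (σ • T - T) := by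
    rw [← Nat.cast_smul_eq_nsmul (ZMod P.p), ZMod.natCast_zmod_val, h1,
      show c • T - T = (c - 1) • T by rw [sub_smul, one_smul], smul_smul,
      inv_mul_cancel₀ hc1, one_smul]
  have h3 : (T : (P.freyCurve⁄(AlgebraicClosure ℚ)).Point) =
      ((c - 1)⁻¹.val : ℕ) • (σ • (T : (P.freyCurve⁄(AlgebraicClosure ℚ)).Point) -
        (T : (P.freyCurve⁄(AlgebraicClosure ℚ)).Point)) := by
    conv_lhs => rw [h2]
    rfl
  rw [hTe] at h3
  have h4 := Fermat.Agent.S13.H64.inKer_nsmul hW hker ((c - 1)⁻¹.val)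
  rw [← h3] at h4
  exact hnk h4

open Fermat.Agent.Ribet.H403 Fermat.Agent.S05 Fermat.Agent.S05.SameRed in
/-- **LOCp**, coordinate form: the `x`-coordinate of a nonzero point of a cofixed line is not
integral at any place over `p`. -/
theorem frey_line_x_not_mem (P : FreyPackage)
    (N : Submodule (ZMod P.p) (Tors P.freyCurve P.p))
    (hstab : IsGaloisStable (K := AlgebraicClosure ℚ) ℚ N) (hbot : N ≠ ⊥) (htop : N ≠ ⊤)
    (hcof : ∀ σ : GQ, ∀ x : Tors P.freyCurve P.p, σ • x - x ∈ N)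
    (A : ValuationSubring (AlgebraicClosure ℚ)) (hA : A.LiesOverPrime P.p)
    (T : Tors P.freyCurve P.p) (hT : T ∈ N) {x y : AlgebraicClosure ℚ}
    (h : (P.freyCurve⁄(AlgebraicClosure ℚ)).Nonsingular x y)
    (hTe : (T : (P.freyCurve⁄(AlgebraicClosure ℚ)).Point) = Point.some x y h) :
    1 < A.valuation x := by
  have := frey_line_inKer P N hstab hbot htop hcof A hA T hT
  rw [hTe] at this
  exact this

/-- If `x` is not integral and `e` is, then `v (x - e) = v x`. -/
theorem val_sub_eq_of_one_lt {K : Type*} [Field K] {Γ₀ : Type*}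
    [LinearOrderedCommGroupWithZero Γ₀] (v : Valuation K Γ₀) {x e : K} (hx : 1 < v x)
    (he : v e ≤ 1) : v (x - e) = v x :=
  Valuation.map_sub_eq_of_lt_left v (lt_of_le_of_lt he hx)

end Fermat.Agent.S12.H411

end
-- ===== PACK-END S12/H411/LocP.lean

-- ===== PACK-BEGIN S12/H411/LocPi.lean
section






/-!
# Row S12 (one-step route), local leaves at `ℓ ≠ p` (helper411)

Frey curve `E : y² + xy = x³ + ((b^p - 1 - a^p)/4) x² - (a^p b^p/16) x` over `ℚ̄`, with
`2`-torsion `x = 0, a^p/4, -b^p/4`; `A` a valuation subring of `ℚ̄` over a prime `ℓ ≠ p`,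
`v = A.valuation`.

* `frey_isRedOf` : the reduction datum of the Frey curve at `A` (Lib/Red language);
* `frey_toric_point` : a point `T ∈ E⁰(A)` of order `p` is integral and `η(T) = 2y + a₁x + a₃`
  is a unit (`S15.H242.val_psi2_eq_one_of_inE0`);
* `frey_val_factors` : for an integral point with `η` a unit,
  `v(x) = 1`, `v(x + b^p/4) = 1`, `v(4) · v(x - a^p/4) = 1`   (ANY residue characteristic,
  `ℓ = 2` included: the three factors of `η² = 4 x (x - a^p/4)(x + b^p/4)`);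
* `frey_inE0_of_good` : at a prime of good reduction every point lies in `E⁰`;
* `frey_factor_vals_of_inE0` : the valuation table of the one-step route at `ℓ ≠ p` for a
  point of order `p` in `E⁰(A)`: toric line ⇒ `v(Π₁) = v(Π₃) = 1`, `v(4)^(p-1) v(Π₂) = 1`.
-/

set_option autoImplicit false

open WeierstrassCurve WeierstrassCurve.Affine WeierstrassCurve.Affine.Point

namespace Fermat.Agent.S12.H411

open Fermat.Agent.Lib.Red.H290 Fermat.Agent.S15.H242 Fermat.Agent.S05.Assemble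
open Fermat.Agent.S05.SameRed (IntegralCoeffs)

/-- The reduction datum of the Frey curve at a valuation subring of `ℚ̄`. -/
lemma frey_isRedOf (P : FreyPackage) (A : ValuationSubring (AlgebraicClosure ℚ)) :
    IsRedOf A (IsLocalRing.residue A) (P.freyCurve⁄(AlgebraicClosure ℚ))
      (P.freyCurveInt⁄(IsLocalRing.ResidueField A)) := by
  rw [Fermat.Agent.S13.H164.freyCurve_eq_map]
  exact isRedOf_int A P.freyCurveInt (IsLocalRing.residue A)

/-- `b ^ p / 4` is integral at every valuation subring. -/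
lemma val_fB_div_four_le_one (P : FreyPackage) (A : ValuationSubring (AlgebraicClosure ℚ)) :
    A.valuation (fB P / 4) ≤ 1 := by
  have hb : (2 : ℤ) ∣ P.b := (ZMod.intCast_zmod_eq_zero_iff_dvd P.b 2).1 P.hb2
  obtain ⟨k, hk⟩ := hb
  obtain ⟨j, hj⟩ : ∃ j, P.p = j + 2 := ⟨P.p - 2, by have := P.hp5; omega⟩
  have e : fB P / 4 = ((2 ^ j * k ^ P.p : ℤ) : AlgebraicClosure ℚ) := by
    have h4 : (P.b ^ P.p : ℤ) = 4 * (2 ^ j * k ^ P.p) := by
      rw [hk, mul_pow, show (2 : ℤ) ^ P.p = 2 ^ j * 4 by rw [hj, pow_add]; norm_num]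
      ring
    rw [fB, h4]
    push_cast
    field_simp
  rw [e]
  exact val_int_le_one (A := A) _

/-- A point of order `p` in `E⁰(A)`, `A` over `ℓ ≠ p`, is integral with `η` a unit. -/
theorem frey_toric_point (P : FreyPackage) {ℓ : ℕ} (hℓ : ℓ.Prime) (hℓp : ℓ ≠ P.p)
    (A : ValuationSubring (AlgebraicClosure ℚ)) (hA : A.LiesOverPrime ℓ)
    (T : (P.freyCurve⁄(AlgebraicClosure ℚ)).Point) (hord : addOrderOf T = P.p)
    (hT : InE0 A (IsLocalRing.residue A) (P.freyCurveInt⁄(IsLocalRing.ResidueField A)) T) :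
    ∃ (x y : AlgebraicClosure ℚ) (h : (P.freyCurve⁄(AlgebraicClosure ℚ)).Nonsingular x y),
      T = Point.some x y h ∧ A.valuation x ≤ 1 ∧
      A.valuation (2 * y + (P.freyCurve⁄(AlgebraicClosure ℚ)).a₁ * x +
        (P.freyCurve⁄(AlgebraicClosure ℚ)).a₃) = 1 := by
  classical
  have hred := frey_isRedOf P A
  have hφ : KerMax A (IsLocalRing.residue A) := kerMax_residue A
  have hp2 : P.p ≠ 2 := by have := P.hp5; omega
  have hv : A.valuation ((P.p : ℕ) : AlgebraicClosure ℚ) = 1 :=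
    val_natCast_eq_one A hA hℓ P.pp hℓp
  have hordred := addOrderOf_red0 hred hφ P.pp hv hT hord
  have hpsi := val_psi2_eq_one_of_inE0 hred hφ P.pp hp2 hv hT hord (k := 1)
    (fun h => P.pp.one_lt.ne' (Nat.dvd_one.mp h))
  rw [one_smul] at hpsi
  rcases T with _ | ⟨x, y, h⟩
  · rw [show (Point.zero : (P.freyCurve⁄(AlgebraicClosure ℚ)).Point) = 0 from rfl,
      addOrderOf_zero] at hord
    exact absurd hord P.pp.one_lt.ne
  · refine ⟨x, y, h, rfl, ?_, ?_⟩
    · by_contra hx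
      have hx' : x ∉ A := fun hmem => hx ((A.valuation_le_one_iff x).mpr hmem)
      rw [red0_some_of_not_mem h hx', addOrderOf_zero] at hordred
      exact P.pp.one_lt.ne hordred
    · simpa using hpsi

/-- **Valuation of the three factors.**  For an integral point of the Frey curve with `η` a unit:
`v(x) = 1`, `v(x + b^p/4) = 1` and `v(4) · v(x - a^p/4) = 1`.  No hypothesis on the residue
characteristic. -/
theorem frey_val_factors (P : FreyPackage) (A : ValuationSubring (AlgebraicClosure ℚ))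
    {x y : AlgebraicClosure ℚ} (h : (P.freyCurve⁄(AlgebraicClosure ℚ)).Equation x y)
    (hx : A.valuation x ≤ 1)
    (hη : A.valuation (2 * y + (P.freyCurve⁄(AlgebraicClosure ℚ)).a₁ * x +
        (P.freyCurve⁄(AlgebraicClosure ℚ)).a₃) = 1) :
    A.valuation x = 1 ∧ A.valuation (x + fB P / 4) = 1 ∧
      A.valuation 4 * A.valuation (x - fA P / 4) = 1 := by
  have hsq := (frey_roots P).eta_sq h
  have e : (2 * y + (P.freyCurve⁄(AlgebraicClosure ℚ)).a₁ * x +
      (P.freyCurve⁄(AlgebraicClosure ℚ)).a₃) ^ 2 = x * (x + fB P / 4) * (4 * (x - fA P / 4)) := by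
    rw [hsq]; ring
  have hv := congrArg A.valuation e
  rw [map_pow, hη, one_pow, map_mul, map_mul] at hv
  have h1 : A.valuation (x + fB P / 4) ≤ 1 :=
    (A.valuation).map_add_le hx (val_fB_div_four_le_one P A)
  have h2 : A.valuation (4 * (x - fA P / 4)) ≤ 1 := by
    have e2 : 4 * (x - fA P / 4) = 4 * x - fA P := by field_simp
    rw [e2]
    apply (A.valuation).map_sub_le
    · rw [map_mul]
      have h4 : A.valuation (4 : AlgebraicClosure ℚ) ≤ 1 := by
        have := val_nat_le_one (A := A) 4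
        simpa using this
      exact mul_le_one' h4 hx
    · exact val_fA_le_one (P := P) (A := A)
  -- a product of three elements `≤ 1` equal to `1`
  have hx1 : A.valuation x = 1 := by
    refine le_antisymm hx ?_
    calc (1 : _) = A.valuation x * A.valuation (x + fB P / 4) *
          A.valuation (4 * (x - fA P / 4)) := hv
      _ ≤ A.valuation x * 1 * 1 := by gcongr
      _ = A.valuation x := by rw [mul_one, mul_one]
  have hB1 : A.valuation (x + fB P / 4) = 1 := by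
    refine le_antisymm h1 ?_
    calc (1 : _) = A.valuation x * A.valuation (x + fB P / 4) *
          A.valuation (4 * (x - fA P / 4)) := hv
      _ ≤ 1 * A.valuation (x + fB P / 4) * 1 := by gcongr
      _ = A.valuation (x + fB P / 4) := by rw [mul_one, one_mul]
  have hA1 : A.valuation (4 * (x - fA P / 4)) = 1 := by
    refine le_antisymm h2 ?_
    calc (1 : _) = A.valuation x * A.valuation (x + fB P / 4) *
          A.valuation (4 * (x - fA P / 4)) := hv
      _ ≤ 1 * 1 * A.valuation (4 * (x - fA P / 4)) := by gcongr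
      _ = A.valuation (4 * (x - fA P / 4)) := by rw [one_mul, one_mul]
  refine ⟨hx1, hB1, ?_⟩
  rw [← map_mul]
  exact hA1

/-- At a prime of good reduction of the Frey model every point lies in `E⁰`. -/
theorem frey_inE0_of_good (P : FreyPackage) {ℓ : ℕ} (hℓ : ℓ.Prime)
    (hgood : ¬ (ℓ : ℤ) ∣ P.freyCurveInt.Δ)
    (A : ValuationSubring (AlgebraicClosure ℚ)) (hA : A.LiesOverPrime ℓ)
    (T : (P.freyCurve⁄(AlgebraicClosure ℚ)).Point) :
    InE0 A (IsLocalRing.residue A) (P.freyCurveInt⁄(IsLocalRing.ResidueField A)) T := by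
  rcases T with _ | ⟨x, y, h⟩
  · trivial
  · intro hx
    have hred := frey_isRedOf P A
    have hy : y ∈ A := y_mem_of_x_mem hred h.1 hx
    have heq := rd_equation hred hx hy h.1
    have hΔ : (P.freyCurveInt⁄(IsLocalRing.ResidueField A)).Δ ≠ 0 := by
      have hchar : CharP (IsLocalRing.ResidueField A) ℓ :=
        (CharP.charP_iff_prime_eq_zero hℓ).mpr (by
          have h0 : rd A (IsLocalRing.residue A) ((ℓ : ℤ) : AlgebraicClosure ℚ) = 0 :=
            rd_eq_zero_of_lt (kerMax_residue A) (by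
              have := (A.mem_nonunits_iff).mp hA
              simpa using this)
          rw [rd_intCast] at h0
          exact_mod_cast h0)
      have e : (P.freyCurveInt⁄(IsLocalRing.ResidueField A)).Δ =
          ((P.freyCurveInt.Δ : ℤ) : IsLocalRing.ResidueField A) := by
        show (P.freyCurveInt.map (algebraMap ℤ (IsLocalRing.ResidueField A))).Δ = _
        rw [WeierstrassCurve.map_Δ, eq_intCast]
      rw [e, Ne, CharP.intCast_eq_zero_iff (IsLocalRing.ResidueField A) ℓ]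
      exact hgood
    exact (Affine.equation_iff_nonsingular_of_Δ_ne_zero hΔ).mp heq

/-- **Valuation table at `ℓ ≠ p`, toric case.**  If `T` has order `p` and lies in `E⁰(A)`
(`A` over `ℓ ≠ p`, ANY `ℓ`), then `T = (x, y)` with
`v(x) = 1`, `v(x + b^p/4) = 1`, `v(4) · v(x - a^p/4) = 1`. -/
theorem frey_factor_vals_of_inE0 (P : FreyPackage) {ℓ : ℕ} (hℓ : ℓ.Prime) (hℓp : ℓ ≠ P.p)
    (A : ValuationSubring (AlgebraicClosure ℚ)) (hA : A.LiesOverPrime ℓ)
    (T : (P.freyCurve⁄(AlgebraicClosure ℚ)).Point) (hord : addOrderOf T = P.p)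
    (hT : InE0 A (IsLocalRing.residue A) (P.freyCurveInt⁄(IsLocalRing.ResidueField A)) T) :
    ∃ (x y : AlgebraicClosure ℚ) (h : (P.freyCurve⁄(AlgebraicClosure ℚ)).Nonsingular x y),
      T = Point.some x y h ∧ A.valuation x = 1 ∧ A.valuation (x + fB P / 4) = 1 ∧
        A.valuation 4 * A.valuation (x - fA P / 4) = 1 := by
  obtain ⟨x, y, h, rfl, hx, hη⟩ := frey_toric_point P hℓ hℓp A hA T hord hT
  exact ⟨x, y, h, rfl, frey_val_factors P A h.1 hx hη⟩

end Fermat.Agent.S12.H411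

end
-- ===== PACK-END S12/H411/LocPi.lean

-- ===== PACK-BEGIN Ribet/H104/FreyModelAtP.lean
section


/-!
# RIBET / G1a (helper104): the integral Frey curve is a semistable, peu ramifié model

`P.freyCurveInt` (the Prelude's integral Weierstrass equation of the Frey curve) is

* an integral model of `P.freyCurve` (trivial variable change; the integer divisions in the
  Prelude definition are exact) : `isIntegralModelOf`;
* of discriminant `Δ` with `2 ^ 8 * Δ = (a b c) ^ (2 p)` : `two_pow_mul_Δ`, hence `Δ ≠ 0`;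
* with `c₄ = A² + A B + B²`, `A = a ^ p`, `B = b ^ p` : `c₄_eq`;
* semistable at EVERY prime (also at `2`) : `isSemistableModel`;
* peu ramifié at every odd prime `ℓ` (`ℓ ∣ v_ℓ(Δ)` when `ℓ = p`): `padicValRat_Δ`,
  `isPeuRamifieeAt`.

Main result: `freyModelAtP : Spec.FreyModelAtPStatement` (piece G1a of `coord/RIBET.md`).
The hypothesis `p ∣ abc` of the statement is not needed.

Everything is elementary; imports = `Ribet/Spec` only (Mathlib + Prelude definitions).
-/

set_option autoImplicit false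

namespace Fermat.Agent.Ribet.H104

open WeierstrassCurve

variable (P : FreyPackage)

/-! ### Exactness of the integer divisions in `freyCurveInt` -/

lemma two_dvd_b : (2 : ℤ) ∣ P.b := (ZMod.intCast_zmod_eq_zero_iff_dvd P.b 2).1 P.hb2

lemma four_dvd_a₂_num : (4 : ℤ) ∣ P.b ^ P.p - 1 - P.a ^ P.p := by
  have hp := P.hp5
  have hb4 : (4 : ℤ) ∣ P.b ^ P.p := by
    obtain ⟨k, hk⟩ := two_dvd_b P
    obtain ⟨j, hj⟩ : ∃ j, P.p = j + 2 := ⟨P.p - 2, by omega⟩
    exact ⟨2 ^ j * k ^ P.p, by rw [hk, hj]; ring⟩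
  have ha : ((P.a ^ P.p : ℤ) : ZMod 4) = 3 := by
    push_cast
    rw [P.ha4]
    obtain ⟨m, hm⟩ := P.hp_odd
    rw [hm, pow_succ, pow_mul]
    have : (3 : ZMod 4) ^ 2 = 1 := by decide
    rw [this, one_pow, one_mul]
  have hb' : ((P.b ^ P.p : ℤ) : ZMod 4) = 0 :=
    (ZMod.intCast_zmod_eq_zero_iff_dvd _ 4).2 hb4
  apply (ZMod.intCast_zmod_eq_zero_iff_dvd _ 4).1
  push_cast at ha hb' ⊢
  rw [ha, hb']
  decide

lemma sixteen_dvd_a₄_num : (16 : ℤ) ∣ -(P.a ^ P.p) * P.b ^ P.p := by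
  have hp := P.hp5
  obtain ⟨k, hk⟩ := two_dvd_b P
  obtain ⟨j, hj⟩ : ∃ j, P.p = j + 4 := ⟨P.p - 4, by omega⟩
  exact ⟨-(P.a ^ P.p) * (2 ^ j * k ^ P.p), by rw [hk, hj]; ring⟩

lemma four_mul_a₂ : 4 * P.freyCurveInt.a₂ = P.b ^ P.p - 1 - P.a ^ P.p :=
  Int.mul_ediv_cancel' (four_dvd_a₂_num P)

lemma sixteen_mul_a₄ : 16 * P.freyCurveInt.a₄ = -(P.a ^ P.p) * P.b ^ P.p :=
  Int.mul_ediv_cancel' (sixteen_dvd_a₄_num P)

/-! ### The Frey curve over `ℚ` is the base change of the integral Frey curve -/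

theorem freyCurve_eq_map : P.freyCurve = P.freyCurveInt.map (Int.castRingHom ℚ) := by
  have h4 := four_dvd_a₂_num P
  have h16 := sixteen_dvd_a₄_num P
  ext
  · simp [FreyPackage.freyCurve, FreyPackage.freyCurveInt, WeierstrassCurve.map]
  · simp only [FreyPackage.freyCurve, FreyPackage.freyCurveInt, WeierstrassCurve.map,
      eq_intCast]
    rw [Int.cast_div h4 (by norm_num)]
    push_cast
    ring
  · simp [FreyPackage.freyCurve, FreyPackage.freyCurveInt, WeierstrassCurve.map]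
  · simp only [FreyPackage.freyCurve, FreyPackage.freyCurveInt, WeierstrassCurve.map,
      eq_intCast]
    rw [Int.cast_div h16 (by norm_num)]
    push_cast
    ring
  · simp [FreyPackage.freyCurve, FreyPackage.freyCurveInt, WeierstrassCurve.map]

/-- `P.freyCurveInt` is an integral model of `P.freyCurve` (identity variable change). -/
theorem isIntegralModelOf : P.freyCurveInt.IsIntegralModelOf P.freyCurve :=
  ⟨1, by rw [one_smul, freyCurve_eq_map]⟩

/-! ### Invariants of the integral Frey curve -/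

lemma a₁_eq : P.freyCurveInt.a₁ = 1 := rfl
lemma a₃_eq : P.freyCurveInt.a₃ = 0 := rfl
lemma a₆_eq : P.freyCurveInt.a₆ = 0 := rfl

/-- `c₄ = A² + A B + B²` with `A = a ^ p`, `B = b ^ p`. -/
theorem c₄_eq :
    P.freyCurveInt.c₄ = (P.a ^ P.p) ^ 2 + P.a ^ P.p * P.b ^ P.p + (P.b ^ P.p) ^ 2 := by
  have h2 := four_mul_a₂ P
  have h4 := sixteen_mul_a₄ P
  simp only [WeierstrassCurve.c₄, WeierstrassCurve.b₂, WeierstrassCurve.b₄, a₁_eq, a₃_eq]
  linear_combination (4 * P.freyCurveInt.a₂ + P.b ^ P.p - P.a ^ P.p + 1) * h2 - 3 * h4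

/-- `2 ^ 8 * Δ = (a b c) ^ (2 p)`. -/
theorem two_pow_mul_Δ :
    2 ^ 8 * P.freyCurveInt.Δ = (P.a * P.b * P.c) ^ (2 * P.p) := by
  have h2 := four_mul_a₂ P
  have h4 := sixteen_mul_a₄ P
  have hc : P.c ^ P.p = P.a ^ P.p + P.b ^ P.p := P.hFLT.symm
  have e1 : 2 ^ 8 * P.freyCurveInt.Δ =
      (16 * P.freyCurveInt.a₄) ^ 2 *
        ((1 + 4 * P.freyCurveInt.a₂) ^ 2 - 4 * (16 * P.freyCurveInt.a₄)) := by
    simp only [WeierstrassCurve.Δ, WeierstrassCurve.b₂, WeierstrassCurve.b₄,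
      WeierstrassCurve.b₆, WeierstrassCurve.b₈, a₁_eq, a₃_eq, a₆_eq]
    ring
  have e2 : (P.a * P.b * P.c) ^ (2 * P.p) =
      (P.a ^ P.p) ^ 2 * (P.b ^ P.p) ^ 2 * (P.c ^ P.p) ^ 2 := by
    rw [mul_comm 2 P.p, pow_mul, mul_pow, mul_pow]
    ring
  rw [e1, e2, h2, h4, hc]
  ring

theorem abc_ne_zero : P.a * P.b * P.c ≠ 0 := P.habc0

theorem Δ_ne_zero : P.freyCurveInt.Δ ≠ 0 := by
  intro h
  have := two_pow_mul_Δ P
  rw [h, mul_zero] at this
  exact pow_ne_zero _ (abc_ne_zero P) this.symm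

/-! ### Semistability at every prime -/

lemma not_prime_dvd_of_dvd_gcd_one {x y ℓ : ℤ} (hℓ : Prime ℓ) (hxy : gcd x y = 1)
    (hx : ℓ ∣ x) (hy : ℓ ∣ y) : False := by
  have h1 : ℓ ∣ gcd x y := dvd_gcd hx hy
  rw [hxy] at h1
  exact hℓ.not_isUnit (isUnit_of_dvd_one h1)

/-- A prime dividing `c₄` of the integral Frey curve divides none of `a`, `b`, `c`. -/
theorem not_dvd_abc_of_dvd_c₄ {ℓ : ℤ} (hℓ : Prime ℓ) (hc₄ : ℓ ∣ P.freyCurveInt.c₄) :
    ¬ ℓ ∣ P.a * P.b * P.c := by
  rw [c₄_eq] at hc₄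
  have hp0 : P.p ≠ 0 := P.hp0
  have key_a : ℓ ∣ P.a → False := by
    intro ha
    have hA : ℓ ∣ P.a ^ P.p := dvd_pow ha hp0
    have hB2 : ℓ ∣ (P.b ^ P.p) ^ 2 := by
      have : (P.b ^ P.p) ^ 2 =
          ((P.a ^ P.p) ^ 2 + P.a ^ P.p * P.b ^ P.p + (P.b ^ P.p) ^ 2)
            - P.a ^ P.p * (P.a ^ P.p + P.b ^ P.p) := by ring
      rw [this]
      exact dvd_sub hc₄ (dvd_mul_of_dvd_left hA _)
    have hb : ℓ ∣ P.b := hℓ.dvd_of_dvd_pow (hℓ.dvd_of_dvd_pow hB2)
    exact not_prime_dvd_of_dvd_gcd_one hℓ P.hgcdab ha hb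
  have key_b : ℓ ∣ P.b → False := by
    intro hb
    have hB : ℓ ∣ P.b ^ P.p := dvd_pow hb hp0
    have hA2 : ℓ ∣ (P.a ^ P.p) ^ 2 := by
      have : (P.a ^ P.p) ^ 2 =
          ((P.a ^ P.p) ^ 2 + P.a ^ P.p * P.b ^ P.p + (P.b ^ P.p) ^ 2)
            - P.b ^ P.p * (P.a ^ P.p + P.b ^ P.p) := by ring
      rw [this]
      exact dvd_sub hc₄ (dvd_mul_of_dvd_left hB _)
    have ha : ℓ ∣ P.a := hℓ.dvd_of_dvd_pow (hℓ.dvd_of_dvd_pow hA2)
    exact not_prime_dvd_of_dvd_gcd_one hℓ P.hgcdab ha hb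
  intro habc
  rcases hℓ.dvd_or_dvd habc with hab | hc
  · rcases hℓ.dvd_or_dvd hab with ha | hb
    · exact key_a ha
    · exact key_b hb
  · have hC : ℓ ∣ P.a ^ P.p + P.b ^ P.p := by
      rw [P.hFLT]
      exact dvd_pow hc hp0
    have hAB : ℓ ∣ P.a ^ P.p * P.b ^ P.p := by
      have : P.a ^ P.p * P.b ^ P.p =
          (P.a ^ P.p + P.b ^ P.p) * (P.a ^ P.p + P.b ^ P.p)
            - ((P.a ^ P.p) ^ 2 + P.a ^ P.p * P.b ^ P.p + (P.b ^ P.p) ^ 2) := by ring
      rw [this]
      exact dvd_sub (dvd_mul_of_dvd_left hC _) hc₄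
    rcases hℓ.dvd_or_dvd hAB with hA | hB
    · exact key_a (hℓ.dvd_of_dvd_pow hA)
    · exact key_b (hℓ.dvd_of_dvd_pow hB)

/-- A prime dividing `Δ` of the integral Frey curve divides `abc`. -/
theorem dvd_abc_of_dvd_Δ {ℓ : ℤ} (hℓ : Prime ℓ) (hΔ : ℓ ∣ P.freyCurveInt.Δ) :
    ℓ ∣ P.a * P.b * P.c := by
  have h : ℓ ∣ (P.a * P.b * P.c) ^ (2 * P.p) := by
    rw [← two_pow_mul_Δ]
    exact dvd_mul_of_dvd_right hΔ _
  exact hℓ.dvd_of_dvd_pow h

/-- The integral Frey curve is semistable at every prime: no prime divides both `Δ` and `c₄`. -/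
theorem isSemistableModel : P.freyCurveInt.IsSemistableModel := by
  intro ℓ hℓ hΔ hc₄
  have hℓ' : Prime (ℓ : ℤ) := Nat.prime_iff_prime_int.mp hℓ
  exact not_dvd_abc_of_dvd_c₄ P hℓ' hc₄ (dvd_abc_of_dvd_Δ P hℓ' hΔ)

/-- An odd prime dividing `abc` is a bad prime of the integral Frey curve. -/
theorem dvd_Δ_of_dvd_abc {ℓ : ℕ} (hℓ : ℓ.Prime) (hℓ2 : ℓ ≠ 2)
    (h : (ℓ : ℤ) ∣ P.a * P.b * P.c) : (ℓ : ℤ) ∣ P.freyCurveInt.Δ := by
  have hℓ' : Prime (ℓ : ℤ) := Nat.prime_iff_prime_int.mp hℓ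
  have h2 : (ℓ : ℤ) ∣ 2 ^ 8 * P.freyCurveInt.Δ := by
    rw [two_pow_mul_Δ]
    exact dvd_pow h (by have := P.hp0; omega)
  rcases hℓ'.dvd_or_dvd h2 with h8 | hΔ
  · exfalso
    have h2' : (ℓ : ℤ) ∣ 2 := hℓ'.dvd_of_dvd_pow h8
    have : ℓ ∣ 2 := by exact_mod_cast h2'
    exact hℓ2 ((Nat.prime_dvd_prime_iff_eq hℓ Nat.prime_two).1 this)
  · exact hΔ

/-! ### Peu ramifié at odd primes -/

/-- `v_ℓ(Δ) = 2 p · v_ℓ(abc)` for every odd prime `ℓ`. -/
theorem padicValRat_Δ {ℓ : ℕ} (hℓ : ℓ.Prime) (hℓ2 : ℓ ≠ 2) :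
    padicValRat ℓ (P.freyCurveInt.map (Int.castRingHom ℚ)).Δ =
      (2 * P.p : ℕ) * padicValRat ℓ ((P.a * P.b * P.c : ℤ) : ℚ) := by
  have : Fact ℓ.Prime := ⟨hℓ⟩
  have : Fact (2 : ℕ).Prime := ⟨Nat.prime_two⟩
  have hΔ0 : ((P.freyCurveInt.Δ : ℤ) : ℚ) ≠ 0 := by exact_mod_cast Δ_ne_zero P
  have habc0 : ((P.a * P.b * P.c : ℤ) : ℚ) ≠ 0 := by exact_mod_cast abc_ne_zero P
  have h28 : ((2 : ℚ) ^ 8) ≠ 0 := by norm_num
  have hcast : (2 : ℚ) ^ 8 * ((P.freyCurveInt.Δ : ℤ) : ℚ) =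
      ((P.a * P.b * P.c : ℤ) : ℚ) ^ (2 * P.p) := by
    have := congrArg (Int.cast : ℤ → ℚ) (two_pow_mul_Δ P)
    push_cast at this ⊢
    exact this
  have hv2 : padicValRat ℓ ((2 : ℚ) ^ 8) = 0 := by
    rw [padicValRat.pow]
    have : padicValRat ℓ (2 : ℚ) = 0 := by
      have h := padicValRat.of_nat (p := ℓ) (n := 2)
      rw [Nat.cast_ofNat] at h
      rw [h, padicValNat_primes hℓ2]
      rfl
    rw [this, mul_zero]
  have hmap : (P.freyCurveInt.map (Int.castRingHom ℚ)).Δ = ((P.freyCurveInt.Δ : ℤ) : ℚ) := by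
    rw [WeierstrassCurve.map_Δ]
    rfl
  rw [hmap]
  have h1 := congrArg (padicValRat ℓ) hcast
  rw [padicValRat.mul h28 hΔ0, hv2, zero_add, padicValRat.pow] at h1
  exact h1

/-- The integral Frey curve is peu ramifié (for the exponent `p`) at every odd prime `ℓ`:
`p ∣ v_ℓ(Δ)`. -/
theorem isPeuRamifieeAt {ℓ : ℕ} (hℓ : ℓ.Prime) (hℓ2 : ℓ ≠ 2) :
    (P.freyCurveInt.map (Int.castRingHom ℚ)).IsPeuRamifieeAt P.p ℓ := by
  unfold WeierstrassCurve.IsPeuRamifieeAt
  rw [padicValRat_Δ P hℓ hℓ2]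
  refine ⟨2 * padicValRat ℓ ((P.a * P.b * P.c : ℤ) : ℚ), ?_⟩
  push_cast
  ring

theorem p_ne_two : P.p ≠ 2 := by
  have := P.hp5
  omega

/-! ### The piece G1a -/

/-- **G1a** (`Spec.FreyModelAtPStatement`): the integral Frey curve is an integral model of the
Frey curve, with `Δ ≠ 0`, semistable at `p` and peu ramifié at `p`. -/
theorem freyModelAtP : Spec.FreyModelAtPStatement := by
  intro P _
  exact ⟨P.freyCurveInt, isIntegralModelOf P, Δ_ne_zero P,
    fun hΔ => isSemistableModel P P.p P.pp hΔ, isPeuRamifieeAt P P.pp (p_ne_two P)⟩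

end Fermat.Agent.Ribet.H104

end
-- ===== PACK-END Ribet/H104/FreyModelAtP.lean

-- ===== PACK-BEGIN S12/H411/Leaves.lean
section





/-!
# Row S12 (one-step route): the local leaves in the shapes of `S12/H291/Local.lean` (helper411)

* `locP_h411 : H291.LocPStatement`       — the term statement at `ℓ = p` (cofixed line ⊂ kernel of
  reduction, `S12/H411/LocP.lean`);
* `locGood_h411 : H291.LocGoodStatement` — the term statement at the primes `ℓ ∤ 2·p·abc`;
* `termAt_of_inE0_h411`                  — TORIC ⇒ TERM: a point of order `p` in `E⁰(A)`,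
  `A` over ANY prime `ℓ ≠ p` (`ℓ = 2` included), satisfies `H291.TermAt`;
* `loc2_of_toric_h411`, `locBad_of_toric_h411` — the leaves `Loc2`, `LocBad` from "the cofixed
  line is toric at `A`".
-/

set_option autoImplicit false

open WeierstrassCurve WeierstrassCurve.Affine WeierstrassCurve.Affine.Point

namespace Fermat.Agent.S12.H411

open Fermat.Agent.S12.H291 Fermat.Agent.S05.Assemble Fermat.Agent.S15.H242

lemma eps₂_eq_h411 (P : FreyPackage) : eps₂ P = fA P / 4 := by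
  simp only [eps₂, fA]
  push_cast
  simp

lemma eps₃_eq_h411 (P : FreyPackage) : eps₃ P = -(fB P / 4) := by
  simp only [eps₃, fB]
  push_cast
  simp [neg_div]

/-- **TORIC ⇒ TERM.**  A point of order `p` of the Frey curve lying in `E⁰(A)`, `A` over a prime
`ℓ ≠ p` (any `ℓ`, `2` included), satisfies the term statement. -/
theorem termAt_of_inE0_h411 (P : FreyPackage) {ℓ : ℕ} (hℓ : ℓ.Prime) (hℓp : ℓ ≠ P.p)
    (A : ValuationSubring (AlgebraicClosure ℚ)) (hA : A.LiesOverPrime ℓ) (T : FreyPt P)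
    (hord : addOrderOf T = P.p)
    (hT : InE0 A (IsLocalRing.residue A) (P.freyCurveInt⁄(IsLocalRing.ResidueField A)) T) :
    TermAt P A T := by
  obtain ⟨x, y, h, rfl, hx, hB, hA4⟩ := frey_factor_vals_of_inE0 P hℓ hℓp A hA T hord hT
  unfold TermAt
  rw [xc_some, sub_zero, eps₃_eq_h411, eps₂_eq_h411, sub_neg_eq_add, hB, hx]
  exact ⟨rfl, hA4.symm⟩

/-- **LEAF LocP.** -/
theorem locP_h411 : LocPStatement := by
  intro P _ N hN T hTN hT A hA
  have hp2 : P.p ≠ 2 := by have := P.hp5; omega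
  have hT' : (T : FreyPt P) ≠ 0 := fun h => hT (Subtype.ext h)
  rcases hTe : (T : FreyPt P) with _ | ⟨x, y, h⟩
  · exact absurd hTe hT'
  have hx : 1 < A.valuation x :=
    frey_line_x_not_mem P N hN.stable hN.ne_bot hN.ne_top hN.cofixed A hA T hTN h hTe
  have h4 : A.valuation (4 : AlgebraicClosure ℚ) = 1 := val_four_eq_one hA P.pp hp2
  have h2 : A.valuation (eps₂ P) ≤ 1 := by
    rw [eps₂_eq_h411, map_div₀, h4, div_one]
    exact val_fA_le_one (P := P) (A := A)
  have h3 : A.valuation (eps₃ P) ≤ 1 := by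
    rw [eps₃_eq_h411, Valuation.map_neg]
    exact val_fB_div_four_le_one P A
  unfold TermAt
  rw [xc_some, sub_zero, val_sub_eq_of_one_lt _ hx h3, val_sub_eq_of_one_lt _ hx h2, h4, one_mul]
  exact ⟨rfl, rfl⟩

/-- **LEAF LocGood.** -/
theorem locGood_h411 : LocGoodStatement := by
  intro P _ N _ T _ hT ℓ hℓ _ hℓp hndvd A hA
  have hgood : ¬ (ℓ : ℤ) ∣ P.freyCurveInt.Δ := fun h =>
    hndvd (Fermat.Agent.Ribet.H104.dvd_abc_of_dvd_Δ P (Nat.prime_iff_prime_int.mp hℓ) h)
  exact termAt_of_inE0_h411 P hℓ hℓp A hA T (addOrderOf_eq_of_mem_torsion T hT)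
    (frey_inE0_of_good P hℓ hgood A hA T)

/-- The node "the cofixed lines of the Frey curve are toric at `2`": every point of a cofixed line
has nonsingular reduction at every place over `2`. -/
def Toric2Statement : Prop :=
  ∀ (P : FreyPackage), 17 ≤ P.p →
    ∀ N : Submodule (ZMod P.p) (Submodule.torsionBy ℤ (FreyPt P) P.p), IsCofixedLine P N →
    ∀ T : Submodule.torsionBy ℤ (FreyPt P) P.p, T ∈ N →
    ∀ A : ValuationSubring (AlgebraicClosure ℚ), A.LiesOverPrime 2 →
      InE0 A (IsLocalRing.residue A) (P.freyCurveInt⁄(IsLocalRing.ResidueField A))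
        (T : FreyPt P)

/-- **LEAF Loc2** from the toric node at `2`. -/
theorem loc2_of_toric_h411 (h : Toric2Statement) : Loc2Statement := by
  intro P hp N hN T hTN hT A hA
  have hp2 : 2 ≠ P.p := by have := P.hp5; omega
  exact termAt_of_inE0_h411 P Nat.prime_two hp2 A hA T (addOrderOf_eq_of_mem_torsion T hT)
    (h P hp N hN T hTN A hA)

/-- The node "the cofixed lines of the Frey curve are toric at the odd bad primes `ℓ ≠ p`". -/
def ToricBadStatement : Prop :=
  ∀ (P : FreyPackage), 17 ≤ P.p →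
    ∀ N : Submodule (ZMod P.p) (Submodule.torsionBy ℤ (FreyPt P) P.p), IsCofixedLine P N →
    ∀ T : Submodule.torsionBy ℤ (FreyPt P) P.p, T ∈ N →
    ∀ (ℓ : ℕ), ℓ.Prime → ℓ ≠ 2 → ℓ ≠ P.p → (ℓ : ℤ) ∣ P.a * P.b * P.c →
    ∀ A : ValuationSubring (AlgebraicClosure ℚ), A.LiesOverPrime ℓ →
      InE0 A (IsLocalRing.residue A) (P.freyCurveInt⁄(IsLocalRing.ResidueField A))
        (T : FreyPt P)

/-- **LEAF LocBad** from the toric node at the odd bad primes. -/
theorem locBad_of_toric_h411 (h : S15Statement → ToricBadStatement) : LocBadStatement := by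
  intro hS15 P hp N hN T hTN hT ℓ hℓ hℓ2 hℓp hdvd A hA
  exact termAt_of_inE0_h411 P hℓ hℓp A hA T (addOrderOf_eq_of_mem_torsion T hT)
    (h hS15 P hp N hN T hTN ℓ hℓ hℓ2 hℓp hdvd A hA)

/-- **Row S12, one-step route**: frozen S12 from frozen S15 and the two toric nodes. -/
theorem s12_of_toric_h411 (hS15 : S15Statement) (h2 : Toric2Statement)
    (hB : S15Statement → ToricBadStatement) (P : FreyPackage) (hp : 17 ≤ P.p) :
    ¬ HasGaloisStableCofixedLine (K := AlgebraicClosure ℚ) ℚ P.freyCurve P.p :=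
  s12_of_leaves hS15 (loc2_of_toric_h411 h2) locP_h411 locGood_h411 (locBad_of_toric_h411 hB) P hp

end Fermat.Agent.S12.H411

end
-- ===== PACK-END S12/H411/Leaves.lean

-- ===== PACK-BEGIN S12/H111/GeoSub.lean
section


/-!
# Rows S15 / S12: the node GEO for Galois-STABLE SUBGROUPS, and the dual TOP (helper111)

`Fermat.Agent.S15.Core.GeoStatement p` (row S15, on main) is stated for a Galois-FIXED point `Q`
of order `p`.  Every ingredient of its proof (the moduli place of `(E, ⟨Q⟩)`, Vélu's `j`-invariant,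
the value of the modular unit, the reduction of the moduli point at a multiplicative prime)
depends only on the SUBGROUP `⟨Q⟩`.  We therefore state

* `GeoSubStatement p` : the same node for a point `Q` of order `p` generating a Galois-STABLE
  subgroup (`σ • Q ∈ ⟨Q⟩` for all `σ`);
* `geo_of_geoSub : GeoSubStatement p → GeoStatement p` (so row S15 loses nothing by proving the
  subgroup form);
* `inZero_of_nodes` : the `w_p`-DUAL of `S15.Core.s15_of_nodes`: if `⟨Q⟩` is Galois-stable of order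
  `p`, `W` is multiplicative at `2`, `3` with `Q` IN the identity component there, then `Q` is in
  the identity component at every multiplicative prime `ℓ ≡ ±1 mod p`.

Consequence for row S12 (one-step route, `coord/S12-route-helper111.md`, helper291's
`S12/H291/OneStep.lean`): the node "the cofixed line `N` of the Frey curve is toric at every odd bad
prime" follows from `CuspStatement + GeoSubStatement + DescentStatement` applied to the Frey
curve ITSELF with `Q` a generator of `N`.  No quotient curve `E/N`, no Vélu isogeny, no frozen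
S15 applied to `E/N` is needed.

Everything in this file is sorry-free; the nodes are hypotheses.
-/

set_option autoImplicit false

noncomputable section

open AlgebraicCurve ModularCurve WeierstrassCurve WeierstrassCurve.Affine

namespace Fermat.Agent.S12.H111

open Fermat.Agent.S15.Core

/-- **NODE GEO, subgroup form.**  As `S15.Core.GeoStatement`, but `Q` is only assumed to
generate a Galois-stable subgroup. -/
def GeoSubStatement (p : ℕ) [NeZero p] : Prop :=
  ∀ (W : WeierstrassCurve ℤ), W.Δ ≠ 0 →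
  ∀ (Q : ((W.map (Int.castRingHom ℚ))⁄(AlgebraicClosure ℚ)).Point),
    (∀ σ : AlgebraicClosure ℚ ≃ₐ[ℚ] AlgebraicClosure ℚ, σ • Q ∈ AddSubgroup.zmultiples Q) →
    addOrderOf Q = p →
  ∀ (P₀ : Place (AlgebraicClosure ℚ) (modularFunctionFieldBar p)) (c : JZero p),
    IsCuspZero p P₀ → IsDiffClass P₀ (cuspInfty p) c →
  ∃ D : JZero p, (∀ σ : AlgebraicClosure ℚ ≃ₐ[ℚ] AlgebraicClosure ℚ, σ • D = D) ∧
    ∀ q : ℕ, q.Prime → q ≠ p → (q : ℤ) ∣ W.Δ → ¬ (q : ℤ) ∣ W.c₄ →
    ∀ A : ValuationSubring (AlgebraicClosure ℚ), A.LiesOverPrime q →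
    ∃ (X : Type) (_ : AddCommGroup X) (sp : JZero p →+ X),
      (∀ (m : ℕ) (z : JZero p), ¬ q ∣ m → m • z = 0 → sp z = 0 → z = 0) ∧
      (∀ T ∈ goodHecke p {q}, ∀ z : JZero p, sp z = 0 → sp (T z) = 0) ∧
      (¬ W.InZeroComponentAt A Q → sp D = 0) ∧
      (W.InZeroComponentAt A Q → sp (D + c) = 0)

/-- The subgroup form implies the point form used by `S15.Core.s15_of_nodes`. -/
theorem geo_of_geoSub {p : ℕ} [NeZero p] (h : GeoSubStatement p) : GeoStatement p := by
  intro W hΔ Q hQfix hQord P₀ c hP₀ hc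
  refine h W hΔ Q (fun σ => ?_) hQord P₀ c hP₀ hc
  rw [hQfix σ]
  exact AddSubgroup.mem_zmultiples Q

/-- **Dual TOP.**  From the three nodes (GEO in subgroup form): a point `Q` of order `p`
generating a Galois-stable subgroup, lying IN the identity component at `2` and at `3`
(both multiplicative), lies in the identity component at every multiplicative prime
`ℓ ≠ p` with `ℓ ≡ ±1 mod p`. -/
theorem inZero_of_nodes
    {p : ℕ} (hp : p.Prime) (hp2 : p ≠ 2) (hp3 : p ≠ 3)
    (hCusp : haveI : NeZero p := ⟨hp.ne_zero⟩; CuspStatement p)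
    (hGeo : haveI : NeZero p := ⟨hp.ne_zero⟩; GeoSubStatement p)
    (hDesc : haveI : NeZero p := ⟨hp.ne_zero⟩; DescentStatement p)
    (W : WeierstrassCurve ℤ) (hΔ : W.Δ ≠ 0)
    (Q : ((W.map (Int.castRingHom ℚ))⁄(AlgebraicClosure ℚ)).Point)
    (hQstab : ∀ σ : AlgebraicClosure ℚ ≃ₐ[ℚ] AlgebraicClosure ℚ,
      σ • Q ∈ AddSubgroup.zmultiples Q)
    (hQord : addOrderOf Q = p)
    (h2Δ : (2 : ℤ) ∣ W.Δ) (h2c₄ : ¬ (2 : ℤ) ∣ W.c₄)
    (h2 : ∀ A : ValuationSubring (AlgebraicClosure ℚ), A.LiesOverPrime 2 →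
      W.InZeroComponentAt A Q)
    (h3Δ : (3 : ℤ) ∣ W.Δ) (h3c₄ : ¬ (3 : ℤ) ∣ W.c₄)
    (h3 : ∀ A : ValuationSubring (AlgebraicClosure ℚ), A.LiesOverPrime 3 →
      W.InZeroComponentAt A Q)
    {ℓ : ℕ} (hℓ : ℓ.Prime) (hℓp : ℓ ≠ p) (hℓΔ : (ℓ : ℤ) ∣ W.Δ) (hℓc₄ : ¬ (ℓ : ℤ) ∣ W.c₄)
    (hpm : p ∣ ℓ - 1 ∨ p ∣ ℓ + 1)
    (A : ValuationSubring (AlgebraicClosure ℚ)) (hA : A.LiesOverPrime ℓ) :
    W.InZeroComponentAt A Q := by
  have : NeZero p := ⟨hp.ne_zero⟩
  by_contra hQ0
  obtain ⟨P₀, c, hP₀, hc, hEis, hord0, hordr⟩ := hCusp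
  obtain ⟨D, hDfix, hD⟩ := hGeo W hΔ Q hQstab hQord P₀ c hP₀ hc
  obtain ⟨r, t, e, hr, hrn, ht, hte, hre, htors⟩ := hDesc {2, 3, ℓ}
  obtain ⟨A₂, hA₂⟩ := Fermat.Agent.S54.exists_valuationSubring_liesOver 2 Nat.prime_two
  obtain ⟨A₃, hA₃⟩ := Fermat.Agent.S54.exists_valuationSubring_liesOver 3 Nat.prime_three
  obtain ⟨X₂, _, sp₂, inj₂, hk₂, -, hz₂⟩ :=
    hD 2 Nat.prime_two (Ne.symm hp2) (by exact_mod_cast h2Δ) (by exact_mod_cast h2c₄) A₂ hA₂
  obtain ⟨X₃, _, sp₃, inj₃, hk₃, -, hz₃⟩ :=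
    hD 3 Nat.prime_three (Ne.symm hp3) (by exact_mod_cast h3Δ) (by exact_mod_cast h3c₄) A₃ hA₃
  obtain ⟨Xℓ, _, spℓ, injℓ, hkℓ, hzℓ, -⟩ := hD ℓ hℓ hℓp hℓΔ hℓc₄ A hA
  obtain ⟨m, hm, hmD⟩ := htors D hDfix
  have hS2 : ({2} : Set ℕ) ⊆ (({2, 3, ℓ} : Finset ℕ) : Set ℕ) := by
    intro x hx; simp only [Set.mem_singleton_iff] at hx; simp [hx]
  have hS3 : ({3} : Set ℕ) ⊆ (({2, 3, ℓ} : Finset ℕ) : Set ℕ) := by
    intro x hx; simp only [Set.mem_singleton_iff] at hx; simp [hx]
  have hSℓ : ({ℓ} : Set ℕ) ⊆ (({2, 3, ℓ} : Finset ℕ) : Set ℕ) := by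
    intro x hx; simp only [Set.mem_singleton_iff] at hx; simp [hx]
  have hnc : addOrderOf c • c = 0 := addOrderOf_nsmul_eq_zero c
  -- `t (D + c)` is torsion and specialises to `0` at `2` and `3`, hence vanishes
  have htDc_tors : (m * addOrderOf c) • t (D + c) = 0 := by
    rw [map_add, hte c hEis, nsmul_add]
    have h1 : (m * addOrderOf c) • t D = 0 := by
      rw [mul_nsmul, hmD, nsmul_zero]
    have h2' : (m * addOrderOf c) • (e • c) = 0 := by
      rw [mul_nsmul', smul_comm (addOrderOf c) e c, hnc, smul_zero, nsmul_zero]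
    rw [h1, h2', add_zero]
  have htDc : t (D + c) = 0 :=
    eq_zero_of_torsion_of_two_primes sp₂ sp₃ Nat.prime_two Nat.prime_three (by norm_num)
      inj₂ inj₃ (Nat.mul_pos hm (Nat.pos_of_ne_zero hord0)) htDc_tors
      (sp_eq_zero_of_mem_goodHeckeAlg sp₂ hS2 hk₂ ht (D + c) (hz₂ (h2 A₂ hA₂)))
      (sp_eq_zero_of_mem_goodHeckeAlg sp₃ hS3 hk₃ ht (D + c) (hz₃ (h3 A₃ hA₃)))
  -- at `ℓ`: `sp (t D) = 0`, and `t D = - e • c`
  have h1 : spℓ (t D) = 0 :=
    sp_eq_zero_of_mem_goodHeckeAlg spℓ hSℓ hkℓ ht D (hzℓ hQ0)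
  have htD : t D = - (e • c) := by
    rw [map_add, hte c hEis] at htDc
    exact eq_neg_of_add_eq_zero_left htDc
  rw [htD, map_neg, neg_eq_zero] at h1
  -- the element `y = (ord c / r) • e • c` has order `r`
  set n := eisensteinNumerator p with hn
  have hn0 : 0 < n := by
    have hg : 0 < Nat.gcd (p - 1) 12 := Nat.gcd_pos_of_pos_right _ (by norm_num)
    have hp1 : 0 < p - 1 := by have := hp.two_le; omega
    exact Nat.div_pos (Nat.le_of_dvd hp1 (Nat.gcd_dvd_left _ _)) hg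
  have hrle : r ≤ n := Nat.le_of_dvd hn0 hrn
  obtain ⟨s, hs⟩ := hordr r hr hrn
  have hs0 : s ≠ 0 := by
    rintro rfl
    rw [mul_zero] at hs
    exact hord0 hs
  have hry : r • (s • (e • c)) = 0 := by
    rw [← mul_smul, ← hs, smul_comm, hnc, smul_zero]
  have hy0 : s • (e • c) ≠ 0 := by
    intro h0
    have h' : ((s : ℤ) * e) • c = 0 := by
      rw [mul_smul, natCast_zsmul]
      exact h0
    have hdvd : (addOrderOf c : ℤ) ∣ (s : ℤ) * e := addOrderOf_dvd_iff_zsmul_eq_zero.mpr h'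
    rw [hs] at hdvd
    push_cast at hdvd
    have hdvd' : (r : ℤ) * (s : ℤ) ∣ e * (s : ℤ) := by rwa [mul_comm e]
    exact hre (Int.dvd_of_mul_dvd_mul_right (by exact_mod_cast hs0) hdvd')
  have hspy : spℓ (s • (e • c)) = 0 := by rw [map_nsmul, h1, smul_zero]
  have hℓr : ¬ ℓ ∣ r := by
    intro h
    have hrl : ℓ = r := (Nat.prime_dvd_prime_iff_eq hℓ hr).mp h
    have hhalf : 2 * n ≤ p - 1 := eisensteinNumerator_le_half hp hp2
    have hp1 := hp.two_le
    have hℓ2 := hℓ.two_le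
    rcases hpm with h1' | h1'
    · have : ℓ - 1 = 0 := Nat.eq_zero_of_dvd_of_lt h1' (by omega)
      omega
    · have hle : p ≤ ℓ + 1 := Nat.le_of_dvd (by omega) h1'
      omega
  exact hy0 (injℓ r _ hℓr hry hspy)

end Fermat.Agent.S12.H111

end
end
-- ===== PACK-END S12/H111/GeoSub.lean

-- ===== PACK-BEGIN S12/H291/Glue.lean
section




/-!
# Row S12, one-step route: FINAL GLUE (helper291)

`s12_of_s15_nodes` : frozen S12 from the three nodes of row S15 (`CuspStatement p`,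
`GeoSubStatement p` = node GEO for Galois-stable subgroups, `DescentStatement p`, for the primes
`p ≥ 17`).  Everything else is proved:

* TOP (`OneStep`, `PiRat`, `Local`): Jacobi's identity + `2`-adic endgame + rationality of `Π_j`;
* local leaves at `ℓ = p`, good `ℓ`, and TORIC ⇒ TERM (helper411, `S12/H411/Leaves.lean`);
* the cofixed line is toric at `2`, at `3` (and `3 ∣ abc`), and at every bad `ℓ ≢ ±1 mod p`
  (`ToricFrey`, `GoodSmall`);
* the cofixed line is toric at the bad `ℓ ≡ ±1 mod p`: helper111's `inZero_of_nodes`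
  (`S12/H111/GeoSub.lean`) applied to the Frey curve itself — the ONLY global input.

No quotient curve `E/N`, no Vélu isogeny, no determinant is used.
-/

set_option autoImplicit false
set_option linter.unusedSectionVars false
set_option linter.style.haveILetI false

noncomputable section

open WeierstrassCurve WeierstrassCurve.Affine WeierstrassCurve.Affine.Point

namespace Fermat.Agent.S12.H291

open Fermat.Agent.Lib.Red.H290 Fermat.Agent.S15.H242
open Fermat.Agent.S15.Core (CuspStatement DescentStatement)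
open Fermat.Agent.S12.H111 (GeoSubStatement inZero_of_nodes)

/-- `E⁰` in the sense of reduction implies the Prelude's `InZeroComponentAt`. -/
lemma inZeroComponentAt_of_inE0 (W : WeierstrassCurve ℤ) (A : ValuationSubring Qb)
    {Q : ((W.map (Int.castRingHom ℚ))⁄Qb).Point}
    (hQ : InE0 A (IsLocalRing.residue A) (W⁄(IsLocalRing.ResidueField A)) Q) :
    W.InZeroComponentAt A Q := by
  rcases Q with _ | ⟨x, y, h⟩
  · exact Or.inl rfl
  · refine Or.inr ⟨x, y, h, rfl, ?_⟩
    by_cases hx : x ∈ A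
    · have hred := isRedOf_int A W (IsLocalRing.residue A)
      have hy : y ∈ A := y_mem_of_x_mem hred h.1 hx
      refine Or.inr ⟨hx, hy, ?_⟩
      have := hQ hx
      rw [rd_of_mem hx, rd_of_mem hy] at this
      exact this
    · exact Or.inl hx

/-- helper111's dual TOP, transported to a curve `Wq = W₀_ℚ` and to `E⁰` in the sense of
reduction. -/
theorem inE0_of_nodes_general {p : ℕ} (hp : p.Prime) (hp2 : p ≠ 2) (hp3 : p ≠ 3)
    (hCusp : haveI : NeZero p := ⟨hp.ne_zero⟩; CuspStatement p)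
    (hGeo : haveI : NeZero p := ⟨hp.ne_zero⟩; GeoSubStatement p)
    (hDesc : haveI : NeZero p := ⟨hp.ne_zero⟩; DescentStatement p)
    (W₀ : WeierstrassCurve ℤ) (hΔ : W₀.Δ ≠ 0)
    (Wq : WeierstrassCurve ℚ) (hW : Wq = W₀.map (Int.castRingHom ℚ))
    (Q : (Wq⁄Qb).Point)
    (hQstab : ∀ σ : Qb ≃ₐ[ℚ] Qb, σ • Q ∈ AddSubgroup.zmultiples Q)
    (hQord : addOrderOf Q = p)
    (h2Δ : (2 : ℤ) ∣ W₀.Δ) (h2c₄ : ¬ (2 : ℤ) ∣ W₀.c₄)
    (h2 : ∀ A : ValuationSubring Qb, A.LiesOverPrime 2 →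
      InE0 A (IsLocalRing.residue A) (W₀⁄(IsLocalRing.ResidueField A)) Q)
    (h3Δ : (3 : ℤ) ∣ W₀.Δ) (h3c₄ : ¬ (3 : ℤ) ∣ W₀.c₄)
    (h3 : ∀ A : ValuationSubring Qb, A.LiesOverPrime 3 →
      InE0 A (IsLocalRing.residue A) (W₀⁄(IsLocalRing.ResidueField A)) Q)
    {ℓ : ℕ} (hℓ : ℓ.Prime) (hℓp : ℓ ≠ p) (hℓΔ : (ℓ : ℤ) ∣ W₀.Δ) (hℓc₄ : ¬ (ℓ : ℤ) ∣ W₀.c₄)
    (hpm : p ∣ ℓ - 1 ∨ p ∣ ℓ + 1)
    (A : ValuationSubring Qb) (hA : A.LiesOverPrime ℓ) :
    InE0 A (IsLocalRing.residue A) (W₀⁄(IsLocalRing.ResidueField A)) Q := by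
  subst hW
  exact inE0_of_inZeroComponentAt W₀ A
    (inZero_of_nodes hp hp2 hp3 hCusp hGeo hDesc W₀ hΔ Q hQstab hQord h2Δ h2c₄
      (fun A₂ hA₂ => _root_.Fermat.Agent.S12.H291.inZeroComponentAt_of_inE0 W₀ A₂ (h2 A₂ hA₂)) h3Δ h3c₄
      (fun A₃ hA₃ => _root_.Fermat.Agent.S12.H291.inZeroComponentAt_of_inE0 W₀ A₃ (h3 A₃ hA₃)) hℓ hℓp hℓΔ hℓc₄ hpm A hA)

/-- **TORIC at `2`** in helper411's shape. -/
theorem toric2Statement : Fermat.Agent.S12.H411.Toric2Statement := by
  intro P hp N hN T hTN A hA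
  exact toric_two P (by omega) N hN A hA T hTN

/-- **TORIC at the odd bad primes** from the three nodes of row S15. -/
theorem toricBad_of_nodes
    (hCusp : ∀ (p : ℕ) (hp : p.Prime), 17 ≤ p →
      haveI : NeZero p := ⟨hp.ne_zero⟩; CuspStatement p)
    (hGeo : ∀ (p : ℕ) (hp : p.Prime), 17 ≤ p →
      haveI : NeZero p := ⟨hp.ne_zero⟩; GeoSubStatement p)
    (hDesc : ∀ (p : ℕ) (hp : p.Prime), 17 ≤ p →
      haveI : NeZero p := ⟨hp.ne_zero⟩; DescentStatement p) :
    Fermat.Agent.S12.H411.ToricBadStatement := by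
  intro P hp N hN T hTN ℓ hℓ hℓ2 hℓp hbad A hA
  by_cases hpm : P.p ∣ ℓ - 1 ∨ P.p ∣ ℓ + 1
  · by_cases hT0 : T = 0
    · rw [hT0]; exact inE0_zero
    have h3abc := three_dvd_abc_of_cofixed P (by omega) N hN
    have h2Δ' := dvd_freyΔ_of_dvd_abc P Nat.prime_two (by exact_mod_cast P.two_dvd_abc)
    have h3Δ' := dvd_freyΔ_of_dvd_abc P Nat.prime_three (by exact_mod_cast h3abc)
    have hℓΔ := dvd_freyΔ_of_dvd_abc P hℓ hbad
    have h2c := Fermat.Agent.Ribet.H164.g1a_semistable P 2 Nat.prime_two h2Δ'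
    have h3c := Fermat.Agent.Ribet.H164.g1a_semistable P 3 Nat.prime_three h3Δ'
    have hℓc := Fermat.Agent.Ribet.H164.g1a_semistable P ℓ hℓ hℓΔ
    refine inE0_of_nodes_general P.pp (by omega) (by omega) (hCusp P.p P.pp hp)
      (hGeo P.p P.pp hp) (hDesc P.p P.pp hp) P.freyCurveInt
      (Fermat.Agent.Ribet.H164.g1a_Δ_ne_zero P) P.freyCurve
      (Fermat.Agent.S13.H164.freyCurve_eq_map P) (T : FreyPt P) ?_
      (addOrderOf_eq_of_mem_torsion T hT0) (by exact_mod_cast h2Δ') (by exact_mod_cast h2c)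
      (fun A₂ hA₂ => toric_two P (by omega) N hN A₂ hA₂ T hTN)
      (by exact_mod_cast h3Δ') (by exact_mod_cast h3c)
      (fun A₃ hA₃ => toric_three P (by omega) h3abc N hN A₃ hA₃ T hTN)
      hℓ hℓp hℓΔ hℓc hpm A hA
    intro σ
    obtain ⟨k, hk⟩ := Fermat.Agent.S13.H64.frey_line P N hN.ne_top T hTN hT0 (σ • T)
      (hN.stable σ T hTN)
    have hk' : σ • (T : FreyPt P) = k • (T : FreyPt P) := congrArg Subtype.val hk
    rw [hk']
    exact AddSubgroup.zsmul_mem_zmultiples _ k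
  · push Not at hpm
    exact toric_local P N hN hℓ hℓp hbad hpm.1 hpm.2 A hA T hTN

/-- Frozen S12 from the term statement at every place (variant of `s12_of_leaves` without the
`S15Statement` hypothesis). -/
theorem s12_of_terms
    (h2 : Loc2Statement) (hP : LocPStatement) (hG : LocGoodStatement)
    (hB : ∀ (P : FreyPackage), 17 ≤ P.p →
      ∀ N : Submodule (ZMod P.p) (Submodule.torsionBy ℤ (FreyPt P) P.p), IsCofixedLine P N →
      ∀ T : Submodule.torsionBy ℤ (FreyPt P) P.p, T ∈ N → T ≠ 0 →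
      ∀ (ℓ : ℕ), ℓ.Prime → ℓ ≠ 2 → ℓ ≠ P.p → (ℓ : ℤ) ∣ P.a * P.b * P.c →
      ∀ A : ValuationSubring Qb, A.LiesOverPrime ℓ → TermAt P A (T : FreyPt P))
    (P : FreyPackage) (hp : 17 ≤ P.p) :
    ¬ HasGaloisStableCofixedLine (K := AlgebraicClosure ℚ) ℚ P.freyCurve P.p := by
  refine s12_of_piVal (piVal_of_termAt ?_) P hp
  intro P hp N hN T hTN hT ℓ hℓ A hA
  by_cases hℓ2 : ℓ = 2
  · subst hℓ2
    exact h2 P hp N hN T hTN hT A hA
  by_cases hℓp : ℓ = P.p
  · subst hℓp
    exact hP P hp N hN T hTN hT A hA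
  by_cases hdvd : (ℓ : ℤ) ∣ P.a * P.b * P.c
  · exact hB P hp N hN T hTN hT ℓ hℓ hℓ2 hℓp hdvd A hA
  · exact hG P hp N hN T hTN hT ℓ hℓ hℓ2 hℓp hdvd A hA

/-- **Row S12, one-step route**: frozen S12 from a toric statement at the odd bad primes. -/
theorem s12_of_toricBad (hB : Fermat.Agent.S12.H411.ToricBadStatement)
    (P : FreyPackage) (hp : 17 ≤ P.p) :
    ¬ HasGaloisStableCofixedLine (K := AlgebraicClosure ℚ) ℚ P.freyCurve P.p :=
  s12_of_terms (Fermat.Agent.S12.H411.loc2_of_toric_h411 toric2Statement)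
    Fermat.Agent.S12.H411.locP_h411 Fermat.Agent.S12.H411.locGood_h411
    (fun P hp N hN T hTN hT ℓ hℓ hℓ2 hℓp hdvd A hA =>
      Fermat.Agent.S12.H411.termAt_of_inE0_h411 P hℓ hℓp A hA T
        (addOrderOf_eq_of_mem_torsion T hT) (hB P hp N hN T hTN ℓ hℓ hℓ2 hℓp hdvd A hA))
    P hp

/-- **Row S12 — FINAL**: frozen S12 from the three nodes of row S15 (GEO in subgroup form). -/
theorem s12_of_s15_nodes
    (hCusp : ∀ (p : ℕ) (hp : p.Prime), 17 ≤ p →
      haveI : NeZero p := ⟨hp.ne_zero⟩; CuspStatement p)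
    (hGeo : ∀ (p : ℕ) (hp : p.Prime), 17 ≤ p →
      haveI : NeZero p := ⟨hp.ne_zero⟩; GeoSubStatement p)
    (hDesc : ∀ (p : ℕ) (hp : p.Prime), 17 ≤ p →
      haveI : NeZero p := ⟨hp.ne_zero⟩; DescentStatement p)
    (P : FreyPackage) (hp : 17 ≤ P.p) :
    ¬ HasGaloisStableCofixedLine (K := AlgebraicClosure ℚ) ℚ P.freyCurve P.p :=
  s12_of_toricBad (toricBad_of_nodes hCusp hGeo hDesc) P hp

end Fermat.Agent.S12.H291

end
end
-- ===== PACK-END S12/H291/Glue.lean

-- ===== PACK-BEGIN S12/H291/GeoSubParts.lean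
section



/-!
# Node GEO-PARTS of row S15 for Galois-STABLE subgroups (helper291, for row S12)

`GeoPartsSubStatement p` is `S15.H962.GeoPartsStatement p` with "`Q` Galois-fixed" weakened to
"`⟨Q⟩` Galois-stable".  It implies BOTH

* `S15.H962.GeoPartsStatement p` (hence `S15.Core.GeoStatement p`, row S15), and
* `S12.H111.GeoSubStatement p` (row S12, one-step route).

The moduli place in subgroup form is `S12.H291.moduliPlaceSub` (`ModSub.lean`); all other
GEO-PARTS leaves (DISC, PROP, IDENT) are local or formal and do not use that `Q` is fixed.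
-/

set_option autoImplicit false

noncomputable section

open AlgebraicCurve ModularCurve WeierstrassCurve WeierstrassCurve.Affine

namespace Fermat.Agent.S12.H291

open Fermat.Agent.S15.Core Fermat.Agent.S15.H962 Fermat.Agent.S12.H111

variable (p : ℕ) [NeZero p]

/-- **GEO-PARTS, subgroup form.** -/
def GeoPartsSubStatement : Prop :=
  ∀ (W : WeierstrassCurve ℤ), W.Δ ≠ 0 →
  ∀ (Q : ((W.map (Int.castRingHom ℚ))⁄(AlgebraicClosure ℚ)).Point),
    (∀ σ : AlgebraicClosure ℚ ≃ₐ[ℚ] AlgebraicClosure ℚ, σ • Q ∈ AddSubgroup.zmultiples Q) →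
    addOrderOf Q = p →
  ∀ (P₀ : Place (AlgebraicClosure ℚ) (modularFunctionFieldBar p)) (c : JZero p),
    IsCuspZero p P₀ → IsDiffClass P₀ (cuspInfty p) c →
  ∃ D : JZero p, (∀ σ : AlgebraicClosure ℚ ≃ₐ[ℚ] AlgebraicClosure ℚ, σ • D = D) ∧
    ∀ q : ℕ, q.Prime → q ≠ p → (q : ℤ) ∣ W.Δ → ¬ (q : ℤ) ∣ W.c₄ →
    ∀ A : ValuationSubring (AlgebraicClosure ℚ), A.LiesOverPrime q →
    ∃ (X : Type) (_ : AddCommGroup X) (sp₀ : JZero p →+ X) (K : AddSubgroup (JZero p)),
      (∀ (m : ℕ) (z : JZero p), ¬ q ∣ m → m • z = 0 → sp₀ z = 0 → z = 0) ∧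
      (∀ T ∈ goodHecke p {q}, ∀ z ∈ K, T z ∈ K) ∧
      (∀ z ∈ K, sp₀ z = 0) ∧
      (¬ W.InZeroComponentAt A Q → D ∈ K) ∧
      (W.InZeroComponentAt A Q → D + c ∈ K)

variable {p}

/-- The subgroup form implies the point form of GEO-PARTS (row S15). -/
theorem geoParts_of_geoPartsSub (h : GeoPartsSubStatement p) : GeoPartsStatement p := by
  intro W hΔ Q hQfix hQord P₀ c hP₀ hc
  refine h W hΔ Q (fun σ => ?_) hQord P₀ c hP₀ hc
  rw [hQfix σ]
  exact AddSubgroup.mem_zmultiples Q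

/-- **GEO (subgroup form) from GEO-PARTS (subgroup form)** (formal; row S12). -/
theorem geoSub_of_geoPartsSub (h : GeoPartsSubStatement p) : GeoSubStatement p := by
  intro W hΔ Q hQstab hQord P₀ c hP₀ hc
  obtain ⟨D, hDfix, hD⟩ := h W hΔ Q hQstab hQord P₀ c hP₀ hc
  refine ⟨D, hDfix, ?_⟩
  intro q hq hqp hqΔ hqc₄ A hA
  obtain ⟨X, instX, sp₀, K, hinj, hK, hsp, hD₀, hDinf⟩ := hD q hq hqp hqΔ hqc₄ A hA
  exact ⟨heckeWords p q → X, inferInstance, iterSp q sp₀, iterSp_inj hinj,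
    fun T hT z hz => iterSp_hecke sp₀ T hT z hz,
    fun hQ => iterSp_eq_zero_of_mem K hK hsp (hD₀ hQ),
    fun hQ => iterSp_eq_zero_of_mem K hK hsp (hDinf hQ)⟩

end Fermat.Agent.S12.H291

end
end
-- ===== PACK-END S12/H291/GeoSubParts.lean

-- ===== PACK-BEGIN S12/H291/Final.lean
section



/-!
# Row S12, one-step route: frozen S12 from CUSP, GEO-PARTS (subgroup form) and DESC (helper291)

`s12_of_parts` is `Glue.s12_of_s15_nodes` with GEO replaced by GEO-PARTS in subgroup form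
(`GeoPartsSubStatement`, which also implies the GEO-PARTS node of row S15).
-/

set_option autoImplicit false

noncomputable section

open WeierstrassCurve WeierstrassCurve.Affine WeierstrassCurve.Affine.Point

namespace Fermat.Agent.S12.H291

open Fermat.Agent.S15.Core (CuspStatement DescentStatement)

/-- **Row S12 — FINAL (parts form).** -/
theorem s12_of_parts
    (hCusp : ∀ (p : ℕ) (hp : p.Prime), 17 ≤ p →
      haveI : NeZero p := ⟨hp.ne_zero⟩; CuspStatement p)
    (hGeo : ∀ (p : ℕ) (hp : p.Prime), 17 ≤ p →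
      haveI : NeZero p := ⟨hp.ne_zero⟩; GeoPartsSubStatement p)
    (hDesc : ∀ (p : ℕ) (hp : p.Prime), 17 ≤ p →
      haveI : NeZero p := ⟨hp.ne_zero⟩; DescentStatement p)
    (P : FreyPackage) (hp : 17 ≤ P.p) :
    ¬ HasGaloisStableCofixedLine (K := AlgebraicClosure ℚ) ℚ P.freyCurve P.p :=
  s12_of_s15_nodes hCusp
    (fun p hp h17 =>
      haveI : NeZero p := ⟨hp.ne_zero⟩
      geoSub_of_geoPartsSub (hGeo p hp h17))
    hDesc P hp

end Fermat.Agent.S12.H291

end
end
-- ===== PACK-END S12/H291/Final.lean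

-- ===== PACK-BEGIN S12/H291/ModSub.lean
section



/-!
# Node MOD of row S15 for Galois-STABLE subgroups (helper291, for row S12)

`moduliPlaceSub : ModuliPlaceSubStatement` : the statement of `S15.H542.ModuliPlaceStatement`
with the hypothesis "`Q` is Galois-fixed" weakened to "`⟨Q⟩` is Galois-stable"
(`∀ σ, σ • Q ∈ AddSubgroup.zmultiples Q`).  The only change is MOD-V: Vélu's sums
`t = ∑_{k ≤ (p-1)/2} t(x(kQ))`, `w = ∑ ...` are Galois-invariant because `σ` permutes the classes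
`±k` of `(ℤ/p)^× / ±1`.

Used by row S12 (one-step route): `S12.H111.GeoSubStatement` is the node GEO in this form.
-/

set_option autoImplicit false
set_option linter.unusedSectionVars false
set_option linter.style.haveILetI false

noncomputable section

open WeierstrassCurve AlgebraicCurve ModularCurve
open scoped WeierstrassCurve.Affine

namespace Fermat.Agent.S12.H291

open Fermat.Agent.S15.H542

section HalfSum

variable {M : Type*} [AddCommMonoid M]

/-- A sum over `1 ≤ k < 2h+1` of a function symmetric under `k ↦ 2h+1-k` is twice the sum over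
`1 ≤ k ≤ h`. -/
lemma sum_Ico_eq_two_nsmul_sum_Icc (h : ℕ) (f : ℕ → M)
    (hf : ∀ k, 1 ≤ k → k ≤ h → f (2 * h + 1 - k) = f k) :
    ∑ k ∈ Finset.Ico 1 (2 * h + 1), f k = 2 • ∑ k ∈ Finset.Icc 1 h, f k := by
  have h1 : Finset.Ico 1 (2 * h + 1) = Finset.Icc 1 h ∪ Finset.Icc (h + 1) (2 * h) := by
    ext k
    simp only [Finset.mem_Ico, Finset.mem_union, Finset.mem_Icc]
    omega
  have hdisj : Disjoint (Finset.Icc 1 h) (Finset.Icc (h + 1) (2 * h)) := by
    rw [Finset.disjoint_left]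
    intro k hk hk'
    rw [Finset.mem_Icc] at hk hk'
    omega
  rw [h1, Finset.sum_union hdisj, two_nsmul]
  congr 1
  refine Finset.sum_nbij' (fun k => 2 * h + 1 - k) (fun k => 2 * h + 1 - k) ?_ ?_ ?_ ?_ ?_
  · intro k hk
    rw [Finset.mem_Icc] at hk ⊢
    omega
  · intro k hk
    rw [Finset.mem_Icc] at hk ⊢
    omega
  · intro k hk
    rw [Finset.mem_Icc] at hk
    omega
  · intro k hk
    rw [Finset.mem_Icc] at hk
    omega
  · intro k hk
    rw [Finset.mem_Icc] at hk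
    have := hf (2 * h + 1 - k) (by omega) (by omega)
    rw [← this]
    congr 1
    omega

end HalfSum

section Stable

variable (F : WeierstrassCurve ℚ) (Q : (F⁄(AlgebraicClosure ℚ)).toAffine.Point)
  (σ : AlgebraicClosure ℚ ≃ₐ[ℚ] AlgebraicClosure ℚ)

lemma xOf_eq_xc (P : (F⁄(AlgebraicClosure ℚ)).toAffine.Point) : xOf P = xc P := by
  cases P <;> rfl

lemma xOf_smul_h291 (P : (F⁄(AlgebraicClosure ℚ)).toAffine.Point) :
    xOf (σ • P) = σ (xOf P) := by
  rw [WeierstrassCurve.Affine.Point.algEquiv_smul_def]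
  exact xOf_map_algEquiv F σ P

/-- **Galois-invariance of half-sums.**  If `Q` has odd prime order `p` and `σ • Q ∈ ⟨Q⟩`, then
every sum `∑_{1 ≤ k ≤ (p-1)/2} g(x(kQ))` with `g` commuting with `σ` is fixed by `σ`. -/
theorem sigma_halfSum_of_stable {p : ℕ} (hp : p.Prime) (hp2 : p ≠ 2)
    (hord : addOrderOf Q = p) (hstab : σ • Q ∈ AddSubgroup.zmultiples Q)
    (g : AlgebraicClosure ℚ → AlgebraicClosure ℚ) (hg : ∀ x, σ (g x) = g (σ x)) :
    σ (∑ k ∈ Finset.Icc 1 ((p - 1) / 2), g (xOf (k • Q))) =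
      ∑ k ∈ Finset.Icc 1 ((p - 1) / 2), g (xOf (k • Q)) := by
  classical
  haveI : Fact p.Prime := ⟨hp⟩
  haveI : NeZero p := ⟨hp.ne_zero⟩
  obtain ⟨m, hm⟩ := AddSubgroup.mem_zmultiples_iff.mp hstab
  have hpQ : p • Q = 0 := by rw [← hord]; exact addOrderOf_nsmul_eq_zero Q
  have hQ0 : Q ≠ 0 := by
    intro h0
    rw [h0, addOrderOf_zero] at hord
    exact hp.one_lt.ne hord
  -- the full sum
  set T := zmodHom Q hpQ with hT
  have hTk : ∀ k : ℕ, T (k : ZMod p) = k • Q := fun k => zmodHom_natCast Q hpQ k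
  set c : ZMod p := (m : ZMod p) with hc
  have hc0 : c ≠ 0 := by
    intro h0
    have h1 : T c = 0 := by rw [h0, map_zero]
    have h2 : T c = m • Q := by
      have := ZMod.lift_coe p (⟨zmultiplesHom _ Q, by
        rw [zmultiplesHom_apply, natCast_zsmul]
        exact hpQ⟩ : {f : ℤ →+ (F⁄(AlgebraicClosure ℚ)).toAffine.Point // f p = 0}) m
      simp only [zmultiplesHom_apply] at this
      exact this
    rw [h2, hm] at h1
    have h3 : Q = 0 := by
      have := congrArg (fun R => σ⁻¹ • R) h1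
      simpa using this
    exact hQ0 h3
  have hσT : ∀ a : ZMod p, σ • T a = T (a * c) := by
    intro a
    rw [hT, zmodHom_apply, ← natCast_zsmul, WeierstrassCurve.Affine.Point.algEquiv_smul_zsmul,
      ← hm, smul_smul]
    have e : a * c = (((a.val : ℤ) * m : ℤ) : ZMod p) := by
      rw [hc]
      push_cast
      rw [ZMod.natCast_zmod_val]
    rw [e]
    have := ZMod.lift_coe p (⟨zmultiplesHom _ Q, by
      rw [zmultiplesHom_apply, natCast_zsmul]
      exact hpQ⟩ : {f : ℤ →+ (F⁄(AlgebraicClosure ℚ)).toAffine.Point // f p = 0})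
      ((a.val : ℤ) * m)
    simp only [zmultiplesHom_apply] at this
    exact this.symm
  have hfull : ∑ k ∈ Finset.Ico 1 p, g (xOf (k • Q)) = ∑ a ∈ nz p, g (xOf (T a)) := by
    symm
    refine Finset.sum_nbij' (fun a => a.val) (fun k => (k : ZMod p)) ?_ ?_ ?_ ?_ ?_
    · intro a ha
      have ha0 : a ≠ 0 := mem_nz.mp ha
      rw [Finset.mem_Ico]
      exact ⟨ZMod.val_pos.mpr ha0, ZMod.val_lt a⟩
    · intro k hk
      rw [Finset.mem_Ico] at hk
      rw [mem_nz]
      intro h0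
      have := (ZMod.natCast_eq_zero_iff k p).mp h0
      have := Nat.le_of_dvd (by omega) this
      omega
    · intro a _
      exact ZMod.natCast_zmod_val a
    · intro k hk
      rw [Finset.mem_Ico] at hk
      exact ZMod.val_natCast_of_lt hk.2
    · intro a _
      rw [hT, zmodHom_apply]
  have hσfull : σ (∑ k ∈ Finset.Ico 1 p, g (xOf (k • Q))) =
      ∑ k ∈ Finset.Ico 1 p, g (xOf (k • Q)) := by
    rw [hfull, map_sum]
    refine Finset.sum_nbij' (fun a => a * c) (fun b => b * c⁻¹) ?_ ?_ ?_ ?_ ?_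
    · intro a ha
      rw [mem_nz] at ha ⊢
      exact mul_ne_zero ha hc0
    · intro b hb
      rw [mem_nz] at hb ⊢
      exact mul_ne_zero hb (inv_ne_zero hc0)
    · intro a _
      rw [mul_assoc, mul_inv_cancel₀ hc0, mul_one]
    · intro b _
      rw [mul_assoc, inv_mul_cancel₀ hc0, mul_one]
    · intro a _
      rw [hg, ← xOf_smul_h291, hσT]
  -- half sums
  obtain ⟨h, hh⟩ : ∃ h, p = 2 * h + 1 := by
    rcases hp.eq_two_or_odd with h2 | hodd
    · exact absurd h2 hp2
    · exact ⟨p / 2, by omega⟩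
  have hhalf : (p - 1) / 2 = h := by omega
  rw [hhalf]
  have hsym : ∀ k, 1 ≤ k → k ≤ h → g (xOf ((2 * h + 1 - k) • Q)) = g (xOf (k • Q)) := by
    intro k hk1 hkh
    have e : (2 * h + 1 - k) • Q = -(k • Q) := by
      rw [eq_neg_iff_add_eq_zero, ← add_nsmul, Nat.sub_add_cancel (by omega), ← hh]
      exact hpQ
    rw [e, xOf_eq_xc, xOf_eq_xc, xc_neg]
  have h2S := sum_Ico_eq_two_nsmul_sum_Icc h (fun k => g (xOf (k • Q))) hsym
  rw [← hh] at h2S
  rw [h2S, map_nsmul] at hσfull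
  have h2 : (2 : ℕ) • σ (∑ k ∈ Finset.Icc 1 h, g (xOf (k • Q))) =
      (2 : ℕ) • ∑ k ∈ Finset.Icc 1 h, g (xOf (k • Q)) := hσfull
  rw [nsmul_eq_mul, nsmul_eq_mul] at h2
  exact mul_left_cancel₀ (by norm_num) h2

theorem sigma_veluT_of_stable {p : ℕ} (hp : p.Prime) (hp2 : p ≠ 2)
    (hord : addOrderOf Q = p) (hstab : σ • Q ∈ AddSubgroup.zmultiples Q) :
    σ (veluT (F⁄(AlgebraicClosure ℚ)) Q p) = veluT (F⁄(AlgebraicClosure ℚ)) Q p := by
  unfold veluT
  refine sigma_halfSum_of_stable F Q σ hp hp2 hord hstab _ fun x => ?_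
  unfold veluT1
  simp only [map_add, map_mul, map_pow, map_ofNat, sigma_b₂, sigma_b₄]

theorem sigma_veluW_of_stable {p : ℕ} (hp : p.Prime) (hp2 : p ≠ 2)
    (hord : addOrderOf Q = p) (hstab : σ • Q ∈ AddSubgroup.zmultiples Q) :
    σ (veluW (F⁄(AlgebraicClosure ℚ)) Q p) = veluW (F⁄(AlgebraicClosure ℚ)) Q p := by
  unfold veluW
  refine sigma_halfSum_of_stable F Q σ hp hp2 hord hstab
    (fun x => veluU1 (F⁄(AlgebraicClosure ℚ)) x + x * veluT1 (F⁄(AlgebraicClosure ℚ)) x)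
    fun x => ?_
  unfold veluT1 veluU1
  simp only [map_add, map_mul, map_pow, map_ofNat, sigma_b₂, sigma_b₄, sigma_b₆]

/-- Vélu's curve of a point generating a stable subgroup is fixed. -/
theorem veluCurve_map_eq_of_stable {p : ℕ} (hp : p.Prime) (hp2 : p ≠ 2)
    (hord : addOrderOf Q = p) (hstab : σ • Q ∈ AddSubgroup.zmultiples Q) :
    (veluCurve (F⁄(AlgebraicClosure ℚ)) Q p).map (σ : AlgebraicClosure ℚ →+* AlgebraicClosure ℚ)
      = veluCurve (F⁄(AlgebraicClosure ℚ)) Q p := by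
  have hT := sigma_veluT_of_stable F Q σ hp hp2 hord hstab
  have hW := sigma_veluW_of_stable F Q σ hp hp2 hord hstab
  have h2 := sigma_b₂ F σ
  have ha : ∀ a : ℚ, σ (algebraMap ℚ (AlgebraicClosure ℚ) a) = algebraMap ℚ (AlgebraicClosure ℚ) a :=
    fun a => σ.commutes a
  ext
  · simp only [WeierstrassCurve.map_a₁, veluCurve, WeierstrassCurve.baseChange]
    exact ha _
  · simp only [WeierstrassCurve.map_a₂, veluCurve, WeierstrassCurve.baseChange]
    exact ha _
  · simp only [WeierstrassCurve.map_a₃, veluCurve, WeierstrassCurve.baseChange]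
    exact ha _
  · simp only [WeierstrassCurve.map_a₄, veluCurve, RingHom.coe_coe, map_sub, map_mul, map_ofNat,
      hT]
    congr 1
    exact ha _
  · simp only [WeierstrassCurve.map_a₆, veluCurve, RingHom.coe_coe, map_sub, map_mul, map_ofNat,
      hT, hW, h2]
    congr 2
    exact ha _

theorem sigma_jInv_veluCurve_of_stable {p : ℕ} (hp : p.Prime) (hp2 : p ≠ 2)
    (hord : addOrderOf Q = p) (hstab : σ • Q ∈ AddSubgroup.zmultiples Q) :
    σ (jInv (veluCurve (F⁄(AlgebraicClosure ℚ)) Q p)) =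
      jInv (veluCurve (F⁄(AlgebraicClosure ℚ)) Q p) := by
  have h := veluCurve_map_eq_of_stable F Q σ hp hp2 hord hstab
  have h1 : jInv ((veluCurve (F⁄(AlgebraicClosure ℚ)) Q p).map
      (σ : AlgebraicClosure ℚ →+* AlgebraicClosure ℚ)) =
      σ (jInv (veluCurve (F⁄(AlgebraicClosure ℚ)) Q p)) := by
    simp only [jInv, WeierstrassCurve.map_c₄, WeierstrassCurve.map_Δ, RingHom.coe_coe, map_div₀,
      map_pow]
  rw [← h1, h]

end Stable

/-- **MOD-V, subgroup form.** -/
theorem veluRationalSub {p : ℕ} (hp : p.Prime) (hp2 : p ≠ 2) (W : WeierstrassCurve ℤ)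
    (Q : (curveBar W).toAffine.Point) (hord : addOrderOf Q = p)
    (hQstab : ∀ σ : AlgebraicClosure ℚ ≃ₐ[ℚ] AlgebraicClosure ℚ,
      σ • Q ∈ AddSubgroup.zmultiples Q) :
    ∃ r : ℚ, algebraMap ℚ (AlgebraicClosure ℚ) r = jInv (veluCurve (curveBar W) Q p) := by
  have := isGalois_Qbar_h542
  exact (InfiniteGalois.mem_range_algebraMap_iff_fixed (k := ℚ) (K := AlgebraicClosure ℚ)
    (jInv (veluCurve (curveBar W) Q p))).mpr
    (fun σ => sigma_jInv_veluCurve_of_stable (W.map (Int.castRingHom ℚ)) Q σ hp hp2 hord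
      (hQstab σ))

/-- **MOD, subgroup form**: the statement of `ModuliPlaceStatement` for a point `Q` generating
a Galois-stable subgroup. -/
def ModuliPlaceSubStatement : Prop :=
  ∀ (p : ℕ) [NeZero p] (_hp : p.Prime) (_hp5 : 5 ≤ p)
    (W : WeierstrassCurve ℤ) (_hΔ : W.Δ ≠ 0)
    (Q : (curveBar W).toAffine.Point)
    (_hQstab : ∀ σ : AlgebraicClosure ℚ ≃ₐ[ℚ] AlgebraicClosure ℚ,
      σ • Q ∈ AddSubgroup.zmultiples Q)
    (_hQord : addOrderOf Q = p)
    (_h2Δ : (2 : ℤ) ∣ W.Δ) (_h2c₄ : ¬ (2 : ℤ) ∣ W.c₄),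
    (veluCurve (curveBar W) Q p).Δ ≠ 0 ∧
    (∃ r : ℚ, algebraMap ℚ (AlgebraicClosure ℚ) r = jInv (veluCurve (curveBar W) Q p)) ∧
    ∃ P : Place (AlgebraicClosure ℚ) (modularFunctionFieldBar p),
      IsGaloisFixedPlace P ∧
      HasValueAt P (jBar p) (jInv (curveBar W)) ∧
      HasValueAt P (jNBar p) (jInv (veluCurve (curveBar W) Q p))

/-- GLUE, subgroup form. -/
theorem moduliPlaceSub_of_pieces (hA1 : PlaceOfModularPairStatement)
    (hA2 : PlaceUniqueStatement) (hB : VeluModularPairStatement) : ModuliPlaceSubStatement := by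
  intro p _ hp hp5 W hΔ Q hQstab hQord h2Δ h2c₄
  have hp2 : p ≠ 2 := by omega
  obtain ⟨hΔ', hpair⟩ := hB p hp hp2 (curveBar W) (Δ_curveBar_ne_zero W hΔ) Q hQord
  obtain ⟨r', hr'⟩ := veluRationalSub hp hp2 W Q hQord hQstab
  refine ⟨hΔ', ⟨r', hr'⟩, ?_⟩
  obtain ⟨P, hP1, hP2⟩ := hA1 p hp _ _ hpair
  refine ⟨P, ?_, hP1, hP2⟩
  intro σ
  have hj := jInv_curveBar W
  rw [hj] at hP1
  rw [← hr'] at hP2
  have hr := padicValRat_two_j_neg W hΔ h2Δ h2c₄
  refine hA2 p hp hp2 _ hr (algebraMap ℚ (AlgebraicClosure ℚ) r') _ _ ?_ ?_ hP1 hP2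
  · exact hasValueAt_smul_of_rational σ P (jBar p) jq rfl _ hP1
  · exact hasValueAt_smul_of_rational σ P (jNBar p) (qExpand ℚ p jq) rfl _ hP2

/-- **The MOD node, subgroup form, unconditional.** -/
theorem moduliPlaceSub : ModuliPlaceSubStatement :=
  moduliPlaceSub_of_pieces Fermat.Agent.S15.H602.placeOfModularPairStatement placeUnique
    Fermat.Agent.S15.H215.veluModularPair

/-- The subgroup form implies the point form. -/
theorem moduliPlace_of_sub (h : ModuliPlaceSubStatement) : ModuliPlaceStatement := by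
  intro p _ hp hp5 W hΔ Q hQfix hQord h2Δ h2c₄
  refine h p hp hp5 W hΔ Q (fun σ => ?_) hQord h2Δ h2c₄
  rw [hQfix σ]
  exact AddSubgroup.mem_zmultiples Q

end Fermat.Agent.S12.H291

end
end
-- ===== PACK-END S12/H291/ModSub.lean

-- ===== PACK-BEGIN S15/H542/GeoDiscSub.lean
section




/-!
# S15 / S12, node GEO-PARTS, leaf (c) = DISC in SUBGROUP form (helper542)

The same as `GeoD.lean` / `GeoDisc.lean`, with "`Q` Galois-fixed" weakened to "`⟨Q⟩`
Galois-stable" (helper291's form, consumed by rows S15 AND S12):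

* `moduliPlaceSub_of_mult`, `exists_geoClassSub`, `geoDiscSub`;
* `geoPartsSub_of_pieces` : `S12.H291.GeoPartsSubStatement p` from (a) `PropagationStatement p`
  and (b) + GE-2 (i) (a specialisation map injective on prime-to-`q` torsion killing `discK`).
-/

set_option autoImplicit false

noncomputable section

open WeierstrassCurve AlgebraicCurve ModularCurve
open scoped WeierstrassCurve.Affine

namespace Fermat.Agent.S15.H542

open Fermat.Agent.S15.H782 Fermat.Agent.S15.H602 Fermat.Agent.S15.Core Fermat.Agent.S15.H962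

/-- **MOD at an arbitrary multiplicative prime, subgroup form.** -/
theorem moduliPlaceSub_of_mult (p : ℕ) [NeZero p] (hp : p.Prime) (hp2 : p ≠ 2)
    (W : WeierstrassCurve ℤ) (hΔ : W.Δ ≠ 0) (Q : (curveBar W).toAffine.Point)
    (hQstab : ∀ σ : AlgebraicClosure ℚ ≃ₐ[ℚ] AlgebraicClosure ℚ,
      σ • Q ∈ AddSubgroup.zmultiples Q)
    (hQord : addOrderOf Q = p)
    {ℓ : ℕ} (hℓ : ℓ.Prime) (hℓΔ : (ℓ : ℤ) ∣ W.Δ) (hℓc₄ : ¬ (ℓ : ℤ) ∣ W.c₄) :
    ∃ P : Place (AlgebraicClosure ℚ) (modularFunctionFieldBar p),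
      IsGaloisFixedPlace P ∧
      HasValueAt P (_root_.Fermat.Agent.S15.H542.jBar p) (jInv (curveBar W)) ∧
      HasValueAt P (jNBar p) (jInv (veluCurve (curveBar W) Q p)) ∧
      ∀ P' : Place (AlgebraicClosure ℚ) (modularFunctionFieldBar p),
        HasValueAt P' (_root_.Fermat.Agent.S15.H542.jBar p) (jInv (curveBar W)) →
        HasValueAt P' (jNBar p) (jInv (veluCurve (curveBar W) Q p)) → P' = P := by
  obtain ⟨A, hA⟩ := Fermat.Agent.S54.exists_valuationSubring_liesOver ℓ hℓ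
  have hv : 1 < A.valuation (jInv (curveBar W)) := one_lt_val_jInv_curveBar hΔ hℓ hℓΔ hℓc₄ hA
  obtain ⟨-, hpair⟩ := Fermat.Agent.S15.H215.veluModularPair p hp hp2 (curveBar W)
    (Δ_curveBar_ne_zero W hΔ) Q hQord
  obtain ⟨r', hr'⟩ := Fermat.Agent.S12.H291.veluRationalSub hp hp2 W Q hQord hQstab
  obtain ⟨P, hP1, hP2⟩ := Fermat.Agent.S15.H602.placeOfModularPairStatement p hp _ _ hpair
  have huniq : ∀ P' : Place (AlgebraicClosure ℚ) (modularFunctionFieldBar p),
      HasValueAt P' (_root_.Fermat.Agent.S15.H542.jBar p) (jInv (curveBar W)) →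
      HasValueAt P' (jNBar p) (jInv (veluCurve (curveBar W) Q p)) → P' = P :=
    fun P' h1 h2 => place_unique_of_one_lt_val p hp A.valuation hv h1 h2 hP1 hP2
  refine ⟨P, ?_, hP1, hP2, huniq⟩
  intro σ
  apply huniq
  · have hj := jInv_curveBar W
    rw [hj] at hP1 ⊢
    exact hasValueAt_smul_of_rational σ P (_root_.Fermat.Agent.S15.H542.jBar p) jq rfl _ hP1
  · rw [← hr'] at hP2 ⊢
    exact hasValueAt_smul_of_rational σ P (jNBar p) (qExpand ℚ p jq) rfl _ hP2

/-- **The datum `D` of the node GEO**, subgroup form. -/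
theorem exists_geoClassSub (p : ℕ) [NeZero p] (hp : p.Prime) (hp5 : 5 < p)
    (W : WeierstrassCurve ℤ) (hΔ : W.Δ ≠ 0) (Q : (curveBar W).toAffine.Point)
    (hQstab : ∀ σ : AlgebraicClosure ℚ ≃ₐ[ℚ] AlgebraicClosure ℚ,
      σ • Q ∈ AddSubgroup.zmultiples Q)
    (hQord : addOrderOf Q = p)
    (P₀ : Place (AlgebraicClosure ℚ) (modularFunctionFieldBar p))
    (hP₀ : Fermat.Agent.S15.Core.IsCuspZero p P₀) :
    ∃ D : JZero p, (∀ σ : AlgebraicClosure ℚ ≃ₐ[ℚ] AlgebraicClosure ℚ, σ • D = D) ∧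
      ∀ q : ℕ, q.Prime → q ≠ p → (q : ℤ) ∣ W.Δ → ¬ (q : ℤ) ∣ W.c₄ →
      ∀ A : ValuationSubring (AlgebraicClosure ℚ), A.LiesOverPrime q →
      ∃ P : Place (AlgebraicClosure ℚ) (modularFunctionFieldBar p),
        Fermat.Agent.S15.Core.IsDiffClass P P₀ D ∧
        HasValueAt P (_root_.Fermat.Agent.S15.H542.jBar p) (jInv (curveBar W)) ∧
        HasValueAt P (jNBar p) (jInv (veluCurve (curveBar W) Q p)) ∧
        1 < A.valuation (jInv (curveBar W)) ∧
        (¬ W.InZeroComponentAt A Q →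
          A.valuation (jInv (veluCurve (curveBar W) Q p)) ^ p =
            A.valuation (jInv (curveBar W))) ∧
        (W.InZeroComponentAt A Q →
          A.valuation (jInv (veluCurve (curveBar W) Q p)) =
            A.valuation (jInv (curveBar W)) ^ p) := by
  have hp2 : p ≠ 2 := by omega
  by_cases hex : ∃ ℓ : ℕ, ℓ.Prime ∧ (ℓ : ℤ) ∣ W.Δ ∧ ¬ (ℓ : ℤ) ∣ W.c₄
  · obtain ⟨ℓ, hℓ, hℓΔ, hℓc₄⟩ := hex
    obtain ⟨P, hPfix, hP1, hP2, -⟩ :=
      moduliPlaceSub_of_mult p hp hp2 W hΔ Q hQstab hQord hℓ hℓΔ hℓc₄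
    have hP₀eq : P₀ = Fermat.Agent.S15.H362.cuspZero p :=
      Fermat.Agent.S15.H482.IsCuspZero.eq_cuspZero p hp hP₀
    have hdeg : P.deg = P₀.deg := by
      rw [Fermat.Agent.Lib.FF398.deg_eq_one_FF p P, Fermat.Agent.Lib.FF398.deg_eq_one_FF p P₀]
    refine ⟨ptClass P P₀ hdeg, ?_, ?_⟩
    · intro σ
      refine galois_smul_ptClass_eq_self (modularFunctionFieldFull p) σ hdeg (hPfix σ) ?_
      rw [hP₀eq]
      exact Fermat.Agent.S15.H362.galois_smul_cuspZero p σ
    · intro q hq hqp hqΔ hqc₄ A hA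
      exact ⟨P, ⟨single_sub_single_mem_degZero hdeg, rfl⟩, hP1, hP2,
        one_lt_val_jInv_curveBar hΔ hq hqΔ hqc₄ hA,
        fun hQ0 => val_jInv_velu_of_not_inZeroComponentAt hp hp5 hΔ hQord hq hqp hqΔ hqc₄ hA hQ0,
        fun hQ0 => val_jInv_velu_of_inZeroComponentAt hp hp5 hΔ hQord hq hqp hqΔ hqc₄ hA hQ0⟩
  · refine ⟨0, fun σ => smul_zero (A := JZero p) σ, ?_⟩
    intro q hq _ hqΔ hqc₄
    exact absurd ⟨q, hq, hqΔ, hqc₄⟩ hex

/-- **GEO-PARTS (c), DISC, subgroup form.** -/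
theorem geoDiscSub (p : ℕ) [NeZero p] (hp : p.Prime) (hp5 : 5 < p)
    (W : WeierstrassCurve ℤ) (hΔ : W.Δ ≠ 0)
    (Q : ((W.map (Int.castRingHom ℚ))⁄(AlgebraicClosure ℚ)).Point)
    (hQstab : ∀ σ : AlgebraicClosure ℚ ≃ₐ[ℚ] AlgebraicClosure ℚ,
      σ • Q ∈ AddSubgroup.zmultiples Q)
    (hQord : addOrderOf Q = p)
    (P₀ : Place (AlgebraicClosure ℚ) (modularFunctionFieldBar p)) (c : JZero p)
    (hP₀ : IsCuspZero p P₀) (hc : IsDiffClass P₀ (cuspInfty p) c) :
    ∃ D : JZero p, (∀ σ : AlgebraicClosure ℚ ≃ₐ[ℚ] AlgebraicClosure ℚ, σ • D = D) ∧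
      ∀ q : ℕ, q.Prime → q ≠ p → (q : ℤ) ∣ W.Δ → ¬ (q : ℤ) ∣ W.c₄ →
      ∀ A : ValuationSubring (AlgebraicClosure ℚ), A.LiesOverPrime q →
        (¬ W.InZeroComponentAt A Q → D ∈ discK p A P₀) ∧
        (W.InZeroComponentAt A Q → D + c ∈ discK p A P₀) := by
  obtain ⟨D, hDfix, hD⟩ := exists_geoClassSub p hp hp5 W hΔ Q hQstab hQord P₀ hP₀
  refine ⟨D, hDfix, fun q hq hqp hqΔ hqc₄ A hA => ?_⟩
  obtain ⟨P, hPD, hP1, hP2, hv, h0, hInf⟩ := hD q hq hqp hqΔ hqc₄ A hA
  constructor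
  · intro hQ0
    exact mem_discK_of_inDiscZero ⟨_, _, hP1, hP2, hv, h0 hQ0⟩ hPD
  · intro hQ0
    exact mem_discK_of_inDiscInfty ⟨_, _, hP1, hP2, hv, hInf hQ0⟩ (isDiffClass_add hPD hc)

/-- **GEO-PARTS (subgroup form) from (a) PROPAGATION and (b) IDENT + GE-2 (i).** -/
theorem geoPartsSub_of_pieces (p : ℕ) [NeZero p] (hp : p.Prime) (hp5 : 5 < p)
    (hprop : PropagationStatement p)
    (hsp : ∀ q : ℕ, q.Prime → q ≠ p →
      ∀ A : ValuationSubring (AlgebraicClosure ℚ), A.LiesOverPrime q →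
      ∀ P₀ : Place (AlgebraicClosure ℚ) (modularFunctionFieldBar p), IsCuspZero p P₀ →
      ∃ (X : Type) (_ : AddCommGroup X) (sp₀ : JZero p →+ X),
        (∀ (m : ℕ) (z : JZero p), ¬ q ∣ m → m • z = 0 → sp₀ z = 0 → z = 0) ∧
        KilledBy p A P₀ sp₀) :
    Fermat.Agent.S12.H291.GeoPartsSubStatement p := by
  intro W hΔ Q hQstab hQord P₀ c hP₀ hc
  obtain ⟨D, hDfix, hD⟩ := geoDiscSub p hp hp5 W hΔ Q hQstab hQord P₀ c hP₀ hc
  refine ⟨D, hDfix, fun q hq hqp hqΔ hqc₄ A hA => ?_⟩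
  obtain ⟨X, instX, sp₀, hinj, hkill⟩ := hsp q hq hqp A hA P₀ hP₀
  obtain ⟨h0, hInf⟩ := hD q hq hqp hqΔ hqc₄ A hA
  exact ⟨X, instX, sp₀, discK p A P₀, hinj,
    goodHecke_stable_of_propagation p hprop hp A P₀ hP₀ {q}, hkill, h0, hInf⟩

/-- **The node GEO in subgroup form (row S12) from (a) and (b) + GE-2 (i).** -/
theorem geoSub_of_pieces (p : ℕ) [NeZero p] (hp : p.Prime) (hp5 : 5 < p)
    (hprop : PropagationStatement p)
    (hsp : ∀ q : ℕ, q.Prime → q ≠ p →
      ∀ A : ValuationSubring (AlgebraicClosure ℚ), A.LiesOverPrime q →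
      ∀ P₀ : Place (AlgebraicClosure ℚ) (modularFunctionFieldBar p), IsCuspZero p P₀ →
      ∃ (X : Type) (_ : AddCommGroup X) (sp₀ : JZero p →+ X),
        (∀ (m : ℕ) (z : JZero p), ¬ q ∣ m → m • z = 0 → sp₀ z = 0 → z = 0) ∧
        KilledBy p A P₀ sp₀) :
    Fermat.Agent.S12.H111.GeoSubStatement p :=
  Fermat.Agent.S12.H291.geoSub_of_geoPartsSub (geoPartsSub_of_pieces p hp hp5 hprop hsp)

end Fermat.Agent.S15.H542

end
end
-- ===== PACK-END S15/H542/GeoDiscSub.lean

-- ===== PACK-BEGIN S12/H291/Route.lean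
section





/-!
# Row S12, one-step route: frozen S12 from the OPEN nodes of row S15 (helper291)

`s12_of_route` consumes EXACTLY the nodes that the final assembly of row S15
(`S15.H975.S15_of_geo_sel`) consumes, with GEO in its PARTS form:

* `SpNode p` : GEO-PARTS (b) = IDENT + RED (i), i.e. for every prime `q ≠ p`, every place `A | q`
  and the cusp `0` a specialisation map `sp₀` on `J₀(p)`, injective on prime-to-`q` torsion, which
  kills `discK p A P₀` (`H962.KilledBy`);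
* Mordell–Weil for `J₀(p)` (frozen S17), `Alg0Statement`, `DivStatement`, `SelStatement`
  (the DESC nodes of `S15/H975/DescSpec.lean`, `DescSpec2.lean`).

CUSP (`H362.cuspStatement`), PROPAGATION (`H962.propagation`), DISC in subgroup form
(`H542.geoPartsSub_of_pieces`), MOD in subgroup form (`moduliPlaceSub`) and all the
S12-specific local analysis (`Glue.lean`) are on main and plugged in.
-/

set_option autoImplicit false

noncomputable section

open AlgebraicCurve ModularCurve WeierstrassCurve WeierstrassCurve.Affine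
  WeierstrassCurve.Affine.Point

namespace Fermat.Agent.S12.H291

/-- **GEO-PARTS (b)** (IDENT + RED (i)) at level `p`: the only open GEO node. -/
def SpNode (p : ℕ) [NeZero p] : Prop :=
  ∀ q : ℕ, q.Prime → q ≠ p →
    ∀ A : ValuationSubring (AlgebraicClosure ℚ), A.LiesOverPrime q →
    ∀ P₀ : Place (AlgebraicClosure ℚ) (modularFunctionFieldBar p),
      Fermat.Agent.S15.Core.IsCuspZero p P₀ →
    ∃ (X : Type) (_ : AddCommGroup X) (sp₀ : JZero p →+ X),
      (∀ (m : ℕ) (z : JZero p), ¬ q ∣ m → m • z = 0 → sp₀ z = 0 → z = 0) ∧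
      Fermat.Agent.S15.H962.KilledBy p A P₀ sp₀

theorem notMem_of_seventeen_le {p : ℕ} (h17 : 17 ≤ p) :
    p ∉ ({2, 3, 5, 7, 13} : Finset ℕ) := by
  intro h
  simp only [Finset.mem_insert, Finset.mem_singleton] at h
  omega

/-- **Row S12 — FINAL (route form)**: frozen S12 from the open nodes of row S15. -/
theorem s12_of_route
    (hSp : ∀ (p : ℕ) (hp : p.Prime), 17 ≤ p →
      haveI : NeZero p := ⟨hp.ne_zero⟩; SpNode p)
    (hMW : ∀ (p : ℕ) [NeZero p], p.Prime → 5 ≤ p →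
      AddGroup.FG ↥(FixedPoints.addSubgroup (AlgebraicClosure ℚ ≃ₐ[ℚ] AlgebraicClosure ℚ)
        (JZero p)))
    (hA : Fermat.Agent.S15.H975.Alg0Statement) (hDiv : Fermat.Agent.S15.H975.DivStatement)
    (hSel : Fermat.Agent.S15.H975.SelStatement)
    (P : FreyPackage) (hp : 17 ≤ P.p) :
    ¬ HasGaloisStableCofixedLine (K := AlgebraicClosure ℚ) ℚ P.freyCurve P.p :=
  s12_of_parts
    (fun p hp _ =>
      haveI : NeZero p := ⟨hp.ne_zero⟩
      Fermat.Agent.S15.H362.cuspStatement p hp)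
    (fun p hp h17 =>
      haveI : NeZero p := ⟨hp.ne_zero⟩
      Fermat.Agent.S15.H542.geoPartsSub_of_pieces p hp (by omega)
        (Fermat.Agent.S15.H962.propagation p) (hSp p hp h17))
    (fun p hp h17 =>
      haveI : NeZero p := ⟨hp.ne_zero⟩
      Fermat.Agent.S15.H975.descentStatement_of_sel hA hDiv hSel hp
        (notMem_of_seventeen_le h17) (hMW p hp (by omega)))
    P hp

end Fermat.Agent.S12.H291

end
end
-- ===== PACK-END S12/H291/Route.lean

-- ===== PACK-BEGIN S12/H975/Top12.lean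
section



/-!
# Row S12: the PLAIN TOP (row-lead helper975)

`S12_top` is the frozen statement S12 (no Galois-stable cofixed line for `p ≥ 17`),
unconditional: helper291's route `S12.H291.s12_of_route` with the nodes of row S15
(`S15/H975/Top.lean`) and the specialisation node `H602.spStatement602`.

Consumers (row S09, packers): import THIS file, never `Fermat/Agent/S12.lean`.
-/

set_option autoImplicit false

noncomputable section

open WeierstrassCurve WeierstrassCurve.Affine WeierstrassCurve.Affine.Point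
open FreyPackage

namespace Fermat.Agent.S12.H975

/-- **The frozen statement S12**, unconditional. -/
theorem S12_top (P : FreyPackage) (hp : 17 ≤ P.p) :
    ¬ HasGaloisStableCofixedLine (K := AlgebraicClosure ℚ) ℚ P.freyCurve P.p :=
  Fermat.Agent.S12.H291.s12_of_route
    (fun p hp h17 =>
      haveI : NeZero p := ⟨hp.ne_zero⟩
      fun q hq hqp A hA P₀ hP₀ =>
        Fermat.Agent.S15.H602.spStatement602 p hp (by omega) q hq hqp A hA P₀ hP₀)
    (fun p _ hp hp5 => Fermat.Agent.S15.H975.mordellWeil p hp hp5)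
    Fermat.Agent.S15.H302.alg0 Fermat.Agent.S15.H975.divStatement
    Fermat.Agent.S15.H975.selStatement P hp

end Fermat.Agent.S12.H975

end

end
-- ===== PACK-END S12/H975/Top12.lean

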