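import Mathlib

-- ===== PACK-BEGIN S10/X11/CaseII.lean
section


/-!
# Case II of Fermat's Last Theorem for a prime `p`, assuming `𝓞 K` is a PID and Kummer's lemma

Kummer's descent in the ring of integers of the `p`-th cyclotomic field.
-/

open NumberField Polynomial

set_option linter.unusedSectionVars false

namespace Fermat.Agent.S10.X11.H911

section CaseII

variable {p : ℕ} [hp : Fact p.Prime] {K : Type*} [Field K] [NumberField K]
  [IsCyclotomicExtension {p} ℚ K] {ζ : K} (hζ : IsPrimitiveRoot ζ p)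

include hζ in
lemma card_quotient_pi (hodd : p ≠ 2) :
    Nat.card (𝓞 K ⧸ Ideal.span {hζ.toInteger - 1}) = p := by
  rw [hζ.card_quotient_toInteger_sub_one, hζ.norm_toInteger_sub_one_of_prime_ne_two' hodd]
  simp

/-- Every element of `𝓞 K` is congruent to a rational integer modulo `ζ - 1`. -/
lemma exists_int_sub_dvd (hodd : p ≠ 2) (x : 𝓞 K) : ∃ n : ℤ, hζ.toInteger - 1 ∣ x - n := by
  classical
  have hfin := hζ.finite_quotient_toInteger_sub_one hp.out.one_lt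
  have hcard := card_quotient_pi hζ hodd
  set I : Ideal (𝓞 K) := Ideal.span {hζ.toInteger - 1} with hI
  -- the map `ZMod p → 𝓞 K ⧸ I`
  have hpI : (p : 𝓞 K) ∈ I := by
    rw [hI, Ideal.mem_span_singleton]
    exact hζ.toInteger_sub_one_dvd_prime'
  let f : ℤ →+* (𝓞 K ⧸ I) := (Ideal.Quotient.mk I).comp (Int.castRingHom (𝓞 K))
  have hker : ∀ n : ℤ, f n = 0 ↔ (p : ℤ) ∣ n := by
    intro n
    simp only [f, RingHom.comp_apply, Ideal.Quotient.eq_zero_iff_mem, hI,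
      Ideal.mem_span_singleton]
    exact IsCyclotomicExtension.Rat.zeta_sub_one_dvd_intCast_iff' p hζ
  -- injective map from `Fin p`
  let g : Fin p → (𝓞 K ⧸ I) := fun i => f (i : ℕ)
  have hg : Function.Injective g := by
    intro i j hij
    have h1 : f ((i : ℕ) - (j : ℕ) : ℤ) = 0 := by
      simp only [g] at hij
      rw [map_sub, sub_eq_zero]
      exact_mod_cast hij
    rw [hker] at h1
    have hi := i.2
    have hj := j.2
    apply Fin.ext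
    have := Int.eq_of_sub_eq_zero (Int.eq_zero_of_abs_lt_dvd h1 (by rw [abs_lt]; constructor <;> omega))
    exact_mod_cast this
  have hbij := hg.bijective_of_nat_card_le (by rw [hcard]; simp)
  obtain ⟨i, hi⟩ := hbij.2 (Ideal.Quotient.mk I x)
  refine ⟨(i : ℕ), ?_⟩
  rw [← Ideal.mem_span_singleton, ← hI, ← Ideal.Quotient.eq_zero_iff_mem, map_sub, ← hi]
  simp [g, f]

/-- The integer `ζ` as a primitive root in `𝓞 K`. -/
lemma eta_mem_roots : hζ.toInteger ∈ nthRootsFinset p (1 : 𝓞 K) :=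
  (mem_nthRootsFinset hp.out.pos 1).2 hζ.toInteger_isPrimitiveRoot.pow_eq_one

lemma pi_dvd_root_sub_root {μ ν : 𝓞 K} (hμ : μ ∈ nthRootsFinset p (1 : 𝓞 K))
    (hν : ν ∈ nthRootsFinset p (1 : 𝓞 K)) : hζ.toInteger - 1 ∣ μ - ν :=
  hζ.toInteger_isPrimitiveRoot.sub_one_dvd_sub hp.out hμ hν

lemma pi_assoc_root_sub_root {μ ν : 𝓞 K} (hμ : μ ∈ nthRootsFinset p (1 : 𝓞 K))
    (hν : ν ∈ nthRootsFinset p (1 : 𝓞 K)) (hne : μ ≠ ν) : Associated (hζ.toInteger - 1) (μ - ν) :=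
  hζ.toInteger_isPrimitiveRoot.nthRootsFinset_pairwise_associated_sub_one_sub_of_prime hp.out
    hμ hν hne

lemma one_mem_roots : (1 : 𝓞 K) ∈ nthRootsFinset p (1 : 𝓞 K) :=
  (mem_nthRootsFinset hp.out.pos 1).2 (one_pow _)

include hζ in
lemma card_roots : (nthRootsFinset p (1 : 𝓞 K)).card = p :=
  IsPrimitiveRoot.card_nthRootsFinset hζ.toInteger_isPrimitiveRoot

/-- If `x ≡ y mod π` then `x ^ p ≡ y ^ p mod π ^ p`. -/
lemma pi_pow_dvd_pow_sub_pow {x y : 𝓞 K} (h : hζ.toInteger - 1 ∣ x - y) :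
    (hζ.toInteger - 1) ^ p ∣ x ^ p - y ^ p := by
  rw [hζ.toInteger_isPrimitiveRoot.pow_sub_pow_eq_prod_sub_mul x y hp.out.pos]
  have : (hζ.toInteger - 1) ^ p = ∏ _μ ∈ nthRootsFinset p (1 : 𝓞 K), (hζ.toInteger - 1) := by
    rw [Finset.prod_const, card_roots hζ]
  rw [this]
  refine Finset.prod_dvd_prod_of_dvd _ _ fun μ hμ => ?_
  have h1 : hζ.toInteger - 1 ∣ 1 - μ := pi_dvd_root_sub_root hζ (one_mem_roots) hμ
  have : x - μ * y = (x - y) + (1 - μ) * y := by ring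
  rw [this]
  exact dvd_add h (Dvd.dvd.mul_right h1 _)

lemma p_dvd_pi_pow : (p : 𝓞 K) ∣ (hζ.toInteger - 1) ^ p := by
  have h := (IsCyclotomicExtension.Rat.associated_zeta_sub_one_pow_prime p hζ).symm.dvd
  refine h.trans (pow_dvd_pow _ (Nat.sub_le _ _))


/-- A solution of the generalized Fermat equation `x ^ p + y ^ p = ε * (π ^ m * z) ^ p`
with `π ∤ x y z` and `x`, `y` coprime. -/
def IsSol (m : ℕ) (x y z : 𝓞 K) (ε : (𝓞 K)ˣ) : Prop :=
  ¬ hζ.toInteger - 1 ∣ x ∧ ¬ hζ.toInteger - 1 ∣ y ∧ ¬ hζ.toInteger - 1 ∣ z ∧ IsCoprime x y ∧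
    x ^ p + y ^ p = ε * ((hζ.toInteger - 1) ^ m * z) ^ p

variable {hζ}

lemma IsSol.prod_eq (hodd : p ≠ 2) {m : ℕ} {x y z : 𝓞 K} {ε : (𝓞 K)ˣ} (h : IsSol hζ m x y z ε) :
    ∏ μ ∈ nthRootsFinset p (1 : 𝓞 K), (x + μ * y) = ε * ((hζ.toInteger - 1) ^ m * z) ^ p := by
  rw [← h.2.2.2.2]
  exact (hζ.toInteger_isPrimitiveRoot.pow_add_pow_eq_prod_add_mul x y
    (hp.out.odd_of_ne_two hodd)).symm

/-- In a solution, `π` divides every factor `x + μ y`. -/
lemma IsSol.pi_dvd_factor (hodd : p ≠ 2) {m : ℕ} (hm : 1 ≤ m) {x y z : 𝓞 K} {ε : (𝓞 K)ˣ}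
    (h : IsSol hζ m x y z ε) {μ : 𝓞 K} (hμ : μ ∈ nthRootsFinset p (1 : 𝓞 K)) :
    hζ.toInteger - 1 ∣ x + μ * y := by
  have hprime : Prime (hζ.toInteger - 1) := hζ.zeta_sub_one_prime'
  have h1 : hζ.toInteger - 1 ∣ ∏ μ ∈ nthRootsFinset p (1 : 𝓞 K), (x + μ * y) := by
    rw [h.prod_eq hodd]
    refine Dvd.dvd.mul_left ?_ _
    refine dvd_pow ?_ hp.out.ne_zero
    exact Dvd.dvd.mul_right (dvd_pow_self _ (by omega)) _
  obtain ⟨ν, hν, hdvd⟩ := (Prime.dvd_finsetProd_iff hprime _).1 h1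
  have : x + μ * y = (x + ν * y) + (μ - ν) * y := by ring
  rw [this]
  exact dvd_add hdvd (Dvd.dvd.mul_right (pi_dvd_root_sub_root hζ hμ hν) _)

/-- Normalization: we may assume `π ^ 2 ∣ x + y`. -/
lemma IsSol.exists_normalized (hodd : p ≠ 2) {m : ℕ} (hm : 1 ≤ m) {x y z : 𝓞 K} {ε : (𝓞 K)ˣ}
    (h : IsSol hζ m x y z ε) :
    ∃ y' : 𝓞 K, IsSol hζ m x y' z ε ∧ (hζ.toInteger - 1) ^ 2 ∣ x + y' := by
  classical
  have hprime : Prime (hζ.toInteger - 1) := hζ.zeta_sub_one_prime'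
  have hfin := hζ.finite_quotient_toInteger_sub_one hp.out.one_lt
  have hcard := card_quotient_pi hζ hodd
  set I : Ideal (𝓞 K) := Ideal.span {hζ.toInteger - 1} with hI
  have hdvd : ∀ μ : nthRootsFinset p (1 : 𝓞 K), ∃ t : 𝓞 K, x + μ * y = (hζ.toInteger - 1) * t :=
    fun μ => h.pi_dvd_factor hodd hm μ.2
  choose g hg using hdvd
  let f : nthRootsFinset p (1 : 𝓞 K) → 𝓞 K ⧸ I := fun μ => Ideal.Quotient.mk I (g μ)
  have hf : Function.Injective f := by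
    intro μ ν hμν
    by_contra hne
    have hne' : (μ : 𝓞 K) ≠ ν := fun h => hne (Subtype.ext h)
    have h1 : hζ.toInteger - 1 ∣ g μ - g ν := by
      rw [← Ideal.mem_span_singleton, ← hI, ← Ideal.Quotient.eq_zero_iff_mem, map_sub, sub_eq_zero]
      exact hμν
    obtain ⟨u, hu⟩ := pi_assoc_root_sub_root hζ μ.2 ν.2 hne'
    have h2 : (hζ.toInteger - 1) * (g μ - g ν) = (hζ.toInteger - 1) * (u * y) := by
      rw [mul_sub, ← hg, ← hg, ← mul_assoc, hu]; ring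
    have h3 := mul_left_cancel₀ hprime.ne_zero h2
    rw [h3] at h1
    exact h.2.1 ((Units.dvd_mul_left).1 h1)
  have hbij := hf.bijective_of_nat_card_le (by
    rw [hcard, Nat.card_eq_fintype_card, Fintype.card_coe, card_roots hζ])
  obtain ⟨μ, hμ⟩ := hbij.2 0
  have hμ' : hζ.toInteger - 1 ∣ g μ := by
    rw [← Ideal.mem_span_singleton, ← hI, ← Ideal.Quotient.eq_zero_iff_mem]
    exact hμ
  have hμunit : IsUnit (μ : 𝓞 K) :=
    IsUnit.of_pow_eq_one ((mem_nthRootsFinset hp.out.pos 1).1 μ.2) hp.out.ne_zero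
  refine ⟨μ * y, ⟨h.1, ?_, h.2.2.1, ?_, ?_⟩, ?_⟩
  · intro hd
    exact h.2.1 ((hμunit.dvd_mul_left).1 hd)
  · exact (isCoprime_mul_unit_left_right hμunit _ _).2 h.2.2.2.1
  · rw [mul_pow, (mem_nthRootsFinset hp.out.pos 1).1 μ.2, one_mul]
    exact h.2.2.2.2
  · rw [hg μ, pow_two]
    exact mul_dvd_mul_left _ hμ'


/-- For a normalized solution, the factors `x + μ y` with `μ ≠ 1` are exactly divisible by `π`. -/
lemma IsSol.not_pi_sq_dvd_factor {m : ℕ} {x y z : 𝓞 K} {ε : (𝓞 K)ˣ}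
    (h : IsSol hζ m x y z ε) (hxy : (hζ.toInteger - 1) ^ 2 ∣ x + y)
    {μ : 𝓞 K} (hμ : μ ∈ nthRootsFinset p (1 : 𝓞 K)) (hμ1 : μ ≠ 1) :
    ¬ (hζ.toInteger - 1) ^ 2 ∣ x + μ * y := by
  have hprime : Prime (hζ.toInteger - 1) := hζ.zeta_sub_one_prime'
  intro hd
  obtain ⟨u, hu⟩ := pi_assoc_root_sub_root hζ hμ one_mem_roots hμ1
  have h1 : (hζ.toInteger - 1) ^ 2 ∣ (x + μ * y) - (x + y) := dvd_sub hd hxy
  have h2 : (x + μ * y) - (x + y) = (hζ.toInteger - 1) * (u * y) := by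
    rw [← mul_assoc, hu]; ring
  rw [h2, pow_two] at h1
  have h3 := (mul_dvd_mul_iff_left hprime.ne_zero).1 h1
  exact h.2.1 ((Units.dvd_mul_left).1 h3)

/-- Pairwise "coprimality up to `π`" of the factors. -/
lemma IsSol.dvd_pi_of_dvd_factors {m : ℕ} {x y z : 𝓞 K} {ε : (𝓞 K)ˣ}
    (h : IsSol hζ m x y z ε) {μ ν : 𝓞 K} (hμ : μ ∈ nthRootsFinset p (1 : 𝓞 K))
    (hν : ν ∈ nthRootsFinset p (1 : 𝓞 K)) (hne : μ ≠ ν) {q : 𝓞 K}
    (hqμ : q ∣ x + μ * y) (hqν : q ∣ x + ν * y) : q ∣ hζ.toInteger - 1 := by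
  obtain ⟨a, b, hab⟩ := h.2.2.2.1
  have h1 : q ∣ (μ - ν) * y := by
    have : (μ - ν) * y = (x + μ * y) - (x + ν * y) := by ring
    rw [this]; exact dvd_sub hqμ hqν
  have h2 : q ∣ (μ - ν) * x := by
    have : (μ - ν) * x = μ * (x + ν * y) - ν * (x + μ * y) := by ring
    rw [this]; exact dvd_sub (Dvd.dvd.mul_left hqν _) (Dvd.dvd.mul_left hqμ _)
  have h3 : q ∣ μ - ν := by
    have : μ - ν = a * ((μ - ν) * x) + b * ((μ - ν) * y) := by
      calc μ - ν = (μ - ν) * (a * x + b * y) := by rw [hab, mul_one]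
        _ = _ := by ring
    rw [this]; exact dvd_add (Dvd.dvd.mul_left h2 _) (Dvd.dvd.mul_left h1 _)
  exact h3.trans (pi_assoc_root_sub_root hζ hμ hν hne).symm.dvd


/-- Key structural lemma for a normalized solution. -/
lemma IsSol.exists_factors (hodd : p ≠ 2) {m : ℕ} (hm : 1 ≤ m) {x y z : 𝓞 K} {ε : (𝓞 K)ˣ}
    (h : IsSol hζ m x y z ε) (hxy : (hζ.toInteger - 1) ^ 2 ∣ x + y) :
    2 ≤ m ∧ ∃ H : 𝓞 K → 𝓞 K,
      x + y = (hζ.toInteger - 1) ^ ((m - 1) * p + 1) * H 1 ∧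
      (∀ μ ∈ nthRootsFinset p (1 : 𝓞 K), μ ≠ 1 → x + μ * y = (hζ.toInteger - 1) * H μ) ∧
      (∀ μ ∈ nthRootsFinset p (1 : 𝓞 K), ¬ hζ.toInteger - 1 ∣ H μ) ∧
      ∏ μ ∈ nthRootsFinset p (1 : 𝓞 K), H μ = ε * z ^ p := by
  classical
  have hprime : Prime (hζ.toInteger - 1) := hζ.zeta_sub_one_prime'
  have hp1 : 1 ≤ p := hp.out.pos
  -- the quotients `G μ = (x + μ y) / π`
  have hdvd : ∀ μ : 𝓞 K, ∃ t : 𝓞 K, μ ∈ nthRootsFinset p (1 : 𝓞 K) →
      x + μ * y = (hζ.toInteger - 1) * t := by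
    intro μ
    by_cases hμ : μ ∈ nthRootsFinset p (1 : 𝓞 K)
    · obtain ⟨t, ht⟩ := h.pi_dvd_factor hodd hm hμ
      exact ⟨t, fun _ => ht⟩
    · exact ⟨0, fun h' => absurd h' hμ⟩
  choose G hG using hdvd
  have hGndvd : ∀ μ ∈ (nthRootsFinset p (1 : 𝓞 K)).erase 1, ¬ hζ.toInteger - 1 ∣ G μ := by
    intro μ hμ hd
    rw [Finset.mem_erase] at hμ
    apply h.not_pi_sq_dvd_factor hxy hμ.2 hμ.1
    rw [hG μ hμ.2, pow_two]
    exact mul_dvd_mul_left _ hd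
  set P := ∏ μ ∈ (nthRootsFinset p (1 : 𝓞 K)).erase 1, G μ with hP
  have hPndvd : ¬ hζ.toInteger - 1 ∣ P := by
    intro hd
    obtain ⟨μ, hμ, hd'⟩ := (Prime.dvd_finsetProd_iff hprime _).1 hd
    exact hGndvd μ hμ hd'
  -- the product formula
  have hprod : (x + y) * ((hζ.toInteger - 1) ^ (p - 1) * P) =
      ε * ((hζ.toInteger - 1) ^ m * z) ^ p := by
    rw [← h.prod_eq hodd, ← Finset.mul_prod_erase _ _ (one_mem_roots (p := p) (K := K)), one_mul]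
    congr 1
    have hcard : ((nthRootsFinset p (1 : 𝓞 K)).erase 1).card = p - 1 := by
      rw [Finset.card_erase_of_mem (one_mem_roots (p := p) (K := K)), card_roots hζ]
    rw [hP, ← hcard, ← Finset.prod_const, ← Finset.prod_mul_distrib]
    refine Finset.prod_congr rfl fun μ hμ => ?_
    exact (hG μ (Finset.mem_of_mem_erase hμ)).symm
  have hexp : m * p = (p - 1) + ((m - 1) * p + 1) := by
    obtain ⟨m', rfl⟩ : ∃ m', m = m' + 1 := ⟨m - 1, by omega⟩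
    obtain ⟨p', hp'⟩ : ∃ p', p = p' + 1 := ⟨p - 1, by omega⟩
    rw [hp']
    simp only [Nat.add_sub_cancel]
    ring
  have hprod2 : (x + y) * P = (hζ.toInteger - 1) ^ ((m - 1) * p + 1) * (ε * z ^ p) := by
    have h1 : (hζ.toInteger - 1) ^ (p - 1) * ((x + y) * P) =
        (hζ.toInteger - 1) ^ (p - 1) * ((hζ.toInteger - 1) ^ ((m - 1) * p + 1) * (ε * z ^ p)) := by
      calc (hζ.toInteger - 1) ^ (p - 1) * ((x + y) * P)
          = (x + y) * ((hζ.toInteger - 1) ^ (p - 1) * P) := by ring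
        _ = ε * ((hζ.toInteger - 1) ^ m * z) ^ p := hprod
        _ = ε * ((hζ.toInteger - 1) ^ (m * p) * z ^ p) := by rw [mul_pow, ← pow_mul]
        _ = _ := by rw [hexp, pow_add]; ring
    exact mul_left_cancel₀ (pow_ne_zero _ hprime.ne_zero) h1
  have hdvdxy : (hζ.toInteger - 1) ^ ((m - 1) * p + 1) ∣ x + y :=
    hprime.pow_dvd_of_dvd_mul_right _ hPndvd (hprod2 ▸ dvd_mul_right _ _)
  obtain ⟨X₀, hX₀⟩ := hdvdxy
  have hX₀P : X₀ * P = ε * z ^ p := by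
    have h1 : (hζ.toInteger - 1) ^ ((m - 1) * p + 1) * (X₀ * P) =
        (hζ.toInteger - 1) ^ ((m - 1) * p + 1) * (ε * z ^ p) := by
      rw [← hprod2, hX₀]; ring
    exact mul_left_cancel₀ (pow_ne_zero _ hprime.ne_zero) h1
  have hX₀ndvd : ¬ hζ.toInteger - 1 ∣ X₀ := by
    intro hd
    have h1 : hζ.toInteger - 1 ∣ (ε : 𝓞 K) * z ^ p := hX₀P ▸ Dvd.dvd.mul_right hd _
    have h2 := (Units.dvd_mul_left).1 h1
    exact h.2.2.1 (hprime.dvd_of_dvd_pow h2)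
  have hm2 : 2 ≤ m := by
    by_contra hlt
    have hm1 : m = 1 := by omega
    subst hm1
    simp only [Nat.sub_self, zero_mul, zero_add, pow_one] at hX₀
    rw [hX₀, pow_two] at hxy
    exact hX₀ndvd ((mul_dvd_mul_iff_left hprime.ne_zero).1 hxy)
  refine ⟨hm2, fun μ => if μ = 1 then X₀ else G μ, ?_, ?_, ?_, ?_⟩
  · simpa using hX₀
  · intro μ hμ hμ1
    simp only [hμ1, if_false]
    exact hG μ hμ
  · intro μ hμ
    by_cases hμ1 : μ = 1
    · simpa [hμ1] using hX₀ndvd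
    · simp only [hμ1, if_false]
      exact hGndvd μ (Finset.mem_erase.2 ⟨hμ1, hμ⟩)
  · rw [← Finset.mul_prod_erase _ _ (one_mem_roots (p := p) (K := K))]
    simp only [if_true]
    rw [← hX₀P, hP]
    congr 1
    refine Finset.prod_congr rfl fun μ hμ => ?_
    simp [Finset.ne_of_mem_erase hμ]


/-- The descent step. -/
lemma IsSol.descent [IsPrincipalIdealRing (𝓞 K)] (hodd : p ≠ 2)
    (KL : ∀ u : (𝓞 K)ˣ, (∃ n : ℤ, (p : 𝓞 K) ∣ (u : 𝓞 K) - n) → ∃ v : (𝓞 K)ˣ, u = v ^ p)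
    {m : ℕ} (hm : 1 ≤ m) {x y z : 𝓞 K} {ε : (𝓞 K)ˣ}
    (h : IsSol hζ m x y z ε) (hxy : (hζ.toInteger - 1) ^ 2 ∣ x + y) :
    2 ≤ m ∧ ∃ (x' y' z' : 𝓞 K) (ε' : (𝓞 K)ˣ), IsSol hζ (m - 1) x' y' z' ε' := by
  classical
  have hprime : Prime (hζ.toInteger - 1) := hζ.zeta_sub_one_prime'
  have hp3 : 3 ≤ p := by
    have := hp.out.two_le
    omega
  obtain ⟨hm2, H, hH1, hHμ, hHndvd, hHprod⟩ := h.exists_factors hodd hm hxy
  refine ⟨hm2, ?_⟩
  -- `H μ` divides `x + μ y`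
  have hHdvd : ∀ μ ∈ nthRootsFinset p (1 : 𝓞 K), H μ ∣ x + μ * y := by
    intro μ hμ
    by_cases hμ1 : μ = 1
    · subst hμ1
      rw [one_mul, hH1]
      exact dvd_mul_left _ _
    · rw [hHμ μ hμ hμ1]
      exact dvd_mul_left _ _
  -- pairwise coprimality
  have hcop : ∀ μ ∈ nthRootsFinset p (1 : 𝓞 K), ∀ ν ∈ nthRootsFinset p (1 : 𝓞 K), μ ≠ ν →
      IsCoprime (H μ) (H ν) := by
    intro μ hμ ν hν hne
    refine isCoprime_of_prime_dvd ?_ ?_
    · rintro ⟨h0, -⟩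
      exact hHndvd μ hμ (h0 ▸ dvd_zero _)
    · intro q hq hqμ hqν
      have hqpi : q ∣ hζ.toInteger - 1 :=
        h.dvd_pi_of_dvd_factors hμ hν hne (hqμ.trans (hHdvd μ hμ)) (hqν.trans (hHdvd ν hν))
      have hass : Associated q (hζ.toInteger - 1) := hq.associated_of_dvd hprime hqpi
      exact hHndvd μ hμ (hass.symm.dvd.trans hqμ)
  -- each `H μ` is a `p`-th power up to a unit
  have hpow : ∀ μ ∈ nthRootsFinset p (1 : 𝓞 K), ∃ d : 𝓞 K, Associated (d ^ p) (H μ) := by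
    intro μ hμ
    have h1 : H μ * ∏ ν ∈ (nthRootsFinset p (1 : 𝓞 K)).erase μ, H ν = ε * z ^ p := by
      rw [Finset.mul_prod_erase _ _ hμ, hHprod]
    have h2 : IsCoprime (H μ) (∏ ν ∈ (nthRootsFinset p (1 : 𝓞 K)).erase μ, H ν) := by
      refine IsCoprime.prod_right fun ν hν => ?_
      rw [Finset.mem_erase] at hν
      exact hcop μ hμ ν hν.2 (Ne.symm hν.1)
    refine exists_associated_pow_of_associated_pow_mul h2 (c := z) ?_
    rw [h1]
    exact ⟨ε, by rw [mul_comm]⟩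
  -- the three roots `1`, `η`, `η ^ 2`
  have hηprim := hζ.toInteger_isPrimitiveRoot
  have hη : hζ.toInteger ∈ nthRootsFinset p (1 : 𝓞 K) := eta_mem_roots hζ
  have hη2 : hζ.toInteger ^ 2 ∈ nthRootsFinset p (1 : 𝓞 K) := by
    rw [mem_nthRootsFinset hp.out.pos 1, ← pow_mul, mul_comm, pow_mul, hηprim.pow_eq_one, one_pow]
  have hη_ne : hζ.toInteger ≠ 1 := hηprim.ne_one hp.out.one_lt
  have hη2_ne : hζ.toInteger ^ 2 ≠ 1 := hηprim.pow_ne_one_of_pos_of_lt (by norm_num) (by omega)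
  have hη_ne_η2 : hζ.toInteger ≠ hζ.toInteger ^ 2 := by
    intro heq
    apply hη_ne
    have h0 : hζ.toInteger ≠ 0 := hηprim.ne_zero hp.out.ne_zero
    have : hζ.toInteger * 1 = hζ.toInteger * hζ.toInteger := by rw [mul_one, ← pow_two]; exact heq
    exact (mul_left_cancel₀ h0 this).symm
  obtain ⟨d₀, u₀, hd₀⟩ := hpow 1 one_mem_roots
  obtain ⟨d₁, u₁, hd₁⟩ := hpow _ hη
  obtain ⟨d₂, u₂, hd₂⟩ := hpow _ hη2
  have hX1 := hHμ _ hη hη_ne
  have hX2 := hHμ _ hη2 hη2_ne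
  -- `1 + η` is a unit
  have hunit : IsUnit (1 + hζ.toInteger) := by
    have := hηprim.geom_sum_isUnit hp.out.two_le (j := 2)
      ((Nat.coprime_primes Nat.prime_two hp.out).2 (Ne.symm hodd))
    simpa [Finset.sum_range_succ] using this
  obtain ⟨w, hw⟩ := hunit
  -- the linear relation
  have hrel : (1 + hζ.toInteger) * H hζ.toInteger - H (hζ.toInteger ^ 2) =
      hζ.toInteger * (hζ.toInteger - 1) ^ ((m - 1) * p) * H 1 := by
    have h1 : (hζ.toInteger - 1) * ((1 + hζ.toInteger) * H hζ.toInteger - H (hζ.toInteger ^ 2)) =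
        (hζ.toInteger - 1) * (hζ.toInteger * (hζ.toInteger - 1) ^ ((m - 1) * p) * H 1) := by
      calc (hζ.toInteger - 1) * ((1 + hζ.toInteger) * H hζ.toInteger - H (hζ.toInteger ^ 2))
          = (1 + hζ.toInteger) * ((hζ.toInteger - 1) * H hζ.toInteger) -
              (hζ.toInteger - 1) * H (hζ.toInteger ^ 2) := by ring
        _ = (1 + hζ.toInteger) * (x + hζ.toInteger * y) - (x + hζ.toInteger ^ 2 * y) := by
            rw [← hX1, ← hX2]
        _ = hζ.toInteger * (x + y) := by ring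
        _ = _ := by rw [hH1, pow_succ]; ring
    exact mul_left_cancel₀ hprime.ne_zero h1
  -- `π ∤ d_i`
  have hd₀ndvd : ¬ hζ.toInteger - 1 ∣ d₀ := fun hd =>
    hHndvd 1 one_mem_roots (hd₀ ▸ Dvd.dvd.mul_right (dvd_pow hd hp.out.ne_zero) _)
  have hd₁ndvd : ¬ hζ.toInteger - 1 ∣ d₁ := fun hd =>
    hHndvd _ hη (hd₁ ▸ Dvd.dvd.mul_right (dvd_pow hd hp.out.ne_zero) _)
  have hd₂ndvd : ¬ hζ.toInteger - 1 ∣ d₂ := fun hd =>
    hHndvd _ hη2 (hd₂ ▸ Dvd.dvd.mul_right (dvd_pow hd hp.out.ne_zero) _)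
  -- the unit `ω`
  set ω : (𝓞 K)ˣ := -(u₂ * w⁻¹ * u₁⁻¹) with hω
  set ε' : (𝓞 K)ˣ := (hηprim.isUnit hp.out.ne_zero).unit * u₀ * w⁻¹ * u₁⁻¹ with hε'
  have hwinv : (w⁻¹ : (𝓞 K)ˣ) * (1 + hζ.toInteger) = (1 : 𝓞 K) := by
    rw [← hw]; simp
  have hnew : d₁ ^ p + ω * d₂ ^ p = ε' * ((hζ.toInteger - 1) ^ (m - 1) * d₀) ^ p := by
    have e1 : (u₁⁻¹ : (𝓞 K)ˣ) * (u₁ : 𝓞 K) = 1 := by simp
    have key : (w⁻¹ : (𝓞 K)ˣ) * (u₁⁻¹ : (𝓞 K)ˣ) *
        ((1 + hζ.toInteger) * (d₁ ^ p * u₁) - d₂ ^ p * u₂) =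
        (w⁻¹ : (𝓞 K)ˣ) * (u₁⁻¹ : (𝓞 K)ˣ) *
        (hζ.toInteger * (hζ.toInteger - 1) ^ ((m - 1) * p) * (d₀ ^ p * u₀)) := by
      rw [hd₀, hd₁, hd₂, hrel]
    have lhs : (w⁻¹ : (𝓞 K)ˣ) * (u₁⁻¹ : (𝓞 K)ˣ) *
        ((1 + hζ.toInteger) * (d₁ ^ p * u₁) - d₂ ^ p * u₂) = d₁ ^ p + ω * d₂ ^ p := by
      calc (w⁻¹ : (𝓞 K)ˣ) * (u₁⁻¹ : (𝓞 K)ˣ) *
            ((1 + hζ.toInteger) * (d₁ ^ p * u₁) - d₂ ^ p * u₂)
          = ((w⁻¹ : (𝓞 K)ˣ) * (1 + hζ.toInteger)) * ((u₁⁻¹ : (𝓞 K)ˣ) * (u₁ : 𝓞 K)) * d₁ ^ p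
              - (u₂ * (w⁻¹ : (𝓞 K)ˣ) * (u₁⁻¹ : (𝓞 K)ˣ)) * d₂ ^ p := by ring
        _ = d₁ ^ p + ω * d₂ ^ p := by
            rw [hwinv, e1, hω]
            push_cast
            ring
    have rhs : (w⁻¹ : (𝓞 K)ˣ) * (u₁⁻¹ : (𝓞 K)ˣ) *
        (hζ.toInteger * (hζ.toInteger - 1) ^ ((m - 1) * p) * (d₀ ^ p * u₀)) =
        ε' * ((hζ.toInteger - 1) ^ (m - 1) * d₀) ^ p := by
      rw [hε', mul_pow, ← pow_mul]
      push_cast
      rw [IsUnit.unit_spec]
      ring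
    rw [← lhs, key, rhs]
  -- Kummer's lemma applies to `ω`
  have hωcong : ∃ n : ℤ, (p : 𝓞 K) ∣ (ω : 𝓞 K) - n := by
    obtain ⟨a, ha⟩ := exists_int_sub_dvd hζ hodd d₁
    obtain ⟨b, hb⟩ := exists_int_sub_dvd hζ hodd d₂
    have ha' := pi_pow_dvd_pow_sub_pow hζ ha
    have hb' := pi_pow_dvd_pow_sub_pow hζ hb
    have hpb : ¬ (p : ℤ) ∣ b := by
      intro hpb
      have h1 : hζ.toInteger - 1 ∣ (b : 𝓞 K) :=
        (IsCyclotomicExtension.Rat.zeta_sub_one_dvd_intCast_iff' p hζ).2 hpb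
      have h2 : hζ.toInteger - 1 ∣ (d₂ - b) + b := dvd_add hb h1
      rw [sub_add_cancel] at h2
      exact hd₂ndvd h2
    have hsum : (hζ.toInteger - 1) ^ p ∣ d₁ ^ p + ω * d₂ ^ p := by
      rw [hnew, mul_pow, ← pow_mul]
      refine Dvd.dvd.mul_left (Dvd.dvd.mul_right (pow_dvd_pow _ ?_) _) _
      calc p = 1 * p := (one_mul p).symm
        _ ≤ (m - 1) * p := Nat.mul_le_mul_right _ (by omega)
    have h3 : (hζ.toInteger - 1) ^ p ∣ (a : 𝓞 K) ^ p + ω * (b : 𝓞 K) ^ p := by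
      have : (a : 𝓞 K) ^ p + ω * (b : 𝓞 K) ^ p =
          (d₁ ^ p + ω * d₂ ^ p) - (d₁ ^ p - (a : 𝓞 K) ^ p) - ω * (d₂ ^ p - (b : 𝓞 K) ^ p) := by
        ring
      rw [this]
      exact dvd_sub (dvd_sub hsum ha') (Dvd.dvd.mul_left hb' _)
    have h4 : (p : 𝓞 K) ∣ (a : 𝓞 K) ^ p + ω * (b : 𝓞 K) ^ p := (p_dvd_pi_pow hζ).trans h3
    have hcopb : IsCoprime (b ^ p) (p : ℤ) := by
      refine IsCoprime.pow_left ?_
      exact ((Nat.prime_iff_prime_int.1 hp.out).coprime_iff_not_dvd.2 hpb).symm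
    obtain ⟨c, e, hce⟩ := hcopb
    refine ⟨-(c * a ^ p), ?_⟩
    have hce' : (c : 𝓞 K) * (b : 𝓞 K) ^ p + (e : 𝓞 K) * (p : 𝓞 K) = 1 := by
      have := congrArg (Int.cast : ℤ → 𝓞 K) hce
      push_cast at this
      exact this
    have : (ω : 𝓞 K) - ((-(c * a ^ p) : ℤ) : 𝓞 K) =
        c * ((a : 𝓞 K) ^ p + ω * (b : 𝓞 K) ^ p) + (p : 𝓞 K) * (ω * e) := by
      push_cast
      calc (ω : 𝓞 K) - -(c * (a : 𝓞 K) ^ p)
          = ω * 1 + c * (a : 𝓞 K) ^ p := by ring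
        _ = ω * ((c : 𝓞 K) * (b : 𝓞 K) ^ p + (e : 𝓞 K) * (p : 𝓞 K)) + c * (a : 𝓞 K) ^ p := by
            rw [hce']
        _ = _ := by ring
    rw [this]
    exact dvd_add (Dvd.dvd.mul_left h4 _) (dvd_mul_right _ _)
  obtain ⟨v, hv⟩ := KL ω hωcong
  refine ⟨d₁, v * d₂, d₀, ε', hd₁ndvd, ?_, hd₀ndvd, ?_, ?_⟩
  · intro hd
    exact hd₂ndvd ((Units.dvd_mul_left).1 hd)
  · have h1 : IsCoprime (d₁ ^ p) (d₂ ^ p) := by
      have := hcop _ hη _ hη2 hη_ne_η2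
      rw [← hd₁, ← hd₂] at this
      exact (isCoprime_mul_unit_right_left u₁.isUnit _ _).1
        ((isCoprime_mul_unit_right_right u₂.isUnit _ _).1 this)
    have h2 : IsCoprime d₁ d₂ := (IsCoprime.pow_iff hp.out.pos hp.out.pos).1 h1
    exact (isCoprime_mul_unit_left_right v.isUnit _ _).2 h2
  · rw [mul_pow, ← hnew, hv]
    push_cast
    rfl


/-- Case II of Fermat's Last Theorem in `𝓞 K`, generalized equation. -/
theorem not_isSol [IsPrincipalIdealRing (𝓞 K)] (hodd : p ≠ 2)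
    (KL : ∀ u : (𝓞 K)ˣ, (∃ n : ℤ, (p : 𝓞 K) ∣ (u : 𝓞 K) - n) → ∃ v : (𝓞 K)ˣ, u = v ^ p)
    (m : ℕ) (hm : 1 ≤ m) (x y z : 𝓞 K) (ε : (𝓞 K)ˣ) : ¬ IsSol hζ m x y z ε := by
  induction m generalizing x y z ε with
  | zero => omega
  | succ n ih =>
    intro h
    obtain ⟨y', hy', hxy'⟩ := h.exists_normalized hodd hm
    obtain ⟨h2, x'', y'', z'', ε'', h''⟩ := hy'.descent hodd KL hm hxy'
    simp only [Nat.add_sub_cancel] at h''
    exact ih (by omega) x'' y'' z'' ε'' h''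

variable (hζ)

include hζ in
/-- Case II of Fermat's Last Theorem over `ℤ` for the prime `p`, assuming that the ring of
integers of the `p`-th cyclotomic field is a PID and Kummer's lemma. -/
theorem caseII_int [IsPrincipalIdealRing (𝓞 K)] (hodd : p ≠ 2)
    (KL : ∀ u : (𝓞 K)ˣ, (∃ n : ℤ, (p : 𝓞 K) ∣ (u : 𝓞 K) - n) → ∃ v : (𝓞 K)ˣ, u = v ^ p)
    {a b c : ℤ} (hc : c ≠ 0) (hpa : ¬ (p : ℤ) ∣ a) (hpb : ¬ (p : ℤ) ∣ b) (hpc : (p : ℤ) ∣ c)
    (hab : IsCoprime a b) : a ^ p + b ^ p ≠ c ^ p := by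
  intro hF
  have hprime : Prime (hζ.toInteger - 1) := hζ.zeta_sub_one_prime'
  have hc' : (c : 𝓞 K) ≠ 0 := by exact_mod_cast hc
  have hfin : FiniteMultiplicity (hζ.toInteger - 1) (c : 𝓞 K) :=
    FiniteMultiplicity.of_not_isUnit hprime.not_isUnit hc'
  obtain ⟨z, hz, hzndvd⟩ := hfin.exists_eq_pow_mul_and_not_dvd
  have hπc : hζ.toInteger - 1 ∣ (c : 𝓞 K) :=
    (IsCyclotomicExtension.Rat.zeta_sub_one_dvd_intCast_iff' p hζ).2 hpc
  have hm : 1 ≤ multiplicity (hζ.toInteger - 1) (c : 𝓞 K) := by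
    by_contra hlt
    have h0 : multiplicity (hζ.toInteger - 1) (c : 𝓞 K) = 0 := by omega
    rw [h0, pow_zero, one_mul] at hz
    exact hzndvd (hz ▸ hπc)
  refine not_isSol (hζ := hζ) hodd KL _ hm (a : 𝓞 K) (b : 𝓞 K) z 1 ⟨?_, ?_, hzndvd, ?_, ?_⟩
  · rwa [IsCyclotomicExtension.Rat.zeta_sub_one_dvd_intCast_iff' p hζ]
  · rwa [IsCyclotomicExtension.Rat.zeta_sub_one_dvd_intCast_iff' p hζ]
  · exact IsCoprime.intCast hab
  · rw [← hz, Units.val_one, one_mul]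
    exact_mod_cast hF


/-- Case II of Fermat's Last Theorem in `𝓞 K` (generalized equation), generic in the odd prime
`p`, assuming `𝓞 K` is a PID and Kummer's lemma. -/
theorem caseII_gen_of_prime [IsPrincipalIdealRing (𝓞 K)] (hodd : p ≠ 2)
    (KL : ∀ u : (𝓞 K)ˣ, (∃ n : ℤ, (p : 𝓞 K) ∣ (u : 𝓞 K) - n) → ∃ v : (𝓞 K)ˣ, u = v ^ p)
    (a b c : 𝓞 K) (u : (𝓞 K)ˣ) (hc : c ≠ 0) (ha : ¬ (hζ.toInteger - 1) ∣ a)
    (hb : ¬ (hζ.toInteger - 1) ∣ b) (hcdvd : (hζ.toInteger - 1) ∣ c) (hab : IsCoprime a b) :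
    a ^ p + b ^ p ≠ u * c ^ p := by
  intro hF
  have hprime : Prime (hζ.toInteger - 1) := hζ.zeta_sub_one_prime'
  have hfin : FiniteMultiplicity (hζ.toInteger - 1) c :=
    FiniteMultiplicity.of_not_isUnit hprime.not_isUnit hc
  obtain ⟨z, hz, hzndvd⟩ := hfin.exists_eq_pow_mul_and_not_dvd
  have hm : 1 ≤ multiplicity (hζ.toInteger - 1) c := by
    by_contra hlt
    have h0 : multiplicity (hζ.toInteger - 1) c = 0 := by omega
    rw [h0, pow_zero, one_mul] at hz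
    exact hzndvd (hz ▸ hcdvd)
  refine not_isSol (hζ := hζ) hodd KL _ hm a b z u ⟨ha, hb, hzndvd, hab, ?_⟩
  rw [← hz]
  exact hF


end CaseII

end Fermat.Agent.S10.X11.H911

namespace Fermat.Agent.S10.X11.CaseII

/-- T4 final (team skeleton name): the generalized Case II statement, generic in the odd prime
`p`, assuming `𝓞 K` is a PID and Kummer's lemma. -/
theorem caseII_gen {K : Type*} [Field K] [NumberField K] {p : ℕ} [hp : Fact p.Prime]
    [hK : IsCyclotomicExtension {p} ℚ K] {ζ : K} (hζ : IsPrimitiveRoot ζ p)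
    (hp2 : p ≠ 2) [IsPrincipalIdealRing (𝓞 K)]
    (hkummer : ∀ u : (𝓞 K)ˣ, (∃ m : ℤ, (p : 𝓞 K) ∣ (u : 𝓞 K) - (m : 𝓞 K)) →
      ∃ v : (𝓞 K)ˣ, u = v ^ p)
    (a b c : 𝓞 K) (u : (𝓞 K)ˣ) (hc : c ≠ 0) (ha : ¬ (hζ.toInteger - 1) ∣ a)
    (hb : ¬ (hζ.toInteger - 1) ∣ b) (hcdvd : (hζ.toInteger - 1) ∣ c) (hab : IsCoprime a b) :
    a ^ p + b ^ p ≠ u * c ^ p :=
  Fermat.Agent.S10.X11.H911.caseII_gen_of_prime hζ hp2 hkummer a b c u hc ha hb hcdvd hab

/-- Case II over `ℤ`, generic in the odd prime `p`, assuming that the ring of integers of one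
`p`-th cyclotomic field `K` is a PID and Kummer's lemma for `K`. -/
theorem caseII_int {K : Type*} [Field K] [NumberField K] {p : ℕ} [hp : Fact p.Prime]
    [hK : IsCyclotomicExtension {p} ℚ K] (hp2 : p ≠ 2) [IsPrincipalIdealRing (𝓞 K)]
    (hkummer : ∀ u : (𝓞 K)ˣ, (∃ m : ℤ, (p : 𝓞 K) ∣ (u : 𝓞 K) - (m : 𝓞 K)) →
      ∃ v : (𝓞 K)ˣ, u = v ^ p)
    {a b c : ℤ} (hc : c ≠ 0) (ha : ¬ (p : ℤ) ∣ a) (hb : ¬ (p : ℤ) ∣ b) (hcdvd : (p : ℤ) ∣ c)
    (hab : IsCoprime a b) : a ^ p + b ^ p ≠ c ^ p :=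
  Fermat.Agent.S10.X11.H911.caseII_int (IsCyclotomicExtension.zeta_spec p ℚ K) hp2 hkummer hc ha hb
    hcdvd hab

end Fermat.Agent.S10.X11.CaseII

namespace Fermat.Agent.S10.X11

open Fermat.Agent.S10.X11.H911

/-- Case II descent for `p = 11`, in the exact form of the team interface. -/
theorem caseII_gen {K : Type*} [Field K] [NumberField K] [IsCyclotomicExtension {11} ℚ K]
    {ζ : K} (hζ : IsPrimitiveRoot ζ 11)
    (hpid : IsPrincipalIdealRing (𝓞 K))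
    (hkummer : ∀ u : (𝓞 K)ˣ, (∃ m : ℤ, (11 : 𝓞 K) ∣ (u : 𝓞 K) - (m : 𝓞 K)) →
      ∃ v : (𝓞 K)ˣ, u = v ^ 11)
    (a b c : 𝓞 K) (u : (𝓞 K)ˣ) (hc : c ≠ 0) (ha : ¬ (hζ.toInteger - 1) ∣ a)
    (hb : ¬ (hζ.toInteger - 1) ∣ b) (hcdvd : (hζ.toInteger - 1) ∣ c) (hab : IsCoprime a b) :
    a ^ 11 + b ^ 11 ≠ u * c ^ 11 := by
  have : Fact (Nat.Prime 11) := ⟨by norm_num⟩
  refine caseII_gen_of_prime (p := 11) hζ (by norm_num) ?_ a b c u hc ha hb hcdvd hab
  intro w hw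
  refine hkummer w ?_
  obtain ⟨n, hn⟩ := hw
  exact ⟨n, by simpa using hn⟩

/-- Case II over `ℤ` for `p = 11`, in the exact form of the team interface, assuming the PID
property and Kummer's lemma for one cyclotomic field `K`. -/
theorem caseII_eleven_of {K : Type*} [Field K] [NumberField K] [IsCyclotomicExtension {11} ℚ K]
    (hpid : IsPrincipalIdealRing (𝓞 K))
    (hkummer : ∀ u : (𝓞 K)ˣ, (∃ m : ℤ, (11 : 𝓞 K) ∣ (u : 𝓞 K) - (m : 𝓞 K)) →
      ∃ v : (𝓞 K)ˣ, u = v ^ 11)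
    {a b c : ℤ} (hc : c ≠ 0) (ha : ¬ (11 : ℤ) ∣ a) (hb : ¬ (11 : ℤ) ∣ b)
    (hcdvd : (11 : ℤ) ∣ c) (hab : IsCoprime a b) : a ^ 11 + b ^ 11 ≠ c ^ 11 := by
  have : Fact (Nat.Prime 11) := ⟨by norm_num⟩
  have hζ := IsCyclotomicExtension.zeta_spec 11 ℚ K
  refine caseII_int (p := 11) hζ (by norm_num) ?_ hc ?_ ?_ ?_ hab
  · intro w hw
    refine hkummer w ?_
    obtain ⟨n, hn⟩ := hw
    exact ⟨n, by simpa using hn⟩
  · simpa using ha
  · simpa using hb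
  · simpa using hcdvd

end Fermat.Agent.S10.X11



end
-- ===== PACK-END S10/X11/CaseII.lean

-- ===== PACK-BEGIN S10/SophieGermain.lean
section
/-
Case I of Fermat's Last Theorem for a prime exponent `p` admitting a Sophie Germain
auxiliary prime `q`, and the instances `p = 5, 7, 11, 13` (auxiliary primes `11, 29, 23, 53`).
Purely elementary (integers and `ZMod q`).
-/


set_option autoImplicit false

namespace Fermat.Agent.S10

open Finset

/-- The cofactor `φ(y,z) = ∑_{i<p} y^i (-z)^(p-1-i)`; for odd `p`, `φ(y,z) * (y+z) = y^p + z^p`. -/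
def sgPhi {R : Type*} [CommRing R] (p : ℕ) (y z : R) : R :=
  ∑ i ∈ range p, y ^ i * (-z) ^ (p - 1 - i)

lemma sgPhi_mul {R : Type*} [CommRing R] {p : ℕ} (hp : Odd p) (y z : R) :
    sgPhi p y z * (y + z) = y ^ p + z ^ p := by
  have h := geom_sum₂_mul y (-z) p
  rw [hp.neg_pow, sub_neg_eq_add, sub_neg_eq_add] at h
  exact h

lemma sgPhi_map {R S : Type*} [CommRing R] [CommRing S] (f : R →+* S) (p : ℕ) (y z : R) :
    f (sgPhi p y z) = sgPhi p (f y) (f z) := by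
  simp [sgPhi, map_sum]

lemma sgPhi_of_eq_neg {R : Type*} [CommRing R] (p : ℕ) (y z : R) (h : z = -y) :
    sgPhi p y z = p * y ^ (p - 1) := by
  subst h
  simp only [sgPhi, neg_neg]
  exact geom_sum₂_self y p

lemma sgPhi_zero_left {R : Type*} [CommRing R] {p : ℕ} (hp : Odd p) (z : R) :
    sgPhi p 0 z = z ^ (p - 1) := by
  have hpos : 0 < p := hp.pos
  have heven : Even (p - 1) := by
    obtain ⟨k, hk⟩ := hp
    exact ⟨k, by omega⟩
  unfold sgPhi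
  rw [Finset.sum_eq_single 0]
  · simp [heven.neg_pow]
  · intro i _ hi
    simp [zero_pow hi]
  · intro h
    exact absurd (Finset.mem_range.mpr hpos) h

/-- `φ(u,v) ≡ p u^(p-1)` modulo `u + v`. -/
lemma sgPhi_sub_dvd (p : ℕ) (u v : ℤ) : (u + v) ∣ sgPhi p u v - p * u ^ (p - 1) := by
  have hmem : sgPhi p u v - p * u ^ (p - 1) ∈ Ideal.span ({u + v} : Set ℤ) := by
    rw [← Ideal.Quotient.eq_zero_iff_mem, map_sub, sub_eq_zero, sgPhi_map]
    have hv : Ideal.Quotient.mk (Ideal.span ({u + v} : Set ℤ)) v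
        = - Ideal.Quotient.mk (Ideal.span ({u + v} : Set ℤ)) u := by
      rw [eq_neg_iff_add_eq_zero, ← map_add, Ideal.Quotient.eq_zero_iff_mem, add_comm]
      exact Ideal.subset_span rfl
    rw [sgPhi_of_eq_neg _ _ _ hv]
    simp
  exact Ideal.mem_span_singleton.mp hmem

variable {p q : ℕ}

/-- If `u^p + v^p + w^p = 0` with `u, v` coprime and `p ∤ w`, then both `u + v` and the cofactor
`φ(u,v)` are `p`-th powers. -/
lemma sg_roots (hp : p.Prime) (hodd : p ≠ 2) {u v w : ℤ} (huv : IsCoprime u v)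
    (h : u ^ p + v ^ p + w ^ p = 0) (hpw : ¬ (p : ℤ) ∣ w) :
    ∃ A T : ℤ, u + v = A ^ p ∧ sgPhi p u v = T ^ p := by
  have hpodd : Odd p := hp.odd_of_ne_two hodd
  have hpint : Prime (p : ℤ) := Nat.prime_iff_prime_int.mp hp
  have hmul : sgPhi p u v * (u + v) = (-w) ^ p := by
    rw [sgPhi_mul hpodd, hpodd.neg_pow]; linarith
  have hw0 : w ≠ 0 := fun h0 => hpw (h0 ▸ dvd_zero _)
  have hcop : IsCoprime (sgPhi p u v) (u + v) := by
    apply isCoprime_of_prime_dvd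
    · rintro ⟨-, h0⟩
      have : (-w) ^ p = 0 := by rw [← hmul, h0, mul_zero]
      exact hw0 (neg_eq_zero.mp (pow_eq_zero_iff hp.ne_zero |>.mp this))
    · intro r hr hr1 hr2
      have hrw : r ∣ w := by
        have : r ∣ (-w) ^ p := hmul ▸ Dvd.dvd.mul_left hr2 _
        exact (dvd_neg.mp (hr.dvd_of_dvd_pow this))
      have h3 : r ∣ (p : ℤ) * u ^ (p - 1) := by
        have h4 : r ∣ sgPhi p u v - p * u ^ (p - 1) := hr2.trans (sgPhi_sub_dvd p u v)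
        have := dvd_sub hr1 h4
        simpa using this
      rcases hr.dvd_or_dvd h3 with h5 | h5
      · have hass : Associated r (p : ℤ) := (hr.dvd_prime_iff_associated hpint).mp h5
        exact hpw (hass.dvd_iff_dvd_left.mp hrw)
      · have hru : r ∣ u := hr.dvd_of_dvd_pow h5
        have hrv : r ∣ v := by
          have := dvd_sub hr2 hru
          simpa using this
        exact hr.not_isUnit (huv.isUnit_of_dvd' hru hrv)
  obtain ⟨⟨T, hT⟩, ⟨A, hA⟩⟩ := Int.eq_pow_of_mul_eq_pow_odd hcop hpodd hmul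
  exact ⟨A, T, hA, hT⟩

/-- Core of Sophie Germain's theorem: the case where the auxiliary prime divides `x`. -/
lemma sg_core (hp : p.Prime) (hodd : p ≠ 2) (hq : q.Prime)
    (h1 : ∀ x y z : ZMod q, x ^ p + y ^ p + z ^ p = 0 → x = 0 ∨ y = 0 ∨ z = 0)
    (h2 : ∀ x : ZMod q, x ^ p ≠ (p : ZMod q))
    {x y z : ℤ} (hxy : IsCoprime x y) (hyz : IsCoprime y z) (hzx : IsCoprime z x)
    (h : x ^ p + y ^ p + z ^ p = 0)
    (hpx : ¬ (p : ℤ) ∣ x) (hpy : ¬ (p : ℤ) ∣ y) (hpz : ¬ (p : ℤ) ∣ z)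
    (hqx : (q : ℤ) ∣ x) : False := by
  have : Fact q.Prime := ⟨hq⟩
  have hpodd : Odd p := hp.odd_of_ne_two hodd
  have hqint : Prime (q : ℤ) := Nat.prime_iff_prime_int.mp hq
  obtain ⟨A, T, hA, hT⟩ := sg_roots hp hodd hyz (w := x) (by linarith) hpx
  obtain ⟨B, S, hB, -⟩ := sg_roots hp hodd hzx (w := y) (by linarith) hpy
  obtain ⟨C, R, hC, hR⟩ := sg_roots hp hodd hxy (w := z) (by linarith) hpz
  have hx0 : (x : ZMod q) = 0 := (ZMod.intCast_zmod_eq_zero_iff_dvd x q).mpr hqx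
  have hA' : (y : ZMod q) + z = (A : ZMod q) ^ p := by
    exact_mod_cast congrArg (Int.cast : ℤ → ZMod q) hA
  have hB' : (z : ZMod q) + x = (B : ZMod q) ^ p := by
    exact_mod_cast congrArg (Int.cast : ℤ → ZMod q) hB
  have hC' : (x : ZMod q) + y = (C : ZMod q) ^ p := by
    exact_mod_cast congrArg (Int.cast : ℤ → ZMod q) hC
  have hT' : sgPhi p (y : ZMod q) (z : ZMod q) = (T : ZMod q) ^ p := by
    have := congrArg (Int.castRingHom (ZMod q)) hT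
    rw [sgPhi_map] at this
    simpa using this
  have hR' : sgPhi p (x : ZMod q) (y : ZMod q) = (R : ZMod q) ^ p := by
    have := congrArg (Int.castRingHom (ZMod q)) hR
    rw [sgPhi_map] at this
    simpa using this
  have hy0 : (y : ZMod q) ≠ 0 := by
    intro hy
    have hqy : (q : ℤ) ∣ y := (ZMod.intCast_zmod_eq_zero_iff_dvd y q).mp hy
    exact hqint.not_isUnit (hxy.isUnit_of_dvd' hqx hqy)
  have hz0 : (z : ZMod q) ≠ 0 := by
    intro hz
    have hqz : (q : ℤ) ∣ z := (ZMod.intCast_zmod_eq_zero_iff_dvd z q).mp hz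
    exact hqint.not_isUnit (hzx.isUnit_of_dvd' hqz hqx)
  have key : (C : ZMod q) ^ p + (B : ZMod q) ^ p + (-(A : ZMod q)) ^ p = 0 := by
    rw [hpodd.neg_pow, ← hA', ← hB', ← hC', hx0]; ring
  rcases h1 _ _ _ key with hC0 | hB0 | hA0
  · rw [hC0, zero_pow hp.ne_zero, hx0, zero_add] at hC'
    exact hy0 hC'
  · rw [hB0, zero_pow hp.ne_zero, hx0, add_zero] at hB'
    exact hz0 hB'
  · rw [neg_eq_zero] at hA0
    rw [hA0, zero_pow hp.ne_zero] at hA'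
    have hzy : (z : ZMod q) = -(y : ZMod q) := by
      rw [eq_neg_iff_add_eq_zero, add_comm]; exact hA'
    rw [sgPhi_of_eq_neg _ _ _ hzy] at hT'
    rw [hx0, sgPhi_zero_left hpodd] at hR'
    apply h2 ((T : ZMod q) / (R : ZMod q))
    rw [div_pow, ← hT', ← hR']
    exact mul_div_cancel_right₀ _ (pow_ne_zero _ hy0)

/-- Sophie Germain's theorem, symmetric form. -/
theorem sophieGermain_sym (hp : p.Prime) (hodd : p ≠ 2) (hq : q.Prime)
    (h1 : ∀ x y z : ZMod q, x ^ p + y ^ p + z ^ p = 0 → x = 0 ∨ y = 0 ∨ z = 0)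
    (h2 : ∀ x : ZMod q, x ^ p ≠ (p : ZMod q))
    {x y z : ℤ} (hxy : IsCoprime x y) (hyz : IsCoprime y z) (hzx : IsCoprime z x)
    (h : x ^ p + y ^ p + z ^ p = 0) :
    (p : ℤ) ∣ x ∨ (p : ℤ) ∣ y ∨ (p : ℤ) ∣ z := by
  have : Fact q.Prime := ⟨hq⟩
  by_contra hcon
  rw [not_or, not_or] at hcon
  obtain ⟨hpx, hpy, hpz⟩ := hcon
  have hcast : (x : ZMod q) ^ p + (y : ZMod q) ^ p + (z : ZMod q) ^ p = 0 := by
    exact_mod_cast congrArg (Int.cast : ℤ → ZMod q) h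
  rcases h1 _ _ _ hcast with hx | hy | hz
  · exact sg_core hp hodd hq h1 h2 hxy hyz hzx h hpx hpy hpz
      ((ZMod.intCast_zmod_eq_zero_iff_dvd x q).mp hx)
  · exact sg_core hp hodd hq h1 h2 hyz hzx hxy (by linarith) hpy hpz hpx
      ((ZMod.intCast_zmod_eq_zero_iff_dvd y q).mp hy)
  · exact sg_core hp hodd hq h1 h2 hzx hxy hyz (by linarith) hpz hpx hpy
      ((ZMod.intCast_zmod_eq_zero_iff_dvd z q).mp hz)

/-- Sophie Germain's theorem (Case I of FLT): if `q` is an auxiliary prime for the odd prime `p`,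
any coprime solution of `a^p + b^p = c^p` has `p ∣ a b c`. -/
theorem sophieGermain_caseI (hp : p.Prime) (hodd : p ≠ 2) (hq : q.Prime)
    (h1 : ∀ x y z : ZMod q, x ^ p + y ^ p + z ^ p = 0 → x = 0 ∨ y = 0 ∨ z = 0)
    (h2 : ∀ x : ZMod q, x ^ p ≠ (p : ZMod q))
    {a b c : ℤ} (hab : IsCoprime a b) (h : a ^ p + b ^ p = c ^ p) :
    (p : ℤ) ∣ a * b * c := by
  have hpodd : Odd p := hp.odd_of_ne_two hodd
  have hac : IsCoprime a c := by
    rw [← IsCoprime.pow_right_iff hp.pos, ← h]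
    have : a ^ p + b ^ p = b ^ p + a * a ^ (p - 1) := by
      rw [← pow_succ', Nat.sub_add_cancel hp.one_le]; ring
    rw [this]
    exact (hab.pow_right).add_mul_left_right _
  have hbc : IsCoprime b c := by
    rw [← IsCoprime.pow_right_iff hp.pos, ← h]
    have : a ^ p + b ^ p = a ^ p + b * b ^ (p - 1) := by
      rw [← pow_succ', Nat.sub_add_cancel hp.one_le]
    rw [this]
    exact (hab.symm.pow_right).add_mul_left_right _
  have h0 : a ^ p + b ^ p + (-c) ^ p = 0 := by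
    rw [hpodd.neg_pow, h]; ring
  rcases sophieGermain_sym hp hodd hq h1 h2 hab hbc.neg_right hac.symm.neg_left h0 with h' | h' | h'
  · exact dvd_mul_of_dvd_left (dvd_mul_of_dvd_left h' b) c
  · exact dvd_mul_of_dvd_left (dvd_mul_of_dvd_right h' a) c
  · exact dvd_mul_of_dvd_right (dvd_neg.mp h') _

/-- Removing the coprimality hypothesis: if every coprime solution has `p ∣ a b c`, then there
is no solution at all with `p ∤ a b c`. -/
theorem caseI_of_coprime {p : ℕ} (hp0 : p ≠ 0)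
    (H : ∀ a b c : ℤ, IsCoprime a b → a ^ p + b ^ p = c ^ p → (p : ℤ) ∣ a * b * c)
    {a b c : ℤ} (h : ¬ (p : ℤ) ∣ a * b * c) : a ^ p + b ^ p ≠ c ^ p := by
  intro heq
  have ha0 : a ≠ 0 := by
    rintro rfl
    exact h (by simp)
  have hd : 0 < Int.gcd a b := Int.gcd_pos_of_ne_zero_left b ha0
  obtain ⟨a', b', hcop, ha, hb⟩ := Int.exists_gcd_one hd
  set d : ℤ := (Int.gcd a b : ℤ) with hd_def
  have hd0 : d ≠ 0 := by
    rw [hd_def]; exact_mod_cast hd.ne'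
  have hdc : d ∣ c := by
    rw [← Int.pow_dvd_pow_iff hp0, ← heq]
    exact dvd_add (pow_dvd_pow_of_dvd (Int.gcd_dvd_left ..) p)
      (pow_dvd_pow_of_dvd (Int.gcd_dvd_right ..) p)
  obtain ⟨c', hc⟩ := hdc
  have heq' : a' ^ p + b' ^ p = c' ^ p := by
    have h1 : d ^ p * (a' ^ p + b' ^ p) = d ^ p * c' ^ p := by
      have : (a' * d) ^ p + (b' * d) ^ p = (d * c') ^ p := by
        rw [← ha, ← hb, ← hc]; exact heq
      rw [mul_pow, mul_pow, mul_pow] at this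
      linear_combination this
    exact mul_left_cancel₀ (pow_ne_zero p hd0) h1
  have hdvd := H a' b' c' (Int.isCoprime_iff_gcd_eq_one.mpr hcop) heq'
  apply h
  have : a * b * c = (a' * b' * c') * d ^ 3 := by
    rw [ha, hb, hc]; ring
  rw [this]
  exact dvd_mul_of_dvd_left hdvd _

/-! ### The four instances -/

lemma sg_pow_5_11 : ∀ x : ZMod 11, x = 0 ∨ x ^ 5 = 1 ∨ x ^ 5 = -1 := by decide

lemma sg_pow_11_23 : ∀ x : ZMod 23, x = 0 ∨ x ^ 11 = 1 ∨ x ^ 11 = -1 := by decide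

lemma sg_pow_7_29 :
    ∀ x : ZMod 29, x = 0 ∨ x ^ 7 = 1 ∨ x ^ 7 = -1 ∨ x ^ 7 = 12 ∨ x ^ 7 = -12 := by decide

lemma sg_pow_13_53 :
    ∀ x : ZMod 53, x = 0 ∨ x ^ 13 = 1 ∨ x ^ 13 = -1 ∨ x ^ 13 = 23 ∨ x ^ 13 = -23 := by decide

/-- Case I of FLT for exponent `5`. -/
theorem caseI_five_of_isCoprime {a b c : ℤ} (hab : IsCoprime a b) (h : a ^ 5 + b ^ 5 = c ^ 5) :
    (5 : ℤ) ∣ a * b * c := by
  have h1 : ∀ x y z : ZMod 11, x ^ 5 + y ^ 5 + z ^ 5 = 0 → x = 0 ∨ y = 0 ∨ z = 0 := by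
    intro x y z hxyz
    rcases sg_pow_5_11 x with hx | hx | hx
    · exact Or.inl hx
    all_goals
      rcases sg_pow_5_11 y with hy | hy | hy
      · exact Or.inr (Or.inl hy)
      all_goals
        rcases sg_pow_5_11 z with hz | hz | hz
        · exact Or.inr (Or.inr hz)
        all_goals
          rw [hx, hy, hz] at hxyz
          exact absurd hxyz (by decide)
  have h2 : ∀ x : ZMod 11, x ^ 5 ≠ ((5 : ℕ) : ZMod 11) := by
    intro x
    rcases sg_pow_5_11 x with hx | hx | hx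
    · rw [hx]; decide
    all_goals rw [hx]; decide
  exact_mod_cast sophieGermain_caseI (p := 5) (q := 11) (by norm_num) (by norm_num) (by norm_num)
    h1 h2 hab h

/-- Case I of FLT for exponent `11`. -/
theorem caseI_eleven_of_isCoprime {a b c : ℤ} (hab : IsCoprime a b) (h : a ^ 11 + b ^ 11 = c ^ 11) :
    (11 : ℤ) ∣ a * b * c := by
  have h1 : ∀ x y z : ZMod 23, x ^ 11 + y ^ 11 + z ^ 11 = 0 → x = 0 ∨ y = 0 ∨ z = 0 := by
    intro x y z hxyz
    rcases sg_pow_11_23 x with hx | hx | hx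
    · exact Or.inl hx
    all_goals
      rcases sg_pow_11_23 y with hy | hy | hy
      · exact Or.inr (Or.inl hy)
      all_goals
        rcases sg_pow_11_23 z with hz | hz | hz
        · exact Or.inr (Or.inr hz)
        all_goals
          rw [hx, hy, hz] at hxyz
          exact absurd hxyz (by decide)
  have h2 : ∀ x : ZMod 23, x ^ 11 ≠ ((11 : ℕ) : ZMod 23) := by
    intro x
    rcases sg_pow_11_23 x with hx | hx | hx
    · rw [hx]; decide
    all_goals rw [hx]; decide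
  exact_mod_cast sophieGermain_caseI (p := 11) (q := 23) (by norm_num) (by norm_num) (by norm_num)
    h1 h2 hab h

/-- Case I of FLT for exponent `7`. -/
theorem caseI_seven_of_isCoprime {a b c : ℤ} (hab : IsCoprime a b) (h : a ^ 7 + b ^ 7 = c ^ 7) :
    (7 : ℤ) ∣ a * b * c := by
  have h1 : ∀ x y z : ZMod 29, x ^ 7 + y ^ 7 + z ^ 7 = 0 → x = 0 ∨ y = 0 ∨ z = 0 := by
    intro x y z hxyz
    rcases sg_pow_7_29 x with hx | hx | hx | hx | hx
    · exact Or.inl hx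
    all_goals
      rcases sg_pow_7_29 y with hy | hy | hy | hy | hy
      · exact Or.inr (Or.inl hy)
      all_goals
        rcases sg_pow_7_29 z with hz | hz | hz | hz | hz
        · exact Or.inr (Or.inr hz)
        all_goals
          rw [hx, hy, hz] at hxyz
          exact absurd hxyz (by decide)
  have h2 : ∀ x : ZMod 29, x ^ 7 ≠ ((7 : ℕ) : ZMod 29) := by
    intro x
    rcases sg_pow_7_29 x with hx | hx | hx | hx | hx
    · rw [hx]; decide
    all_goals rw [hx]; decide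
  exact_mod_cast sophieGermain_caseI (p := 7) (q := 29) (by norm_num) (by norm_num) (by norm_num)
    h1 h2 hab h

/-- Case I of FLT for exponent `13`. -/
theorem caseI_thirteen_of_isCoprime {a b c : ℤ} (hab : IsCoprime a b) (h : a ^ 13 + b ^ 13 = c ^ 13) :
    (13 : ℤ) ∣ a * b * c := by
  have h1 : ∀ x y z : ZMod 53, x ^ 13 + y ^ 13 + z ^ 13 = 0 → x = 0 ∨ y = 0 ∨ z = 0 := by
    intro x y z hxyz
    rcases sg_pow_13_53 x with hx | hx | hx | hx | hx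
    · exact Or.inl hx
    all_goals
      rcases sg_pow_13_53 y with hy | hy | hy | hy | hy
      · exact Or.inr (Or.inl hy)
      all_goals
        rcases sg_pow_13_53 z with hz | hz | hz | hz | hz
        · exact Or.inr (Or.inr hz)
        all_goals
          rw [hx, hy, hz] at hxyz
          exact absurd hxyz (by decide)
  have h2 : ∀ x : ZMod 53, x ^ 13 ≠ ((13 : ℕ) : ZMod 53) := by
    intro x
    rcases sg_pow_13_53 x with hx | hx | hx | hx | hx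
    · rw [hx]; decide
    all_goals rw [hx]; decide
  exact_mod_cast sophieGermain_caseI (p := 13) (q := 53) (by norm_num) (by norm_num) (by norm_num)
    h1 h2 hab h


/-! ### Captain's interface: no coprimality hypothesis -/

/-- Case I of FLT for exponent `5`: no solution with `5 ∤ a b c`. -/
theorem caseI_five {a b c : ℤ} (h : ¬ (5 : ℤ) ∣ a * b * c) : a ^ 5 + b ^ 5 ≠ c ^ 5 :=
  caseI_of_coprime (p := 5) (by norm_num) (fun _ _ _ hab heq => caseI_five_of_isCoprime hab heq)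
    (by exact_mod_cast h)

/-- Case I of FLT for exponent `7`: no solution with `7 ∤ a b c`. -/
theorem caseI_seven {a b c : ℤ} (h : ¬ (7 : ℤ) ∣ a * b * c) : a ^ 7 + b ^ 7 ≠ c ^ 7 :=
  caseI_of_coprime (p := 7) (by norm_num) (fun _ _ _ hab heq => caseI_seven_of_isCoprime hab heq)
    (by exact_mod_cast h)

/-- Case I of FLT for exponent `11`: no solution with `11 ∤ a b c`. -/
theorem caseI_eleven {a b c : ℤ} (h : ¬ (11 : ℤ) ∣ a * b * c) : a ^ 11 + b ^ 11 ≠ c ^ 11 :=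
  caseI_of_coprime (p := 11) (by norm_num) (fun _ _ _ hab heq => caseI_eleven_of_isCoprime hab heq)
    (by exact_mod_cast h)

/-- Case I of FLT for exponent `13`: no solution with `13 ∤ a b c`. -/
theorem caseI_thirteen {a b c : ℤ} (h : ¬ (13 : ℤ) ∣ a * b * c) : a ^ 13 + b ^ 13 ≠ c ^ 13 :=
  caseI_of_coprime (p := 13) (by norm_num) (fun _ _ _ hab heq => caseI_thirteen_of_isCoprime hab heq)
    (by exact_mod_cast h)

end Fermat.Agent.S10

end
-- ===== PACK-END S10/SophieGermain.lean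

-- ===== PACK-BEGIN S10/PID7Full.lean
section


set_option autoImplicit false

namespace Fermat.Agent.S10.R378

open NumberField Module InfinitePlace Ideal Nat Real

/-- The Minkowski bound of `ℚ(ζ₇)` is `< 5`. -/
theorem minkowski_bound_seven_lt (K : Type*) [Field K] [NumberField K]
    [IsCyclotomicExtension {7} ℚ K] :
    (4 / π) ^ nrComplexPlaces K *
      ((finrank ℚ K)! / (finrank ℚ K) ^ (finrank ℚ K) * √|(discr K : ℝ)|) < 5 := by
  have hp : Fact (Nat.Prime 7) := ⟨by norm_num⟩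
  have h1 : nrComplexPlaces K = 3 := by
    rw [IsCyclotomicExtension.Rat.nrComplexPlaces_eq_totient_div_two 7,
      totient_prime hp.out]
  have h2 : finrank ℚ K = 6 := by
    rw [IsCyclotomicExtension.finrank (n := 7) K (Polynomial.cyclotomic.irreducible_rat (by simp)),
      totient_prime hp.out]
  have h3 : discr K = -7 ^ 5 := by
    rw [IsCyclotomicExtension.Rat.discr_prime 7 K]
    norm_num
  rw [h1, h2, h3]
  have hsq : √|(((-7 ^ 5 : ℤ)) : ℝ)| < 7 ^ 2 * 2.6458 := by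
    rw [Real.sqrt_lt' (by norm_num)]
    push_cast
    rw [abs_neg, abs_of_pos (by positivity)]
    norm_num
  have hpi : (4 / π) ^ 3 < (4 / 3) ^ 3 := by
    gcongr
    exact pi_gt_three
  have hfac : ((6 : ℕ)! : ℝ) = 720 := by
    norm_num [Nat.factorial]
  rw [hfac]
  calc (4 / π) ^ 3 * ((720 : ℝ) / ((6 : ℕ) : ℝ) ^ 6 * √|(((-7 ^ 5 : ℤ)) : ℝ)|)
      ≤ (4 / 3) ^ 3 * ((720 : ℝ) / ((6 : ℕ) : ℝ) ^ 6 * (7 ^ 2 * 2.6458)) := by
        gcongr
    _ < 5 := by norm_num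

/-- `⌊M K⌋₊ ≤ 4` for `K = ℚ(ζ₇)`. -/
theorem floor_minkowski_bound_seven_le (K : Type*) [Field K] [NumberField K]
    [IsCyclotomicExtension {7} ℚ K] :
    ⌊(4 / π) ^ nrComplexPlaces K *
      ((finrank ℚ K)! / (finrank ℚ K) ^ (finrank ℚ K) * √|(discr K : ℝ)|)⌋₊ ≤ 4 := by
  have h := minkowski_bound_seven_lt K
  have h0 : (0 : ℝ) ≤ (4 / π) ^ nrComplexPlaces K *
      ((finrank ℚ K)! / (finrank ℚ K) ^ (finrank ℚ K) * √|(discr K : ℝ)|) := by positivity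
  have := (Nat.floor_lt h0).mpr (by exact_mod_cast h : _ < ((5 : ℕ) : ℝ))
  omega

/-- If `IsCyclotomicExtension {7} ℚ K` then `𝓞 K` is a principal ideal domain. -/
theorem seven_pid (K : Type*) [Field K] [NumberField K] [IsCyclotomicExtension {7} ℚ K] :
    IsPrincipalIdealRing (𝓞 K) := by
  have hgal : IsGalois ℚ K := IsCyclotomicExtension.isGalois {7} ℚ K
  have hfloor := floor_minkowski_bound_seven_le K
  refine RingOfIntegers.isPrincipalIdealRing_of_isPrincipal_of_lt_or_isPrincipal_of_mem_primesOver_of_mem_Icc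
    (fun p hpmem hp => ?_)
  have hle : p ≤ 4 := (Finset.mem_Icc.mp hpmem).2.trans hfloor
  have hpf : Fact (Nat.Prime p) := ⟨hp⟩
  obtain ⟨⟨P, hP1, hP2⟩⟩ := (span {(p : ℤ)}).nonempty_primesOver (S := 𝓞 K)
  refine ⟨P, ⟨hP1, hP2⟩, Or.inl ?_⟩
  have hnd : ¬ p ∣ 7 := by
    intro hd
    have := (Nat.prime_dvd_prime_iff_eq hp (by norm_num)).mp hd
    omega
  rw [IsCyclotomicExtension.Rat.inertiaDeg_eq_of_not_dvd (m := 7) p K P hnd]
  refine lt_of_le_of_lt hfloor ?_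
  have hp2 := hp.two_le
  clear hP1 hP2 hpmem hpf hnd
  interval_cases p
  · -- p = 2, order 3
    have : orderOf ((2 : ℕ) : ZMod 7) = 3 := by
      rw [orderOf_eq_iff (by norm_num)]
      refine ⟨by decide, fun m hm hm0 => ?_⟩
      interval_cases m <;> decide
    rw [this]; norm_num
  · -- p = 3, order 6
    have : orderOf ((3 : ℕ) : ZMod 7) = 6 := by
      rw [orderOf_eq_iff (by norm_num)]
      refine ⟨by decide, fun m hm hm0 => ?_⟩
      interval_cases m <;> decide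
    rw [this]; norm_num
  · exfalso; revert hp; norm_num

end Fermat.Agent.S10.R378

end
-- ===== PACK-END S10/PID7Full.lean

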