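import Mathlib

-- ===== PACK-BEGIN S10/Glue.lean
section


/-!
# S10 glue: Fermat's Last Theorem for an odd prime exponent from Case I and Case II

Generic (in the odd prime `p`) version of Mathlib's
`fermatLastTheoremThree_of_three_dvd_only_c`.
-/

set_option autoImplicit false

namespace Fermat.Agent.S10

section glue

variable {p : ℕ}

lemma glue_dvd_b_of_dvd_a {a b c : ℤ} (hp : p.Prime) (hodd : p ≠ 2) (ha : a ≠ 0)
    (Hgcd : Finset.gcd {a, b, c} id = 1) (hpa : (p : ℤ) ∣ a)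
    (HF : a ^ p + b ^ p + c ^ p = 0)
    (H : ∀ a b c : ℤ, c ≠ 0 → ¬ (p : ℤ) ∣ a → ¬ (p : ℤ) ∣ b → (p : ℤ) ∣ c → IsCoprime a b →
      a ^ p + b ^ p ≠ c ^ p) :
    (p : ℤ) ∣ b := by
  have hpodd : Odd p := hp.odd_of_ne_two hodd
  have hpZ : Prime (p : ℤ) := Nat.prime_iff_prime_int.mp hp
  have hbc : IsCoprime (-b) (-c) := by
    refine IsCoprime.neg_neg ?_
    rw [add_comm (a ^ p), add_assoc, add_comm (a ^ p), ← add_assoc] at HF
    refine isCoprime_of_gcd_eq_one_of_FLT ?_ HF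
    convert Hgcd using 2
    rw [Finset.pair_comm, Finset.insert_comm]
  by_contra! hpb
  by_cases hpc : (p : ℤ) ∣ c
  · apply hpb
    rw [add_assoc, add_comm (b ^ p), ← add_assoc] at HF
    exact dvd_c_of_prime_of_dvd_a_of_dvd_b_of_FLT hpZ hpa hpc HF
  · refine H (-b) (-c) a ha (by simpa using hpb) (by simpa using hpc) hpa hbc ?_
    rw [hpodd.neg_pow, hpodd.neg_pow]
    linear_combination -HF

lemma glue_of_dvd_a {a b c : ℤ} (hp : p.Prime) (hodd : p ≠ 2) (ha : a ≠ 0)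
    (hpa : (p : ℤ) ∣ a) (Hgcd : Finset.gcd {a, b, c} id = 1)
    (H : ∀ a b c : ℤ, c ≠ 0 → ¬ (p : ℤ) ∣ a → ¬ (p : ℤ) ∣ b → (p : ℤ) ∣ c → IsCoprime a b →
      a ^ p + b ^ p ≠ c ^ p) :
    a ^ p + b ^ p + c ^ p ≠ 0 := by
  intro HF
  have hpZ : Prime (p : ℤ) := Nat.prime_iff_prime_int.mp hp
  apply hpZ.not_dvd_one
  rw [← Hgcd]
  refine Finset.dvd_gcd (fun x hx ↦ ?_)
  simp only [Finset.mem_insert, Finset.mem_singleton] at hx
  have hpb : (p : ℤ) ∣ b := glue_dvd_b_of_dvd_a hp hodd ha Hgcd hpa HF H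
  rcases hx with hx | hx | hx
  · exact hx ▸ hpa
  · exact hx ▸ hpb
  · simpa [hx] using dvd_c_of_prime_of_dvd_a_of_dvd_b_of_FLT hpZ hpa hpb HF

/-- To prove Fermat's Last Theorem for an odd prime `p` it is enough to prove Case I
(coprime solutions have `p ∣ a * b * c`) and Case II in the normalised form (`p ∣ c`, `p ∤ a`,
`p ∤ b`, `a`, `b` coprime). -/
theorem flt_of_caseI_caseII (hp : p.Prime) (hodd : p ≠ 2)
    (h1 : ∀ a b c : ℤ, IsCoprime a b → a ^ p + b ^ p = c ^ p → (p : ℤ) ∣ a * b * c)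
    (h2 : ∀ a b c : ℤ, c ≠ 0 → ¬ (p : ℤ) ∣ a → ¬ (p : ℤ) ∣ b → (p : ℤ) ∣ c → IsCoprime a b →
      a ^ p + b ^ p ≠ c ^ p) :
    FermatLastTheoremFor p := by
  have hpodd : Odd p := hp.odd_of_ne_two hodd
  have hpZ : Prime (p : ℤ) := Nat.prime_iff_prime_int.mp hp
  rw [fermatLastTheoremFor_iff_int]
  refine fermatLastTheoremWith_of_fermatLastTheoremWith_coprime (fun a b c ha hb hc Hgcd hF ↦ ?_)
  have hF0 := hF
  rw [← sub_eq_zero, sub_eq_add_neg, ← hpodd.neg_pow] at hF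
  have Hgcd' : Finset.gcd {a, b, -c} id = 1 := by
    simp only [← Hgcd, Finset.gcd_insert, Finset.gcd_singleton, id_eq, ← Int.abs_eq_normalize,
      abs_neg]
  have hab : IsCoprime a b := isCoprime_of_gcd_eq_one_of_FLT Hgcd' hF
  have hdvd : (p : ℤ) ∣ a * b * c := h1 a b c hab hF0
  rw [hpZ.dvd_mul, hpZ.dvd_mul] at hdvd
  rcases hdvd with (hpa | hpb) | hpc
  · exact glue_of_dvd_a hp hodd ha hpa Hgcd' h2 hF
  · rw [add_comm (a ^ p)] at hF
    refine glue_of_dvd_a hp hodd hb hpb ?_ h2 hF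
    simp only [← Hgcd, Finset.insert_comm, Finset.gcd_insert, Finset.gcd_singleton, id_eq,
      ← Int.abs_eq_normalize, abs_neg]
  · rw [add_comm _ ((-c) ^ p), ← add_assoc] at hF
    refine glue_of_dvd_a hp hodd (neg_ne_zero.2 hc) (by simpa using hpc) ?_ h2 hF
    rw [Finset.insert_comm (-c), Finset.pair_comm (-c) b]
    simp only [← Hgcd, Finset.gcd_insert, Finset.gcd_singleton, id_eq, ← Int.abs_eq_normalize,
      abs_neg]

end glue

end Fermat.Agent.S10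

end
-- ===== PACK-END S10/Glue.lean

-- ===== PACK-BEGIN S11/CaseI.lean
section


/-!
# Sophie Germain's theorem for the exponent 11 (auxiliary prime 23)

If `x ^ 11 + y ^ 11 + z ^ 11 = 0` with `x, y, z` pairwise coprime integers then `11 ∣ x * y * z`
("first case" of Fermat's Last Theorem for the exponent `11`).
-/

set_option autoImplicit false

namespace Fermat.Agent.S11

/-- The cofactor `(y ^ 11 + z ^ 11) / (y + z)`. -/
def sgPhi (y z : ℤ) : ℤ :=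
  y ^ 10 - y ^ 9 * z + y ^ 8 * z ^ 2 - y ^ 7 * z ^ 3 + y ^ 6 * z ^ 4 - y ^ 5 * z ^ 5 + y ^ 4 * z ^ 6
    - y ^ 3 * z ^ 7 + y ^ 2 * z ^ 8 - y * z ^ 9 + z ^ 10

lemma sgPhi_mul (y z : ℤ) : (y + z) * sgPhi y z = y ^ 11 + z ^ 11 := by
  unfold sgPhi; ring

lemma sgPhi_comm (y z : ℤ) : sgPhi y z = sgPhi z y := by
  unfold sgPhi; ring

/-- `sgPhi y z = 11 * y ^ 10 + (y + z) * k`. -/
lemma sgPhi_eq_add (y z : ℤ) : ∃ k : ℤ, sgPhi y z = 11 * y ^ 10 + (y + z) * k := by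
  refine ⟨-55 * y ^ 9 + 165 * y ^ 8 * (y + z) - 330 * y ^ 7 * (y + z) ^ 2
    + 462 * y ^ 6 * (y + z) ^ 3 - 462 * y ^ 5 * (y + z) ^ 4 + 330 * y ^ 4 * (y + z) ^ 5
    - 165 * y ^ 3 * (y + z) ^ 6 + 55 * y ^ 2 * (y + z) ^ 7 - 11 * y * (y + z) ^ 8
    + (y + z) ^ 9, ?_⟩
  unfold sgPhi; ring

lemma sg_isCoprime_add_sgPhi {y z : ℤ} (hyz : IsCoprime y z) (h11 : ¬ (11 : ℤ) ∣ y + z) :
    IsCoprime (y + z) (sgPhi y z) := by
  obtain ⟨k, hk⟩ := sgPhi_eq_add y z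
  rw [hk]
  apply IsCoprime.add_mul_left_right
  apply IsCoprime.mul_right
  · have hp : Prime (11 : ℤ) := by
      rw [Int.prime_iff_natAbs_prime]; norm_num
    exact ((Prime.coprime_iff_not_dvd hp).2 h11).symm
  · apply IsCoprime.pow_right
    have : IsCoprime z y := hyz.symm
    simpa [add_comm] using (IsCoprime.add_mul_left_left this 1)

/-- If `x ^ 11 + y ^ 11 + z ^ 11 = 0`, `y, z` coprime and `11 ∤ x` then `y + z` and
`sgPhi y z` are eleventh powers. -/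
lemma sg_exists_pow {x y z : ℤ} (hyz : IsCoprime y z) (h : x ^ 11 + y ^ 11 + z ^ 11 = 0)
    (h11 : ¬ (11 : ℤ) ∣ x) :
    (∃ a : ℤ, y + z = a ^ 11) ∧ (∃ α : ℤ, sgPhi y z = α ^ 11) := by
  have hmul : (y + z) * sgPhi y z = (-x) ^ 11 := by
    rw [sgPhi_mul]; linear_combination h
  have hp : Prime (11 : ℤ) := by
    rw [Int.prime_iff_natAbs_prime]; norm_num
  have hnd : ¬ (11 : ℤ) ∣ y + z := by
    intro hd
    have h1 : (11 : ℤ) ∣ (-x) ^ 11 := by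
      rw [← hmul]; exact Dvd.dvd.mul_right hd _
    have h2 : (11 : ℤ) ∣ -x := hp.dvd_of_dvd_pow h1
    exact h11 ((dvd_neg).1 h2)
  have hcop := sg_isCoprime_add_sgPhi hyz hnd
  have hodd : Odd 11 := by decide
  exact ⟨Int.eq_pow_of_mul_eq_pow_odd_left hcop hodd hmul,
    Int.eq_pow_of_mul_eq_pow_odd_right hcop hodd hmul⟩

/-- Eleventh powers modulo `23` are `0`, `1` or `-1`. -/
lemma sg_pow_eleven_zmod (t : ZMod 23) : (t = 0 ∧ t ^ 11 = 0) ∨ (t ≠ 0 ∧ (t ^ 11 = 1 ∨ t ^ 11 = -1)) := by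
  revert t; decide

lemma sg_zmod_sum_three {a b c : ZMod 23} (h : a ^ 11 + b ^ 11 + c ^ 11 = 0) :
    a = 0 ∨ b = 0 ∨ c = 0 := by
  rcases sg_pow_eleven_zmod a with ⟨ha, -⟩ | ⟨-, ha⟩
  · exact Or.inl ha
  rcases sg_pow_eleven_zmod b with ⟨hb, -⟩ | ⟨-, hb⟩
  · exact Or.inr (Or.inl hb)
  rcases sg_pow_eleven_zmod c with ⟨hc, -⟩ | ⟨-, hc⟩
  · exact Or.inr (Or.inr hc)
  exfalso
  rcases ha with ha | ha <;> rcases hb with hb | hb <;> rcases hc with hc | hc <;>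
    rw [ha, hb, hc] at h <;> revert h <;> decide

lemma sg_pow_ten_ne_zero : ∀ y : ZMod 23, y ≠ 0 → y ^ 10 ≠ 0 := by decide

lemma sg_zmod_final {y α γ : ZMod 23} (hy : y ≠ 0) (hα : α ^ 11 = 11 * y ^ 10)
    (hγ : γ ^ 11 = y ^ 10) : False := by
  have hy10 : y ^ 10 ≠ 0 := sg_pow_ten_ne_zero y hy
  have hγ' : y ^ 10 = 1 ∨ y ^ 10 = -1 := by
    rcases sg_pow_eleven_zmod γ with ⟨-, h0⟩ | ⟨-, h1⟩
    · exact absurd (hγ ▸ h0) hy10
    · rwa [hγ] at h1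
  rcases sg_pow_eleven_zmod α with ⟨-, h0⟩ | ⟨-, h1⟩
  · rw [hα] at h0
    rcases hγ' with h | h <;> rw [h] at h0 <;> revert h0 <;> decide
  · rw [hα] at h1
    rcases hγ' with h | h <;> rw [h] at h1 <;> revert h1 <;> decide

lemma sg_not_dvd_of_isCoprime {x y : ℤ} (hxy : IsCoprime x y) (hx : (23 : ℤ) ∣ x) :
    ¬ (23 : ℤ) ∣ y := by
  intro hy
  have hu : IsUnit (23 : ℤ) := hxy.isUnit_of_dvd' hx hy
  rw [Int.isUnit_iff] at hu
  omega

/-- The core of Sophie Germain's argument: the case `23 ∣ x`. -/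
lemma sg_aux {x y z : ℤ} (hxy : IsCoprime x y) (hyz : IsCoprime y z) (hzx : IsCoprime z x)
    (h : x ^ 11 + y ^ 11 + z ^ 11 = 0) (hx11 : ¬ (11 : ℤ) ∣ x) (hy11 : ¬ (11 : ℤ) ∣ y)
    (hz11 : ¬ (11 : ℤ) ∣ z) (hq : (23 : ℤ) ∣ x) : False := by
  obtain ⟨⟨a, ha⟩, ⟨α, hα⟩⟩ := sg_exists_pow hyz h hx11
  have h' : y ^ 11 + z ^ 11 + x ^ 11 = 0 := by linear_combination h
  obtain ⟨⟨b, hb⟩, -⟩ := sg_exists_pow hzx h' hy11
  have h'' : z ^ 11 + x ^ 11 + y ^ 11 = 0 := by linear_combination h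
  obtain ⟨⟨c, hc⟩, ⟨γ, hγ⟩⟩ := sg_exists_pow hxy h'' hz11
  have hx0 : (x : ZMod 23) = 0 := (ZMod.intCast_zmod_eq_zero_iff_dvd x 23).2 (by exact_mod_cast hq)
  have hy0 : (y : ZMod 23) ≠ 0 := by
    intro h0
    have := (ZMod.intCast_zmod_eq_zero_iff_dvd y 23).1 h0
    exact sg_not_dvd_of_isCoprime hxy hq (by exact_mod_cast this)
  have hz0 : (z : ZMod 23) ≠ 0 := by
    intro h0
    have := (ZMod.intCast_zmod_eq_zero_iff_dvd z 23).1 h0
    exact sg_not_dvd_of_isCoprime hzx.symm hq (by exact_mod_cast this)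
  have ha' : (y : ZMod 23) + z = (a : ZMod 23) ^ 11 := by
    have := congrArg (Int.cast : ℤ → ZMod 23) ha
    push_cast at this; exact this
  have hb' : (z : ZMod 23) + x = (b : ZMod 23) ^ 11 := by
    have := congrArg (Int.cast : ℤ → ZMod 23) hb
    push_cast at this; exact this
  have hc' : (x : ZMod 23) + y = (c : ZMod 23) ^ 11 := by
    have := congrArg (Int.cast : ℤ → ZMod 23) hc
    push_cast at this; exact this
  have hα' : (α : ZMod 23) ^ 11 = ((sgPhi y z : ℤ) : ZMod 23) := by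
    have := congrArg (Int.cast : ℤ → ZMod 23) hα
    push_cast at this; exact this.symm
  have hγ' : (γ : ZMod 23) ^ 11 = ((sgPhi x y : ℤ) : ZMod 23) := by
    have := congrArg (Int.cast : ℤ → ZMod 23) hγ
    push_cast at this; exact this.symm
  rw [hx0] at hb' hc'
  have hsum : (c : ZMod 23) ^ 11 + (b : ZMod 23) ^ 11 + (-(a : ZMod 23)) ^ 11 = 0 := by
    have : (-(a : ZMod 23)) ^ 11 = - (a : ZMod 23) ^ 11 := by ring
    rw [this, ← ha', ← hb', ← hc']; ring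
  rcases sg_zmod_sum_three hsum with hc0 | hb0 | ha0
  · rw [hc0] at hc'
    apply hy0
    simpa using hc'
  · rw [hb0] at hb'
    apply hz0
    simpa using hb'
  · have ha0' : (a : ZMod 23) = 0 := by simpa using ha0
    rw [ha0'] at ha'
    have hzy : (z : ZMod 23) = -y := by
      have : (y : ZMod 23) + z = 0 := by simpa using ha'
      linear_combination this
    have e1 : ((sgPhi y z : ℤ) : ZMod 23) = 11 * (y : ZMod 23) ^ 10 := by
      unfold sgPhi; push_cast; rw [hzy]; ring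
    have e2 : ((sgPhi x y : ℤ) : ZMod 23) = (y : ZMod 23) ^ 10 := by
      unfold sgPhi; push_cast; rw [hx0]; ring
    rw [e1] at hα'
    rw [e2] at hγ'
    exact sg_zmod_final hy0 hα' hγ'

/-- **Sophie Germain's theorem** for the exponent `11` (auxiliary prime `23 = 2 * 11 + 1`). -/
theorem sophieGermain_eleven (x y z : ℤ) (hxy : IsCoprime x y) (hyz : IsCoprime y z)
    (hzx : IsCoprime z x) (h : x ^ 11 + y ^ 11 + z ^ 11 = 0) : (11 : ℤ) ∣ x * y * z := by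
  by_contra hnd
  have hx11 : ¬ (11 : ℤ) ∣ x := fun hd => hnd (Dvd.dvd.mul_right (Dvd.dvd.mul_right hd _) _)
  have hy11 : ¬ (11 : ℤ) ∣ y := fun hd => hnd (Dvd.dvd.mul_right (Dvd.dvd.mul_left hd _) _)
  have hz11 : ¬ (11 : ℤ) ∣ z := fun hd => hnd (Dvd.dvd.mul_left hd _)
  have hmod : (x : ZMod 23) ^ 11 + (y : ZMod 23) ^ 11 + (z : ZMod 23) ^ 11 = 0 := by
    have := congrArg (Int.cast : ℤ → ZMod 23) h
    push_cast at this; exact this
  have key : ∀ t : ℤ, (t : ZMod 23) = 0 → (23 : ℤ) ∣ t := fun t ht => by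
    have := (ZMod.intCast_zmod_eq_zero_iff_dvd t 23).1 ht
    exact_mod_cast this
  rcases sg_zmod_sum_three hmod with hx0 | hy0 | hz0
  · exact sg_aux hxy hyz hzx h hx11 hy11 hz11 (key x hx0)
  · exact sg_aux hyz hzx hxy (by linear_combination h) hy11 hz11 hx11 (key y hy0)
  · exact sg_aux hzx hxy hyz (by linear_combination h) hz11 hx11 hy11 (key z hz0)

/-- First case of Fermat's Last Theorem for exponent `11`, pairwise coprime version. -/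
theorem caseI_eleven_aux (a b c : ℤ) (hab : IsCoprime a b) (hac : IsCoprime a c)
    (hbc : IsCoprime b c) (h : a ^ 11 + b ^ 11 = c ^ 11) : (11 : ℤ) ∣ a * b * c := by
  have h' : a ^ 11 + b ^ 11 + (-c) ^ 11 = 0 := by
    have : (-c) ^ 11 = - c ^ 11 := by ring
    rw [this, h]; ring
  have := sophieGermain_eleven a b (-c) hab hbc.neg_right hac.symm.neg_left h'
  have h2 : a * b * -c = -(a * b * c) := by ring
  rw [h2] at this
  exact (dvd_neg).1 this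

lemma sg_isCoprime_of_eq {a b c : ℤ} (hab : IsCoprime a b) (h : a ^ 11 + b ^ 11 = c ^ 11) :
    IsCoprime a c := by
  have h1 : IsCoprime a (b ^ 11 + a * a ^ 10) :=
    IsCoprime.add_mul_left_right (hab.pow_right) _
  have h2 : b ^ 11 + a * a ^ 10 = c ^ 11 := by rw [← h]; ring
  rw [h2] at h1
  exact (IsCoprime.pow_right_iff (by norm_num)).1 h1

/-- **T1**: first case of Fermat's Last Theorem for exponent `11` (Sophie Germain, `q = 23`). -/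
theorem caseI_eleven {a b c : ℤ} (hab : IsCoprime a b) (h : ¬ (11 : ℤ) ∣ a * b * c) :
    a ^ 11 + b ^ 11 ≠ c ^ 11 := by
  intro heq
  have hac : IsCoprime a c := sg_isCoprime_of_eq hab heq
  have hbc : IsCoprime b c := sg_isCoprime_of_eq hab.symm (by rw [add_comm]; exact heq)
  exact h (caseI_eleven_aux a b c hab hac hbc heq)

end Fermat.Agent.S11

end
-- ===== PACK-END S11/CaseI.lean

-- ===== PACK-BEGIN S11/GlueBridge.lean
section


/-!
# T5b: bridge from the generalized Case II statement in `𝓞 K` to Case II over `ℤ`.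
-/

set_option autoImplicit false

namespace Fermat.Agent.S11.GlueBridge

open NumberField

theorem caseII_int_of_gen {p : ℕ} [hp : Fact p.Prime] {K : Type*} [Field K] [NumberField K]
    [IsCyclotomicExtension {p} ℚ K] {ζ : K} (hζ : IsPrimitiveRoot ζ p)
    (Hgen : ∀ a b c : 𝓞 K, ∀ u : (𝓞 K)ˣ, c ≠ 0 → ¬ (hζ.toInteger - 1) ∣ a →
      ¬ (hζ.toInteger - 1) ∣ b → (hζ.toInteger - 1) ∣ c → IsCoprime a b →
      a ^ p + b ^ p ≠ u * c ^ p) :
    ∀ a b c : ℤ, c ≠ 0 → ¬ (p : ℤ) ∣ a → ¬ (p : ℤ) ∣ b → (p : ℤ) ∣ c → IsCoprime a b →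
      a ^ p + b ^ p ≠ c ^ p := by
  intro a b c hc ha hb hcdvd hcoprime h
  refine Hgen a b c 1 (by simp [hc]) (fun hdvd ↦ ha ?_) (fun hdvd ↦ hb ?_) ?_ ?_ ?_
  · exact (IsCyclotomicExtension.Rat.zeta_sub_one_dvd_intCast_iff' p hζ).mp hdvd
  · exact (IsCyclotomicExtension.Rat.zeta_sub_one_dvd_intCast_iff' p hζ).mp hdvd
  · exact (IsCyclotomicExtension.Rat.zeta_sub_one_dvd_intCast_iff' p hζ).mpr hcdvd
  · exact IsCoprime.intCast hcoprime
  · simpa using mod_cast h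

end Fermat.Agent.S11.GlueBridge

end
-- ===== PACK-END S11/GlueBridge.lean

-- ===== PACK-BEGIN S11/CaseII.lean
section


/-!
# Case II of Fermat's Last Theorem for a prime `p`, assuming `𝓞 K` is a PID and Kummer's lemma

Kummer's descent in the ring of integers of the `p`-th cyclotomic field.
-/

open NumberField Polynomial

set_option linter.unusedSectionVars false

namespace Fermat.Agent.S11.H911

section CaseII

variable {p : ℕ} [hp : Fact p.Prime] {K : Type*} [Field K] [NumberField K]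
  [IsCyclotomicExtension {p} ℚ K] {ζ : K} (hζ : IsPrimitiveRoot ζ p)

include hζ in
lemma card_quotient_pi (hodd : p ≠ 2) :
    Nat.card (𝓞 K ⧸ Ideal.span {hζ.toInteger - 1}) = p := by
  rw [hζ.card_quotient_toInteger_sub_one, hζ.norm_toInteger_sub_one_of_prime_ne_two' hodd]
  simp

/-- Every element of `𝓞 K` is congruent to a rational integer modulo `ζ - 1`. -/
lemma exists_int_sub_dvd (hodd : p ≠ 2) (x : 𝓞 K) : ∃ n : ℤ, hζ.toInteger - 1 ∣ x - n := by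
  classical
  have hfin := hζ.finite_quotient_toInteger_sub_one hp.out.one_lt
  have hcard := card_quotient_pi hζ hodd
  set I : Ideal (𝓞 K) := Ideal.span {hζ.toInteger - 1} with hI
  -- the map `ZMod p → 𝓞 K ⧸ I`
  have hpI : (p : 𝓞 K) ∈ I := by
    rw [hI, Ideal.mem_span_singleton]
    exact hζ.toInteger_sub_one_dvd_prime'
  let f : ℤ →+* (𝓞 K ⧸ I) := (Ideal.Quotient.mk I).comp (Int.castRingHom (𝓞 K))
  have hker : ∀ n : ℤ, f n = 0 ↔ (p : ℤ) ∣ n := by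
    intro n
    simp only [f, RingHom.comp_apply, Ideal.Quotient.eq_zero_iff_mem, hI,
      Ideal.mem_span_singleton]
    exact IsCyclotomicExtension.Rat.zeta_sub_one_dvd_intCast_iff' p hζ
  -- injective map from `Fin p`
  let g : Fin p → (𝓞 K ⧸ I) := fun i => f (i : ℕ)
  have hg : Function.Injective g := by
    intro i j hij
    have h1 : f ((i : ℕ) - (j : ℕ) : ℤ) = 0 := by
      simp only [g] at hij
      rw [map_sub, sub_eq_zero]
      exact_mod_cast hij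
    rw [hker] at h1
    have hi := i.2
    have hj := j.2
    apply Fin.ext
    have := Int.eq_of_sub_eq_zero (Int.eq_zero_of_abs_lt_dvd h1 (by rw [abs_lt]; constructor <;> omega))
    exact_mod_cast this
  have hbij := hg.bijective_of_nat_card_le (by rw [hcard]; simp)
  obtain ⟨i, hi⟩ := hbij.2 (Ideal.Quotient.mk I x)
  refine ⟨(i : ℕ), ?_⟩
  rw [← Ideal.mem_span_singleton, ← hI, ← Ideal.Quotient.eq_zero_iff_mem, map_sub, ← hi]
  simp [g, f]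

/-- The integer `ζ` as a primitive root in `𝓞 K`. -/
lemma eta_mem_roots : hζ.toInteger ∈ nthRootsFinset p (1 : 𝓞 K) :=
  (mem_nthRootsFinset hp.out.pos 1).2 hζ.toInteger_isPrimitiveRoot.pow_eq_one

lemma pi_dvd_root_sub_root {μ ν : 𝓞 K} (hμ : μ ∈ nthRootsFinset p (1 : 𝓞 K))
    (hν : ν ∈ nthRootsFinset p (1 : 𝓞 K)) : hζ.toInteger - 1 ∣ μ - ν :=
  hζ.toInteger_isPrimitiveRoot.sub_one_dvd_sub hp.out hμ hν

lemma pi_assoc_root_sub_root {μ ν : 𝓞 K} (hμ : μ ∈ nthRootsFinset p (1 : 𝓞 K))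
    (hν : ν ∈ nthRootsFinset p (1 : 𝓞 K)) (hne : μ ≠ ν) : Associated (hζ.toInteger - 1) (μ - ν) :=
  hζ.toInteger_isPrimitiveRoot.nthRootsFinset_pairwise_associated_sub_one_sub_of_prime hp.out
    hμ hν hne

lemma one_mem_roots : (1 : 𝓞 K) ∈ nthRootsFinset p (1 : 𝓞 K) :=
  (mem_nthRootsFinset hp.out.pos 1).2 (one_pow _)

include hζ in
lemma card_roots : (nthRootsFinset p (1 : 𝓞 K)).card = p :=
  IsPrimitiveRoot.card_nthRootsFinset hζ.toInteger_isPrimitiveRoot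

/-- If `x ≡ y mod π` then `x ^ p ≡ y ^ p mod π ^ p`. -/
lemma pi_pow_dvd_pow_sub_pow {x y : 𝓞 K} (h : hζ.toInteger - 1 ∣ x - y) :
    (hζ.toInteger - 1) ^ p ∣ x ^ p - y ^ p := by
  rw [hζ.toInteger_isPrimitiveRoot.pow_sub_pow_eq_prod_sub_mul x y hp.out.pos]
  have : (hζ.toInteger - 1) ^ p = ∏ _μ ∈ nthRootsFinset p (1 : 𝓞 K), (hζ.toInteger - 1) := by
    rw [Finset.prod_const, card_roots hζ]
  rw [this]
  refine Finset.prod_dvd_prod_of_dvd _ _ fun μ hμ => ?_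
  have h1 : hζ.toInteger - 1 ∣ 1 - μ := pi_dvd_root_sub_root hζ (one_mem_roots) hμ
  have : x - μ * y = (x - y) + (1 - μ) * y := by ring
  rw [this]
  exact dvd_add h (Dvd.dvd.mul_right h1 _)

lemma p_dvd_pi_pow : (p : 𝓞 K) ∣ (hζ.toInteger - 1) ^ p := by
  have h := (IsCyclotomicExtension.Rat.associated_zeta_sub_one_pow_prime p hζ).symm.dvd
  refine h.trans (pow_dvd_pow _ (Nat.sub_le _ _))


/-- A solution of the generalized Fermat equation `x ^ p + y ^ p = ε * (π ^ m * z) ^ p`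
with `π ∤ x y z` and `x`, `y` coprime. -/
def IsSol (m : ℕ) (x y z : 𝓞 K) (ε : (𝓞 K)ˣ) : Prop :=
  ¬ hζ.toInteger - 1 ∣ x ∧ ¬ hζ.toInteger - 1 ∣ y ∧ ¬ hζ.toInteger - 1 ∣ z ∧ IsCoprime x y ∧
    x ^ p + y ^ p = ε * ((hζ.toInteger - 1) ^ m * z) ^ p

variable {hζ}

lemma IsSol.prod_eq (hodd : p ≠ 2) {m : ℕ} {x y z : 𝓞 K} {ε : (𝓞 K)ˣ} (h : IsSol hζ m x y z ε) :
    ∏ μ ∈ nthRootsFinset p (1 : 𝓞 K), (x + μ * y) = ε * ((hζ.toInteger - 1) ^ m * z) ^ p := by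
  rw [← h.2.2.2.2]
  exact (hζ.toInteger_isPrimitiveRoot.pow_add_pow_eq_prod_add_mul x y
    (hp.out.odd_of_ne_two hodd)).symm

/-- In a solution, `π` divides every factor `x + μ y`. -/
lemma IsSol.pi_dvd_factor (hodd : p ≠ 2) {m : ℕ} (hm : 1 ≤ m) {x y z : 𝓞 K} {ε : (𝓞 K)ˣ}
    (h : IsSol hζ m x y z ε) {μ : 𝓞 K} (hμ : μ ∈ nthRootsFinset p (1 : 𝓞 K)) :
    hζ.toInteger - 1 ∣ x + μ * y := by
  have hprime : Prime (hζ.toInteger - 1) := hζ.zeta_sub_one_prime'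
  have h1 : hζ.toInteger - 1 ∣ ∏ μ ∈ nthRootsFinset p (1 : 𝓞 K), (x + μ * y) := by
    rw [h.prod_eq hodd]
    refine Dvd.dvd.mul_left ?_ _
    refine dvd_pow ?_ hp.out.ne_zero
    exact Dvd.dvd.mul_right (dvd_pow_self _ (by omega)) _
  obtain ⟨ν, hν, hdvd⟩ := (Prime.dvd_finsetProd_iff hprime _).1 h1
  have : x + μ * y = (x + ν * y) + (μ - ν) * y := by ring
  rw [this]
  exact dvd_add hdvd (Dvd.dvd.mul_right (pi_dvd_root_sub_root hζ hμ hν) _)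

/-- Normalization: we may assume `π ^ 2 ∣ x + y`. -/
lemma IsSol.exists_normalized (hodd : p ≠ 2) {m : ℕ} (hm : 1 ≤ m) {x y z : 𝓞 K} {ε : (𝓞 K)ˣ}
    (h : IsSol hζ m x y z ε) :
    ∃ y' : 𝓞 K, IsSol hζ m x y' z ε ∧ (hζ.toInteger - 1) ^ 2 ∣ x + y' := by
  classical
  have hprime : Prime (hζ.toInteger - 1) := hζ.zeta_sub_one_prime'
  have hfin := hζ.finite_quotient_toInteger_sub_one hp.out.one_lt
  have hcard := card_quotient_pi hζ hodd
  set I : Ideal (𝓞 K) := Ideal.span {hζ.toInteger - 1} with hI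
  have hdvd : ∀ μ : nthRootsFinset p (1 : 𝓞 K), ∃ t : 𝓞 K, x + μ * y = (hζ.toInteger - 1) * t :=
    fun μ => h.pi_dvd_factor hodd hm μ.2
  choose g hg using hdvd
  let f : nthRootsFinset p (1 : 𝓞 K) → 𝓞 K ⧸ I := fun μ => Ideal.Quotient.mk I (g μ)
  have hf : Function.Injective f := by
    intro μ ν hμν
    by_contra hne
    have hne' : (μ : 𝓞 K) ≠ ν := fun h => hne (Subtype.ext h)
    have h1 : hζ.toInteger - 1 ∣ g μ - g ν := by
      rw [← Ideal.mem_span_singleton, ← hI, ← Ideal.Quotient.eq_zero_iff_mem, map_sub, sub_eq_zero]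
      exact hμν
    obtain ⟨u, hu⟩ := pi_assoc_root_sub_root hζ μ.2 ν.2 hne'
    have h2 : (hζ.toInteger - 1) * (g μ - g ν) = (hζ.toInteger - 1) * (u * y) := by
      rw [mul_sub, ← hg, ← hg, ← mul_assoc, hu]; ring
    have h3 := mul_left_cancel₀ hprime.ne_zero h2
    rw [h3] at h1
    exact h.2.1 ((Units.dvd_mul_left).1 h1)
  have hbij := hf.bijective_of_nat_card_le (by
    rw [hcard, Nat.card_eq_fintype_card, Fintype.card_coe, card_roots hζ])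
  obtain ⟨μ, hμ⟩ := hbij.2 0
  have hμ' : hζ.toInteger - 1 ∣ g μ := by
    rw [← Ideal.mem_span_singleton, ← hI, ← Ideal.Quotient.eq_zero_iff_mem]
    exact hμ
  have hμunit : IsUnit (μ : 𝓞 K) :=
    IsUnit.of_pow_eq_one ((mem_nthRootsFinset hp.out.pos 1).1 μ.2) hp.out.ne_zero
  refine ⟨μ * y, ⟨h.1, ?_, h.2.2.1, ?_, ?_⟩, ?_⟩
  · intro hd
    exact h.2.1 ((hμunit.dvd_mul_left).1 hd)
  · exact (isCoprime_mul_unit_left_right hμunit _ _).2 h.2.2.2.1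
  · rw [mul_pow, (mem_nthRootsFinset hp.out.pos 1).1 μ.2, one_mul]
    exact h.2.2.2.2
  · rw [hg μ, pow_two]
    exact mul_dvd_mul_left _ hμ'


/-- For a normalized solution, the factors `x + μ y` with `μ ≠ 1` are exactly divisible by `π`. -/
lemma IsSol.not_pi_sq_dvd_factor {m : ℕ} {x y z : 𝓞 K} {ε : (𝓞 K)ˣ}
    (h : IsSol hζ m x y z ε) (hxy : (hζ.toInteger - 1) ^ 2 ∣ x + y)
    {μ : 𝓞 K} (hμ : μ ∈ nthRootsFinset p (1 : 𝓞 K)) (hμ1 : μ ≠ 1) :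
    ¬ (hζ.toInteger - 1) ^ 2 ∣ x + μ * y := by
  have hprime : Prime (hζ.toInteger - 1) := hζ.zeta_sub_one_prime'
  intro hd
  obtain ⟨u, hu⟩ := pi_assoc_root_sub_root hζ hμ one_mem_roots hμ1
  have h1 : (hζ.toInteger - 1) ^ 2 ∣ (x + μ * y) - (x + y) := dvd_sub hd hxy
  have h2 : (x + μ * y) - (x + y) = (hζ.toInteger - 1) * (u * y) := by
    rw [← mul_assoc, hu]; ring
  rw [h2, pow_two] at h1
  have h3 := (mul_dvd_mul_iff_left hprime.ne_zero).1 h1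
  exact h.2.1 ((Units.dvd_mul_left).1 h3)

/-- Pairwise "coprimality up to `π`" of the factors. -/
lemma IsSol.dvd_pi_of_dvd_factors {m : ℕ} {x y z : 𝓞 K} {ε : (𝓞 K)ˣ}
    (h : IsSol hζ m x y z ε) {μ ν : 𝓞 K} (hμ : μ ∈ nthRootsFinset p (1 : 𝓞 K))
    (hν : ν ∈ nthRootsFinset p (1 : 𝓞 K)) (hne : μ ≠ ν) {q : 𝓞 K}
    (hqμ : q ∣ x + μ * y) (hqν : q ∣ x + ν * y) : q ∣ hζ.toInteger - 1 := by
  obtain ⟨a, b, hab⟩ := h.2.2.2.1
  have h1 : q ∣ (μ - ν) * y := by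
    have : (μ - ν) * y = (x + μ * y) - (x + ν * y) := by ring
    rw [this]; exact dvd_sub hqμ hqν
  have h2 : q ∣ (μ - ν) * x := by
    have : (μ - ν) * x = μ * (x + ν * y) - ν * (x + μ * y) := by ring
    rw [this]; exact dvd_sub (Dvd.dvd.mul_left hqν _) (Dvd.dvd.mul_left hqμ _)
  have h3 : q ∣ μ - ν := by
    have : μ - ν = a * ((μ - ν) * x) + b * ((μ - ν) * y) := by
      calc μ - ν = (μ - ν) * (a * x + b * y) := by rw [hab, mul_one]
        _ = _ := by ring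
    rw [this]; exact dvd_add (Dvd.dvd.mul_left h2 _) (Dvd.dvd.mul_left h1 _)
  exact h3.trans (pi_assoc_root_sub_root hζ hμ hν hne).symm.dvd


/-- Key structural lemma for a normalized solution. -/
lemma IsSol.exists_factors (hodd : p ≠ 2) {m : ℕ} (hm : 1 ≤ m) {x y z : 𝓞 K} {ε : (𝓞 K)ˣ}
    (h : IsSol hζ m x y z ε) (hxy : (hζ.toInteger - 1) ^ 2 ∣ x + y) :
    2 ≤ m ∧ ∃ H : 𝓞 K → 𝓞 K,
      x + y = (hζ.toInteger - 1) ^ ((m - 1) * p + 1) * H 1 ∧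
      (∀ μ ∈ nthRootsFinset p (1 : 𝓞 K), μ ≠ 1 → x + μ * y = (hζ.toInteger - 1) * H μ) ∧
      (∀ μ ∈ nthRootsFinset p (1 : 𝓞 K), ¬ hζ.toInteger - 1 ∣ H μ) ∧
      ∏ μ ∈ nthRootsFinset p (1 : 𝓞 K), H μ = ε * z ^ p := by
  classical
  have hprime : Prime (hζ.toInteger - 1) := hζ.zeta_sub_one_prime'
  have hp1 : 1 ≤ p := hp.out.pos
  -- the quotients `G μ = (x + μ y) / π`
  have hdvd : ∀ μ : 𝓞 K, ∃ t : 𝓞 K, μ ∈ nthRootsFinset p (1 : 𝓞 K) →
      x + μ * y = (hζ.toInteger - 1) * t := by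
    intro μ
    by_cases hμ : μ ∈ nthRootsFinset p (1 : 𝓞 K)
    · obtain ⟨t, ht⟩ := h.pi_dvd_factor hodd hm hμ
      exact ⟨t, fun _ => ht⟩
    · exact ⟨0, fun h' => absurd h' hμ⟩
  choose G hG using hdvd
  have hGndvd : ∀ μ ∈ (nthRootsFinset p (1 : 𝓞 K)).erase 1, ¬ hζ.toInteger - 1 ∣ G μ := by
    intro μ hμ hd
    rw [Finset.mem_erase] at hμ
    apply h.not_pi_sq_dvd_factor hxy hμ.2 hμ.1
    rw [hG μ hμ.2, pow_two]
    exact mul_dvd_mul_left _ hd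
  set P := ∏ μ ∈ (nthRootsFinset p (1 : 𝓞 K)).erase 1, G μ with hP
  have hPndvd : ¬ hζ.toInteger - 1 ∣ P := by
    intro hd
    obtain ⟨μ, hμ, hd'⟩ := (Prime.dvd_finsetProd_iff hprime _).1 hd
    exact hGndvd μ hμ hd'
  -- the product formula
  have hprod : (x + y) * ((hζ.toInteger - 1) ^ (p - 1) * P) =
      ε * ((hζ.toInteger - 1) ^ m * z) ^ p := by
    rw [← h.prod_eq hodd, ← Finset.mul_prod_erase _ _ (one_mem_roots (p := p) (K := K)), one_mul]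
    congr 1
    have hcard : ((nthRootsFinset p (1 : 𝓞 K)).erase 1).card = p - 1 := by
      rw [Finset.card_erase_of_mem (one_mem_roots (p := p) (K := K)), card_roots hζ]
    rw [hP, ← hcard, ← Finset.prod_const, ← Finset.prod_mul_distrib]
    refine Finset.prod_congr rfl fun μ hμ => ?_
    exact (hG μ (Finset.mem_of_mem_erase hμ)).symm
  have hexp : m * p = (p - 1) + ((m - 1) * p + 1) := by
    obtain ⟨m', rfl⟩ : ∃ m', m = m' + 1 := ⟨m - 1, by omega⟩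
    obtain ⟨p', hp'⟩ : ∃ p', p = p' + 1 := ⟨p - 1, by omega⟩
    rw [hp']
    simp only [Nat.add_sub_cancel]
    ring
  have hprod2 : (x + y) * P = (hζ.toInteger - 1) ^ ((m - 1) * p + 1) * (ε * z ^ p) := by
    have h1 : (hζ.toInteger - 1) ^ (p - 1) * ((x + y) * P) =
        (hζ.toInteger - 1) ^ (p - 1) * ((hζ.toInteger - 1) ^ ((m - 1) * p + 1) * (ε * z ^ p)) := by
      calc (hζ.toInteger - 1) ^ (p - 1) * ((x + y) * P)
          = (x + y) * ((hζ.toInteger - 1) ^ (p - 1) * P) := by ring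
        _ = ε * ((hζ.toInteger - 1) ^ m * z) ^ p := hprod
        _ = ε * ((hζ.toInteger - 1) ^ (m * p) * z ^ p) := by rw [mul_pow, ← pow_mul]
        _ = _ := by rw [hexp, pow_add]; ring
    exact mul_left_cancel₀ (pow_ne_zero _ hprime.ne_zero) h1
  have hdvdxy : (hζ.toInteger - 1) ^ ((m - 1) * p + 1) ∣ x + y :=
    hprime.pow_dvd_of_dvd_mul_right _ hPndvd (hprod2 ▸ dvd_mul_right _ _)
  obtain ⟨X₀, hX₀⟩ := hdvdxy
  have hX₀P : X₀ * P = ε * z ^ p := by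
    have h1 : (hζ.toInteger - 1) ^ ((m - 1) * p + 1) * (X₀ * P) =
        (hζ.toInteger - 1) ^ ((m - 1) * p + 1) * (ε * z ^ p) := by
      rw [← hprod2, hX₀]; ring
    exact mul_left_cancel₀ (pow_ne_zero _ hprime.ne_zero) h1
  have hX₀ndvd : ¬ hζ.toInteger - 1 ∣ X₀ := by
    intro hd
    have h1 : hζ.toInteger - 1 ∣ (ε : 𝓞 K) * z ^ p := hX₀P ▸ Dvd.dvd.mul_right hd _
    have h2 := (Units.dvd_mul_left).1 h1
    exact h.2.2.1 (hprime.dvd_of_dvd_pow h2)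
  have hm2 : 2 ≤ m := by
    by_contra hlt
    have hm1 : m = 1 := by omega
    subst hm1
    simp only [Nat.sub_self, zero_mul, zero_add, pow_one] at hX₀
    rw [hX₀, pow_two] at hxy
    exact hX₀ndvd ((mul_dvd_mul_iff_left hprime.ne_zero).1 hxy)
  refine ⟨hm2, fun μ => if μ = 1 then X₀ else G μ, ?_, ?_, ?_, ?_⟩
  · simpa using hX₀
  · intro μ hμ hμ1
    simp only [hμ1, if_false]
    exact hG μ hμ
  · intro μ hμ
    by_cases hμ1 : μ = 1
    · simpa [hμ1] using hX₀ndvd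
    · simp only [hμ1, if_false]
      exact hGndvd μ (Finset.mem_erase.2 ⟨hμ1, hμ⟩)
  · rw [← Finset.mul_prod_erase _ _ (one_mem_roots (p := p) (K := K))]
    simp only [if_true]
    rw [← hX₀P, hP]
    congr 1
    refine Finset.prod_congr rfl fun μ hμ => ?_
    simp [Finset.ne_of_mem_erase hμ]


/-- The descent step. -/
lemma IsSol.descent [IsPrincipalIdealRing (𝓞 K)] (hodd : p ≠ 2)
    (KL : ∀ u : (𝓞 K)ˣ, (∃ n : ℤ, (p : 𝓞 K) ∣ (u : 𝓞 K) - n) → ∃ v : (𝓞 K)ˣ, u = v ^ p)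
    {m : ℕ} (hm : 1 ≤ m) {x y z : 𝓞 K} {ε : (𝓞 K)ˣ}
    (h : IsSol hζ m x y z ε) (hxy : (hζ.toInteger - 1) ^ 2 ∣ x + y) :
    2 ≤ m ∧ ∃ (x' y' z' : 𝓞 K) (ε' : (𝓞 K)ˣ), IsSol hζ (m - 1) x' y' z' ε' := by
  classical
  have hprime : Prime (hζ.toInteger - 1) := hζ.zeta_sub_one_prime'
  have hp3 : 3 ≤ p := by
    have := hp.out.two_le
    omega
  obtain ⟨hm2, H, hH1, hHμ, hHndvd, hHprod⟩ := h.exists_factors hodd hm hxy
  refine ⟨hm2, ?_⟩
  -- `H μ` divides `x + μ y`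
  have hHdvd : ∀ μ ∈ nthRootsFinset p (1 : 𝓞 K), H μ ∣ x + μ * y := by
    intro μ hμ
    by_cases hμ1 : μ = 1
    · subst hμ1
      rw [one_mul, hH1]
      exact dvd_mul_left _ _
    · rw [hHμ μ hμ hμ1]
      exact dvd_mul_left _ _
  -- pairwise coprimality
  have hcop : ∀ μ ∈ nthRootsFinset p (1 : 𝓞 K), ∀ ν ∈ nthRootsFinset p (1 : 𝓞 K), μ ≠ ν →
      IsCoprime (H μ) (H ν) := by
    intro μ hμ ν hν hne
    refine isCoprime_of_prime_dvd ?_ ?_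
    · rintro ⟨h0, -⟩
      exact hHndvd μ hμ (h0 ▸ dvd_zero _)
    · intro q hq hqμ hqν
      have hqpi : q ∣ hζ.toInteger - 1 :=
        h.dvd_pi_of_dvd_factors hμ hν hne (hqμ.trans (hHdvd μ hμ)) (hqν.trans (hHdvd ν hν))
      have hass : Associated q (hζ.toInteger - 1) := hq.associated_of_dvd hprime hqpi
      exact hHndvd μ hμ (hass.symm.dvd.trans hqμ)
  -- each `H μ` is a `p`-th power up to a unit
  have hpow : ∀ μ ∈ nthRootsFinset p (1 : 𝓞 K), ∃ d : 𝓞 K, Associated (d ^ p) (H μ) := by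
    intro μ hμ
    have h1 : H μ * ∏ ν ∈ (nthRootsFinset p (1 : 𝓞 K)).erase μ, H ν = ε * z ^ p := by
      rw [Finset.mul_prod_erase _ _ hμ, hHprod]
    have h2 : IsCoprime (H μ) (∏ ν ∈ (nthRootsFinset p (1 : 𝓞 K)).erase μ, H ν) := by
      refine IsCoprime.prod_right fun ν hν => ?_
      rw [Finset.mem_erase] at hν
      exact hcop μ hμ ν hν.2 (Ne.symm hν.1)
    refine exists_associated_pow_of_associated_pow_mul h2 (c := z) ?_
    rw [h1]
    exact ⟨ε, by rw [mul_comm]⟩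
  -- the three roots `1`, `η`, `η ^ 2`
  have hηprim := hζ.toInteger_isPrimitiveRoot
  have hη : hζ.toInteger ∈ nthRootsFinset p (1 : 𝓞 K) := eta_mem_roots hζ
  have hη2 : hζ.toInteger ^ 2 ∈ nthRootsFinset p (1 : 𝓞 K) := by
    rw [mem_nthRootsFinset hp.out.pos 1, ← pow_mul, mul_comm, pow_mul, hηprim.pow_eq_one, one_pow]
  have hη_ne : hζ.toInteger ≠ 1 := hηprim.ne_one hp.out.one_lt
  have hη2_ne : hζ.toInteger ^ 2 ≠ 1 := hηprim.pow_ne_one_of_pos_of_lt (by norm_num) (by omega)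
  have hη_ne_η2 : hζ.toInteger ≠ hζ.toInteger ^ 2 := by
    intro heq
    apply hη_ne
    have h0 : hζ.toInteger ≠ 0 := hηprim.ne_zero hp.out.ne_zero
    have : hζ.toInteger * 1 = hζ.toInteger * hζ.toInteger := by rw [mul_one, ← pow_two]; exact heq
    exact (mul_left_cancel₀ h0 this).symm
  obtain ⟨d₀, u₀, hd₀⟩ := hpow 1 one_mem_roots
  obtain ⟨d₁, u₁, hd₁⟩ := hpow _ hη
  obtain ⟨d₂, u₂, hd₂⟩ := hpow _ hη2
  have hX1 := hHμ _ hη hη_ne
  have hX2 := hHμ _ hη2 hη2_ne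
  -- `1 + η` is a unit
  have hunit : IsUnit (1 + hζ.toInteger) := by
    have := hηprim.geom_sum_isUnit hp.out.two_le (j := 2)
      ((Nat.coprime_primes Nat.prime_two hp.out).2 (Ne.symm hodd))
    simpa [Finset.sum_range_succ] using this
  obtain ⟨w, hw⟩ := hunit
  -- the linear relation
  have hrel : (1 + hζ.toInteger) * H hζ.toInteger - H (hζ.toInteger ^ 2) =
      hζ.toInteger * (hζ.toInteger - 1) ^ ((m - 1) * p) * H 1 := by
    have h1 : (hζ.toInteger - 1) * ((1 + hζ.toInteger) * H hζ.toInteger - H (hζ.toInteger ^ 2)) =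
        (hζ.toInteger - 1) * (hζ.toInteger * (hζ.toInteger - 1) ^ ((m - 1) * p) * H 1) := by
      calc (hζ.toInteger - 1) * ((1 + hζ.toInteger) * H hζ.toInteger - H (hζ.toInteger ^ 2))
          = (1 + hζ.toInteger) * ((hζ.toInteger - 1) * H hζ.toInteger) -
              (hζ.toInteger - 1) * H (hζ.toInteger ^ 2) := by ring
        _ = (1 + hζ.toInteger) * (x + hζ.toInteger * y) - (x + hζ.toInteger ^ 2 * y) := by
            rw [← hX1, ← hX2]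
        _ = hζ.toInteger * (x + y) := by ring
        _ = _ := by rw [hH1, pow_succ]; ring
    exact mul_left_cancel₀ hprime.ne_zero h1
  -- `π ∤ d_i`
  have hd₀ndvd : ¬ hζ.toInteger - 1 ∣ d₀ := fun hd =>
    hHndvd 1 one_mem_roots (hd₀ ▸ Dvd.dvd.mul_right (dvd_pow hd hp.out.ne_zero) _)
  have hd₁ndvd : ¬ hζ.toInteger - 1 ∣ d₁ := fun hd =>
    hHndvd _ hη (hd₁ ▸ Dvd.dvd.mul_right (dvd_pow hd hp.out.ne_zero) _)
  have hd₂ndvd : ¬ hζ.toInteger - 1 ∣ d₂ := fun hd =>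
    hHndvd _ hη2 (hd₂ ▸ Dvd.dvd.mul_right (dvd_pow hd hp.out.ne_zero) _)
  -- the unit `ω`
  set ω : (𝓞 K)ˣ := -(u₂ * w⁻¹ * u₁⁻¹) with hω
  set ε' : (𝓞 K)ˣ := (hηprim.isUnit hp.out.ne_zero).unit * u₀ * w⁻¹ * u₁⁻¹ with hε'
  have hwinv : (w⁻¹ : (𝓞 K)ˣ) * (1 + hζ.toInteger) = (1 : 𝓞 K) := by
    rw [← hw]; simp
  have hnew : d₁ ^ p + ω * d₂ ^ p = ε' * ((hζ.toInteger - 1) ^ (m - 1) * d₀) ^ p := by
    have e1 : (u₁⁻¹ : (𝓞 K)ˣ) * (u₁ : 𝓞 K) = 1 := by simp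
    have key : (w⁻¹ : (𝓞 K)ˣ) * (u₁⁻¹ : (𝓞 K)ˣ) *
        ((1 + hζ.toInteger) * (d₁ ^ p * u₁) - d₂ ^ p * u₂) =
        (w⁻¹ : (𝓞 K)ˣ) * (u₁⁻¹ : (𝓞 K)ˣ) *
        (hζ.toInteger * (hζ.toInteger - 1) ^ ((m - 1) * p) * (d₀ ^ p * u₀)) := by
      rw [hd₀, hd₁, hd₂, hrel]
    have lhs : (w⁻¹ : (𝓞 K)ˣ) * (u₁⁻¹ : (𝓞 K)ˣ) *
        ((1 + hζ.toInteger) * (d₁ ^ p * u₁) - d₂ ^ p * u₂) = d₁ ^ p + ω * d₂ ^ p := by
      calc (w⁻¹ : (𝓞 K)ˣ) * (u₁⁻¹ : (𝓞 K)ˣ) *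
            ((1 + hζ.toInteger) * (d₁ ^ p * u₁) - d₂ ^ p * u₂)
          = ((w⁻¹ : (𝓞 K)ˣ) * (1 + hζ.toInteger)) * ((u₁⁻¹ : (𝓞 K)ˣ) * (u₁ : 𝓞 K)) * d₁ ^ p
              - (u₂ * (w⁻¹ : (𝓞 K)ˣ) * (u₁⁻¹ : (𝓞 K)ˣ)) * d₂ ^ p := by ring
        _ = d₁ ^ p + ω * d₂ ^ p := by
            rw [hwinv, e1, hω]
            push_cast
            ring
    have rhs : (w⁻¹ : (𝓞 K)ˣ) * (u₁⁻¹ : (𝓞 K)ˣ) *
        (hζ.toInteger * (hζ.toInteger - 1) ^ ((m - 1) * p) * (d₀ ^ p * u₀)) =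
        ε' * ((hζ.toInteger - 1) ^ (m - 1) * d₀) ^ p := by
      rw [hε', mul_pow, ← pow_mul]
      push_cast
      rw [IsUnit.unit_spec]
      ring
    rw [← lhs, key, rhs]
  -- Kummer's lemma applies to `ω`
  have hωcong : ∃ n : ℤ, (p : 𝓞 K) ∣ (ω : 𝓞 K) - n := by
    obtain ⟨a, ha⟩ := exists_int_sub_dvd hζ hodd d₁
    obtain ⟨b, hb⟩ := exists_int_sub_dvd hζ hodd d₂
    have ha' := pi_pow_dvd_pow_sub_pow hζ ha
    have hb' := pi_pow_dvd_pow_sub_pow hζ hb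
    have hpb : ¬ (p : ℤ) ∣ b := by
      intro hpb
      have h1 : hζ.toInteger - 1 ∣ (b : 𝓞 K) :=
        (IsCyclotomicExtension.Rat.zeta_sub_one_dvd_intCast_iff' p hζ).2 hpb
      have h2 : hζ.toInteger - 1 ∣ (d₂ - b) + b := dvd_add hb h1
      rw [sub_add_cancel] at h2
      exact hd₂ndvd h2
    have hsum : (hζ.toInteger - 1) ^ p ∣ d₁ ^ p + ω * d₂ ^ p := by
      rw [hnew, mul_pow, ← pow_mul]
      refine Dvd.dvd.mul_left (Dvd.dvd.mul_right (pow_dvd_pow _ ?_) _) _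
      calc p = 1 * p := (one_mul p).symm
        _ ≤ (m - 1) * p := Nat.mul_le_mul_right _ (by omega)
    have h3 : (hζ.toInteger - 1) ^ p ∣ (a : 𝓞 K) ^ p + ω * (b : 𝓞 K) ^ p := by
      have : (a : 𝓞 K) ^ p + ω * (b : 𝓞 K) ^ p =
          (d₁ ^ p + ω * d₂ ^ p) - (d₁ ^ p - (a : 𝓞 K) ^ p) - ω * (d₂ ^ p - (b : 𝓞 K) ^ p) := by
        ring
      rw [this]
      exact dvd_sub (dvd_sub hsum ha') (Dvd.dvd.mul_left hb' _)
    have h4 : (p : 𝓞 K) ∣ (a : 𝓞 K) ^ p + ω * (b : 𝓞 K) ^ p := (p_dvd_pi_pow hζ).trans h3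
    have hcopb : IsCoprime (b ^ p) (p : ℤ) := by
      refine IsCoprime.pow_left ?_
      exact ((Nat.prime_iff_prime_int.1 hp.out).coprime_iff_not_dvd.2 hpb).symm
    obtain ⟨c, e, hce⟩ := hcopb
    refine ⟨-(c * a ^ p), ?_⟩
    have hce' : (c : 𝓞 K) * (b : 𝓞 K) ^ p + (e : 𝓞 K) * (p : 𝓞 K) = 1 := by
      have := congrArg (Int.cast : ℤ → 𝓞 K) hce
      push_cast at this
      exact this
    have : (ω : 𝓞 K) - ((-(c * a ^ p) : ℤ) : 𝓞 K) =
        c * ((a : 𝓞 K) ^ p + ω * (b : 𝓞 K) ^ p) + (p : 𝓞 K) * (ω * e) := by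
      push_cast
      calc (ω : 𝓞 K) - -(c * (a : 𝓞 K) ^ p)
          = ω * 1 + c * (a : 𝓞 K) ^ p := by ring
        _ = ω * ((c : 𝓞 K) * (b : 𝓞 K) ^ p + (e : 𝓞 K) * (p : 𝓞 K)) + c * (a : 𝓞 K) ^ p := by
            rw [hce']
        _ = _ := by ring
    rw [this]
    exact dvd_add (Dvd.dvd.mul_left h4 _) (dvd_mul_right _ _)
  obtain ⟨v, hv⟩ := KL ω hωcong
  refine ⟨d₁, v * d₂, d₀, ε', hd₁ndvd, ?_, hd₀ndvd, ?_, ?_⟩
  · intro hd
    exact hd₂ndvd ((Units.dvd_mul_left).1 hd)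
  · have h1 : IsCoprime (d₁ ^ p) (d₂ ^ p) := by
      have := hcop _ hη _ hη2 hη_ne_η2
      rw [← hd₁, ← hd₂] at this
      exact (isCoprime_mul_unit_right_left u₁.isUnit _ _).1
        ((isCoprime_mul_unit_right_right u₂.isUnit _ _).1 this)
    have h2 : IsCoprime d₁ d₂ := (IsCoprime.pow_iff hp.out.pos hp.out.pos).1 h1
    exact (isCoprime_mul_unit_left_right v.isUnit _ _).2 h2
  · rw [mul_pow, ← hnew, hv]
    push_cast
    rfl


/-- Case II of Fermat's Last Theorem in `𝓞 K`, generalized equation. -/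
theorem not_isSol [IsPrincipalIdealRing (𝓞 K)] (hodd : p ≠ 2)
    (KL : ∀ u : (𝓞 K)ˣ, (∃ n : ℤ, (p : 𝓞 K) ∣ (u : 𝓞 K) - n) → ∃ v : (𝓞 K)ˣ, u = v ^ p)
    (m : ℕ) (hm : 1 ≤ m) (x y z : 𝓞 K) (ε : (𝓞 K)ˣ) : ¬ IsSol hζ m x y z ε := by
  induction m generalizing x y z ε with
  | zero => omega
  | succ n ih =>
    intro h
    obtain ⟨y', hy', hxy'⟩ := h.exists_normalized hodd hm
    obtain ⟨h2, x'', y'', z'', ε'', h''⟩ := hy'.descent hodd KL hm hxy'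
    simp only [Nat.add_sub_cancel] at h''
    exact ih (by omega) x'' y'' z'' ε'' h''

variable (hζ)

include hζ in
/-- Case II of Fermat's Last Theorem over `ℤ` for the prime `p`, assuming that the ring of
integers of the `p`-th cyclotomic field is a PID and Kummer's lemma. -/
theorem caseII_int [IsPrincipalIdealRing (𝓞 K)] (hodd : p ≠ 2)
    (KL : ∀ u : (𝓞 K)ˣ, (∃ n : ℤ, (p : 𝓞 K) ∣ (u : 𝓞 K) - n) → ∃ v : (𝓞 K)ˣ, u = v ^ p)
    {a b c : ℤ} (hc : c ≠ 0) (hpa : ¬ (p : ℤ) ∣ a) (hpb : ¬ (p : ℤ) ∣ b) (hpc : (p : ℤ) ∣ c)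
    (hab : IsCoprime a b) : a ^ p + b ^ p ≠ c ^ p := by
  intro hF
  have hprime : Prime (hζ.toInteger - 1) := hζ.zeta_sub_one_prime'
  have hc' : (c : 𝓞 K) ≠ 0 := by exact_mod_cast hc
  have hfin : FiniteMultiplicity (hζ.toInteger - 1) (c : 𝓞 K) :=
    FiniteMultiplicity.of_not_isUnit hprime.not_isUnit hc'
  obtain ⟨z, hz, hzndvd⟩ := hfin.exists_eq_pow_mul_and_not_dvd
  have hπc : hζ.toInteger - 1 ∣ (c : 𝓞 K) :=
    (IsCyclotomicExtension.Rat.zeta_sub_one_dvd_intCast_iff' p hζ).2 hpc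
  have hm : 1 ≤ multiplicity (hζ.toInteger - 1) (c : 𝓞 K) := by
    by_contra hlt
    have h0 : multiplicity (hζ.toInteger - 1) (c : 𝓞 K) = 0 := by omega
    rw [h0, pow_zero, one_mul] at hz
    exact hzndvd (hz ▸ hπc)
  refine not_isSol (hζ := hζ) hodd KL _ hm (a : 𝓞 K) (b : 𝓞 K) z 1 ⟨?_, ?_, hzndvd, ?_, ?_⟩
  · rwa [IsCyclotomicExtension.Rat.zeta_sub_one_dvd_intCast_iff' p hζ]
  · rwa [IsCyclotomicExtension.Rat.zeta_sub_one_dvd_intCast_iff' p hζ]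
  · exact IsCoprime.intCast hab
  · rw [← hz, Units.val_one, one_mul]
    exact_mod_cast hF


/-- Case II of Fermat's Last Theorem in `𝓞 K` (generalized equation), generic in the odd prime
`p`, assuming `𝓞 K` is a PID and Kummer's lemma. -/
theorem caseII_gen_of_prime [IsPrincipalIdealRing (𝓞 K)] (hodd : p ≠ 2)
    (KL : ∀ u : (𝓞 K)ˣ, (∃ n : ℤ, (p : 𝓞 K) ∣ (u : 𝓞 K) - n) → ∃ v : (𝓞 K)ˣ, u = v ^ p)
    (a b c : 𝓞 K) (u : (𝓞 K)ˣ) (hc : c ≠ 0) (ha : ¬ (hζ.toInteger - 1) ∣ a)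
    (hb : ¬ (hζ.toInteger - 1) ∣ b) (hcdvd : (hζ.toInteger - 1) ∣ c) (hab : IsCoprime a b) :
    a ^ p + b ^ p ≠ u * c ^ p := by
  intro hF
  have hprime : Prime (hζ.toInteger - 1) := hζ.zeta_sub_one_prime'
  have hfin : FiniteMultiplicity (hζ.toInteger - 1) c :=
    FiniteMultiplicity.of_not_isUnit hprime.not_isUnit hc
  obtain ⟨z, hz, hzndvd⟩ := hfin.exists_eq_pow_mul_and_not_dvd
  have hm : 1 ≤ multiplicity (hζ.toInteger - 1) c := by
    by_contra hlt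
    have h0 : multiplicity (hζ.toInteger - 1) c = 0 := by omega
    rw [h0, pow_zero, one_mul] at hz
    exact hzndvd (hz ▸ hcdvd)
  refine not_isSol (hζ := hζ) hodd KL _ hm a b z u ⟨ha, hb, hzndvd, hab, ?_⟩
  rw [← hz]
  exact hF


end CaseII

end Fermat.Agent.S11.H911

namespace Fermat.Agent.S11.CaseII

/-- T4 final (team skeleton name): the generalized Case II statement, generic in the odd prime
`p`, assuming `𝓞 K` is a PID and Kummer's lemma. -/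
theorem caseII_gen {K : Type*} [Field K] [NumberField K] {p : ℕ} [hp : Fact p.Prime]
    [hK : IsCyclotomicExtension {p} ℚ K] {ζ : K} (hζ : IsPrimitiveRoot ζ p)
    (hp2 : p ≠ 2) [IsPrincipalIdealRing (𝓞 K)]
    (hkummer : ∀ u : (𝓞 K)ˣ, (∃ m : ℤ, (p : 𝓞 K) ∣ (u : 𝓞 K) - (m : 𝓞 K)) →
      ∃ v : (𝓞 K)ˣ, u = v ^ p)
    (a b c : 𝓞 K) (u : (𝓞 K)ˣ) (hc : c ≠ 0) (ha : ¬ (hζ.toInteger - 1) ∣ a)
    (hb : ¬ (hζ.toInteger - 1) ∣ b) (hcdvd : (hζ.toInteger - 1) ∣ c) (hab : IsCoprime a b) :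
    a ^ p + b ^ p ≠ u * c ^ p :=
  Fermat.Agent.S11.H911.caseII_gen_of_prime hζ hp2 hkummer a b c u hc ha hb hcdvd hab

/-- Case II over `ℤ`, generic in the odd prime `p`, assuming that the ring of integers of one
`p`-th cyclotomic field `K` is a PID and Kummer's lemma for `K`. -/
theorem caseII_int {K : Type*} [Field K] [NumberField K] {p : ℕ} [hp : Fact p.Prime]
    [hK : IsCyclotomicExtension {p} ℚ K] (hp2 : p ≠ 2) [IsPrincipalIdealRing (𝓞 K)]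
    (hkummer : ∀ u : (𝓞 K)ˣ, (∃ m : ℤ, (p : 𝓞 K) ∣ (u : 𝓞 K) - (m : 𝓞 K)) →
      ∃ v : (𝓞 K)ˣ, u = v ^ p)
    {a b c : ℤ} (hc : c ≠ 0) (ha : ¬ (p : ℤ) ∣ a) (hb : ¬ (p : ℤ) ∣ b) (hcdvd : (p : ℤ) ∣ c)
    (hab : IsCoprime a b) : a ^ p + b ^ p ≠ c ^ p :=
  Fermat.Agent.S11.H911.caseII_int (IsCyclotomicExtension.zeta_spec p ℚ K) hp2 hkummer hc ha hb
    hcdvd hab

end Fermat.Agent.S11.CaseII

namespace Fermat.Agent.S11

open Fermat.Agent.S11.H911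

/-- Case II descent for `p = 11`, in the exact form of the team interface. -/
theorem caseII_gen {K : Type*} [Field K] [NumberField K] [IsCyclotomicExtension {11} ℚ K]
    {ζ : K} (hζ : IsPrimitiveRoot ζ 11)
    (hpid : IsPrincipalIdealRing (𝓞 K))
    (hkummer : ∀ u : (𝓞 K)ˣ, (∃ m : ℤ, (11 : 𝓞 K) ∣ (u : 𝓞 K) - (m : 𝓞 K)) →
      ∃ v : (𝓞 K)ˣ, u = v ^ 11)
    (a b c : 𝓞 K) (u : (𝓞 K)ˣ) (hc : c ≠ 0) (ha : ¬ (hζ.toInteger - 1) ∣ a)
    (hb : ¬ (hζ.toInteger - 1) ∣ b) (hcdvd : (hζ.toInteger - 1) ∣ c) (hab : IsCoprime a b) :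
    a ^ 11 + b ^ 11 ≠ u * c ^ 11 := by
  have : Fact (Nat.Prime 11) := ⟨by norm_num⟩
  refine caseII_gen_of_prime (p := 11) hζ (by norm_num) ?_ a b c u hc ha hb hcdvd hab
  intro w hw
  refine hkummer w ?_
  obtain ⟨n, hn⟩ := hw
  exact ⟨n, by simpa using hn⟩

/-- Case II over `ℤ` for `p = 11`, in the exact form of the team interface, assuming the PID
property and Kummer's lemma for one cyclotomic field `K`. -/
theorem caseII_eleven_of {K : Type*} [Field K] [NumberField K] [IsCyclotomicExtension {11} ℚ K]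
    (hpid : IsPrincipalIdealRing (𝓞 K))
    (hkummer : ∀ u : (𝓞 K)ˣ, (∃ m : ℤ, (11 : 𝓞 K) ∣ (u : 𝓞 K) - (m : 𝓞 K)) →
      ∃ v : (𝓞 K)ˣ, u = v ^ 11)
    {a b c : ℤ} (hc : c ≠ 0) (ha : ¬ (11 : ℤ) ∣ a) (hb : ¬ (11 : ℤ) ∣ b)
    (hcdvd : (11 : ℤ) ∣ c) (hab : IsCoprime a b) : a ^ 11 + b ^ 11 ≠ c ^ 11 := by
  have : Fact (Nat.Prime 11) := ⟨by norm_num⟩
  have hζ := IsCyclotomicExtension.zeta_spec 11 ℚ K
  refine caseII_int (p := 11) hζ (by norm_num) ?_ hc ?_ ?_ ?_ hab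
  · intro w hw
    refine hkummer w ?_
    obtain ⟨n, hn⟩ := hw
    exact ⟨n, by simpa using hn⟩
  · simpa using ha
  · simpa using hb
  · simpa using hcdvd

end Fermat.Agent.S11



end
-- ===== PACK-END S11/CaseII.lean

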