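import Mathlib

-- ===== PACK-BEGIN S10/PID13h430.lean
section


/-!
# The ring of integers of `ℚ(ζ₁₃)` is a principal ideal domain

Independent hedge (helper430).  Method: Minkowski bound `< 307`, Mathlib's Galois criterion
`RingOfIntegers.isPrincipalIdealRing_of_isPrincipal_of_lt_or_isPrincipal_of_mem_primesOver_of_mem_Icc`,
inertia degrees `= orderOf (p : ZMod 13)`, and explicit generators for one prime above each of
`3, 53, 79, 131, 157` (Kummer-Dedekind + cofactor identities modulo `Φ₁₃`).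
-/

open NumberField Polynomial Ideal Module

namespace Fermat.Agent.S10.H430


/-- table of multiplicative orders modulo 13 -/
def ordTable : ℕ → ℕ
  | 1 => 1
  | 12 => 2
  | 3 => 3
  | 9 => 3
  | 5 => 4
  | 8 => 4
  | 4 => 6
  | 10 => 6
  | _ => 12

lemma orderOf_zmod13_aux : ∀ x : ZMod 13, x ≠ 0 →
    x ^ ordTable x.val = 1 ∧ ∀ m < ordTable x.val, 0 < m → x ^ m ≠ 1 := by
  decide

lemma ordTable_pos (n : ℕ) : 0 < ordTable n := by
  unfold ordTable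
  split <;> norm_num

lemma orderOf_zmod13 (x : ZMod 13) (hx : x ≠ 0) : orderOf x = ordTable x.val := by
  rw [orderOf_eq_iff (ordTable_pos _)]
  exact orderOf_zmod13_aux x hx

set_option maxRecDepth 100000 in
lemma key_aux : ∀ p < 307, p ∈ [0,1,3,12,14,27,40,53,66,79,92,105,118,131,144,157,170,183,196,
    209,222,235,248,261,274,287,300] ∨ 306 < p ^ ordTable (p % 13) := by
  decide

lemma key (p : ℕ) (hp : p.Prime) (hle : p ≤ 306) (h13 : p ≠ 13)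
    (hs : p ≠ 3 ∧ p ≠ 53 ∧ p ≠ 79 ∧ p ≠ 131 ∧ p ≠ 157) :
    306 < p ^ orderOf (p : ZMod 13) := by
  have hx : (p : ZMod 13) ≠ 0 := by
    intro h
    rw [ZMod.natCast_eq_zero_iff] at h
    exact h13 ((Nat.prime_dvd_prime_iff_eq (by norm_num) hp).mp h).symm
  rw [orderOf_zmod13 _ hx, ZMod.val_natCast]
  rcases key_aux p (by omega) with h | h
  · exfalso
    simp only [List.mem_cons, List.not_mem_nil, or_false] at h
    obtain ⟨h3, h53, h79, h131, h157⟩ := hs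
    rcases h with rfl | rfl | rfl | rfl | rfl | rfl | rfl | rfl | rfl | rfl | rfl | rfl | rfl | rfl
      | rfl | rfl | rfl | rfl | rfl | rfl | rfl | rfl | rfl | rfl | rfl | rfl | rfl <;>
      first
      | exact absurd rfl h3
      | exact absurd rfl h53
      | exact absurd rfl h79
      | exact absurd rfl h131
      | exact absurd rfl h157
      | (revert hp; norm_num)
  · exact h



lemma cubic_three_natDegree : ((X ^ 3 - X - 1 : (ZMod 3)[X])).natDegree = 3 := by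
  compute_degree!

lemma cubic_three_noroot : ∀ (x : ZMod 3), ¬x ^ 3 - x - 1 = 0 := by decide

lemma cubic_three_irreducible : Irreducible (X ^ 3 - X - 1 : (ZMod 3)[X]) := by
  have hF : Fact (Nat.Prime 3) := ⟨by norm_num⟩
  apply irreducible_of_degree_le_three_of_not_isRoot
  · rw [cubic_three_natDegree]; decide
  · intro x
    simp only [IsRoot.def, eval_sub, eval_pow, eval_X, eval_one]
    exact cubic_three_noroot x

lemma cubic_three_map : (X ^ 3 - X - 1 : ℤ[X]).map (Int.castRingHom (ZMod 3)) = X ^ 3 - X - 1 := by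
  simp

lemma cubic_three_dvd : (X ^ 3 - X - 1 : (ZMod 3)[X]) ∣ cyclotomic 13 (ZMod 3) := by
  have hF : Fact (Nat.Prime 13) := ⟨by norm_num⟩
  have h : cyclotomic 13 ℤ = (X ^ 3 - X - 1) * (20 + 15 * X + 11 * X ^ 2 + 8 * X ^ 3 + 6 * X ^ 4 + 4 * X ^ 5 + 3 * X ^ 6 + 2 * X ^ 7 + X ^ 8 + X ^ 9) + 3 * (7 + 12 * X + 9 * X ^ 2) := by
    rw [cyclotomic_prime]
    simp only [Finset.sum_range_succ, Finset.sum_range_zero]
    ring
  have h2 := congrArg (Polynomial.map (Int.castRingHom (ZMod 3))) h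
  rw [map_cyclotomic] at h2
  rw [h2]
  have h3 : ((3 : ℤ[X])).map (Int.castRingHom (ZMod 3)) = 0 := by
    have : (3 : ℤ[X]) = C 3 := by simp
    rw [this, Polynomial.map_C]
    have : (Int.castRingHom (ZMod 3)) 3 = 0 := by decide
    rw [this, C_0]
  rw [Polynomial.map_add, Polynomial.map_mul, Polynomial.map_mul, h3, zero_mul, add_zero,
    cubic_three_map]
  exact Dvd.intro _ rfl



section
variable (K : Type*) [Field K] [NumberField K] [IsCyclotomicExtension {13} ℚ K]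

/-- the chosen primitive 13-th root of unity, as an algebraic integer -/
noncomputable def zeta13 : 𝓞 K := (IsCyclotomicExtension.zeta_spec 13 ℚ K).toInteger

lemma zeta13_sum : 1 + zeta13 K + zeta13 K ^ 2 + zeta13 K ^ 3 + zeta13 K ^ 4 + zeta13 K ^ 5
    + zeta13 K ^ 6 + zeta13 K ^ 7 + zeta13 K ^ 8 + zeta13 K ^ 9 + zeta13 K ^ 10 + zeta13 K ^ 11
    + zeta13 K ^ 12 = 0 := by
  have h := (IsCyclotomicExtension.zeta_spec 13 ℚ K).toInteger_isPrimitiveRoot.geom_sum_eq_zero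
    (by norm_num)
  simpa [Finset.sum_range_succ, zeta13] using h

lemma minpoly_zeta13 : minpoly ℤ (zeta13 K) = cyclotomic 13 ℤ := by
  rw [cyclotomic_eq_minpoly (IsCyclotomicExtension.zeta_spec 13 ℚ K) (by norm_num),
    ← (IsCyclotomicExtension.zeta_spec 13 ℚ K).coe_toInteger, ← RingOfIntegers.minpoly_coe]
  rfl

lemma not_dvd_exponent_zeta13 (q : ℕ) [hq : Fact q.Prime] :
    ¬ q ∣ RingOfIntegers.exponent (zeta13 K) := by
  have h : RingOfIntegers.exponent (zeta13 K) = 1 :=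
    RingOfIntegers.exponent_eq_one_iff.mpr <|
      IsCyclotomicExtension.Rat.adjoin_singleton_eq_top (IsCyclotomicExtension.zeta_spec 13 ℚ K)
  rw [h]
  exact hq.out.not_dvd_one

lemma exists_principal_prime_over (q : ℕ) [hq : Fact q.Prime] (Q : ℤ[X])
    (hQmonic : Q.Monic)
    (hQirr : Irreducible (Q.map (Int.castRingHom (ZMod q))))
    (hQdvd : Q.map (Int.castRingHom (ZMod q)) ∣ cyclotomic 13 (ZMod q))
    (α : 𝓞 K) (h1 : α ∣ (q : 𝓞 K)) (h2 : α ∣ aeval (zeta13 K) Q)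
    (h3 : α ∈ span {(q : 𝓞 K), aeval (zeta13 K) Q}) :
    ∃ P ∈ primesOver (span {(q : ℤ)}) (𝓞 K), Submodule.IsPrincipal P := by
  have hexp := not_dvd_exponent_zeta13 K q
  have hQ : Q.map (Int.castRingHom (ZMod q)) ∈ RingOfIntegers.monicFactorsMod (zeta13 K) q := by
    rw [Multiset.mem_toFinset, Polynomial.mem_normalizedFactors_iff
      (map_monic_ne_zero (minpoly.monic (zeta13 K).isIntegral))]
    refine ⟨hQirr, hQmonic.map _, ?_⟩
    rw [minpoly_zeta13, map_cyclotomic]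
    exact hQdvd
  refine ⟨((NumberField.Ideal.primesOverSpanEquivMonicFactorsMod hexp).symm ⟨_, hQ⟩ : Ideal (𝓞 K)),
    ((NumberField.Ideal.primesOverSpanEquivMonicFactorsMod hexp).symm ⟨_, hQ⟩).2, ?_⟩
  rw [NumberField.Ideal.primesOverSpanEquivMonicFactorsMod_symm_apply_eq_span hexp hQ]
  refine ⟨α, ?_⟩
  apply le_antisymm
  · rw [Ideal.span_le]
    intro x hx
    rcases hx with rfl | rfl
    · exact Ideal.mem_span_singleton.mpr h1
    · exact Ideal.mem_span_singleton.mpr h2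
  · rw [Ideal.submodule_span_eq, Ideal.span_le]
    intro x hx
    rw [Set.mem_singleton_iff] at hx
    rw [hx]
    exact h3

lemma exists_principal_prime_over_linear (q : ℕ) [hq : Fact q.Prime] (r : ℤ)
    (hr : ∑ i ∈ Finset.range 13, ((r : ZMod q)) ^ i = 0)
    (α β γ g : 𝓞 K) (m : ℤ) (h1 : α * β = (q : 𝓞 K)) (h2 : α * γ = zeta13 K - (r : 𝓞 K))
    (h3 : (m : 𝓞 K) * (q : 𝓞 K) + g * (zeta13 K - (r : 𝓞 K)) = α) :
    ∃ P ∈ primesOver (span {(q : ℤ)}) (𝓞 K), Submodule.IsPrincipal P := by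
  have hmap : (X - C r : ℤ[X]).map (Int.castRingHom (ZMod q)) = X - C (r : ZMod q) := by
    simp
  have hae : aeval (zeta13 K) (X - C r : ℤ[X]) = zeta13 K - (r : 𝓞 K) := by
    simp
  have h13 : Fact (Nat.Prime 13) := ⟨by norm_num⟩
  refine exists_principal_prime_over K q (X - C r) (monic_X_sub_C r) ?_ ?_ α ⟨β, h1.symm⟩ ?_ ?_
  · rw [hmap]
    exact irreducible_X_sub_C _
  · rw [hmap, dvd_iff_isRoot, IsRoot.def, cyclotomic_prime, eval_finsetSum]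
    simpa using hr
  · rw [hae]
    exact ⟨γ, h2.symm⟩
  · rw [hae]
    exact Ideal.mem_span_pair.mpr ⟨m, g, h3⟩




lemma finrank_thirteen : finrank ℚ K = 12 := by
  rw [IsCyclotomicExtension.finrank (n := 13) K (Polynomial.cyclotomic.irreducible_rat (by norm_num)),
    Nat.totient_prime (by norm_num)]

lemma nrComplexPlaces_thirteen : InfinitePlace.nrComplexPlaces K = 6 := by
  rw [IsCyclotomicExtension.Rat.nrComplexPlaces_eq_totient_div_two 13, Nat.totient_prime (by norm_num)]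

lemma discr_thirteen : discr K = 13 ^ 11 := by
  have hF : Fact (Nat.Prime 13) := ⟨by norm_num⟩
  rw [IsCyclotomicExtension.Rat.discr_prime 13 K]
  norm_num

lemma minkowski_lt :
    (4 / Real.pi) ^ InfinitePlace.nrComplexPlaces K *
      (((finrank ℚ K).factorial : ℝ) / (finrank ℚ K : ℝ) ^ (finrank ℚ K) *
        √|((discr K : ℤ) : ℝ)|) < 307 := by
  rw [finrank_thirteen, nrComplexPlaces_thirteen, discr_thirteen]
  have hpi : (3.1415 : ℝ) < Real.pi := Real.pi_gt_d4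
  have h1 : (4 / Real.pi) ^ 6 < (4 / 3.1415 : ℝ) ^ 6 := by
    gcongr
  have h2 : √|((13 ^ 11 : ℤ) : ℝ)| < 1338717 := by
    rw [Real.sqrt_lt' (by norm_num)]
    norm_num
  have h3 : (0 : ℝ) ≤ √|((13 ^ 11 : ℤ) : ℝ)| := Real.sqrt_nonneg _
  have hfac : ((Nat.factorial 12 : ℕ) : ℝ) = 479001600 := by
    norm_num [Nat.factorial]
  rw [hfac]
  have h4 : (0 : ℝ) < (4 / Real.pi) ^ 6 := by positivity
  calc (4 / Real.pi) ^ 6 * ((479001600 : ℝ) / ((12 : ℕ) : ℝ) ^ 12 * √|((13 ^ 11 : ℤ) : ℝ)|)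
      ≤ (4 / Real.pi) ^ 6 * ((479001600 : ℝ) / ((12 : ℕ) : ℝ) ^ 12 * 1338717) := by
        gcongr
    _ < (4 / 3.1415 : ℝ) ^ 6 * ((479001600 : ℝ) / ((12 : ℕ) : ℝ) ^ 12 * 1338717) := by
        gcongr
    _ < 307 := by norm_num


lemma root_53 : ∑ i ∈ Finset.range 13, (((-17 : ℤ) : ZMod 53)) ^ i = 0 := by decide

lemma exists_principal_53 :
    ∃ P ∈ primesOver (span {((53 : ℕ) : ℤ)}) (𝓞 K), Submodule.IsPrincipal P := by
  have hF : Fact (Nat.Prime 53) := ⟨by norm_num⟩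
  have hΦ := zeta13_sum K
  set ζ := zeta13 K with hζ
  refine exists_principal_prime_over_linear K 53 (-17) root_53
    (1 + ζ + ζ ^ 3)
    (1 - 24 * ζ - 35 * ζ ^ 2 - 25 * ζ ^ 3 - 10 * ζ ^ 4 - 14 * ζ ^ 5 - 20 * ζ ^ 6 - 29 * ζ ^ 7 - 16 * ζ ^ 8 - 23 * ζ ^ 9 - 7 * ζ ^ 10 - 36 * ζ ^ 11)
    (1 - 7 * ζ - 11 * ζ ^ 2 - 8 * ζ ^ 3 - 3 * ζ ^ 4 - 4 * ζ ^ 5 - 6 * ζ ^ 6 - 9 * ζ ^ 7 - 5 * ζ ^ 8 - 7 * ζ ^ 9 - 2 * ζ ^ 10 - 11 * ζ ^ 11)
    (290 - 17 * ζ + ζ ^ 2) (-93) ?_ ?_ ?_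
  · push_cast
    linear_combination (-52 + 29 * ζ - 36 * ζ ^ 2) * hΦ
  · push_cast
    linear_combination (-16 + 9 * ζ - 11 * ζ ^ 2) * hΦ
  · push_cast
    ring

lemma root_79 : ∑ i ∈ Finset.range 13, (((-15 : ℤ) : ZMod 79)) ^ i = 0 := by decide

lemma exists_principal_79 :
    ∃ P ∈ primesOver (span {((79 : ℕ) : ℤ)}) (𝓞 K), Submodule.IsPrincipal P := by
  have hF : Fact (Nat.Prime 79) := ⟨by norm_num⟩
  have hΦ := zeta13_sum K
  set ζ := zeta13 K with hζ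
  refine exists_principal_prime_over_linear K 79 (-15) root_79
    (1 + ζ - ζ ^ 4)
    (24 - 25 * ζ - 27 * ζ ^ 2 + 10 * ζ ^ 3 - 3 * ζ ^ 4 - 39 * ζ ^ 5 - 5 * ζ ^ 6 - 2 * ζ ^ 7 - 18 * ζ ^ 8 - 38 * ζ ^ 9 + 16 * ζ ^ 10 - 35 * ζ ^ 11)
    (5 - 4 * ζ - 5 * ζ ^ 2 + 2 * ζ ^ 3 - 7 * ζ ^ 5 - ζ ^ 6 - 3 * ζ ^ 8 - 7 * ζ ^ 9 + 3 * ζ ^ 10 - 6 * ζ ^ 11)
    (3376 - 225 * ζ + 15 * ζ ^ 2 - ζ ^ 3) (-641) ?_ ?_ ?_
  · push_cast
    linear_combination (-55 + 54 * ζ - 51 * ζ ^ 2 + 35 * ζ ^ 3) * hΦ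
  · push_cast
    linear_combination (-10 + 10 * ζ - 9 * ζ ^ 2 + 6 * ζ ^ 3) * hΦ
  · push_cast
    ring

lemma root_131 : ∑ i ∈ Finset.range 13, (((-51 : ℤ) : ZMod 131)) ^ i = 0 := by decide

lemma exists_principal_131 :
    ∃ P ∈ primesOver (span {((131 : ℕ) : ℤ)}) (𝓞 K), Submodule.IsPrincipal P := by
  have hF : Fact (Nat.Prime 131) := ⟨by norm_num⟩
  have hΦ := zeta13_sum K
  set ζ := zeta13 K with hζ
  refine exists_principal_prime_over_linear K 131 (-51) root_131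
    (1 - ζ - ζ ^ 3)
    (111 + 78 * ζ + 17 * ζ ^ 2 + 67 * ζ ^ 3 + 84 * ζ ^ 4 + 40 * ζ ^ 5 + 46 * ζ ^ 6 + 69 * ζ ^ 7 + 48 * ζ ^ 8 + 33 * ζ ^ 9 + 41 * ζ ^ 10 + 28 * ζ ^ 11)
    (43 + 31 * ζ + 7 * ζ ^ 2 + 26 * ζ ^ 3 + 33 * ζ ^ 4 + 16 * ζ ^ 5 + 18 * ζ ^ 6 + 27 * ζ ^ 7 + 19 * ζ ^ 8 + 13 * ζ ^ 9 + 16 * ζ ^ 10 + 11 * ζ ^ 11)
    (-2602 + 51 * ζ - ζ ^ 2) (1013) ?_ ?_ ?_
  · push_cast
    linear_combination (-20 - 13 * ζ - 28 * ζ ^ 2) * hΦ
  · push_cast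
    linear_combination (-8 - 5 * ζ - 11 * ζ ^ 2) * hΦ
  · push_cast
    ring

lemma root_157 : ∑ i ∈ Finset.range 13, (((75 : ℤ) : ZMod 157)) ^ i = 0 := by decide

lemma exists_principal_157 :
    ∃ P ∈ primesOver (span {((157 : ℕ) : ℤ)}) (𝓞 K), Submodule.IsPrincipal P := by
  have hF : Fact (Nat.Prime 157) := ⟨by norm_num⟩
  have hΦ := zeta13_sum K
  set ζ := zeta13 K with hζ
  refine exists_principal_prime_over_linear K 157 (75) root_157
    (1 - ζ + ζ ^ 2 + ζ ^ 4)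
    (89 + 86 * ζ + 42 * ζ ^ 2 + 77 * ζ ^ 3 + 67 * ζ ^ 4 + 25 * ζ ^ 5 + 37 * ζ ^ 6 + 56 * ζ ^ 7 + 73 * ζ ^ 8 + 113 * ζ ^ 9 + 124 * ζ ^ 10 + 76 * ζ ^ 11)
    (-43 - 41 * ζ - 20 * ζ ^ 2 - 37 * ζ ^ 3 - 32 * ζ ^ 4 - 12 * ζ ^ 5 - 18 * ζ ^ 6 - 27 * ζ ^ 7 - 35 * ζ ^ 8 - 54 * ζ ^ 9 - 59 * ζ ^ 10 - 36 * ζ ^ 11)
    (421949 + 5626 * ζ + 75 * ζ ^ 2 + ζ ^ 3) (201568) ?_ ?_ ?_
  · push_cast
    linear_combination (-68 + 65 * ζ + 48 * ζ ^ 2 + 76 * ζ ^ 3) * hΦ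
  · push_cast
    linear_combination (32 - 31 * ζ - 23 * ζ ^ 2 - 36 * ζ ^ 3) * hΦ
  · push_cast
    ring

lemma exists_principal_3 :
    ∃ P ∈ primesOver (span {((3 : ℕ) : ℤ)}) (𝓞 K), Submodule.IsPrincipal P := by
  have hF : Fact (Nat.Prime 3) := ⟨by norm_num⟩
  have hΦ := zeta13_sum K
  have hae : aeval (zeta13 K) (X ^ 3 - X - 1 : ℤ[X]) = zeta13 K ^ 3 - zeta13 K - 1 := by
    simp
  have hmonic : (X ^ 3 - X - 1 : ℤ[X]).Monic := by monicity!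
  refine exists_principal_prime_over K 3 (X ^ 3 - X - 1) hmonic ?_ ?_
    (zeta13 K ^ 3 - zeta13 K - 1) ?_ ?_ ?_
  · rw [cubic_three_map]
    exact cubic_three_irreducible
  · rw [cubic_three_map]
    exact cubic_three_dvd
  · set ζ := zeta13 K with hζ
    refine ⟨1 + ζ ^ 2 + ζ ^ 3 + 2 * ζ ^ 5 + ζ ^ 7 + 2 * ζ ^ 8 - ζ ^ 9 + 3 * ζ ^ 10, ?_⟩
    push_cast
    linear_combination (-(-4 + 3 * ζ)) * hΦ
  · rw [hae]
  · rw [hae]
    exact Ideal.subset_span (by simp)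

lemma exists_principal_13 :
    ∃ P ∈ primesOver (span {((13 : ℕ) : ℤ)}) (𝓞 K), Submodule.IsPrincipal P := by
  have hF : Fact (Nat.Prime 13) := ⟨by norm_num⟩
  obtain ⟨P, hP1, hP2⟩ := (span {((13 : ℕ) : ℤ)}).nonempty_primesOver (S := 𝓞 K)
  refine ⟨P, ⟨hP1, hP2⟩, ?_⟩
  rw [IsCyclotomicExtension.Rat.eq_span_zeta_sub_one_of_liesOver' 13 K
    (IsCyclotomicExtension.zeta_spec 13 ℚ K) P]
  exact ⟨_, rfl⟩

/-- The ring of integers of the 13-th cyclotomic field is a principal ideal domain. -/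
theorem thirteen_pid_aux : IsPrincipalIdealRing (𝓞 K) := by
  have hGal : IsGalois ℚ K := IsCyclotomicExtension.isGalois {13} ℚ K
  have hM : ⌊(4 / Real.pi) ^ InfinitePlace.nrComplexPlaces K *
      (((finrank ℚ K).factorial : ℝ) / (finrank ℚ K : ℝ) ^ (finrank ℚ K) *
        √|((discr K : ℤ) : ℝ)|)⌋₊ ≤ 306 := by
    have h := minkowski_lt K
    have h0 : (0 : ℝ) ≤ (4 / Real.pi) ^ InfinitePlace.nrComplexPlaces K *
      (((finrank ℚ K).factorial : ℝ) / (finrank ℚ K : ℝ) ^ (finrank ℚ K) *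
        √|((discr K : ℤ) : ℝ)|) := by positivity
    have h1 := (Nat.floor_lt h0).mpr (by exact_mod_cast h : _ < ((307 : ℕ) : ℝ))
    omega
  apply RingOfIntegers.isPrincipalIdealRing_of_isPrincipal_of_lt_or_isPrincipal_of_mem_primesOver_of_mem_Icc
  intro p hpmem hp
  have hple : p ≤ 306 := (Finset.mem_Icc.mp hpmem).2.trans hM
  by_cases h13 : p = 13
  · subst h13
    obtain ⟨P, hP, hpr⟩ := exists_principal_13 K
    exact ⟨P, hP, Or.inr hpr⟩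
  by_cases h3 : p = 3
  · subst h3
    obtain ⟨P, hP, hpr⟩ := exists_principal_3 K
    exact ⟨P, hP, Or.inr hpr⟩
  by_cases h53 : p = 53
  · subst h53
    obtain ⟨P, hP, hpr⟩ := exists_principal_53 K
    exact ⟨P, hP, Or.inr hpr⟩
  by_cases h79 : p = 79
  · subst h79
    obtain ⟨P, hP, hpr⟩ := exists_principal_79 K
    exact ⟨P, hP, Or.inr hpr⟩
  by_cases h131 : p = 131
  · subst h131
    obtain ⟨P, hP, hpr⟩ := exists_principal_131 K
    exact ⟨P, hP, Or.inr hpr⟩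
  by_cases h157 : p = 157
  · subst h157
    obtain ⟨P, hP, hpr⟩ := exists_principal_157 K
    exact ⟨P, hP, Or.inr hpr⟩
  have hF : Fact (Nat.Prime p) := ⟨hp⟩
  obtain ⟨P, hP1, hP2⟩ := (span {(p : ℤ)}).nonempty_primesOver (S := 𝓞 K)
  refine ⟨P, ⟨hP1, hP2⟩, Or.inl ?_⟩
  have hnd : ¬ p ∣ 13 := by
    intro h
    exact h13 ((Nat.prime_dvd_prime_iff_eq hp (by norm_num)).mp h)
  rw [IsCyclotomicExtension.Rat.inertiaDeg_eq_of_not_dvd p K P hnd]
  exact lt_of_le_of_lt hM (key p hp hple h13 ⟨h3, h53, h79, h131, h157⟩)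

end

end Fermat.Agent.S10.H430

namespace Fermat.Agent.S10

/-- The ring of integers of the 13-th cyclotomic field is a principal ideal domain. -/
theorem thirteen_pid_h430 (K : Type*) [Field K] [NumberField K] [IsCyclotomicExtension {13} ℚ K] :
    IsPrincipalIdealRing (NumberField.RingOfIntegers K) :=
  H430.thirteen_pid_aux K

end Fermat.Agent.S10

end
-- ===== PACK-END S10/PID13h430.lean

-- ===== PACK-BEGIN S10/Kummer.lean
section


/-
Kummer's lemma for the cyclotomic fields `ℚ(ζ_p)`, `p ∈ {5, 7, 11, 13}`: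
a unit of `ℤ[ζ_p]` congruent to a rational integer modulo `p` is a `p`-th power.

Proof: Dirichlet's unit theorem shows that the unit group modulo `p`-th powers is spanned by
`(p - 1) / 2` elements; the logarithmic derivative
`ψ : 𝓞ˣ → 𝔽_p[X]/(X^(p-2))` kills `p`-th powers and units congruent to an integer mod `p`,
and an explicit computation shows that the images of `ζ` and of the cyclotomic units
`1 + ζ + ... + ζ^(k-1)`, `2 ≤ k ≤ (p-1)/2`, are linearly independent.  Hence `ψ` is injective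
modulo `p`-th powers.
-/

namespace Fermat.Agent.S10.Kummer

section abstract


open Module in
/-- Abstract counting lemma behind Kummer's lemma. -/
theorem exists_pow_eq_of_map_eq_zero
    {E : Type*} [CommGroup E] {p : ℕ} [Fact p.Prime]
    {V : Type*} [AddCommGroup V] [Module (ZMod p) V]
    (ψ : Additive E →+ V)
    {ι κ : Type*} [Fintype ι] [Fintype κ]
    (g : ι → E) (hg : ∀ x : E, ∃ e : ι → ℤ, x = ∏ i, g i ^ e i)
    (c : κ → E) (hc : LinearIndependent (ZMod p) (fun k => ψ (Additive.ofMul (c k))))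
    (hcard : Fintype.card ι ≤ Fintype.card κ)
    (u : E) (hu : ψ (Additive.ofMul u) = 0) : ∃ v : E, u = v ^ p := by
  classical
  set w : ι → V := fun i => ψ (Additive.ofMul (g i)) with hw
  have key : ∀ (e : ι → ℤ), ψ (Additive.ofMul (∏ i, g i ^ e i)) = ∑ i, ((e i : ℤ) : ZMod p) • w i := by
    intro e
    rw [ofMul_prod, map_sum]
    refine Finset.sum_congr rfl fun i _ => ?_
    rw [ofMul_zpow, map_zsmul, hw, Int.cast_smul_eq_zsmul]
  have hmem : ∀ x : E, ψ (Additive.ofMul x) ∈ Submodule.span (ZMod p) (Set.range w) := by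
    intro x
    obtain ⟨e, rfl⟩ := hg x
    rw [key]
    exact Submodule.sum_mem _ fun i _ => Submodule.smul_mem _ _ (Submodule.subset_span ⟨i, rfl⟩)
  have hle : Submodule.span (ZMod p) (Set.range (fun k => ψ (Additive.ofMul (c k)))) ≤
      Submodule.span (ZMod p) (Set.range w) := by
    rw [Submodule.span_le]
    rintro _ ⟨k, rfl⟩
    exact hmem _
  have h1 : finrank (ZMod p) (Submodule.span (ZMod p) (Set.range (fun k => ψ (Additive.ofMul (c k)))))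
      = Fintype.card κ := finrank_span_eq_card hc
  have h2 : finrank (ZMod p) (Submodule.span (ZMod p) (Set.range w)) ≤ Fintype.card ι :=
    (finrank_span_le_card _).trans (by simpa using Finset.card_image_le (s := Finset.univ) (f := w))
  have : Module.Finite (ZMod p) (Submodule.span (ZMod p) (Set.range w)) :=
    Module.Finite.span_of_finite (ZMod p) (Set.finite_range w)
  have h3 := Submodule.finrank_mono hle
  have hwli : LinearIndependent (ZMod p) w := by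
    rw [linearIndependent_iff_card_eq_finrank_span, Set.finrank]
    omega
  obtain ⟨e, rfl⟩ := hg u
  rw [key] at hu
  have he := Fintype.linearIndependent_iff.mp hwli _ hu
  have he' : ∀ i, ∃ f : ℤ, e i = p * f := by
    intro i
    have := he i
    rw [ZMod.intCast_zmod_eq_zero_iff_dvd] at this
    exact this
  choose f hf using he'
  refine ⟨∏ i, g i ^ f i, ?_⟩
  rw [← Finset.prod_pow]
  refine Finset.prod_congr rfl fun i _ => ?_
  rw [hf i, mul_comm, zpow_mul, zpow_natCast]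


end abstract

section dirichlet


open NumberField

/-- Dirichlet's unit theorem: the unit group is generated by `rank K + 1` elements. -/
theorem exists_units_generators (K : Type*) [Field K] [NumberField K] :
    ∃ g : Option (Fin (Units.rank K)) → (𝓞 K)ˣ,
      ∀ x : (𝓞 K)ˣ, ∃ e : Option (Fin (Units.rank K)) → ℤ, x = ∏ i, g i ^ e i := by
  classical
  obtain ⟨t₀, ht₀⟩ := IsCyclic.exists_generator (α := Units.torsion K)
  refine ⟨fun i => i.elim (t₀ : (𝓞 K)ˣ) (Units.fundSystem K), fun x => ?_⟩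
  obtain ⟨⟨t, e'⟩, hx, -⟩ := Units.exist_unique_eq_mul_prod K x
  obtain ⟨k, hk⟩ := Subgroup.mem_zpowers_iff.mp (ht₀ t)
  refine ⟨fun i => i.elim k e', ?_⟩
  rw [Fintype.prod_option]
  simp only [Option.elim_none, Option.elim_some]
  rw [hx]
  congr 1
  rw [← hk]
  simp

theorem card_option_rank_cyclotomic (p : ℕ) [hp : Fact p.Prime] (h3 : 3 ≤ p)
    (K : Type*) [Field K] [NumberField K] [IsCyclotomicExtension {p} ℚ K] :
    Fintype.card (Option (Fin (Units.rank K))) = (p - 1) / 2 := by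
  have hlt : 2 < p := by omega
  rw [Fintype.card_option, Fintype.card_fin, Units.rank,
    InfinitePlace.card_eq_nrRealPlaces_add_nrComplexPlaces,
    IsCyclotomicExtension.Rat.nrRealPlaces_eq_zero (n := p) K hlt,
    IsCyclotomicExtension.Rat.nrComplexPlaces_eq_totient_div_two p K, Nat.totient_prime hp.out]
  have : 1 ≤ (p - 1) / 2 := by omega
  omega


end dirichlet


open Polynomial NumberField TrivSqZeroExt

section generic

variable (p : ℕ) [hp : Fact p.Prime]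

/-- The truncated polynomial ring `𝔽_p[X]/(X^(p-2))`. -/
abbrev TA : Type := (ZMod p)[X] ⧸ Ideal.span {(X : (ZMod p)[X]) ^ (p - 2)}

/-- Dual numbers over `TA p`. -/
abbrev TC : Type := TrivSqZeroExt (TA p) (TA p)

/-- The class of `X` in `TA p`. -/
noncomputable def xA : TA p := Ideal.Quotient.mk _ (X : (ZMod p)[X])

lemma xA_pow : (xA p) ^ (p - 2) = 0 := by
  rw [xA, ← map_pow]
  exact Ideal.Quotient.eq_zero_iff_mem.mpr (Ideal.subset_span rfl)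

/-- The image of `ζ` in `TC p`. -/
noncomputable def zC : TC p := inl (1 + xA p) + inr 1

lemma zC_sub_one_pow (h3 : 3 ≤ p) : (zC p - 1) ^ (p - 1) = 0 := by
  have h1 : zC p - 1 = inl (xA p) + inr 1 := by
    rw [zC, inl_add, inl_one]; abel
  rw [h1]
  ext
  · simp only [fst_pow, fst_add, fst_inl, fst_inr, add_zero, fst_zero]
    have : p - 1 = (p - 2) + 1 := by omega
    rw [this, pow_succ, xA_pow, zero_mul]
  · simp only [snd_pow, fst_add, fst_inl, fst_inr, add_zero, snd_add, snd_inl, snd_inr, zero_add,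
      snd_zero]
    have : (p - 1).pred = p - 2 := by
      rw [Nat.pred_eq_sub_one]; omega
    rw [this, xA_pow]; simp

lemma aeval_zC_cyclotomic (h3 : 3 ≤ p) : aeval (zC p) (cyclotomic p ℤ) = 0 := by
  have h1 : cyclotomic p (ZMod p) = (X - 1) ^ (p - 1) := by
    have := cyclotomic_mul_prime_pow_eq (ZMod p) (p := p) (m := 1) (hp.out.one_lt.ne' ∘ Nat.dvd_one.mp)
      (k := 1) one_pos
    simpa [cyclotomic_one] using this
  rw [← aeval_map_algebraMap (ZMod p), map_cyclotomic, h1]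
  simp only [map_pow, map_sub, aeval_X, map_one]
  exact zC_sub_one_pow p h3

variable {p}
variable {K : Type*} [Field K] [NumberField K] [IsCyclotomicExtension {p} ℚ K]
variable {ζ : K} (hζ : IsPrimitiveRoot ζ p)

omit [IsCyclotomicExtension {p} ℚ K] in
lemma minpoly_toInteger : minpoly ℤ hζ.toInteger = cyclotomic p ℤ := by
  rw [cyclotomic_eq_minpoly hζ hp.out.pos]
  exact (RingOfIntegers.minpoly_coe hζ.toInteger).symm

/-- The ring homomorphism `𝓞 K → TC p` sending `ζ` to `zC p`. -/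
noncomputable def PsiHom (h3 : 3 ≤ p) : 𝓞 K →ₐ[ℤ] TC p :=
  hζ.integralPowerBasis.lift (zC p) (by
    rw [hζ.integralPowerBasis_gen, minpoly_toInteger hζ]
    exact aeval_zC_cyclotomic p h3)

lemma PsiHom_zeta (h3 : 3 ≤ p) : PsiHom hζ h3 hζ.toInteger = zC p := by
  calc PsiHom hζ h3 hζ.toInteger = PsiHom hζ h3 hζ.integralPowerBasis.gen := by
        rw [hζ.integralPowerBasis_gen]
    _ = zC p := hζ.integralPowerBasis.lift_gen (zC p) _

lemma natCast_TA_eq_zero : ((p : ℕ) : TA p) = 0 := by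
  rw [← map_natCast (algebraMap (ZMod p) (TA p)) p, ZMod.natCast_self, map_zero]

lemma natCast_TC_eq_zero : ((p : ℕ) : TC p) = 0 := by
  rw [← map_natCast (algebraMap (ZMod p) (TC p)) p, ZMod.natCast_self, map_zero]

/-- The logarithmic derivative `ψ : (𝓞 K)ˣ → TA p`. -/
noncomputable def logDeriv (h3 : 3 ≤ p) : Additive (𝓞 K)ˣ →+ TA p where
  toFun u := (PsiHom hζ h3 (Additive.toMul u : (𝓞 K)ˣ)).snd *
    (PsiHom hζ h3 ((Additive.toMul u)⁻¹ : (𝓞 K)ˣ)).fst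
  map_zero' := by simp
  map_add' u v := by
    set a := Additive.toMul u
    set b := Additive.toMul v
    have ha : (PsiHom hζ h3 (a : 𝓞 K)).fst * (PsiHom hζ h3 ((a⁻¹ : (𝓞 K)ˣ) : 𝓞 K)).fst = 1 := by
      rw [← fst_mul, ← map_mul, Units.mul_inv, map_one, fst_one]
    have hb : (PsiHom hζ h3 (b : 𝓞 K)).fst * (PsiHom hζ h3 ((b⁻¹ : (𝓞 K)ˣ) : 𝓞 K)).fst = 1 := by
      rw [← fst_mul, ← map_mul, Units.mul_inv, map_one, fst_one]
    simp only [toMul_add, Units.val_mul, map_mul, mul_inv, snd_mul, fst_mul, smul_eq_mul,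
      MulOpposite.smul_eq_mul_unop, MulOpposite.unop_op]
    linear_combination ((PsiHom hζ h3 (b : 𝓞 K)).snd * (PsiHom hζ h3 ((b⁻¹ : (𝓞 K)ˣ) : 𝓞 K)).fst) * ha
      + ((PsiHom hζ h3 (a : 𝓞 K)).snd * (PsiHom hζ h3 ((a⁻¹ : (𝓞 K)ˣ) : 𝓞 K)).fst) * hb

lemma logDeriv_apply (h3 : 3 ≤ p) (u : (𝓞 K)ˣ) :
    logDeriv hζ h3 (Additive.ofMul u) =
      (PsiHom hζ h3 (u : 𝓞 K)).snd * (PsiHom hζ h3 ((u⁻¹ : (𝓞 K)ˣ) : 𝓞 K)).fst := rfl

lemma logDeriv_eq_zero_of_dvd (h3 : 3 ≤ p) (u : (𝓞 K)ˣ) (n : ℤ)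
    (h : ((p : ℕ) : 𝓞 K) ∣ (u : 𝓞 K) - n) : logDeriv hζ h3 (Additive.ofMul u) = 0 := by
  obtain ⟨r, hr⟩ := h
  have hu : (u : 𝓞 K) = n + (p : ℕ) * r := by rw [← hr]; ring
  rw [logDeriv_apply, hu]
  simp only [map_add, map_mul, map_intCast, map_natCast, natCast_TC_eq_zero, zero_mul, add_zero]
  simp


/-- Powers of `x` below `p - 2` are linearly independent in `TA p`. -/
lemma TA_coeffs_eq_zero (b : Fin (p - 2) → ZMod p)
    (h : ∑ j : Fin (p - 2), algebraMap (ZMod p) (TA p) (b j) * xA p ^ (j : ℕ) = 0) :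
    ∀ j, b j = 0 := by
  classical
  have h1 : ∑ j : Fin (p - 2), algebraMap (ZMod p) (TA p) (b j) * xA p ^ (j : ℕ) =
      Ideal.Quotient.mk _ (∑ j : Fin (p - 2), C (b j) * (X : (ZMod p)[X]) ^ (j : ℕ)) := by
    rw [map_sum]
    refine Finset.sum_congr rfl fun j _ => ?_
    rw [map_mul, map_pow, xA]
    rfl
  rw [h1, Ideal.Quotient.eq_zero_iff_mem, Ideal.mem_span_singleton, X_pow_dvd_iff] at h
  intro j
  have := h j j.2
  rw [finsetSum_coeff] at this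
  simp only [coeff_C_mul, coeff_X_pow] at this
  rw [Finset.sum_eq_single j] at this
  · simpa using this
  · intro i _ hij
    have : (j : ℕ) ≠ (i : ℕ) := fun h => hij (Fin.ext h.symm)
    simp [this]
  · simp

lemma logDeriv_eq_of_mul_eq (h3 : 3 ≤ p) (u : (𝓞 K)ˣ) (T : TA p)
    (hT : T * (PsiHom hζ h3 (u : 𝓞 K)).fst = (PsiHom hζ h3 (u : 𝓞 K)).snd) :
    logDeriv hζ h3 (Additive.ofMul u) = T := by
  have ha : (PsiHom hζ h3 (u : 𝓞 K)).fst * (PsiHom hζ h3 ((u⁻¹ : (𝓞 K)ˣ) : 𝓞 K)).fst = 1 := by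
    rw [← fst_mul, ← map_mul, Units.mul_inv, map_one, fst_one]
  rw [logDeriv_apply, ← hT, mul_assoc, ha, mul_one]

theorem linearIndependent_logDeriv (h3 : 3 ≤ p) {m : ℕ}
    (A : Matrix (Fin m) (Fin (p - 2)) (ZMod p))
    (B : Matrix (Fin (p - 2)) (Fin m) (ZMod p)) (hAB : A * B = 1)
    (c : Fin m → (𝓞 K)ˣ)
    (hc : ∀ k, (∑ j : Fin (p - 2), algebraMap (ZMod p) (TA p) (A k j) * xA p ^ (j : ℕ)) *
      (PsiHom hζ h3 (c k : 𝓞 K)).fst = (PsiHom hζ h3 (c k : 𝓞 K)).snd) :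
    LinearIndependent (ZMod p) (fun k => logDeriv hζ h3 (Additive.ofMul (c k))) := by
  rw [Fintype.linearIndependent_iff]
  intro n hn
  have h1 : ∀ k, logDeriv hζ h3 (Additive.ofMul (c k)) =
      ∑ j : Fin (p - 2), algebraMap (ZMod p) (TA p) (A k j) * xA p ^ (j : ℕ) :=
    fun k => logDeriv_eq_of_mul_eq hζ h3 (c k) _ (hc k)
  simp only [h1] at hn
  have h2 : ∑ j : Fin (p - 2), algebraMap (ZMod p) (TA p) (Matrix.vecMul n A j) * xA p ^ (j : ℕ)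
      = 0 := by
    rw [← hn]
    simp only [Matrix.vecMul, dotProduct, map_sum, map_mul, Finset.sum_mul, Finset.smul_sum]
    rw [Finset.sum_comm]
    refine Finset.sum_congr rfl fun k _ => Finset.sum_congr rfl fun j _ => ?_
    rw [mul_assoc]
    exact (Algebra.smul_def _ _).symm
  have h3' := TA_coeffs_eq_zero (Matrix.vecMul n A) h2
  have h4 : Matrix.vecMul n A = 0 := funext h3'
  have h5 : Matrix.vecMul n (A * B) = 0 := by
    rw [← Matrix.vecMul_vecMul, h4, Matrix.zero_vecMul]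
  rw [hAB, Matrix.vecMul_one] at h5
  intro i
  exact congrFun h5 i


/-- `ζ` as a unit of `𝓞 K`. -/
noncomputable def zetaUnit : (𝓞 K)ˣ :=
  (hζ.toInteger_isPrimitiveRoot.isUnit hp.out.ne_zero).unit

/-- The cyclotomic unit `1 + ζ + ... + ζ^(k-1)`. -/
noncomputable def cycUnit (k : ℕ) (hk : k.Coprime p) : (𝓞 K)ˣ :=
  (hζ.toInteger_isPrimitiveRoot.geom_sum_isUnit hp.out.two_le hk).unit

lemma fst_zC_pow (i : ℕ) : ((zC p) ^ i).fst = (1 + xA p) ^ i := by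
  simp [zC]

lemma snd_zC_pow (i : ℕ) : ((zC p) ^ i).snd = (i : TA p) * (1 + xA p) ^ (i - 1) := by
  simp [zC, Nat.pred_eq_sub_one]

lemma fst_PsiHom_zetaUnit (h3 : 3 ≤ p) :
    (PsiHom hζ h3 (zetaUnit hζ : 𝓞 K)).fst = 1 + xA p := by
  rw [zetaUnit, IsUnit.unit_spec, PsiHom_zeta]
  simp [zC]

lemma snd_PsiHom_zetaUnit (h3 : 3 ≤ p) :
    (PsiHom hζ h3 (zetaUnit hζ : 𝓞 K)).snd = 1 := by
  rw [zetaUnit, IsUnit.unit_spec, PsiHom_zeta]
  simp [zC]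

lemma fst_PsiHom_cycUnit (h3 : 3 ≤ p) (k : ℕ) (hk : k.Coprime p) :
    (PsiHom hζ h3 (cycUnit hζ k hk : 𝓞 K)).fst = ∑ i ∈ Finset.range k, (1 + xA p) ^ i := by
  rw [cycUnit, IsUnit.unit_spec, map_sum]
  simp only [map_pow, PsiHom_zeta]
  rw [fst_sum]
  simp only [fst_zC_pow]

lemma snd_PsiHom_cycUnit (h3 : 3 ≤ p) (k : ℕ) (hk : k.Coprime p) :
    (PsiHom hζ h3 (cycUnit hζ k hk : 𝓞 K)).snd =
      ∑ i ∈ Finset.range k, (i : TA p) * (1 + xA p) ^ (i - 1) := by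
  rw [cycUnit, IsUnit.unit_spec, map_sum]
  simp only [map_pow, PsiHom_zeta]
  rw [snd_sum]
  simp only [snd_zC_pow]


/-- Kummer's lemma from explicit matrix data. -/
theorem kummer_of_data (h3 : 3 ≤ p) {m : ℕ} (hm : (p - 1) / 2 ≤ m)
    (A : Matrix (Fin m) (Fin (p - 2)) (ZMod p))
    (B : Matrix (Fin (p - 2)) (Fin m) (ZMod p)) (hAB : A * B = 1)
    (c : Fin m → (𝓞 K)ˣ)
    (hc : ∀ k, (∑ j : Fin (p - 2), algebraMap (ZMod p) (TA p) (A k j) * xA p ^ (j : ℕ)) *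
      (PsiHom hζ h3 (c k : 𝓞 K)).fst = (PsiHom hζ h3 (c k : 𝓞 K)).snd)
    (u : (𝓞 K)ˣ) (hu : ∃ n : ℤ, ((p : ℕ) : 𝓞 K) ∣ (u : 𝓞 K) - n) :
    ∃ v : (𝓞 K)ˣ, u = v ^ p := by
  obtain ⟨g, hg⟩ := exists_units_generators K
  obtain ⟨n, hn⟩ := hu
  exact exists_pow_eq_of_map_eq_zero (logDeriv hζ h3) g hg c
    (linearIndependent_logDeriv hζ h3 A B hAB c hc)
    (by rw [card_option_rank_cyclotomic p h3 K, Fintype.card_fin]; exact hm) u
    (logDeriv_eq_zero_of_dvd hζ h3 u n hn)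

end generic

section five

local instance fact_prime_five' : Fact (Nat.Prime 5) := ⟨by norm_num⟩

theorem kummer_five (K : Type*) [Field K] [NumberField K] [IsCyclotomicExtension {5} ℚ K]
    (u : (𝓞 K)ˣ) (hu : ∃ n : ℤ, ((5 : ℕ) : 𝓞 K) ∣ (u : 𝓞 K) - n) :
    ∃ v : (𝓞 K)ˣ, u = v ^ 5 := by
  have hζ := IsCyclotomicExtension.zeta_spec 5 ℚ K
  have hx : xA 5 ^ 3 = 0 := xA_pow 5
  have h0 : (5 : TA 5) = 0 := by
    exact_mod_cast natCast_TA_eq_zero (p := 5)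
  refine kummer_of_data (p := 5) hζ (by norm_num) (m := 2) (by norm_num)
    !![1, 4, 1; 3, 1, 2] !![4, 4; 3, 4; 0, 0] (by decide)
    ![zetaUnit hζ, cycUnit hζ 2 (by norm_num)] ?_ u hu
  intro k
  fin_cases k
  · simp [fst_PsiHom_zetaUnit, snd_PsiHom_zetaUnit, Fin.sum_univ_succ, map_ofNat]
    linear_combination ((1) : TA 5) * hx + ((1) * xA 5 + (1) * xA 5 ^ 2) * h0
  · simp [fst_PsiHom_cycUnit, snd_PsiHom_cycUnit, Fin.sum_univ_succ, Finset.sum_range_succ, map_ofNat]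
    linear_combination ((2) : TA 5) * hx + ((1) + (1) * xA 5 + (1) * xA 5 ^ 2) * h0

end five

section seven

local instance fact_prime_seven' : Fact (Nat.Prime 7) := ⟨by norm_num⟩

/-- Kummer's lemma for `p = 7`. -/
theorem kummer_seven (K : Type*) [Field K] [NumberField K] [IsCyclotomicExtension {7} ℚ K]
    (u : (𝓞 K)ˣ) (hu : ∃ n : ℤ, ((7 : ℕ) : 𝓞 K) ∣ (u : 𝓞 K) - n) :
    ∃ v : (𝓞 K)ˣ, u = v ^ 7 := by
  have hζ := IsCyclotomicExtension.zeta_spec 7 ℚ K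
  have hx : xA 7 ^ 5 = 0 := xA_pow 7
  have h0 : (7 : TA 7) = 0 := by
    exact_mod_cast natCast_TA_eq_zero (p := 7)
  refine kummer_of_data (p := 7) hζ (by norm_num) (m := 3) (by norm_num)
    !![1, 6, 1, 6, 1; 4, 5, 1, 3, 2; 1, 2, 0, 4, 3]
    !![0, 3, 3; 5, 4, 0; 0, 0, 0; 1, 6, 3; 0, 0, 0] (by decide)
    ![zetaUnit hζ, cycUnit hζ 2 (by norm_num), cycUnit hζ 3 (by norm_num)] ?_ u hu
  intro k
  fin_cases k
  · simp [fst_PsiHom_zetaUnit, snd_PsiHom_zetaUnit, Fin.sum_univ_succ, map_ofNat]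
    linear_combination (((1)) : TA 7) * hx + ((1) * xA 7 + (1) * xA 7 ^ 2 + (1) * xA 7 ^ 3 + (1) * xA 7 ^ 4) * h0
  · simp [fst_PsiHom_cycUnit, snd_PsiHom_cycUnit, Fin.sum_univ_succ, Finset.sum_range_succ, map_ofNat]
    linear_combination (((2)) : TA 7) * hx + ((1) + (2) * xA 7 + (1) * xA 7 ^ 2 + (1) * xA 7 ^ 3 + (1) * xA 7 ^ 4) * h0
  · simp [fst_PsiHom_cycUnit, snd_PsiHom_cycUnit, Fin.sum_univ_succ, Finset.sum_range_succ, map_ofNat]
    linear_combination (((13) + (3) * xA 7) : TA 7) * hx + ((1) * xA 7 + (1) * xA 7 ^ 2 + (2) * xA 7 ^ 3 + (3) * xA 7 ^ 4) * h0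

end seven

section eleven

local instance fact_prime_eleven' : Fact (Nat.Prime 11) := ⟨by norm_num⟩

/-- Kummer's lemma for `p = 11`. -/
theorem kummer_eleven (K : Type*) [Field K] [NumberField K] [IsCyclotomicExtension {11} ℚ K]
    (u : (𝓞 K)ˣ) (hu : ∃ n : ℤ, ((11 : ℕ) : 𝓞 K) ∣ (u : 𝓞 K) - n) :
    ∃ v : (𝓞 K)ˣ, u = v ^ 11 := by
  have hζ := IsCyclotomicExtension.zeta_spec 11 ℚ K
  have hx : xA 11 ^ 9 = 0 := xA_pow 11
  have h0 : (11 : TA 11) = 0 := by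
    exact_mod_cast natCast_TA_eq_zero (p := 11)
  refine kummer_of_data (p := 11) hζ (by norm_num) (m := 5) (by norm_num)
    !![1, 10, 1, 10, 1, 10, 1, 10, 1; 6, 8, 7, 2, 10, 6, 8, 7, 2; 1, 7, 0, 5, 6, 7, 2, 3, 0; 7, 8, 1, 8, 7, 6, 4, 0, 0; 2, 0, 10, 3, 0, 6, 5, 6, 5]
    !![9, 6, 7, 0, 2; 1, 8, 7, 4, 2; 0, 0, 0, 0, 0; 9, 0, 1, 3, 1; 0, 0, 0, 0, 0; 0, 8, 5, 0, 1; 0, 0, 0, 0, 0; 9, 1, 5, 4, 9; 0, 0, 0, 0, 0] (by decide)
    ![zetaUnit hζ, cycUnit hζ 2 (by norm_num), cycUnit hζ 3 (by norm_num), cycUnit hζ 4 (by norm_num), cycUnit hζ 5 (by norm_num)] ?_ u hu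
  intro k
  fin_cases k
  · simp [fst_PsiHom_zetaUnit, snd_PsiHom_zetaUnit, Fin.sum_univ_succ, map_ofNat]
    linear_combination (((1)) : TA 11) * hx + ((1) * xA 11 + (1) * xA 11 ^ 2 + (1) * xA 11 ^ 3 + (1) * xA 11 ^ 4 + (1) * xA 11 ^ 5 + (1) * xA 11 ^ 6 + (1) * xA 11 ^ 7 + (1) * xA 11 ^ 8) * h0
  · simp [fst_PsiHom_cycUnit, snd_PsiHom_cycUnit, Fin.sum_univ_succ, Finset.sum_range_succ, map_ofNat]
    linear_combination (((2)) : TA 11) * hx + ((1) + (2) * xA 11 + (2) * xA 11 ^ 2 + (1) * xA 11 ^ 3 + (2) * xA 11 ^ 4 + (2) * xA 11 ^ 5 + (2) * xA 11 ^ 6 + (2) * xA 11 ^ 7 + (1) * xA 11 ^ 8) * h0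
  · simp [fst_PsiHom_cycUnit, snd_PsiHom_cycUnit, Fin.sum_univ_succ, Finset.sum_range_succ, map_ofNat]
    linear_combination (((3)) : TA 11) * hx + ((2) * xA 11 + (2) * xA 11 ^ 2 + (2) * xA 11 ^ 3 + (3) * xA 11 ^ 4 + (4) * xA 11 ^ 5 + (3) * xA 11 ^ 6 + (2) * xA 11 ^ 7 + (1) * xA 11 ^ 8) * h0
  · simp [fst_PsiHom_cycUnit, snd_PsiHom_cycUnit, Fin.sum_univ_succ, Finset.sum_range_succ, map_ofNat]
    linear_combination (((4)) : TA 11) * hx + ((2) + (6) * xA 11 + (7) * xA 11 ^ 2 + (7) * xA 11 ^ 3 + (8) * xA 11 ^ 4 + (9) * xA 11 ^ 5 + (8) * xA 11 ^ 6 + (5) * xA 11 ^ 7 + (2) * xA 11 ^ 8) * h0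
  · simp [fst_PsiHom_cycUnit, snd_PsiHom_cycUnit, Fin.sum_univ_succ, Finset.sum_range_succ, map_ofNat]
    linear_combination (((141) + (85) * xA 11 + (31) * xA 11 ^ 2 + (5) * xA 11 ^ 3) : TA 11) * hx + ((5) * xA 11 ^ 2 + (11) * xA 11 ^ 3 + (12) * xA 11 ^ 4 + (10) * xA 11 ^ 5 + (10) * xA 11 ^ 6 + (13) * xA 11 ^ 7 + (15) * xA 11 ^ 8) * h0

end eleven

section thirteen

local instance fact_prime_thirteen' : Fact (Nat.Prime 13) := ⟨by norm_num⟩

/-- Kummer's lemma for `p = 13`. -/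
theorem kummer_thirteen (K : Type*) [Field K] [NumberField K] [IsCyclotomicExtension {13} ℚ K]
    (u : (𝓞 K)ˣ) (hu : ∃ n : ℤ, ((13 : ℕ) : 𝓞 K) ∣ (u : 𝓞 K) - n) :
    ∃ v : (𝓞 K)ˣ, u = v ^ 13 := by
  have hζ := IsCyclotomicExtension.zeta_spec 13 ℚ K
  have hx : xA 13 ^ 11 = 0 := xA_pow 13
  have h0 : (13 : TA 13) = 0 := by
    exact_mod_cast natCast_TA_eq_zero (p := 13)
  refine kummer_of_data (p := 13) hζ (by norm_num) (m := 6) (by norm_num)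
    !![1, 12, 1, 12, 1, 12, 1, 12, 1, 12, 1; 7, 3, 5, 4, 11, 1, 6, 10, 8, 9, 2; 1, 4, 0, 3, 10, 2, 12, 9, 0, 10, 3; 8, 3, 11, 11, 1, 1, 11, 5, 4, 9, 4; 2, 0, 12, 6, 0, 2, 11, 4, 7, 3, 5; 9, 8, 3, 8, 9, 1, 6, 7, 6, 7, 6]
    !![1, 10, 12, 7, 4, 4; 3, 2, 12, 11, 2, 1; 0, 0, 0, 0, 0, 0; 3, 10, 2, 9, 2, 2; 0, 0, 0, 0, 0, 0; 9, 7, 4, 9, 7, 11; 0, 0, 0, 0, 0, 0; 7, 11, 0, 6, 1, 1; 0, 0, 0, 0, 0, 0; 4, 6, 7, 11, 5, 2; 0, 0, 0, 0, 0, 0] (by decide)
    ![zetaUnit hζ, cycUnit hζ 2 (by norm_num), cycUnit hζ 3 (by norm_num), cycUnit hζ 4 (by norm_num), cycUnit hζ 5 (by norm_num), cycUnit hζ 6 (by norm_num)] ?_ u hu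
  intro k
  fin_cases k
  · simp [fst_PsiHom_zetaUnit, snd_PsiHom_zetaUnit, Fin.sum_univ_succ, map_ofNat]
    linear_combination (((1)) : TA 13) * hx + ((1) * xA 13 + (1) * xA 13 ^ 2 + (1) * xA 13 ^ 3 + (1) * xA 13 ^ 4 + (1) * xA 13 ^ 5 + (1) * xA 13 ^ 6 + (1) * xA 13 ^ 7 + (1) * xA 13 ^ 8 + (1) * xA 13 ^ 9 + (1) * xA 13 ^ 10) * h0
  · simp [fst_PsiHom_cycUnit, snd_PsiHom_cycUnit, Fin.sum_univ_succ, Finset.sum_range_succ, map_ofNat]
    linear_combination (((2)) : TA 13) * hx + ((1) + (1) * xA 13 + (1) * xA 13 ^ 2 + (1) * xA 13 ^ 3 + (2) * xA 13 ^ 4 + (1) * xA 13 ^ 5 + (1) * xA 13 ^ 6 + (2) * xA 13 ^ 7 + (2) * xA 13 ^ 8 + (2) * xA 13 ^ 9 + (1) * xA 13 ^ 10) * h0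
  · simp [fst_PsiHom_cycUnit, snd_PsiHom_cycUnit, Fin.sum_univ_succ, Finset.sum_range_succ, map_ofNat]
    linear_combination (((19) + (3) * xA 13) : TA 13) * hx + ((1) * xA 13 + (1) * xA 13 ^ 2 + (1) * xA 13 ^ 3 + (3) * xA 13 ^ 4 + (3) * xA 13 ^ 5 + (4) * xA 13 ^ 6 + (5) * xA 13 ^ 7 + (3) * xA 13 ^ 8 + (3) * xA 13 ^ 9 + (3) * xA 13 ^ 10) * h0
  · simp [fst_PsiHom_cycUnit, snd_PsiHom_cycUnit, Fin.sum_univ_succ, Finset.sum_range_succ, map_ofNat]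
    linear_combination (((64) + (25) * xA 13 + (4) * xA 13 ^ 2) : TA 13) * hx + ((2) + (4) * xA 13 + (7) * xA 13 ^ 2 + (10) * xA 13 ^ 3 + (9) * xA 13 ^ 4 + (5) * xA 13 ^ 5 + (5) * xA 13 ^ 6 + (7) * xA 13 ^ 7 + (7) * xA 13 ^ 8 + (7) * xA 13 ^ 9 + (7) * xA 13 ^ 10) * h0
  · simp [fst_PsiHom_cycUnit, snd_PsiHom_cycUnit, Fin.sum_univ_succ, Finset.sum_range_succ, map_ofNat]
    linear_combination (((119) + (72) * xA 13 + (28) * xA 13 ^ 2 + (5) * xA 13 ^ 3) : TA 13) * hx + ((5) * xA 13 ^ 2 + (12) * xA 13 ^ 3 + (14) * xA 13 ^ 4 + (10) * xA 13 ^ 5 + (9) * xA 13 ^ 6 + (12) * xA 13 ^ 7 + (15) * xA 13 ^ 8 + (14) * xA 13 ^ 9 + (12) * xA 13 ^ 10) * h0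
  · simp [fst_PsiHom_cycUnit, snd_PsiHom_cycUnit, Fin.sum_univ_succ, Finset.sum_range_succ, map_ofNat]
    linear_combination (((368) + (268) * xA 13 + (138) * xA 13 ^ 2 + (43) * xA 13 ^ 3 + (6) * xA 13 ^ 4) : TA 13) * hx + ((3) + (11) * xA 13 + (21) * xA 13 ^ 2 + (28) * xA 13 ^ 3 + (31) * xA 13 ^ 4 + (31) * xA 13 ^ 5 + (29) * xA 13 ^ 6 + (26) * xA 13 ^ 7 + (26) * xA 13 ^ 8 + (29) * xA 13 ^ 9 + (31) * xA 13 ^ 10) * h0

end thirteen


end Fermat.Agent.S10.Kummer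

end
-- ===== PACK-END S10/Kummer.lean

-- ===== PACK-BEGIN S11/GlueZ.lean
section


/-!
# T5a: reduction of `FermatLastTheoremFor p` (odd prime `p`) to Case I and Case II over `ℤ`.
Generalisation of `fermatLastTheoremThree_of_three_dvd_only_c` from Mathlib.
-/

set_option autoImplicit false

namespace Fermat.Agent.S11.GlueZ

lemma p_dvd_b_of_dvd_a_of_gcd_eq_one_of_case2 {p : ℕ} (hp : p.Prime) (hodd : Odd p)
    {a b c : ℤ} (ha : a ≠ 0)
    (Hgcd : Finset.gcd {a, b, c} id = 1) (h3a : (p : ℤ) ∣ a) (HF : a ^ p + b ^ p + c ^ p = 0)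
    (H : ∀ a b c : ℤ, c ≠ 0 → ¬ (p : ℤ) ∣ a → ¬ (p : ℤ) ∣ b → (p : ℤ) ∣ c → IsCoprime a b →
      a ^ p + b ^ p ≠ c ^ p) :
    (p : ℤ) ∣ b := by
  have hpZ : Prime (p : ℤ) := Nat.prime_iff_prime_int.mp hp
  have hbc : IsCoprime (-b) (-c) := by
    refine IsCoprime.neg_neg ?_
    rw [add_comm (a ^ p), add_assoc, add_comm (a ^ p), ← add_assoc] at HF
    refine isCoprime_of_gcd_eq_one_of_FLT ?_ HF
    convert Hgcd using 2
    rw [Finset.pair_comm, Finset.insert_comm]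
  by_contra! h3b
  by_cases h3c : (p : ℤ) ∣ c
  · apply h3b
    rw [add_assoc, add_comm (b ^ p), ← add_assoc] at HF
    exact dvd_c_of_prime_of_dvd_a_of_dvd_b_of_FLT hpZ h3a h3c HF
  · refine H (-b) (-c) a ha (by simp [h3b]) (by simp [h3c]) h3a hbc ?_
    rw [add_eq_zero_iff_eq_neg, ← hodd.neg_pow] at HF
    rw [hodd.neg_pow, hodd.neg_pow]
    have : a ^ p = - (b ^ p) - c ^ p := by
      have h2 := HF
      rw [hodd.neg_pow] at h2
      linarith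
    rw [this]
    ring

open Finset in
lemma flt_of_dvd_a_of_gcd_eq_one_of_case2 {p : ℕ} (hp : p.Prime) (hodd : Odd p)
    {a b c : ℤ} (ha : a ≠ 0)
    (h3a : (p : ℤ) ∣ a) (Hgcd : Finset.gcd {a, b, c} id = 1)
    (H : ∀ a b c : ℤ, c ≠ 0 → ¬ (p : ℤ) ∣ a → ¬ (p : ℤ) ∣ b → (p : ℤ) ∣ c → IsCoprime a b →
      a ^ p + b ^ p ≠ c ^ p) :
    a ^ p + b ^ p + c ^ p ≠ 0 := by
  have hpZ : Prime (p : ℤ) := Nat.prime_iff_prime_int.mp hp
  intro HF
  apply hpZ.not_dvd_one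
  rw [← Hgcd]
  refine dvd_gcd (fun x hx ↦ ?_)
  simp only [mem_insert, mem_singleton] at hx
  have h3b : (p : ℤ) ∣ b := by
    refine p_dvd_b_of_dvd_a_of_gcd_eq_one_of_case2 hp hodd ha ?_ h3a HF H
    simp only [← Hgcd, gcd_insert, gcd_singleton, id_eq, ← Int.abs_eq_normalize]
  rcases hx with hx | hx | hx
  · exact hx ▸ h3a
  · exact hx ▸ h3b
  · simpa [hx] using dvd_c_of_prime_of_dvd_a_of_dvd_b_of_FLT hpZ h3a h3b HF

open Finset Int in
/-- To prove Fermat's Last Theorem for an odd prime `p`, it is enough to prove Case I and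
Case II (with `p ∣ c` only). -/
theorem flt_of_caseI_of_caseII {p : ℕ} (hp : p.Prime) (hodd : Odd p)
    (H1 : ∀ a b c : ℤ, IsCoprime a b → ¬ (p : ℤ) ∣ a * b * c → a ^ p + b ^ p ≠ c ^ p)
    (H : ∀ a b c : ℤ, c ≠ 0 → ¬ (p : ℤ) ∣ a → ¬ (p : ℤ) ∣ b → (p : ℤ) ∣ c → IsCoprime a b →
      a ^ p + b ^ p ≠ c ^ p) :
    FermatLastTheoremFor p := by
  have hpZ : Prime (p : ℤ) := Nat.prime_iff_prime_int.mp hp
  rw [fermatLastTheoremFor_iff_int]
  refine fermatLastTheoremWith_of_fermatLastTheoremWith_coprime (fun a b c ha hb hc Hgcd hF ↦ ?_)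
  have hF0 : a ^ p + b ^ p + (-c) ^ p = 0 := by
    rw [hodd.neg_pow, hF]; ring
  by_cases h1 : (p : ℤ) ∣ a * b * c
  swap
  · refine H1 a b c ?_ h1 hF
    refine isCoprime_of_gcd_eq_one_of_FLT (c := -c) ?_ hF0
    simp only [← Hgcd, gcd_insert, gcd_singleton, id_eq, ← abs_eq_normalize, abs_neg]
  rw [hpZ.dvd_mul, hpZ.dvd_mul] at h1
  rcases h1 with (h3a | h3b) | h3c
  · refine flt_of_dvd_a_of_gcd_eq_one_of_case2 hp hodd ha h3a ?_ H hF0
    simp only [← Hgcd, gcd_insert, gcd_singleton, id_eq, ← abs_eq_normalize, abs_neg]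
  · rw [add_comm (a ^ p)] at hF0
    refine flt_of_dvd_a_of_gcd_eq_one_of_case2 hp hodd hb h3b ?_ H hF0
    simp only [← Hgcd, insert_comm, gcd_insert, gcd_singleton, id_eq, ← abs_eq_normalize, abs_neg]
  · rw [add_comm _ ((-c) ^ p), ← add_assoc] at hF0
    refine flt_of_dvd_a_of_gcd_eq_one_of_case2 hp hodd (neg_ne_zero.2 hc) (by simp [h3c])
      ?_ H hF0
    rw [Finset.insert_comm (-c), Finset.pair_comm (-c) b]
    simp only [← Hgcd, gcd_insert, gcd_singleton, id_eq, ← abs_eq_normalize, abs_neg]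

end Fermat.Agent.S11.GlueZ

end
-- ===== PACK-END S11/GlueZ.lean

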