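import Fermat.Statements.S10
import Mathlib
import Fermat.Statements.S11
import Fermat.Statements.S09
import Fermat.Agent.Pack.S15.BE2L0
import Fermat.Agent.Pack.S15.CE0L1
import Fermat.Agent.Pack.S15.CE0L0
import Fermat.Agent.Pack.S15.CE0L2

-- ===== PACK-BEGIN S10/Final.lean
section



set_option autoImplicit false
open WeierstrassCurve WeierstrassCurve.Affine WeierstrassCurve.Affine.Point
open CuspForm ModularFormClass UpperHalfPlane
open FreyPackage

namespace Fermat.Agent.S10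

/-- A Frey package with exponent `p` contradicts Fermat's Last Theorem for exponent `p`. -/
theorem freyPackage_false_of_flt (P : FreyPackage) (h : FermatLastTheoremFor P.p) : False :=
  (fermatLastTheoremFor_iff_int.mp h) P.a P.b P.c P.ha0 P.hb0 P.hc0 P.hFLT

/-- S10 from Fermat's Last Theorem for the exponents 5, 7, 13. -/
theorem result_of_flt (h5 : FermatLastTheoremFor 5) (h7 : FermatLastTheoremFor 7)
    (h13 : FermatLastTheoremFor 13) (P : FreyPackage) (hp : P.p = 5 ∨ P.p = 7 ∨ P.p = 13) :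
    ¬ HasGaloisStableCofixedLine (K := AlgebraicClosure ℚ) ℚ P.freyCurve P.p := by
  intro _
  rcases hp with hp | hp | hp
  · exact freyPackage_false_of_flt P (hp ▸ h5)
  · exact freyPackage_false_of_flt P (hp ▸ h7)
  · exact freyPackage_false_of_flt P (hp ▸ h13)

end Fermat.Agent.S10

end
-- ===== PACK-END S10/Final.lean

-- ===== PACK-BEGIN S10/FLTOfKummer.lean
section




/-!
# S10: Fermat's Last Theorem for an odd prime `p` from Case I, the PID property of `ℤ[ζ_p]`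
and Kummer's lemma.
-/

set_option autoImplicit false

namespace Fermat.Agent.S10

open NumberField

/-- Fermat's Last Theorem for the odd prime `p`, from Case I, the PID property of the ring of
integers of a `p`-th cyclotomic field `K`, and Kummer's lemma for `K`. -/
theorem flt_of_kummer (p : ℕ) [hp : Fact p.Prime] (hp2 : p ≠ 2)
    (hcaseI : ∀ a b c : ℤ, IsCoprime a b → a ^ p + b ^ p = c ^ p → (p : ℤ) ∣ a * b * c)
    (K : Type*) [Field K] [NumberField K] [IsCyclotomicExtension {p} ℚ K]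
    (hpid : IsPrincipalIdealRing (𝓞 K))
    (hkummer : ∀ u : (𝓞 K)ˣ, (∃ m : ℤ, (p : 𝓞 K) ∣ (u : 𝓞 K) - (m : 𝓞 K)) →
      ∃ v : (𝓞 K)ˣ, u = v ^ p) :
    FermatLastTheoremFor p :=
  flt_of_caseI_caseII hp.out hp2 hcaseI
    (fun _ _ _ hc ha hb hpc hab ↦
      X11.CaseII.caseII_int (K := K) hp2 hkummer hc ha hb hpc hab)

end Fermat.Agent.S10

end
-- ===== PACK-END S10/FLTOfKummer.lean

-- ===== PACK-BEGIN S10.lean
section








set_option autoImplicit false
open WeierstrassCurve WeierstrassCurve.Affine WeierstrassCurve.Affine.Point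
open CuspForm ModularFormClass UpperHalfPlane
open FreyPackage

namespace Fermat.Agent.S10

open NumberField



set_option backward.isDefEq.respectTransparency false in
/-- Fermat's Last Theorem for exponent `5`. -/
theorem flt_five : FermatLastTheoremFor 5 := by
  have hp : Fact (Nat.Prime 5) := ⟨by norm_num⟩
  have : NumberField (CyclotomicField 5 ℚ) := IsCyclotomicExtension.numberField {5} ℚ _
  refine flt_of_kummer 5 (by norm_num) (fun a b c hab h ↦ caseI_five_of_isCoprime hab h)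
    (CyclotomicField 5 ℚ) (IsCyclotomicExtension.Rat.five_pid _) ?_
  intro u hu
  exact Kummer.kummer_five _ u (by simpa using hu)

set_option backward.isDefEq.respectTransparency false in
/-- Fermat's Last Theorem for exponent `7`. -/
theorem flt_seven : FermatLastTheoremFor 7 := by
  have hp : Fact (Nat.Prime 7) := ⟨by norm_num⟩
  have : NumberField (CyclotomicField 7 ℚ) := IsCyclotomicExtension.numberField {7} ℚ _
  refine flt_of_kummer 7 (by norm_num) (fun a b c hab h ↦ caseI_seven_of_isCoprime hab h)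
    (CyclotomicField 7 ℚ) (R378.seven_pid _) ?_
  intro u hu
  exact Kummer.kummer_seven _ u (by simpa using hu)

set_option backward.isDefEq.respectTransparency false in
/-- Fermat's Last Theorem for exponent `13`. -/
theorem flt_thirteen : FermatLastTheoremFor 13 := by
  have hp : Fact (Nat.Prime 13) := ⟨by norm_num⟩
  have : NumberField (CyclotomicField 13 ℚ) := IsCyclotomicExtension.numberField {13} ℚ _
  refine flt_of_kummer 13 (by norm_num) (fun a b c hab h ↦ caseI_thirteen_of_isCoprime hab h)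
    (CyclotomicField 13 ℚ) (thirteen_pid_h430 _) ?_
  intro u hu
  exact Kummer.kummer_thirteen _ u (by simpa using hu)

theorem result (P : FreyPackage) (hp : P.p = 5 ∨ P.p = 7 ∨ P.p = 13) : ¬ HasGaloisStableCofixedLine (K := AlgebraicClosure ℚ) ℚ P.freyCurve P.p :=
  result_of_flt flt_five flt_seven flt_thirteen P hp

end Fermat.Agent.S10

end
-- ===== PACK-END S10.lean

-- ===== PACK-BEGIN S11/PID791.lean
section


/-
Independent hedge of T2 (helper791): the ring of integers of the 11-th cyclotomic field is a PID.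
Method: Minkowski bound (floor at most 59) and the Galois criterion from Mathlib; the only primes
needing work are 11 (generated by zeta - 1) and 23 (generated by zeta^4 + zeta^3 - 1).
-/

open NumberField Polynomial Ideal

namespace Fermat.Agent.S11.H791

variable (K : Type*) [Field K] [NumberField K] [IsCyclotomicExtension {11} ℚ K]

instance fact_prime_eleven : Fact (Nat.Prime 11) := ⟨by norm_num⟩
instance fact_prime_twentythree : Fact (Nat.Prime 23) := ⟨by norm_num⟩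

/-- the chosen primitive root in `𝓞 K` -/
noncomputable def zt : 𝓞 K := (IsCyclotomicExtension.zeta_spec 11 ℚ K).toInteger

lemma zt_prim : IsPrimitiveRoot (zt K) 11 :=
  (IsCyclotomicExtension.zeta_spec 11 ℚ K).toInteger_isPrimitiveRoot

lemma zt_rel : 1 + zt K + zt K ^ 2 + zt K ^ 3 + zt K ^ 4 + zt K ^ 5 + zt K ^ 6 + zt K ^ 7
    + zt K ^ 8 + zt K ^ 9 + zt K ^ 10 = 0 := by
  have h := (zt_prim K).geom_sum_eq_zero (by norm_num)
  simpa [Finset.sum_range_succ] using h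

lemma minpoly_zt : minpoly ℤ (zt K) = cyclotomic 11 ℤ := by
  have hζ := IsCyclotomicExtension.zeta_spec 11 ℚ K
  rw [cyclotomic_eq_minpoly hζ (by norm_num)]
  have : algebraMap (𝓞 K) K (zt K) = IsCyclotomicExtension.zeta 11 ℚ K := rfl
  rw [← this]
  exact (minpoly.algebraMap_eq (RingOfIntegers.coe_injective) (zt K)).symm

/-- the power basis `1, ζ, …, ζ^9` of `𝓞 K` -/
noncomputable def pb : PowerBasis ℤ (𝓞 K) :=
  (IsCyclotomicExtension.zeta_spec 11 ℚ K).integralPowerBasis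

lemma pb_gen : (pb K).gen = zt K :=
  (IsCyclotomicExtension.zeta_spec 11 ℚ K).integralPowerBasis_gen

lemma aeval_two_minpoly : aeval (2 : ZMod 23) (minpoly ℤ (pb K).gen) = 0 := by
  rw [pb_gen, minpoly_zt, cyclotomic_prime]
  simp [Finset.sum_range_succ]
  decide

/-- reduction modulo the prime `(23, ζ - 2)` -/
noncomputable def rho : 𝓞 K →ₐ[ℤ] ZMod 23 := (pb K).lift 2 (aeval_two_minpoly K)

lemma rho_zt : rho K (zt K) = 2 := by
  have := (pb K).lift_gen 2 (aeval_two_minpoly K)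
  rwa [pb_gen] at this


/-- the generator of a prime above 23 -/
noncomputable def al : 𝓞 K := zt K ^ 4 + zt K ^ 3 - 1

noncomputable def be : 𝓞 K := 1 + 13 * zt K - 4 * zt K ^ 2 - zt K ^ 3 + 12 * zt K ^ 4 + 7 * zt K ^ 5
  - 7 * zt K ^ 6 + 9 * zt K ^ 7 + 17 * zt K ^ 8 - 2 * zt K ^ 9

noncomputable def ga : 𝓞 K := - zt K + zt K ^ 2 - zt K ^ 4 + zt K ^ 6 - zt K ^ 7 - zt K ^ 8 + zt K ^ 9

lemma al_mul_be : al K * be K = 23 := by
  unfold al be
  linear_combination (-24 + 11 * zt K + 17 * zt K ^ 2 - 2 * zt K ^ 3) * zt_rel K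

lemma al_mul_ga : al K * ga K = zt K - 2 := by
  unfold al ga
  linear_combination (2 - 2 * zt K - zt K ^ 2 + zt K ^ 3) * zt_rel K

lemma rho_al : rho K (al K) = 0 := by
  unfold al
  simp only [map_sub, map_add, map_pow, map_one, rho_zt]
  decide

lemma exists_aeval (x : 𝓞 K) : ∃ f : ℤ[X], x = aeval (zt K) f := by
  obtain ⟨f, -, hf⟩ := (pb K).exists_eq_aeval x
  exact ⟨f, by rw [hf, pb_gen]⟩

lemma ker_rho_le : RingHom.ker (rho K) ≤ Ideal.span {al K} := by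
  intro x hx
  obtain ⟨f, rfl⟩ := exists_aeval K x
  rw [RingHom.mem_ker] at hx
  -- f = f(2) + (X - 2) * h
  obtain ⟨h, hh⟩ : (X - C (2 : ℤ)) ∣ f - C (f.eval 2) := by
    rw [Polynomial.dvd_iff_isRoot]; simp
  have hf : f = C (f.eval 2) + (X - C 2) * h := by rw [← hh]; ring
  have h1 : aeval (zt K) f = (f.eval 2 : ℤ) + (zt K - 2) * aeval (zt K) h := by
    conv_lhs => rw [hf]
    simp [map_ofNat]
  have h2 : ((f.eval 2 : ℤ) : ZMod 23) = 0 := by
    have := hx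
    rw [h1] at this
    simpa [rho_zt, map_ofNat] using this
  rw [ZMod.intCast_zmod_eq_zero_iff_dvd] at h2
  obtain ⟨m, hm⟩ := h2
  rw [h1, Ideal.mem_span_singleton]
  refine ⟨be K * m + ga K * aeval (zt K) h, ?_⟩
  rw [hm, mul_add, ← mul_assoc, ← mul_assoc, al_mul_be, al_mul_ga]
  push_cast
  ring

lemma ker_rho_eq : RingHom.ker (rho K) = Ideal.span {al K} :=
  le_antisymm (ker_rho_le K) (by
    rw [Ideal.span_singleton_le_iff_mem, RingHom.mem_ker]; exact rho_al K)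

lemma ker_rho_mem_primesOver :
    RingHom.ker (rho K) ∈ Ideal.primesOver (Ideal.span {((23 : ℕ) : ℤ)}) (𝓞 K) := by
  refine ⟨RingHom.ker_isPrime _, ⟨?_⟩⟩
  ext n
  rw [Ideal.mem_span_singleton, Ideal.under_def, Ideal.mem_comap, RingHom.mem_ker]
  simp only [algebraMap_int_eq, eq_intCast, map_intCast]
  rw [ZMod.intCast_zmod_eq_zero_iff_dvd]


open InfinitePlace in
lemma minkowski_floor_le :
    ⌊(4 / Real.pi) ^ nrComplexPlaces K *
      ((Module.finrank ℚ K).factorial / (Module.finrank ℚ K) ^ (Module.finrank ℚ K) *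
        √|(discr K : ℝ)|)⌋₊ ≤ 59 := by
  rw [IsCyclotomicExtension.Rat.discr_prime 11 K, IsCyclotomicExtension.Rat.finrank 11 K,
    IsCyclotomicExtension.Rat.nrComplexPlaces_eq_totient_div_two 11,
    Nat.totient_prime (by norm_num : Nat.Prime 11)]
  have h1 : (4 / Real.pi : ℝ) ≤ 4 / 3.14 := by
    have := Real.pi_gt_d2
    gcongr
  have h1' : (0 : ℝ) ≤ 4 / Real.pi := by positivity
  have h2 : √|(((-1 : ℤ) ^ ((11 - 1) / 2) * ((11 : ℕ) : ℤ) ^ (11 - 2) : ℤ) : ℝ)| ≤ 48608.12 := by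
    rw [Real.sqrt_le_left (by norm_num)]
    norm_num
  apply Nat.le_of_lt_succ
  rw [Nat.floor_lt (by positivity)]
  calc (4 / Real.pi) ^ ((11 - 1) / 2) * (((11 - 1 : ℕ).factorial : ℝ) / ((11 - 1 : ℕ) : ℝ) ^ (11 - 1)
        * √|(((-1 : ℤ) ^ ((11 - 1) / 2) * ((11 : ℕ) : ℤ) ^ (11 - 2) : ℤ) : ℝ)|)
      ≤ (4 / 3.14) ^ ((11 - 1) / 2) * (((11 - 1 : ℕ).factorial : ℝ) / ((11 - 1 : ℕ) : ℝ) ^ (11 - 1)
        * 48608.12) := by gcongr
    _ < ((59 + 1 : ℕ) : ℝ) := by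
      norm_num [Nat.factorial]


lemma lt_pow_orderOf (p k : ℕ) (hk : 59 < p ^ k) (h1 : 1 < p)
    (hfin : ((p : ℕ) : ZMod 11) ^ 10 = 1)
    (h : ∀ m < k, 0 < m → ((p : ℕ) : ZMod 11) ^ m ≠ 1) :
    59 < p ^ orderOf ((p : ℕ) : ZMod 11) := by
  have hpos : 0 < orderOf ((p : ℕ) : ZMod 11) :=
    orderOf_pos_iff.2 (isOfFinOrder_iff_pow_eq_one.2 ⟨10, by norm_num, hfin⟩)
  have hle : k ≤ orderOf ((p : ℕ) : ZMod 11) := by
    by_contra hlt
    exact h _ (not_le.1 hlt) hpos (pow_orderOf_eq_one _)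
  exact lt_of_lt_of_le hk (Nat.pow_le_pow_right (by omega) hle)

theorem eleven_pid : IsPrincipalIdealRing (𝓞 K) := by
  have : IsGalois ℚ K := IsCyclotomicExtension.isGalois {11} ℚ K
  apply RingOfIntegers.isPrincipalIdealRing_of_isPrincipal_of_lt_or_isPrincipal_of_mem_primesOver_of_mem_Icc
  intro p hp hpp
  have hM := minkowski_floor_le K
  have hp59 : p ≤ 59 := (Finset.mem_Icc.1 hp).2.trans hM
  by_cases h11 : p = 11
  · subst h11
    have hζ := IsCyclotomicExtension.zeta_spec 11 ℚ K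
    have hK : IsCyclotomicExtension {11 ^ (0 + 1)} ℚ K := by simpa using ‹IsCyclotomicExtension {11} ℚ K›
    have hζ' : IsPrimitiveRoot (IsCyclotomicExtension.zeta 11 ℚ K) (11 ^ (0 + 1)) := by simpa using hζ
    exact ⟨Ideal.span {hζ'.toInteger - 1},
      ⟨IsCyclotomicExtension.Rat.isPrime_span_zeta_sub_one 11 0 hζ',
        IsCyclotomicExtension.Rat.liesOver_span_zeta_sub_one 11 0 hζ'⟩, Or.inr ⟨⟨_, rfl⟩⟩⟩
  by_cases h23 : p = 23
  · subst h23
    exact ⟨RingHom.ker (rho K), ker_rho_mem_primesOver K, Or.inr ⟨⟨al K, ker_rho_eq K⟩⟩⟩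
  have : Fact p.Prime := ⟨hpp⟩
  obtain ⟨⟨P, hP1, hP2⟩⟩ := (Ideal.span {(p : ℤ)}).nonempty_primesOver (S := 𝓞 K)
  refine ⟨P, ⟨hP1, hP2⟩, Or.inl ?_⟩
  have hnd : ¬ p ∣ 11 := by
    intro h
    rcases (Nat.dvd_prime (by norm_num : Nat.Prime 11)).1 h with h | h
    · exact hpp.one_lt.ne' h
    · exact h11 h
  rw [IsCyclotomicExtension.Rat.inertiaDeg_eq_of_not_dvd p K P hnd]
  apply lt_of_le_of_lt hM
  clear hP2 hP1 P hM hp this
  interval_cases p <;>
  first
  | (exfalso; revert hpp; norm_num; done)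
  | (exfalso; exact h11 rfl)
  | (exfalso; exact h23 rfl)
  | (refine lt_pow_orderOf _ 2 ?_ ?_ ?_ ?_
     · norm_num
     · norm_num
     · decide
     · decide)
  | (refine lt_pow_orderOf _ 3 ?_ ?_ ?_ ?_
     · norm_num
     · norm_num
     · decide
     · decide)
  | (refine lt_pow_orderOf _ 4 ?_ ?_ ?_ ?_
     · norm_num
     · norm_num
     · decide
     · decide)
  | (refine lt_pow_orderOf _ 6 ?_ ?_ ?_ ?_
     · norm_num
     · norm_num
     · decide
     · decide)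

end Fermat.Agent.S11.H791

end
-- ===== PACK-END S11/PID791.lean

-- ===== PACK-BEGIN S11/EchCounting.lean
section


/-!
# Abstract counting lemma for Kummer's lemma (echelon method)

Let `G` be a commutative group generated (as a group) by a family `gens : ι → G`, let `H` be a
submonoid containing all `p`-th powers, and let `e : κ → G` be a family with
`card ι ≤ card κ` which is "independent modulo `H`".  Then every element of `H` is a `p`-th power.
-/

set_option autoImplicit false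

namespace Fermat.Agent.S11.Ech

open Function

variable {G : Type*} [CommGroup G]

theorem prod_zpow_eq_prod_pow_mul_pow {ι : Type*} [Fintype ι] (p : ℕ) (hp : 0 < p)
    (g : ι → G) (K : ι → ℤ) :
    ∏ i, g i ^ K i = (∏ i, g i ^ ((K i % (p : ℤ)).toNat)) * (∏ i, g i ^ (K i / (p : ℤ))) ^ p := by
  rw [← Finset.prod_pow, ← Finset.prod_mul_distrib]
  refine Finset.prod_congr rfl fun i _ => ?_
  have hp' : (0 : ℤ) < p := by exact_mod_cast hp
  have h1 : (0 : ℤ) ≤ K i % p := Int.emod_nonneg _ hp'.ne'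
  rw [← zpow_natCast (g i) (K i % (p : ℤ)).toNat, Int.toNat_of_nonneg h1, ← zpow_natCast _ p,
    ← zpow_mul, ← zpow_add]
  congr 1
  rw [mul_comm]
  exact (Int.emod_add_mul_ediv (K i) p).symm

theorem exists_pow_eq_of_counting (p : ℕ) [hp : Fact p.Prime]
    {ι κ : Type*} [Fintype ι] [Fintype κ] (hcard : Fintype.card ι ≤ Fintype.card κ)
    (gens : ι → G) (hgens : ∀ x : G, ∃ k : ι → ℤ, x = ∏ i, gens i ^ k i)
    (H : Submonoid G) (hH : ∀ x : G, x ^ p ∈ H)
    (e : κ → G)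
    (hind : ∀ n : κ → ℤ, (∏ i, e i ^ n i) ∈ H → ∀ i, (p : ℤ) ∣ n i) :
    ∀ u ∈ H, ∃ v : G, u = v ^ p := by
  classical
  have hp0 : 0 < p := hp.out.pos
  let P : Subgroup G := (powMonoidHom p : G →* G).range
  have hP : ∀ x : G, x ∈ P ↔ ∃ w : G, w ^ p = x := fun x => by
    simp [P, MonoidHom.mem_range]
  let φ : (ι → Fin p) → G ⧸ P := fun k => QuotientGroup.mk (∏ i, gens i ^ (k i : ℕ))
  let ψ : (κ → Fin p) → G ⧸ P := fun n => QuotientGroup.mk (∏ i, e i ^ (n i : ℕ))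
  have hφ : Surjective φ := by
    intro v
    obtain ⟨x, rfl⟩ := QuotientGroup.mk_surjective v
    obtain ⟨K, hK⟩ := hgens x
    have hp' : (0 : ℤ) < p := by exact_mod_cast hp0
    refine ⟨fun i => ⟨(K i % (p : ℤ)).toNat, ?_⟩, ?_⟩
    · have h1 : (0 : ℤ) ≤ K i % p := Int.emod_nonneg _ hp'.ne'
      have h2 : K i % p < p := Int.emod_lt_of_pos _ hp'
      omega
    · simp only [φ]
      rw [QuotientGroup.eq, hP]
      refine ⟨∏ i, gens i ^ (K i / (p : ℤ)), ?_⟩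
      rw [hK, prod_zpow_eq_prod_pow_mul_pow p hp0 gens K]
      simp
  have hψ : Injective ψ := by
    intro n m hnm
    simp only [ψ] at hnm
    rw [QuotientGroup.eq, hP] at hnm
    obtain ⟨w, hw⟩ := hnm
    have key : ∏ i, e i ^ ((m i : ℕ) - (n i : ℕ) : ℤ) ∈ H := by
      have : ∏ i, e i ^ ((m i : ℕ) - (n i : ℕ) : ℤ) = w ^ p := by
        rw [hw, ← Finset.prod_inv_distrib, ← Finset.prod_mul_distrib]
        refine Finset.prod_congr rfl fun i _ => ?_
        rw [zpow_sub, zpow_natCast, zpow_natCast, mul_comm]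
      rw [this]
      exact hH w
    have := hind _ key
    funext i
    have hi := this i
    have h1 := (n i).isLt
    have h2 := (m i).isLt
    apply Fin.ext
    obtain ⟨c, hc⟩ := hi
    have hp' : (0 : ℤ) < p := by exact_mod_cast hp0
    have h1' : ((n i : ℕ) : ℤ) < p := by exact_mod_cast h1
    have h2' : ((m i : ℕ) : ℤ) < p := by exact_mod_cast h2
    have h3 : (0 : ℤ) ≤ ((n i : ℕ) : ℤ) := by positivity
    have h4 : (0 : ℤ) ≤ ((m i : ℕ) : ℤ) := by positivity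
    have hc0 : c = 0 := by
      by_contra hne
      rcases lt_or_gt_of_ne hne with h | h
      · have : (p : ℤ) * c ≤ (p : ℤ) * (-1) := mul_le_mul_of_nonneg_left (by omega) hp'.le
        nlinarith
      · have : (p : ℤ) * 1 ≤ (p : ℤ) * c := mul_le_mul_of_nonneg_left (by omega) hp'.le
        nlinarith
    rw [hc0, mul_zero] at hc
    have : ((n i : ℕ) : ℤ) = ((m i : ℕ) : ℤ) := by linarith
    exact_mod_cast this
  have : Finite (G ⧸ P) := Finite.of_surjective φ hφ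
  have hcardV : Nat.card (G ⧸ P) ≤ Nat.card (κ → Fin p) := by
    calc Nat.card (G ⧸ P) ≤ Nat.card (ι → Fin p) := Nat.card_le_card_of_surjective φ hφ
      _ = p ^ Fintype.card ι := by simp [Nat.card_eq_fintype_card]
      _ ≤ p ^ Fintype.card κ := Nat.pow_le_pow_right hp0 hcard
      _ = Nat.card (κ → Fin p) := by simp [Nat.card_eq_fintype_card]
  have hψb : Bijective ψ := hψ.bijective_of_nat_card_le hcardV
  intro u hu
  obtain ⟨n, hn⟩ := hψb.2 (QuotientGroup.mk u)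
  simp only [ψ] at hn
  rw [QuotientGroup.eq, hP] at hn
  obtain ⟨w, hw⟩ := hn
  have hmem : ∏ i, e i ^ ((n i : ℕ) : ℤ) ∈ H := by
    have : ∏ i, e i ^ ((n i : ℕ) : ℤ) = u * (w⁻¹) ^ p := by
      simp only [zpow_natCast]
      rw [inv_pow, hw]
      simp
    rw [this]
    exact H.mul_mem hu (hH _)
  have hn0 : ∀ i, (n i : ℕ) = 0 := by
    intro i
    obtain ⟨c, hc⟩ := hind _ hmem i
    have h1 := (n i).isLt
    have hp' : (0 : ℤ) < p := by exact_mod_cast hp0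
    have h1' : ((n i : ℕ) : ℤ) < p := by exact_mod_cast h1
    have h3 : (0 : ℤ) ≤ ((n i : ℕ) : ℤ) := by positivity
    have hc0 : c = 0 := by
      by_contra hne
      rcases lt_or_gt_of_ne hne with h | h
      · have : (p : ℤ) * c ≤ (p : ℤ) * (-1) := mul_le_mul_of_nonneg_left (by omega) hp'.le
        nlinarith
      · have : (p : ℤ) * 1 ≤ (p : ℤ) * c := mul_le_mul_of_nonneg_left (by omega) hp'.le
        nlinarith
    rw [hc0, mul_zero] at hc
    exact_mod_cast hc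
  refine ⟨w, ?_⟩
  rw [hw]
  simp [hn0]

end Fermat.Agent.S11.Ech

end
-- ===== PACK-END S11/EchCounting.lean

-- ===== PACK-BEGIN S11/EchUnitsGen.lean
section


/-!
# The unit group of `ℚ(ζ₁₁)` is generated by five elements (Dirichlet)
-/

set_option autoImplicit false

open NumberField

namespace Fermat.Agent.S11.Ech

theorem units_generated (K : Type*) [Field K] [NumberField K] :
    ∃ gens : Option (Fin (Units.rank K)) → (𝓞 K)ˣ,
      ∀ x : (𝓞 K)ˣ, ∃ k : Option (Fin (Units.rank K)) → ℤ, x = ∏ i, gens i ^ k i := by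
  classical
  obtain ⟨t, ht⟩ := (inferInstance : IsCyclic (Units.torsion K)).exists_generator
  refine ⟨fun o => o.elim (t : (𝓞 K)ˣ) (Units.fundSystem K), fun x => ?_⟩
  obtain ⟨⟨z, e⟩, hx, -⟩ := Units.exist_unique_eq_mul_prod K x
  obtain ⟨m, hm⟩ := Subgroup.mem_zpowers_iff.mp (ht z)
  refine ⟨fun o => o.elim m e, ?_⟩
  rw [Fintype.prod_option]
  simp only [Option.elim_none, Option.elim_some]
  rw [hx]
  congr 1
  rw [← hm]
  simp

theorem rank_eleven (K : Type*) [Field K] [NumberField K] [IsCyclotomicExtension {11} ℚ K] :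
    Units.rank K = 4 := by
  have h1 : InfinitePlace.nrRealPlaces K = 0 :=
    IsCyclotomicExtension.Rat.nrRealPlaces_eq_zero (n := 11) K (by norm_num)
  have h2 : InfinitePlace.nrComplexPlaces K = 5 := by
    rw [IsCyclotomicExtension.Rat.nrComplexPlaces_eq_totient_div_two 11 K]
    rw [Nat.totient_prime (by norm_num : Nat.Prime 11)]
  rw [Units.rank, InfinitePlace.card_eq_nrRealPlaces_add_nrComplexPlaces, h1, h2]

theorem card_option_rank_eleven (K : Type*) [Field K] [NumberField K]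
    [IsCyclotomicExtension {11} ℚ K] :
    Fintype.card (Option (Fin (Units.rank K))) = 5 := by
  rw [Fintype.card_option, Fintype.card_fin, rank_eleven K]

end Fermat.Agent.S11.Ech

end
-- ===== PACK-END S11/EchUnitsGen.lean

-- ===== PACK-BEGIN S11/EchLevel.lean
section


/-!
# `λ`-adic levels of units in `ℤ[ζ_p]` (generic odd prime `p`)
-/

set_option autoImplicit false
set_option linter.unusedSectionVars false

open NumberField

namespace Fermat.Agent.S11.Ech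

variable {p : ℕ} [hp : Fact p.Prime] {K : Type*} [Field K] [NumberField K]
  [hK : IsCyclotomicExtension {p} ℚ K] {ζ : K} (hζ : IsPrimitiveRoot ζ p)

include hζ in
/-- Every `p`-th power in `𝓞 K` is congruent to a rational integer modulo `p`. -/
theorem exists_int_sub_pow_prime_dvd (w : 𝓞 K) : ∃ n : ℤ, (p : 𝓞 K) ∣ w ^ p - n := by
  have hw : w ∈ Algebra.adjoin ℤ {hζ.toInteger} := by
    rw [IsCyclotomicExtension.Rat.adjoin_singleton_eq_top hζ]; trivial
  induction hw using Algebra.adjoin_induction with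
  | mem x hx =>
    rw [Set.mem_singleton_iff] at hx
    refine ⟨1, ?_⟩
    rw [hx, hζ.toInteger_isPrimitiveRoot.pow_eq_one]
    simp
  | algebraMap r =>
    refine ⟨r ^ p, ?_⟩
    simp
  | add x y _ _ hx hy =>
    obtain ⟨n, s, hs⟩ := hx
    obtain ⟨m, t, ht⟩ := hy
    obtain ⟨r, hr⟩ := exists_add_pow_prime_eq hp.out x y
    refine ⟨n + m, s + t + x * y * r, ?_⟩
    push_cast
    linear_combination hr + hs + ht
  | mul x y _ _ hx hy =>
    obtain ⟨n, s, hs⟩ := hx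
    obtain ⟨m, t, ht⟩ := hy
    refine ⟨n * m, s * y ^ p + n * t, ?_⟩
    push_cast
    linear_combination y ^ p * hs + (n : 𝓞 K) * ht

/-- `x` is congruent to a rational integer modulo `λ ^ k`. -/
def IntMod (k : ℕ) (x : 𝓞 K) : Prop := ∃ N : ℤ, (hζ.toInteger - 1) ^ k ∣ x - N

theorem IntMod.mul {k : ℕ} {x y : 𝓞 K} (hx : IntMod hζ k x) (hy : IntMod hζ k y) :
    IntMod hζ k (x * y) := by
  obtain ⟨N, s, hs⟩ := hx
  obtain ⟨M, t, ht⟩ := hy
  refine ⟨N * M, s * y + N * t, ?_⟩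
  push_cast
  linear_combination y * hs + (N : 𝓞 K) * ht

theorem IntMod.one (k : ℕ) : IntMod hζ k (1 : 𝓞 K) := ⟨1, by simp⟩

theorem IntMod.pow {k : ℕ} {x : 𝓞 K} (hx : IntMod hζ k x) (n : ℕ) : IntMod hζ k (x ^ n) := by
  induction n with
  | zero => simpa using IntMod.one hζ k
  | succ n ih => rw [pow_succ]; exact ih.mul hζ hx

theorem IntMod.mono {k l : ℕ} (hkl : k ≤ l) {x : 𝓞 K} (hx : IntMod hζ l x) : IntMod hζ k x := by
  obtain ⟨N, hN⟩ := hx
  exact ⟨N, (pow_dvd_pow _ hkl).trans hN⟩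

theorem lambda_pow_dvd_p : (hζ.toInteger - 1) ^ (p - 1) ∣ (p : 𝓞 K) :=
  (IsCyclotomicExtension.Rat.associated_zeta_sub_one_pow_prime p hζ).dvd

theorem p_dvd_lambda_pow : (p : 𝓞 K) ∣ (hζ.toInteger - 1) ^ (p - 1) :=
  (IsCyclotomicExtension.Rat.associated_zeta_sub_one_pow_prime p hζ).symm.dvd

theorem intMod_of_p_dvd {x : 𝓞 K} (h : ∃ N : ℤ, (p : 𝓞 K) ∣ x - N) : IntMod hζ (p - 1) x := by
  obtain ⟨N, hN⟩ := h
  exact ⟨N, (lambda_pow_dvd_p hζ).trans hN⟩

theorem p_dvd_of_intMod {x : 𝓞 K} (h : IntMod hζ (p - 1) x) : ∃ N : ℤ, (p : 𝓞 K) ∣ x - N := by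
  obtain ⟨N, hN⟩ := h
  exact ⟨N, (p_dvd_lambda_pow hζ).trans hN⟩

theorem IntMod.pow_p {k : ℕ} (hk : k ≤ p - 1) (w : 𝓞 K) : IntMod hζ k (w ^ p) :=
  (intMod_of_p_dvd hζ (exists_int_sub_pow_prime_dvd hζ w)).mono hζ hk

theorem IntMod.unit_inv {k : ℕ} (hk : k ≤ p - 1) {u : (𝓞 K)ˣ} (hu : IntMod hζ k (u : 𝓞 K)) :
    IntMod hζ k ((u⁻¹ : (𝓞 K)ˣ) : 𝓞 K) := by
  have h1 : ((u⁻¹ : (𝓞 K)ˣ) : 𝓞 K) = (u : 𝓞 K) ^ (p - 1) * ((u⁻¹ : (𝓞 K)ˣ) : 𝓞 K) ^ p := by
    obtain ⟨q, hq⟩ : ∃ q, p = q + 1 := ⟨p - 1, by have := hp.out.pos; omega⟩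
    rw [hq, Nat.add_sub_cancel, pow_succ, ← mul_assoc, ← mul_pow]
    simp
  rw [h1]
  exact (hu.pow hζ _).mul hζ (IntMod.pow_p hζ hk _)

theorem IntMod.unit_zpow {k : ℕ} (hk : k ≤ p - 1) {u : (𝓞 K)ˣ} (hu : IntMod hζ k (u : 𝓞 K))
    (n : ℤ) : IntMod hζ k ((u ^ n : (𝓞 K)ˣ) : 𝓞 K) := by
  cases n with
  | ofNat m =>
    simp only [Int.ofNat_eq_natCast, zpow_natCast, Units.val_pow_eq_pow_val]
    exact hu.pow hζ m
  | negSucc m =>
    rw [zpow_negSucc, ← inv_pow]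
    simp only [Units.val_pow_eq_pow_val]
    exact (hu.unit_inv hζ hk).pow hζ _

theorem lambda_not_isUnit : ¬ IsUnit (hζ.toInteger - 1) := hζ.zeta_sub_one_prime'.not_isUnit

theorem lambda_ne_zero : (hζ.toInteger - 1 : 𝓞 K) ≠ 0 := hζ.zeta_sub_one_prime'.ne_zero

theorem lambda_dvd_int_iff {n : ℤ} : (hζ.toInteger - 1) ∣ (n : 𝓞 K) ↔ (p : ℤ) ∣ n :=
  IsCyclotomicExtension.Rat.zeta_sub_one_dvd_intCast_iff' p hζ

/-- If a unit is congruent to the integer `N` modulo `λ`, then `p ∤ N`. -/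
theorem not_dvd_of_unit_sub_int {u : (𝓞 K)ˣ} {N : ℤ} (h : (hζ.toInteger - 1) ∣ (u : 𝓞 K) - N) :
    ¬ (p : ℤ) ∣ N := by
  intro hN
  have h2 : (hζ.toInteger - 1) ∣ (N : 𝓞 K) := (lambda_dvd_int_iff hζ).mpr hN
  have h3 : (hζ.toInteger - 1) ∣ (u : 𝓞 K) := by
    have := dvd_add h h2
    simpa using this
  exact lambda_not_isUnit hζ (isUnit_of_dvd_unit h3 u.isUnit)

/-- power lemma: if `g ≡ a + b λ^(j+1) mod λ^(j+2)` then
`a (g^n - a^n) ≡ n a^n b λ^(j+1) mod λ^(j+2)`. -/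
theorem level_pow {j : ℕ} {g : 𝓞 K} {a b : ℤ}
    (hg : (hζ.toInteger - 1) ^ (j + 2) ∣ g - a - b * (hζ.toInteger - 1) ^ (j + 1)) (n : ℕ) :
    (hζ.toInteger - 1) ^ (j + 2) ∣
      a * (g ^ n - a ^ n) - n * a ^ n * b * (hζ.toInteger - 1) ^ (j + 1) := by
  obtain ⟨q, hq⟩ := hg
  induction n with
  | zero => simp
  | succ n ih =>
    obtain ⟨qn, hqn⟩ := ih
    refine ⟨n * a ^ n * b ^ 2 * (hζ.toInteger - 1) ^ j
      + q * n * a ^ n * b * (hζ.toInteger - 1) ^ (j + 1) + g * qn + a ^ (n + 1) * q, ?_⟩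
    push_cast
    linear_combination g * hqn + ((a : 𝓞 K) ^ (n + 1)
      + n * a ^ n * b * (hζ.toInteger - 1) ^ (j + 1)) * hq

/-- One step of the echelon argument (natural exponent). -/
theorem step_nat {j : ℕ} (hj : j + 2 ≤ p - 1) {g R : (𝓞 K)ˣ} {a b : ℤ}
    (hg : (hζ.toInteger - 1) ^ (j + 2) ∣ (g : 𝓞 K) - a - b * (hζ.toInteger - 1) ^ (j + 1))
    (hb : ¬ (p : ℤ) ∣ b) (hR : IntMod hζ (j + 2) (R : 𝓞 K)) (m : ℕ)
    (h : IntMod hζ (j + 2) ((g : 𝓞 K) ^ m * R)) : (p : ℤ) ∣ m := by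
  have hprime : Prime (p : ℤ) := Nat.prime_iff_prime_int.mp hp.out
  -- `p ∤ a`
  have ha : ¬ (p : ℤ) ∣ a := by
    apply not_dvd_of_unit_sub_int hζ (u := g)
    obtain ⟨q, hq⟩ := hg
    refine ⟨b * (hζ.toInteger - 1) ^ j + (hζ.toInteger - 1) ^ (j + 1) * q, ?_⟩
    linear_combination hq
  obtain ⟨N, s, hs⟩ := hR
  have hN : ¬ (p : ℤ) ∣ N := by
    apply not_dvd_of_unit_sub_int hζ (u := R)
    refine ⟨(hζ.toInteger - 1) ^ (j + 1) * s, ?_⟩
    linear_combination hs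
  obtain ⟨N', t, ht⟩ := h
  obtain ⟨q, hq⟩ := level_pow hζ hg m
  -- the integer `L`
  set L : ℤ := a ^ (m + 1) * N - a * N' with hL
  have key : (L : 𝓞 K) = - (m * a ^ m * b * N : ℤ) * (hζ.toInteger - 1) ^ (j + 1)
      + (hζ.toInteger - 1) ^ (j + 2) * (a * t - q * R - (a : 𝓞 K) ^ (m + 1) * s
        - m * a ^ m * b * (hζ.toInteger - 1) ^ (j + 1) * s) := by
    rw [hL]
    push_cast
    linear_combination (a : 𝓞 K) * ht - (R : 𝓞 K) * hq
      - ((a : 𝓞 K) ^ (m + 1) + m * a ^ m * b * (hζ.toInteger - 1) ^ (j + 1)) * hs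
  have hL1 : (hζ.toInteger - 1) ∣ (L : 𝓞 K) := by
    rw [key]
    refine dvd_add (Dvd.dvd.mul_left (dvd_pow_self _ (by omega)) _)
      (Dvd.dvd.mul_right (dvd_pow_self _ (by omega)) _)
  have hL2 : (p : ℤ) ∣ L := (lambda_dvd_int_iff hζ).mp hL1
  have hL3 : (hζ.toInteger - 1) ^ (j + 2) ∣ (L : 𝓞 K) := by
    obtain ⟨c, hc⟩ := hL2
    rw [hc]
    push_cast
    exact Dvd.dvd.mul_right (((pow_dvd_pow _ hj).trans (lambda_pow_dvd_p hζ))) _
  have h4 : (hζ.toInteger - 1) ^ (j + 2) ∣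
      ((m * a ^ m * b * N : ℤ) : 𝓞 K) * (hζ.toInteger - 1) ^ (j + 1) := by
    have h5 : ((m * a ^ m * b * N : ℤ) : 𝓞 K) * (hζ.toInteger - 1) ^ (j + 1)
        = (hζ.toInteger - 1) ^ (j + 2) * (a * t - q * R - (a : 𝓞 K) ^ (m + 1) * s
        - m * a ^ m * b * (hζ.toInteger - 1) ^ (j + 1) * s) - (L : 𝓞 K) := by
      rw [key]; ring
    rw [h5]
    exact dvd_sub (dvd_mul_right _ _) hL3
  have h6 : (hζ.toInteger - 1) ∣ ((m * a ^ m * b * N : ℤ) : 𝓞 K) := by
    have h4' : (hζ.toInteger - 1) ^ (j + 1) * (hζ.toInteger - 1) ∣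
        (hζ.toInteger - 1) ^ (j + 1) * ((m * a ^ m * b * N : ℤ) : 𝓞 K) := by
      rw [← pow_succ, mul_comm ((hζ.toInteger - 1) ^ (j + 1))]
      exact h4
    exact (mul_dvd_mul_iff_left (pow_ne_zero _ (lambda_ne_zero hζ))).mp h4'
  have h7 : (p : ℤ) ∣ m * a ^ m * b * N := (lambda_dvd_int_iff hζ).mp h6
  rcases hprime.dvd_or_dvd h7 with h8 | h8
  · rcases hprime.dvd_or_dvd h8 with h9 | h9
    · rcases hprime.dvd_or_dvd h9 with h10 | h10
      · exact h10
      · exact absurd (hprime.dvd_of_dvd_pow h10) ha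
    · exact absurd h9 hb
  · exact absurd h8 hN

/-- One step of the echelon argument (integer exponent). -/
theorem step_int {j : ℕ} (hj : j + 2 ≤ p - 1) {g R : (𝓞 K)ˣ} {a b : ℤ}
    (hg : (hζ.toInteger - 1) ^ (j + 2) ∣ (g : 𝓞 K) - a - b * (hζ.toInteger - 1) ^ (j + 1))
    (hb : ¬ (p : ℤ) ∣ b) (hR : IntMod hζ (j + 2) (R : 𝓞 K)) (n : ℤ)
    (h : IntMod hζ (j + 2) ((g ^ n * R : (𝓞 K)ˣ) : 𝓞 K)) : (p : ℤ) ∣ n := by
  cases n with
  | ofNat m =>
    simp only [Int.ofNat_eq_natCast, zpow_natCast, Units.val_mul, Units.val_pow_eq_pow_val] at h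
    exact step_nat hζ hj hg hb hR m h
  | negSucc m =>
    have h1 : IntMod hζ (j + 2) ((g : 𝓞 K) ^ (m + 1) * ((g ^ (Int.negSucc m) * R : (𝓞 K)ˣ))) := by
      have : (g : 𝓞 K) ^ (m + 1) * ((g ^ (Int.negSucc m) * R : (𝓞 K)ˣ)) = (R : 𝓞 K) := by
        rw [← Units.val_pow_eq_pow_val, ← Units.val_mul, zpow_negSucc]
        congr 1
        rw [← mul_assoc, mul_inv_cancel, one_mul]
      rw [this]
      exact hR
    have := step_nat hζ hj hg hb h (m + 1) h1
    rw [Int.negSucc_eq, dvd_neg]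
    exact_mod_cast this

end Fermat.Agent.S11.Ech

end
-- ===== PACK-END S11/EchLevel.lean

-- ===== PACK-BEGIN S11/EchUnits11.lean
section


/-!
# Explicit echelon units in `ℤ[ζ₁₁]` (machine-generated certificates)
-/

set_option autoImplicit false
set_option linter.unusedSectionVars false
set_option linter.style.longLine false

open NumberField

namespace Fermat.Agent.S11.Ech

variable {K : Type*} [Field K] [NumberField K] [IsCyclotomicExtension {11} ℚ K]
  {ζ : K} (hζ : IsPrimitiveRoot ζ 11)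

theorem sum_zeta_eleven :
    1 + hζ.toInteger + hζ.toInteger ^ 2 + hζ.toInteger ^ 3 + hζ.toInteger ^ 4 + hζ.toInteger ^ 5
      + hζ.toInteger ^ 6 + hζ.toInteger ^ 7 + hζ.toInteger ^ 8 + hζ.toInteger ^ 9
      + hζ.toInteger ^ 10 = 0 := by
  have h := hζ.toInteger_isPrimitiveRoot.geom_sum_eq_zero (by norm_num : 1 < 11)
  simpa [Finset.sum_range_succ] using h

/-- `ζ` as a unit. -/
noncomputable def zetaU : (𝓞 K)ˣ := (hζ.toInteger_isPrimitiveRoot.isUnit (by norm_num)).unit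

@[simp] theorem zetaU_val : ((zetaU hζ : (𝓞 K)ˣ) : 𝓞 K) = hζ.toInteger := rfl

/-- The cyclotomic unit `1 + ζ + ⋯ + ζ^(j-1)`. -/
noncomputable def cyc (j : ℕ) (hj : j.Coprime 11) : (𝓞 K)ˣ :=
  (hζ.toInteger_isPrimitiveRoot.geom_sum_isUnit (by norm_num) hj).unit

theorem cyc_val (j : ℕ) (hj : j.Coprime 11) :
    ((cyc hζ j hj : (𝓞 K)ˣ) : 𝓞 K) = ∑ i ∈ Finset.range j, hζ.toInteger ^ i := rfl

/-- Echelon unit of level 2. -/
noncomputable def ech2 : (𝓞 K)ˣ := zetaU hζ ^ 10 * cyc hζ 3 (by norm_num) ^ 1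

theorem ech2_val : ((ech2 hζ : (𝓞 K)ˣ) : 𝓞 K) = hζ.toInteger ^ 10 * (1 + hζ.toInteger + hζ.toInteger ^ 2) ^ 1 := by
  simp [ech2, cyc_val, Finset.sum_range_succ]

theorem ech2_level : (hζ.toInteger - 1) ^ (1 + 2) ∣
    ((ech2 hζ : (𝓞 K)ˣ) : 𝓞 K) - ((3 : ℤ) : 𝓞 K) - ((1 : ℤ) : 𝓞 K) * (hζ.toInteger - 1) ^ (1 + 1) := by
  refine ⟨(1) + (1) * hζ.toInteger + (1) * hζ.toInteger ^ 2 + (1) * hζ.toInteger ^ 3 + (1) * hζ.toInteger ^ 4 + (1) * hζ.toInteger ^ 5 + (1) * hζ.toInteger ^ 6 + (1) * hζ.toInteger ^ 7 + (1) * hζ.toInteger ^ 8 + (1) * hζ.toInteger ^ 9, ?_⟩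
  rw [ech2_val]
  push_cast
  linear_combination ((-3) + (3) * hζ.toInteger) * sum_zeta_eleven hζ

/-- Echelon unit of level 4. -/
noncomputable def ech4 : (𝓞 K)ˣ := zetaU hζ ^ 4 * cyc hζ 2 (by norm_num) ^ 1 * cyc hζ 3 (by norm_num) ^ 1

theorem ech4_val : ((ech4 hζ : (𝓞 K)ˣ) : 𝓞 K) = hζ.toInteger ^ 4 * (1 + hζ.toInteger) ^ 1 * (1 + hζ.toInteger + hζ.toInteger ^ 2) ^ 1 := by
  simp [ech4, cyc_val, Finset.sum_range_succ]

theorem ech4_level : (hζ.toInteger - 1) ^ (3 + 2) ∣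
    ((ech4 hζ : (𝓞 K)ˣ) : 𝓞 K) - ((-5 : ℤ) : 𝓞 K) - ((-1 : ℤ) : 𝓞 K) * (hζ.toInteger - 1) ^ (3 + 1) := by
  refine ⟨(1) * hζ.toInteger + (1) * hζ.toInteger ^ 2 + (-1) * hζ.toInteger ^ 4 + (-1) * hζ.toInteger ^ 5 + (1) * hζ.toInteger ^ 7 + (1) * hζ.toInteger ^ 8, ?_⟩
  rw [ech4_val]
  push_cast
  linear_combination ((6) + (-9) * hζ.toInteger + (5) * hζ.toInteger ^ 2 + (-1) * hζ.toInteger ^ 3) * sum_zeta_eleven hζ

/-- Echelon unit of level 6. -/
noncomputable def ech6 : (𝓞 K)ˣ := zetaU hζ ^ 5 * cyc hζ 2 (by norm_num) ^ 1 * cyc hζ 4 (by norm_num) ^ 1 * cyc hζ 5 (by norm_num) ^ 2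

theorem ech6_val : ((ech6 hζ : (𝓞 K)ˣ) : 𝓞 K) = hζ.toInteger ^ 5 * (1 + hζ.toInteger) ^ 1 * (1 + hζ.toInteger + hζ.toInteger ^ 2 + hζ.toInteger ^ 3) ^ 1 * (1 + hζ.toInteger + hζ.toInteger ^ 2 + hζ.toInteger ^ 3 + hζ.toInteger ^ 4) ^ 2 := by
  simp [ech6, cyc_val, Finset.sum_range_succ]

theorem ech6_level : (hζ.toInteger - 1) ^ (5 + 2) ∣
    ((ech6 hζ : (𝓞 K)ˣ) : 𝓞 K) - ((2 : ℤ) : 𝓞 K) - ((-1 : ℤ) : 𝓞 K) * (hζ.toInteger - 1) ^ (5 + 1) := by
  refine ⟨(-61) + (-338) * hζ.toInteger + (-744) * hζ.toInteger ^ 2 + (-1150) * hζ.toInteger ^ 3 + (-1427) * hζ.toInteger ^ 4 + (-1487) * hζ.toInteger ^ 5 + (-1311) * hζ.toInteger ^ 6 + (-955) * hζ.toInteger ^ 7 + (-532) * hζ.toInteger ^ 8 + (-176) * hζ.toInteger ^ 9, ?_⟩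
  rw [ech6_val]
  push_cast
  linear_combination ((-62) + (145) * hζ.toInteger + (273) * hζ.toInteger ^ 2 + (-1281) * hζ.toInteger ^ 3 + (1634) * hζ.toInteger ^ 4 + (-871) * hζ.toInteger ^ 5 + (179) * hζ.toInteger ^ 6 + (1) * hζ.toInteger ^ 7) * sum_zeta_eleven hζ

/-- Echelon unit of level 8. -/
noncomputable def ech8 : (𝓞 K)ˣ := zetaU hζ ^ 4 * cyc hζ 2 (by norm_num) ^ 9 * cyc hζ 3 (by norm_num) ^ 1 * cyc hζ 4 (by norm_num) ^ 3 * cyc hζ 5 (by norm_num) ^ 4

theorem ech8_val : ((ech8 hζ : (𝓞 K)ˣ) : 𝓞 K) = hζ.toInteger ^ 4 * (1 + hζ.toInteger) ^ 9 * (1 + hζ.toInteger + hζ.toInteger ^ 2) ^ 1 * (1 + hζ.toInteger + hζ.toInteger ^ 2 + hζ.toInteger ^ 3) ^ 3 * (1 + hζ.toInteger + hζ.toInteger ^ 2 + hζ.toInteger ^ 3 + hζ.toInteger ^ 4) ^ 4 := by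
  simp [ech8, cyc_val, Finset.sum_range_succ]

theorem ech8_level : (hζ.toInteger - 1) ^ (7 + 2) ∣
    ((ech8 hζ : (𝓞 K)ˣ) : 𝓞 K) - ((-5 : ℤ) : 𝓞 K) - ((4 : ℤ) : 𝓞 K) * (hζ.toInteger - 1) ^ (7 + 1) := by
  refine ⟨(56885668) + (140233759) * hζ.toInteger + (223581850) * hζ.toInteger ^ 2 + (280467514) * hζ.toInteger ^ 3 + (292829954) * hζ.toInteger ^ 4 + (256744179) * hζ.toInteger ^ 5 + (183667165) * hζ.toInteger ^ 6 + (96800349) * hζ.toInteger ^ 7 + (23723335) * hζ.toInteger ^ 8 + (-12362440) * hζ.toInteger ^ 9, ?_⟩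
  rw [ech8_val]
  push_cast
  linear_combination ((56885669) + (-428622890) * hζ.toInteger + (1381099176) * hζ.toInteger ^ 2 + (-2471111655) * hζ.toInteger ^ 3 + (2667276761) * hζ.toInteger ^ 4 + (-1766437657) * hζ.toInteger ^ 5 + (696742928) * hζ.toInteger ^ 6 + (-147615941) * hζ.toInteger ^ 7 + (11912715) * hζ.toInteger ^ 8 + (-483727) * hζ.toInteger ^ 9 + (-352800) * hζ.toInteger ^ 10 + (-86291) * hζ.toInteger ^ 11 + (250865) * hζ.toInteger ^ 12 + (579452) * hζ.toInteger ^ 13 + (829691) * hζ.toInteger ^ 14 + (959388) * hζ.toInteger ^ 15 + (961242) * hζ.toInteger ^ 16 + (858496) * hζ.toInteger ^ 17 + (692365) * hζ.toInteger ^ 18 + (506994) * hζ.toInteger ^ 19 + (337407) * hζ.toInteger ^ 20 + (203577) * hζ.toInteger ^ 21 + (110743) * hζ.toInteger ^ 22 + (53831) * hζ.toInteger ^ 23 + (23075) * hζ.toInteger ^ 24 + (8557) * hζ.toInteger ^ 25 + (2669) * hζ.toInteger ^ 26 + (671) * hζ.toInteger ^ 27 + (127) * hζ.toInteger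 ^ 28 + (16) * hζ.toInteger ^ 29 + (1) * hζ.toInteger ^ 30) * sum_zeta_eleven hζ

theorem zeta_level : (hζ.toInteger - 1) ^ (0 + 2) ∣
    ((zetaU hζ : (𝓞 K)ˣ) : 𝓞 K) - ((1 : ℤ) : 𝓞 K) - ((1 : ℤ) : 𝓞 K) * (hζ.toInteger - 1) ^ (0 + 1) := by
  refine ⟨0, ?_⟩
  simp

end Fermat.Agent.S11.Ech

end
-- ===== PACK-END S11/EchUnits11.lean

-- ===== PACK-BEGIN S11/EchKummer11.lean
section




/-!
# Kummer's lemma for `p = 11` (echelon method)

Every unit of `ℤ[ζ₁₁]` congruent to a rational integer modulo `11` is an `11`-th power.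
-/

set_option autoImplicit false
set_option linter.unusedSectionVars false

open NumberField

namespace Fermat.Agent.S11.Ech

theorem fact_prime_eleven : Fact (Nat.Prime 11) := ⟨by norm_num⟩

attribute [local instance] fact_prime_eleven

variable {K : Type*} [Field K] [NumberField K] [IsCyclotomicExtension {11} ℚ K]
  {ζ : K} (hζ : IsPrimitiveRoot ζ 11)

theorem intMod_of_level {j : ℕ} {g : 𝓞 K} {a b : ℤ}
    (hg : (hζ.toInteger - 1) ^ (j + 2) ∣ g - a - b * (hζ.toInteger - 1) ^ (j + 1)) :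
    IntMod hζ (j + 1) g := by
  obtain ⟨q, hq⟩ := hg
  refine ⟨a, b + (hζ.toInteger - 1) * q, ?_⟩
  linear_combination hq

theorem intMod_zpow_of_dvd {k : ℕ} (hk : k ≤ 10) (g : (𝓞 K)ˣ) {n : ℤ} (hn : (11 : ℤ) ∣ n) :
    IntMod hζ k ((g ^ n : (𝓞 K)ˣ) : 𝓞 K) := by
  obtain ⟨c, rfl⟩ := hn
  have : (g ^ ((11 : ℤ) * c) : (𝓞 K)ˣ) = (g ^ c) ^ 11 := by
    rw [mul_comm, zpow_mul]
    norm_cast
  rw [this, Units.val_pow_eq_pow_val]
  exact IntMod.pow_p (p := 11) hζ (by simpa using hk) _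

/-- The submonoid of units congruent to a rational integer modulo `11`. -/
def intUnits (K : Type*) [Field K] [NumberField K] : Submonoid (𝓞 K)ˣ where
  carrier := {u | ∃ N : ℤ, (11 : 𝓞 K) ∣ (u : 𝓞 K) - N}
  one_mem' := ⟨1, by simp⟩
  mul_mem' := by
    rintro x y ⟨N, s, hs⟩ ⟨M, t, ht⟩
    refine ⟨N * M, s * y + N * t, ?_⟩
    push_cast
    linear_combination (y : 𝓞 K) * hs + (N : 𝓞 K) * ht

theorem mem_intUnits {u : (𝓞 K)ˣ} :
    u ∈ intUnits K ↔ ∃ N : ℤ, (11 : 𝓞 K) ∣ (u : 𝓞 K) - N := Iff.rfl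

include hζ in
theorem pow_mem_intUnits (x : (𝓞 K)ˣ) : x ^ 11 ∈ intUnits K := by
  obtain ⟨n, hn⟩ := exists_int_sub_pow_prime_dvd (p := 11) hζ (x : 𝓞 K)
  exact ⟨n, by simpa using hn⟩

theorem intMod_ten_of_mem {u : (𝓞 K)ˣ} (hu : u ∈ intUnits K) : IntMod hζ 10 (u : 𝓞 K) := by
  obtain ⟨N, hN⟩ := hu
  have := intMod_of_p_dvd (p := 11) hζ (x := (u : 𝓞 K)) ⟨N, by simpa using hN⟩
  simpa using this

/-- The five echelon units are independent modulo units congruent to integers. -/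
theorem echelon_independent (n0 n1 n2 n3 n4 : ℤ)
    (h : zetaU hζ ^ n0 * ech2 hζ ^ n1 * ech4 hζ ^ n2 * ech6 hζ ^ n3 * ech8 hζ ^ n4 ∈ intUnits K) :
    (11 : ℤ) ∣ n0 ∧ (11 : ℤ) ∣ n1 ∧ (11 : ℤ) ∣ n2 ∧ (11 : ℤ) ∣ n3 ∧ (11 : ℤ) ∣ n4 := by
  have h10 := intMod_ten_of_mem hζ h
  have i2 : IntMod hζ 2 ((ech2 hζ : (𝓞 K)ˣ) : 𝓞 K) := intMod_of_level hζ (ech2_level hζ)
  have i4 : IntMod hζ 4 ((ech4 hζ : (𝓞 K)ˣ) : 𝓞 K) := intMod_of_level hζ (ech4_level hζ)
  have i6 : IntMod hζ 6 ((ech6 hζ : (𝓞 K)ˣ) : 𝓞 K) := intMod_of_level hζ (ech6_level hζ)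
  have i8 : IntMod hζ 8 ((ech8 hζ : (𝓞 K)ˣ) : 𝓞 K) := intMod_of_level hζ (ech8_level hζ)
  have zp : ∀ {k : ℕ} (_ : k ≤ 10) {l : ℕ} (_ : k ≤ l) {u : (𝓞 K)ˣ} (_ : IntMod hζ l (u : 𝓞 K))
      (n : ℤ), IntMod hζ k ((u ^ n : (𝓞 K)ˣ) : 𝓞 K) := fun hk _ hkl _ hu n =>
    IntMod.unit_zpow (p := 11) hζ (by simpa using hk) (hu.mono hζ hkl) n
  -- step A
  have hn0 : (11 : ℤ) ∣ n0 := by
    refine step_int (p := 11) hζ (j := 0) (by norm_num) (zeta_level hζ) (by norm_num)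
      (R := ech2 hζ ^ n1 * ech4 hζ ^ n2 * ech6 hζ ^ n3 * ech8 hζ ^ n4) ?_ n0 ?_
    · simp only [Units.val_mul]
      exact (((zp (by norm_num) (by norm_num) i2 n1).mul hζ
        (zp (by norm_num) (by norm_num) i4 n2)).mul hζ
        (zp (by norm_num) (by norm_num) i6 n3)).mul hζ
        (zp (by norm_num) (by norm_num) i8 n4)
    · have : zetaU hζ ^ n0 * (ech2 hζ ^ n1 * ech4 hζ ^ n2 * ech6 hζ ^ n3 * ech8 hζ ^ n4)
          = zetaU hζ ^ n0 * ech2 hζ ^ n1 * ech4 hζ ^ n2 * ech6 hζ ^ n3 * ech8 hζ ^ n4 := by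
        simp only [mul_assoc]
      rw [this]
      exact h10.mono hζ (by norm_num)
  have p0 : ∀ {k : ℕ} (_ : k ≤ 10), IntMod hζ k ((zetaU hζ ^ n0 : (𝓞 K)ˣ) : 𝓞 K) :=
    fun hk => intMod_zpow_of_dvd hζ hk _ hn0
  -- step B
  have hn1 : (11 : ℤ) ∣ n1 := by
    refine step_int (p := 11) hζ (j := 1) (by norm_num) (ech2_level hζ) (by norm_num)
      (R := zetaU hζ ^ n0 * ech4 hζ ^ n2 * ech6 hζ ^ n3 * ech8 hζ ^ n4) ?_ n1 ?_
    · simp only [Units.val_mul]
      exact (((p0 (by norm_num)).mul hζ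
        (zp (by norm_num) (by norm_num) i4 n2)).mul hζ
        (zp (by norm_num) (by norm_num) i6 n3)).mul hζ
        (zp (by norm_num) (by norm_num) i8 n4)
    · have : ech2 hζ ^ n1 * (zetaU hζ ^ n0 * ech4 hζ ^ n2 * ech6 hζ ^ n3 * ech8 hζ ^ n4)
          = zetaU hζ ^ n0 * ech2 hζ ^ n1 * ech4 hζ ^ n2 * ech6 hζ ^ n3 * ech8 hζ ^ n4 := by
        simp only [mul_assoc, mul_left_comm, mul_comm]
      rw [this]
      exact h10.mono hζ (by norm_num)
  have p1 : ∀ {k : ℕ} (_ : k ≤ 10), IntMod hζ k ((ech2 hζ ^ n1 : (𝓞 K)ˣ) : 𝓞 K) :=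
    fun hk => intMod_zpow_of_dvd hζ hk _ hn1
  -- step C
  have hn2 : (11 : ℤ) ∣ n2 := by
    refine step_int (p := 11) hζ (j := 3) (by norm_num) (ech4_level hζ) (by norm_num)
      (R := zetaU hζ ^ n0 * ech2 hζ ^ n1 * ech6 hζ ^ n3 * ech8 hζ ^ n4) ?_ n2 ?_
    · simp only [Units.val_mul]
      exact (((p0 (by norm_num)).mul hζ
        (p1 (by norm_num))).mul hζ
        (zp (by norm_num) (by norm_num) i6 n3)).mul hζ
        (zp (by norm_num) (by norm_num) i8 n4)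
    · have : ech4 hζ ^ n2 * (zetaU hζ ^ n0 * ech2 hζ ^ n1 * ech6 hζ ^ n3 * ech8 hζ ^ n4)
          = zetaU hζ ^ n0 * ech2 hζ ^ n1 * ech4 hζ ^ n2 * ech6 hζ ^ n3 * ech8 hζ ^ n4 := by
        simp only [mul_assoc, mul_left_comm, mul_comm]
      rw [this]
      exact h10.mono hζ (by norm_num)
  have p2 : ∀ {k : ℕ} (_ : k ≤ 10), IntMod hζ k ((ech4 hζ ^ n2 : (𝓞 K)ˣ) : 𝓞 K) :=
    fun hk => intMod_zpow_of_dvd hζ hk _ hn2
  -- step D
  have hn3 : (11 : ℤ) ∣ n3 := by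
    refine step_int (p := 11) hζ (j := 5) (by norm_num) (ech6_level hζ) (by norm_num)
      (R := zetaU hζ ^ n0 * ech2 hζ ^ n1 * ech4 hζ ^ n2 * ech8 hζ ^ n4) ?_ n3 ?_
    · simp only [Units.val_mul]
      exact (((p0 (by norm_num)).mul hζ
        (p1 (by norm_num))).mul hζ
        (p2 (by norm_num))).mul hζ
        (zp (by norm_num) (by norm_num) i8 n4)
    · have : ech6 hζ ^ n3 * (zetaU hζ ^ n0 * ech2 hζ ^ n1 * ech4 hζ ^ n2 * ech8 hζ ^ n4)
          = zetaU hζ ^ n0 * ech2 hζ ^ n1 * ech4 hζ ^ n2 * ech6 hζ ^ n3 * ech8 hζ ^ n4 := by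
        simp only [mul_assoc, mul_left_comm, mul_comm]
      rw [this]
      exact h10.mono hζ (by norm_num)
  have p3 : ∀ {k : ℕ} (_ : k ≤ 10), IntMod hζ k ((ech6 hζ ^ n3 : (𝓞 K)ˣ) : 𝓞 K) :=
    fun hk => intMod_zpow_of_dvd hζ hk _ hn3
  -- step E
  have hn4 : (11 : ℤ) ∣ n4 := by
    refine step_int (p := 11) hζ (j := 7) (by norm_num) (ech8_level hζ) (by norm_num)
      (R := zetaU hζ ^ n0 * ech2 hζ ^ n1 * ech4 hζ ^ n2 * ech6 hζ ^ n3) ?_ n4 ?_
    · simp only [Units.val_mul]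
      exact (((p0 (by norm_num)).mul hζ
        (p1 (by norm_num))).mul hζ
        (p2 (by norm_num))).mul hζ
        (p3 (by norm_num))
    · have : ech8 hζ ^ n4 * (zetaU hζ ^ n0 * ech2 hζ ^ n1 * ech4 hζ ^ n2 * ech6 hζ ^ n3)
          = zetaU hζ ^ n0 * ech2 hζ ^ n1 * ech4 hζ ^ n2 * ech6 hζ ^ n3 * ech8 hζ ^ n4 := by
        simp only [mul_assoc, mul_left_comm, mul_comm]
      rw [this]
      exact h10.mono hζ (by norm_num)
  exact ⟨hn0, hn1, hn2, hn3, hn4⟩

/-- **Kummer's lemma for `p = 11`.** -/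
theorem kummer_lemma_eleven' (u : (𝓞 K)ˣ) (h : ∃ n : ℤ, (11 : 𝓞 K) ∣ (u : 𝓞 K) - n) :
    ∃ v : (𝓞 K)ˣ, u = v ^ 11 := by
  have hζ := IsCyclotomicExtension.zeta_spec 11 ℚ K
  obtain ⟨gens, hgens⟩ := units_generated K
  refine exists_pow_eq_of_counting 11 (ι := Option (Fin (Units.rank K))) (κ := Fin 5)
    (by rw [card_option_rank_eleven K]; simp) gens hgens (intUnits K) (pow_mem_intUnits hζ)
    ![zetaU hζ, ech2 hζ, ech4 hζ, ech6 hζ, ech8 hζ] ?_ u h
  intro n hn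
  rw [Fin.prod_univ_five] at hn
  simp only [Matrix.cons_val_zero, Matrix.cons_val_one, Matrix.cons_val] at hn
  obtain ⟨h0, h1, h2, h3, h4⟩ := echelon_independent hζ _ _ _ _ _ hn
  intro i
  fin_cases i <;> simpa

end Fermat.Agent.S11.Ech

end
-- ===== PACK-END S11/EchKummer11.lean

-- ===== PACK-BEGIN S11/Kummer11.lean
section


/-!
# Kummer's lemma for `p = 11` — public interface
-/

set_option autoImplicit false

open NumberField

namespace Fermat.Agent.S11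

/-- **Kummer's lemma for `p = 11`**: a unit of `ℤ[ζ₁₁]` congruent to a rational integer
modulo `11` is an `11`-th power. -/
theorem kummer_lemma_eleven (K : Type*) [Field K] [NumberField K]
    [IsCyclotomicExtension {11} ℚ K] (u : (𝓞 K)ˣ)
    (h : ∃ m : ℤ, (11 : 𝓞 K) ∣ (u : 𝓞 K) - (m : 𝓞 K)) :
    ∃ v : (𝓞 K)ˣ, u = v ^ 11 :=
  Ech.kummer_lemma_eleven' u h

end Fermat.Agent.S11

end
-- ===== PACK-END S11/Kummer11.lean

-- ===== PACK-BEGIN S11/FLT11.lean
section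







/-!
# Fermat's Last Theorem for exponent 11 (Kummer; class number one)
-/

set_option autoImplicit false

namespace Fermat.Agent.S11

open NumberField

set_option backward.isDefEq.respectTransparency false in
/-- Fermat's Last Theorem for exponent `11` (Kummer). -/
theorem flt_eleven : FermatLastTheoremFor 11 := by
  haveI : Fact (Nat.Prime 11) := ⟨by norm_num⟩
  haveI hcyc : IsCyclotomicExtension {11} ℚ (CyclotomicField 11 ℚ) :=
    CyclotomicField.isCyclotomicExtension 11 ℚ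
  haveI : NumberField (CyclotomicField 11 ℚ) := IsCyclotomicExtension.numberField {11} ℚ _
  have hζ := IsCyclotomicExtension.zeta_spec 11 ℚ (CyclotomicField 11 ℚ)
  haveI : IsPrincipalIdealRing (𝓞 (CyclotomicField 11 ℚ)) :=
    H791.eleven_pid (CyclotomicField 11 ℚ)
  refine GlueZ.flt_of_caseI_of_caseII (p := 11) (by norm_num) (by decide)
    (fun a b c hab h => caseI_eleven hab h) ?_
  refine GlueBridge.caseII_int_of_gen (p := 11) hζ ?_
  intro a b c u hc ha hb hcdvd hab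
  exact CaseII.caseII_gen hζ (by norm_num)
    (fun u hu => kummer_lemma_eleven (CyclotomicField 11 ℚ) u (by simpa using hu))
    a b c u hc ha hb hcdvd hab

end Fermat.Agent.S11

end
-- ===== PACK-END S11/FLT11.lean

-- ===== PACK-BEGIN S11.lean
section



set_option autoImplicit false
open WeierstrassCurve WeierstrassCurve.Affine WeierstrassCurve.Affine.Point
open CuspForm ModularFormClass UpperHalfPlane
open FreyPackage

namespace Fermat.Agent.S11

theorem result (P : FreyPackage) (hp : P.p = 11) : ¬ HasGaloisStableCofixedLine (K := AlgebraicClosure ℚ) ℚ P.freyCurve P.p := by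
  intro _
  have h := P.hFLT
  rw [hp] at h
  exact (fermatLastTheoremFor_iff_int.mp Fermat.Agent.S11.flt_eleven) P.a P.b P.c
    P.ha0 P.hb0 P.hc0 h

end Fermat.Agent.S11

end
-- ===== PACK-END S11.lean

-- ===== PACK-BEGIN S09/H182/Glue.lean
section





/-!
# S09 glue (helper182)

`S09` (Mazur: the mod-`p` representation of the Frey curve is irreducible) from the landed
`S10`, `S11`, `S13` and the statement of `S12` as the only hypothesis.
-/

set_option autoImplicit false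
open WeierstrassCurve WeierstrassCurve.Affine WeierstrassCurve.Affine.Point
open FreyPackage

namespace Fermat.Agent.S09.H182

/-- A prime `p ≥ 5` below `17` is one of `5, 7, 11, 13`. -/
theorem prime_cases_lt_seventeen {p : ℕ} (hp : p.Prime) (h5 : 5 ≤ p) (h17 : p < 17) :
    p = 5 ∨ p = 7 ∨ p = 11 ∨ p = 13 := by
  interval_cases p <;> first | omega | (exfalso; revert hp; decide)

/-- `S09` from the statement of `S12` (everything else is on main). -/
theorem result_of_S12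
    (h12 : ∀ P : FreyPackage, 17 ≤ P.p →
      ¬ HasGaloisStableCofixedLine (K := AlgebraicClosure ℚ) ℚ P.freyCurve P.p)
    (P : FreyPackage) :
    GaloisRepIsIrreducible (K := AlgebraicClosure ℚ) ℚ P.freyCurve P.p := by
  by_contra hred
  have hline := Fermat.Agent.S13.result P hred
  by_cases h17 : 17 ≤ P.p
  · exact h12 P h17 hline
  · rcases prime_cases_lt_seventeen P.pp P.hp5 (Nat.lt_of_not_le h17) with h | h | h | h
    · exact Fermat.Agent.S10.result P (Or.inl h) hline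
    · exact Fermat.Agent.S10.result P (Or.inr (Or.inl h)) hline
    · exact Fermat.Agent.S11.result P h hline
    · exact Fermat.Agent.S10.result P (Or.inr (Or.inr h)) hline

end Fermat.Agent.S09.H182

end
-- ===== PACK-END S09/H182/Glue.lean

-- ===== PACK-BEGIN S09/H975/Top09.lean
section



/-!
# Row S09: the PLAIN TOP (row-lead helper975)

`S09_top` is the frozen statement S09 (Mazur: the mod-`p` representation of the Frey curve is
irreducible), unconditional: helper182's glue `S09.H182.result_of_S12` (landed S10, S11, S13)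
with `S12.H975.S12_top`.
-/

set_option autoImplicit false

noncomputable section

open WeierstrassCurve WeierstrassCurve.Affine WeierstrassCurve.Affine.Point
open FreyPackage

namespace Fermat.Agent.S09.H975

/-- **The frozen statement S09**, unconditional. -/
theorem S09_top (P : FreyPackage) :
    GaloisRepIsIrreducible (K := AlgebraicClosure ℚ) ℚ P.freyCurve P.p :=
  Fermat.Agent.S09.H182.result_of_S12 Fermat.Agent.S12.H975.S12_top P

end Fermat.Agent.S09.H975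

end

end
-- ===== PACK-END S09/H975/Top09.lean

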